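import Mathlib
import Fermat.Prelude.Def_ModularCurve_HeckeOperatorTotal
import Fermat.Prelude.Def_ModularCurve_X0ModL

/-!
# T4 block (I): the function field of `X₁(M)` and its Jacobian — DEFINITIONS (helper32)

Everything is modelled on the Prelude's treatment of `X₀(N)` (`modularFunctionFieldFull`,
`heckeAlphaBar`, `heckeBetaBar`, `heckeOperatorAlong`, `JZero`), so that the Prelude's generic
API (`laurentBaseChange`, `arithmeticGalois`, `Pic0`, `Divisor.correspondence`, `SemilinearAut`)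
applies verbatim.

## The generators

For `a : ZMod M` put `P_a = ∑_{m, k ≥ 1, k ≡ ± a (M)} m q^{k m} ∈ ℤ[[q]]` (`wpSer M a`).
For `a ≠ 0`, `1/12 - 2 ∑ σ(n) q^{M n} + P_a` is the `q`-expansion of `℘(a τ) / (2 π i)²` for the
lattice `⟨1, M τ⟩`; the differences `P_a - P_b` are weight-two Eisenstein series on `Γ₁(M)`.

`s_a = (P_a - P_1) / (P_2 - P_1) ∈ ℤ[[q]]` (`sInt M a`; `M ≥ 5`): the `x`-coordinate of `a P` in
the affine coordinate of the `x`-line with `x(P) = 0`, `x(2P) = 1`, for the pair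
`(E, P) = (ℂ / ⟨1, M τ⟩, τ)`.  `s_a` depends only on `± a`; `s_1 = 0`, `s_2 = 1`.

## The fields

* `F1Q M = FF_ℚ(M)(s_a : a ≠ 0) ⊆ ℚ((q))`, `F1 M` its base change to `ℚ̄`, `J1 M = Pic⁰`.
* `F1Qp M p = F1Q M · FF_ℚ(M p) · (F1Q M)(q^p)`, with `alpha1` (inclusion) and `beta1`
  (`q ↦ q^p`): the function field of `X₁(M) ×_{X₀(M)} X₀(M p)`, i.e. of triples `(E, P, C)`;
  `alpha1 = a^*`, `a (E, P, C) = (E, P)`; `beta1 = b^*`, `b (E, P, C) = (E / C, P mod C)`.
* `F1C K M` : the same generators over an arbitrary field `K` (special fibres).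

## The operators on `J1 M`

* `hecke1 M p = b_* a^*` (the STANDARD `T_p`: `(E, P) ↦ ∑_C (E / C, P mod C)`), and its
  transpose `hecke1t M p = a_* b^*` (this is the order used by the Prelude for `X₀`).
* `diamondAut M d` : the automorphism `δ_d^*` of `F1 M` over `FF M`, `s_a ↦
  (s_{d a} - s_d) / (s_{2 d} - s_d)`; `diamond1 M d = (δ_d)_*` on `J1 M`
  (`δ_d (E, P) = (E, d P)`), i.e. the action of `(diamondAut M d)⁻¹` on places.
* Eichler-Shimura in this normalisation: `φ² - T_p φ + p ⟨p⟩ = 0` with `T_p = hecke1 M p`,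
  `⟨p⟩ = diamond1 M p` (Diamond-Shurman 8.7.2: `T_p = Frob_* + ⟨p⟩_* Frob^*`).
-/

set_option autoImplicit false

noncomputable section

open HahnSeries IntermediateField AlgebraicCurve ModularCurve

namespace Fermat.Agent.T4.helper32

/-! ### The series -/

/-- the coefficient of `q^e` in `P_a = ∑_{m, k ≥ 1, k ≡ ± a (M)} m q^{k m}` -/
def wpCoeff (M : ℕ) (a : ZMod M) (e : ℕ) : ℤ :=
  ∑ m ∈ e.divisors, (m : ℤ) *
    ((if ((e / m : ℕ) : ZMod M) = a then 1 else 0) +
      (if ((e / m : ℕ) : ZMod M) = -a then 1 else 0))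

/-- `P_a ∈ ℤ[[q]]` -/
def wpSer (M : ℕ) (a : ZMod M) : PowerSeries ℤ := PowerSeries.mk (wpCoeff M a)

/-- `(P_a - P_b) / q ∈ ℤ[[q]]` -/
def wpDiff (M : ℕ) (a b : ZMod M) : PowerSeries ℤ :=
  PowerSeries.mk fun n => wpCoeff M a (n + 1) - wpCoeff M b (n + 1)

/-- `s_a = (P_a - P_1) / (P_2 - P_1) ∈ ℤ[[q]]` (the constant coefficient of `(P_2 - P_1) / q`
is `-1` for `M ≥ 5`). -/
def sInt (M : ℕ) (a : ZMod M) : PowerSeries ℤ :=
  wpDiff M a 1 * (wpDiff M 2 1).invOfUnit (-1)

/-- `s_a` as a Laurent series over a commutative ring `C` -/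
def sSer (C : Type*) [CommRing C] (M : ℕ) (a : ZMod M) : LaurentSeries C :=
  HahnSeries.ofPowerSeries ℤ C ((sInt M a).map (Int.castRingHom C))

/-! ### The fields -/

/-- the generators `s_a`, `a ≠ 0` -/
def sGens (C : Type*) [CommRing C] (M : ℕ) : Set (LaurentSeries C) :=
  {x | ∃ a : ZMod M, a ≠ 0 ∧ x = sSer C M a}

/-- the function field of `X₁(M)` over `ℚ`, inside `ℚ((q))` -/
def F1Q (M : ℕ) : IntermediateField ℚ (LaurentSeries ℚ) :=
  IntermediateField.adjoin ℚ (divisorExpansions M ∪ sGens ℚ M)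

/-- the function field of the curve of triples `(E, P, C)`, `C` of order `p`, over `ℚ` -/
def F1Qp (M p : ℕ) [NeZero p] : IntermediateField ℚ (LaurentSeries ℚ) :=
  IntermediateField.adjoin ℚ
    (divisorExpansions (M * p) ∪ sGens ℚ M ∪ (qExpand ℚ p '' sGens ℚ M))

/-- the same generators over an arbitrary field (special fibres) -/
def F1C (K : Type*) [Field K] (M : ℕ) : IntermediateField K (LaurentSeries K) :=
  IntermediateField.adjoin K
    ({x | ∃ (d : ℕ) (_ : NeZero d), d ∣ M ∧ x = qExpand K d (jqModC K)} ∪ sGens K M)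

/-- the special fibre of the curve of triples -/
def F1Cp (K : Type*) [Field K] (M p : ℕ) [NeZero p] : IntermediateField K (LaurentSeries K) :=
  IntermediateField.adjoin K
    ({x | ∃ (d : ℕ) (_ : NeZero d), d ∣ M * p ∧ x = qExpand K d (jqModC K)} ∪ sGens K M ∪
      (qExpand K p '' sGens K M))

theorem F1Q_le_F1Qp (M p : ℕ) [NeZero p] : F1Q M ≤ F1Qp M p := by
  rw [F1Q, adjoin_le_iff]
  rintro x (⟨d, hne, hdvd, rfl⟩ | hx)
  · exact subset_adjoin ℚ _ (Or.inl (Or.inl ⟨d, hne, hdvd.trans (dvd_mul_right M p), rfl⟩))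
  · exact subset_adjoin ℚ _ (Or.inl (Or.inr hx))

theorem qExpand_mem_F1Qp (M p : ℕ) [NeZero p] {y : LaurentSeries ℚ} (hy : y ∈ F1Q M) :
    qExpand ℚ p y ∈ F1Qp M p := by
  have h : (F1Q M).map (qExpandₐ p) ≤ F1Qp M p := by
    rw [F1Q, adjoin_map, adjoin_le_iff]
    rintro x ⟨y, (⟨d, hne, hdvd, rfl⟩ | hy), rfl⟩
    · haveI := hne
      haveI : NeZero (p * d) := ⟨Nat.mul_ne_zero (NeZero.ne p) (NeZero.ne d)⟩
      show qExpandₐ p (qExpand ℚ d jq) ∈ _
      rw [qExpandₐ_apply, qExpand_qExpand]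
      exact subset_adjoin ℚ _ (Or.inl (Or.inl ⟨p * d, inferInstance,
        (mul_dvd_mul_left p hdvd).trans (dvd_of_eq (mul_comm p M)), rfl⟩))
    · exact subset_adjoin ℚ _ (Or.inr ⟨y, hy, rfl⟩)
  exact h ⟨y, hy, rfl⟩

section BaseChange

variable (L : Type*) [Field L] [Algebra ℚ L]

theorem laurentBaseChange_mono {F₀ F₁ : IntermediateField ℚ (LaurentSeries ℚ)}
    (h : F₀ ≤ F₁) : laurentBaseChange L F₀ ≤ laurentBaseChange L F₁ := by
  rw [laurentBaseChange, IntermediateField.adjoin_le_iff]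
  rintro _ ⟨y, hy, rfl⟩
  exact coeffEmb_mem_laurentBaseChange L (h hy)

theorem coeffEmb_qExpand (n : ℕ) [NeZero n] (x : LaurentSeries ℚ) :
    coeffEmb L (qExpand ℚ n x) = qExpand L n (coeffEmb L x) :=
  coeffMap_qExpand _ n x

variable {L} in
theorem qExpand_mem_laurentBaseChange {F₀ : IntermediateField ℚ (LaurentSeries ℚ)} (n : ℕ)
    [NeZero n] {F₁ : IntermediateField ℚ (LaurentSeries ℚ)} (hF : ∀ y ∈ F₀, qExpand ℚ n y ∈ F₁)
    {x : LaurentSeries L} (hx : x ∈ laurentBaseChange L F₀) :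
    qExpand L n x ∈ laurentBaseChange L F₁ := by
  rw [mem_laurentBaseChange_iff] at hx
  induction hx using Subfield.closure_induction with
  | mem y hy =>
      rcases hy with ⟨a, rfl⟩ | ⟨z, hz, rfl⟩
      · rw [algebraMap_laurentSeries_eq_single, qExpand_single, mul_zero,
          ← algebraMap_laurentSeries_eq_single]
        exact (laurentBaseChange L F₁).algebraMap_mem _
      · rw [← coeffEmb_qExpand]
        exact coeffEmb_mem_laurentBaseChange L (hF z hz)
  | one => simp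
  | add x y _ _ hx hy => simpa using add_mem hx hy
  | neg x _ hx => simpa using neg_mem hx
  | inv x _ hx => simpa using inv_mem hx
  | mul x y _ _ hx hy => simpa using mul_mem hx hy

/-- `a^*` : functions of `(E, P)` as functions of `(E, P, C)` -/
def alpha1 (M p : ℕ) [NeZero p] :
    laurentBaseChange L (F1Q M) →ₐ[L] laurentBaseChange L (F1Qp M p) :=
  IntermediateField.inclusion (laurentBaseChange_mono L (F1Q_le_F1Qp M p))

@[simp]
theorem coe_alpha1 (M p : ℕ) [NeZero p] (x : laurentBaseChange L (F1Q M)) :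
    (alpha1 L M p x : LaurentSeries L) = (x : LaurentSeries L) :=
  IntermediateField.coe_inclusion _ x

/-- `b^*` as a ring homomorphism: `f(q) ↦ f(q^p)` -/
def beta1RingHom (M p : ℕ) [NeZero p] :
    laurentBaseChange L (F1Q M) →+* laurentBaseChange L (F1Qp M p) where
  toFun x := ⟨qExpand L p (x : LaurentSeries L),
    qExpand_mem_laurentBaseChange p (fun _ hy => qExpand_mem_F1Qp M p hy) x.2⟩
  map_one' := Subtype.ext (map_one (qExpand L p))
  map_mul' _ _ := Subtype.ext (map_mul (qExpand L p) _ _)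
  map_zero' := Subtype.ext (map_zero (qExpand L p))
  map_add' _ _ := Subtype.ext (map_add (qExpand L p) _ _)

/-- `b^*` : `f(q) ↦ f(q^p)`, `b (E, P, C) = (E / C, P mod C)` -/
def beta1 (M p : ℕ) [NeZero p] :
    laurentBaseChange L (F1Q M) →ₐ[L] laurentBaseChange L (F1Qp M p) :=
  { beta1RingHom L M p with
    commutes' := fun a => Subtype.ext <| by
      show qExpand L p (algebraMap L (LaurentSeries L) a) = algebraMap L (LaurentSeries L) a
      rw [algebraMap_laurentSeries_eq_single, qExpand_single, mul_zero] }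

@[simp]
theorem coe_beta1 (M p : ℕ) [NeZero p] (x : laurentBaseChange L (F1Q M)) :
    (beta1 L M p x : LaurentSeries L) = qExpand L p (x : LaurentSeries L) :=
  rfl

/-- the inputs needed to define `T_p = b_* a^*` on `Pic⁰` -/
def Hecke1Inputs (M p : ℕ) [NeZero p] : Prop :=
  ∃ (hα : (alpha1 L M p).toRingHom.IsIntegral) (_ : (beta1 L M p).toRingHom.IsIntegral)
    (_ : HasPrincipalDivisors L (laurentBaseChange L (F1Qp M p)))
    (hfin : FiniteAlong L (beta1 L M p)),
    FundamentalIdentityAlong L (alpha1 L M p) hα ∧ NormFormulaAlong L (beta1 L M p) hfin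

/-- the inputs needed to define the transpose `a_* b^*` on `Pic⁰` -/
def Hecke1tInputs (M p : ℕ) [NeZero p] : Prop :=
  ∃ (_ : (alpha1 L M p).toRingHom.IsIntegral) (hβ : (beta1 L M p).toRingHom.IsIntegral)
    (_ : HasPrincipalDivisors L (laurentBaseChange L (F1Qp M p)))
    (hfin : FiniteAlong L (alpha1 L M p)),
    FundamentalIdentityAlong L (beta1 L M p) hβ ∧ NormFormulaAlong L (alpha1 L M p) hfin

open Classical in
/-- `T_p = b_* a^*` on `Pic⁰` of the function field of `X₁(M)` over `L` (`0` if the inputs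
fail) -/
def hecke1Along (M p : ℕ) [NeZero p] :
    Pic0 L (laurentBaseChange L (F1Q M)) →+ Pic0 L (laurentBaseChange L (F1Q M)) :=
  if h : Hecke1Inputs L M p then
    haveI := h.snd.snd.fst
    Pic0.correspondence (alpha1 L M p) (beta1 L M p) h.fst h.snd.fst h.snd.snd.snd.snd.1
      h.snd.snd.snd.fst h.snd.snd.snd.snd.2
  else 0

open Classical in
/-- the transpose `a_* b^*` of `T_p` -/
def hecke1tAlong (M p : ℕ) [NeZero p] :
    Pic0 L (laurentBaseChange L (F1Q M)) →+ Pic0 L (laurentBaseChange L (F1Q M)) :=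
  if h : Hecke1tInputs L M p then
    haveI := h.snd.snd.fst
    Pic0.correspondence (beta1 L M p) (alpha1 L M p) h.snd.fst h.fst h.snd.snd.snd.snd.1
      h.snd.snd.snd.fst h.snd.snd.snd.snd.2
  else 0

end BaseChange

/-! ### The Jacobian over `ℚ̄` -/

/-- `ℚ̄` -/
abbrev Kbar : Type := AlgebraicClosure ℚ

/-- the function field of `X₁(M)` over `ℚ̄` -/
abbrev F1 (M : ℕ) : IntermediateField Kbar (LaurentSeries Kbar) :=
  laurentBaseChange Kbar (F1Q M)

/-- the function field of the curve of triples over `ℚ̄` -/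
abbrev F1p (M p : ℕ) [NeZero p] : IntermediateField Kbar (LaurentSeries Kbar) :=
  laurentBaseChange Kbar (F1Qp M p)

/-- `J₁(M)(ℚ̄)`, with the Galois action of the Prelude (coefficientwise on `q`-expansions) -/
abbrev J1 (M : ℕ) : Type _ := Pic0 Kbar (F1 M)

example (M : ℕ) : DistribMulAction (Kbar ≃ₐ[ℚ] Kbar) (J1 M) := inferInstance

/-- the `X₀`-part of `F1 M` -/
theorem FF_le_F1 (M : ℕ) :
    laurentBaseChange Kbar (modularFunctionFieldFull M) ≤ F1 M :=
  laurentBaseChange_mono Kbar (by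
    rw [modularFunctionFieldFull, F1Q]
    exact IntermediateField.adjoin.mono ℚ _ _ Set.subset_union_left)

/-- `s_a` as an element of `F1 M` -/
def sEl (M : ℕ) (a : ZMod M) (ha : a ≠ 0) : F1 M :=
  ⟨coeffEmb Kbar (sSer ℚ M a),
    coeffEmb_mem_laurentBaseChange Kbar (subset_adjoin ℚ _ (Or.inr ⟨a, ha, rfl⟩))⟩

/-- the standard Hecke operator `T_p = b_* a^*` on `J₁(M)` -/
def hecke1 (M : ℕ) (p : Nat.Primes) : Module.End ℤ (J1 M) :=
  haveI : NeZero (p : ℕ) := ⟨p.2.ne_zero⟩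
  (hecke1Along Kbar M p).toIntLinearMap

/-- the transposed Hecke operator `a_* b^*` on `J₁(M)` -/
def hecke1t (M : ℕ) (p : Nat.Primes) : Module.End ℤ (J1 M) :=
  haveI : NeZero (p : ℕ) := ⟨p.2.ne_zero⟩
  (hecke1tAlong Kbar M p).toIntLinearMap

/-- `σ` is the automorphism `δ_d^*` of `F1 M`: it fixes the `X₀`-part and maps `s_a` to
`(s_{d a} - s_d) / (s_{2 d} - s_d)`. -/
def IsDiamondAut (M : ℕ) (d : (ZMod M)ˣ) (σ : F1 M ≃ₐ[Kbar] F1 M) : Prop :=
  (∀ x : F1 M, (x : LaurentSeries Kbar) ∈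
      laurentBaseChange Kbar (modularFunctionFieldFull M) → σ x = x) ∧
    ∀ (a : ZMod M) (ha : a ≠ 0),
      (σ (sEl M a ha) : LaurentSeries Kbar) =
        (coeffEmb Kbar (sSer ℚ M ((d : ZMod M) * a)) - coeffEmb Kbar (sSer ℚ M (d : ZMod M))) /
          (coeffEmb Kbar (sSer ℚ M ((d : ZMod M) * 2)) - coeffEmb Kbar (sSer ℚ M (d : ZMod M)))

open Classical in
/-- the automorphism `δ_d^*` of `F1 M` (the identity if it does not exist) -/
def diamondAut (M : ℕ) (d : (ZMod M)ˣ) : F1 M ≃ₐ[Kbar] F1 M :=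
  if h : ∃ σ : F1 M ≃ₐ[Kbar] F1 M, IsDiamondAut M d σ then h.choose else AlgEquiv.refl

/-- the diamond operator `⟨d⟩ = (δ_d)_*` on `J₁(M)`, `δ_d (E, P) = (E, d P)` -/
def diamond1 (M : ℕ) (d : (ZMod M)ˣ) : Module.End ℤ (J1 M) :=
  (DistribSMul.toAddMonoidHom (J1 M)
    (SemilinearAut.ofAlgAut (diamondAut M d))⁻¹).toIntLinearMap

theorem diamond1_apply (M : ℕ) (d : (ZMod M)ˣ) (x : J1 M) :
    diamond1 M d x = (SemilinearAut.ofAlgAut (diamondAut M d))⁻¹ • x :=
  rfl

end Fermat.Agent.T4.helper32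

end
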