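/-
T4 block (I), sub-blocks I-RED and I-ES (helper4, sub-coordinator): INTERFACE.

Target: `P2Core1Statement M p` = (UNR) + (ES) on the `p`-power torsion of `J1 M`, i.e. the
fields `unramified` and `frobenius` of `helper1.GenTateInput` (convention [A]:
`φ² - hecke1 φ + ℓ ⟨ℓ⟩ = 0`, `hecke1 = b_* a^*`, `⟨ℓ⟩ = diamond1`).

DESIGN.  All Props of the P2 interface (`P2/helper29_Interface`, `S18/helper19_Wiring`,
`P2/helper96_GenDefs`, `helper81.CuspRegStatement`) are stated here GENERICALLY for a pair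

  `E  : IntermediateField ℚ̄ ℚ̄((q))`        (function field in characteristic `0`),
  `Eb : IntermediateField k k((q))`          (special fibre field, `k = kA A`),

under the SAME short names, in the namespace `Fermat.Agent.T4.helper4`.  For
`(E, Eb) = (FF M, FFb A M)` they are the P2 statements (`Iff.rfl`, section `Bridge`), so every
P2 theorem is available as an input; for `(E, Eb) = (F1 M, F1b A M)` they are the statements
of I-RED.  A port of a P2 file = the same proof with `FF M` replaced by `E`, `FFb A M` by `Eb`,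
and every level-specific lemma replaced by a hypothesis (one of the Props below).

Vocabulary reused unchanged (generic already): `helper29.incl`, `helper29.red`,
`helper29.IsInfty`, `helper29.InL`, `helper29.HasRiemannGenus`, `helper74.RiemannSetting`,
`helper96.HurwitzCount`, `helper29.PrimeToLevel`, `helper29.GoodPair`.
-/
import Mathlib
import Fermat.Agent.P2.helper29_Interface
import Fermat.Agent.P2.helper96_GenDefs
import Fermat.Agent.T4.helper32_X1Defs

set_option autoImplicit false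

noncomputable section

open HahnSeries IntermediateField AlgebraicCurve ModularCurve
open Fermat.Agent.S18.helper19 (Kb kA FF FFb)
open Fermat.Agent.P2.helper29 (incl red IsInfty InL HasRiemannGenus PrimeToLevel GoodPair)

namespace Fermat.Agent.T4.helper4

/-! ### Generic vocabulary -/

section Generic

variable (A : ValuationSubring Kb) (E : IntermediateField Kb (LaurentSeries Kb))
  (Eb : IntermediateField (kA A) (LaurentSeries (kA A)))

/-- `Y` is an integral `q`-series representing an element of `E` whose reduction is a nonzero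
element of `Eb`. -/
def IsGood (Y : LaurentSeries A) : Prop :=
  incl A Y ∈ E ∧ red A Y ∈ Eb ∧ red A Y ≠ 0

/-- `f` is a quotient of two good series with the same reduction. -/
def IsRedOne (f : LaurentSeries Kb) : Prop :=
  ∃ Y₁ Y₂ : LaurentSeries A, IsGood A E Eb Y₁ ∧ IsGood A E Eb Y₂ ∧
    incl A Y₁ = f * incl A Y₂ ∧ red A Y₁ = red A Y₂

/-- `w(f) ≥ 0`: `f` is a quotient of an integral series of `E` by a good series. -/
def IsWInt (f : LaurentSeries Kb) : Prop :=
  ∃ Y₁ Y₂ : LaurentSeries A, incl A Y₁ ∈ E ∧ IsGood A E Eb Y₂ ∧ incl A Y₁ = f * incl A Y₂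

/-- `m` divides the divisor of `f ∈ E`. -/
def DivDvd (m : ℕ) (f : LaurentSeries Kb) : Prop :=
  ∀ (hf : f ∈ E) (P : Place Kb E), (m : ℤ) ∣ P.ord (⟨f, hf⟩ : E)

/-- **[V1]** the reduction of an integral series of `E` lies in `Eb`. -/
def RedMemStatement : Prop :=
  ∀ Y : LaurentSeries A, incl A Y ∈ E → red A Y ∈ Eb

/-- **(INJ)**, Kummer form (helper19's shape). -/
def InjStatement (m : ℕ) : Prop :=
  ∀ f : E, f ≠ 0 →
    (∀ P : Place Kb E, (m : ℤ) ∣ P.ord f) →
    (∃ Y₁ Y₂ : LaurentSeries A, IsGood A E Eb Y₁ ∧ IsGood A E Eb Y₂ ∧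
        incl A Y₁ = (f : LaurentSeries Kb) * incl A Y₂ ∧ red A Y₁ = red A Y₂) →
    ∃ (c : Kb) (u : E), f = algebraMap Kb E c * u ^ m

/-- a function of the special fibre without zeros and poles is constant -/
def ConstBarStatement : Prop :=
  ∀ y : Eb, y ≠ 0 → (∀ Q : Place (kA A) Eb, Q.ord y = 0) →
    ∃ c : kA A, y = algebraMap (kA A) Eb c

/-- **[INF]** both function fields have a place at infinity. -/
def InftyStatement : Prop :=
  (∃ P : Place Kb E, IsInfty P) ∧ ∃ Q : Place (kA A) Eb, IsInfty Q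

/-- **[VAL-SC]** every nonzero function can be scaled to a `w`-unit. -/
def ScaleStatement : Prop :=
  ∀ f : LaurentSeries Kb, f ∈ E → f ≠ 0 →
    ∃ (c : Kb) (Y₁ Y₂ : LaurentSeries A), c ≠ 0 ∧ IsGood A E Eb Y₁ ∧ IsGood A E Eb Y₂ ∧
      algebraMap Kb (LaurentSeries Kb) c * incl A Y₁ = f * incl A Y₂

/-- **[VAL-INT]** a `w`-integral function which is regular off infinity has an integral
`q`-expansion. -/
def IntegralityStatement : Prop :=
  ∀ (n : ℤ) (f : LaurentSeries Kb), InL E n f → IsWInt A E Eb f →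
    ∃ Y : LaurentSeries A, incl A Y = f

/-- **[VAL-UE]** the reduction of an integral function regular off infinity is regular off
infinity (with the same bound for the pole order). -/
def RegRedStatement : Prop :=
  ∀ (n : ℤ) (Y : LaurentSeries A), InL E n (incl A Y) → InL Eb n (red A Y)

/-- **[RIE-0]** Riemann's theorem in characteristic `0`. -/
def RiemannStatement : Prop :=
  ∃ g : ℕ, HasRiemannGenus Kb E g

/-- **[RIE-ℓ]** Riemann's theorem for the special fibre field. -/
def RiemannBarStatement : Prop :=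
  ∃ g : ℕ, HasRiemannGenus (kA A) Eb g

/-- **[GEN-B]** the Hurwitz half of genus equality: `g ≤ g̃`. -/
def GenusLeBarStatement : Prop :=
  ∀ g gb : ℕ, HasRiemannGenus Kb E g → HasRiemannGenus (kA A) Eb gb → g ≤ gb

/-- **[GEN-A]** the semicontinuity half of genus equality: `g̃ ≤ g`. -/
def GenusBarLeStatement : Prop :=
  ∀ g gb : ℕ, HasRiemannGenus Kb E g → HasRiemannGenus (kA A) Eb gb → gb ≤ g

/-- **[GEN]** genus equality. -/
def GenusEqStatement : Prop :=
  ∃ g : ℕ, HasRiemannGenus Kb E g ∧ HasRiemannGenus (kA A) Eb g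

/-- **[SURJ]** for large `n` every element of `L(n ∞̃)` is the reduction of an integral
element of `L(n ∞)`. -/
def SurjRedStatement : Prop :=
  ∃ c : ℤ, ∀ n : ℤ, c ≤ n → ∀ y : LaurentSeries (kA A), InL Eb n y →
    ∃ Y : LaurentSeries A, InL E n (incl A Y) ∧ red A Y = y

/-- **[I1]** ideal step. -/
def IdealStepStatement (m : ℕ) : Prop :=
  ∀ h : LaurentSeries Kb, h ∈ E → h ≠ 0 → DivDvd E m h → IsRedOne A E Eb h →
    ∃ g : LaurentSeries Kb, g ∈ E ∧ g ≠ 0 ∧ IsRedOne A E Eb g ∧
      ∃ n : ℤ, InL E n (g ^ m * h⁻¹)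

/-- **[ROOT]** an integral function `H ≡ 1`, regular off infinity, whose divisor is divisible
by `m`, has an INTEGRAL formal `m`-th root with constant nonzero reduction. -/
def RootStatement (m : ℕ) : Prop :=
  ∀ (H : LaurentSeries A) (n : ℤ), InL E n (incl A H) → red A H = 1 →
    DivDvd E m (incl A H) →
    ∃ (W : LaurentSeries A) (z : kA A), W ^ m = H ∧ z ≠ 0 ∧
      red A W = algebraMap (kA A) (LaurentSeries (kA A)) z

/-- **[PIVOT]** an integral formal `m`-th root (with constant nonzero reduction) of a function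
regular off infinity lies in the function field. -/
def PivotStatement (m : ℕ) : Prop :=
  ∀ (H W : LaurentSeries A) (n : ℤ) (z : kA A), InL E n (incl A H) → W ^ m = H →
    z ≠ 0 → red A W = algebraMap (kA A) (LaurentSeries (kA A)) z → incl A W ∈ E

/-- **[REG]** (INJ) for integral functions regular off infinity. -/
def InjRegStatement (m : ℕ) : Prop :=
  ∀ (H : LaurentSeries A) (n : ℤ), InL E n (incl A H) → red A H = 1 →
    DivDvd E m (incl A H) →
    ∃ (c : Kb) (u : LaurentSeries Kb), u ∈ E ∧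
      incl A H = algebraMap Kb (LaurentSeries Kb) c * u ^ m

/-! ### Statements involving `j` -/

variable (hj : jqModC Kb ∈ E) (hjb : jqModC (kA A) ∈ Eb)

/-- `j` as an element of `E` -/
def jEl : E := ⟨jqModC Kb, hj⟩

/-- `j̃` as an element of `Eb` -/
def jbEl : Eb := ⟨jqModC (kA A), hjb⟩

/-- **[DEG]** (Igusa, degree form): both fields are finite over the `j`-line, the special
fibre separably, with the SAME degree. -/
def DegStatement : Prop :=
  FiniteDimensional Kb⟮jEl E hj⟯ E ∧ FiniteDimensional (kA A)⟮jbEl A Eb hjb⟯ Eb ∧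
    Algebra.IsSeparable (kA A)⟮jbEl A Eb hjb⟯ Eb ∧
    Module.finrank (kA A)⟮jbEl A Eb hjb⟯ Eb = Module.finrank Kb⟮jEl E hj⟯ E

/-- **[PRIM]** (Igusa, primitive element form; the input of the [VAL] package): there is an
integral series `θ`, a root of a monic `Φ ∈ A[X][Y]` at `X = j`, such that `E = ℚ̄(j, θ)`,
`Eb = k(j̃, θ̃)`, and `Φ` is irreducible over `ℚ̄[X]` and over `k[X]`, with `∂Φ/∂Y (j̃, θ̃) ≠ 0`.
For `(FF M, FFb A M)`: `θ = j(q^M)`, `Φ` the modular equation (helper81 `PhiA`). -/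
def PrimStatement : Prop :=
  ∃ (θ : LaurentSeries A) (Φ : Polynomial (Polynomial A)),
    Φ.Monic ∧
    Polynomial.eval₂ ((Polynomial.aeval (jqModC A) : Polynomial A →ₐ[A] LaurentSeries A) :
        Polynomial A →+* LaurentSeries A) θ Φ = 0 ∧
    E = IntermediateField.adjoin Kb {jqModC Kb, incl A θ} ∧
    Eb = IntermediateField.adjoin (kA A) {jqModC (kA A), red A θ} ∧
    Irreducible (Φ.map (Polynomial.mapRingHom A.subtype)) ∧
    Irreducible (Φ.map (Polynomial.mapRingHom (IsLocalRing.residue A))) ∧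
    Polynomial.eval₂ ((Polynomial.aeval (jqModC (kA A)) :
        Polynomial (kA A) →ₐ[kA A] LaurentSeries (kA A)) :
          Polynomial (kA A) →+* LaurentSeries (kA A)) (red A θ)
        (Polynomial.derivative (Φ.map (Polynomial.mapRingHom (IsLocalRing.residue A)))) ≠ 0

/-- **[CUSP-REG]** regularity of reductions at the places over `j̃ = ∞` other than the place at
infinity (helper81's shape). -/
def CuspRegStatement : Prop :=
  ∀ (n : ℤ) (Y : LaurentSeries A), InL E n (incl A Y) →
    ∀ (hmem : red A Y ∈ Eb) (P : Place (kA A) Eb),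
      P.ord (jbEl A Eb hjb) < 0 → ¬ IsInfty P → 0 ≤ P.ord (⟨red A Y, hmem⟩ : Eb)

/-- **[CUSP-BAR]** the special fibre has at most as many cusps (poles of `j̃`) as the generic
fibre (poles of `j`). -/
def CuspBarStatement : Prop :=
  ∃ (T : Finset (Place (kA A) Eb)) (T₀ : Finset (Place Kb E)),
    (∀ Q : Place (kA A) Eb, Q.ord (jbEl A Eb hjb) < 0 → Q ∈ T) ∧
    (∀ P ∈ T₀, P.ord (jEl E hj) < 0) ∧ T.card ≤ T₀.card

/-- **[TAME-BASE]** (helper43's shape `tameBaseOver`): the tame base function on the special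
fibre; the count is relative to the degree over the `j̃`-line. -/
def TameBaseStatement : Prop :=
  ∃ (t : Eb) (V : Finset (kA A)),
    Transcendental (kA A) t ∧
    ∃ (_ : FiniteDimensional (kA A)⟮t⟯ Eb) (_ : Algebra.IsSeparable (kA A)⟮t⟯ Eb),
      (∀ Q : Place (kA A) Eb, Q.ord (jbEl A Eb hjb) < 0 ↔
        (Q.ord t < 0 ∨ ∃ a ∈ V, 0 < Q.ord (t - algebraMap (kA A) Eb a))) ∧
      6 * ((V.card : ℤ) - 1) * (Module.finrank (kA A)⟮t⟯ Eb : ℤ) =
        (Module.finrank (kA A)⟮jbEl A Eb hjb⟯ Eb : ℤ)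

/-- **[TAME-BASE-0]** the same in characteristic `0`, with the exact count of the cusps: the
places over `t = ∞` and over `t ∈ V₀` are exactly the poles of `j`, these are the only
ramified places of `E / ℚ̄(t)`, and there are exactly `c` of them. -/
def TameBaseZeroStatement (c : ℕ) : Prop :=
  ∃ (t : E) (V : Finset Kb),
    Transcendental Kb t ∧
    ∃ (_ : FiniteDimensional Kb⟮t⟯ E),
      (∀ P : Place Kb E, P.ord (jEl E hj) < 0 ↔
        (P.ord t < 0 ∨ ∃ a ∈ V, 0 < P.ord (t - algebraMap Kb E a))) ∧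
      6 * ((V.card : ℤ) - 1) * (Module.finrank Kb⟮t⟯ E : ℤ) =
        (Module.finrank Kb⟮jEl E hj⟯ E : ℤ) ∧
      ∃ T₀ : Finset (Place Kb E), (∀ P : Place Kb E, P.ord (jEl E hj) < 0 ↔ P ∈ T₀) ∧
        T₀.card = c ∧
        ∀ g : ℕ, HasRiemannGenus Kb E g →
          2 * (g : ℤ) - 2 = ((V.card : ℤ) - 1) * (Module.finrank Kb⟮t⟯ E : ℤ) - (c : ℤ)

end Generic

/-! ### Bridge: for `(FF M, FFb A M)` these are the P2 statements -/

section Bridge

variable (M : ℕ) (A : ValuationSubring Kb)

theorem isGood_iff (Y : LaurentSeries A) :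
    IsGood A (FF M) (FFb A M) Y ↔ Fermat.Agent.S18.helper19.IsGood A M Y := Iff.rfl

theorem isRedOne_iff (f : LaurentSeries Kb) :
    IsRedOne A (FF M) (FFb A M) f ↔ Fermat.Agent.P2.helper29.IsRedOne A M f := Iff.rfl

theorem isWInt_iff (f : LaurentSeries Kb) :
    IsWInt A (FF M) (FFb A M) f ↔ Fermat.Agent.P2.helper29.IsWInt A M f := Iff.rfl

theorem divDvd_iff (m : ℕ) (f : LaurentSeries Kb) :
    DivDvd (FF M) m f ↔ Fermat.Agent.P2.helper29.DivDvd M m f := Iff.rfl

variable [NeZero M]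

theorem injStatement_iff (m : ℕ) :
    InjStatement A (FF M) (FFb A M) m ↔ Fermat.Agent.S18.helper19.InjStatement M A m := Iff.rfl

theorem constBarStatement_iff :
    ConstBarStatement A (FFb A M) ↔ Fermat.Agent.S18.helper19.ConstBarStatement M A := Iff.rfl

theorem inftyStatement_iff :
    InftyStatement A (FF M) (FFb A M) ↔ Fermat.Agent.P2.helper29.InftyStatement M A := Iff.rfl

theorem scaleStatement_iff :
    ScaleStatement A (FF M) (FFb A M) ↔ Fermat.Agent.P2.helper29.ScaleStatement M A := Iff.rfl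

theorem integralityStatement_iff :
    IntegralityStatement A (FF M) (FFb A M) ↔
      Fermat.Agent.P2.helper29.IntegralityStatement M A := Iff.rfl

theorem regRedStatement_iff :
    RegRedStatement A (FF M) (FFb A M) ↔ Fermat.Agent.P2.helper29.RegRedStatement M A :=
  Iff.rfl

theorem genusEqStatement_iff :
    GenusEqStatement A (FF M) (FFb A M) ↔ Fermat.Agent.P2.helper29.GenusEqStatement M A :=
  Iff.rfl

theorem surjRedStatement_iff :
    SurjRedStatement A (FF M) (FFb A M) ↔ Fermat.Agent.P2.helper29.SurjRedStatement M A :=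
  Iff.rfl

theorem idealStepStatement_iff (m : ℕ) :
    IdealStepStatement A (FF M) (FFb A M) m ↔
      Fermat.Agent.P2.helper29.IdealStepStatement M A m := Iff.rfl

theorem rootStatement_iff (m : ℕ) :
    RootStatement A (FF M) m ↔ Fermat.Agent.P2.helper29.RootStatement M A m :=
  Iff.rfl

theorem pivotStatement_iff (m : ℕ) :
    PivotStatement A (FF M) m ↔ Fermat.Agent.P2.helper29.PivotStatement M A m := Iff.rfl

theorem injRegStatement_iff (m : ℕ) :
    InjRegStatement A (FF M) m ↔ Fermat.Agent.P2.helper29.InjRegStatement M A m := Iff.rfl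

end Bridge

/-! ### The instance `X₁(M)` -/

section X1

open Fermat.Agent.T4.helper32

/-- the special fibre field of `X₁(M)` at `A` -/
abbrev F1b (A : ValuationSubring Kb) (M : ℕ) :
    IntermediateField (kA A) (LaurentSeries (kA A)) :=
  F1C (kA A) M

/-- the class of a prime `ℓ ∤ M` in `(ℤ/M)ˣ` -/
def unitOfPrime (M ℓ : ℕ) (hℓ : ℓ.Prime) (hℓM : ¬ ℓ ∣ M) : (ZMod M)ˣ :=
  ZMod.unitOfCoprime ℓ ((Nat.Prime.coprime_iff_not_dvd hℓ).mpr hℓM)

/-- **(UNR1)** inertia at every prime `ℓ ∤ M p` acts trivially on the `p`-power torsion of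
`J₁(M)`. -/
def Unr1Statement (M p : ℕ) : Prop :=
  ∀ (ℓ : ℕ), ℓ.Prime → ¬ ℓ ∣ M * p →
    ∀ A : ValuationSubring Kb, A.LiesOverPrime ℓ →
      ∀ σ ∈ A.inertiaSubgroupIn ℚ, ∀ x : J1 M, (∃ n : ℕ, p ^ n • x = 0) → σ • x = x

/-- **(ES1)**, convention [A]: every Frobenius lift `σ` at `ℓ ∤ M p` satisfies
`σ² - T_ℓ σ + ℓ ⟨ℓ⟩ = 0` on the `p`-power torsion of `J₁(M)`, with `T_ℓ = hecke1 M ℓ = b_* a^*`
and `⟨ℓ⟩ = diamond1 M ℓ = (δ_ℓ)_*`. -/
def ES1Statement (M p : ℕ) : Prop :=
  ∀ (ℓ : ℕ) (hℓ : ℓ.Prime) (hℓMp : ¬ ℓ ∣ M * p),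
    ∀ A : ValuationSubring Kb, A.LiesOverPrime ℓ →
      ∀ σ : Kb ≃ₐ[ℚ] Kb, A.IsFrobeniusAt σ ℓ → ∀ x : J1 M, (∃ n : ℕ, p ^ n • x = 0) →
        σ • σ • x - hecke1 M ⟨ℓ, hℓ⟩ (σ • x) +
          ℓ • diamond1 M (unitOfPrime M ℓ hℓ (fun h => hℓMp (Dvd.dvd.mul_right h p))) x = 0

/-- **P2-CORE for `X₁(M)`** (operator form) = (UNR1) + (ES1). -/
def P2Core1Statement (M p : ℕ) : Prop :=
  Unr1Statement M p ∧ ES1Statement M p

/-- **(INJ1)** at all places over good primes, for the powers of `p`. -/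
def Inj1Statement (M p : ℕ) : Prop :=
  ∀ (ℓ : ℕ), ℓ.Prime → ¬ ℓ ∣ M * p → ∀ A : ValuationSubring Kb, A.LiesOverPrime ℓ →
    ∀ n : ℕ, InjStatement A (F1 M) (F1b A M) (p ^ n)

/-- **[K-UNR1]** Kummer wiring, unramified part. -/
def KummerUnr1Statement (M p : ℕ) : Prop :=
  Inj1Statement M p → Unr1Statement M p

/-- **[K-ES1]** Kummer wiring, Eichler-Shimura part (Kronecker congruence with diamond). -/
def KummerES1Statement (M p : ℕ) : Prop :=
  Inj1Statement M p → ES1Statement M p

theorem p2Core1_of (M p : ℕ) (hU : KummerUnr1Statement M p) (hE : KummerES1Statement M p)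
    (hI : Inj1Statement M p) : P2Core1Statement M p :=
  ⟨hU hI, hE hI⟩

end X1

end Fermat.Agent.T4.helper4

end
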