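import Mathlib
import Fermat.Agent.P2.helper74_RieInst
import Fermat.Agent.S18.helper19_Transfer
import Fermat.Agent.T4.helper4_RedDefs

/-!
# T4 block (I), I-RED box [RIE] (helper91): Riemann's theorem for a generic pair `(E, Eb)`

Generic wiring of the Riemann API of P2 (`helper74`) for a pair `(E, Eb)` of `q`-expansion
fields in the sense of `helper4_RedDefs`: from the finiteness of `E` over `ℚ̄(j)` and the
finiteness + separability of `Eb` over `k(j̃)` (= the first three clauses of
`helper4.DegStatement`):

* `riemannSetting_G`    : `helper74.RiemannSetting ℚ̄ E`;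
* `riemann_G`           : `helper4.RiemannStatement E`;
* `riemannSettingBar_G` : `helper74.RiemannSetting k Eb`;
* `riemannBar_G`        : `helper4.RiemannBarStatement A Eb`;
* `constBar_G`          : `helper4.ConstBarStatement A Eb`;
* the same five statements with the hypothesis `helper4.DegStatement A E Eb hj hjb`
  (`*_of_deg`).
-/

set_option autoImplicit false
set_option synthInstance.maxHeartbeats 400000

noncomputable section

open HahnSeries IntermediateField AlgebraicCurve ModularCurve
open Fermat.Agent.S18.helper19 (Kb kA)
open Fermat.Agent.P2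
open Fermat.Agent.T4.helper4

namespace Fermat.Agent.T4.helper91

section Generic

variable {K : Type*} [Field K] (E : IntermediateField K (LaurentSeries K))

/-- `j` is transcendental in every intermediate field of `K((q))` containing it. -/
theorem transcendental_jMem (hj : jqModC K ∈ E) :
    Transcendental K (⟨jqModC K, hj⟩ : E) := by
  intro h
  exact Fermat.Agent.S18.helper19.transcendental_jqModC' K (IsAlgebraic.algHom E.val h)

end Generic

section Pair

variable (A : ValuationSubring Kb) (E : IntermediateField Kb (LaurentSeries Kb))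
  (Eb : IntermediateField (kA A) (LaurentSeries (kA A)))
  (hj : jqModC Kb ∈ E) (hjb : jqModC (kA A) ∈ Eb)

theorem transcendental_jEl : Transcendental Kb (jEl E hj) :=
  transcendental_jMem E hj

theorem transcendental_jbEl : Transcendental (kA A) (jbEl A Eb hjb) :=
  transcendental_jMem Eb hjb

/-- The `RiemannSetting` of `E` (characteristic `0`). -/
theorem riemannSetting_G [FiniteDimensional Kb⟮jEl E hj⟯ E] : helper74.RiemannSetting Kb E :=
  helper74.riemannSetting_charZero (jEl E hj) (transcendental_jEl E hj)

/-- **[RIE-0]** Riemann's theorem for `E`. -/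
theorem riemann_G [FiniteDimensional Kb⟮jEl E hj⟯ E] : RiemannStatement E := by
  obtain ⟨g, h1, c, hc⟩ := helper74.exists_genus_charZero (jEl E hj) (transcendental_jEl E hj)
  exact ⟨g, h1, c, hc⟩

/-- The `RiemannSetting` of the special fibre field `Eb`. -/
theorem riemannSettingBar_G [FiniteDimensional (kA A)⟮jbEl A Eb hjb⟯ Eb]
    [Algebra.IsSeparable (kA A)⟮jbEl A Eb hjb⟯ Eb] : helper74.RiemannSetting (kA A) Eb :=
  haveI : IsAlgClosed (kA A) := helper74.isAlgClosed_residueField A
  helper74.riemannSetting_of_separating (jbEl A Eb hjb) (transcendental_jbEl A Eb hjb)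

/-- **[RIE-ℓ]** Riemann's theorem for the special fibre field `Eb`. -/
theorem riemannBar_G [FiniteDimensional (kA A)⟮jbEl A Eb hjb⟯ Eb]
    [Algebra.IsSeparable (kA A)⟮jbEl A Eb hjb⟯ Eb] : RiemannBarStatement A Eb :=
  haveI : IsAlgClosed (kA A) := helper74.isAlgClosed_residueField A
  helper74.hasRiemannGenus_of_separating (jbEl A Eb hjb) (transcendental_jbEl A Eb hjb)

/-- **`ConstBarStatement`**: a function of the special fibre without zeros and poles is
constant. -/
theorem constBar_G [FiniteDimensional (kA A)⟮jbEl A Eb hjb⟯ Eb]
    [Algebra.IsSeparable (kA A)⟮jbEl A Eb hjb⟯ Eb] : ConstBarStatement A Eb := by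
  intro y _ hy
  obtain ⟨a, ha⟩ := helper74.exists_eq_algebraMap_of_forall_ord_nonneg
    (riemannSettingBar_G A Eb hjb) (f := y) (fun v => (hy v).ge)
  exact ⟨a, ha⟩

/-! ### From `DegStatement` -/

variable {A E Eb hj hjb}

theorem riemannSetting_of_deg (h : DegStatement A E Eb hj hjb) :
    helper74.RiemannSetting Kb E :=
  haveI := h.1
  riemannSetting_G E hj

theorem riemann_of_deg (h : DegStatement A E Eb hj hjb) : RiemannStatement E :=
  haveI := h.1
  riemann_G E hj

theorem riemannSettingBar_of_deg (h : DegStatement A E Eb hj hjb) :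
    helper74.RiemannSetting (kA A) Eb :=
  haveI := h.2.1
  haveI := h.2.2.1
  riemannSettingBar_G A Eb hjb

theorem riemannBar_of_deg (h : DegStatement A E Eb hj hjb) : RiemannBarStatement A Eb :=
  haveI := h.2.1
  haveI := h.2.2.1
  riemannBar_G A Eb hjb

theorem constBar_of_deg (h : DegStatement A E Eb hj hjb) : ConstBarStatement A Eb :=
  haveI := h.2.1
  haveI := h.2.2.1
  constBar_G A Eb hjb

end Pair

end Fermat.Agent.T4.helper91

end
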