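/-
T4 block (I), I-RED [RED-CUSP1-GEN] (helper18): the GENERIC half of CUSP1.

For a pair `(E, Eb)` of `q`-expansion fields in the vocabulary of `helper4_RedDefs`, the
statements `helper4.CuspRegStatement` and `helper4.CuspBarStatement` follow from an abstract
COSET-EXPANSION PACKAGE on both fibres:

* `CosetExp F hj Wd π i₀` (one fibre, `K` any field): `[F : K(j)]` pairwise distinct
  embeddings `e i : F →+* K((t))`, constant on `K`, all sending `j` to `j(t ^ Wd)`, permuted by
  the rotation `t ↦ u t` (`u` of exact order `Wd`) according to the permutation `π` of the index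
  set, and `e i₀ f = f(t ^ Wd)` (the expansion at infinity).
* `CosetCompat` (both fibres, SAME `I`, `π`, `i₀`): for `Y ∈ A((q))` with `incl Y ∈ L(n ∞)` and
  `red Y ∈ Eb`, every coset expansion of `incl Y` is `A`-integral and its reduction is the coset
  expansion of `red Y` (the `q`-expansion principle + compatibility of the reduction with the
  coset expansions).

Results:

* `CosetExp.dict` : the cusp dictionary of one fibre (port of `P2.helper28.cusp_dictionary`):
  the poles of `j` are the places `W i` induced by the `e i`; `W i = W j` iff `i`, `j` are in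
  the same `π`-orbit; the number of poles of `j` is the number of `π`-orbits.  Separability over
  `K(j)` is DERIVED from the number of embeddings.
* `cuspReg_of_pack` : `helper4.CuspRegStatement A E Eb hj hjb`.
* `cuspBar_of_pack` : `helper4.CuspBarStatement A E Eb hj hjb`.
* `cuspReg_of_deg`, `cuspBar_of_deg` : the same with the finiteness instances taken from
  `helper4.DegStatement`.

Source: P2 `helper28_CuspL` (Dict), `helper81_CuspReg` (Dict), `helper28_CuspBar`.
-/
import Mathlib
import Fermat.Agent.T4.helper4_RedDefs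
import Fermat.Agent.T4.helper91_RieG
import Fermat.Agent.P2.helper28_CuspL
import Fermat.Agent.P2.helper95_CuspAbs
import Fermat.Agent.P2.helper29_Infty
import Fermat.Agent.P2.helper74_RieInst

set_option autoImplicit false
set_option linter.unusedSectionVars false
set_option linter.style.haveILetI false

noncomputable section

open HahnSeries IntermediateField AlgebraicCurve ModularCurve WithZero
open Fermat.Agent.S18.helper19 (Kb kA)
open Fermat.Agent.P2.helper29 (incl red IsInfty InL)

namespace Fermat.Agent.T4.helper18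

/-! ### Laurent series: coefficients in negative degrees -/

section Laurent

variable {K : Type*} [Field K]

theorem order_nonneg_iff_coeffG (x : LaurentSeries K) :
    0 ≤ x.order ↔ ∀ n : ℤ, n < 0 → x.coeff n = 0 := by
  constructor
  · intro h n hn
    exact HahnSeries.coeff_eq_zero_of_lt_order (lt_of_lt_of_le hn h)
  · intro h
    by_contra hcon
    push Not at hcon
    have hx : x ≠ 0 := by
      rintro rfl
      rw [HahnSeries.order_zero] at hcon
      exact lt_irrefl _ hcon
    exact (mt HahnSeries.coeff_order_eq_zero.mp hx) (h _ hcon)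

theorem valued_le_one_iffG (x : LaurentSeries K) :
    (Valued.v x : ℤᵐ⁰) ≤ 1 ↔ ∀ n : ℤ, n < 0 → x.coeff n = 0 := by
  have h := LaurentSeries.valuation_le_iff_coeff_lt_eq_zero K (D := 0) (f := x)
  rw [neg_zero, WithZero.exp_zero] at h
  exact h

theorem coeff_neg_qExpand_iffG (Wd : ℕ) [NeZero Wd] (x : LaurentSeries K) :
    (∀ n : ℤ, n < 0 → (qExpand K Wd x).coeff n = 0) ↔ ∀ n : ℤ, n < 0 → x.coeff n = 0 := by
  have hW : (0 : ℤ) < Wd := by exact_mod_cast Nat.pos_of_ne_zero (NeZero.ne Wd)
  constructor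
  · intro h n hn
    rw [← qExpand_coeff_mul Wd x n]
    exact h _ (mul_neg_of_pos_of_neg hW hn)
  · intro h n hn
    by_cases hd : (Wd : ℤ) ∣ n
    · obtain ⟨m, rfl⟩ := hd
      rw [qExpand_coeff_mul]
      apply h
      by_contra hm
      push Not at hm
      have := mul_nonneg hW.le hm
      omega
    · exact qExpand_coeff_of_not_dvd Wd x hd

end Laurent

/-! ### The coset-expansion package of one fibre -/

section OneFibre

variable {K : Type} [Field K] (F : IntermediateField K (LaurentSeries K))
  (hj : jqModC K ∈ F)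

/-- `j` as an element of `F` -/
def jG : F := ⟨jqModC K, hj⟩

/-- **The coset-expansion package** of a `q`-expansion field `F ∋ j`: `[F : K(j)]` pairwise
distinct embeddings into `K((t))`, constant on `K`, with `e i j = j(t ^ Wd)`, permuted by the
rotation `t ↦ u t` according to `π`, and `e i₀ f = f(t ^ Wd)`. -/
structure CosetExp {I : Type*} [Fintype I] (Wd : ℕ) [NeZero Wd] (π : Equiv.Perm I)
    (i₀ : I) where
  /-- the coset expansions -/
  e : I → F →+* LaurentSeries K
  e_C : ∀ (i : I) (c : K), e i (algebraMap K F c) = HahnSeries.C c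
  e_j : ∀ i : I, e i (jG F hj) = qExpand K Wd (jqModC K)
  e_inj : Function.Injective e
  card : Fintype.card I = Module.finrank K⟮jG F hj⟯ F
  /-- the rotation factor -/
  u : Kˣ
  hu : orderOf u = Wd
  rot : ∀ (i : I) (f : F), e (π i) f = Fermat.Agent.P2.helper94.rot u (e i f)
  e_i₀ : ∀ f : F, e i₀ f = qExpand K Wd (f : LaurentSeries K)

variable {F hj} {I : Type*} [Fintype I] {Wd : ℕ} [NeZero Wd] {π : Equiv.Perm I} {i₀ : I}

namespace CosetExp

theorem e_pow (P : CosetExp F hj Wd π i₀) (m : ℕ) (i : I) (f : F) :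
    P.e ((π ^ m) i) f = Fermat.Agent.P2.helper94.rot (P.u ^ m) (P.e i f) := by
  induction m generalizing i with
  | zero => simp [Fermat.Agent.P2.helper94.rot_one]
  | succ m ih =>
    rw [pow_succ', Equiv.Perm.mul_apply, P.rot, ih, Fermat.Agent.P2.helper94.rot_rot, pow_succ']

theorem u_pow (P : CosetExp F hj Wd π i₀) : P.u ^ Wd = 1 := by
  have h := pow_orderOf_eq_one P.u
  rwa [P.hu] at h

theorem pi_pow (P : CosetExp F hj Wd π i₀) : π ^ Wd = 1 := by
  ext i
  apply P.e_inj
  ext f : 1
  rw [P.e_pow, P.u_pow, Fermat.Agent.P2.helper94.rot_one]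
  rfl

theorem e_jInv (P : CosetExp F hj Wd π i₀) (i : I) : P.e i (jG F hj)⁻¹ = (qExpand K Wd (jqModC K))⁻¹ := by
  rw [map_inv₀, P.e_j]

theorem qExpand_j_ne_zeroG (K : Type) [Field K] (Wd : ℕ) [NeZero Wd] :
    qExpand K Wd (jqModC K) ≠ 0 := by
  intro h0
  have := Fermat.Agent.S28.helper81.order_qExpand_jqModC K Wd
  rw [h0, HahnSeries.order_zero] at this
  have hW : (0 : ℤ) < Wd := by exact_mod_cast Nat.pos_of_ne_zero (NeZero.ne Wd)
  omega

theorem comp_algebraMap (P : CosetExp F hj Wd π i₀) (i j : I) (t : F)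
    (ht : P.e i t = P.e j t) :
    (P.e i).comp (algebraMap K⟮t⟯ F) = (P.e j).comp (algebraMap K⟮t⟯ F) :=
  Fermat.Agent.S24.helper43.comp_algebraMap_adjoin_eq
    (fun c => by rw [P.e_C, P.e_C]) ht

/-- `F / K(j)` is separable: there are `[F : K(j)]` distinct embeddings. -/
theorem isSeparable (P : CosetExp F hj Wd π i₀) [FiniteDimensional K⟮jG F hj⟯ F] :
    Algebra.IsSeparable K⟮jG F hj⟯ F :=
  Fermat.Agent.P2.helper28.isSeparable_of_card_eq P.e P.e_inj P.card
    ((P.e i₀).comp (algebraMap K⟮jG F hj⟯ F))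
    (fun i => P.comp_algebraMap i i₀ (jG F hj) (by rw [P.e_j, P.e_j]))

/-- **the cusp dictionary of one fibre**: the poles of `j` are the places induced by the coset
expansions; two cosets induce the same place iff they are in the same orbit of the rotation. -/
theorem dict (P : CosetExp F hj Wd π i₀) [IsAlgClosed K]
    [FiniteDimensional K⟮jG F hj⟯ F] :
    ∃ W : I → Place K F,
      (∀ i, (W i).ord (jG F hj) < 0) ∧
      (∀ w : Place K F, w.ord (jG F hj) < 0 → ∃ i, W i = w) ∧
      (∀ i j, W i = W j ↔ j ∈ MulAction.orbit (Subgroup.zpowers π) i) ∧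
      (∀ i (f : F), f ∈ (W i).toValuationSubring ↔
        ∀ n : ℤ, n < 0 → (P.e i f).coeff n = 0) ∧
      Nat.card {w : Place K F // w.ord (jG F hj) < 0}
        = Nat.card (MulAction.orbitRel.Quotient (Subgroup.zpowers π) I) := by
  have hsep0 := P.isSeparable
  obtain ⟨hfd, hsep, hrk⟩ := Fermat.Agent.P2.helper95.inv_instances (k := K) (jG F hj)
  have htr : Transcendental K (jG F hj)⁻¹ :=
    Fermat.Agent.P2.helper95.transcendental_inv
      (Fermat.Agent.T4.helper91.transcendental_jMem F hj)
  have hWpos : 0 < Wd := Nat.pos_of_ne_zero (NeZero.ne Wd)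
  have hne : ∀ i (f : F), f ≠ 0 → P.e i f ≠ 0 := fun i f hf h0 =>
    hf ((RingHom.injective (P.e i)) (h0.trans (map_zero _).symm))
  obtain ⟨W, d, h1, h2, h3, -, -, -, h7, h8⟩ :=
    Fermat.Agent.P2.helper28.local_count_sep (K := K) (F := F) (jG F hj)⁻¹
      (Fermat.Agent.P2.helper95.ffl_finite_zeros (jG F hj)⁻¹ htr)
      (Fermat.Agent.P2.helper95.ffl_sum_ord_zeros (jG F hj)⁻¹ htr)
      (fun w s hw => Fermat.Agent.S24.helper82.ff_exists_separating (jG F hj)⁻¹ htr w s hw)
      (Valued.v : Valuation (LaurentSeries K) ℤᵐ⁰)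
      P.e P.e_inj (P.card.trans hrk.symm)
      (fun i c hc => by
        rw [P.e_C]
        exact Fermat.Agent.S24.helper80.laurent_valuation_C hc)
      (fun i j c => by rw [P.e_C, P.e_C])
      (fun i j => by rw [P.e_jInv, P.e_jInv])
      Wd hWpos
      (fun i => by
        rw [P.e_jInv,
          Fermat.Agent.S24.helper80.laurent_valuation_eq_exp_neg_order
            (inv_ne_zero (qExpand_j_ne_zeroG K Wd)),
          Fermat.Agent.P2.helper29.order_inv_field,
          Fermat.Agent.S28.helper81.order_qExpand_jqModC, neg_neg])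
      π P.pi_pow
      (fun i f => by rw [P.rot, Fermat.Agent.P2.helper28.valuation_rot])
      (fun i k' hk' hfix f hf => by
        have hy := hne i f hf
        have hrot : Fermat.Agent.P2.helper94.rot (P.u ^ (Wd / k')) (P.e i f) = P.e i f := by
          rw [← P.e_pow, hfix]
        have h1 := Fermat.Agent.P2.helper28.zpow_order_eq_one_of_rot_eq _ hy hrot
        rw [← zpow_natCast, ← zpow_mul] at h1
        have h2 : (Wd : ℤ) ∣ ((Wd / k' : ℕ) : ℤ) * (P.e i f).order := by
          have h0 := orderOf_dvd_iff_zpow_eq_one.mpr h1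
          rwa [P.hu] at h0
        have hk'pos : 0 < k' := Nat.pos_of_dvd_of_pos hk' hWpos
        obtain ⟨c, hc⟩ := hk'
        have hcpos : 0 < c := by
          rcases Nat.eq_zero_or_pos c with h0 | h0
          · rw [h0, mul_zero] at hc
            exact absurd hc (NeZero.ne Wd)
          · exact h0
        have h3 : Wd / k' = c := by
          rw [hc, Nat.mul_div_cancel_left _ hk'pos]
        rw [h3] at h2
        have h4 : (k' : ℤ) ∣ (P.e i f).order := by
          have h5 : ((k' * c : ℕ) : ℤ) ∣ (c : ℤ) * (P.e i f).order := by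
            rw [← hc]
            exact h2
          push_cast at h5
          rw [mul_comm (k' : ℤ) (c : ℤ)] at h5
          exact (mul_dvd_mul_iff_left (by exact_mod_cast hcpos.ne')).mp h5
        obtain ⟨e', he'⟩ := h4
        refine ⟨-e', ?_⟩
        rw [Fermat.Agent.S24.helper80.laurent_valuation_eq_exp_neg_order hy, he']
        congr 1
        ring)
  have hord : ∀ w : Place K F, w.ord (jG F hj)⁻¹ = -w.ord (jG F hj) := fun w => by
    rw [Place.ord_inv]
  refine ⟨W, ?_, ?_, h3, ?_, ?_⟩
  · intro i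
    have := h1 i
    rw [hord] at this
    omega
  · intro w hw
    apply h2
    rw [hord]
    omega
  · intro i f
    rw [h7 i, Valuation.mem_valuationSubring_iff, Valuation.comap_apply, valued_le_one_iffG]
  · refine (Nat.card_congr ?_).trans h8
    refine Equiv.subtypeEquivRight fun w => ?_
    rw [hord]
    omega

/-- the uniformizer `1 / j` at infinity has `q`-order `1` -/
theorem order_jInvG (F : IntermediateField K (LaurentSeries K)) (hj : jqModC K ∈ F) :
    (((jG F hj)⁻¹ : F) : LaurentSeries K).order = 1 := by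
  show ((jqModC K)⁻¹ : LaurentSeries K).order = 1
  rw [Fermat.Agent.P2.helper29.order_inv_field, Fermat.Agent.P2.helper29.order_jqModC]
  rfl

/-- a place whose regular functions are detected by the expansion at `i₀` is the place at
infinity -/
theorem isInfty_of_mem_iff (P : CosetExp F hj Wd π i₀) (w : Place K F)
    (hw : ∀ f : F, f ∈ w.toValuationSubring ↔ ∀ n : ℤ, n < 0 → (P.e i₀ f).coeff n = 0) :
    IsInfty w := by
  have hϖ : (((jG F hj)⁻¹ : F) : LaurentSeries K).order = 1 := order_jInvG F hj
  have hq := Fermat.Agent.P2.helper29.isInfty_qPlace F (jG F hj)⁻¹ hϖ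
  have : w = Fermat.Agent.P2.helper29.qPlace F (jG F hj)⁻¹ hϖ := by
    apply Place.ext
    ext f
    rw [hw f, P.e_i₀, coeff_neg_qExpand_iffG, ← order_nonneg_iff_coeffG]
    exact (Fermat.Agent.P2.helper29.mem_qSubring F).symm
  rw [this]
  exact hq

/-- **exact count of the cusps of one fibre**: the poles of `j` form a finite set with as many
elements as there are orbits of the rotation (the `c` of `helper4.TameBaseZeroStatement`). -/
theorem exists_poles (P : CosetExp F hj Wd π i₀) [IsAlgClosed K]
    [FiniteDimensional K⟮jG F hj⟯ F] :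
    ∃ T : Finset (Place K F), (∀ w : Place K F, w.ord (jG F hj) < 0 ↔ w ∈ T) ∧
      T.card = Nat.card (MulAction.orbitRel.Quotient (Subgroup.zpowers π) I) := by
  classical
  obtain ⟨W, h1, h2, -, -, h8⟩ := P.dict
  have hmem : ∀ w : Place K F, w.ord (jG F hj) < 0 ↔ w ∈ Finset.univ.image W := by
    intro w
    constructor
    · intro hw
      obtain ⟨i, rfl⟩ := h2 w hw
      exact Finset.mem_image_of_mem W (Finset.mem_univ i)
    · intro hw
      obtain ⟨i, -, rfl⟩ := Finset.mem_image.mp hw
      exact h1 i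
  refine ⟨Finset.univ.image W, hmem, ?_⟩
  rw [← h8, ← Fintype.card_coe, ← Nat.card_eq_fintype_card]
  exact Nat.card_congr (Equiv.subtypeEquivRight fun w => (hmem w).symm)

/-- the place at infinity exists and is the place induced by the expansion at `i₀` -/
theorem exists_isInfty (P : CosetExp F hj Wd π i₀) [IsAlgClosed K]
    [FiniteDimensional K⟮jG F hj⟯ F] :
    ∃ w : Place K F, IsInfty w ∧ w.ord (jG F hj) < 0 ∧
      ∀ f : F, f ∈ w.toValuationSubring ↔ ∀ n : ℤ, n < 0 → (P.e i₀ f).coeff n = 0 := by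
  obtain ⟨W, h1, -, -, h4, -⟩ := P.dict
  exact ⟨W i₀, P.isInfty_of_mem_iff (W i₀) (h4 i₀), h1 i₀, h4 i₀⟩

/-- the rotation fixes the coset of infinity -/
theorem pi_i₀ (P : CosetExp F hj Wd π i₀) : π i₀ = i₀ := by
  apply P.e_inj
  ext f : 1
  rw [P.rot, P.e_i₀, Fermat.Agent.P2.helper94.rot_qExpand Wd P.u P.u_pow]

end CosetExp

end OneFibre

/-! ### The pair: CuspReg and CuspBar -/

section Pair

variable (A : ValuationSubring Kb) (E : IntermediateField Kb (LaurentSeries Kb))
  (Eb : IntermediateField (kA A) (LaurentSeries (kA A)))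
  (hj : jqModC Kb ∈ E) (hjb : jqModC (kA A) ∈ Eb)
  {I : Type*} [Fintype I] {Wd : ℕ} [NeZero Wd] {π : Equiv.Perm I} {i₀ : I}

/-- **compatibility of the coset expansions with the reduction** (`q`-expansion principle):
for `Y ∈ A((q))` with `incl Y ∈ L(n ∞)` and `red Y ∈ Eb`, every coset expansion of `incl Y` is
`A`-integral, and its reduction is the coset expansion of `red Y`. -/
def CosetCompat (P : CosetExp E hj Wd π i₀) (Pb : CosetExp Eb hjb Wd π i₀) : Prop :=
  ∀ (Y : LaurentSeries A) (n : ℤ) (h : InL E n (incl A Y)) (hb : red A Y ∈ Eb) (i : I),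
    ∃ Yi : LaurentSeries A,
      P.e i ⟨incl A Y, h.1⟩ = incl A Yi ∧ Pb.e i ⟨red A Y, hb⟩ = red A Yi

variable {A E Eb hj hjb}

theorem coeff_incl_eq_zero_iff (Y : LaurentSeries A) (n : ℤ) :
    (incl A Y).coeff n = 0 ↔ Y.coeff n = 0 := by
  have h : (incl A Y).coeff n = A.subtype (Y.coeff n) := rfl
  rw [h]
  constructor
  · intro h0
    exact Subtype.ext h0
  · intro h0
    rw [h0, map_zero]

theorem coeff_red_eq_zero_of (Y : LaurentSeries A) (n : ℤ) (h : Y.coeff n = 0) :
    (red A Y).coeff n = 0 := by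
  have h1 : (red A Y).coeff n = IsLocalRing.residue A (Y.coeff n) := rfl
  rw [h1, h, map_zero]

/-- **[CUSP-REG]** for a pair `(E, Eb)` with compatible coset-expansion packages. -/
theorem cuspReg_of_pack
    [FiniteDimensional Kb⟮jG E hj⟯ E] [FiniteDimensional (kA A)⟮jG Eb hjb⟯ Eb]
    (P : CosetExp E hj Wd π i₀) (Pb : CosetExp Eb hjb Wd π i₀)
    (hC : CosetCompat A E Eb hj hjb P Pb) :
    Fermat.Agent.T4.helper4.CuspRegStatement A E Eb hjb := by
  haveI : IsAlgClosed (kA A) := Fermat.Agent.P2.helper74.isAlgClosed_residueField A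
  obtain ⟨W, -, -, hW3, hW4, -⟩ := P.dict
  obtain ⟨Wb, -, hb2, hb3, hb4, -⟩ := Pb.dict
  intro n Y hInL hmem Q hQ hInf
  obtain ⟨i, rfl⟩ := hb2 Q hQ
  -- the place `W i` of the generic fibre is not the place at infinity
  have hWi : ¬ IsInfty (W i) := by
    intro hi
    apply hInf
    have h0 : IsInfty (W i₀) := P.isInfty_of_mem_iff (W i₀) (hW4 i₀)
    have h1 : W i = W i₀ := Fermat.Agent.P2.helper29.IsInfty.unique E hi h0
    have h2 : i₀ ∈ MulAction.orbit (Subgroup.zpowers π) i := (hW3 i i₀).mp h1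
    have h3 : Wb i = Wb i₀ := (hb3 i i₀).mpr h2
    rw [h3]
    exact Pb.isInfty_of_mem_iff (Wb i₀) (hb4 i₀)
  obtain ⟨hf, hreg, hcoef⟩ := hInL
  have h4 : (⟨incl A Y, hf⟩ : E) ∈ (W i).toValuationSubring :=
    (Fermat.Agent.P2.helper95.place_mem_iff_ord_nonneg (W i)).mpr (hreg (W i) hWi)
  have h5 := (hW4 i _).mp h4
  obtain ⟨Yi, hYi, hYib⟩ := hC Y n ⟨hf, hreg, hcoef⟩ hmem i
  have h6 : ∀ m : ℤ, m < 0 → Yi.coeff m = 0 := fun m hm =>
    (coeff_incl_eq_zero_iff Yi m).mp (by rw [← hYi]; exact h5 m hm)
  have h7 : (⟨red A Y, hmem⟩ : Eb) ∈ (Wb i).toValuationSubring := by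
    rw [hb4 i, hYib]
    exact fun m hm => coeff_red_eq_zero_of Yi m (h6 m hm)
  exact (Fermat.Agent.P2.helper95.place_mem_iff_ord_nonneg (Wb i)).mp h7

/-- **[CUSP-BAR]** for a pair `(E, Eb)` with coset-expansion packages on the same index set
with the same rotation: both fibres have as many cusps as there are orbits of the rotation. -/
theorem cuspBar_of_pack
    [FiniteDimensional Kb⟮jG E hj⟯ E] [FiniteDimensional (kA A)⟮jG Eb hjb⟯ Eb]
    (P : CosetExp E hj Wd π i₀) (Pb : CosetExp Eb hjb Wd π i₀) :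
    Fermat.Agent.T4.helper4.CuspBarStatement A E Eb hj hjb := by
  classical
  haveI : IsAlgClosed (kA A) := Fermat.Agent.P2.helper74.isAlgClosed_residueField A
  obtain ⟨W, hW1, -, hW3, -, -⟩ := P.dict
  obtain ⟨Wb, -, hb2, hb3, -, -⟩ := Pb.dict
  refine ⟨Finset.univ.image Wb, Finset.univ.image W, ?_, ?_, ?_⟩
  · intro Q hQ
    obtain ⟨i, rfl⟩ := hb2 Q hQ
    exact Finset.mem_image_of_mem Wb (Finset.mem_univ i)
  · intro Q hQ
    obtain ⟨i, -, rfl⟩ := Finset.mem_image.mp hQ
    exact hW1 i
  · let g : Place (kA A) Eb → Place Kb E := fun Q =>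
      if h : ∃ i, Wb i = Q then W h.choose else W i₀
    have hg : ∀ i, g (Wb i) = W i := by
      intro i
      have hex : ∃ i', Wb i' = Wb i := ⟨i, rfl⟩
      show (if h : ∃ i', Wb i' = Wb i then W h.choose else W i₀) = W i
      rw [dif_pos hex]
      have h1 : i ∈ MulAction.orbit (Subgroup.zpowers π) hex.choose :=
        (hb3 _ _).mp hex.choose_spec
      exact (hW3 _ _).mpr h1
    apply Finset.card_le_card_of_injOn g
    · intro Q hQ
      obtain ⟨i, -, rfl⟩ := Finset.mem_image.mp (Finset.mem_coe.mp hQ)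
      rw [hg i]
      exact Finset.mem_coe.mpr (Finset.mem_image_of_mem W (Finset.mem_univ i))
    · intro Q hQ Q' hQ' hQQ'
      obtain ⟨i, -, rfl⟩ := Finset.mem_image.mp (Finset.mem_coe.mp hQ)
      obtain ⟨i', -, rfl⟩ := Finset.mem_image.mp (Finset.mem_coe.mp hQ')
      rw [hg i, hg i'] at hQQ'
      exact (hb3 _ _).mpr ((hW3 _ _).mp hQQ')

/-! ### With the finiteness instances from `DegStatement` -/

theorem finiteDimensional_of_deg (hDeg : Fermat.Agent.T4.helper4.DegStatement A E Eb hj hjb) :
    FiniteDimensional Kb⟮jG E hj⟯ E := hDeg.1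

theorem finiteDimensionalBar_of_deg
    (hDeg : Fermat.Agent.T4.helper4.DegStatement A E Eb hj hjb) :
    FiniteDimensional (kA A)⟮jG Eb hjb⟯ Eb := hDeg.2.1

/-- the field `card` of the special fibre follows from the one of the generic fibre and
`DegStatement` -/
theorem card_bar_of_deg (hDeg : Fermat.Agent.T4.helper4.DegStatement A E Eb hj hjb)
    (hcard : Fintype.card I = Module.finrank Kb⟮jG E hj⟯ E) :
    Fintype.card I = Module.finrank (kA A)⟮jG Eb hjb⟯ Eb :=
  hcard.trans hDeg.2.2.2.symm

/-- **[CUSP-REG]** from `DegStatement` and compatible coset-expansion packages. -/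
theorem cuspReg_of_deg (hDeg : Fermat.Agent.T4.helper4.DegStatement A E Eb hj hjb)
    (P : CosetExp E hj Wd π i₀) (Pb : CosetExp Eb hjb Wd π i₀)
    (hC : CosetCompat A E Eb hj hjb P Pb) :
    Fermat.Agent.T4.helper4.CuspRegStatement A E Eb hjb :=
  haveI := finiteDimensional_of_deg hDeg
  haveI := finiteDimensionalBar_of_deg hDeg
  cuspReg_of_pack P Pb hC

/-- **[CUSP-BAR]** from `DegStatement` and coset-expansion packages. -/
theorem cuspBar_of_deg (hDeg : Fermat.Agent.T4.helper4.DegStatement A E Eb hj hjb)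
    (P : CosetExp E hj Wd π i₀) (Pb : CosetExp Eb hjb Wd π i₀) :
    Fermat.Agent.T4.helper4.CuspBarStatement A E Eb hj hjb :=
  haveI := finiteDimensional_of_deg hDeg
  haveI := finiteDimensionalBar_of_deg hDeg
  cuspBar_of_pack P Pb

/-- **[REG-RED-side]**: with the packages, the poles of `j` of the generic fibre are counted by
the orbits of the rotation (`T₀` and `c` of `helper4.TameBaseZeroStatement`). -/
theorem exists_poles_zero [FiniteDimensional Kb⟮jG E hj⟯ E] (P : CosetExp E hj Wd π i₀) :
    ∃ T₀ : Finset (Place Kb E),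
      (∀ Q : Place Kb E, Q.ord (Fermat.Agent.T4.helper4.jEl E hj) < 0 ↔ Q ∈ T₀) ∧
      T₀.card = Nat.card (MulAction.orbitRel.Quotient (Subgroup.zpowers π) I) :=
  P.exists_poles

end Pair

end Fermat.Agent.T4.helper18
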