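import Mathlib
import Fermat.Agent.P2.helper81_ValScale
import Fermat.Agent.T4.helper4_RedDefs

/-!
# T4 block (I), I-RED [VAL], generic part 1 (helper43, row 1130)

Generic port of P2 `helper81_ValGen / ValRed / ValField / ValScale` to a pair `(E, Eb)` of
`helper4_RedDefs` under `helper4.PrimStatement A E Eb`:

* `redMem_G   : PrimStatement A E Eb → RedMemStatement A E Eb`            (**[V1]**)
* `scale_G    : PrimStatement A E Eb → ScaleStatement A E Eb`             (**[VAL-SC]**)
* `deg_G      : PrimStatement A E Eb → DegStatement A E Eb hj hjb`        (**[DEG]**)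

and the tools for the second half ([VAL-INT], [VAL-UE]; helper41): the structure `PrimPack`
(an unpacked `PrimStatement`), `PrimPack.exists_eq_ev₂` (GEN), `PrimPack.exists_primitive_quot`,
`PrimPack.exists_primitive_repr` (orthonormality), `PrimPack.red_mul_eq_of_repr`,
`PrimPack.isGood_aeval`, `PrimPack.isGood_ev₂`, `PrimPack.eq_zero_of_evBar_eq_zero`.
-/

set_option autoImplicit false
set_option linter.style.haveILetI false
set_option linter.unusedSectionVars false
set_option linter.unusedVariables false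

open ModularCurve Polynomial IntermediateField

noncomputable section

namespace Fermat.Agent.T4.helper43

open Fermat.Agent.S24 Fermat.Agent.S28.helper94 Fermat.Agent.S28.helper81
open Fermat.Agent.S28
open Fermat.Agent.S18.helper19 (Kb kA)
open Fermat.Agent.P2.helper29 (incl red)
open Fermat.Agent.P2.helper81 (ev₂ ev₂_apply ev₂_C ev₂_X jA jK jBar coeffMap_jA red_jA
  red_aeval red_algebraMap transcendental_jK transcendental_jBar aeval_jA_ne_zero
  aeval_jBar_ne_zero mul_left_cancel_laurentA algebraMap_laurentA_ne_zero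
  coeffMap_subtype_injective exists_scale₁ exists_scale₂ map_ne_zero_of_coeff_eq_one
  map₂_ne_zero_of_coeff_eq_one eq_zero_of_ev₂_eq_zero_of_natDegree_lt incl_algebraMap
  finiteDimensional_of_pair finrank_of_pair isSeparable_of_pair algHom_ev₂
  adjoin_pair_eq_top_of_val)
open Fermat.Agent.T4.helper4

/-- an unpacked `helper4.PrimStatement` -/
structure PrimPack (A : ValuationSubring Kb) (E : IntermediateField Kb (LaurentSeries Kb))
    (Eb : IntermediateField (kA A) (LaurentSeries (kA A))) (θ : LaurentSeries A)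
    (Φ : Polynomial (Polynomial A)) : Prop where
  monic : Φ.Monic
  root : ev₂ (jA A) θ Φ = 0
  hE : E = IntermediateField.adjoin Kb {jqModC Kb, incl A θ}
  hEb : Eb = IntermediateField.adjoin (kA A) {jqModC (kA A), red A θ}
  irrK : Irreducible (Φ.map (Polynomial.mapRingHom A.subtype))
  irrB : Irreducible (Φ.map (Polynomial.mapRingHom (IsLocalRing.residue A)))
  der : ev₂ (jBar A) (red A θ)
    (Polynomial.derivative (Φ.map (Polynomial.mapRingHom (IsLocalRing.residue A)))) ≠ 0

theorem primStatement_iff (A : ValuationSubring Kb) (E : IntermediateField Kb (LaurentSeries Kb))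
    (Eb : IntermediateField (kA A) (LaurentSeries (kA A))) :
    PrimStatement A E Eb ↔ ∃ θ Φ, PrimPack A E Eb θ Φ := by
  constructor
  · rintro ⟨θ, Φ, h1, h2, h3, h4, h5, h6, h7⟩
    exact ⟨θ, Φ, ⟨h1, h2, h3, h4, h5, h6, h7⟩⟩
  · rintro ⟨θ, Φ, ⟨h1, h2, h3, h4, h5, h6, h7⟩⟩
    exact ⟨θ, Φ, h1, h2, h3, h4, h5, h6, h7⟩

namespace PrimPack

variable {A : ValuationSubring Kb} {E : IntermediateField Kb (LaurentSeries Kb)}
  {Eb : IntermediateField (kA A) (LaurentSeries (kA A))} {θ : LaurentSeries A}
  {Φ : Polynomial (Polynomial A)} (H : PrimPack A E Eb θ Φ)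

include H

/-! ### Basic transfer -/

theorem natDegree_pos : 0 < Φ.natDegree := by
  by_contra h0
  have h1 : Φ.natDegree = 0 := by omega
  have h2 : Φ = 1 := by
    have := Polynomial.eq_C_of_natDegree_eq_zero h1
    have hm := H.monic
    rw [Polynomial.Monic, Polynomial.leadingCoeff, h1] at hm
    rw [this, hm, map_one]
  have h3 := H.irrB
  rw [h2, Polynomial.map_one] at h3
  exact h3.not_isUnit isUnit_one

theorem jK_mem : jqModC Kb ∈ E := by
  rw [H.hE]
  exact IntermediateField.subset_adjoin Kb _ (Set.mem_insert _ _)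

theorem thetaK_mem : incl A θ ∈ E := by
  rw [H.hE]
  exact IntermediateField.subset_adjoin Kb _ (Set.mem_insert_of_mem _ rfl)

theorem jB_mem : jqModC (kA A) ∈ Eb := by
  rw [H.hEb]
  exact IntermediateField.subset_adjoin _ _ (Set.mem_insert _ _)

theorem thetaB_mem : red A θ ∈ Eb := by
  rw [H.hEb]
  exact IntermediateField.subset_adjoin _ _ (Set.mem_insert_of_mem _ rfl)

omit H in
theorem red_ev₂ (θ : LaurentSeries A) (G : Polynomial (Polynomial A)) :
    red A (ev₂ (jA A) θ G) =
      ev₂ (jBar A) (red A θ) (G.map (Polynomial.mapRingHom (IsLocalRing.residue A))) := by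
  rw [ev₂_apply, helper25.coeffMap_eval₂_aeval, ModularCurve.coeffMap_jqModC]
  rfl

omit H in
theorem incl_ev₂ (θ : LaurentSeries A) (G : Polynomial (Polynomial A)) :
    incl A (ev₂ (jA A) θ G) =
      ev₂ (jK) (incl A θ) (G.map (Polynomial.mapRingHom A.subtype)) := by
  rw [ev₂_apply, helper25.coeffMap_eval₂_aeval, ModularCurve.coeffMap_jqModC]
  rfl

omit H in
theorem incl_aeval (s : Polynomial A) :
    incl A (aeval (jA A) s) = aeval jK (s.map A.subtype) := by
  rw [helper25.coeffMap_aeval, ModularCurve.coeffMap_jqModC]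

theorem rootB : ev₂ (jBar A) (red A θ)
    (Φ.map (Polynomial.mapRingHom (IsLocalRing.residue A))) = 0 := by
  rw [← red_ev₂, H.root, map_zero]

theorem rootK : ev₂ jK (incl A θ) (Φ.map (Polynomial.mapRingHom A.subtype)) = 0 := by
  rw [← incl_ev₂, H.root, map_zero]

/-- **linear independence in characteristic `ℓ`** -/
theorem eq_zero_of_evBar_eq_zero (G : Polynomial (Polynomial (kA A)))
    (hdeg : G.natDegree < Φ.natDegree) (hG : ev₂ (jBar A) (red A θ) G = 0) : G = 0 :=
  eq_zero_of_ev₂_eq_zero_of_natDegree_lt (jBar A) (red A θ) (transcendental_jBar A)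
    _ (H.monic.map _) H.irrB H.rootB G hG (by rw [(H.monic).natDegree_map]; exact hdeg)

/-! ### GEN -/

section AX

attribute [local instance] FractionRing.liftAlgebra FractionRing.isScalarTower_liftAlgebra

/-- `j` as an element of `E` -/
def jE : E := ⟨jqModC Kb, H.jK_mem⟩

/-- `θ` as an element of `E` -/
def thetaE : E := ⟨incl A θ, H.thetaK_mem⟩

/-- the structure map `A[X] → E`, `X ↦ j` -/
def evX : Polynomial A →+* E :=
  eval₂RingHom ((algebraMap Kb E).comp A.subtype) H.jE

theorem evX_C (a : A) : H.evX (C a) = algebraMap Kb E (a : Kb) := by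
  simp [evX]

theorem evX_X : H.evX X = H.jE := by
  simp [evX]

theorem coe_evX (p : Polynomial A) :
    ((H.evX p : E) : LaurentSeries Kb) = incl A (aeval (jA A) p) := by
  have : (algebraMap E (LaurentSeries Kb)).comp H.evX =
      (coeffMap A.subtype).comp
        ((aeval (jA A) : Polynomial A →ₐ[A] LaurentSeries A) :
          Polynomial A →+* LaurentSeries A) := by
    apply Polynomial.ringHom_ext
    · intro a
      simp only [RingHom.coe_comp, Function.comp_apply, evX_C, RingHom.coe_coe, aeval_C]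
      rw [helper25.coeffMap_algebraMap_laurent]
      rfl
    · simp only [RingHom.coe_comp, Function.comp_apply, evX_X, RingHom.coe_coe, aeval_X]
      rw [coeffMap_jA]
      rfl
  exact congrArg (fun g => g p) this

theorem evX_injective : Function.Injective H.evX := by
  rw [injective_iff_map_eq_zero]
  intro p hp
  have h1 := H.coe_evX p
  rw [hp, ZeroMemClass.coe_zero, incl_aeval] at h1
  have h2 := transcendental_iff_injective.mp transcendental_jK
  have h3 : p.map A.subtype = 0 := h2 (by rw [← h1, map_zero])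
  exact (Polynomial.map_eq_zero_iff Subtype.val_injective).mp h3

/-- the `A[X]`-algebra structure on `E` -/
@[reducible] def algAX : Algebra (Polynomial A) E := H.evX.toAlgebra

theorem coe_aeval_thetaE (G : Polynomial (Polynomial A)) :
    letI := H.algAX
    ((aeval H.thetaE G : E) : LaurentSeries Kb) = incl A (ev₂ (jA A) θ G) := by
  letI := H.algAX
  have : (algebraMap E (LaurentSeries Kb)).comp
      ((aeval H.thetaE : Polynomial (Polynomial A) →ₐ[Polynomial A] E) :
        Polynomial (Polynomial A) →+* E) =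
      (coeffMap A.subtype).comp (ev₂ (jA A) θ) := by
    apply Polynomial.ringHom_ext
    · intro p
      simp only [RingHom.coe_comp, Function.comp_apply, RingHom.coe_coe, aeval_C, ev₂_C]
      exact H.coe_evX p
    · simp only [RingHom.coe_comp, Function.comp_apply, RingHom.coe_coe, aeval_X, ev₂_X]
      rfl
  exact congrArg (fun g => g G) this

theorem aeval_thetaE_Phi : letI := H.algAX; aeval H.thetaE Φ = 0 := by
  letI := H.algAX
  apply Subtype.val_injective
  rw [H.coe_aeval_thetaE, H.root, map_zero]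
  rfl

theorem isIntegral_thetaE : letI := H.algAX; IsIntegral (Polynomial A) H.thetaE := by
  letI := H.algAX
  exact ⟨Φ, H.monic, H.aeval_thetaE_Phi⟩

/-- **generation**: `E = Frac(A[X])[θ]` -/
theorem adjoin_fractionRing_eq_top :
    letI := H.algAX
    haveI : FaithfulSMul (Polynomial A) E :=
      (faithfulSMul_iff_algebraMap_injective _ _).mpr H.evX_injective
    Algebra.adjoin (FractionRing (Polynomial A)) {H.thetaE} = ⊤ := by
  letI := H.algAX
  haveI : FaithfulSMul (Polynomial A) E :=
    (faithfulSMul_iff_algebraMap_injective _ _).mpr H.evX_injective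
  have hθint : IsIntegral (Polynomial A) H.thetaE := H.isIntegral_thetaE
  have hθK : IsIntegral (FractionRing (Polynomial A)) H.thetaE := hθint.tower_top
  rw [← IntermediateField.adjoin_simple_toSubalgebra_of_isAlgebraic hθK.isAlgebraic]
  rw [eq_top_iff]
  intro f _
  rw [IntermediateField.mem_toSubalgebra]
  set S : Subfield (LaurentSeries Kb) :=
    ((IntermediateField.adjoin (FractionRing (Polynomial A)) {H.thetaE}).toSubfield).map
      (algebraMap E (LaurentSeries Kb)) with hS
  have hconst : ∀ a : A, algebraMap Kb E (a : Kb) ∈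
      IntermediateField.adjoin (FractionRing (Polynomial A)) {H.thetaE} := by
    intro a
    have : algebraMap Kb E (a : Kb) =
        algebraMap (FractionRing (Polynomial A)) E
          (algebraMap (Polynomial A) (FractionRing (Polynomial A)) (C a)) := by
      rw [← IsScalarTower.algebraMap_apply]
      exact (H.evX_C a).symm
    rw [this]
    exact IntermediateField.algebraMap_mem _ _
  have hle : Subfield.closure (Set.range (algebraMap Kb (LaurentSeries Kb)) ∪
      {jK, incl A θ}) ≤ S := by
    rw [Subfield.closure_le]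
    rintro y (⟨c, rfl⟩ | hy)
    · obtain ⟨a, b, hb, rfl⟩ := IsFractionRing.div_surjective (A := A) c
      refine ⟨algebraMap Kb E (algebraMap A Kb a / algebraMap A Kb b), ?_, rfl⟩
      rw [map_div₀]
      exact div_mem (hconst a) (hconst b)
    · rcases hy with rfl | rfl
      · refine ⟨H.jE, ?_, rfl⟩
        change H.jE ∈ IntermediateField.adjoin (FractionRing (Polynomial A)) {H.thetaE}
        have hx : H.jE = algebraMap (FractionRing (Polynomial A)) E
            (algebraMap (Polynomial A) (FractionRing (Polynomial A)) X) := by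
          rw [← IsScalarTower.algebraMap_apply]
          exact H.evX_X.symm
        rw [hx]
        exact IntermediateField.algebraMap_mem _ _
      · refine ⟨H.thetaE, ?_, rfl⟩
        exact IntermediateField.mem_adjoin_simple_self _ _
  have hfE : (f : LaurentSeries Kb) ∈ IntermediateField.adjoin Kb {jK, incl A θ} :=
    (SetLike.le_def.1 H.hE.le) f.2
  have hfcl : (f : LaurentSeries Kb) ∈ Subfield.closure
      (Set.range (algebraMap Kb (LaurentSeries Kb)) ∪ {jK, incl A θ}) := hfE
  obtain ⟨g, hg, hgf⟩ := hle hfcl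
  have : g = f := Subtype.val_injective hgf
  rw [← this]
  exact hg

/-- **GEN**: every `f ∈ E` satisfies `s(j) f = G(j, θ)` with `0 ≠ s ∈ A[X]`,
`G ∈ A[X][Y]`, `deg_Y G < n`. -/
theorem exists_eq_ev₂ (f : E) :
    ∃ (s : Polynomial A) (G : Polynomial (Polynomial A)), s ≠ 0 ∧ G.natDegree < Φ.natDegree ∧
      incl A (aeval (jA A) s) * (f : LaurentSeries Kb) = incl A (ev₂ (jA A) θ G) := by
  letI := H.algAX
  haveI : FaithfulSMul (Polynomial A) E :=
    (faithfulSMul_iff_algebraMap_injective _ _).mpr H.evX_injective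
  have hgen := H.adjoin_fractionRing_eq_top
  have hf : f ∈ Algebra.adjoin (FractionRing (Polynomial A)) {H.thetaE} := by
    rw [hgen]; exact Algebra.mem_top
  rw [Algebra.adjoin_singleton_eq_range_aeval] at hf
  obtain ⟨p, hp⟩ := hf
  set Φ' := Φ.map (algebraMap (Polynomial A) (FractionRing (Polynomial A))) with hΦ'
  have hΦ'm : Φ'.Monic := H.monic.map _
  have hΦ'0 : aeval H.thetaE Φ' = 0 := by
    rw [hΦ', aeval_map_algebraMap]; exact H.aeval_thetaE_Phi
  have hΦ'deg : Φ'.natDegree = Φ.natDegree := by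
    rw [hΦ', H.monic.natDegree_map]
  have hΦ'1 : Φ' ≠ 1 := by
    intro h1
    have := H.natDegree_pos
    rw [← hΦ'deg, h1, natDegree_one] at this
    exact lt_irrefl _ this
  set p₁ := p %ₘ Φ' with hp₁
  have hp₁f : aeval H.thetaE p₁ = f := by
    rw [hp₁, aeval_modByMonic_eq_self_of_root hΦ'0]; exact hp
  have hp₁deg : p₁.natDegree < Φ.natDegree := by
    rw [← hΦ'deg]; exact natDegree_modByMonic_lt _ hΦ'm hΦ'1
  obtain ⟨b, hb, hG⟩ := IsLocalization.integerNormalization_spec
    (nonZeroDivisors (Polynomial A)) p₁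
  set G := IsLocalization.integerNormalization (nonZeroDivisors (Polynomial A)) p₁ with hGdef
  have hinj := IsFractionRing.injective (Polynomial A) (FractionRing (Polynomial A))
  refine ⟨b, G, nonZeroDivisors.ne_zero hb, ?_, ?_⟩
  · rw [← natDegree_map_eq_of_injective hinj G, hG]
    exact lt_of_le_of_lt (natDegree_smul_le _ _) hp₁deg
  · have h1 : aeval H.thetaE G = H.evX b * f := by
      rw [← aeval_map_algebraMap (FractionRing (Polynomial A)), hG, Algebra.smul_def,
        map_mul, hp₁f, IsScalarTower.algebraMap_apply (Polynomial A)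
          (FractionRing (Polynomial A)) (Polynomial (FractionRing (Polynomial A))),
        Polynomial.algebraMap_apply, Algebra.algebraMap_self_apply, aeval_C,
        ← IsScalarTower.algebraMap_apply]
      rfl
    have h2 := congrArg (fun z : E => (z : LaurentSeries Kb)) h1
    simp only [MulMemClass.coe_mul] at h2
    rw [H.coe_aeval_thetaE, H.coe_evX] at h2
    exact h2.symm

end AX

/-! ### [V1] -/

omit H in
theorem aeval_mem_adjoin_bar (θb : LaurentSeries (kA A)) (p : Polynomial (kA A)) :
    aeval (jBar A) p ∈ IntermediateField.adjoin (kA A) {jBar A, θb} := by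
  rw [aeval_eq_sum_range]
  refine sum_mem fun i _ => ?_
  rw [Algebra.smul_def]
  exact mul_mem (IntermediateField.algebraMap_mem _ _)
    (pow_mem (IntermediateField.subset_adjoin _ _ (Set.mem_insert _ _)) _)

omit H in
theorem ev₂_mem_adjoin_bar (θb : LaurentSeries (kA A)) (G : Polynomial (Polynomial (kA A))) :
    ev₂ (jBar A) θb G ∈ IntermediateField.adjoin (kA A) {jBar A, θb} := by
  rw [ev₂_apply]
  exact eval₂_mem_of_subringClass _ _ (fun a => aeval_mem_adjoin_bar θb a) _
    (IntermediateField.subset_adjoin _ _ (Set.mem_insert_of_mem _ rfl)) G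

theorem aeval_mem_Eb (p : Polynomial (kA A)) : aeval (jBar A) p ∈ Eb := by
  rw [H.hEb]
  exact aeval_mem_adjoin_bar _ p

theorem ev₂_mem_Eb (G : Polynomial (Polynomial (kA A))) : ev₂ (jBar A) (red A θ) G ∈ Eb := by
  rw [H.hEb]
  exact ev₂_mem_adjoin_bar _ G

/-- **[V1]** the reduction of an `A`-integral `q`-expansion of an element of `E` lies in
`Eb`. -/
theorem red_mem (y : LaurentSeries A) (hy : incl A y ∈ E) : red A y ∈ Eb := by
  obtain ⟨s, G, hs, hdeg, h⟩ := H.exists_eq_ev₂ ⟨_, hy⟩
  rw [← map_mul] at h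
  have hAeq : aeval (jA A) s * y = ev₂ (jA A) θ G := coeffMap_subtype_injective A h
  by_cases hG : G = 0
  · rw [hG, map_zero] at hAeq
    have hy0 : y = 0 := by
      apply mul_left_cancel_laurentA A (aeval_jA_ne_zero A s hs)
      rw [hAeq, mul_zero]
    rw [hy0, map_zero]
    exact zero_mem _
  obtain ⟨c, s₁, i, hc, hs₁, hi⟩ := exists_scale₁ s hs
  obtain ⟨c', G₁, i', j', hc', hG₁, hij⟩ := exists_scale₂ G hG
  have hs₁bar : s₁.map (IsLocalRing.residue A) ≠ 0 := map_ne_zero_of_coeff_eq_one _ s₁ i hi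
  have hG₁bar : G₁.map (Polynomial.mapRingHom (IsLocalRing.residue A)) ≠ 0 :=
    map₂_ne_zero_of_coeff_eq_one _ G₁ i' j' hij
  have hG₁deg : (G₁.map (Polynomial.mapRingHom (IsLocalRing.residue A))).natDegree <
      Φ.natDegree := by
    refine lt_of_le_of_lt Polynomial.natDegree_map_le ?_
    have : G.natDegree = G₁.natDegree := by
      rw [hG₁]
      exact Polynomial.natDegree_C_mul (by simpa using hc')
    rw [← this]; exact hdeg
  have hev : ev₂ (jBar A) (red A θ)
      (G₁.map (Polynomial.mapRingHom (IsLocalRing.residue A))) ≠ 0 := fun h0 =>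
    hG₁bar (H.eq_zero_of_evBar_eq_zero _ hG₁deg h0)
  have hsb : aeval (jBar A) (s₁.map (IsLocalRing.residue A)) ≠ 0 :=
    aeval_jBar_ne_zero A _ hs₁bar
  have hAeq' : algebraMap A (LaurentSeries A) c * (aeval (jA A) s₁ * y) =
      algebraMap A (LaurentSeries A) c' * ev₂ (jA A) θ G₁ := by
    have h1 : aeval (jA A) s = algebraMap A (LaurentSeries A) c * aeval (jA A) s₁ := by
      rw [hs₁, map_mul, aeval_C]
    have h2 : ev₂ (jA A) θ G =
        algebraMap A (LaurentSeries A) c' * ev₂ (jA A) θ G₁ := by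
      rw [hG₁, map_mul, ev₂_C, aeval_C]
    rw [← h2, ← hAeq, h1, mul_assoc]
  rcases ValuationRing.dvd_total c c' with ⟨u, hu⟩ | ⟨u, hu⟩
  · -- `c' = c u`
    have h3 : aeval (jA A) s₁ * y =
        algebraMap A (LaurentSeries A) u * ev₂ (jA A) θ G₁ := by
      apply mul_left_cancel_laurentA A (algebraMap_laurentA_ne_zero A hc)
      rw [hAeq', hu, map_mul, mul_assoc]
    have h4 := congrArg (red A) h3
    rw [map_mul, map_mul, red_aeval, red_ev₂, red_algebraMap] at h4
    have h5 : red A y = (aeval (jBar A) (s₁.map (IsLocalRing.residue A)))⁻¹ *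
        (algebraMap (kA A) (LaurentSeries (kA A)) (IsLocalRing.residue A u) *
          ev₂ (jBar A) (red A θ)
            (G₁.map (Polynomial.mapRingHom (IsLocalRing.residue A)))) := by
      rw [← h4, inv_mul_cancel_left₀ hsb]
    rw [h5]
    exact mul_mem (inv_mem (H.aeval_mem_Eb _))
      (mul_mem (IntermediateField.algebraMap_mem _ _) (H.ev₂_mem_Eb _))
  · -- `c = c' u`
    have h3 : algebraMap A (LaurentSeries A) u * (aeval (jA A) s₁ * y) =
        ev₂ (jA A) θ G₁ := by
      apply mul_left_cancel_laurentA A (algebraMap_laurentA_ne_zero A hc')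
      rw [← hAeq', hu, map_mul, mul_assoc]
    have h4 := congrArg (red A) h3
    rw [map_mul, map_mul, red_aeval, red_ev₂, red_algebraMap] at h4
    have hu0 : algebraMap (kA A) (LaurentSeries (kA A)) (IsLocalRing.residue A u) ≠ 0 := by
      intro h0
      rw [h0, zero_mul] at h4
      exact hev h4.symm
    have h5 : red A y = (algebraMap (kA A) (LaurentSeries (kA A)) (IsLocalRing.residue A u) *
        aeval (jBar A) (s₁.map (IsLocalRing.residue A)))⁻¹ *
          ev₂ (jBar A) (red A θ)
            (G₁.map (Polynomial.mapRingHom (IsLocalRing.residue A))) := by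
      rw [← h4, ← mul_assoc (algebraMap (kA A) (LaurentSeries (kA A)) (IsLocalRing.residue A u)),
        inv_mul_cancel_left₀ (mul_ne_zero hu0 hsb)]
    rw [h5]
    exact mul_mem (inv_mem (mul_mem (IntermediateField.algebraMap_mem _ _)
      (H.aeval_mem_Eb _))) (H.ev₂_mem_Eb _)

/-! ### [VAL-SC] -/

theorem incl_aeval_mem (s : Polynomial A) : incl A (aeval (jA A) s) ∈ E := by
  rw [← H.coe_evX s]
  exact SetLike.coe_mem _

theorem incl_ev₂_mem (G : Polynomial (Polynomial A)) : incl A (ev₂ (jA A) θ G) ∈ E := by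
  letI := H.algAX
  rw [← H.coe_aeval_thetaE G]
  exact SetLike.coe_mem _

theorem red_aeval_mem (s : Polynomial A) : red A (aeval (jA A) s) ∈ Eb := by
  rw [red_aeval]
  exact H.aeval_mem_Eb _

theorem red_ev₂_mem (G : Polynomial (Polynomial A)) : red A (ev₂ (jA A) θ G) ∈ Eb := by
  rw [red_ev₂]
  exact H.ev₂_mem_Eb _

/-- a polynomial in `j` with nonzero reduction is a good series -/
theorem isGood_aeval (s : Polynomial A) (hs : s.map (IsLocalRing.residue A) ≠ 0) :
    IsGood A E Eb (aeval (jA A) s) := by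
  refine ⟨H.incl_aeval_mem s, H.red_aeval_mem s, ?_⟩
  have := aeval_jBar_ne_zero A _ hs
  rwa [← red_aeval] at this

/-- a polynomial in `j, θ` of `θ`-degree `< n` with nonzero reduction is a good series -/
theorem isGood_ev₂ (G : Polynomial (Polynomial A)) (hdeg : G.natDegree < Φ.natDegree)
    (hG : G.map (Polynomial.mapRingHom (IsLocalRing.residue A)) ≠ 0) :
    IsGood A E Eb (ev₂ (jA A) θ G) := by
  refine ⟨H.incl_ev₂_mem G, H.red_ev₂_mem G, ?_⟩
  intro h0
  have h1 : ev₂ (jBar A) (red A θ)
      (G.map (Polynomial.mapRingHom (IsLocalRing.residue A))) = 0 := by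
    rw [← red_ev₂]; exact h0
  exact hG (H.eq_zero_of_evBar_eq_zero _
    (lt_of_le_of_lt Polynomial.natDegree_map_le hdeg) h1)

/-- **primitive representation**: every nonzero `f ∈ E` is
`(c'/c) · G₁(j, θ) / s₁(j)` with primitive `s₁ ∈ A[X]`, `G₁ ∈ A[X][Y]`, `deg_Y G₁ < n`. -/
theorem exists_primitive_quot (f : LaurentSeries Kb) (hf : f ∈ E) (hf0 : f ≠ 0) :
    ∃ (c c' : A) (s₁ : Polynomial A) (G₁ : Polynomial (Polynomial A)),
      c ≠ 0 ∧ c' ≠ 0 ∧ s₁.map (IsLocalRing.residue A) ≠ 0 ∧ G₁.natDegree < Φ.natDegree ∧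
      G₁.map (Polynomial.mapRingHom (IsLocalRing.residue A)) ≠ 0 ∧
      algebraMap Kb (LaurentSeries Kb) (c : Kb) * incl A (aeval (jA A) s₁) * f =
        algebraMap Kb (LaurentSeries Kb) (c' : Kb) * incl A (ev₂ (jA A) θ G₁) := by
  obtain ⟨s, G, hs, hdeg, h⟩ := H.exists_eq_ev₂ ⟨f, hf⟩
  have hG : G ≠ 0 := by
    rintro rfl
    rw [map_zero, map_zero] at h
    rcases mul_eq_zero.mp h with h1 | h1
    · exact aeval_jA_ne_zero A s hs (coeffMap_subtype_injective A (by rw [h1, map_zero]))
    · exact hf0 h1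
  obtain ⟨c, s₁, i, hc, hs₁, hi⟩ := exists_scale₁ s hs
  obtain ⟨c', G₁, i', j', hc', hG₁, hij⟩ := exists_scale₂ G hG
  refine ⟨c, c', s₁, G₁, hc, hc', map_ne_zero_of_coeff_eq_one _ s₁ i hi, ?_,
    map₂_ne_zero_of_coeff_eq_one _ G₁ i' j' hij, ?_⟩
  · have : G.natDegree = G₁.natDegree := by
      rw [hG₁]
      exact Polynomial.natDegree_C_mul (by simpa using hc')
    rw [← this]; exact hdeg
  · have h1 : aeval (jA A) s = algebraMap A (LaurentSeries A) c * aeval (jA A) s₁ := by
      rw [hs₁, map_mul, aeval_C]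
    have h2 : ev₂ (jA A) θ G =
        algebraMap A (LaurentSeries A) c' * ev₂ (jA A) θ G₁ := by
      rw [hG₁, map_mul, ev₂_C, aeval_C]
    rw [h1, h2, map_mul, map_mul, incl_algebraMap, incl_algebraMap] at h
    exact h

/-- **[VAL-SC]** -/
theorem scale : ScaleStatement A E Eb := by
  intro f hf hf0
  obtain ⟨c, c', s₁, G₁, hc, hc', hs₁, hdeg, hG₁, h⟩ := H.exists_primitive_quot f hf hf0
  have hcK : (c : Kb) ≠ 0 := fun h0 => hc (Subtype.ext h0)
  have hc'K : (c' : Kb) ≠ 0 := fun h0 => hc' (Subtype.ext h0)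
  refine ⟨(c' : Kb) / (c : Kb), ev₂ (jA A) θ G₁, aeval (jA A) s₁,
    div_ne_zero hc'K hcK, H.isGood_ev₂ G₁ hdeg hG₁, H.isGood_aeval s₁ hs₁, ?_⟩
  have hcL : algebraMap Kb (LaurentSeries Kb) (c : Kb) ≠ 0 := by
    rw [Ne, map_eq_zero]; exact hcK
  apply mul_left_cancel₀ hcL
  rw [← mul_assoc, ← map_mul, mul_div_cancel₀ _ hcK]
  rw [← h]
  ring

/-- **ORTHONORMALITY.**  A `w`-integral `f ∈ E` satisfies `s(j) f = G(j, θ)` with `s ∈ A[X]`
PRIMITIVE (nonzero reduction) and `G ∈ A[X][Y]`, `deg_Y G < n`. -/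
theorem exists_primitive_repr (f : LaurentSeries Kb) (hf : f ∈ E) (hw : IsWInt A E Eb f) :
    ∃ (s : Polynomial A) (G : Polynomial (Polynomial A)),
      s.map (IsLocalRing.residue A) ≠ 0 ∧ G.natDegree < Φ.natDegree ∧
      incl A (aeval (jA A) s) * f = incl A (ev₂ (jA A) θ G) := by
  by_cases hf0 : f = 0
  · refine ⟨1, 0, ?_, ?_, ?_⟩
    · rw [Polynomial.map_one]; exact one_ne_zero
    · rw [natDegree_zero]; exact H.natDegree_pos
    · rw [hf0, mul_zero, map_zero, map_zero]
  obtain ⟨c, c', s₁, G₁, hc, hc', hs₁, hdeg, hG₁, h⟩ := H.exists_primitive_quot f hf hf0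
  have hcK : (c : Kb) ≠ 0 := fun h0 => hc (Subtype.ext h0)
  have hc'K : (c' : Kb) ≠ 0 := fun h0 => hc' (Subtype.ext h0)
  -- the case `c' = c u`
  have key : ∀ u : A, c' = c * u →
      incl A (aeval (jA A) s₁) * f = incl A (ev₂ (jA A) θ (C (C u) * G₁)) := by
    intro u hu
    have hcL : algebraMap Kb (LaurentSeries Kb) (c : Kb) ≠ 0 := by
      rw [Ne, map_eq_zero]; exact hcK
    apply mul_left_cancel₀ hcL
    rw [← mul_assoc, h, map_mul, ev₂_C, aeval_C, map_mul, incl_algebraMap, ← mul_assoc,
      ← map_mul, hu]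
    rfl
  have hdeg' : ∀ u : A, (C (C u) * G₁).natDegree < Φ.natDegree := fun u =>
    lt_of_le_of_lt (Polynomial.natDegree_C_mul_le _ _) hdeg
  rcases ValuationRing.dvd_total c c' with ⟨u, hu⟩ | ⟨u, hu⟩
  · exact ⟨s₁, C (C u) * G₁, hs₁, hdeg' u, key u hu⟩
  · by_cases huu : IsUnit u
    · obtain ⟨v, rfl⟩ := huu
      refine ⟨s₁, C (C ((v⁻¹ : Aˣ) : A)) * G₁, hs₁, hdeg' _, key _ ?_⟩
      rw [hu, mul_assoc, Units.mul_inv, mul_one]
    · exfalso
      obtain ⟨Y₁, Y₂, hY₁, hY₂, hY⟩ := hw
      have hu0 : IsLocalRing.residue A u = 0 :=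
        (IsLocalRing.residue_eq_zero_iff u).mpr ((IsLocalRing.mem_maximalIdeal u).mpr huu)
      have hc'L : algebraMap Kb (LaurentSeries Kb) (c' : Kb) ≠ 0 := by
        rw [Ne, map_eq_zero]; exact hc'K
      -- `u s₁(j) f = G₁(θ)`
      have h1 : algebraMap Kb (LaurentSeries Kb) (u : Kb) *
          incl A (aeval (jA A) s₁) * f = incl A (ev₂ (jA A) θ G₁) := by
        apply mul_left_cancel₀ hc'L
        rw [← h, hu]
        simp only [MulMemClass.coe_mul, map_mul]
        ring
      -- `u s₁(j) Y₁ = G₁(θ) Y₂` in `A((q))`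
      have h2 : algebraMap A (LaurentSeries A) u * aeval (jA A) s₁ * Y₁ =
          ev₂ (jA A) θ G₁ * Y₂ := by
        apply coeffMap_subtype_injective A
        rw [map_mul, map_mul, map_mul, incl_algebraMap]
        have h1' : algebraMap Kb (LaurentSeries Kb) (u : Kb) *
            coeffMap A.subtype (aeval (jA A) s₁) * f =
              coeffMap A.subtype (ev₂ (jA A) θ G₁) := h1
        rw [← h1']
        have hY' : coeffMap A.subtype Y₁ = f * coeffMap A.subtype Y₂ := hY
        rw [hY']
        ring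
      have h3 := congrArg (red A) h2
      rw [map_mul, map_mul, map_mul, red_algebraMap, hu0, map_zero, zero_mul, zero_mul] at h3
      have h4 := (H.isGood_ev₂ G₁ hdeg hG₁).2.2
      rcases mul_eq_zero.mp h3.symm with h5 | h5
      · exact h4 h5
      · exact hY₂.2.2 h5

omit H in
/-- the reduction formula attached to a primitive representation -/
theorem red_mul_eq_of_repr (θ : LaurentSeries A) (f : LaurentSeries Kb) (s : Polynomial A)
    (G : Polynomial (Polynomial A))
    (h : incl A (aeval (jA A) s) * f = incl A (ev₂ (jA A) θ G))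
    (Y₁ Y₂ : LaurentSeries A) (hY : incl A Y₁ = f * incl A Y₂) :
    aeval (jBar A) (s.map (IsLocalRing.residue A)) * red A Y₁ =
      ev₂ (jBar A) (red A θ) (G.map (Polynomial.mapRingHom (IsLocalRing.residue A))) *
        red A Y₂ := by
  have h2 : aeval (jA A) s * Y₁ = ev₂ (jA A) θ G * Y₂ := by
    apply coeffMap_subtype_injective A
    have h' : coeffMap A.subtype (aeval (jA A) s) * f = coeffMap A.subtype (ev₂ (jA A) θ G) := h
    have hY' : coeffMap A.subtype Y₁ = f * coeffMap A.subtype Y₂ := hY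
    rw [map_mul, map_mul, hY', ← h']
    ring
  have h3 := congrArg (red A) h2
  rw [map_mul, map_mul, red_aeval, red_ev₂] at h3
  exact h3

/-! ### [DEG] -/

/-- `j̃` as an element of `Eb` -/
def jEb : Eb := ⟨jqModC (kA A), H.jB_mem⟩

/-- `θ̃` as an element of `Eb` -/
def thetaEb : Eb := ⟨red A θ, H.thetaB_mem⟩

theorem adjoin_E_eq_top : IntermediateField.adjoin Kb {H.jE, H.thetaE} = ⊤ :=
  adjoin_pair_eq_top_of_val E H.jE H.thetaE H.hE

theorem adjoin_Eb_eq_top : IntermediateField.adjoin (kA A) {H.jEb, H.thetaEb} = ⊤ :=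
  adjoin_pair_eq_top_of_val Eb H.jEb H.thetaEb H.hEb

theorem transcendental_jE : Transcendental Kb H.jE := by
  intro h
  exact transcendental_jK (IsAlgebraic.algHom E.val h)

theorem transcendental_jEb : Transcendental (kA A) H.jEb := by
  intro h
  exact transcendental_jBar A (IsAlgebraic.algHom Eb.val h)

theorem rootE : ev₂ H.jE H.thetaE (Φ.map (Polynomial.mapRingHom A.subtype)) = 0 := by
  apply Subtype.val_injective
  have h1 := algHom_ev₂ E.val H.jE H.thetaE (Φ.map (Polynomial.mapRingHom A.subtype))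
  exact h1.trans H.rootK

theorem rootEb :
    ev₂ H.jEb H.thetaEb (Φ.map (Polynomial.mapRingHom (IsLocalRing.residue A))) = 0 := by
  apply Subtype.val_injective
  have h1 := algHom_ev₂ Eb.val H.jEb H.thetaEb
    (Φ.map (Polynomial.mapRingHom (IsLocalRing.residue A)))
  exact h1.trans H.rootB

theorem derEb : ev₂ H.jEb H.thetaEb
    (derivative (Φ.map (Polynomial.mapRingHom (IsLocalRing.residue A)))) ≠ 0 := by
  intro h
  apply H.der
  have h1 := algHom_ev₂ Eb.val H.jEb H.thetaEb
    (derivative (Φ.map (Polynomial.mapRingHom (IsLocalRing.residue A))))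
  rw [h] at h1
  exact h1.symm.trans (map_zero _)

theorem finiteDimensional_E : FiniteDimensional Kb⟮H.jE⟯ E :=
  finiteDimensional_of_pair H.jE H.thetaE _ (H.monic.map _) H.rootE H.adjoin_E_eq_top

theorem finiteDimensional_Eb : FiniteDimensional (kA A)⟮H.jEb⟯ Eb :=
  finiteDimensional_of_pair H.jEb H.thetaEb _ (H.monic.map _) H.rootEb H.adjoin_Eb_eq_top

theorem isSeparable_Eb : Algebra.IsSeparable (kA A)⟮H.jEb⟯ Eb :=
  isSeparable_of_pair H.jEb H.thetaEb H.transcendental_jEb _ (H.monic.map _) H.irrB H.rootEb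
    H.derEb H.adjoin_Eb_eq_top

theorem finrank_E : Module.finrank Kb⟮H.jE⟯ E = Φ.natDegree := by
  rw [finrank_of_pair H.jE H.thetaE H.transcendental_jE _ (H.monic.map _) H.irrK H.rootE
    H.adjoin_E_eq_top, H.monic.natDegree_map]

theorem finrank_Eb : Module.finrank (kA A)⟮H.jEb⟯ Eb = Φ.natDegree := by
  rw [finrank_of_pair H.jEb H.thetaEb H.transcendental_jEb _ (H.monic.map _) H.irrB H.rootEb
    H.adjoin_Eb_eq_top, H.monic.natDegree_map]

/-- **[DEG]** -/
theorem deg (hj : jqModC Kb ∈ E) (hjb : jqModC (kA A) ∈ Eb) : DegStatement A E Eb hj hjb :=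
  ⟨H.finiteDimensional_E, H.finiteDimensional_Eb, H.isSeparable_Eb,
    H.finrank_Eb.trans H.finrank_E.symm⟩

end PrimPack

/-! ### The deliverables of row 1130 (first half) -/

section Final

variable (A : ValuationSubring Kb) (E : IntermediateField Kb (LaurentSeries Kb))
  (Eb : IntermediateField (kA A) (LaurentSeries (kA A)))

/-- **[V1]** from `PrimStatement`. -/
theorem redMem_G (h : PrimStatement A E Eb) : RedMemStatement A E Eb := by
  obtain ⟨θ, Φ, H⟩ := (primStatement_iff A E Eb).1 h
  exact fun Y hY => H.red_mem Y hY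

/-- **[VAL-SC]** from `PrimStatement`. -/
theorem scale_G (h : PrimStatement A E Eb) : ScaleStatement A E Eb := by
  obtain ⟨θ, Φ, H⟩ := (primStatement_iff A E Eb).1 h
  exact H.scale

/-- **[DEG]** from `PrimStatement`. -/
theorem deg_G (hj : jqModC Kb ∈ E) (hjb : jqModC (kA A) ∈ Eb) (h : PrimStatement A E Eb) :
    DegStatement A E Eb hj hjb := by
  obtain ⟨θ, Φ, H⟩ := (primStatement_iff A E Eb).1 h
  exact H.deg hj hjb

end Final

end Fermat.Agent.T4.helper43
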