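/-
T4 block (I), I-RED [RED-CUSP1-CONJ] (helper18): CONSTRUCTION of the coset-expansion packages
of `helper18_CuspGen` from a primitive element and its conjugates.

* `exists_ringHom_of_pair` (generic fields): if `F = k(x, θ)` with `x` transcendental and `θ` a
  root of a monic irreducible `Φ ∈ k[X][Y]`, and `x', θ' ∈ L` with `x'` transcendental and
  `Φ(x', θ') = 0`, there is a ring homomorphism `F →+* L`, constant on `k`, with `x ↦ x'`,
  `θ ↦ θ'`.  `ringHom_ext_of_pair`: such a homomorphism is unique.
* `conjEmb`, `cosetExpOfConj` (one fibre, any field `K`): for `F = K(j, θ) ⊆ K((q))` and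
  pairwise distinct conjugates `Θ i ∈ K((t))` with `∏ (Y - Θ i) = Φ(j(t^W), Y)`,
  `Θ (π i) = rot u (Θ i)`, `Θ i₀ = θ(t^W)`: the package `CosetExp F hj W π i₀` with
  `e i θ = Θ i` and `e i (G(j, θ)) = G(j(t^W), Θ i)`.
* `exists_cosetExp_pair` (the pair): from `helper43.PrimPack A E Eb θ Φ` and conjugates
  `Θ i ∈ A((t))` with pairwise distinct reductions: packages `P`, `Pb` on both fibres with
  `P.e i (incl (G(j, θ))) = incl (G(j(t^W), Θ i))`, `Pb.e i (red (G(j, θ))) = red (G(j(t^W), Θ i))`.
-/
import Mathlib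
import Fermat.Agent.T4.helper18_CuspGen
import Fermat.Agent.T4.helper43_ValG

set_option autoImplicit false
set_option linter.unusedSectionVars false
set_option linter.style.haveILetI false

noncomputable section

open HahnSeries IntermediateField AlgebraicCurve ModularCurve Polynomial
open Fermat.Agent.S18.helper19 (Kb kA)
open Fermat.Agent.P2.helper29 (incl red IsInfty InL)
open Fermat.Agent.P2.helper81 (ev₂ ev₂_apply ev₂_C ev₂_X toAdjoinSimple)

namespace Fermat.Agent.T4.helper18

/-! ### Generic fields: homomorphisms out of `k(x, θ)` -/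

section GenericLift

variable {k : Type*} [Field k] {F : Type*} [Field F] [Algebra k F]
  {L : Type*} [Field L] [Algebra k L]

/-- the embedding `k(x) → L`, `x ↦ x'`, for transcendental `x`, `x'` -/
def simpleLift (x : F) (hx : Transcendental k x) (x' : L) (hx' : Transcendental k x') :
    k⟮x⟯ →+* L :=
  letI : Algebra (Polynomial k) k⟮x⟯ := (toAdjoinSimple x).toAlgebra
  haveI := Fermat.Agent.P2.helper81.isFractionRing_adjoinSimple x hx
  IsFractionRing.lift (A := Polynomial k) (K := k⟮x⟯)
    (g := ((aeval x' : Polynomial k →ₐ[k] L) : Polynomial k →+* L))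
    (transcendental_iff_injective.mp hx')

theorem simpleLift_toAdjoinSimple (x : F) (hx : Transcendental k x) (x' : L)
    (hx' : Transcendental k x') (p : Polynomial k) :
    simpleLift x hx x' hx' (toAdjoinSimple x p) = aeval x' p := by
  letI : Algebra (Polynomial k) k⟮x⟯ := (toAdjoinSimple x).toAlgebra
  haveI := Fermat.Agent.P2.helper81.isFractionRing_adjoinSimple x hx
  exact IsFractionRing.lift_algebraMap (A := Polynomial k) (K := k⟮x⟯)
    (g := ((aeval x' : Polynomial k →ₐ[k] L) : Polynomial k →+* L))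
    (transcendental_iff_injective.mp hx') p

theorem simpleLift_comp (x : F) (hx : Transcendental k x) (x' : L)
    (hx' : Transcendental k x') :
    (simpleLift x hx x' hx').comp (toAdjoinSimple x) =
      ((aeval x' : Polynomial k →ₐ[k] L) : Polynomial k →+* L) :=
  RingHom.ext fun p => simpleLift_toAdjoinSimple x hx x' hx' p

theorem toAdjoinSimple_C (x : F) (c : k) :
    toAdjoinSimple x (C c) = algebraMap k k⟮x⟯ c := by
  simp [toAdjoinSimple]

theorem toAdjoinSimple_X (x : F) :
    toAdjoinSimple (k := k) x X = AdjoinSimple.gen k x := by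
  simp [toAdjoinSimple]

/-- **extension of the embedding to `F = k(x, θ)`** -/
theorem exists_ringHom_of_pair (x θ : F) (hx : Transcendental k x)
    (Φ : Polynomial (Polynomial k)) (hm : Φ.Monic) (hirr : Irreducible Φ)
    (h0 : ev₂ x θ Φ = 0) (htop : IntermediateField.adjoin k {x, θ} = ⊤)
    (x' θ' : L) (hx' : Transcendental k x') (h0' : ev₂ x' θ' Φ = 0) :
    ∃ f : F →+* L, (∀ c : k, f (algebraMap k F c) = algebraMap k L c) ∧ f x = x' ∧
      f θ = θ' := by
  letI algL : Algebra k⟮x⟯ L := (simpleLift x hx x' hx').toAlgebra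
  have hint := Fermat.Agent.P2.helper81.isIntegral_of_ev₂ x θ Φ hm h0
  have htop' := Fermat.Agent.P2.helper81.adjoin_simple_eq_top_of_pair x θ htop
  let pb : PowerBasis k⟮x⟯ F :=
    (IntermediateField.adjoin.powerBasis hint).map
      ((IntermediateField.equivOfEq htop').trans IntermediateField.topEquiv)
  have hgen : pb.gen = θ := by
    show ((IntermediateField.adjoin.powerBasis hint).map
      ((IntermediateField.equivOfEq htop').trans IntermediateField.topEquiv)).gen = θ
    rw [PowerBasis.map_gen, IntermediateField.adjoin.powerBasis_gen]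
    rfl
  have hy : aeval θ' (minpoly k⟮x⟯ pb.gen) = 0 := by
    rw [hgen, Fermat.Agent.P2.helper81.minpoly_eq_map x θ hx Φ hm hirr h0, aeval_def,
      eval₂_map]
    have : (algebraMap k⟮x⟯ L).comp (toAdjoinSimple (k := k) x) =
        ((aeval x' : Polynomial k →ₐ[k] L) : Polynomial k →+* L) :=
      simpleLift_comp x hx x' hx'
    rw [this]
    exact h0'
  let f : F →ₐ[k⟮x⟯] L := pb.lift θ' hy
  have hf : ∀ z : k⟮x⟯, f (algebraMap k⟮x⟯ F z) = simpleLift x hx x' hx' z := fun z =>
    f.commutes z
  refine ⟨(f : F →+* L), ?_, ?_, ?_⟩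
  · intro c
    have h1 : algebraMap k F c = algebraMap k⟮x⟯ F (toAdjoinSimple x (C c)) := by
      rw [toAdjoinSimple_C]
      rfl
    show f (algebraMap k F c) = _
    rw [h1, hf, simpleLift_toAdjoinSimple, aeval_C]
  · have h1 : x = algebraMap k⟮x⟯ F (toAdjoinSimple x X) := by
      rw [toAdjoinSimple_X]
      rfl
    have h2 : f x = f (algebraMap k⟮x⟯ F (toAdjoinSimple x X)) := congrArg f h1
    show f x = _
    rw [h2, hf, simpleLift_toAdjoinSimple, aeval_X]
  · have h2 : f θ = f pb.gen := congrArg f hgen.symm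
    show f θ = _
    rw [h2]
    exact pb.lift_gen θ' hy

/-- a ring homomorphism out of `F = k(x, θ)` is determined by its values on `k`, `x`, `θ` -/
theorem ringHom_ext_of_pair (x θ : F) (htop : IntermediateField.adjoin k {x, θ} = ⊤)
    (f g : F →+* L) (hc : ∀ c : k, f (algebraMap k F c) = g (algebraMap k F c))
    (hx : f x = g x) (hθ : f θ = g θ) : f = g := by
  let S : IntermediateField k F :=
    (RingHom.eqLocusField f g).toIntermediateField (fun c => hc c)
  have hle : IntermediateField.adjoin k {x, θ} ≤ S := by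
    rw [IntermediateField.adjoin_le_iff]
    intro y hy
    rcases hy with rfl | rfl
    · exact hx
    · exact hθ
  ext y
  have : y ∈ S := hle (htop ▸ IntermediateField.mem_top)
  exact this

/-- compatibility with the evaluation of two-variable polynomials -/
theorem ringHom_ev₂ (f : F →+* L) (hc : ∀ c : k, f (algebraMap k F c) = algebraMap k L c)
    (x θ : F) (G : Polynomial (Polynomial k)) : f (ev₂ x θ G) = ev₂ (f x) (f θ) G := by
  have h : f.comp (ev₂ x θ) = ev₂ (R := k) (f x) (f θ) := by
    apply Polynomial.ringHom_ext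
    · intro p
      simp only [RingHom.coe_comp, Function.comp_apply, ev₂_C]
      have h2 : f.comp ((aeval x : Polynomial k →ₐ[k] F) : Polynomial k →+* F) =
          ((aeval (f x) : Polynomial k →ₐ[k] L) : Polynomial k →+* L) := by
        apply Polynomial.ringHom_ext
        · intro c
          simp only [RingHom.coe_comp, Function.comp_apply, RingHom.coe_coe, aeval_C]
          exact hc c
        · simp only [RingHom.coe_comp, Function.comp_apply, RingHom.coe_coe, aeval_X]
      exact congrArg (fun g => g p) h2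
    · simp only [RingHom.coe_comp, Function.comp_apply, ev₂_X]
  exact congrArg (fun g => g G) h

end GenericLift

/-! ### One fibre: the package from a primitive element and its conjugates -/

section OneFibreConj

variable {K : Type} [Field K] (F : IntermediateField K (LaurentSeries K))

/-- the series `j(t ^ W)` -/
abbrev jW (K : Type) [Field K] (W : ℕ) [NeZero W] : LaurentSeries K :=
  qExpand K W (jqModC K)

/-- **conjugate data** of a primitive element `θ` of `F = K(j, θ)`: pairwise distinct roots
`Θ i ∈ K((t))` of `Ψ(j(t ^ W), Y)`, permuted by the rotation, with `Θ i₀ = θ(t ^ W)`. -/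
structure ConjPack (θ : LaurentSeries K) (Ψ : Polynomial (Polynomial K)) {I : Type*}
    [Fintype I] (W : ℕ) [NeZero W] (π : Equiv.Perm I) (i₀ : I) : Type _ where
  /-- the conjugates -/
  Θ : I → LaurentSeries K
  hθ : θ ∈ F
  hF : F = IntermediateField.adjoin K {jqModC K, θ}
  monic : Ψ.Monic
  irr : Irreducible Ψ
  root : ev₂ (jqModC K) θ Ψ = 0
  inj : Function.Injective Θ
  /-- the rotation factor -/
  u : Kˣ
  hu : orderOf u = W
  prod : ∏ i, (Polynomial.X - Polynomial.C (Θ i)) =
    Ψ.map ((aeval (jW K W) : Polynomial K →ₐ[K] LaurentSeries K) :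
      Polynomial K →+* LaurentSeries K)
  rot : ∀ i, Θ (π i) = Fermat.Agent.P2.helper94.rot u (Θ i)
  base : Θ i₀ = qExpand K W θ

variable {F} {θ : LaurentSeries K} {Ψ : Polynomial (Polynomial K)} {I : Type*} [Fintype I]
  {W : ℕ} [NeZero W] {π : Equiv.Perm I} {i₀ : I}

namespace ConjPack

theorem hj (D : ConjPack F θ Ψ W π i₀) : jqModC K ∈ F := by
  rw [D.hF]
  exact IntermediateField.subset_adjoin K _ (Set.mem_insert _ _)

/-- `θ` as an element of `F` -/
def θF (D : ConjPack F θ Ψ W π i₀) : F := ⟨θ, D.hθ⟩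

theorem htop (D : ConjPack F θ Ψ W π i₀) :
    IntermediateField.adjoin K {jG F D.hj, D.θF} = ⊤ :=
  Fermat.Agent.P2.helper81.adjoin_pair_eq_top_of_val F (jG F D.hj) D.θF D.hF

theorem transc (D : ConjPack F θ Ψ W π i₀) : Transcendental K (jG F D.hj) :=
  Fermat.Agent.T4.helper91.transcendental_jMem F D.hj

theorem coe_ev₂ (D : ConjPack F θ Ψ W π i₀) (G : Polynomial (Polynomial K)) :
    ((ev₂ (jG F D.hj) D.θF G : F) : LaurentSeries K) = ev₂ (jqModC K) θ G :=
  Fermat.Agent.P2.helper81.algHom_ev₂ F.val (jG F D.hj) D.θF G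

theorem rootF (D : ConjPack F θ Ψ W π i₀) : ev₂ (jG F D.hj) D.θF Ψ = 0 := by
  apply Subtype.ext
  rw [D.coe_ev₂, D.root]
  rfl

theorem transc_jW (K : Type) [Field K] (W : ℕ) [NeZero W] : Transcendental K (jW K W) := by
  apply Fermat.Agent.S28.helper81.transcendental_of_order_neg
  rw [Fermat.Agent.S28.helper81.order_qExpand_jqModC]
  have hW : (0 : ℤ) < W := by exact_mod_cast Nat.pos_of_ne_zero (NeZero.ne W)
  omega

theorem rootΘ (D : ConjPack F θ Ψ W π i₀) (i : I) : ev₂ (jW K W) (D.Θ i) Ψ = 0 := by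
  have h := congrArg (Polynomial.eval (D.Θ i)) D.prod
  rw [Polynomial.eval_map, Polynomial.eval_prod,
    Finset.prod_eq_zero (Finset.mem_univ i) (by simp)] at h
  exact h.symm

theorem exists_emb (D : ConjPack F θ Ψ W π i₀) (i : I) :
    ∃ f : F →+* LaurentSeries K,
      (∀ c : K, f (algebraMap K F c) = algebraMap K (LaurentSeries K) c) ∧
      f (jG F D.hj) = jW K W ∧ f D.θF = D.Θ i :=
  exists_ringHom_of_pair (jG F D.hj) D.θF D.transc Ψ D.monic D.irr D.rootF D.htop
    (jW K W) (D.Θ i) (transc_jW K W) (D.rootΘ i)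

/-- **the coset embedding** attached to the conjugate `Θ i` -/
def emb (D : ConjPack F θ Ψ W π i₀) (i : I) : F →+* LaurentSeries K :=
  (D.exists_emb i).choose

theorem emb_algebraMap (D : ConjPack F θ Ψ W π i₀) (i : I) (c : K) :
    D.emb i (algebraMap K F c) = algebraMap K (LaurentSeries K) c :=
  (D.exists_emb i).choose_spec.1 c

theorem emb_C (D : ConjPack F θ Ψ W π i₀) (i : I) (c : K) :
    D.emb i (algebraMap K F c) = HahnSeries.C c := by
  rw [D.emb_algebraMap, Fermat.Agent.S28.helper93.algebraMap_laurent_eq_C]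

theorem emb_j (D : ConjPack F θ Ψ W π i₀) (i : I) : D.emb i (jG F D.hj) = jW K W :=
  (D.exists_emb i).choose_spec.2.1

theorem emb_θ (D : ConjPack F θ Ψ W π i₀) (i : I) : D.emb i D.θF = D.Θ i :=
  (D.exists_emb i).choose_spec.2.2

theorem emb_ev₂ (D : ConjPack F θ Ψ W π i₀) (i : I) (G : Polynomial (Polynomial K)) :
    D.emb i (ev₂ (jG F D.hj) D.θF G) = ev₂ (jW K W) (D.Θ i) G := by
  rw [ringHom_ev₂ (D.emb i) (D.emb_algebraMap i), D.emb_j, D.emb_θ]

theorem emb_injective (D : ConjPack F θ Ψ W π i₀) : Function.Injective D.emb := by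
  intro i i' h
  apply D.inj
  rw [← D.emb_θ i, ← D.emb_θ i', h]

theorem u_pow (D : ConjPack F θ Ψ W π i₀) : D.u ^ W = 1 := by
  have h := pow_orderOf_eq_one D.u
  rwa [D.hu] at h

theorem rot_algebraMap (u : Kˣ) (c : K) :
    Fermat.Agent.P2.helper94.rot u (algebraMap K (LaurentSeries K) c) =
      algebraMap K (LaurentSeries K) c := by
  rw [Fermat.Agent.S28.helper93.algebraMap_laurent_eq_C]
  exact Fermat.Agent.P2.helper28.rot_C u c

theorem emb_rot (D : ConjPack F θ Ψ W π i₀) (i : I) (f : F) :
    D.emb (π i) f = Fermat.Agent.P2.helper94.rot D.u (D.emb i f) := by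
  have h : D.emb (π i) = (Fermat.Agent.P2.helper94.rot D.u).comp (D.emb i) := by
    apply ringHom_ext_of_pair (jG F D.hj) D.θF D.htop
    · intro c
      rw [RingHom.comp_apply, D.emb_algebraMap, D.emb_algebraMap, rot_algebraMap]
    · rw [RingHom.comp_apply, D.emb_j, D.emb_j,
        Fermat.Agent.P2.helper94.rot_qExpand W D.u D.u_pow]
    · rw [RingHom.comp_apply, D.emb_θ, D.emb_θ, D.rot]
  rw [h]
  rfl

theorem emb_base (D : ConjPack F θ Ψ W π i₀) (f : F) :
    D.emb i₀ f = qExpand K W (f : LaurentSeries K) := by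
  have h : D.emb i₀ = (qExpand K W).comp (algebraMap F (LaurentSeries K)) := by
    apply ringHom_ext_of_pair (jG F D.hj) D.θF D.htop
    · intro c
      rw [RingHom.comp_apply, D.emb_algebraMap]
      have : algebraMap F (LaurentSeries K) (algebraMap K F c) =
          algebraMap K (LaurentSeries K) c := rfl
      rw [this, Fermat.Agent.S28.helper93.algebraMap_laurent_eq_C, qExpand_C]
    · rw [RingHom.comp_apply, D.emb_j]
      rfl
    · rw [RingHom.comp_apply, D.emb_θ, D.base]
      rfl
  rw [h]
  rfl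

theorem card_eq (D : ConjPack F θ Ψ W π i₀) :
    Fintype.card I = Module.finrank K⟮jG F D.hj⟯ F := by
  rw [Fermat.Agent.P2.helper81.finrank_of_pair (jG F D.hj) D.θF D.transc Ψ D.monic D.irr
    D.rootF D.htop]
  have h := congrArg Polynomial.natDegree D.prod
  rw [Polynomial.natDegree_prod_of_monic _ _ (fun i _ => Polynomial.monic_X_sub_C _),
    D.monic.natDegree_map] at h
  rw [← h]
  simp only [Polynomial.natDegree_X_sub_C, Finset.sum_const, Finset.card_univ, smul_eq_mul,
    mul_one]

/-- **the coset-expansion package** of `F = K(j, θ)` attached to the conjugates of `θ` -/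
def cosetExp (D : ConjPack F θ Ψ W π i₀) : CosetExp F D.hj W π i₀ where
  e := D.emb
  e_C := D.emb_C
  e_j := D.emb_j
  e_inj := D.emb_injective
  card := D.card_eq
  u := D.u
  hu := D.hu
  rot := D.emb_rot
  e_i₀ := D.emb_base

theorem cosetExp_e (D : ConjPack F θ Ψ W π i₀) (i : I) : D.cosetExp.e i = D.emb i := rfl

end ConjPack

end OneFibreConj

/-! ### The pair: packages on both fibres from integral conjugates -/

section PairConj

variable (A : ValuationSubring Kb)

/-- **integral conjugate data**: conjugates `Θ i ∈ A((t))` of `θ ∈ A((q))` with pairwise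
distinct reductions, `∏ (Y - Θ i) = Φ(j(t ^ W), Y)`, permuted by the rotation by a root of unity
`ζ ∈ A` of exact order `W` whose reduction has order `W`, and `Θ i₀ = θ(t ^ W)`. -/
structure ConjPackA (θ : LaurentSeries A) (Φ : Polynomial (Polynomial A)) {I : Type*}
    [Fintype I] (W : ℕ) [NeZero W] (π : Equiv.Perm I) (i₀ : I) : Type _ where
  /-- the conjugates -/
  Θ : I → LaurentSeries A
  injb : Function.Injective fun i => red A (Θ i)
  /-- the root of unity -/
  ζ : Aˣ
  hζ : orderOf ζ = W
  hζb : orderOf (Units.map ((IsLocalRing.residue A : A →+* kA A) : A →* kA A) ζ) = W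
  prod : ∏ i, (Polynomial.X - Polynomial.C (Θ i)) =
    Φ.map ((aeval (qExpand A W (jqModC A)) : Polynomial A →ₐ[A] LaurentSeries A) :
      Polynomial A →+* LaurentSeries A)
  rot : ∀ i, Θ (π i) = Fermat.Agent.P2.helper94.rot ζ (Θ i)
  base : Θ i₀ = qExpand A W θ

variable {A} {E : IntermediateField Kb (LaurentSeries Kb)}
  {Eb : IntermediateField (kA A) (LaurentSeries (kA A))} {θ : LaurentSeries A}
  {Φ : Polynomial (Polynomial A)} {I : Type*} [Fintype I] {W : ℕ} [NeZero W]
  {π : Equiv.Perm I} {i₀ : I}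

/-- transport of the product formula along a coefficient map -/
theorem prod_coeffMap {R S : Type*} [CommRing R] [CommRing S] (f : R →+* S)
    (Θ : I → LaurentSeries R) (Φ : Polynomial (Polynomial R)) (x₀ : LaurentSeries R)
    (h : ∏ i, (Polynomial.X - Polynomial.C (Θ i)) =
      Φ.map ((aeval x₀ : Polynomial R →ₐ[R] LaurentSeries R) :
        Polynomial R →+* LaurentSeries R)) :
    ∏ i, (Polynomial.X - Polynomial.C (coeffMap f (Θ i))) =
      (Φ.map (Polynomial.mapRingHom f)).map
        ((aeval (coeffMap f x₀) : Polynomial S →ₐ[S] LaurentSeries S) :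
          Polynomial S →+* LaurentSeries S) := by
  have h1 := congrArg (Polynomial.map (coeffMap f)) h
  rw [Polynomial.map_prod, Polynomial.map_map,
    Fermat.Agent.S28.helper93.coeffMap_comp_aeval, ← Polynomial.map_map] at h1
  rw [← h1]
  refine Finset.prod_congr rfl fun i _ => ?_
  rw [Polynomial.map_sub, Polynomial.map_X, Polynomial.map_C]

namespace ConjPackA

variable (D : ConjPackA A θ Φ W π i₀)
  (H : Fermat.Agent.T4.helper43.PrimPack A E Eb θ Φ)

/-- the conjugate data of the generic fibre -/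
def toK : ConjPack E (incl A θ) (Φ.map (Polynomial.mapRingHom A.subtype)) W π i₀ where
  Θ := fun i => incl A (D.Θ i)
  hθ := H.thetaK_mem
  hF := H.hE
  monic := H.monic.map _
  irr := H.irrK
  root := H.rootK
  inj := by
    intro i i' h
    apply D.injb
    have h1 : D.Θ i = D.Θ i' :=
      Fermat.Agent.P2.helper81.coeffMap_subtype_injective A h
    show red A (D.Θ i) = red A (D.Θ i')
    rw [h1]
  u := Units.map (A.subtype : A →* Kb) D.ζ
  hu := by
    rw [orderOf_injective (Units.map (A.subtype : A →* Kb))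
      (Units.map_injective (f := (A.subtype : A →* Kb)) Subtype.val_injective) D.ζ]
    exact D.hζ
  prod := by
    have h := prod_coeffMap A.subtype D.Θ Φ _ D.prod
    rw [Fermat.Agent.S28.helper81.coeffMap_qExpand, ModularCurve.coeffMap_jqModC] at h
    exact h
  rot := fun i => by
    show incl A (D.Θ (π i)) = _
    rw [D.rot, Fermat.Agent.P2.helper28.coeffMap_rot]
  base := by
    show incl A (D.Θ i₀) = _
    rw [D.base, Fermat.Agent.S28.helper81.coeffMap_qExpand]

/-- the conjugate data of the special fibre -/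
def toB : ConjPack Eb (red A θ) (Φ.map (Polynomial.mapRingHom (IsLocalRing.residue A))) W π
    i₀ where
  Θ := fun i => red A (D.Θ i)
  hθ := H.thetaB_mem
  hF := H.hEb
  monic := H.monic.map _
  irr := H.irrB
  root := H.rootB
  inj := D.injb
  u := Units.map ((IsLocalRing.residue A : A →+* kA A) : A →* kA A) D.ζ
  hu := D.hζb
  prod := by
    have h := prod_coeffMap (IsLocalRing.residue A) D.Θ Φ _ D.prod
    rw [Fermat.Agent.S28.helper81.coeffMap_qExpand, ModularCurve.coeffMap_jqModC] at h
    exact h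
  rot := fun i => by
    show red A (D.Θ (π i)) = _
    rw [D.rot, Fermat.Agent.P2.helper28.coeffMap_rot]
  base := by
    show red A (D.Θ i₀) = _
    rw [D.base, Fermat.Agent.S28.helper81.coeffMap_qExpand]

/-- the coset-expansion package of the generic fibre -/
def cosetK (hj : jqModC Kb ∈ E) : CosetExp E hj W π i₀ := (D.toK H).cosetExp

/-- the coset-expansion package of the special fibre -/
def cosetB (hjb : jqModC (kA A) ∈ Eb) : CosetExp Eb hjb W π i₀ := (D.toB H).cosetExp

/-- **evaluation formula, generic fibre** -/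
theorem cosetK_ev₂ (hj : jqModC Kb ∈ E) (i : I) (G : Polynomial (Polynomial A))
    (hmem : incl A (ev₂ (jqModC A) θ G) ∈ E) :
    (D.cosetK H hj).e i ⟨incl A (ev₂ (jqModC A) θ G), hmem⟩ =
      incl A (ev₂ (qExpand A W (jqModC A)) (D.Θ i) G) := by
  have h1 : (⟨incl A (ev₂ (jqModC A) θ G), hmem⟩ : E) =
      ev₂ (jG E (D.toK H).hj) (D.toK H).θF (G.map (Polynomial.mapRingHom A.subtype)) := by
    apply Subtype.ext
    rw [(D.toK H).coe_ev₂]
    exact Fermat.Agent.T4.helper43.PrimPack.incl_ev₂ θ G
  show (D.toK H).emb i _ = _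
  rw [h1, (D.toK H).emb_ev₂, ev₂_apply, ev₂_apply,
    Fermat.Agent.P2.helper28.coeffMap_eval₂_aeval,
    Fermat.Agent.S28.helper81.coeffMap_qExpand, ModularCurve.coeffMap_jqModC]
  rfl

/-- **evaluation formula, special fibre** -/
theorem cosetB_ev₂ (hjb : jqModC (kA A) ∈ Eb) (i : I) (G : Polynomial (Polynomial A))
    (hmem : red A (ev₂ (jqModC A) θ G) ∈ Eb) :
    (D.cosetB H hjb).e i ⟨red A (ev₂ (jqModC A) θ G), hmem⟩ =
      red A (ev₂ (qExpand A W (jqModC A)) (D.Θ i) G) := by
  have h1 : (⟨red A (ev₂ (jqModC A) θ G), hmem⟩ : Eb) =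
      ev₂ (jG Eb (D.toB H).hj) (D.toB H).θF
        (G.map (Polynomial.mapRingHom (IsLocalRing.residue A))) := by
    apply Subtype.ext
    rw [(D.toB H).coe_ev₂]
    exact Fermat.Agent.T4.helper43.PrimPack.red_ev₂ θ G
  show (D.toB H).emb i _ = _
  rw [h1, (D.toB H).emb_ev₂, ev₂_apply, ev₂_apply,
    Fermat.Agent.P2.helper28.coeffMap_eval₂_aeval,
    Fermat.Agent.S28.helper81.coeffMap_qExpand, ModularCurve.coeffMap_jqModC]
  rfl

end ConjPackA

end PairConj

end Fermat.Agent.T4.helper18
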