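import Mathlib
import Fermat.Agent.P2.helper81_ValConv
import Fermat.Agent.T4.helper4_RedDefs

/-!
# T4 block (I), I-RED [VAL1], part 1 (helper31): the valuation package for a generic pair

Generic port of P2 `helper81_ValGen` / `ValField`: the function field `E = ℚ̄(j, θ)` and the
special fibre field `Eb = k(j̃, θ̃)` of `helper4.PrimStatement`.

* `PrimData A E Eb` : the data of `helper4.PrimStatement A E Eb` as a structure, and
  `PrimData.of_statement`;
* `PrimData.eq_zero_of_evBar` / `eq_zero_of_evK` : linear independence of `1, θ, …, θ^(n-1)` over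
  `k[j̃]` / `ℚ̄[j]`;
* `PrimData.exists_eq_ev₂` (**GEN**) : every `f ∈ E` satisfies `s(j) f = G(j, θ)` with
  `0 ≠ s ∈ A[X]`, `G ∈ A[X][Y]`, `deg_Y G < n`;
* `PrimData.degStatement` : `helper4.DegStatement A E Eb hj hjb` (degree preservation).
-/

set_option autoImplicit false
set_option linter.style.haveILetI false
set_option linter.unusedSectionVars false
set_option linter.unusedVariables false
set_option linter.style.longLine false

open ModularCurve Polynomial IntermediateField

noncomputable section

namespace Fermat.Agent.T4.helper31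

open Fermat.Agent.S24 Fermat.Agent.S28 Fermat.Agent.P2.helper81

/-- The data of `helper4.PrimStatement A E Eb`. -/
structure PrimData (A : ValuationSubring Kbar) (E : IntermediateField Kbar (LaurentSeries Kbar))
    (Eb : IntermediateField (kA A) (LaurentSeries (kA A))) where
  /-- the primitive element, an integral series -/
  θ : LaurentSeries A
  /-- its equation over `A[j]` -/
  Φ : Polynomial (Polynomial A)
  monic : Φ.Monic
  root : ev₂ (jA A) θ Φ = 0
  hE : E = IntermediateField.adjoin Kbar {jK, coeffMap A.subtype θ}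
  hEb : Eb = IntermediateField.adjoin (kA A) {jBar A, red A θ}
  irrK : Irreducible (Φ.map (Polynomial.mapRingHom A.subtype))
  irrk : Irreducible (Φ.map (Polynomial.mapRingHom (IsLocalRing.residue A)))
  sep : ev₂ (jBar A) (red A θ)
    (derivative (Φ.map (Polynomial.mapRingHom (IsLocalRing.residue A)))) ≠ 0

theorem PrimData.of_statement {A : ValuationSubring Kbar}
    {E : IntermediateField Kbar (LaurentSeries Kbar)}
    {Eb : IntermediateField (kA A) (LaurentSeries (kA A))}
    (h : helper4.PrimStatement A E Eb) : Nonempty (PrimData A E Eb) := by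
  obtain ⟨θ, Φ, h1, h2, h3, h4, h5, h6, h7⟩ := h
  exact ⟨⟨θ, Φ, h1, h2, h3, h4, h5, h6, h7⟩⟩

theorem PrimData.to_statement {A : ValuationSubring Kbar}
    {E : IntermediateField Kbar (LaurentSeries Kbar)}
    {Eb : IntermediateField (kA A) (LaurentSeries (kA A))}
    (D : PrimData A E Eb) : helper4.PrimStatement A E Eb :=
  ⟨D.θ, D.Φ, D.monic, D.root, D.hE, D.hEb, D.irrK, D.irrk, D.sep⟩

namespace PrimData

variable {A : ValuationSubring Kbar} {E : IntermediateField Kbar (LaurentSeries Kbar)}
  {Eb : IntermediateField (kA A) (LaurentSeries (kA A))} (D : PrimData A E Eb)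

/-- the degree -/
def n : ℕ := D.Φ.natDegree

/-- `θ` over `ℚ̄` -/
def θK : LaurentSeries Kbar := coeffMap A.subtype D.θ

/-- `θ̃` -/
def θb : LaurentSeries (kA A) := red A D.θ

/-- the equation over `ℚ̄` -/
def ΦK : Polynomial (Polynomial Kbar) := D.Φ.map (Polynomial.mapRingHom A.subtype)

/-- the equation over `k` -/
def Φb : Polynomial (Polynomial (kA A)) :=
  D.Φ.map (Polynomial.mapRingHom (IsLocalRing.residue A))

theorem ΦK_monic : D.ΦK.Monic := D.monic.map _

theorem Φb_monic : D.Φb.Monic := D.monic.map _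

theorem ΦK_natDegree : D.ΦK.natDegree = D.n := D.monic.natDegree_map _

theorem Φb_natDegree : D.Φb.natDegree = D.n := D.monic.natDegree_map _

theorem ΦK_irreducible : Irreducible D.ΦK := D.irrK

theorem Φb_irreducible : Irreducible D.Φb := D.irrk

theorem n_pos : 0 < D.n := by
  rw [← D.Φb_natDegree]
  by_contra h0
  have h1 : D.Φb.natDegree = 0 := by omega
  have h2 : D.Φb = 1 := by
    have := Polynomial.eq_C_of_natDegree_eq_zero h1
    have hm := D.Φb_monic
    rw [Polynomial.Monic, Polynomial.leadingCoeff, h1] at hm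
    rw [this, hm, map_one]
  have h3 := D.Φb_irreducible
  rw [h2] at h3
  exact h3.not_isUnit isUnit_one

theorem ΦK_root : ev₂ jK D.θK D.ΦK = 0 := by
  have h := congrArg (coeffMap A.subtype) D.root
  rw [ev₂_apply, helper25.coeffMap_eval₂_aeval, map_zero, coeffMap_jA] at h
  exact h

theorem Φb_root : ev₂ (jBar A) D.θb D.Φb = 0 := by
  have h := congrArg (red A) D.root
  rw [ev₂_apply, red, helper25.coeffMap_eval₂_aeval, map_zero, ModularCurve.coeffMap_jqModC] at h
  exact h

theorem Φb_sep : ev₂ (jBar A) D.θb (derivative D.Φb) ≠ 0 := D.sep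

/-- **linear independence in characteristic `ℓ`** -/
theorem eq_zero_of_evBar (G : Polynomial (Polynomial (kA A))) (hdeg : G.natDegree < D.n)
    (hG : ev₂ (jBar A) D.θb G = 0) : G = 0 :=
  eq_zero_of_ev₂_eq_zero_of_natDegree_lt (jBar A) D.θb (transcendental_jBar A) D.Φb D.Φb_monic
    D.Φb_irreducible D.Φb_root G hG (by rw [Φb_natDegree]; exact hdeg)

/-- **linear independence in characteristic `0`** -/
theorem eq_zero_of_evK (G : Polynomial (Polynomial Kbar)) (hdeg : G.natDegree < D.n)
    (hG : ev₂ jK D.θK G = 0) : G = 0 :=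
  eq_zero_of_ev₂_eq_zero_of_natDegree_lt jK D.θK transcendental_jK D.ΦK D.ΦK_monic
    D.ΦK_irreducible D.ΦK_root G hG (by rw [ΦK_natDegree]; exact hdeg)

include D in
theorem jK_mem : jK ∈ E :=
  le_of_eq D.hE.symm (IntermediateField.subset_adjoin Kbar _ (Set.mem_insert _ _))

theorem θK_mem : D.θK ∈ E :=
  le_of_eq D.hE.symm (IntermediateField.subset_adjoin Kbar _ (Set.mem_insert_of_mem _ rfl))

include D in
theorem jBar_mem : jBar A ∈ Eb :=
  le_of_eq D.hEb.symm (IntermediateField.subset_adjoin (kA A) _ (Set.mem_insert _ _))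

theorem θb_mem : D.θb ∈ Eb :=
  le_of_eq D.hEb.symm (IntermediateField.subset_adjoin (kA A) _ (Set.mem_insert_of_mem _ rfl))

/-- `j` as an element of `E` -/
def xE : E := ⟨jK, D.jK_mem⟩

/-- `θ` as an element of `E` -/
def θE : E := ⟨D.θK, D.θK_mem⟩

/-- `j̃` as an element of `Eb` -/
def xEb : Eb := ⟨jBar A, D.jBar_mem⟩

/-- `θ̃` as an element of `Eb` -/
def θEb : Eb := ⟨D.θb, D.θb_mem⟩

theorem coe_xE : ((D.xE : E) : LaurentSeries Kbar) = jK := rfl

theorem coe_θE : ((D.θE : E) : LaurentSeries Kbar) = D.θK := rfl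

theorem transcendental_xE : Transcendental Kbar D.xE := by
  intro h
  apply transcendental_jK
  have := h.algHom E.val
  exact this

theorem transcendental_xEb : Transcendental (kA A) D.xEb := by
  intro h
  apply transcendental_jBar A
  have := h.algHom Eb.val
  exact this

theorem adjoin_xE_θE : IntermediateField.adjoin Kbar {D.xE, D.θE} = ⊤ :=
  adjoin_pair_eq_top_of_val E D.xE D.θE D.hE

theorem adjoin_xEb_θEb : IntermediateField.adjoin (kA A) {D.xEb, D.θEb} = ⊤ :=
  adjoin_pair_eq_top_of_val Eb D.xEb D.θEb D.hEb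

theorem ev₂_E_root : ev₂ D.xE D.θE D.ΦK = 0 := by
  apply Subtype.val_injective
  have h1 := algHom_ev₂ E.val D.xE D.θE D.ΦK
  exact h1.trans D.ΦK_root

theorem ev₂_Eb_root : ev₂ D.xEb D.θEb D.Φb = 0 := by
  apply Subtype.val_injective
  have h1 := algHom_ev₂ Eb.val D.xEb D.θEb D.Φb
  exact h1.trans D.Φb_root

theorem ev₂_Eb_sep : ev₂ D.xEb D.θEb (derivative D.Φb) ≠ 0 := by
  intro h0
  apply D.Φb_sep
  have h1 := algHom_ev₂ Eb.val D.xEb D.θEb (derivative D.Φb)
  rw [h0, map_zero] at h1
  exact h1.symm

theorem finiteDimensional_E : FiniteDimensional Kbar⟮D.xE⟯ E :=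
  finiteDimensional_of_pair D.xE D.θE D.ΦK D.ΦK_monic D.ev₂_E_root D.adjoin_xE_θE

theorem finrank_E : Module.finrank Kbar⟮D.xE⟯ E = D.n := by
  rw [finrank_of_pair D.xE D.θE D.transcendental_xE D.ΦK D.ΦK_monic D.ΦK_irreducible
    D.ev₂_E_root D.adjoin_xE_θE, ΦK_natDegree]

theorem finiteDimensional_Eb : FiniteDimensional (kA A)⟮D.xEb⟯ Eb :=
  finiteDimensional_of_pair D.xEb D.θEb D.Φb D.Φb_monic D.ev₂_Eb_root D.adjoin_xEb_θEb

theorem finrank_Eb : Module.finrank (kA A)⟮D.xEb⟯ Eb = D.n := by
  rw [finrank_of_pair D.xEb D.θEb D.transcendental_xEb D.Φb D.Φb_monic D.Φb_irreducible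
    D.ev₂_Eb_root D.adjoin_xEb_θEb, Φb_natDegree]

theorem isSeparable_Eb : Algebra.IsSeparable (kA A)⟮D.xEb⟯ Eb :=
  isSeparable_of_pair D.xEb D.θEb D.transcendental_xEb D.Φb D.Φb_monic D.Φb_irreducible
    D.ev₂_Eb_root D.ev₂_Eb_sep D.adjoin_xEb_θEb

include D in
/-- **[DEG]** degree preservation, `helper4.DegStatement` verbatim. -/
theorem degStatement (hj : jqModC Kbar ∈ E) (hjb : jqModC (kA A) ∈ Eb) :
    helper4.DegStatement A E Eb hj hjb :=
  ⟨D.finiteDimensional_E, D.finiteDimensional_Eb, D.isSeparable_Eb,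
    D.finrank_Eb.trans D.finrank_E.symm⟩

/-! ### The `A[X]`-algebra structure and GEN -/

attribute [local instance] FractionRing.liftAlgebra FractionRing.isScalarTower_liftAlgebra

/-- the structure map `A[X] → E`, `X ↦ j` -/
def evX : Polynomial A →+* E :=
  eval₂RingHom ((algebraMap Kbar E).comp A.subtype) D.xE

theorem evX_C (a : A) : D.evX (C a) = algebraMap Kbar E (a : Kbar) := by
  simp [evX]

theorem evX_X : D.evX X = D.xE := by
  simp [evX]

theorem coe_evX (p : Polynomial A) :
    ((D.evX p : E) : LaurentSeries Kbar) = coeffMap A.subtype (aeval (jA A) p) := by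
  have : (algebraMap E (LaurentSeries Kbar)).comp D.evX =
      (coeffMap A.subtype).comp
        ((aeval (jA A) : Polynomial A →ₐ[A] LaurentSeries A) :
          Polynomial A →+* LaurentSeries A) := by
    apply Polynomial.ringHom_ext
    · intro a
      simp only [RingHom.coe_comp, Function.comp_apply, evX_C, RingHom.coe_coe, aeval_C]
      rw [helper25.coeffMap_algebraMap_laurent]
      rfl
    · simp only [RingHom.coe_comp, Function.comp_apply, evX_X, RingHom.coe_coe, aeval_X]
      rw [coeffMap_jA]
      rfl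
  exact congrArg (fun g => g p) this

theorem coe_evX' (p : Polynomial A) :
    ((D.evX p : E) : LaurentSeries Kbar) = aeval jK (p.map A.subtype) := by
  rw [coe_evX, helper25.coeffMap_aeval, coeffMap_jA]

theorem evX_injective : Function.Injective D.evX := by
  rw [injective_iff_map_eq_zero]
  intro p hp
  have h1 := D.coe_evX' p
  rw [hp, ZeroMemClass.coe_zero] at h1
  have h2 := transcendental_iff_injective.mp transcendental_jK
  have h3 : p.map A.subtype = 0 := h2 (by rw [← h1, map_zero])
  exact (Polynomial.map_eq_zero_iff Subtype.val_injective).mp h3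

/-- the `A[X]`-algebra structure on `E` -/
@[reducible] def algAXE : Algebra (Polynomial A) E := D.evX.toAlgebra

theorem exists_eq_ev₂_aux :
    letI := D.algAXE
    ∀ G : Polynomial (Polynomial A),
      ((aeval D.θE G : E) : LaurentSeries Kbar) = coeffMap A.subtype (ev₂ (jA A) D.θ G) := by
  letI := D.algAXE
  intro G
  have : (algebraMap E (LaurentSeries Kbar)).comp
      ((aeval D.θE : Polynomial (Polynomial A) →ₐ[Polynomial A] E) :
        Polynomial (Polynomial A) →+* E) =
      (coeffMap A.subtype).comp (ev₂ (jA A) D.θ) := by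
    apply Polynomial.ringHom_ext
    · intro p
      simp only [RingHom.coe_comp, Function.comp_apply, RingHom.coe_coe, aeval_C, ev₂_C]
      exact D.coe_evX p
    · simp only [RingHom.coe_comp, Function.comp_apply, RingHom.coe_coe, aeval_X, ev₂_X]
      rfl
  exact congrArg (fun g => g G) this

theorem aeval_θE_Φ : letI := D.algAXE; aeval D.θE D.Φ = 0 := by
  letI := D.algAXE
  apply Subtype.val_injective
  rw [D.exists_eq_ev₂_aux, D.root, map_zero]
  rfl

/-- **generation**: `E = Frac(A[X])[θ]` -/
theorem adjoin_fractionRing_eq_top :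
    letI := D.algAXE
    haveI : FaithfulSMul (Polynomial A) E :=
      (faithfulSMul_iff_algebraMap_injective _ _).mpr D.evX_injective
    Algebra.adjoin (FractionRing (Polynomial A)) {D.θE} = ⊤ := by
  letI := D.algAXE
  haveI : FaithfulSMul (Polynomial A) E :=
    (faithfulSMul_iff_algebraMap_injective _ _).mpr D.evX_injective
  have hθint : IsIntegral (Polynomial A) D.θE := ⟨D.Φ, D.monic, D.aeval_θE_Φ⟩
  have hθK : IsIntegral (FractionRing (Polynomial A)) D.θE := hθint.tower_top
  rw [← IntermediateField.adjoin_simple_toSubalgebra_of_isAlgebraic hθK.isAlgebraic]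
  rw [eq_top_iff]
  intro f _
  rw [IntermediateField.mem_toSubalgebra]
  set S : Subfield (LaurentSeries Kbar) :=
    ((IntermediateField.adjoin (FractionRing (Polynomial A)) {D.θE}).toSubfield).map
      (algebraMap E (LaurentSeries Kbar)) with hS
  have hconst : ∀ a : A, algebraMap Kbar E (a : Kbar) ∈
      IntermediateField.adjoin (FractionRing (Polynomial A)) {D.θE} := by
    intro a
    have : algebraMap Kbar E (a : Kbar) =
        algebraMap (FractionRing (Polynomial A)) E
          (algebraMap (Polynomial A) (FractionRing (Polynomial A)) (C a)) := by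
      rw [← IsScalarTower.algebraMap_apply]
      exact (D.evX_C a).symm
    rw [this]
    exact IntermediateField.algebraMap_mem _ _
  have hle : Subfield.closure (Set.range (algebraMap Kbar (LaurentSeries Kbar)) ∪
      {jK, D.θK}) ≤ S := by
    rw [Subfield.closure_le]
    rintro y (⟨c, rfl⟩ | hy)
    · obtain ⟨a, b, hb, rfl⟩ := IsFractionRing.div_surjective (A := A) c
      refine ⟨algebraMap Kbar E (algebraMap A Kbar a / algebraMap A Kbar b), ?_, rfl⟩
      rw [map_div₀]
      exact div_mem (hconst a) (hconst b)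
    · rcases hy with rfl | rfl
      · refine ⟨D.xE, ?_, rfl⟩
        change D.xE ∈ IntermediateField.adjoin (FractionRing (Polynomial A)) {D.θE}
        have hx : D.xE = algebraMap (FractionRing (Polynomial A)) E
            (algebraMap (Polynomial A) (FractionRing (Polynomial A)) X) := by
          rw [← IsScalarTower.algebraMap_apply]
          exact D.evX_X.symm
        rw [hx]
        exact IntermediateField.algebraMap_mem _ _
      · refine ⟨D.θE, ?_, rfl⟩
        exact IntermediateField.mem_adjoin_simple_self _ _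
  have hfmem : (f : LaurentSeries Kbar) ∈ IntermediateField.adjoin Kbar {jK, D.θK} :=
    le_of_eq D.hE f.2
  have hfmem' : (f : LaurentSeries Kbar) ∈
      Subfield.closure (Set.range (algebraMap Kbar (LaurentSeries Kbar)) ∪ {jK, D.θK}) :=
    hfmem
  obtain ⟨g, hg, hgf⟩ := hle hfmem'
  have : g = f := Subtype.val_injective hgf
  rw [← this]
  exact hg

/-- **GEN**: every `f ∈ E` satisfies `s(j) f = G(j, θ)` with `0 ≠ s ∈ A[X]`,
`G ∈ A[X][Y]`, `deg_Y G < n`. -/
theorem exists_eq_ev₂ (f : LaurentSeries Kbar) (hf : f ∈ E) :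
    ∃ (s : Polynomial A) (G : Polynomial (Polynomial A)), s ≠ 0 ∧ G.natDegree < D.n ∧
      coeffMap A.subtype (aeval (jA A) s) * f =
        coeffMap A.subtype (ev₂ (jA A) D.θ G) := by
  letI := D.algAXE
  haveI : FaithfulSMul (Polynomial A) E :=
    (faithfulSMul_iff_algebraMap_injective _ _).mpr D.evX_injective
  have hgen := D.adjoin_fractionRing_eq_top
  have hf' : (⟨f, hf⟩ : E) ∈ Algebra.adjoin (FractionRing (Polynomial A)) {D.θE} := by
    rw [hgen]; exact Algebra.mem_top
  rw [Algebra.adjoin_singleton_eq_range_aeval] at hf'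
  obtain ⟨p, hp⟩ := hf'
  set Φ' := D.Φ.map (algebraMap (Polynomial A) (FractionRing (Polynomial A))) with hΦ'
  have hΦ'm : Φ'.Monic := D.monic.map _
  have hΦ'0 : aeval D.θE Φ' = 0 := by
    rw [hΦ', aeval_map_algebraMap]; exact D.aeval_θE_Φ
  have hΦ'deg : Φ'.natDegree = D.n := by
    rw [hΦ', D.monic.natDegree_map]; rfl
  have hΦ'1 : Φ' ≠ 1 := by
    intro h1
    have := D.n_pos
    rw [← hΦ'deg, h1, natDegree_one] at this
    exact lt_irrefl _ this
  set p₁ := p %ₘ Φ' with hp₁
  have hp₁f : aeval D.θE p₁ = (⟨f, hf⟩ : E) := by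
    rw [hp₁, aeval_modByMonic_eq_self_of_root hΦ'0]; exact hp
  have hp₁deg : p₁.natDegree < D.n := by
    rw [← hΦ'deg]; exact natDegree_modByMonic_lt _ hΦ'm hΦ'1
  obtain ⟨b, hb, hG⟩ := IsLocalization.integerNormalization_spec
    (nonZeroDivisors (Polynomial A)) p₁
  set G := IsLocalization.integerNormalization (nonZeroDivisors (Polynomial A)) p₁ with hGdef
  have hinj := IsFractionRing.injective (Polynomial A) (FractionRing (Polynomial A))
  refine ⟨b, G, nonZeroDivisors.ne_zero hb, ?_, ?_⟩
  · rw [← natDegree_map_eq_of_injective hinj G, hG]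
    exact lt_of_le_of_lt (natDegree_smul_le _ _) hp₁deg
  · have h1 : aeval D.θE G = D.evX b * (⟨f, hf⟩ : E) := by
      rw [← aeval_map_algebraMap (FractionRing (Polynomial A)), hG, Algebra.smul_def,
        map_mul, hp₁f, IsScalarTower.algebraMap_apply (Polynomial A)
          (FractionRing (Polynomial A)) (Polynomial (FractionRing (Polynomial A))),
        Polynomial.algebraMap_apply, Algebra.algebraMap_self_apply, aeval_C,
        ← IsScalarTower.algebraMap_apply]
      rfl
    have h2 := congrArg (fun z : E => (z : LaurentSeries Kbar)) h1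
    simp only [MulMemClass.coe_mul] at h2
    rw [D.exists_eq_ev₂_aux, D.coe_evX] at h2
    exact h2.symm

end PrimData

end Fermat.Agent.T4.helper31
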