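import Mathlib
import Fermat.Agent.T4.helper31_Val1Gen

/-!
# T4 block (I), I-RED [VAL1], part 2 (helper31): V1, scaling, orthonormality

Generic port of P2 `helper81_ValRed` (V1) and `helper81_ValScale` for the pair `(E, Eb)` of
`helper4.PrimStatement`.

* `PrimData.redMem` (**[V1]**, `helper4.RedMemStatement A E Eb` verbatim);
* `PrimData.isGood_aeval`, `PrimData.isGood_ev₂` : primitive polynomials in `j` (resp. `j, θ`)
  are good series;
* `PrimData.exists_primitive_quot` : every nonzero `f ∈ E` is `(c'/c) G₁(j,θ)/s₁(j)`, primitive;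
* `PrimData.scale` (**[VAL-SC]**, `helper4.ScaleStatement A E Eb` verbatim);
* `PrimData.exists_primitive_repr` (**ORTHONORMALITY**) and `PrimData.red_mul_eq_of_repr`.
-/

set_option autoImplicit false
set_option linter.style.haveILetI false
set_option linter.unusedSectionVars false
set_option linter.unusedVariables false
set_option linter.style.longLine false

open ModularCurve Polynomial IntermediateField

noncomputable section

namespace Fermat.Agent.T4.helper31

open Fermat.Agent.S24 Fermat.Agent.S28 Fermat.Agent.S28.helper94 Fermat.Agent.S28.helper81 Fermat.Agent.P2.helper81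

namespace PrimData

variable {A : ValuationSubring Kbar} {E : IntermediateField Kbar (LaurentSeries Kbar)}
  {Eb : IntermediateField (kA A) (LaurentSeries (kA A))} (D : PrimData A E Eb)

theorem red_ev₂ (G : Polynomial (Polynomial A)) :
    red A (ev₂ (jA A) D.θ G) =
      ev₂ (jBar A) D.θb (G.map (Polynomial.mapRingHom (IsLocalRing.residue A))) := by
  rw [red, ev₂_apply, helper25.coeffMap_eval₂_aeval, ModularCurve.coeffMap_jqModC]
  rfl

theorem incl_ev₂ (G : Polynomial (Polynomial A)) :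
    coeffMap A.subtype (ev₂ (jA A) D.θ G) =
      ev₂ jK D.θK (G.map (Polynomial.mapRingHom A.subtype)) := by
  rw [ev₂_apply, helper25.coeffMap_eval₂_aeval, coeffMap_jA]
  rfl

include D in
theorem aeval_mem_Eb (p : Polynomial (kA A)) : aeval (jBar A) p ∈ Eb := by
  rw [aeval_eq_sum_range]
  refine sum_mem fun i _ => ?_
  rw [Algebra.smul_def]
  exact mul_mem (IntermediateField.algebraMap_mem _ _) (pow_mem D.jBar_mem _)

theorem ev₂_mem_Eb (G : Polynomial (Polynomial (kA A))) : ev₂ (jBar A) D.θb G ∈ Eb := by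
  rw [ev₂_apply]
  exact eval₂_mem_of_subringClass _ _ (fun a => D.aeval_mem_Eb a) _ D.θb_mem G

include D in
theorem incl_aeval_mem (s : Polynomial A) : coeffMap A.subtype (aeval (jA A) s) ∈ E := by
  rw [← D.coe_evX s]
  exact SetLike.coe_mem _

theorem incl_ev₂_mem (G : Polynomial (Polynomial A)) :
    coeffMap A.subtype (ev₂ (jA A) D.θ G) ∈ E := by
  letI := D.algAXE
  rw [← D.exists_eq_ev₂_aux G]
  exact SetLike.coe_mem _

include D in
theorem red_aeval_mem (s : Polynomial A) : red A (aeval (jA A) s) ∈ Eb := by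
  rw [red_aeval]
  exact D.aeval_mem_Eb _

theorem red_ev₂_mem (G : Polynomial (Polynomial A)) : red A (ev₂ (jA A) D.θ G) ∈ Eb := by
  rw [D.red_ev₂]
  exact D.ev₂_mem_Eb _

include D in
/-- a polynomial in `j` with nonzero reduction is a good series -/
theorem isGood_aeval (s : Polynomial A) (hs : s.map (IsLocalRing.residue A) ≠ 0) :
    helper4.IsGood A E Eb (aeval (jA A) s) := by
  refine ⟨D.incl_aeval_mem s, D.red_aeval_mem s, ?_⟩
  have := aeval_jBar_ne_zero A _ hs
  rwa [← red_aeval] at this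

/-- a polynomial in `j, θ` of `θ`-degree `< n` with nonzero reduction is a good series -/
theorem isGood_ev₂ (G : Polynomial (Polynomial A)) (hdeg : G.natDegree < D.n)
    (hG : G.map (Polynomial.mapRingHom (IsLocalRing.residue A)) ≠ 0) :
    helper4.IsGood A E Eb (ev₂ (jA A) D.θ G) := by
  refine ⟨D.incl_ev₂_mem G, D.red_ev₂_mem G, ?_⟩
  intro h0
  have h1 : ev₂ (jBar A) D.θb
      (G.map (Polynomial.mapRingHom (IsLocalRing.residue A))) = 0 := by
    rw [← D.red_ev₂]; exact h0
  exact hG (D.eq_zero_of_evBar _ (lt_of_le_of_lt Polynomial.natDegree_map_le hdeg) h1)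

include D in
/-- **[V1]** the reduction of an integral series of `E` lies in `Eb`. -/
theorem redMem : helper4.RedMemStatement A E Eb := by
  intro y hy
  obtain ⟨s, G, hs, hdeg, h⟩ := D.exists_eq_ev₂ _ hy
  have h' : coeffMap A.subtype (aeval (jA A) s * y) =
      coeffMap A.subtype (ev₂ (jA A) D.θ G) := by
    rw [map_mul]; exact h
  have hAeq : aeval (jA A) s * y = ev₂ (jA A) D.θ G := coeffMap_subtype_injective A h'
  show red A y ∈ Eb
  by_cases hG : G = 0
  · rw [hG, map_zero] at hAeq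
    have hy0 : y = 0 := by
      apply mul_left_cancel_laurentA A (aeval_jA_ne_zero A s hs)
      rw [hAeq, mul_zero]
    rw [hy0, map_zero]
    exact zero_mem _
  obtain ⟨c, s₁, i, hc, hs₁, hi⟩ := exists_scale₁ s hs
  obtain ⟨c', G₁, i', j', hc', hG₁, hij⟩ := exists_scale₂ G hG
  have hs₁bar : s₁.map (IsLocalRing.residue A) ≠ 0 := map_ne_zero_of_coeff_eq_one _ s₁ i hi
  have hG₁bar : G₁.map (Polynomial.mapRingHom (IsLocalRing.residue A)) ≠ 0 :=
    map₂_ne_zero_of_coeff_eq_one _ G₁ i' j' hij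
  have hG₁deg : (G₁.map (Polynomial.mapRingHom (IsLocalRing.residue A))).natDegree < D.n := by
    refine lt_of_le_of_lt Polynomial.natDegree_map_le ?_
    have : G.natDegree = G₁.natDegree := by
      rw [hG₁]
      exact Polynomial.natDegree_C_mul (by simpa using hc')
    rw [← this]; exact hdeg
  have hev : ev₂ (jBar A) D.θb
      (G₁.map (Polynomial.mapRingHom (IsLocalRing.residue A))) ≠ 0 := fun h0 =>
    hG₁bar (D.eq_zero_of_evBar _ hG₁deg h0)
  have hsb : aeval (jBar A) (s₁.map (IsLocalRing.residue A)) ≠ 0 :=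
    aeval_jBar_ne_zero A _ hs₁bar
  have hAeq' : algebraMap A (LaurentSeries A) c * (aeval (jA A) s₁ * y) =
      algebraMap A (LaurentSeries A) c' * ev₂ (jA A) D.θ G₁ := by
    have h1 : aeval (jA A) s = algebraMap A (LaurentSeries A) c * aeval (jA A) s₁ := by
      rw [hs₁, map_mul, aeval_C]
    have h2 : ev₂ (jA A) D.θ G =
        algebraMap A (LaurentSeries A) c' * ev₂ (jA A) D.θ G₁ := by
      rw [hG₁, map_mul, ev₂_C, aeval_C]
    rw [← h2, ← hAeq, h1, mul_assoc]
  rcases ValuationRing.dvd_total c c' with ⟨u, hu⟩ | ⟨u, hu⟩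
  · -- `c' = c u`
    have h3 : aeval (jA A) s₁ * y =
        algebraMap A (LaurentSeries A) u * ev₂ (jA A) D.θ G₁ := by
      apply mul_left_cancel_laurentA A (algebraMap_laurentA_ne_zero A hc)
      rw [hAeq', hu, map_mul, mul_assoc]
    have h4 := congrArg (red A) h3
    rw [map_mul, map_mul, red_aeval, D.red_ev₂, red_algebraMap] at h4
    have h5 : red A y = (aeval (jBar A) (s₁.map (IsLocalRing.residue A)))⁻¹ *
        (algebraMap (kA A) (LaurentSeries (kA A)) (IsLocalRing.residue A u) *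
          ev₂ (jBar A) D.θb
            (G₁.map (Polynomial.mapRingHom (IsLocalRing.residue A)))) := by
      rw [← h4, inv_mul_cancel_left₀ hsb]
    rw [h5]
    exact mul_mem (inv_mem (D.aeval_mem_Eb _))
      (mul_mem (IntermediateField.algebraMap_mem _ _) (D.ev₂_mem_Eb _))
  · -- `c = c' u`
    have h3 : algebraMap A (LaurentSeries A) u * (aeval (jA A) s₁ * y) =
        ev₂ (jA A) D.θ G₁ := by
      apply mul_left_cancel_laurentA A (algebraMap_laurentA_ne_zero A hc')
      rw [← hAeq', hu, map_mul, mul_assoc]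
    have h4 := congrArg (red A) h3
    rw [map_mul, map_mul, red_aeval, D.red_ev₂, red_algebraMap] at h4
    have hu0 : algebraMap (kA A) (LaurentSeries (kA A)) (IsLocalRing.residue A u) ≠ 0 := by
      intro h0
      rw [h0, zero_mul] at h4
      exact hev h4.symm
    have h5 : red A y = (algebraMap (kA A) (LaurentSeries (kA A)) (IsLocalRing.residue A u) *
        aeval (jBar A) (s₁.map (IsLocalRing.residue A)))⁻¹ *
          ev₂ (jBar A) D.θb
            (G₁.map (Polynomial.mapRingHom (IsLocalRing.residue A))) := by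
      rw [← h4, ← mul_assoc (algebraMap (kA A) (LaurentSeries (kA A)) (IsLocalRing.residue A u)),
        inv_mul_cancel_left₀ (mul_ne_zero hu0 hsb)]
    rw [h5]
    exact mul_mem (inv_mem (mul_mem (IntermediateField.algebraMap_mem _ _)
      (D.aeval_mem_Eb _))) (D.ev₂_mem_Eb _)

/-- **primitive representation**: every nonzero `f ∈ E` is
`(c'/c) · G₁(j, θ) / s₁(j)` with primitive `s₁ ∈ A[X]`, `G₁ ∈ A[X][Y]`, `deg_Y G₁ < n`. -/
theorem exists_primitive_quot (f : LaurentSeries Kbar) (hf : f ∈ E) (hf0 : f ≠ 0) :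
    ∃ (c c' : A) (s₁ : Polynomial A) (G₁ : Polynomial (Polynomial A)),
      c ≠ 0 ∧ c' ≠ 0 ∧ s₁.map (IsLocalRing.residue A) ≠ 0 ∧ G₁.natDegree < D.n ∧
      G₁.map (Polynomial.mapRingHom (IsLocalRing.residue A)) ≠ 0 ∧
      algebraMap Kbar (LaurentSeries Kbar) (c : Kbar) * coeffMap A.subtype (aeval (jA A) s₁) * f =
        algebraMap Kbar (LaurentSeries Kbar) (c' : Kbar) *
          coeffMap A.subtype (ev₂ (jA A) D.θ G₁) := by
  obtain ⟨s, G, hs, hdeg, h⟩ := D.exists_eq_ev₂ f hf
  have hG : G ≠ 0 := by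
    rintro rfl
    rw [map_zero, map_zero] at h
    rcases mul_eq_zero.mp h with h1 | h1
    · exact aeval_jA_ne_zero A s hs (coeffMap_subtype_injective A (by rw [h1, map_zero]))
    · exact hf0 h1
  obtain ⟨c, s₁, i, hc, hs₁, hi⟩ := exists_scale₁ s hs
  obtain ⟨c', G₁, i', j', hc', hG₁, hij⟩ := exists_scale₂ G hG
  refine ⟨c, c', s₁, G₁, hc, hc', map_ne_zero_of_coeff_eq_one _ s₁ i hi, ?_,
    map₂_ne_zero_of_coeff_eq_one _ G₁ i' j' hij, ?_⟩
  · have : G.natDegree = G₁.natDegree := by
      rw [hG₁]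
      exact Polynomial.natDegree_C_mul (by simpa using hc')
    rw [← this]; exact hdeg
  · have h1 : aeval (jA A) s = algebraMap A (LaurentSeries A) c * aeval (jA A) s₁ := by
      rw [hs₁, map_mul, aeval_C]
    have h2 : ev₂ (jA A) D.θ G =
        algebraMap A (LaurentSeries A) c' * ev₂ (jA A) D.θ G₁ := by
      rw [hG₁, map_mul, ev₂_C, aeval_C]
    rw [h1, h2, map_mul, map_mul, incl_algebraMap, incl_algebraMap] at h
    exact h

include D in
/-- **[VAL-SC]** `helper4.ScaleStatement`, verbatim. -/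
theorem scale : helper4.ScaleStatement A E Eb := by
  intro f hf hf0
  obtain ⟨c, c', s₁, G₁, hc, hc', hs₁, hdeg, hG₁, h⟩ := D.exists_primitive_quot f hf hf0
  have hcK : (c : Kbar) ≠ 0 := fun h0 => hc (Subtype.ext h0)
  have hc'K : (c' : Kbar) ≠ 0 := fun h0 => hc' (Subtype.ext h0)
  refine ⟨(c' : Kbar) / (c : Kbar), ev₂ (jA A) D.θ G₁, aeval (jA A) s₁,
    div_ne_zero hc'K hcK, D.isGood_ev₂ G₁ hdeg hG₁, D.isGood_aeval s₁ hs₁, ?_⟩
  have hcL : algebraMap Kbar (LaurentSeries Kbar) (c : Kbar) ≠ 0 := by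
    rw [Ne, map_eq_zero]; exact hcK
  apply mul_left_cancel₀ hcL
  show _ * (_ * coeffMap A.subtype _) = _ * (f * coeffMap A.subtype _)
  rw [← mul_assoc, ← map_mul, mul_div_cancel₀ _ hcK]
  rw [← h]
  ring

/-- **ORTHONORMALITY.**  A `w`-integral `f ∈ E` satisfies `s(j) f = G(j, θ)` with `s ∈ A[X]`
PRIMITIVE (nonzero reduction) and `G ∈ A[X][Y]`, `deg_Y G < n`. -/
theorem exists_primitive_repr (f : LaurentSeries Kbar) (hf : f ∈ E)
    (hw : helper4.IsWInt A E Eb f) :
    ∃ (s : Polynomial A) (G : Polynomial (Polynomial A)),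
      s.map (IsLocalRing.residue A) ≠ 0 ∧ G.natDegree < D.n ∧
      coeffMap A.subtype (aeval (jA A) s) * f =
        coeffMap A.subtype (ev₂ (jA A) D.θ G) := by
  by_cases hf0 : f = 0
  · refine ⟨1, 0, ?_, ?_, ?_⟩
    · rw [Polynomial.map_one]; exact one_ne_zero
    · rw [natDegree_zero]; exact D.n_pos
    · rw [hf0, mul_zero, map_zero, map_zero]
  obtain ⟨c, c', s₁, G₁, hc, hc', hs₁, hdeg, hG₁, h⟩ := D.exists_primitive_quot f hf hf0
  have hcK : (c : Kbar) ≠ 0 := fun h0 => hc (Subtype.ext h0)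
  have hc'K : (c' : Kbar) ≠ 0 := fun h0 => hc' (Subtype.ext h0)
  -- the case `c' = c u`
  have key : ∀ u : A, c' = c * u →
      coeffMap A.subtype (aeval (jA A) s₁) * f =
        coeffMap A.subtype (ev₂ (jA A) D.θ (C (C u) * G₁)) := by
    intro u hu
    have hcL : algebraMap Kbar (LaurentSeries Kbar) (c : Kbar) ≠ 0 := by
      rw [Ne, map_eq_zero]; exact hcK
    apply mul_left_cancel₀ hcL
    rw [← mul_assoc, h, map_mul, ev₂_C, aeval_C, map_mul, incl_algebraMap, ← mul_assoc,
      ← map_mul, hu]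
    rfl
  have hdeg' : ∀ u : A, (C (C u) * G₁).natDegree < D.n := fun u =>
    lt_of_le_of_lt (Polynomial.natDegree_C_mul_le _ _) hdeg
  rcases ValuationRing.dvd_total c c' with ⟨u, hu⟩ | ⟨u, hu⟩
  · exact ⟨s₁, C (C u) * G₁, hs₁, hdeg' u, key u hu⟩
  · by_cases huu : IsUnit u
    · obtain ⟨v, rfl⟩ := huu
      refine ⟨s₁, C (C ((v⁻¹ : Aˣ) : A)) * G₁, hs₁, hdeg' _, key _ ?_⟩
      rw [hu, mul_assoc, Units.mul_inv, mul_one]
    · exfalso
      obtain ⟨Y₁, Y₂, hY₁, hY₂, hY⟩ := hw
      have hu0 : IsLocalRing.residue A u = 0 :=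
        (IsLocalRing.residue_eq_zero_iff u).mpr ((IsLocalRing.mem_maximalIdeal u).mpr huu)
      have hc'L : algebraMap Kbar (LaurentSeries Kbar) (c' : Kbar) ≠ 0 := by
        rw [Ne, map_eq_zero]; exact hc'K
      -- `u s₁(j) f = G₁(θ)`
      have h1 : algebraMap Kbar (LaurentSeries Kbar) (u : Kbar) *
          coeffMap A.subtype (aeval (jA A) s₁) * f =
            coeffMap A.subtype (ev₂ (jA A) D.θ G₁) := by
        apply mul_left_cancel₀ hc'L
        rw [← h, hu]
        simp only [MulMemClass.coe_mul, map_mul]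
        ring
      -- `u s₁(j) Y₁ = G₁(θ) Y₂` in `A((q))`
      have h2 : algebraMap A (LaurentSeries A) u * aeval (jA A) s₁ * Y₁ =
          ev₂ (jA A) D.θ G₁ * Y₂ := by
        apply coeffMap_subtype_injective A
        rw [map_mul, map_mul, map_mul, incl_algebraMap, ← h1]
        have hY' : coeffMap A.subtype Y₁ = f * coeffMap A.subtype Y₂ := hY
        rw [hY']
        ring
      have h3 := congrArg (red A) h2
      rw [map_mul, map_mul, map_mul, red_algebraMap, hu0, map_zero, zero_mul, zero_mul] at h3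
      have h4 := (D.isGood_ev₂ G₁ hdeg hG₁).2.2
      rcases mul_eq_zero.mp h3.symm with h5 | h5
      · exact h4 h5
      · exact hY₂.2.2 h5

/-- the reduction formula attached to a primitive representation -/
theorem red_mul_eq_of_repr (f : LaurentSeries Kbar) (s : Polynomial A)
    (G : Polynomial (Polynomial A))
    (h : coeffMap A.subtype (aeval (jA A) s) * f =
        coeffMap A.subtype (ev₂ (jA A) D.θ G))
    (Y₁ Y₂ : LaurentSeries A) (hY : coeffMap A.subtype Y₁ = f * coeffMap A.subtype Y₂) :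
    aeval (jBar A) (s.map (IsLocalRing.residue A)) * red A Y₁ =
      ev₂ (jBar A) D.θb (G.map (Polynomial.mapRingHom (IsLocalRing.residue A))) *
        red A Y₂ := by
  have h2 : aeval (jA A) s * Y₁ = ev₂ (jA A) D.θ G * Y₂ := by
    apply coeffMap_subtype_injective A
    rw [map_mul, map_mul, hY, ← h]
    ring
  have h3 := congrArg (red A) h2
  rw [map_mul, map_mul, red_aeval, D.red_ev₂] at h3
  exact h3

end PrimData

end Fermat.Agent.T4.helper31
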