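import Mathlib
import Fermat.Agent.T4.helper31_Val1Scale
import Fermat.Agent.T2.helper96_CIC

/-!
# T4 block (I), I-RED [VAL1], part 3 (helper31): integrality (the `q`-expansion principle)

`PrimData.integrality : helper4.IntegralityStatement A E Eb` from the data of
`helper4.PrimStatement` and `A.LiesOverPrime ℓ`.

The proof does NOT use that `∂Φ/∂Y (j, θ)` is a unit of `A((q))` (P2 `helper81_ValInt`); it uses

* Euler's lemma over `ℚ̄[j]`: `g · δ ∈ ℚ̄[j][θ]` for `g ∈ E` integral over `ℚ̄[j]`,
  `δ = ∂Φ/∂Y (j, θ)`;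
* orthonormality of `1, θ, …, θ^(n-1)` for the Gauss valuation: if moreover `g` is `w`-integral
  then `g · δ` has an `A`-integral `q`-expansion (`PrimData.exists_incl_eq_mul_delta`);
* applied to all powers `g = f ^ m`: `f` is almost integral over `A((q))`, and `A((q))` is
  completely integrally closed in `ℚ̄((q))` since `A` has rank one (T2 `helper96_CIC`).
-/

set_option autoImplicit false
set_option linter.style.haveILetI false
set_option linter.unusedSectionVars false
set_option linter.unusedVariables false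
set_option linter.style.longLine false

open ModularCurve Polynomial IntermediateField

noncomputable section

namespace Fermat.Agent.T4.helper31

open Fermat.Agent.S24 Fermat.Agent.S28 Fermat.Agent.S28.helper94 Fermat.Agent.S28.helper81
  Fermat.Agent.P2.helper81

namespace PrimData

variable {A : ValuationSubring Kbar} {E : IntermediateField Kbar (LaurentSeries Kbar)}
  {Eb : IntermediateField (kA A) (LaurentSeries (kA A))} (D : PrimData A E Eb)

attribute [local instance] FractionRing.liftAlgebra FractionRing.isScalarTower_liftAlgebra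

/-! ### The `ℚ̄[X]`-algebra structure -/

/-- the structure map `ℚ̄[X] → E`, `X ↦ j` -/
def evXK : Polynomial Kbar →+* E :=
  ((aeval D.xE : Polynomial Kbar →ₐ[Kbar] E) : Polynomial Kbar →+* E)

theorem evXK_C (a : Kbar) : D.evXK (C a) = algebraMap Kbar E a := by
  simp [evXK]

theorem evXK_X : D.evXK X = D.xE := by
  simp [evXK]

theorem coe_evXK (p : Polynomial Kbar) :
    ((D.evXK p : E) : LaurentSeries Kbar) = aeval jK p := by
  have h := Polynomial.aeval_algHom_apply E.val D.xE p
  exact h.symm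

theorem evXK_injective : Function.Injective D.evXK := by
  rw [injective_iff_map_eq_zero]
  intro p hp
  have h1 := D.coe_evXK p
  rw [hp, ZeroMemClass.coe_zero] at h1
  exact transcendental_iff_injective.mp transcendental_jK (by rw [← h1, map_zero])

/-- the `ℚ̄[X]`-algebra structure on `E` -/
@[reducible] def algKXE : Algebra (Polynomial Kbar) E := D.evXK.toAlgebra

theorem coe_aeval_θE_K :
    letI := D.algKXE
    ∀ G : Polynomial (Polynomial Kbar),
      ((aeval D.θE G : E) : LaurentSeries Kbar) = ev₂ jK D.θK G := by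
  letI := D.algKXE
  intro G
  have : (algebraMap E (LaurentSeries Kbar)).comp
      ((aeval D.θE : Polynomial (Polynomial Kbar) →ₐ[Polynomial Kbar] E) :
        Polynomial (Polynomial Kbar) →+* E) = ev₂ jK D.θK := by
    apply Polynomial.ringHom_ext
    · intro p
      simp only [RingHom.coe_comp, Function.comp_apply, RingHom.coe_coe, aeval_C, ev₂_C]
      exact D.coe_evXK p
    · simp only [RingHom.coe_comp, Function.comp_apply, RingHom.coe_coe, aeval_X, ev₂_X]
      rfl
  exact congrArg (fun g => g G) this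

theorem aeval_θE_ΦK : letI := D.algKXE; aeval D.θE D.ΦK = 0 := by
  letI := D.algKXE
  apply Subtype.val_injective
  rw [D.coe_aeval_θE_K, D.ΦK_root]
  rfl

/-- **generation**: `E = Frac(ℚ̄[X])[θ]` -/
theorem adjoin_fractionRingK_eq_top :
    letI := D.algKXE
    haveI : FaithfulSMul (Polynomial Kbar) E :=
      (faithfulSMul_iff_algebraMap_injective _ _).mpr D.evXK_injective
    Algebra.adjoin (FractionRing (Polynomial Kbar)) {D.θE} = ⊤ := by
  letI := D.algKXE
  haveI : FaithfulSMul (Polynomial Kbar) E :=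
    (faithfulSMul_iff_algebraMap_injective _ _).mpr D.evXK_injective
  have hθint : IsIntegral (Polynomial Kbar) D.θE := ⟨D.ΦK, D.ΦK_monic, D.aeval_θE_ΦK⟩
  have hθK : IsIntegral (FractionRing (Polynomial Kbar)) D.θE := hθint.tower_top
  rw [← IntermediateField.adjoin_simple_toSubalgebra_of_isAlgebraic hθK.isAlgebraic]
  rw [eq_top_iff]
  intro f _
  rw [IntermediateField.mem_toSubalgebra]
  set S : Subfield (LaurentSeries Kbar) :=
    ((IntermediateField.adjoin (FractionRing (Polynomial Kbar)) {D.θE}).toSubfield).map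
      (algebraMap E (LaurentSeries Kbar)) with hS
  have hconst : ∀ a : Kbar, algebraMap Kbar E a ∈
      IntermediateField.adjoin (FractionRing (Polynomial Kbar)) {D.θE} := by
    intro a
    have : algebraMap Kbar E a =
        algebraMap (FractionRing (Polynomial Kbar)) E
          (algebraMap (Polynomial Kbar) (FractionRing (Polynomial Kbar)) (C a)) := by
      rw [← IsScalarTower.algebraMap_apply]
      exact (D.evXK_C a).symm
    rw [this]
    exact IntermediateField.algebraMap_mem _ _
  have hle : Subfield.closure (Set.range (algebraMap Kbar (LaurentSeries Kbar)) ∪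
      {jK, D.θK}) ≤ S := by
    rw [Subfield.closure_le]
    rintro y (⟨c, rfl⟩ | hy)
    · exact ⟨algebraMap Kbar E c, hconst c, rfl⟩
    · rcases hy with rfl | rfl
      · refine ⟨D.xE, ?_, rfl⟩
        change D.xE ∈ IntermediateField.adjoin (FractionRing (Polynomial Kbar)) {D.θE}
        have hx : D.xE = algebraMap (FractionRing (Polynomial Kbar)) E
            (algebraMap (Polynomial Kbar) (FractionRing (Polynomial Kbar)) X) := by
          rw [← IsScalarTower.algebraMap_apply]
          exact D.evXK_X.symm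
        rw [hx]
        exact IntermediateField.algebraMap_mem _ _
      · refine ⟨D.θE, ?_, rfl⟩
        exact IntermediateField.mem_adjoin_simple_self _ _
  have hfmem : (f : LaurentSeries Kbar) ∈ IntermediateField.adjoin Kbar {jK, D.θK} :=
    le_of_eq D.hE f.2
  have hfmem' : (f : LaurentSeries Kbar) ∈
      Subfield.closure (Set.range (algebraMap Kbar (LaurentSeries Kbar)) ∪ {jK, D.θK}) :=
    hfmem
  obtain ⟨g, hg, hgf⟩ := hle hfmem'
  have : g = f := Subtype.val_injective hgf
  rw [← this]
  exact hg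

/-- `δ = ∂Φ/∂Y (j, θ)` as an integral series -/
def δA : LaurentSeries A := ev₂ (jA A) D.θ (derivative D.Φ)

theorem red_δA_ne_zero : red A D.δA ≠ 0 := by
  rw [δA, D.red_ev₂, ← Polynomial.derivative_map]
  exact D.Φb_sep

theorem δA_ne_zero : D.δA ≠ 0 := by
  intro h0
  apply D.red_δA_ne_zero
  rw [h0, map_zero]

theorem incl_δA : coeffMap A.subtype D.δA = ev₂ jK D.θK (derivative D.ΦK) := by
  rw [δA, D.incl_ev₂, ← Polynomial.derivative_map]
  rfl

/-- **Euler's lemma over `ℚ̄[j]`**: `g · ∂Φ/∂Y(j, θ) ∈ ℚ̄[j][θ]` for `g ∈ E` integral over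
`ℚ̄[j]`. -/
theorem exists_eulerK (g : LaurentSeries Kbar) (hg : g ∈ E)
    (hint : letI := D.algKXE; IsIntegral (Polynomial Kbar) (⟨g, hg⟩ : E)) :
    ∃ G : Polynomial (Polynomial Kbar), G.natDegree < D.n ∧
      ev₂ jK D.θK G = g * coeffMap A.subtype D.δA := by
  letI := D.algKXE
  haveI : FaithfulSMul (Polynomial Kbar) E :=
    (faithfulSMul_iff_algebraMap_injective _ _).mpr D.evXK_injective
  obtain ⟨G, hGdeg, hG⟩ := helper25.exists_polynomial_eq_mul_aeval_derivative
    D.adjoin_fractionRingK_eq_top D.ΦK_monic D.ΦK_irreducible D.aeval_θE_ΦK hint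
  refine ⟨G, ?_, ?_⟩
  · rw [← D.ΦK_natDegree]
    by_cases hG0 : G = 0
    · rw [hG0, natDegree_zero, D.ΦK_natDegree]; exact D.n_pos
    · exact (Polynomial.natDegree_lt_natDegree_iff hG0).mpr hGdeg
  · have h1 := congrArg (fun z : E => (z : LaurentSeries Kbar)) hG
    simp only [MulMemClass.coe_mul] at h1
    rw [D.coe_aeval_θE_K, D.coe_aeval_θE_K] at h1
    rw [D.incl_δA]
    exact h1

/-- clearing the denominators of a polynomial in two variables -/
theorem exists_lift₂ (A : ValuationSubring Kbar) (G : Polynomial (Polynomial Kbar)) :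
    ∃ (b : A) (G' : Polynomial (Polynomial A)), b ≠ 0 ∧
      G'.map (Polynomial.mapRingHom A.subtype) = C (C (b : Kbar)) * G ∧
      G'.natDegree ≤ G.natDegree := by
  obtain ⟨b, hb, hbG⟩ := exists_clear_denominators A G
  have hlift : C (C (b : Kbar)) * G ∈
      Polynomial.lifts (Polynomial.mapRingHom (A.subtype : A →+* Kbar)) := by
    rw [Polynomial.lifts_iff_coeff_lifts]
    intro i
    have hcoe : Set.range (Polynomial.mapRingHom (A.subtype : A →+* Kbar)) =
        (Polynomial.lifts (A.subtype : A →+* Kbar) : Set (Polynomial Kbar)) := by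
      ext y
      simp [Polynomial.mem_lifts]
    rw [hcoe]
    apply mem_lifts_of_coeff_mem
    intro j
    rw [Polynomial.coeff_C_mul, Polynomial.coeff_C_mul]
    exact hbG i j
  obtain ⟨G', hG', hdeg⟩ := Polynomial.exists_degree_eq_of_mem_lifts hlift
  refine ⟨b, G', hb, hG', ?_⟩
  have hbK : (b : Kbar) ≠ 0 := fun h0 => hb (Subtype.ext h0)
  have h1 : (C (C (b : Kbar)) * G).natDegree = G.natDegree :=
    Polynomial.natDegree_C_mul (by simpa using hbK)
  rw [← h1]
  exact Polynomial.natDegree_le_natDegree (le_of_eq hdeg)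

/-- **Integrality of `g δ`**: if `g ∈ E` is integral over `ℚ̄[j]` and `w`-integral, then
`g · ∂Φ/∂Y (j, θ)` has an `A`-integral `q`-expansion. -/
theorem exists_incl_eq_mul_delta (g : LaurentSeries Kbar) (hg : g ∈ E)
    (hint : letI := D.algKXE; IsIntegral (Polynomial Kbar) (⟨g, hg⟩ : E))
    (hw : helper4.IsWInt A E Eb g) :
    ∃ Z : LaurentSeries A, coeffMap A.subtype Z = g * coeffMap A.subtype D.δA := by
  obtain ⟨G, hGdeg, hG⟩ := D.exists_eulerK g hg hint
  by_cases hG0 : G = 0
  · refine ⟨0, ?_⟩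
    rw [hG0, map_zero] at hG
    rw [map_zero, ← hG]
  obtain ⟨b, G', hb, hG', hG'deg⟩ := exists_lift₂ A G
  have hbK : (b : Kbar) ≠ 0 := fun h0 => hb (Subtype.ext h0)
  have hbL : algebraMap Kbar (LaurentSeries Kbar) (b : Kbar) ≠ 0 := by
    rw [Ne, map_eq_zero]; exact hbK
  have hG'0 : G' ≠ 0 := by
    intro h0
    rw [h0, Polynomial.map_zero] at hG'
    have h1 : C (C (b : Kbar)) ≠ (0 : Polynomial (Polynomial Kbar)) := by simpa using hbK
    exact (mul_ne_zero h1 hG0) hG'.symm
  obtain ⟨c, G₁, i, j, hc, hG₁, hij⟩ := exists_scale₂ G' hG'0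
  have hG₁bar := map₂_ne_zero_of_coeff_eq_one (IsLocalRing.residue A) G₁ i j hij
  have hG₁deg : G₁.natDegree < D.n := by
    have : G'.natDegree = G₁.natDegree := by
      rw [hG₁]; exact Polynomial.natDegree_C_mul (by simpa using hc)
    rw [← this]; exact lt_of_le_of_lt hG'deg hGdeg
  have hgood := D.isGood_ev₂ G₁ hG₁deg hG₁bar
  -- `b g δ = c G₁(j, θ)`
  have hrel : algebraMap Kbar (LaurentSeries Kbar) (b : Kbar) *
      (g * coeffMap A.subtype D.δA) =
      algebraMap Kbar (LaurentSeries Kbar) (c : Kbar) *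
        coeffMap A.subtype (ev₂ (jA A) D.θ G₁) := by
    have h1 : coeffMap A.subtype (ev₂ (jA A) D.θ G') =
        algebraMap Kbar (LaurentSeries Kbar) (b : Kbar) * ev₂ jK D.θK G := by
      rw [D.incl_ev₂, hG', map_mul, ev₂_C, aeval_C]
    have h2 : coeffMap A.subtype (ev₂ (jA A) D.θ G') =
        algebraMap Kbar (LaurentSeries Kbar) (c : Kbar) *
          coeffMap A.subtype (ev₂ (jA A) D.θ G₁) := by
      rw [hG₁, map_mul, ev₂_C, aeval_C, map_mul, incl_algebraMap]
    rw [← hG, ← h1, h2]
  have key : ∀ v : A, c = b * v →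
      ∃ Z : LaurentSeries A, coeffMap A.subtype Z = g * coeffMap A.subtype D.δA := by
    intro v hv
    refine ⟨algebraMap A (LaurentSeries A) v * ev₂ (jA A) D.θ G₁, ?_⟩
    apply mul_left_cancel₀ hbL
    rw [hrel, hv, map_mul, incl_algebraMap]
    simp only [MulMemClass.coe_mul, map_mul]
    ring
  rcases ValuationRing.dvd_total b c with ⟨v, hv⟩ | ⟨v, hv⟩
  · exact key v hv
  · by_cases hvu : IsUnit v
    · obtain ⟨u, rfl⟩ := hvu
      exact key ((u⁻¹ : Aˣ) : A) (by rw [hv, mul_assoc, Units.mul_inv, mul_one])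
    · exfalso
      obtain ⟨Y₁, Y₂, hY₁, hY₂, hY⟩ := hw
      have hv0 : IsLocalRing.residue A v = 0 :=
        (IsLocalRing.residue_eq_zero_iff v).mpr ((IsLocalRing.mem_maximalIdeal v).mpr hvu)
      have hcK : (c : Kbar) ≠ 0 := fun h0 => hc (Subtype.ext h0)
      have hcL : algebraMap Kbar (LaurentSeries Kbar) (c : Kbar) ≠ 0 := by
        rw [Ne, map_eq_zero]; exact hcK
      -- `v g δ = G₁(j, θ)`
      have h1 : algebraMap Kbar (LaurentSeries Kbar) (v : Kbar) *
          (g * coeffMap A.subtype D.δA) = coeffMap A.subtype (ev₂ (jA A) D.θ G₁) := by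
        apply mul_left_cancel₀ hcL
        rw [← hrel, hv]
        simp only [MulMemClass.coe_mul, map_mul]
        ring
      have h2 : algebraMap A (LaurentSeries A) v * (Y₁ * D.δA) =
          ev₂ (jA A) D.θ G₁ * Y₂ := by
        apply coeffMap_subtype_injective A
        have hY' : coeffMap A.subtype Y₁ = g * coeffMap A.subtype Y₂ := hY
        rw [map_mul, map_mul, map_mul, incl_algebraMap, ← h1, hY']
        ring
      have h3 := congrArg (red A) h2
      rw [map_mul (red A) _ (Y₁ * D.δA), red_algebraMap, hv0, map_zero, zero_mul,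
        map_mul (red A) _ Y₂] at h3
      rcases mul_eq_zero.mp h3.symm with h5 | h5
      · exact hgood.2.2 h5
      · exact hY₂.2.2 h5

/-! ### From `InL` to integrality over `ℚ̄[j]` -/

theorem not_isInfty_of_ord_xE_nonneg (P : AlgebraicCurve.Place Kbar E)
    (hP : 0 ≤ P.ord D.xE) : ¬ Fermat.Agent.P2.helper29.IsInfty P := by
  intro hInf
  have hx0 : D.xE ≠ 0 := fun h0 => jK_ne_zero (congrArg Subtype.val h0)
  have h1 := hInf D.xE hx0
  rw [D.coe_xE, order_jK] at h1
  omega

/-- `InL` implies integrality over `ℚ̄[j]` -/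
theorem isIntegral_of_inL (n : ℤ) (f : LaurentSeries Kbar) (h : Fermat.Agent.P2.helper29.InL E n f) :
    letI := D.algKXE
    IsIntegral (Polynomial Kbar) (⟨f, h.1⟩ : E) := by
  letI := D.algKXE
  obtain ⟨hf, hreg, -⟩ := h
  haveI : FiniteDimensional Kbar⟮D.xE⟯ E := D.finiteDimensional_E
  have h1 : ∀ P : AlgebraicCurve.Place Kbar E, 0 ≤ P.ord D.xE →
      0 ≤ P.ord (⟨f, hf⟩ : E) :=
    fun P hP => hreg P (D.not_isInfty_of_ord_xE_nonneg P hP)
  have h2 := isIntegral_of_forall_place D.xE (⟨f, hf⟩ : E) h1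
  obtain ⟨p, hp, hp0⟩ := exists_monic_of_isIntegral_adjoin D.xE (⟨f, hf⟩ : E) h2
  exact ⟨p, hp, hp0⟩

/-! ### The `q`-expansion principle -/

theorem isWInt_pow {f : LaurentSeries Kbar} (hw : helper4.IsWInt A E Eb f) (m : ℕ) :
    helper4.IsWInt A E Eb (f ^ m) := by
  obtain ⟨Y₁, Y₂, hY₁, hY₂, hY⟩ := hw
  refine ⟨Y₁ ^ m, Y₂ ^ m, ?_, ⟨?_, ?_, ?_⟩, ?_⟩
  · show coeffMap A.subtype (Y₁ ^ m) ∈ E
    rw [map_pow]
    exact pow_mem hY₁ m
  · show coeffMap A.subtype (Y₂ ^ m) ∈ E
    rw [map_pow]
    exact pow_mem hY₂.1 m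
  · show coeffMap (IsLocalRing.residue A) (Y₂ ^ m) ∈ Eb
    rw [map_pow]
    exact pow_mem hY₂.2.1 m
  · show coeffMap (IsLocalRing.residue A) (Y₂ ^ m) ≠ 0
    rw [map_pow]
    exact pow_ne_zero m hY₂.2.2
  · show coeffMap A.subtype (Y₁ ^ m) = f ^ m * coeffMap A.subtype (Y₂ ^ m)
    have hY' : coeffMap A.subtype Y₁ = f * coeffMap A.subtype Y₂ := hY
    rw [map_pow, map_pow, hY', mul_pow]

include D in
/-- **[VAL-INT]** `helper4.IntegralityStatement`, verbatim: a `w`-integral function which is
regular off infinity has an integral `q`-expansion. -/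
theorem integrality {ℓ : ℕ} (hℓ : ℓ.Prime) (hA : A.LiesOverPrime ℓ) :
    helper4.IntegralityStatement A E Eb := by
  intro n f hInL hw
  letI := D.algKXE
  have hf : f ∈ E := hInL.1
  have hint := D.isIntegral_of_inL n f hInL
  have hpow : ∀ m : ℕ, coeffMap A.subtype D.δA * f ^ m ∈
      Fermat.Agent.T2.helper96.intSeries A := by
    intro m
    have hintm : IsIntegral (Polynomial Kbar) (⟨f ^ m, pow_mem hf m⟩ : E) := hint.pow m
    obtain ⟨Z, hZ⟩ := D.exists_incl_eq_mul_delta (f ^ m) (pow_mem hf m) hintm (isWInt_pow hw m)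
    rw [mul_comm, ← hZ]
    exact ⟨Z, rfl⟩
  have hδ : coeffMap A.subtype D.δA ≠ 0 := fun h0 =>
    D.δA_ne_zero (coeffMap_subtype_injective A (by rw [h0, map_zero]))
  have hmem := Fermat.Agent.T2.helper96.mem_intSeries_of_forall_mul_pow A
    (Fermat.Agent.T2.helper96.isArchVS_of_liesOverPrime A hℓ hA) _ hδ f hpow
  obtain ⟨Y, hY⟩ := hmem
  exact ⟨Y, hY⟩

end PrimData

/-! ### Statement-level wrappers: everything from `helper4.PrimStatement` -/

section Wrappers

variable {A : ValuationSubring Kbar} {E : IntermediateField Kbar (LaurentSeries Kbar)}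
  {Eb : IntermediateField (kA A) (LaurentSeries (kA A))}

/-- **[V1]** from **[PRIM]** -/
theorem redMem_of_prim (h : helper4.PrimStatement A E Eb) :
    helper4.RedMemStatement A E Eb := by
  obtain ⟨D⟩ := PrimData.of_statement h
  exact D.redMem

/-- **[VAL-SC]** from **[PRIM]** -/
theorem scale_of_prim (h : helper4.PrimStatement A E Eb) :
    helper4.ScaleStatement A E Eb := by
  obtain ⟨D⟩ := PrimData.of_statement h
  exact D.scale

/-- **[VAL-INT]** from **[PRIM]** (no hypothesis on the different: `A` of rank one suffices) -/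
theorem integrality_of_prim {ℓ : ℕ} (hℓ : ℓ.Prime) (hA : A.LiesOverPrime ℓ)
    (h : helper4.PrimStatement A E Eb) :
    helper4.IntegralityStatement A E Eb := by
  obtain ⟨D⟩ := PrimData.of_statement h
  exact D.integrality hℓ hA

/-- **[DEG]** from **[PRIM]** -/
theorem deg_of_prim (hj : jqModC Kbar ∈ E) (hjb : jqModC (kA A) ∈ Eb)
    (h : helper4.PrimStatement A E Eb) :
    helper4.DegStatement A E Eb hj hjb := by
  obtain ⟨D⟩ := PrimData.of_statement h
  exact D.degStatement hj hjb

end Wrappers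

end Fermat.Agent.T4.helper31
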