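import Mathlib
import Fermat.Agent.P2.helper81_ValConv
import Fermat.Agent.T2.helper96_CIC
import Fermat.Agent.T4.helper43_ValG

/-!
# T4 block (I), I-RED [VAL], generic part 2 (helper43, row 1130)

Generic port of P2 `helper81_ValInt / ValConv` to a pair `(E, Eb)` of `helper4_RedDefs` under
`helper4.PrimStatement A E Eb`:

* `integrality_G : A.LiesOverPrime ℓ → PrimStatement A E Eb → IntegralityStatement A E Eb`
  (**[VAL-INT]**);
* `regRed_G : PrimStatement A E Eb → CuspRegStatement A E Eb hjb → RegRedStatement A E Eb`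
  (**[VAL-UE]**).

DIFFERENCE WITH P2.  In P2 the series `δ = ∂Φ/∂Y (j, θ)` is a UNIT of `A((q))`; this is not a
consequence of `PrimStatement` (only `red δ ≠ 0` is).  Here integrality is obtained from

* Euler's lemma + the `w`-integrality: `f δ = G(j, θ)` with `G ∈ A[X][Y]`;
* the primitive Bezout relation `U(j, θ) δ = D(j)` and the Gauss lemma: `f` is integral over
  `A[j]` (**Q1c**, for `w`-integral `f`);
* complete integral closedness of `A((q))` in `ℚ̄((q))` (`T2.helper96`).
-/

set_option autoImplicit false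
set_option linter.style.haveILetI false
set_option linter.unusedSectionVars false
set_option linter.unusedVariables false

open ModularCurve Polynomial IntermediateField AlgebraicCurve

noncomputable section

namespace Fermat.Agent.T4.helper43

open Fermat.Agent.S24 Fermat.Agent.S28.helper94 Fermat.Agent.S28.helper81
open Fermat.Agent.S28
open Fermat.Agent.S18.helper19 (Kb kA)
open Fermat.Agent.P2.helper29 (incl red IsInfty InL)
open Fermat.Agent.P2.helper81 (ev₂ ev₂_apply ev₂_C ev₂_X jA jK jBar coeffMap_jA red_jA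
  red_aeval red_algebraMap transcendental_jK transcendental_jBar aeval_jA_ne_zero
  aeval_jBar_ne_zero mul_left_cancel_laurentA algebraMap_laurentA_ne_zero
  coeffMap_subtype_injective exists_scale₁ exists_scale₂ map_ne_zero_of_coeff_eq_one
  map₂_ne_zero_of_coeff_eq_one eq_zero_of_ev₂_eq_zero_of_natDegree_lt incl_algebraMap
  algHom_ev₂ exists_monic_of_integral isIntegral_of_isIntegral_mul_of_primitive
  place_ord_nonneg_of_monic isIntegral_of_forall_place exists_monic_of_isIntegral_adjoin
  jK_ne_zero order_jK residue_eq_zero_of_not_isUnit)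
open Fermat.Agent.T4.helper4

/-- `δ = ∂Φ/∂Y (j, θ)` -/
def deltaG {A : ValuationSubring Kb} (θ : LaurentSeries A) (Φ : Polynomial (Polynomial A)) :
    LaurentSeries A :=
  ev₂ (jA A) θ (derivative Φ)

/-- weak `w`-integrality: `f` is a quotient of an integral series by an integral series with
nonzero reduction -/
def IsWeakInt (A : ValuationSubring Kb) (f : LaurentSeries Kb) : Prop :=
  ∃ Y₁ Y₂ : LaurentSeries A, red A Y₂ ≠ 0 ∧ incl A Y₁ = f * incl A Y₂

theorem isWeakInt_incl (A : ValuationSubring Kb) (Y : LaurentSeries A) :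
    IsWeakInt A (incl A Y) :=
  ⟨Y, 1, by rw [map_one]; exact one_ne_zero, by rw [map_one, mul_one]⟩

theorem isWeakInt_of_isWInt {A : ValuationSubring Kb}
    {E : IntermediateField Kb (LaurentSeries Kb)}
    {Eb : IntermediateField (kA A) (LaurentSeries (kA A))} {f : LaurentSeries Kb}
    (h : IsWInt A E Eb f) : IsWeakInt A f := by
  obtain ⟨Y₁, Y₂, -, hY₂, hY⟩ := h
  exact ⟨Y₁, Y₂, hY₂.2.2, hY⟩

namespace PrimPack

variable {A : ValuationSubring Kb} {E : IntermediateField Kb (LaurentSeries Kb)}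
  {Eb : IntermediateField (kA A) (LaurentSeries (kA A))} {θ : LaurentSeries A}
  {Φ : Polynomial (Polynomial A)} (H : PrimPack A E Eb θ Φ)

include H

theorem irreducible_Phi : Irreducible Φ :=
  Polynomial.Monic.irreducible_of_irreducible_map
    (Polynomial.mapRingHom (IsLocalRing.residue A)) _ H.monic H.irrB

theorem red_deltaG_ne_zero : red A (deltaG θ Φ) ≠ 0 := by
  rw [deltaG, PrimPack.red_ev₂, ← Polynomial.derivative_map]
  exact H.der

theorem deltaG_ne_zero : deltaG θ Φ ≠ 0 := fun h0 =>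
  H.red_deltaG_ne_zero (by rw [h0, map_zero])

section AX

attribute [local instance] FractionRing.liftAlgebra FractionRing.isScalarTower_liftAlgebra

theorem faithfulSMul_AX : letI := H.algAX; FaithfulSMul (Polynomial A) E := by
  letI := H.algAX
  exact (faithfulSMul_iff_algebraMap_injective _ _).mpr H.evX_injective

theorem coe_evX' (p : Polynomial A) :
    ((H.evX p : E) : LaurentSeries Kb) = aeval jK (p.map A.subtype) := by
  rw [H.coe_evX, PrimPack.incl_aeval]

/-- a root of a monic polynomial over `A[j]` is integral over `A[X]` -/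
theorem isIntegral_of_monic (f : E) (q : Polynomial (Polynomial A)) (hq : q.Monic)
    (h : ev₂ jK (f : LaurentSeries Kb) (q.map (Polynomial.mapRingHom A.subtype)) = 0) :
    letI := H.algAX
    IsIntegral (Polynomial A) f := by
  letI := H.algAX
  refine ⟨q, hq, ?_⟩
  apply Subtype.val_injective
  have h1 : (algebraMap E (LaurentSeries Kb)).comp (algebraMap (Polynomial A) E) =
      ((aeval jK : Polynomial Kb →ₐ[Kb] LaurentSeries Kb) :
        Polynomial Kb →+* LaurentSeries Kb).comp (Polynomial.mapRingHom A.subtype) :=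
    RingHom.ext fun p => H.coe_evX' p
  have h2 : ((eval₂ (algebraMap (Polynomial A) E) f q : E) : LaurentSeries Kb) =
      eval₂ ((algebraMap E (LaurentSeries Kb)).comp (algebraMap (Polynomial A) E))
        (f : LaurentSeries Kb) q :=
    Polynomial.hom_eval₂ q (algebraMap (Polynomial A) E)
      (algebraMap E (LaurentSeries Kb)) f
  rw [h2, h1, ← Polynomial.eval₂_map]
  exact h

/-- **Euler's lemma over `A[j]`**: `f · ∂Φ/∂Y(j, θ) ∈ A[j, θ]` for `f` integral over `A[j]` -/
theorem exists_euler (f : E)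
    (hint : letI := H.algAX; IsIntegral (Polynomial A) f) :
    ∃ G : Polynomial (Polynomial A), G.natDegree < Φ.natDegree ∧
      incl A (ev₂ (jA A) θ G) = (f : LaurentSeries Kb) * incl A (deltaG θ Φ) := by
  letI := H.algAX
  haveI : FaithfulSMul (Polynomial A) E := H.faithfulSMul_AX
  obtain ⟨G, hGdeg, hG⟩ := helper25.exists_polynomial_eq_mul_aeval_derivative
    H.adjoin_fractionRing_eq_top H.monic H.irreducible_Phi H.aeval_thetaE_Phi hint
  refine ⟨G, ?_, ?_⟩
  · by_cases hG0 : G = 0
    · rw [hG0, natDegree_zero]; exact H.natDegree_pos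
    · exact (Polynomial.natDegree_lt_natDegree_iff hG0).mpr hGdeg
  · have h1 := congrArg (fun z : E => (z : LaurentSeries Kb)) hG
    simp only [MulMemClass.coe_mul] at h1
    rw [H.coe_aeval_thetaE, H.coe_aeval_thetaE] at h1
    exact h1

/-- **Euler's formula for `w`-integral functions**: if `f ∈ E` is integral over `ℚ̄[j]` and
weakly `w`-integral, then `f · δ = G(j, θ)` with `G ∈ A[X][Y]`, `deg_Y G < n`. -/
theorem exists_euler_of_weakInt (f : LaurentSeries Kb) (hf : f ∈ E)
    (hint : ∃ p : Polynomial (Polynomial Kb), p.Monic ∧ ev₂ jK f p = 0)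
    (hw : IsWeakInt A f) :
    ∃ G : Polynomial (Polynomial A), G.natDegree < Φ.natDegree ∧
      incl A (ev₂ (jA A) θ G) = f * incl A (deltaG θ Φ) := by
  letI := H.algAX
  haveI : FaithfulSMul (Polynomial A) E := H.faithfulSMul_AX
  obtain ⟨p, hp, hp0⟩ := hint
  obtain ⟨b, q, hb, hq, hq0⟩ := exists_monic_of_integral A jK f p hp hp0
  have hbK : (b : Kb) ≠ 0 := fun h0 => hb (Subtype.ext h0)
  set g : E := algebraMap Kb E (b : Kb) * ⟨f, hf⟩ with hg
  have hgint : IsIntegral (Polynomial A) g := H.isIntegral_of_monic g q hq hq0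
  obtain ⟨G, hGdeg, hG⟩ := H.exists_euler g hgint
  have hgcoe : (g : LaurentSeries Kb) = algebraMap Kb (LaurentSeries Kb) (b : Kb) * f := rfl
  rw [hgcoe] at hG
  have hδ : incl A (deltaG θ Φ) ≠ 0 := fun h0 =>
    H.deltaG_ne_zero (coeffMap_subtype_injective A (by rw [h0, map_zero]))
  have hbL : algebraMap Kb (LaurentSeries Kb) (b : Kb) ≠ 0 := by
    rw [Ne, map_eq_zero]; exact hbK
  by_cases hG0 : G = 0
  · refine ⟨0, by rw [natDegree_zero]; exact H.natDegree_pos, ?_⟩
    rw [hG0, map_zero, map_zero] at hG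
    rw [map_zero, map_zero]
    rcases mul_eq_zero.mp hG.symm with h1 | h1
    · rcases mul_eq_zero.mp h1 with h2 | h2
      · exact absurd h2 hbL
      · rw [h2, zero_mul]
    · exact absurd h1 hδ
  obtain ⟨c, G₁, i, j, hc, hG₁, hij⟩ := exists_scale₂ G hG0
  have hG₁bar := map₂_ne_zero_of_coeff_eq_one (IsLocalRing.residue A) G₁ i j hij
  have hG₁deg : G₁.natDegree < Φ.natDegree := by
    have : G.natDegree = G₁.natDegree := by
      rw [hG₁]; exact Polynomial.natDegree_C_mul (by simpa using hc)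
    rw [← this]; exact hGdeg
  have hgood : red A (ev₂ (jA A) θ G₁) ≠ 0 := (H.isGood_ev₂ G₁ hG₁deg hG₁bar).2.2
  have hrel : algebraMap Kb (LaurentSeries Kb) (b : Kb) * (f * incl A (deltaG θ Φ)) =
      algebraMap Kb (LaurentSeries Kb) (c : Kb) * incl A (ev₂ (jA A) θ G₁) := by
    have h1 : incl A (ev₂ (jA A) θ G) =
        algebraMap Kb (LaurentSeries Kb) (c : Kb) * incl A (ev₂ (jA A) θ G₁) := by
      rw [hG₁, map_mul, ev₂_C, aeval_C, map_mul, incl_algebraMap]
    rw [← h1, hG, mul_assoc]
  have key : ∀ v : A, c = b * v → ∃ G : Polynomial (Polynomial A),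
      G.natDegree < Φ.natDegree ∧ incl A (ev₂ (jA A) θ G) = f * incl A (deltaG θ Φ) := by
    intro v hv
    refine ⟨C (C v) * G₁, lt_of_le_of_lt (Polynomial.natDegree_C_mul_le _ _) hG₁deg, ?_⟩
    apply mul_left_cancel₀ hbL
    rw [hrel, hv, map_mul, ev₂_C, aeval_C, map_mul, incl_algebraMap]
    simp only [MulMemClass.coe_mul, map_mul]
    ring
  rcases ValuationRing.dvd_total b c with ⟨v, hv⟩ | ⟨v, hv⟩
  · exact key v hv
  · by_cases hvu : IsUnit v
    · obtain ⟨w, rfl⟩ := hvu
      exact key ((w⁻¹ : Aˣ) : A) (by rw [hv, mul_assoc, Units.mul_inv, mul_one])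
    · exfalso
      obtain ⟨Y₁, Y₂, hY₂, hY⟩ := hw
      have hv0 := residue_eq_zero_of_not_isUnit A hvu
      have hcK : (c : Kb) ≠ 0 := fun h0 => hc (Subtype.ext h0)
      have hcL : algebraMap Kb (LaurentSeries Kb) (c : Kb) ≠ 0 := by
        rw [Ne, map_eq_zero]; exact hcK
      -- `v f δ = G₁(j, θ)`
      have h1 : algebraMap Kb (LaurentSeries Kb) (v : Kb) * (f * incl A (deltaG θ Φ)) =
          incl A (ev₂ (jA A) θ G₁) := by
        apply mul_left_cancel₀ hcL
        rw [← hrel, hv]
        simp only [MulMemClass.coe_mul, map_mul]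
        ring
      -- `v Y₁ δ = G₁(j, θ) Y₂`
      have h2 : algebraMap A (LaurentSeries A) v * (Y₁ * deltaG θ Φ) =
          ev₂ (jA A) θ G₁ * Y₂ := by
        apply coeffMap_subtype_injective A
        have hY' : coeffMap A.subtype Y₁ = f * coeffMap A.subtype Y₂ := hY
        have h1' : algebraMap Kb (LaurentSeries Kb) (v : Kb) *
            (f * coeffMap A.subtype (deltaG θ Φ)) =
              coeffMap A.subtype (ev₂ (jA A) θ G₁) := h1
        rw [map_mul, map_mul, map_mul, incl_algebraMap, hY', ← h1']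
        ring
      have h3 := congrArg (red A) h2
      rw [map_mul, red_algebraMap, hv0, map_zero, zero_mul, map_mul] at h3
      rcases mul_eq_zero.mp h3.symm with h5 | h5
      · exact hgood h5
      · exact hY₂ h5

/-- **primitive Bezout**: `U(j, θ) · δ = D(j)` with `D ∈ A[X]` primitive. -/
theorem exists_primitive_bezout :
    ∃ (U : Polynomial (Polynomial A)) (D : Polynomial A),
      D.map (IsLocalRing.residue A) ≠ 0 ∧
      ev₂ (jA A) θ U * deltaG θ Φ = aeval (jA A) D := by
  letI := H.algAX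
  haveI : FaithfulSMul (Polynomial A) E := H.faithfulSMul_AX
  have hδ0 : deltaG θ Φ ≠ 0 := H.deltaG_ne_zero
  have hδbar : red A (deltaG θ Φ) ≠ 0 := H.red_deltaG_ne_zero
  have hδF : aeval H.thetaE (derivative Φ) ≠ 0 := by
    intro h0
    have h1 : ((aeval H.thetaE (derivative Φ) : E) : LaurentSeries Kb) =
        ((0 : E) : LaurentSeries Kb) := congrArg Subtype.val h0
    rw [H.coe_aeval_thetaE] at h1
    exact hδ0 (coeffMap_subtype_injective A (by rw [map_zero]; exact h1))
  obtain ⟨U₀, V₀, d, hd, hUV⟩ := helper25.exists_bezout_of_irreducible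
    H.monic H.irreducible_Phi H.aeval_thetaE_Phi hδF
  have hΦm : Φ.Monic := H.monic
  have hroot : ev₂ (jA A) θ Φ = 0 := H.root
  set U₁ := U₀ %ₘ Φ with hU₁
  have hU₁ev : ev₂ (jA A) θ U₁ = ev₂ (jA A) θ U₀ := by
    have h1 := Polynomial.modByMonic_add_div U₀ Φ
    have h2 := congrArg (ev₂ (jA A) θ) h1
    rw [map_add, map_mul, hroot, zero_mul, add_zero] at h2
    exact h2
  have h1 : ev₂ (jA A) θ U₁ * deltaG θ Φ = aeval (jA A) d := by
    have h2 := congrArg (ev₂ (jA A) θ) hUV
    rw [map_add, map_mul, map_mul, hroot, mul_zero, add_zero, ev₂_C] at h2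
    rw [hU₁ev]
    exact h2
  have hU₁deg : U₁.natDegree < Φ.natDegree := by
    exact Polynomial.natDegree_modByMonic_lt U₀ hΦm
      (fun h => by
        have h3 := congrArg Polynomial.natDegree h
        rw [natDegree_one] at h3
        exact absurd h3 H.natDegree_pos.ne')
  have hd_ne : aeval (jA A) d ≠ 0 := aeval_jA_ne_zero A d hd
  have hU₁0 : U₁ ≠ 0 := by
    intro h0
    rw [h0, map_zero, zero_mul] at h1
    exact hd_ne h1.symm
  obtain ⟨u, U₂, i, j, hu, hU₂, hij⟩ := exists_scale₂ U₁ hU₁0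
  obtain ⟨c, d₁, i', hc, hd₁, hi'⟩ := exists_scale₁ d hd
  have hU₂bar := map₂_ne_zero_of_coeff_eq_one (IsLocalRing.residue A) U₂ i j hij
  have hd₁bar := map_ne_zero_of_coeff_eq_one (IsLocalRing.residue A) d₁ i' hi'
  have hU₂deg : U₂.natDegree < Φ.natDegree := by
    have : U₁.natDegree = U₂.natDegree := by
      rw [hU₂]; exact Polynomial.natDegree_C_mul (by simpa using hu)
    rw [← this]; exact hU₁deg
  have hgood : red A (ev₂ (jA A) θ U₂) ≠ 0 := (H.isGood_ev₂ U₂ hU₂deg hU₂bar).2.2
  have hrel : algebraMap A (LaurentSeries A) u * (ev₂ (jA A) θ U₂ * deltaG θ Φ) =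
      algebraMap A (LaurentSeries A) c * aeval (jA A) d₁ := by
    have h2 : ev₂ (jA A) θ U₁ = algebraMap A (LaurentSeries A) u * ev₂ (jA A) θ U₂ := by
      rw [hU₂, map_mul, ev₂_C, aeval_C]
    have h3 : aeval (jA A) d = algebraMap A (LaurentSeries A) c * aeval (jA A) d₁ := by
      rw [hd₁, map_mul, aeval_C]
    rw [← h3, ← h1, h2]
    ring
  rcases ValuationRing.dvd_total c u with ⟨v, hv⟩ | ⟨v, hv⟩
  · -- `u = c v`
    refine ⟨C (C v) * U₂, d₁, hd₁bar, ?_⟩
    apply mul_left_cancel_laurentA A (algebraMap_laurentA_ne_zero A hc)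
    rw [← hrel, hv, map_mul, map_mul, ev₂_C, aeval_C]
    ring
  · -- `c = u v`, then `v` is a unit
    have h2 : ev₂ (jA A) θ U₂ * deltaG θ Φ =
        algebraMap A (LaurentSeries A) v * aeval (jA A) d₁ := by
      apply mul_left_cancel_laurentA A (algebraMap_laurentA_ne_zero A hu)
      rw [hrel, hv, map_mul]
      ring
    have hvbar : IsLocalRing.residue A v ≠ 0 := by
      intro hv0
      have h3 := congrArg (red A) h2
      rw [map_mul, map_mul, red_algebraMap, hv0, map_zero, zero_mul] at h3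
      rcases mul_eq_zero.mp h3 with h4 | h4
      · exact hgood h4
      · exact hδbar h4
    refine ⟨U₂, C v * d₁, ?_, ?_⟩
    · rw [Polynomial.map_mul, Polynomial.map_C]
      exact mul_ne_zero (by simpa using hvbar) hd₁bar
    · rw [h2, map_mul, aeval_C]

/-- **(Q1c)**: an element of `E` which is integral over `ℚ̄[j]` and weakly `w`-integral is
integral over `A[j]`. -/
theorem isIntegral_of_weakInt (f : LaurentSeries Kb) (hf : f ∈ E)
    (hint : ∃ p : Polynomial (Polynomial Kb), p.Monic ∧ ev₂ jK f p = 0)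
    (hw : IsWeakInt A f) :
    letI := H.algAX
    IsIntegral (Polynomial A) (⟨f, hf⟩ : E) := by
  letI := H.algAX
  haveI : FaithfulSMul (Polynomial A) E := H.faithfulSMul_AX
  obtain ⟨G, -, hG⟩ := H.exists_euler_of_weakInt f hf hint hw
  obtain ⟨U, D, hD, hUD⟩ := H.exists_primitive_bezout
  obtain ⟨p, hp, hp0⟩ := hint
  obtain ⟨b, q, hb, hq, hq0⟩ := exists_monic_of_integral A jK f p hp hp0
  set F : E := ⟨f, hf⟩ with hF
  have h1 : IsIntegral (Polynomial A) (algebraMap (Polynomial A) E (C b) * F) := by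
    have : algebraMap (Polynomial A) E (C b) * F = algebraMap Kb E (b : Kb) * F := by
      show H.evX (C b) * F = _
      rw [H.evX_C]
    rw [this]
    exact H.isIntegral_of_monic _ q hq hq0
  have hθ : IsIntegral (Polynomial A) H.thetaE := H.isIntegral_thetaE
  have hθint : ∀ G : Polynomial (Polynomial A), IsIntegral (Polynomial A) (aeval H.thetaE G) :=
    fun G => (Algebra.adjoin_le (S := integralClosure (Polynomial A) E)
      (Set.singleton_subset_iff.mpr hθ)) (aeval_mem_adjoin_singleton (Polynomial A) H.thetaE)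
  have h2 : IsIntegral (Polynomial A) (algebraMap (Polynomial A) E D * F) := by
    have key : algebraMap (Polynomial A) E D * F = aeval H.thetaE (U * G) := by
      apply Subtype.val_injective
      rw [H.coe_aeval_thetaE, map_mul, map_mul, hG, MulMemClass.coe_mul]
      have e1 : ((algebraMap (Polynomial A) E D : E) : LaurentSeries Kb) =
          incl A (aeval (jA A) D) := H.coe_evX D
      rw [e1, ← hUD, map_mul]
      ring
    rw [key]
    exact hθint _
  exact isIntegral_of_isIntegral_mul_of_primitive hb hD h1 h2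

/-- (Q1c), equation form: a monic equation over `A[j]` -/
theorem exists_monic_of_weakInt (f : LaurentSeries Kb) (hf : f ∈ E)
    (hint : ∃ p : Polynomial (Polynomial Kb), p.Monic ∧ ev₂ jK f p = 0)
    (hw : IsWeakInt A f) :
    ∃ q : Polynomial (Polynomial A), q.Monic ∧
      Polynomial.eval₂ ((incl A).comp
        ((aeval (jA A) : Polynomial A →ₐ[A] LaurentSeries A) :
          Polynomial A →+* LaurentSeries A)) f q = 0 := by
  letI := H.algAX
  obtain ⟨q, hq, hq0⟩ := H.isIntegral_of_weakInt f hf hint hw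
  refine ⟨q, hq, ?_⟩
  set F : E := ⟨f, hf⟩ with hF
  have h1 : ((eval₂ (algebraMap (Polynomial A) E) F q : E) : LaurentSeries Kb) =
      ((0 : E) : LaurentSeries Kb) := congrArg Subtype.val hq0
  have h2 : ((eval₂ (algebraMap (Polynomial A) E) F q : E) : LaurentSeries Kb) =
      eval₂ ((algebraMap E (LaurentSeries Kb)).comp (algebraMap (Polynomial A) E))
        (F : LaurentSeries Kb) q :=
    Polynomial.hom_eval₂ q (algebraMap (Polynomial A) E)
      (algebraMap E (LaurentSeries Kb)) F
  have h3 : (algebraMap E (LaurentSeries Kb)).comp (algebraMap (Polynomial A) E) =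
      (incl A).comp
        ((aeval (jA A) : Polynomial A →ₐ[A] LaurentSeries A) :
          Polynomial A →+* LaurentSeries A) :=
    RingHom.ext fun p => H.coe_evX p
  rw [← h3, ← h2]
  exact h1

end AX

/-- (Q1c) for integral `q`-expansions: a monic equation over `A[j]` satisfied by the integral
`q`-expansion -/
theorem exists_monic_of_incl (Y : LaurentSeries A) (hY : incl A Y ∈ E)
    (hint : ∃ p : Polynomial (Polynomial Kb), p.Monic ∧ ev₂ jK (incl A Y) p = 0) :
    ∃ q : Polynomial (Polynomial A), q.Monic ∧ ev₂ (jA A) Y q = 0 := by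
  obtain ⟨q, hq, hq0⟩ := H.exists_monic_of_weakInt (incl A Y) hY hint (isWeakInt_incl A Y)
  refine ⟨q, hq, ?_⟩
  apply coeffMap_subtype_injective A
  rw [map_zero, ev₂_apply, Polynomial.hom_eval₂]
  exact hq0

/-- **RED-INT**: the reduction of an integral `q`-expansion of a function which is integral over
`ℚ̄[j]` is integral over `k[j̃]`. -/
theorem exists_monic_red (Y : LaurentSeries A) (hY : incl A Y ∈ E)
    (hint : ∃ p : Polynomial (Polynomial Kb), p.Monic ∧ ev₂ jK (incl A Y) p = 0) :
    ∃ q : Polynomial (Polynomial (kA A)), q.Monic ∧ ev₂ (jBar A) (red A Y) q = 0 := by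
  obtain ⟨q, hq, hq0⟩ := H.exists_monic_of_incl Y hY hint
  refine ⟨q.map (Polynomial.mapRingHom (IsLocalRing.residue A)), hq.map _, ?_⟩
  have h := congrArg (red A) hq0
  rw [map_zero, PrimPack.red_ev₂] at h
  exact h

/-- **[VAL-INT], B-form**: an element of `E` which is integral over `ℚ̄[j]` and weakly
`w`-integral has an `A`-integral `q`-expansion (`A` over a prime `ℓ`). -/
theorem integralityB {ℓ : ℕ} (hℓ : ℓ.Prime) (hA : A.LiesOverPrime ℓ)
    (f : LaurentSeries Kb) (hf : f ∈ E)
    (hint : ∃ p : Polynomial (Polynomial Kb), p.Monic ∧ ev₂ jK f p = 0)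
    (hw : IsWeakInt A f) :
    ∃ Y : LaurentSeries A, incl A Y = f := by
  obtain ⟨q, hq, hq0⟩ := H.exists_monic_of_weakInt f hf hint hw
  obtain ⟨Y₁, Y₂, hY₂, hY⟩ := hw
  have hY₂0 : Y₂ ≠ 0 := fun h0 => hY₂ (by rw [h0, map_zero])
  refine Fermat.Agent.T2.helper96.exists_incl_eq_of_monic A hℓ hA f Y₁ Y₂ hY₂0 hY
    (q.map ((aeval (jA A) : Polynomial A →ₐ[A] LaurentSeries A) :
      Polynomial A →+* LaurentSeries A)) (hq.map _) ?_
  rw [Polynomial.eval₂_map]
  exact hq0

/-! ### Places -/

/-- a place at which `j` is regular is not the place at infinity -/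
theorem not_isInfty_of_ord_jE_nonneg (P : Place Kb E) (hP : 0 ≤ P.ord H.jE) :
    ¬ IsInfty P := by
  intro hInf
  have hx0 : H.jE ≠ 0 := fun h0 => jK_ne_zero (congrArg Subtype.val h0)
  have h1 := hInf H.jE hx0
  have h2 : ((H.jE : E) : LaurentSeries Kb).order = -1 := order_jK
  rw [h2] at h1
  omega

/-- `InL` implies integrality over `ℚ̄[j]` -/
theorem exists_monic_of_inL (n : ℤ) (f : LaurentSeries Kb) (h : InL E n f) :
    ∃ p : Polynomial (Polynomial Kb), p.Monic ∧ ev₂ jK f p = 0 := by
  obtain ⟨hf, hreg, -⟩ := h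
  haveI : FiniteDimensional Kb⟮H.jE⟯ E := H.finiteDimensional_E
  have h1 : ∀ P : Place Kb E, 0 ≤ P.ord H.jE → 0 ≤ P.ord (⟨f, hf⟩ : E) :=
    fun P hP => hreg P (H.not_isInfty_of_ord_jE_nonneg P hP)
  have h2 := isIntegral_of_forall_place H.jE (⟨f, hf⟩ : E) h1
  obtain ⟨p, hp, hp0⟩ := exists_monic_of_isIntegral_adjoin H.jE (⟨f, hf⟩ : E) h2
  refine ⟨p, hp, ?_⟩
  have h3 := algHom_ev₂ E.val H.jE (⟨f, hf⟩ : E) p
  rw [hp0, map_zero] at h3
  exact h3.symm

/-- **[VAL-INT]** -/
theorem integrality {ℓ : ℕ} (hℓ : ℓ.Prime) (hA : A.LiesOverPrime ℓ) :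
    IntegralityStatement A E Eb := by
  intro n f hInL hw
  exact H.integralityB hℓ hA f hInL.1 (H.exists_monic_of_inL n f hInL)
    (isWeakInt_of_isWInt hw)

/-- **finite-place half of [VAL-UE]**: the reduction of an integral `q`-expansion of a function
integral over `ℚ̄[j]` is regular at every place of the special fibre field at which `j̃` is
regular. -/
theorem ord_red_nonneg_of_ord_jEb_nonneg (Y : LaurentSeries A) (hY : incl A Y ∈ E)
    (hint : ∃ p : Polynomial (Polynomial Kb), p.Monic ∧ ev₂ jK (incl A Y) p = 0)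
    (hmem : red A Y ∈ Eb) (P : Place (kA A) Eb) (hP : 0 ≤ P.ord H.jEb) :
    0 ≤ P.ord (⟨red A Y, hmem⟩ : Eb) := by
  obtain ⟨q, hq, hq0⟩ := H.exists_monic_red Y hY hint
  refine place_ord_nonneg_of_monic P H.jEb _ hP q hq ?_
  apply Subtype.val_injective
  have h3 := algHom_ev₂ Eb.val H.jEb (⟨red A Y, hmem⟩ : Eb) q
  rw [ZeroMemClass.coe_zero]
  exact h3.trans hq0

/-- **[VAL-UE]** from the cusp side. -/
theorem regRed (hjb : jqModC (kA A) ∈ Eb) (hC : CuspRegStatement A E Eb hjb) :
    RegRedStatement A E Eb := by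
  intro n Y hInL
  have hint := H.exists_monic_of_inL n _ hInL
  obtain ⟨hY, hreg, hcoeff⟩ := hInL
  have hmem : red A Y ∈ Eb := H.red_mem Y hY
  refine ⟨hmem, fun P hP => ?_, fun k hk => ?_⟩
  · by_cases hx : 0 ≤ P.ord H.jEb
    · exact H.ord_red_nonneg_of_ord_jEb_nonneg Y hY hint hmem P hx
    · exact hC n Y ⟨hY, hreg, hcoeff⟩ hmem P (not_le.mp hx) hP
  · have h1 := hcoeff k hk
    rw [coeffMap_coeff] at h1
    have h2 : Y.coeff k = 0 := Subtype.ext h1
    show (coeffMap (IsLocalRing.residue A) Y).coeff k = 0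
    rw [coeffMap_coeff, h2, map_zero]

end PrimPack

/-! ### The deliverables of row 1130 (second half) -/

section Final

variable (A : ValuationSubring Kb) (E : IntermediateField Kb (LaurentSeries Kb))
  (Eb : IntermediateField (kA A) (LaurentSeries (kA A)))

/-- **[VAL-INT]** from `PrimStatement`, for `A` over a prime `ℓ`. -/
theorem integrality_G {ℓ : ℕ} (hℓ : ℓ.Prime) (hA : A.LiesOverPrime ℓ)
    (h : PrimStatement A E Eb) : IntegralityStatement A E Eb := by
  obtain ⟨θ, Φ, H⟩ := (primStatement_iff A E Eb).1 h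
  exact H.integrality hℓ hA

/-- **[VAL-UE]** from `PrimStatement` and the cusp side `CuspRegStatement`. -/
theorem regRed_G (hjb : jqModC (kA A) ∈ Eb) (h : PrimStatement A E Eb)
    (hC : CuspRegStatement A E Eb hjb) : RegRedStatement A E Eb := by
  obtain ⟨θ, Φ, H⟩ := (primStatement_iff A E Eb).1 h
  exact H.regRed hjb hC

end Final

end Fermat.Agent.T4.helper43
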