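/-
T4 block (I), I-RED [RED-CUSP1-KEY] (helper18): the KEY of CUSP1 - compatibility of the coset
expansions with the reduction - and the final CUSP1 theorems.

Input: `D : helper31.PrimData A E Eb` (the data of `helper4.PrimStatement`), integral conjugate
data `C : ConjPackA A D.θ D.Φ W π i₀` (`helper18_CosetConj`) and `A` over a prime `ℓ`.

* `exists_poly_eq_mul_delta` : Euler's lemma in polynomial form: for `g ∈ E` integral over
  `ℚ̄[j]` and `w`-integral there is `G ∈ A[X][Y]` with `G(j, θ) = g · ∂Φ/∂Y(j, θ)`.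
* `cosetCompat_of_conj` : `CosetCompat A E Eb hj hjb (C.cosetK ..) (C.cosetB ..)`.
  Proof: `Z = e_i(Y)` satisfies `Z ^ m · e_i(δ) = G_m(j(t^W), Θ_i) ∈ A((t))` for ALL `m` (Euler for
  the powers of `Y`), so `Z ∈ A((t))` because `A((t))` is completely integrally closed in
  `ℚ̄((t))` (T2 `helper96_CIC`; no unit leading coefficient, no number field); the reduction
  formula follows from `m = 1` and `red (e_i δ) = ē_i (red δ) ≠ 0`.
* `cuspReg_of_conj`, `cuspBar_of_conj`, `regRed_of_conj` : `helper4.CuspRegStatement`,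
  `CuspBarStatement`, `RegRedStatement` for `(E, Eb)`.
-/
import Mathlib
import Fermat.Agent.T4.helper18_CosetConj
import Fermat.Agent.T4.helper31_Val1Int
import Fermat.Agent.T4.helper43_ValIntG

set_option autoImplicit false
set_option linter.unusedSectionVars false
set_option linter.unusedVariables false
set_option linter.style.haveILetI false

noncomputable section

open ModularCurve Polynomial IntermediateField

namespace Fermat.Agent.T4.helper18

section Key

open Fermat.Agent.S24 Fermat.Agent.S28 Fermat.Agent.S28.helper94 Fermat.Agent.S28.helper81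
  Fermat.Agent.P2.helper81

variable {A : ValuationSubring Kbar} {E : IntermediateField Kbar (LaurentSeries Kbar)}
  {Eb : IntermediateField (kA A) (LaurentSeries (kA A))}
  (D : Fermat.Agent.T4.helper31.PrimData A E Eb)

/-- the `helper43.PrimPack` of a `helper31.PrimData` -/
theorem primPack_of_data : Fermat.Agent.T4.helper43.PrimPack A E Eb D.θ D.Φ :=
  ⟨D.monic, D.root, D.hE, D.hEb, D.irrK, D.irrk, D.sep⟩

/-- **Euler's lemma, integral polynomial form**: if `g ∈ E` is integral over `ℚ̄[j]` and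
`w`-integral, then `g · ∂Φ/∂Y (j, θ) = G(j, θ)` with `G ∈ A[X][Y]`. -/
theorem exists_poly_eq_mul_delta (g : LaurentSeries Kbar) (hg : g ∈ E)
    (hint : letI := D.algKXE; IsIntegral (Polynomial Kbar) (⟨g, hg⟩ : E))
    (hw : Fermat.Agent.T4.helper4.IsWInt A E Eb g) :
    ∃ G : Polynomial (Polynomial A),
      coeffMap A.subtype (ev₂ (jA A) D.θ G) = g * coeffMap A.subtype D.δA := by
  obtain ⟨G, hGdeg, hG⟩ := D.exists_eulerK g hg hint
  by_cases hG0 : G = 0
  · refine ⟨0, ?_⟩
    rw [hG0, map_zero] at hG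
    rw [map_zero, map_zero, ← hG]
  obtain ⟨b, G', hb, hG', hG'deg⟩ := Fermat.Agent.T4.helper31.PrimData.exists_lift₂ A G
  have hbK : (b : Kbar) ≠ 0 := fun h0 => hb (Subtype.ext h0)
  have hbL : algebraMap Kbar (LaurentSeries Kbar) (b : Kbar) ≠ 0 := by
    rw [Ne, map_eq_zero]; exact hbK
  have hG'0 : G' ≠ 0 := by
    intro h0
    rw [h0, Polynomial.map_zero] at hG'
    have h1 : C (C (b : Kbar)) ≠ (0 : Polynomial (Polynomial Kbar)) := by simpa using hbK
    exact (mul_ne_zero h1 hG0) hG'.symm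
  obtain ⟨c, G₁, i, j, hc, hG₁, hij⟩ := exists_scale₂ G' hG'0
  have hG₁bar := map₂_ne_zero_of_coeff_eq_one (IsLocalRing.residue A) G₁ i j hij
  have hG₁deg : G₁.natDegree < D.n := by
    have : G'.natDegree = G₁.natDegree := by
      rw [hG₁]; exact Polynomial.natDegree_C_mul (by simpa using hc)
    rw [← this]; exact lt_of_le_of_lt hG'deg hGdeg
  have hgood := D.isGood_ev₂ G₁ hG₁deg hG₁bar
  -- `b g δ = c G₁(j, θ)`
  have hrel : algebraMap Kbar (LaurentSeries Kbar) (b : Kbar) *
      (g * coeffMap A.subtype D.δA) =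
      algebraMap Kbar (LaurentSeries Kbar) (c : Kbar) *
        coeffMap A.subtype (ev₂ (jA A) D.θ G₁) := by
    have h1 : coeffMap A.subtype (ev₂ (jA A) D.θ G') =
        algebraMap Kbar (LaurentSeries Kbar) (b : Kbar) * ev₂ jK D.θK G := by
      rw [D.incl_ev₂, hG', map_mul, ev₂_C, aeval_C]
    have h2 : coeffMap A.subtype (ev₂ (jA A) D.θ G') =
        algebraMap Kbar (LaurentSeries Kbar) (c : Kbar) *
          coeffMap A.subtype (ev₂ (jA A) D.θ G₁) := by
      rw [hG₁, map_mul, ev₂_C, aeval_C, map_mul, incl_algebraMap]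
    rw [← hG, ← h1, h2]
  have key : ∀ v : A, c = b * v →
      ∃ G₂ : Polynomial (Polynomial A),
        coeffMap A.subtype (ev₂ (jA A) D.θ G₂) = g * coeffMap A.subtype D.δA := by
    intro v hv
    refine ⟨C (C v) * G₁, ?_⟩
    apply mul_left_cancel₀ hbL
    rw [hrel, hv, map_mul, ev₂_C, aeval_C, map_mul, incl_algebraMap]
    simp only [MulMemClass.coe_mul, map_mul]
    ring
  rcases ValuationRing.dvd_total b c with ⟨v, hv⟩ | ⟨v, hv⟩
  · exact key v hv
  · by_cases hvu : IsUnit v
    · obtain ⟨u, rfl⟩ := hvu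
      exact key ((u⁻¹ : Aˣ) : A) (by rw [hv, mul_assoc, Units.mul_inv, mul_one])
    · exfalso
      obtain ⟨Y₁, Y₂, hY₁, hY₂, hY⟩ := hw
      have hv0 : IsLocalRing.residue A v = 0 :=
        (IsLocalRing.residue_eq_zero_iff v).mpr ((IsLocalRing.mem_maximalIdeal v).mpr hvu)
      have hcK : (c : Kbar) ≠ 0 := fun h0 => hc (Subtype.ext h0)
      have hcL : algebraMap Kbar (LaurentSeries Kbar) (c : Kbar) ≠ 0 := by
        rw [Ne, map_eq_zero]; exact hcK
      -- `v g δ = G₁(j, θ)`
      have h1 : algebraMap Kbar (LaurentSeries Kbar) (v : Kbar) *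
          (g * coeffMap A.subtype D.δA) = coeffMap A.subtype (ev₂ (jA A) D.θ G₁) := by
        apply mul_left_cancel₀ hcL
        rw [← hrel, hv]
        simp only [MulMemClass.coe_mul, map_mul]
        ring
      have h2 : algebraMap A (LaurentSeries A) v * (Y₁ * D.δA) =
          ev₂ (jA A) D.θ G₁ * Y₂ := by
        apply coeffMap_subtype_injective A
        have hY' : coeffMap A.subtype Y₁ = g * coeffMap A.subtype Y₂ := hY
        rw [map_mul, map_mul, map_mul, incl_algebraMap, ← h1, hY']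
        ring
      have h3 := congrArg (red A) h2
      rw [map_mul (red A) _ (Y₁ * D.δA), red_algebraMap, hv0, map_zero, zero_mul,
        map_mul (red A) _ Y₂] at h3
      rcases mul_eq_zero.mp h3.symm with h5 | h5
      · exact hgood.2.2 h5
      · exact hY₂.2.2 h5

end Key

/-! ### The KEY: compatibility of the coset expansions with the reduction -/

section Compat

open Fermat.Agent.S18.helper19 (Kb kA)
open Fermat.Agent.P2.helper29 (incl red InL)
open Fermat.Agent.P2.helper81 (ev₂ ev₂_apply)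

variable {A : ValuationSubring Kb} {E : IntermediateField Kb (LaurentSeries Kb)}
  {Eb : IntermediateField (kA A) (LaurentSeries (kA A))}
  (D : Fermat.Agent.T4.helper31.PrimData A E Eb)
  {I : Type*} [Fintype I] {W : ℕ} [NeZero W] {π : Equiv.Perm I} {i₀ : I}
  (C : ConjPackA A D.θ D.Φ W π i₀)
  (hj : jqModC Kb ∈ E) (hjb : jqModC (kA A) ∈ Eb)

theorem isGood_one' : Fermat.Agent.T4.helper4.IsGood A E Eb (1 : LaurentSeries A) := by
  refine ⟨?_, ?_, ?_⟩
  · rw [map_one]; exact one_mem _
  · rw [map_one]; exact one_mem _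
  · rw [map_one]; exact one_ne_zero

theorem isWInt_incl (Y : LaurentSeries A) (hY : incl A Y ∈ E) :
    Fermat.Agent.T4.helper4.IsWInt A E Eb (incl A Y) :=
  ⟨Y, 1, hY, isGood_one', by rw [map_one, mul_one]⟩

/-- **the KEY of CUSP1**: the coset expansions constructed from integral conjugates are
compatible with the reduction. -/
theorem cosetCompat_of_conj {ℓ : ℕ} (hℓ : ℓ.Prime) (hA : A.LiesOverPrime ℓ) :
    CosetCompat A E Eb hj hjb (C.cosetK (primPack_of_data D) hj)
      (C.cosetB (primPack_of_data D) hjb) := by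
  intro Y n h hb i
  have H := primPack_of_data D
  -- the different `δ` and its coset expansions
  have hδmem : incl A D.δA ∈ E := D.incl_ev₂_mem (derivative D.Φ)
  have hδbmem : red A D.δA ∈ Eb := D.red_ev₂_mem (derivative D.Φ)
  set Di : LaurentSeries A := ev₂ (qExpand A W (jqModC A)) (C.Θ i) (derivative D.Φ) with hDi
  have hPδ : (C.cosetK (primPack_of_data D) hj).e i ⟨incl A D.δA, hδmem⟩ = incl A Di :=
    C.cosetK_ev₂ (primPack_of_data D) hj i (derivative D.Φ) hδmem
  have hPbδ : (C.cosetB (primPack_of_data D) hjb).e i ⟨red A D.δA, hδbmem⟩ = red A Di :=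
    C.cosetB_ev₂ (primPack_of_data D) hjb i (derivative D.Φ) hδbmem
  have hredDi : red A Di ≠ 0 := by
    rw [← hPbδ]
    intro h0
    have h1 := (map_eq_zero _).mp h0
    exact D.red_δA_ne_zero (congrArg Subtype.val h1)
  have hDi0 : incl A Di ≠ 0 := by
    intro h0
    apply hredDi
    have : Di = 0 := Fermat.Agent.P2.helper81.coeffMap_subtype_injective A
      (h0.trans (map_zero _).symm)
    rw [this, map_zero]
  -- the function
  have hf : incl A Y ∈ E := h.1
  have hw := isWInt_incl (E := E) (Eb := Eb) Y hf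
  have hint := D.isIntegral_of_inL n (incl A Y) h
  -- Euler for all powers
  have hpow : ∀ m : ℕ, incl A Di * ((C.cosetK (primPack_of_data D) hj).e i ⟨incl A Y, hf⟩) ^ m ∈
      Fermat.Agent.T2.helper96.intSeries A := by
    intro m
    letI := D.algKXE
    have hintm : IsIntegral (Polynomial Kb) (⟨(incl A Y) ^ m, pow_mem hf m⟩ : E) := hint.pow m
    obtain ⟨G, hG⟩ := exists_poly_eq_mul_delta D ((incl A Y) ^ m) (pow_mem hf m) hintm
      (Fermat.Agent.T4.helper31.PrimData.isWInt_pow hw m)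
    have hGmem : incl A (ev₂ (jqModC A) D.θ G) ∈ E := D.incl_ev₂_mem G
    have h1 := C.cosetK_ev₂ (primPack_of_data D) hj i G hGmem
    have h2 : (⟨incl A (ev₂ (jqModC A) D.θ G), hGmem⟩ : E) =
        (⟨incl A Y, hf⟩ : E) ^ m * ⟨incl A D.δA, hδmem⟩ := Subtype.ext hG
    rw [h2, map_mul, map_pow, hPδ] at h1
    rw [mul_comm, h1]
    exact ⟨_, rfl⟩
  obtain ⟨Yi, hYi⟩ := Fermat.Agent.T2.helper96.mem_intSeries_of_forall_mul_pow A
    (Fermat.Agent.T2.helper96.isArchVS_of_liesOverPrime A hℓ hA) _ hDi0 _ hpow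
  refine ⟨Yi, hYi.symm, ?_⟩
  -- the reduction formula
  obtain ⟨G, hG⟩ := exists_poly_eq_mul_delta D (incl A Y) hf hint hw
  have hGA : ev₂ (jqModC A) D.θ G = Y * D.δA :=
    Fermat.Agent.P2.helper81.coeffMap_subtype_injective A (by rw [map_mul]; exact hG)
  have hGmem : incl A (ev₂ (jqModC A) D.θ G) ∈ E := D.incl_ev₂_mem G
  have hGbmem : red A (ev₂ (jqModC A) D.θ G) ∈ Eb := D.red_ev₂_mem G
  have h1 := C.cosetK_ev₂ (primPack_of_data D) hj i G hGmem
  have h2 : (⟨incl A (ev₂ (jqModC A) D.θ G), hGmem⟩ : E) =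
      (⟨incl A Y, hf⟩ : E) * ⟨incl A D.δA, hδmem⟩ := Subtype.ext hG
  rw [h2, map_mul, hPδ] at h1
  have hYi' : (C.cosetK (primPack_of_data D) hj).e i ⟨incl A Y, hf⟩ = incl A Yi := hYi.symm
  rw [hYi', ← map_mul] at h1
  have h3 : Yi * Di = ev₂ (qExpand A W (jqModC A)) (C.Θ i) G :=
    Fermat.Agent.P2.helper81.coeffMap_subtype_injective A h1
  have h4 := C.cosetB_ev₂ (primPack_of_data D) hjb i G hGbmem
  have h5 : (⟨red A (ev₂ (jqModC A) D.θ G), hGbmem⟩ : Eb) =
      (⟨red A Y, hb⟩ : Eb) * ⟨red A D.δA, hδbmem⟩ := by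
    apply Subtype.ext
    show red A (ev₂ (jqModC A) D.θ G) = red A Y * red A D.δA
    rw [hGA, map_mul]
  rw [h5, map_mul, hPbδ, ← h3, map_mul] at h4
  exact mul_right_cancel₀ hredDi h4

end Compat

/-! ### CUSP1 from a primitive element with integral conjugates -/

section Final

open Fermat.Agent.S18.helper19 (Kb kA)
open Fermat.Agent.P2.helper29 (incl red InL)

variable {A : ValuationSubring Kb} {E : IntermediateField Kb (LaurentSeries Kb)}
  {Eb : IntermediateField (kA A) (LaurentSeries (kA A))}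
  {I : Type*} [Fintype I] {W : ℕ} [NeZero W] {π : Equiv.Perm I} {i₀ : I}

/-- **[CUSP-REG]** for `(E, Eb)` from the data of `PrimStatement` and integral conjugates of
the primitive element. -/
theorem cuspReg_of_conj (D : Fermat.Agent.T4.helper31.PrimData A E Eb)
    (C : ConjPackA A D.θ D.Φ W π i₀) (hj : jqModC Kb ∈ E) (hjb : jqModC (kA A) ∈ Eb)
    {ℓ : ℕ} (hℓ : ℓ.Prime) (hA : A.LiesOverPrime ℓ) :
    Fermat.Agent.T4.helper4.CuspRegStatement A E Eb hjb :=
  cuspReg_of_deg (D.degStatement hj hjb) (C.cosetK (primPack_of_data D) hj)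
    (C.cosetB (primPack_of_data D) hjb) (cosetCompat_of_conj D C hj hjb hℓ hA)

/-- **[CUSP-BAR]** for `(E, Eb)` from the data of `PrimStatement` and integral conjugates of
the primitive element. -/
theorem cuspBar_of_conj (D : Fermat.Agent.T4.helper31.PrimData A E Eb)
    (C : ConjPackA A D.θ D.Φ W π i₀) (hj : jqModC Kb ∈ E) (hjb : jqModC (kA A) ∈ Eb) :
    Fermat.Agent.T4.helper4.CuspBarStatement A E Eb hj hjb :=
  cuspBar_of_deg (D.degStatement hj hjb) (C.cosetK (primPack_of_data D) hj)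
    (C.cosetB (primPack_of_data D) hjb)

/-- **[VAL-UE]** `RegRedStatement` for `(E, Eb)` from the data of `PrimStatement` and integral
conjugates of the primitive element. -/
theorem regRed_of_conj (D : Fermat.Agent.T4.helper31.PrimData A E Eb)
    (C : ConjPackA A D.θ D.Φ W π i₀) (hj : jqModC Kb ∈ E) (hjb : jqModC (kA A) ∈ Eb)
    {ℓ : ℕ} (hℓ : ℓ.Prime) (hA : A.LiesOverPrime ℓ) :
    Fermat.Agent.T4.helper4.RegRedStatement A E Eb :=
  Fermat.Agent.T4.helper43.regRed_G A E Eb hjb D.to_statement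
    (cuspReg_of_conj D C hj hjb hℓ hA)

/-- **CUSP1, packaged**: `PrimStatement` realised by `(θ, Φ)` with integral conjugates gives
`CuspReg`, `CuspBar`, `RegRed` and `Integrality`. -/
theorem cusp1_of_conj (D : Fermat.Agent.T4.helper31.PrimData A E Eb)
    (C : ConjPackA A D.θ D.Φ W π i₀) (hj : jqModC Kb ∈ E) (hjb : jqModC (kA A) ∈ Eb)
    {ℓ : ℕ} (hℓ : ℓ.Prime) (hA : A.LiesOverPrime ℓ) :
    Fermat.Agent.T4.helper4.CuspRegStatement A E Eb hjb ∧
      Fermat.Agent.T4.helper4.CuspBarStatement A E Eb hj hjb ∧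
      Fermat.Agent.T4.helper4.RegRedStatement A E Eb ∧
      Fermat.Agent.T4.helper4.IntegralityStatement A E Eb :=
  ⟨cuspReg_of_conj D C hj hjb hℓ hA, cuspBar_of_conj D C hj hjb,
    regRed_of_conj D C hj hjb hℓ hA, D.integrality hℓ hA⟩

end Final

end Fermat.Agent.T4.helper18
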