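import Mathlib

/-!
# T4 block (I), [IG-GAUSS] (helper4): the Gauss lemma over a valuation ring

`irreducible_map_subtype` : for a valuation subring `A` of a field `K` and a polynomial
`Φ ∈ A[X][Y]`, monic in `Y`, whose reduction modulo the maximal ideal is irreducible in
`k[X][Y]`, the polynomial `Φ` is irreducible in `K[X][Y]`.

Proof: `Φ` is irreducible over `A[X]` (monic, irreducible reduction), hence over the fraction
field `L` of `A[X]` (`A[X]` is integrally closed), hence over `K[X]` (which maps to `L`).
-/

set_option autoImplicit false

noncomputable section

namespace Fermat.Agent.T4.helper4.Ig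

open Polynomial

theorem irreducible_map_subtype {K : Type*} [Field K] (A : ValuationSubring K)
    (Φ : Polynomial (Polynomial A)) (hmon : Φ.Monic)
    (hirr : Irreducible (Φ.map (Polynomial.mapRingHom (IsLocalRing.residue A)))) :
    Irreducible (Φ.map (Polynomial.mapRingHom A.subtype)) := by
  have h1 : Irreducible Φ := hmon.irreducible_of_irreducible_map _ _ hirr
  have h2 : Irreducible (Φ.map (algebraMap (Polynomial A) (FractionRing (Polynomial A)))) :=
    (Polynomial.Monic.irreducible_iff_irreducible_map_fraction_map hmon).mp h1
  have hg : Function.Injective
      ((algebraMap (Polynomial A) (FractionRing (Polynomial A))).comp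
        (Polynomial.C : A →+* Polynomial A)) :=
    (IsFractionRing.injective (Polynomial A) (FractionRing (Polynomial A))).comp
      Polynomial.C_injective
  have hψ : (Polynomial.eval₂RingHom (IsFractionRing.lift (K := K) hg)
      (algebraMap (Polynomial A) (FractionRing (Polynomial A)) Polynomial.X)).comp
        (Polynomial.mapRingHom A.subtype) =
      algebraMap (Polynomial A) (FractionRing (Polynomial A)) := by
    apply Polynomial.ringHom_ext
    · intro a
      rw [RingHom.comp_apply, coe_mapRingHom, map_C, coe_eval₂RingHom, eval₂_C]
      exact IsFractionRing.lift_algebraMap hg a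
    · rw [RingHom.comp_apply, coe_mapRingHom, map_X, coe_eval₂RingHom, eval₂_X]
  have hmonK : (Φ.map (Polynomial.mapRingHom A.subtype)).Monic := hmon.map _
  apply hmonK.irreducible_of_irreducible_map
    (Polynomial.eval₂RingHom (IsFractionRing.lift (K := K) hg)
      (algebraMap (Polynomial A) (FractionRing (Polynomial A)) Polynomial.X))
  rw [Polynomial.map_map, hψ]
  exact h2

end Fermat.Agent.T4.helper4.Ig

end
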