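import Fermat.Agent.T4.helper32_X1Defs

/-!
# T4 block (I), [I-FLD-SER] (helper33): formal basics of the generators `s_a` of `F1 M`

Pure algebra on the series of `helper32_X1Defs`:

* `rep a` : the representative in `[0, M / 2]` of the class `± a`;
* `wpCoeff M a e = 0` for `0 < e < rep a`, `wpCoeff M a (rep a) = 1` (`a ≠ - a`);
* `wpDiff M a b = X ^ (rep a - 1) * U`, `U` with constant coefficient `1` (`rep a < rep b`);
* `sInt M 1 = 0`, `sInt M 2 = 1`, `sInt M (- a) = sInt M a`,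
  `(sInt M a - sInt M b) * wpDiff M 2 1 = wpDiff M a b`;
* over any commutative ring: leading coefficient of `sSer C M a - sSer C M b`;
  over a field: its order is `min (rep a) (rep b) - 1`.
-/

set_option autoImplicit false

noncomputable section

open HahnSeries

namespace Fermat.Agent.T4.helper33

open Fermat.Agent.T4.helper32

/-! ### The representative of `± a` -/

/-- the representative in `[0, M / 2]` of the class `± a` -/
def rep {M : ℕ} (a : ZMod M) : ℕ := a.valMinAbs.natAbs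

theorem rep_neg {M : ℕ} (a : ZMod M) : rep (-a) = rep a :=
  ZMod.natAbs_valMinAbs_neg a

theorem rep_eq_zero_iff {M : ℕ} [NeZero M] (a : ZMod M) : rep a = 0 ↔ a = 0 := by
  rw [rep, Int.natAbs_eq_zero, ZMod.valMinAbs_eq_zero]

theorem rep_pos {M : ℕ} [NeZero M] {a : ZMod M} (ha : a ≠ 0) : 0 < rep a :=
  Nat.pos_of_ne_zero fun h => ha ((rep_eq_zero_iff a).1 h)

/-- `rep a` represents `a` or `- a` -/
theorem cast_rep {M : ℕ} [NeZero M] (a : ZMod M) :
    ((rep a : ℕ) : ZMod M) = a ∨ ((rep a : ℕ) : ZMod M) = -a := by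
  have h := ZMod.coe_valMinAbs a
  rcases Int.natAbs_eq a.valMinAbs with h1 | h1
  · left
    rw [rep]
    have : ((a.valMinAbs.natAbs : ℤ) : ZMod M) = a := by rw [← h1]; exact h
    simpa using this
  · right
    rw [rep]
    have : ((a.valMinAbs.natAbs : ℤ) : ZMod M) = -a := by
      have h2 : (a.valMinAbs.natAbs : ℤ) = -a.valMinAbs := by omega
      rw [h2, Int.cast_neg, h]
    simpa using this

/-- minimality of `rep a` among the natural numbers representing `± a` -/
theorem rep_le_of_cast {M : ℕ} [NeZero M] {a : ZMod M} {k : ℕ}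
    (h : (k : ZMod M) = a ∨ (k : ZMod M) = -a) : rep a ≤ k := by
  have hl : a.valMinAbs.natAbs ≤ M / 2 := ZMod.natAbs_valMinAbs_le a
  rcases h with h | h
  · have := ZMod.natAbs_min_of_le_div_two M a.valMinAbs (k : ℤ)
      (by rw [ZMod.coe_valMinAbs]; simpa using h.symm) hl
    simpa [rep] using this
  · have := ZMod.natAbs_min_of_le_div_two M a.valMinAbs (-(k : ℤ))
      (by rw [ZMod.coe_valMinAbs]; simp [h]) hl
    simpa [rep] using this

theorem rep_le_half {M : ℕ} [NeZero M] (a : ZMod M) : rep a ≤ M / 2 :=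
  ZMod.natAbs_valMinAbs_le a

/-- `rep a = rep b` iff `a = ± b` -/
theorem rep_eq_iff {M : ℕ} [NeZero M] (a b : ZMod M) : rep a = rep b ↔ a = b ∨ a = -b := by
  constructor
  · intro h
    rcases cast_rep a with ha | ha <;> rcases cast_rep b with hb | hb
    · left; rw [← ha, ← hb, h]
    · right; rw [← ha, h, hb]
    · right
      have : -a = b := by rw [← ha, h, hb]
      rw [← this, neg_neg]
    · left
      have : -a = -b := by rw [← ha, ← hb, h]
      exact neg_injective this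
  · rintro (rfl | rfl)
    · rfl
    · exact rep_neg b

/-- if `a = - a` then `rep a` is maximal -/
theorem rep_le_rep_of_eq_neg {M : ℕ} [NeZero M] {a : ZMod M} (ha : a = -a) (ha0 : a ≠ 0)
    (b : ZMod M) : rep b ≤ rep a := by
  -- `2 * rep a ≡ 0`, `0 < rep a ≤ M / 2`, so `2 * rep a = M`
  have h2 : ((2 * rep a : ℕ) : ZMod M) = 0 := by
    have hr : ((rep a : ℕ) : ZMod M) = a := by
      rcases cast_rep a with h | h
      · exact h
      · rw [h, ← ha]
    push_cast
    rw [hr, two_mul]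
    nth_rewrite 1 [ha]
    exact neg_add_cancel a
  have hdvd : M ∣ 2 * rep a := (ZMod.natCast_eq_zero_iff _ _).1 h2
  have hpos := rep_pos ha0
  have hle := rep_le_half a
  have hM : M ≤ 2 * rep a := Nat.le_of_dvd (by omega) hdvd
  have hb := rep_le_half b
  omega

/-! ### The coefficients of `P_a` -/

theorem wpCoeff_neg (M : ℕ) (a : ZMod M) (e : ℕ) : wpCoeff M (-a) e = wpCoeff M a e := by
  unfold wpCoeff
  refine Finset.sum_congr rfl fun m _ => ?_
  rw [neg_neg, add_comm]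

theorem wpCoeff_zero_right (M : ℕ) (a : ZMod M) : wpCoeff M a 0 = 0 := by
  simp [wpCoeff]

theorem wpCoeff_eq_zero_of_lt {M : ℕ} [NeZero M] {a : ZMod M} {e : ℕ}
    (he : e < rep a) : wpCoeff M a e = 0 := by
  unfold wpCoeff
  refine Finset.sum_eq_zero fun m hm => ?_
  have hm' := Nat.mem_divisors.1 hm
  have hk : e / m ≤ e := Nat.div_le_self e m
  have h1 : ¬ (((e / m : ℕ) : ZMod M) = a) := fun h =>
    absurd (rep_le_of_cast (Or.inl h)) (by omega)
  have h2 : ¬ (((e / m : ℕ) : ZMod M) = -a) := fun h =>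
    absurd (rep_le_of_cast (Or.inr h)) (by omega)
  rw [if_neg h1, if_neg h2]
  simp

theorem wpCoeff_rep {M : ℕ} [NeZero M] {a : ZMod M} (ha0 : a ≠ 0) (ha : a ≠ -a) :
    wpCoeff M a (rep a) = 1 := by
  unfold wpCoeff
  have hpos := rep_pos ha0
  rw [Finset.sum_eq_single 1]
  · rw [Nat.div_one]
    rcases cast_rep a with h | h
    · rw [if_pos h, if_neg (fun h' => ha (h.symm.trans h'))]; simp
    · rw [if_neg (fun h' => ha (h'.symm.trans h)), if_pos h]; simp
  · intro m hm hm1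
    have hm' := Nat.mem_divisors.1 hm
    have hmpos : 0 < m := Nat.pos_of_dvd_of_pos hm'.1 hpos
    have hlt : rep a / m < rep a := Nat.div_lt_self hpos (by omega)
    have h1 : ¬ (((rep a / m : ℕ) : ZMod M) = a) := fun h =>
      absurd (rep_le_of_cast (Or.inl h)) (by omega)
    have h2 : ¬ (((rep a / m : ℕ) : ZMod M) = -a) := fun h =>
      absurd (rep_le_of_cast (Or.inr h)) (by omega)
    rw [if_neg h1, if_neg h2]
    simp
  · intro h
    exact absurd (Nat.mem_divisors.2 ⟨one_dvd _, hpos.ne'⟩) h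

/-! ### Representatives of small natural numbers -/

theorem rep_natCast {M k : ℕ} (hk : k ≤ M / 2) : rep ((k : ℕ) : ZMod M) = k := by
  rw [rep, ZMod.valMinAbs_natCast_of_le_half hk, Int.natAbs_natCast]

theorem rep_one {M : ℕ} (hM : 2 ≤ M) : rep (1 : ZMod M) = 1 := by
  have h := rep_natCast (M := M) (k := 1) (by omega)
  simpa using h

theorem rep_two {M : ℕ} (hM : 4 ≤ M) : rep (2 : ZMod M) = 2 := by
  have h := rep_natCast (M := M) (k := 2) (by omega)
  simpa using h

theorem one_ne_zero_zmod {M : ℕ} (hM : 2 ≤ M) : (1 : ZMod M) ≠ 0 := by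
  have : NeZero M := ⟨by omega⟩
  intro h
  have := (rep_eq_zero_iff (1 : ZMod M)).2 h
  rw [rep_one hM] at this
  exact one_ne_zero this

/-! ### The differences `P_a - P_b` -/

@[simp]
theorem coeff_wpDiff (M : ℕ) (a b : ZMod M) (n : ℕ) :
    PowerSeries.coeff n (wpDiff M a b) = wpCoeff M a (n + 1) - wpCoeff M b (n + 1) := by
  rw [wpDiff, PowerSeries.coeff_mk]

@[simp]
theorem wpDiff_self (M : ℕ) (a : ZMod M) : wpDiff M a a = 0 := by
  ext n; simp

theorem wpDiff_swap (M : ℕ) (a b : ZMod M) : wpDiff M b a = -wpDiff M a b := by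
  ext n; simp

@[simp]
theorem wpDiff_neg_left (M : ℕ) (a b : ZMod M) : wpDiff M (-a) b = wpDiff M a b := by
  ext n; simp [wpCoeff_neg]

@[simp]
theorem wpDiff_neg_right (M : ℕ) (a b : ZMod M) : wpDiff M a (-b) = wpDiff M a b := by
  ext n; simp [wpCoeff_neg]

theorem wpDiff_sub_wpDiff (M : ℕ) (a b c : ZMod M) :
    wpDiff M a c - wpDiff M b c = wpDiff M a b := by
  ext n; simp

theorem wpDiff_add_wpDiff (M : ℕ) (a b c : ZMod M) :
    wpDiff M a b + wpDiff M b c = wpDiff M a c := by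
  ext n; simp

/-- `P_a - P_b = q ^ (rep a) * (1 + ...)` if `rep a < rep b`. -/
theorem wpDiff_eq_of_lt {M : ℕ} [NeZero M] {a b : ZMod M} (ha0 : a ≠ 0)
    (h : rep a < rep b) :
    ∃ U : PowerSeries ℤ, PowerSeries.constantCoeff U = 1 ∧
      wpDiff M a b = PowerSeries.X ^ (rep a - 1) * U := by
  have hpos := rep_pos ha0
  have ha : a ≠ -a := fun h' => absurd (rep_le_rep_of_eq_neg h' ha0 b) (by omega)
  have hdvd : (PowerSeries.X : PowerSeries ℤ) ^ (rep a - 1) ∣ wpDiff M a b := by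
    rw [PowerSeries.X_pow_dvd_iff]
    intro m hm
    rw [coeff_wpDiff, wpCoeff_eq_zero_of_lt (by omega), wpCoeff_eq_zero_of_lt (by omega), sub_zero]
  obtain ⟨U, hU⟩ := hdvd
  refine ⟨U, ?_, hU⟩
  have h1 : PowerSeries.coeff (rep a - 1) (wpDiff M a b) = 1 := by
    rw [coeff_wpDiff, show rep a - 1 + 1 = rep a by omega, wpCoeff_rep ha0 ha,
      wpCoeff_eq_zero_of_lt h, sub_zero]
  rw [hU, PowerSeries.coeff_X_pow_mul', if_pos le_rfl, Nat.sub_self,
    PowerSeries.coeff_zero_eq_constantCoeff] at h1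
  exact h1

/-- `P_a - P_b = - q ^ (rep b) * (1 + ...)` if `rep b < rep a`. -/
theorem wpDiff_eq_of_gt {M : ℕ} [NeZero M] {a b : ZMod M} (hb0 : b ≠ 0)
    (h : rep b < rep a) :
    ∃ U : PowerSeries ℤ, PowerSeries.constantCoeff U = -1 ∧
      wpDiff M a b = PowerSeries.X ^ (rep b - 1) * U := by
  obtain ⟨U, hU1, hU⟩ := wpDiff_eq_of_lt hb0 h
  refine ⟨-U, by rw [map_neg, hU1], ?_⟩
  rw [wpDiff_swap, hU, mul_neg]

theorem wpDiff_eq_zero_iff {M : ℕ} [NeZero M] {a b : ZMod M} (ha0 : a ≠ 0) (hb0 : b ≠ 0) :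
    wpDiff M a b = 0 ↔ a = b ∨ a = -b := by
  constructor
  · intro h0
    rw [← rep_eq_iff]
    by_contra hne
    rcases lt_or_gt_of_ne hne with h | h
    · obtain ⟨U, hU1, hU⟩ := wpDiff_eq_of_lt ha0 h
      rw [h0] at hU
      have hU0 : U = 0 := by
        rcases mul_eq_zero.1 hU.symm with h' | h'
        · exact absurd h' (pow_ne_zero _ PowerSeries.X_ne_zero)
        · exact h'
      rw [hU0, map_zero] at hU1
      exact zero_ne_one hU1
    · obtain ⟨U, hU1, hU⟩ := wpDiff_eq_of_gt hb0 h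
      rw [h0] at hU
      have hU0 : U = 0 := by
        rcases mul_eq_zero.1 hU.symm with h' | h'
        · exact absurd h' (pow_ne_zero _ PowerSeries.X_ne_zero)
        · exact h'
      rw [hU0, map_zero] at hU1
      have : (0 : ℤ) ≠ -1 := by decide
      exact this hU1
  · rintro (rfl | rfl)
    · exact wpDiff_self M a
    · rw [wpDiff_neg_left, wpDiff_self]

/-! ### The series `s_a` -/

theorem constantCoeff_wpDiff_two_one {M : ℕ} (hM : 4 ≤ M) :
    PowerSeries.constantCoeff (wpDiff M 2 1) = -1 := by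
  have : NeZero M := ⟨by omega⟩
  obtain ⟨U, hU1, hU⟩ := wpDiff_eq_of_gt (M := M) (a := 2) (b := 1)
    (one_ne_zero_zmod (by omega)) (by rw [rep_one (by omega), rep_two hM]; omega)
  rw [hU, rep_one (by omega), Nat.sub_self, pow_zero, one_mul, hU1]

/-- the inverse of `(P_2 - P_1) / q` -/
def wpInv (M : ℕ) : PowerSeries ℤ := (wpDiff M 2 1).invOfUnit (-1)

theorem sInt_eq (M : ℕ) (a : ZMod M) : sInt M a = wpDiff M a 1 * wpInv M := rfl

theorem wpDiff_mul_wpInv {M : ℕ} (hM : 4 ≤ M) : wpDiff M 2 1 * wpInv M = 1 :=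
  PowerSeries.mul_invOfUnit _ _ (by rw [constantCoeff_wpDiff_two_one hM]; rfl)

theorem wpInv_mul_wpDiff {M : ℕ} (hM : 4 ≤ M) : wpInv M * wpDiff M 2 1 = 1 := by
  rw [mul_comm, wpDiff_mul_wpInv hM]

@[simp]
theorem constantCoeff_wpInv (M : ℕ) : PowerSeries.constantCoeff (wpInv M) = -1 := by
  rw [wpInv, PowerSeries.constantCoeff_invOfUnit]
  rfl

theorem sInt_mul {M : ℕ} (hM : 4 ≤ M) (a : ZMod M) : sInt M a * wpDiff M 2 1 = wpDiff M a 1 := by
  rw [sInt_eq, mul_assoc, wpInv_mul_wpDiff hM, mul_one]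

@[simp]
theorem sInt_one (M : ℕ) : sInt M 1 = 0 := by
  rw [sInt_eq, wpDiff_self, zero_mul]

theorem sInt_two {M : ℕ} (hM : 4 ≤ M) : sInt M 2 = 1 := by
  rw [sInt_eq, wpDiff_mul_wpInv hM]

@[simp]
theorem sInt_neg (M : ℕ) (a : ZMod M) : sInt M (-a) = sInt M a := by
  rw [sInt_eq, sInt_eq, wpDiff_neg_left]

theorem sInt_sub (M : ℕ) (a b : ZMod M) : sInt M a - sInt M b = wpDiff M a b * wpInv M := by
  rw [sInt_eq, sInt_eq, ← sub_mul, wpDiff_sub_wpDiff]

theorem sInt_sub_mul {M : ℕ} (hM : 4 ≤ M) (a b : ZMod M) :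
    (sInt M a - sInt M b) * wpDiff M 2 1 = wpDiff M a b := by
  rw [sInt_sub, mul_assoc, wpInv_mul_wpDiff hM, mul_one]

/-- `s_a - s_b = - q ^ (rep a - 1) * (1 + ...)` if `rep a < rep b` -/
theorem sInt_sub_eq_of_lt {M : ℕ} [NeZero M] {a b : ZMod M} (ha0 : a ≠ 0)
    (h : rep a < rep b) :
    ∃ U : PowerSeries ℤ, PowerSeries.constantCoeff U = -1 ∧
      sInt M a - sInt M b = PowerSeries.X ^ (rep a - 1) * U := by
  obtain ⟨U, hU1, hU⟩ := wpDiff_eq_of_lt ha0 h
  refine ⟨U * wpInv M, by rw [map_mul, hU1, constantCoeff_wpInv, one_mul], ?_⟩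
  rw [sInt_sub, hU, mul_assoc]

/-- `s_a - s_b = q ^ (rep b - 1) * (1 + ...)` if `rep b < rep a` -/
theorem sInt_sub_eq_of_gt {M : ℕ} [NeZero M] {a b : ZMod M} (hb0 : b ≠ 0)
    (h : rep b < rep a) :
    ∃ U : PowerSeries ℤ, PowerSeries.constantCoeff U = 1 ∧
      sInt M a - sInt M b = PowerSeries.X ^ (rep b - 1) * U := by
  obtain ⟨U, hU1, hU⟩ := wpDiff_eq_of_gt hb0 h
  refine ⟨U * wpInv M, by rw [map_mul, hU1, constantCoeff_wpInv]; norm_num, ?_⟩
  rw [sInt_sub, hU, mul_assoc]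

/-- `s_a ∈ 1 + q ℤ[[q]]` for `a ≠ ± 1` -/
theorem constantCoeff_sInt {M : ℕ} (hM : 4 ≤ M) {a : ZMod M} (ha0 : a ≠ 0) (ha1 : a ≠ 1)
    (ha2 : a ≠ -1) : PowerSeries.constantCoeff (sInt M a) = 1 := by
  have : NeZero M := ⟨by omega⟩
  have hr : rep (1 : ZMod M) < rep a := by
    have h1 := rep_one (M := M) (by omega)
    have hpos := rep_pos ha0
    have hne : rep a ≠ rep (1 : ZMod M) := fun h => by
      rcases (rep_eq_iff a 1).1 h with h | h
      · exact ha1 h
      · exact ha2 h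
    omega
  obtain ⟨U, hU1, hU⟩ := sInt_sub_eq_of_gt (one_ne_zero_zmod (by omega)) hr
  rw [sInt_one, sub_zero, rep_one (by omega), Nat.sub_self, pow_zero, one_mul] at hU
  rw [hU, hU1]

/-! ### The Laurent series `s_a` over a commutative ring -/

open ModularCurve

section Ring

variable (C : Type*) [CommRing C]

theorem sSer_eq (M : ℕ) (a : ZMod M) :
    sSer C M a = HahnSeries.ofPowerSeries ℤ C ((sInt M a).map (Int.castRingHom C)) := rfl

variable {C} in
theorem coeffMap_sSer {C' : Type*} [CommRing C'] (φ : C →+* C') (M : ℕ) (a : ZMod M) :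
    coeffMap φ (sSer C M a) = sSer C' M a := by
  rw [sSer_eq, coeffMap_ofPowerSeries, sSer_eq,
    ← RingHom.comp_apply (PowerSeries.map φ) (PowerSeries.map (Int.castRingHom C)),
    ← PowerSeries.map_comp, RingHom.ext_int (φ.comp (Int.castRingHom C)) (Int.castRingHom C')]

theorem coeffEmb_sSer (L : Type*) [Field L] [Algebra ℚ L] (M : ℕ) (a : ZMod M) :
    coeffEmb L (sSer ℚ M a) = sSer L M a :=
  coeffMap_sSer (algebraMap ℚ L) M a

@[simp]
theorem sSer_one (M : ℕ) : sSer C M 1 = 0 := by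
  rw [sSer_eq, sInt_one, map_zero, map_zero]

theorem sSer_two {M : ℕ} (hM : 4 ≤ M) : sSer C M 2 = 1 := by
  rw [sSer_eq, sInt_two hM, map_one, map_one]

@[simp]
theorem sSer_neg (M : ℕ) (a : ZMod M) : sSer C M (-a) = sSer C M a := by
  rw [sSer_eq, sSer_eq, sInt_neg]

theorem coeff_sSer_natCast (M : ℕ) (a : ZMod M) (n : ℕ) :
    (sSer C M a).coeff (n : ℤ) = ((PowerSeries.coeff n (sInt M a) : ℤ) : C) := by
  rw [sSer_eq, HahnSeries.ofPowerSeries_apply_coeff, PowerSeries.coeff_map]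
  rfl

theorem coeff_sSer_of_neg (M : ℕ) (a : ZMod M) {k : ℤ} (hk : k < 0) :
    (sSer C M a).coeff k = 0 :=
  ofPowerSeries_coeff_of_neg _ hk

theorem sSer_sub (M : ℕ) (a b : ZMod M) :
    sSer C M a - sSer C M b =
      HahnSeries.ofPowerSeries ℤ C ((sInt M a - sInt M b).map (Int.castRingHom C)) := by
  rw [sSer_eq, sSer_eq, map_sub, map_sub]

/-- `s_a - s_b = q ^ (rep a - 1) * (-1 + ...)` if `rep a < rep b` -/
theorem sSer_sub_eq_of_lt {M : ℕ} [NeZero M] {a b : ZMod M} (ha0 : a ≠ 0)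
    (h : rep a < rep b) :
    ∃ U : PowerSeries C, PowerSeries.constantCoeff U = -1 ∧
      sSer C M a - sSer C M b =
        HahnSeries.single (((rep a - 1 : ℕ) : ℤ)) (1 : C) * HahnSeries.ofPowerSeries ℤ C U := by
  obtain ⟨U, hU1, hU⟩ := sInt_sub_eq_of_lt ha0 h
  refine ⟨U.map (Int.castRingHom C), ?_, ?_⟩
  · rw [← PowerSeries.coeff_zero_eq_constantCoeff, PowerSeries.coeff_map,
      PowerSeries.coeff_zero_eq_constantCoeff, hU1]
    simp
  · rw [sSer_sub, hU, map_mul, map_pow, PowerSeries.map_X, map_mul,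
      HahnSeries.ofPowerSeries_X_pow]

/-- `s_a - s_b = q ^ (rep b - 1) * (1 + ...)` if `rep b < rep a` -/
theorem sSer_sub_eq_of_gt {M : ℕ} [NeZero M] {a b : ZMod M} (hb0 : b ≠ 0)
    (h : rep b < rep a) :
    ∃ U : PowerSeries C, PowerSeries.constantCoeff U = 1 ∧
      sSer C M a - sSer C M b =
        HahnSeries.single (((rep b - 1 : ℕ) : ℤ)) (1 : C) * HahnSeries.ofPowerSeries ℤ C U := by
  obtain ⟨U, hU1, hU⟩ := sInt_sub_eq_of_gt hb0 h
  refine ⟨U.map (Int.castRingHom C), ?_, ?_⟩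
  · rw [← PowerSeries.coeff_zero_eq_constantCoeff, PowerSeries.coeff_map,
      PowerSeries.coeff_zero_eq_constantCoeff, hU1]
    simp
  · rw [sSer_sub, hU, map_mul, map_pow, PowerSeries.map_X, map_mul,
      HahnSeries.ofPowerSeries_X_pow]

variable {C} in
/-- coefficients of `q ^ n * U` -/
theorem coeff_single_mul_ofPowerSeries (n : ℕ) (U : PowerSeries C) (m : ℤ) :
    (HahnSeries.single (n : ℤ) (1 : C) * HahnSeries.ofPowerSeries ℤ C U).coeff m =
      if (n : ℤ) ≤ m then PowerSeries.coeff (m - n).toNat U else 0 := by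
  rw [HahnSeries.coeff_single_mul, one_mul]
  split_ifs with h
  · have : m - n = (((m - n).toNat : ℕ) : ℤ) := by omega
    rw [this, HahnSeries.ofPowerSeries_apply_coeff]
    congr 1
  · exact ofPowerSeries_coeff_of_neg _ (by omega)

variable {C} in
/-- the order of a Hahn series from its leading coefficient -/
theorem order_eq_of_coeff {x : LaurentSeries C} {n : ℤ} (h0 : x.coeff n ≠ 0)
    (hlt : ∀ m < n, x.coeff m = 0) : x.order = n := by
  have hx : x ≠ 0 := fun h => h0 (by rw [h]; rfl)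
  refine le_antisymm (HahnSeries.order_le_of_coeff_ne_zero h0) ?_
  by_contra hcon
  exact hx (HahnSeries.coeff_order_eq_zero.1 (hlt _ (not_le.1 hcon)))

/-- leading coefficient of `s_a - s_b`, `rep a < rep b` -/
theorem coeff_sSer_sub_of_lt {M : ℕ} [NeZero M] {a b : ZMod M} (ha0 : a ≠ 0)
    (h : rep a < rep b) :
    (sSer C M a - sSer C M b).coeff (((rep a - 1 : ℕ) : ℤ)) = -1 ∧
      ∀ m : ℤ, m < ((rep a - 1 : ℕ) : ℤ) → (sSer C M a - sSer C M b).coeff m = 0 := by
  obtain ⟨U, hU1, hU⟩ := sSer_sub_eq_of_lt C ha0 h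
  rw [hU]
  refine ⟨?_, fun m hm => ?_⟩
  · rw [coeff_single_mul_ofPowerSeries, if_pos le_rfl, sub_self, Int.toNat_zero,
      PowerSeries.coeff_zero_eq_constantCoeff, hU1]
  · rw [coeff_single_mul_ofPowerSeries, if_neg (not_le.2 hm)]

/-- leading coefficient of `s_a - s_b`, `rep b < rep a` -/
theorem coeff_sSer_sub_of_gt {M : ℕ} [NeZero M] {a b : ZMod M} (hb0 : b ≠ 0)
    (h : rep b < rep a) :
    (sSer C M a - sSer C M b).coeff (((rep b - 1 : ℕ) : ℤ)) = 1 ∧
      ∀ m : ℤ, m < ((rep b - 1 : ℕ) : ℤ) → (sSer C M a - sSer C M b).coeff m = 0 := by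
  obtain ⟨U, hU1, hU⟩ := sSer_sub_eq_of_gt C hb0 h
  rw [hU]
  refine ⟨?_, fun m hm => ?_⟩
  · rw [coeff_single_mul_ofPowerSeries, if_pos le_rfl, sub_self, Int.toNat_zero,
      PowerSeries.coeff_zero_eq_constantCoeff, hU1]
  · rw [coeff_single_mul_ofPowerSeries, if_neg (not_le.2 hm)]

/-- the order of `s_a - s_b` is `min (rep a) (rep b) - 1` -/
theorem order_sSer_sub [Nontrivial C] {M : ℕ} [NeZero M] {a b : ZMod M} (ha0 : a ≠ 0)
    (hb0 : b ≠ 0) (h : rep a ≠ rep b) :
    (sSer C M a - sSer C M b).order = ((min (rep a) (rep b) - 1 : ℕ) : ℤ) := by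
  rcases lt_or_gt_of_ne h with h | h
  · obtain ⟨h1, h2⟩ := coeff_sSer_sub_of_lt C ha0 h
    rw [min_eq_left h.le]
    exact order_eq_of_coeff (by rw [h1]; exact neg_ne_zero.2 one_ne_zero) h2
  · obtain ⟨h1, h2⟩ := coeff_sSer_sub_of_gt C hb0 h
    rw [min_eq_right h.le]
    exact order_eq_of_coeff (by rw [h1]; exact one_ne_zero) h2

theorem sSer_sub_ne_zero [Nontrivial C] {M : ℕ} [NeZero M] {a b : ZMod M} (ha0 : a ≠ 0)
    (hb0 : b ≠ 0) (h : rep a ≠ rep b) : sSer C M a - sSer C M b ≠ 0 := by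
  intro h0
  rcases lt_or_gt_of_ne h with h | h
  · have := (coeff_sSer_sub_of_lt C ha0 h).1
    rw [h0] at this
    exact neg_ne_zero.2 (one_ne_zero (α := C)) this.symm
  · have := (coeff_sSer_sub_of_gt C hb0 h).1
    rw [h0] at this
    exact one_ne_zero (α := C) this.symm

/-- `a ↦ s_a` is injective modulo `±` -/
theorem sSer_eq_iff [Nontrivial C] {M : ℕ} [NeZero M] {a b : ZMod M} (ha0 : a ≠ 0)
    (hb0 : b ≠ 0) : sSer C M a = sSer C M b ↔ a = b ∨ a = -b := by
  constructor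
  · intro h
    rw [← rep_eq_iff]
    by_contra hne
    exact sSer_sub_ne_zero C ha0 hb0 hne (sub_eq_zero.2 h)
  · rintro (rfl | rfl)
    · rfl
    · exact sSer_neg C M b

/-- the order of `s_a`, `a ≠ ± 1`, is `0` -/
theorem order_sSer [Nontrivial C] {M : ℕ} (hM : 4 ≤ M) {a : ZMod M} (ha0 : a ≠ 0)
    (ha1 : a ≠ 1) (ha2 : a ≠ -1) : (sSer C M a).order = 0 := by
  have : NeZero M := ⟨by omega⟩
  have hne : rep a ≠ rep (1 : ZMod M) := fun h => by
    rcases (rep_eq_iff a 1).1 h with h | h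
    · exact ha1 h
    · exact ha2 h
  have h := order_sSer_sub C ha0 (one_ne_zero_zmod (by omega)) hne
  rw [sSer_one, sub_zero, rep_one (by omega)] at h
  rw [h]
  have hpos := rep_pos ha0
  have : min (rep a) 1 = 1 := min_eq_right hpos
  rw [this]
  rfl

end Ring

/-! ### Units and `rep` -/

theorem unit_mul_ne_zero {M : ℕ} (d : (ZMod M)ˣ) {x : ZMod M} (hx : x ≠ 0) :
    (d : ZMod M) * x ≠ 0 := fun h => hx (by
  have := congrArg (fun y => ((d⁻¹ : (ZMod M)ˣ) : ZMod M) * y) h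
  simpa using this)

theorem rep_unit_mul_eq_iff {M : ℕ} [NeZero M] (d : (ZMod M)ˣ) (x y : ZMod M) :
    rep ((d : ZMod M) * x) = rep ((d : ZMod M) * y) ↔ rep x = rep y := by
  rw [rep_eq_iff, rep_eq_iff]
  constructor
  · rintro (h | h)
    · left
      exact d.isUnit.mul_left_cancel h
    · right
      rw [← mul_neg] at h
      exact d.isUnit.mul_left_cancel h
  · rintro (h | h)
    · left; rw [h]
    · right; rw [h, mul_neg]

/-! ### FULLNESS: the diamond automorphisms `δ_d`, `d ≠ ± 1`, move some `s_a` -/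

/-- the image of `s_a` under a diamond automorphism, cleared of denominators -/
theorem diamond_apply_sEl_mul {M : ℕ} (hM : 4 ≤ M) {d : (ZMod M)ˣ}
    {σ : F1 M ≃ₐ[Kbar] F1 M} (hσ : IsDiamondAut M d σ) (a : ZMod M) (ha : a ≠ 0) :
    (σ (sEl M a ha) : LaurentSeries Kbar) *
        (sSer Kbar M ((d : ZMod M) * 2) - sSer Kbar M (d : ZMod M)) =
      sSer Kbar M ((d : ZMod M) * a) - sSer Kbar M (d : ZMod M) := by
  have : NeZero M := ⟨by omega⟩
  have : Fact (1 < M) := ⟨by omega⟩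
  have h1 := hσ.2 a ha
  simp only [coeffEmb_sSer] at h1
  have h2ne : (2 : ZMod M) ≠ 0 := fun h => by
    have := (rep_eq_zero_iff (2 : ZMod M)).2 h
    rw [rep_two hM] at this
    omega
  have hden : sSer Kbar M ((d : ZMod M) * 2) - sSer Kbar M (d : ZMod M) ≠ 0 := by
    refine sSer_sub_ne_zero Kbar (unit_mul_ne_zero d h2ne) d.ne_zero ?_
    have h := (rep_unit_mul_eq_iff d 2 1).not.2
      (by rw [rep_one (by omega), rep_two hM]; omega)
    rwa [mul_one] at h
  rw [h1, div_mul_cancel₀ _ hden]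

theorem coe_sEl (M : ℕ) (a : ZMod M) (ha : a ≠ 0) :
    (sEl M a ha : LaurentSeries Kbar) = sSer Kbar M a :=
  coeffEmb_sSer Kbar M a

/-- **FULLNESS**: a diamond automorphism `δ_d^*` fixing all the generators `s_a` has
`d = ± 1` (`M ≥ 6`). -/
theorem fullness {M : ℕ} (hM : 6 ≤ M) (d : (ZMod M)ˣ) (σ : F1 M ≃ₐ[Kbar] F1 M)
    (hσ : IsDiamondAut M d σ)
    (hfix : ∀ (a : ZMod M) (ha : a ≠ 0), σ (sEl M a ha) = sEl M a ha) :
    d = 1 ∨ d = -1 := by
  have : NeZero M := ⟨by omega⟩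
  have : Fact (1 < M) := ⟨by omega⟩
  have hM4 : 4 ≤ M := by omega
  have h1ne : (1 : ZMod M) ≠ 0 := one_ne_zero_zmod (by omega)
  have h2ne : (2 : ZMod M) ≠ 0 := fun h => by
    have := (rep_eq_zero_iff (2 : ZMod M)).2 h
    rw [rep_two hM4] at this
    omega
  have hr1 : rep (1 : ZMod M) = 1 := rep_one (by omega)
  have hr2 : rep (2 : ZMod M) = 2 := rep_two hM4
  -- the basic identity
  have key : ∀ a : ZMod M, a ≠ 0 →
      sSer Kbar M a * (sSer Kbar M ((d : ZMod M) * 2) - sSer Kbar M (d : ZMod M)) =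
        sSer Kbar M ((d : ZMod M) * a) - sSer Kbar M (d : ZMod M) := by
    intro a ha
    have h := diamond_apply_sEl_mul hM4 hσ a ha
    rwa [hfix a ha, coe_sEl] at h
  have hd2 : rep ((d : ZMod M) * 2) ≠ rep (d : ZMod M) := by
    have h := (rep_unit_mul_eq_iff d 2 1).not.2 (by rw [hr1, hr2]; omega)
    rwa [mul_one] at h
  -- comparison of orders
  have hmin : ∀ a : ZMod M, a ≠ 0 → a ≠ 1 → a ≠ -1 →
      min (rep ((d : ZMod M) * a)) (rep (d : ZMod M)) =
        min (rep ((d : ZMod M) * 2)) (rep (d : ZMod M)) := by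
    intro a ha0 ha1 ha2
    have hne : rep a ≠ rep (1 : ZMod M) := fun h => by
      rcases (rep_eq_iff a 1).1 h with h | h
      · exact ha1 h
      · exact ha2 h
    have hda : rep ((d : ZMod M) * a) ≠ rep (d : ZMod M) := by
      have h := (rep_unit_mul_eq_iff d a 1).not.2 hne
      rwa [mul_one] at h
    have ho := congrArg HahnSeries.order (key a ha0)
    have hx : sSer Kbar M a ≠ 0 := by
      have := sSer_sub_ne_zero Kbar ha0 h1ne hne
      rwa [sSer_one, sub_zero] at this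
    have hy := sSer_sub_ne_zero Kbar (unit_mul_ne_zero d h2ne) d.ne_zero hd2
    rw [HahnSeries.order_mul hx hy, order_sSer Kbar hM4 ha0 ha1 ha2, zero_add,
      order_sSer_sub Kbar (unit_mul_ne_zero d h2ne) d.ne_zero hd2,
      order_sSer_sub Kbar (unit_mul_ne_zero d ha0) d.ne_zero hda] at ho
    have p1 := rep_pos (unit_mul_ne_zero d ha0)
    have p2 := rep_pos (unit_mul_ne_zero d h2ne)
    have p3 := rep_pos (a := (d : ZMod M)) d.ne_zero
    have p4 : 0 < min (rep ((d : ZMod M) * a)) (rep (d : ZMod M)) := lt_min p1 p3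
    have p5 : 0 < min (rep ((d : ZMod M) * 2)) (rep (d : ZMod M)) := lt_min p2 p3
    omega
  by_contra hcon
  obtain ⟨hd1, hd2'⟩ := not_or.1 hcon
  have hdne1 : (d : ZMod M) ≠ 1 := fun h => hd1 (Units.ext h)
  have hdne2 : (d : ZMod M) ≠ -1 := fun h => hd2' (Units.ext (by simpa using h))
  have hrd : rep (d : ZMod M) ≠ 1 := fun h => by
    rcases (rep_eq_iff (d : ZMod M) 1).1 (h.trans hr1.symm) with h | h
    · exact hdne1 h
    · exact hdne2 h
  set e : ZMod M := ((d⁻¹ : (ZMod M)ˣ) : ZMod M) with he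
  have hde : (d : ZMod M) * e = 1 := by simp [he]
  have he0 : e ≠ 0 := (d⁻¹).ne_zero
  have he1 : e ≠ 1 := fun h => hdne1 (by rw [h, mul_one] at hde; exact hde)
  have he2 : e ≠ -1 := fun h => hdne2 (by
    rw [h, mul_neg, mul_one] at hde
    rw [← hde, neg_neg])
  have hc : min (rep ((d : ZMod M) * 2)) (rep (d : ZMod M)) = 1 := by
    rw [← hmin e he0 he1 he2, hde, hr1]
    exact min_eq_left (rep_pos (a := (d : ZMod M)) d.ne_zero)
  have hall : ∀ a : ZMod M, a ∈ ({0, 1, -1, e, -e} : Finset (ZMod M)) := by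
    intro a
    by_contra ha
    simp only [Finset.mem_insert, Finset.mem_singleton, not_or] at ha
    obtain ⟨ha0, ha1, ha2, ha3, ha4⟩ := ha
    have h := hmin a ha0 ha1 ha2
    rw [hc] at h
    have hra : rep ((d : ZMod M) * a) = 1 := by
      rcases min_choice (rep ((d : ZMod M) * a)) (rep (d : ZMod M)) with h' | h'
      · rw [← h', h]
      · exact absurd (h'.symm.trans h) hrd
    rcases (rep_eq_iff ((d : ZMod M) * a) 1).1 (hra.trans hr1.symm) with h' | h'
    · apply ha3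
      have := congrArg (fun y => e * y) h'
      simp only [← mul_assoc, mul_one] at this
      rwa [mul_comm e (d : ZMod M), hde, one_mul] at this
    · apply ha4
      have := congrArg (fun y => e * y) h'
      simp only [← mul_assoc, mul_neg, mul_one] at this
      rwa [mul_comm e (d : ZMod M), hde, one_mul] at this
  have hcard : Fintype.card (ZMod M) ≤ 5 := by
    have h1 : (Finset.univ : Finset (ZMod M)) ⊆ ({0, 1, -1, e, -e} : Finset (ZMod M)) :=
      fun a _ => hall a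
    have h2 := Finset.card_le_card h1
    have h3 : ({0, 1, -1, e, -e} : Finset (ZMod M)).card ≤ 5 :=
      (Finset.card_le_five (a := (0 : ZMod M)) (b := 1) (c := -1) (d := e) (e := -e))
    rw [Finset.card_univ] at h2
    exact h2.trans h3
  rw [ZMod.card] at hcard
  omega

end Fermat.Agent.T4.helper33

end
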