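import Mathlib

/-!
# T4 (I), IGUSA1, [IG-DED]: abstract Dedekind reduction (helper40)

Setting (that of Mathlib's `IsFractionRing.stabilizerHom_surjective`): a finite group `G` acting
on a commutative ring `B` by ring automorphisms, `A → B` with `Algebra.IsInvariant A B G`,
`Q` a prime of `B` over `P`, `K = Frac (A ⧸ P)`, `L = Frac (B ⧸ Q)`.

* `ded_exists_of_algEquiv` : every `K`-automorphism of `L` is induced by an element of the
  stabiliser of `Q`.
* `ded_exists_of_root` / `ded_exists_of_irreducible` : the stabiliser of `Q` is transitive on the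
  roots in `L` of the minimal polynomial of `x mod Q` (resp. of an irreducible polynomial).
* `ded_transitive` : if `F ∈ A[X]` kills `x ∈ B` and the image of `F` over a fraction field of
  `A ⧸ P` is irreducible, then for every `g : G` there is `d` in the stabiliser of `Q` with
  `d • x - g • x ∈ Q`;  `ded_transitive_eq` : `d • x = g • x` if reduction is injective on the
  orbit of `x`.

Mathlib only.
-/

set_option autoImplicit false
set_option linter.unusedSectionVars false
set_option linter.unusedVariables false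

open Polynomial
open scoped Pointwise

namespace Fermat.Agent.T4.helper40

section Ded

variable {A B : Type*} [CommRing A] [CommRing B] [Algebra A B]
  (G : Type*) [Group G] [Finite G] [MulSemiringAction G B] [SMulCommClass G A B]
  (P : Ideal A) (Q : Ideal B) [Q.IsPrime] [Q.LiesOver P]

variable (K L : Type*) [Field K] [Field L]
  [Algebra (A ⧸ P) K] [Algebra (B ⧸ Q) L]
  [Algebra (A ⧸ P) L] [IsScalarTower (A ⧸ P) (B ⧸ Q) L]
  [Algebra K L] [IsScalarTower (A ⧸ P) K L]
  [Algebra.IsInvariant A B G]
  [IsFractionRing (A ⧸ P) K] [IsFractionRing (B ⧸ Q) L]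

include G P Q in
/-- Every `K`-automorphism of `L = Frac (B ⧸ Q)` is induced by an element of the stabiliser
of `Q`. -/
theorem ded_exists_of_algEquiv (σ : L ≃ₐ[K] L) :
    ∃ d : G, d • Q = Q ∧ ∀ x : B, σ (algebraMap (B ⧸ Q) L (Ideal.Quotient.mk Q x)) =
      algebraMap (B ⧸ Q) L (Ideal.Quotient.mk Q (d • x)) := by
  obtain ⟨d, hd⟩ := IsFractionRing.stabilizerHom_surjective G P Q K L σ
  refine ⟨d.1, d.2, fun x => ?_⟩
  rw [← hd, IsFractionRing.stabilizerHom_apply_apply_mk]

include G P Q in
/-- The stabiliser of `Q` is transitive on the roots in `L` of the minimal polynomial of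
`x mod Q`. -/
theorem ded_exists_of_root (x : B) (y : L)
    (hy : aeval y (minpoly K (algebraMap (B ⧸ Q) L (Ideal.Quotient.mk Q x))) = 0) :
    ∃ d : G, d • Q = Q ∧ algebraMap (B ⧸ Q) L (Ideal.Quotient.mk Q (d • x)) = y := by
  haveI : P.IsPrime := Ideal.over_def Q P ▸ Ideal.IsPrime.under A Q
  haveI : Normal K L := Ideal.IsFractionRing.normal G P Q K L
  have halg : IsAlgebraic K (algebraMap (B ⧸ Q) L (Ideal.Quotient.mk Q x)) :=
    (Normal.isIntegral (inferInstance : Normal K L) _).isAlgebraic
  obtain ⟨σ, hσ⟩ := minpoly.exists_algEquiv_of_root' halg hy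
  obtain ⟨d, hd, hdσ⟩ := ded_exists_of_algEquiv G P Q K L σ
  exact ⟨d, hd, by rw [← hdσ, hσ]⟩

include G P Q in
/-- The stabiliser of `Q` is transitive on the roots in `L` of an irreducible polynomial over `K`
having `x mod Q` as a root. -/
theorem ded_exists_of_irreducible (x : B) (y : L) (p : K[X]) (hp : Irreducible p)
    (hx : aeval (algebraMap (B ⧸ Q) L (Ideal.Quotient.mk Q x)) p = 0) (hy : aeval y p = 0) :
    ∃ d : G, d • Q = Q ∧ algebraMap (B ⧸ Q) L (Ideal.Quotient.mk Q (d • x)) = y := by
  apply ded_exists_of_root G P Q K L x y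
  have hdvd : minpoly K (algebraMap (B ⧸ Q) L (Ideal.Quotient.mk Q x)) ∣ p := minpoly.dvd K _ hx
  haveI : P.IsPrime := Ideal.over_def Q P ▸ Ideal.IsPrime.under A Q
  haveI : Normal K L := Ideal.IsFractionRing.normal G P Q K L
  have hint : IsIntegral K (algebraMap (B ⧸ Q) L (Ideal.Quotient.mk Q x)) :=
    Normal.isIntegral (inferInstance : Normal K L) _
  have hnu : ¬ IsUnit (minpoly K (algebraMap (B ⧸ Q) L (Ideal.Quotient.mk Q x))) :=
    minpoly.not_isUnit K _
  obtain ⟨c, hc⟩ := hdvd
  have hcu : IsUnit c := (hp.isUnit_or_isUnit hc).resolve_left hnu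
  have hc0 : aeval y c ≠ 0 := by
    obtain ⟨u, hu⟩ := hcu
    have h1 : aeval y c * aeval y (↑u⁻¹ : K[X]) = 1 := by
      rw [← map_mul, ← hu, Units.mul_inv, map_one]
    intro h0
    rw [h0, zero_mul] at h1
    exact zero_ne_one h1
  rw [hc, map_mul] at hy
  exact (mul_eq_zero.mp hy).resolve_right hc0

include G P Q in
/-- The reduction to `L` of a root in `B` of `F ∈ A[X]` is a root of the image of `F`
over `K`. -/
theorem ded_aeval_red (x : B) (F : A[X]) (hF : aeval x F = 0) :
    aeval (algebraMap (B ⧸ Q) L (Ideal.Quotient.mk Q x))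
      ((F.map (Ideal.Quotient.mk P)).map (algebraMap (A ⧸ P) K)) = 0 := by
  have h1 : ((algebraMap K L).comp (algebraMap (A ⧸ P) K)).comp (Ideal.Quotient.mk P) =
      ((algebraMap (B ⧸ Q) L).comp (Ideal.Quotient.mk Q)).comp (algebraMap A B) := by
    ext a
    simp only [RingHom.comp_apply]
    rw [← IsScalarTower.algebraMap_apply (A ⧸ P) K L,
      IsScalarTower.algebraMap_apply (A ⧸ P) (B ⧸ Q) L]
    rfl
  have h2 : algebraMap (B ⧸ Q) L (Ideal.Quotient.mk Q (eval₂ (algebraMap A B) x F)) =
      eval₂ (((algebraMap (B ⧸ Q) L).comp (Ideal.Quotient.mk Q)).comp (algebraMap A B))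
        (algebraMap (B ⧸ Q) L (Ideal.Quotient.mk Q x)) F :=
    Polynomial.hom_eval₂ F (algebraMap A B)
      ((algebraMap (B ⧸ Q) L).comp (Ideal.Quotient.mk Q)) x
  rw [aeval_def, eval₂_map, eval₂_map, h1, ← h2, ← aeval_def, hF, map_zero, map_zero]

include G P Q L in
/-- **Dedekind reduction, transitivity form.**  If `F ∈ A[X]` kills `x ∈ B` and the image of `F`
over `K = Frac (A ⧸ P)` is irreducible, then the stabiliser of `Q` is transitive on the
reductions mod `Q` of the conjugates `g • x`. -/
theorem ded_transitive_gen (x : B) (F : A[X]) (hF : aeval x F = 0)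
    (hirr : Irreducible ((F.map (Ideal.Quotient.mk P)).map (algebraMap (A ⧸ P) K))) (g : G) :
    ∃ d : G, d • Q = Q ∧ d • x - g • x ∈ Q := by
  have hFg : aeval (g • x) F = 0 := by
    have := Polynomial.aeval_algHom_apply (MulSemiringAction.toAlgHom A B g) x F
    rw [hF, map_zero] at this
    exact this
  obtain ⟨d, hd, hdx⟩ := ded_exists_of_irreducible G P Q K L x
    (algebraMap (B ⧸ Q) L (Ideal.Quotient.mk Q (g • x))) _ hirr
    (ded_aeval_red G P Q K L x F hF) (ded_aeval_red G P Q K L (g • x) F hFg)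
  refine ⟨d, hd, ?_⟩
  have := IsFractionRing.injective (B ⧸ Q) L hdx
  exact (Ideal.Quotient.eq).mp this

end Ded

section DedK

variable {A B : Type*} [CommRing A] [CommRing B] [Algebra A B]
  (G : Type*) [Group G] [Finite G] [MulSemiringAction G B] [SMulCommClass G A B]
  (P : Ideal A) (Q : Ideal B) [Q.IsPrime] [Q.LiesOver P] [Algebra.IsInvariant A B G]

/-- Irreducibility of the image of a polynomial does not depend on the model of the fraction
field. -/
theorem ded_irreducible_transfer {R : Type*} [CommRing R] [IsDomain R]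
    (K K' : Type*) [Field K] [Field K'] [Algebra R K] [Algebra R K'] [IsFractionRing R K]
    [IsFractionRing R K'] (p : R[X]) (h : Irreducible (p.map (algebraMap R K))) :
    Irreducible (p.map (algebraMap R K')) := by
  let e : K ≃ₐ[R] K' := IsLocalization.algEquiv (nonZeroDivisors R) K K'
  have h1 : p.map (algebraMap R K') = Polynomial.mapEquiv e.toRingEquiv (p.map (algebraMap R K)) := by
    rw [Polynomial.mapEquiv_apply, Polynomial.map_map]
    congr 1
    ext a
    simp [e]
  rw [h1]
  exact (MulEquiv.irreducible_iff (Polynomial.mapEquiv e.toRingEquiv).toMulEquiv).mpr h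

/-- **Dedekind reduction, transitivity form** (`K` any fraction field of `A ⧸ P`, no choice of
`L` needed).  If `F ∈ A[X]` kills `x ∈ B` and the image of `F` over `K` is irreducible, then for
every `g : G` there is `d` in the stabiliser of `Q` with `d • x ≡ g • x mod Q`. -/
theorem ded_transitive (K : Type*) [Field K] [Algebra (A ⧸ P) K] [IsFractionRing (A ⧸ P) K]
    (x : B) (F : A[X]) (hF : aeval x F = 0)
    (hirr : Irreducible ((F.map (Ideal.Quotient.mk P)).map (algebraMap (A ⧸ P) K))) (g : G) :
    ∃ d : G, d • Q = Q ∧ d • x - g • x ∈ Q := by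
  haveI : P.IsPrime := Ideal.over_def Q P ▸ Ideal.IsPrime.under A Q
  letI := FractionRing.liftAlgebra (A ⧸ P) (FractionRing (B ⧸ Q))
  exact ded_transitive_gen G P Q (FractionRing (A ⧸ P)) (FractionRing (B ⧸ Q)) x F hF
    (ded_irreducible_transfer K (FractionRing (A ⧸ P)) _ hirr) g

/-- `ded_transitive` with equality, when reduction mod `Q` is injective on the orbit of `x`. -/
theorem ded_transitive_eq (K : Type*) [Field K] [Algebra (A ⧸ P) K] [IsFractionRing (A ⧸ P) K]
    (x : B) (F : A[X]) (hF : aeval x F = 0)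
    (hirr : Irreducible ((F.map (Ideal.Quotient.mk P)).map (algebraMap (A ⧸ P) K)))
    (hinj : ∀ g g' : G, g • x - g' • x ∈ Q → g • x = g' • x) (g : G) :
    ∃ d : G, d • Q = Q ∧ d • x = g • x := by
  obtain ⟨d, hd, hdx⟩ := ded_transitive G P Q K x F hF hirr g
  exact ⟨d, hd, hinj d g hdx⟩

/-- Group form of `ded_transitive_eq`: `G = D · Stab(x)` for `D` the stabiliser of `Q`. -/
theorem ded_transitive_mul (K : Type*) [Field K] [Algebra (A ⧸ P) K] [IsFractionRing (A ⧸ P) K]
    (x : B) (F : A[X]) (hF : aeval x F = 0)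
    (hirr : Irreducible ((F.map (Ideal.Quotient.mk P)).map (algebraMap (A ⧸ P) K)))
    (hinj : ∀ g g' : G, g • x - g' • x ∈ Q → g • x = g' • x) (g : G) :
    ∃ d ∈ MulAction.stabilizer G Q, ∃ b ∈ MulAction.stabilizer G x, g = d * b := by
  obtain ⟨d, hd, hdx⟩ := ded_transitive_eq G P Q K x F hF hirr hinj g
  refine ⟨d, hd, d⁻¹ * g, ?_, by group⟩
  rw [MulAction.mem_stabilizer_iff, mul_smul, ← hdx, inv_smul_smul]

end DedK

end Fermat.Agent.T4.helper40
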