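import Mathlib
import Fermat.Agent.T4.helper40_Dedekind

/-!
# T4 block (I), [IGUSA1] route A: the abstract assembly (helper4)

Setting: a commutative ring `B` with an action of a finite group `G`, invariants covered by
`A → B` (`Algebra.IsInvariant A B G`), and a ring homomorphism `ρ : B →+* 𝒦` into a field (the
reduction of the expansion at the standard cusp).

* `smul_ker_eq_of_stable` : if `ker ρ` is mapped into itself by `T`, then `T • ker ρ = ker ρ`.
* `ker_stable_of_dedekind` : **kernel stability.**  If `ker ρ` is `T`-stable, if a pivot `x` is a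
  root of `F ∈ A[X]` whose reduction is irreducible over the fraction field of `A / P`,
  `P = ker ρ ∩ A`, if `ρ` is injective on the orbit of `x`, and if every subgroup `D ∋ T` with
  `G = D · Stab(x)` is everything (for `SL₂(ℤ/M)`, `T = (1 1; 0 1)`, `Stab(x) ≤ ± Borel`: this is
  `helper35.sl2_eq_top_of_trans`), then `ker ρ` is `G`-stable.
* `orbit_injective` : under kernel stability, if `ρ (g • θ) = ρ θ` implies `g • θ = θ`, then
  `ρ` is injective on the orbit of `θ`.
* `irreducible_of_ker_stable` : under kernel stability, the reduction of any monic lift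
  `Φ ∈ A[X]` of the orbit polynomial of such a `θ` is irreducible over the domain `A / P`.
* `derivative_ne_zero_of_ker_stable` : ... and `ρ (Φ'(θ)) ≠ 0`.
* `exists_generic_comb` : general position - a combination `θ = ∑ λ ^ i x_i` of finitely many
  elements such that `ρ (g • θ) = ρ θ` only if `g` fixes all `ρ (x_i)`.

No level, no modular functions: Mathlib + helper40 (Dedekind) only.
-/

set_option autoImplicit false
set_option linter.unusedSectionVars false
set_option linter.style.haveILetI false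

open Polynomial
open scoped Pointwise

namespace Fermat.Agent.T4.helper4

section IgusaAbs

variable {A B 𝒦 : Type*} [CommRing A] [CommRing B] [Algebra A B] [Field 𝒦]
  (G : Type*) [Group G] [Finite G] [MulSemiringAction G B] [SMulCommClass G A B]
  (ρ : B →+* 𝒦)

/-- powers of a kernel-stable element are kernel-stable -/
theorem ker_stable_pow (T : G) (hT : ∀ f : B, ρ f = 0 → ρ (T • f) = 0) (n : ℕ) (f : B)
    (hf : ρ f = 0) : ρ (T ^ n • f) = 0 := by
  induction n generalizing f with
  | zero => simpa using hf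
  | succ n ih =>
    rw [pow_succ, mul_smul]
    exact ih _ (hT f hf)

/-- the inverse of a kernel-stable element of a finite group is kernel-stable -/
theorem ker_stable_inv (T : G) (hT : ∀ f : B, ρ f = 0 → ρ (T • f) = 0) (f : B)
    (hf : ρ f = 0) : ρ (T⁻¹ • f) = 0 := by
  obtain ⟨n, hn, hn1⟩ := (isOfFinOrder_of_finite T).exists_pow_eq_one
  have h1 : T⁻¹ = T ^ (n - 1) := by
    rw [inv_eq_iff_mul_eq_one, ← pow_succ', Nat.sub_add_cancel hn, hn1]
  rw [h1]
  exact ker_stable_pow G ρ T hT _ f hf

/-- `T • ker ρ = ker ρ` for a kernel-stable `T` -/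
theorem smul_ker_eq_of_stable (T : G) (hT : ∀ f : B, ρ f = 0 → ρ (T • f) = 0) :
    T • RingHom.ker ρ = RingHom.ker ρ := by
  ext y
  rw [Ideal.mem_pointwise_smul_iff_inv_smul_mem, RingHom.mem_ker, RingHom.mem_ker]
  constructor
  · intro h
    have := hT _ h
    rwa [smul_inv_smul] at this
  · intro h
    exact ker_stable_inv G ρ T hT y h

/-- the converse direction: an element of the stabiliser of `ker ρ` is kernel-stable -/
theorem ker_stable_of_mem_stabilizer (g : G) (hg : g ∈ MulAction.stabilizer G (RingHom.ker ρ))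
    (f : B) (hf : ρ f = 0) : ρ (g • f) = 0 := by
  rw [MulAction.mem_stabilizer_iff] at hg
  have h : g • f ∈ g • RingHom.ker ρ :=
    Ideal.smul_mem_pointwise_smul _ _ _ (RingHom.mem_ker.mpr hf)
  rw [hg] at h
  exact RingHom.mem_ker.mp h

variable [Algebra.IsInvariant A B G]

/-- **[IGUSA1], kernel stability (route A).** -/
theorem ker_stable_of_dedekind (T : G) (hT : ∀ f : B, ρ f = 0 → ρ (T • f) = 0)
    (x : B) (F : A[X]) (hF : aeval x F = 0)
    (K : Type*) [Field K] [Algebra (A ⧸ (RingHom.ker ρ).under A) K]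
    [IsFractionRing (A ⧸ (RingHom.ker ρ).under A) K]
    (hirr : Irreducible ((F.map (Ideal.Quotient.mk ((RingHom.ker ρ).under A))).map
      (algebraMap (A ⧸ (RingHom.ker ρ).under A) K)))
    (hinj : ∀ g g' : G, ρ (g • x) = ρ (g' • x) → g • x = g' • x)
    (hgen : ∀ D : Subgroup G, T ∈ D →
      (∀ g : G, ∃ d ∈ D, ∃ b ∈ MulAction.stabilizer G x, g = d * b) → D = ⊤)
    (g : G) (f : B) (hf : ρ f = 0) : ρ (g • f) = 0 := by
  haveI : (RingHom.ker ρ).IsPrime := RingHom.ker_isPrime ρ
  have hD := hgen (MulAction.stabilizer G (RingHom.ker ρ))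
    (by rw [MulAction.mem_stabilizer_iff]; exact smul_ker_eq_of_stable G ρ T hT)
    (fun g => helper40.ded_transitive_mul G ((RingHom.ker ρ).under A) (RingHom.ker ρ) K x F hF
      hirr (fun g g' h => hinj g g' (by
        rw [RingHom.mem_ker, map_sub, sub_eq_zero] at h; exact h)) g)
  exact ker_stable_of_mem_stabilizer G ρ g (hD ▸ Subgroup.mem_top g) f hf

end IgusaAbs

section RhoBar

variable {A B 𝒦 : Type*} [CommRing A] [CommRing B] [Algebra A B] [Field 𝒦] (ρ : B →+* 𝒦)

/-- the map `A ⧸ P → 𝒦` induced by `ρ`, `P = ker ρ ∩ A` -/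
def rhoBar : A ⧸ (RingHom.ker ρ).under A →+* 𝒦 :=
  Ideal.Quotient.lift _ (ρ.comp (algebraMap A B)) (fun a ha => by
    rw [Ideal.under_def, Ideal.mem_comap, RingHom.mem_ker] at ha
    exact ha)

theorem rhoBar_mk (a : A) :
    rhoBar (A := A) ρ (Ideal.Quotient.mk _ a) = ρ (algebraMap A B a) := rfl

theorem rhoBar_injective : Function.Injective (rhoBar (A := A) ρ) := by
  rw [injective_iff_map_eq_zero]
  intro y hy
  obtain ⟨a, rfl⟩ := Ideal.Quotient.mk_surjective y
  rw [rhoBar_mk] at hy
  rw [Ideal.Quotient.eq_zero_iff_mem, Ideal.under_def, Ideal.mem_comap, RingHom.mem_ker]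
  exact hy

theorem rhoBar_eval (f : A[X]) (y : B) :
    ((f.map (Ideal.Quotient.mk ((RingHom.ker ρ).under A))).map (rhoBar (A := A) ρ)).eval (ρ y) =
      ρ (aeval y f) := by
  rw [Polynomial.map_map, eval_map, aeval_def, Polynomial.hom_eval₂]
  rfl

end RhoBar

section Orbit

variable {A B 𝒦 : Type*} [CommRing A] [CommRing B] [Algebra A B] [Field 𝒦]
  (G : Type*) [Group G] [Fintype G] [MulSemiringAction G B] [SMulCommClass G A B]
  (ρ : B →+* 𝒦)

/-- under kernel stability, `ρ` is injective on the orbit of `θ` as soon as it separates `θ`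
from its conjugates -/
theorem orbit_injective (hst : ∀ (g : G) (f : B), ρ f = 0 → ρ (g • f) = 0) (θ : B)
    (hsep : ∀ g : G, ρ (g • θ) = ρ θ → g • θ = θ) (g g' : G)
    (h : ρ (g • θ) = ρ (g' • θ)) : g • θ = g' • θ := by
  have h1 : ρ (g • θ - g' • θ) = 0 := by rw [map_sub, h, sub_self]
  have h2 := hst g'⁻¹ _ h1
  rw [smul_sub, inv_smul_smul, map_sub, sub_eq_zero, ← mul_smul] at h2
  have h3 := hsep _ h2
  rw [mul_smul, inv_smul_eq_iff] at h3
  exact h3

/-- the reduced roots are pairwise distinct -/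
theorem ofQuotientStabilizer_injective (hst : ∀ (g : G) (f : B), ρ f = 0 → ρ (g • f) = 0)
    (θ : B) (hsep : ∀ g : G, ρ (g • θ) = ρ θ → g • θ = θ) :
    Function.Injective
      (fun c : G ⧸ MulAction.stabilizer G θ => ρ (MulAction.ofQuotientStabilizer G θ c)) := by
  intro c c' h
  induction c using QuotientGroup.induction_on with
  | H g =>
    induction c' using QuotientGroup.induction_on with
    | H g' =>
      have h' : ρ (g • θ) = ρ (g' • θ) := h
      exact MulAction.injective_ofQuotientStabilizer G θ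
        (orbit_injective G ρ hst θ hsep g g' h')

/-- the reduction of the orbit polynomial -/
theorem map_prodXSubSMul (θ : B) :
    letI := Classical.decEq B
    (prodXSubSMul G B θ).map ρ =
      ∏ c : G ⧸ MulAction.stabilizer G θ,
        (X - C (ρ (MulAction.ofQuotientStabilizer G θ c))) := by
  letI := Classical.decEq B
  show (prodXSubSMul G B θ).map ρ = _
  rw [prodXSubSMul, Polynomial.map_prod]
  refine Finset.prod_congr rfl (fun c _ => ?_)
  rw [Polynomial.map_sub, Polynomial.map_X, Polynomial.map_C]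

/-- the reduction of the orbit polynomial is separable -/
theorem separable_map_prodXSubSMul (hst : ∀ (g : G) (f : B), ρ f = 0 → ρ (g • f) = 0)
    (θ : B) (hsep : ∀ g : G, ρ (g • θ) = ρ θ → g • θ = θ) :
    ((prodXSubSMul G B θ).map ρ).Separable := by
  letI := Classical.decEq B
  have h := map_prodXSubSMul G ρ θ
  rw [h]
  exact separable_prod_X_sub_C_iff.mpr (ofQuotientStabilizer_injective G ρ hst θ hsep)

/-- `ρ (Φ'(θ)) ≠ 0` -/
theorem derivative_ne_zero_of_ker_stable (hst : ∀ (g : G) (f : B), ρ f = 0 → ρ (g • f) = 0)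
    (θ : B) (hsep : ∀ g : G, ρ (g • θ) = ρ θ → g • θ = θ) :
    ρ ((derivative (prodXSubSMul G B θ)).eval θ) ≠ 0 := by
  have h1 := (separable_map_prodXSubSMul G ρ hst θ hsep).eval₂_derivative_ne_zero
    (RingHom.id 𝒦) (x := ρ θ) (by
      rw [eval₂_id, eval_map_apply, prodXSubSMul.eval, map_zero])
  rw [eval₂_id, derivative_map, eval_map_apply] at h1
  exact h1

/-- the degree of the orbit polynomial -/
theorem natDegree_prodXSubSMul [Nontrivial B] (θ : B) :
    (prodXSubSMul G B θ).natDegree = Nat.card (G ⧸ MulAction.stabilizer G θ) := by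
  letI := Classical.decEq B
  rw [prodXSubSMul, Polynomial.natDegree_prod_of_monic _ _ (fun _ _ => monic_X_sub_C _)]
  simp only [natDegree_X_sub_C, Finset.sum_const, smul_eq_mul, mul_one]
  rw [Nat.card_eq_fintype_card]
  rfl

variable [Algebra.IsInvariant A B G]

/-- the orbit polynomial has a monic lift to `A[X]` -/
theorem exists_lift_prodXSubSMul [Nontrivial B] (θ : B) :
    ∃ Φ : A[X], Φ.Monic ∧ Φ.map (algebraMap A B) = prodXSubSMul G B θ ∧
      Φ.natDegree = Nat.card (G ⧸ MulAction.stabilizer G θ) := by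
  have hl : prodXSubSMul G B θ ∈ Polynomial.lifts (algebraMap A B) := by
    rw [Polynomial.lifts_iff_coeff_lifts]
    intro n
    obtain ⟨a, ha⟩ := Algebra.IsInvariant.isInvariant (A := A) (G := G)
      ((prodXSubSMul G B θ).coeff n) (fun g => prodXSubSMul.coeff G B θ g n)
    exact ⟨a, ha⟩
  obtain ⟨Φ, h1, h2, h3⟩ :=
    Polynomial.lifts_and_natDegree_eq_and_monic hl (prodXSubSMul.monic G B θ)
  exact ⟨Φ, h3, h1, by rw [h2, natDegree_prodXSubSMul]⟩

/-- **[IGUSA1], irreducibility of the reduced orbit polynomial.** -/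
theorem irreducible_of_ker_stable (hst : ∀ (g : G) (f : B), ρ f = 0 → ρ (g • f) = 0)
    (θ : B) (hsep : ∀ g : G, ρ (g • θ) = ρ θ → g • θ = θ)
    (Φ : A[X]) (hΦ : Φ.Monic) (hΦB : Φ.map (algebraMap A B) = prodXSubSMul G B θ) :
    Irreducible (Φ.map (Ideal.Quotient.mk ((RingHom.ker ρ).under A))) := by
  letI := Classical.decEq B
  letI := Classical.decEq 𝒦
  haveI : (RingHom.ker ρ).IsPrime := RingHom.ker_isPrime ρ
  haveI : ((RingHom.ker ρ).under A).IsPrime := Ideal.IsPrime.under A _
  haveI : Nontrivial B := ρ.domain_nontrivial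
  set P := (RingHom.ker ρ).under A with hP
  set r : G ⧸ MulAction.stabilizer G θ → 𝒦 :=
    fun c => ρ (MulAction.ofQuotientStabilizer G θ c) with hr
  have hrinj : Function.Injective r := ofQuotientStabilizer_injective G ρ hst θ hsep
  -- the image of the reduction in `𝒦[X]`
  have hmap : ((Φ.map (Ideal.Quotient.mk P)).map (rhoBar (A := A) ρ)) =
      ∏ c : G ⧸ MulAction.stabilizer G θ, (X - C (r c)) := by
    have h := map_prodXSubSMul G ρ θ
    rw [← h, ← hΦB, Polynomial.map_map, Polynomial.map_map]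
    rfl
  have hmon : (Φ.map (Ideal.Quotient.mk P)).Monic := hΦ.map _
  have hdeg : (Φ.map (Ideal.Quotient.mk P)).natDegree =
      Fintype.card (G ⧸ MulAction.stabilizer G θ) := by
    rw [← hmon.natDegree_map (rhoBar (A := A) ρ), hmap,
      Polynomial.natDegree_prod_of_monic _ _ (fun _ _ => monic_X_sub_C _)]
    simp
  rw [hmon.irreducible_iff_natDegree]
  refine ⟨fun h1 => ?_, fun f g hf hg hfg => ?_⟩
  · rw [h1, natDegree_one] at hdeg
    exact Fintype.card_ne_zero hdeg.symm
  · by_contra hcon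
    rw [not_or] at hcon
    obtain ⟨hf0, hg0⟩ := hcon
    -- `f` has a root among the `r c`
    have hfm : (f.map (rhoBar (A := A) ρ)).Monic := hf.map _
    have hdvd : f.map (rhoBar (A := A) ρ) ∣ ∏ c : G ⧸ MulAction.stabilizer G θ, (X - C (r c)) := by
      rw [← hmap, ← hfg, Polynomial.map_mul]
      exact dvd_mul_right _ _
    have hsplit : (f.map (rhoBar (A := A) ρ)).Splits :=
      Splits.of_dvd (Splits.prod (fun c _ => Splits.X_sub_C _))
        (Finset.prod_ne_zero_iff.mpr (fun c _ => X_sub_C_ne_zero _)) hdvd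
    obtain ⟨a, ha⟩ := hsplit.exists_eval_eq_zero (by
      rw [Polynomial.degree_eq_natDegree hfm.ne_zero, hf.natDegree_map]
      exact_mod_cast hf0)
    have ha' : (∏ c : G ⧸ MulAction.stabilizer G θ, (X - C (r c))).eval a = 0 := by
      obtain ⟨q, hq⟩ := hdvd
      rw [hq, eval_mul, ha, zero_mul]
    rw [eval_prod, Finset.prod_eq_zero_iff] at ha'
    obtain ⟨c₀, -, hc₀⟩ := ha'
    rw [eval_sub, eval_X, eval_C, sub_eq_zero] at hc₀
    subst hc₀
    -- lift `f`
    obtain ⟨fA, hfA⟩ := Polynomial.map_surjective _ (Ideal.Quotient.mk_surjective (I := P)) f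
    obtain ⟨g₀, rfl⟩ := QuotientGroup.mk_surjective c₀
    have h0 : ρ (aeval (g₀ • θ) fA) = 0 := by
      rw [← rhoBar_eval, hfA]
      exact ha
    -- every `r c` is a root
    have hall : ∀ c, (f.map (rhoBar (A := A) ρ)).eval (r c) = 0 := by
      intro c
      obtain ⟨g₁, rfl⟩ := QuotientGroup.mk_surjective c
      have h1 := hst (g₁ * g₀⁻¹) _ h0
      have h2 : (g₁ * g₀⁻¹) • aeval (g₀ • θ) fA = aeval (g₁ • θ) fA := by
        have := Polynomial.aeval_algHom_apply (MulSemiringAction.toAlgHom A B (g₁ * g₀⁻¹))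
          (g₀ • θ) fA
        rw [MulSemiringAction.toAlgHom_apply, MulSemiringAction.toAlgHom_apply, ← mul_smul,
          inv_mul_cancel_right] at this
        exact this.symm
      rw [h2, ← rhoBar_eval, hfA] at h1
      exact h1
    -- count
    have hsub : (Finset.univ.image r).val ⊆ (f.map (rhoBar (A := A) ρ)).roots := by
      intro y hy
      rw [Finset.mem_val, Finset.mem_image] at hy
      obtain ⟨c, -, rfl⟩ := hy
      rw [Polynomial.mem_roots hfm.ne_zero]
      exact hall c
    have hcard := Polynomial.card_le_degree_of_subset_roots hsub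
    rw [Finset.card_image_of_injective _ hrinj, Finset.card_univ, hf.natDegree_map] at hcard
    have hsum : f.natDegree + g.natDegree = Fintype.card (G ⧸ MulAction.stabilizer G θ) := by
      rw [← hdeg, ← hfg, hf.natDegree_mul hg]
    omega

end Orbit

section Generic

variable {A B 𝒦 : Type*} [CommRing A] [CommRing B] [Algebra A B] [Field 𝒦]
  (G : Type*) [Group G] [Finite G] [MulSemiringAction G B] [SMulCommClass G A B]
  (ρ : B →+* 𝒦)

/-- the combination `∑ λ ^ i x_i` -/
def genComb {m : ℕ} (x : Fin m → B) (l : A) : B :=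
  ∑ i : Fin m, algebraMap A B l ^ (i : ℕ) * x i

omit [Finite G] in
theorem smul_genComb {m : ℕ} (x : Fin m → B) (l : A) (g : G) :
    g • genComb x l = ∑ i : Fin m, algebraMap A B l ^ (i : ℕ) * g • x i := by
  rw [genComb, Finset.smul_sum]
  refine Finset.sum_congr rfl (fun i _ => ?_)
  rw [smul_mul', smul_pow', smul_algebraMap]

/-- **general position.**  If `Λ` is an infinite set of constants on which `ρ` is injective,
there is `λ ∈ Λ` such that `θ = ∑ λ ^ i x_i` is moved by `ρ` by every `g` which moves some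
`ρ (x_i)`. -/
theorem exists_generic_comb {m : ℕ} (x : Fin m → B) (Λ : Set A) (hΛ : Λ.Infinite)
    (hΛinj : Set.InjOn (fun l => ρ (algebraMap A B l)) Λ) :
    ∃ l ∈ Λ, ∀ g : G, ρ (g • genComb x l) = ρ (genComb x l) → ∀ i, ρ (g • x i) = ρ (x i) := by
  classical
  haveI : Fintype G := Fintype.ofFinite G
  -- the polynomials `P_g`
  let Pg : G → 𝒦[X] := fun g => ∑ i : Fin m, C (ρ (g • x i) - ρ (x i)) * X ^ (i : ℕ)
  have hcoeff : ∀ g (i : Fin m), (Pg g).coeff (i : ℕ) = ρ (g • x i) - ρ (x i) := by
    intro g i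
    simp only [Pg, finsetSum_coeff, coeff_C_mul, coeff_X_pow]
    rw [Finset.sum_eq_single i]
    · simp
    · intro j _ hji
      rw [if_neg (fun h => hji (Fin.ext h.symm)), mul_zero]
    · intro h; exact absurd (Finset.mem_univ i) h
  have heval : ∀ g (l : A), (Pg g).eval (ρ (algebraMap A B l)) =
      ρ (g • genComb x l) - ρ (genComb x l) := by
    intro g l
    rw [smul_genComb, genComb, map_sum, map_sum, ← Finset.sum_sub_distrib]
    simp only [Pg, eval_finsetSum, eval_mul, eval_C, eval_pow, eval_X]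
    refine Finset.sum_congr rfl (fun i _ => ?_)
    rw [map_mul, map_mul, map_pow]
    ring
  -- the bad set is finite
  let bad : Set A := {l | l ∈ Λ ∧ ∃ g : G, Pg g ≠ 0 ∧ (Pg g).eval (ρ (algebraMap A B l)) = 0}
  have hbad : bad.Finite := by
    have hfin : (⋃ g : G, {a : 𝒦 | Pg g ≠ 0 ∧ (Pg g).eval a = 0}).Finite := by
      refine Set.finite_iUnion (fun g => ?_)
      by_cases hg : Pg g = 0
      · refine Set.Finite.subset Set.finite_empty ?_
        rintro a ⟨h, -⟩
        exact absurd hg h
      · refine Set.Finite.subset (Polynomial.finite_setOfPred_isRoot hg) ?_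
        rintro a ⟨-, h⟩
        exact h
    refine Set.Finite.of_finite_image (f := fun l => ρ (algebraMap A B l))
      (hfin.subset ?_) (hΛinj.mono (fun l hl => hl.1))
    rintro _ ⟨l, ⟨-, g, hg0, hg⟩, rfl⟩
    exact Set.mem_iUnion.mpr ⟨g, hg0, hg⟩
  obtain ⟨l, hlΛ, hlbad⟩ := (hΛ.sdiff hbad).nonempty
  refine ⟨l, hlΛ, fun g hg i => ?_⟩
  by_contra hne
  apply hlbad
  refine ⟨hlΛ, g, fun h0 => hne ?_, ?_⟩
  · have := hcoeff g i
    rw [h0, coeff_zero] at this
    exact (sub_eq_zero.mp this.symm)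
  · rw [heval, hg, sub_self]

end Generic


section Package

variable {A B 𝒦 : Type*} [CommRing A] [CommRing B] [Algebra A B] [Field 𝒦]
  (G : Type*) [Group G] [Fintype G] [MulSemiringAction G B] [SMulCommClass G A B]
  [Algebra.IsInvariant A B G] (ρ : B →+* 𝒦)

/-- **[IGUSA1], abstract PRIM package.**  Under kernel stability, if `H ≤ G` fixes the
generators `x_i` and every `g` fixing all `ρ (x_i)` lies in `H`, then a generic combination
`θ = ∑ λ ^ i x_i` has stabiliser `H`, its orbit polynomial has a monic lift `Φ ∈ A[X]` of degree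
`[G : H]` whose reduction is irreducible over `A / P`, and `ρ (Φ'(θ)) ≠ 0`. -/
theorem exists_prim_of_ker_stable (hst : ∀ (g : G) (f : B), ρ f = 0 → ρ (g • f) = 0)
    {m : ℕ} (x : Fin m → B) (H : Subgroup G) (hH : ∀ h ∈ H, ∀ i, h • x i = x i)
    (hsepH : ∀ g : G, (∀ i, ρ (g • x i) = ρ (x i)) → g ∈ H)
    (Λ : Set A) (hΛ : Λ.Infinite) (hΛinj : Set.InjOn (fun l => ρ (algebraMap A B l)) Λ) :
    ∃ l ∈ Λ, ∃ Φ : A[X], Φ.Monic ∧ Φ.map (algebraMap A B) = prodXSubSMul G B (genComb x l) ∧
      aeval (genComb x l) Φ = 0 ∧ Φ.natDegree = H.index ∧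
      MulAction.stabilizer G (genComb x l) = H ∧
      (∀ g : G, ρ (g • genComb x l) = ρ (genComb x l) → g ∈ H) ∧
      Irreducible (Φ.map (Ideal.Quotient.mk ((RingHom.ker ρ).under A))) ∧
      ρ (aeval (genComb x l) (derivative Φ)) ≠ 0 := by
  haveI : Nontrivial B := ρ.domain_nontrivial
  obtain ⟨l, hl, hgen⟩ := exists_generic_comb G ρ x Λ hΛ hΛinj
  have hfixH : ∀ h ∈ H, h • genComb x l = genComb x l := by
    intro h hh
    rw [smul_genComb, genComb]
    exact Finset.sum_congr rfl (fun i _ => by rw [hH h hh i])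
  have hsepθ : ∀ g : G, ρ (g • genComb x l) = ρ (genComb x l) → g ∈ H :=
    fun g hg => hsepH g (hgen g hg)
  have hsep : ∀ g : G, ρ (g • genComb x l) = ρ (genComb x l) →
      g • genComb x l = genComb x l := fun g hg => hfixH g (hsepθ g hg)
  have hstab : MulAction.stabilizer G (genComb x l) = H := by
    ext g
    rw [MulAction.mem_stabilizer_iff]
    exact ⟨fun hg => hsepθ g (by rw [hg]), fun hg => hfixH g hg⟩
  obtain ⟨Φ, hΦ, hΦB, hΦdeg⟩ := exists_lift_prodXSubSMul (A := A) G (genComb x l)
  have haev : ∀ P : A[X], aeval (genComb x l) P = (P.map (algebraMap A B)).eval (genComb x l) :=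
    fun P => by rw [eval_map, aeval_def]
  refine ⟨l, hl, Φ, hΦ, hΦB, ?_, ?_, hstab, hsepθ,
    irreducible_of_ker_stable G ρ hst _ hsep Φ hΦ hΦB, ?_⟩
  · rw [haev, hΦB, prodXSubSMul.eval]
  · rw [hΦdeg, hstab, Subgroup.index]
  · rw [haev, ← derivative_map, hΦB]
    exact derivative_ne_zero_of_ker_stable G ρ hst _ hsep

end Package

end Fermat.Agent.T4.helper4
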