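import Mathlib
import Fermat.Agent.T4.helper32_X1Defs
import Fermat.Agent.S24.helper17_Bridge
import Fermat.Agent.S24.helper77_SymmFun
import Fermat.Agent.P3.helper20_Mon
import Fermat.Agent.P3.helper34_Ev

/-!
# T4 block (I), sub-block I-FLD (helper24, coordinator): GENERIC analytic dictionary - interface

The analytic dictionary of `X₀(N)` (S24 task 25 + P3 AN0/AN1/AN2) only uses the following
properties of the generators `j(d τ)`: they are holomorphic on the upper half plane with a
`q`-expansion, invariant under `Γ`, they separate the cosets of `Γ`, and all their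
`SL(2, ℤ)`-translates are of exponential growth at `i∞`.  `GenData` / `GenData.IsSys` packages
these properties; every box of I-FLD is a port of a landed `Γ₀`-file to an arbitrary generator
system (PORT RULES in the finding of helper24), and `x1Data M` is the generator system of
`X₁(M)` (`j(d τ)`, `d ∣ M`, and the functions `s_a` of `helper32_X1Defs`).

Only definitions and `Prop`s.
-/

set_option autoImplicit false

noncomputable section

open UpperHalfPlane ModularCurve IntermediateField AlgebraicCurve
open scoped MatrixGroups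

namespace Fermat.Agent.T4.helper24

open Fermat.Agent.S24

local notation "𝕢" => Function.Periodic.qParam

/-! ### Generator systems -/

/-- The data of a generator system: finitely many `q`-series with rational coefficients
together with functions on the upper half plane, a subgroup `Γ` of `SL(2, ℤ)` and the index of
the generator `j`. -/
structure GenData where
  /-- the index type of the generators -/
  I : Type
  /-- the index type is finite -/
  instFintype : Fintype I
  /-- the index type has decidable equality -/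
  instDecEq : DecidableEq I
  /-- the stabiliser of the generators in `SL(2, ℤ)` (it contains `-1`) -/
  Γ : Subgroup SL(2, ℤ)
  /-- the `q`-expansions (rational coefficients) -/
  serQ : I → LaurentSeries ℚ
  /-- the functions on the upper half plane -/
  fn : I → ℍ → ℂ
  /-- the index of `j` -/
  j0 : I

attribute [instance] GenData.instFintype GenData.instDecEq

namespace GenData

variable (D : GenData)

/-- the `q`-expansions with coefficients in a `ℚ`-algebra `K` -/
def ser (K : Type*) [Field K] [Algebra ℚ K] (i : D.I) : LaurentSeries K := coeffEmb K (D.serQ i)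

/-- the field generated over `ℚ` -/
def fieldQ : IntermediateField ℚ (LaurentSeries ℚ) := IntermediateField.adjoin ℚ (Set.range D.serQ)

/-- the field generated over `K` (base change of `fieldQ`) -/
def field (K : Type*) [Field K] [Algebra ℚ K] : IntermediateField K (LaurentSeries K) :=
  laurentBaseChange K D.fieldQ

theorem ser_mem (K : Type*) [Field K] [Algebra ℚ K] (i : D.I) : D.ser K i ∈ D.field K :=
  coeffEmb_mem_laurentBaseChange K (IntermediateField.subset_adjoin ℚ _ ⟨i, rfl⟩)

/-- the generators as elements of the field -/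
def gen (K : Type*) [Field K] [Algebra ℚ K] (i : D.I) : D.field K := ⟨D.ser K i, D.ser_mem K i⟩

/-- the function `j` as an element of the field -/
def xJ (K : Type*) [Field K] [Algebra ℚ K] : D.field K := D.gen K D.j0

/-- the coset space of the conjugates -/
abbrev X : Type := SL(2, ℤ) ⧸ D.Γ

/-- the value at `τ` of a polynomial in the conjugates `fn i ∘ g⁻¹` -/
def evP (g : SL(2, ℤ)) (P : MvPolynomial D.I ℂ) (τ : ℍ) : ℂ :=
  MvPolynomial.eval (fun i => D.fn i (g⁻¹ • τ)) P

/-- **Generator systems.** -/
structure IsSys : Prop where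
  serQ_j0 : D.serQ D.j0 = jq
  fn_j0 : D.fn D.j0 = jfun
  /-- `fn i` is holomorphic on the upper half plane with `q`-expansion `ser i` -/
  isQExp : ∀ i, helper17.IsQExp (D.ser ℂ i) (D.fn i)
  /-- invariance under `Γ` -/
  inv : ∀ i, ∀ γ ∈ D.Γ, ∀ τ : ℍ, D.fn i (γ • τ) = D.fn i τ
  /-- the generators separate the cosets of `Γ` -/
  stab : ∀ g : SL(2, ℤ), (∀ i, ∀ τ : ℍ, D.fn i (g • τ) = D.fn i τ) → g ∈ D.Γ
  /-- `Γ` is a congruence subgroup -/
  level : ∃ W : ℕ, 0 < W ∧ CongruenceSubgroup.Gamma W ≤ D.Γ
  /-- all translates are holomorphic of exponential growth at `i∞` -/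
  growth : ∀ (g : SL(2, ℤ)) (i : D.I), helper77.precomp g (D.fn i) ∈ helper77.holoExp

/-! ### The deliverables of I-FLD for a generator system (ported boxes) -/

/-- **[G-DEG]** the degree over `K(j)` is the index of `Γ` (`K = ℚ̄` and `K = ℂ`). -/
def DegStatement (K : Type*) [Field K] [Algebra ℚ K] : Prop :=
  Transcendental K (D.xJ K) ∧
    ∃ _ : FiniteDimensional (IntermediateField.adjoin K {D.xJ K}) (D.field K),
      Module.finrank (IntermediateField.adjoin K {D.xJ K}) (D.field K) = Nat.card D.X

/-- **[G-EV]** every element of the field has a `Γ`-invariant function on the upper half plane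
(`helper34.IsEv`: quotient of two holomorphic functions with `q`-expansions). -/
def EvStatement : Prop :=
  ∀ S : LaurentSeries ℂ, S ∈ D.field ℂ → ∃ f : ℂ → ℂ, Fermat.Agent.P3.helper34.IsEv S f ∧
    ∀ γ ∈ D.Γ, ∀ τ : ℍ, f ((γ • τ : ℍ) : ℂ) = f (τ : ℂ)

/-- **[G-DICT]** the analytic dictionary in the shape of `helper20.AnDict`, compatible with the
`q`-expansions. -/
def AnDictStatement (Γ' : Subgroup SL(2, ℤ)) : Prop :=
  ∃ 𝒟 : Fermat.Agent.P3.helper20.AnDict (D.field ℂ) Γ',
    ∀ h : D.field ℂ, Fermat.Agent.P3.helper34.IsEv (h : LaurentSeries ℂ) (𝒟.ev h)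

end GenData

/-! ### The generator system of `X₁(M)` -/

open Fermat.Agent.T4.helper32

/-- `±Γ₁(M)` -/
def PG1 (M : ℕ) : Subgroup SL(2, ℤ) := CongruenceSubgroup.Gamma1 M ⊔ Subgroup.zpowers (-1)

/-- the analytic function with `q`-expansion `P_a - P_b` (a weight two Eisenstein series on
`Γ₁(M)`; `(2 π i)⁻² (℘(a τ) - ℘(b τ))` for the lattice `⟨1, M τ⟩`) -/
def wpDfn (M : ℕ) (a b : ZMod M) (τ : ℍ) : ℂ :=
  ∑' n : ℕ, ((wpCoeff M a n - wpCoeff M b n : ℤ) : ℂ) * 𝕢 1 τ ^ n

/-- the analytic function `s_a = (P_a - P_1) / (P_2 - P_1)` -/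
def sFn (M : ℕ) (a : ZMod M) (τ : ℍ) : ℂ := wpDfn M a 1 τ / wpDfn M 2 1 τ

/-- total version of `j(q^d)` with rational coefficients -/
def JdTQ (d : ℕ) : LaurentSeries ℚ :=
  if h : d = 0 then 0 else haveI : NeZero d := ⟨h⟩; qExpand ℚ d jq

/-- the index type of the generators of `F1Q M` -/
abbrev Idx1 (M : ℕ) : Type := {d : ℕ // d ∈ M.divisors} ⊕ {a : ZMod M // a ≠ 0}

/-- the generator system of `X₁(M)` -/
def x1Data (M : ℕ) [NeZero M] : GenData where
  I := Idx1 M
  instFintype := inferInstance
  instDecEq := inferInstance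
  Γ := PG1 M
  serQ := Sum.elim (fun d => JdTQ d.1) (fun a => sSer ℚ M a.1)
  fn := Sum.elim (fun d => jfunDT d.1) (fun a => sFn M a.1)
  j0 := Sum.inl ⟨1, Nat.mem_divisors.mpr ⟨one_dvd M, NeZero.ne M⟩⟩

/-- **[X1-FIELD]** `F1Q M` is the field of the generator system. -/
def X1FieldStatement (M : ℕ) [NeZero M] : Prop := F1Q M = (x1Data M).fieldQ

/-- **[X1-SYS]** the generators of `X₁(M)` form a generator system (`M ≥ 7`). -/
def X1SysStatement (M : ℕ) [NeZero M] : Prop := 7 ≤ M → (x1Data M).IsSys

/-- the function field of `X₁(M)` over `ℂ` -/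
abbrev F1Cx (M : ℕ) : IntermediateField ℂ (LaurentSeries ℂ) := laurentBaseChange ℂ (F1Q M)

/-- **Deliverable of I-FLD for I-AN**: the analytic dictionary of `X₁(M)`. -/
def AnDict1Statement (M : ℕ) [NeZero M] : Prop :=
  7 ≤ M → ∃ 𝒟 : Fermat.Agent.P3.helper20.AnDict (F1Cx M) (CongruenceSubgroup.Gamma1 M),
    ∀ h : F1Cx M, Fermat.Agent.P3.helper34.IsEv (h : LaurentSeries ℂ) (𝒟.ev h)

/-- the wiring of I-FLD: the dictionary of `X₁(M)` from the generic dictionary -/
def WireStatement (M : ℕ) [NeZero M] : Prop :=
  X1FieldStatement M → X1SysStatement M →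
    (∀ D : GenData, D.IsSys → D.AnDictStatement D.Γ) → AnDict1Statement M

end Fermat.Agent.T4.helper24

end
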