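import Mathlib
import Fermat.Agent.S28.ATAssembly
import Fermat.Agent.S28.helper93_Reduce
import Fermat.Agent.S28.helper63_LevelOne
import Fermat.Agent.S28.helper63_Translates

/-!
# T4 block (I), IGUSA1: the ANALYTIC core of CONJ1 (helper32)

For a NORMAL subgroup `Γ` of `SL(2, ℤ)` (e.g. `Γ(M)`) and a width `W`:

* `GA Γ W` : the `ℂ`-algebra of functions on the upper half plane which are invariant under `Γ`
  and all of whose `SL(2, ℤ)`-translates are holomorphic with a meromorphic `q_W`-expansion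
  (`S28.HasExp W`);
* `EA Γ W γ : GA Γ W →ₐ[ℂ] ℂ((t))` : the expansion of `f ∘ γ`;
* `tr Γ W g : GA Γ W →ₐ[ℂ] GA Γ W` : the translate `f ↦ f ∘ g` (`tr (g * h) = tr h ∘ tr g`);
* `BS Γ W S` : the subring of the functions ALL of whose expansions have coefficients in the
  subring `S ⊆ ℂ`; it is stable under the translations;
* `jB`, `polyB : S[X] →+* BS Γ W S` (`P ↦ P(j)`) and the invariants: an element of `BS` fixed by
  all translations is a polynomial in `j` with coefficients in `S` (`invariant_eq_poly`);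
* `Ebar`-expansions `EB Γ W S r γ : BS Γ W S →+* k((t))` for `r : S →+* k`, the prime
  `qB = ker (EB 1)`, and the decomposition group `decomp = {g | tr g ⁻¹' qB = qB}`;
* `T ∈ decomp` when `ζ_W ∈ S` (`T` acts by the rotation `t ↦ ζ_W t`: `EA_mul_T`, `EB_mul_T_coeff`);
* `decomp_eq_top_of_cosets`, `EB_eq_zero_of_decomp_eq_top` (the `q`-expansion principle).

The stability and the invariants are tautological in this analytic form; the arithmetic content
of CONJ1 is the MEMBERSHIP of the generators in `BS`.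
-/

set_option autoImplicit false
set_option linter.unusedSectionVars false
set_option linter.style.haveILetI false

noncomputable section

namespace Fermat.Agent.T4.helper32.Conj1

open UpperHalfPlane ModularCurve CongruenceSubgroup
open Fermat.Agent.S28
open scoped MatrixGroups Manifold

variable (Γ : Subgroup SL(2, ℤ)) (W : ℕ) [NeZero W]

/-! ### The algebra of modular functions of level `Γ` -/

/-- Functions on `ℍ` invariant under `Γ`, all of whose `SL(2,ℤ)`-translates are holomorphic with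
a meromorphic `q_W`-expansion at `∞`. -/
def GA : Subalgebra ℂ (ℍ → ℂ) where
  carrier := {f | (∀ γ ∈ Γ, ∀ τ : ℍ, f (γ • τ) = f τ) ∧
    ∀ γ : SL(2, ℤ), (fun τ : ℍ => f (γ • τ)) ∈ Wring W}
  mul_mem' := by
    rintro f g ⟨hf1, hf2⟩ ⟨hg1, hg2⟩
    refine ⟨fun γ hγ τ => ?_, fun γ => ?_⟩
    · simp only [Pi.mul_apply, hf1 γ hγ τ, hg1 γ hγ τ]
    · exact (Wring W).mul_mem (hf2 γ) (hg2 γ)
  add_mem' := by
    rintro f g ⟨hf1, hf2⟩ ⟨hg1, hg2⟩
    refine ⟨fun γ hγ τ => ?_, fun γ => ?_⟩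
    · simp only [Pi.add_apply, hf1 γ hγ τ, hg1 γ hγ τ]
    · exact (Wring W).add_mem (hf2 γ) (hg2 γ)
  algebraMap_mem' := by
    intro c
    refine ⟨fun γ _ τ => rfl, fun γ => ?_⟩
    exact ⟨mdifferentiable_const, _, HasExp.const W c⟩

theorem mem_GA {f : ℍ → ℂ} : f ∈ GA Γ W ↔
    (∀ γ ∈ Γ, ∀ τ : ℍ, f (γ • τ) = f τ) ∧
      ∀ γ : SL(2, ℤ), (fun τ : ℍ => f (γ • τ)) ∈ Wring W := Iff.rfl

/-- a function of a smaller level is a function of level `Γ` -/
theorem GA_mono {Γ Γ' : Subgroup SL(2, ℤ)} (h : Γ ≤ Γ') : GA Γ' W ≤ GA Γ W :=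
  fun _ hf => ⟨fun γ hγ τ => hf.1 γ (h hγ) τ, hf.2⟩

/-- the functions of `S28.GAlg M` (level `Γ₀(M)`) are functions of level `Γ` for `Γ ≤ Γ₀(M)` -/
theorem GAlg_le (hΓ : Γ ≤ Gamma0 W) : Fermat.Agent.S28.GAlg W ≤ GA Γ W :=
  fun _ hf => ⟨fun γ hγ τ => hf.1 γ (hΓ hγ) τ, hf.2⟩

/-- translation by `γ` as a ring hom `GA Γ W →+* Wring W` -/
def trW (γ : SL(2, ℤ)) : GA Γ W →+* Wring W where
  toFun f := ⟨fun τ => (f : ℍ → ℂ) (γ • τ), f.2.2 γ⟩
  map_one' := rfl
  map_mul' _ _ := rfl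
  map_zero' := rfl
  map_add' _ _ := rfl

/-- the expansion of `f ∘ γ` as an algebra hom -/
def EA (γ : SL(2, ℤ)) : GA Γ W →ₐ[ℂ] LaurentSeries ℂ where
  __ := (expHom W).comp (trW Γ W γ)
  commutes' c := by
    rw [LaurentSeries.algebraMap_apply]
    exact expW_eq W _ (HasExp.const W c)

theorem EA_eq (γ : SL(2, ℤ)) (f : GA Γ W) {s : LaurentSeries ℂ}
    (h : HasExp W (fun τ => (f : ℍ → ℂ) (γ • τ)) s) : EA Γ W γ f = s :=
  expW_eq W _ h

theorem hasExp_EA (γ : SL(2, ℤ)) (f : GA Γ W) :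
    HasExp W (fun τ => (f : ℍ → ℂ) (γ • τ)) (EA Γ W γ f) :=
  hasExp_expW W _

/-- the expansion at the identity determines the function -/
theorem EA_one_injective : Function.Injective (EA Γ W 1) := by
  intro f g h
  apply Subtype.ext
  have h1 := hasExp_EA Γ W 1 f
  have h2 := hasExp_EA Γ W 1 g
  rw [h] at h1
  have := HasExp.fun_unique h1 h2
  funext τ
  have h3 := congrFun this τ
  simpa using h3

/-! ### Translations -/

variable [hΓ : Γ.Normal]

theorem tr_mem (g : SL(2, ℤ)) (f : GA Γ W) : (fun τ : ℍ => (f : ℍ → ℂ) (g • τ)) ∈ GA Γ W := by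
  refine ⟨fun γ hγ τ => ?_, fun γ => ?_⟩
  · have h1 : g • γ • τ = (g * γ * g⁻¹) • g • τ := by
      rw [← mul_smul, ← mul_smul, inv_mul_cancel_right]
    show (f : ℍ → ℂ) (g • γ • τ) = (f : ℍ → ℂ) (g • τ)
    rw [h1]
    exact f.2.1 _ (hΓ.conj_mem γ hγ g) _
  · have e : (fun τ : ℍ => (fun τ' : ℍ => (f : ℍ → ℂ) (g • τ')) (γ • τ)) =
        fun τ : ℍ => (f : ℍ → ℂ) ((g * γ) • τ) := by
      funext τ
      rw [mul_smul]
    rw [e]
    exact f.2.2 (g * γ)

/-- the translation `f ↦ f ∘ g` -/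
def tr (g : SL(2, ℤ)) : GA Γ W →ₐ[ℂ] GA Γ W where
  toFun f := ⟨fun τ => (f : ℍ → ℂ) (g • τ), tr_mem Γ W g f⟩
  map_one' := rfl
  map_mul' _ _ := rfl
  map_zero' := rfl
  map_add' _ _ := rfl
  commutes' _ := rfl

@[simp]
theorem tr_apply (g : SL(2, ℤ)) (f : GA Γ W) (τ : ℍ) :
    ((tr Γ W g f : GA Γ W) : ℍ → ℂ) τ = (f : ℍ → ℂ) (g • τ) := rfl

theorem tr_one (f : GA Γ W) : tr Γ W 1 f = f := by
  apply Subtype.ext
  funext τ
  rw [tr_apply, one_smul]

theorem tr_mul (g h : SL(2, ℤ)) (f : GA Γ W) : tr Γ W (g * h) f = tr Γ W h (tr Γ W g f) := by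
  apply Subtype.ext
  funext τ
  rw [tr_apply, tr_apply, tr_apply, mul_smul]

theorem tr_of_mem {γ : SL(2, ℤ)} (hγ : γ ∈ Γ) (f : GA Γ W) : tr Γ W γ f = f := by
  apply Subtype.ext
  funext τ
  rw [tr_apply]
  exact f.2.1 γ hγ τ

theorem EA_tr (g γ : SL(2, ℤ)) (f : GA Γ W) : EA Γ W γ (tr Γ W g f) = EA Γ W (g * γ) f := by
  apply EA_eq
  have e : (fun τ : ℍ => ((tr Γ W g f : GA Γ W) : ℍ → ℂ) (γ • τ)) =
      fun τ : ℍ => (f : ℍ → ℂ) ((g * γ) • τ) := by
    funext τ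
    rw [tr_apply, mul_smul]
  rw [e]
  exact hasExp_EA Γ W (g * γ) f

/-- expansions only depend on the coset `Γ γ` -/
theorem EA_congr {γ γ' : SL(2, ℤ)} (h : γ' * γ⁻¹ ∈ Γ) (f : GA Γ W) :
    EA Γ W γ' f = EA Γ W γ f := by
  have h1 : γ' = (γ' * γ⁻¹) * γ := by rw [inv_mul_cancel_right]
  rw [h1, ← EA_tr, tr_of_mem Γ W h]

/-! ### The `S`-integral subring -/

variable (S : Subring ℂ)

/-- the functions all of whose expansions have coefficients in `S` -/
def BS : Subring (GA Γ W) := helper93.GS (fun γ : SL(2, ℤ) => EA Γ W γ) S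

theorem mem_BS_iff (f : GA Γ W) : f ∈ BS Γ W S ↔ ∀ (γ : SL(2, ℤ)) (n : ℤ),
    (EA Γ W γ f).coeff n ∈ S :=
  helper93.mem_GS_iff (fun γ : SL(2, ℤ) => EA Γ W γ) S f

theorem tr_mem_BS (g : SL(2, ℤ)) {f : GA Γ W} (hf : f ∈ BS Γ W S) : tr Γ W g f ∈ BS Γ W S := by
  rw [mem_BS_iff] at hf ⊢
  intro γ n
  rw [EA_tr]
  exact hf (g * γ) n

/-- the translation on the `S`-integral subring -/
def trB (g : SL(2, ℤ)) : BS Γ W S →+* BS Γ W S where
  toFun f := ⟨tr Γ W g f, tr_mem_BS Γ W S g f.2⟩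
  map_one' := Subtype.ext (map_one (tr Γ W g))
  map_mul' x y := Subtype.ext (map_mul (tr Γ W g) (x : GA Γ W) (y : GA Γ W))
  map_zero' := Subtype.ext (map_zero (tr Γ W g))
  map_add' x y := Subtype.ext (map_add (tr Γ W g) (x : GA Γ W) (y : GA Γ W))

@[simp]
theorem coe_trB (g : SL(2, ℤ)) (f : BS Γ W S) :
    ((trB Γ W S g f : BS Γ W S) : GA Γ W) = tr Γ W g (f : GA Γ W) := rfl

theorem trB_one (f : BS Γ W S) : trB Γ W S 1 f = f :=
  Subtype.ext (tr_one Γ W f)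

theorem trB_mul (g h : SL(2, ℤ)) (f : BS Γ W S) :
    trB Γ W S (g * h) f = trB Γ W S h (trB Γ W S g f) :=
  Subtype.ext (tr_mul Γ W g h f)

theorem trB_of_mem {γ : SL(2, ℤ)} (hγ : γ ∈ Γ) (f : BS Γ W S) : trB Γ W S γ f = f :=
  Subtype.ext (tr_of_mem Γ W hγ f)

/-- the `S`-integral expansion of `f ∘ γ` -/
def ES (γ : SL(2, ℤ)) : BS Γ W S →+* LaurentSeries S :=
  helper93.ES (fun γ : SL(2, ℤ) => EA Γ W γ) S γ

theorem coeffMap_ES (γ : SL(2, ℤ)) (f : BS Γ W S) :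
    coeffMap S.subtype (ES Γ W S γ f) = EA Γ W γ (f : GA Γ W) :=
  helper93.coeffMap_ES (fun γ : SL(2, ℤ) => EA Γ W γ) S γ f

theorem ES_coeff (γ : SL(2, ℤ)) (f : BS Γ W S) (n : ℤ) :
    ((ES Γ W S γ f).coeff n : ℂ) = (EA Γ W γ (f : GA Γ W)).coeff n :=
  helper93.ES_coeff (fun γ : SL(2, ℤ) => EA Γ W γ) S γ f n

theorem ES_trB (g γ : SL(2, ℤ)) (f : BS Γ W S) :
    ES Γ W S γ (trB Γ W S g f) = ES Γ W S (g * γ) f := by
  apply helper93.coeffMap_injective' S.subtype Subtype.val_injective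
  rw [coeffMap_ES, coeffMap_ES, coe_trB, EA_tr]

theorem ES_one_injective : Function.Injective (ES Γ W S 1) := by
  intro f g h
  apply Subtype.ext
  apply EA_one_injective Γ W
  rw [← coeffMap_ES, ← coeffMap_ES, h]

/-! ### The function `j` and the invariants -/

theorem jfun_mem_GA : Fermat.Agent.S24.jfun ∈ GA Γ W := by
  refine ⟨fun γ _ τ => Fermat.Agent.S24.helper77.jfun_smul γ τ, fun γ => ?_⟩
  have e : (fun τ => Fermat.Agent.S24.jfun (γ • τ)) = Fermat.Agent.S24.jfun :=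
    funext (Fermat.Agent.S24.helper77.jfun_smul γ)
  rw [e]
  exact ⟨Fermat.Agent.S24.helper77.mdifferentiable_jfun, _,
    helper63.hasExp_jfun_xC W⟩

/-- `j` as an element of `GA` -/
def jA : GA Γ W := ⟨Fermat.Agent.S24.jfun, jfun_mem_GA Γ W⟩

theorem EA_jA (γ : SL(2, ℤ)) : EA Γ W γ (jA Γ W) = xC W := by
  apply EA_eq
  have e : (fun τ => ((jA Γ W : GA Γ W) : ℍ → ℂ) (γ • τ)) = Fermat.Agent.S24.jfun :=
    funext (Fermat.Agent.S24.helper77.jfun_smul γ)
  rw [e]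
  exact helper63.hasExp_jfun_xC W

theorem tr_jA (g : SL(2, ℤ)) : tr Γ W g (jA Γ W) = jA Γ W := by
  apply Subtype.ext
  funext τ
  rw [tr_apply]
  exact Fermat.Agent.S24.helper77.jfun_smul g τ

theorem jA_mem_BS : jA Γ W ∈ BS Γ W S := by
  rw [mem_BS_iff]
  intro γ n
  rw [EA_jA]
  have h := helper63.xC_mem_coeffSubring W S
  rw [helper63.mem_coeffSubring_iff] at h
  exact h n

/-- `j` as an element of `BS` -/
def jB : BS Γ W S := ⟨jA Γ W, jA_mem_BS Γ W S⟩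

theorem trB_jB (g : SL(2, ℤ)) : trB Γ W S g (jB Γ W S) = jB Γ W S :=
  Subtype.ext (tr_jA Γ W g)

/-- the constants of `S` in `BS` -/
def constB : S →+* BS Γ W S where
  toFun c := ⟨algebraMap ℂ (GA Γ W) (c : ℂ), by
    rw [mem_BS_iff]
    intro γ n
    rw [AlgHom.commutes, LaurentSeries.algebraMap_apply]
    exact (helper63.mem_coeffSubring_iff S _).mp (helper63.C_mem_coeffSubring S c.2) n⟩
  map_one' := Subtype.ext (by simp)
  map_mul' x y := Subtype.ext (by simp)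
  map_zero' := Subtype.ext (by simp)
  map_add' x y := Subtype.ext (by simp)

theorem trB_constB (g : SL(2, ℤ)) (c : S) : trB Γ W S g (constB Γ W S c) = constB Γ W S c :=
  Subtype.ext (Subtype.ext rfl)

/-- polynomials in `j` with coefficients in `S` -/
def polyB : Polynomial S →+* BS Γ W S :=
  Polynomial.eval₂RingHom (constB Γ W S) (jB Γ W S)

theorem trB_polyB (g : SL(2, ℤ)) (P : Polynomial S) :
    trB Γ W S g (polyB Γ W S P) = polyB Γ W S P := by
  have h : (trB Γ W S g).comp (polyB Γ W S) = polyB Γ W S := by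
    apply Polynomial.ringHom_ext
    · intro c
      simp only [polyB, RingHom.comp_apply, Polynomial.coe_eval₂RingHom, Polynomial.eval₂_C]
      exact trB_constB Γ W S g c
    · simp only [polyB, RingHom.comp_apply, Polynomial.coe_eval₂RingHom, Polynomial.eval₂_X]
      exact trB_jB Γ W S g
  exact RingHom.congr_fun h P

theorem EA_polyB (γ : SL(2, ℤ)) (P : Polynomial S) :
    EA Γ W γ ((polyB Γ W S P : BS Γ W S) : GA Γ W) =
      (Polynomial.aeval (xC W) : Polynomial ℂ →ₐ[ℂ] LaurentSeries ℂ)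
        (P.map S.subtype) := by
  have h : ((EA Γ W γ : GA Γ W →ₐ[ℂ] LaurentSeries ℂ) : GA Γ W →+* LaurentSeries ℂ).comp
      ((BS Γ W S).subtype.comp (polyB Γ W S)) =
      ((Polynomial.aeval (xC W) : Polynomial ℂ →ₐ[ℂ] LaurentSeries ℂ) :
        Polynomial ℂ →+* LaurentSeries ℂ).comp (Polynomial.mapRingHom S.subtype) := by
    apply Polynomial.ringHom_ext
    · intro c
      simp only [polyB, RingHom.comp_apply, Polynomial.coe_eval₂RingHom, Polynomial.eval₂_C,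
        Polynomial.coe_mapRingHom, Polynomial.map_C, RingHom.coe_coe, Polynomial.aeval_C]
      exact (EA Γ W γ).commutes (c : ℂ)
    · simp only [polyB, RingHom.comp_apply, Polynomial.coe_eval₂RingHom, Polynomial.eval₂_X,
        Polynomial.coe_mapRingHom, Polynomial.map_X, RingHom.coe_coe, Polynomial.aeval_X]
      exact EA_jA Γ W γ
  exact RingHom.congr_fun h P

/-- **Invariants**: an `S`-integral function of level `Γ` which is invariant under all
translations is a polynomial in `j` with coefficients in `S`. -/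
theorem invariant_eq_poly (f : BS Γ W S) (h : ∀ g : SL(2, ℤ), trB Γ W S g f = f) :
    ∃ P : Polynomial S, polyB Γ W S P = f := by
  have hmd : MDifferentiable 𝓘(ℂ) 𝓘(ℂ) ((f : GA Γ W) : ℍ → ℂ) := by
    have h1 := ((f : GA Γ W).2.2 1).1
    have e : (fun τ : ℍ => ((f : GA Γ W) : ℍ → ℂ) ((1 : SL(2, ℤ)) • τ)) =
        ((f : GA Γ W) : ℍ → ℂ) := by
      funext τ
      rw [one_smul]
    rwa [e] at h1
  have hinv : ∀ (γ : SL(2, ℤ)) (τ : ℍ),
      ((f : GA Γ W) : ℍ → ℂ) (γ • τ) = ((f : GA Γ W) : ℍ → ℂ) τ := by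
    intro γ τ
    have h1 := congrArg (fun x : BS Γ W S => ((x : GA Γ W) : ℍ → ℂ) τ) (h γ)
    simpa using h1
  have hexp : HasExp W ((f : GA Γ W) : ℍ → ℂ) (EA Γ W 1 (f : GA Γ W)) := by
    have h1 := hasExp_EA Γ W 1 (f : GA Γ W)
    have e : (fun τ : ℍ => ((f : GA Γ W) : ℍ → ℂ) ((1 : SL(2, ℤ)) • τ)) =
        ((f : GA Γ W) : ℍ → ℂ) := by
      funext τ
      rw [one_smul]
    rwa [e] at h1
  obtain ⟨P, hP, hs⟩ := helper63.levelOne_poly W S _ hmd hinv _ hexp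
    ((mem_BS_iff Γ W S _).mp f.2 1)
  have hl : P ∈ Polynomial.lifts S.subtype := by
    rw [Polynomial.lifts_iff_coeff_lifts]
    intro n
    exact ⟨⟨P.coeff n, hP n⟩, rfl⟩
  obtain ⟨PS, hPS⟩ := hl
  refine ⟨PS, ?_⟩
  apply Subtype.ext
  apply EA_one_injective Γ W
  rw [EA_polyB, hs]
  congr 1

/-! ### Reduction -/

variable {k : Type} [Field k] (r : S →+* k)

/-- the reduced expansion of `f ∘ γ` -/
def EB (γ : SL(2, ℤ)) : BS Γ W S →+* LaurentSeries k :=
  (coeffMap r).comp (ES Γ W S γ)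

theorem EB_coeff (γ : SL(2, ℤ)) (f : BS Γ W S) (n : ℤ) :
    (EB Γ W S r γ f).coeff n = r ((ES Γ W S γ f).coeff n) := rfl

theorem EB_trB (g γ : SL(2, ℤ)) (f : BS Γ W S) :
    EB Γ W S r γ (trB Γ W S g f) = EB Γ W S r (g * γ) f := by
  simp only [EB, RingHom.comp_apply, ES_trB]

theorem EB_congr {γ γ' : SL(2, ℤ)} (h : γ' * γ⁻¹ ∈ Γ) (f : BS Γ W S) :
    EB Γ W S r γ' f = EB Γ W S r γ f := by
  have h1 : γ' = (γ' * γ⁻¹) * γ := by rw [inv_mul_cancel_right]
  rw [h1, ← EB_trB, trB_of_mem Γ W S h]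

theorem EB_polyB (γ : SL(2, ℤ)) (P : Polynomial S) :
    EB Γ W S r γ (polyB Γ W S P) = EB Γ W S r 1 (polyB Γ W S P) := by
  rw [← mul_one γ, ← EB_trB, trB_polyB]

/-- the kernel of the reduced expansion at the identity: the prime of `BS` "at infinity" -/
def qB : Ideal (BS Γ W S) := RingHom.ker (EB Γ W S r 1)

instance qB_isPrime : (qB Γ W S r).IsPrime := RingHom.ker_isPrime _

theorem mem_qB (f : BS Γ W S) : f ∈ qB Γ W S r ↔ EB Γ W S r 1 f = 0 := RingHom.mem_ker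

/-- the decomposition group of the prime at infinity -/
def decomp : Subgroup SL(2, ℤ) where
  carrier := {g | ∀ f : BS Γ W S, EB Γ W S r g f = 0 ↔ EB Γ W S r 1 f = 0}
  one_mem' := fun _ => Iff.rfl
  mul_mem' := by
    intro a b ha hb f
    have h1 : EB Γ W S r (a * b) f = EB Γ W S r b (trB Γ W S a f) := (EB_trB Γ W S r a b f).symm
    have h2 : EB Γ W S r 1 (trB Γ W S a f) = EB Γ W S r a f := by
      rw [EB_trB, mul_one]
    show EB Γ W S r (a * b) f = 0 ↔ EB Γ W S r 1 f = 0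
    rw [h1, hb (trB Γ W S a f), h2]
    exact ha f
  inv_mem' := by
    intro a ha f
    have h1 := ha (trB Γ W S a⁻¹ f)
    have h2 : EB Γ W S r a (trB Γ W S a⁻¹ f) = EB Γ W S r 1 f := by
      rw [EB_trB, inv_mul_cancel]
    have h3 : EB Γ W S r 1 (trB Γ W S a⁻¹ f) = EB Γ W S r a⁻¹ f := by
      rw [EB_trB, mul_one]
    rw [h2, h3] at h1
    exact h1.symm

theorem mem_decomp (g : SL(2, ℤ)) : g ∈ decomp Γ W S r ↔
    ∀ f : BS Γ W S, EB Γ W S r g f = 0 ↔ EB Γ W S r 1 f = 0 := Iff.rfl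

theorem le_decomp : Γ ≤ decomp Γ W S r := by
  intro γ hγ f
  rw [EB_congr Γ W S r (γ := 1) (γ' := γ) (by simpa using hγ)]

/-- **The `q`-expansion principle** for the decomposition group: an `S`-integral function whose
expansion at `∞` vanishes modulo `ker r` has vanishing expansion modulo `ker r` at `γ`, for
every `γ` in the decomposition group. -/
theorem EB_eq_zero_of_mem_decomp {g : SL(2, ℤ)} (hg : g ∈ decomp Γ W S r) {f : BS Γ W S}
    (hf : EB Γ W S r 1 f = 0) : EB Γ W S r g f = 0 :=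
  (hg f).2 hf


/-! ### The translation `T` is a rotation of the expansion -/

omit hΓ in
theorem qN_T_smul (τ : ℍ) : qN W (ModularGroup.T • τ) = zetaC W * qN W τ := by
  have hW : (W : ℂ) ≠ 0 := by exact_mod_cast NeZero.ne W
  rw [UpperHalfPlane.modular_T_smul]
  simp only [qN, Function.Periodic.qParam, zetaC, UpperHalfPlane.coe_vadd]
  rw [← Complex.exp_add]
  congr 1
  push_cast
  field_simp

/-- the rotated power series -/
def rotP (M : ℕ) (p : PowerSeries ℂ) : PowerSeries ℂ :=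
  PowerSeries.mk fun n => zetaC W ^ n * (zetaC W)⁻¹ ^ M * p.coeff n

omit hΓ in
theorem lau_rotP (M : ℕ) (p : PowerSeries ℂ) :
    lau M (rotP W M p) = Fermat.Agent.S24.rotL (zetaC W) (lau M p) := by
  ext n
  rw [Fermat.Agent.S24.rotL_coeff, lau_coeff, lau_coeff]
  split_ifs with h
  · obtain ⟨m, hm⟩ := Int.eq_ofNat_of_zero_le h
    rw [hm, Int.toNat_natCast, rotP, PowerSeries.coeff_mk]
    congr 1
    have hn : n = (m : ℤ) - M := by omega
    rw [hn, zpow_sub₀ (zetaC_ne_zero W), zpow_natCast, zpow_natCast, div_eq_mul_inv, inv_pow]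
  · rw [mul_zero]

omit hΓ in
theorem hasExp_T {F : ℍ → ℂ} {s : LaurentSeries ℂ} (h : HasExp W F s) :
    HasExp W (fun τ => F (ModularGroup.T • τ)) (Fermat.Agent.S24.rotL (zetaC W) s) := by
  obtain ⟨M, p, rfl, hp⟩ := h
  refine ⟨M, rotP W M p, (lau_rotP W M p).symm, fun τ => ?_⟩
  have h1 := (hp (ModularGroup.T • τ)).mul_left ((zetaC W)⁻¹ ^ M)
  have hζ : zetaC W ≠ 0 := zetaC_ne_zero W
  have e1 : (zetaC W)⁻¹ ^ M * (qN W (ModularGroup.T • τ) ^ M * F (ModularGroup.T • τ)) =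
      qN W τ ^ M * F (ModularGroup.T • τ) := by
    rw [qN_T_smul, mul_pow, ← mul_assoc, ← mul_assoc, ← mul_pow, inv_mul_cancel₀ hζ, one_pow,
      one_mul]
  have e2 : (fun n : ℕ => (zetaC W)⁻¹ ^ M *
      (p.coeff n * qN W (ModularGroup.T • τ) ^ n)) =
      fun n : ℕ => (rotP W M p).coeff n * qN W τ ^ n := by
    funext n
    rw [qN_T_smul, rotP, PowerSeries.coeff_mk, mul_pow]
    ring
  rw [e1, e2] at h1
  exact h1

theorem EA_mul_T (γ : SL(2, ℤ)) (f : GA Γ W) :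
    EA Γ W (γ * ModularGroup.T) f = Fermat.Agent.S24.rotL (zetaC W) (EA Γ W γ f) := by
  apply EA_eq
  have e : (fun τ : ℍ => (f : ℍ → ℂ) ((γ * ModularGroup.T) • τ)) =
      fun τ : ℍ => (fun τ' : ℍ => (f : ℍ → ℂ) (γ • τ')) (ModularGroup.T • τ) := by
    funext τ
    rw [mul_smul]
  rw [e]
  exact hasExp_T W (hasExp_EA Γ W γ f)

/-- `ζ_W` as a unit of `S` -/
def zetaU (hζ : zetaC W ∈ S) : Sˣ where
  val := ⟨zetaC W, hζ⟩
  inv := ⟨(zetaC W)⁻¹, helper63.zetaC_inv_mem W S hζ⟩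
  val_inv := Subtype.ext (mul_inv_cancel₀ (zetaC_ne_zero W))
  inv_val := Subtype.ext (inv_mul_cancel₀ (zetaC_ne_zero W))

omit hΓ in
theorem coe_zetaU_zpow (hζ : zetaC W ∈ S) (n : ℤ) :
    (((zetaU W S hζ ^ n : Sˣ) : S) : ℂ) = zetaC W ^ n := by
  have h1 : ((Units.map (S.subtype : S →* ℂ) (zetaU W S hζ ^ n) : ℂˣ) : ℂ) =
      (((zetaU W S hζ ^ n : Sˣ) : S) : ℂ) := rfl
  rw [← h1, map_zpow, Units.val_zpow_eq_zpow_val]
  rfl

omit hΓ in
theorem map_zetaU_zpow (hζ : zetaC W ∈ S) (n : ℤ) :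
    r ((zetaU W S hζ ^ n : Sˣ) : S) = r (⟨zetaC W, hζ⟩ : S) ^ n := by
  have h1 : ((Units.map (r : S →* k) (zetaU W S hζ ^ n) : kˣ) : k) =
      r ((zetaU W S hζ ^ n : Sˣ) : S) := rfl
  rw [← h1, map_zpow, Units.val_zpow_eq_zpow_val]
  rfl

theorem ES_mul_T_coeff (hζ : zetaC W ∈ S) (γ : SL(2, ℤ)) (f : BS Γ W S) (n : ℤ) :
    (ES Γ W S (γ * ModularGroup.T) f).coeff n =
      ((zetaU W S hζ ^ n : Sˣ) : S) * (ES Γ W S γ f).coeff n := by
  apply Subtype.ext
  rw [ES_coeff, Subring.coe_mul, ES_coeff, EA_mul_T, Fermat.Agent.S24.rotL_coeff,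
    coe_zetaU_zpow]

theorem EB_mul_T_coeff (hζ : zetaC W ∈ S) (γ : SL(2, ℤ)) (f : BS Γ W S) (n : ℤ) :
    (EB Γ W S r (γ * ModularGroup.T) f).coeff n =
      r (⟨zetaC W, hζ⟩ : S) ^ n * (EB Γ W S r γ f).coeff n := by
  rw [EB_coeff, EB_coeff, ES_mul_T_coeff Γ W S hζ, map_mul, map_zetaU_zpow]

omit hΓ in
theorem map_zeta_ne_zero (hζ : zetaC W ∈ S) : r (⟨zetaC W, hζ⟩ : S) ≠ 0 :=
  ((zetaU W S hζ).isUnit.map r).ne_zero

theorem EB_mul_T_eq_zero_iff (hζ : zetaC W ∈ S) (γ : SL(2, ℤ)) (f : BS Γ W S) :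
    EB Γ W S r (γ * ModularGroup.T) f = 0 ↔ EB Γ W S r γ f = 0 := by
  constructor
  · intro h
    ext n
    have h1 := EB_mul_T_coeff Γ W S r hζ γ f n
    rw [h, HahnSeries.coeff_zero] at h1
    rw [HahnSeries.coeff_zero]
    rcases mul_eq_zero.mp h1.symm with h2 | h2
    · exact absurd h2 (zpow_ne_zero n (map_zeta_ne_zero W S r hζ))
    · exact h2
  · intro h
    ext n
    rw [EB_mul_T_coeff Γ W S r hζ γ f n, h, HahnSeries.coeff_zero, mul_zero]

/-- **`T` lies in the decomposition group** of the prime at infinity. -/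
theorem T_mem_decomp (hζ : zetaC W ∈ S) : ModularGroup.T ∈ decomp Γ W S r := by
  intro f
  have h := EB_mul_T_eq_zero_iff Γ W S r hζ 1 f
  rwa [one_mul] at h

/-- the decomposition group is everything as soon as it meets every coset of a subgroup `B`
contained in it -/
theorem decomp_eq_top_of_cosets (B : Subgroup SL(2, ℤ)) (hB : B ≤ decomp Γ W S r)
    (h : ∀ g : SL(2, ℤ), ∃ d ∈ decomp Γ W S r, d⁻¹ * g ∈ B) : decomp Γ W S r = ⊤ := by
  rw [eq_top_iff]
  intro g _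
  obtain ⟨d, hd, hdg⟩ := h g
  have h1 : g = d * (d⁻¹ * g) := by rw [mul_inv_cancel_left]
  rw [h1]
  exact (decomp Γ W S r).mul_mem hd (hB hdg)

/-- **The `q`-expansion principle at all cusps**, when the decomposition group is everything. -/
theorem EB_eq_zero_of_decomp_eq_top (h : decomp Γ W S r = ⊤) (g : SL(2, ℤ)) {f : BS Γ W S}
    (hf : EB Γ W S r 1 f = 0) : EB Γ W S r g f = 0 :=
  EB_eq_zero_of_mem_decomp Γ W S r (h ▸ Subgroup.mem_top g) hf

end Fermat.Agent.T4.helper32.Conj1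

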