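import Mathlib
import Fermat.Agent.T4.helper32_Conj1Core
import Fermat.Agent.T4.helper24_FldDefs

/-!
# T4 block (I), [IGUSA1] route A: the concrete frame and the leaf Props (helper4)

Frame: `Γ = Γ(M)`, width `M`, `B = BS (Gamma M) M S` (helper32's ring of `S`-integral modular
functions of level `Γ(M)`), the finite group `GM M = SL₂(ℤ) / Γ(M)` acting on `B` on the LEFT by
`g • f = f ∘ g⁻¹` (`actG`), and `ρ = EB (Gamma M) M S r 1` (reduced expansion at the identity).

Leaf Props (inputs of the assembly `helper4_IgusaInst`):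

* `MemSStatement M S`  **[IG-MEM-S]** : the functions `s_a` (`helper24.sFn M a`, `a ≠ 0`) lie in
  `BS (Gamma M) M S`;
* `MemJStatement M S`  **[IG-MEM-J]** : the functions `j(d τ)`, `d ∣ M`, lie in `BS`;
* `PivotJMStatement M S r`  **[IG-JM]** : the pivot `j_M = j(M τ)`: it is fixed by `Γ₀(M)`, its
  reduced conjugates separate the cosets of `Γ₀(M)`, and it is a root of a polynomial over `S[j]`
  with monic irreducible reduction;
* `GroupStatement M`  **[IG-GRP-Z]** : a subgroup of `SL₂(ℤ)` containing `Γ(M)` and `T` and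
  meeting every coset `g Γ₀(M)` is everything.
-/

set_option autoImplicit false
set_option linter.unusedSectionVars false
set_option linter.style.haveILetI false

noncomputable section

namespace Fermat.Agent.T4.helper4.Ig

open UpperHalfPlane CongruenceSubgroup
open Fermat.Agent.T4.helper32.Conj1
open scoped MatrixGroups

variable (M : ℕ) [NeZero M] (S : Subring ℂ)

instance gammaNormal (N : ℕ) : (Gamma N).Normal := Gamma_normal N

/-- the finite group `SL₂(ℤ) / Γ(M)` -/
abbrev GM : Type := SL(2, ℤ) ⧸ Gamma M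

instance : Finite (GM M) := Subgroup.finite_quotient_of_finiteIndex

/-- the translation by `g⁻¹` as a ring automorphism of `B_S` -/
def trAut (g : SL(2, ℤ)) : RingAut (BS (Gamma M) M S) where
  toFun := trB (Gamma M) M S g⁻¹
  invFun := trB (Gamma M) M S g
  left_inv f := by rw [← trB_mul, inv_mul_cancel, trB_one]
  right_inv f := by rw [← trB_mul, mul_inv_cancel, trB_one]
  map_mul' := map_mul _
  map_add' := map_add _

theorem trAut_apply (g : SL(2, ℤ)) (f : BS (Gamma M) M S) :
    trAut M S g f = trB (Gamma M) M S g⁻¹ f := rfl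

/-- `g ↦ (f ↦ f ∘ g⁻¹)` as a group homomorphism -/
def trHom : SL(2, ℤ) →* RingAut (BS (Gamma M) M S) where
  toFun := trAut M S
  map_one' := by
    ext f
    rw [trAut_apply, inv_one, trB_one]
    rfl
  map_mul' g h := by
    ext f
    rw [trAut_apply, mul_inv_rev, trB_mul]
    rfl

theorem trHom_apply (g : SL(2, ℤ)) (f : BS (Gamma M) M S) :
    trHom M S g f = trB (Gamma M) M S g⁻¹ f := rfl

theorem Gamma_le_ker_trHom : Gamma M ≤ (trHom M S).ker := by
  intro g hg
  rw [MonoidHom.mem_ker]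
  ext f
  rw [trHom_apply, trB_of_mem (Gamma M) M S ((Gamma M).inv_mem hg)]
  rfl

/-- the action of `SL₂(ℤ) / Γ(M)` on `B_S` as a homomorphism -/
def actHom : GM M →* RingAut (BS (Gamma M) M S) :=
  QuotientGroup.lift (Gamma M) (trHom M S) (Gamma_le_ker_trHom M S)

/-- the LEFT action of `SL₂(ℤ) / Γ(M)` on `B_S`: `[g] • f = f ∘ g⁻¹` -/
@[reducible] def actG : MulSemiringAction (GM M) (BS (Gamma M) M S) :=
  MulSemiringAction.compHom (BS (Gamma M) M S) (actHom M S)

theorem actG_mk (g : SL(2, ℤ)) (f : BS (Gamma M) M S) :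
    letI := actG M S
    ((g : GM M) • f) = trB (Gamma M) M S g⁻¹ f := rfl

variable {k : Type} [Field k] (r : S →+* k)

/-- the reduction `ρ` : reduced expansion at the identity -/
abbrev rhoB : BS (Gamma M) M S →+* LaurentSeries k := EB (Gamma M) M S r 1

theorem rhoB_actG_mk (g : SL(2, ℤ)) (f : BS (Gamma M) M S) :
    letI := actG M S
    rhoB M S r ((g : GM M) • f) = EB (Gamma M) M S r g⁻¹ f := by
  letI := actG M S
  show EB (Gamma M) M S r 1 (trB (Gamma M) M S g⁻¹ f) = _
  rw [EB_trB, mul_one]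

/-! ### The leaf Props -/

/-- **[IG-MEM-S]** the functions `s_a` are `S`-integral modular functions of level `Γ(M)`:
all their `SL₂(ℤ)`-translates are holomorphic with a meromorphic `q_M`-expansion with
coefficients in `S`. -/
def MemSStatement : Prop :=
  ∀ a : ZMod M, a ≠ 0 → ∃ f : BS (Gamma M) M S,
    (((f : GA (Gamma M) M) : ℍ → ℂ)) = Fermat.Agent.T4.helper24.sFn M a

/-- **[IG-MEM-J]** the functions `j(d τ)`, `d ∣ M`, are `S`-integral modular functions of level
`Γ(M)`. -/
def MemJStatement : Prop :=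
  ∀ d : ℕ, d ∣ M → ∃ f : BS (Gamma M) M S,
    (((f : GA (Gamma M) M) : ℍ → ℂ)) = Fermat.Agent.S24.jfunDT d

/-- **[IG-JM]** the pivot `j_M`. -/
def PivotJMStatement : Prop :=
  ∃ x : BS (Gamma M) M S,
    (((x : GA (Gamma M) M) : ℍ → ℂ)) = Fermat.Agent.S24.jfunDT M ∧
    (∀ γ ∈ Gamma0 M, trB (Gamma M) M S γ x = x) ∧
    (∀ γ : SL(2, ℤ), EB (Gamma M) M S r γ x = EB (Gamma M) M S r 1 x → γ ∈ Gamma0 M) ∧
    ∃ F : Polynomial (Polynomial S),
      F.eval₂ (polyB (Gamma M) M S) x = 0 ∧
      (F.map (Polynomial.mapRingHom r)).Monic ∧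
      Irreducible (F.map (Polynomial.mapRingHom r))

/-- **[IG-GRP-Z]** the group lemma in `SL₂(ℤ)`: a subgroup containing `Γ(M)` and `T` which meets
every coset `g Γ₀(M)` is everything. -/
def GroupStatement : Prop :=
  ∀ D : Subgroup SL(2, ℤ), Gamma M ≤ D → ModularGroup.T ∈ D →
    (∀ g : SL(2, ℤ), ∃ d ∈ D, d⁻¹ * g ∈ Gamma0 M) → D = ⊤

end Fermat.Agent.T4.helper4.Ig

end
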