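/-
T4 block (I), IGUSA1 [IG-INTERP] (helper65, row 1171): LAGRANGE INTERPOLATION for a finite group
action - input of IG-ASM (helper4_IgusaAbs).

`G` finite acting on `B` by ring automorphisms, `A → B` with image the invariants.

* `exists_lift_prodXSubSMul` : `prodXSubSMul G B θ = ∏_{c ∈ G / Stab θ} (X - c • θ)` is the image
  of a monic `P ∈ A[X]` of degree `[G : Stab θ]`.
* `exists_interp` : if `Stab θ ≤ Stab x`, there is `L ∈ A[X]` with
  `L(θ) = x * Φ'(θ)`, `Φ = prodXSubSMul G B θ`.
* `eval_derivative_prodXSubSMul` : `Φ'(θ) = ∏_{c ≠ 1} (θ - c • θ)`.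
-/
import Mathlib

set_option autoImplicit false
set_option linter.style.haveILetI false
set_option linter.unusedSectionVars false
set_option linter.unusedVariables false

noncomputable section

open Polynomial MulAction

namespace Fermat.Agent.T4.helper65

section Interp

variable {A B : Type*} [CommRing A] [CommRing B] [Algebra A B]
  (G : Type*) [Group G] [Fintype G] [MulSemiringAction G B] [SMulCommClass G A B]
  [Algebra.IsInvariant A B G]

omit [Fintype G] [SMulCommClass G A B] in
/-- a polynomial over `B` fixed by `G` comes from `A` -/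
theorem interp_mem_lifts_of_smul_eq (F : B[X]) (h : ∀ g : G, g • F = F) :
    F ∈ Polynomial.lifts (algebraMap A B) := by
  rw [Polynomial.lifts_iff_coeff_lifts]
  intro n
  obtain ⟨a, ha⟩ := Algebra.IsInvariant.isInvariant (A := A) (G := G) (F.coeff n) (fun g => by
    rw [← Polynomial.coeff_smul, h])
  exact ⟨a, ha⟩

omit [Algebra A B] [SMulCommClass G A B] [Algebra.IsInvariant A B G] in
/-- `prodXSubSMul` as a product over the cosets, for any `Fintype` instance -/
theorem prodXSubSMul_eq_prod (θ : B) [Fintype (G ⧸ stabilizer G θ)] :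
    prodXSubSMul G B θ = ∏ c : G ⧸ stabilizer G θ, (X - C (ofQuotientStabilizer G θ c)) := by
  unfold prodXSubSMul
  congr!

omit [Algebra A B] [SMulCommClass G A B] [Algebra.IsInvariant A B G] in
theorem natDegree_prodXSubSMul [Nontrivial B] (θ : B) :
    (prodXSubSMul G B θ).natDegree = Nat.card (G ⧸ stabilizer G θ) := by
  classical
  rw [prodXSubSMul_eq_prod, Polynomial.natDegree_finsetProd_X_sub_C_eq_card, Finset.card_univ,
    Nat.card_eq_fintype_card]

/-- **(2a)** `prodXSubSMul G B θ` lifts to a monic polynomial over `A` of the same degree. -/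
theorem exists_lift_prodXSubSMul' (θ : B) :
    ∃ P : A[X], P.Monic ∧ P.map (algebraMap A B) = prodXSubSMul G B θ ∧
      P.natDegree = (prodXSubSMul G B θ).natDegree := by
  obtain ⟨P, hP, hdeg, hmon⟩ := Polynomial.lifts_and_natDegree_eq_and_monic
    (interp_mem_lifts_of_smul_eq (A := A) G _ (prodXSubSMul.smul G B θ))
    (prodXSubSMul.monic G B θ)
  exact ⟨P, hmon, hP, hdeg⟩

/-- **(2)** `prodXSubSMul G B θ` lifts to a monic polynomial over `A` of degree
`[G : Stab θ]`. -/
theorem exists_lift_prodXSubSMul [Nontrivial B] (θ : B) :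
    ∃ P : A[X], P.Monic ∧ P.map (algebraMap A B) = prodXSubSMul G B θ ∧
      P.natDegree = Nat.card (G ⧸ stabilizer G θ) := by
  obtain ⟨P, hmon, hP, hdeg⟩ := exists_lift_prodXSubSMul' (A := A) G θ
  exact ⟨P, hmon, hP, hdeg.trans (natDegree_prodXSubSMul G θ)⟩

omit [Algebra A B] [SMulCommClass G A B] [Algebra.IsInvariant A B G] in
/-- **`Φ'(θ) = ∏_{c ≠ 1} (θ - c • θ)`** -/
theorem eval_derivative_prodXSubSMul (θ : B) [Fintype (G ⧸ stabilizer G θ)]
    [DecidableEq (G ⧸ stabilizer G θ)] :
    (derivative (prodXSubSMul G B θ)).eval θ =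
      ∏ c ∈ Finset.univ.erase (QuotientGroup.mk 1 : G ⧸ stabilizer G θ),
        (θ - ofQuotientStabilizer G θ c) := by
  rw [prodXSubSMul_eq_prod, derivative_prod_finset, eval_finsetSum,
    Finset.sum_eq_single (QuotientGroup.mk 1 : G ⧸ stabilizer G θ)]
  · simp [eval_prod]
  · intro c _ hc
    rw [eval_mul, eval_prod, Finset.prod_eq_zero (i := (QuotientGroup.mk 1 : G ⧸ stabilizer G θ))
      (Finset.mem_erase.mpr ⟨hc.symm, Finset.mem_univ _⟩) (by simp), zero_mul]
  · intro h
    exact absurd (Finset.mem_univ _) h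

variable {G}

/-- the map `c ↦ c • x` on `G ⧸ Stab θ`, for `Stab θ ≤ Stab x` -/
def interpVal {θ x : B} (hx : stabilizer G θ ≤ stabilizer G x) (c : G ⧸ stabilizer G θ) : B :=
  ofQuotientStabilizer G x (Subgroup.quotientMapOfLE hx c)

omit [Fintype G] in
theorem interpVal_mk {θ x : B} (hx : stabilizer G θ ≤ stabilizer G x) (g : G) :
    interpVal hx (QuotientGroup.mk g) = g • x := rfl

omit [Fintype G] in
theorem interpVal_smul {θ x : B} (hx : stabilizer G θ ≤ stabilizer G x) (g : G)
    (c : G ⧸ stabilizer G θ) : interpVal hx (g • c) = g • interpVal hx c := by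
  induction c using Quotient.inductionOn' with
  | h a => exact mul_smul _ _ _

variable (G)

/-- **(1) Lagrange interpolation.**  If `Stab θ ≤ Stab x`, there is `L ∈ A[X]` with
`L(θ) = x * Φ'(θ)`, `Φ = prodXSubSMul G B θ`. -/
theorem exists_interp (θ x : B) (hx : stabilizer G θ ≤ stabilizer G x) :
    ∃ L : A[X], aeval θ L = x * (derivative (prodXSubSMul G B θ)).eval θ := by
  classical
  set LB : B[X] := ∑ c : G ⧸ stabilizer G θ, C (interpVal hx c) *
    ∏ c' ∈ Finset.univ.erase c, (X - C (ofQuotientStabilizer G θ c')) with hLB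
  have hinv : ∀ g : G, g • LB = LB := by
    intro g
    simp only [hLB, Finset.smul_sum, smul_mul', Polynomial.smul_C, Finset.smul_prod', smul_sub,
      Polynomial.smul_X]
    refine Fintype.sum_equiv (MulAction.toPerm g) _ _ (fun c => ?_)
    rw [MulAction.toPerm_apply, interpVal_smul]
    congr 1
    refine Finset.prod_equiv (MulAction.toPerm g) (fun c' => by simp [Finset.mem_erase])
      (fun c' _ => by rw [MulAction.toPerm_apply, ofQuotientStabilizer_smul])
  obtain ⟨L, hL⟩ := (Polynomial.mem_lifts _).mp (interp_mem_lifts_of_smul_eq (A := A) G LB hinv)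
  refine ⟨L, ?_⟩
  have h1 : aeval θ L = LB.eval θ := by
    rw [← hL, Polynomial.eval_map_algebraMap]
  rw [h1, eval_derivative_prodXSubSMul, hLB, eval_finsetSum,
    Finset.sum_eq_single (QuotientGroup.mk 1 : G ⧸ stabilizer G θ)]
  · rw [eval_mul, eval_C, interpVal_mk, one_smul, eval_prod]
    simp
  · intro c _ hc
    rw [eval_mul, eval_prod, Finset.prod_eq_zero (i := (QuotientGroup.mk 1 : G ⧸ stabilizer G θ))
      (Finset.mem_erase.mpr ⟨hc.symm, Finset.mem_univ _⟩) (by simp), mul_zero]
  · intro h
    exact absurd (Finset.mem_univ _) h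

end Interp

end Fermat.Agent.T4.helper65
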