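import Mathlib
import Fermat.Agent.T4.helper4_IgusaAbs
import Fermat.Agent.T4.helper4_IgusaDefs
import Fermat.Agent.T4.helper65_Interp

/-!
# T4 block (I), [IGUSA1] route A: the PRIM package in helper32's ring `B_S` (helper4)

From kernel stability (`decomp = ⊤`), a finite family of generators `x_i ∈ B_S` fixed by a
subgroup `H ≤ SL₂(ℤ)` (`H ⊇ Γ(M)`) and separated modulo `ker r` by every `γ ∉ H`, we get
`c ∈ S` and a monic `Φ ∈ S[X][Y]` such that `θ = ∑ c^i x_i` satisfies `Φ(j, θ) = 0`,
`deg Φ = [SL₂(ℤ) : H]`, `Φ mod ker r` is irreducible in `k[X][Y]` and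
`∂Φ/∂Y (j, θ) ≢ 0 mod ker r`.
-/

set_option autoImplicit false
set_option linter.unusedSectionVars false
set_option linter.style.haveILetI false

noncomputable section

namespace Fermat.Agent.T4.helper4.Ig

open UpperHalfPlane CongruenceSubgroup Polynomial
open Fermat.Agent.T4.helper32.Conj1
open scoped MatrixGroups

variable (M : ℕ) [NeZero M] (S : Subring ℂ) {k : Type} [Field k] (r : S →+* k)

/-- the `S[X]`-algebra structure of `B_S` (`X ↦ j`) -/
@[reducible] def algB : Algebra (Polynomial S) (BS (Gamma M) M S) :=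
  (polyB (Gamma M) M S).toAlgebra

theorem smulComm_actG :
    letI := actG M S
    letI := algB M S
    SMulCommClass (GM M) (Polynomial S) (BS (Gamma M) M S) := by
  letI := actG M S
  letI := algB M S
  refine ⟨fun g P f => ?_⟩
  induction g using QuotientGroup.induction_on with
  | H γ =>
    show (γ : GM M) • (polyB (Gamma M) M S P * f) = polyB (Gamma M) M S P * ((γ : GM M) • f)
    rw [actG_mk, actG_mk, map_mul, trB_polyB]

theorem isInvariant_actG :
    letI := actG M S
    letI := algB M S
    Algebra.IsInvariant (Polynomial S) (BS (Gamma M) M S) (GM M) := by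
  letI := actG M S
  letI := algB M S
  refine ⟨fun f hf => ?_⟩
  obtain ⟨P, hP⟩ := invariant_eq_poly (Gamma M) M S f (fun g => by
    have := hf ((g⁻¹ : SL(2, ℤ)) : GM M)
    rw [actG_mk, inv_inv] at this
    exact this)
  exact ⟨P, hP⟩

/-- kernel stability in terms of the action of `GM M` -/
theorem hst_of_decomp (hdec : decomp (Gamma M) M S r = ⊤) :
    letI := actG M S
    ∀ (g : GM M) (f : BS (Gamma M) M S), rhoB M S r f = 0 → rhoB M S r (g • f) = 0 := by
  letI := actG M S
  intro g f hf
  induction g using QuotientGroup.induction_on with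
  | H γ =>
    rw [rhoB_actG_mk]
    exact EB_eq_zero_of_decomp_eq_top (Gamma M) M S r hdec γ⁻¹ hf

/-! ### Constants, the map `ι : k[X] → k((t))` -/

theorem ES_constB (γ : SL(2, ℤ)) (c : S) :
    ES (Gamma M) M S γ (constB (Gamma M) M S c) = HahnSeries.C c := by
  apply Fermat.Agent.S28.helper93.coeffMap_injective' S.subtype Subtype.val_injective
  rw [coeffMap_ES]
  have h1 : ((constB (Gamma M) M S c : BS (Gamma M) M S) : GA (Gamma M) M) =
      algebraMap ℂ (GA (Gamma M) M) (c : ℂ) := rfl
  rw [h1, AlgHom.commutes, LaurentSeries.algebraMap_apply]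
  ext n
  rw [ModularCurve.coeffMap_coeff, HahnSeries.C_apply, HahnSeries.C_apply]
  by_cases hn : n = 0
  · subst hn
    simp
  · rw [HahnSeries.coeff_single_of_ne hn, HahnSeries.coeff_single_of_ne hn]
    simp

theorem EB_constB (γ : SL(2, ℤ)) (c : S) :
    EB (Gamma M) M S r γ (constB (Gamma M) M S c) = HahnSeries.C (r c) := by
  show ModularCurve.coeffMap r (ES (Gamma M) M S γ (constB (Gamma M) M S c)) = _
  rw [ES_constB]
  ext n
  rw [ModularCurve.coeffMap_coeff, HahnSeries.C_apply, HahnSeries.C_apply]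
  by_cases hn : n = 0
  · subst hn
    simp
  · rw [HahnSeries.coeff_single_of_ne hn, HahnSeries.coeff_single_of_ne hn]
    simp

/-- `ι : k[X] → k((t))`, `X ↦ j̃(t^M)` (the reduced expansion of `j`) -/
def iotaB : Polynomial k →+* LaurentSeries k :=
  Polynomial.eval₂RingHom HahnSeries.C (EB (Gamma M) M S r 1 (jB (Gamma M) M S))

theorem iotaB_comp :
    (iotaB M S r).comp (Polynomial.mapRingHom r) =
      (rhoB M S r).comp (polyB (Gamma M) M S) := by
  apply Polynomial.ringHom_ext
  · intro c
    simp only [RingHom.comp_apply, iotaB, polyB, coe_mapRingHom, map_C, coe_eval₂RingHom,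
      eval₂_C]
    rw [EB_constB]
  · simp only [RingHom.comp_apply, iotaB, polyB, coe_mapRingHom, map_X, coe_eval₂RingHom,
      eval₂_X]

theorem iotaB_map (P : Polynomial S) :
    iotaB M S r (P.map r) = rhoB M S r (polyB (Gamma M) M S P) :=
  RingHom.congr_fun (iotaB_comp M S r) P

/-- the combination `θ = ∑ c^i x_i` -/
def thetaB {m : ℕ} (x : Fin m → BS (Gamma M) M S) (c : S) : BS (Gamma M) M S :=
  ∑ i : Fin m, constB (Gamma M) M S c ^ (i : ℕ) * x i

theorem genComb_eq_thetaB {m : ℕ} (x : Fin m → BS (Gamma M) M S) (c : S) :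
    letI := algB M S
    genComb x (Polynomial.C c : Polynomial S) = thetaB M S x c := by
  letI := algB M S
  rw [genComb, thetaB]
  refine Finset.sum_congr rfl (fun i _ => ?_)
  have : algebraMap (Polynomial S) (BS (Gamma M) M S) (Polynomial.C c) =
      constB (Gamma M) M S c := by
    show polyB (Gamma M) M S (Polynomial.C c) = _
    simp [polyB]
  rw [this]

/-- **[IGUSA1] route A, the PRIM package in `B_S`.** -/
theorem exists_primB [Infinite k] (hr : Function.Surjective r)
    (hj : Function.Injective (iotaB M S r))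
    (hdec : decomp (Gamma M) M S r = ⊤) (H : Subgroup SL(2, ℤ)) (hΓH : Gamma M ≤ H)
    {m : ℕ} (x : Fin m → BS (Gamma M) M S)
    (hfix : ∀ γ ∈ H, ∀ i, trB (Gamma M) M S γ (x i) = x i)
    (hsep : ∀ γ : SL(2, ℤ),
      (∀ i, EB (Gamma M) M S r γ (x i) = EB (Gamma M) M S r 1 (x i)) → γ ∈ H) :
    ∃ (c : S) (Φ : Polynomial (Polynomial S)),
      Φ.Monic ∧ Φ.eval₂ (polyB (Gamma M) M S) (thetaB M S x c) = 0 ∧
      Φ.natDegree = H.index ∧
      Irreducible (Φ.map (Polynomial.mapRingHom r)) ∧
      EB (Gamma M) M S r 1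
        ((derivative Φ).eval₂ (polyB (Gamma M) M S) (thetaB M S x c)) ≠ 0 ∧
      (∀ γ : SL(2, ℤ), EB (Gamma M) M S r γ (thetaB M S x c) =
        EB (Gamma M) M S r 1 (thetaB M S x c) → γ ∈ H) ∧
      (∀ γ ∈ H, trB (Gamma M) M S γ (thetaB M S x c) = thetaB M S x c) ∧
      (∀ y : BS (Gamma M) M S, (∀ γ ∈ H, trB (Gamma M) M S γ y = y) →
        ∃ L : Polynomial (Polynomial S), L.eval₂ (polyB (Gamma M) M S) (thetaB M S x c) =
          y * (derivative Φ).eval₂ (polyB (Gamma M) M S) (thetaB M S x c)) := by
  classical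
  letI := actG M S
  letI := algB M S
  haveI := smulComm_actG M S
  haveI := isInvariant_actG M S
  letI : Fintype (GM M) := Fintype.ofFinite _
  have hst := hst_of_decomp M S r hdec
  -- the subgroup
  set HG : Subgroup (GM M) := H.map (QuotientGroup.mk' (Gamma M)) with hHG
  have hmemHG : ∀ γ : SL(2, ℤ), (γ : GM M) ∈ HG ↔ γ ∈ H := by
    intro γ
    rw [hHG, Subgroup.mem_map]
    constructor
    · rintro ⟨δ, hδ, hδγ⟩
      have h1 : δ⁻¹ * γ ∈ Gamma M := QuotientGroup.eq.mp hδγ
      have h2 : γ = δ * (δ⁻¹ * γ) := by rw [mul_inv_cancel_left]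
      rw [h2]
      exact H.mul_mem hδ (hΓH h1)
    · intro hγ
      exact ⟨γ, hγ, rfl⟩
  have hH : ∀ h ∈ HG, ∀ i, h • x i = x i := by
    intro h hh i
    induction h using QuotientGroup.induction_on with
    | H γ =>
      rw [actG_mk]
      exact hfix _ (H.inv_mem ((hmemHG γ).mp hh)) i
  have hsepH : ∀ g : GM M, (∀ i, rhoB M S r (g • x i) = rhoB M S r (x i)) → g ∈ HG := by
    intro g hg
    induction g using QuotientGroup.induction_on with
    | H γ =>
      rw [hmemHG]
      have := hsep γ⁻¹ (fun i => by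
        have h1 := hg i
        rw [rhoB_actG_mk] at h1
        exact h1)
      simpa using H.inv_mem this
  -- the constants
  set Λ : Set (Polynomial S) :=
    Set.range (fun y : k => (Polynomial.C (Function.surjInv hr y) : Polynomial S)) with hΛdef
  have hΛ : Λ.Infinite := by
    apply Set.infinite_range_of_injective
    intro y y' h
    have h1 := Polynomial.C_injective h
    have h2 := congrArg r h1
    rwa [Function.surjInv_eq hr, Function.surjInv_eq hr] at h2
  have hρC : ∀ c : S, rhoB M S r (algebraMap (Polynomial S) (BS (Gamma M) M S)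
      (Polynomial.C c)) = HahnSeries.C (r c) := by
    intro c
    have : algebraMap (Polynomial S) (BS (Gamma M) M S) (Polynomial.C c) =
        constB (Gamma M) M S c := by
      show polyB (Gamma M) M S (Polynomial.C c) = _
      simp [polyB]
    rw [this]
    exact EB_constB M S r 1 c
  have hΛinj : Set.InjOn (fun l => rhoB M S r
      (algebraMap (Polynomial S) (BS (Gamma M) M S) l)) Λ := by
    rintro _ ⟨y, rfl⟩ _ ⟨y', rfl⟩ h
    simp only [hρC, Function.surjInv_eq hr] at h
    have : y = y' := HahnSeries.C_injective h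
    rw [this]
  obtain ⟨l, ⟨y, rfl⟩, Φ, hΦ, hΦB, hroot, hdeg, hstab, hsepθ, hirr, hder⟩ :=
    exists_prim_of_ker_stable (GM M) (rhoB M S r) hst x HG hH hsepH Λ hΛ hΛinj
  set c : S := Function.surjInv hr y with hc
  rw [genComb_eq_thetaB] at hroot hstab hsepθ hder hΦB
  refine ⟨c, Φ, hΦ, ?_, ?_, ?_, ?_, ?_, ?_, ?_⟩
  · rw [← hroot, aeval_def]
    rfl
  · rw [hdeg, hHG]
    apply Subgroup.index_map_eq
    · exact QuotientGroup.mk'_surjective _
    · rw [QuotientGroup.ker_mk']
      exact hΓH
  · -- transfer of irreducibility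
    set P : Ideal (Polynomial S) := (RingHom.ker (rhoB M S r)).under (Polynomial S) with hP
    have hmemP : ∀ a : Polynomial S, a ∈ P ↔ a.map r = 0 := by
      intro a
      rw [hP, Ideal.under_def, Ideal.mem_comap, RingHom.mem_ker]
      show rhoB M S r (polyB (Gamma M) M S a) = 0 ↔ _
      rw [← iotaB_map]
      constructor
      · intro h
        exact hj (by rw [h, map_zero])
      · intro h
        rw [h, map_zero]
    let j0 : (Polynomial S ⧸ P) →+* Polynomial k :=
      Ideal.Quotient.lift P (Polynomial.mapRingHom r) (fun a ha => (hmemP a).mp ha)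
    have hj0 : Function.Bijective j0 := by
      constructor
      · rw [injective_iff_map_eq_zero]
        intro z hz
        obtain ⟨a, rfl⟩ := Ideal.Quotient.mk_surjective z
        rw [Ideal.Quotient.eq_zero_iff_mem, hmemP]
        exact hz
      · intro q
        obtain ⟨a, ha⟩ := Polynomial.map_surjective r hr q
        exact ⟨Ideal.Quotient.mk P a, ha⟩
    let e : (Polynomial S ⧸ P) ≃+* Polynomial k := RingEquiv.ofBijective j0 hj0
    have hmap : Φ.map (Polynomial.mapRingHom r) =
        Polynomial.mapEquiv e (Φ.map (Ideal.Quotient.mk P)) := by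
      rw [Polynomial.mapEquiv_apply, Polynomial.map_map]
      rfl
    rw [hmap]
    exact (MulEquiv.irreducible_iff (Polynomial.mapEquiv e).toMulEquiv).mpr hirr
  · have h1 : aeval (thetaB M S x c) (derivative Φ) =
        (derivative Φ).eval₂ (polyB (Gamma M) M S) (thetaB M S x c) := by
      rw [aeval_def]
      rfl
    rw [← h1]
    exact hder
  · intro γ hγ
    have h1 : rhoB M S r (((γ⁻¹ : SL(2, ℤ)) : GM M) • thetaB M S x c) =
        rhoB M S r (thetaB M S x c) := by
      rw [rhoB_actG_mk, inv_inv]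
      exact hγ
    have h2 := hsepθ _ h1
    rw [hmemHG] at h2
    simpa using H.inv_mem h2
  · intro γ hγ
    have h1 : ((γ⁻¹ : SL(2, ℤ)) : GM M) ∈ MulAction.stabilizer (GM M) (thetaB M S x c) := by
      rw [hstab, hmemHG]
      exact H.inv_mem hγ
    rw [MulAction.mem_stabilizer_iff, actG_mk, inv_inv] at h1
    exact h1
  · intro y hy
    have hle : MulAction.stabilizer (GM M) (thetaB M S x c) ≤ MulAction.stabilizer (GM M) y := by
      rw [hstab]
      intro g hg
      induction g using QuotientGroup.induction_on with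
      | H γ =>
        rw [MulAction.mem_stabilizer_iff, actG_mk]
        exact hy _ (H.inv_mem ((hmemHG γ).mp hg))
    obtain ⟨L, hL⟩ := Fermat.Agent.T4.helper65.exists_interp (A := Polynomial S) (GM M)
      (thetaB M S x c) y hle
    refine ⟨L, ?_⟩
    have h1 : aeval (thetaB M S x c) L = L.eval₂ (polyB (Gamma M) M S) (thetaB M S x c) := by
      rw [aeval_def]
      rfl
    have h2 : (derivative (prodXSubSMul (GM M) (BS (Gamma M) M S) (thetaB M S x c))).eval
        (thetaB M S x c) =
          (derivative Φ).eval₂ (polyB (Gamma M) M S) (thetaB M S x c) := by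
      rw [← hΦB, derivative_map, eval_map]
      rfl
    rw [← h1, hL, h2]

end Fermat.Agent.T4.helper4.Ig

end
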