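import Mathlib
import Fermat.Agent.T4.helper24_FldDefs

/-!
# T4 block (I), sub-block I-FLD, box [X1-FIELD] (helper56)

`F1Q M` (helper32) is the field of the generator system `x1Data M` (helper24):
both are `ℚ(S)` for the same set `S` of generators `j(q^d)`, `d ∣ M`, and `s_a`, `a ≠ 0`.
-/

set_option autoImplicit false

noncomputable section

open ModularCurve IntermediateField AlgebraicCurve

namespace Fermat.Agent.T4.helper56

open Fermat.Agent.T4.helper24 Fermat.Agent.T4.helper32

/-- the set of generators of `x1Data M` is the set of generators of `F1Q M` -/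
theorem range_x1Data_serQ (M : ℕ) [NeZero M] :
    Set.range (x1Data M).serQ = divisorExpansions M ∪ sGens ℚ M := by
  ext x
  constructor
  · rintro ⟨i, rfl⟩
    rcases i with ⟨d, hd⟩ | ⟨a, ha⟩
    · left
      have hd0 : d ≠ 0 := fun h => by
        rw [h] at hd
        exact (Nat.mem_divisors.mp hd).1 |> fun h0 => NeZero.ne M (Nat.eq_zero_of_zero_dvd h0)
      refine ⟨d, ⟨hd0⟩, (Nat.mem_divisors.mp hd).1, ?_⟩
      show JdTQ d = _
      rw [JdTQ, dif_neg hd0]
    · right
      exact ⟨a, ha, rfl⟩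
  · rintro (⟨d, hd, hdM, rfl⟩ | ⟨a, ha, rfl⟩)
    · refine ⟨Sum.inl ⟨d, Nat.mem_divisors.mpr ⟨hdM, NeZero.ne M⟩⟩, ?_⟩
      show JdTQ d = _
      rw [JdTQ, dif_neg (NeZero.ne d)]
    · exact ⟨Sum.inr ⟨a, ha⟩, rfl⟩

/-- **[X1-FIELD]** `F1Q M` is the field of the generator system `x1Data M`. -/
theorem x1Field (M : ℕ) [NeZero M] : X1FieldStatement M := by
  show F1Q M = (x1Data M).fieldQ
  rw [F1Q, GenData.fieldQ, range_x1Data_serQ]

/-- the base change of `F1Q M` is the field of `x1Data M` over any `ℚ`-algebra field -/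
theorem x1Field_baseChange (M : ℕ) [NeZero M] (K : Type*) [Field K] [Algebra ℚ K] :
    laurentBaseChange K (F1Q M) = (x1Data M).field K := by
  rw [GenData.field, ← (x1Field M : F1Q M = (x1Data M).fieldQ)]

/-- `F1Cx M` is the field of `x1Data M` over `ℂ` -/
theorem f1Cx_eq (M : ℕ) [NeZero M] : F1Cx M = (x1Data M).field ℂ :=
  x1Field_baseChange M ℂ

/-- `F1 M` is the field of `x1Data M` over `ℚ̄` -/
theorem f1_eq (M : ℕ) [NeZero M] : F1 M = (x1Data M).field Kbar :=
  x1Field_baseChange M Kbar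

end Fermat.Agent.T4.helper56

end
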