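import Mathlib
import Fermat.Agent.S24.helper77_Degree

/-! # T4 (I) / I-FLD [DEG1-UB], generic core (helper77)

The degree bound `[F : ℚ̄(j)] ≤ [SL(2,ℤ) : Γ]` for a field `F = ℚ̄(s_i) ⊂ ℚ̄((q))` generated by
`q`-expansions of `Γ`-invariant holomorphic functions on the upper half plane, all of whose
`SL(2,ℤ)`-translates have at most exponential growth at `i∞`.  This is the `Γ₀(N)`-argument of
`Fermat.Agent.S24.helper77` (`SymmFun`, `Degree`) for an arbitrary subgroup `Γ` of finite index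
and an arbitrary finite family of generators; it is applied to `Γ = ±Γ₁(M)` and the generators
`j`, `j(q^M)`, `r_{a,b,c}` of `F₁(M)`.

* `exists_relationG`: the analytic relation of degree `Γ.index`.
* `formal_relationG`: the formal relation over `ℚ̄[j]`.
* `finrank_le_index_of_isQExp`: the degree bound.
-/

set_option autoImplicit false

noncomputable section

open ModularCurve UpperHalfPlane MatrixGroups

namespace Fermat.Agent.T4.helper77

open Fermat.Agent.S24 Fermat.Agent.S24.helper17 Fermat.Agent.S24.helper77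

section Product

open Polynomial

variable (Γ : Subgroup SL(2, ℤ))

/-- The conjugates of a function `θ`, indexed by the cosets `g Γ`. -/
def conjFamG (θ : ℍ → ℂ) (x : SL(2, ℤ) ⧸ Γ) : ℍ → ℂ := precomp (Quotient.out x) θ

variable {Γ}

theorem conjFamG_mk {θ : ℍ → ℂ} (hθ : ∀ γ ∈ Γ, precomp γ θ = θ) (g : SL(2, ℤ)) :
    conjFamG Γ θ (QuotientGroup.mk g : SL(2, ℤ) ⧸ Γ) = precomp g θ := by
  obtain ⟨γ, hγ⟩ := QuotientGroup.mk_out_eq_mul Γ g
  rw [conjFamG, hγ, precomp_mul, hθ γ γ.2]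

theorem precomp_conjFamG {θ : ℍ → ℂ} (hθ : ∀ γ ∈ Γ, precomp γ θ = θ) (h : SL(2, ℤ))
    (x : SL(2, ℤ) ⧸ Γ) :
    precomp h (conjFamG Γ θ x) = conjFamG Γ θ (h • x) := by
  obtain ⟨g, rfl⟩ := QuotientGroup.mk_surjective x
  rw [MulAction.Quotient.smul_mk, conjFamG_mk hθ, conjFamG_mk hθ, smul_eq_mul, precomp_mul]

variable (Γ) [Γ.FiniteIndex]

/-- A chosen `Fintype` structure on the coset space (used only locally). -/
@[reducible] def fintypeQuotG : Fintype (SL(2, ℤ) ⧸ Γ) := Fintype.ofFinite _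

attribute [local instance] fintypeQuotG

/-- The characteristic polynomial `∏ (Y - θ ∘ g⁻¹)` of `θ`, the product over the cosets `g Γ`. -/
def conjPolyG (θ : ℍ → ℂ) : Polynomial (ℍ → ℂ) :=
  ∏ x : SL(2, ℤ) ⧸ Γ, (X - C (conjFamG Γ θ x))

theorem conjPolyG_monic (θ : ℍ → ℂ) : (conjPolyG Γ θ).Monic :=
  monic_prod_X_sub_C _ _

theorem conjPolyG_natDegree (θ : ℍ → ℂ) : (conjPolyG Γ θ).natDegree = Γ.index := by
  rw [conjPolyG, natDegree_finsetProd_X_sub_C_eq_card, Finset.card_univ, Subgroup.index,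
    Nat.card_eq_fintype_card]

variable {Γ}

theorem conjPolyG_map_precomp {θ : ℍ → ℂ} (hθ : ∀ γ ∈ Γ, precomp γ θ = θ) (h : SL(2, ℤ)) :
    (conjPolyG Γ θ).map (precomp h : (ℍ → ℂ) →+* (ℍ → ℂ)) = conjPolyG Γ θ := by
  rw [conjPolyG, Polynomial.map_prod]
  simp only [Polynomial.map_sub, Polynomial.map_X, Polynomial.map_C, RingHom.coe_coe,
    precomp_conjFamG hθ]
  exact Equiv.prod_comp (MulAction.toPerm h) (fun x : SL(2, ℤ) ⧸ Γ => X - C (conjFamG Γ θ x))

theorem precomp_coeff_conjPolyG {θ : ℍ → ℂ} (hθ : ∀ γ ∈ Γ, precomp γ θ = θ) (h : SL(2, ℤ))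
    (k : ℕ) : precomp h ((conjPolyG Γ θ).coeff k) = (conjPolyG Γ θ).coeff k := by
  conv_rhs => rw [← conjPolyG_map_precomp hθ h]
  rw [Polynomial.coeff_map]
  rfl

theorem coeff_conjPolyG_mem {θ : ℍ → ℂ} (hmem : ∀ g : SL(2, ℤ), precomp g θ ∈ holoExp) (k : ℕ) :
    (conjPolyG Γ θ).coeff k ∈ holoExp := by
  have e : conjPolyG Γ θ =
      (∏ x : SL(2, ℤ) ⧸ Γ,
        (X - C (⟨conjFamG Γ θ x, hmem _⟩ : holoExp))).map (holoExp.val : _ →+* _) := by
    rw [conjPolyG, Polynomial.map_prod]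
    simp only [Polynomial.map_sub, Polynomial.map_X, Polynomial.map_C]
    rfl
  rw [e, Polynomial.coeff_map]
  exact Subtype.prop _

theorem conjPolyG_eval_self {θ : ℍ → ℂ} (hθ : ∀ γ ∈ Γ, precomp γ θ = θ) :
    (conjPolyG Γ θ).eval θ = 0 := by
  rw [conjPolyG, Polynomial.eval_prod]
  apply Finset.prod_eq_zero (Finset.mem_univ (QuotientGroup.mk 1 : SL(2, ℤ) ⧸ Γ))
  rw [conjFamG_mk hθ, precomp_one]
  simp

/-- **Analytic relation.** If `θ` is `Γ`-invariant and all its `SL(2,ℤ)`-translates are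
holomorphic with exponential growth at `i∞`, then `θ` is a root of a monic polynomial of degree
`[SL(2,ℤ) : Γ]` whose coefficients are polynomials in `j`. -/
theorem exists_relationG {θ : ℍ → ℂ} (hθ : ∀ γ ∈ Γ, precomp γ θ = θ)
    (hmem : ∀ g : SL(2, ℤ), precomp g θ ∈ holoExp) :
    ∃ p : ℕ → Polynomial ℂ, p Γ.index = 1 ∧
      ∀ τ, ∑ k ∈ Finset.range (Γ.index + 1), (p k).eval (jfun τ) * θ τ ^ k = 0 := by
  have hex : ∀ k, ∃ p : Polynomial ℂ, ∀ τ, (conjPolyG Γ θ).coeff k τ = p.eval (jfun τ) := fun k =>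
    exists_poly_of_mem_holoExp (coeff_conjPolyG_mem hmem k)
      (fun g => precomp_coeff_conjPolyG hθ g k)
  choose p hp using hex
  refine ⟨fun k => if k = Γ.index then 1 else p k, by simp, fun τ => ?_⟩
  have h0 := congrFun (conjPolyG_eval_self (Γ := Γ) hθ) τ
  rw [Polynomial.eval_eq_sum_range, conjPolyG_natDegree] at h0
  rw [Pi.zero_apply, Finset.sum_apply] at h0
  rw [← h0]
  refine Finset.sum_congr rfl fun k _ => ?_
  rw [Pi.mul_apply, Pi.pow_apply]
  congr 1
  show eval (jfun τ) (if k = Γ.index then 1 else p k) = _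
  split_ifs with hk
  · rw [hk, ← conjPolyG_natDegree Γ θ, (conjPolyG_monic Γ θ).coeff_natDegree]
    simp
  · exact (hp k τ).symm

end Product

section Family

variable {ι : Type*} (S : ι → ℍ → ℂ)

/-- The function `P(S_i)`. -/
def thetaG (P : MvPolynomial ι ℂ) : ℍ → ℂ := MvPolynomial.aeval S P

theorem thetaG_apply (P : MvPolynomial ι ℂ) (τ : ℍ) :
    thetaG S P τ = MvPolynomial.eval (fun i => S i τ) P := by
  have := MvPolynomial.comp_aeval_apply (f := S) (Pi.evalAlgHom ℂ (fun _ : ℍ => ℂ) τ) P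
  rw [thetaG]
  change (Pi.evalAlgHom ℂ (fun _ : ℍ => ℂ) τ) ((MvPolynomial.aeval S) P) = _
  rw [this, MvPolynomial.aeval_eq_eval]
  rfl

theorem precomp_thetaG (g : SL(2, ℤ)) (P : MvPolynomial ι ℂ) :
    precomp g (thetaG S P) = MvPolynomial.aeval (fun i => precomp g (S i)) P := by
  rw [thetaG, MvPolynomial.comp_aeval_apply]

theorem precomp_thetaG_mem_holoExp (hmem : ∀ (g : SL(2, ℤ)) (i : ι), precomp g (S i) ∈ holoExp)
    (g : SL(2, ℤ)) (P : MvPolynomial ι ℂ) : precomp g (thetaG S P) ∈ holoExp := by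
  rw [precomp_thetaG]
  have := MvPolynomial.comp_aeval_apply (f := fun i =>
    (⟨precomp g (S i), hmem g i⟩ : holoExp)) holoExp.val P
  have e : (MvPolynomial.aeval fun i => precomp g (S i)) P =
      ((MvPolynomial.aeval (fun i =>
        (⟨precomp g (S i), hmem g i⟩ : holoExp)) P : holoExp) : ℍ → ℂ) := this.symm
  rw [e]
  exact Subtype.prop _

theorem precomp_thetaG_of_mem {Γ : Subgroup SL(2, ℤ)}
    (hinv : ∀ γ ∈ Γ, ∀ i, precomp γ (S i) = S i) {γ : SL(2, ℤ)} (hγ : γ ∈ Γ)
    (P : MvPolynomial ι ℂ) : precomp γ (thetaG S P) = thetaG S P := by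
  rw [precomp_thetaG, thetaG]
  have : (fun i => precomp γ (S i)) = S := funext fun i => hinv γ hγ i
  rw [this]

/-- **Analytic relation for `P(S_i)`.** -/
theorem exists_relation_thetaG (Γ : Subgroup SL(2, ℤ)) [Γ.FiniteIndex]
    (hinv : ∀ γ ∈ Γ, ∀ i, precomp γ (S i) = S i)
    (hmem : ∀ (g : SL(2, ℤ)) (i : ι), precomp g (S i) ∈ holoExp) (P : MvPolynomial ι ℂ) :
    ∃ p : ℕ → Polynomial ℂ, p Γ.index = 1 ∧
      ∀ τ, ∑ k ∈ Finset.range (Γ.index + 1),
        (p k).eval (jfun τ) * (MvPolynomial.eval (fun i => S i τ) P) ^ k = 0 := by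
  obtain ⟨p, hp1, hp⟩ := exists_relationG (Γ := Γ) (θ := thetaG S P)
    (fun γ hγ => precomp_thetaG_of_mem S hinv hγ P)
    (fun g => precomp_thetaG_mem_holoExp S hmem g P)
  refine ⟨p, hp1, fun τ => ?_⟩
  have := hp τ
  simpa only [thetaG_apply] using this

end Family

section Formal

variable {ι : Type*} (Γ : Subgroup SL(2, ℤ)) [Γ.FiniteIndex]
  (s : ι → LaurentSeries Kbar) (S : ι → ℍ → ℂ)

/-- The formal relation of degree `[SL(2,ℤ) : Γ]` with complex coefficients. -/
theorem formal_relationG_C (hq : ∀ i, IsQExp (toC (s i)) (S i))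
    (hinv : ∀ γ ∈ Γ, ∀ i, precomp γ (S i) = S i)
    (hmem : ∀ (g : SL(2, ℤ)) (i : ι), precomp g (S i) ∈ holoExp)
    (i₀ : ι) (hS₀ : S i₀ = jfun) (P : MvPolynomial ι Kbar) :
    ∃ p : ℕ → Polynomial ℂ, p Γ.index = 1 ∧
      ∑ k ∈ Finset.range (Γ.index + 1),
        Polynomial.aeval (toC (s i₀)) (p k) * toC (MvPolynomial.aeval s P) ^ k = 0 := by
  obtain ⟨p, hp1, hp⟩ := exists_relation_thetaG S Γ hinv hmem
    (MvPolynomial.map (iotaC : Kbar →+* ℂ) P)
  refine ⟨p, hp1, ?_⟩
  set P' := MvPolynomial.map (iotaC : Kbar →+* ℂ) P with hP'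
  set Q : MvPolynomial ι ℂ := ∑ k ∈ Finset.range (Γ.index + 1),
    Polynomial.aeval (MvPolynomial.X i₀ : MvPolynomial ι ℂ) (p k) * P' ^ k with hQ
  have hQ0 : ∀ τ : ℍ, MvPolynomial.eval (fun i => S i τ) Q = 0 := by
    intro τ
    rw [hQ, map_sum, ← hp τ]
    refine Finset.sum_congr rfl fun k _ => ?_
    rw [map_mul, map_pow]
    congr 1
    rw [Polynomial.aeval_def, Polynomial.hom_eval₂, MvPolynomial.eval_X, hS₀]
    have : (MvPolynomial.eval fun i => S i τ).comp
        (algebraMap ℂ (MvPolynomial ι ℂ)) = RingHom.id ℂ := by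
      ext c; simp
    rw [this]
    rfl
  have hb := (bridge_of_isQExp hq Q).mpr hQ0
  rw [hQ, map_sum] at hb
  rw [← hb]
  refine Finset.sum_congr rfl fun k _ => ?_
  rw [map_mul, map_pow, ← Polynomial.aeval_algHom_apply, MvPolynomial.aeval_X, toC_aeval]

/-- **Formal relation.** Every `f ∈ ℚ̄[s_i]` is a root of a monic polynomial of degree
`[SL(2,ℤ) : Γ]` with coefficients in `ℚ̄[j]`, `j = s_{i₀}`. -/
theorem formal_relationG (hq : ∀ i, IsQExp (toC (s i)) (S i))
    (hinv : ∀ γ ∈ Γ, ∀ i, precomp γ (S i) = S i)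
    (hmem : ∀ (g : SL(2, ℤ)) (i : ι), precomp g (S i) ∈ holoExp)
    (i₀ : ι) (hS₀ : S i₀ = jfun) (P : MvPolynomial ι Kbar) :
    ∃ q : ℕ → Polynomial Kbar, q Γ.index = 1 ∧
      ∑ k ∈ Finset.range (Γ.index + 1),
        Polynomial.aeval (s i₀) (q k) * (MvPolynomial.aeval s P) ^ k = 0 := by
  obtain ⟨p, hp1, hp⟩ := formal_relationG_C Γ s S hq hinv hmem i₀ hS₀ P
  exact descent_relation (iotaC : Kbar →+* ℂ) _ _ _ p hp1 hp

/-- The generator realising `j` is the formal `j`. -/
theorem eq_jq_of_isQExp {x : LaurentSeries Kbar} (h : IsQExp (toC x) jfun) :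
    x = coeffEmb Kbar jq := by
  apply toC_injective
  refine h.left_unique ?_
  have := isQExp_jfun
  rwa [← coeffEmb_jq, show coeffEmb ℂ jq = toC (coeffEmb Kbar jq) from ?_] at this
  ext k
  simp [toC_coeff, coeffEmb_coeff]

end Formal

section Final

open IntermediateField Polynomial

variable {ι : Type*} [Finite ι] (Γ : Subgroup SL(2, ℤ)) [Γ.FiniteIndex]
  (s : ι → LaurentSeries Kbar) (S : ι → ℍ → ℂ)

/-- **Degree bound (generic form of DEG1-UB).** Let `F = ℚ̄(s_i) ⊂ ℚ̄((q))` be generated by a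
finite family of `q`-expansions of functions `S_i` on the upper half plane which are invariant
under a subgroup `Γ` of finite index of `SL(2,ℤ)` and all of whose `SL(2,ℤ)`-translates are
holomorphic of exponential growth at `i∞`; assume `S_{i₀} = j`. Then `F` is finite over
`ℚ̄(j)`, of degree at most `[SL(2,ℤ) : Γ]`. -/
theorem finrank_le_index_adjoin (hq : ∀ i, IsQExp (toC (s i)) (S i))
    (hinv : ∀ γ ∈ Γ, ∀ i, precomp γ (S i) = S i)
    (hmem : ∀ (g : SL(2, ℤ)) (i : ι), precomp g (S i) ∈ holoExp)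
    (i₀ : ι) (hS₀ : S i₀ = jfun)
    (x : IntermediateField.adjoin Kbar (Set.range s)) (hx : (x : LaurentSeries Kbar) = s i₀) :
    FiniteDimensional Kbar⟮x⟯ (IntermediateField.adjoin Kbar (Set.range s)) ∧
      Module.finrank Kbar⟮x⟯ (IntermediateField.adjoin Kbar (Set.range s)) ≤ Γ.index := by
  -- the generators inside `F`
  let sF : ι → IntermediateField.adjoin Kbar (Set.range s) :=
    fun i => ⟨s i, subset_adjoin Kbar _ ⟨i, rfl⟩⟩
  have hx' : x = sF i₀ := Subtype.ext hx
  have htop : IntermediateField.adjoin Kbar (Set.range sF) = ⊤ := by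
    apply IntermediateField.lift_injective (IntermediateField.adjoin Kbar (Set.range s))
    rw [lift_adjoin, lift_top]
    have : (Subtype.val '' Set.range sF : Set (LaurentSeries Kbar)) = Set.range s := by
      rw [← Set.range_comp]
      rfl
    rw [this]
  -- transcendence of `x`
  have hxj : (x : LaurentSeries Kbar) = coeffEmb Kbar jq := by
    rw [hx]
    apply eq_jq_of_isQExp
    have := hq i₀
    rwa [hS₀] at this
  have htr : Transcendental Kbar x := by
    intro halg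
    have h1 : IsAlgebraic Kbar (x : LaurentSeries Kbar) := by
      have := halg.algebraMap (A := LaurentSeries Kbar)
      simpa using this
    have h2 := coeff_eq_zero_of_isAlgebraic h1 (k := -1) (by norm_num)
    rw [hxj, coeffEmb_coeff, coeff_jq_neg_one, map_one] at h2
    exact one_ne_zero h2
  refine finrank_le_of_forall_aeval x htr sF htop
    (by rw [hx']; exact Algebra.subset_adjoin ⟨_, rfl⟩) _ (fun P => ?_)
  obtain ⟨q, hq1, hqr⟩ := formal_relationG Γ s S hq hinv hmem i₀ hS₀ P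
  refine exists_poly_of_relation x _ _ q hq1 ?_
  obtain ⟨v, hv⟩ : ∃ v : IntermediateField.adjoin Kbar (Set.range s) →ₐ[Kbar] LaurentSeries Kbar,
      ∀ y, v y = (y : LaurentSeries Kbar) :=
    ⟨(IntermediateField.adjoin Kbar (Set.range s)).val, fun _ => rfl⟩
  have hvinj : Function.Injective v := fun a b h => Subtype.ext (by rw [← hv, ← hv, h])
  apply hvinj
  rw [map_sum, map_zero, ← hqr]
  refine Finset.sum_congr rfl fun k _ => ?_
  rw [map_mul, map_pow, ← Polynomial.aeval_algHom_apply, MvPolynomial.comp_aeval_apply]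
  have h1 : v x = s i₀ := (hv _).trans hx
  have h2 : (fun i => v (sF i)) = s := funext fun i => hv _
  rw [h1, h2]

/-- `finrank_le_index_adjoin` for an intermediate field given with a proof that it is generated
by the `s_i`. -/
theorem finrank_le_index_of_isQExp (hq : ∀ i, IsQExp (toC (s i)) (S i))
    (hinv : ∀ γ ∈ Γ, ∀ i, precomp γ (S i) = S i)
    (hmem : ∀ (g : SL(2, ℤ)) (i : ι), precomp g (S i) ∈ holoExp)
    (i₀ : ι) (hS₀ : S i₀ = jfun)
    (F : IntermediateField Kbar (LaurentSeries Kbar))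
    (hF : F = IntermediateField.adjoin Kbar (Set.range s))
    (x : F) (hx : (x : LaurentSeries Kbar) = s i₀) :
    FiniteDimensional Kbar⟮x⟯ F ∧ Module.finrank Kbar⟮x⟯ F ≤ Γ.index := by
  subst hF
  exact finrank_le_index_adjoin Γ s S hq hinv hmem i₀ hS₀ x hx

end Final

section BaseChange

open IntermediateField

theorem coeffEmb_algebraMap_ratL (L : Type*) [Field L] [Algebra ℚ L] (c : ℚ) :
    coeffEmb L (algebraMap ℚ (LaurentSeries ℚ) c)
      = algebraMap L (LaurentSeries L) (algebraMap ℚ L c) := by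
  rw [ModularCurve.algebraMap_laurentSeries_eq_single,
    ModularCurve.algebraMap_laurentSeries_eq_single]
  exact coeffMap_single _ _ _

theorem coeffEmb_mem_adjoin_image (L : Type*) [Field L] [Algebra ℚ L]
    (T : Set (LaurentSeries ℚ)) (y : LaurentSeries ℚ)
    (hy : y ∈ IntermediateField.adjoin ℚ T) :
    coeffEmb L y ∈ IntermediateField.adjoin L (⇑(coeffEmb L) '' T) := by
  induction hy using IntermediateField.adjoin_induction with
  | mem x hx => exact IntermediateField.subset_adjoin L _ ⟨x, hx, rfl⟩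
  | algebraMap c =>
    rw [coeffEmb_algebraMap_ratL]
    exact IntermediateField.algebraMap_mem _ _
  | add x y _ _ hx hy =>
    rw [map_add]
    exact add_mem hx hy
  | inv x _ hx =>
    rw [map_inv₀]
    exact inv_mem hx
  | mul x y _ _ hx hy =>
    rw [map_mul]
    exact mul_mem hx hy

/-- The base change of a field generated by a set `T` is generated by the image of `T`. -/
theorem laurentBaseChange_adjoin (L : Type*) [Field L] [Algebra ℚ L]
    (T : Set (LaurentSeries ℚ)) :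
    laurentBaseChange L (IntermediateField.adjoin ℚ T) =
      IntermediateField.adjoin L (⇑(coeffEmb L) '' T) := by
  apply le_antisymm
  · unfold laurentBaseChange
    rw [IntermediateField.adjoin_le_iff]
    rintro _ ⟨y, hy, rfl⟩
    exact coeffEmb_mem_adjoin_image L T y hy
  · unfold laurentBaseChange
    exact IntermediateField.adjoin.mono L _ _
      (Set.image_mono (IntermediateField.subset_adjoin ℚ T))

theorem laurentBaseChange_adjoin_range (L : Type*) [Field L] [Algebra ℚ L] {ι : Type*}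
    (s₀ : ι → LaurentSeries ℚ) :
    laurentBaseChange L (IntermediateField.adjoin ℚ (Set.range s₀)) =
      IntermediateField.adjoin L (Set.range fun i => coeffEmb L (s₀ i)) := by
  rw [laurentBaseChange_adjoin, ← Set.range_comp]
  rfl

theorem toC_coeffEmb (y : LaurentSeries ℚ) : toC (coeffEmb Kbar y) = coeffEmb ℂ y := by
  ext k
  rw [toC_coeff, coeffEmb_coeff, coeffEmb_coeff]
  exact iotaC.commutes _

variable {ι : Type*} [Finite ι] (Γ : Subgroup SL(2, ℤ)) [Γ.FiniteIndex]
  (s₀ : ι → LaurentSeries ℚ) (S : ι → ℍ → ℂ)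

/-- **Degree bound, rational generators.** For `F₀ = ℚ(s_i) ⊂ ℚ((q))` generated by `q`-expansions
with rational coefficients of `Γ`-invariant functions `S_i` (all translates holomorphic of
exponential growth, `S_{i₀} = j`): the base change `ℚ̄ · F₀` has degree at most `[SL(2,ℤ) : Γ]`
over `ℚ̄(j)`. -/
theorem finrank_le_index_baseChange (hq : ∀ i, IsQExp (coeffEmb ℂ (s₀ i)) (S i))
    (hinv : ∀ γ ∈ Γ, ∀ i, precomp γ (S i) = S i)
    (hmem : ∀ (g : SL(2, ℤ)) (i : ι), precomp g (S i) ∈ holoExp)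
    (i₀ : ι) (hS₀ : S i₀ = jfun)
    (F₀ : IntermediateField ℚ (LaurentSeries ℚ))
    (hF₀ : F₀ = IntermediateField.adjoin ℚ (Set.range s₀))
    (x : laurentBaseChange Kbar F₀)
    (hx : (x : LaurentSeries Kbar) = coeffEmb Kbar (s₀ i₀)) :
    FiniteDimensional Kbar⟮x⟯ (laurentBaseChange Kbar F₀) ∧
      Module.finrank Kbar⟮x⟯ (laurentBaseChange Kbar F₀) ≤ Γ.index :=
  finrank_le_index_of_isQExp Γ (fun i => coeffEmb Kbar (s₀ i)) S
    (fun i => by rw [toC_coeffEmb]; exact hq i) hinv hmem i₀ hS₀ _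
    (by rw [hF₀]; exact laurentBaseChange_adjoin_range Kbar s₀) x hx

end BaseChange

end Fermat.Agent.T4.helper77
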