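import Mathlib
import Fermat.Agent.T4.helper77_DegGen

/-! # T4 (I) / I-FLD [G-DEG], upper bound over an arbitrary algebraically closed field (helper77)

`helper77_DegGen` with `ℚ̄` replaced by an algebraically closed field `K` of characteristic `0`
embedded into `ℂ` (`K = ℚ̄` and `K = ℂ`): `finrank_le_index_baseChangeK`.
-/

set_option autoImplicit false

noncomputable section

open ModularCurve UpperHalfPlane MatrixGroups

namespace Fermat.Agent.T4.helper77

open Fermat.Agent.S24 Fermat.Agent.S24.helper17 Fermat.Agent.S24.helper77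

section General

variable {K : Type*} [Field K] (φ : K →+* ℂ)

theorem coeffMap_algebraMapK (c : K) :
    coeffMap φ (algebraMap K (LaurentSeries K) c) = algebraMap ℂ (LaurentSeries ℂ) (φ c) := by
  rw [ModularCurve.algebraMap_laurentSeries_eq_single,
    ModularCurve.algebraMap_laurentSeries_eq_single]
  exact coeffMap_single _ _ _

theorem coeffMap_aevalK {ι : Type*} (s : ι → LaurentSeries K) (P : MvPolynomial ι K) :
    coeffMap φ (MvPolynomial.aeval s P) =
      MvPolynomial.aeval (fun i => coeffMap φ (s i)) (MvPolynomial.map φ P) := by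
  induction P using MvPolynomial.induction_on with
  | C a =>
    simp only [MvPolynomial.aeval_C, MvPolynomial.map_C]
    exact coeffMap_algebraMapK φ a
  | add p q hp hq =>
    simp only [map_add, hp, hq]
  | mul_X p i hp =>
    simp only [map_mul, MvPolynomial.aeval_X, MvPolynomial.map_X, hp]

theorem coeffMap_coeffEmbK [Algebra ℚ K] (y : LaurentSeries ℚ) :
    coeffMap φ (coeffEmb K y) = coeffEmb ℂ y := by
  ext k
  rw [coeffMap_coeff, coeffEmb_coeff, coeffEmb_coeff]
  have h1 := eq_ratCast (φ.comp (algebraMap ℚ K)) (y.coeff k)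
  have h2 := eq_ratCast (algebraMap ℚ ℂ) (y.coeff k)
  rw [h2, ← h1]
  rfl

theorem coeffMap_injectiveK : Function.Injective (coeffMap φ) := by
  intro x y h
  ext k
  have := congrArg (fun z => HahnSeries.coeff z k) h
  simp only [coeffMap_coeff] at this
  exact φ.injective this

variable {ι : Type*} (Γ : Subgroup SL(2, ℤ)) [Γ.FiniteIndex]
  (s : ι → LaurentSeries K) (S : ι → ℍ → ℂ)

/-- The formal relation of degree `[SL(2,ℤ) : Γ]` with complex coefficients. -/
theorem formal_relationK_C (hq : ∀ i, IsQExp (coeffMap φ (s i)) (S i))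
    (hinv : ∀ γ ∈ Γ, ∀ i, precomp γ (S i) = S i)
    (hmem : ∀ (g : SL(2, ℤ)) (i : ι), precomp g (S i) ∈ holoExp)
    (i₀ : ι) (hS₀ : S i₀ = jfun) (P : MvPolynomial ι K) :
    ∃ p : ℕ → Polynomial ℂ, p Γ.index = 1 ∧
      ∑ k ∈ Finset.range (Γ.index + 1),
        Polynomial.aeval (coeffMap φ (s i₀)) (p k) * coeffMap φ (MvPolynomial.aeval s P) ^ k
          = 0 := by
  obtain ⟨p, hp1, hp⟩ := exists_relation_thetaG S Γ hinv hmem (MvPolynomial.map φ P)
  refine ⟨p, hp1, ?_⟩
  set P' := MvPolynomial.map φ P with hP'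
  set Q : MvPolynomial ι ℂ := ∑ k ∈ Finset.range (Γ.index + 1),
    Polynomial.aeval (MvPolynomial.X i₀ : MvPolynomial ι ℂ) (p k) * P' ^ k with hQ
  have hQ0 : ∀ τ : ℍ, MvPolynomial.eval (fun i => S i τ) Q = 0 := by
    intro τ
    rw [hQ, map_sum, ← hp τ]
    refine Finset.sum_congr rfl fun k _ => ?_
    rw [map_mul, map_pow]
    congr 1
    rw [Polynomial.aeval_def, Polynomial.hom_eval₂, MvPolynomial.eval_X, hS₀]
    have : (MvPolynomial.eval fun i => S i τ).comp
        (algebraMap ℂ (MvPolynomial ι ℂ)) = RingHom.id ℂ := by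
      ext c; simp
    rw [this]
    rfl
  have hb := (bridge_of_isQExp hq Q).mpr hQ0
  rw [hQ, map_sum] at hb
  rw [← hb]
  refine Finset.sum_congr rfl fun k _ => ?_
  rw [map_mul, map_pow, ← Polynomial.aeval_algHom_apply, MvPolynomial.aeval_X, coeffMap_aevalK]

/-- **Formal relation** over `K`. -/
theorem formal_relationK (hq : ∀ i, IsQExp (coeffMap φ (s i)) (S i))
    (hinv : ∀ γ ∈ Γ, ∀ i, precomp γ (S i) = S i)
    (hmem : ∀ (g : SL(2, ℤ)) (i : ι), precomp g (S i) ∈ holoExp)
    (i₀ : ι) (hS₀ : S i₀ = jfun) (P : MvPolynomial ι K) :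
    ∃ q : ℕ → Polynomial K, q Γ.index = 1 ∧
      ∑ k ∈ Finset.range (Γ.index + 1),
        Polynomial.aeval (s i₀) (q k) * (MvPolynomial.aeval s P) ^ k = 0 := by
  obtain ⟨p, hp1, hp⟩ := formal_relationK_C φ Γ s S hq hinv hmem i₀ hS₀ P
  exact descent_relation φ _ _ _ p hp1 hp

/-- The coefficient of `q⁻¹` of the generator realising `j` is `1`. -/
theorem coeff_neg_one_of_isQExp {x : LaurentSeries K} (h : IsQExp (coeffMap φ x) jfun) :
    x.coeff (-1) = 1 := by
  have h1 : coeffMap φ x = jqModC ℂ := h.left_unique isQExp_jfun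
  have h2 := congrArg (fun z => HahnSeries.coeff z (-1)) h1
  simp only [coeffMap_coeff] at h2
  have h3 : (jqModC ℂ).coeff (-1) = 1 := by
    rw [← coeffEmb_jq ℂ, coeffEmb_coeff, coeff_jq_neg_one, map_one]
  rw [h3] at h2
  exact φ.injective (by rw [h2, map_one])

end General

section Final

open IntermediateField Polynomial

variable {K : Type*} [Field K] [IsAlgClosed K] [CharZero K] (φ : K →+* ℂ)
  {ι : Type*} [Finite ι] (Γ : Subgroup SL(2, ℤ)) [Γ.FiniteIndex]
  (s : ι → LaurentSeries K) (S : ι → ℍ → ℂ)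

/-- Transcendence of the generator realising `j`. -/
theorem transcendental_of_isQExp (F : IntermediateField K (LaurentSeries K)) (x : F)
    (h : IsQExp (coeffMap φ (x : LaurentSeries K)) jfun) : Transcendental K x := by
  intro halg
  have h1 : IsAlgebraic K (x : LaurentSeries K) := by
    have := halg.algebraMap (A := LaurentSeries K)
    simpa using this
  have h2 := coeff_eq_zero_of_isAlgebraic h1 (k := -1) (by norm_num)
  rw [coeff_neg_one_of_isQExp φ h] at h2
  exact one_ne_zero h2

/-- **Degree bound** over `K`. -/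
theorem finrank_le_index_adjoinK (hq : ∀ i, IsQExp (coeffMap φ (s i)) (S i))
    (hinv : ∀ γ ∈ Γ, ∀ i, precomp γ (S i) = S i)
    (hmem : ∀ (g : SL(2, ℤ)) (i : ι), precomp g (S i) ∈ holoExp)
    (i₀ : ι) (hS₀ : S i₀ = jfun)
    (x : IntermediateField.adjoin K (Set.range s)) (hx : (x : LaurentSeries K) = s i₀) :
    FiniteDimensional K⟮x⟯ (IntermediateField.adjoin K (Set.range s)) ∧
      Module.finrank K⟮x⟯ (IntermediateField.adjoin K (Set.range s)) ≤ Γ.index := by
  let sF : ι → IntermediateField.adjoin K (Set.range s) :=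
    fun i => ⟨s i, subset_adjoin K _ ⟨i, rfl⟩⟩
  have hx' : x = sF i₀ := Subtype.ext hx
  have htop : IntermediateField.adjoin K (Set.range sF) = ⊤ := by
    apply IntermediateField.lift_injective (IntermediateField.adjoin K (Set.range s))
    rw [lift_adjoin, lift_top]
    have : (Subtype.val '' Set.range sF : Set (LaurentSeries K)) = Set.range s := by
      rw [← Set.range_comp]
      rfl
    rw [this]
  have htr : Transcendental K x := by
    apply transcendental_of_isQExp φ
    rw [hx]
    have := hq i₀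
    rwa [hS₀] at this
  refine finrank_le_of_forall_aeval x htr sF htop
    (by rw [hx']; exact Algebra.subset_adjoin ⟨_, rfl⟩) _ (fun P => ?_)
  obtain ⟨q, hq1, hqr⟩ := formal_relationK φ Γ s S hq hinv hmem i₀ hS₀ P
  refine exists_poly_of_relation x _ _ q hq1 ?_
  obtain ⟨v, hv⟩ : ∃ v : IntermediateField.adjoin K (Set.range s) →ₐ[K] LaurentSeries K,
      ∀ y, v y = (y : LaurentSeries K) :=
    ⟨(IntermediateField.adjoin K (Set.range s)).val, fun _ => rfl⟩
  have hvinj : Function.Injective v := fun a b h => Subtype.ext (by rw [← hv, ← hv, h])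
  apply hvinj
  rw [map_sum, map_zero, ← hqr]
  refine Finset.sum_congr rfl fun k _ => ?_
  rw [map_mul, map_pow, ← Polynomial.aeval_algHom_apply, MvPolynomial.comp_aeval_apply]
  have h1 : v x = s i₀ := (hv _).trans hx
  have h2 : (fun i => v (sF i)) = s := funext fun i => hv _
  rw [h1, h2]

end Final

end Fermat.Agent.T4.helper77
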