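import Mathlib
import Fermat.Agent.T4.helper77_DegSysUB

/-! # T4 (I) / I-FLD [G-DEG], lower bound: generic tools (helper77)

* `exists_forall_ne_zero` : finitely many nonzero holomorphic functions on the upper half plane
  have a common point of non-vanishing (identity theorem).
* `exists_relation_of_finrank` : every element `θ` of a finite extension `F / K(x)` satisfies a
  relation `∑_{k ≤ m} q_k(x) θ^k = 0` with `q_k ∈ K[X]`, `q_m ≠ 0`, `m ≤ [F : K(x)]`.
* `card_le_of_relation` : if the values `θ(g_x⁻¹ τ)` of a function `θ` at the translates by coset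
  representatives are pairwise distinct functions and `θ` satisfies a relation of degree `m` over
  `ℂ[j]`, then the number of cosets is at most `m`.
-/

set_option autoImplicit false

noncomputable section

open ModularCurve UpperHalfPlane MatrixGroups Filter
open scoped Topology Manifold

namespace Fermat.Agent.T4.helper77

open Fermat.Agent.S24 Fermat.Agent.S24.helper17 Fermat.Agent.S24.helper77

/-! ### Part A: a common point of non-vanishing -/

theorem exists_forall_ne_zero {κ : Type*} [Finite κ] (f : κ → ℍ → ℂ) (hf : ∀ k, MDiff (f k))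
    (hne : ∀ k, f k ≠ 0) : ∃ τ : ℍ, ∀ k, f k τ ≠ 0 := by
  set U : Set ℂ := {z | 0 < z.im} with hU
  have hUo : IsOpen U := isOpen_upperHalfPlaneSet
  have hUc : IsPreconnected U := (convex_halfSpace_im_gt 0).isPreconnected
  have hI : Complex.I ∈ U := by simp [hU]
  have han : ∀ k, AnalyticOnNhd ℂ (f k ∘ ofComplex) U := fun k =>
    (UpperHalfPlane.mdifferentiable_iff.mp (hf k)).analyticOnNhd hUo
  have hev : ∀ k, ∀ᶠ z in 𝓝[≠] Complex.I, (f k ∘ ofComplex) z ≠ 0 := by
    intro k
    by_contra hcon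
    have hfr : ∃ᶠ z in 𝓝[≠] Complex.I, (f k ∘ ofComplex) z = 0 := by
      rw [Filter.not_eventually] at hcon
      exact hcon.mono fun z hz => not_not.mp hz
    have h0 := (han k).eqOn_zero_of_preconnected_of_frequently_eq_zero hUc hI hfr
    apply hne k
    funext τ
    have := h0 (show (τ : ℂ) ∈ U from τ.im_pos)
    simpa using this
  have hall : ∀ᶠ z in 𝓝[≠] Complex.I, ∀ k, (f k ∘ ofComplex) z ≠ 0 :=
    Filter.eventually_all.mpr hev
  have hmem : ∀ᶠ z in 𝓝[≠] Complex.I, z ∈ U :=
    nhdsWithin_le_nhds (hUo.mem_nhds hI)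
  obtain ⟨z, hz, hzU⟩ := (hall.and hmem).exists
  refine ⟨⟨z, hzU⟩, fun k => ?_⟩
  have := hz k
  rwa [Function.comp_apply, ofComplex_apply_of_im_pos hzU] at this

/-! ### Part D: clearing denominators -/

section Clear

open IntermediateField Polynomial

variable {K F : Type*} [Field K] [Field F] [Algebra K F]

theorem exists_num_den (x : F) (a : K⟮x⟯) :
    ∃ r s : Polynomial K, aeval x s ≠ 0 ∧ (a : F) * aeval x s = aeval x r := by
  obtain ⟨r, s, hrs⟩ := (mem_adjoin_simple_iff K (a : F)).mp a.2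
  by_cases hs : aeval x s = 0
  · refine ⟨0, 1, by simp, ?_⟩
    rw [hrs, hs, div_zero]
    simp
  · exact ⟨r, s, hs, by rw [hrs, div_mul_cancel₀ _ hs]⟩

/-- Every element of a finite extension of `K(x)` satisfies a polynomial relation over `K[x]` of
degree at most the degree of the extension, with nonzero leading coefficient. -/
theorem exists_relation_of_finrank (x θ : F) [FiniteDimensional K⟮x⟯ F] :
    ∃ (m : ℕ) (q : ℕ → Polynomial K), m ≤ Module.finrank K⟮x⟯ F ∧ aeval x (q m) ≠ 0 ∧
      ∑ k ∈ Finset.range (m + 1), aeval x (q k) * θ ^ k = 0 := by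
  classical
  set Q := minpoly K⟮x⟯ θ with hQ
  have hint : IsIntegral K⟮x⟯ θ := IsIntegral.of_finite K⟮x⟯ θ
  have hmonic : Q.Monic := minpoly.monic hint
  set m := Q.natDegree with hm
  choose r s hs hrs using fun k : ℕ => exists_num_den x (Q.coeff k)
  refine ⟨m, fun k => r k * ∏ l ∈ (Finset.range (m + 1)).erase k, s l,
    minpoly.natDegree_le θ, ?_, ?_⟩
  · have hcm : Q.coeff m = 1 := hmonic.coeff_natDegree
    have h1 : aeval x (r m) = aeval x (s m) := by
      rw [← hrs m, hcm]
      simp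
    rw [map_mul, h1, map_prod]
    refine mul_ne_zero (hs m) (Finset.prod_ne_zero_iff.mpr fun l _ => hs l)
  · have hprod : ∀ k ∈ Finset.range (m + 1),
        aeval x (r k * ∏ l ∈ (Finset.range (m + 1)).erase k, s l)
          = ((Q.coeff k : K⟮x⟯) : F) * ∏ l ∈ Finset.range (m + 1), aeval x (s l) := by
      intro k hk
      rw [map_mul, map_prod, ← hrs k, mul_assoc,
        Finset.mul_prod_erase (Finset.range (m + 1)) (fun l => aeval x (s l)) hk]
    have haev : aeval θ Q = 0 := minpoly.aeval K⟮x⟯ θ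
    rw [aeval_eq_sum_range, ← hm] at haev
    calc ∑ k ∈ Finset.range (m + 1),
          aeval x (r k * ∏ l ∈ (Finset.range (m + 1)).erase k, s l) * θ ^ k
        = ∑ k ∈ Finset.range (m + 1),
          (∏ l ∈ Finset.range (m + 1), aeval x (s l)) * (Q.coeff k • θ ^ k) := by
          refine Finset.sum_congr rfl fun k hk => ?_
          rw [hprod k hk, Algebra.smul_def]
          change _ = _ * (((Q.coeff k : K⟮x⟯) : F) * θ ^ k)
          ring
      _ = (∏ l ∈ Finset.range (m + 1), aeval x (s l)) *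
          ∑ k ∈ Finset.range (m + 1), Q.coeff k • θ ^ k := by rw [Finset.mul_sum]
      _ = 0 := by rw [haev, mul_zero]

end Clear

/-! ### Part C: a relation of degree `m` over `ℂ[j]` forces at most `m` conjugates -/

section Count

open Polynomial

variable {ι : Type*} [Fintype ι] (s : ι → LaurentSeries ℂ) (S : ι → ℍ → ℂ)

/-- the linear combination of the functions `S i` with natural weights -/
def thetaW (w : ι → ℕ) (τ : ℍ) : ℂ := ∑ i, (w i : ℂ) * S i τ

theorem isQExp_thetaW (hq : ∀ i, IsQExp (s i) (S i)) (w : ι → ℕ) :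
    IsQExp (∑ i, (w i : LaurentSeries ℂ) * s i) (thetaW S w) := by
  have h := IsQExp.aeval hq (∑ i, (w i : MvPolynomial ι ℂ) * MvPolynomial.X i)
  have e1 : MvPolynomial.aeval s (∑ i, (w i : MvPolynomial ι ℂ) * MvPolynomial.X i)
      = ∑ i, (w i : LaurentSeries ℂ) * s i := by
    simp [map_sum, map_mul, MvPolynomial.aeval_X]
  have e2 : (fun τ => MvPolynomial.eval (fun i => S i τ)
      (∑ i, (w i : MvPolynomial ι ℂ) * MvPolynomial.X i)) = thetaW S w := by
    funext τ
    simp [thetaW, map_sum, map_mul, MvPolynomial.eval_X]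
  rwa [e1, e2] at h

omit [Fintype ι] in
theorem isQExp_polyJ (hq : ∀ i, IsQExp (s i) (S i)) (i₀ : ι) (p : Polynomial ℂ) :
    IsQExp (Polynomial.aeval (s i₀) p) (fun τ => p.eval (S i₀ τ)) := by
  have h := IsQExp.aeval hq (Polynomial.aeval (MvPolynomial.X i₀ : MvPolynomial ι ℂ) p)
  have e1 : MvPolynomial.aeval s (Polynomial.aeval (MvPolynomial.X i₀ : MvPolynomial ι ℂ) p)
      = Polynomial.aeval (s i₀) p := by
    rw [← Polynomial.aeval_algHom_apply, MvPolynomial.aeval_X]
  have e2 : (fun τ => MvPolynomial.eval (fun i => S i τ)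
      (Polynomial.aeval (MvPolynomial.X i₀ : MvPolynomial ι ℂ) p))
      = fun τ => p.eval (S i₀ τ) := by
    funext τ
    rw [Polynomial.aeval_def, Polynomial.hom_eval₂, MvPolynomial.eval_X]
    have : (MvPolynomial.eval fun i => S i τ).comp
        (algebraMap ℂ (MvPolynomial ι ℂ)) = RingHom.id ℂ := by
      ext c; simp
    rw [this]
    rfl
  rwa [e1, e2] at h

/-- **Counting conjugates.** -/
theorem card_le_of_relation {X : Type*} [Finite X] (gX : X → SL(2, ℤ))
    (hq : ∀ i, IsQExp (s i) (S i))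
    (hmd : ∀ (g : SL(2, ℤ)) (i : ι), MDiff (fun τ : ℍ => S i (g⁻¹ • τ)))
    (i₀ : ι) (hS₀ : S i₀ = jfun) (w : ι → ℕ)
    (hsep : ∀ x y : X, x ≠ y →
      ∃ τ : ℍ, thetaW S w ((gX x)⁻¹ • τ) ≠ thetaW S w ((gX y)⁻¹ • τ))
    (m : ℕ) (q : ℕ → Polynomial ℂ) (hqm : q m ≠ 0)
    (hrel : ∑ k ∈ Finset.range (m + 1),
      Polynomial.aeval (s i₀) (q k) * (∑ i, (w i : LaurentSeries ℂ) * s i) ^ k = 0) :
    Nat.card X ≤ m := by
  classical
  -- the analytic relation
  have hθ := isQExp_thetaW s S hq w
  have hrelQ : IsQExp (∑ k ∈ Finset.range (m + 1),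
      Polynomial.aeval (s i₀) (q k) * (∑ i, (w i : LaurentSeries ℂ) * s i) ^ k)
      (∑ k ∈ Finset.range (m + 1), (fun τ => (q k).eval (S i₀ τ)) * thetaW S w ^ k) := by
    induction (Finset.range (m + 1)) using Finset.induction_on with
    | empty => simpa using IsQExp.zero
    | insert a T ha ih =>
      rw [Finset.sum_insert ha, Finset.sum_insert ha]
      exact ((isQExp_polyJ s S hq i₀ (q a)).mul (hθ.pow a)).add ih
  have han : ∀ τ : ℍ, ∑ k ∈ Finset.range (m + 1), (q k).eval (jfun τ) * thetaW S w τ ^ k = 0 := by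
    intro τ
    have h0 := hrelQ.eq_zero_iff.mp hrel
    have h1 := congrFun h0 τ
    simp only [Finset.sum_apply, Pi.mul_apply, Pi.pow_apply, Pi.zero_apply] at h1
    rw [hS₀] at h1
    exact h1
  -- the leading coefficient
  have hf0 : (fun τ : ℍ => (q m).eval (jfun τ)) ≠ 0 := by
    intro h0
    have hQ := isQExp_polyJ s S hq i₀ (q m)
    rw [hS₀] at hQ
    have hz : Polynomial.aeval (s i₀) (q m) = 0 := hQ.eq_zero_iff.mpr h0
    have halg : IsAlgebraic ℂ (s i₀) := ⟨q m, hqm, hz⟩
    have h2 := coeff_eq_zero_of_isAlgebraic halg (k := -1) (by norm_num)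
    have h3 : s i₀ = jqModC ℂ := by
      have := hq i₀
      rw [hS₀] at this
      exact this.left_unique isQExp_jfun
    rw [h3, ← coeffEmb_jq ℂ, coeffEmb_coeff, coeff_jq_neg_one, map_one] at h2
    exact one_ne_zero h2
  have hmd0 : MDiff (fun τ : ℍ => (q m).eval (jfun τ)) := by
    have hQ := isQExp_polyJ s S hq i₀ (q m)
    rw [hS₀] at hQ
    exact hQ.mdiff
  -- the differences of the conjugates
  have hmdθ : ∀ g : SL(2, ℤ), MDiff (fun τ : ℍ => thetaW S w (g⁻¹ • τ)) := by
    intro g
    have key : ∀ T : Finset ι, MDiff (fun τ : ℍ => ∑ i ∈ T, (w i : ℂ) * S i (g⁻¹ • τ)) := by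
      intro T
      induction T using Finset.induction_on with
      | empty =>
        simp only [Finset.sum_empty]
        exact mdifferentiable_const
      | insert a T ha ih =>
        have e : (fun τ : ℍ => ∑ i ∈ insert a T, (w i : ℂ) * S i (g⁻¹ • τ))
            = ((fun _ : ℍ => (w a : ℂ)) * fun τ : ℍ => S a (g⁻¹ • τ))
              + fun τ : ℍ => ∑ i ∈ T, (w i : ℂ) * S i (g⁻¹ • τ) := by
          funext τ
          simp [Finset.sum_insert ha]
        rw [e]
        exact (mdifferentiable_const.mul (hmd g a)).add ih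
    exact key Finset.univ
  let f : Option {p : X × X // p.1 ≠ p.2} → ℍ → ℂ := fun o =>
    match o with
    | none => fun τ => (q m).eval (jfun τ)
    | some p => fun τ => thetaW S w ((gX p.1.1)⁻¹ • τ) - thetaW S w ((gX p.1.2)⁻¹ • τ)
  have hfmd : ∀ o, MDiff (f o) := by
    rintro (_ | p)
    · exact hmd0
    · exact (hmdθ (gX p.1.1)).sub (hmdθ (gX p.1.2))
  have hfne : ∀ o, f o ≠ 0 := by
    rintro (_ | p)
    · exact hf0
    · intro h0
      obtain ⟨τ, hτ⟩ := hsep p.1.1 p.1.2 p.2
      have := congrFun h0 τ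
      exact hτ (sub_eq_zero.mp this)
  obtain ⟨τ₀, hτ₀⟩ := exists_forall_ne_zero f hfmd hfne
  have hlead : (q m).eval (jfun τ₀) ≠ 0 := hτ₀ none
  have hinj : Function.Injective fun x : X => thetaW S w ((gX x)⁻¹ • τ₀) := by
    intro x y hxy
    by_contra hne
    have := hτ₀ (some ⟨(x, y), hne⟩)
    exact this (sub_eq_zero.mpr hxy)
  -- the polynomial at `τ₀`
  set Q₀ : Polynomial ℂ :=
    ∑ k ∈ Finset.range (m + 1), Polynomial.monomial k ((q k).eval (jfun τ₀)) with hQ₀
  have hdeg : Q₀.natDegree ≤ m := by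
    refine natDegree_sum_le_of_forall_le _ _ fun k hk => ?_
    exact (natDegree_monomial_le _).trans (Nat.lt_succ_iff.mp (Finset.mem_range.mp hk))
  have hQne : Q₀ ≠ 0 := by
    intro h0
    have h1 := congrArg (fun Q : Polynomial ℂ => Q.coeff m) h0
    simp only [hQ₀, finsetSum_coeff, coeff_monomial, coeff_zero] at h1
    rw [Finset.sum_eq_single m] at h1
    · simp only [if_true] at h1
      exact hlead h1
    · intro k _ hk
      rw [if_neg hk]
    · intro h0'
      exact absurd (Finset.mem_range.mpr (Nat.lt_succ_self m)) h0'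
  have hroot : ∀ x : X, Q₀.eval (thetaW S w ((gX x)⁻¹ • τ₀)) = 0 := by
    intro x
    have := han ((gX x)⁻¹ • τ₀)
    rw [show jfun ((gX x)⁻¹ • τ₀) = jfun τ₀ from jfun_smul _ _] at this
    rw [hQ₀, eval_finsetSum, ← this]
    refine Finset.sum_congr rfl fun k _ => ?_
    rw [eval_monomial]
  have : Fintype X := Fintype.ofFinite X
  by_contra hlt
  rw [not_le, Nat.card_eq_fintype_card] at hlt
  exact hQne (Polynomial.eq_zero_of_natDegree_lt_card_of_eval_eq_zero Q₀ hinj hroot
    (lt_of_le_of_lt hdeg hlt))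

end Count

end Fermat.Agent.T4.helper77
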