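import Mathlib
import Fermat.Agent.T4.helper24_FldDefs
import Fermat.Agent.T4.helper77_DegSysLB

/-! # T4 (I) / I-FLD [G-DEG] (helper77): the degree of a generator system

`deg_of : D.IsSys → D.DegStatement ℚ̄ ∧ D.DegStatement ℂ` for every generator system `D`
(`helper24_FldDefs`): `j` is transcendental and `[K · F : K(j)] = [SL(2,ℤ) : Γ]`.

* upper bound: the characteristic polynomial of the conjugates (`helper77_DegGen`,
  `helper77_DegSysUB`);
* lower bound: a linear combination `θ` of the generators with natural weights separates the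
  cosets (`exists_weights`); a relation of degree `m` for `θ` over `K[j]` is a relation between
  functions, so at a generic point the `[SL(2,ℤ) : Γ]` distinct values `θ(g⁻¹ τ₀)` are roots of a
  nonzero polynomial of degree `≤ m` (`card_le_of_relation`).
-/

set_option autoImplicit false

noncomputable section

open ModularCurve UpperHalfPlane MatrixGroups Filter
open scoped Topology Manifold

namespace Fermat.Agent.T4.helper77

open Fermat.Agent.S24 Fermat.Agent.S24.helper17 Fermat.Agent.S24.helper77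
open Fermat.Agent.T4.helper24

/-! ### Part B: separating weights -/

section Weights

open Polynomial

variable {ι : Type*} [Fintype ι] (S : ι → ℍ → ℂ)

theorem exists_weights {X : Type*} [Finite X] (gX : X → SL(2, ℤ))
    (hdist : ∀ x y : X, x ≠ y → ∃ (i : ι) (τ : ℍ), S i ((gX x)⁻¹ • τ) ≠ S i ((gX y)⁻¹ • τ)) :
    ∃ w : ι → ℕ, ∀ x y : X, x ≠ y →
      ∃ τ : ℍ, thetaW S w ((gX x)⁻¹ • τ) ≠ thetaW S w ((gX y)⁻¹ • τ) := by
  classical
  have : Fintype X := Fintype.ofFinite X
  let e : ι ≃ Fin (Fintype.card ι) := Fintype.equivFin ι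
  choose! i₁ τ₁ h₁ using fun p : {p : X × X // p.1 ≠ p.2} => hdist p.1.1 p.1.2 p.2
  -- the polynomial of a pair
  let a : {p : X × X // p.1 ≠ p.2} → ι → ℂ := fun p i =>
    S i ((gX p.1.1)⁻¹ • τ₁ p) - S i ((gX p.1.2)⁻¹ • τ₁ p)
  let P : {p : X × X // p.1 ≠ p.2} → Polynomial ℂ := fun p =>
    ∑ i, Polynomial.monomial (e i : ℕ) (a p i)
  have hPne : ∀ p, P p ≠ 0 := by
    intro p h0
    have hc := congrArg (fun Q : Polynomial ℂ => Q.coeff (e (i₁ p) : ℕ)) h0
    simp only [P, finsetSum_coeff, coeff_monomial, coeff_zero] at hc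
    rw [Finset.sum_eq_single (i₁ p)] at hc
    · simp only [if_true] at hc
      exact h₁ p (sub_eq_zero.mp hc)
    · intro i _ hi
      rw [if_neg]
      intro h
      exact hi (e.injective (Fin.ext h))
    · intro h
      exact absurd (Finset.mem_univ _) h
  have hprod : ∏ p, P p ≠ 0 := Finset.prod_ne_zero_iff.mpr fun p _ => hPne p
  obtain ⟨t, ht⟩ : ∃ t : ℕ, (∏ p, P p).eval (t : ℂ) ≠ 0 := by
    by_contra hcon
    rw [not_exists] at hcon
    apply hprod
    apply Polynomial.eq_zero_of_infinite_isRoot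
    refine Set.infinite_of_injective_forall_mem (f := fun t : ℕ => (t : ℂ)) Nat.cast_injective ?_
    intro t
    exact not_not.mp (hcon t)
  refine ⟨fun i => t ^ (e i : ℕ), fun x y hxy => ?_⟩
  refine ⟨τ₁ ⟨(x, y), hxy⟩, fun heq => ht ?_⟩
  rw [Polynomial.eval_prod]
  apply Finset.prod_eq_zero (Finset.mem_univ (⟨(x, y), hxy⟩ : {p : X × X // p.1 ≠ p.2}))
  have : (P ⟨(x, y), hxy⟩).eval (t : ℂ)
      = thetaW S (fun i => t ^ (e i : ℕ)) ((gX x)⁻¹ • τ₁ ⟨(x, y), hxy⟩)
        - thetaW S (fun i => t ^ (e i : ℕ)) ((gX y)⁻¹ • τ₁ ⟨(x, y), hxy⟩) := by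
    simp only [P, a, thetaW, eval_finsetSum, eval_monomial, ← Finset.sum_sub_distrib]
    refine Finset.sum_congr rfl fun i _ => ?_
    push_cast
    ring
  rw [this, heq, sub_self]

end Weights

/-! ### The upper bound for a field given with generators -/

section UB

open IntermediateField

variable {K : Type*} [Field K] [IsAlgClosed K] [CharZero K] (φ : K →+* ℂ)
  {ι : Type*} [Finite ι] (Γ : Subgroup SL(2, ℤ)) [Γ.FiniteIndex]
  (s : ι → LaurentSeries K) (S : ι → ℍ → ℂ)

theorem finrank_le_index_of_isQExpK (hq : ∀ i, IsQExp (coeffMap φ (s i)) (S i))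
    (hinv : ∀ γ ∈ Γ, ∀ i, precomp γ (S i) = S i)
    (hmem : ∀ (g : SL(2, ℤ)) (i : ι), precomp g (S i) ∈ holoExp)
    (i₀ : ι) (hS₀ : S i₀ = jfun)
    (F : IntermediateField K (LaurentSeries K))
    (hF : F = IntermediateField.adjoin K (Set.range s))
    (x : F) (hx : (x : LaurentSeries K) = s i₀) :
    FiniteDimensional K⟮x⟯ F ∧ Module.finrank K⟮x⟯ F ≤ Γ.index := by
  subst hF
  exact finrank_le_index_adjoinK φ Γ s S hq hinv hmem i₀ hS₀ x hx

end UB

/-! ### Part E: the degree of a generator system -/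

section Deg

open IntermediateField Polynomial

variable (D : GenData) {K : Type*} [Field K] [Algebra ℚ K]

theorem field_eq_adjoin : D.field K = IntermediateField.adjoin K (Set.range (D.ser K)) := by
  show laurentBaseChange K (IntermediateField.adjoin ℚ (Set.range D.serQ)) = _
  rw [laurentBaseChange_adjoin_range]
  rfl

theorem coeffMap_ser (φ : K →+* ℂ) (i : D.I) : coeffMap φ (D.ser K i) = D.ser ℂ i :=
  coeffMap_coeffEmbK φ (D.serQ i)

theorem finiteIndex_of_isSys (hD : D.IsSys) : D.Γ.FiniteIndex := by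
  obtain ⟨W, hW, hle⟩ := hD.level
  have : NeZero W := ⟨hW.ne'⟩
  exact Subgroup.finiteIndex_of_le hle

/-- distinct cosets have distinct conjugates -/
theorem exists_ne_of_isSys (hD : D.IsSys) (x y : D.X) (hxy : x ≠ y) :
    ∃ (i : D.I) (τ : ℍ),
      D.fn i ((Quotient.out x : SL(2, ℤ))⁻¹ • τ) ≠ D.fn i ((Quotient.out y : SL(2, ℤ))⁻¹ • τ) := by
  by_contra hcon
  push Not at hcon
  apply hxy
  have hmem : (Quotient.out x : SL(2, ℤ))⁻¹ * Quotient.out y ∈ D.Γ := by
    apply hD.stab
    intro i τ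
    have := hcon i (Quotient.out y • τ)
    rw [mul_smul, this, inv_smul_smul]
  have := (QuotientGroup.eq (s := D.Γ)).mpr hmem
  rwa [QuotientGroup.out_eq', QuotientGroup.out_eq'] at this

/-- **[G-DEG]** over an algebraically closed field `K ⊆ ℂ`. -/
theorem deg_ofK [IsAlgClosed K] [CharZero K] (φ : K →+* ℂ) (hD : D.IsSys) :
    D.DegStatement K := by
  classical
  have hfi := finiteIndex_of_isSys D hD
  have hq : ∀ i, IsQExp (coeffMap φ (D.ser K i)) (D.fn i) := fun i => by
    rw [coeffMap_ser]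
    exact hD.isQExp i
  have hinv : ∀ γ ∈ D.Γ, ∀ i, precomp γ (D.fn i) = D.fn i := by
    intro γ hγ i
    funext τ
    rw [precomp_apply]
    exact hD.inv i γ⁻¹ (inv_mem hγ) τ
  have hx : ((D.xJ K : D.field K) : LaurentSeries K) = D.ser K D.j0 := rfl
  -- transcendence
  have htr : Transcendental K (D.xJ K) := by
    apply transcendental_of_isQExp φ
    rw [hx]
    have := hq D.j0
    rwa [hD.fn_j0] at this
  -- upper bound
  obtain ⟨hfd, hub⟩ := finrank_le_index_of_isQExpK φ D.Γ (D.ser K) D.fn hq hinv hD.growth D.j0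
    hD.fn_j0 (D.field K) (field_eq_adjoin D) (D.xJ K) hx
  refine ⟨htr, hfd, le_antisymm hub ?_⟩
  -- lower bound
  have hfinX : Finite D.X := Subgroup.finite_quotient_of_finiteIndex
  obtain ⟨w, hw⟩ := exists_weights D.fn (fun x : D.X => (Quotient.out x : SL(2, ℤ)))
    (exists_ne_of_isSys D hD)
  set θ : D.field K := ∑ i, ((w i : ℕ) : D.field K) * D.gen K i with hθ
  obtain ⟨m, q, hm, hqm, hrel⟩ := exists_relation_of_finrank (K := K) (D.xJ K) θ
  refine le_trans ?_ hm
  -- transport of the relation to `ℂ((q))`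
  let ψ : D.field K →+* LaurentSeries ℂ := (coeffMap φ).comp (algebraMap (D.field K) _)
  have hψx : ψ (D.xJ K) = D.ser ℂ D.j0 := coeffMap_ser D φ D.j0
  have hψθ : ψ θ = ∑ i, ((w i : ℕ) : LaurentSeries ℂ) * D.ser ℂ i := by
    rw [hθ, map_sum]
    refine Finset.sum_congr rfl fun i _ => ?_
    rw [map_mul, map_natCast]
    congr 1
    exact coeffMap_ser D φ i
  have hψC : ψ.comp (algebraMap K (D.field K)) = (algebraMap ℂ (LaurentSeries ℂ)).comp φ := by
    ext c : 1
    exact coeffMap_algebraMapK φ c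
  have hψa : ∀ p : Polynomial K, ψ (aeval (D.xJ K) p) = aeval (D.ser ℂ D.j0) (p.map φ) := by
    intro p
    rw [aeval_def, Polynomial.hom_eval₂, hψC, hψx, aeval_def, Polynomial.eval₂_map]
  have hrel' : ∑ k ∈ Finset.range (m + 1),
      aeval (D.ser ℂ D.j0) ((q k).map φ) * (∑ i, ((w i : ℕ) : LaurentSeries ℂ) * D.ser ℂ i) ^ k
        = 0 := by
    have := congrArg ψ hrel
    rw [map_sum, map_zero] at this
    rw [← this]
    refine Finset.sum_congr rfl fun k _ => ?_
    rw [map_mul, map_pow, hψa, hψθ]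
  have hqm' : (q m).map φ ≠ 0 := by
    have h0 : q m ≠ 0 := fun h => hqm (by rw [h, map_zero])
    exact (Polynomial.map_ne_zero_iff φ.injective).mpr h0
  have hmd : ∀ (g : SL(2, ℤ)) (i : D.I), MDiff (fun τ : ℍ => D.fn i (g⁻¹ • τ)) :=
    fun g i => (hD.growth g i).1
  exact card_le_of_relation (D.ser ℂ) D.fn (fun x : D.X => (Quotient.out x : SL(2, ℤ)))
    hD.isQExp hmd D.j0 hD.fn_j0 w hw m (fun k => (q k).map φ) hqm' hrel'

/-- **[G-DEG]** (helper24_FldDefs): the degree of a generator system over `ℚ̄` and over `ℂ`. -/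
theorem deg_of (hD : D.IsSys) : D.DegStatement Kbar ∧ D.DegStatement ℂ :=
  ⟨deg_ofK D (iotaC : Kbar →+* ℂ) hD, deg_ofK D (RingHom.id ℂ) hD⟩

end Deg

end Fermat.Agent.T4.helper77
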