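import Mathlib
import Fermat.Agent.T4.helper4_IgusaInst1
import Fermat.Agent.P2.helper81_ValBase
import Fermat.Agent.P2.helper28_RedEmb
import Fermat.Agent.T4.helper33_X1Series
import Fermat.Agent.T4.helper77_DegSys
import Fermat.Agent.T4.helper56_X1Field

/-!
# T4 block (I), [IGUSA1] route A: formal translation (helper4)

`A ⊂ ℚ̄` a valuation ring, `S = subringC A ⊂ ℂ`, `r = rhoC A : S → k`.  An element `f` of
helper32's ring `B_S` is *represented* by the formal series `Y ∈ A((q))` (`Rep A M f Y`) if its
expansion at the identity is `Y(t^M)`.  Representation is compatible with the ring operations,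
with polynomials in `(j, θ)`, with vanishing, and with reduction:
`EB r 1 f = (red Y)(t^M)`.
-/

set_option autoImplicit false
set_option linter.unusedSectionVars false
set_option linter.style.haveILetI false

noncomputable section

namespace Fermat.Agent.T4.helper4.Ig

open UpperHalfPlane CongruenceSubgroup Polynomial ModularCurve
open Fermat.Agent.T4.helper32.Conj1
open Fermat.Agent.P2.helper81 (subringC equivC rhoC kA)
open Fermat.Agent.S24 (Kbar iotaC)
open scoped MatrixGroups

variable (A : ValuationSubring Kbar) (M : ℕ) [NeZero M]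

/-- `A → ℂ` -/
def toC : A →+* ℂ := (iotaC : Kbar →+* ℂ).comp A.subtype

theorem toC_injective : Function.Injective (toC A) :=
  (iotaC : Kbar →+* ℂ).injective.comp Subtype.val_injective

theorem toC_eq (a : A) : toC A a = ((equivC A a : subringC A) : ℂ) := rfl

theorem subtype_comp_equivC :
    (subringC A).subtype.comp (equivC A).toRingHom = toC A := rfl

/-- the formal series `Y ∈ A((q))` represents `f ∈ B_S` -/
def Rep (f : BS (Gamma M) M (subringC A)) (Y : LaurentSeries A) : Prop :=
  EA (Gamma M) M 1 (f : GA (Gamma M) M) = qExpand ℂ M (coeffMap (toC A) Y)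

variable {A M}

theorem Rep.add {f g : BS (Gamma M) M (subringC A)} {Y Z : LaurentSeries A}
    (h1 : Rep A M f Y) (h2 : Rep A M g Z) : Rep A M (f + g) (Y + Z) := by
  unfold Rep at *
  rw [Subring.coe_add, map_add, h1, h2, map_add, map_add]

theorem Rep.mul {f g : BS (Gamma M) M (subringC A)} {Y Z : LaurentSeries A}
    (h1 : Rep A M f Y) (h2 : Rep A M g Z) : Rep A M (f * g) (Y * Z) := by
  unfold Rep at *
  rw [Subring.coe_mul, map_mul, h1, h2, map_mul, map_mul]

theorem Rep.pow {f : BS (Gamma M) M (subringC A)} {Y : LaurentSeries A}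
    (h1 : Rep A M f Y) (n : ℕ) : Rep A M (f ^ n) (Y ^ n) := by
  unfold Rep at *
  rw [SubmonoidClass.coe_pow, map_pow, h1, map_pow, map_pow]

theorem Rep.sum {ι : Type*} (s : Finset ι) {f : ι → BS (Gamma M) M (subringC A)}
    {Y : ι → LaurentSeries A} (h : ∀ i ∈ s, Rep A M (f i) (Y i)) :
    Rep A M (∑ i ∈ s, f i) (∑ i ∈ s, Y i) := by
  classical
  induction s using Finset.induction_on with
  | empty =>
    unfold Rep
    simp
  | insert a s ha ih =>
    rw [Finset.sum_insert ha, Finset.sum_insert ha]
    exact (h a (Finset.mem_insert_self a s)).add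
      (ih (fun i hi => h i (Finset.mem_insert_of_mem hi)))

variable (A M)

theorem rep_constB (c : subringC A) :
    Rep A M (constB (Gamma M) M (subringC A) c) (HahnSeries.C ((equivC A).symm c)) := by
  unfold Rep
  have h1 : ((constB (Gamma M) M (subringC A) c : BS (Gamma M) M (subringC A)) :
      GA (Gamma M) M) = algebraMap ℂ (GA (Gamma M) M) (c : ℂ) := rfl
  rw [h1, AlgHom.commutes, LaurentSeries.algebraMap_apply]
  ext n
  rw [HahnSeries.C_apply]
  by_cases hn : (M : ℤ) ∣ n
  · obtain ⟨m, rfl⟩ := hn
    rw [qExpand_coeff_mul, coeffMap_coeff, HahnSeries.C_apply]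
    by_cases hm : m = 0
    · subst hm
      simp only [mul_zero, HahnSeries.coeff_single_same]
      rw [toC_eq, RingEquiv.apply_symm_apply]
    · have hMm : (M : ℤ) * m ≠ 0 :=
        mul_ne_zero (by exact_mod_cast NeZero.ne M) hm
      rw [HahnSeries.coeff_single_of_ne hMm, HahnSeries.coeff_single_of_ne hm, map_zero]
  · rw [qExpand_coeff_of_not_dvd M _ hn]
    have hn0 : n ≠ 0 := fun h => hn (by rw [h]; exact dvd_zero _)
    rw [HahnSeries.coeff_single_of_ne hn0]

theorem rep_jB : Rep A M (jB (Gamma M) M (subringC A)) (jqModC A) := by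
  unfold Rep
  have h1 : ((jB (Gamma M) M (subringC A) : BS (Gamma M) M (subringC A)) :
      GA (Gamma M) M) = jA (Gamma M) M := rfl
  rw [h1, EA_jA, coeffMap_jqModC]
  rfl

/-- the two evaluation homomorphisms agree -/
theorem rep_polyB (P : Polynomial (subringC A)) :
    Rep A M (polyB (Gamma M) M (subringC A) P)
      (aeval (jqModC A) (P.map (equivC A).symm.toRingHom)) := by
  induction P using Polynomial.induction_on' with
  | add p q hp hq =>
    rw [map_add, Polynomial.map_add, map_add]
    exact hp.add hq
  | monomial n c =>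
    rw [← C_mul_X_pow_eq_monomial, map_mul, map_pow, Polynomial.map_mul, Polynomial.map_pow,
      Polynomial.map_C, Polynomial.map_X, map_mul, map_pow, aeval_C, aeval_X]
    have h1 : polyB (Gamma M) M (subringC A) (C c) = constB (Gamma M) M (subringC A) c := by
      simp [polyB]
    have h2 : polyB (Gamma M) M (subringC A) X = jB (Gamma M) M (subringC A) := by
      simp [polyB]
    rw [h1, h2]
    refine Rep.mul ?_ ((rep_jB A M).pow n)
    have := rep_constB A M c
    rwa [← Fermat.Agent.S28.helper93.algebraMap_laurent_eq_C] at this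

/-- **polynomials in `(j, θ)`** -/
theorem rep_eval₂ {θB : BS (Gamma M) M (subringC A)} {θA : LaurentSeries A}
    (hθ : Rep A M θB θA) (Ψ : Polynomial (Polynomial (subringC A))) :
    Rep A M (Ψ.eval₂ (polyB (Gamma M) M (subringC A)) θB)
      ((Ψ.map (Polynomial.mapRingHom (equivC A).symm.toRingHom)).eval₂
        ((aeval (jqModC A) : Polynomial A →ₐ[A] LaurentSeries A) :
          Polynomial A →+* LaurentSeries A) θA) := by
  induction Ψ using Polynomial.induction_on' with
  | add p q hp hq =>
    rw [eval₂_add, Polynomial.map_add, eval₂_add]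
    exact hp.add hq
  | monomial n c =>
    rw [← C_mul_X_pow_eq_monomial, eval₂_mul, eval₂_pow, eval₂_C, eval₂_X,
      Polynomial.map_mul, Polynomial.map_pow, Polynomial.map_C, Polynomial.map_X, eval₂_mul,
      eval₂_pow, eval₂_C, eval₂_X]
    exact (rep_polyB A M c).mul (hθ.pow n)

variable {A M}

/-- representation detects vanishing -/
theorem Rep.eq_zero_iff {f : BS (Gamma M) M (subringC A)} {Y : LaurentSeries A}
    (h : Rep A M f Y) : f = 0 ↔ Y = 0 := by
  unfold Rep at h
  constructor
  · intro hf
    rw [hf, ZeroMemClass.coe_zero, map_zero] at h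
    have h1 : qExpand ℂ M (coeffMap (toC A) Y) = qExpand ℂ M 0 := by rw [← h, map_zero]
    have h2 := ModularCurve.qExpand_injective M h1
    have h3 : coeffMap (toC A) Y = coeffMap (toC A) 0 := by rw [h2, map_zero]
    exact Fermat.Agent.S28.helper93.coeffMap_injective' _ (toC_injective A) h3
  · intro hY
    rw [hY, map_zero, map_zero] at h
    apply Subtype.ext
    apply EA_one_injective (Gamma M) M
    rw [h, ZeroMemClass.coe_zero, map_zero]

theorem Rep.unique {f : BS (Gamma M) M (subringC A)} {Y Z : LaurentSeries A}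
    (h1 : Rep A M f Y) (h2 : Rep A M f Z) : Y = Z := by
  unfold Rep at h1 h2
  rw [h1] at h2
  exact Fermat.Agent.S28.helper93.coeffMap_injective' _ (toC_injective A)
    (ModularCurve.qExpand_injective M h2)

/-- the `S`-integral expansion of a represented element -/
theorem Rep.ES_eq {f : BS (Gamma M) M (subringC A)} {Y : LaurentSeries A}
    (h : Rep A M f Y) :
    ES (Gamma M) M (subringC A) 1 f =
      qExpand (subringC A) M (coeffMap (equivC A).toRingHom Y) := by
  apply Fermat.Agent.S28.helper93.coeffMap_injective' (subringC A).subtype Subtype.val_injective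
  rw [coeffMap_ES, h, ModularCurve.coeffMap_qExpand, coeffMap_coeffMap]
  rfl

/-- **reduction** of a represented element -/
theorem Rep.EB_eq {f : BS (Gamma M) M (subringC A)} {Y : LaurentSeries A}
    (h : Rep A M f Y) :
    EB (Gamma M) M (subringC A) (rhoC A) 1 f =
      qExpand (kA A) M (coeffMap (IsLocalRing.residue A) Y) := by
  show coeffMap (rhoC A) (ES (Gamma M) M (subringC A) 1 f) = _
  have hre : (rhoC A).comp (equivC A).toRingHom = IsLocalRing.residue A := by
    ext a
    exact Fermat.Agent.P2.helper81.rhoC_equivC A a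
  rw [h.ES_eq, ModularCurve.coeffMap_qExpand, coeffMap_coeffMap, hre]

/-! ### The formal generators -/

section Gens

open Fermat.Agent.T4.helper24 Fermat.Agent.T4.helper32

/-- the formal generators of `X₁(M)` over a commutative ring `C` -/
def serR (C : Type*) [CommRing C] (M : ℕ) : Idx1 M → LaurentSeries C :=
  Sum.elim (fun d => if h : d.1 = 0 then 0 else haveI : NeZero d.1 := ⟨h⟩;
      qExpand C d.1 (jqModC C))
    (fun a => sSer C M a.1)

theorem coeffMap_serR {C C' : Type*} [CommRing C] [CommRing C'] (f : C →+* C') (M : ℕ)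
    (i : Idx1 M) : coeffMap f (serR C M i) = serR C' M i := by
  rcases i with d | a
  · simp only [serR, Sum.elim_inl]
    split_ifs with h
    · exact map_zero _
    · haveI : NeZero d.1 := ⟨h⟩
      rw [ModularCurve.coeffMap_qExpand, coeffMap_jqModC]
  · simp only [serR, Sum.elim_inr]
    exact Fermat.Agent.T4.helper33.coeffMap_sSer f M a.1

theorem ser_eq_serR (K : Type*) [Field K] [Algebra ℚ K] (M : ℕ) [NeZero M] (i : Idx1 M) :
    (x1Data M).ser K i = serR K M i := by
  have h1 : (x1Data M).serQ i = serR ℚ M i := by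
    rcases i with d | a
    · simp only [x1Data, serR, Sum.elim_inl, JdTQ]
      rfl
    · rfl
  rw [GenData.ser, h1, coeffEmb, coeffMap_serR]

end Gens

/-! ### Field generation -/

section FieldGen

variable {K : Type*} [Field K]

/-- polynomial expressions in `(j, θ)` lie in `K(j, θ)` -/
theorem eval₂_aeval_mem_adjoin (j θ : LaurentSeries K) (Q : Polynomial (Polynomial K)) :
    eval₂ ((aeval j : Polynomial K →ₐ[K] LaurentSeries K) : Polynomial K →+* LaurentSeries K) θ Q
      ∈ IntermediateField.adjoin K ({j, θ} : Set (LaurentSeries K)) := by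
  have hj : j ∈ IntermediateField.adjoin K ({j, θ} : Set (LaurentSeries K)) :=
    IntermediateField.subset_adjoin K _ (Set.mem_insert j _)
  have hθ : θ ∈ IntermediateField.adjoin K ({j, θ} : Set (LaurentSeries K)) :=
    IntermediateField.subset_adjoin K _ (Set.mem_insert_of_mem j rfl)
  have hp : ∀ p : Polynomial K, aeval j p ∈
      IntermediateField.adjoin K ({j, θ} : Set (LaurentSeries K)) := by
    intro p
    induction p using Polynomial.induction_on' with
    | add p q hp hq => rw [map_add]; exact add_mem hp hq
    | monomial n c =>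
      rw [← C_mul_X_pow_eq_monomial, map_mul, map_pow, aeval_C, aeval_X]
      exact mul_mem (IntermediateField.algebraMap_mem _ c) (pow_mem hj n)
  induction Q using Polynomial.induction_on' with
  | add p q hp' hq' => rw [eval₂_add]; exact add_mem hp' hq'
  | monomial n c =>
    rw [← C_mul_X_pow_eq_monomial, eval₂_mul, eval₂_pow, eval₂_C, eval₂_X]
    exact mul_mem (hp c) (pow_mem hθ n)

/-- a field generated by a family `g` is generated by `(j, θ)` as soon as `j, θ` lie in it and
`g i * D ∈ K(j, θ)` for a common nonzero denominator `D ∈ K(j, θ)` -/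
theorem adjoin_range_eq_adjoin_pair {ι : Type*} (g : ι → LaurentSeries K)
    (j θ D : LaurentSeries K)
    (hj : j ∈ IntermediateField.adjoin K (Set.range g))
    (hθ : θ ∈ IntermediateField.adjoin K (Set.range g))
    (hD : D ≠ 0) (hDmem : D ∈ IntermediateField.adjoin K ({j, θ} : Set (LaurentSeries K)))
    (hN : ∀ i, g i * D ∈ IntermediateField.adjoin K ({j, θ} : Set (LaurentSeries K))) :
    IntermediateField.adjoin K (Set.range g) =
      IntermediateField.adjoin K ({j, θ} : Set (LaurentSeries K)) := by
  apply le_antisymm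
  · rw [IntermediateField.adjoin_le_iff]
    rintro _ ⟨i, rfl⟩
    have h1 : g i = g i * D / D := by rw [mul_div_assoc, div_self hD, mul_one]
    rw [SetLike.mem_coe, h1]
    exact div_mem (hN i) hDmem
  · rw [IntermediateField.adjoin_le_iff]
    rintro x (rfl | hx)
    · exact hj
    · rw [Set.mem_singleton_iff] at hx
      rw [hx]
      exact hθ

end FieldGen

/-! ### The combination `θ` as a formal series -/

section Theta

open Fermat.Agent.T4.helper24 Fermat.Agent.T4.helper32

/-- the formal combination `∑ c^i ser_{e i}` -/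
def thetaR (C : Type*) [CommRing C] (M : ℕ) {m : ℕ} (e : Fin m → Idx1 M) (c : C) :
    LaurentSeries C :=
  ∑ i : Fin m, HahnSeries.C c ^ (i : ℕ) * serR C M (e i)

theorem coeffMap_C' {C C' : Type*} [CommRing C] [CommRing C'] (f : C →+* C') (c : C) :
    coeffMap f (HahnSeries.C c : LaurentSeries C) = HahnSeries.C (f c) := by
  ext n
  rw [coeffMap_coeff, HahnSeries.C_apply, HahnSeries.C_apply]
  by_cases hn : n = 0
  · subst hn
    simp
  · rw [HahnSeries.coeff_single_of_ne hn, HahnSeries.coeff_single_of_ne hn, map_zero]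

theorem coeffMap_thetaR {C C' : Type*} [CommRing C] [CommRing C'] (f : C →+* C') (M : ℕ)
    {m : ℕ} (e : Fin m → Idx1 M) (c : C) :
    coeffMap f (thetaR C M e c) = thetaR C' M e (f c) := by
  rw [thetaR, thetaR, map_sum]
  refine Finset.sum_congr rfl (fun i _ => ?_)
  rw [map_mul, map_pow, coeffMap_C', coeffMap_serR]

theorem thetaR_mem_adjoin {K : Type*} [Field K] (M : ℕ) {m : ℕ} (e : Fin m → Idx1 M) (c : K) :
    thetaR K M e c ∈ IntermediateField.adjoin K (Set.range (serR K M)) := by
  rw [thetaR]
  refine sum_mem (fun i _ => mul_mem (pow_mem ?_ _)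
    (IntermediateField.subset_adjoin K _ ⟨e i, rfl⟩))
  rw [← Fermat.Agent.S28.helper93.algebraMap_laurent_eq_C]
  exact IntermediateField.algebraMap_mem _ c

end Theta

end Fermat.Agent.T4.helper4.Ig

end
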