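import Mathlib

/-!
# T4 block (I), IGUSA1, leaf [IG-GRP] (helper35): a group lemma in `SL₂(ℤ/M)`

* `sl2_closure_unipotent_eq_top` : `SL₂(ℤ/M)` (`M ≠ 0`) is generated by the upper and lower
  unipotent matrices `sl2U x = (1 x; 0 1)`, `sl2L x = (1 0; x 1)`.
* `sl2_eq_top_of_trans` : a subgroup `D` of `SL₂(ℤ/M)` containing `T = (1 1; 0 1)` with
  `D · Borel = SL₂(ℤ/M)` (`Borel` = upper triangular matrices) is everything.
* `sl2_eq_top_of_trans_comap` : the same for a subgroup of a quotient of `SL₂(ℤ/M)`.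
* `sl2_mem_or_neg_mem_of_trans` : the variant modulo `± 1`.
-/

set_option autoImplicit false
set_option linter.unusedSimpArgs false

namespace Fermat.Agent.T4.helper35

open Matrix

section Ring

variable {R : Type*} [CommRing R]

/-- the upper unipotent matrix `(1 x; 0 1)` -/
def sl2U (x : R) : SpecialLinearGroup (Fin 2) R :=
  ⟨!![1, x; 0, 1], by simp [Matrix.det_fin_two]⟩

/-- the lower unipotent matrix `(1 0; x 1)` -/
def sl2L (x : R) : SpecialLinearGroup (Fin 2) R :=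
  ⟨!![1, 0; x, 1], by simp [Matrix.det_fin_two]⟩

/-- the matrix `(0 -1; 1 0)` -/
def sl2S : SpecialLinearGroup (Fin 2) R :=
  ⟨!![0, -1; 1, 0], by simp [Matrix.det_fin_two]⟩

@[simp] theorem sl2U_coe (x : R) :
    (sl2U x : Matrix (Fin 2) (Fin 2) R) = !![1, x; 0, 1] := rfl

@[simp] theorem sl2L_coe (x : R) :
    (sl2L x : Matrix (Fin 2) (Fin 2) R) = !![1, 0; x, 1] := rfl

@[simp] theorem sl2S_coe :
    (sl2S : SpecialLinearGroup (Fin 2) R).1 = !![0, -1; 1, 0] := rfl

theorem sl2_ext {g h : SpecialLinearGroup (Fin 2) R} (h00 : g 0 0 = h 0 0)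
    (h01 : g 0 1 = h 0 1) (h10 : g 1 0 = h 1 0) (h11 : g 1 1 = h 1 1) : g = h := by
  apply Matrix.SpecialLinearGroup.ext
  intro i j
  fin_cases i <;> fin_cases j
  · exact h00
  · exact h01
  · exact h10
  · exact h11

theorem sl2_det (g : SpecialLinearGroup (Fin 2) R) :
    g 0 0 * g 1 1 - g 0 1 * g 1 0 = 1 := by
  have := g.2
  rw [Matrix.det_fin_two] at this
  exact this

theorem sl2_mul_apply (g h : SpecialLinearGroup (Fin 2) R) (i j : Fin 2) :
    (g * h) i j = g i 0 * h 0 j + g i 1 * h 1 j := by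
  show ((g * h : SpecialLinearGroup (Fin 2) R) : Matrix (Fin 2) (Fin 2) R) i j = _
  rw [Matrix.SpecialLinearGroup.coe_mul, Matrix.mul_apply, Fin.sum_univ_two]

@[simp] theorem sl2U_apply_zero_zero (x : R) : sl2U x 0 0 = 1 := rfl
@[simp] theorem sl2U_apply_zero_one (x : R) : sl2U x 0 1 = x := rfl
@[simp] theorem sl2U_apply_one_zero (x : R) : sl2U x 1 0 = 0 := rfl
@[simp] theorem sl2U_apply_one_one (x : R) : sl2U x 1 1 = 1 := rfl
@[simp] theorem sl2L_apply_zero_zero (x : R) : sl2L x 0 0 = 1 := rfl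
@[simp] theorem sl2L_apply_zero_one (x : R) : sl2L x 0 1 = 0 := rfl
@[simp] theorem sl2L_apply_one_zero (x : R) : sl2L x 1 0 = x := rfl
@[simp] theorem sl2L_apply_one_one (x : R) : sl2L x 1 1 = 1 := rfl
@[simp] theorem sl2S_apply_zero_zero : (sl2S : SpecialLinearGroup (Fin 2) R) 0 0 = 0 := rfl
@[simp] theorem sl2S_apply_zero_one : (sl2S : SpecialLinearGroup (Fin 2) R) 0 1 = -1 := rfl
@[simp] theorem sl2S_apply_one_zero : (sl2S : SpecialLinearGroup (Fin 2) R) 1 0 = 1 := rfl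
@[simp] theorem sl2S_apply_one_one : (sl2S : SpecialLinearGroup (Fin 2) R) 1 1 = 0 := rfl

theorem sl2U_add (x y : R) : sl2U (x + y) = sl2U x * sl2U y := by
  apply sl2_ext <;> simp [sl2_mul_apply, add_comm]

theorem sl2U_zero : sl2U (0 : R) = 1 := by
  apply sl2_ext <;> simp

theorem sl2L_add (x y : R) : sl2L (x + y) = sl2L x * sl2L y := by
  apply sl2_ext <;> simp [sl2_mul_apply]

theorem sl2L_zero : sl2L (0 : R) = 1 := by
  apply sl2_ext <;> simp

theorem sl2U_natCast (n : ℕ) : sl2U (n : R) = sl2U 1 ^ n := by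
  induction n with
  | zero => simp [sl2U_zero]
  | succ n ih => rw [Nat.cast_succ, sl2U_add, ih, pow_succ]

theorem sl2U_neg (x : R) : sl2U (-x) = (sl2U x)⁻¹ := by
  rw [eq_inv_iff_mul_eq_one, ← sl2U_add, neg_add_cancel, sl2U_zero]

/-- `S (1 y; 0 1) S⁻¹ = (1 0; -y 1)` -/
theorem sl2S_mul_sl2U (y : R) : sl2S * sl2U y = sl2L (-y) * sl2S := by
  apply sl2_ext <;> simp [sl2_mul_apply]

theorem sl2L_eq_conj (x : R) : sl2L x = sl2S * sl2U (-x) * sl2S⁻¹ := by
  rw [sl2S_mul_sl2U, neg_neg, mul_inv_cancel_right]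

/-- an upper triangular matrix normalises the upper unipotent group -/
theorem sl2_borel_mul_sl2U (b : SpecialLinearGroup (Fin 2) R) (hb : b 1 0 = 0) (x : R) :
    b * sl2U x = sl2U (b 0 0 ^ 2 * x) * b := by
  have hdet := sl2_det b
  rw [hb, mul_zero, sub_zero] at hdet
  apply sl2_ext
  · simp [sl2_mul_apply, hb]
  · simp only [sl2_mul_apply, sl2U_apply_zero_one, sl2U_apply_one_one, sl2U_apply_zero_zero]
    linear_combination (-(b 0 0 * x)) * hdet
  · simp [sl2_mul_apply, hb]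
  · simp [sl2_mul_apply, hb]

/-- the subgroup generated by the upper and lower unipotent matrices -/
def sl2E (R : Type*) [CommRing R] : Subgroup (SpecialLinearGroup (Fin 2) R) :=
  Subgroup.closure (Set.range sl2U ∪ Set.range sl2L)

theorem sl2U_mem_sl2E (x : R) : sl2U x ∈ sl2E R :=
  Subgroup.subset_closure (Or.inl ⟨x, rfl⟩)

theorem sl2L_mem_sl2E (x : R) : sl2L x ∈ sl2E R :=
  Subgroup.subset_closure (Or.inr ⟨x, rfl⟩)

/-- the matrix `(0 a; -a' 0)` for `a a' = 1` -/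
def sl2W (a a' : R) (h : a * a' = 1) : SpecialLinearGroup (Fin 2) R :=
  ⟨!![0, a; -a', 0], by simp [Matrix.det_fin_two, h]⟩

/-- the matrix `(a 0; 0 a')` for `a a' = 1` -/
def sl2Diag (a a' : R) (h : a * a' = 1) : SpecialLinearGroup (Fin 2) R :=
  ⟨!![a, 0; 0, a'], by simp [Matrix.det_fin_two, h]⟩

@[simp] theorem sl2W_apply_zero_zero (a a' : R) (h : a * a' = 1) : sl2W a a' h 0 0 = 0 := rfl
@[simp] theorem sl2W_apply_zero_one (a a' : R) (h : a * a' = 1) : sl2W a a' h 0 1 = a := rfl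
@[simp] theorem sl2W_apply_one_zero (a a' : R) (h : a * a' = 1) : sl2W a a' h 1 0 = -a' := rfl
@[simp] theorem sl2W_apply_one_one (a a' : R) (h : a * a' = 1) : sl2W a a' h 1 1 = 0 := rfl
@[simp] theorem sl2Diag_apply_zero_zero (a a' : R) (h : a * a' = 1) :
    sl2Diag a a' h 0 0 = a := rfl
@[simp] theorem sl2Diag_apply_zero_one (a a' : R) (h : a * a' = 1) :
    sl2Diag a a' h 0 1 = 0 := rfl
@[simp] theorem sl2Diag_apply_one_zero (a a' : R) (h : a * a' = 1) :
    sl2Diag a a' h 1 0 = 0 := rfl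
@[simp] theorem sl2Diag_apply_one_one (a a' : R) (h : a * a' = 1) :
    sl2Diag a a' h 1 1 = a' := rfl

theorem sl2W_eq (a a' : R) (h : a * a' = 1) :
    sl2W a a' h = sl2U a * sl2L (-a') * sl2U a := by
  apply sl2_ext
  · simp only [sl2_mul_apply, sl2U_apply_zero_zero, sl2U_apply_zero_one, sl2U_apply_one_zero,
      sl2U_apply_one_one, sl2L_apply_zero_zero, sl2L_apply_zero_one, sl2L_apply_one_zero,
      sl2L_apply_one_one, sl2W_apply_zero_zero]
    linear_combination h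
  · simp only [sl2_mul_apply, sl2U_apply_zero_zero, sl2U_apply_zero_one, sl2U_apply_one_zero,
      sl2U_apply_one_one, sl2L_apply_zero_zero, sl2L_apply_zero_one, sl2L_apply_one_zero,
      sl2L_apply_one_one, sl2W_apply_zero_one]
    linear_combination a * h
  · simp only [sl2_mul_apply, sl2U_apply_zero_zero, sl2U_apply_zero_one, sl2U_apply_one_zero,
      sl2U_apply_one_one, sl2L_apply_zero_zero, sl2L_apply_zero_one, sl2L_apply_one_zero,
      sl2L_apply_one_one, sl2W_apply_one_zero]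
    ring
  · simp only [sl2_mul_apply, sl2U_apply_zero_zero, sl2U_apply_zero_one, sl2U_apply_one_zero,
      sl2U_apply_one_one, sl2L_apply_zero_zero, sl2L_apply_zero_one, sl2L_apply_one_zero,
      sl2L_apply_one_one, sl2W_apply_one_one]
    linear_combination h

theorem sl2S_eq : (sl2S : SpecialLinearGroup (Fin 2) R) = sl2U (-1) * sl2L 1 * sl2U (-1) := by
  apply sl2_ext <;> simp [sl2_mul_apply]

theorem sl2Diag_eq (a a' : R) (h : a * a' = 1) : sl2Diag a a' h = sl2W a a' h * sl2S := by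
  apply sl2_ext <;> simp [sl2_mul_apply]

theorem sl2S_mem_sl2E : (sl2S : SpecialLinearGroup (Fin 2) R) ∈ sl2E R := by
  rw [sl2S_eq]
  exact (sl2E R).mul_mem ((sl2E R).mul_mem (sl2U_mem_sl2E _) (sl2L_mem_sl2E _))
    (sl2U_mem_sl2E _)

theorem sl2W_mem_sl2E (a a' : R) (h : a * a' = 1) : sl2W a a' h ∈ sl2E R := by
  rw [sl2W_eq]
  exact (sl2E R).mul_mem ((sl2E R).mul_mem (sl2U_mem_sl2E _) (sl2L_mem_sl2E _))
    (sl2U_mem_sl2E _)

theorem sl2Diag_mem_sl2E (a a' : R) (h : a * a' = 1) : sl2Diag a a' h ∈ sl2E R := by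
  rw [sl2Diag_eq]
  exact (sl2E R).mul_mem (sl2W_mem_sl2E a a' h) sl2S_mem_sl2E

/-- a matrix whose upper left entry is a unit is a product of unipotent matrices -/
theorem sl2_mem_sl2E_of_isUnit (g : SpecialLinearGroup (Fin 2) R) (hg : IsUnit (g 0 0)) :
    g ∈ sl2E R := by
  obtain ⟨a', ha'⟩ := hg.exists_right_inv
  have hdet := sl2_det g
  have key : g = sl2L (g 1 0 * a') * sl2Diag (g 0 0) a' ha' * sl2U (a' * g 0 1) := by
    apply sl2_ext
    · simp [sl2_mul_apply]
    · simp only [sl2_mul_apply, sl2U_apply_zero_zero, sl2U_apply_zero_one, sl2U_apply_one_zero,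
        sl2U_apply_one_one, sl2L_apply_zero_zero, sl2L_apply_zero_one, sl2L_apply_one_zero,
        sl2L_apply_one_one, sl2Diag_apply_zero_zero, sl2Diag_apply_zero_one,
        sl2Diag_apply_one_zero, sl2Diag_apply_one_one]
      linear_combination (-(g 0 1)) * ha'
    · simp only [sl2_mul_apply, sl2U_apply_zero_zero, sl2U_apply_zero_one, sl2U_apply_one_zero,
        sl2U_apply_one_one, sl2L_apply_zero_zero, sl2L_apply_zero_one, sl2L_apply_one_zero,
        sl2L_apply_one_one, sl2Diag_apply_zero_zero, sl2Diag_apply_zero_one,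
        sl2Diag_apply_one_zero, sl2Diag_apply_one_one]
      linear_combination (-(g 1 0)) * ha'
    · simp only [sl2_mul_apply, sl2U_apply_zero_zero, sl2U_apply_zero_one, sl2U_apply_one_zero,
        sl2U_apply_one_one, sl2L_apply_zero_zero, sl2L_apply_zero_one, sl2L_apply_one_zero,
        sl2L_apply_one_one, sl2Diag_apply_zero_zero, sl2Diag_apply_zero_one,
        sl2Diag_apply_one_zero, sl2Diag_apply_one_one]
      linear_combination (-(g 1 0 * a' * g 0 1) - g 1 1) * ha' + a' * hdet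
  rw [key]
  exact (sl2E R).mul_mem ((sl2E R).mul_mem (sl2L_mem_sl2E _) (sl2Diag_mem_sl2E _ _ _))
    (sl2U_mem_sl2E _)

/-- if some `g 0 0 + t * g 1 0` is a unit then `g` is a product of unipotent matrices -/
theorem sl2_mem_sl2E_of_exists_isUnit (g : SpecialLinearGroup (Fin 2) R)
    (hg : ∃ t : R, IsUnit (g 0 0 + t * g 1 0)) : g ∈ sl2E R := by
  obtain ⟨t, ht⟩ := hg
  have h1 : sl2U t * g ∈ sl2E R := by
    apply sl2_mem_sl2E_of_isUnit
    simpa [sl2_mul_apply] using ht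
  have h2 : g = (sl2U t)⁻¹ * (sl2U t * g) := by group
  rw [h2]
  exact (sl2E R).mul_mem ((sl2E R).inv_mem (sl2U_mem_sl2E _)) h1

end Ring

section ZModSec

variable {M : ℕ} [NeZero M]

/-- In `SL₂(ℤ/M)` the first column can be made to start with a unit by an upper unipotent
matrix: there is `t` with `a + t c` a unit. -/
theorem sl2_exists_isUnit (g : SpecialLinearGroup (Fin 2) (ZMod M)) :
    ∃ t : ZMod M, IsUnit (g 0 0 + t * g 1 0) := by
  have hM : M ≠ 0 := NeZero.ne M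
  have hdet := sl2_det g
  -- no prime factor of `M` divides both `a` and `c`
  have huni : ∀ p : ℕ, p.Prime → p ∣ M → p ∣ (g 0 0).val → p ∣ (g 1 0).val → False := by
    intro p hp hpM hpa hpc
    have h0 : (((g 0 0).val * (g 1 1).val - (g 0 1).val * (g 1 0).val - 1 : ℤ) : ZMod M) = 0 := by
      push_cast
      simp only [ZMod.natCast_zmod_val]
      linear_combination hdet
    have h1 : (M : ℤ) ∣ ((g 0 0).val * (g 1 1).val - (g 0 1).val * (g 1 0).val - 1 : ℤ) :=
      (ZMod.intCast_zmod_eq_zero_iff_dvd _ M).1 h0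
    have h2 : (p : ℤ) ∣ ((g 0 0).val * (g 1 1).val - (g 0 1).val * (g 1 0).val - 1 : ℤ) :=
      (Int.natCast_dvd_natCast.2 hpM).trans h1
    have h3 : (p : ℤ) ∣ ((g 0 0).val : ℤ) * ((g 1 1).val : ℤ) :=
      Dvd.dvd.mul_right (Int.natCast_dvd_natCast.2 hpa) _
    have h4 : (p : ℤ) ∣ ((g 0 1).val : ℤ) * ((g 1 0).val : ℤ) :=
      Dvd.dvd.mul_left (Int.natCast_dvd_natCast.2 hpc) _
    have h5 : (p : ℤ) ∣ 1 := by
      have := dvd_sub (dvd_sub h3 h4) h2
      have e : ((g 0 0).val : ℤ) * ((g 1 1).val : ℤ) - ((g 0 1).val : ℤ) * ((g 1 0).val : ℤ) -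
          (((g 0 0).val : ℤ) * ((g 1 1).val : ℤ) - ((g 0 1).val : ℤ) * ((g 1 0).val : ℤ) - 1)
            = 1 := by ring
      rwa [e] at this
    have h6 : p ∣ 1 := by exact_mod_cast h5
    exact hp.one_lt.ne' (Nat.dvd_one.1 h6)
  -- the multiplier
  obtain ⟨t₀, ht₀⟩ : ∃ t₀ : ℕ, t₀ = ∏ p ∈ M.primeFactors.filter (fun p => ¬ p ∣ (g 0 0).val), p :=
    ⟨_, rfl⟩
  have hcop : ((g 0 0).val + t₀ * (g 1 0).val).Coprime M := by
    apply Nat.coprime_of_dvd
    intro p hp hpx hpM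
    by_cases hpa : p ∣ (g 0 0).val
    · have h1 : p ∣ t₀ * (g 1 0).val := (Nat.dvd_add_right hpa).1 hpx
      rcases hp.dvd_mul.1 h1 with h2 | h2
      · rw [ht₀] at h2
        obtain ⟨q, hq, hpq⟩ := (hp.prime.dvd_finsetProd_iff _).1 h2
        rw [Finset.mem_filter, Nat.mem_primeFactors] at hq
        have : p = q := (Nat.prime_dvd_prime_iff_eq hp hq.1.1).1 hpq
        exact hq.2 (this ▸ hpa)
      · exact huni p hp hpM hpa h2
    · have hmem : p ∈ M.primeFactors.filter (fun p => ¬ p ∣ (g 0 0).val) :=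
        Finset.mem_filter.2 ⟨Nat.mem_primeFactors.2 ⟨hp, hpM, hM⟩, hpa⟩
      have h1 : p ∣ t₀ := by
        rw [ht₀]
        exact Finset.dvd_prod_of_mem _ hmem
      have h2 : p ∣ t₀ * (g 1 0).val := Dvd.dvd.mul_right h1 _
      exact hpa ((Nat.dvd_add_left h2).1 hpx)
  refine ⟨(t₀ : ZMod M), ?_⟩
  have e : g 0 0 + (t₀ : ZMod M) * g 1 0 =
      (((g 0 0).val + t₀ * (g 1 0).val : ℕ) : ZMod M) := by
    push_cast
    simp only [ZMod.natCast_zmod_val]
  rw [e]
  exact (ZMod.isUnit_iff_coprime _ M).2 hcop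

/-- `SL₂(ℤ/M)` is generated by the upper and lower unipotent matrices. -/
theorem sl2_closure_unipotent_eq_top : sl2E (ZMod M) = ⊤ := by
  rw [eq_top_iff]
  intro g _
  exact sl2_mem_sl2E_of_exists_isUnit g (sl2_exists_isUnit g)

/-- **[IG-GRP]** a subgroup of `SL₂(ℤ/M)` containing `T = (1 1; 0 1)` and transitive on
`SL₂(ℤ/M) / Borel` is everything. -/
theorem sl2_eq_top_of_trans (D : Subgroup (SpecialLinearGroup (Fin 2) (ZMod M)))
    (T : SpecialLinearGroup (Fin 2) (ZMod M))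
    (hT : (T : Matrix (Fin 2) (Fin 2) (ZMod M)) = !![1, 1; 0, 1]) (hTD : T ∈ D)
    (htrans : ∀ g : SpecialLinearGroup (Fin 2) (ZMod M), ∃ d ∈ D,
      ∃ b : SpecialLinearGroup (Fin 2) (ZMod M), b 1 0 = 0 ∧ g = d * b) :
    D = ⊤ := by
  have hT1 : T = sl2U 1 := Subtype.ext hT
  -- the upper unipotent group
  have hU : ∀ x : ZMod M, sl2U x ∈ D := by
    intro x
    have : sl2U x = T ^ x.val := by
      rw [hT1, ← sl2U_natCast, ZMod.natCast_zmod_val]
    rw [this]
    exact D.pow_mem hTD _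
  -- its conjugates
  have hconj : ∀ (g : SpecialLinearGroup (Fin 2) (ZMod M)) (x : ZMod M),
      g * sl2U x * g⁻¹ ∈ D := by
    intro g x
    obtain ⟨d, hd, b, hb, rfl⟩ := htrans g
    have : d * b * sl2U x * (d * b)⁻¹ = d * sl2U (b 0 0 ^ 2 * x) * d⁻¹ := by
      rw [mul_assoc d b, sl2_borel_mul_sl2U b hb x]
      group
    rw [this]
    exact D.mul_mem (D.mul_mem hd (hU _)) (D.inv_mem hd)
  -- the lower unipotent group
  have hL : ∀ x : ZMod M, sl2L x ∈ D := by
    intro x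
    rw [sl2L_eq_conj]
    exact hconj _ _
  have hE : sl2E (ZMod M) ≤ D := by
    rw [sl2E, Subgroup.closure_le]
    rintro _ (⟨x, rfl⟩ | ⟨x, rfl⟩)
    · exact hU x
    · exact hL x
  rw [sl2_closure_unipotent_eq_top] at hE
  exact top_le_iff.1 hE

/-- the inverse of an upper triangular matrix is upper triangular -/
theorem sl2_inv_apply_one_zero {R : Type*} [CommRing R] (b : SpecialLinearGroup (Fin 2) R) :
    b⁻¹ 1 0 = - b 1 0 := by
  rw [Matrix.SpecialLinearGroup.coe_inv, Matrix.adjugate_fin_two]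
  simp

/-- **[IG-GRP]**, right-coset form: `SL₂(ℤ/M) = Borel · D`. -/
theorem sl2_eq_top_of_trans_right (D : Subgroup (SpecialLinearGroup (Fin 2) (ZMod M)))
    (T : SpecialLinearGroup (Fin 2) (ZMod M))
    (hT : (T : Matrix (Fin 2) (Fin 2) (ZMod M)) = !![1, 1; 0, 1]) (hTD : T ∈ D)
    (htrans : ∀ g : SpecialLinearGroup (Fin 2) (ZMod M), ∃ d ∈ D,
      ∃ b : SpecialLinearGroup (Fin 2) (ZMod M), b 1 0 = 0 ∧ g = b * d) :
    D = ⊤ := by
  refine sl2_eq_top_of_trans D T hT hTD (fun g => ?_)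
  obtain ⟨d, hd, b, hb, hg⟩ := htrans g⁻¹
  refine ⟨d⁻¹, D.inv_mem hd, b⁻¹, ?_, ?_⟩
  · rw [sl2_inv_apply_one_zero, hb, neg_zero]
  · rw [← _root_.mul_inv_rev, ← hg, inv_inv]

/-- **[IG-GRP]**, quotient form: the same for a subgroup of a quotient `π : SL₂(ℤ/M) → G'`
(for instance `SL₂(ℤ/M) / ± 1`). -/
theorem sl2_eq_top_of_trans_comap {G' : Type*} [Group G']
    (π : SpecialLinearGroup (Fin 2) (ZMod M) →* G') (hπ : Function.Surjective π)
    (D : Subgroup G') (T : SpecialLinearGroup (Fin 2) (ZMod M))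
    (hT : (T : Matrix (Fin 2) (Fin 2) (ZMod M)) = !![1, 1; 0, 1]) (hTD : π T ∈ D)
    (htrans : ∀ g : SpecialLinearGroup (Fin 2) (ZMod M),
      ∃ d : SpecialLinearGroup (Fin 2) (ZMod M), π d ∈ D ∧
        ∃ b : SpecialLinearGroup (Fin 2) (ZMod M), b 1 0 = 0 ∧ g = d * b) :
    D = ⊤ := by
  have h := sl2_eq_top_of_trans (D.comap π) T hT hTD
    (fun g => by
      obtain ⟨d, hd, b, hb, hg⟩ := htrans g
      exact ⟨d, hd, b, hb, hg⟩)
  rw [eq_top_iff]
  intro x _
  obtain ⟨g, rfl⟩ := hπ x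
  have : g ∈ D.comap π := by rw [h]; exact Subgroup.mem_top g
  exact this

/-- **[IG-GRP]**, the variant modulo `± 1`: if `T` or `-T` lies in `D` and
`SL₂(ℤ/M) = ± D · Borel`, then every `g` or its negative lies in `D`. -/
theorem sl2_mem_or_neg_mem_of_trans (D : Subgroup (SpecialLinearGroup (Fin 2) (ZMod M)))
    (T : SpecialLinearGroup (Fin 2) (ZMod M))
    (hT : (T : Matrix (Fin 2) (Fin 2) (ZMod M)) = !![1, 1; 0, 1]) (hTD : T ∈ D ∨ -T ∈ D)
    (htrans : ∀ g : SpecialLinearGroup (Fin 2) (ZMod M),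
      ∃ d : SpecialLinearGroup (Fin 2) (ZMod M), (d ∈ D ∨ -d ∈ D) ∧
        ∃ b : SpecialLinearGroup (Fin 2) (ZMod M), b 1 0 = 0 ∧ g = d * b)
    (g : SpecialLinearGroup (Fin 2) (ZMod M)) : g ∈ D ∨ -g ∈ D := by
  -- the subgroup `± D`
  let Dpm : Subgroup (SpecialLinearGroup (Fin 2) (ZMod M)) :=
    { carrier := {g | g ∈ D ∨ -g ∈ D}
      mul_mem' := by
        rintro x y (hx | hx) (hy | hy)
        · exact Or.inl (D.mul_mem hx hy)
        · refine Or.inr ?_
          have : -(x * y) = x * -y := by rw [mul_neg]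
          rw [this]
          exact D.mul_mem hx hy
        · refine Or.inr ?_
          have : -(x * y) = -x * y := by rw [neg_mul]
          rw [this]
          exact D.mul_mem hx hy
        · refine Or.inl ?_
          have : x * y = -x * -y := by rw [neg_mul_neg]
          rw [this]
          exact D.mul_mem hx hy
      one_mem' := Or.inl D.one_mem
      inv_mem' := by
        rintro x (hx | hx)
        · exact Or.inl (D.inv_mem hx)
        · refine Or.inr ?_
          have : -x⁻¹ = (-x)⁻¹ := by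
            rw [eq_inv_iff_mul_eq_one, neg_mul_neg, inv_mul_cancel]
          rw [this]
          exact D.inv_mem hx }
  have h := sl2_eq_top_of_trans Dpm T hT hTD htrans
  have : g ∈ Dpm := by rw [h]; exact Subgroup.mem_top g
  exact this

omit [NeZero M] in
/-- the reduction of `ModularGroup.T` is `(1 1; 0 1)` -/
theorem sl2_map_T_coe :
    ((Matrix.SpecialLinearGroup.map (Int.castRingHom (ZMod M)) ModularGroup.T :
      SpecialLinearGroup (Fin 2) (ZMod M)) : Matrix (Fin 2) (Fin 2) (ZMod M)) =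
        !![1, 1; 0, 1] := by
  rw [Matrix.SpecialLinearGroup.map_apply_coe]
  show (Int.castRingHom (ZMod M)).mapMatrix !![1, 1; 0, 1] = _
  ext i j
  fin_cases i <;> fin_cases j <;> simp [RingHom.mapMatrix_apply]

/-- **[IG-GRP]** with `T` the reduction of `ModularGroup.T`. -/
theorem sl2_eq_top_of_trans_T (D : Subgroup (SpecialLinearGroup (Fin 2) (ZMod M)))
    (hTD : Matrix.SpecialLinearGroup.map (Int.castRingHom (ZMod M)) ModularGroup.T ∈ D)
    (htrans : ∀ g : SpecialLinearGroup (Fin 2) (ZMod M), ∃ d ∈ D,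
      ∃ b : SpecialLinearGroup (Fin 2) (ZMod M), b 1 0 = 0 ∧ g = d * b) :
    D = ⊤ :=
  sl2_eq_top_of_trans D _ sl2_map_T_coe hTD htrans

end ZModSec

end Fermat.Agent.T4.helper35
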