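import Mathlib
import Fermat.Agent.T4.helper35_SL2Gen
import Fermat.Agent.T4.helper4_IgusaDefs

/-!
# T4 block (I), IGUSA1, leaf [IG-GRP-Z] (helper32): the group lemma in `SL(2, ℤ)`

`sl2z_eq_top_of_trans` : a subgroup `D` of `SL(2, ℤ)` containing `Γ(M)` and `T` which meets every
coset `g Γ₀(M)` is everything; `groupStatement M : helper4.Ig.GroupStatement M` (verbatim).
No surjectivity of the reduction `SL(2, ℤ) → SL(2, ℤ/M)` is needed: for `b ∈ Γ₀(M)` the conjugate
`b T b⁻¹` is congruent to a power of `T` modulo `Γ(M)`, so `D` contains all conjugates of `T`,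
hence `S = T⁻¹ (S T⁻¹ S⁻¹) T⁻¹` and `SL(2, ℤ) = ⟨S, T⟩`.
-/

set_option autoImplicit false

namespace Fermat.Agent.T4.helper32.Conj1

open CongruenceSubgroup Matrix
open scoped MatrixGroups

theorem modT_eq_sl2U : ModularGroup.T = helper35.sl2U (1 : ℤ) := by
  apply helper35.sl2_ext <;> simp [ModularGroup.T]

theorem modS_eq_sl2S : ModularGroup.S = (helper35.sl2S : SL(2, ℤ)) := by
  apply helper35.sl2_ext <;> simp [ModularGroup.S, helper35.sl2S]

/-- **group lemma in `SL(2, ℤ)`**: a subgroup containing `Γ(M)` and `T` which meets every coset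
`g Γ₀(M)` is everything. -/
theorem sl2z_eq_top_of_trans (M : ℕ) [NeZero M] (D : Subgroup SL(2, ℤ)) (hΓ : Gamma M ≤ D)
    (hT : ModularGroup.T ∈ D) (h : ∀ g : SL(2, ℤ), ∃ d ∈ D, d⁻¹ * g ∈ Gamma0 M) : D = ⊤ := by
  -- conjugates of `T` by `Γ₀(M)`
  have hb : ∀ b ∈ Gamma0 M, b * ModularGroup.T * b⁻¹ ∈ D := by
    intro b hb
    rw [Gamma0_mem] at hb
    set π : SL(2, ℤ) →* SpecialLinearGroup (Fin 2) (ZMod M) :=
      SpecialLinearGroup.map (Int.castRingHom (ZMod M)) with hπ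
    have hb' : (π b) 1 0 = 0 := by
      rw [hπ, SpecialLinearGroup.map_apply_coe]
      simpa using hb
    have h1 := helper35.sl2_borel_mul_sl2U (π b) hb' 1
    have hπT : π ModularGroup.T = helper35.sl2U 1 := by
      rw [hπ]
      exact Subtype.ext helper35.sl2_map_T_coe
    set n : ℕ := ((π b) 0 0 ^ 2 * 1 : ZMod M).val with hn
    have h2 : helper35.sl2U ((π b) 0 0 ^ 2 * 1 : ZMod M) = π (ModularGroup.T ^ n) := by
      rw [map_pow, hπT, ← helper35.sl2U_natCast, hn, ZMod.natCast_zmod_val]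
    have h3 : b * ModularGroup.T * b⁻¹ * (ModularGroup.T ^ n)⁻¹ ∈ Gamma M := by
      rw [Gamma_mem']
      show π (b * ModularGroup.T * b⁻¹ * (ModularGroup.T ^ n)⁻¹) = 1
      rw [map_mul, map_mul, map_mul, map_inv, map_inv, hπT, h1, h2]
      group
    have h4 := D.mul_mem (hΓ h3) (D.pow_mem hT n)
    rwa [inv_mul_cancel_right] at h4
  have hconj : ∀ g : SL(2, ℤ), g * ModularGroup.T * g⁻¹ ∈ D := by
    intro g
    obtain ⟨d, hd, hdg⟩ := h g
    have h1 := D.mul_mem (D.mul_mem hd (hb _ hdg)) (D.inv_mem hd)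
    have e : d * (d⁻¹ * g * ModularGroup.T * (d⁻¹ * g)⁻¹) * d⁻¹ = g * ModularGroup.T * g⁻¹ := by
      group
    rwa [e] at h1
  have hU : helper35.sl2U (-1 : ℤ) ∈ D := by
    rw [helper35.sl2U_neg, ← modT_eq_sl2U]
    exact D.inv_mem hT
  have hL : helper35.sl2L (1 : ℤ) ∈ D := by
    rw [helper35.sl2L_eq_conj, helper35.sl2U_neg, ← modT_eq_sl2U, ← modS_eq_sl2S]
    have h1 := D.inv_mem (hconj ModularGroup.S)
    have e : (ModularGroup.S * ModularGroup.T * ModularGroup.S⁻¹)⁻¹ =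
        ModularGroup.S * ModularGroup.T⁻¹ * ModularGroup.S⁻¹ := by group
    rwa [e] at h1
  have hS : ModularGroup.S ∈ D := by
    rw [modS_eq_sl2S, helper35.sl2S_eq]
    exact D.mul_mem (D.mul_mem hU hL) hU
  rw [eq_top_iff, ← SpecialLinearGroup.SL2Z_generators, Subgroup.closure_le]
  rintro x (rfl | rfl)
  · exact hS
  · exact hT

/-- **[IG-GRP-Z]** `helper4.Ig.GroupStatement M`, verbatim. -/
theorem groupStatement (M : ℕ) [NeZero M] : Fermat.Agent.T4.helper4.Ig.GroupStatement M :=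
  fun D hΓ hT h => sl2z_eq_top_of_trans M D hΓ hT h

end Fermat.Agent.T4.helper32.Conj1
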