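/-
T4 block (I), IGUSA1 [IG-DED] (helper65, row 1151): the abstract DEDEKIND REDUCTION.

`B` a commutative ring with an action of a finite group `G` by ring automorphisms, `A0 → B` with
image the ring of invariants, `Q` a prime of `B`, `P = Q ∩ A0`.  Mathlib
(`IsFractionRing.stabilizerHom_surjective`, `Ideal.IsFractionRing.normal`): the decomposition
group `D = Stab_G(Q)` surjects onto `Aut(Frac(B/Q) / Frac(A0/P))` and the extension is normal.

Part 1 (Mathlib setting, `K = Frac(A0/P)`, `L = Frac(B/Q)` arbitrary models):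
* `ded_exists_stab_of_minpoly_eq`, `ded_exists_stab_of_aeval_irreducible`.
Part 2 (`ρ`-form: `Q = ker ρ` for a ring hom `ρ : B →+* 𝕃` into a field, no instances needed):
* `ded_mem_stabilizer_ker_of_forall` : `σ ∈ D` as soon as `σ` maps `ker ρ` into `ker ρ`;
* `ded_exists_stab_of_conj`   : conjugacy expressed by polynomials over `A0`;
* `ded_exists_stab_of_irreducible` : conjugacy from a monic irreducible polynomial over an
  integrally closed domain `R0` (e.g. `k[X]`) through which `ρ ∘ φ` factors;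
* `ded_transitive`, `ded_transitive_of_lift`, `ded_eq_mul_stab` : `D` is transitive on the orbit
  of `x` (i.e. `G = D · Stab_G(x)`) when the reductions of the distinct conjugates of `x` are
  distinct and are roots of one irreducible polynomial.
-/
import Mathlib

set_option autoImplicit false
set_option linter.style.haveILetI false
set_option linter.unusedSectionVars false
set_option linter.unusedVariables false

noncomputable section

open scoped Pointwise
open Polynomial

namespace Fermat.Agent.T4.helper65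

section Abstract

variable {A B : Type*} [CommRing A] [CommRing B] [Algebra A B]
  (G : Type*) [Group G] [Finite G] [MulSemiringAction G B] [SMulCommClass G A B]
  (P : Ideal A) (Q : Ideal B) [Q.IsPrime] [Q.LiesOver P]
  (K L : Type*) [Field K] [Field L]
  [Algebra (A ⧸ P) K] [Algebra (B ⧸ Q) L]
  [Algebra (A ⧸ P) L] [IsScalarTower (A ⧸ P) (B ⧸ Q) L]
  [Algebra K L] [IsScalarTower (A ⧸ P) K L]
  [Algebra.IsInvariant A B G]
  [IsFractionRing (A ⧸ P) K] [IsFractionRing (B ⧸ Q) L]

include P in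
/-- **(1)** every `K`-automorphism of `L = Frac(B/Q)` is induced by an element of the
decomposition group of `Q` (restatement of `IsFractionRing.stabilizerHom_surjective`). -/
theorem ded_aut_induced (τ : L ≃ₐ[K] L) :
    ∃ σ ∈ MulAction.stabilizer G Q, ∀ b : B,
      τ (algebraMap (B ⧸ Q) L (Ideal.Quotient.mk Q b)) =
        algebraMap (B ⧸ Q) L (Ideal.Quotient.mk Q (σ • b)) := by
  obtain ⟨σ, rfl⟩ := IsFractionRing.stabilizerHom_surjective G P Q K L τ
  exact ⟨σ.1, σ.2, fun b => IsFractionRing.stabilizerHom_apply_apply_mk G P Q K L σ b⟩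

include G P Q in
/-- the residue field extension `Frac(B/Q) / Frac(A/P)` is normal (Mathlib) -/
theorem ded_normal : Normal K L :=
  haveI : P.IsPrime := Ideal.over_def Q P ▸ Ideal.IsPrime.under A Q
  Ideal.IsFractionRing.normal G P Q K L

include P in
/-- **Dedekind, abstract form.**  If the residues of `x, y ∈ B` in `L = Frac(B/Q)` have the same
minimal polynomial over `K = Frac(A/P)`, some element of the decomposition group of `Q` maps
`y mod Q` to `x mod Q`. -/
theorem ded_exists_stab_of_minpoly_eq (x y : B)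
    (h : minpoly K (algebraMap (B ⧸ Q) L (Ideal.Quotient.mk Q x)) =
      minpoly K (algebraMap (B ⧸ Q) L (Ideal.Quotient.mk Q y))) :
    ∃ σ ∈ MulAction.stabilizer G Q,
      Ideal.Quotient.mk Q (σ • y) = Ideal.Quotient.mk Q x := by
  haveI : P.IsPrime := Ideal.over_def Q P ▸ Ideal.IsPrime.under A Q
  haveI : Normal K L := Ideal.IsFractionRing.normal G P Q K L
  obtain ⟨τ, hτ⟩ := (Normal.minpoly_eq_iff_mem_orbit L).mp h
  obtain ⟨σ, rfl⟩ := IsFractionRing.stabilizerHom_surjective G P Q K L τ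
  refine ⟨σ.1, σ.2, ?_⟩
  apply IsFractionRing.injective (B ⧸ Q) L
  rw [← IsFractionRing.stabilizerHom_apply_apply_mk G P Q K L σ y]
  exact hτ

include P in
/-- **Dedekind, abstract form with an irreducible polynomial.**  If the residues of `x, y ∈ B`
are roots of one irreducible polynomial over `K = Frac(A/P)`, some element of the decomposition
group of `Q` maps `y mod Q` to `x mod Q`. -/
theorem ded_exists_stab_of_aeval_irreducible (x y : B) (p : K[X]) (hp : Irreducible p)
    (hx : aeval (algebraMap (B ⧸ Q) L (Ideal.Quotient.mk Q x)) p = 0)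
    (hy : aeval (algebraMap (B ⧸ Q) L (Ideal.Quotient.mk Q y)) p = 0) :
    ∃ σ ∈ MulAction.stabilizer G Q,
      Ideal.Quotient.mk Q (σ • y) = Ideal.Quotient.mk Q x := by
  refine ded_exists_stab_of_minpoly_eq G P Q K L x y ?_
  rw [← minpoly.eq_of_irreducible hp hx, ← minpoly.eq_of_irreducible hp hy]


omit [Finite G] [MulSemiringAction G B] [SMulCommClass G A B] [Algebra.IsInvariant A B G] in
include P in
/-- evaluation of a polynomial over `A` at `z ∈ B`, read in `L = Frac(B/Q)` -/
theorem ded_algebraMap_mk_eval₂ (F : A[X]) (z : B) :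
    algebraMap (B ⧸ Q) L (Ideal.Quotient.mk Q (F.eval₂ (algebraMap A B) z)) =
      aeval (algebraMap (B ⧸ Q) L (Ideal.Quotient.mk Q z))
        ((F.map (Ideal.Quotient.mk P)).map (algebraMap (A ⧸ P) K)) := by
  rw [aeval_def, eval₂_map, eval₂_map]
  have h := Polynomial.hom_eval₂ F (algebraMap A B)
    ((algebraMap (B ⧸ Q) L).comp (Ideal.Quotient.mk Q)) z
  rw [RingHom.comp_apply, RingHom.comp_apply] at h
  rw [h]
  congr 1
  ext a
  simp only [RingHom.comp_apply]
  rw [← IsScalarTower.algebraMap_apply (A ⧸ P) K L,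
    IsScalarTower.algebraMap_apply (A ⧸ P) (B ⧸ Q) L]
  rfl

include G P in
/-- conjugacy over `K = Frac(A/P)` expressed through polynomials over `A` -/
theorem ded_minpoly_eq_of_conj (x y : B)
    (hconj : ∀ F : A[X], F.eval₂ (algebraMap A B) x ∈ Q → F.eval₂ (algebraMap A B) y ∈ Q) :
    minpoly K (algebraMap (B ⧸ Q) L (Ideal.Quotient.mk Q x)) =
      minpoly K (algebraMap (B ⧸ Q) L (Ideal.Quotient.mk Q y)) := by
  haveI : P.IsPrime := Ideal.over_def Q P ▸ Ideal.IsPrime.under A Q
  haveI : Normal K L := Ideal.IsFractionRing.normal G P Q K L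
  have hint : IsIntegral K (algebraMap (B ⧸ Q) L (Ideal.Quotient.mk Q x)) := Normal.isIntegral ‹_› _
  obtain ⟨b, hb, hF'⟩ := IsLocalization.integerNormalization_spec (nonZeroDivisors (A ⧸ P))
    (minpoly K (algebraMap (B ⧸ Q) L (Ideal.Quotient.mk Q x)))
  obtain ⟨F, hF⟩ := Polynomial.map_surjective (Ideal.Quotient.mk P) Ideal.Quotient.mk_surjective
    (IsLocalization.integerNormalization (nonZeroDivisors (A ⧸ P))
      (minpoly K (algebraMap (B ⧸ Q) L (Ideal.Quotient.mk Q x))))
  have hb0 : algebraMap (A ⧸ P) K b ≠ 0 := by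
    intro h0
    exact nonZeroDivisors.ne_zero hb ((IsFractionRing.injective (A ⧸ P) K) (h0.trans (map_zero _).symm))
  have key : ∀ z : B, algebraMap (B ⧸ Q) L (Ideal.Quotient.mk Q (F.eval₂ (algebraMap A B) z)) =
      algebraMap K L (algebraMap (A ⧸ P) K b) *
        aeval (algebraMap (B ⧸ Q) L (Ideal.Quotient.mk Q z))
          (minpoly K (algebraMap (B ⧸ Q) L (Ideal.Quotient.mk Q x))) := by
    intro z
    rw [ded_algebraMap_mk_eval₂ P Q K L F z, hF, hF', ← IsScalarTower.algebraMap_smul K b,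
      map_smul, Algebra.smul_def]
  have hx : F.eval₂ (algebraMap A B) x ∈ Q := by
    rw [← Ideal.Quotient.eq_zero_iff_mem]
    apply IsFractionRing.injective (B ⧸ Q) L
    rw [key, minpoly.aeval, mul_zero, map_zero]
  have hy := hconj F hx
  rw [← Ideal.Quotient.eq_zero_iff_mem] at hy
  have hy' := congrArg (algebraMap (B ⧸ Q) L) hy
  rw [key, map_zero, mul_eq_zero] at hy'
  have hy0 := hy'.resolve_left (fun h0 => hb0 ((algebraMap K L).injective (h0.trans (map_zero _).symm)))
  exact minpoly.eq_of_irreducible_of_monic (minpoly.irreducible hint) hy0 (minpoly.monic hint)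

end Abstract

section Rho

variable {B : Type*} [CommRing B] {G : Type*} [Group G] [Finite G] [MulSemiringAction G B]
  {A0 : Type*} [CommRing A0] (φ : A0 →+* B)
  {𝕃 : Type*} [Field 𝕃] (ρ : B →+* 𝕃)

/-- An element of a finite group mapping `ker ρ` into itself is in the decomposition group. -/
theorem ded_mem_stabilizer_ker_of_forall (σ : G) (h : ∀ b, ρ b = 0 → ρ (σ • b) = 0) :
    σ ∈ MulAction.stabilizer G (RingHom.ker ρ) := by
  rw [MulAction.mem_stabilizer_iff]
  refine smul_eq_of_smul_le ?_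
  intro b hb
  rw [Ideal.mem_pointwise_smul_iff_inv_smul_mem] at hb
  have h1 := h _ (RingHom.mem_ker.mp hb)
  rw [smul_inv_smul] at h1
  exact RingHom.mem_ker.mpr h1

theorem ded_mem_stabilizer_ker_iff (σ : G) :
    σ ∈ MulAction.stabilizer G (RingHom.ker ρ) ↔ ∀ b, ρ (σ • b) = 0 ↔ ρ b = 0 := by
  constructor
  · intro h b
    rw [MulAction.mem_stabilizer_iff] at h
    rw [← RingHom.mem_ker, ← RingHom.mem_ker]
    conv_lhs => rw [← h]
    exact Ideal.smul_mem_pointwise_smul_iff
  · intro h
    exact ded_mem_stabilizer_ker_of_forall ρ σ fun b hb => (h b).mpr hb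

/-- **Dedekind, `ρ`-form.**  `G` finite acting on `B`, `φ : A0 → B` with image the invariants,
`ρ : B → 𝕃` a ring homomorphism to a field.  If every polynomial relation over `A0` satisfied
by `ρ x` is satisfied by `ρ y` (`ρ y` is a conjugate of `ρ x` over the fraction field of
`ρ (φ A0)`), then some `σ` in the decomposition group of `ker ρ` has `ρ (σ • x) = ρ y`. -/
theorem ded_exists_stab_of_conj
    (hfix : ∀ (g : G) (a : A0), g • φ a = φ a)
    (hinv : ∀ b : B, (∀ g : G, g • b = b) → ∃ a : A0, φ a = b)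
    (x y : B)
    (hconj : ∀ F : Polynomial A0, ρ (F.eval₂ φ x) = 0 → ρ (F.eval₂ φ y) = 0) :
    ∃ σ ∈ MulAction.stabilizer G (RingHom.ker ρ), ρ (σ • x) = ρ y := by
  letI : Algebra A0 B := φ.toAlgebra
  have hφ : algebraMap A0 B = φ := rfl
  haveI : SMulCommClass G A0 B := ⟨fun g a b => by
    rw [Algebra.smul_def, Algebra.smul_def, smul_mul', hφ, hfix]⟩
  haveI : Algebra.IsInvariant A0 B G := ⟨hinv⟩
  haveI hQ : (RingHom.ker ρ).IsPrime := RingHom.ker_isPrime ρ
  haveI hP : ((RingHom.ker ρ).under A0).IsPrime := Ideal.IsPrime.under A0 _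
  letI : Algebra (FractionRing (A0 ⧸ (RingHom.ker ρ).under A0))
      (FractionRing (B ⧸ RingHom.ker ρ)) := FractionRing.liftAlgebra _ _
  obtain ⟨σ, hσ, h⟩ := ded_exists_stab_of_minpoly_eq G ((RingHom.ker ρ).under A0) (RingHom.ker ρ)
    (FractionRing (A0 ⧸ (RingHom.ker ρ).under A0)) (FractionRing (B ⧸ RingHom.ker ρ)) y x
    ((ded_minpoly_eq_of_conj G ((RingHom.ker ρ).under A0) (RingHom.ker ρ)
      (FractionRing (A0 ⧸ (RingHom.ker ρ).under A0)) (FractionRing (B ⧸ RingHom.ker ρ)) x y
      (fun F hF => RingHom.mem_ker.mpr (hconj F (RingHom.mem_ker.mp hF)))).symm)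
  refine ⟨σ, hσ, ?_⟩
  rw [Ideal.Quotient.eq, RingHom.mem_ker, map_sub, sub_eq_zero] at h
  exact h


/-- the action commutes with evaluation of polynomials with invariant coefficients -/
theorem ded_smul_eval₂ (hfix : ∀ (g : G) (a : A0), g • φ a = φ a) (g : G) (F : A0[X]) (x : B) :
    g • F.eval₂ φ x = F.eval₂ φ (g • x) := by
  have h := Polynomial.hom_eval₂ F φ (MulSemiringAction.toRingHom G B g) x
  have hc : (MulSemiringAction.toRingHom G B g).comp φ = φ := by
    ext a
    exact hfix g a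
  rw [hc] at h
  exact h

/-- an element of the decomposition group acts on `B / ker ρ` -/
theorem ded_stab_congr {σ : G} (hσ : σ ∈ MulAction.stabilizer G (RingHom.ker ρ)) {b b' : B}
    (h : ρ b = ρ b') : ρ (σ • b) = ρ (σ • b') := by
  have h1 : ρ (b - b') = 0 := by rw [map_sub, h, sub_self]
  have h2 := ((ded_mem_stabilizer_ker_iff ρ σ).mp hσ (b - b')).mpr h1
  rw [smul_sub, map_sub, sub_eq_zero] at h2
  exact h2

section Irreducible

variable {R0 : Type*} [CommRing R0] [IsDomain R0] [IsIntegrallyClosed R0]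
  (π : A0 →+* R0) (ι : R0 →+* 𝕃)

/-- **Dedekind, `ρ`-form with an irreducible polynomial.**  `ρ ∘ φ = ι ∘ π` with `ι : R0 → 𝕃`
injective, `R0` an integrally closed domain (e.g. `k[X]`, `ι = aeval j̃`, `π` the reduction of
`A[X]`).  If `ρ x`, `ρ y` are roots of one monic irreducible `p ∈ R0[X]`, some `σ` in the
decomposition group of `ker ρ` has `ρ (σ • x) = ρ y`. -/
theorem ded_exists_stab_of_irreducible
    (hfix : ∀ (g : G) (a : A0), g • φ a = φ a)
    (hinv : ∀ b : B, (∀ g : G, g • b = b) → ∃ a : A0, φ a = b)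
    (hι : Function.Injective ι) (hcomp : ∀ a, ι (π a) = ρ (φ a))
    (p : R0[X]) (hp : p.Monic) (hirr : Irreducible p) (x y : B)
    (hx : p.eval₂ ι (ρ x) = 0) (hy : p.eval₂ ι (ρ y) = 0) :
    ∃ σ ∈ MulAction.stabilizer G (RingHom.ker ρ), ρ (σ • x) = ρ y := by
  refine ded_exists_stab_of_conj φ ρ hfix hinv x y ?_
  intro F hF
  letI : Algebra R0 𝕃 := ι.toAlgebra
  haveI : Module.IsTorsionFree R0 𝕃 := Module.isTorsionFree_iff_algebraMap_injective.mpr hι
  have hev : ∀ z : B, ρ (F.eval₂ φ z) = aeval (ρ z) (F.map π) := by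
    intro z
    rw [aeval_def, eval₂_map, Polynomial.hom_eval₂]
    congr 1
    ext a
    exact (hcomp a).symm
  have hxint : IsIntegral R0 (ρ x) := ⟨p, hp, hx⟩
  have hpx : aeval (ρ x) p = 0 := hx
  have hpy : aeval (ρ y) p = 0 := hy
  have hmin : minpoly R0 (ρ x) ∣ p := minpoly.isIntegrallyClosed_dvd hxint hpx
  have hass : Associated (minpoly R0 (ρ x)) p :=
    (minpoly.irreducible hxint).associated_of_dvd hirr hmin
  have hdvd : p ∣ F.map π :=
    hass.symm.dvd.trans (minpoly.isIntegrallyClosed_dvd hxint (by rw [← hev]; exact hF))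
  obtain ⟨q, hq⟩ := hdvd
  rw [hev, hq, map_mul, hpy, zero_mul]

/-- **Dedekind transitivity.**  If the `ρ (g • x)` are roots of one monic irreducible
`p ∈ R0[X]` and `ρ (g • x) = ρ x` only for `g • x = x`, the decomposition group of `ker ρ` is
transitive on the orbit of `x`. -/
theorem ded_transitive
    (hfix : ∀ (g : G) (a : A0), g • φ a = φ a)
    (hinv : ∀ b : B, (∀ g : G, g • b = b) → ∃ a : A0, φ a = b)
    (hι : Function.Injective ι) (hcomp : ∀ a, ι (π a) = ρ (φ a))
    (p : R0[X]) (hp : p.Monic) (hirr : Irreducible p) (x : B)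
    (hroots : ∀ g : G, p.eval₂ ι (ρ (g • x)) = 0)
    (hinj : ∀ g : G, ρ (g • x) = ρ x → g • x = x) (g : G) :
    ∃ σ ∈ MulAction.stabilizer G (RingHom.ker ρ), σ • x = g • x := by
  obtain ⟨σ, hσ, h⟩ := ded_exists_stab_of_irreducible φ ρ π ι hfix hinv hι hcomp p hp hirr
    x (g • x) (by simpa using hroots 1) (hroots g)
  refine ⟨σ, hσ, ?_⟩
  have hσ' : σ⁻¹ ∈ MulAction.stabilizer G (RingHom.ker ρ) := inv_mem hσ
  have h1 := ded_stab_congr ρ hσ' h
  rw [inv_smul_smul, ← mul_smul] at h1
  have h2 := hinj _ h1.symm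
  rw [mul_smul, inv_smul_eq_iff] at h2
  exact h2.symm

/-- the `ρ (g • x)` are roots of the reduction of a polynomial over `A0` vanishing at `x` -/
theorem ded_roots_of_lift (hfix : ∀ (g : G) (a : A0), g • φ a = φ a)
    (hcomp : ∀ a, ι (π a) = ρ (φ a)) (F : A0[X]) (x : B) (hF : F.eval₂ φ x = 0) (g : G) :
    (F.map π).eval₂ ι (ρ (g • x)) = 0 := by
  have h := ded_smul_eval₂ φ hfix g F x
  rw [hF, smul_zero] at h
  have h2 := congrArg ρ h
  rw [map_zero, Polynomial.hom_eval₂] at h2
  rw [eval₂_map]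
  have hc : ι.comp π = ρ.comp φ := by
    ext a
    exact hcomp a
  rw [hc]
  exact h2.symm

/-- **Dedekind transitivity, lifted polynomial.**  `x` is a root of `F ∈ A0[X]` whose reduction
`F.map π` is monic irreducible over `R0`, and the reduction is injective on the orbit of `x`:
the decomposition group of `ker ρ` is transitive on the orbit of `x`. -/
theorem ded_transitive_of_lift
    (hfix : ∀ (g : G) (a : A0), g • φ a = φ a)
    (hinv : ∀ b : B, (∀ g : G, g • b = b) → ∃ a : A0, φ a = b)
    (hι : Function.Injective ι) (hcomp : ∀ a, ι (π a) = ρ (φ a))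
    (F : A0[X]) (hp : (F.map π).Monic) (hirr : Irreducible (F.map π)) (x : B)
    (hF : F.eval₂ φ x = 0)
    (hinj : ∀ g : G, ρ (g • x) = ρ x → g • x = x) (g : G) :
    ∃ σ ∈ MulAction.stabilizer G (RingHom.ker ρ), σ • x = g • x :=
  ded_transitive φ ρ π ι hfix hinv hι hcomp (F.map π) hp hirr x
    (ded_roots_of_lift φ ρ π ι hfix hcomp F x hF) hinj g

/-- **`G = D · H`.**  In the situation of `ded_transitive`, if `H` contains the stabiliser of
`x`, every `g ∈ G` is `σ * h` with `σ` in the decomposition group and `h ∈ H`: the decomposition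
group is transitive on `G / H`. -/
theorem ded_eq_mul_stab
    (hfix : ∀ (g : G) (a : A0), g • φ a = φ a)
    (hinv : ∀ b : B, (∀ g : G, g • b = b) → ∃ a : A0, φ a = b)
    (hι : Function.Injective ι) (hcomp : ∀ a, ι (π a) = ρ (φ a))
    (p : R0[X]) (hp : p.Monic) (hirr : Irreducible p) (x : B)
    (hroots : ∀ g : G, p.eval₂ ι (ρ (g • x)) = 0)
    (hinj : ∀ g : G, ρ (g • x) = ρ x → g • x = x)
    (H : Subgroup G) (hH : ∀ g : G, g • x = x → g ∈ H) (g : G) :
    ∃ σ ∈ MulAction.stabilizer G (RingHom.ker ρ), ∃ h ∈ H, g = σ * h := by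
  obtain ⟨σ, hσ, h⟩ := ded_transitive φ ρ π ι hfix hinv hι hcomp p hp hirr x hroots hinj g
  refine ⟨σ, hσ, σ⁻¹ * g, hH _ ?_, by group⟩
  rw [mul_smul, ← h, inv_smul_smul]

end Irreducible

end Rho

end Fermat.Agent.T4.helper65
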