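/-
T4 block (I), IGUSA1 route A, [IG-KER] (helper65, row 1186; spec = helper4 #2834 (3)):
the decomposition group of the prime at infinity of `B_S` is everything.

* `ES_constB`, `EB_constB`, `ES_jB`, `EB_jB` : expansions of the constants and of `j` in `B_S`;
* `transcendental_EB_jB` : `j̃` is transcendental over `k`;
* `decomp_eq_top` : `ζ_M ∈ S` + `PivotJMStatement M S r` + `GroupStatement M` ⇒
  `helper32.Conj1.decomp (Gamma M) M S r = ⊤` (Dedekind: `helper65.ded_transitive_of_lift`);
* `decomp_eq_top'` : the same with `helper32.Conj1.groupStatement` plugged in;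
* `EB_eq_zero_all` : the `q`-expansion principle at ALL cosets (kernel stability).
-/
import Mathlib
import Fermat.Agent.T4.helper4_IgusaDefs
import Fermat.Agent.T4.helper65_Dedekind
import Fermat.Agent.S28.helper81_Laurent
import Fermat.Agent.T4.helper32_IgGroup

set_option autoImplicit false
set_option linter.unusedSectionVars false
set_option linter.style.haveILetI false
set_option linter.unusedVariables false

noncomputable section

namespace Fermat.Agent.T4.helper65.IgKer

open UpperHalfPlane CongruenceSubgroup ModularCurve Polynomial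
open Fermat.Agent.T4.helper32.Conj1 Fermat.Agent.T4.helper4.Ig
open Fermat.Agent.S28
open scoped MatrixGroups Pointwise

variable (M : ℕ) [NeZero M] (S : Subring ℂ) {k : Type} [Field k] (r : S →+* k)

theorem ES_constB (γ : SL(2, ℤ)) (c : S) :
    ES (Gamma M) M S γ (constB (Gamma M) M S c) = HahnSeries.C c := by
  apply helper93.coeffMap_injective' S.subtype Subtype.val_injective
  rw [coeffMap_ES, helper93.coeffMap_C']
  show EA (Gamma M) M γ (algebraMap ℂ (GA (Gamma M) M) (c : ℂ)) = _
  rw [AlgHom.commutes, helper93.algebraMap_laurent_eq_C]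
  rfl

theorem EB_constB (γ : SL(2, ℤ)) (c : S) :
    EB (Gamma M) M S r γ (constB (Gamma M) M S c) = HahnSeries.C (r c) := by
  rw [EB, RingHom.comp_apply, ES_constB, helper93.coeffMap_C']

theorem ES_jB (γ : SL(2, ℤ)) :
    ES (Gamma M) M S γ (jB (Gamma M) M S) = qExpand S M (jqModC S) := by
  apply helper93.coeffMap_injective' S.subtype Subtype.val_injective
  rw [coeffMap_ES, helper81.coeffMap_qExpand, helper81.coeffMap_jqModC]
  exact EA_jA (Gamma M) M γ

theorem EB_jB (γ : SL(2, ℤ)) :
    EB (Gamma M) M S r γ (jB (Gamma M) M S) = qExpand k M (jqModC k) := by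
  rw [EB, RingHom.comp_apply, ES_jB, helper81.coeffMap_qExpand, helper81.coeffMap_jqModC]

theorem order_EB_jB_neg (γ : SL(2, ℤ)) :
    (EB (Gamma M) M S r γ (jB (Gamma M) M S)).order < 0 := by
  rw [EB_jB, helper81.order_qExpand_jqModC]
  have : 0 < M := Nat.pos_of_ne_zero (NeZero.ne M)
  omega

/-- `j̃` is transcendental over `k` -/
theorem transcendental_EB_jB (γ : SL(2, ℤ)) :
    Transcendental k (EB (Gamma M) M S r γ (jB (Gamma M) M S)) :=
  helper81.transcendental_of_order_neg _ (order_EB_jB_neg M S r γ)

/-- `ρ ∘ polyB = aeval j̃ ∘ (reduction of the coefficients)` -/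
theorem rhoB_polyB (a : Polynomial S) :
    ((aeval (qExpand k M (jqModC k)) : Polynomial k →ₐ[k] LaurentSeries k) :
      Polynomial k →+* LaurentSeries k) (Polynomial.mapRingHom r a) =
      rhoB M S r (polyB (Gamma M) M S a) := by
  have h : ((aeval (qExpand k M (jqModC k)) : Polynomial k →ₐ[k] LaurentSeries k) :
      Polynomial k →+* LaurentSeries k).comp (Polynomial.mapRingHom r) =
      (rhoB M S r).comp (polyB (Gamma M) M S) := by
    apply Polynomial.ringHom_ext
    · intro c
      simp only [polyB, RingHom.comp_apply, Polynomial.coe_eval₂RingHom, Polynomial.eval₂_C,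
        Polynomial.coe_mapRingHom, Polynomial.map_C, RingHom.coe_coe, Polynomial.aeval_C]
      rw [EB_constB, helper93.algebraMap_laurent_eq_C]
    · simp only [polyB, RingHom.comp_apply, Polynomial.coe_eval₂RingHom, Polynomial.eval₂_X,
        Polynomial.coe_mapRingHom, Polynomial.map_X, RingHom.coe_coe, Polynomial.aeval_X]
      rw [EB_jB]
  exact RingHom.congr_fun h a

set_option synthInstance.maxHeartbeats 400000 in
/-- membership in the decomposition group, in terms of the action of `SL₂(ℤ) / Γ(M)` -/
theorem mk_mem_stabilizer_iff (δ : SL(2, ℤ)) :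
    letI := actG M S
    ((δ : GM M) ∈ MulAction.stabilizer (GM M) (RingHom.ker (rhoB M S r))) ↔
      δ ∈ decomp (Gamma M) M S r := by
  letI := actG M S
  rw [ded_mem_stabilizer_ker_iff]
  constructor
  · intro h
    have h1 : δ⁻¹ ∈ decomp (Gamma M) M S r := by
      intro f
      have := h f
      rwa [rhoB_actG_mk] at this
    simpa using (decomp (Gamma M) M S r).inv_mem h1
  · intro h f
    rw [rhoB_actG_mk]
    exact (decomp (Gamma M) M S r).inv_mem h f

/-- **[IG-KER]** the decomposition group of the prime at infinity is everything. -/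
theorem decomp_eq_top (hζ : zetaC M ∈ S) (hJM : PivotJMStatement M S r)
    (hG : GroupStatement M) : decomp (Gamma M) M S r = ⊤ := by
  letI := actG M S
  obtain ⟨x, -, hfixx, hsep, F, hF, hmon, hirr⟩ := hJM
  refine hG _ (le_decomp (Gamma M) M S r) (T_mem_decomp (Gamma M) M S r hζ) ?_
  intro g
  have hfix : ∀ (σ : GM M) (a : Polynomial S),
      σ • polyB (Gamma M) M S a = polyB (Gamma M) M S a := by
    intro σ a
    induction σ using QuotientGroup.induction_on with
    | H γ => rw [actG_mk, trB_polyB]
  have hinv : ∀ b : BS (Gamma M) M S, (∀ σ : GM M, σ • b = b) →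
      ∃ a, polyB (Gamma M) M S a = b := by
    intro b hb
    refine invariant_eq_poly (Gamma M) M S b (fun γ => ?_)
    have := hb ((γ⁻¹ : SL(2, ℤ)) : GM M)
    rwa [actG_mk, inv_inv] at this
  have hι : Function.Injective
      ((aeval (qExpand k M (jqModC k)) : Polynomial k →ₐ[k] LaurentSeries k) :
        Polynomial k →+* LaurentSeries k) := by
    have h := helper81.aeval_injective_of_order_neg (qExpand k M (jqModC k))
      (by rw [← EB_jB M S r 1]; exact order_EB_jB_neg M S r 1)
    exact h
  have hinj : ∀ σ : GM M, rhoB M S r (σ • x) = rhoB M S r x → σ • x = x := by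
    intro σ
    induction σ using QuotientGroup.induction_on with
    | H γ =>
      intro h
      rw [rhoB_actG_mk] at h
      rw [actG_mk]
      exact hfixx _ (hsep _ h)
  obtain ⟨σ, hσ, hσx⟩ := ded_transitive_of_lift (polyB (Gamma M) M S) (rhoB M S r)
    (Polynomial.mapRingHom r) _ hfix hinv hι (rhoB_polyB M S r) F hmon hirr x hF hinj
    ((g : GM M))
  obtain ⟨δ, rfl⟩ := QuotientGroup.mk_surjective σ
  refine ⟨δ, (mk_mem_stabilizer_iff M S r δ).mp hσ, ?_⟩
  apply hsep
  rw [actG_mk, actG_mk] at hσx
  rw [← EB_trB, hσx, EB_trB, inv_mul_cancel]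

/-- **[IG-KER]** with the group lemma (`helper32.Conj1.groupStatement`) plugged in. -/
theorem decomp_eq_top' (hζ : zetaC M ∈ S) (hJM : PivotJMStatement M S r) :
    decomp (Gamma M) M S r = ⊤ :=
  decomp_eq_top M S r hζ hJM (groupStatement M)

/-- **kernel stability** = the `q`-expansion principle at all cosets. -/
theorem EB_eq_zero_all (hζ : zetaC M ∈ S) (hJM : PivotJMStatement M S r) (g : SL(2, ℤ))
    {f : BS (Gamma M) M S} (hf : EB (Gamma M) M S r 1 f = 0) : EB (Gamma M) M S r g f = 0 :=
  EB_eq_zero_of_decomp_eq_top (Gamma M) M S r (decomp_eq_top' M S r hζ hJM) g hf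

/-- **kernel stability**, in the form `hst` of `helper4_IgusaAbs` for the action `actG`. -/
theorem ker_stable (hζ : zetaC M ∈ S) (hJM : PivotJMStatement M S r) :
    letI := actG M S
    ∀ (σ : GM M) (f : BS (Gamma M) M S), rhoB M S r f = 0 → rhoB M S r (σ • f) = 0 := by
  letI := actG M S
  intro σ f hf
  induction σ using QuotientGroup.induction_on with
  | H γ =>
    rw [rhoB_actG_mk]
    exact EB_eq_zero_all M S r hζ hJM γ⁻¹ hf

end Fermat.Agent.T4.helper65.IgKer
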