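import Mathlib
import Fermat.Agent.T4.helper4_IgusaInst2
import Fermat.Agent.T4.helper4_RedDefs
import Fermat.Agent.T4.helper65_IgKer

/-!
# T4 block (I), [IGUSA1] route A: `PrimStatement` for `(F1 M, F1b A M)` (helper4)

`prim1_of` : from a generator package in helper32's ring `B_S` (`S = subringC A`), kernel
stability (`decomp = ⊤`), the separation of the cosets of `±Γ₁(M)` by the reduced generators,
and the Gauss lemma over `A`, we get `helper4.PrimStatement A (F1 M) (F1b A M)`.
-/

set_option autoImplicit false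
set_option linter.unusedSectionVars false
set_option linter.style.haveILetI false

noncomputable section

namespace Fermat.Agent.T4.helper4.Ig

open UpperHalfPlane CongruenceSubgroup Polynomial ModularCurve
open Fermat.Agent.T4.helper32.Conj1
open Fermat.Agent.P2.helper81 (subringC equivC rhoC)
open Fermat.Agent.S24 (Kbar iotaC)
open Fermat.Agent.S18.helper19 (Kb kA)
open Fermat.Agent.P2.helper29 (incl red)
open Fermat.Agent.T4.helper24 Fermat.Agent.T4.helper32
open scoped MatrixGroups

variable (A : ValuationSubring Kb) (M : ℕ) [NeZero M]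

/-- a generator package: the generators of `X₁(M)` as elements of `B_S` -/
structure GenPackB (S : Subring ℂ) where
  gen : Idx1 M → BS (Gamma M) M S
  coe_gen : ∀ i, (((gen i : BS (Gamma M) M S) : GA (Gamma M) M) : ℍ → ℂ) = (x1Data M).fn i

theorem nonempty_genPack (S : Subring ℂ) (hS : MemSStatement M S) (hJ : MemJStatement M S) :
    Nonempty (GenPackB M S) := by
  have h : ∀ i : Idx1 M, ∃ f : BS (Gamma M) M S,
      (((f : BS (Gamma M) M S) : GA (Gamma M) M) : ℍ → ℂ) = (x1Data M).fn i := by
    intro i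
    rcases i with d | a
    · exact hJ d.1 (Nat.dvd_of_mem_divisors d.2)
    · exact hS a.1 a.2
  exact ⟨⟨fun i => (h i).choose, fun i => (h i).choose_spec⟩⟩

variable {M}

theorem Gamma_le_PG1 : Gamma M ≤ PG1 M := by
  intro g hg
  apply Subgroup.mem_sup_left
  rw [Gamma_mem] at hg
  rw [Gamma1_mem]
  exact ⟨hg.1, hg.2.2.2, hg.2.2.1⟩

theorem rep_gen (hsys : (x1Data M).IsSys) (P : GenPackB M (subringC A)) (i : Idx1 M) :
    Rep A M (P.gen i) (serR A M i) := by
  unfold Rep
  apply EA_eq
  have e : (fun τ : ℍ => ((P.gen i : GA (Gamma M) M) : ℍ → ℂ) ((1 : SL(2, ℤ)) • τ)) =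
      (x1Data M).fn i := by
    funext τ
    rw [one_smul, P.coe_gen]
  rw [e, coeffMap_serR, ← ser_eq_serR]
  exact Fermat.Agent.S28.helper63.hasExp_expand
    (Fermat.Agent.S28.helper63.hasExp_of_isQExp (hsys.isQExp i)) M

theorem trB_gen (hsys : (x1Data M).IsSys) (S : Subring ℂ) (P : GenPackB M S) {γ : SL(2, ℤ)}
    (hγ : γ ∈ PG1 M) (i : Idx1 M) : trB (Gamma M) M S γ (P.gen i) = P.gen i := by
  apply Subtype.ext
  apply Subtype.ext
  funext τ
  rw [coe_trB, tr_apply, P.coe_gen]
  exact hsys.inv i γ hγ τ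

theorem rep_thetaB (hsys : (x1Data M).IsSys) (P : GenPackB M (subringC A)) {m : ℕ}
    (e : Fin m → Idx1 M) (c : subringC A) :
    Rep A M (thetaB M (subringC A) (fun i => P.gen (e i)) c)
      (thetaR A M e ((equivC A).symm c)) := by
  rw [thetaB, thetaR]
  refine Rep.sum _ (fun i _ => ?_)
  exact ((rep_constB A M c).pow _).mul (rep_gen A hsys P (e i))

/-! ### The fields as fields generated by the formal generators -/

theorem range_serR (K : Type*) [Field K] (M : ℕ) [NeZero M] :
    Set.range (serR K M) =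
      {x | ∃ (d : ℕ) (_ : NeZero d), d ∣ M ∧ x = qExpand K d (jqModC K)} ∪ sGens K M := by
  ext x
  constructor
  · rintro ⟨i, rfl⟩
    rcases i with ⟨d, hd⟩ | ⟨a, ha⟩
    · left
      have hd0 : d ≠ 0 := fun h => by
        rw [h] at hd
        exact NeZero.ne M (Nat.eq_zero_of_zero_dvd (Nat.mem_divisors.mp hd).1)
      refine ⟨d, ⟨hd0⟩, (Nat.mem_divisors.mp hd).1, ?_⟩
      simp only [serR, Sum.elim_inl]
      rw [dif_neg hd0]
    · right
      exact ⟨a, ha, rfl⟩
  · rintro (⟨d, hd, hdM, rfl⟩ | ⟨a, ha, rfl⟩)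
    · refine ⟨Sum.inl ⟨d, Nat.mem_divisors.mpr ⟨hdM, NeZero.ne M⟩⟩, ?_⟩
      simp only [serR, Sum.elim_inl]
      rw [dif_neg (NeZero.ne d)]
    · exact ⟨Sum.inr ⟨a, ha⟩, rfl⟩

theorem f1C_eq_adjoin (K : Type*) [Field K] (M : ℕ) [NeZero M] :
    F1C K M = IntermediateField.adjoin K (Set.range (serR K M)) := by
  rw [F1C, range_serR]

theorem f1_eq_adjoin (M : ℕ) [NeZero M] :
    F1 M = IntermediateField.adjoin Kb (Set.range (serR Kb M)) := by
  have h : (x1Data M).ser Kb = serR Kb M := funext (ser_eq_serR Kb M)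
  rw [Fermat.Agent.T4.helper56.f1_eq, Fermat.Agent.T4.helper77.field_eq_adjoin, h]
  rfl

theorem jq_mem_adjoin (K : Type*) [Field K] (M : ℕ) [NeZero M] :
    jqModC K ∈ IntermediateField.adjoin K (Set.range (serR K M)) := by
  apply IntermediateField.subset_adjoin
  refine ⟨Sum.inl ⟨1, Nat.mem_divisors.mpr ⟨one_dvd M, NeZero.ne M⟩⟩, ?_⟩
  simp only [serR, Sum.elim_inl]
  rw [dif_neg one_ne_zero, ModularCurve.qExpand_one_apply]

/-- transfer of the interpolation property to a coefficient field -/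
theorem adjoin_eq_of_interp {K' : Type*} [Field K'] (f : A →+* K') (θA DA : LaurentSeries A)
    (ΨA : Polynomial (Polynomial A))
    (hDA : DA = eval₂ ((aeval (jqModC A) : Polynomial A →ₐ[A] LaurentSeries A) :
      Polynomial A →+* LaurentSeries A) θA ΨA)
    (hθ : coeffMap f θA ∈ IntermediateField.adjoin K' (Set.range (serR K' M)))
    (hD : coeffMap f DA ≠ 0)
    (hN : ∀ i, ∃ LA : Polynomial (Polynomial A),
      eval₂ ((aeval (jqModC A) : Polynomial A →ₐ[A] LaurentSeries A) :
        Polynomial A →+* LaurentSeries A) θA LA = serR A M i * DA) :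
    IntermediateField.adjoin K' (Set.range (serR K' M)) =
      IntermediateField.adjoin K' {jqModC K', coeffMap f θA} := by
  refine adjoin_range_eq_adjoin_pair (serR K' M) (jqModC K') (coeffMap f θA) (coeffMap f DA)
    (jq_mem_adjoin K' M) hθ hD ?_ ?_
  · rw [hDA, Fermat.Agent.P2.helper28.coeffMap_eval₂_aeval, coeffMap_jqModC]
    exact eval₂_aeval_mem_adjoin _ _ _
  · intro i
    obtain ⟨LA, hLA⟩ := hN i
    have h := congrArg (coeffMap f) hLA
    rw [Fermat.Agent.P2.helper28.coeffMap_eval₂_aeval, map_mul, coeffMap_serR,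
      coeffMap_jqModC] at h
    rw [← h]
    exact eval₂_aeval_mem_adjoin _ _ _

/-! ### Small bridges -/

theorem iotaB_injective (S : Subring ℂ) {k : Type} [Field k] (r : S →+* k) :
    Function.Injective (iotaB M S r) := by
  have h := (transcendental_iff_injective.mp
    (Fermat.Agent.T4.helper65.IgKer.transcendental_EB_jB M S r 1))
  have e : (iotaB M S r : Polynomial k → LaurentSeries k) =
      (aeval (EB (Gamma M) M S r 1 (jB (Gamma M) M S)) :
        Polynomial k →ₐ[k] LaurentSeries k) := by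
    funext p
    rw [iotaB, coe_eval₂RingHom, aeval_def]
    congr 1
    ext c : 1
    exact (Fermat.Agent.S28.helper93.algebraMap_laurent_eq_C c).symm
  rw [e]
  exact h

theorem residue_comp_equivC_symm :
    (IsLocalRing.residue A).comp (equivC A).symm.toRingHom = rhoC A := by
  ext s
  have h := Fermat.Agent.P2.helper81.rhoC_equivC A ((equivC A).symm s)
  rw [RingEquiv.apply_symm_apply] at h
  exact h.symm

theorem map_map_residue (Ψ : Polynomial (Polynomial (subringC A))) :
    (Ψ.map (mapRingHom (equivC A).symm.toRingHom)).map (mapRingHom (IsLocalRing.residue A)) =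
      Ψ.map (mapRingHom (rhoC A)) := by
  rw [Polynomial.map_map, Polynomial.mapRingHom_comp, residue_comp_equivC_symm]

/-- the residue field of a valuation ring of an algebraically closed field is algebraically
closed (so infinite) -/
theorem isAlgClosed_residueField {K : Type*} [Field K] [IsAlgClosed K] (A : ValuationSubring K) :
    IsAlgClosed (IsLocalRing.ResidueField A) := by
  apply IsAlgClosed.of_exists_root
  intro p hpm hirr
  have hsurj : Function.Surjective (IsLocalRing.residue A) := IsLocalRing.residue_surjective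
  have hlift : p ∈ Polynomial.lifts (IsLocalRing.residue A) := by
    rw [Polynomial.mem_lifts]
    exact Polynomial.map_surjective _ hsurj p
  obtain ⟨P, hPmap, hPdeg, hPmonic⟩ := Polynomial.lifts_and_degree_eq_and_monic hlift hpm
  have hdeg : (P.map (algebraMap A K)).degree ≠ 0 := by
    rw [Polynomial.degree_map_eq_of_injective (FaithfulSMul.algebraMap_injective A K), hPdeg]
    exact (Polynomial.degree_pos_of_irreducible hirr).ne'
  obtain ⟨α, hα⟩ := IsAlgClosed.exists_root (P.map (algebraMap A K)) hdeg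
  have hint : IsIntegral A α := ⟨P, hPmonic, by
    rw [← Polynomial.eval_map]
    exact hα⟩
  obtain ⟨a, rfl⟩ := IsIntegrallyClosed.isIntegral_iff.mp hint
  refine ⟨IsLocalRing.residue A a, ?_⟩
  rw [← hPmap, Polynomial.eval_map, Polynomial.eval₂_hom]
  have h0 : Polynomial.eval a P = 0 := by
    apply FaithfulSMul.algebraMap_injective A K
    rw [map_zero, ← hα, Polynomial.eval_map, Polynomial.eval₂_hom]
  rw [h0, map_zero]

/-! ### The package -/

variable (M)

/-- **the output of route A for `X₁(M)`**: a primitive element `θ` of `B_S` (`S = subringC A`),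
invariant under `±Γ₁(M)`, whose reduced conjugates separate the cosets of `±Γ₁(M)`, its
(monic, irreducible mod `𝔪`) equation over `S[j]`, and the formal series `θA ∈ A((q))`
representing it. -/
structure PrimPack1 where
  /-- the primitive element, in `B_S` -/
  θB : BS (Gamma M) M (subringC A)
  /-- its `q`-expansion, with coefficients in `A` -/
  θA : LaurentSeries A
  /-- the equation of `θ` over `S[j]` -/
  Φ : Polynomial (Polynomial (subringC A))
  rep : Rep A M θB θA
  monic : Φ.Monic
  natDegree_eq : Φ.natDegree = (PG1 M).index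
  root : Φ.eval₂ (polyB (Gamma M) M (subringC A)) θB = 0
  sep : ∀ γ : SL(2, ℤ), EB (Gamma M) M (subringC A) (rhoC A) γ θB =
    EB (Gamma M) M (subringC A) (rhoC A) 1 θB → γ ∈ PG1 M
  fix : ∀ γ ∈ PG1 M, trB (Gamma M) M (subringC A) γ θB = θB
  interp : ∀ y : BS (Gamma M) M (subringC A),
    (∀ γ ∈ PG1 M, trB (Gamma M) M (subringC A) γ y = y) →
    ∃ L : Polynomial (Polynomial (subringC A)),
      L.eval₂ (polyB (Gamma M) M (subringC A)) θB =
        y * (derivative Φ).eval₂ (polyB (Gamma M) M (subringC A)) θB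
  irr : Irreducible (Φ.map (Polynomial.mapRingHom (rhoC A)))
  der : EB (Gamma M) M (subringC A) (rhoC A) 1
    ((derivative Φ).eval₂ (polyB (Gamma M) M (subringC A)) θB) ≠ 0
  memK : incl A θA ∈ IntermediateField.adjoin Kb (Set.range (serR Kb M))
  memk : red A θA ∈ IntermediateField.adjoin (kA A) (Set.range (serR (kA A) M))
  gens : ∀ i : Idx1 M, ∃ g : BS (Gamma M) M (subringC A),
    (∀ γ ∈ PG1 M, trB (Gamma M) M (subringC A) γ g = g) ∧ Rep A M g (serR A M i)

variable {M}

/-- **[IGUSA1] route A**: the package exists, given the generators in `B_S`, the kernel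
stability and the separation of the cosets of `±Γ₁(M)` by the reduced generators. -/
theorem nonempty_primPack1 (hsys : (x1Data M).IsSys) (P : GenPackB M (subringC A))
    (hdec : decomp (Gamma M) M (subringC A) (rhoC A) = ⊤)
    (hsep : ∀ γ : SL(2, ℤ),
      (∀ i, EB (Gamma M) M (subringC A) (rhoC A) γ (P.gen i) =
        EB (Gamma M) M (subringC A) (rhoC A) 1 (P.gen i)) → γ ∈ PG1 M) :
    Nonempty (PrimPack1 A M) := by
  haveI : IsAlgClosed (kA A) := isAlgClosed_residueField A
  haveI : Fintype (Idx1 M) := Fintype.ofFinite _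
  let e : Fin (Fintype.card (Idx1 M)) → Idx1 M := (Fintype.equivFin (Idx1 M)).symm
  have he : Function.Surjective e := (Fintype.equivFin (Idx1 M)).symm.surjective
  obtain ⟨c, Φ, hmon, hroot, hdeg, hirr, hder, hsepθ, hfixθ, hint⟩ :=
    exists_primB M (subringC A) (rhoC A) (Fermat.Agent.P2.helper81.rhoC_surjective A)
      (iotaB_injective (subringC A) (rhoC A)) hdec (PG1 M) Gamma_le_PG1
      (fun i => P.gen (e i)) (fun γ hγ i => trB_gen hsys _ P hγ (e i))
      (fun γ h => hsep γ (fun i => by
        obtain ⟨i', rfl⟩ := he i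
        exact h i'))
  refine ⟨⟨thetaB M (subringC A) (fun i => P.gen (e i)) c,
    thetaR A M e ((equivC A).symm c), Φ, rep_thetaB A hsys P e c, hmon, hdeg, hroot, hsepθ,
    hfixθ, hint, hirr, hder, ?_, ?_, ?_⟩⟩
  · show coeffMap A.subtype _ ∈ _
    rw [coeffMap_thetaR]
    exact thetaR_mem_adjoin M e _
  · show coeffMap (IsLocalRing.residue A) _ ∈ _
    rw [coeffMap_thetaR]
    exact thetaR_mem_adjoin M e _
  · intro i
    exact ⟨P.gen i, fun γ hγ => trB_gen hsys _ P hγ i, rep_gen A hsys P i⟩

namespace PrimPack1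

variable {A} (Q : PrimPack1 A M)

/-- the equation over `A[X]` -/
def ΦA : Polynomial (Polynomial A) :=
  Q.Φ.map (Polynomial.mapRingHom (equivC A).symm.toRingHom)

/-- the different `∂Φ/∂Y (j, θ)` as a formal series -/
def DA : LaurentSeries A :=
  eval₂ ((aeval (jqModC A) : Polynomial A →ₐ[A] LaurentSeries A) :
    Polynomial A →+* LaurentSeries A) Q.θA (derivative Q.ΦA)

theorem monic_ΦA : Q.ΦA.Monic := Q.monic.map _

theorem natDegree_ΦA : Q.ΦA.natDegree = (PG1 M).index := by
  rw [ΦA, Q.monic.natDegree_map, Q.natDegree_eq]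

theorem root_ΦA :
    eval₂ ((aeval (jqModC A) : Polynomial A →ₐ[A] LaurentSeries A) :
      Polynomial A →+* LaurentSeries A) Q.θA Q.ΦA = 0 :=
  (rep_eval₂ A M Q.rep Q.Φ).eq_zero_iff.mp Q.root

theorem map_ΦA_residue :
    Q.ΦA.map (Polynomial.mapRingHom (IsLocalRing.residue A)) =
      Q.Φ.map (Polynomial.mapRingHom (rhoC A)) :=
  map_map_residue A Q.Φ

theorem irr_ΦA : Irreducible (Q.ΦA.map (Polynomial.mapRingHom (IsLocalRing.residue A))) := by
  rw [Q.map_ΦA_residue]
  exact Q.irr

theorem rep_DA :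
    Rep A M ((derivative Q.Φ).eval₂ (polyB (Gamma M) M (subringC A)) Q.θB) Q.DA := by
  have h := rep_eval₂ A M Q.rep (derivative Q.Φ)
  rw [← Polynomial.derivative_map] at h
  exact h

theorem red_DA_ne_zero : red A Q.DA ≠ 0 := by
  intro h0
  apply Q.der
  rw [Q.rep_DA.EB_eq]
  have : coeffMap (IsLocalRing.residue A) Q.DA = 0 := h0
  rw [this, map_zero]

theorem DA_ne_zero : Q.DA ≠ 0 := by
  intro h0
  apply Q.red_DA_ne_zero
  rw [h0, map_zero]

theorem incl_DA_ne_zero : incl A Q.DA ≠ 0 := by
  intro h0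
  apply Q.DA_ne_zero
  apply Fermat.Agent.S28.helper93.coeffMap_injective' A.subtype Subtype.val_injective
  rw [map_zero]
  exact h0

theorem red_DA_eq :
    red A Q.DA = eval₂ ((aeval (jqModC (kA A)) :
        Polynomial (kA A) →ₐ[kA A] LaurentSeries (kA A)) :
          Polynomial (kA A) →+* LaurentSeries (kA A)) (red A Q.θA)
        (derivative (Q.ΦA.map (Polynomial.mapRingHom (IsLocalRing.residue A)))) := by
  show coeffMap (IsLocalRing.residue A) Q.DA = _
  rw [DA, Fermat.Agent.P2.helper28.coeffMap_eval₂_aeval, coeffMap_jqModC,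
    Polynomial.derivative_map]

/-- every `±Γ₁(M)`-invariant element of `B_S` is a polynomial in `(j, θ)` over `A`, up to the
different -/
theorem interpA {y : BS (Gamma M) M (subringC A)} {Y : LaurentSeries A}
    (hy : ∀ γ ∈ PG1 M, trB (Gamma M) M (subringC A) γ y = y) (hY : Rep A M y Y) :
    ∃ LA : Polynomial (Polynomial A),
      eval₂ ((aeval (jqModC A) : Polynomial A →ₐ[A] LaurentSeries A) :
        Polynomial A →+* LaurentSeries A) Q.θA LA = Y * Q.DA := by
  obtain ⟨L, hL⟩ := Q.interp y hy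
  refine ⟨L.map (Polynomial.mapRingHom (equivC A).symm.toRingHom), ?_⟩
  have h1 := rep_eval₂ A M Q.rep L
  rw [hL] at h1
  exact h1.unique (hY.mul Q.rep_DA)

theorem gensA (i : Idx1 M) :
    ∃ LA : Polynomial (Polynomial A),
      eval₂ ((aeval (jqModC A) : Polynomial A →ₐ[A] LaurentSeries A) :
        Polynomial A →+* LaurentSeries A) Q.θA LA = serR A M i * Q.DA := by
  obtain ⟨g, hg, hrep⟩ := Q.gens i
  exact Q.interpA hg hrep

theorem f1_eq : F1 M = IntermediateField.adjoin Kb {jqModC Kb, incl A Q.θA} := by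
  rw [f1_eq_adjoin]
  exact adjoin_eq_of_interp A A.subtype Q.θA Q.DA (derivative Q.ΦA) rfl Q.memK
    Q.incl_DA_ne_zero Q.gensA

theorem f1b_eq :
    F1b A M = IntermediateField.adjoin (kA A) {jqModC (kA A), red A Q.θA} := by
  show F1C (kA A) M = _
  rw [f1C_eq_adjoin]
  exact adjoin_eq_of_interp A (IsLocalRing.residue A) Q.θA Q.DA (derivative Q.ΦA) rfl Q.memk
    Q.red_DA_ne_zero Q.gensA

/-- **[IGUSA1] ⇒ PRIM for `X₁(M)`**, given the Gauss lemma over `A` for `Φ`. -/
theorem primStatement
    (hGauss : Irreducible (Q.ΦA.map (Polynomial.mapRingHom (IsLocalRing.residue A))) →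
      Irreducible (Q.ΦA.map (Polynomial.mapRingHom A.subtype))) :
    PrimStatement A (F1 M) (F1b A M) := by
  refine ⟨Q.θA, Q.ΦA, Q.monic_ΦA, Q.root_ΦA, Q.f1_eq, Q.f1b_eq, hGauss Q.irr_ΦA, Q.irr_ΦA, ?_⟩
  rw [← Q.red_DA_eq]
  exact Q.red_DA_ne_zero

end PrimPack1

end Fermat.Agent.T4.helper4.Ig

end
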