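import Mathlib
import Fermat.Agent.T4.helper4_IgusaDefs

/-!
# T4 block (I), [IGUSA1] leaf [IG-MEM-J] (helper61): `j(d τ)`, `d ∣ M`, in `BS (Gamma M) M S`

For a subring `S ⊆ ℂ` containing `ζ_M`:

* `jdGA M d hd : GA (Gamma M) M` : the function `j(d τ)` (`d ∣ M`) as a modular function of
  level `Γ(M)` (from `S28.jfunD_mem` and `Conj1.GAlg_le`);
* `EA_jdGA` : its expansion at `γ` is the Hermite series `(hData d γ).jSer M`;
* `EA_one_jdGA` : its expansion at the identity is `j(q^d)(t^M)`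
  (`qExpand ℂ M (qExpand ℂ d (jqModC ℂ))`);
* `jdGA_mem_BS`, `jdBS` : it lies in `BS (Gamma M) M S`;
* `memJ : helper4.Ig.MemJStatement M S`.

The hypothesis `(M : ℂ)⁻¹ ∈ S` is not needed for `j(d τ)`.
-/

set_option autoImplicit false
set_option linter.unusedSectionVars false
set_option linter.style.haveILetI false

noncomputable section

namespace Fermat.Agent.T4.helper61

open UpperHalfPlane CongruenceSubgroup ModularCurve
open Fermat.Agent.S24 Fermat.Agent.S28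
open Fermat.Agent.T4.helper32.Conj1
open Fermat.Agent.T4.helper4.Ig
open scoped MatrixGroups

variable (M : ℕ) [NeZero M] (S : Subring ℂ)

theorem gamma_le_gamma0 (N : ℕ) : Gamma N ≤ Gamma0 N := by
  intro g hg
  rw [Gamma_mem] at hg
  rw [Gamma0_mem]
  exact hg.2.2.1

/-- `j(d τ)`, `d ∣ M`, as a modular function of level `Γ(M)` -/
def jdGA (d : ℕ) [NeZero d] (hd : d ∣ M) : GA (Gamma M) M :=
  ⟨jfunD d, GAlg_le (Gamma M) M (gamma_le_gamma0 M) (jfunD_mem M d hd)⟩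

theorem coe_jdGA (d : ℕ) [NeZero d] (hd : d ∣ M) :
    ((jdGA M d hd : GA (Gamma M) M) : ℍ → ℂ) = jfunD d := rfl

theorem coe_jdGA_eq_jfunDT (d : ℕ) [NeZero d] (hd : d ∣ M) :
    ((jdGA M d hd : GA (Gamma M) M) : ℍ → ℂ) = jfunDT d := by
  funext τ
  rw [coe_jdGA, jfunDT, dif_neg (NeZero.ne d)]

/-- the expansion of `j(d τ)` at `γ` is the Hermite series -/
theorem EA_jdGA (d : ℕ) [NeZero d] (hd : d ∣ M) (γ : SL(2, ℤ)) :
    EA (Gamma M) M γ (jdGA M d hd) = (hData d γ).jSer M :=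
  EA_eq (Gamma M) M γ (jdGA M d hd) ((hData d γ).hasExp_j M hd)

/-- the expansion of `j(d τ)` at the identity -/
theorem EA_one_jdGA (d : ℕ) [NeZero d] (hd : d ∣ M) :
    EA (Gamma M) M 1 (jdGA M d hd) = qExpand ℂ M (qExpand ℂ d (jqModC ℂ)) := by
  haveI hNd : NeZero (M * d) := ⟨Nat.mul_ne_zero (NeZero.ne M) (NeZero.ne d)⟩
  rw [qExpand_qExpand]
  apply EA_eq
  have e : (fun τ => ((jdGA M d hd : GA (Gamma M) M) : ℍ → ℂ) ((1 : SL(2, ℤ)) • τ)) =
      jfunD d := by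
    funext τ
    rw [one_smul]
    rfl
  rw [e]
  exact hasExp_jfunD M d hNd

/-- all coefficients of all expansions of `j(d τ)` lie in `S` -/
theorem jdGA_mem_BS (hζ : zetaC M ∈ S) (d : ℕ) [NeZero d] (hd : d ∣ M) :
    jdGA M d hd ∈ BS (Gamma M) M S := by
  rw [mem_BS_iff]
  intro γ n
  rw [EA_jdGA]
  obtain ⟨h1, h2⟩ := (hData d γ).ξ_mem hd S hζ
  exact helper25.affL_coeff_mem S _ h1 h2 _ _ (helper25.jqModC_coeff_mem S) n

/-- `j(d τ)`, `d ∣ M`, as an element of `B_S` -/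
def jdBS (hζ : zetaC M ∈ S) (d : ℕ) [NeZero d] (hd : d ∣ M) : BS (Gamma M) M S :=
  ⟨jdGA M d hd, jdGA_mem_BS M S hζ d hd⟩

theorem coe_jdBS (hζ : zetaC M ∈ S) (d : ℕ) [NeZero d] (hd : d ∣ M) :
    (((jdBS M S hζ d hd : BS (Gamma M) M S) : GA (Gamma M) M) : ℍ → ℂ) = jfunDT d :=
  coe_jdGA_eq_jfunDT M d hd

/-- **[IG-MEM-J]** the functions `j(d τ)`, `d ∣ M`, are `S`-integral modular functions of level
`Γ(M)`, for every subring `S` of `ℂ` containing `ζ_M`. -/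
theorem memJ (hζ : zetaC M ∈ S) : MemJStatement M S := by
  intro d hd
  haveI : NeZero d := ⟨ne_zero_of_dvd_ne_zero (NeZero.ne M) hd⟩
  exact ⟨jdBS M S hζ d hd, coe_jdBS M S hζ d hd⟩

/-- **[IG-MEM-J]**, with the expansion at the identity. -/
theorem memJ_exp (hζ : zetaC M ∈ S) (d : ℕ) [NeZero d] (hd : d ∣ M) :
    ∃ f : BS (Gamma M) M S,
      (((f : GA (Gamma M) M) : ℍ → ℂ)) = jfunDT d ∧
      EA (Gamma M) M 1 (f : GA (Gamma M) M) = qExpand ℂ M (qExpand ℂ d (jqModC ℂ)) ∧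
      ∀ γ : SL(2, ℤ), EA (Gamma M) M γ (f : GA (Gamma M) M) = (hData d γ).jSer M :=
  ⟨jdBS M S hζ d hd, coe_jdBS M S hζ d hd, EA_one_jdGA M d hd, fun γ => EA_jdGA M d hd γ⟩

end Fermat.Agent.T4.helper61

end
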