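import Mathlib
import Fermat.Agent.T4.helper61_MemJ

/-!
# T4 block (I), [IGUSA1] leaf [IG-JM], items (1)-(3) (helper61): the pivot `j_M = j(M τ)`

For a subring `S ⊆ ℂ` containing `ζ_M` and a ring homomorphism `r : S →+* k` to a field, the
element `x = pivotJM M S hζ = jdBS M S hζ M dvd_rfl` of `BS (Gamma M) M S` satisfies

* `coe_pivotJM` : its function is `S24.jfunDT M`;
* `trB_pivotJM` : it is fixed by the translations of `Γ₀(M)`;
* `EA_pivotJM_lead` : its expansion at `γ` is `ξ⁻¹ t^(-a²) (1 + …)`, `a = gcd (M, c_γ)`;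
* `EB_pivotJM_coeff_lead`, `EB_pivotJM_coeff_below` : the reduced expansion has the same shape;
* `mem_Gamma0_of_EB_pivotJM_eq` : `EB r γ x = EB r 1 x → γ ∈ Γ₀(M)` (compare the orders);
* `pivotJM_of_poly` : `helper4.Ig.PivotJMStatement M S r` from the polynomial `F` (item (4)).
-/

set_option autoImplicit false
set_option linter.unusedSectionVars false
set_option linter.style.haveILetI false

noncomputable section

namespace Fermat.Agent.T4.helper61

open UpperHalfPlane CongruenceSubgroup ModularCurve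
open Fermat.Agent.S24 Fermat.Agent.S28
open Fermat.Agent.T4.helper32.Conj1
open Fermat.Agent.T4.helper4.Ig
open scoped MatrixGroups

variable (M : ℕ) [NeZero M] (S : Subring ℂ) (hζ : zetaC M ∈ S)

/-- the pivot `j_M = j(M τ)` as an element of `B_S` -/
def pivotJM : BS (Gamma M) M S := jdBS M S hζ M dvd_rfl

theorem coe_pivotJM :
    (((pivotJM M S hζ : BS (Gamma M) M S) : GA (Gamma M) M) : ℍ → ℂ) = jfunDT M :=
  coe_jdBS M S hζ M dvd_rfl

/-- `j(d τ)` is fixed by the translations of `Γ₀(M)` (`d ∣ M`) -/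
theorem trB_jdBS (d : ℕ) [NeZero d] (hd : d ∣ M) (γ : SL(2, ℤ)) (hγ : γ ∈ Gamma0 M) :
    trB (Gamma M) M S γ (jdBS M S hζ d hd) = jdBS M S hζ d hd := by
  apply Subtype.ext
  apply Subtype.ext
  funext τ
  show ((tr (Gamma M) M γ (jdGA M d hd) : GA (Gamma M) M) : ℍ → ℂ) τ = jfunD d τ
  rw [tr_apply]
  exact Fermat.Agent.S24.helper24.jfunD_smul_of_mem_Gamma0 M d hd γ hγ τ

/-- the pivot is fixed by the translations of `Γ₀(M)` -/
theorem trB_pivotJM (γ : SL(2, ℤ)) (hγ : γ ∈ Gamma0 M) :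
    trB (Gamma M) M S γ (pivotJM M S hζ) = pivotJM M S hζ :=
  trB_jdBS M S hζ M dvd_rfl γ hγ

/-- the invariant `a = gcd (M, c_γ)` of the coset of `γ` -/
def aOf (γ : SL(2, ℤ)) : ℕ := Nat.gcd M (γ 1 0).natAbs

theorem hData_a (γ : SL(2, ℤ)) : (hData M γ).a = aOf M γ := (hData M γ).hgcd

theorem aOf_dvd (γ : SL(2, ℤ)) : aOf M γ ∣ M := Nat.gcd_dvd_left _ _

theorem aOf_le (γ : SL(2, ℤ)) : aOf M γ ≤ M :=
  Nat.le_of_dvd (Nat.pos_of_ne_zero (NeZero.ne M)) (aOf_dvd M γ)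

theorem aOf_one : aOf M 1 = M := by
  simp [aOf]

theorem mem_Gamma0_of_aOf_eq (γ : SL(2, ℤ)) (h : aOf M γ = M) : γ ∈ Gamma0 M := by
  apply mem_Gamma0_of_dvd_lower
  have h1 : M ∣ (γ 1 0).natAbs := by
    have := Nat.gcd_dvd_right M (γ 1 0).natAbs
    rwa [show Nat.gcd M (γ 1 0).natAbs = M from h] at this
  exact Int.natCast_dvd.mpr h1

/-- leading term of the expansion of the pivot at `γ` -/
theorem EA_pivotJM_lead (γ : SL(2, ℤ)) :
    ∃ p : PowerSeries ℂ, PowerSeries.constantCoeff p = 1 ∧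
      EA (Gamma M) M γ (jdGA M M dvd_rfl) =
        HahnSeries.single (-((aOf M γ : ℤ) ^ 2)) ((hData M γ).ξ)⁻¹ *
          HahnSeries.ofPowerSeries ℤ ℂ p := by
  obtain ⟨p', hp', hl⟩ := helper25.affL_lead (hData M γ).ξ (hData M γ).ξ_ne_zero
    ((hData M γ).e M) ((hData M γ).e_ne_zero M dvd_rfl) (-1) 1
    (jNum.map (Int.castRingHom ℂ)) (constantCoeff_map_int _ constantCoeff_jNum)
  refine ⟨p', hp', ?_⟩
  rw [EA_jdGA, HData.jSer, jqModC_eq, hl, HData.e_self, hData_a]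
  congr 2
  · push_cast; ring_nf
  · rw [one_mul, zpow_neg_one]

/-- the coefficients of the expansion of the pivot below the leading exponent vanish -/
theorem EA_pivotJM_coeff_below (γ : SL(2, ℤ)) (n : ℤ) (hn : n < -((aOf M γ : ℤ) ^ 2)) :
    (EA (Gamma M) M γ (jdGA M M dvd_rfl)).coeff n = 0 := by
  obtain ⟨p, -, hl⟩ := EA_pivotJM_lead M γ
  rw [hl, helper93.coeff_single_mul_ofPowerSeries, if_pos hn]

/-- the leading coefficient of the expansion of the pivot -/
theorem EA_pivotJM_coeff_lead (γ : SL(2, ℤ)) :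
    (EA (Gamma M) M γ (jdGA M M dvd_rfl)).coeff (-((aOf M γ : ℤ) ^ 2)) =
      ((hData M γ).ξ)⁻¹ := by
  obtain ⟨p, hp, hl⟩ := EA_pivotJM_lead M γ
  rw [hl, helper93.coeff_single_mul_ofPowerSeries, if_neg (lt_irrefl _), sub_self,
    Int.toNat_zero, PowerSeries.coeff_zero_eq_constantCoeff_apply, hp, mul_one]

variable {k : Type} [Field k] (r : S →+* k)

theorem EB_pivotJM_coeff_below (γ : SL(2, ℤ)) (n : ℤ) (hn : n < -((aOf M γ : ℤ) ^ 2)) :
    (EB (Gamma M) M S r γ (pivotJM M S hζ)).coeff n = 0 := by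
  rw [EB_coeff]
  have h0 : (ES (Gamma M) M S γ (pivotJM M S hζ)).coeff n = 0 := by
    apply Subtype.val_injective
    rw [ES_coeff]
    exact EA_pivotJM_coeff_below M γ n hn
  rw [h0, map_zero]

theorem EB_pivotJM_coeff_lead_ne_zero (γ : SL(2, ℤ)) :
    (EB (Gamma M) M S r γ (pivotJM M S hζ)).coeff (-((aOf M γ : ℤ) ^ 2)) ≠ 0 := by
  rw [EB_coeff]
  obtain ⟨h1, h2⟩ := (hData M γ).ξ_mem (dvd_refl M) S hζ
  have hc : (ES (Gamma M) M S γ (pivotJM M S hζ)).coeff (-((aOf M γ : ℤ) ^ 2)) =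
      (⟨((hData M γ).ξ)⁻¹, h2⟩ : S) := by
    apply Subtype.val_injective
    rw [ES_coeff]
    exact EA_pivotJM_coeff_lead M γ
  rw [hc]
  have hu : (⟨((hData M γ).ξ)⁻¹, h2⟩ : S) * (⟨(hData M γ).ξ, h1⟩ : S) = 1 := by
    apply Subtype.val_injective
    show ((hData M γ).ξ)⁻¹ * (hData M γ).ξ = 1
    exact inv_mul_cancel₀ (hData M γ).ξ_ne_zero
  intro h0
  have := congrArg r hu
  rw [map_mul, h0, zero_mul, map_one] at this
  exact zero_ne_one this

/-- **[IG-JM] (3)** the reduced conjugates of the pivot separate `Γ₀(M)`: if the reduced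
expansion at `γ` equals the reduced expansion at the identity then `γ ∈ Γ₀(M)`. -/
theorem mem_Gamma0_of_EB_pivotJM_eq (γ : SL(2, ℤ))
    (h : EB (Gamma M) M S r γ (pivotJM M S hζ) = EB (Gamma M) M S r 1 (pivotJM M S hζ)) :
    γ ∈ Gamma0 M := by
  apply mem_Gamma0_of_aOf_eq
  by_contra hne
  have hlt : aOf M γ < M := lt_of_le_of_ne (aOf_le M γ) hne
  have h1 := EB_pivotJM_coeff_lead_ne_zero M S hζ r 1
  rw [aOf_one] at h1
  apply h1
  rw [← h]
  apply EB_pivotJM_coeff_below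
  have h2 : (aOf M γ : ℤ) < (M : ℤ) := by exact_mod_cast hlt
  have h3 : (0 : ℤ) ≤ (aOf M γ : ℤ) := Int.natCast_nonneg _
  nlinarith

/-- **[IG-JM]** from its item (4): the pivot statement holds as soon as the pivot is a root of
a polynomial over `S[j]` with monic irreducible reduction. -/
theorem pivotJM_of_poly
    (hF : ∃ F : Polynomial (Polynomial S),
      F.eval₂ (polyB (Gamma M) M S) (pivotJM M S hζ) = 0 ∧
      (F.map (Polynomial.mapRingHom r)).Monic ∧
      Irreducible (F.map (Polynomial.mapRingHom r))) :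
    PivotJMStatement M S r :=
  ⟨pivotJM M S hζ, coe_pivotJM M S hζ, fun γ hγ => trB_pivotJM M S hζ γ hγ,
    fun γ h => mem_Gamma0_of_EB_pivotJM_eq M S hζ r γ h, hF⟩

end Fermat.Agent.T4.helper61

end
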