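import Mathlib
import Fermat.Agent.T4.helper61_PivotJM23
import Fermat.Agent.S28.AnalyticConj

/-!
# T4 block (I), [IGUSA1] leaf [IG-JM] (helper61): `PivotJMStatement M S r`

For a subring `S ⊆ ℂ` with `ζ_M ∈ S`, `1 / M ∈ S` and a SURJECTIVE ring homomorphism
`r : S →+* k` onto a field:

* `exists_PS_JM` : the characteristic polynomial of `Θ = j(M τ)` over `S[j]` (S28:
  `helper93.exists_charpoly_reduce_irreducible` for the concrete data `EI`, `JG`, `JdG`, `UG`),
  monic with irreducible reduction;
* `eval₂_polyB_pivotJM` : the pivot is a root of it in `BS (Gamma M) M S`;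
* `pivotJM_statement : helper4.Ig.PivotJMStatement M S r`.
-/

set_option autoImplicit false
set_option linter.unusedSectionVars false
set_option linter.style.haveILetI false

noncomputable section

namespace Fermat.Agent.T4.helper61

open UpperHalfPlane CongruenceSubgroup ModularCurve Polynomial
open Fermat.Agent.S24 Fermat.Agent.S28
open Fermat.Agent.T4.helper32.Conj1
open Fermat.Agent.T4.helper4.Ig
open scoped MatrixGroups

variable (M : ℕ) [NeZero M] (S : Subring ℂ) (hζ : zetaC M ∈ S) (hN : (M : ℂ)⁻¹ ∈ S)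

instance finiteIX : Finite (IX M) := Fermat.Agent.S24.helper37.finite_quotient_Gamma0 M

include hζ hN in
/-- the characteristic polynomial of `Θ = j(M τ)` over `S[j]` -/
theorem exists_PS_JM :
    letI : Fintype (IX M) := Fintype.ofFinite _
    letI : DecidableEq (IX M) := Classical.decEq _
    ∃ PS : Polynomial (Polynomial S),
      (∏ i : IX M, (X - C (EI M i (JdG M M)))) =
        (PS.map (mapRingHom S.subtype)).map
          ((aeval (qExpand ℂ M (jqModC ℂ)) : Polynomial ℂ →ₐ[ℂ] LaurentSeries ℂ) :
              Polynomial ℂ →+* LaurentSeries ℂ) ∧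
      PS.Monic ∧ PS.natDegree = Fintype.card (IX M) ∧
      ∀ {k : Type} [Field k] (r : S →+* k), Function.Surjective r →
        Irreducible (PS.map (mapRingHom r)) := by
  letI : Fintype (IX M) := Fintype.ofFinite _
  letI : DecidableEq (IX M) := Classical.decEq _
  exact helper93.exists_charpoly_reduce_irreducible M (i0 M) (EI M) (JG M) (JdG M) (UG M) (aI M)
    (EI_JG M) (aI_dvd M) (eq_i0_of_aI_eq M) ⟨mI M, item4_inj M, item4_lead M⟩ (item5 M)
    (item6 M) (fun S g hS => @item7 M _ (charpolyCoeffs M) _ _ S g hS) S hζ hN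

/-- the expansion at the identity as a ring homomorphism on `B_S` -/
def gOne : BS (Gamma M) M S →+* LaurentSeries ℂ :=
  ((EA (Gamma M) M 1 : GA (Gamma M) M →ₐ[ℂ] LaurentSeries ℂ) :
    GA (Gamma M) M →+* LaurentSeries ℂ).comp (BS (Gamma M) M S).subtype

theorem gOne_injective : Function.Injective (gOne M S) := by
  intro f g h
  apply Subtype.ext
  exact EA_one_injective (Gamma M) M h

theorem gOne_comp_polyB :
    (gOne M S).comp (polyB (Gamma M) M S) =
      ((aeval (xC M) : Polynomial ℂ →ₐ[ℂ] LaurentSeries ℂ) :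
        Polynomial ℂ →+* LaurentSeries ℂ).comp (mapRingHom S.subtype) := by
  apply RingHom.ext
  intro P
  exact EA_polyB (Gamma M) M S 1 P

theorem gOne_pivotJM :
    gOne M S (pivotJM M S hζ) = qExpand ℂ (M * M) (jqModC ℂ) := by
  show EA (Gamma M) M 1 (jdGA M M dvd_rfl) = _
  rw [EA_one_jdGA, qExpand_qExpand]

/-- the pivot is a root of every polynomial over `S[j]` which becomes the product of the
conjugates `X - E_i(Θ)` -/
theorem eval₂_polyB_pivotJM [Fintype (IX M)] (PS : Polynomial (Polynomial S))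
    (h : (∏ i : IX M, (X - C (EI M i (JdG M M)))) =
        (PS.map (mapRingHom S.subtype)).map
          ((aeval (qExpand ℂ M (jqModC ℂ)) : Polynomial ℂ →ₐ[ℂ] LaurentSeries ℂ) :
              Polynomial ℂ →+* LaurentSeries ℂ)) :
    PS.eval₂ (polyB (Gamma M) M S) (pivotJM M S hζ) = 0 := by
  apply gOne_injective M S
  rw [map_zero, Polynomial.hom_eval₂, gOne_comp_polyB, ← Polynomial.eval₂_map,
    ← Polynomial.eval_map]
  have hx : (xC M) = qExpand ℂ M (jqModC ℂ) := rfl
  rw [hx, ← h, Polynomial.eval_prod]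
  apply Finset.prod_eq_zero (Finset.mem_univ (i0 M))
  haveI hMM : NeZero (M * M) := ⟨Nat.mul_ne_zero (NeZero.ne M) (NeZero.ne M)⟩
  rw [Polynomial.eval_sub, Polynomial.eval_X, Polynomial.eval_C, gOne_pivotJM,
    EI_i0_JdG M M dvd_rfl hMM, sub_self]

variable {k : Type} [Field k] (r : S →+* k)

include hζ hN in
/-- **[IG-JM]** the pivot statement, for `ζ_M, 1 / M ∈ S` and `r` surjective. -/
theorem pivotJM_statement (hr : Function.Surjective r) : PivotJMStatement M S r := by
  letI : Fintype (IX M) := Fintype.ofFinite _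
  letI : DecidableEq (IX M) := Classical.decEq _
  obtain ⟨PS, hPS, hmonic, -, hirr⟩ := exists_PS_JM M S hζ hN
  exact pivotJM_of_poly M S hζ r
    ⟨PS, eval₂_polyB_pivotJM M S hζ PS hPS, hmonic.map _, hirr r hr⟩

end Fermat.Agent.T4.helper61

end
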