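/-
T4 block (I), IGUSA1 route A, [IG-KER] FINAL (helper65): kernel stability of `B_S` UNCONDITIONAL.

`decomp_eq_top_of_surj` : for `ζ_M ∈ S`, `1 / M ∈ S` and a surjective `r : S →+* k` onto a field,
the decomposition group of the prime at infinity of `B_S = BS (Gamma M) M S` is everything
(`helper65.IgKer.decomp_eq_top'` + `helper61.pivotJM_statement` + `helper32.Conj1.groupStatement`).
`EB_eq_zero_of_surj` / `ker_stable_of_surj` : the `q`-expansion principle at all cosets.
-/
import Mathlib
import Fermat.Agent.T4.helper65_IgKer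
import Fermat.Agent.T4.helper61_PivotJM

set_option autoImplicit false
set_option linter.unusedSectionVars false
set_option linter.style.haveILetI false

noncomputable section

namespace Fermat.Agent.T4.helper65.IgKer

open UpperHalfPlane CongruenceSubgroup ModularCurve Polynomial
open Fermat.Agent.T4.helper32.Conj1 Fermat.Agent.T4.helper4.Ig
open Fermat.Agent.S28
open scoped MatrixGroups Pointwise

variable (M : ℕ) [NeZero M] (S : Subring ℂ) {k : Type} [Field k] (r : S →+* k)

/-- **[IG-KER], unconditional**: the decomposition group of the prime at infinity of `B_S` is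
`SL₂(ℤ)`. -/
theorem decomp_eq_top_of_surj (hζ : zetaC M ∈ S) (hN : (M : ℂ)⁻¹ ∈ S)
    (hr : Function.Surjective r) : decomp (Gamma M) M S r = ⊤ :=
  decomp_eq_top' M S r hζ (Fermat.Agent.T4.helper61.pivotJM_statement M S hζ hN r hr)

/-- the `q`-expansion principle at all cosets, unconditional -/
theorem EB_eq_zero_of_surj (hζ : zetaC M ∈ S) (hN : (M : ℂ)⁻¹ ∈ S)
    (hr : Function.Surjective r) (g : SL(2, ℤ)) {f : BS (Gamma M) M S}
    (hf : EB (Gamma M) M S r 1 f = 0) : EB (Gamma M) M S r g f = 0 :=
  EB_eq_zero_of_decomp_eq_top (Gamma M) M S r (decomp_eq_top_of_surj M S r hζ hN hr) g hf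

/-- reduced expansions at ANY coset are determined by the reduced expansion at the identity -/
theorem EB_congr_of_surj (hζ : zetaC M ∈ S) (hN : (M : ℂ)⁻¹ ∈ S)
    (hr : Function.Surjective r) (g : SL(2, ℤ)) {f f' : BS (Gamma M) M S}
    (h : EB (Gamma M) M S r 1 f = EB (Gamma M) M S r 1 f') :
    EB (Gamma M) M S r g f = EB (Gamma M) M S r g f' := by
  have h0 : EB (Gamma M) M S r 1 (f - f') = 0 := by rw [map_sub, h, sub_self]
  have h1 := EB_eq_zero_of_surj M S r hζ hN hr g h0
  rwa [map_sub, sub_eq_zero] at h1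

/-- kernel stability (`hst` of `helper4_IgusaAbs`), unconditional -/
theorem ker_stable_of_surj (hζ : zetaC M ∈ S) (hN : (M : ℂ)⁻¹ ∈ S)
    (hr : Function.Surjective r) :
    letI := actG M S
    ∀ (σ : GM M) (f : BS (Gamma M) M S), rhoB M S r f = 0 → rhoB M S r (σ • f) = 0 :=
  ker_stable M S r hζ (Fermat.Agent.T4.helper61.pivotJM_statement M S hζ hN r hr)

end Fermat.Agent.T4.helper65.IgKer
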