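import Mathlib
import Fermat.Agent.T4.helper24_FldDefs
import Fermat.Agent.S24.helper24_Stabilizer
import Fermat.Agent.S24.helper77_Degree

/-!
# T4 block (I), I-FLD (helper24): the generator system of `X₁(M)` - inputs and assembly

* `mem_PG1_iff` : `g ∈ ±Γ₁(M) ↔ g ∈ Γ₁(M) ∨ -g ∈ Γ₁(M)`;
* `X1Inputs M` : the analytic inputs on the functions `s_a = sFn M a` (owners: see the finding of
  helper24): `q`-expansion, invariance under `Γ₁(M)`, fullness, growth of all translates;
* `x1Sys_of : X1Inputs M → (x1Data M).IsSys`;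
* `x1Field : X1FieldStatement M` (`F1Q M` is generated by the generators of `x1Data M`).
-/

set_option autoImplicit false
set_option linter.unusedSectionVars false
set_option linter.style.haveILetI false

noncomputable section

open UpperHalfPlane ModularCurve IntermediateField CongruenceSubgroup
open scoped MatrixGroups

namespace Fermat.Agent.T4.helper24

open Fermat.Agent.S24 Fermat.Agent.T4.helper32

/-! ### `±Γ₁(M)` -/

theorem neg_one_mem_PG1 (M : ℕ) : (-1 : SL(2, ℤ)) ∈ PG1 M :=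
  (le_sup_right : Subgroup.zpowers (-1 : SL(2, ℤ)) ≤ PG1 M) (Subgroup.mem_zpowers _)

theorem Gamma1_le_PG1 (M : ℕ) : Gamma1 M ≤ PG1 M := le_sup_left

theorem mem_PG1_iff (M : ℕ) (g : SL(2, ℤ)) : g ∈ PG1 M ↔ g ∈ Gamma1 M ∨ -g ∈ Gamma1 M := by
  constructor
  · intro hg
    -- the set on the right is a subgroup containing `Γ₁(M)` and `-1`
    let S : Subgroup SL(2, ℤ) :=
      { carrier := {g | g ∈ Gamma1 M ∨ -g ∈ Gamma1 M}
        one_mem' := Or.inl (Subgroup.one_mem _)
        mul_mem' := by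
          rintro a b (ha | ha) (hb | hb)
          · exact Or.inl (Subgroup.mul_mem _ ha hb)
          · right
            have := Subgroup.mul_mem _ ha hb
            rwa [mul_neg] at this
          · right
            have := Subgroup.mul_mem _ ha hb
            rwa [neg_mul] at this
          · left
            have := Subgroup.mul_mem _ ha hb
            rwa [neg_mul_neg] at this
        inv_mem' := by
          rintro a (ha | ha)
          · exact Or.inl (Subgroup.inv_mem _ ha)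
          · right
            have := Subgroup.inv_mem _ ha
            have e : (-a)⁻¹ = -a⁻¹ := by
              rw [inv_eq_iff_eq_inv, inv_neg, inv_inv]
            rwa [e] at this }
    have hle : PG1 M ≤ S := by
      refine sup_le (fun x hx => Or.inl hx) ?_
      rw [Subgroup.zpowers_le]
      right
      show - -(1 : SL(2, ℤ)) ∈ Gamma1 M
      rw [neg_neg]
      exact Subgroup.one_mem _
    exact hle hg
  · rintro (hg | hg)
    · exact Gamma1_le_PG1 M hg
    · have h1 := Subgroup.mul_mem _ (Gamma1_le_PG1 M hg) (neg_one_mem_PG1 M)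
      have e : -g * -1 = g := by rw [neg_mul_neg, mul_one]
      rwa [e] at h1

theorem neg_one_mem_Gamma0 (M : ℕ) : (-1 : SL(2, ℤ)) ∈ Gamma0 M := by
  rw [Gamma0_mem]
  simp

theorem PG1_le_Gamma0 (M : ℕ) : PG1 M ≤ Gamma0 M := by
  refine sup_le (Gamma1_in_Gamma0 M) ?_
  rw [Subgroup.zpowers_le]
  exact neg_one_mem_Gamma0 M

theorem Gamma_le_PG1 (M : ℕ) : Gamma M ≤ PG1 M := by
  intro g hg
  apply Gamma1_le_PG1
  rw [Gamma_mem] at hg
  rw [Gamma1_mem]
  exact ⟨hg.1, hg.2.2.2, hg.2.2.1⟩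

/-! ### The inputs -/

/-- The analytic inputs on the functions `s_a`. -/
structure X1Inputs (M : ℕ) : Prop where
  /-- `s_a` is holomorphic on the upper half plane with `q`-expansion `sSer M a` -/
  qexp : ∀ a : ZMod M, a ≠ 0 → helper17.IsQExp (coeffEmb ℂ (sSer ℚ M a)) (sFn M a)
  /-- invariance under `Γ₁(M)` -/
  inv : ∀ a : ZMod M, a ≠ 0 → ∀ γ ∈ Gamma1 M, ∀ τ : ℍ, sFn M a (γ • τ) = sFn M a τ
  /-- fullness: an element of `Γ₀(M)` fixing all `s_a` lies in `±Γ₁(M)` -/
  full : ∀ g ∈ Gamma0 M, (∀ a : ZMod M, a ≠ 0 → ∀ τ : ℍ, sFn M a (g • τ) = sFn M a τ) →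
    g ∈ PG1 M
  /-- all translates are holomorphic of exponential growth at `i∞` -/
  growth : ∀ (g : SL(2, ℤ)) (a : ZMod M), a ≠ 0 →
    helper77.precomp g (sFn M a) ∈ helper77.holoExp

/-! ### The assembly -/

theorem coeffEmb_JdTQ (d : ℕ) : coeffEmb ℂ (JdTQ d) = helper17.JdTC d := by
  unfold JdTQ helper17.JdTC
  split_ifs with h
  · exact map_zero _
  · rfl

variable (M : ℕ) [NeZero M]

theorem x1_ser_inl (d : {d : ℕ // d ∈ M.divisors}) :
    (x1Data M).ser ℂ (Sum.inl d) = helper17.JdTC d.1 :=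
  coeffEmb_JdTQ d.1

theorem x1_ser_inr (a : {a : ZMod M // a ≠ 0}) :
    (x1Data M).ser ℂ (Sum.inr a) = coeffEmb ℂ (sSer ℚ M a.1) := rfl

theorem x1_fn_inl (d : {d : ℕ // d ∈ M.divisors}) :
    (x1Data M).fn (Sum.inl d) = jfunDT d.1 := rfl

theorem x1_fn_inr (a : {a : ZMod M // a ≠ 0}) :
    (x1Data M).fn (Sum.inr a) = sFn M a.1 := rfl

theorem jfunDT_smul_of_mem_PG1 (d : {d : ℕ // d ∈ M.divisors}) {γ : SL(2, ℤ)}
    (hγ : γ ∈ PG1 M) (τ : ℍ) : jfunDT d.1 (γ • τ) = jfunDT d.1 τ := by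
  have hd0 : d.1 ≠ 0 := fun h => by
    have := (Nat.mem_divisors.1 d.2).1
    rw [h] at this
    exact NeZero.ne M (Nat.eq_zero_of_zero_dvd this)
  haveI : NeZero d.1 := ⟨hd0⟩
  rw [helper77.jfunDT_of_ne_zero]
  exact helper77.jfunD_smul_of_mem_Gamma0 (Nat.mem_divisors.1 d.2).1 (PG1_le_Gamma0 M hγ) τ

/-- **[X1-SYS]** the generator system of `X₁(M)`, from the analytic inputs. -/
theorem x1Sys_of (h : X1Inputs M) : (x1Data M).IsSys where
  serQ_j0 := by
    show JdTQ 1 = jq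
    rw [JdTQ, dif_neg one_ne_zero]
    exact qExpand_one_apply jq
  fn_j0 := by
    funext τ
    exact helper77.jfunDT_one τ
  isQExp := by
    rintro (d | a)
    · rw [x1_ser_inl]
      exact helper17.isQExp_jfunDT d.1
    · exact h.qexp a.1 a.2
  inv := by
    rintro (d | a) γ hγ τ
    · exact jfunDT_smul_of_mem_PG1 M d hγ τ
    · show sFn M a.1 (γ • τ) = sFn M a.1 τ
      rcases (mem_PG1_iff M γ).1 hγ with hγ' | hγ'
      · exact h.inv a.1 a.2 γ hγ' τ
      · have e : (-γ) • τ = γ • τ := ModularGroup.SL_neg_smul γ τ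
        rw [← e]
        exact h.inv a.1 a.2 (-γ) hγ' τ
  stab := by
    intro g hg
    have hM : M ∈ M.divisors := Nat.mem_divisors.mpr ⟨dvd_rfl, NeZero.ne M⟩
    have h0 : g ∈ Gamma0 M := by
      have key := helper24.inv_mul_mem_Gamma0_of_jfunDg_eq M g⁻¹ 1 (fun τ => by
        have := hg (Sum.inl ⟨M, hM⟩) τ
        simp only [jfunDg, inv_inv, inv_one, one_smul]
        have e : jfunDT M = jfunD M := helper77.jfunDT_of_ne_zero
        have h1 : jfunDT M (g • τ) = jfunDT M τ := this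
        rw [e] at h1
        exact h1)
      simpa using key
    exact h.full g h0 fun a ha τ => hg (Sum.inr ⟨a, ha⟩) τ
  level := ⟨M, Nat.pos_of_ne_zero (NeZero.ne M), Gamma_le_PG1 M⟩
  growth := by
    rintro g (d | a)
    · have hd0 : ∀ i : {d : ℕ // d ∈ M.divisors}, (fun i : {d : ℕ // d ∈ M.divisors} => i.1) i ≠ 0 :=
        fun i h => by
          have := (Nat.mem_divisors.1 i.2).1
          rw [show i.1 = 0 from h] at this
          exact NeZero.ne M (Nat.eq_zero_of_zero_dvd this)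
      exact helper77.precomp_jfam_mem_holoExp (fun i : {d : ℕ // d ∈ M.divisors} => i.1) hd0 g d
    · exact h.growth g a.1 a.2

/-! ### The field -/

/-- **[X1-FIELD]** `F1Q M` is the field generated by the generators of `x1Data M`. -/
theorem x1Field : X1FieldStatement M := by
  show F1Q M = IntermediateField.adjoin ℚ (Set.range (x1Data M).serQ)
  unfold F1Q
  congr 1
  ext x
  constructor
  · rintro (⟨d, hne, hd, rfl⟩ | ⟨a, ha, rfl⟩)
    · haveI := hne
      refine ⟨Sum.inl ⟨d, Nat.mem_divisors.mpr ⟨hd, NeZero.ne M⟩⟩, ?_⟩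
      show JdTQ d = _
      rw [JdTQ, dif_neg (NeZero.ne d)]
    · exact ⟨Sum.inr ⟨a, ha⟩, rfl⟩
  · rintro ⟨(d | a), rfl⟩
    · left
      have hd0 : d.1 ≠ 0 := fun h => by
        have := (Nat.mem_divisors.1 d.2).1
        rw [h] at this
        exact NeZero.ne M (Nat.eq_zero_of_zero_dvd this)
      refine ⟨d.1, ⟨hd0⟩, (Nat.mem_divisors.1 d.2).1, ?_⟩
      show JdTQ d.1 = _
      rw [JdTQ, dif_neg hd0]
    · right
      exact ⟨a.1, a.2, rfl⟩

/-! ### The wiring -/

open Fermat.Agent.P3.helper20 Fermat.Agent.P3.helper34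

theorem moebC_neg (γ : SL(2, ℤ)) (w : ℂ) : moebC (-γ) w = moebC γ w := by
  unfold moebC
  have e : ∀ i j, ((-γ) i j : ℤ) = -(γ i j) := fun i j => by
    simp [Matrix.SpecialLinearGroup.coe_neg]
  rw [e, e, e, e]
  push_cast
  rw [← neg_div_neg_eq]
  congr 1 <;> ring

/-- restriction of an analytic dictionary from `±Γ₁(M)` to `Γ₁(M)` -/
def anDictOfPG1 {F : Type*} [Field F] [Algebra ℂ F] (𝒟 : AnDict F (PG1 M)) :
    AnDict F (Gamma1 M) where
  ev := 𝒟.ev
  mero := 𝒟.mero
  ev_add := 𝒟.ev_add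
  ev_mul := 𝒟.ev_mul
  ev_algebraMap := 𝒟.ev_algebraMap
  fin := 𝒟.fin
  inv h γ := 𝒟.inv h ⟨γ.1, Gamma1_le_PG1 M γ.2⟩
  const := 𝒟.const
  t2 := 𝒟.t2
  root_mem m h g hm hh hg hpow hinv := 𝒟.root_mem m h g hm hh hg hpow fun γ => by
    rcases (mem_PG1_iff M γ.1).1 γ.2 with h1 | h1
    · exact hinv ⟨γ.1, h1⟩
    · have h2 := hinv ⟨-γ.1, h1⟩
      simp only [moebC_neg] at h2
      exact h2

theorem anDictOfPG1_ev {F : Type*} [Field F] [Algebra ℂ F] (𝒟 : AnDict F (PG1 M)) :
    (anDictOfPG1 M 𝒟).ev = 𝒟.ev := rfl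

/-- **[WIRE]** the analytic dictionary of `X₁(M)` from the generic dictionary. -/
theorem wire : WireStatement M := by
  intro hF hS hG h7
  obtain ⟨𝒟, h𝒟⟩ := hG (x1Data M) (hS h7)
  have key : ∀ (E : IntermediateField ℚ (LaurentSeries ℚ)), E = (x1Data M).fieldQ →
      ∃ 𝒟' : AnDict (laurentBaseChange ℂ E) (Gamma1 M),
        ∀ h : laurentBaseChange ℂ E, IsEv (h : LaurentSeries ℂ) (𝒟'.ev h) := by
    rintro E rfl
    exact ⟨anDictOfPG1 M 𝒟, fun h => h𝒟 h⟩
  exact key (F1Q M) hF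

end Fermat.Agent.T4.helper24

end
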