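import Mathlib

/-!
# T4 (I) / [I-FLD-WP] (helper44): the Weierstrass `℘` function is injective modulo `±` and the
lattice

For a period pair `L` and `u, v ∉ Λ`: `℘(u) = ℘(v)` implies `u - v ∈ Λ` or `u + v ∈ Λ`.

No zero counting: by Mathlib's `derivWeierstrassP_sq` the functions `℘(· + t)` and `℘` solve the
same second order equation `y'' = 6 y² - g₂/2`; if they agree to first order at one point, the
difference `w` satisfies `w'' = 6 (y₁ + y₂) w`, which forces `w` to vanish to infinite order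
(`ord w'' = ord w - 2`); by the identity theorem `t` is a period, hence a lattice point (poles).
-/

set_option autoImplicit false

open Complex Filter Topology PeriodPair

namespace Fermat.Agent.T4.helper44

variable (L : PeriodPair)

/-- `℘` does not agree with an analytic function on a punctured neighbourhood of a lattice
point. -/
lemma not_eventuallyEq_analytic {l₀ : ℂ} (h : l₀ ∈ L.lattice) {g : ℂ → ℂ}
    (hg : AnalyticAt ℂ g l₀) : ¬ (℘[L] =ᶠ[𝓝[≠] l₀] g) := by
  intro he
  have h1 := meromorphicOrderAt_congr he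
  rw [L.order_weierstrassP l₀ h] at h1
  have h2 := hg.meromorphicOrderAt_nonneg
  rw [← h1] at h2
  have h3 : ((0 : ℤ) : WithTop ℤ) ≤ ((-2 : ℤ) : WithTop ℤ) := by simpa using h2
  exact absurd (WithTop.coe_le_coe.mp h3) (by norm_num)

lemma lattice_countable : (L.lattice : Set ℂ).Countable := by
  have : Countable L.lattice := L.latticeEquivProd.toEquiv.countable_iff.mpr inferInstance
  exact Set.countable_coe_iff.mp this

lemma isConnected_compl_lattice : IsConnected ((L.lattice : Set ℂ)ᶜ) :=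
  Set.Countable.isConnected_compl_of_one_lt_rank (by simp) (lattice_countable L)

/-- `℘'` is not identically zero near any point off the lattice. -/
lemma analyticOrderAt_derivWeierstrassP_ne_top {x : ℂ} (hx : x ∉ L.lattice) :
    analyticOrderAt ℘'[L] x ≠ ⊤ := by
  intro htop
  have hconn := (isConnected_compl_lattice L).isPreconnected
  have hall : ∀ y ∈ (L.lattice : Set ℂ)ᶜ, analyticOrderAt ℘'[L] y = ⊤ := by
    intro y hy
    by_contra hne
    exact AnalyticOnNhd.analyticOrderAt_ne_top_of_isPreconnected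
      L.analyticOnNhd_derivWeierstrassP hconn hy hx hne htop
  have hzero : Set.EqOn (deriv ℘[L]) 0 (L.lattice : Set ℂ)ᶜ := by
    intro y hy
    rw [L.deriv_weierstrassP]
    exact (analyticOrderAt_eq_top.mp (hall y hy)).self_of_nhds
  have hconst : ∀ y ∈ (L.lattice : Set ℂ)ᶜ, ℘[L] y = ℘[L] x := fun y hy =>
    L.isClosed_lattice.isOpen_compl.is_const_of_deriv_eq_zero hconn
      L.differentiableOn_weierstrassP hzero hy hx
  refine not_eventuallyEq_analytic L (l₀ := 0) (zero_mem _) (g := fun _ => ℘[L] x)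
    analyticAt_const ?_
  have hnhds : (↑L.lattice \ {(0 : ℂ)})ᶜ ∈ 𝓝 (0 : ℂ) := L.compl_lattice_sdiff_singleton_mem_nhds 0
  filter_upwards [nhdsWithin_le_nhds hnhds, self_mem_nhdsWithin] with y hy hy0
  apply hconst
  intro hmem
  exact hy ⟨hmem, hy0⟩

/-- the differentiated relation, before cancelling `℘'` -/
lemma deriv_rel {y : ℂ} (hy : y ∉ L.lattice) :
    (deriv ℘'[L] y - (6 * ℘[L] y ^ 2 - L.g₂ / 2)) * ℘'[L] y = 0 := by
  have hopen : IsOpen ((L.lattice : Set ℂ)ᶜ) := L.isClosed_lattice.isOpen_compl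
  have hP : AnalyticAt ℂ ℘[L] y := L.analyticOnNhd_weierstrassP y hy
  have hP' : AnalyticAt ℂ ℘'[L] y := L.analyticOnNhd_derivWeierstrassP y hy
  have hrel : (fun x => ℘'[L] x ^ 2 - (4 * ℘[L] x ^ 3 - L.g₂ * ℘[L] x - L.g₃)) =ᶠ[𝓝 y]
      fun _ => 0 := by
    filter_upwards [hopen.mem_nhds hy] with x hx
    rw [L.derivWeierstrassP_sq x hx, sub_self]
  have hd := hrel.deriv_eq
  have hdP : HasDerivAt ℘[L] (℘'[L] y) y := by
    have := hP.differentiableAt.hasDerivAt
    rwa [L.deriv_weierstrassP] at this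
  have hdP' : HasDerivAt ℘'[L] (deriv ℘'[L] y) y := hP'.differentiableAt.hasDerivAt
  have hder := (hdP'.pow 2).sub
    ((((hdP.pow 3).const_mul 4).sub (hdP.const_mul L.g₂)).sub_const L.g₃)
  have hd2 : deriv (fun x => ℘'[L] x ^ 2 - (4 * ℘[L] x ^ 3 - L.g₂ * ℘[L] x - L.g₃)) y = _ :=
    hder.deriv
  rw [hd2] at hd
  simp only [deriv_const] at hd
  push_cast at hd
  linear_combination (1 / 2 : ℂ) * hd

/-- the second order differential equation `℘'' = 6 ℘² - g₂/2` -/
theorem deriv_derivWeierstrassP {z : ℂ} (hz : z ∉ L.lattice) :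
    deriv ℘'[L] z = 6 * ℘[L] z ^ 2 - L.g₂ / 2 := by
  have hopen : IsOpen ((L.lattice : Set ℂ)ᶜ) := L.isClosed_lattice.isOpen_compl
  have hP : AnalyticAt ℂ ℘[L] z := L.analyticOnNhd_weierstrassP z hz
  have hP' : AnalyticAt ℂ ℘'[L] z := L.analyticOnNhd_derivWeierstrassP z hz
  have hF : AnalyticAt ℂ (fun y => deriv ℘'[L] y - (6 * ℘[L] y ^ 2 - L.g₂ / 2)) z :=
    hP'.deriv.sub ((analyticAt_const.mul (hP.pow 2)).sub analyticAt_const)
  have hmul : ((fun y => deriv ℘'[L] y - (6 * ℘[L] y ^ 2 - L.g₂ / 2)) * ℘'[L]) =ᶠ[𝓝 z]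
      fun _ => 0 := by
    filter_upwards [hopen.mem_nhds hz] with y hy
    exact deriv_rel L hy
  have h1 : analyticOrderAt
      ((fun y => deriv ℘'[L] y - (6 * ℘[L] y ^ 2 - L.g₂ / 2)) * ℘'[L]) z = ⊤ :=
    analyticOrderAt_eq_top.mpr hmul
  rw [analyticOrderAt_mul hF hP'] at h1
  have hFtop : analyticOrderAt (fun y => deriv ℘'[L] y - (6 * ℘[L] y ^ 2 - L.g₂ / 2)) z = ⊤ := by
    rcases WithTop.add_eq_top.mp h1 with h | h
    · exact h
    · exact absurd h (analyticOrderAt_derivWeierstrassP_ne_top L hz)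
  have h2 := (analyticOrderAt_eq_top.mp hFtop).self_of_nhds
  have h3 : deriv ℘'[L] z - (6 * ℘[L] z ^ 2 - L.g₂ / 2) = 0 := h2
  linear_combination h3

/-- order argument for a linear second order equation `w'' = g w` with vanishing initial data -/
lemma analyticOrderAt_eq_top_of_ode {w g : ℂ → ℂ} {v : ℂ} (hw : AnalyticAt ℂ w v)
    (hg : AnalyticAt ℂ g v) (h0 : w v = 0) (h1 : deriv w v = 0)
    (h2 : deriv (deriv w) =ᶠ[𝓝 v] g * w) : analyticOrderAt w v = ⊤ := by
  rw [ENat.eq_top_iff_forall_ge]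
  intro n
  induction n with
  | zero => simp
  | succ n ih =>
    have h3 : (n : ℕ∞) ≤ analyticOrderAt (deriv (deriv w)) v := by
      rw [analyticOrderAt_congr h2, analyticOrderAt_mul hg hw]
      exact le_trans ih le_add_self
    have h4 : ((n : ℕ∞) + 1) ≤ analyticOrderAt (deriv w) v :=
      (analyticOrderAt_deriv_ge_iff hw.deriv h1 (n := n)).mp h3
    have h5 : (((n + 1 : ℕ) : ℕ∞) + 1) ≤ analyticOrderAt w v :=
      (analyticOrderAt_deriv_ge_iff hw h0 (n := n + 1)).mp (by exact_mod_cast h4)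
    exact le_trans le_self_add h5

/-- **Key lemma.** If `℘` and `℘'` agree at two points off the lattice, the points differ by a
lattice vector. -/
theorem sub_mem_lattice_of_weierstrassP_eq_of_deriv_eq {u v : ℂ} (hu : u ∉ L.lattice)
    (hv : v ∉ L.lattice) (h : ℘[L] u = ℘[L] v) (h' : ℘'[L] u = ℘'[L] v) :
    u - v ∈ L.lattice := by
  by_contra ht
  set t := u - v with ht_def
  have hut : v + t = u := by rw [ht_def]; ring
  let U : Set ℂ := (L.lattice : Set ℂ)ᶜ ∩ (fun x => x + t) ⁻¹' (L.lattice : Set ℂ)ᶜ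
  have hUopen : IsOpen U := L.isClosed_lattice.isOpen_compl.inter
    (L.isClosed_lattice.isOpen_compl.preimage (by fun_prop))
  have hUconn : IsPreconnected U := by
    have hcount : ((L.lattice : Set ℂ) ∪ (fun x => x + t) ⁻¹' (L.lattice : Set ℂ)).Countable := by
      refine (lattice_countable L).union ?_
      exact (lattice_countable L).preimage_of_injOn (fun a _ b _ hab => by simpa using hab)
    have := (Set.Countable.isConnected_compl_of_one_lt_rank (by simp) hcount).isPreconnected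
    convert this using 1
    ext x
    simp [U, Set.compl_union]
  have hvU : v ∈ U := ⟨hv, by simpa [hut] using hu⟩
  -- the difference
  let w : ℂ → ℂ := fun x => ℘[L] (x + t) - ℘[L] x
  have hPt : ∀ x ∈ U, AnalyticAt ℂ (fun x => ℘[L] (x + t)) x := fun x hx =>
    (L.analyticOnNhd_weierstrassP (x + t) hx.2).comp_of_eq (by fun_prop) rfl
  have hP't : ∀ x ∈ U, AnalyticAt ℂ (fun x => ℘'[L] (x + t)) x := fun x hx =>
    (L.analyticOnNhd_derivWeierstrassP (x + t) hx.2).comp_of_eq (by fun_prop) rfl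
  have hwan : AnalyticOnNhd ℂ w U := fun x hx =>
    (hPt x hx).sub (L.analyticOnNhd_weierstrassP x hx.1)
  have hdw : ∀ x ∈ U, deriv w x = ℘'[L] (x + t) - ℘'[L] x := by
    intro x hx
    have h1 : HasDerivAt (fun x => ℘[L] (x + t)) (℘'[L] (x + t)) x := by
      have := (L.analyticOnNhd_weierstrassP (x + t) hx.2).differentiableAt.hasDerivAt
      rw [L.deriv_weierstrassP] at this
      exact this.comp_add_const x t
    have h2 : HasDerivAt ℘[L] (℘'[L] x) x := by
      have := (L.analyticOnNhd_weierstrassP x hx.1).differentiableAt.hasDerivAt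
      rwa [L.deriv_weierstrassP] at this
    exact (h1.sub h2).deriv
  have hddw : ∀ x ∈ U, deriv (deriv w) x = (6 * (℘[L] (x + t) + ℘[L] x)) * w x := by
    intro x hx
    have he : deriv w =ᶠ[𝓝 x] fun x => ℘'[L] (x + t) - ℘'[L] x := by
      filter_upwards [hUopen.mem_nhds hx] with y hy using hdw y hy
    rw [he.deriv_eq]
    have h1 : HasDerivAt (fun x => ℘'[L] (x + t)) (deriv ℘'[L] (x + t)) x :=
      ((L.analyticOnNhd_derivWeierstrassP (x + t) hx.2).differentiableAt.hasDerivAt).comp_add_const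
        x t
    have h2 : HasDerivAt ℘'[L] (deriv ℘'[L] x) x :=
      (L.analyticOnNhd_derivWeierstrassP x hx.1).differentiableAt.hasDerivAt
    have h3 : deriv (fun x => ℘'[L] (x + t) - ℘'[L] x) x = _ := (h1.sub h2).deriv
    rw [h3, deriv_derivWeierstrassP L hx.1, deriv_derivWeierstrassP L hx.2]
    simp only [w]
    ring
  have hord : analyticOrderAt w v = ⊤ := by
    refine analyticOrderAt_eq_top_of_ode (g := fun x => 6 * (℘[L] (x + t) + ℘[L] x))
      (hwan v hvU) ?_ ?_ ?_ ?_
    · exact analyticAt_const.mul ((hPt v hvU).add (L.analyticOnNhd_weierstrassP v hvU.1))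
    · simp only [w]; rw [hut, h, sub_self]
    · rw [hdw v hvU, hut, h', sub_self]
    · filter_upwards [hUopen.mem_nhds hvU] with y hy
      rw [hddw y hy]; rfl
  have hzero : Set.EqOn w 0 U :=
    hwan.eqOn_zero_of_preconnected_of_eventuallyEq_zero hUconn hvU
      (analyticOrderAt_eq_top.mp hord)
  -- contradiction at the pole `0`
  refine not_eventuallyEq_analytic L (l₀ := 0) (zero_mem _) (g := fun x => ℘[L] (x + t))
    ((L.analyticOnNhd_weierstrassP (0 + t) (by simpa using ht)).comp_of_eq (by fun_prop) rfl) ?_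
  have hnhds : (↑L.lattice \ {(0 : ℂ)})ᶜ ∈ 𝓝 (0 : ℂ) := L.compl_lattice_sdiff_singleton_mem_nhds 0
  have hnhds2 : (fun x => x + t) ⁻¹' (L.lattice : Set ℂ)ᶜ ∈ 𝓝 (0 : ℂ) :=
    (L.isClosed_lattice.isOpen_compl.preimage (by fun_prop)).mem_nhds (by simpa using ht)
  filter_upwards [nhdsWithin_le_nhds hnhds, nhdsWithin_le_nhds hnhds2, self_mem_nhdsWithin]
    with y hy hy2 hy0
  have hyU : y ∈ U := ⟨fun hmem => hy ⟨hmem, hy0⟩, hy2⟩
  have := hzero hyU
  simp only [w, Pi.zero_apply] at this
  exact (sub_eq_zero.mp this).symm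

/-- **Injectivity of `℘` modulo `±` and the lattice.** -/
theorem weierstrassP_eq_iff_sub_or_add_mem {u v : ℂ} (hu : u ∉ L.lattice) (hv : v ∉ L.lattice)
    (h : ℘[L] u = ℘[L] v) : u - v ∈ L.lattice ∨ u + v ∈ L.lattice := by
  have hsq : ℘'[L] u ^ 2 = ℘'[L] v ^ 2 := by
    rw [L.derivWeierstrassP_sq u hu, L.derivWeierstrassP_sq v hv, h]
  rcases sq_eq_sq_iff_eq_or_eq_neg.mp hsq with h' | h'
  · exact Or.inl (sub_mem_lattice_of_weierstrassP_eq_of_deriv_eq L hu hv h h')
  · right
    have hnv : -v ∉ L.lattice := fun hm => hv (by simpa using neg_mem hm)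
    have := sub_mem_lattice_of_weierstrassP_eq_of_deriv_eq L hu hnv
      (by rw [L.weierstrassP_neg]; exact h) (by rw [L.derivWeierstrassP_neg]; exact h')
    simpa [sub_neg_eq_add] using this

/-- the converse direction -/
theorem weierstrassP_eq_of_sub_or_add_mem {u v : ℂ}
    (h : u - v ∈ L.lattice ∨ u + v ∈ L.lattice) : ℘[L] u = ℘[L] v := by
  rcases h with h | h
  · have := L.weierstrassP_add_coe v ⟨u - v, h⟩
    simpa using this
  · have := L.weierstrassP_add_coe (-v) ⟨u + v, h⟩
    rw [L.weierstrassP_neg] at this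
    simpa using this

end Fermat.Agent.T4.helper44
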