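import Mathlib

/-!
# T4 (I) / [I-FLD-WP] (helper44): Lambert series with weights

`∑_{k ≥ 1} w(k) ∑_{d ≥ 1} d (u qᵏ)ᵈ = ∑_{e ≥ 1} (∑_{k d = e} w(k) d uᵈ) qᵉ` for `|q| < 1`, `|u| ≤ 1`,
`|w| ≤ 1`, as `HasSum` statements.  Mathlib only.
-/

set_option autoImplicit false

open Complex Filter Topology

namespace Fermat.Agent.T4.helper44

noncomputable section

/-- the summand of the weighted Lambert series on `ℕ+ × ℕ+` -/
def lamTerm (q u : ℂ) (w : ℕ → ℂ) (c : ℕ+ × ℕ+) : ℂ :=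
  w c.1 * (c.2 : ℂ) * u ^ (c.2 : ℕ) * q ^ ((c.1 : ℕ) * (c.2 : ℕ))

lemma summable_lamTerm {q u : ℂ} (hq : ‖q‖ < 1) (hu : ‖u‖ ≤ 1) (w : ℕ → ℂ)
    (hw : ∀ k, ‖w k‖ ≤ 1) : Summable (lamTerm q u w) := by
  have h := summable_prod_mul_pow (𝕜 := ℝ) 1 (r := ‖q‖) (by simpa using hq)
  refine Summable.of_norm_bounded h fun c => ?_
  simp only [lamTerm, norm_mul, norm_pow, Complex.norm_natCast, pow_one]
  have h1 : ‖w c.1‖ * (c.2 : ℝ) * ‖u‖ ^ (c.2 : ℕ) ≤ (c.2 : ℝ) := by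
    have hu' : ‖u‖ ^ (c.2 : ℕ) ≤ 1 := pow_le_one₀ (norm_nonneg _) hu
    have hc : (0 : ℝ) ≤ (c.2 : ℕ) := Nat.cast_nonneg _
    calc ‖w c.1‖ * (c.2 : ℝ) * ‖u‖ ^ (c.2 : ℕ) ≤ 1 * (c.2 : ℝ) * 1 := by
          gcongr
          exact hw _
      _ = (c.2 : ℝ) := by ring
  exact mul_le_mul_of_nonneg_right h1 (by positivity)

/-- the coefficient of `qᵉ` -/
def lamCoeff (u : ℂ) (w : ℕ → ℂ) (e : ℕ) : ℂ :=
  ∑ x ∈ e.divisorsAntidiagonal, w x.1 * (x.2 : ℂ) * u ^ x.2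

/-- the sum of the weighted Lambert series -/
def lamSum (q u : ℂ) (w : ℕ → ℂ) : ℂ := ∑' c : ℕ+ × ℕ+, lamTerm q u w c

theorem hasSum_lambert_rows {q u : ℂ} (hq : ‖q‖ < 1) (hu : ‖u‖ ≤ 1) (w : ℕ → ℂ)
    (hw : ∀ k, ‖w k‖ ≤ 1) :
    HasSum (fun k : ℕ+ => w k * ∑' d : ℕ+, (d : ℂ) * (u * q ^ (k : ℕ)) ^ (d : ℕ))
      (lamSum q u w) := by
  have hH := summable_lamTerm hq hu w hw
  refine hH.hasSum.prod_fiberwise fun k => ?_
  have h1 := (hH.prod_factor k).hasSum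
  have h2 : ∑' d : ℕ+, lamTerm q u w (k, d)
      = w k * ∑' d : ℕ+, (d : ℂ) * (u * q ^ (k : ℕ)) ^ (d : ℕ) := by
    rw [← tsum_mul_left]
    refine tsum_congr fun d => ?_
    simp only [lamTerm]
    rw [mul_pow, ← pow_mul]
    ring
  rwa [h2] at h1

theorem hasSum_lambert_coeff {q u : ℂ} (hq : ‖q‖ < 1) (hu : ‖u‖ ≤ 1) (w : ℕ → ℂ)
    (hw : ∀ k, ‖w k‖ ≤ 1) :
    HasSum (fun e : ℕ+ => lamCoeff u w e * q ^ (e : ℕ)) (lamSum q u w) := by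
  have hH := summable_lamTerm hq hu w hw
  have h1 := sigmaAntidiagonalEquivProd.hasSum_iff.mpr hH.hasSum
  refine h1.sigma fun e => ?_
  have h2 := hasSum_fintype (fun c : (e : ℕ).divisorsAntidiagonal =>
    (lamTerm q u w ∘ ⇑sigmaAntidiagonalEquivProd) ⟨e, c⟩)
  convert h2 using 1
  rw [lamCoeff, Finset.sum_mul, ← Finset.sum_coe_sort]
  refine Finset.sum_congr rfl fun c _ => ?_
  have hc := (Nat.mem_divisorsAntidiagonal.mp c.2).1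
  simp only [Function.comp_apply, lamTerm, sigmaAntidiagonalEquivProd, Equiv.coe_fn_mk,
    divisorsAntidiagonalFactors, PNat.mk_coe]
  rw [hc]

end

end Fermat.Agent.T4.helper44
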