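import Mathlib

/-!
# T4 (I) / [I-FLD-WP] (helper44): differences of `℘` as sums over the rows of the lattice

For the period pair `(1, τ)`: `℘(z) - ℘(z') = ∑_{n ∈ ℤ} (R(z - n τ) - R(z' - n τ))`,
`R(x) = ∑_{m ∈ ℤ} 1 / (x + m)²`, and `R(x) = (2 π i)² ∑_{d ≥ 1} d e^{2 π i d x}` for `Im x > 0`
(Mathlib's `EisensteinSeries.qExpansion_identity_pnat`).  Mathlib only.
-/

set_option autoImplicit false

open Complex Filter Topology PeriodPair
open UpperHalfPlane hiding I
open scoped Real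

namespace Fermat.Agent.T4.helper44

noncomputable section

/-! ### rows -/

/-- the row sum `∑_{n ∈ ℤ} 1 / (x + n)²` -/
def rowS (x : ℂ) : ℂ := ∑' n : ℤ, 1 / (x + n) ^ 2

lemma summable_rowS (x : ℂ) : Summable fun n : ℤ => 1 / (x + n) ^ 2 := by
  have h := EisensteinSeries.linear_right_summable x 1 (k := 2) le_rfl
  refine h.congr fun n => ?_
  simp only [Int.cast_one, one_mul, one_div]
  norm_cast

lemma hasSum_rowS (x : ℂ) : HasSum (fun n : ℤ => 1 / (x + n) ^ 2) (rowS x) :=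
  (summable_rowS x).hasSum

lemma hasSum_rowS_sub (x : ℂ) : HasSum (fun n : ℤ => 1 / (x - n) ^ 2) (rowS x) := by
  have he : (fun n : ℤ => 1 / (x - n) ^ 2) = (fun n : ℤ => 1 / (x + n) ^ 2) ∘ (Equiv.neg ℤ) := by
    funext n
    simp [sub_eq_add_neg]
  rw [he]
  exact (Equiv.neg ℤ).hasSum_iff.mpr (hasSum_rowS x)

lemma rowS_neg (x : ℂ) : rowS (-x) = rowS x := by
  have h : HasSum (fun n : ℤ => 1 / (-x + n) ^ 2) (rowS x) := by
    have he : (fun n : ℤ => 1 / (-x + n) ^ 2) = fun n : ℤ => 1 / (x - n) ^ 2 := by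
      funext n
      congr 1
      ring
    rw [he]
    exact hasSum_rowS_sub x
  exact (hasSum_rowS (-x)).unique h

lemma rowS_add_int (x : ℂ) (k : ℤ) : rowS (x + k) = rowS x := by
  have h : HasSum (fun n : ℤ => 1 / (x + k + n) ^ 2) (rowS x) := by
    have he : (fun n : ℤ => 1 / (x + k + n) ^ 2)
        = (fun n : ℤ => 1 / (x + n) ^ 2) ∘ (Equiv.addLeft k) := by
      funext n
      simp [add_assoc]
    rw [he]
    exact (Equiv.addLeft k).hasSum_iff.mpr (hasSum_rowS x)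
  exact (hasSum_rowS (x + k)).unique h

/-- the `q`-expansion of a row in the upper half plane -/
lemma hasSum_rowS_of_im_pos {x : ℂ} (hx : 0 < x.im) :
    HasSum (fun d : ℕ+ => (2 * π * I) ^ 2 * ((d : ℂ) * cexp (2 * π * I * x) ^ (d : ℕ)))
      (rowS x) := by
  have h1 := EisensteinSeries.qExpansion_identity_pnat (k := 1) le_rfl ⟨x, hx⟩
  have hs : Summable (fun d : ℕ+ => (d : ℂ) * cexp (2 * π * I * x) ^ (d : ℕ)) := by
    have h2 := summable_pow_mul_cexp 1 1 ⟨x, hx⟩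
    have h3 : Summable fun c : ℕ => (c : ℂ) * cexp (2 * π * I * x) ^ c := by
      refine h2.congr fun c => ?_
      simp
    exact h3.subtype _
  have h4 := (hs.mul_left ((2 * π * I) ^ 2)).hasSum
  have h5 : rowS x = ∑' (b : ℕ+), (2 * π * I) ^ 2 * ((b : ℂ) * cexp (2 * π * I * x) ^ (b : ℕ)) := by
    rw [tsum_mul_left]
    simp only [Nat.reduceAdd, Nat.factorial_one, Nat.cast_one, div_one,
      pow_one] at h1
    unfold rowS
    rw [h1]
    ring
  rw [h5]
  exact h4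

/-- the `q`-expansion of a row in the lower half plane -/
lemma hasSum_rowS_of_im_neg {x : ℂ} (hx : x.im < 0) :
    HasSum (fun d : ℕ+ => (2 * π * I) ^ 2 * ((d : ℂ) * cexp (2 * π * I * (-x)) ^ (d : ℕ)))
      (rowS x) := by
  have h := hasSum_rowS_of_im_pos (x := -x) (by simpa using hx)
  rwa [rowS_neg] at h

/-! ### the period pair `(1, τ)` -/

/-- the period pair `(1, τ)` -/
def latP (τ : ℍ) : PeriodPair where
  ω₁ := 1
  ω₂ := τ
  indep := by
    rw [LinearIndependent.pair_iff]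
    intro s t h
    have him := congrArg Complex.im h
    simp only [Complex.real_smul, Complex.add_im, Complex.mul_im, Complex.ofReal_re,
      Complex.ofReal_im, Complex.one_im, Complex.zero_im, zero_mul, add_zero, mul_zero,
      Complex.one_re, zero_add] at him
    have ht : t = 0 := by
      rcases mul_eq_zero.1 him with h0 | h0
      · exact h0
      · exact absurd h0 τ.im_pos.ne'
    subst ht
    have hre := congrArg Complex.re h
    simp at hre
    exact ⟨hre, rfl⟩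

@[simp] lemma latP_ω₁ (τ : ℍ) : (latP τ).ω₁ = 1 := rfl
@[simp] lemma latP_ω₂ (τ : ℍ) : (latP τ).ω₂ = τ := rfl

lemma mem_latP {τ : ℍ} {x : ℂ} : x ∈ (latP τ).lattice ↔ ∃ m n : ℤ, (m : ℂ) + n * τ = x := by
  rw [PeriodPair.mem_lattice]
  simp

/-- **Rows.** `℘(z) - ℘(z') = ∑_n (R(z - n τ) - R(z' - n τ))` for the lattice `ℤ + ℤ τ`. -/
theorem hasSum_rows (τ : ℍ) (z z' : ℂ) :
    HasSum (fun n : ℤ => rowS (z - n * τ) - rowS (z' - n * τ))
      (℘[latP τ] z - ℘[latP τ] z') := by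
  have h1 := ((latP τ).hasSum_weierstrassP z).sub ((latP τ).hasSum_weierstrassP z')
  have h2 : HasSum (fun x : ℤ × ℤ => 1 / (z - ((x.1 : ℂ) + x.2 * τ)) ^ 2
      - 1 / (z' - ((x.1 : ℂ) + x.2 * τ)) ^ 2) (℘[latP τ] z - ℘[latP τ] z') := by
    have h := ((latP τ).latticeEquivProd.symm.toEquiv.hasSum_iff).mpr h1
    have he : ((fun l : (latP τ).lattice => 1 / (z - (l : ℂ)) ^ 2 - 1 / (l : ℂ) ^ 2
          - (1 / (z' - (l : ℂ)) ^ 2 - 1 / (l : ℂ) ^ 2)) ∘
          ⇑(latP τ).latticeEquivProd.symm.toEquiv)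
        = fun x : ℤ × ℤ => 1 / (z - ((x.1 : ℂ) + x.2 * τ)) ^ 2
          - 1 / (z' - ((x.1 : ℂ) + x.2 * τ)) ^ 2 := by
      funext x
      simp only [Function.comp_apply, LinearEquiv.coe_toEquiv, latticeEquiv_symm_apply,
        latP_ω₁, latP_ω₂, mul_one]
      ring
    rwa [he] at h
  have h3 := (Equiv.prodComm ℤ ℤ).hasSum_iff.mpr h2
  refine h3.prod_fiberwise (fun n => ?_)
  have h4 := (hasSum_rowS_sub (z - n * τ)).sub (hasSum_rowS_sub (z' - n * τ))
  have he : (fun c : ℤ => ((fun x : ℤ × ℤ => 1 / (z - ((x.1 : ℂ) + x.2 * τ)) ^ 2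
      - 1 / (z' - ((x.1 : ℂ) + x.2 * τ)) ^ 2) ∘ ⇑(Equiv.prodComm ℤ ℤ)) (n, c))
      = fun c : ℤ => 1 / (z - n * τ - c) ^ 2 - 1 / (z' - n * τ - c) ^ 2 := by
    funext c
    simp only [Function.comp_apply, Equiv.prodComm_apply, Prod.swap_prod_mk]
    congr 3 <;> ring
  rw [he]
  exact h4

end

end Fermat.Agent.T4.helper44
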