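import Mathlib
import Fermat.Agent.T4.helper44_WpRow
import Fermat.Agent.T4.helper44_WpLambert

/-!
# T4 (I) / [I-FLD-WP] (helper44): `q`-expansions of differences of division values of `℘`

For the lattice `ℤ + ℤ τ`, `M ≥ 1` and integers `r, s`: the division point
`divPt M τ r s = (r τ + s) / M`.  The difference of two division values of `℘` is an explicit
convergent power series in `q_M = e^{2 π i τ / M}` (`hasSum_divPt`), with coefficients
`cDiv M r s e` (in `ℤ[ζ_M]` up to the factor `(2 π i)²` and the constant term).  Mathlib only.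
-/

set_option autoImplicit false

open Complex Filter Topology PeriodPair
open UpperHalfPlane hiding I
open scoped Real

namespace Fermat.Agent.T4.helper44

noncomputable section

/-- `q_M = e^{2 π i τ / M}` -/
def qM (M : ℕ) (τ : ℍ) : ℂ := cexp (2 * π * I * τ / M)

/-- `ζ_M = e^{2 π i / M}` -/
def zetaM (M : ℕ) : ℂ := cexp (2 * π * I / M)

lemma norm_qM_lt_one (M : ℕ) [NeZero M] (τ : ℍ) : ‖qM M τ‖ < 1 := by
  have hM : (0 : ℝ) < M := Nat.cast_pos.mpr (NeZero.pos M)
  rw [qM, Complex.norm_exp]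
  have h1 : (2 * π * I * τ / M : ℂ).re = -(2 * π * τ.im / M) := by
    have : (2 * π * I * τ / M : ℂ) = ((2 * π / M : ℝ) : ℂ) * (I * τ) := by
      push_cast; ring
    rw [this, Complex.re_ofReal_mul]
    simp
    ring
  rw [h1, Real.exp_lt_one_iff]  
  have := τ.im_pos
  have : 0 < 2 * π * τ.im / M := by positivity
  linarith

lemma norm_zetaM_zpow (M : ℕ) (s : ℤ) : ‖zetaM M ^ s‖ = 1 := by
  rw [zetaM, ← Complex.exp_int_mul, Complex.norm_exp]
  have h1 : ((s : ℂ) * (2 * π * I / M)).re = 0 := by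
    have : ((s : ℂ) * (2 * π * I / M)) = ((s * (2 * π / M) : ℝ) : ℂ) * I := by
      push_cast; ring
    rw [this, Complex.re_ofReal_mul]
    simp
  rw [h1, Real.exp_zero]

/-- the division point `(x τ + s) / M` -/
def divPt (M : ℕ) (τ : ℍ) (x s : ℤ) : ℂ := ((x : ℂ) * τ + s) / M

lemma divPt_neg (M : ℕ) (τ : ℍ) (x s : ℤ) : divPt M τ (-x) (-s) = - divPt M τ x s := by
  simp only [divPt]; push_cast; ring

lemma divPt_im (M : ℕ) (τ : ℍ) (x s : ℤ) : (divPt M τ x s).im = x * τ.im / M := by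
  have : divPt M τ x s = (((M : ℝ)⁻¹ : ℝ) : ℂ) * ((x : ℂ) * τ + s) := by
    simp only [divPt]; push_cast; ring
  rw [this, Complex.im_ofReal_mul]
  simp
  ring

lemma cexp_divPt (M : ℕ) (τ : ℍ) (k : ℕ) (s : ℤ) :
    cexp (2 * π * I * divPt M τ k s) = zetaM M ^ s * qM M τ ^ k := by
  rw [zetaM, qM, ← Complex.exp_int_mul, ← Complex.exp_nat_mul, ← Complex.exp_add]
  congr 1
  simp only [divPt]
  push_cast
  ring

/-- the row of a division point -/
def rho (M : ℕ) (τ : ℍ) (x s : ℤ) : ℂ := rowS (divPt M τ x s)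

lemma rho_neg (M : ℕ) (τ : ℍ) (x s : ℤ) : rho M τ (-x) (-s) = rho M τ x s := by
  rw [rho, divPt_neg, rowS_neg, rho]

lemma rho_pos (M : ℕ) [NeZero M] (τ : ℍ) (k : ℕ+) (s : ℤ) :
    rho M τ (k : ℕ) s
      = (2 * π * I) ^ 2 * ∑' d : ℕ+, (d : ℂ) * (zetaM M ^ s * qM M τ ^ (k : ℕ)) ^ (d : ℕ) := by
  have hM : (0 : ℝ) < M := Nat.cast_pos.mpr (NeZero.pos M)
  have him : 0 < (divPt M τ (k : ℕ) s).im := by
    rw [divPt_im]
    have := τ.im_pos
    have hk : (0 : ℝ) < ((k : ℕ) : ℤ) := by exact_mod_cast k.pos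
    positivity
  have h := hasSum_rowS_of_im_pos him
  rw [← tsum_mul_left, rho]
  rw [← h.tsum_eq]
  refine tsum_congr fun d => ?_
  rw [← cexp_divPt]

/-! ### the weights -/

/-- the indicator of the class of `r` modulo `M` -/
def wt (M : ℕ) (r : ℤ) (x : ℤ) : ℂ := if (x : ZMod M) = (r : ZMod M) then 1 else 0

lemma norm_wt_le (M : ℕ) (r x : ℤ) : ‖wt M r x‖ ≤ 1 := by
  unfold wt
  split_ifs <;> simp

lemma wt_neg (M : ℕ) (r x : ℤ) : wt M r (-x) = wt M (-r) x := by
  unfold wt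
  have : ((-x : ℤ) : ZMod M) = (r : ZMod M) ↔ (x : ZMod M) = ((-r : ℤ) : ZMod M) := by
    push_cast
    constructor
    · intro h; rw [← h]; ring
    · intro h; rw [h]; ring
  simp only [this]

lemma wt_sub_mul (M : ℕ) (r n : ℤ) : wt M r (r - n * M) = 1 := by
  unfold wt
  rw [if_pos]
  push_cast
  simp

lemma wt_eq_zero_of_not_range (M : ℕ) (r x : ℤ) (hx : x ∉ Set.range fun n : ℤ => r - n * M) :
    wt M r x = 0 := by
  unfold wt
  rw [if_neg]
  intro h
  apply hx
  have h2 := (ZMod.intCast_eq_intCast_iff_dvd_sub x r M).mp h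
  obtain ⟨c, hc⟩ := h2
  exact ⟨c, by simp only; linarith [hc, mul_comm (M : ℤ) c]⟩

/-- the constant term: the row through the real axis -/
def cZero (M : ℕ) (r s : ℤ) : ℂ := wt M r 0 * rowS ((s : ℂ) / M)

/-- the coefficients of the `q_M`-expansion of the rows of a division point -/
def cDiv (M : ℕ) (r s : ℤ) (e : ℕ) : ℂ :=
  (2 * π * I) ^ 2 * (lamCoeff (zetaM M ^ s) (fun k => wt M r k) e
      + lamCoeff (zetaM M ^ (-s)) (fun k => wt M (-r) k) e)
    + if e = 0 then cZero M r s else 0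

/-- the total of the rows of a division point -/
def rowTot (M : ℕ) (τ : ℍ) (r s : ℤ) : ℂ :=
  (2 * π * I) ^ 2 * (lamSum (qM M τ) (zetaM M ^ s) (fun k => wt M r k)
      + lamSum (qM M τ) (zetaM M ^ (-s)) (fun k => wt M (-r) k))
    + cZero M r s

section
variable (M : ℕ) [NeZero M] (τ : ℍ)

lemma hasSum_of_eq {ι : Type*} {f g : ι → ℂ} {a : ℂ} (h : HasSum f a) (e : ∀ i, f i = g i) :
    HasSum g a := by
  have : f = g := funext e
  rwa [this] at h

lemma hasSum_pnat_to_nat {g : ℕ → ℂ} {a : ℂ} (h : HasSum (fun k : ℕ+ => g k) a) :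
    HasSum (fun k : ℕ => g (k + 1)) a := by
  have h2 := Equiv.pnatEquivNat.symm.hasSum_iff.mpr h
  refine hasSum_of_eq h2 fun k => ?_
  simp [Function.comp_apply, Equiv.pnatEquivNat]

lemma hasSum_pnat_to_nat' {g : ℕ → ℂ} {a : ℂ} (h : HasSum (fun k : ℕ+ => g k) a)
    (h0 : g 0 = 0) : HasSum g a := by
  refine (Function.Injective.hasSum_iff PNat.coe_injective ?_).mp h
  intro x hx
  rcases Nat.eq_zero_or_pos x with rfl | hpos
  · exact h0
  · exact absurd ⟨⟨x, hpos⟩, rfl⟩ hx

/-- the positive rows -/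
lemma hasSum_rho_pos (r s : ℤ) :
    HasSum (fun k : ℕ => wt M r ((k + 1 : ℕ) : ℤ) * rho M τ ((k + 1 : ℕ) : ℤ) s)
      ((2 * π * I) ^ 2 * lamSum (qM M τ) (zetaM M ^ s) (fun k => wt M r k)) := by
  have h := (hasSum_lambert_rows (norm_qM_lt_one M τ) (norm_zetaM_zpow M s).le
    (fun k => wt M r k) (fun k => norm_wt_le M r k)).mul_left ((2 * π * I) ^ 2)
  have h2 := hasSum_pnat_to_nat (g := fun k : ℕ => (2 * π * I) ^ 2 * (wt M r k *
    ∑' d : ℕ+, (d : ℂ) * (zetaM M ^ s * qM M τ ^ k) ^ (d : ℕ))) h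
  refine hasSum_of_eq h2 fun k => ?_
  have := rho_pos M τ ⟨k + 1, Nat.succ_pos k⟩ s
  simp only [PNat.mk_coe] at this
  rw [this]
  ring

/-- the negative rows -/
lemma hasSum_rho_neg (r s : ℤ) :
    HasSum (fun k : ℕ => wt M r (-((k : ℤ) + 1)) * rho M τ (-((k : ℤ) + 1)) s)
      ((2 * π * I) ^ 2 * lamSum (qM M τ) (zetaM M ^ (-s)) (fun k => wt M (-r) k)) := by
  have h := hasSum_rho_pos M τ (-r) (-s)
  refine hasSum_of_eq h fun k => ?_
  rw [wt_neg, ← rho_neg]
  push_cast
  simp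

/-- all rows in the class of `r` -/
lemma hasSum_rho_int (r s : ℤ) :
    HasSum (fun x : ℤ => wt M r x * rho M τ x s) (rowTot M τ r s) := by
  have h1 := hasSum_rho_pos M τ r s
  have h2 := (hasSum_nat_add_iff (f := fun k : ℕ => wt M r (k : ℤ) * rho M τ (k : ℤ) s) 1).mp h1
  have h3 := HasSum.of_nat_of_neg_add_one (f := fun x : ℤ => wt M r x * rho M τ x s) h2
    (hasSum_rho_neg M τ r s)
  convert h3 using 1
  simp only [rowTot, cZero, rho, divPt, Finset.range_one, Finset.sum_singleton]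
  simp
  ring

/-- the rows of a division point -/
theorem hasSum_rho (r s : ℤ) :
    HasSum (fun n : ℤ => rho M τ (r - n * M) s) (rowTot M τ r s) := by
  have hinj : Function.Injective (fun n : ℤ => r - n * M) := by
    intro a b hab
    have hM : (M : ℤ) ≠ 0 := by exact_mod_cast NeZero.ne M
    have : a * M = b * M := by simp only at hab; linarith
    exact mul_right_cancel₀ hM this
  have h := (Function.Injective.hasSum_iff hinj (f := fun x : ℤ => wt M r x * rho M τ x s)
    (fun x hx => by simp [wt_eq_zero_of_not_range M r x hx])).mpr (hasSum_rho_int M τ r s)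
  refine hasSum_of_eq h fun n => ?_
  simp [Function.comp_apply, wt_sub_mul]

/-- the `q_M`-expansion of the rows of a division point -/
theorem hasSum_cDiv (r s : ℤ) :
    HasSum (fun e : ℕ => cDiv M r s e * qM M τ ^ e) (rowTot M τ r s) := by
  have h1 := hasSum_pnat_to_nat' (g := fun e => lamCoeff (zetaM M ^ s) (fun k => wt M r k) e
    * qM M τ ^ e) (hasSum_lambert_coeff (norm_qM_lt_one M τ) (norm_zetaM_zpow M s).le
    (fun k => wt M r k) (fun k => norm_wt_le M r k)) (by simp [lamCoeff])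
  have h2 := hasSum_pnat_to_nat' (g := fun e => lamCoeff (zetaM M ^ (-s))
    (fun k => wt M (-r) k) e * qM M τ ^ e) (hasSum_lambert_coeff (norm_qM_lt_one M τ)
    (norm_zetaM_zpow M (-s)).le (fun k => wt M (-r) k) (fun k => norm_wt_le M (-r) k))
    (by simp [lamCoeff])
  have h3 := ((h1.add h2).mul_left ((2 * π * I) ^ 2)).add (hasSum_ite_eq (0 : ℕ) (cZero M r s))
  refine hasSum_of_eq h3 fun e => ?_
  simp only [cDiv]
  split_ifs with he
  · subst he; simp
  · ring

/-- **The `q_M`-expansion of a difference of division values.** -/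
theorem hasSum_divPt (r s r' s' : ℤ) :
    HasSum (fun e : ℕ => (cDiv M r s e - cDiv M r' s' e) * qM M τ ^ e)
      (℘[latP τ] (divPt M τ r s) - ℘[latP τ] (divPt M τ r' s')) := by
  have h1 := hasSum_rows τ (divPt M τ r s) (divPt M τ r' s')
  have h2 := (hasSum_rho M τ r s).sub (hasSum_rho M τ r' s')
  have hM : (M : ℂ) ≠ 0 := by exact_mod_cast NeZero.ne M
  have he : (fun n : ℤ => rowS (divPt M τ r s - n * τ) - rowS (divPt M τ r' s' - n * τ))
      = fun n : ℤ => rho M τ (r - n * M) s - rho M τ (r' - n * M) s' := by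
    funext n
    simp only [rho, divPt]
    congr 2 <;> · push_cast; field_simp; ring
  rw [he] at h1
  rw [h1.unique h2]
  have h3 := (hasSum_cDiv M τ r s).sub (hasSum_cDiv M τ r' s')
  refine hasSum_of_eq h3 fun e => ?_
  ring

end

end

end Fermat.Agent.T4.helper44
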