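import Mathlib
import Fermat.Agent.T4.helper44_WpDiv

/-!
# T4 (I) / [I-FLD-WP] (helper44): (W3) the `q`-expansion of `℘(a τ) - ℘(b τ)` for `⟨1, M τ⟩`

`wpD M a b τ = ℘(a τ) - ℘(b τ)` for the lattice `ℤ + ℤ M τ`.  For `a, b ≢ 0 mod M`:
`wpD M a b τ = (2 π i)² ∑_{e ≥ 1} (wpC M a e - wpC M b e) qᵉ`, `q = e^{2 π i τ}`,
`wpC M a e = ∑_{m ∣ e} m ([e / m ≡ a] + [e / m ≡ -a])` (the same expression as
`helper32.wpCoeff`).  Mathlib only.
-/

set_option autoImplicit false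

open Complex Filter Topology PeriodPair
open UpperHalfPlane hiding I
open scoped Real

namespace Fermat.Agent.T4.helper44

noncomputable section

/-- `M τ` as a point of the upper half plane -/
def scaleTau (M : ℕ) [NeZero M] (τ : ℍ) : ℍ :=
  ⟨(M : ℂ) * τ, by
    have hM : (0 : ℝ) < M := Nat.cast_pos.mpr (NeZero.pos M)
    have := τ.im_pos
    simpa using mul_pos hM this⟩

@[simp] lemma coe_scaleTau (M : ℕ) [NeZero M] (τ : ℍ) : ((scaleTau M τ : ℍ) : ℂ) = M * τ := rfl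

/-- the period pair `(1, M τ)` -/
def latt (M : ℕ) [NeZero M] (τ : ℍ) : PeriodPair := latP (scaleTau M τ)

/-- `℘(a τ) - ℘(b τ)` for the lattice `ℤ + ℤ M τ` -/
def wpD (M : ℕ) [NeZero M] (a b : ℤ) (τ : ℍ) : ℂ :=
  ℘[latt M τ] ((a : ℂ) * τ) - ℘[latt M τ] ((b : ℂ) * τ)

/-- the coefficient of `qᵉ` in `P_a` (the same expression as `helper32.wpCoeff`) -/
def wpC (M : ℕ) (a : ZMod M) (e : ℕ) : ℤ :=
  ∑ m ∈ e.divisors, (m : ℤ) *
    ((if ((e / m : ℕ) : ZMod M) = a then 1 else 0) +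
      (if ((e / m : ℕ) : ZMod M) = -a then 1 else 0))

variable (M : ℕ) [NeZero M]

lemma divPt_scaleTau (τ : ℍ) (a : ℤ) : divPt M (scaleTau M τ) a 0 = (a : ℂ) * τ := by
  have hM : (M : ℂ) ≠ 0 := by exact_mod_cast NeZero.ne M
  simp only [divPt, coe_scaleTau]
  push_cast
  field_simp
  ring

lemma qM_scaleTau (τ : ℍ) : qM M (scaleTau M τ) = cexp (2 * π * I * τ) := by
  have hM : (M : ℂ) ≠ 0 := by exact_mod_cast NeZero.ne M
  simp only [qM, coe_scaleTau]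
  congr 1
  field_simp

omit [NeZero M] in
lemma cDiv_zero_eq (a : ℤ) (ha : (a : ZMod M) ≠ 0) (e : ℕ) :
    cDiv M a 0 e = (2 * π * I) ^ 2 * (wpC M (a : ZMod M) e : ℂ) := by
  have h0 : wt M a 0 = 0 := by
    unfold wt
    rw [if_neg]
    intro h
    exact ha (by simpa using h.symm)
  simp only [cDiv, cZero, h0, zero_mul, ite_self, add_zero, zpow_zero, neg_zero, lamCoeff,
    one_pow, mul_one]
  congr 1
  rw [Nat.sum_divisorsAntidiagonal' (f := fun x y => wt M a (x : ℤ) * (y : ℂ)),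
    Nat.sum_divisorsAntidiagonal' (f := fun x y => wt M (-a) (x : ℤ) * (y : ℂ)),
    ← Finset.sum_add_distrib, wpC]
  rw [Int.cast_sum]
  refine Finset.sum_congr rfl fun m _ => ?_
  simp only [wt, Int.cast_natCast, Int.cast_neg, Int.cast_mul, Int.cast_add, Int.cast_ite,
    Int.cast_one, Int.cast_zero]
  ring

/-- **(W3)** the `q`-expansion of `wpD M a b`. -/
theorem hasSum_wpD (a b : ℤ) (ha : (a : ZMod M) ≠ 0) (hb : (b : ZMod M) ≠ 0) (τ : ℍ) :
    HasSum (fun e : ℕ => (2 * π * I) ^ 2 *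
        ((wpC M (a : ZMod M) e : ℂ) - (wpC M (b : ZMod M) e : ℂ)) * cexp (2 * π * I * τ) ^ e)
      (wpD M a b τ) := by
  have h := hasSum_divPt M (scaleTau M τ) a 0 b 0
  rw [divPt_scaleTau, divPt_scaleTau, qM_scaleTau] at h
  refine hasSum_of_eq h fun e => ?_
  rw [cDiv_zero_eq M a ha, cDiv_zero_eq M b hb]
  ring

end

end Fermat.Agent.T4.helper44
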