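import Mathlib
import Fermat.Agent.T4.helper44_WpInj
import Fermat.Agent.T4.helper44_WpQExp

/-!
# T4 (I) / [I-FLD-WP] (helper44): (W1) and (W2) for `wpD M a b τ = ℘(a τ) - ℘(b τ)`, `⟨1, M τ⟩`

* `weierstrassP_homog` : `℘` is a lattice function, homogeneous of degree `-2`;
* (W1) `wpD_ne_zero` : `wpD M a b τ ≠ 0` for `a, b ≢ 0`, `a ≢ ± b mod M`;
* (W2) `wpD_smul` : `wpD M a b (γ τ) = (c τ + d)² wpD M (a γ₀₀) (b γ₀₀) τ` for `γ ∈ Γ₀(M)`;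
* `wpD` depends only on the classes of `± a`, `± b` modulo `M`.

Mathlib only.
-/

set_option autoImplicit false

open Complex Filter Topology PeriodPair
open UpperHalfPlane hiding I
open scoped Real MatrixGroups

namespace Fermat.Agent.T4.helper44

noncomputable section

/-- `℘` is a lattice function, homogeneous of degree `-2`. -/
theorem weierstrassP_homog (L L' : PeriodPair) (c : ℂ) (hc : c ≠ 0)
    (hLL : ∀ x : ℂ, x ∈ L'.lattice ↔ ∃ y ∈ L.lattice, x = c * y) (z : ℂ) :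
    ℘[L'] (c * z) = (c ^ 2)⁻¹ * ℘[L] z := by
  let e : L.lattice ≃ L'.lattice :=
    { toFun := fun l => ⟨c * l, (hLL _).2 ⟨l, l.2, rfl⟩⟩
      invFun := fun l' => ⟨c⁻¹ * l', by
        obtain ⟨y, hy, h⟩ := (hLL l').1 l'.2
        rw [h, inv_mul_cancel_left₀ hc]
        exact hy⟩
      left_inv := fun l => Subtype.ext (by simp [inv_mul_cancel_left₀ hc])
      right_inv := fun l' => Subtype.ext (by simp [mul_inv_cancel_left₀ hc]) }
  simp only [weierstrassP]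
  rw [← e.tsum_eq, ← tsum_mul_left]
  congr 1
  funext l
  have he : ((e l : L'.lattice) : ℂ) = c * l := rfl
  rw [he]
  have e1 : c * z - c * (l : ℂ) = c * (z - l) := by ring
  rw [e1, mul_pow, mul_pow]
  simp only [one_div, mul_inv]
  ring

/-- a lattice function: `℘` only depends on the lattice -/
theorem weierstrassP_congr (L L' : PeriodPair) (h : ∀ x : ℂ, x ∈ L'.lattice ↔ x ∈ L.lattice)
    (z : ℂ) : ℘[L'] z = ℘[L] z := by
  have := weierstrassP_homog L L' 1 one_ne_zero (fun x => by simp [h x]) z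
  simpa using this

variable (M : ℕ) [NeZero M]

lemma mem_latt {τ : ℍ} {x : ℂ} :
    x ∈ (latt M τ).lattice ↔ ∃ m n : ℤ, (m : ℂ) + n * ((M : ℂ) * τ) = x := by
  rw [latt, mem_latP]
  rfl

lemma int_mem_latt (τ : ℍ) (m : ℤ) : (m : ℂ) ∈ (latt M τ).lattice :=
  (mem_latt M).2 ⟨m, 0, by simp⟩

lemma int_mul_tau_mem_latt_iff (τ : ℍ) (x : ℤ) :
    (x : ℂ) * τ ∈ (latt M τ).lattice ↔ (M : ℤ) ∣ x := by
  rw [mem_latt]
  constructor
  · rintro ⟨m, n, h⟩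
    have him := congrArg Complex.im h
    simp only [add_im, intCast_im, mul_im, intCast_re, natCast_re, natCast_im, zero_mul,
      add_zero, coe_im, zero_add, coe_re] at him
    have hτ := τ.im_pos
    have h2 : ((n * M : ℤ) : ℝ) = (x : ℝ) := by
      have : ((n : ℝ) * M - x) * τ.im = 0 := by linarith
      rcases mul_eq_zero.mp this with h0 | h0
      · push_cast; linarith
      · exact absurd h0 hτ.ne'
    have h3 : n * M = x := by exact_mod_cast h2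
    exact ⟨n, by rw [← h3]; ring⟩
  · rintro ⟨n, rfl⟩
    exact ⟨0, n, by push_cast; ring⟩

/-- **(W1)** the differences `℘(a τ) - ℘(b τ)` vanish nowhere. -/
theorem wpD_ne_zero (a b : ℤ) (ha : (a : ZMod M) ≠ 0) (hb : (b : ZMod M) ≠ 0)
    (hab : (a : ZMod M) ≠ b) (hab' : (a : ZMod M) ≠ -b) (τ : ℍ) : wpD M a b τ ≠ 0 := by
  intro h
  have hdvd : ∀ x : ℤ, (x : ZMod M) ≠ 0 → (x : ℂ) * τ ∉ (latt M τ).lattice := by
    intro x hx hmem
    exact hx ((ZMod.intCast_zmod_eq_zero_iff_dvd x M).mpr ((int_mul_tau_mem_latt_iff M τ x).mp hmem))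
  have h1 := weierstrassP_eq_iff_sub_or_add_mem (latt M τ) (hdvd a ha) (hdvd b hb)
    (sub_eq_zero.mp h)
  rcases h1 with h1 | h1
  · have h2 : ((a - b : ℤ) : ℂ) * τ ∈ (latt M τ).lattice := by
      have : ((a - b : ℤ) : ℂ) * τ = (a : ℂ) * τ - (b : ℂ) * τ := by push_cast; ring
      rwa [this]
    have h3 := (ZMod.intCast_zmod_eq_zero_iff_dvd _ M).mpr ((int_mul_tau_mem_latt_iff M τ _).mp h2)
    push_cast at h3
    exact hab (sub_eq_zero.mp h3)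
  · have h2 : ((a + b : ℤ) : ℂ) * τ ∈ (latt M τ).lattice := by
      have : ((a + b : ℤ) : ℂ) * τ = (a : ℂ) * τ + (b : ℂ) * τ := by push_cast; ring
      rwa [this]
    have h3 := (ZMod.intCast_zmod_eq_zero_iff_dvd _ M).mpr ((int_mul_tau_mem_latt_iff M τ _).mp h2)
    push_cast at h3
    exact hab' (eq_neg_of_add_eq_zero_left h3)

/-! ### dependence on the classes modulo `M` -/

lemma wp_latt_add (τ : ℍ) (z : ℂ) (m n : ℤ) :
    ℘[latt M τ] (z + ((m : ℂ) + n * ((M : ℂ) * τ))) = ℘[latt M τ] z :=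
  (latt M τ).weierstrassP_add_coe z ⟨_, (mem_latt M).2 ⟨m, n, rfl⟩⟩

lemma wp_latt_congr (τ : ℍ) {a a' : ℤ} (h : (a : ZMod M) = a') :
    ℘[latt M τ] ((a : ℂ) * τ) = ℘[latt M τ] ((a' : ℂ) * τ) := by
  obtain ⟨n, hn⟩ := (ZMod.intCast_eq_intCast_iff_dvd_sub a a' M).mp h
  have : (a' : ℂ) * τ = (a : ℂ) * τ + (((0 : ℤ) : ℂ) + n * ((M : ℂ) * τ)) := by
    have h2 : (a' : ℂ) = a + M * n := by
      have : a' = a + M * n := by linarith
      exact_mod_cast this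
    rw [h2]; push_cast; ring
  rw [this, wp_latt_add]

lemma wp_latt_neg (τ : ℍ) (a : ℤ) :
    ℘[latt M τ] (((-a : ℤ) : ℂ) * τ) = ℘[latt M τ] ((a : ℂ) * τ) := by
  have : ((-a : ℤ) : ℂ) * τ = -((a : ℂ) * τ) := by push_cast; ring
  rw [this, (latt M τ).weierstrassP_neg]

theorem wpD_congr (τ : ℍ) {a a' b b' : ℤ} (ha : (a : ZMod M) = a') (hb : (b : ZMod M) = b') :
    wpD M a b τ = wpD M a' b' τ := by
  simp only [wpD]
  rw [wp_latt_congr M τ ha, wp_latt_congr M τ hb]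

theorem wpD_neg_left (τ : ℍ) (a b : ℤ) : wpD M (-a) b τ = wpD M a b τ := by
  simp only [wpD]
  rw [wp_latt_neg]

theorem wpD_neg_right (τ : ℍ) (a b : ℤ) : wpD M a (-b) τ = wpD M a b τ := by
  simp only [wpD]
  rw [wp_latt_neg]

theorem wpD_swap (τ : ℍ) (a b : ℤ) : wpD M b a τ = - wpD M a b τ := by
  simp only [wpD]; ring

theorem wpD_add (τ : ℍ) (a b c : ℤ) : wpD M a b τ + wpD M b c τ = wpD M a c τ := by
  simp only [wpD]; ring

/-! ### the weight two law on `Γ₀(M)` -/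

/-- the automorphy factor `c τ + d` -/
def jfac (γ : SL(2, ℤ)) (τ : ℍ) : ℂ := ((γ 1 0 : ℤ) : ℂ) * τ + ((γ 1 1 : ℤ) : ℂ)

lemma jfac_eq_denom (γ : SL(2, ℤ)) (τ : ℍ) : jfac γ τ = denom γ τ := by
  simp [jfac, denom]

lemma jfac_ne_zero (γ : SL(2, ℤ)) (τ : ℍ) : jfac γ τ ≠ 0 := by
  rw [jfac_eq_denom]
  exact denom_ne_zero _ τ

lemma coe_smul_eq (γ : SL(2, ℤ)) (τ : ℍ) :
    ((γ • τ : ℍ) : ℂ) = (((γ 0 0 : ℤ) : ℂ) * τ + ((γ 0 1 : ℤ) : ℂ)) / jfac γ τ := by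
  rw [coe_specialLinearGroup_apply, jfac]
  simp

lemma det_eq_one (γ : SL(2, ℤ)) : γ 0 0 * γ 1 1 - γ 0 1 * γ 1 0 = 1 := by
  have := γ.det_coe
  rwa [Matrix.det_fin_two] at this

/-- the lattice `⟨1, M γ τ⟩` is `(c τ + d)⁻¹ ⟨1, M τ⟩` for `γ ∈ Γ₀(M)` -/
lemma mem_latt_smul (γ : SL(2, ℤ)) (hγ : (M : ℤ) ∣ γ 1 0) (τ : ℍ) (x : ℂ) :
    x ∈ (latt M (γ • τ)).lattice ↔ ∃ y ∈ (latt M τ).lattice, x = (jfac γ τ)⁻¹ * y := by
  obtain ⟨c', hc'⟩ := hγ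
  have hj := jfac_ne_zero γ τ
  have hdet := det_eq_one γ
  have hdetC : ((γ 0 0 : ℤ) : ℂ) * ((γ 1 1 : ℤ) : ℂ) - ((γ 0 1 : ℤ) : ℂ) * ((γ 1 0 : ℤ) : ℂ)
      = 1 := by exact_mod_cast congrArg (fun x : ℤ => (x : ℂ)) hdet
  have hcC : ((γ 1 0 : ℤ) : ℂ) = (M : ℂ) * c' := by exact_mod_cast congrArg (fun x : ℤ => (x : ℂ)) hc'
  constructor
  · intro hx
    obtain ⟨m, n, rfl⟩ := (mem_latt M).1 hx
    refine ⟨_, (mem_latt M).2 ⟨m * γ 1 1 + n * M * γ 0 1, m * c' + n * γ 0 0, rfl⟩, ?_⟩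
    rw [coe_smul_eq]
    field_simp
    simp only [jfac]
    rw [hcC]
    push_cast
    ring
  · rintro ⟨y, hy, rfl⟩
    obtain ⟨p, q, rfl⟩ := (mem_latt M).1 hy
    refine (mem_latt M).2 ⟨γ 0 0 * p - M * γ 0 1 * q, - c' * p + γ 1 1 * q, ?_⟩
    rw [coe_smul_eq]
    field_simp
    simp only [jfac]
    rw [hcC] at hdetC ⊢
    push_cast
    linear_combination ((p : ℂ) + q * (M * τ)) * hdetC

/-- **(W2)** the weight two law on `Γ₀(M)`. -/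
theorem wpD_smul (γ : SL(2, ℤ)) (hγ : (M : ℤ) ∣ γ 1 0) (a b : ℤ) (τ : ℍ) :
    wpD M a b (γ • τ) = jfac γ τ ^ 2 * wpD M (a * γ 0 0) (b * γ 0 0) τ := by
  have hj := jfac_ne_zero γ τ
  have key : ∀ a : ℤ, ℘[latt M (γ • τ)] ((a : ℂ) * ((γ • τ : ℍ) : ℂ))
      = jfac γ τ ^ 2 * ℘[latt M τ] (((a * γ 0 0 : ℤ) : ℂ) * τ) := by
    intro a
    have h1 := weierstrassP_homog (latt M τ) (latt M (γ • τ)) (jfac γ τ)⁻¹ (inv_ne_zero hj)
      (mem_latt_smul M γ hγ τ) ((a : ℂ) * (((γ 0 0 : ℤ) : ℂ) * τ + ((γ 0 1 : ℤ) : ℂ)))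
    have h2 : (a : ℂ) * ((γ • τ : ℍ) : ℂ)
        = (jfac γ τ)⁻¹ * ((a : ℂ) * (((γ 0 0 : ℤ) : ℂ) * τ + ((γ 0 1 : ℤ) : ℂ))) := by
      rw [coe_smul_eq]
      field_simp
    rw [h2, h1]
    have h3 : (a : ℂ) * (((γ 0 0 : ℤ) : ℂ) * τ + ((γ 0 1 : ℤ) : ℂ))
        = ((a * γ 0 0 : ℤ) : ℂ) * τ + (((a * γ 0 1 : ℤ) : ℂ) + ((0 : ℤ) : ℂ) * ((M : ℂ) * τ)) := by
      push_cast; ring
    rw [h3, wp_latt_add]
    simp
  simp only [wpD]
  rw [key a, key b]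
  ring

end

end Fermat.Agent.T4.helper44
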