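import Fermat.Agent.T4.helper55_WpMod
import Fermat.Agent.S23.helper35_Slash

/-!
# T4 (I) / [I-FLD-WP5] part 4 (helper55): the `SL(2, ℤ)`-translates of the ratios of
`℘`-differences for the lattice `⟨1, M τ⟩` lie in `holoExp`

`wpD1 M a b τ = ℘(a τ) - ℘(b τ)` for the lattice `⟨1, M τ⟩` (`wpD1_eq_of_lattice` : bridge to any
`PeriodPair` with that lattice).

* `mdiff_wpD1`, `wpD1_ne_zero`;
* `wpD1_translate` : for `g ∈ SL(2, ℤ)` with Hermite form `diag(M, 1) g = δ [[A, B], [0, D]]`,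
  `wpD1 M a b (g τ) = j² dD M (a δ₀₀) (a δ₀₁) (b δ₀₀) (b δ₀₁) ((A τ + B) / D)`;
* `wpRatio_precomp_mem_holoExp` : for every `g ∈ SL(2, ℤ)` the translate of
  `wpD1 M a b / wpD1 M a c` is holomorphic on `ℍ` with at most exponential growth at `i∞`
  (input of the analogue of `helper48.mem_FC_of_isQExp` for `Γ₁(M)`).
-/

set_option autoImplicit false

noncomputable section

open Complex Filter Topology PeriodPair Asymptotics
open scoped Real UpperHalfPlane Manifold MatrixGroups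

namespace Fermat.Agent.T4.helper55

open Fermat.Agent.S23.helper35 Fermat.Agent.S24.helper77

/-- `τ ↦ M τ` on `ℍ` -/
def mulM (M : ℕ) [NeZero M] (τ : ℍ) : ℍ := ut M 1 0 (NeZero.pos M) one_pos • τ

theorem coe_mulM (M : ℕ) [NeZero M] (τ : ℍ) : ((mulM M τ : ℍ) : ℂ) = (M : ℂ) * τ := by
  rw [mulM, coe_ut_smul]
  simp

/-- `℘(a τ) - ℘(b τ)` for the lattice `⟨1, M τ⟩` -/
def wpD1 (M : ℕ) [NeZero M] (a b : ℤ) (τ : ℍ) : ℂ := dD M a 0 b 0 (mulM M τ)

theorem wpD1_eq (M : ℕ) [NeZero M] (a b : ℤ) (τ : ℍ) :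
    wpD1 M a b τ = ℘[pp (mulM M τ)] ((a : ℂ) * τ) - ℘[pp (mulM M τ)] ((b : ℂ) * τ) := by
  have hM : (M : ℂ) ≠ 0 := by exact_mod_cast NeZero.ne M
  simp only [wpD1, dD, coe_mulM, Int.cast_zero, add_zero]
  congr 2
  · field_simp
  · field_simp

/-- bridge: any period pair with lattice `ℤ + ℤ M τ` gives the same function -/
theorem wpD1_eq_of_lattice (M : ℕ) [NeZero M] (a b : ℤ) (τ : ℍ) (L : PeriodPair)
    (hL : ∀ x : ℂ, x ∈ L.lattice ↔ ∃ m n : ℤ, (m : ℂ) + n * ((M : ℂ) * τ) = x) :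
    ℘[L] ((a : ℂ) * τ) - ℘[L] ((b : ℂ) * τ) = wpD1 M a b τ := by
  have h : (pp (mulM M τ)).lattice = L.lattice := by
    ext x
    rw [hL, mem_pp_lattice, coe_mulM]
  rw [wpD1_eq, weierstrassP_congr_lattice _ _ h, weierstrassP_congr_lattice _ _ h]

theorem mdiff_mulM (M : ℕ) [NeZero M] : MDiff (mulM M) :=
  UpperHalfPlane.mdifferentiable_smul (det_ut_pos (NeZero.pos M) one_pos)

theorem mdiff_wpD1 (M : ℕ) [NeZero M] (a b : ℤ) : MDiff (wpD1 M a b) :=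
  (mdiff_dD M (NeZero.pos M) a 0 b 0).comp (mdiff_mulM M)

theorem wpD1_ne_zero (M : ℕ) [NeZero M] {a b : ℤ} (ha : ¬ (M : ℤ) ∣ a) (hb : ¬ (M : ℤ) ∣ b)
    (hab : ¬ (M : ℤ) ∣ a - b) (hab' : ¬ (M : ℤ) ∣ a + b) (τ : ℍ) : wpD1 M a b τ ≠ 0 :=
  dD_ne_zero (NeZero.pos M) (fun h => ha h.1) (fun h => hb h.1) (fun h => hab h.1)
    (fun h => hab' h.1) _

/-- Hermite decomposition acting on points -/
theorem mulM_smul_eq {M : ℕ} [NeZero M] {g δ : SL(2, ℤ)} {A D : ℕ} {B : ℤ} {hA : 0 < A}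
    {hD : 0 < D}
    (h : ut M 1 0 (NeZero.pos M) one_pos * Matrix.SpecialLinearGroup.mapGL ℝ g =
        Matrix.SpecialLinearGroup.mapGL ℝ δ * ut A D B hA hD) (τ : ℍ) :
    mulM M (g • τ) = δ • (ut A D B hA hD • τ) := by
  have h1 : mulM M (g • τ) =
      (ut M 1 0 (NeZero.pos M) one_pos * Matrix.SpecialLinearGroup.mapGL ℝ g) • τ := by
    rw [mul_smul]
    rfl
  have h2 : δ • (ut A D B hA hD • τ) =
      (Matrix.SpecialLinearGroup.mapGL ℝ δ * ut A D B hA hD) • τ := by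
    rw [mul_smul]
    rfl
  rw [h1, h2, h]

/-- the translates of `wpD1` are `℘`-differences at general division points -/
theorem wpD1_translate {M : ℕ} [NeZero M] (a b : ℤ) {g δ : SL(2, ℤ)} {A D : ℕ} {B : ℤ}
    {hA : 0 < A} {hD : 0 < D}
    (h : ut M 1 0 (NeZero.pos M) one_pos * Matrix.SpecialLinearGroup.mapGL ℝ g =
        Matrix.SpecialLinearGroup.mapGL ℝ δ * ut A D B hA hD) (τ : ℍ) :
    wpD1 M a b (g • τ) =
      ((δ 1 0 : ℂ) * (ut A D B hA hD • τ : ℍ) + δ 1 1) ^ 2 *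
        dD M (a * δ 0 0 + 0 * δ 1 0) (a * δ 0 1 + 0 * δ 1 1)
          (b * δ 0 0 + 0 * δ 1 0) (b * δ 0 1 + 0 * δ 1 1) (ut A D B hA hD • τ) := by
  rw [wpD1, mulM_smul_eq h, dD_smul M (NeZero.pos M)]

/-- **The translates of the ratios lie in `holoExp`.** -/
theorem wpRatio_precomp_mem_holoExp (M : ℕ) [NeZero M] (a b c : ℤ)
    (ha : ¬ (M : ℤ) ∣ a) (hc : ¬ (M : ℤ) ∣ c) (hac : ¬ (M : ℤ) ∣ a - c)
    (hac' : ¬ (M : ℤ) ∣ a + c) (g : SL(2, ℤ)) :
    precomp g (fun τ => wpD1 M a b τ / wpD1 M a c τ) ∈ holoExp := by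
  have hM := NeZero.pos M
  obtain ⟨δ, A, D, B, hA, hD, hAD, -, hmat⟩ := hermite_GL M hM g⁻¹
  set P := dD M (a * δ 0 0 + 0 * δ 1 0) (a * δ 0 1 + 0 * δ 1 1)
    (b * δ 0 0 + 0 * δ 1 0) (b * δ 0 1 + 0 * δ 1 1) with hP
  set Q := dD M (a * δ 0 0 + 0 * δ 1 0) (a * δ 0 1 + 0 * δ 1 1)
    (c * δ 0 0 + 0 * δ 1 0) (c * δ 0 1 + 0 * δ 1 1) with hQ
  -- `Q` is nowhere zero
  have hQne : ∀ σ : ℍ, Q σ ≠ 0 := by
    intro σ hσ
    have h1 := dD_smul M hM a 0 c 0 δ σ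
    rw [← hQ, hσ, mul_zero] at h1
    exact dD_ne_zero hM (fun h => ha h.1) (fun h => hc h.1) (fun h => hac h.1)
      (fun h => hac' h.1) _ h1
  -- the translate
  have hfun : precomp g (fun τ => wpD1 M a b τ / wpD1 M a c τ) =
      fun τ => P (ut A D B hA hD • τ) * (Q (ut A D B hA hD • τ))⁻¹ := by
    funext τ
    rw [precomp_apply, wpD1_translate a b hmat τ, wpD1_translate a c hmat τ, ← hP, ← hQ]
    have hj := pow_ne_zero 2 (SL_denom_ne_zero δ (ut A D B hA hD • τ))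
    rw [mul_div_mul_left _ _ hj, div_eq_mul_inv]
  rw [hfun, mem_holoExp]
  have hut : MDiff (fun τ : ℍ => ut A D B hA hD • τ) :=
    UpperHalfPlane.mdifferentiable_smul (det_ut_pos hA hD)
  have htend := UpperHalfPlane.tendsto_smul_atImInfty (ut_apply_one_zero (B := B) hA hD)
  obtain ⟨n, hn⟩ := inv_dD_isBigO hM (a := a * δ 0 0 + 0 * δ 1 0) (b := a * δ 0 1 + 0 * δ 1 1)
    (a' := c * δ 0 0 + 0 * δ 1 0) (b' := c * δ 0 1 + 0 * δ 1 1) ⟨UpperHalfPlane.I, hQne _⟩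
  refine ⟨?_, n * A, ?_⟩
  · have hPd : MDiff (fun τ : ℍ => P (ut A D B hA hD • τ)) := (mdiff_dD M hM _ _ _ _).comp hut
    have hQd : MDiff (fun τ : ℍ => Q (ut A D B hA hD • τ)) := (mdiff_dD M hM _ _ _ _).comp hut
    have hQi : MDiff (fun τ : ℍ => (Q (ut A D B hA hD • τ))⁻¹) := by
      intro τ
      rw [UpperHalfPlane.mdifferentiableAt_iff]
      have h1 := UpperHalfPlane.mdifferentiableAt_iff.mp (hQd τ)
      have h2 : ((fun τ : ℍ => Q (ut A D B hA hD • τ)) ∘ UpperHalfPlane.ofComplex) (τ : ℂ) ≠ 0 := by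
        simp only [Function.comp_apply, UpperHalfPlane.ofComplex_apply]
        exact hQne _
      exact h1.inv h2
    exact hPd.mul hQi
  · have hPb : (fun τ : ℍ => P (ut A D B hA hD • τ)) =O[UpperHalfPlane.atImInfty]
        fun _ : ℍ => (1 : ℝ) := by
      have h := isBoundedAtImInfty_dD M hM (a * δ 0 0 + 0 * δ 1 0) (a * δ 0 1 + 0 * δ 1 1)
        (b * δ 0 0 + 0 * δ 1 0) (b * δ 0 1 + 0 * δ 1 1)
      rw [UpperHalfPlane.IsBoundedAtImInfty, BoundedAtFilter] at h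
      exact h.comp_tendsto htend
    have hQb : (fun τ : ℍ => (Q (ut A D B hA hD • τ))⁻¹) =O[UpperHalfPlane.atImInfty]
        fun τ : ℍ => Real.exp (2 * π * (n * A : ℕ) * τ.im) := by
      have h := hn.comp_tendsto htend
      refine h.trans (IsBigO.of_bound 1 (Eventually.of_forall fun τ => ?_))
      simp only [Function.comp_apply]
      rw [one_mul, Real.norm_of_nonneg (Real.exp_pos _).le,
        Real.norm_of_nonneg (Real.exp_pos _).le, im_ut_smul]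
      apply Real.exp_le_exp.mpr
      have hτ := τ.im_pos
      have hD1 : (1 : ℝ) ≤ D := by exact_mod_cast hD
      have hA0 : (0 : ℝ) ≤ A := by positivity
      have h1 : (A : ℝ) / D ≤ A := div_le_self hA0 hD1
      have hpi := Real.pi_pos
      push_cast
      have h2 : (A : ℝ) / D * τ.im ≤ A * τ.im := by gcongr
      have h3 : (0 : ℝ) ≤ 2 * π * n := by positivity
      calc 2 * π * n * ((A : ℝ) / D * τ.im) ≤ 2 * π * n * (A * τ.im) := by gcongr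
        _ = 2 * π * (n * A) * τ.im := by ring
    refine (hPb.mul hQb).congr_right fun τ => ?_
    rw [one_mul]

end Fermat.Agent.T4.helper55
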