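/-
T4 (S48), block (I), leaf [I-FLD-ORD] (helper86): the `q`-orders and leading coefficients of the
generators of the function field `F1(M)` of `X₁(M)` (helper32_X1Defs), over any coefficient ring,
and FULLNESS in series form.

For `a : ZMod M` let `rep M a = min a.val (M - a.val)` be the least positive representative of
`± a`.  Then `P_a = wpSer M a` has order `rep M a` (for `a ≠ 0`), with leading coefficient `1`
(`2` if `a = -a`), hence `(P_x - P_y) / q = wpDiff M x y` has order `min (rep x) (rep y) - 1`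
with leading coefficient `± 1` if `x ≠ ± y`.

* `wpCoeff_eq_zero_of_lt`, `wpCoeff_rep`, `wpCoeff_neg`, `wpCoeff_one_eq`.
* `order_map_wpDiff` : the order of `wpDiff M x y` over any nontrivial ring.
* `sInt_one`, `sInt_two`, `sInt_neg`, `sInt_sub`, `constantCoeff_sInt`.
* `fullness` : **FULLNESS**, series form, over any field `K`, `M ≥ 6`: if
  `s_{da} - s_d = s_a (s_{2d} - s_d)` for all `a ≠ 0` then `d = ± 1`.
* `fullness_isDiamondAut` : the identity is a diamond automorphism for `d` only if `d = ± 1`.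
-/
import Mathlib
import Fermat.Agent.T4.helper32_X1Defs

set_option autoImplicit false
set_option linter.unusedSectionVars false

noncomputable section

open Fermat.Agent.T4.helper32 ModularCurve

namespace Fermat.Agent.T4.helper86

/-! ### The least positive representative of `± a` -/

section Rep

variable {M : ℕ} [NeZero M]

/-- the least positive representative of `± a` (for `a ≠ 0`) -/
def rep (M : ℕ) (a : ZMod M) : ℕ := min a.val (M - a.val)

theorem rep_pos {a : ZMod M} (ha : a ≠ 0) : 0 < rep M a := by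
  have h1 : 0 < a.val := ZMod.val_pos.2 ha
  have h2 : a.val < M := ZMod.val_lt a
  unfold rep
  omega

theorem two_mul_rep_le (a : ZMod M) : 2 * rep M a ≤ M := by
  have h2 : a.val < M := ZMod.val_lt a
  unfold rep
  omega

/-- `rep M a` represents `a` or `-a` -/
theorem natCast_rep (a : ZMod M) : ((rep M a : ℕ) : ZMod M) = a ∨ ((rep M a : ℕ) : ZMod M) = -a := by
  have h2 : a.val < M := ZMod.val_lt a
  unfold rep
  rcases le_total a.val (M - a.val) with h | h
  · left
    rw [min_eq_left h, ZMod.natCast_zmod_val]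
  · right
    rw [min_eq_right h, Nat.cast_sub h2.le, ZMod.natCast_self, ZMod.natCast_zmod_val, zero_sub]

/-- every natural number representing `± a` is at least `rep M a` -/
theorem rep_le_of_natCast {a : ZMod M} {k : ℕ}
    (h : (k : ZMod M) = a ∨ (k : ZMod M) = -a) : rep M a ≤ k := by
  by_cases ha : a = 0
  · subst ha
    simp [rep]
  rcases h with h | h
  · have h1 : a.val = k % M := by rw [← h, ZMod.val_natCast]
    have h2 : k % M ≤ k := Nat.mod_le k M
    unfold rep
    omega
  · have h1 : (-a).val = k % M := by rw [← h, ZMod.val_natCast]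
    rw [ZMod.neg_val, if_neg ha] at h1
    have h2 : k % M ≤ k := Nat.mod_le k M
    unfold rep
    omega

theorem rep_neg (a : ZMod M) : rep M (-a) = rep M a := by
  apply le_antisymm
  · apply rep_le_of_natCast
    rcases natCast_rep a with h | h
    · right; rw [h, neg_neg]
    · left; exact h
  · apply rep_le_of_natCast
    rcases natCast_rep (-a) with h | h
    · right; exact h
    · left; rw [h, neg_neg]

theorem rep_eq_iff {a b : ZMod M} : rep M a = rep M b ↔ a = b ∨ a = -b := by
  constructor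
  · intro h
    rcases natCast_rep a with ha | ha <;> rcases natCast_rep b with hb | hb <;>
      rw [h] at ha <;> rw [ha] at hb
    · left; exact hb
    · right; exact hb
    · right; rw [← hb, neg_neg]
    · left; exact neg_injective hb
  · rintro (rfl | rfl)
    · rfl
    · exact rep_neg b

theorem natCast_ne_zero_of_lt {k : ℕ} (hk : 0 < k) (hkM : k < M) : ((k : ℕ) : ZMod M) ≠ 0 := by
  intro h
  have := Nat.le_of_dvd hk ((ZMod.natCast_eq_zero_iff k M).1 h)
  omega

theorem rep_eq_one_iff (hM : 3 ≤ M) {a : ZMod M} : rep M a = 1 ↔ a = 1 ∨ a = -1 := by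
  have h1 : rep M (1 : ZMod M) = 1 := by
    have hne : (1 : ZMod M) ≠ 0 := by
      have := natCast_ne_zero_of_lt (M := M) (k := 1) (by norm_num) (by omega)
      simpa using this
    have h2 : rep M (1 : ZMod M) ≤ 1 := rep_le_of_natCast (Or.inl (by simp))
    have h3 := rep_pos hne
    omega
  rw [← h1, rep_eq_iff]

theorem rep_one (hM : 3 ≤ M) : rep M (1 : ZMod M) = 1 := (rep_eq_one_iff hM).2 (Or.inl rfl)

theorem rep_two (hM : 5 ≤ M) : rep M (2 : ZMod M) = 2 := by
  have h2 : ((2 : ℕ) : ZMod M) ≠ 0 := natCast_ne_zero_of_lt (by norm_num) (by omega)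
  have h3 : ((3 : ℕ) : ZMod M) ≠ 0 := natCast_ne_zero_of_lt (by norm_num) (by omega)
  have h1 : ((1 : ℕ) : ZMod M) ≠ 0 := natCast_ne_zero_of_lt (by norm_num) (by omega)
  have hne : (2 : ZMod M) ≠ 0 := by simpa using h2
  have hle : rep M (2 : ZMod M) ≤ 2 := rep_le_of_natCast (Or.inl (by simp))
  have hpos := rep_pos hne
  have hne1 : rep M (2 : ZMod M) ≠ 1 := by
    intro h
    rcases (rep_eq_one_iff (by omega)).1 h with h | h
    · apply h1
      push_cast
      linear_combination h
    · apply h3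
      push_cast
      linear_combination h
  omega

end Rep

/-! ### The coefficients of `P_a` -/

section Coeff

variable {M : ℕ} [NeZero M]

theorem wpCoeff_neg (a : ZMod M) (e : ℕ) : wpCoeff M (-a) e = wpCoeff M a e := by
  unfold wpCoeff
  apply Finset.sum_congr rfl
  intro m _
  rw [neg_neg, add_comm]

/-- `P_a` has no terms below `q ^ (rep a)` -/
theorem wpCoeff_eq_zero_of_lt {a : ZMod M} {e : ℕ} (he : e < rep M a) : wpCoeff M a e = 0 := by
  unfold wpCoeff
  apply Finset.sum_eq_zero
  intro m _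
  have hk : e / m < rep M a := lt_of_le_of_lt (Nat.div_le_self e m) he
  have h1 : ¬ ((e / m : ℕ) : ZMod M) = a := fun h =>
    absurd (rep_le_of_natCast (Or.inl h)) (not_le.2 hk)
  have h2 : ¬ ((e / m : ℕ) : ZMod M) = -a := fun h =>
    absurd (rep_le_of_natCast (Or.inr h)) (not_le.2 hk)
  rw [if_neg h1, if_neg h2]
  simp

/-- the leading coefficient of `P_a` -/
theorem wpCoeff_rep {a : ZMod M} (ha : a ≠ 0) :
    wpCoeff M a (rep M a) = if a = -a then 2 else 1 := by
  have hpos := rep_pos ha
  unfold wpCoeff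
  rw [Finset.sum_eq_single 1]
  · rw [Nat.div_one, Nat.cast_one, one_mul]
    rcases natCast_rep a with h | h
    · rw [h, if_pos rfl]
      split_ifs <;> norm_num
    · rw [h, if_pos rfl]
      by_cases h' : a = -a
      · rw [if_pos h'.symm, if_pos h']; norm_num
      · rw [if_neg (fun h'' => h' h''.symm), if_neg h']; norm_num
  · intro m hm hm1
    have hm0 : 0 < m := Nat.pos_of_mem_divisors hm
    have hk : rep M a / m < rep M a := Nat.div_lt_self hpos (by omega)
    have h1 : ¬ ((rep M a / m : ℕ) : ZMod M) = a := fun h =>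
      absurd (rep_le_of_natCast (Or.inl h)) (not_le.2 hk)
    have h2 : ¬ ((rep M a / m : ℕ) : ZMod M) = -a := fun h =>
      absurd (rep_le_of_natCast (Or.inr h)) (not_le.2 hk)
    rw [if_neg h1, if_neg h2]
    simp
  · intro h
    exact absurd (Nat.one_mem_divisors.2 hpos.ne') h

/-- the coefficient of `q` in `P_a` -/
theorem wpCoeff_one_eq (hM : 3 ≤ M) (a : ZMod M) :
    wpCoeff M a 1 = if a = 1 ∨ a = -1 then 1 else 0 := by
  have h2 : ((2 : ℕ) : ZMod M) ≠ 0 := natCast_ne_zero_of_lt (by norm_num) (by omega)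
  have h11 : (1 : ZMod M) ≠ -1 := by
    intro h
    apply h2
    push_cast
    linear_combination h
  unfold wpCoeff
  rw [Nat.divisors_one, Finset.sum_singleton, Nat.div_one, Nat.cast_one, Nat.cast_one, one_mul]
  by_cases h1 : a = 1
  · subst h1
    rw [if_pos rfl, if_neg h11, if_pos (Or.inl rfl)]; norm_num
  · by_cases h2' : a = -1
    · subst h2'
      rw [if_neg h11, neg_neg, if_pos rfl, if_pos (Or.inr rfl)]; norm_num
    · rw [if_neg (fun h => h1 h.symm), if_neg (fun h => h2' (by rw [h, neg_neg])),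
        if_neg (by tauto)]
      norm_num

theorem eq_neg_iff_two_mul_rep {a : ZMod M} (ha : a ≠ 0) : a = -a ↔ 2 * rep M a = M := by
  have h1 : 0 < a.val := ZMod.val_pos.2 ha
  have h2 : a.val < M := ZMod.val_lt a
  constructor
  · intro h
    have h3 : a.val = M - a.val := by
      conv_lhs => rw [h]
      rw [ZMod.neg_val, if_neg ha]
    unfold rep
    omega
  · intro h
    have h3 : a.val = M - a.val := by
      unfold rep at h
      omega
    apply ZMod.val_injective
    rw [ZMod.neg_val, if_neg ha]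
    exact h3

end Coeff

/-! ### The order of `(P_x - P_y) / q` over any ring -/

section Order

variable {M : ℕ} [NeZero M] (K : Type*) [CommRing K]

/-- `(P_x - P_y) / q` with coefficients in `K` -/
def wK (M : ℕ) (x y : ZMod M) : PowerSeries K := (wpDiff M x y).map (Int.castRingHom K)

theorem coeff_wK (x y : ZMod M) (n : ℕ) :
    PowerSeries.coeff n (wK K M x y) =
      ((wpCoeff M x (n + 1) : ℤ) : K) - ((wpCoeff M y (n + 1) : ℤ) : K) := by
  rw [wK, PowerSeries.coeff_map, wpDiff, PowerSeries.coeff_mk]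
  simp

theorem coeff_wK_of_lt {x y : ZMod M} {n : ℕ} (hx : n + 1 < rep M x) (hy : n + 1 < rep M y) :
    PowerSeries.coeff n (wK K M x y) = 0 := by
  rw [coeff_wK, wpCoeff_eq_zero_of_lt hx, wpCoeff_eq_zero_of_lt hy]
  simp

/-- leading coefficient `1` if `rep x < rep y` -/
theorem coeff_wK_rep_lt {x y : ZMod M} (hx : x ≠ 0) (h : rep M x < rep M y) :
    PowerSeries.coeff (rep M x - 1) (wK K M x y) = 1 := by
  have hpos := rep_pos hx
  have hne : ¬ x = -x := by
    intro h'
    have := (eq_neg_iff_two_mul_rep hx).1 h'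
    have := two_mul_rep_le y
    omega
  rw [coeff_wK, Nat.sub_add_cancel hpos, wpCoeff_rep hx, if_neg hne, wpCoeff_eq_zero_of_lt h]
  simp

/-- leading coefficient `-1` if `rep y < rep x` -/
theorem coeff_wK_rep_gt {x y : ZMod M} (hy : y ≠ 0) (h : rep M y < rep M x) :
    PowerSeries.coeff (rep M y - 1) (wK K M x y) = -1 := by
  have hpos := rep_pos hy
  have hne : ¬ y = -y := by
    intro h'
    have := (eq_neg_iff_two_mul_rep hy).1 h'
    have := two_mul_rep_le x
    omega
  rw [coeff_wK, Nat.sub_add_cancel hpos, wpCoeff_rep hy, if_neg hne, wpCoeff_eq_zero_of_lt h]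
  simp

/-- **the order of `(P_x - P_y) / q`** over a nontrivial ring, for `x, y ≠ 0`, `x ≠ ± y`. -/
theorem order_wK [Nontrivial K] {x y : ZMod M} (hx : x ≠ 0) (hy : y ≠ 0) (hxy : x ≠ y)
    (hxy' : x ≠ -y) :
    (wK K M x y).order = ((min (rep M x) (rep M y) - 1 : ℕ) : ℕ∞) := by
  have hne : rep M x ≠ rep M y := fun h => by
    rcases rep_eq_iff.1 h with h | h
    · exact hxy h
    · exact hxy' h
  rw [PowerSeries.order_eq_nat]
  rcases lt_or_gt_of_ne hne with h | h
  · rw [min_eq_left h.le]
    refine ⟨by rw [coeff_wK_rep_lt K hx h]; exact one_ne_zero, fun i hi => ?_⟩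
    exact coeff_wK_of_lt K (by omega) (by omega)
  · rw [min_eq_right h.le]
    refine ⟨by rw [coeff_wK_rep_gt K hy h]; exact neg_ne_zero.2 one_ne_zero, fun i hi => ?_⟩
    exact coeff_wK_of_lt K (by omega) (by omega)

/-- the constant coefficient of `(P_x - P_y) / q` -/
theorem constantCoeff_wK (hM : 3 ≤ M) (x y : ZMod M) :
    PowerSeries.constantCoeff (wK K M x y) =
      (if x = 1 ∨ x = -1 then 1 else 0) - (if y = 1 ∨ y = -1 then 1 else 0) := by
  rw [← PowerSeries.coeff_zero_eq_constantCoeff_apply, coeff_wK, zero_add, wpCoeff_one_eq hM,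
    wpCoeff_one_eq hM]
  split_ifs <;> simp

end Order

/-! ### The generators `s_a` -/

section SInt

variable {M : ℕ} [NeZero M]

theorem wpDiff_self (x : ZMod M) : wpDiff M x x = 0 := by
  ext n
  simp [wpDiff]

theorem wpDiff_sub (x y z : ZMod M) : wpDiff M x z - wpDiff M y z = wpDiff M x y := by
  ext n
  simp [wpDiff]

theorem wpDiff_neg_left (x y : ZMod M) : wpDiff M (-x) y = wpDiff M x y := by
  ext n
  simp [wpDiff, wpCoeff_neg]

theorem constantCoeff_wpDiff_two_one (hM : 5 ≤ M) :
    PowerSeries.constantCoeff (wpDiff M (2 : ZMod M) 1) = ((-1 : ℤˣ) : ℤ) := by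
  have h1 : ((1 : ℕ) : ZMod M) ≠ 0 := natCast_ne_zero_of_lt (by norm_num) (by omega)
  have h3 : ((3 : ℕ) : ZMod M) ≠ 0 := natCast_ne_zero_of_lt (by norm_num) (by omega)
  have h21 : ¬ ((2 : ZMod M) = 1 ∨ (2 : ZMod M) = -1) := by
    rintro (h | h)
    · apply h1
      push_cast
      linear_combination h
    · apply h3
      push_cast
      linear_combination h
  rw [← PowerSeries.coeff_zero_eq_constantCoeff_apply, wpDiff, PowerSeries.coeff_mk, zero_add,
    wpCoeff_one_eq (by omega), wpCoeff_one_eq (by omega), if_neg h21, if_pos (Or.inl rfl)]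
  simp

/-- the inverse of `(P_2 - P_1) / q` -/
def uInv (M : ℕ) : PowerSeries ℤ := (wpDiff M (2 : ZMod M) 1).invOfUnit (-1)

theorem wpDiff_mul_uInv (hM : 5 ≤ M) : wpDiff M (2 : ZMod M) 1 * uInv M = 1 :=
  PowerSeries.mul_invOfUnit _ _ (constantCoeff_wpDiff_two_one hM)

theorem sInt_eq (a : ZMod M) : sInt M a = wpDiff M a 1 * uInv M := rfl

theorem sInt_one : sInt M (1 : ZMod M) = 0 := by
  rw [sInt_eq, wpDiff_self, zero_mul]

theorem sInt_two (hM : 5 ≤ M) : sInt M (2 : ZMod M) = 1 := by
  rw [sInt_eq, wpDiff_mul_uInv hM]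

theorem sInt_neg (a : ZMod M) : sInt M (-a) = sInt M a := by
  rw [sInt_eq, sInt_eq, wpDiff_neg_left]

/-- `s_x - s_y = (P_x - P_y) / (P_2 - P_1)` -/
theorem sInt_sub (x y : ZMod M) : sInt M x - sInt M y = wpDiff M x y * uInv M := by
  rw [sInt_eq, sInt_eq, ← sub_mul, wpDiff_sub]

/-- `s_a ∈ 1 + q ℤ[[q]]` for `a ≠ 0, ± 1` -/
theorem constantCoeff_sInt (hM : 5 ≤ M) {a : ZMod M} (ha1 : a ≠ 1) (ha1' : a ≠ -1) :
    PowerSeries.constantCoeff (sInt M a) = 1 := by
  have h : PowerSeries.constantCoeff (wpDiff M a 1) = -1 := by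
    rw [← PowerSeries.coeff_zero_eq_constantCoeff_apply, wpDiff, PowerSeries.coeff_mk, zero_add,
      wpCoeff_one_eq (by omega), wpCoeff_one_eq (by omega), if_neg (by tauto),
      if_pos (Or.inl rfl)]
    norm_num
  rw [sInt_eq, map_mul, h, uInv, PowerSeries.constantCoeff_invOfUnit]
  simp

end SInt

/-! ### FULLNESS -/

section Fullness

variable {M : ℕ} [NeZero M] (K : Type*) [Field K]

/-- `s_a` as a power series over `K` -/
def sK (M : ℕ) (a : ZMod M) : PowerSeries K := (sInt M a).map (Int.castRingHom K)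

theorem sSer_eq (a : ZMod M) : sSer K M a = HahnSeries.ofPowerSeries ℤ K (sK K M a) := rfl

theorem sK_sub (x y : ZMod M) :
    sK K M x - sK K M y = wK K M x y * (uInv M).map (Int.castRingHom K) := by
  rw [sK, sK, ← map_sub, sInt_sub, map_mul]
  rfl

theorem sK_eq (a : ZMod M) :
    sK K M a = wK K M a 1 * (uInv M).map (Int.castRingHom K) := by
  rw [sK, sInt_eq, map_mul]
  rfl

theorem wK_mul_uInv (hM : 5 ≤ M) :
    wK K M (2 : ZMod M) 1 * (uInv M).map (Int.castRingHom K) = 1 := by
  rw [wK, ← map_mul, wpDiff_mul_uInv hM, map_one]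

/-- the diamond relation, denominators cleared -/
theorem wK_rel (hM : 5 ≤ M) {d a : ZMod M}
    (h : sK K M (d * a) - sK K M d = sK K M a * (sK K M (d * 2) - sK K M d)) :
    wK K M (d * a) d * wK K M 2 1 = wK K M a 1 * wK K M (d * 2) d := by
  rw [sK_sub, sK_sub, sK_eq] at h
  have hu := wK_mul_uInv K hM
  set U := (uInv M).map (Int.castRingHom K) with hU
  set W := wK K M (2 : ZMod M) 1 with hW
  calc wK K M (d * a) d * W = wK K M (d * a) d * W * (W * U) := by rw [hu, mul_one]
    _ = (wK K M (d * a) d * U) * (W * W) := by ring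
    _ = (wK K M a 1 * U * (wK K M (d * 2) d * U)) * (W * W) := by rw [h]
    _ = wK K M a 1 * wK K M (d * 2) d * ((W * U) * (W * U)) := by ring
    _ = wK K M a 1 * wK K M (d * 2) d := by rw [hu, mul_one, mul_one]

/-- **FULLNESS**, power series form. -/
theorem fullness_powerSeries (hM : 6 ≤ M) (d : (ZMod M)ˣ)
    (h : ∀ a : ZMod M, a ≠ 0 →
      sK K M ((d : ZMod M) * a) - sK K M (d : ZMod M) =
        sK K M a * (sK K M ((d : ZMod M) * 2) - sK K M (d : ZMod M))) :
    d = 1 ∨ d = -1 := by
  by_contra hd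
  rw [not_or] at hd
  have hd1 : (d : ZMod M) ≠ 1 := fun h' => hd.1 (Units.ext h')
  have hd1' : (d : ZMod M) ≠ -1 := fun h' => hd.2 (Units.ext (by rw [h']; simp))
  have hn : ∀ k : ℕ, 0 < k → k < 6 → ((k : ℕ) : ZMod M) ≠ 0 := fun k hk hk6 =>
    natCast_ne_zero_of_lt hk (by omega)
  have h2 := hn 2 (by norm_num) (by norm_num)
  have h3 := hn 3 (by norm_num) (by norm_num)
  have h4 := hn 4 (by norm_num) (by norm_num)
  have h5 := hn 5 (by norm_num) (by norm_num)
  have h1 := hn 1 (by norm_num) (by norm_num)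
  push_cast at h1 h2 h3 h4 h5
  have : Nontrivial (ZMod M) := ⟨⟨1, 0, h1⟩⟩
  -- constant coefficients of the cleared relation
  have key : ∀ a : ZMod M, a ≠ 0 → a ≠ 1 → a ≠ -1 →
      ((if (d : ZMod M) * a = 1 ∨ (d : ZMod M) * a = -1 then (1 : K) else 0)) =
        (if (d : ZMod M) * 2 = 1 ∨ (d : ZMod M) * 2 = -1 then (1 : K) else 0) := by
    intro a ha ha1 ha1'
    have hrel := congrArg PowerSeries.constantCoeff (wK_rel K (by omega) (h a ha))
    rw [map_mul, map_mul, constantCoeff_wK K (by omega), constantCoeff_wK K (by omega),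
      constantCoeff_wK K (by omega), constantCoeff_wK K (by omega)] at hrel
    have e1 : ¬ ((d : ZMod M) = 1 ∨ (d : ZMod M) = -1) := by tauto
    have e2 : ¬ ((2 : ZMod M) = 1 ∨ (2 : ZMod M) = -1) := by
      rintro (h' | h')
      · apply h1; linear_combination h'
      · apply h3; linear_combination h'
    have e3 : ¬ (a = 1 ∨ a = -1) := by tauto
    rw [if_neg e1, if_neg e2, if_neg e3, if_pos (Or.inl rfl)] at hrel
    linear_combination -hrel
  -- `a = d⁻¹`
  have hinv0 : ((d⁻¹ : (ZMod M)ˣ) : ZMod M) ≠ 0 := (d⁻¹).ne_zero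
  have hinv1 : ((d⁻¹ : (ZMod M)ˣ) : ZMod M) ≠ 1 := by
    intro h'
    apply hd.1
    have : d⁻¹ = 1 := Units.ext h'
    exact inv_eq_one.1 this
  have hinv1' : ((d⁻¹ : (ZMod M)ˣ) : ZMod M) ≠ -1 := by
    intro h'
    apply hd.2
    have : d⁻¹ = -1 := Units.ext (by rw [h']; simp)
    have := inv_eq_iff_eq_inv.1 this
    rw [this]
    simp
  have k1 := key _ hinv0 hinv1 hinv1'
  rw [Units.mul_inv, if_pos (Or.inl rfl)] at k1
  have hd2 : (d : ZMod M) * 2 = 1 ∨ (d : ZMod M) * 2 = -1 := by
    by_contra h'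
    rw [if_neg h'] at k1
    exact one_ne_zero k1
  -- `a = 3`
  have e31 : (3 : ZMod M) ≠ 1 := by
    intro h'; apply h2; linear_combination h'
  have e31' : (3 : ZMod M) ≠ -1 := by
    intro h'; apply h4; linear_combination h'
  have k3 := key 3 h3 e31 e31'
  rw [if_pos hd2] at k3
  have hd3 : (d : ZMod M) * 3 = 1 ∨ (d : ZMod M) * 3 = -1 := by
    by_contra h'
    rw [if_neg h'] at k3
    exact one_ne_zero k3.symm
  have hd0 : (d : ZMod M) ≠ 0 := d.ne_zero
  rcases hd2 with a2 | a2 <;> rcases hd3 with a3 | a3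
  · apply hd0; linear_combination a3 - a2
  · -- d = -2, so -4 = 1
    apply h5
    have hdv : (d : ZMod M) = -2 := by linear_combination a3 - a2
    rw [hdv] at a2
    linear_combination -a2
  · apply h5
    have hdv : (d : ZMod M) = 2 := by linear_combination a3 - a2
    rw [hdv] at a2
    linear_combination a2
  · apply hd0; linear_combination a3 - a2

/-- **FULLNESS**, series form, over any field `K`, `M ≥ 6`: if the substitution
`s_a ↦ (s_{d a} - s_d) / (s_{2 d} - s_d)` fixes all the generators `s_a`, then `d = ± 1`. -/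
theorem fullness (hM : 6 ≤ M) (d : (ZMod M)ˣ)
    (h : ∀ a : ZMod M, a ≠ 0 →
      sSer K M ((d : ZMod M) * a) - sSer K M (d : ZMod M) =
        sSer K M a * (sSer K M ((d : ZMod M) * 2) - sSer K M (d : ZMod M))) :
    d = 1 ∨ d = -1 := by
  apply fullness_powerSeries K hM d
  intro a ha
  have := h a ha
  simp only [sSer_eq, ← map_sub, ← map_mul] at this
  exact HahnSeries.ofPowerSeries_injective this

end Fullness

/-! ### Base change of the generators and the diamond automorphisms -/

section Diamond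

variable {M : ℕ} [NeZero M]

theorem coeffMap_sSer {R S : Type*} [CommRing R] [CommRing S] (f : R →+* S) (a : ZMod M) :
    coeffMap f (sSer R M a) = sSer S M a := by
  rw [sSer, coeffMap_ofPowerSeries, ← RingHom.comp_apply (PowerSeries.map f)
    (PowerSeries.map (Int.castRingHom R)), ← PowerSeries.map_comp,
    RingHom.ext_int (f.comp (Int.castRingHom R)) (Int.castRingHom S)]
  rfl

theorem coeffEmb_sSer (L : Type*) [Field L] [Algebra ℚ L] (a : ZMod M) :
    coeffEmb L (sSer ℚ M a) = sSer L M a :=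
  coeffMap_sSer (algebraMap ℚ L) a

theorem sSer_one (C : Type*) [CommRing C] : sSer C M (1 : ZMod M) = 0 := by
  rw [sSer, sInt_one, map_zero, map_zero]

theorem sSer_two (C : Type*) [CommRing C] (hM : 5 ≤ M) : sSer C M (2 : ZMod M) = 1 := by
  rw [sSer, sInt_two hM, map_one, map_one]

theorem sSer_neg (C : Type*) [CommRing C] (a : ZMod M) : sSer C M (-a) = sSer C M a := by
  rw [sSer, sSer, sInt_neg]

theorem coe_sEl (a : ZMod M) (ha : a ≠ 0) :
    ((sEl M a ha : F1 M) : LaurentSeries Kbar) = sSer Kbar M a :=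
  coeffEmb_sSer Kbar a

/-- **FULLNESS** for the diamond automorphisms: if `δ_d^*` fixes all the generators `s_a`, then
`d = ± 1`. -/
theorem fullness_of_isDiamondAut (hM : 6 ≤ M) (d : (ZMod M)ˣ) (σ : F1 M ≃ₐ[Kbar] F1 M)
    (hσ : IsDiamondAut M d σ) (hfix : ∀ (a : ZMod M) (ha : a ≠ 0), σ (sEl M a ha) = sEl M a ha) :
    d = 1 ∨ d = -1 := by
  have h2 : ((2 : ℕ) : ZMod M) ≠ 0 := natCast_ne_zero_of_lt (by norm_num) (by omega)
  push_cast at h2
  -- the relations in series form
  have hrel : ∀ (a : ZMod M), a ≠ 0 → sSer Kbar M a =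
      (sSer Kbar M ((d : ZMod M) * a) - sSer Kbar M (d : ZMod M)) /
        (sSer Kbar M ((d : ZMod M) * 2) - sSer Kbar M (d : ZMod M)) := by
    intro a ha
    have h := hσ.2 a ha
    rw [hfix a ha, coe_sEl, coeffEmb_sSer, coeffEmb_sSer, coeffEmb_sSer] at h
    exact h
  -- the denominator does not vanish
  have hden : sSer Kbar M ((d : ZMod M) * 2) - sSer Kbar M (d : ZMod M) ≠ 0 := by
    intro h0
    have h := hrel 2 h2
    rw [h0, div_zero, sSer_two Kbar (by omega)] at h
    exact one_ne_zero h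
  apply fullness Kbar hM d
  intro a ha
  have h := hrel a ha
  rw [h, div_mul_cancel₀ _ hden]

/-- the identity is a diamond automorphism for `d` only if `d = ± 1` -/
theorem fullness_isDiamondAut (hM : 6 ≤ M) (d : (ZMod M)ˣ)
    (h : IsDiamondAut M d AlgEquiv.refl) : d = 1 ∨ d = -1 :=
  fullness_of_isDiamondAut hM d AlgEquiv.refl h (fun _ _ => rfl)

end Diamond

end Fermat.Agent.T4.helper86

end
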