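import Mathlib
import Fermat.Agent.T4.helper24_X1Sys
import Fermat.Agent.T4.helper44_WpLaw
import Fermat.Agent.T4.helper55_WpHolo
import Fermat.Agent.T4.helper86_X1Ord
import Fermat.Agent.T4.helper33_X1Series
import Fermat.Agent.P3.helper48_AN1Ratio

/-!
# T4 block (I), sub-block I-FLD (helper24): the analytic inputs of the generator system of `X₁(M)`

`x1Inputs : 6 ≤ M → X1Inputs M` - the four analytic facts on the functions
`s_a = (℘(a τ) - ℘(τ)) / (℘(2 τ) - ℘(τ))` (lattice `⟨1, M τ⟩`) consumed by `x1Sys_of`: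

* `qexp`   : `s_a` is holomorphic on the upper half plane with `q`-expansion `sSer M a`;
* `inv`    : invariance under `Γ₁(M)`;
* `full`   : an element of `Γ₀(M)` fixing all the `s_a` lies in `±Γ₁(M)`;
* `growth` : all `SL(2, ℤ)`-translates are holomorphic of exponential growth at `i∞`.

Inputs: `helper44` (`hasSum_wpD`, `wpD_smul`, `wpD_congr`, `wpD_ne_zero`), `helper55`
(`mdiff_wpD1`, `isBoundedAtImInfty_dD`, `wpRatio_precomp_mem_holoExp`), `helper86` (`fullness`),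
`helper33` (series calculus), `P3.helper48.exists_isQExp`.
-/

set_option autoImplicit false
set_option linter.unusedSectionVars false

noncomputable section

open ModularCurve CongruenceSubgroup Complex Filter
open UpperHalfPlane hiding I
open scoped MatrixGroups Real Manifold

namespace Fermat.Agent.T4.helper24

open Fermat.Agent.S24 Fermat.Agent.S24.helper17 Fermat.Agent.S24.helper77
open Fermat.Agent.T4.helper32

local notation "𝕢" => Function.Periodic.qParam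

variable (M : ℕ) [NeZero M]

/-! ### The bridge `wpDfn = (2 π i)⁻² (℘(a τ) - ℘(b τ))` -/

/-- the constant `(2 π i)²` -/
def twoPiISq : ℂ := (2 * π * I) ^ 2

theorem twoPiISq_ne_zero : twoPiISq ≠ 0 :=
  pow_ne_zero 2 Complex.two_pi_I_ne_zero

theorem qParam_one_eq (z : ℂ) : 𝕢 1 z = cexp (2 * π * I * z) := by
  rw [Function.Periodic.qParam]
  simp

/-- the `q`-series of `wpDfn` converges -/
theorem hasSum_wpDfn (a b : ℤ) (ha : (a : ZMod M) ≠ 0) (hb : (b : ZMod M) ≠ 0) (τ : ℍ) :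
    HasSum (fun n : ℕ => ((wpCoeff M (a : ZMod M) n - wpCoeff M (b : ZMod M) n : ℤ) : ℂ) *
      𝕢 1 τ ^ n) (twoPiISq⁻¹ * helper44.wpD M a b τ) := by
  have h := (helper44.hasSum_wpD M a b ha hb τ).mul_left twoPiISq⁻¹
  have hfun : ∀ n : ℕ, twoPiISq⁻¹ * ((2 * π * I) ^ 2 *
      ((helper44.wpC M (a : ZMod M) n : ℂ) - (helper44.wpC M (b : ZMod M) n : ℂ)) *
        cexp (2 * π * I * τ) ^ n) =
      ((wpCoeff M (a : ZMod M) n - wpCoeff M (b : ZMod M) n : ℤ) : ℂ) * 𝕢 1 τ ^ n := by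
    intro n
    rw [qParam_one_eq]
    have e : (helper44.wpC M (a : ZMod M) n : ℂ) - (helper44.wpC M (b : ZMod M) n : ℂ) =
        ((wpCoeff M (a : ZMod M) n - wpCoeff M (b : ZMod M) n : ℤ) : ℂ) := by
      push_cast
      rfl
    rw [e]
    have := twoPiISq_ne_zero
    unfold twoPiISq at this ⊢
    field_simp
  simp_rw [hfun] at h
  exact h

theorem wpDfn_eq_wpD (a b : ℤ) (ha : (a : ZMod M) ≠ 0) (hb : (b : ZMod M) ≠ 0) (τ : ℍ) :
    wpDfn M (a : ZMod M) (b : ZMod M) τ = twoPiISq⁻¹ * helper44.wpD M a b τ :=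
  (hasSum_wpDfn M a b ha hb τ).tsum_eq

theorem wpD_eq_wpD1 (a b : ℤ) (τ : ℍ) : helper44.wpD M a b τ = helper55.wpD1 M a b τ :=
  helper55.wpD1_eq_of_lattice M a b τ (helper44.latt M τ) fun _ => helper44.mem_latt M

theorem wpDfn_eq_wpD1 (a b : ℤ) (ha : (a : ZMod M) ≠ 0) (hb : (b : ZMod M) ≠ 0) (τ : ℍ) :
    wpDfn M (a : ZMod M) (b : ZMod M) τ = twoPiISq⁻¹ * helper55.wpD1 M a b τ := by
  rw [wpDfn_eq_wpD M a b ha hb, wpD_eq_wpD1]

/-- an integer lift of a residue class -/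
def lift (a : ZMod M) : ℤ := (a.val : ℤ)

@[simp] theorem cast_lift (a : ZMod M) : ((lift M a : ℤ) : ZMod M) = a := by
  unfold lift
  simp

theorem wpDfn_eq_lift {a b : ZMod M} (ha : a ≠ 0) (hb : b ≠ 0) (τ : ℍ) :
    wpDfn M a b τ = twoPiISq⁻¹ * helper55.wpD1 M (lift M a) (lift M b) τ := by
  have := wpDfn_eq_wpD1 M (lift M a) (lift M b) (by simpa using ha) (by simpa using hb) τ
  rwa [cast_lift, cast_lift] at this

/-! ### `wpDfn` is nice, with `q`-expansion `P_a - P_b` -/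

/-- the formal series `P_a - P_b` -/
def wpPS (a b : ZMod M) : PowerSeries ℤ := PowerSeries.mk fun n => wpCoeff M a n - wpCoeff M b n

omit [NeZero M] in
theorem wpPS_eq (a b : ZMod M) : wpPS M a b = PowerSeries.X * wpDiff M a b := by
  ext n
  cases n with
  | zero =>
    simp [wpPS, helper33.wpCoeff_zero_right]
  | succ n =>
    rw [PowerSeries.coeff_succ_X_mul, helper33.coeff_wpDiff, wpPS, PowerSeries.coeff_mk]

/-- the Laurent series `P_a - P_b` over `ℂ` -/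
def wpLS (a b : ZMod M) : LaurentSeries ℂ :=
  HahnSeries.ofPowerSeries ℤ ℂ ((wpPS M a b).map (Int.castRingHom ℂ))

/-- `(P_a - P_b) / q` over `ℂ` -/
def wLS (a b : ZMod M) : LaurentSeries ℂ :=
  HahnSeries.ofPowerSeries ℤ ℂ ((wpDiff M a b).map (Int.castRingHom ℂ))

omit [NeZero M] in
theorem wpLS_eq (a b : ZMod M) : wpLS M a b = HahnSeries.single (1 : ℤ) (1 : ℂ) * wLS M a b := by
  unfold wpLS wLS
  rw [wpPS_eq, map_mul, map_mul, PowerSeries.map_X, HahnSeries.ofPowerSeries_X]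

omit [NeZero M] in
theorem wpDfn_vadd (a b : ZMod M) (τ : ℍ) : wpDfn M a b ((1 : ℝ) +ᵥ τ) = wpDfn M a b τ := by
  unfold wpDfn
  have e : 𝕢 1 (((1 : ℝ) +ᵥ τ : ℍ) : ℂ) = 𝕢 1 (τ : ℂ) := by
    rw [UpperHalfPlane.coe_vadd, add_comm]
    exact helper17.qParam_add_one _
  rw [e]

theorem tendsto_mulM : Tendsto (helper55.mulM M) atImInfty atImInfty :=
  UpperHalfPlane.tendsto_smul_atImInfty
    (Fermat.Agent.S23.helper35.ut_apply_one_zero (B := 0) (NeZero.pos M) one_pos)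

theorem isNice_wpDfn {a b : ZMod M} (ha : a ≠ 0) (hb : b ≠ 0) : IsNice (wpDfn M a b) := by
  have hfun : wpDfn M a b = fun τ => twoPiISq⁻¹ * helper55.wpD1 M (lift M a) (lift M b) τ :=
    funext fun τ => wpDfn_eq_lift M ha hb τ
  refine ⟨Fermat.Agent.P3.helper48.periodic_comp_ofComplex (wpDfn_vadd M a b), ?_, ?_⟩
  · rw [hfun]
    exact mdifferentiable_const.mul (helper55.mdiff_wpD1 M _ _)
  · rw [hfun]
    have h := helper55.isBoundedAtImInfty_dD M (NeZero.pos M) (lift M a) 0 (lift M b) 0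
    rw [UpperHalfPlane.IsBoundedAtImInfty, BoundedAtFilter] at h ⊢
    have h2 := h.comp_tendsto (tendsto_mulM M)
    exact (h2.const_mul_left twoPiISq⁻¹)

theorem qExpansion_wpDfn {a b : ZMod M} (ha : a ≠ 0) (hb : b ≠ 0) :
    UpperHalfPlane.qExpansion 1 (wpDfn M a b) = (wpPS M a b).map (Int.castRingHom ℂ) := by
  refine (isNice_wpDfn M ha hb).qExpansion_eq_of_hasSum _ fun τ => ?_
  have h := hasSum_wpDfn M (lift M a) (lift M b) (by simpa using ha) (by simpa using hb) τ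
  rw [← wpDfn_eq_wpD M _ _ (by simpa using ha) (by simpa using hb), cast_lift, cast_lift] at h
  convert h using 2 with n
  rw [PowerSeries.coeff_map, wpPS, PowerSeries.coeff_mk, smul_eq_mul]
  rfl

theorem isQExp_wpDfn {a b : ZMod M} (ha : a ≠ 0) (hb : b ≠ 0) :
    IsQExp (wpLS M a b) (wpDfn M a b) := by
  have := IsQExp.of_isNice (isNice_wpDfn M ha hb)
  rwa [qExpansion_wpDfn M ha hb] at this

/-! ### Small residues -/

variable {M} in
theorem natCast_ne_zero_of_lt' {k : ℕ} (hk : 0 < k) (hkM : k < M) : ((k : ℕ) : ZMod M) ≠ 0 := by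
  rw [Ne, ZMod.natCast_eq_zero_iff]
  exact fun h => absurd (Nat.le_of_dvd hk h) (by omega)

variable {M} in
theorem one_ne_zero' (hM : 4 ≤ M) : (1 : ZMod M) ≠ 0 := by
  have := natCast_ne_zero_of_lt' (M := M) (k := 1) one_pos (by omega)
  simpa using this

variable {M} in
theorem two_ne_zero' (hM : 4 ≤ M) : (2 : ZMod M) ≠ 0 := by
  have := natCast_ne_zero_of_lt' (M := M) (k := 2) two_pos (by omega)
  simpa using this

variable {M} in
theorem three_ne_zero' (hM : 4 ≤ M) : (3 : ZMod M) ≠ 0 := by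
  have := natCast_ne_zero_of_lt' (M := M) (k := 3) (by norm_num) (by omega)
  simpa using this

variable {M} in
theorem two_ne_one' (hM : 4 ≤ M) : (2 : ZMod M) ≠ 1 := by
  intro h
  apply one_ne_zero' hM
  have : (2 : ZMod M) - 1 = 1 := by ring
  rw [← this, h, sub_self]

variable {M} in
theorem two_ne_neg_one' (hM : 4 ≤ M) : (2 : ZMod M) ≠ -1 := by
  intro h
  apply three_ne_zero' hM
  have : (3 : ZMod M) = 2 + 1 := by ring
  rw [this, h, neg_add_cancel]

variable {M} in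
theorem not_dvd_of_lt {k : ℤ} (hk : 0 < k) (hkM : k < M) : ¬ (M : ℤ) ∣ k :=
  fun h => absurd (Int.le_of_dvd hk h) (by omega)

/-! ### Nonvanishing -/

/-- a unit multiple: `u x ≠ 0`, `u x ≠ ± u y` -/
theorem wpDfn_ne_zero {a b : ZMod M} (ha : a ≠ 0) (hb : b ≠ 0) (hab : a ≠ b) (hab' : a ≠ -b)
    (τ : ℍ) : wpDfn M a b τ ≠ 0 := by
  have h := wpDfn_eq_wpD M (lift M a) (lift M b) (by simpa using ha) (by simpa using hb) τ
  rw [cast_lift, cast_lift] at h
  rw [h]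
  refine mul_ne_zero (inv_ne_zero twoPiISq_ne_zero) ?_
  exact helper44.wpD_ne_zero M _ _ (by simpa using ha) (by simpa using hb) (by simpa using hab)
    (by simpa using hab') τ

theorem wpDfn_two_one_ne_zero (hM : 4 ≤ M) (τ : ℍ) : wpDfn M 2 1 τ ≠ 0 :=
  wpDfn_ne_zero M (two_ne_zero' hM) (one_ne_zero' hM) (two_ne_one' hM) (two_ne_neg_one' hM) τ

/-! ### `s_a` as a ratio of `℘`-differences; growth -/

theorem wpD1_swap (a b : ℤ) (τ : ℍ) : helper55.wpD1 M b a τ = - helper55.wpD1 M a b τ := by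
  rw [helper55.wpD1_eq, helper55.wpD1_eq]
  ring

theorem sFn_eq_wpD1 (hM : 4 ≤ M) {a : ZMod M} (ha : a ≠ 0) (τ : ℍ) :
    sFn M a τ = helper55.wpD1 M 1 (lift M a) τ / helper55.wpD1 M 1 2 τ := by
  have h1 := wpDfn_eq_wpD1 M (lift M a) 1 (by simpa using ha)
    (by simpa using one_ne_zero' hM) τ
  have h2 := wpDfn_eq_wpD1 M 2 1 (by simpa using two_ne_zero' hM)
    (by simpa using one_ne_zero' hM) τ
  rw [cast_lift, Int.cast_one] at h1
  rw [Int.cast_ofNat, Int.cast_one] at h2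
  rw [sFn, h1, h2, wpD1_swap M 1 (lift M a), wpD1_swap M 1 2,
    mul_div_mul_left _ _ (inv_ne_zero twoPiISq_ne_zero), neg_div_neg_eq]

theorem sFn_growth (hM : 4 ≤ M) {a : ZMod M} (ha : a ≠ 0) (g : SL(2, ℤ)) :
    precomp g (sFn M a) ∈ holoExp := by
  have hfun : sFn M a = fun τ => helper55.wpD1 M 1 (lift M a) τ / helper55.wpD1 M 1 2 τ :=
    funext fun τ => sFn_eq_wpD1 M hM ha τ
  rw [hfun]
  exact helper55.wpRatio_precomp_mem_holoExp M 1 (lift M a) 2
    (not_dvd_of_lt one_pos (by omega)) (not_dvd_of_lt two_pos (by omega))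
    (by
      intro h
      have h' : (M : ℤ) ∣ 1 := by
        have := (dvd_neg (a := (M : ℤ)) (b := (1 : ℤ) - 2)).mpr h
        simpa using this
      exact not_dvd_of_lt one_pos (by omega) h')
    (not_dvd_of_lt (by norm_num) (by omega)) g

/-! ### The `q`-expansion of `s_a` -/

theorem sFn_vadd (a : ZMod M) (τ : ℍ) : sFn M a ((1 : ℝ) +ᵥ τ) = sFn M a τ := by
  unfold sFn
  rw [wpDfn_vadd, wpDfn_vadd]

theorem wLS_two_one_ne_zero (hM : 4 ≤ M) : wLS M 2 1 ≠ 0 := by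
  unfold wLS
  intro h
  have h1 := HahnSeries.ofPowerSeries_injective (Γ := ℤ) (R := ℂ) (h.trans (map_zero _).symm)
  have h2 := congrArg (PowerSeries.coeff 0) h1
  rw [PowerSeries.coeff_map, PowerSeries.coeff_zero_eq_constantCoeff,
    helper33.constantCoeff_wpDiff_two_one hM] at h2
  simp at h2

theorem wpLS_two_one_ne_zero (hM : 4 ≤ M) : wpLS M 2 1 ≠ 0 := by
  rw [wpLS_eq]
  exact mul_ne_zero (by simp) (wLS_two_one_ne_zero M hM)

theorem sSer_mul_wLS (hM : 4 ≤ M) (a : ZMod M) : sSer ℂ M a * wLS M 2 1 = wLS M a 1 := by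
  unfold wLS
  rw [helper33.sSer_eq, ← map_mul, ← map_mul, helper33.sInt_mul hM]

theorem sSer_sub_mul_wLS (hM : 4 ≤ M) (a b : ZMod M) :
    (sSer ℂ M a - sSer ℂ M b) * wLS M 2 1 = wLS M a b := by
  unfold wLS
  rw [helper33.sSer_sub, ← map_mul, ← map_mul, helper33.sInt_sub_mul hM]

theorem sSer_mul_wpLS (hM : 4 ≤ M) (a : ZMod M) : sSer ℂ M a * wpLS M 2 1 = wpLS M a 1 := by
  rw [wpLS_eq, wpLS_eq, mul_left_comm, sSer_mul_wLS M hM]

theorem isQExp_sFn (hM : 4 ≤ M) {a : ZMod M} (ha : a ≠ 0) :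
    IsQExp (coeffEmb ℂ (sSer ℚ M a)) (sFn M a) := by
  rw [helper33.coeffEmb_sSer]
  have hmem : sFn M a ∈ holoExp := by
    have := sFn_growth M hM ha 1
    rwa [precomp_one] at this
  obtain ⟨S, hS⟩ := Fermat.Agent.P3.helper48.exists_isQExp hmem (sFn_vadd M a)
  have h21 := isQExp_wpDfn M (two_ne_zero' hM) (one_ne_zero' hM)
  have ha1 := isQExp_wpDfn M ha (one_ne_zero' hM)
  have h1 : IsQExp (S * wpLS M 2 1) (wpDfn M a 1) :=
    (hS.mul h21).congr_right fun τ => by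
      simp only [Pi.mul_apply]
      unfold sFn
      exact div_mul_cancel₀ _ (wpDfn_two_one_ne_zero M hM τ)
  have h2 : S * wpLS M 2 1 = wpLS M a 1 := h1.left_unique ha1
  have h3 : S = sSer ℂ M a :=
    mul_right_cancel₀ (wpLS_two_one_ne_zero M hM) (h2.trans (sSer_mul_wpLS M hM a).symm)
  rw [← h3]
  exact hS

/-! ### The transformation law on `Γ₀(M)` -/

/-- the upper left entry of an element of `Γ₀(M)` is a unit mod `M` -/
theorem upperLeft_mul_lowerRight (γ : SL(2, ℤ)) (hγ : ((γ 1 0 : ℤ) : ZMod M) = 0) :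
    ((γ 0 0 : ℤ) : ZMod M) * ((γ 1 1 : ℤ) : ZMod M) = 1 := by
  have h := congrArg (fun x : ℤ => (x : ZMod M)) (helper44.det_eq_one γ)
  simp only [Int.cast_sub, Int.cast_mul, Int.cast_one] at h
  rw [hγ, mul_zero, sub_zero] at h
  exact h

theorem upperLeft_ne_zero (hM : 4 ≤ M) (γ : SL(2, ℤ)) (hγ : ((γ 1 0 : ℤ) : ZMod M) = 0) :
    ((γ 0 0 : ℤ) : ZMod M) ≠ 0 := by
  intro h
  have := upperLeft_mul_lowerRight M γ hγ
  rw [h, zero_mul] at this
  exact one_ne_zero' hM this.symm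

theorem mul_upperLeft_ne_zero (γ : SL(2, ℤ)) (hγ : ((γ 1 0 : ℤ) : ZMod M) = 0) {a : ZMod M}
    (ha : a ≠ 0) : a * ((γ 0 0 : ℤ) : ZMod M) ≠ 0 := by
  intro h
  apply ha
  have h1 := congrArg (fun x => x * ((γ 1 1 : ℤ) : ZMod M)) h
  simp only [zero_mul] at h1
  rwa [mul_assoc, upperLeft_mul_lowerRight M γ hγ, mul_one] at h1

theorem mul_upperLeft_injective (γ : SL(2, ℤ)) (hγ : ((γ 1 0 : ℤ) : ZMod M) = 0) {a b : ZMod M}
    (h : a * ((γ 0 0 : ℤ) : ZMod M) = b * ((γ 0 0 : ℤ) : ZMod M)) : a = b := by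
  have h1 : a * ((γ 0 0 : ℤ) : ZMod M) * ((γ 1 1 : ℤ) : ZMod M) =
      b * ((γ 0 0 : ℤ) : ZMod M) * ((γ 1 1 : ℤ) : ZMod M) := by rw [h]
  rwa [mul_assoc, mul_assoc, upperLeft_mul_lowerRight M γ hγ, mul_one, mul_one] at h1

/-- the weight two law of `wpDfn` on `Γ₀(M)` -/
theorem wpDfn_smul (γ : SL(2, ℤ)) (hγ : ((γ 1 0 : ℤ) : ZMod M) = 0) {a b : ZMod M} (ha : a ≠ 0)
    (hb : b ≠ 0) (τ : ℍ) :
    wpDfn M a b (γ • τ) = helper44.jfac γ τ ^ 2 *
      wpDfn M (a * ((γ 0 0 : ℤ) : ZMod M)) (b * ((γ 0 0 : ℤ) : ZMod M)) τ := by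
  have hdvd : (M : ℤ) ∣ γ 1 0 := (ZMod.intCast_zmod_eq_zero_iff_dvd _ _).mp hγ
  have h1 := wpDfn_eq_wpD M (lift M a) (lift M b) (by simpa using ha) (by simpa using hb) (γ • τ)
  rw [cast_lift, cast_lift] at h1
  have h2 := wpDfn_eq_wpD M (lift M a * γ 0 0) (lift M b * γ 0 0)
    (by
      rw [Int.cast_mul, cast_lift]
      exact mul_upperLeft_ne_zero M γ hγ ha)
    (by
      rw [Int.cast_mul, cast_lift]
      exact mul_upperLeft_ne_zero M γ hγ hb) τ
  rw [Int.cast_mul, Int.cast_mul, cast_lift, cast_lift] at h2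
  rw [h1, h2, helper44.wpD_smul M γ hdvd]
  ring

/-- **the analytic diamond law**: `s_a ∘ γ = (P_{ua} - P_u) / (P_{2u} - P_u)`, `u = γ₀₀` -/
theorem sFn_smul (hM : 4 ≤ M) (γ : SL(2, ℤ)) (hγ : ((γ 1 0 : ℤ) : ZMod M) = 0) {a : ZMod M}
    (ha : a ≠ 0) (τ : ℍ) :
    sFn M a (γ • τ) =
      wpDfn M (a * ((γ 0 0 : ℤ) : ZMod M)) ((γ 0 0 : ℤ) : ZMod M) τ /
        wpDfn M (2 * ((γ 0 0 : ℤ) : ZMod M)) ((γ 0 0 : ℤ) : ZMod M) τ := by
  unfold sFn
  rw [wpDfn_smul M γ hγ ha (one_ne_zero' hM), wpDfn_smul M γ hγ (two_ne_zero' hM) (one_ne_zero' hM),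
    one_mul, mul_div_mul_left _ _ (pow_ne_zero 2 (helper44.jfac_ne_zero γ τ))]

theorem sFn_inv (hM : 4 ≤ M) {a : ZMod M} (ha : a ≠ 0) (γ : SL(2, ℤ)) (hγ : γ ∈ Gamma1 M) (τ : ℍ) :
    sFn M a (γ • τ) = sFn M a τ := by
  rw [Gamma1_mem] at hγ
  obtain ⟨h00, -, h10⟩ := hγ
  rw [sFn_smul M hM γ h10 ha, h00, mul_one, mul_one]
  rfl

/-! ### Fullness -/

theorem wpDfn_unit_ne_zero (hM : 4 ≤ M) (γ : SL(2, ℤ)) (hγ : ((γ 1 0 : ℤ) : ZMod M) = 0) (τ : ℍ) :
    wpDfn M (2 * ((γ 0 0 : ℤ) : ZMod M)) ((γ 0 0 : ℤ) : ZMod M) τ ≠ 0 := by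
  refine wpDfn_ne_zero M (mul_upperLeft_ne_zero M γ hγ (two_ne_zero' hM))
    (upperLeft_ne_zero M hM γ hγ) ?_ ?_ τ
  · intro h
    apply two_ne_one' hM
    apply mul_upperLeft_injective M γ hγ
    rw [h, one_mul]
  · intro h
    apply two_ne_neg_one' hM
    apply mul_upperLeft_injective M γ hγ
    rw [h, neg_one_mul]

theorem sFn_full (hM : 6 ≤ M) (g : SL(2, ℤ)) (hg : g ∈ Gamma0 M)
    (h : ∀ a : ZMod M, a ≠ 0 → ∀ τ : ℍ, sFn M a (g • τ) = sFn M a τ) : g ∈ PG1 M := by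
  have hM4 : 4 ≤ M := by omega
  rw [Gamma0_mem] at hg
  set u : ZMod M := ((g 0 0 : ℤ) : ZMod M) with hu
  have huv := upperLeft_mul_lowerRight M g hg
  rw [← hu] at huv
  let d : (ZMod M)ˣ := ⟨u, ((g 1 1 : ℤ) : ZMod M), huv, by rw [mul_comm]; exact huv⟩
  have hu0 : u ≠ 0 := upperLeft_ne_zero M hM4 g hg
  have hW : wLS M 2 1 ≠ 0 := wLS_two_one_ne_zero M hM4
  -- the relations in series form
  have hrel : ∀ a : ZMod M, a ≠ 0 →
      sSer ℂ M ((d : ZMod M) * a) - sSer ℂ M (d : ZMod M) =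
        sSer ℂ M a * (sSer ℂ M ((d : ZMod M) * 2) - sSer ℂ M (d : ZMod M)) := by
    intro a ha
    show sSer ℂ M (u * a) - sSer ℂ M u = sSer ℂ M a * (sSer ℂ M (u * 2) - sSer ℂ M u)
    have hau : a * u ≠ 0 := mul_upperLeft_ne_zero M g hg ha
    have h2u : 2 * u ≠ 0 := mul_upperLeft_ne_zero M g hg (two_ne_zero' hM4)
    -- the identity of functions
    have hfun : ∀ τ : ℍ, wpDfn M (a * u) u τ * wpDfn M 2 1 τ =
        wpDfn M a 1 τ * wpDfn M (2 * u) u τ := by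
      intro τ
      have h1 := h a ha τ
      rw [sFn_smul M hM4 g hg ha, ← hu] at h1
      unfold sFn at h1
      rw [div_eq_div_iff (wpDfn_unit_ne_zero M hM4 g hg τ) (wpDfn_two_one_ne_zero M hM4 τ)] at h1
      exact h1
    -- the identity of `q`-expansions
    have hq1 : IsQExp (wpLS M (a * u) u * wpLS M 2 1) (wpDfn M (a * u) u * wpDfn M 2 1) :=
      (isQExp_wpDfn M hau hu0).mul (isQExp_wpDfn M (two_ne_zero' hM4) (one_ne_zero' hM4))
    have hq2 : IsQExp (wpLS M a 1 * wpLS M (2 * u) u) (wpDfn M a 1 * wpDfn M (2 * u) u) :=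
      (isQExp_wpDfn M ha (one_ne_zero' hM4)).mul (isQExp_wpDfn M h2u hu0)
    have hser : wpLS M (a * u) u * wpLS M 2 1 = wpLS M a 1 * wpLS M (2 * u) u :=
      hq1.left_unique (hq2.congr_right fun τ => (hfun τ).symm)
    have hX : HahnSeries.single (1 : ℤ) (1 : ℂ) ≠ 0 := by simp
    have hser' : wLS M (a * u) u * wLS M 2 1 = wLS M a 1 * wLS M (2 * u) u := by
      rw [wpLS_eq, wpLS_eq, wpLS_eq, wpLS_eq] at hser
      have e1 : HahnSeries.single (1 : ℤ) (1 : ℂ) * wLS M (a * u) u *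
          (HahnSeries.single (1 : ℤ) (1 : ℂ) * wLS M 2 1) =
          (HahnSeries.single (1 : ℤ) (1 : ℂ) * HahnSeries.single (1 : ℤ) (1 : ℂ)) *
            (wLS M (a * u) u * wLS M 2 1) := by ring
      have e2 : HahnSeries.single (1 : ℤ) (1 : ℂ) * wLS M a 1 *
          (HahnSeries.single (1 : ℤ) (1 : ℂ) * wLS M (2 * u) u) =
          (HahnSeries.single (1 : ℤ) (1 : ℂ) * HahnSeries.single (1 : ℤ) (1 : ℂ)) *
            (wLS M a 1 * wLS M (2 * u) u) := by ring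
      rw [e1, e2] at hser
      exact mul_left_cancel₀ (mul_ne_zero hX hX) hser
    rw [← sSer_sub_mul_wLS M hM4 (a * u) u, ← sSer_mul_wLS M hM4 a,
      ← sSer_sub_mul_wLS M hM4 (2 * u) u] at hser'
    have e3 : (sSer ℂ M (a * u) - sSer ℂ M u) * wLS M 2 1 * wLS M 2 1 =
        (sSer ℂ M a * (sSer ℂ M (2 * u) - sSer ℂ M u)) * (wLS M 2 1 * wLS M 2 1) := by
      rw [hser']
      ring
    rw [mul_assoc] at e3
    have e4 := mul_right_cancel₀ (mul_ne_zero hW hW) e3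
    rw [mul_comm u a, mul_comm u 2]
    exact e4
  have hd := helper86.fullness ℂ hM d hrel
  rw [mem_PG1_iff]
  rcases hd with hd | hd
  · left
    have hu1 : u = 1 := by
      have := congrArg (fun x : (ZMod M)ˣ => (x : ZMod M)) hd
      simpa [d] using this
    rw [Gamma1_mem]
    refine ⟨hu1, ?_, hg⟩
    rw [hu1, one_mul] at huv
    exact huv
  · right
    have hu1 : u = -1 := by
      have := congrArg (fun x : (ZMod M)ˣ => (x : ZMod M)) hd
      simpa [d] using this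
    have hv : ((g 1 1 : ℤ) : ZMod M) = -1 := by
      rw [hu1, neg_one_mul, neg_eq_iff_eq_neg] at huv
      exact huv
    have e : ∀ i j, ((-g) i j : ℤ) = -(g i j) := fun i j => by
      simp [Matrix.SpecialLinearGroup.coe_neg]
    rw [Gamma1_mem, e, e, e]
    push_cast
    rw [← hu, hu1, hv, hg]
    simp

/-! ### The inputs -/

/-- **[X1-SYS]** the analytic inputs of the generator system of `X₁(M)`. -/
theorem x1Inputs (hM : 6 ≤ M) : X1Inputs M where
  qexp := fun _ ha => isQExp_sFn M (by omega) ha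
  inv := fun _ ha γ hγ τ => sFn_inv M (by omega) ha γ hγ τ
  full := fun g hg h => sFn_full M hM g hg h
  growth := fun g _ ha => sFn_growth M (by omega) ha g

/-- **[X1-SYS]** -/
theorem x1Sys : X1SysStatement M := fun h7 => x1Sys_of M (x1Inputs M (by omega))

end Fermat.Agent.T4.helper24

end
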