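import Fermat.Agent.T4.helper44_WpIntD

/-!
# T4 (I) / [CUSP-INT] (helper44): the translates of the generators `s_a` of `X₁(M)` have
`S`-integral `t`-expansions (`t = q^(1/M)`) with unit leading coefficient

`sFn_translate` : for `4 ≤ M`, a subring `S ⊆ ℂ` containing `ζ_M` and satisfying `LeadUnit M S`
(the lead-unit statement for ONE difference of division values, `helper44_WpIntA`), every
`g ∈ SL(2, ℤ)` and `a ≠ 0`:

* `τ ↦ s_a (g τ)` is holomorphic on `ℍ`;
* it has an expansion `s` in the sense of `S28.HasExp M`, with all coefficients in `S`;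
* for `a ≠ ± 1` : `s = single k u * ofPowerSeries p` with `u` a unit of `S`, `p ∈ S[[t]]`,
  `p(0) = 1` (for `a = ± 1` the function is `0`).
-/

set_option autoImplicit false

open Complex Filter Topology
open UpperHalfPlane hiding I
open scoped Real MatrixGroups Manifold ModularForm

namespace Fermat.Agent.T4.helper44

open Fermat.Agent.S23.helper35 (ut coe_ut_smul hermite_int)
open Fermat.Agent.S28 (HasExpAt HasExp qN lau)
open Fermat.Agent.S24 (scaleH)
open Fermat.Agent.S24.helper77 (holoExp precomp)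
open Fermat.Agent.T4.helper24 (sFn wpDfn)
open Fermat.Agent.T4.helper32 (wpCoeff)

noncomputable section

variable (M : ℕ) [NeZero M]

/-! ### the degenerate indices -/

omit [NeZero M] in
lemma wpCoeff_neg (a : ZMod M) (e : ℕ) : wpCoeff M (-a) e = wpCoeff M a e := by
  unfold wpCoeff
  refine Finset.sum_congr rfl fun m _ => ?_
  rw [neg_neg, add_comm]

omit [NeZero M] in
lemma wpDfn_self (a : ZMod M) (τ : ℍ) : wpDfn M a a τ = 0 := by
  unfold wpDfn
  simp

omit [NeZero M] in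
lemma wpDfn_neg_left (a b : ZMod M) (τ : ℍ) : wpDfn M (-a) b τ = wpDfn M a b τ := by
  unfold wpDfn
  simp only [wpCoeff_neg]

omit [NeZero M] in
lemma sFn_one (τ : ℍ) : sFn M 1 τ = 0 := by
  unfold sFn
  rw [wpDfn_self, zero_div]

omit [NeZero M] in
lemma sFn_neg_one (τ : ℍ) : sFn M (-1) τ = 0 := by
  unfold sFn
  rw [wpDfn_neg_left, wpDfn_self, zero_div]

/-! ### holomorphy and periodicity of the translates -/

lemma sFn_comp_mem_holoExp (hM : 4 ≤ M) (g : SL(2, ℤ)) (a : ZMod M) (ha : a ≠ 0) :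
    (fun τ => sFn M a (g • τ)) ∈ holoExp := by
  have h := x1_growth M hM g⁻¹ a ha
  have e : precomp g⁻¹ (sFn M a) = fun τ => sFn M a (g • τ) := by
    funext τ
    rw [Fermat.Agent.S24.helper77.precomp_apply, inv_inv]
  rwa [e] at h

lemma sFn_comp_vadd (hM : 4 ≤ M) (g : SL(2, ℤ)) (a : ZMod M) (ha : a ≠ 0) (τ : ℍ) :
    sFn M a (g • ((M : ℝ) +ᵥ τ)) = sFn M a (g • τ) := by
  have hinv : ∀ γ ∈ CongruenceSubgroup.Gamma M, (sFn M a) ∣[(0 : ℤ)] γ = sFn M a := by
    intro γ hγ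
    funext σ
    rw [ModularForm.SL_slash_apply, neg_zero, zpow_zero, mul_one]
    have hγ1 : γ ∈ CongruenceSubgroup.Gamma1 M := by
      rw [CongruenceSubgroup.Gamma_mem] at hγ
      rw [CongruenceSubgroup.Gamma1_mem]
      exact ⟨hγ.1, hγ.2.2.2, hγ.2.2.1⟩
    exact x1_inv M (by omega) a ha γ hγ1 σ
  have h := Fermat.Agent.T4.helper77.slash_vadd_of_Gamma_inv 0 hinv g τ
  rw [ModularForm.SL_slash_apply, ModularForm.SL_slash_apply, neg_zero, zpow_zero, zpow_zero,
    mul_one, mul_one] at h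
  exact h

/-! ### the Hermite form -/

/-- the Hermite form of `diag(M, 1) g`, with the divisibility `D ∣ δ₀₀` -/
theorem exists_hermite' (g : SL(2, ℤ)) :
    ∃ (δ : SL(2, ℤ)) (A D : ℕ) (B : ℤ) (hA : 0 < A) (hD : 0 < D), A * D = M ∧
      (D : ℤ) ∣ δ 0 0 ∧
      ut M 1 0 (NeZero.pos M) one_pos * Matrix.SpecialLinearGroup.mapGL ℝ g =
        Matrix.SpecialLinearGroup.mapGL ℝ δ * ut A D B hA hD := by
  obtain ⟨δ, A, D, B, hA, hD, hAD, -, hmat⟩ := hermite_int M (NeZero.pos M) g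
  refine ⟨δ, A, D, B, hA, hD, hAD, ?_, ?_⟩
  · have h := congrArg (fun X : Matrix (Fin 2) (Fin 2) ℤ => X 0 0) hmat
    simp only [Matrix.mul_apply, Fin.sum_univ_two] at h
    simp at h
    -- `h : M * g 0 0 = δ 0 0 * A`
    have hA' : (A : ℤ) ≠ 0 := by exact_mod_cast hA.ne'
    refine ⟨g 0 0, ?_⟩
    apply mul_right_cancel₀ hA'
    rw [← h, ← hAD]
    push_cast
    ring
  · apply Matrix.GeneralLinearGroup.ext
    intro i j
    have h := congrArg (fun X : Matrix (Fin 2) (Fin 2) ℤ => ((X i j : ℤ) : ℝ)) hmat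
    simp only [Matrix.mul_apply, Fin.sum_univ_two] at h
    simp only [Matrix.GeneralLinearGroup.coe_mul, Fermat.Agent.S23.helper35.val_ut,
      Matrix.SpecialLinearGroup.mapGL_coe_matrix, Matrix.mul_apply, Fin.sum_univ_two,
      Matrix.SpecialLinearGroup.map_apply_coe, RingHom.mapMatrix_apply, Matrix.map_apply,
      algebraMap_int_eq, Int.coe_castRingHom]
    fin_cases i <;> fin_cases j <;> simpa using h

/-! ### the main theorem -/

omit [NeZero M] in
lemma not_dvd_of_ne_zero {x : ℤ} (h : (x : ZMod M) ≠ 0) : ¬ (M : ℤ) ∣ x := fun hd =>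
  h ((ZMod.intCast_zmod_eq_zero_iff_dvd x M).mpr hd)

/-- **[CUSP-INT]** the translates of `s_a` have `S`-integral `t`-expansions with unit leading
coefficient. -/
theorem sFn_translate (hM : 4 ≤ M) {S : Subring ℂ} (hL : LeadUnit M S) (hζ : zetaM M ∈ S)
    (g : SL(2, ℤ)) (a : ZMod M) (ha : a ≠ 0) :
    MDiff (fun τ => sFn M a (g • τ)) ∧
    ∃ s : LaurentSeries ℂ, HasExp M (fun τ => sFn M a (g • τ)) s ∧ (∀ n, s.coeff n ∈ S) ∧
      (a ≠ 1 → a ≠ -1 → ∃ (k : ℤ) (u v : ℂ) (p : PowerSeries ℂ), u ∈ S ∧ v ∈ S ∧ u * v = 1 ∧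
        PowerSeries.constantCoeff p = 1 ∧ (∀ n, p.coeff n ∈ S) ∧
        s = HahnSeries.single k u * HahnSeries.ofPowerSeries ℤ ℂ p) := by
  have hholo := sFn_comp_mem_holoExp M hM g a ha
  refine ⟨hholo.1, ?_⟩
  by_cases h1 : a = 1
  · subst h1
    refine ⟨0, ?_, fun n => by simp, fun h => absurd rfl h⟩
    have e : (fun τ => sFn M 1 (g • τ)) = 0 := funext fun τ => sFn_one M _
    rw [e]
    exact Fermat.Agent.S28.HasExp.zero M
  by_cases h2 : a = -1
  · subst h2
    refine ⟨0, ?_, fun n => by simp, fun _ h => absurd rfl h⟩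
    have e : (fun τ => sFn M (-1) (g • τ)) = 0 := funext fun τ => sFn_neg_one M _
    rw [e]
    exact Fermat.Agent.S28.HasExp.zero M
  -- the generic case
  obtain ⟨δ, A, D, B, hA, hD, hAD, hδ, h⟩ := exists_hermite' M g
  have : Fact (1 < M) := ⟨by omega⟩
  have hc1 : (((1 : ℤ) : ZMod M)) = 1 := Int.cast_one
  have hc2 : (((2 : ℤ) : ZMod M)) = 2 := by push_cast; rfl
  have hca : (((a.val : ℤ)) : ZMod M) = a := intCast_val M a
  have h10 : (1 : ZMod M) ≠ 0 := one_ne_zero
  have hne : ∀ k : ℕ, 0 < k → k < M → ((k : ℕ) : ZMod M) ≠ 0 := by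
    intro k hk hkM h0
    rw [ZMod.natCast_eq_zero_iff] at h0
    exact absurd (Nat.le_of_dvd hk h0) (not_le.mpr hkM)
  have h20 : (2 : ZMod M) ≠ 0 := by
    have := hne 2 (by omega) (by omega)
    simpa using this
  have h21 : (2 : ZMod M) ≠ 1 := by
    intro h'
    have : ((1 : ℕ) : ZMod M) = 0 := by
      have e : ((1 : ℕ) : ZMod M) = 2 - 1 := by push_cast; ring
      rw [e, h', sub_self]
    exact hne 1 (by omega) (by omega) this
  have h2m1 : (2 : ZMod M) ≠ -1 := by
    intro h'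
    have : ((3 : ℕ) : ZMod M) = 0 := by
      have e : ((3 : ℕ) : ZMod M) = 2 + 1 := by push_cast; ring
      rw [e, h', neg_add_cancel]
    exact hne 3 (by omega) (by omega) this
  -- numerator and denominator
  have hnum := unitExp_wpD_translate M hL hζ (a := (a.val : ℤ)) (b := 1)
    (not_dvd_of_ne_zero M (by rw [hca]; exact ha))
    (not_dvd_of_ne_zero M (by rw [hc1]; exact h10))
    (not_dvd_of_ne_zero M (by
      rw [Int.cast_sub, hca, hc1]; exact sub_ne_zero.mpr h1))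
    (not_dvd_of_ne_zero M (by
      rw [Int.cast_add, hca, hc1]
      intro h'
      exact h2 (eq_neg_of_add_eq_zero_left h')))
    hAD h hδ
  have hden := unitExp_wpD_translate M hL hζ (a := 2) (b := 1)
    (not_dvd_of_ne_zero M (by rw [hc2]; exact h20))
    (not_dvd_of_ne_zero M (by rw [hc1]; exact h10))
    (not_dvd_of_ne_zero M (by
      rw [Int.cast_sub, hc2, hc1]; exact sub_ne_zero.mpr h21))
    (not_dvd_of_ne_zero M (by
      rw [Int.cast_add, hc2, hc1]
      intro h'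
      exact h2m1 (eq_neg_of_add_eq_zero_left h')))
    hAD h hδ
  have hF := exists_hasExp_of_holoExp hholo (sFn_comp_vadd M hM g a ha)
  obtain ⟨s, hs, hsS, hlead⟩ := quot_of_unitExp hnum hden hF (by
    intro τ
    have hw := two_pi_I_sq_ne_zero
    have hj : ((δ 1 0 : ℂ) * (ut A D B hA hD • τ : ℍ) + δ 1 1) ^ 2 ≠ 0 :=
      pow_ne_zero 2 (helper55.SL_denom_ne_zero δ _)
    have e1 := wpDfn_eq M (a.val : ℤ) 1 (by rw [hca]; exact ha) (by rw [hc1]; exact h10) (g • τ)
    have e2 := wpDfn_eq M 2 1 (by rw [hc2]; exact h20) (by rw [hc1]; exact h10) (g • τ)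
    rw [hca, hc1] at e1
    rw [hc2, hc1] at e2
    have hnz : wpD M 2 1 (g • τ) ≠ 0 := wpD_ne_zero M 2 1 (by rw [hc2]; exact h20)
      (by rw [hc1]; exact h10) (by rw [hc2, hc1]; exact h21) (by rw [hc2, hc1]; exact h2m1) _
    show sFn M a (g • τ) * _ = _
    unfold sFn
    rw [e1, e2]
    field_simp)
  exact ⟨s, hs, hsS, fun _ _ => hlead⟩

end

end Fermat.Agent.T4.helper44
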