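import Mathlib
import Fermat.Agent.T4.helper44_WpDiv

/-!
# T4 (I) [FRICKE-LEAD], part 1 (helper68): the row sum at real points

`rowS x = ∑_{n ∈ ℤ} (x + n)⁻²` (`helper44.rowS`).  On the upper half plane
`rowS z = (2 π i)² w / (1 - w)²`, `w = e^{2 π i z}` (from `helper44.hasSum_rowS_of_im_pos`);
`rowS` is continuous off the integers, hence the same formula holds at the real non-integral
points (`rowS_ofReal`).  In particular `rowS (s / M) = (2 π i)² ζ^s / (1 - ζ^s)²`
(`rowS_div`).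
-/

set_option autoImplicit false

open Complex Filter Topology
open scoped Real

namespace Fermat.Agent.T4.helper68

open Fermat.Agent.T4.helper44 (rowS summable_rowS hasSum_rowS hasSum_rowS_of_im_pos zetaM)

noncomputable section

/-- `T(w) = w / (1 - w)²` -/
def tFun (w : ℂ) : ℂ := w / (1 - w) ^ 2

/-- the closed form on the upper half plane -/
theorem rowS_of_im_pos {z : ℂ} (hz : 0 < z.im) :
    rowS z = (2 * π * I) ^ 2 * tFun (cexp (2 * π * I * z)) := by
  have h1 := hasSum_rowS_of_im_pos hz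
  have hw : ‖cexp (2 * π * I * z)‖ < 1 := by
    rw [Complex.norm_exp]
    have : (2 * π * I * z).re = -(2 * π * z.im) := by
      simp [Complex.mul_re]
    rw [this, Real.exp_lt_one_iff]
    have := Real.pi_pos
    nlinarith
  have h2 := (hasSum_coe_mul_geometric_of_norm_lt_one hw).mul_left ((2 * π * I) ^ 2)
  have h3 : HasSum (fun d : ℕ+ => (2 * π * I) ^ 2 * ((d : ℂ) * cexp (2 * π * I * z) ^ (d : ℕ)))
      ((2 * π * I) ^ 2 * (cexp (2 * π * I * z) / (1 - cexp (2 * π * I * z)) ^ 2)) := by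
    have h4 := (Function.Injective.hasSum_iff PNat.coe_injective (f := fun n : ℕ =>
      (2 * π * I) ^ 2 * ((n : ℂ) * cexp (2 * π * I * z) ^ n)) ?_).mpr h2
    · exact h4
    · intro x hx
      rcases Nat.eq_zero_or_pos x with rfl | hpos
      · simp
      · exact absurd ⟨⟨x, hpos⟩, rfl⟩ hx
  rw [tFun]
  exact h1.unique h3

/-- the distance of the points of a small ball around a non-integral real point to the
integers -/
theorem norm_add_int_ge {x : ℝ} {d : ℝ} (hd : d = |x - round x|) (z : ℂ)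
    (hz : ‖z - x‖ ≤ d / 2) (n : ℤ) : ‖(x : ℂ) + n‖ / 2 ≤ ‖z + n‖ := by
  have h1 : d ≤ ‖(x : ℂ) + n‖ := by
    have h2 := round_le x (-n)
    rw [hd]
    have h3 : ‖(x : ℂ) + n‖ = |x - ((-n : ℤ) : ℝ)| := by
      have : (x : ℂ) + n = ((x - ((-n : ℤ) : ℝ) : ℝ) : ℂ) := by push_cast; ring
      rw [this, Complex.norm_real, Real.norm_eq_abs]
    rw [h3]
    exact h2
  have h4 : ‖(x : ℂ) + n‖ ≤ ‖z + n‖ + ‖z - x‖ := by
    have : (x : ℂ) + n = (z + n) - (z - x) := by ring
    rw [this]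
    exact norm_sub_le _ _
  linarith

/-- `rowS` is continuous on a small closed ball around a non-integral real point -/
theorem continuousOn_rowS {x : ℝ} (hx : ∀ n : ℤ, x ≠ n) :
    ContinuousOn rowS {z : ℂ | ‖z - x‖ ≤ |x - round x| / 2} := by
  have hd : 0 < |x - round x| := abs_pos.mpr (sub_ne_zero.mpr (hx _))
  have hne : ∀ (z : ℂ), ‖z - x‖ ≤ |x - round x| / 2 → ∀ n : ℤ, z + n ≠ 0 := by
    intro z hz n h0
    have h1 := norm_add_int_ge rfl z hz n
    rw [h0, norm_zero] at h1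
    have h2 : |x - round x| ≤ ‖(x : ℂ) + n‖ := by
      have h2 := round_le x (-n)
      have h3 : ‖(x : ℂ) + n‖ = |x - ((-n : ℤ) : ℝ)| := by
        have : (x : ℂ) + n = ((x - ((-n : ℤ) : ℝ) : ℝ) : ℂ) := by push_cast; ring
        rw [this, Complex.norm_real, Real.norm_eq_abs]
      rw [h3]
      exact h2
    linarith
  have hsum : Summable fun n : ℤ => 4 * ‖1 / ((x : ℂ) + n) ^ 2‖ :=
    ((summable_rowS (x : ℂ)).norm).mul_left 4
  refine continuousOn_tsum (u := fun n : ℤ => 4 * ‖1 / ((x : ℂ) + n) ^ 2‖) ?_ hsum ?_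
  · intro n
    refine ContinuousOn.div continuousOn_const
      ((continuousOn_id.add continuousOn_const).pow 2) ?_
    intro z hz
    exact pow_ne_zero 2 (hne z hz n)
  · intro n z hz
    have h1 := norm_add_int_ge rfl z hz n
    have hxn : 0 < ‖(x : ℂ) + n‖ := by
      have h2 : |x - round x| ≤ ‖(x : ℂ) + n‖ := by
        have h2 := round_le x (-n)
        have h3 : ‖(x : ℂ) + n‖ = |x - ((-n : ℤ) : ℝ)| := by
          have : (x : ℂ) + n = ((x - ((-n : ℤ) : ℝ) : ℝ) : ℂ) := by push_cast; ring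
          rw [this, Complex.norm_real, Real.norm_eq_abs]
        rw [h3]
        exact h2
      linarith
    have hzn : 0 < ‖z + n‖ := by linarith
    rw [norm_div, norm_div, norm_one, norm_pow, norm_pow, one_div, one_div]
    rw [show 4 * (‖(x : ℂ) + n‖ ^ 2)⁻¹ = ((‖(x : ℂ) + n‖ / 2) ^ 2)⁻¹ by field_simp; ring]
    apply inv_anti₀ (by positivity)
    exact pow_le_pow_left₀ (by positivity) h1 2

/-- `e^{2 π i x} ≠ 1` at the non-integral real points -/
theorem cexp_ne_one_of_real {x : ℝ} (hx : ∀ n : ℤ, x ≠ n) : cexp (2 * π * I * x) ≠ 1 := by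
  intro h
  rw [Complex.exp_eq_one_iff] at h
  obtain ⟨n, hn⟩ := h
  have h2 : (2 * π * I : ℂ) ≠ 0 := by
    simp [Real.pi_ne_zero, Complex.I_ne_zero]
  have h3 : (x : ℂ) = n := by
    have : (2 * π * I : ℂ) * x = (2 * π * I) * n := by rw [hn]; ring
    exact mul_left_cancel₀ h2 this
  exact hx n (by exact_mod_cast h3)

/-- **The row sum at the non-integral real points.** -/
theorem rowS_ofReal {x : ℝ} (hx : ∀ n : ℤ, x ≠ n) :
    rowS (x : ℂ) = (2 * π * I) ^ 2 * tFun (cexp (2 * π * I * x)) := by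
  have hd : 0 < |x - round x| := abs_pos.mpr (sub_ne_zero.mpr (hx _))
  set s : Set ℂ := {z : ℂ | ‖z - x‖ ≤ |x - round x| / 2} with hs
  set g : ℂ → ℂ := fun z => (2 * π * I) ^ 2 * tFun (cexp (2 * π * I * z)) with hg
  have hxs : (x : ℂ) ∈ s := by
    rw [hs, Set.mem_ofPred_eq, sub_self, norm_zero]
    positivity
  have hf : ContinuousWithinAt rowS (s ∩ {z : ℂ | 0 < z.im}) (x : ℂ) :=
    ((continuousOn_rowS hx) (x : ℂ) hxs).mono Set.inter_subset_left
  have hgc : ContinuousAt g (x : ℂ) := by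
    have h1 : (1 - cexp (2 * π * I * x)) ^ 2 ≠ 0 :=
      pow_ne_zero 2 (sub_ne_zero.mpr (cexp_ne_one_of_real hx).symm)
    have h2 : ContinuousAt (fun z : ℂ => cexp (2 * π * I * z)) (x : ℂ) :=
      (Complex.continuous_exp.comp (continuous_const.mul continuous_id)).continuousAt
    rw [hg]
    unfold tFun
    exact continuousAt_const.mul (h2.div ((continuousAt_const.sub h2).pow 2) h1)
  have hne : (𝓝[s ∩ {z : ℂ | 0 < z.im}] (x : ℂ)).NeBot := by
    rw [← mem_closure_iff_nhdsWithin_neBot, Metric.mem_closure_iff]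
    intro ε hε
    set δ : ℝ := min (ε / 2) (|x - round x| / 2) with hδ
    have hδ0 : 0 < δ := lt_min (by positivity) (by positivity)
    refine ⟨(x : ℂ) + δ * I, ⟨?_, ?_⟩, ?_⟩
    · rw [hs, Set.mem_ofPred_eq, add_sub_cancel_left, norm_mul, Complex.norm_I, mul_one,
        Complex.norm_real, Real.norm_eq_abs, abs_of_pos hδ0]
      exact min_le_right _ _
    · rw [Set.mem_ofPred_eq]
      simp [hδ0]
    · rw [dist_comm, dist_eq_norm, add_sub_cancel_left, norm_mul, Complex.norm_I, mul_one,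
        Complex.norm_real, Real.norm_eq_abs, abs_of_pos hδ0]
      exact lt_of_le_of_lt (min_le_left _ _) (by linarith)
  have heq : ∀ᶠ z in 𝓝[s ∩ {z : ℂ | 0 < z.im}] (x : ℂ), rowS z = g z :=
    eventually_nhdsWithin_of_forall fun z hz => rowS_of_im_pos hz.2
  have h1 : Tendsto rowS (𝓝[s ∩ {z : ℂ | 0 < z.im}] (x : ℂ)) (𝓝 (rowS (x : ℂ))) := hf
  have h2 : Tendsto rowS (𝓝[s ∩ {z : ℂ | 0 < z.im}] (x : ℂ)) (𝓝 (g (x : ℂ))) :=
    (hgc.tendsto.mono_left nhdsWithin_le_nhds).congr' (heq.mono fun z hz => hz.symm)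
  exact tendsto_nhds_unique h1 h2

/-- `ζ_M ^ s = e^{2 π i s / M}` -/
theorem zetaM_zpow_eq (M : ℕ) (s : ℤ) :
    zetaM M ^ s = cexp (2 * π * I * (((s : ℝ) / (M : ℝ) : ℝ) : ℂ)) := by
  rw [zetaM, ← Complex.exp_int_mul]
  congr 1
  push_cast
  ring

/-- **The constant term of a division value**: `rowS (s / M) = (2 π i)² ζ^s / (1 - ζ^s)²` for
`M ∤ s`. -/
theorem rowS_div (M : ℕ) [NeZero M] (s : ℤ) (hs : ¬ (M : ℤ) ∣ s) :
    rowS ((s : ℂ) / M) = (2 * π * I) ^ 2 * tFun (zetaM M ^ s) := by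
  have hM : (M : ℝ) ≠ 0 := by exact_mod_cast NeZero.ne M
  have hx : ∀ n : ℤ, (s : ℝ) / (M : ℝ) ≠ n := by
    intro n h
    apply hs
    rw [div_eq_iff hM] at h
    exact ⟨n, by rw [mul_comm]; exact_mod_cast h⟩
  have h := rowS_ofReal hx
  rw [zetaM_zpow_eq]
  rw [← h]
  congr 1
  push_cast
  rfl

end

end Fermat.Agent.T4.helper68
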