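import Mathlib
import Fermat.Agent.T4.helper68_FrickeRow

/-!
# T4 (I) [FRICKE-LEAD], part 2 (helper68): unit leading coefficients of `℘(v) - ℘(w)`

For `M ≥ 1`, the `q_M`-expansion of a difference of division values of `℘` is
`∑ (cDiv M r s e - cDiv M r' s' e) q_M ^ e` (`helper44.hasSum_divPt`).  Here, for every subring
`S` of `ℂ` containing `ζ_M` and `1 / M`, and all `(r, s)`, `(r', s')` which are nonzero modulo
`M` with `(r, s) ≢ ± (r', s')`:

* all coefficients are in `(2 π i)² S`;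
* the first nonzero coefficient is at `n = min (lrep M r) (lrep M r')` (`lrep M r` the least
  natural number congruent to `± r`), and it is `(2 π i)²` times a unit of `S`

(`fricke_lead`, `fricke_lead_exists`).  Mathlib + `helper44_WpDiv` only.
-/

set_option autoImplicit false
set_option linter.unusedSectionVars false

open Complex
open scoped Real

namespace Fermat.Agent.T4.helper68

open Fermat.Agent.T4.helper44 (rowS zetaM wt cZero cDiv lamCoeff)

noncomputable section

/-! ### units of a subring of `ℂ` -/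

/-- `u` is a unit of the subring `S` -/
def UnitIn (S : Subring ℂ) (u : ℂ) : Prop := u ∈ S ∧ ∃ v ∈ S, u * v = 1

namespace UnitIn

variable {S : Subring ℂ} {u v : ℂ}

theorem mem (h : UnitIn S u) : u ∈ S := h.1

theorem one : UnitIn S 1 := ⟨S.one_mem, 1, S.one_mem, one_mul 1⟩

theorem mul (hu : UnitIn S u) (hv : UnitIn S v) : UnitIn S (u * v) := by
  obtain ⟨hu1, u', hu', hu2⟩ := hu
  obtain ⟨hv1, v', hv', hv2⟩ := hv
  refine ⟨S.mul_mem hu1 hv1, u' * v', S.mul_mem hu' hv', ?_⟩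
  calc u * v * (u' * v') = (u * u') * (v * v') := by ring
    _ = 1 := by rw [hu2, hv2, one_mul]

theorem neg (hu : UnitIn S u) : UnitIn S (-u) := by
  obtain ⟨hu1, u', hu', hu2⟩ := hu
  exact ⟨S.neg_mem hu1, -u', S.neg_mem hu', by rw [neg_mul_neg, hu2]⟩

theorem inv (hu : UnitIn S u) : UnitIn S u⁻¹ := by
  obtain ⟨hu1, u', hu', hu2⟩ := hu
  have h : u⁻¹ = u' := inv_eq_of_mul_eq_one_right hu2
  rw [h]
  exact ⟨hu', u, hu1, by rw [mul_comm]; exact hu2⟩

theorem pow (hu : UnitIn S u) (n : ℕ) : UnitIn S (u ^ n) := by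
  induction n with
  | zero => simpa using (one : UnitIn S 1)
  | succ n ih => rw [pow_succ]; exact ih.mul hu

theorem div (hu : UnitIn S u) (hv : UnitIn S v) : UnitIn S (u / v) := by
  rw [div_eq_mul_inv]; exact hu.mul hv.inv

theorem ne_zero (hu : UnitIn S u) : u ≠ 0 := by
  obtain ⟨-, u', -, hu2⟩ := hu
  rintro rfl
  simp at hu2

end UnitIn

/-! ### the roots of unity -/

variable (M : ℕ) [NeZero M]

theorem zetaM_prim : IsPrimitiveRoot (zetaM M) M :=
  Complex.isPrimitiveRoot_exp M (NeZero.ne M)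

theorem zetaM_ne_zero : zetaM M ≠ 0 := (zetaM_prim M).ne_zero (NeZero.ne M)

variable {M} in
theorem unitIn_zeta {S : Subring ℂ} (hζ : zetaM M ∈ S) : UnitIn S (zetaM M) := by
  refine ⟨hζ, zetaM M ^ (M - 1), S.pow_mem hζ _, ?_⟩
  rw [← pow_succ', Nat.sub_add_cancel NeZero.one_le, (zetaM_prim M).pow_eq_one]

variable {M} in
theorem unitIn_zeta_zpow {S : Subring ℂ} (hζ : zetaM M ∈ S) (k : ℤ) :
    UnitIn S (zetaM M ^ k) := by
  obtain ⟨n, rfl | rfl⟩ := k.eq_nat_or_neg
  · rw [zpow_natCast]; exact (unitIn_zeta hζ).pow n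
  · rw [zpow_neg, zpow_natCast]; exact ((unitIn_zeta hζ).pow n).inv

theorem zeta_zpow_eq_pow (k : ℤ) : zetaM M ^ k = zetaM M ^ (k % (M : ℤ)).toNat := by
  have hM : (M : ℤ) ≠ 0 := by exact_mod_cast NeZero.ne M
  have h0 : zetaM M ≠ 0 := zetaM_ne_zero M
  have h1 : 0 ≤ k % (M : ℤ) := Int.emod_nonneg k hM
  conv_lhs => rw [← Int.emod_add_mul_ediv k M]
  rw [zpow_add₀ h0, zpow_mul, (zetaM_prim M).zpow_eq_one, one_zpow, mul_one]
  conv_lhs => rw [← Int.toNat_of_nonneg h1]
  rw [zpow_natCast]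

variable {M} in
theorem unitIn_one_sub_pow {S : Subring ℂ} (hζ : zetaM M ∈ S) (hM : (M : ℂ)⁻¹ ∈ S) (j : ℕ)
    (hj0 : 0 < j) (hjM : j < M) : UnitIn S (1 - zetaM M ^ j) := by
  obtain ⟨n, hn⟩ : ∃ n, M = n + 1 := ⟨M - 1, (Nat.sub_add_cancel NeZero.one_le).symm⟩
  have hprim : IsPrimitiveRoot (zetaM M) (n + 1) := hn ▸ zetaM_prim M
  have hprod := hprim.prod_one_sub_pow_eq_order
  have hmem : j - 1 ∈ Finset.range n := by
    rw [Finset.mem_range]; omega
  have h1 := Finset.mul_prod_erase (Finset.range n) (fun k => 1 - zetaM M ^ (k + 1)) hmem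
  rw [Nat.sub_add_cancel hj0, hprod] at h1
  have hMne : (M : ℂ) ≠ 0 := by exact_mod_cast NeZero.ne M
  have hcast : ((n : ℂ) + 1) = (M : ℂ) := by rw [hn]; push_cast; rfl
  refine ⟨S.sub_mem S.one_mem (S.pow_mem hζ _),
    (∏ x ∈ (Finset.range n).erase (j - 1), (1 - zetaM M ^ (x + 1))) * (M : ℂ)⁻¹,
    S.mul_mem (S.prod_mem fun x _ => S.sub_mem S.one_mem (S.pow_mem hζ _)) hM, ?_⟩
  rw [← mul_assoc, h1, hcast, mul_inv_cancel₀ hMne]

variable {M} in
/-- `1 - ζ ^ k` is a unit of `S` for `M ∤ k` -/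
theorem unitIn_one_sub_zpow {S : Subring ℂ} (hζ : zetaM M ∈ S) (hM : (M : ℂ)⁻¹ ∈ S) (k : ℤ)
    (hk : (k : ZMod M) ≠ 0) : UnitIn S (1 - zetaM M ^ k) := by
  have hM0 : (M : ℤ) ≠ 0 := by exact_mod_cast NeZero.ne M
  have hMpos : (0 : ℤ) < M := by exact_mod_cast NeZero.pos M
  have h1 : 0 ≤ k % (M : ℤ) := Int.emod_nonneg k hM0
  have h2 : k % (M : ℤ) < M := Int.emod_lt_of_pos k hMpos
  have h3 : k % (M : ℤ) ≠ 0 := by
    intro h
    apply hk
    rw [ZMod.intCast_zmod_eq_zero_iff_dvd]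
    exact Int.dvd_of_emod_eq_zero h
  rw [zeta_zpow_eq_pow]
  apply unitIn_one_sub_pow hζ hM
  · omega
  · omega

variable {M} in
/-- `ζ ^ a - ζ ^ b` is a unit of `S` for `a ≢ b` -/
theorem unitIn_zpow_sub_zpow {S : Subring ℂ} (hζ : zetaM M ∈ S) (hM : (M : ℂ)⁻¹ ∈ S) (a b : ℤ)
    (hab : (a : ZMod M) ≠ (b : ZMod M)) : UnitIn S (zetaM M ^ a - zetaM M ^ b) := by
  have h0 : zetaM M ≠ 0 := zetaM_ne_zero M
  have h1 : zetaM M ^ a - zetaM M ^ b = -(zetaM M ^ b * (1 - zetaM M ^ (a - b))) := by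
    rw [zpow_sub₀ h0]
    have : zetaM M ^ b ≠ 0 := zpow_ne_zero _ h0
    field_simp
    ring
  rw [h1]
  refine ((unitIn_zeta_zpow hζ b).mul (unitIn_one_sub_zpow hζ hM (a - b) ?_)).neg
  intro h
  apply hab
  push_cast at h
  exact sub_eq_zero.mp h

variable {M} in
theorem unitIn_tFun {S : Subring ℂ} (hζ : zetaM M ∈ S) (hM : (M : ℂ)⁻¹ ∈ S) (s : ℤ)
    (hs : (s : ZMod M) ≠ 0) : UnitIn S (tFun (zetaM M ^ s)) := by
  unfold tFun
  exact (unitIn_zeta_zpow hζ s).div ((unitIn_one_sub_zpow hζ hM s hs).pow 2)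

theorem tFun_inv (w : ℂ) (hw : w ≠ 0) : tFun w⁻¹ = tFun w := by
  unfold tFun
  by_cases h1 : w = 1
  · simp [h1]
  · have h2 : 1 - w ≠ 0 := sub_ne_zero.mpr (Ne.symm h1)
    have h3 : w - 1 ≠ 0 := sub_ne_zero.mpr h1
    have h4 : 1 - w⁻¹ = (w - 1) / w := by field_simp
    rw [h4]
    field_simp
    ring

/-! ### the least representative of `± r` -/

/-- the least natural number congruent to `r` or to `- r` modulo `M` -/
def lrep (r : ℤ) : ℕ := min ((r : ZMod M).val) (M - (r : ZMod M).val)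

theorem two_mul_lrep_le (r : ℤ) : 2 * lrep M r ≤ M := by
  have h2 : (r : ZMod M).val < M := ZMod.val_lt _
  unfold lrep
  omega

theorem natCast_lrep (r : ℤ) :
    ((lrep M r : ℕ) : ZMod M) = (r : ZMod M) ∨ ((lrep M r : ℕ) : ZMod M) = -(r : ZMod M) := by
  have h2 : (r : ZMod M).val < M := ZMod.val_lt _
  unfold lrep
  rcases le_total (r : ZMod M).val (M - (r : ZMod M).val) with h | h
  · left
    rw [min_eq_left h, ZMod.natCast_zmod_val]
  · right
    rw [min_eq_right h, Nat.cast_sub h2.le, ZMod.natCast_self, ZMod.natCast_zmod_val, zero_sub]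

theorem lrep_le_of_natCast {r : ℤ} {k : ℕ}
    (h : (k : ZMod M) = (r : ZMod M) ∨ (k : ZMod M) = -(r : ZMod M)) : lrep M r ≤ k := by
  by_cases ha : (r : ZMod M) = 0
  · simp [lrep, ha]
  rcases h with h | h
  · have h1 : (r : ZMod M).val = k % M := by rw [← h, ZMod.val_natCast]
    have h2 : k % M ≤ k := Nat.mod_le k M
    unfold lrep
    omega
  · have h1 : (-(r : ZMod M)).val = k % M := by rw [← h, ZMod.val_natCast]
    rw [ZMod.neg_val, if_neg ha] at h1
    have h2 : k % M ≤ k := Nat.mod_le k M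
    unfold lrep
    omega

theorem lrep_eq_zero_iff (r : ℤ) : lrep M r = 0 ↔ (r : ZMod M) = 0 := by
  constructor
  · intro h
    rcases natCast_lrep M r with h1 | h1
    · rw [← h1, h]; simp
    · rw [h] at h1
      have : -(r : ZMod M) = 0 := by rw [← h1]; simp
      exact neg_eq_zero.mp this
  · intro h
    have := lrep_le_of_natCast M (r := r) (k := 0) (Or.inl (by rw [h]; simp))
    omega

theorem lrep_neg (r : ℤ) : lrep M (-r) = lrep M r := by
  apply le_antisymm
  · apply lrep_le_of_natCast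
    rcases natCast_lrep M r with h | h
    · right; rw [h]; push_cast; rw [neg_neg]
    · left; rw [h]; push_cast; rfl
  · apply lrep_le_of_natCast
    rcases natCast_lrep M (-r) with h | h
    · right; rw [h]; push_cast; rfl
    · left; rw [h]; push_cast; rw [neg_neg]

/-- below `lrep`, nothing is congruent to `± r` -/
theorem natCast_ne_of_lt_lrep {r : ℤ} {k : ℕ} (hk : k < lrep M r) :
    (k : ZMod M) ≠ (r : ZMod M) ∧ (k : ZMod M) ≠ -(r : ZMod M) := by
  constructor
  · intro h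
    have := lrep_le_of_natCast M (Or.inl h)
    omega
  · intro h
    have := lrep_le_of_natCast M (Or.inr h)
    omega

/-- `lrep` is congruent to both `r` and `- r` only if it is `0` or `M / 2` -/
theorem two_mul_lrep_eq {r : ℤ} (h1 : ((lrep M r : ℕ) : ZMod M) = (r : ZMod M))
    (h2 : ((lrep M r : ℕ) : ZMod M) = -(r : ZMod M)) (hpos : 1 ≤ lrep M r) :
    2 * lrep M r = M := by
  have h3 : ((2 * lrep M r : ℕ) : ZMod M) = 0 := by
    push_cast
    rw [two_mul]
    nth_rewrite 1 [h1]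
    rw [h2]
    ring
  have h4 : M ∣ 2 * lrep M r := (ZMod.natCast_eq_zero_iff _ _).1 h3
  have h5 := Nat.le_of_dvd (by omega) h4
  have h6 := two_mul_lrep_le M r
  omega

/-! ### the weights and the Lambert coefficients -/

theorem wt_natCast (r : ℤ) (k : ℕ) :
    wt M r (k : ℤ) = if (k : ZMod M) = (r : ZMod M) then 1 else 0 := by
  unfold wt
  simp only [Int.cast_natCast]

theorem wt_mem (S : Subring ℂ) (r x : ℤ) : wt M r x ∈ S := by
  unfold wt
  split_ifs
  · exact S.one_mem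
  · exact S.zero_mem

theorem lamCoeff_mem (S : Subring ℂ) {u : ℂ} (hu : u ∈ S) (w : ℕ → ℂ) (hw : ∀ k, w k ∈ S)
    (e : ℕ) : lamCoeff u w e ∈ S := by
  unfold lamCoeff
  exact S.sum_mem fun x _ => S.mul_mem (S.mul_mem (hw _) (natCast_mem S _)) (S.pow_mem hu _)

theorem lamCoeff_eq_zero (u : ℂ) (w : ℕ → ℂ) (e : ℕ) (h : ∀ k, 1 ≤ k → k ≤ e → w k = 0) :
    lamCoeff u w e = 0 := by
  unfold lamCoeff
  refine Finset.sum_eq_zero fun x hx => ?_
  rw [Nat.mem_divisorsAntidiagonal] at hx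
  obtain ⟨hx1, hx2⟩ := hx
  have h1 : 1 ≤ x.1 := by
    rcases Nat.eq_zero_or_pos x.1 with h | h
    · rw [h, zero_mul] at hx1; exact absurd hx1.symm hx2
    · exact h
  have h2 : x.1 ≤ e := Nat.le_of_dvd (Nat.pos_of_ne_zero hx2) ⟨x.2, hx1.symm⟩
  rw [h x.1 h1 h2, zero_mul, zero_mul]

theorem lamCoeff_eq_single (u : ℂ) (w : ℕ → ℂ) (e : ℕ) (he : 1 ≤ e)
    (h : ∀ k, 1 ≤ k → k < e → w k = 0) : lamCoeff u w e = w e * u := by
  unfold lamCoeff
  rw [Finset.sum_eq_single (e, 1)]
  · simp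
  · intro x hx hne
    rw [Nat.mem_divisorsAntidiagonal] at hx
    obtain ⟨hx1, hx2⟩ := hx
    have h1 : 1 ≤ x.1 := by
      rcases Nat.eq_zero_or_pos x.1 with h | h
      · rw [h, zero_mul] at hx1; exact absurd hx1.symm hx2
      · exact h
    have h2 : x.1 ≤ e := Nat.le_of_dvd (Nat.pos_of_ne_zero hx2) ⟨x.2, hx1.symm⟩
    have h3 : x.1 < e := by
      rcases Nat.lt_or_ge x.1 e with h | h
      · exact h
      · exfalso
        have h4 : x.1 = e := le_antisymm h2 h
        have h5 : x.2 = 1 := by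
          rw [h4] at hx1
          exact Nat.eq_of_mul_eq_mul_left (by omega : 0 < e) (by rw [hx1, mul_one])
        exact hne (Prod.ext h4 h5)
    rw [h x.1 h1 h3, zero_mul, zero_mul]
  · intro hne
    exfalso
    apply hne
    rw [Nat.mem_divisorsAntidiagonal]
    exact ⟨mul_one e, by omega⟩

/-! ### the normalised coefficients -/

/-- the coefficients of the `q_M`-expansion of the rows of a division point, divided by
`(2 π i)²` -/
def dCoef (r s : ℤ) (e : ℕ) : ℂ :=
  lamCoeff (zetaM M ^ s) (fun k => wt M r k) e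
    + lamCoeff (zetaM M ^ (-s)) (fun k => wt M (-r) k) e
    + if e = 0 then (if (r : ZMod M) = 0 then tFun (zetaM M ^ s) else 0) else 0

theorem cDiv_eq_dCoef (r s : ℤ) (h : (r : ZMod M) = 0 → (s : ZMod M) ≠ 0) (e : ℕ) :
    cDiv M r s e = (2 * π * I) ^ 2 * dCoef M r s e := by
  have key : (if e = 0 then cZero M r s else 0)
      = (2 * π * I) ^ 2 * (if e = 0 then (if (r : ZMod M) = 0 then tFun (zetaM M ^ s) else 0)
          else 0) := by
    by_cases he : e = 0
    · rw [if_pos he, if_pos he]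
      unfold cZero
      by_cases hr : (r : ZMod M) = 0
      · rw [if_pos hr]
        have hs : ¬ (M : ℤ) ∣ s := fun hd => h hr ((ZMod.intCast_zmod_eq_zero_iff_dvd s M).2 hd)
        rw [rowS_div M s hs]
        have : wt M r 0 = 1 := by
          unfold wt
          rw [if_pos]
          rw [hr]; simp
        rw [this, one_mul]
      · rw [if_neg hr]
        have : wt M r 0 = 0 := by
          unfold wt
          rw [if_neg]
          intro h0
          apply hr
          rw [← h0]; simp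
        rw [this, zero_mul, mul_zero]
    · rw [if_neg he, if_neg he, mul_zero]
  unfold cDiv dCoef
  rw [key]
  ring

theorem dCoef_mem {S : Subring ℂ} (hζ : zetaM M ∈ S) (hM : (M : ℂ)⁻¹ ∈ S) (r s : ℤ)
    (h : (r : ZMod M) = 0 → (s : ZMod M) ≠ 0) (e : ℕ) : dCoef M r s e ∈ S := by
  unfold dCoef
  refine S.add_mem (S.add_mem (lamCoeff_mem S (unitIn_zeta_zpow hζ s).mem _
    (fun k => wt_mem M S r k) e) (lamCoeff_mem S (unitIn_zeta_zpow hζ (-s)).mem _
    (fun k => wt_mem M S (-r) k) e)) ?_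
  split_ifs with he hr
  · exact (unitIn_tFun hζ hM s (h hr)).mem
  · exact S.zero_mem
  · exact S.zero_mem

theorem dCoef_neg (r s : ℤ) (e : ℕ) : dCoef M (-r) (-s) e = dCoef M r s e := by
  unfold dCoef
  rw [neg_neg, neg_neg]
  have h1 : (((-r : ℤ) : ZMod M) = 0) ↔ ((r : ZMod M) = 0) := by
    push_cast
    exact neg_eq_zero
  have h2 : tFun (zetaM M ^ (-s)) = tFun (zetaM M ^ s) := by
    rw [zpow_neg]
    exact tFun_inv _ (zpow_ne_zero _ (zetaM_ne_zero M))
  simp only [h1, h2]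
  ring

theorem dCoef_eq_zero_of_lt (r s : ℤ) (e : ℕ) (he : e < lrep M r) : dCoef M r s e = 0 := by
  have hw : ∀ k : ℕ, k ≤ e → wt M r k = 0 ∧ wt M (-r) k = 0 := by
    intro k hk
    have h1 := natCast_ne_of_lt_lrep M (r := r) (k := k) (by omega)
    constructor
    · rw [wt_natCast, if_neg h1.1]
    · rw [wt_natCast, if_neg]
      push_cast
      exact h1.2
  have hr : (r : ZMod M) ≠ 0 := by
    intro h
    have := (lrep_eq_zero_iff M r).2 h
    omega
  unfold dCoef
  rw [lamCoeff_eq_zero _ _ _ (fun k _ hk => (hw k hk).1),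
    lamCoeff_eq_zero _ _ _ (fun k _ hk => (hw k hk).2), if_neg hr]
  simp

theorem dCoef_lrep (r s : ℤ) (hρ : 1 ≤ lrep M r) :
    dCoef M r s (lrep M r)
      = wt M r (lrep M r) * zetaM M ^ s + wt M (-r) (lrep M r) * zetaM M ^ (-s) := by
  have hw : ∀ k : ℕ, k < lrep M r → wt M r k = 0 ∧ wt M (-r) k = 0 := by
    intro k hk
    have h1 := natCast_ne_of_lt_lrep M (r := r) (k := k) hk
    constructor
    · rw [wt_natCast, if_neg h1.1]
    · rw [wt_natCast, if_neg]
      push_cast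
      exact h1.2
  unfold dCoef
  rw [lamCoeff_eq_single _ _ _ hρ (fun k _ hk => (hw k hk).1),
    lamCoeff_eq_single _ _ _ hρ (fun k _ hk => (hw k hk).2), if_neg (by omega), add_zero]

theorem dCoef_zero (r s : ℤ) (hr : (r : ZMod M) = 0) : dCoef M r s 0 = tFun (zetaM M ^ s) := by
  unfold dCoef
  rw [if_pos rfl, if_pos hr]
  simp [lamCoeff]

/-! ### the leading coefficient of a difference -/

/-- `c` vanishes below `n`, `c n` is a unit of `S`, and all `c e` are in `S` -/
def LeadAt (S : Subring ℂ) (c : ℕ → ℂ) (n : ℕ) : Prop :=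
  (∀ e < n, c e = 0) ∧ UnitIn S (c n) ∧ ∀ e, c e ∈ S

theorem LeadAt.neg {S : Subring ℂ} {c : ℕ → ℂ} {n : ℕ} (h : LeadAt S c n) :
    LeadAt S (fun e => - c e) n :=
  ⟨fun e he => by simp only; rw [h.1 e he, neg_zero], h.2.1.neg, fun e => S.neg_mem (h.2.2 e)⟩

variable {M}

/-- the case `lrep M r < lrep M r'` -/
theorem leadAt_of_lt {S : Subring ℂ} (hζ : zetaM M ∈ S) (hM : (M : ℂ)⁻¹ ∈ S) (r s r' s' : ℤ)
    (h0 : (r : ZMod M) = 0 → (s : ZMod M) ≠ 0) (h0' : (r' : ZMod M) = 0 → (s' : ZMod M) ≠ 0)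
    (hlt : lrep M r < lrep M r') :
    LeadAt S (fun e => dCoef M r s e - dCoef M r' s' e) (lrep M r) := by
  refine ⟨fun e he => ?_, ?_, fun e => S.sub_mem (dCoef_mem M hζ hM r s h0 e)
    (dCoef_mem M hζ hM r' s' h0' e)⟩
  · simp only
    rw [dCoef_eq_zero_of_lt M r s e he, dCoef_eq_zero_of_lt M r' s' e (by omega), sub_zero]
  · simp only
    rw [dCoef_eq_zero_of_lt M r' s' _ hlt, sub_zero]
    rcases Nat.eq_zero_or_pos (lrep M r) with hρ | hρ
    · have hr := (lrep_eq_zero_iff M r).1 hρ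
      rw [hρ, dCoef_zero M r s hr]
      exact unitIn_tFun hζ hM s (h0 hr)
    · rw [dCoef_lrep M r s hρ]
      have h2 := two_mul_lrep_le M r'
      rcases natCast_lrep M r with hA | hB
      · have hB : ¬ ((lrep M r : ℕ) : ZMod M) = -(r : ZMod M) := by
          intro hB
          have := two_mul_lrep_eq M hA hB hρ
          omega
        have w1 : wt M r (lrep M r) = 1 := by rw [wt_natCast, if_pos hA]
        have w2 : wt M (-r) (lrep M r) = 0 := by
          rw [wt_natCast, if_neg]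
          push_cast
          exact hB
        rw [w1, w2, one_mul, zero_mul, add_zero]
        exact unitIn_zeta_zpow hζ s
      · have hA : ¬ ((lrep M r : ℕ) : ZMod M) = (r : ZMod M) := by
          intro hA
          have := two_mul_lrep_eq M hA hB hρ
          omega
        have w1 : wt M r (lrep M r) = 0 := by rw [wt_natCast, if_neg hA]
        have w2 : wt M (-r) (lrep M r) = 1 := by
          rw [wt_natCast, if_pos]
          push_cast
          exact hB
        rw [w1, w2, one_mul, zero_mul, zero_add]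
        exact unitIn_zeta_zpow hζ (-s)

/-- the case `lrep M r = lrep M r'`, for the representatives with `lrep ≡ r`, `lrep ≡ r'` -/
theorem leadAt_eq_core {S : Subring ℂ} (hζ : zetaM M ∈ S) (hM : (M : ℂ)⁻¹ ∈ S) (r s r' s' : ℤ)
    (h0 : (r : ZMod M) = 0 → (s : ZMod M) ≠ 0) (h0' : (r' : ZMod M) = 0 → (s' : ZMod M) ≠ 0)
    (hne : (r : ZMod M) = (r' : ZMod M) → (s : ZMod M) ≠ (s' : ZMod M))
    (hne' : (r : ZMod M) = -(r' : ZMod M) → (s : ZMod M) ≠ -(s' : ZMod M))
    (hA : ((lrep M r : ℕ) : ZMod M) = (r : ZMod M))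
    (hA' : ((lrep M r' : ℕ) : ZMod M) = (r' : ZMod M))
    (heq : lrep M r = lrep M r') :
    LeadAt S (fun e => dCoef M r s e - dCoef M r' s' e) (lrep M r) := by
  have hrr : (r : ZMod M) = (r' : ZMod M) := by rw [← hA, ← hA', heq]
  have hss : (s : ZMod M) ≠ (s' : ZMod M) := hne hrr
  have hz0 : zetaM M ≠ 0 := zetaM_ne_zero M
  refine ⟨fun e he => ?_, ?_, fun e => S.sub_mem (dCoef_mem M hζ hM r s h0 e)
    (dCoef_mem M hζ hM r' s' h0' e)⟩
  · simp only
    rw [dCoef_eq_zero_of_lt M r s e he, dCoef_eq_zero_of_lt M r' s' e (by omega), sub_zero]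
  · simp only
    rcases Nat.eq_zero_or_pos (lrep M r) with hρ | hρ
    · have hr := (lrep_eq_zero_iff M r).1 hρ
      have hr' : (r' : ZMod M) = 0 := by rw [← hrr]; exact hr
      have hss' : (s : ZMod M) ≠ -(s' : ZMod M) := hne' (by rw [hr, hr', neg_zero])
      rw [hρ, dCoef_zero M r s hr, dCoef_zero M r' s' hr']
      have hs0 := h0 hr
      have hs0' := h0' hr'
      have key : tFun (zetaM M ^ s) - tFun (zetaM M ^ s')
          = (zetaM M ^ s - zetaM M ^ s') * (1 - zetaM M ^ (s + s'))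
            / ((1 - zetaM M ^ s) ^ 2 * (1 - zetaM M ^ s') ^ 2) := by
        unfold tFun
        have e1 := (unitIn_one_sub_zpow hζ hM s hs0).ne_zero
        have e2 := (unitIn_one_sub_zpow hζ hM s' hs0').ne_zero
        rw [zpow_add₀ hz0]
        field_simp
        ring
      rw [key]
      refine ((unitIn_zpow_sub_zpow hζ hM s s' hss).mul
        (unitIn_one_sub_zpow hζ hM (s + s') ?_)).div
        (((unitIn_one_sub_zpow hζ hM s hs0).pow 2).mul
          ((unitIn_one_sub_zpow hζ hM s' hs0').pow 2))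
      intro h
      apply hss'
      push_cast at h
      exact eq_neg_of_add_eq_zero_left h
    · have hρ' : 1 ≤ lrep M r' := by omega
      have e2 : dCoef M r' s' (lrep M r)
          = wt M r' (lrep M r) * zetaM M ^ s' + wt M (-r') (lrep M r) * zetaM M ^ (-s') := by
        rw [heq]
        exact dCoef_lrep M r' s' hρ'
      rw [dCoef_lrep M r s hρ, e2]
      have w1 : wt M r (lrep M r) = 1 := by rw [wt_natCast, if_pos hA]
      have w1' : wt M r' (lrep M r) = 1 := by rw [wt_natCast, if_pos (hA.trans hrr)]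
      by_cases hB : ((lrep M r : ℕ) : ZMod M) = -(r : ZMod M)
      · have hB' : ((lrep M r : ℕ) : ZMod M) = -(r' : ZMod M) := by rw [hB, hrr]
        have hss' : (s : ZMod M) ≠ -(s' : ZMod M) := hne' (by rw [← hB', hA])
        have w2 : wt M (-r) (lrep M r) = 1 := by
          rw [wt_natCast, if_pos]
          push_cast
          exact hB
        have w2' : wt M (-r') (lrep M r) = 1 := by
          rw [wt_natCast, if_pos]
          push_cast
          exact hB'
        rw [w1, w2, w1', w2']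
        have key : 1 * zetaM M ^ s + 1 * zetaM M ^ (-s)
            - (1 * zetaM M ^ s' + 1 * zetaM M ^ (-s'))
            = (zetaM M ^ s - zetaM M ^ s') * (1 - zetaM M ^ (-s - s')) := by
          have e1 : zetaM M ^ s ≠ 0 := zpow_ne_zero _ hz0
          have e2 : zetaM M ^ s' ≠ 0 := zpow_ne_zero _ hz0
          rw [zpow_sub₀ hz0, zpow_neg, zpow_neg]
          field_simp
          ring
        rw [key]
        refine (unitIn_zpow_sub_zpow hζ hM s s' hss).mul
          (unitIn_one_sub_zpow hζ hM (-s - s') ?_)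
        intro h
        apply hss'
        push_cast at h
        have h3 : (s : ZMod M) + (s' : ZMod M) = 0 := by
          have : (s : ZMod M) + (s' : ZMod M) = -(-(s : ZMod M) - (s' : ZMod M)) := by ring
          rw [this, h, neg_zero]
        exact eq_neg_of_add_eq_zero_left h3
      · have hB' : ¬ ((lrep M r : ℕ) : ZMod M) = -(r' : ZMod M) := by rw [← hrr]; exact hB
        have w2 : wt M (-r) (lrep M r) = 0 := by
          rw [wt_natCast, if_neg]
          push_cast
          exact hB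
        have w2' : wt M (-r') (lrep M r) = 0 := by
          rw [wt_natCast, if_neg]
          push_cast
          exact hB'
        rw [w1, w2, w1', w2']
        have key : 1 * zetaM M ^ s + 0 * zetaM M ^ (-s)
            - (1 * zetaM M ^ s' + 0 * zetaM M ^ (-s')) = zetaM M ^ s - zetaM M ^ s' := by ring
        rw [key]
        exact unitIn_zpow_sub_zpow hζ hM s s' hss

/-- the case `lrep M r = lrep M r'` -/
theorem leadAt_eq {S : Subring ℂ} (hζ : zetaM M ∈ S) (hM : (M : ℂ)⁻¹ ∈ S) (r s r' s' : ℤ)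
    (h0 : (r : ZMod M) = 0 → (s : ZMod M) ≠ 0) (h0' : (r' : ZMod M) = 0 → (s' : ZMod M) ≠ 0)
    (hne : (r : ZMod M) = (r' : ZMod M) → (s : ZMod M) ≠ (s' : ZMod M))
    (hne' : (r : ZMod M) = -(r' : ZMod M) → (s : ZMod M) ≠ -(s' : ZMod M))
    (heq : lrep M r = lrep M r') :
    LeadAt S (fun e => dCoef M r s e - dCoef M r' s' e) (lrep M r) := by
  have c1 : ((-r : ℤ) : ZMod M) = -(r : ZMod M) := by push_cast; rfl
  have c1' : ((-r' : ℤ) : ZMod M) = -(r' : ZMod M) := by push_cast; rfl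
  have c2 : ((-s : ℤ) : ZMod M) = -(s : ZMod M) := by push_cast; rfl
  have c2' : ((-s' : ℤ) : ZMod M) = -(s' : ZMod M) := by push_cast; rfl
  have n0 : ((-r : ℤ) : ZMod M) = 0 → ((-s : ℤ) : ZMod M) ≠ 0 := by
    rw [c1, c2]
    intro h h'
    exact h0 (neg_eq_zero.mp h) (neg_eq_zero.mp h')
  have n0' : ((-r' : ℤ) : ZMod M) = 0 → ((-s' : ℤ) : ZMod M) ≠ 0 := by
    rw [c1', c2']
    intro h h'
    exact h0' (neg_eq_zero.mp h) (neg_eq_zero.mp h')
  rcases natCast_lrep M r with hA | hB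
  · rcases natCast_lrep M r' with hA' | hB'
    · exact leadAt_eq_core hζ hM r s r' s' h0 h0' hne hne' hA hA' heq
    · have h := leadAt_eq_core hζ hM r s (-r') (-s') h0 n0'
        (by rw [c1', c2']; exact hne')
        (by rw [c1', c2', neg_neg, neg_neg]; exact hne) hA
        (by rw [lrep_neg, c1']; exact hB') (by rw [lrep_neg]; exact heq)
      simpa only [dCoef_neg] using h
  · rcases natCast_lrep M r' with hA' | hB'
    · have h := leadAt_eq_core hζ hM (-r) (-s) r' s' n0 h0'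
        (by
          rw [c1, c2]
          intro h h'
          exact hne' (by rw [← h, neg_neg]) (by rw [← h', neg_neg]))
        (by
          rw [c1, c2]
          intro h h'
          exact hne (neg_injective h) (neg_injective h'))
        (by rw [lrep_neg, c1]; exact hB) hA' (by rw [lrep_neg]; exact heq)
      rw [lrep_neg] at h
      simpa only [dCoef_neg] using h
    · have h := leadAt_eq_core hζ hM (-r) (-s) (-r') (-s') n0 n0'
        (by
          rw [c1, c2, c1', c2']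
          intro h h'
          exact hne (neg_injective h) (neg_injective h'))
        (by
          rw [c1, c2, c1', c2', neg_neg, neg_neg]
          intro h h'
          exact hne' (by rw [← h, neg_neg]) (by rw [← h', neg_neg]))
        (by rw [lrep_neg, c1]; exact hB) (by rw [lrep_neg, c1']; exact hB')
        (by rw [lrep_neg, lrep_neg]; exact heq)
      rw [lrep_neg] at h
      simpa only [dCoef_neg] using h

/-- **Unit leading coefficients, normalised form.**  For `(r, s)`, `(r', s')` nonzero modulo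
`M` with `(r, s) ≢ ± (r', s')`, the coefficients `dCoef M r s e - dCoef M r' s' e` are in `S`,
vanish below `n = min (lrep M r) (lrep M r')`, and the `n`-th one is a unit of `S`. -/
theorem leadAt_dCoef {S : Subring ℂ} (hζ : zetaM M ∈ S) (hM : (M : ℂ)⁻¹ ∈ S) (r s r' s' : ℤ)
    (h0 : (r : ZMod M) = 0 → (s : ZMod M) ≠ 0) (h0' : (r' : ZMod M) = 0 → (s' : ZMod M) ≠ 0)
    (hne : (r : ZMod M) = (r' : ZMod M) → (s : ZMod M) ≠ (s' : ZMod M))
    (hne' : (r : ZMod M) = -(r' : ZMod M) → (s : ZMod M) ≠ -(s' : ZMod M)) :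
    LeadAt S (fun e => dCoef M r s e - dCoef M r' s' e) (min (lrep M r) (lrep M r')) := by
  rcases lt_trichotomy (lrep M r) (lrep M r') with hlt | heq | hgt
  · rw [min_eq_left hlt.le]
    exact leadAt_of_lt hζ hM r s r' s' h0 h0' hlt
  · rw [min_eq_left heq.le]
    exact leadAt_eq hζ hM r s r' s' h0 h0' hne hne' heq
  · rw [min_eq_right hgt.le]
    have h := (leadAt_of_lt hζ hM r' s' r s h0' h0 hgt).neg
    have e1 : (fun e => dCoef M r s e - dCoef M r' s' e)
        = fun e => -(dCoef M r' s' e - dCoef M r s e) := by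
      funext e
      ring
    rw [e1]
    exact h

/-- **Unit leading coefficients of `℘(v) - ℘(w)` at general division points**
(`helper44.cDiv` vocabulary; the `q_M`-expansion is `helper44.hasSum_divPt`). -/
theorem fricke_lead {S : Subring ℂ} (hζ : zetaM M ∈ S) (hM : (M : ℂ)⁻¹ ∈ S) (r s r' s' : ℤ)
    (h0 : ¬ ((r : ZMod M) = 0 ∧ (s : ZMod M) = 0))
    (h0' : ¬ ((r' : ZMod M) = 0 ∧ (s' : ZMod M) = 0))
    (hne : ¬ ((r : ZMod M) = (r' : ZMod M) ∧ (s : ZMod M) = (s' : ZMod M)))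
    (hne' : ¬ ((r : ZMod M) = -(r' : ZMod M) ∧ (s : ZMod M) = -(s' : ZMod M))) :
    (∀ e < min (lrep M r) (lrep M r'), cDiv M r s e - cDiv M r' s' e = 0) ∧
    (∃ u v : ℂ, u ∈ S ∧ v ∈ S ∧ u * v = 1 ∧
      cDiv M r s (min (lrep M r) (lrep M r')) - cDiv M r' s' (min (lrep M r) (lrep M r'))
        = (2 * π * I) ^ 2 * u) ∧
    ∀ e, ∃ x ∈ S, cDiv M r s e - cDiv M r' s' e = (2 * π * I) ^ 2 * x := by
  have k0 : (r : ZMod M) = 0 → (s : ZMod M) ≠ 0 := fun h h' => h0 ⟨h, h'⟩
  have k0' : (r' : ZMod M) = 0 → (s' : ZMod M) ≠ 0 := fun h h' => h0' ⟨h, h'⟩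
  have h := leadAt_dCoef hζ hM r s r' s' k0 k0' (fun h h' => hne ⟨h, h'⟩)
    (fun h h' => hne' ⟨h, h'⟩)
  have hc : ∀ e, cDiv M r s e - cDiv M r' s' e
      = (2 * π * I) ^ 2 * (dCoef M r s e - dCoef M r' s' e) := by
    intro e
    rw [cDiv_eq_dCoef M r s k0, cDiv_eq_dCoef M r' s' k0', mul_sub]
  obtain ⟨h1, ⟨h2, v, hv, huv⟩, h3⟩ := h
  refine ⟨fun e he => ?_, ⟨_, v, h2, hv, huv, hc _⟩, fun e => ⟨_, h3 e, hc e⟩⟩
  have h4 : dCoef M r s e - dCoef M r' s' e = 0 := h1 e he
  rw [hc, h4, mul_zero]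

/-- the existential form of `fricke_lead` -/
theorem fricke_lead_exists {S : Subring ℂ} (hζ : zetaM M ∈ S) (hM : (M : ℂ)⁻¹ ∈ S)
    (r s r' s' : ℤ)
    (h0 : ¬ ((r : ZMod M) = 0 ∧ (s : ZMod M) = 0))
    (h0' : ¬ ((r' : ZMod M) = 0 ∧ (s' : ZMod M) = 0))
    (hne : ¬ ((r : ZMod M) = (r' : ZMod M) ∧ (s : ZMod M) = (s' : ZMod M)))
    (hne' : ¬ ((r : ZMod M) = -(r' : ZMod M) ∧ (s : ZMod M) = -(s' : ZMod M))) :
    ∃ n : ℕ, ∃ u v : ℂ, u ∈ S ∧ v ∈ S ∧ u * v = 1 ∧
      (∀ e < n, cDiv M r s e - cDiv M r' s' e = 0) ∧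
      cDiv M r s n - cDiv M r' s' n = (2 * π * I) ^ 2 * u ∧
      ∀ e, ∃ x ∈ S, cDiv M r s e - cDiv M r' s' e = (2 * π * I) ^ 2 * x := by
  obtain ⟨h1, ⟨u, v, hu, hv, huv, h2⟩, h3⟩ := fricke_lead hζ hM r s r' s' h0 h0' hne hne'
  exact ⟨_, u, v, hu, hv, huv, h1, h2, h3⟩

open PeriodPair in
/-- the `q_M`-expansion of a difference of division values, normalised coefficients -/
theorem hasSum_divPt_dCoef (τ : UpperHalfPlane) (r s r' s' : ℤ)
    (h0 : ¬ ((r : ZMod M) = 0 ∧ (s : ZMod M) = 0))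
    (h0' : ¬ ((r' : ZMod M) = 0 ∧ (s' : ZMod M) = 0)) :
    HasSum (fun e : ℕ => (2 * π * I) ^ 2 * (dCoef M r s e - dCoef M r' s' e)
        * Fermat.Agent.T4.helper44.qM M τ ^ e)
      (℘[Fermat.Agent.T4.helper44.latP τ] (Fermat.Agent.T4.helper44.divPt M τ r s)
        - ℘[Fermat.Agent.T4.helper44.latP τ] (Fermat.Agent.T4.helper44.divPt M τ r' s')) := by
  have h := Fermat.Agent.T4.helper44.hasSum_divPt M τ r s r' s'
  have hc : ∀ e, cDiv M r s e - cDiv M r' s' e
      = (2 * π * I) ^ 2 * (dCoef M r s e - dCoef M r' s' e) := by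
    intro e
    rw [cDiv_eq_dCoef M r s (fun h h' => h0 ⟨h, h'⟩),
      cDiv_eq_dCoef M r' s' (fun h h' => h0' ⟨h, h'⟩), mul_sub]
  simpa only [hc] using h

end

end Fermat.Agent.T4.helper68
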