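import Mathlib
import Fermat.Agent.T4.helper68_FrickeLead

/-!
# T4 (I) [FRICKE-LEAD], adapter (helper68): the divisibility form

`fricke_lead_dvd` is `fricke_lead_exists` with the hypotheses written as divisibilities in `ℤ`
and the binders `∃ u ∈ S, ∃ v ∈ S` (the shape `LeadUnit M S` announced by helper44).
-/

set_option autoImplicit false

open Complex
open scoped Real

namespace Fermat.Agent.T4.helper68

open Fermat.Agent.T4.helper44 (zetaM cDiv)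

variable {M : ℕ} [NeZero M]

/-- **Unit leading coefficients, divisibility form.** -/
theorem fricke_lead_dvd {S : Subring ℂ} (hζ : zetaM M ∈ S) (hM : (M : ℂ)⁻¹ ∈ S)
    (r s r' s' : ℤ)
    (h0 : ¬ ((M : ℤ) ∣ r ∧ (M : ℤ) ∣ s))
    (h0' : ¬ ((M : ℤ) ∣ r' ∧ (M : ℤ) ∣ s'))
    (hne : ¬ ((M : ℤ) ∣ r - r' ∧ (M : ℤ) ∣ s - s'))
    (hne' : ¬ ((M : ℤ) ∣ r + r' ∧ (M : ℤ) ∣ s + s')) :
    ∃ n : ℕ, ∃ u ∈ S, ∃ v ∈ S, u * v = 1 ∧
      (∀ e < n, cDiv M r s e - cDiv M r' s' e = 0) ∧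
      cDiv M r s n - cDiv M r' s' n = (2 * π * I) ^ 2 * u ∧
      ∀ e, ∃ c ∈ S, cDiv M r s e - cDiv M r' s' e = (2 * π * I) ^ 2 * c := by
  have e0 : ∀ x : ℤ, (x : ZMod M) = 0 ↔ (M : ℤ) ∣ x := fun x =>
    ZMod.intCast_zmod_eq_zero_iff_dvd x M
  have e1 : ∀ x y : ℤ, (x : ZMod M) = (y : ZMod M) ↔ (M : ℤ) ∣ x - y := by
    intro x y
    rw [← e0, Int.cast_sub, sub_eq_zero]
  have e2 : ∀ x y : ℤ, (x : ZMod M) = -(y : ZMod M) ↔ (M : ℤ) ∣ x + y := by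
    intro x y
    rw [← e0, Int.cast_add, add_eq_zero_iff_eq_neg]
  obtain ⟨n, u, v, hu, hv, huv, h1, h2, h3⟩ := fricke_lead_exists hζ hM r s r' s'
    (by rw [e0, e0]; exact h0) (by rw [e0, e0]; exact h0')
    (by rw [e1, e1]; exact hne) (by rw [e2, e2]; exact hne')
  exact ⟨n, u, hu, v, hv, huv, h1, h2, h3⟩

end Fermat.Agent.T4.helper68
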