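import Fermat.Agent.T4.helper4_IgusaDefs
import Fermat.Agent.T4.helper44_WpInt
import Fermat.Agent.T4.helper24_X1Inputs
import Fermat.Agent.T4.helper68_FrickeLeadDvd

/-!
# T4 (I) IGUSA1 [IG-MEM-S] (helper68): the generators `s_a` of `X₁(M)` are `S`-integral modular
functions of level `Γ(M)`

`memS : 4 ≤ M → zetaC M ∈ S → (M : ℂ)⁻¹ ∈ S → helper4.Ig.MemSStatement M S`, from
`helper44.sFn_translate` (expansions of all translates), `helper68.fricke_lead_dvd`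
(= `helper44.LeadUnit M S`) and `helper24.sFn_inv` (invariance under `Γ₁(M)`).
-/

set_option autoImplicit false
set_option linter.unusedSectionVars false

open UpperHalfPlane CongruenceSubgroup
open scoped MatrixGroups

namespace Fermat.Agent.T4.helper68

open Fermat.Agent.T4.helper32.Conj1
open Fermat.Agent.T4.helper4.Ig

variable (M : ℕ) [NeZero M] (S : Subring ℂ)

/-- `helper44.LeadUnit M S` for every subring containing `ζ_M` and `1 / M` -/
theorem leadUnit (hζ : helper44.zetaM M ∈ S) (hM : (M : ℂ)⁻¹ ∈ S) : helper44.LeadUnit M S :=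
  fun r s r' s' h0 h0' hne hne' => fricke_lead_dvd hζ hM r s r' s' h0 h0' hne hne'

/-- the function `s_a` is a modular function of level `Γ(M)` -/
theorem sFn_mem_GA (hM4 : 4 ≤ M) (hζ : helper44.zetaM M ∈ S) (hM : (M : ℂ)⁻¹ ∈ S)
    (a : ZMod M) (ha : a ≠ 0) : helper24.sFn M a ∈ GA (Gamma M) M := by
  rw [mem_GA]
  refine ⟨fun γ hγ τ => helper24.sFn_inv M hM4 ha γ ?_ τ, fun γ => ?_⟩
  · rw [Gamma_mem] at hγ
    rw [Gamma1_mem]
    exact ⟨hγ.1, hγ.2.2.2, hγ.2.2.1⟩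
  obtain ⟨h1, s, h2, -⟩ := helper44.sFn_translate M hM4 (leadUnit M S hζ hM) hζ γ a ha
  exact ⟨h1, s, h2⟩

/-- **[IG-MEM-S]** -/
theorem memS_zetaM (hM4 : 4 ≤ M) (hζ : helper44.zetaM M ∈ S) (hM : (M : ℂ)⁻¹ ∈ S) :
    MemSStatement M S := by
  intro a ha
  refine ⟨⟨⟨helper24.sFn M a, sFn_mem_GA M S hM4 hζ hM a ha⟩, ?_⟩, rfl⟩
  rw [mem_BS_iff]
  intro γ n
  obtain ⟨-, s, h2, h3, -⟩ := helper44.sFn_translate M hM4 (leadUnit M S hζ hM) hζ γ a ha
  rw [EA_eq (Gamma M) M γ ⟨helper24.sFn M a, sFn_mem_GA M S hM4 hζ hM a ha⟩ h2]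
  exact h3 n

/-- **[IG-MEM-S]**, with the root of unity `S28.zetaC M` -/
theorem memS (hM4 : 4 ≤ M) (hζ : Fermat.Agent.S28.zetaC M ∈ S) (hM : (M : ℂ)⁻¹ ∈ S) :
    MemSStatement M S :=
  memS_zetaM M S hM4 hζ hM

end Fermat.Agent.T4.helper68
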