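/-
T4 (S48), block (I), [IGUSA1] route A, leaf [IG-SEP] (helper86): the SEPARATION step.

Frame of `helper4_IgusaDefs`: `B = BS (Gamma M) M S` (helper32's ring of `S`-integral modular
functions of level `Γ(M)`), `EB r γ : B →+* k((t))` the reduced expansion of `f ∘ γ`.

For `f_a ∈ B` with underlying function `s_a = helper24.sFn M a` (`a ≠ 0`):

* `EA_mul_wR`, `ES_mul_wR`, `EB_mul_wR` : the DIAMOND LAW in expansion form, for `γ ∈ Γ₀(M)`,
  `u = γ₀₀ mod M`:  `E_γ(f_a) * W(2u, u)(t^M) = W(a u, u)(t^M)` over `ℂ`, over `S` and over `k`,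
  where `W(x, y) = (P_x - P_y) / q ∈ ℤ[[q]]` (`wR`);
* `EB_one_eq` : the reduced expansion at the identity is `s_a(t^M)` over `k`:
  `EB r 1 f_a = qExpand k M (sSer k M a)`;
* `EB_eq` : the reduced expansion at `γ ∈ Γ₀(M)` in closed form;
* `igSep_fam`, `igSep` : **[IG-SEP]** if `γ ∈ Γ₀(M)` and `EB r γ f_a = EB r 1 f_a` for all
  `a ≠ 0`, then `γ ∈ ±Γ₁(M)` (`6 ≤ M`; `k` ANY field - no hypothesis on the characteristic);
* `trB_eq_of_mem_PG1` : conversely `±Γ₁(M)` fixes the `f_a`.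

Inputs: `helper24` (`isQExp_wpDfn`, `sFn_smul`, `wpDfn_unit_ne_zero`), S28 (`HasExp` calculus),
`helper86.fullness` over `k`.
-/
import Mathlib
import Fermat.Agent.T4.helper4_IgusaDefs
import Fermat.Agent.T4.helper24_X1Inputs

set_option autoImplicit false
set_option linter.unusedSectionVars false
set_option linter.style.haveILetI false

noncomputable section

namespace Fermat.Agent.T4.helper86.IgSep

open UpperHalfPlane CongruenceSubgroup ModularCurve
open Fermat.Agent.S28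
open Fermat.Agent.T4.helper32 Fermat.Agent.T4.helper32.Conj1
open Fermat.Agent.T4.helper24 (sFn wpDfn PG1)
open scoped MatrixGroups

variable (M : ℕ) [NeZero M]

/-! ### The formal series `(P_x - P_y) / q` over any ring -/

section Formal

/-- `(P_x - P_y) / q` as a Laurent series over `R` -/
def wR (R : Type*) [CommRing R] (x y : ZMod M) : LaurentSeries R :=
  HahnSeries.ofPowerSeries ℤ R ((wpDiff M x y).map (Int.castRingHom R))

theorem coeffMap_wR {R R' : Type*} [CommRing R] [CommRing R'] (f : R →+* R') (x y : ZMod M) :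
    coeffMap f (wR M R x y) = wR M R' x y := by
  rw [wR, ModularCurve.coeffMap_ofPowerSeries, wR,
    ← RingHom.comp_apply (PowerSeries.map f) (PowerSeries.map (Int.castRingHom R)),
    ← PowerSeries.map_comp, RingHom.ext_int (f.comp (Int.castRingHom R)) (Int.castRingHom R')]

theorem wR_complex (x y : ZMod M) : wR M ℂ x y = helper24.wLS M x y := rfl

variable (R : Type*) [CommRing R]

theorem sSer_mul_wR (hM : 4 ≤ M) (a : ZMod M) : sSer R M a * wR M R 2 1 = wR M R a 1 := by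
  unfold wR
  rw [helper33.sSer_eq, ← map_mul, ← map_mul, helper33.sInt_mul hM]

theorem sSer_sub_mul_wR (hM : 4 ≤ M) (a b : ZMod M) :
    (sSer R M a - sSer R M b) * wR M R 2 1 = wR M R a b := by
  unfold wR
  rw [helper33.sSer_sub, ← map_mul, ← map_mul, helper33.sInt_sub_mul hM]

theorem wR_two_one_ne_zero [Nontrivial R] (hM : 4 ≤ M) : wR M R 2 1 ≠ 0 := by
  unfold wR
  intro h
  have h1 := HahnSeries.ofPowerSeries_injective (Γ := ℤ) (R := R) (h.trans (map_zero _).symm)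
  have h2 := congrArg (PowerSeries.coeff 0) h1
  rw [PowerSeries.coeff_map, PowerSeries.coeff_zero_eq_constantCoeff,
    helper33.constantCoeff_wpDiff_two_one hM] at h2
  simp at h2

end Formal

/-! ### The diamond law in expansion form -/

section Analytic

theorem hasExp_wpDfn {a b : ZMod M} (ha : a ≠ 0) (hb : b ≠ 0) :
    HasExp M (wpDfn M a b)
      (qExpand ℂ M (HahnSeries.single (1 : ℤ) (1 : ℂ) * wR M ℂ a b)) := by
  have h := helper63.hasExp_expand (helper63.hasExp_of_isQExp (helper24.isQExp_wpDfn M ha hb)) M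
  rwa [helper24.wpLS_eq] at h

theorem qExpand_single_one_ne_zero (R : Type*) [CommRing R] [Nontrivial R] :
    qExpand R M (HahnSeries.single (1 : ℤ) (1 : R)) ≠ 0 := by
  intro h
  have h1 : HahnSeries.single (1 : ℤ) (1 : R) = 0 :=
    ModularCurve.qExpand_injective M (h.trans (map_zero _).symm)
  simp at h1

/-- **the diamond law, expansions over `ℂ`**: for `γ ∈ Γ₀(M)` with `u = γ₀₀`,
`E_γ(s_a) * W(2u, u)(t^M) = W(a u, u)(t^M)`. -/
theorem EA_mul_wR (hM : 4 ≤ M) (γ : SL(2, ℤ)) (hγ : γ ∈ Gamma0 M) {a : ZMod M} (ha : a ≠ 0)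
    (f : GA (Gamma M) M) (hf : (f : ℍ → ℂ) = sFn M a) :
    EA (Gamma M) M γ f *
        qExpand ℂ M (wR M ℂ (2 * ((γ 0 0 : ℤ) : ZMod M)) ((γ 0 0 : ℤ) : ZMod M)) =
      qExpand ℂ M (wR M ℂ (a * ((γ 0 0 : ℤ) : ZMod M)) ((γ 0 0 : ℤ) : ZMod M)) := by
  rw [Gamma0_mem] at hγ
  have hu0 := helper24.upperLeft_ne_zero M hM γ hγ
  have hau := helper24.mul_upperLeft_ne_zero M γ hγ ha
  have h2u := helper24.mul_upperLeft_ne_zero M γ hγ (helper24.two_ne_zero' hM)
  have h1 := hasExp_EA (Gamma M) M γ f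
  have h2 := hasExp_wpDfn M h2u hu0
  have h3 := hasExp_wpDfn M hau hu0
  have h4 := h1.mul h2
  have hfun : (fun τ : ℍ => (f : ℍ → ℂ) (γ • τ)) *
      wpDfn M (2 * ((γ 0 0 : ℤ) : ZMod M)) ((γ 0 0 : ℤ) : ZMod M) =
      wpDfn M (a * ((γ 0 0 : ℤ) : ZMod M)) ((γ 0 0 : ℤ) : ZMod M) := by
    funext τ
    simp only [Pi.mul_apply]
    rw [hf, helper24.sFn_smul M hM γ hγ ha]
    exact div_mul_cancel₀ _ (helper24.wpDfn_unit_ne_zero M hM γ hγ τ)
  rw [hfun] at h4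
  have h5 := h4.unique h3
  rw [map_mul, map_mul, mul_left_comm] at h5
  exact mul_left_cancel₀ (qExpand_single_one_ne_zero M ℂ) h5

variable (S : Subring ℂ)

/-- **the diamond law, expansions over `S`** -/
theorem ES_mul_wR (hM : 4 ≤ M) (γ : SL(2, ℤ)) (hγ : γ ∈ Gamma0 M) {a : ZMod M} (ha : a ≠ 0)
    (f : BS (Gamma M) M S) (hf : ((f : GA (Gamma M) M) : ℍ → ℂ) = sFn M a) :
    ES (Gamma M) M S γ f *
        qExpand S M (wR M S (2 * ((γ 0 0 : ℤ) : ZMod M)) ((γ 0 0 : ℤ) : ZMod M)) =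
      qExpand S M (wR M S (a * ((γ 0 0 : ℤ) : ZMod M)) ((γ 0 0 : ℤ) : ZMod M)) := by
  apply helper93.coeffMap_injective' S.subtype Subtype.val_injective
  rw [map_mul, coeffMap_ES, helper81.coeffMap_qExpand, helper81.coeffMap_qExpand, coeffMap_wR,
    coeffMap_wR]
  exact EA_mul_wR M hM γ hγ ha _ hf

variable {k : Type} [Field k] (r : S →+* k)

/-- **the diamond law, reduced expansions** -/
theorem EB_mul_wR (hM : 4 ≤ M) (γ : SL(2, ℤ)) (hγ : γ ∈ Gamma0 M) {a : ZMod M} (ha : a ≠ 0)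
    (f : BS (Gamma M) M S) (hf : ((f : GA (Gamma M) M) : ℍ → ℂ) = sFn M a) :
    EB (Gamma M) M S r γ f *
        qExpand k M (wR M k (2 * ((γ 0 0 : ℤ) : ZMod M)) ((γ 0 0 : ℤ) : ZMod M)) =
      qExpand k M (wR M k (a * ((γ 0 0 : ℤ) : ZMod M)) ((γ 0 0 : ℤ) : ZMod M)) := by
  have h := congrArg (coeffMap r) (ES_mul_wR M S hM γ hγ ha f hf)
  rw [map_mul, helper81.coeffMap_qExpand, helper81.coeffMap_qExpand, coeffMap_wR,
    coeffMap_wR] at h
  exact h

/-- **the reduced expansion at the identity** of `s_a` is `s_a(t^M)` over `k`. -/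
theorem EB_one_eq (hM : 4 ≤ M) {a : ZMod M} (ha : a ≠ 0)
    (f : BS (Gamma M) M S) (hf : ((f : GA (Gamma M) M) : ℍ → ℂ) = sFn M a) :
    EB (Gamma M) M S r 1 f = qExpand k M (sSer k M a) := by
  have h := EB_mul_wR M S r hM 1 (Subgroup.one_mem _) ha f hf
  have e : (((1 : SL(2, ℤ)) 0 0 : ℤ) : ZMod M) = 1 := by simp
  rw [e, mul_one, mul_one, ← sSer_mul_wR M k hM a, map_mul] at h
  refine mul_right_cancel₀ ?_ h
  intro h0
  exact wR_two_one_ne_zero M k hM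
    (ModularCurve.qExpand_injective M (h0.trans (map_zero _).symm))

/-- the expansion over `S` at the identity -/
theorem ES_one_eq (hM : 4 ≤ M) {a : ZMod M} (ha : a ≠ 0)
    (f : BS (Gamma M) M S) (hf : ((f : GA (Gamma M) M) : ℍ → ℂ) = sFn M a) :
    ES (Gamma M) M S 1 f = qExpand S M (sSer S M a) := by
  have h := ES_mul_wR M S hM 1 (Subgroup.one_mem _) ha f hf
  have e : (((1 : SL(2, ℤ)) 0 0 : ℤ) : ZMod M) = 1 := by simp
  rw [e, mul_one, mul_one, ← sSer_mul_wR M S hM a, map_mul] at h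
  -- cancel in `ℂ((t))`
  apply helper93.coeffMap_injective' S.subtype Subtype.val_injective
  have h' := congrArg (coeffMap S.subtype) h
  rw [map_mul, map_mul] at h'
  refine mul_right_cancel₀ ?_ h'
  rw [helper81.coeffMap_qExpand, coeffMap_wR]
  intro h0
  exact wR_two_one_ne_zero M ℂ hM
    (ModularCurve.qExpand_injective M (h0.trans (map_zero _).symm))

/-- **the reduced expansion at `γ ∈ Γ₀(M)`** in closed form:
`EB r γ f_a * (s_{2u} - s_u)(t^M) = (s_{au} - s_u)(t^M)`, `u = γ₀₀`. -/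
theorem EB_eq (hM : 4 ≤ M) (γ : SL(2, ℤ)) (hγ : γ ∈ Gamma0 M) {a : ZMod M} (ha : a ≠ 0)
    (f : BS (Gamma M) M S) (hf : ((f : GA (Gamma M) M) : ℍ → ℂ) = sFn M a) :
    EB (Gamma M) M S r γ f *
        qExpand k M (sSer k M (2 * ((γ 0 0 : ℤ) : ZMod M)) - sSer k M ((γ 0 0 : ℤ) : ZMod M)) =
      qExpand k M (sSer k M (a * ((γ 0 0 : ℤ) : ZMod M)) - sSer k M ((γ 0 0 : ℤ) : ZMod M)) := by
  have h := EB_mul_wR M S r hM γ hγ ha f hf
  rw [← sSer_sub_mul_wR M k hM (2 * ((γ 0 0 : ℤ) : ZMod M)) ((γ 0 0 : ℤ) : ZMod M),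
    ← sSer_sub_mul_wR M k hM (a * ((γ 0 0 : ℤ) : ZMod M)) ((γ 0 0 : ℤ) : ZMod M),
    map_mul, map_mul, ← mul_assoc] at h
  refine mul_right_cancel₀ ?_ h
  intro h0
  exact wR_two_one_ne_zero M k hM
    (ModularCurve.qExpand_injective M (h0.trans (map_zero _).symm))

/-! ### [IG-SEP] -/

/-- **[IG-SEP]**, family form: an element of `Γ₀(M)` which fixes the reduced expansions of all
the `s_a` lies in `±Γ₁(M)`.  (`k` is any field.) -/
theorem igSep_fam (hM : 6 ≤ M) (γ : SL(2, ℤ)) (hγ : γ ∈ Gamma0 M)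
    (h : ∀ a : ZMod M, a ≠ 0 → ∃ f : BS (Gamma M) M S,
      ((f : GA (Gamma M) M) : ℍ → ℂ) = sFn M a ∧
        EB (Gamma M) M S r γ f = EB (Gamma M) M S r 1 f) :
    γ ∈ PG1 M := by
  have hM4 : 4 ≤ M := by omega
  have hγ' := hγ
  rw [Gamma0_mem] at hγ'
  set u : ZMod M := ((γ 0 0 : ℤ) : ZMod M) with hu
  have huv := helper24.upperLeft_mul_lowerRight M γ hγ'
  rw [← hu] at huv
  let d : (ZMod M)ˣ := ⟨u, ((γ 1 1 : ℤ) : ZMod M), huv, by rw [mul_comm]; exact huv⟩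
  have hrel : ∀ a : ZMod M, a ≠ 0 →
      sSer k M ((d : ZMod M) * a) - sSer k M (d : ZMod M) =
        sSer k M a * (sSer k M ((d : ZMod M) * 2) - sSer k M (d : ZMod M)) := by
    intro a ha
    show sSer k M (u * a) - sSer k M u = sSer k M a * (sSer k M (u * 2) - sSer k M u)
    obtain ⟨f, hf, hE⟩ := h a ha
    have h1 := EB_eq M S r hM4 γ hγ ha f hf
    rw [hE, EB_one_eq M S r hM4 ha f hf, ← map_mul, ← hu] at h1
    have h2 := ModularCurve.qExpand_injective M h1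
    rw [mul_comm u a, mul_comm u 2]
    exact h2.symm
  have hd := Fermat.Agent.T4.helper86.fullness k hM d hrel
  rw [helper24.mem_PG1_iff]
  rcases hd with hd | hd
  · left
    have hu1 : u = 1 := by
      have := congrArg (fun x : (ZMod M)ˣ => (x : ZMod M)) hd
      simpa [d] using this
    rw [Gamma1_mem]
    refine ⟨hu1, ?_, hγ'⟩
    rw [hu1, one_mul] at huv
    exact huv
  · right
    have hu1 : u = -1 := by
      have := congrArg (fun x : (ZMod M)ˣ => (x : ZMod M)) hd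
      simpa [d] using this
    have hv : ((γ 1 1 : ℤ) : ZMod M) = -1 := by
      rw [hu1, neg_one_mul, neg_eq_iff_eq_neg] at huv
      exact huv
    have e : ∀ i j, ((-γ) i j : ℤ) = -(γ i j) := fun i j => by
      simp [Matrix.SpecialLinearGroup.coe_neg]
    rw [Gamma1_mem, e, e, e]
    push_cast
    rw [← hu, hu1, hv, hγ']
    simp

/-- **[IG-SEP]** in the vocabulary of `helper4.Ig.MemSStatement`. -/
theorem igSep (hM : 6 ≤ M) (hmem : helper4.Ig.MemSStatement M S) (γ : SL(2, ℤ))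
    (hγ : γ ∈ Gamma0 M)
    (h : ∀ a : ZMod M, a ≠ 0 → ∀ f : BS (Gamma M) M S,
      ((f : GA (Gamma M) M) : ℍ → ℂ) = sFn M a →
        EB (Gamma M) M S r γ f = EB (Gamma M) M S r 1 f) :
    γ ∈ PG1 M := by
  refine igSep_fam M S r hM γ hγ fun a ha => ?_
  obtain ⟨f, hf⟩ := hmem a ha
  exact ⟨f, hf, h a ha f hf⟩

/-- **[IG-SEP]**, inverse form (the shape met with the left action `[γ] • f = f ∘ γ⁻¹` of
`helper4.Ig.actG`: `ρ ([γ] • f) = EB r γ⁻¹ f`). -/
theorem igSep_inv (hM : 6 ≤ M) (γ : SL(2, ℤ)) (hγ : γ⁻¹ ∈ Gamma0 M)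
    (h : ∀ a : ZMod M, a ≠ 0 → ∃ f : BS (Gamma M) M S,
      ((f : GA (Gamma M) M) : ℍ → ℂ) = sFn M a ∧
        EB (Gamma M) M S r γ⁻¹ f = EB (Gamma M) M S r 1 f) :
    γ ∈ PG1 M :=
  (PG1 M).inv_mem_iff.mp (igSep_fam M S r hM γ⁻¹ hγ h)

/-- **[IG-SEP]** for the action of `helper4.Ig.GM M` on `B_S`: if `[γ]` fixes the reductions of
all the `f_a` and `γ⁻¹ ∈ Γ₀(M)`, then `γ ∈ ±Γ₁(M)`. -/
theorem igSep_actG (hM : 6 ≤ M) (γ : SL(2, ℤ)) (hγ : γ⁻¹ ∈ Gamma0 M)
    (h : ∀ a : ZMod M, a ≠ 0 → ∃ f : BS (Gamma M) M S,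
      ((f : GA (Gamma M) M) : ℍ → ℂ) = sFn M a ∧
        letI := helper4.Ig.actG M S
        helper4.Ig.rhoB M S r ((γ : helper4.Ig.GM M) • f) = helper4.Ig.rhoB M S r f) :
    γ ∈ PG1 M := by
  refine igSep_inv M S r hM γ hγ fun a ha => ?_
  obtain ⟨f, hf, hE⟩ := h a ha
  refine ⟨f, hf, ?_⟩
  rw [← helper4.Ig.rhoB_actG_mk M S r γ f]
  exact hE

/-- conversely, `±Γ₁(M)` fixes the `f_a` -/
theorem trB_eq_of_mem_PG1 (hM : 4 ≤ M) (γ : SL(2, ℤ)) (hγ : γ ∈ PG1 M) {a : ZMod M}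
    (ha : a ≠ 0) (f : BS (Gamma M) M S) (hf : ((f : GA (Gamma M) M) : ℍ → ℂ) = sFn M a) :
    trB (Gamma M) M S γ f = f := by
  apply Subtype.ext
  apply Subtype.ext
  funext τ
  show ((f : GA (Gamma M) M) : ℍ → ℂ) (γ • τ) = ((f : GA (Gamma M) M) : ℍ → ℂ) τ
  rw [hf]
  rcases (helper24.mem_PG1_iff M γ).mp hγ with h | h
  · exact helper24.sFn_inv M hM ha γ h τ
  · have e : (-γ) • τ = γ • τ := ModularGroup.SL_neg_smul γ τ
    rw [← e]
    exact helper24.sFn_inv M hM ha (-γ) h τ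

/-- `[γ] • f_a = f_a` for `γ ∈ ±Γ₁(M)` (action of `helper4.Ig.actG`) -/
theorem actG_eq_of_mem_PG1 (hM : 4 ≤ M) (γ : SL(2, ℤ)) (hγ : γ ∈ PG1 M) {a : ZMod M}
    (ha : a ≠ 0) (f : BS (Gamma M) M S) (hf : ((f : GA (Gamma M) M) : ℍ → ℂ) = sFn M a) :
    letI := helper4.Ig.actG M S
    ((γ : helper4.Ig.GM M) • f) = f := by
  letI := helper4.Ig.actG M S
  rw [helper4.Ig.actG_mk]
  exact trB_eq_of_mem_PG1 M S hM γ⁻¹ ((PG1 M).inv_mem hγ) ha f hf

end Analytic

end Fermat.Agent.T4.helper86.IgSep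

end
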