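import Mathlib
import Fermat.Agent.T4.helper4_IgusaInst3
import Fermat.Agent.T4.helper4_IgGauss
import Fermat.Agent.T4.helper65_IgKerFinal
import Fermat.Agent.T4.helper86_IgSep
import Fermat.Agent.T4.helper68_IgMemS
import Fermat.Agent.T4.helper61_MemJ

/-!
# T4 block (I), [IGUSA1] route A, FINAL (helper4): `PrimStatement` for `(F1 M, F1b A M)`

`prim1 : A.LiesOverPrime ℓ → ¬ ℓ ∣ M → 7 ≤ M → helper4.PrimStatement A (F1 M) (F1b A M)`,
UNCONDITIONAL, and the package `primPack1` (the primitive element `θ ∈ B_S`, `S = subringC A`,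
with the separation of the cosets of `±Γ₁(M)` by its reduced conjugates).

Inputs (all on main): `helper4.Ig.exists_primB` (abstract Dedekind + GRP assembly),
`helper65.IgKer.decomp_eq_top_of_surj` (kernel stability), `helper61.pivotJM` (separation of
`Γ₀(M)`), `helper86.IgSep.igSep_fam` (separation of `±Γ₁(M)` in `Γ₀(M)`), `helper68.memS`,
`helper61.memJ` (the generators in `B_S`), `helper24.x1Sys`, the Gauss lemma
`helper4.Ig.irreducible_map_subtype`.
-/

set_option autoImplicit false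
set_option linter.unusedSectionVars false
set_option linter.style.haveILetI false

noncomputable section

namespace Fermat.Agent.T4.helper4.Ig

open UpperHalfPlane CongruenceSubgroup Polynomial ModularCurve
open Fermat.Agent.T4.helper32.Conj1
open Fermat.Agent.P2.helper81 (subringC equivC rhoC)
open Fermat.Agent.S18.helper19 (Kb kA)
open Fermat.Agent.P2.helper29 (incl red)
open Fermat.Agent.T4.helper24 Fermat.Agent.T4.helper32
open Fermat.Agent.S28 (zetaC)
open scoped MatrixGroups

variable (M : ℕ) [NeZero M]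

/-- the generators of `X₁(M)` lie in `B_S` -/
theorem nonempty_genPack' (hM : 4 ≤ M) (S : Subring ℂ) (hζ : zetaC M ∈ S)
    (hN : (M : ℂ)⁻¹ ∈ S) : Nonempty (GenPackB M S) :=
  nonempty_genPack M S (Fermat.Agent.T4.helper68.memS M S hM hζ hN)
    (Fermat.Agent.T4.helper61.memJ M S hζ)

variable {M}

/-- **separation**: the reduced expansions of the generators separate the cosets of `±Γ₁(M)` -/
theorem sep_gen (hM : 6 ≤ M) (S : Subring ℂ) {k : Type} [Field k] (r : S →+* k)
    (hζ : zetaC M ∈ S) (P : GenPackB M S) (γ : SL(2, ℤ))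
    (h : ∀ i, EB (Gamma M) M S r γ (P.gen i) = EB (Gamma M) M S r 1 (P.gen i)) :
    γ ∈ PG1 M := by
  have h0 : γ ∈ Gamma0 M := by
    apply Fermat.Agent.T4.helper61.mem_Gamma0_of_EB_pivotJM_eq M S hζ r γ
    have e : P.gen (Sum.inl ⟨M, Nat.mem_divisors.mpr ⟨dvd_rfl, NeZero.ne M⟩⟩) =
        Fermat.Agent.T4.helper61.pivotJM M S hζ := by
      apply Subtype.ext
      apply Subtype.ext
      rw [P.coe_gen, Fermat.Agent.T4.helper61.coe_pivotJM]
      rfl
    rw [← e]
    exact h _
  exact Fermat.Agent.T4.helper86.IgSep.igSep_fam M S r hM γ h0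
    (fun a ha => ⟨P.gen (Sum.inr ⟨a, ha⟩), P.coe_gen _, h _⟩)

variable (A : ValuationSubring Kb)

/-- **[IGUSA1] route A, the package for `X₁(M)`**, unconditional. -/
theorem primPack1 {ℓ : ℕ} [Fact ℓ.Prime] (hA : A.LiesOverPrime ℓ) (hℓM : ¬ ℓ ∣ M)
    (hM : 7 ≤ M) : Nonempty (PrimPack1 A M) := by
  have hζ : zetaC M ∈ subringC A := Fermat.Agent.P2.helper81.zetaC_mem_subringC A M
  have hN : ((M : ℕ) : ℂ)⁻¹ ∈ subringC A :=
    Fermat.Agent.P2.helper81.natCast_inv_mem_subringC A hA M hℓM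
  obtain ⟨P⟩ := nonempty_genPack' M (by omega) (subringC A) hζ hN
  exact nonempty_primPack1 A (Fermat.Agent.T4.helper24.x1Sys M hM) P
    (Fermat.Agent.T4.helper65.IgKer.decomp_eq_top_of_surj M (subringC A) (rhoC A) hζ hN
      (Fermat.Agent.P2.helper81.rhoC_surjective A))
    (fun γ h => sep_gen (by omega) (subringC A) (rhoC A) hζ P γ h)

variable {A}

/-- **PRIM from a package** (Gauss lemma plugged in) -/
theorem PrimPack1.prim (Q : PrimPack1 A M) : PrimStatement A (F1 M) (F1b A M) :=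
  Q.primStatement (irreducible_map_subtype A Q.ΦA Q.monic_ΦA)

variable (A)

/-- **[PRIM] for `X₁(M)`**: `F1 M = ℚ̄(j, θ)`, `F1b A M = k(j̃, θ̃)`, with a monic equation over
`A[j]` which is irreducible over `ℚ̄[j]` and over `k[j̃]` and separable at `θ̃`. -/
theorem prim1 {ℓ : ℕ} [Fact ℓ.Prime] (hA : A.LiesOverPrime ℓ) (hℓM : ¬ ℓ ∣ M)
    (hM : 7 ≤ M) : PrimStatement A (F1 M) (F1b A M) := by
  obtain ⟨Q⟩ := primPack1 A hA hℓM hM
  exact Q.prim

end Fermat.Agent.T4.helper4.Ig

end
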