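/-
T4 block (I), [I-GEN-COSET] bridge (helper83): the subgroup `Gpm M` of
`helper83_Gamma1Coset` IS `helper24.PG1 M = Γ₁(M) ⊔ ⟨-1⟩`, the group of the generator system
`helper24.x1Data M` of `X₁(M)`.  All coset counts of `helper83_Gamma1Coset / Index / Cusp`
are restated for `PG1 M` and for `(x1Data M).X`:

* `Gpm_eq_PG1`, `x1Data_Γ_eq`;
* no elliptic points: `S_smul_ne_PG1`, `ST_smul_ne_PG1`, `ST_sq_smul_ne_PG1`
  (`S`, `S T`, `(S T)²` have no fixed coset, `M ≥ 4`), `smul_ne_of_trace_PG1` (any element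
  whose trace is not `±2` modulo `M`), `smul_ne_of_abs_trace_le_one` (any elliptic element);
* `card_X1_eq_two_mul_orbits_S`, `card_X1_eq_three_mul_orbits_ST` : `#X = 2 #(⟨S⟩\X) =
  3 #(⟨S T⟩\X)` (input of [RAM1]: `e = 2` over `j = 1728`, `e = 3` over `j = 0`);
* `two_mul_card_X1` : `2 #X = φ(M) ψ(M)` (`M ≥ 3`);
* `two_mul_card_orbits_T_PG1` : `2 #(⟨T⟩\X) = ∑_{d ∣ M} φ(d) φ(M/d)` (number of cusps,
  `¬ M ∣ 4`).
-/
import Mathlib
import Fermat.Agent.T4.helper83_Gamma1Cusp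
import Fermat.Agent.T4.helper24_FldDefs

set_option autoImplicit false

open CongruenceSubgroup MulAction
open scoped MatrixGroups

namespace Fermat.Agent.T4.helper83

/-- `Gpm M = Γ₁(M) ⊔ ⟨-1⟩` -/
theorem Gpm_eq_PG1 (M : ℕ) : Gpm M = helper24.PG1 M := by
  apply le_antisymm
  · intro g hg
    rcases hg with hg | hg
    · exact (le_sup_left : Gamma1 M ≤ helper24.PG1 M) hg
    · have h1 : (-1 : SL(2, ℤ)) ∈ helper24.PG1 M :=
        (le_sup_right : Subgroup.zpowers (-1 : SL(2, ℤ)) ≤ helper24.PG1 M)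
          (Subgroup.mem_zpowers _)
      have h2 : -g ∈ helper24.PG1 M := (le_sup_left : Gamma1 M ≤ helper24.PG1 M) hg
      have h3 : g = -g * -1 := by rw [mul_neg, mul_one, neg_neg]
      rw [h3]
      exact mul_mem h2 h1
  · apply sup_le (Gamma1_le_Gpm M)
    rw [Subgroup.zpowers_le]
    exact neg_one_mem_Gpm M

theorem PG1_eq_Gpm (M : ℕ) : helper24.PG1 M = Gpm M := (Gpm_eq_PG1 M).symm

theorem mem_PG1_iff {M : ℕ} {g : SL(2, ℤ)} :
    g ∈ helper24.PG1 M ↔ g ∈ Gamma1 M ∨ -g ∈ Gamma1 M := by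
  rw [PG1_eq_Gpm]; exact mem_Gpm

theorem x1Data_Γ_eq (M : ℕ) [NeZero M] : (helper24.x1Data M).Γ = Gpm M := PG1_eq_Gpm M

theorem neg_one_mem_PG1 (M : ℕ) : (-1 : SL(2, ℤ)) ∈ helper24.PG1 M := by
  rw [PG1_eq_Gpm]; exact neg_one_mem_Gpm M

theorem Gamma1_le_PG1 (M : ℕ) : Gamma1 M ≤ helper24.PG1 M := le_sup_left

theorem PG1_le_Gamma0 (M : ℕ) : helper24.PG1 M ≤ Gamma0 M := by
  rw [PG1_eq_Gpm]; exact Gpm_le_Gamma0 M

instance PG1_finiteIndex (M : ℕ) [NeZero M] : (helper24.PG1 M).FiniteIndex := by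
  rw [PG1_eq_Gpm]; infer_instance

instance finite_quotient_PG1 (M : ℕ) [NeZero M] : Finite (SL(2, ℤ) ⧸ helper24.PG1 M) :=
  Subgroup.finite_quotient_of_finiteIndex

/-! ### No elliptic points -/

theorem neg_one_smul_PG1 {M : ℕ} (x : SL(2, ℤ) ⧸ helper24.PG1 M) :
    (-1 : SL(2, ℤ)) • x = x := by
  revert x; rw [PG1_eq_Gpm]; exact neg_one_smul_Gpm

/-- an element whose trace is not `±2` modulo `M` has no fixed coset of `±Γ₁(M)` -/
theorem smul_ne_of_trace_PG1 {M : ℕ} (h : SL(2, ℤ))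
    (h1 : (((h : Matrix (Fin 2) (Fin 2) ℤ).trace : ℤ) : ZMod M) ≠ 2)
    (h2 : (((h : Matrix (Fin 2) (Fin 2) ℤ).trace : ℤ) : ZMod M) ≠ -2)
    (x : SL(2, ℤ) ⧸ helper24.PG1 M) : h • x ≠ x := by
  revert x; rw [PG1_eq_Gpm]; exact smul_ne_of_trace h h1 h2

/-- an elliptic element (`|trace| ≤ 1`) has no fixed coset of `±Γ₁(M)`, `M ≥ 4` -/
theorem smul_ne_of_abs_trace_le_one {M : ℕ} (hM : 4 ≤ M) (h : SL(2, ℤ))
    (ht : |(h : Matrix (Fin 2) (Fin 2) ℤ).trace| ≤ 1)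
    (x : SL(2, ℤ) ⧸ helper24.PG1 M) : h • x ≠ x := by
  have hb := abs_le.mp ht
  refine smul_ne_of_trace_PG1 h ?_ ?_ x
  · have := intCast_ne_of_not_dvd (M := M) (a := (h : Matrix (Fin 2) (Fin 2) ℤ).trace) (b := 2)
      (not_dvd_of_lt (by omega) (by omega))
    simpa using this
  · have := intCast_ne_of_not_dvd (M := M) (a := (h : Matrix (Fin 2) (Fin 2) ℤ).trace) (b := -2)
      (by
        have := not_dvd_neg_of_lt (M := M)
          (t := 2 + (h : Matrix (Fin 2) (Fin 2) ℤ).trace) (by omega) (by omega)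
        have h3 : -2 - (h : Matrix (Fin 2) (Fin 2) ℤ).trace
            = -(2 + (h : Matrix (Fin 2) (Fin 2) ℤ).trace) := by ring
        rw [h3]; exact this)
    simpa using this

/-- the same for the cosets of any conjugate representative: `g⁻¹ h g ∉ ±Γ₁(M)` -/
theorem conj_not_mem_PG1_of_abs_trace_le_one {M : ℕ} (hM : 4 ≤ M) (h g : SL(2, ℤ))
    (ht : |(h : Matrix (Fin 2) (Fin 2) ℤ).trace| ≤ 1) :
    g⁻¹ * (h * g) ∉ helper24.PG1 M := by
  intro hmem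
  have := smul_ne_of_abs_trace_le_one hM h ht (g : SL(2, ℤ) ⧸ helper24.PG1 M)
  exact this ((smul_mk_eq_iff _ h g).mpr hmem)

theorem S_smul_ne_PG1 {M : ℕ} (hM : 3 ≤ M) (x : SL(2, ℤ) ⧸ helper24.PG1 M) :
    ModularGroup.S • x ≠ x := by
  revert x; rw [PG1_eq_Gpm]; exact S_smul_ne hM

theorem ST_smul_ne_PG1 {M : ℕ} (hM : 4 ≤ M) (x : SL(2, ℤ) ⧸ helper24.PG1 M) :
    (ModularGroup.S * ModularGroup.T) • x ≠ x := by
  revert x; rw [PG1_eq_Gpm]; exact ST_smul_ne hM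

theorem ST_sq_smul_ne_PG1 {M : ℕ} (hM : 4 ≤ M) (x : SL(2, ℤ) ⧸ helper24.PG1 M) :
    ((ModularGroup.S * ModularGroup.T) ^ 2) • x ≠ x := by
  revert x; rw [PG1_eq_Gpm]; exact ST_sq_smul_ne hM

/-! ### Counts for `PG1 M` and for `(x1Data M).X` -/

/-- `#X = 2 #(⟨S⟩ \ X)` for `X = SL(2, ℤ) / PG1 M`, `M ≥ 3`. -/
theorem card_quotient_PG1_eq_two_mul_orbits_S {M : ℕ} (hM : 3 ≤ M) :
    Nat.card (SL(2, ℤ) ⧸ helper24.PG1 M)
      = 2 * Nat.card (orbitRel.Quotient (Subgroup.zpowers ModularGroup.S)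
          (SL(2, ℤ) ⧸ helper24.PG1 M)) := by
  rw [PG1_eq_Gpm]; exact card_quotient_Gpm_eq_two_mul_orbits_S hM

/-- `#X = 3 #(⟨S T⟩ \ X)` for `X = SL(2, ℤ) / PG1 M`, `M ≥ 4`. -/
theorem card_quotient_PG1_eq_three_mul_orbits_ST {M : ℕ} (hM : 4 ≤ M) :
    Nat.card (SL(2, ℤ) ⧸ helper24.PG1 M)
      = 3 * Nat.card (orbitRel.Quotient (Subgroup.zpowers (ModularGroup.S * ModularGroup.T))
          (SL(2, ℤ) ⧸ helper24.PG1 M)) := by
  rw [PG1_eq_Gpm]; exact card_quotient_Gpm_eq_three_mul_orbits_ST hM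

/-- `#X = 2 #(⟨S⟩ \ X)` for the coset space of the generator system of `X₁(M)`. -/
theorem card_X1_eq_two_mul_orbits_S {M : ℕ} [NeZero M] (hM : 3 ≤ M) :
    Nat.card (helper24.x1Data M).X
      = 2 * Nat.card (orbitRel.Quotient (Subgroup.zpowers ModularGroup.S)
          (helper24.x1Data M).X) :=
  card_quotient_PG1_eq_two_mul_orbits_S hM

/-- `#X = 3 #(⟨S T⟩ \ X)` for the coset space of the generator system of `X₁(M)`. -/
theorem card_X1_eq_three_mul_orbits_ST {M : ℕ} [NeZero M] (hM : 4 ≤ M) :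
    Nat.card (helper24.x1Data M).X
      = 3 * Nat.card (orbitRel.Quotient (Subgroup.zpowers (ModularGroup.S * ModularGroup.T))
          (helper24.x1Data M).X) :=
  card_quotient_PG1_eq_three_mul_orbits_ST hM

/-- `2 [SL(2, ℤ) : PG1 M] = φ(M) ψ(M)`, `M ≥ 3`. -/
theorem two_mul_card_quotient_PG1 {M : ℕ} (hM : 3 ≤ M) :
    2 * Nat.card (SL(2, ℤ) ⧸ helper24.PG1 M)
      = Nat.card (SL(2, ℤ) ⧸ Gamma1 M) := by
  have : NeZero M := ⟨by omega⟩
  rw [PG1_eq_Gpm, two_mul_card_quotient_Gpm hM, card_quotient_Gamma1]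

/-- `2 #X = φ(M) ψ(M)` for the coset space of the generator system of `X₁(M)`, `M ≥ 3`. -/
theorem two_mul_card_X1 {M : ℕ} [NeZero M] (hM : 3 ≤ M) :
    2 * Nat.card (helper24.x1Data M).X = Nat.totient M * ModularCurve.dedekindPsi M := by
  show 2 * Nat.card (SL(2, ℤ) ⧸ helper24.PG1 M) = _
  rw [PG1_eq_Gpm, two_mul_card_quotient_Gpm hM]

/-- the number of cusps: `2 #(⟨T⟩ \ X) = ∑_{d ∣ M} φ(d) φ(M/d)` for `X = SL(2, ℤ) / PG1 M`,
`¬ M ∣ 4`. -/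
theorem two_mul_card_orbits_T_PG1 {M : ℕ} [NeZero M] (hM : ¬ M ∣ 4) :
    2 * Nat.card (OrbT (helper24.PG1 M))
      = ∑ d ∈ M.divisors, Nat.totient d * Nat.totient (M / d) := by
  rw [PG1_eq_Gpm]; exact two_mul_card_orbits_T_Gpm hM

theorem S_smul_ne_X1 {M : ℕ} [NeZero M] (hM : 3 ≤ M) (x : (helper24.x1Data M).X) :
    ModularGroup.S • x ≠ x :=
  S_smul_ne_PG1 hM x

theorem ST_smul_ne_X1 {M : ℕ} [NeZero M] (hM : 4 ≤ M) (x : (helper24.x1Data M).X) :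
    (ModularGroup.S * ModularGroup.T) • x ≠ x :=
  ST_smul_ne_PG1 hM x

theorem ST_sq_smul_ne_X1 {M : ℕ} [NeZero M] (hM : 4 ≤ M) (x : (helper24.x1Data M).X) :
    ((ModularGroup.S * ModularGroup.T) ^ 2) • x ≠ x :=
  ST_sq_smul_ne_PG1 hM x

end Fermat.Agent.T4.helper83
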