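import Mathlib
import Fermat.Agent.T4.helper4_IgusaFinal
import Fermat.Agent.T4.helper18_CosetCompat
import Fermat.Agent.T4.helper83_Gamma1Bridge
import Fermat.Agent.P2.helper28_CuspL

/-!
# T4 block (I), [IG-THETA] second proof (helper69, row 1212): the integral conjugates of the
primitive element of `X₁(M)`

For the package `Q : helper4.Ig.PrimPack1 A M` of IGUSA1 route A (primitive element
`θ ∈ B_S`, `S = subringC A`, fixed by `±Γ₁(M)`, whose reduced conjugates separate the cosets of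
`±Γ₁(M)`), we construct the integral conjugate data `helper18.ConjPackA A Q.θA Q.ΦA M π i₀`
DIRECTLY from the fields of `Q`:

* `I = SL₂(ℤ) ⧸ ±Γ₁(M)`, `i₀ = [1]`, `π = ` left multiplication by `T⁻¹`;
* `Θ [g] = ` the `A`-integral expansion of `θ ∘ g⁻¹`;
* the product formula `∏ (Y - Θ i) = Φ(j(t^M), Y)` from: `Φ` monic of degree
  `[SL₂(ℤ) : ±Γ₁(M)]`, every `Θ i` is a root, the `Θ i` are pairwise distinct;
* the reductions of the `Θ i` are pairwise distinct by `Q.sep` and the kernel stability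
  (`helper65.IgKer.EB_congr_of_surj`).

Consequence (`helper18.cusp1_of_conj`): `CuspRegStatement` and `CuspBarStatement` for
`(F1 M, F1b A M)`.
-/

set_option autoImplicit false
set_option linter.unusedSectionVars false
set_option linter.style.haveILetI false

noncomputable section

namespace Fermat.Agent.T4.helper69.IgTheta

open UpperHalfPlane CongruenceSubgroup Polynomial ModularCurve
open Fermat.Agent.T4.helper32.Conj1
open Fermat.Agent.T4.helper4.Ig
open Fermat.Agent.P2.helper81 (subringC equivC rhoC)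
open Fermat.Agent.S18.helper19 (Kb kA)
open Fermat.Agent.P2.helper29 (incl red)
open Fermat.Agent.T4.helper24 (PG1)
open Fermat.Agent.S28 (zetaC)
open scoped MatrixGroups

variable {A : ValuationSubring Kb} {M : ℕ} [NeZero M]

/-- the index set: the cosets of `±Γ₁(M)` -/
abbrev CI (M : ℕ) : Type := SL(2, ℤ) ⧸ PG1 M

instance instFiniteCI (M : ℕ) [NeZero M] : Finite (CI M) :=
  haveI := Fermat.Agent.T4.helper83.PG1_finiteIndex M
  Subgroup.finite_quotient_of_finiteIndex

instance instFintypeCI (M : ℕ) [NeZero M] : Fintype (CI M) := Fintype.ofFinite _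

theorem card_CI (M : ℕ) [NeZero M] : Fintype.card (CI M) = (PG1 M).index := by
  rw [Subgroup.index_eq_card, Nat.card_eq_fintype_card]

/-! ### The conjugates over `S` -/

variable (Q : PrimPack1 A M)

/-- the `S`-integral expansion of `θ ∘ g⁻¹` -/
def thetaS (g : SL(2, ℤ)) : LaurentSeries (subringC A) :=
  ES (Gamma M) M (subringC A) g⁻¹ Q.θB

theorem thetaS_mul_right (g : SL(2, ℤ)) {δ : SL(2, ℤ)} (hδ : δ ∈ PG1 M) :
    thetaS Q (g * δ) = thetaS Q g := by
  unfold thetaS
  rw [mul_inv_rev, ← ES_trB, Q.fix δ⁻¹ ((PG1 M).inv_mem hδ)]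

/-- the `A`-integral expansion of `θ ∘ g⁻¹` -/
def thetaA₀ (g : SL(2, ℤ)) : LaurentSeries A :=
  coeffMap (equivC A).symm.toRingHom (thetaS Q g)

theorem thetaA₀_coeff (g : SL(2, ℤ)) (n : ℤ) :
    (thetaA₀ Q g).coeff n = (equivC A).symm ((thetaS Q g).coeff n) := rfl

/-- the conjugates, indexed by the cosets -/
def ThetaA : CI M → LaurentSeries A :=
  Quotient.lift (thetaA₀ Q) (by
    intro a b hab
    have h : a⁻¹ * b ∈ PG1 M := QuotientGroup.leftRel_apply.mp hab
    have e : b = a * (a⁻¹ * b) := by rw [mul_inv_cancel_left]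
    show thetaA₀ Q a = thetaA₀ Q b
    unfold thetaA₀
    rw [e, thetaS_mul_right Q a h])

theorem ThetaA_mk (g : SL(2, ℤ)) : ThetaA Q (QuotientGroup.mk g) = thetaA₀ Q g := rfl

/-- the expansion over `ℂ` of a conjugate -/
theorem coeffMap_toC_thetaA₀ (g : SL(2, ℤ)) :
    coeffMap (toC A) (thetaA₀ Q g) = EA (Gamma M) M g⁻¹ (Q.θB : GA (Gamma M) M) := by
  rw [← coeffMap_ES]
  ext n
  show toC A ((equivC A).symm ((thetaS Q g).coeff n)) = _
  rw [toC_eq, RingEquiv.apply_symm_apply]
  rfl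

/-- the reduction of a conjugate -/
theorem red_thetaA₀ (g : SL(2, ℤ)) :
    red A (thetaA₀ Q g) = EB (Gamma M) M (subringC A) (rhoC A) g⁻¹ Q.θB := by
  ext n
  rfl

/-! ### Base point and rotation -/

theorem thetaA₀_one : thetaA₀ Q 1 = qExpand A M Q.θA := by
  unfold thetaA₀ thetaS
  rw [inv_one, Q.rep.ES_eq, ModularCurve.coeffMap_qExpand, coeffMap_coeffMap]
  have h : (equivC A).symm.toRingHom.comp (equivC A).toRingHom = RingHom.id A := by
    ext a
    simp
  rw [h, coeffMap_id]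

/-- `ζ_M` as a unit of `A` -/
def zetaA (hζ : zetaC M ∈ subringC A) : Aˣ :=
  Units.map ((equivC A).symm : subringC A →* A) (zetaU M (subringC A) hζ)

theorem thetaA₀_T (hζ : zetaC M ∈ subringC A) (g : SL(2, ℤ)) :
    thetaA₀ Q (ModularGroup.T⁻¹ * g) =
      Fermat.Agent.P2.helper94.rot (zetaA hζ) (thetaA₀ Q g) := by
  ext n
  rw [Fermat.Agent.P2.helper94.rot_coeff, thetaA₀_coeff, thetaA₀_coeff]
  unfold thetaS
  rw [mul_inv_rev, inv_inv, ES_mul_T_coeff (Gamma M) M (subringC A) hζ, map_mul]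
  congr 1
  unfold zetaA
  rw [← map_zpow]
  rfl

/-! ### The root of unity -/

theorem isPrimitiveRoot_zetaC (M : ℕ) [NeZero M] : IsPrimitiveRoot (zetaC M) M := by
  unfold zetaC
  exact Complex.isPrimitiveRoot_exp M (NeZero.ne M)

theorem orderOf_zetaA (hζ : zetaC M ∈ subringC A) : orderOf (zetaA (A := A) hζ) = M := by
  let f : Aˣ →* ℂ := ((toC A : A →+* ℂ) : A →* ℂ).comp (Units.coeHom A)
  have hf : Function.Injective f := fun x y h =>
    Units.ext (toC_injective A h)
  rw [← orderOf_injective f hf]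
  have h1 : f (zetaA hζ) = zetaC M := by
    show toC A ((equivC A).symm ⟨zetaC M, hζ⟩) = zetaC M
    rw [toC_eq, RingEquiv.apply_symm_apply]
  rw [h1]
  exact (isPrimitiveRoot_zetaC M).eq_orderOf.symm

theorem orderOf_map_zetaA (hζ : zetaC M ∈ subringC A) (hN : ((M : ℕ) : ℂ)⁻¹ ∈ subringC A) :
    orderOf (Units.map ((IsLocalRing.residue A : A →+* kA A) : A →* kA A) (zetaA hζ)) = M := by
  have h1 : Units.map ((IsLocalRing.residue A : A →+* kA A) : A →* kA A) (zetaA hζ) =
      Fermat.Agent.P2.helper28.zetaBarU (subringC A) (rhoC A) hζ := by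
    apply Units.ext
    rfl
  rw [h1]
  exact Fermat.Agent.P2.helper28.orderOf_zetaBarU (subringC A) (rhoC A) hζ hN

/-! ### The reductions of the conjugates are pairwise distinct -/

theorem thetaA₀_red_inj (hζ : zetaC M ∈ subringC A) (hN : ((M : ℕ) : ℂ)⁻¹ ∈ subringC A)
    {g h : SL(2, ℤ)} (e : red A (thetaA₀ Q g) = red A (thetaA₀ Q h)) :
    (QuotientGroup.mk g : CI M) = QuotientGroup.mk h := by
  rw [red_thetaA₀, red_thetaA₀] at e
  have hr := Fermat.Agent.P2.helper81.rhoC_surjective A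
  have e1 : EB (Gamma M) M (subringC A) (rhoC A) 1 (trB (Gamma M) M (subringC A) g⁻¹ Q.θB) =
      EB (Gamma M) M (subringC A) (rhoC A) 1 (trB (Gamma M) M (subringC A) h⁻¹ Q.θB) := by
    rw [EB_trB, EB_trB, mul_one, mul_one]
    exact e
  have e2 := Fermat.Agent.T4.helper65.IgKer.EB_congr_of_surj M (subringC A) (rhoC A) hζ hN hr g e1
  rw [EB_trB, EB_trB, inv_mul_cancel] at e2
  have h3 : h⁻¹ * g ∈ PG1 M := Q.sep (h⁻¹ * g) e2.symm
  symm
  exact QuotientGroup.eq.mpr h3

theorem ThetaA_red_injective (hζ : zetaC M ∈ subringC A)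
    (hN : ((M : ℕ) : ℂ)⁻¹ ∈ subringC A) :
    Function.Injective fun i : CI M => red A (ThetaA Q i) := by
  intro i i' e
  induction i using QuotientGroup.induction_on with
  | H g =>
    induction i' using QuotientGroup.induction_on with
    | H h => exact thetaA₀_red_inj Q hζ hN e

theorem ThetaA_injective (hζ : zetaC M ∈ subringC A)
    (hN : ((M : ℕ) : ℂ)⁻¹ ∈ subringC A) : Function.Injective (ThetaA Q) := fun i i' e =>
  ThetaA_red_injective Q hζ hN (by show red A (ThetaA Q i) = red A (ThetaA Q i'); rw [e])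

/-! ### The product formula -/

/-- `j(t^M)` with coefficients in `A` -/
abbrev JA (A : ValuationSubring Kb) (M : ℕ) [NeZero M] : LaurentSeries A :=
  qExpand A M (jqModC A)

/-- the polynomial `Φ(j(t^M), Y)` over `ℂ((t))` -/
def PsiC : Polynomial (LaurentSeries ℂ) :=
  (Q.ΦA.map ((aeval (JA A M) : Polynomial A →ₐ[A] LaurentSeries A) :
    Polynomial A →+* LaurentSeries A)).map (coeffMap (toC A))

theorem monic_PsiC : (PsiC Q).Monic := (Q.monic_ΦA.map _).map _

theorem natDegree_PsiC : (PsiC Q).natDegree = (PG1 M).index := by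
  unfold PsiC
  rw [(Q.monic_ΦA.map _).natDegree_map, Q.monic_ΦA.natDegree_map, Q.natDegree_ΦA]

/-- the two evaluations of polynomials in `j` agree -/
theorem EA_polyB_eq (γ : SL(2, ℤ)) (P : Polynomial (subringC A)) :
    EA (Gamma M) M γ ((polyB (Gamma M) M (subringC A) P : BS (Gamma M) M (subringC A)) :
      GA (Gamma M) M) =
    coeffMap (toC A) ((aeval (JA A M) : Polynomial A →ₐ[A] LaurentSeries A)
      (P.map (equivC A).symm.toRingHom)) := by
  have h2 := rep_polyB A M P
  unfold Fermat.Agent.T4.helper4.Ig.Rep at h2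
  have h3 : EA (Gamma M) M γ ((polyB (Gamma M) M (subringC A) P :
      BS (Gamma M) M (subringC A)) : GA (Gamma M) M) =
      EA (Gamma M) M 1 ((polyB (Gamma M) M (subringC A) P :
      BS (Gamma M) M (subringC A)) : GA (Gamma M) M) := by
    rw [EA_polyB, EA_polyB]
  rw [h3, h2, ← ModularCurve.coeffMap_qExpand]
  congr 1
  exact RingHom.congr_fun (Fermat.Agent.S28.helper81.qExpand_comp_aeval A M (jqModC A)) _

/-- every conjugate is a root of `Φ(j(t^M), Y)` -/
theorem PsiC_root (g : SL(2, ℤ)) :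
    (PsiC Q).eval (coeffMap (toC A) (thetaA₀ Q g)) = 0 := by
  rw [coeffMap_toC_thetaA₀]
  let φ : BS (Gamma M) M (subringC A) →+* LaurentSeries ℂ :=
    ((EA (Gamma M) M g⁻¹ : GA (Gamma M) M →ₐ[ℂ] LaurentSeries ℂ) :
      GA (Gamma M) M →+* LaurentSeries ℂ).comp (BS (Gamma M) M (subringC A)).subtype
  have h1 : φ (Q.Φ.eval₂ (polyB (Gamma M) M (subringC A)) Q.θB) = 0 := by
    rw [Q.root, map_zero]
  rw [Polynomial.hom_eval₂] at h1
  have h2 : ((coeffMap (toC A)).comp
      ((aeval (JA A M) : Polynomial A →ₐ[A] LaurentSeries A) :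
        Polynomial A →+* LaurentSeries A)).comp
      (Polynomial.mapRingHom (equivC A).symm.toRingHom) =
      φ.comp (polyB (Gamma M) M (subringC A)) :=
    RingHom.ext fun P => (EA_polyB_eq g⁻¹ P).symm
  unfold PsiC PrimPack1.ΦA
  rw [Polynomial.map_map, Polynomial.map_map, Polynomial.eval_map, h2]
  exact h1

theorem coeffMap_toC_injective :
    Function.Injective (coeffMap (toC A) : LaurentSeries A → LaurentSeries ℂ) :=
  Fermat.Agent.S28.helper93.coeffMap_injective' _ (toC_injective A)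

/-- **the product formula**: `∏ (Y - Θ i) = Φ(j(t^M), Y)` -/
theorem prod_eq (hζ : zetaC M ∈ subringC A) (hN : ((M : ℕ) : ℂ)⁻¹ ∈ subringC A) :
    ∏ i : CI M, (Polynomial.X - Polynomial.C (ThetaA Q i)) =
      Q.ΦA.map ((aeval (JA A M) : Polynomial A →ₐ[A] LaurentSeries A) :
        Polynomial A →+* LaurentSeries A) := by
  apply Polynomial.map_injective (coeffMap (toC A)) coeffMap_toC_injective
  rw [Polynomial.map_prod]
  simp only [Polynomial.map_sub, Polynomial.map_X, Polynomial.map_C]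
  show _ = PsiC Q
  have hinj : Function.Injective fun i : CI M => coeffMap (toC A) (ThetaA Q i) :=
    coeffMap_toC_injective.comp (ThetaA_injective Q hζ hN)
  have hmon : (∏ i : CI M,
      (Polynomial.X - Polynomial.C (coeffMap (toC A) (ThetaA Q i)))).Monic :=
    Polynomial.monic_prod_of_monic _ _ (fun i _ => Polynomial.monic_X_sub_C _)
  have hdvd : (∏ i : CI M,
      (Polynomial.X - Polynomial.C (coeffMap (toC A) (ThetaA Q i)))) ∣ PsiC Q := by
    refine Finset.prod_dvd_of_coprime (R := Polynomial (LaurentSeries ℂ)) (z := PsiC Q)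
      (s := fun i : CI M => Polynomial.X - Polynomial.C (coeffMap (toC A) (ThetaA Q i)))
      (t := Finset.univ) ?_ ?_
    · intro i _ i' _ hii'
      exact Polynomial.pairwise_coprime_X_sub_C hinj hii'
    · intro i _
      rw [Polynomial.dvd_iff_isRoot]
      induction i using QuotientGroup.induction_on with
      | H g => exact PsiC_root Q g
  have hdeg : (PsiC Q).natDegree ≤ (∏ i : CI M,
      (Polynomial.X - Polynomial.C (coeffMap (toC A) (ThetaA Q i)))).natDegree := by
    rw [Polynomial.natDegree_finsetProd_X_sub_C_eq_card, natDegree_PsiC, Finset.card_univ,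
      card_CI]
  exact (Polynomial.eq_of_monic_of_dvd_of_natDegree_le hmon (monic_PsiC Q) hdvd hdeg).symm

/-! ### The package -/

/-- the base coset -/
abbrev i₀ (M : ℕ) : CI M := QuotientGroup.mk 1

/-- the rotation: left multiplication by `T⁻¹` -/
abbrev piT (M : ℕ) : Equiv.Perm (CI M) := MulAction.toPerm (ModularGroup.T⁻¹ : SL(2, ℤ))

/-- **[IG-THETA]** the integral conjugate data of the primitive element of `X₁(M)`. -/
def conjPackA (hζ : zetaC M ∈ subringC A) (hN : ((M : ℕ) : ℂ)⁻¹ ∈ subringC A) :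
    Fermat.Agent.T4.helper18.ConjPackA A Q.θA Q.ΦA M (piT M) (i₀ M) where
  Θ := ThetaA Q
  injb := ThetaA_red_injective Q hζ hN
  ζ := zetaA hζ
  hζ := orderOf_zetaA hζ
  hζb := orderOf_map_zetaA hζ hN
  prod := prod_eq Q hζ hN
  rot := fun i => by
    induction i using QuotientGroup.induction_on with
    | H g => exact thetaA₀_T Q hζ g
  base := thetaA₀_one Q

/-- the data of `PrimStatement` realised by `(Q.θA, Q.ΦA)` -/
def primData : Fermat.Agent.T4.helper31.PrimData A (Fermat.Agent.T4.helper32.F1 M)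
    (Fermat.Agent.T4.helper4.F1b A M) where
  θ := Q.θA
  Φ := Q.ΦA
  monic := Q.monic_ΦA
  root := Q.root_ΦA
  hE := Q.f1_eq
  hEb := Q.f1b_eq
  irrK := irreducible_map_subtype A Q.ΦA Q.monic_ΦA Q.irr_ΦA
  irrk := Q.irr_ΦA
  sep := by
    have h := Q.red_DA_ne_zero
    rw [Q.red_DA_eq] at h
    exact h

/-- **[CUSP1] for `X₁(M)`** from the package of IGUSA1: `CuspReg`, `CuspBar`, `RegRed` and
`Integrality` for `(F1 M, F1b A M)`. -/
theorem cusp1_of_primPack1 (Q : PrimPack1 A M) {ℓ : ℕ} (hℓ : ℓ.Prime) (hA : A.LiesOverPrime ℓ) (hℓM : ¬ ℓ ∣ M)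
    (hj : jqModC Kb ∈ Fermat.Agent.T4.helper32.F1 M)
    (hjb : jqModC (kA A) ∈ Fermat.Agent.T4.helper4.F1b A M) :
    Fermat.Agent.T4.helper4.CuspRegStatement A (Fermat.Agent.T4.helper32.F1 M)
        (Fermat.Agent.T4.helper4.F1b A M) hjb ∧
      Fermat.Agent.T4.helper4.CuspBarStatement A (Fermat.Agent.T4.helper32.F1 M)
        (Fermat.Agent.T4.helper4.F1b A M) hj hjb ∧
      Fermat.Agent.T4.helper4.RegRedStatement A (Fermat.Agent.T4.helper32.F1 M)
        (Fermat.Agent.T4.helper4.F1b A M) ∧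
      Fermat.Agent.T4.helper4.IntegralityStatement A (Fermat.Agent.T4.helper32.F1 M)
        (Fermat.Agent.T4.helper4.F1b A M) := by
  haveI : Fact ℓ.Prime := ⟨hℓ⟩
  have hζ : zetaC M ∈ subringC A := Fermat.Agent.P2.helper81.zetaC_mem_subringC A M
  have hN : ((M : ℕ) : ℂ)⁻¹ ∈ subringC A :=
    Fermat.Agent.P2.helper81.natCast_inv_mem_subringC A hA M hℓM
  exact Fermat.Agent.T4.helper18.cusp1_of_conj (primData Q) (conjPackA Q hζ hN) hj hjb hℓ hA

/-- **[CUSP1] for `X₁(M)`, unconditional** (`7 ≤ M`, `A` over a prime `ℓ ∤ M`). -/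
theorem cusp1_X1 (A : ValuationSubring Kb) (M : ℕ) [NeZero M] (hM : 7 ≤ M) {ℓ : ℕ}
    (hℓ : ℓ.Prime) (hA : A.LiesOverPrime ℓ) (hℓM : ¬ ℓ ∣ M)
    (hj : jqModC Kb ∈ Fermat.Agent.T4.helper32.F1 M)
    (hjb : jqModC (kA A) ∈ Fermat.Agent.T4.helper4.F1b A M) :
    Fermat.Agent.T4.helper4.CuspRegStatement A (Fermat.Agent.T4.helper32.F1 M)
        (Fermat.Agent.T4.helper4.F1b A M) hjb ∧
      Fermat.Agent.T4.helper4.CuspBarStatement A (Fermat.Agent.T4.helper32.F1 M)
        (Fermat.Agent.T4.helper4.F1b A M) hj hjb := by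
  haveI : Fact ℓ.Prime := ⟨hℓ⟩
  obtain ⟨Q⟩ := primPack1 A hA hℓM hM
  have h := cusp1_of_primPack1 Q hℓ hA hℓM hj hjb
  exact ⟨h.1, h.2.1⟩

end Fermat.Agent.T4.helper69.IgTheta

end
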