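import Fermat.Agent.T4.helper69_Frontier4
import Fermat.Agent.T4.helper69_IgTheta

/-!
# T4 block (I): the frontier of S48, version 5 (helper69)

After [CUSP1] (`helper69.IgTheta.cusp1_X1`: the integral conjugates of the primitive element of
IGUSA1 + `helper18.cusp1_of_conj`), the whole of I-RED is unconditional:

* `cusp1` : `Cusp1 M A` for `7 ≤ M`, `A` over a prime `ℓ ∤ M`;
* `inj1_X1` : `helper4.Inj1Statement M p` for `4 ∣ M ∨ 9 ∣ M`, `7 ≤ M`, `p` prime;
* `unr1_X1` : `helper4.Unr1Statement M p`  (inertia at `ℓ ∤ M p` acts trivially on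
  `J₁(M)[p^∞]`), same hypotheses;

and the light contract `Eigen1StatementL`, hence S48, follows from **[ES-NORM1] ALONE**
(`eigen1L_frontier5`, `s48_frontier5`).
-/

set_option autoImplicit false
set_option linter.style.haveILetI false
set_option linter.unusedSectionVars false

noncomputable section

namespace Fermat.Agent.T4.helper69

open Fermat.Agent.T4.helper1 (GalQ)
open Fermat.Agent.T4.helper79 (IsLightLevel)
open Fermat.Agent.S18.helper19 (Kb)
open Fermat.Agent.T4.helper4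
open Fermat.Agent.T4.helper32 (F1)

/-- **[CUSP1] for `X₁(M)`**, unconditional. -/
theorem cusp1 (M : ℕ) [NeZero M] (hM : 7 ≤ M) (A : ValuationSubring Kb) {ℓ : ℕ}
    (hℓ : ℓ.Prime) (hℓM : ¬ ℓ ∣ M) (hA : A.LiesOverPrime ℓ) : Cusp1 M A := by
  obtain ⟨h1, h2⟩ := IgTheta.cusp1_X1 A M hM hℓ hA hℓM
    (helper61.jqModC_mem_F1 M) (helper61.jqModC_mem_F1b A M)
  exact ⟨h1, h2⟩

/-- **(INJ1) for `X₁(M)`**, unconditional. -/
theorem inj1_X1 (M p : ℕ) [NeZero M] (hM : 4 ∣ M ∨ 9 ∣ M) (hM7 : 7 ≤ M) (hp : p.Prime) :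
    Inj1Statement M p :=
  inj1_of_cusp1 M p hM hM7 hp (fun _ hℓ hℓM A hA => cusp1 M hM7 A hℓ hℓM hA)

/-- **(UNR1) for `X₁(M)`**, unconditional: inertia at every prime `ℓ ∤ M p` acts trivially on
the `p`-power torsion of `J₁(M)`. -/
theorem unr1_X1 (M p : ℕ) [NeZero M] (hM : 4 ∣ M ∨ 9 ∣ M) (hM7 : 7 ≤ M) (hp : p.Prime) :
    Unr1Statement M p :=
  helper92.kummerUnr1_of M p
    (fun ℓ hℓ hℓMp A hA => helper43.scale_G A _ _
      (haveI : Fact ℓ.Prime := ⟨hℓ⟩;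
        Fermat.Agent.T4.helper4.Ig.prim1 A hA (fun h => hℓMp (Dvd.dvd.mul_right h p)) hM7))
    (inj1_X1 M p hM hM7 hp)

/-- **FRONTIER of block (I), version 5**: the light contract from [ES-NORM1] alone. -/
theorem eigen1L_frontier5
    (hN : ∀ (M : ℕ) [NeZero M], 12 ≤ M → (4 ∣ M ∨ 9 ∣ M) →
      ∀ (p : ℕ) [NeZero p] (hp : p.Prime) (hpM : ¬ p ∣ M),
        helper92.EsNorm1Statement M p (unitOfPrime M p hp hpM)) :
    helper32.Eigen1StatementL :=
  eigen1L_frontier4 hN (fun M _ h12 _ _ hp hpM A hA => cusp1 M (by omega) A hp hpM hA)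

/-- **S48 from [ES-NORM1] alone** (frozen shape of `Templates/S48`). -/
theorem s48_frontier5
    (hN : ∀ (M : ℕ) [NeZero M], 12 ≤ M → (4 ∣ M ∨ 9 ∣ M) →
      ∀ (p : ℕ) [NeZero p] (hp : p.Prime) (hpM : ¬ p ∣ M),
        helper92.EsNorm1Statement M p (unitOfPrime M p hp hpM))
    (N : ℕ) [NeZero N] (ε : DirichletCharacter ℂ N)
    (f : CuspForm (CongruenceSubgroup.Gamma1 N) 1)
    (hf₁ : ModularFormClass.qCoeff f 1 = 1)
    (hT : ∀ p : ℕ, p.Prime → ¬ p ∣ N → ∀ n : ℕ,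
        ModularFormClass.qCoeff f (p * n) +
            ε (p : ZMod N) * (if p ∣ n then ModularFormClass.qCoeff f (n / p) else 0) =
          ModularFormClass.qCoeff f p * ModularFormClass.qCoeff f n) :
    ∃ ρ : GalQ →* GL (Fin 2) ℂ, GaloisFactorsThroughFiniteLevel ρ ∧
      (Deformation.matrixRepresentation ρ).IsIrreducible ∧
      ∀ p : ℕ, p.Prime → ¬ p ∣ N →
        ∀ A : ValuationSubring (AlgebraicClosure ℚ), A.LiesOverPrime p →
          (∀ σ ∈ A.inertiaSubgroupIn ℚ, ρ σ = 1) ∧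
          ∀ σ : GalQ, A.IsFrobeniusAt σ p →
            ((ρ σ : GL (Fin 2) ℂ) : Matrix (Fin 2) (Fin 2) ℂ).trace =
                ModularFormClass.qCoeff f p ∧
            ((ρ σ : GL (Fin 2) ℂ) : Matrix (Fin 2) (Fin 2) ℂ).det = ε (p : ZMod N) :=
  helper2.s48_of_eigen1L (eigen1L_frontier5 hN) N ε f hf₁ hT

end Fermat.Agent.T4.helper69

end
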