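import Mathlib
import Fermat.Agent.T4.helper24_FldDefs
import Fermat.Agent.T4.helper24_X1Sys
import Fermat.Agent.S24.helper77_Hermite
import Fermat.Agent.S24.helper17_QExp

/-!
# T4 block (I), I-FLD [X1P-SYS] (helper10): the generator system of the curve of triples

`F1Qp M p` (`helper32_X1Defs`) is the function field of the curve of triples `(E, P, C)`
(`P` of order `M`, `C` of order `p`), generated by `j(q^d)` (`d ∣ M p`), the `s_a` and the
`s_a(q^p)`.  We show that these generators form a generator system in the sense of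
`helper24.GenData.IsSys`, with group `Γ = ±Γ₁(M) ∩ Γ₀(p)`, so that all generic boxes of I-FLD
(degree, cusp embeddings, analytic dictionary) apply to `F1p M p`.

* `precomp_scale_mem_holoExp` (GENERIC): if all `SL(2, ℤ)`-translates of `f` are holomorphic of
  exponential growth, then so are all translates of `τ ↦ f (d τ)` (Hermite reduction).
* `x1pData M p : GenData`, `x1pSys_of : (x1Data M).IsSys → p.Coprime M → (x1pData M p).IsSys`.
* `x1pField : F1Qp M p = (x1pData M p).fieldQ`.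
-/

set_option autoImplicit false
set_option linter.unusedSectionVars false
set_option linter.unusedVariables false
set_option linter.style.haveILetI false

noncomputable section

open UpperHalfPlane ModularCurve IntermediateField CongruenceSubgroup Filter Asymptotics
open scoped MatrixGroups Manifold

namespace Fermat.Agent.T4.helper10

open Fermat.Agent.S24 Fermat.Agent.T4.helper32 Fermat.Agent.T4.helper24

/-! ### Generic: growth of the translates of `f (d τ)` -/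

/-- explicit form of membership in `holoExp` -/
theorem exists_bound_of_mem_holoExp {F : ℍ → ℂ} (hF : F ∈ helper77.holoExp) :
    ∃ (K : ℕ) (C A : ℝ), 0 ≤ C ∧ 0 ≤ A ∧
      ∀ w : ℍ, A ≤ w.im → ‖F w‖ ≤ C * Real.exp (2 * Real.pi * K * w.im) := by
  obtain ⟨-, K, hK⟩ := hF
  obtain ⟨C, hC0, hC⟩ := hK.exists_nonneg
  rw [IsBigOWith, Filter.Eventually, atImInfty_mem] at hC
  obtain ⟨A, hA⟩ := hC
  refine ⟨K, C, max A 0, hC0, le_max_right _ _, fun w hw => ?_⟩
  have := hA w ((le_max_left _ _).trans hw)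
  simpa [Real.norm_of_nonneg (Real.exp_pos _).le] using this

/-- **Generic.** If all `SL(2, ℤ)`-translates of `f` are holomorphic of exponential growth at
`i∞`, then so are all translates of `τ ↦ f (d τ)`. -/
theorem precomp_scale_mem_holoExp {f : ℍ → ℂ}
    (hf : ∀ g : SL(2, ℤ), helper77.precomp g f ∈ helper77.holoExp) (d : ℕ) [NeZero d]
    (g : SL(2, ℤ)) :
    helper77.precomp g (fun τ => f (scaleH d τ)) ∈ helper77.holoExp := by
  obtain ⟨σ, α, δ, β, hα, hδ, hαδ, hW⟩ := helper77.exists_hermite d g⁻¹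
  have hF := hf σ
  obtain ⟨K, C, A, hC, hA, hbd⟩ := exists_bound_of_mem_holoExp hF
  have hd : (0 : ℝ) < d := by exact_mod_cast Nat.pos_of_ne_zero (NeZero.ne d)
  have hαR : (1 : ℝ) ≤ α := by exact_mod_cast hα
  have hδR : (1 : ℝ) ≤ δ := by exact_mod_cast hδ
  have hαδR : (α : ℝ) * δ = d := by exact_mod_cast hαδ
  -- the function as a composite
  have hfun : helper77.precomp g (fun τ => f (scaleH d τ)) =
      fun τ => helper77.precomp σ f (σ • scaleH d (g⁻¹ • τ)) := by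
    funext τ
    simp only [helper77.precomp_apply]
    rw [← mul_smul, inv_mul_cancel, one_smul]
  rw [hfun]
  refine ⟨?_, K * d, ?_⟩
  · exact hF.1.comp ((helper77.mdifferentiable_SL_smul σ).comp
      ((helper77.mdifferentiable_scaleH d).comp (helper77.mdifferentiable_SL_smul g⁻¹)))
  · refine IsBigO.of_bound C ?_
    rw [Filter.Eventually, atImInfty_mem]
    refine ⟨d * A, fun τ hτ => ?_⟩
    show ‖helper77.precomp σ f (σ • scaleH d (g⁻¹ • τ))‖ ≤
      C * ‖Real.exp (2 * Real.pi * ((K * d : ℕ) : ℝ) * τ.im)‖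
    have him : (σ • scaleH d (g⁻¹ • τ)).im = α * τ.im / δ := by
      have h1 : (σ • scaleH d (g⁻¹ • τ)).im = ((σ • scaleH d (g⁻¹ • τ) : ℍ) : ℂ).im := rfl
      rw [h1, hW τ]
      have h2 : ((α : ℂ) * τ + β) / δ =
          (((α : ℝ) : ℂ) * τ + ((β : ℝ) : ℂ)) * (((δ : ℝ)⁻¹ : ℝ) : ℂ) := by
        push_cast; rw [div_eq_mul_inv]
      rw [h2, Complex.im_mul_ofReal, Complex.add_im, Complex.ofReal_im, add_zero,
        Complex.im_ofReal_mul, div_eq_mul_inv]
      rfl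
    have hτpos := τ.im_pos
    have hlow : A ≤ (σ • scaleH d (g⁻¹ • τ)).im := by
      rw [him, le_div_iff₀ (by linarith)]
      calc A * δ ≤ A * d := by
            apply mul_le_mul_of_nonneg_left _ hA
            rw [← hαδR]; nlinarith
        _ = d * A := mul_comm _ _
        _ ≤ τ.im := hτ
        _ ≤ α * τ.im := by nlinarith
    have hup : (σ • scaleH d (g⁻¹ • τ)).im ≤ d * τ.im := by
      rw [him, div_le_iff₀ (by linarith)]
      have : (α : ℝ) ≤ d := by rw [← hαδR]; nlinarith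
      nlinarith [mul_pos hd hτpos]
    rw [Real.norm_of_nonneg (Real.exp_pos _).le]
    refine (hbd _ hlow).trans ?_
    apply mul_le_mul_of_nonneg_left _ hC
    apply Real.exp_le_exp.mpr
    have h2π : 0 < 2 * Real.pi := by positivity
    have hK : (0 : ℝ) ≤ K := Nat.cast_nonneg K
    push_cast
    have h3 : (K : ℝ) * (σ • scaleH d (g⁻¹ • τ)).im ≤ K * (d * τ.im) :=
      mul_le_mul_of_nonneg_left hup hK
    nlinarith [mul_le_mul_of_nonneg_left h3 h2π.le]

/-! ### The companion matrix -/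

/-- the companion matrix `[a, p b; c / p, d]` of `γ = [a, b; c, d]`, `p ∣ c` -/
def compMat (p : ℕ) (γ : SL(2, ℤ)) (c' : ℤ) (hc' : γ 1 0 = p * c') : SL(2, ℤ) :=
  ⟨!![γ 0 0, p * γ 0 1; c', γ 1 1], by
    have hdet : γ 0 0 * γ 1 1 - γ 0 1 * γ 1 0 = 1 := by
      have := γ.det_coe
      rwa [Matrix.det_fin_two] at this
    rw [Matrix.det_fin_two_of]
    rw [hc'] at hdet
    linear_combination hdet⟩

theorem compMat_00 (p : ℕ) (γ : SL(2, ℤ)) (c' : ℤ) (hc' : γ 1 0 = p * c') :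
    (compMat p γ c' hc') 0 0 = γ 0 0 := rfl

theorem compMat_01 (p : ℕ) (γ : SL(2, ℤ)) (c' : ℤ) (hc' : γ 1 0 = p * c') :
    (compMat p γ c' hc') 0 1 = p * γ 0 1 := rfl

theorem compMat_10 (p : ℕ) (γ : SL(2, ℤ)) (c' : ℤ) (hc' : γ 1 0 = p * c') :
    (compMat p γ c' hc') 1 0 = c' := rfl

theorem compMat_11 (p : ℕ) (γ : SL(2, ℤ)) (c' : ℤ) (hc' : γ 1 0 = p * c') :
    (compMat p γ c' hc') 1 1 = γ 1 1 := rfl

/-- `p (γ τ) = γ' (p τ)` for the companion matrix `γ'` -/
theorem scaleH_smul_eq (p : ℕ) [NeZero p] (γ : SL(2, ℤ)) (c' : ℤ) (hc' : γ 1 0 = p * c')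
    (τ : ℍ) : scaleH p (γ • τ) = compMat p γ c' hc' • scaleH p τ := by
  apply UpperHalfPlane.ext
  rw [helper77.coe_scaleH, helper77.coe_SL_smul, helper77.coe_SL_smul, helper77.coe_scaleH]
  have h1 := helper77.SL_denom_ne_zero γ τ
  have h2 := helper77.SL_denom_ne_zero (compMat p γ c' hc') (scaleH p τ)
  rw [helper77.coe_scaleH] at h2
  rw [compMat_10, compMat_11] at h2
  rw [compMat_00, compMat_01, compMat_10, compMat_11]
  have hc'' : ((γ 1 0 : ℤ) : ℂ) = p * c' := by rw [hc']; push_cast; ring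
  rw [hc''] at h1 ⊢
  have h3 : (c' : ℂ) * (p * (τ : ℂ)) + (γ 1 1 : ℤ) = p * c' * τ + (γ 1 1 : ℤ) := by ring
  rw [h3] at h2 ⊢
  push_cast
  field_simp

theorem compMat_mem_Gamma1 {M p : ℕ} (hpM : Nat.Coprime p M) {γ : SL(2, ℤ)}
    (hγ : γ ∈ Gamma1 M) (c' : ℤ) (hc' : γ 1 0 = p * c') : compMat p γ c' hc' ∈ Gamma1 M := by
  rw [Gamma1_mem] at hγ ⊢
  refine ⟨by rw [compMat_00]; exact hγ.1, by rw [compMat_11]; exact hγ.2.1, ?_⟩
  rw [compMat_10]
  have h1 : (M : ℤ) ∣ γ 1 0 := (ZMod.intCast_zmod_eq_zero_iff_dvd _ _).1 hγ.2.2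
  rw [hc'] at h1
  have hcop : IsCoprime (M : ℤ) (p : ℤ) := (Nat.isCoprime_iff_coprime.2 hpM).symm
  exact (ZMod.intCast_zmod_eq_zero_iff_dvd _ _).2 (hcop.dvd_of_dvd_mul_left h1)

/-- a function invariant under `Γ₁(M)`, evaluated at `p τ`, is invariant under
`±Γ₁(M) ∩ Γ₀(p)` -/
theorem scale_inv_of_inv {M p : ℕ} [NeZero p] (hpM : Nat.Coprime p M) {f : ℍ → ℂ}
    (hf : ∀ γ ∈ Gamma1 M, ∀ τ : ℍ, f (γ • τ) = f τ) {γ : SL(2, ℤ)}
    (hγ : γ ∈ PG1 M ⊓ Gamma0 p) (τ : ℍ) : f (scaleH p (γ • τ)) = f (scaleH p τ) := by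
  obtain ⟨h1, h2⟩ := hγ
  have hp : (p : ℤ) ∣ γ 1 0 := by
    have := (Gamma0_mem).1 h2
    exact (ZMod.intCast_zmod_eq_zero_iff_dvd _ _).1 this
  obtain ⟨c', hc'⟩ := hp
  rcases (mem_PG1_iff M γ).1 h1 with h | h
  · rw [scaleH_smul_eq p γ c' hc' τ]
    exact hf _ (compMat_mem_Gamma1 hpM h c' hc') _
  · have e : (-γ) • τ = γ • τ := ModularGroup.SL_neg_smul γ τ
    have hc'' : (-γ) 1 0 = p * (-c') := by
      have : (-γ) 1 0 = -(γ 1 0) := by
        simp [Matrix.SpecialLinearGroup.coe_neg]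
      rw [this, hc']
      ring
    rw [← e, scaleH_smul_eq p (-γ) (-c') hc'' τ]
    exact hf _ (compMat_mem_Gamma1 hpM h (-c') hc'') _

/-! ### The generator system of the curve of triples -/

/-- the index type of the generators of `F1Qp M p` -/
abbrev Idx1p (M p : ℕ) : Type :=
  {d : ℕ // d ∈ (M * p).divisors} ⊕ ({a : ZMod M // a ≠ 0} ⊕ {a : ZMod M // a ≠ 0})

/-- `±Γ₁(M) ∩ Γ₀(p)` -/
def PG1p (M p : ℕ) : Subgroup SL(2, ℤ) := PG1 M ⊓ Gamma0 p

/-- the generator system of the curve of triples: `j(d τ)` (`d ∣ M p`), `s_a(τ)`, `s_a(p τ)` -/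
def x1pData (M p : ℕ) [NeZero M] [NeZero p] : GenData where
  I := Idx1p M p
  instFintype := inferInstance
  instDecEq := inferInstance
  Γ := PG1p M p
  serQ := Sum.elim (fun d => JdTQ d.1)
    (Sum.elim (fun a => sSer ℚ M a.1) (fun a => qExpand ℚ p (sSer ℚ M a.1)))
  fn := Sum.elim (fun d => jfunDT d.1)
    (Sum.elim (fun a => sFn M a.1) (fun a τ => sFn M a.1 (scaleH p τ)))
  j0 := Sum.inl ⟨1, Nat.mem_divisors.mpr
    ⟨one_dvd _, Nat.mul_ne_zero (NeZero.ne M) (NeZero.ne p)⟩⟩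

variable (M p : ℕ) [NeZero M] [NeZero p]

theorem x1p_Γ : (x1pData M p).Γ = PG1p M p := rfl

theorem x1p_ser_inl (d : {d : ℕ // d ∈ (M * p).divisors}) :
    (x1pData M p).ser ℂ (Sum.inl d) = helper17.JdTC d.1 :=
  coeffEmb_JdTQ d.1

theorem x1p_ser_inr_inl (a : {a : ZMod M // a ≠ 0}) :
    (x1pData M p).ser ℂ (Sum.inr (Sum.inl a)) = coeffEmb ℂ (sSer ℚ M a.1) := rfl

theorem x1p_ser_inr_inr (a : {a : ZMod M // a ≠ 0}) :
    (x1pData M p).ser ℂ (Sum.inr (Sum.inr a)) = qExpand ℂ p (coeffEmb ℂ (sSer ℚ M a.1)) :=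
  coeffEmb_qExpand ℂ p _

theorem x1p_fn_inl (d : {d : ℕ // d ∈ (M * p).divisors}) :
    (x1pData M p).fn (Sum.inl d) = jfunDT d.1 := rfl

theorem x1p_fn_inr_inl (a : {a : ZMod M // a ≠ 0}) :
    (x1pData M p).fn (Sum.inr (Sum.inl a)) = sFn M a.1 := rfl

theorem x1p_fn_inr_inr (a : {a : ZMod M // a ≠ 0}) :
    (x1pData M p).fn (Sum.inr (Sum.inr a)) = fun τ => sFn M a.1 (scaleH p τ) := rfl

theorem ne_zero_of_mem_divisors {N d : ℕ} (hd : d ∈ N.divisors) : d ≠ 0 := fun h => by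
  have h1 := (Nat.mem_divisors.1 hd).1
  rw [h] at h1
  exact (Nat.mem_divisors.1 hd).2 (Nat.eq_zero_of_zero_dvd h1)

theorem PG1p_le_Gamma0_mul (hpM : Nat.Coprime p M) : PG1p M p ≤ Gamma0 (M * p) := by
  intro γ hγ
  have h1 : (M : ℤ) ∣ γ 1 0 :=
    (ZMod.intCast_zmod_eq_zero_iff_dvd _ _).1 ((Gamma0_mem).1 (PG1_le_Gamma0 M hγ.1))
  have h2 : (p : ℤ) ∣ γ 1 0 := (ZMod.intCast_zmod_eq_zero_iff_dvd _ _).1 ((Gamma0_mem).1 hγ.2)
  have hcop : IsCoprime (M : ℤ) (p : ℤ) := (Nat.isCoprime_iff_coprime.2 hpM).symm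
  rw [Gamma0_mem]
  have := hcop.mul_dvd h1 h2
  exact (ZMod.intCast_zmod_eq_zero_iff_dvd _ _).2 (by exact_mod_cast this)

theorem Gamma_mul_le_PG1p : Gamma (M * p) ≤ PG1p M p := by
  intro g hg
  rw [Gamma_mem] at hg
  obtain ⟨h00, h01, h10, h11⟩ := hg
  have cast : ∀ (x : ℤ) (N : ℕ) (hN : N ∣ M * p) (c : ℤ), ((x : ℤ) : ZMod (M * p)) = c →
      ((x : ℤ) : ZMod N) = c := by
    intro x N hN c hx
    have := congrArg (ZMod.castHom hN (ZMod N)) hx
    simpa using this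
  refine ⟨?_, ?_⟩
  · show g ∈ PG1 M
    apply Gamma1_le_PG1
    rw [Gamma1_mem]
    refine ⟨?_, ?_, ?_⟩
    · simpa using cast _ M (dvd_mul_right M p) 1 (by simpa using h00)
    · simpa using cast _ M (dvd_mul_right M p) 1 (by simpa using h11)
    · simpa using cast _ M (dvd_mul_right M p) 0 (by simpa using h10)
  · show g ∈ Gamma0 p
    rw [Gamma0_mem]
    simpa using cast _ p (dvd_mul_left p M) 0 (by simpa using h10)

/-- **[X1P-SYS]** the generators of the curve of triples form a generator system. -/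
theorem x1pSys_of (hS : (x1Data M).IsSys) (hpM : Nat.Coprime p M) : (x1pData M p).IsSys where
  serQ_j0 := by
    show JdTQ 1 = jq
    rw [JdTQ, dif_neg one_ne_zero]
    exact qExpand_one_apply jq
  fn_j0 := by
    funext τ
    exact helper77.jfunDT_one τ
  isQExp := by
    rintro (d | a | a)
    · rw [x1p_ser_inl]
      exact helper17.isQExp_jfunDT d.1
    · exact hS.isQExp (Sum.inr a)
    · rw [x1p_ser_inr_inr]
      exact (hS.isQExp (Sum.inr a)).comp_scale p
  inv := by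
    rintro (d | a | a) γ hγ τ
    · show jfunDT d.1 (γ • τ) = jfunDT d.1 τ
      haveI : NeZero d.1 := ⟨ne_zero_of_mem_divisors d.2⟩
      rw [helper77.jfunDT_of_ne_zero]
      exact helper77.jfunD_smul_of_mem_Gamma0 (Nat.mem_divisors.1 d.2).1
        (PG1p_le_Gamma0_mul M p hpM hγ) τ
    · exact hS.inv (Sum.inr a) γ hγ.1 τ
    · show sFn M a.1 (scaleH p (γ • τ)) = sFn M a.1 (scaleH p τ)
      exact scale_inv_of_inv hpM
        (fun γ' hγ' τ' => hS.inv (Sum.inr a) γ' (Gamma1_le_PG1 M hγ') τ') hγ τ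
  stab := by
    intro g hg
    refine ⟨?_, ?_⟩
    · show g ∈ PG1 M
      refine hS.stab g ?_
      rintro (d | a) τ
      · exact hg (Sum.inl ⟨d.1, Nat.mem_divisors.mpr
          ⟨(Nat.mem_divisors.1 d.2).1.trans (dvd_mul_right M p),
            Nat.mul_ne_zero (NeZero.ne M) (NeZero.ne p)⟩⟩) τ
      · exact hg (Sum.inr (Sum.inl a)) τ
    · have hp : p ∈ (M * p).divisors :=
        Nat.mem_divisors.mpr ⟨dvd_mul_left p M, Nat.mul_ne_zero (NeZero.ne M) (NeZero.ne p)⟩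
      have key := helper24.inv_mul_mem_Gamma0_of_jfunDg_eq p g⁻¹ 1 (fun τ => by
        have := hg (Sum.inl ⟨p, hp⟩) τ
        simp only [jfunDg, inv_inv, inv_one, one_smul]
        have e : jfunDT p = jfunD p := helper77.jfunDT_of_ne_zero
        have h1 : jfunDT p (g • τ) = jfunDT p τ := this
        rw [e] at h1
        exact h1)
      show g ∈ Gamma0 p
      simpa using key
  level := ⟨M * p, Nat.pos_of_ne_zero (Nat.mul_ne_zero (NeZero.ne M) (NeZero.ne p)),
    Gamma_mul_le_PG1p M p⟩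
  growth := by
    rintro g (d | a | a)
    · exact helper77.precomp_jfam_mem_holoExp
        (fun i : {d : ℕ // d ∈ (M * p).divisors} => i.1)
        (fun i => ne_zero_of_mem_divisors i.2) g d
    · exact hS.growth g (Sum.inr a)
    · exact precomp_scale_mem_holoExp (fun g' => hS.growth g' (Sum.inr a)) p g

/-! ### The field -/

/-- **[X1P-FIELD]** `F1Qp M p` is the field generated by the generators of `x1pData M p`. -/
theorem x1pField : F1Qp M p = (x1pData M p).fieldQ := by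
  show F1Qp M p = IntermediateField.adjoin ℚ (Set.range (x1pData M p).serQ)
  unfold F1Qp
  congr 1
  ext x
  constructor
  · rintro ((⟨d, hne, hd, rfl⟩ | ⟨a, ha, rfl⟩) | ⟨y, ⟨a, ha, rfl⟩, rfl⟩)
    · haveI := hne
      refine ⟨Sum.inl ⟨d, Nat.mem_divisors.mpr
        ⟨hd, Nat.mul_ne_zero (NeZero.ne M) (NeZero.ne p)⟩⟩, ?_⟩
      show JdTQ d = _
      rw [JdTQ, dif_neg (NeZero.ne d)]
    · exact ⟨Sum.inr (Sum.inl ⟨a, ha⟩), rfl⟩
    · exact ⟨Sum.inr (Sum.inr ⟨a, ha⟩), rfl⟩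
  · rintro ⟨(d | a | a), rfl⟩
    · left; left
      have hd0 : d.1 ≠ 0 := ne_zero_of_mem_divisors d.2
      refine ⟨d.1, ⟨hd0⟩, (Nat.mem_divisors.1 d.2).1, ?_⟩
      show JdTQ d.1 = _
      rw [JdTQ, dif_neg hd0]
    · left; right
      exact ⟨a.1, a.2, rfl⟩
    · right
      exact ⟨sSer ℚ M a.1, ⟨a.1, a.2, rfl⟩, rfl⟩

end Fermat.Agent.T4.helper10

end
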