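import Mathlib
import Fermat.Agent.T4.helper10_X1pSys

/-!
# T4 block (I), I-FLD [X1P-SYS] (helper10): the index of `±Γ₁(M) ∩ Γ₀(p)` in `±Γ₁(M)`

For a prime `p ∤ M` the cosets of `±Γ₁(M) ∩ Γ₀(p)` in `±Γ₁(M)` are parametrised by the
projective line over `𝔽_p` (the class of the first column modulo `p`):

* `colInv p g : Option (ZMod p)` : the point `[g₀₀ : g₁₀]` of `ℙ¹(𝔽_p)`;
* `inv_mul_mem_Gamma0_iff` : `g⁻¹ g' ∈ Γ₀(p) ↔ colInv p g = colInv p g'`;
* `exists_Gamma1_colInv` : every point is attained on `Γ₁(M)`;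
* `relIndex_PG1p` : `[±Γ₁(M) : ±Γ₁(M) ∩ Γ₀(p)] = p + 1`;
* `card_X_x1pData` : `#(SL(2,ℤ) / (±Γ₁(M) ∩ Γ₀(p))) = (p + 1) · #(SL(2,ℤ) / ±Γ₁(M))`.
-/

set_option autoImplicit false
set_option linter.unusedSectionVars false
set_option linter.unusedVariables false
set_option linter.style.haveILetI false

noncomputable section

open UpperHalfPlane ModularCurve CongruenceSubgroup
open scoped MatrixGroups

namespace Fermat.Agent.T4.helper10

open Fermat.Agent.S24 Fermat.Agent.T4.helper32 Fermat.Agent.T4.helper24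

section Col

variable (p : ℕ) [hp : Fact p.Prime]

open Classical in
/-- the point `[g₀₀ : g₁₀]` of the projective line over `𝔽_p` -/
def colInv (g : SL(2, ℤ)) : Option (ZMod p) :=
  if ((g 0 0 : ℤ) : ZMod p) = 0 then none
  else some (((g 1 0 : ℤ) : ZMod p) / ((g 0 0 : ℤ) : ZMod p))

theorem col_ne_zero (g : SL(2, ℤ)) (h0 : ((g 0 0 : ℤ) : ZMod p) = 0)
    (h1 : ((g 1 0 : ℤ) : ZMod p) = 0) : False := by
  have hdet : g 0 0 * g 1 1 - g 0 1 * g 1 0 = 1 := by
    have := g.det_coe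
    rwa [Matrix.det_fin_two] at this
  have := congrArg (fun x : ℤ => (x : ZMod p)) hdet
  simp only [Int.cast_sub, Int.cast_mul, Int.cast_one, h0, h1, zero_mul, mul_zero,
    sub_zero] at this
  exact zero_ne_one this

theorem inv_mul_10 (g g' : SL(2, ℤ)) :
    (g⁻¹ * g') 1 0 = g 0 0 * g' 1 0 - g 1 0 * g' 0 0 := by
  rw [Matrix.SpecialLinearGroup.coe_mul, Matrix.SpecialLinearGroup.coe_inv,
    Matrix.adjugate_fin_two, Matrix.mul_apply, Fin.sum_univ_two]
  simp
  ring

theorem inv_mul_mem_Gamma0_iff (g g' : SL(2, ℤ)) :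
    g⁻¹ * g' ∈ Gamma0 p ↔ colInv p g = colInv p g' := by
  rw [Gamma0_mem, inv_mul_10]
  push_cast
  set a := ((g 0 0 : ℤ) : ZMod p) with ha
  set c := ((g 1 0 : ℤ) : ZMod p) with hc
  set a' := ((g' 0 0 : ℤ) : ZMod p) with ha'
  set c' := ((g' 1 0 : ℤ) : ZMod p) with hc'
  unfold colInv
  rw [← ha, ← hc, ← ha', ← hc']
  by_cases h0 : a = 0
  · have hc0 : c ≠ 0 := fun h => col_ne_zero p g h0 h
    rw [if_pos h0, h0, zero_mul, zero_sub, neg_eq_zero]
    by_cases h0' : a' = 0
    · rw [if_pos h0', h0', mul_zero]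
      simp
    · rw [if_neg h0']
      simp [hc0, h0']
  · rw [if_neg h0]
    by_cases h0' : a' = 0
    · have hc0' : c' ≠ 0 := fun h => col_ne_zero p g' h0' h
      rw [if_pos h0', h0', mul_zero, sub_zero]
      simp [h0, hc0']
    · rw [if_neg h0', Option.some_inj, div_eq_div_iff h0 h0', sub_eq_zero]
      constructor
      · intro h
        linear_combination -h
      · intro h
        linear_combination -h

variable (M : ℕ)

/-- every point of the projective line is the first column of an element of `Γ₁(M)` -/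
theorem exists_Gamma1_colInv (hpM : ¬ p ∣ M) (x : Option (ZMod p)) :
    ∃ g ∈ Gamma1 M, colInv p g = x := by
  have hM0 : ((M : ℕ) : ZMod p) ≠ 0 := fun h => hpM ((ZMod.natCast_eq_zero_iff _ _).1 h)
  rcases x with _ | x
  · -- the point at infinity
    have hcop : IsCoprime (p : ℤ) (M : ℤ) :=
      Nat.isCoprime_iff_coprime.2 ((Nat.Prime.coprime_iff_not_dvd hp.out).2 hpM)
    obtain ⟨u, v, huv⟩ := hcop
    let g : SL(2, ℤ) := ⟨!![u * p, -v; M, 1], by
      rw [Matrix.det_fin_two_of]; linear_combination huv⟩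
    have e00 : (g 0 0 : ℤ) = u * p := rfl
    have e10 : (g 1 0 : ℤ) = M := rfl
    have e11 : (g 1 1 : ℤ) = 1 := rfl
    refine ⟨g, ?_, ?_⟩
    · rw [Gamma1_mem, e00, e10, e11]
      refine ⟨?_, by simp, by simp⟩
      have : u * (p : ℤ) = 1 - v * M := by linear_combination huv
      rw [this]
      simp
    · unfold colInv
      rw [if_pos]
      rw [e00]
      simp
  · -- a finite point
    let k : ℤ := ((x * ((M : ℕ) : ZMod p)⁻¹).val : ℤ)
    let g : SL(2, ℤ) := ⟨!![1, 0; M * k, 1], by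
      rw [Matrix.det_fin_two_of]; ring⟩
    have e00 : (g 0 0 : ℤ) = 1 := rfl
    have e10 : (g 1 0 : ℤ) = M * k := rfl
    have e11 : (g 1 1 : ℤ) = 1 := rfl
    refine ⟨g, ?_, ?_⟩
    · rw [Gamma1_mem, e00, e10, e11]
      refine ⟨by simp, by simp, ?_⟩
      push_cast
      simp
    · unfold colInv
      rw [e00, e10]
      have h1 : (((1 : ℤ) : ℤ) : ZMod p) ≠ 0 := by
        rw [Int.cast_one]
        exact one_ne_zero
      rw [if_neg h1]
      congr 1
      have hk : ((k : ℤ) : ZMod p) = x * ((M : ℕ) : ZMod p)⁻¹ := by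
        show (((x * ((M : ℕ) : ZMod p)⁻¹).val : ℤ) : ZMod p) = _
        rw [Int.cast_natCast, ZMod.natCast_zmod_val]
      push_cast
      rw [hk, div_one]
      field_simp

end Col

section Index

variable (M p : ℕ)

theorem PG1p_le_PG1 : PG1p M p ≤ PG1 M := inf_le_left

/-- **the index of `±Γ₁(M) ∩ Γ₀(p)` in `±Γ₁(M)`** -/
theorem relIndex_PG1p (hp : p.Prime) (hpM : ¬ p ∣ M) : (PG1p M p).relIndex (PG1 M) = p + 1 := by
  haveI : Fact p.Prime := ⟨hp⟩
  haveI : NeZero p := ⟨hp.ne_zero⟩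
  classical
  rw [Subgroup.relIndex, Subgroup.index]
  -- the map to the projective line
  let f : (PG1 M) ⧸ ((PG1p M p).subgroupOf (PG1 M)) → Option (ZMod p) :=
    Quotient.lift (fun g : PG1 M => colInv p (g : SL(2, ℤ))) (by
      intro a b hab
      have h1 : a⁻¹ * b ∈ (PG1p M p).subgroupOf (PG1 M) := QuotientGroup.leftRel_apply.1 hab
      rw [Subgroup.mem_subgroupOf] at h1
      have h2 : ((a : SL(2, ℤ)))⁻¹ * (b : SL(2, ℤ)) ∈ Gamma0 p := h1.2
      exact (inv_mul_mem_Gamma0_iff p _ _).1 h2)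
  have hinj : Function.Injective f := by
    intro x y hxy
    induction x using Quotient.inductionOn with
    | _ a =>
    induction y using Quotient.inductionOn with
    | _ b =>
    have h1 : colInv p (a : SL(2, ℤ)) = colInv p (b : SL(2, ℤ)) := hxy
    have h2 := (inv_mul_mem_Gamma0_iff p _ _).2 h1
    apply Quotient.sound
    apply QuotientGroup.leftRel_apply.2
    rw [Subgroup.mem_subgroupOf]
    exact ⟨(PG1 M).mul_mem ((PG1 M).inv_mem a.2) b.2, h2⟩
  have hsurj : Function.Surjective f := by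
    intro x
    obtain ⟨g, hg, hx⟩ := exists_Gamma1_colInv p M hpM x
    exact ⟨Quotient.mk _ ⟨g, Gamma1_le_PG1 M hg⟩, hx⟩
  rw [Nat.card_congr (Equiv.ofBijective f ⟨hinj, hsurj⟩), Nat.card_eq_fintype_card,
    Fintype.card_option, ZMod.card]

variable [NeZero M] [NeZero p]

/-- the number of cosets of `±Γ₁(M) ∩ Γ₀(p)` -/
theorem card_X_x1pData (hp : p.Prime) (hpM : ¬ p ∣ M) :
    Nat.card (x1pData M p).X = (p + 1) * Nat.card (x1Data M).X := by
  have h := Subgroup.relIndex_mul_index (PG1p_le_PG1 M p)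
  rw [relIndex_PG1p M p hp hpM] at h
  exact h.symm

end Index

end Fermat.Agent.T4.helper10

end
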