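import Mathlib
import Fermat.Agent.T4.helper10_X1pIndex
import Fermat.Agent.T4.helper77_DegSys
import Fermat.Agent.P2.helper93_ESDegree

/-!
# T4 block (I), I-FLD [X1P-SYS] (helper10): the degree of the curve of triples over `X₁(M)`

* `finrank_of_isSys` : for a generator system `D` and ANY `E` with `E = D.fieldQ`, the degree of
  `laurentBaseChange ℚ̄ E` over `ℚ̄(x)`, `x = j`, is the index of `D.Γ` (transport of
  `helper77.deg_of` along the equality of fields);
* `finrank_F1`, `finrank_F1p` : the instances `F1 M`, `F1p M p`;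
* `finrank_alpha1` : `[F1p M p : α₁ (F1 M)] = p + 1` for a prime `p ∤ M`.
-/

set_option autoImplicit false
set_option linter.unusedSectionVars false
set_option linter.unusedVariables false
set_option linter.style.haveILetI false

noncomputable section

open UpperHalfPlane ModularCurve CongruenceSubgroup IntermediateField AlgebraicCurve
open scoped MatrixGroups

namespace Fermat.Agent.T4.helper10

open Fermat.Agent.S24 hiding Kbar
open Fermat.Agent.T4.helper32 Fermat.Agent.T4.helper24

/-- transport of `helper77.deg_of` to any field equal to the field of the generator system -/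
theorem finrank_of_isSys (D : GenData) (hD : D.IsSys)
    (E : IntermediateField ℚ (LaurentSeries ℚ)) (hE : E = D.fieldQ)
    (x : laurentBaseChange Kbar E) (hx : (x : LaurentSeries Kbar) = coeffEmb Kbar jq) :
    Transcendental Kbar x ∧ ∃ _ : FiniteDimensional Kbar⟮x⟯ (laurentBaseChange Kbar E),
      Module.finrank Kbar⟮x⟯ (laurentBaseChange Kbar E) = Nat.card D.X := by
  subst hE
  have hx' : x = D.xJ Kbar := by
    apply Subtype.ext
    rw [hx]
    show _ = coeffEmb Kbar (D.serQ D.j0)
    rw [hD.serQ_j0]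
  rw [hx']
  exact (helper77.deg_of D hD).1

variable (M p : ℕ) [NeZero M] [NeZero p]

/-- `j` as an element of `F1 M` -/
def jF1 : F1 M :=
  ⟨coeffEmb Kbar jq, FF_le_F1 M (coeffEmb_mem_laurentBaseChange Kbar
    (IntermediateField.subset_adjoin ℚ _ ⟨1, ⟨one_ne_zero⟩, one_dvd M, (qExpand_one_apply jq).symm⟩))⟩

theorem coe_jF1 : ((jF1 M : F1 M) : LaurentSeries Kbar) = coeffEmb Kbar jq := rfl

theorem coe_alpha1_jF1 :
    ((alpha1 Kbar M p (jF1 M) : F1p M p) : LaurentSeries Kbar) = coeffEmb Kbar jq := by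
  rw [coe_alpha1, coe_jF1]

/-- the degree of `F1 M` over `ℚ̄(j)` -/
theorem finrank_F1 (hS : (x1Data M).IsSys) :
    Module.finrank Kbar⟮jF1 M⟯ (F1 M) = Nat.card (x1Data M).X :=
  (finrank_of_isSys (x1Data M) hS (F1Q M) (x1Field M) (jF1 M) (coe_jF1 M)).2.choose_spec

/-- the degree of `F1p M p` over `ℚ̄(j)` -/
theorem finrank_F1p (hS : (x1Data M).IsSys) (hpM : Nat.Coprime p M) :
    Module.finrank Kbar⟮alpha1 Kbar M p (jF1 M)⟯ (F1p M p) = Nat.card (x1pData M p).X :=
  (finrank_of_isSys (x1pData M p) (x1pSys_of M p hS hpM) (F1Qp M p) (x1pField M p)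
    (alpha1 Kbar M p (jF1 M)) (coe_alpha1_jF1 M p)).2.choose_spec

theorem finiteDimensional_F1 (hS : (x1Data M).IsSys) :
    FiniteDimensional Kbar⟮jF1 M⟯ (F1 M) :=
  (finrank_of_isSys (x1Data M) hS (F1Q M) (x1Field M) (jF1 M) (coe_jF1 M)).2.choose

theorem finiteDimensional_F1p (hS : (x1Data M).IsSys) (hpM : Nat.Coprime p M) :
    FiniteDimensional Kbar⟮alpha1 Kbar M p (jF1 M)⟯ (F1p M p) :=
  (finrank_of_isSys (x1pData M p) (x1pSys_of M p hS hpM) (F1Qp M p) (x1pField M p)
    (alpha1 Kbar M p (jF1 M)) (coe_alpha1_jF1 M p)).2.choose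

theorem transcendental_jF1 (hS : (x1Data M).IsSys) : Transcendental Kbar (jF1 M) :=
  (finrank_of_isSys (x1Data M) hS (F1Q M) (x1Field M) (jF1 M) (coe_jF1 M)).1

theorem card_X_x1Data_pos (hS : (x1Data M).IsSys) : 0 < Nat.card (x1Data M).X := by
  haveI := helper77.finiteIndex_of_isSys (x1Data M) hS
  exact Nat.pos_of_ne_zero (Subgroup.FiniteIndex.index_ne_zero (H := (x1Data M).Γ))

/-- **Degree of `F1p M p` over `α₁ (F1 M)`.** -/
theorem finrank_alpha1 (hS : (x1Data M).IsSys) (hp : p.Prime) (hpM : ¬ p ∣ M) :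
    letI := algebraAlong (alpha1 Kbar M p)
    Module.finrank (F1 M) (F1p M p) = p + 1 := by
  have hcop : Nat.Coprime p M := (Nat.Prime.coprime_iff_not_dvd hp).2 hpM
  have tower := Fermat.Agent.P2.helper93.finrank_tower_along (alpha1 Kbar M p) (jF1 M)
  rw [finrank_F1 M hS, finrank_F1p M p hS hcop, card_X_x1pData M p hp hpM] at tower
  exact Nat.eq_of_mul_eq_mul_left (card_X_x1Data_pos M hS) (tower.trans (mul_comm _ _))

end Fermat.Agent.T4.helper10

end
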