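import Mathlib
import Fermat.Agent.T4.helper44_WpDiv

/-!
# T4 (I) / [I-FLD-WP] (helper44): functions on the upper half plane given by power series in `q_M`

If `∑ c_e q_M(τ)^e` converges for every `τ` in the upper half plane (`q_M = e^{2 π i τ / M}`), then
the sum is holomorphic, `M`-periodic, bounded for `Im τ ≥ 1`, and, if some `c_e ≠ 0`, bounded below
by `C |q_M|^K` for `Im τ` large.  Mathlib only.
-/

set_option autoImplicit false
set_option linter.unusedSectionVars false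

open Complex Filter Topology
open UpperHalfPlane hiding I
open scoped Real

namespace Fermat.Agent.T4.helper44

noncomputable section

/-- `q_M` as a function on `ℂ` -/
def qC (M : ℕ) (z : ℂ) : ℂ := cexp (2 * π * I * z / M)

lemma qC_coe (M : ℕ) (τ : ℍ) : qC M (τ : ℂ) = qM M τ := rfl

lemma norm_qC (M : ℕ) (z : ℂ) : ‖qC M z‖ = Real.exp (-(2 * π * z.im / M)) := by
  rw [qC, Complex.norm_exp]
  congr 1
  have : (2 * π * I * z / M : ℂ) = ((2 * π / M : ℝ) : ℂ) * (I * z) := by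
    push_cast; ring
  rw [this, Complex.re_ofReal_mul]
  simp
  ring

lemma qC_add (M : ℕ) [NeZero M] (z : ℂ) : qC M (z + M) = qC M z := by
  have hM : (M : ℂ) ≠ 0 := by exact_mod_cast NeZero.ne M
  rw [qC, qC]
  have : 2 * π * I * (z + M) / M = 2 * π * I * z / M + 2 * π * I := by
    field_simp
  rw [this, Complex.exp_add, Complex.exp_two_pi_mul_I, mul_one]

lemma differentiable_qC (M : ℕ) : Differentiable ℂ (qC M) := by
  unfold qC
  fun_prop

/-- the point `i t` -/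
def iT (t : ℝ) (ht : 0 < t) : ℍ := ⟨I * t, by simpa using ht⟩

lemma norm_qM_iT (M : ℕ) (t : ℝ) (ht : 0 < t) :
    ‖qM M (iT t ht)‖ = Real.exp (-(2 * π * t / M)) := by
  rw [← qC_coe, norm_qC]
  simp [iT]

variable {M : ℕ} [NeZero M] {c : ℕ → ℂ}

/-- absolute convergence on `Im z ≥ t` -/
lemma summable_norm_of_hs (hs : ∀ τ : ℍ, Summable fun e => c e * qM M τ ^ e) (t : ℝ)
    (ht : 0 < t) : Summable fun e => ‖c e‖ * Real.exp (-(2 * π * t / M)) ^ e := by
  have h := (hs (iT t ht)).norm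
  refine h.congr fun e => ?_
  rw [norm_mul, norm_pow, norm_qM_iT]

lemma norm_term_le (t : ℝ) (z : ℂ) (hz : t ≤ z.im) (e : ℕ) :
    ‖c e * qC M z ^ e‖ ≤ ‖c e‖ * Real.exp (-(2 * π * t / M)) ^ e := by
  rw [norm_mul, norm_pow, norm_qC]
  have hM : (0 : ℝ) < M := Nat.cast_pos.mpr (NeZero.pos M)
  have h1 : Real.exp (-(2 * π * z.im / M)) ≤ Real.exp (-(2 * π * t / M)) := by
    apply Real.exp_le_exp.mpr
    have : 2 * π * t / M ≤ 2 * π * z.im / M := by
      apply div_le_div_of_nonneg_right _ hM.le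
      have := Real.pi_pos
      nlinarith
    linarith
  gcongr

/-- the sum of the series, as a function on `ℂ` -/
def psFun (M : ℕ) (c : ℕ → ℂ) (z : ℂ) : ℂ := ∑' e, c e * qC M z ^ e

lemma psFun_coe (hs : ∀ τ : ℍ, Summable fun e => c e * qM M τ ^ e) (τ : ℍ) :
    HasSum (fun e => c e * qM M τ ^ e) (psFun M c τ) :=
  (hs τ).hasSum

lemma psFun_eq {g : ℍ → ℂ} (h : ∀ τ : ℍ, HasSum (fun e => c e * qM M τ ^ e) (g τ)) (τ : ℍ) :
    g τ = psFun M c τ :=
  ((h τ).unique (psFun_coe (fun τ => (h τ).summable) τ))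

lemma psFun_add (z : ℂ) : psFun M c (z + M) = psFun M c z := by
  simp only [psFun, qC_add]

/-- holomorphy -/
theorem differentiableOn_psFun (hs : ∀ τ : ℍ, Summable fun e => c e * qM M τ ^ e) :
    DifferentiableOn ℂ (psFun M c) {z | 0 < z.im} := by
  intro z hz
  have hz' : 0 < z.im := hz
  have ht : 0 < z.im / 2 := by positivity
  have hopen : IsOpen {w : ℂ | z.im / 2 < w.im} :=
    isOpen_lt continuous_const Complex.continuous_im
  have hd : DifferentiableOn ℂ (psFun M c) {w : ℂ | z.im / 2 < w.im} := by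
    refine differentiableOn_tsum_of_summable_norm (summable_norm_of_hs hs _ ht) (fun e => ?_) hopen
      (fun e w hw => norm_term_le _ w (le_of_lt hw) e)
    exact ((differentiable_qC M).pow e).const_mul (c e) |>.differentiableOn
  have hmem : z ∈ {w : ℂ | z.im / 2 < w.im} := by
    show z.im / 2 < z.im
    linarith
  exact ((hd z hmem).differentiableAt (hopen.mem_nhds hmem)).differentiableWithinAt

/-- boundedness at `i∞` -/
theorem psFun_bounded (hs : ∀ τ : ℍ, Summable fun e => c e * qM M τ ^ e) :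
    ∃ B : ℝ, ∀ z : ℂ, 1 ≤ z.im → ‖psFun M c z‖ ≤ B := by
  have h1 := summable_norm_of_hs hs 1 one_pos
  refine ⟨∑' e, ‖c e‖ * Real.exp (-(2 * π * 1 / M)) ^ e, fun z hz => ?_⟩
  have h2 : Summable fun e => ‖c e * qC M z ^ e‖ :=
    Summable.of_nonneg_of_le (fun e => norm_nonneg _) (fun e => norm_term_le 1 z hz e) h1
  exact (norm_tsum_le_tsum_norm h2).trans (h2.tsum_le_tsum (fun e => norm_term_le 1 z hz e) h1)

/-- lower bound at `i∞` for a series which is not identically zero -/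
theorem psFun_lower (hs : ∀ τ : ℍ, Summable fun e => c e * qM M τ ^ e) (h : ∃ e, c e ≠ 0) :
    ∃ (K : ℕ) (C A : ℝ), 0 < C ∧ ∀ z : ℂ, A ≤ z.im → C * ‖qC M z‖ ^ K ≤ ‖psFun M c z‖ := by
  classical
  have hM : (0 : ℝ) < M := Nat.cast_pos.mpr (NeZero.pos M)
  set e₀ := Nat.find h with he₀
  have hc₀ : c e₀ ≠ 0 := Nat.find_spec h
  have hlt : ∀ e < e₀, c e = 0 := fun e he => by
    by_contra hne
    exact Nat.find_min h he hne
  set ρ : ℝ := Real.exp (-(2 * π * 1 / M)) with hρ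
  have hρpos : 0 < ρ := Real.exp_pos _
  have h1 : Summable fun e => ‖c e‖ * ρ ^ e := summable_norm_of_hs hs 1 one_pos
  have h2 : Summable fun i => ‖c (i + (e₀ + 1))‖ * ρ ^ i := by
    have h3 := ((summable_nat_add_iff (e₀ + 1)).mpr h1).mul_left ((ρ ^ (e₀ + 1))⁻¹)
    refine h3.congr fun i => ?_
    have hne : ρ ^ (e₀ + 1) ≠ 0 := pow_ne_zero _ hρpos.ne'
    field_simp
    ring
  set T : ℝ := ∑' i, ‖c (i + (e₀ + 1))‖ * ρ ^ i with hT
  have hTnn : 0 ≤ T := tsum_nonneg fun i => by positivity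
  set δ : ℝ := ‖c e₀‖ / (2 * (T + 1)) with hδ
  have hδpos : 0 < δ := by
    have : 0 < ‖c e₀‖ := norm_pos_iff.mpr hc₀
    positivity
  refine ⟨e₀, ‖c e₀‖ / 2, max 1 (-(M * Real.log δ / (2 * π))), by
    have : 0 < ‖c e₀‖ := norm_pos_iff.mpr hc₀
    positivity, fun z hz => ?_⟩
  have hz1 : 1 ≤ z.im := le_trans (le_max_left _ _) hz
  have hz2 : -(M * Real.log δ / (2 * π)) ≤ z.im := le_trans (le_max_right _ _) hz
  set x := qC M z with hx
  have hxρ : ‖x‖ ≤ ρ := by
    rw [hx, norm_qC, hρ]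
    apply Real.exp_le_exp.mpr
    have : 2 * π * 1 / M ≤ 2 * π * z.im / M := by
      apply div_le_div_of_nonneg_right _ hM.le
      have := Real.pi_pos
      nlinarith
    linarith
  have hxδ : ‖x‖ ≤ δ := by
    rw [hx, norm_qC, ← Real.exp_log hδpos]
    apply Real.exp_le_exp.mpr
    have hpi := Real.pi_pos
    have h5 : -(M * Real.log δ) ≤ 2 * π * z.im := by
      have := (div_le_iff₀ (by positivity : (0 : ℝ) < 2 * π)).mp (by
        have : -(M * Real.log δ) / (2 * π) ≤ z.im := by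
          rw [neg_div]; exact hz2
        exact this)
      linarith
    have h6 : -(2 * π * z.im / M) ≤ Real.log δ := by
      rw [neg_le, le_div_iff₀ hM]
      linarith
    exact h6
  -- summability of the series at `z`
  have hsz : Summable fun e => c e * x ^ e := by
    refine Summable.of_norm_bounded h1 fun e => ?_
    exact norm_term_le 1 z hz1 e
  have hsplit := hsz.sum_add_tsum_nat_add (e₀ + 1)
  have hfin : ∑ i ∈ Finset.range (e₀ + 1), c i * x ^ i = c e₀ * x ^ e₀ := by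
    rw [Finset.sum_range_succ, Finset.sum_eq_zero, zero_add]
    intro i hi
    rw [hlt i (Finset.mem_range.mp hi), zero_mul]
  have htail : ∑' i, c (i + (e₀ + 1)) * x ^ (i + (e₀ + 1))
      = x ^ (e₀ + 1) * ∑' i, c (i + (e₀ + 1)) * x ^ i := by
    rw [← tsum_mul_left]
    refine tsum_congr fun i => ?_
    rw [pow_add]; ring
  have htailn : ‖∑' i, c (i + (e₀ + 1)) * x ^ i‖ ≤ T := by
    have h7 : ∀ i, ‖c (i + (e₀ + 1)) * x ^ i‖ ≤ ‖c (i + (e₀ + 1))‖ * ρ ^ i := fun i => by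
      rw [norm_mul, norm_pow]
      gcongr
    have h8 : Summable fun i => ‖c (i + (e₀ + 1)) * x ^ i‖ :=
      Summable.of_nonneg_of_le (fun i => norm_nonneg _) h7 h2
    exact (norm_tsum_le_tsum_norm h8).trans (h8.tsum_le_tsum h7 h2)
  have hps : psFun M c z = c e₀ * x ^ e₀ + x ^ (e₀ + 1) * ∑' i, c (i + (e₀ + 1)) * x ^ i := by
    rw [psFun, ← hsplit, hfin, htail]
  rw [hps]
  have hxnn : 0 ≤ ‖x‖ := norm_nonneg _
  have h9 : ‖x ^ (e₀ + 1) * ∑' i, c (i + (e₀ + 1)) * x ^ i‖ ≤ ‖x‖ ^ e₀ * (‖c e₀‖ / 2) := by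
    rw [norm_mul, norm_pow, pow_succ, mul_assoc]
    apply mul_le_mul_of_nonneg_left _ (pow_nonneg hxnn _)
    calc ‖x‖ * ‖∑' i, c (i + (e₀ + 1)) * x ^ i‖ ≤ δ * T := by gcongr
      _ ≤ ‖c e₀‖ / 2 := by
          rw [hδ]
          have hT1 : 0 < T + 1 := by linarith
          rw [div_mul_eq_mul_div, div_le_div_iff₀ (by positivity) (by norm_num)]
          have : 0 ≤ ‖c e₀‖ := norm_nonneg _
          nlinarith
  have h10 : ‖c e₀ * x ^ e₀‖ = ‖c e₀‖ * ‖x‖ ^ e₀ := by rw [norm_mul, norm_pow]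
  have h11 := norm_sub_le_norm_add (c e₀ * x ^ e₀ + x ^ (e₀ + 1) * ∑' i, c (i + (e₀ + 1)) * x ^ i)
    (-(x ^ (e₀ + 1) * ∑' i, c (i + (e₀ + 1)) * x ^ i))
  have h12 := norm_add_le (c e₀ * x ^ e₀ + x ^ (e₀ + 1) * ∑' i, c (i + (e₀ + 1)) * x ^ i)
    (-(x ^ (e₀ + 1) * ∑' i, c (i + (e₀ + 1)) * x ^ i))
  rw [add_neg_cancel_right, norm_neg, h10] at h12
  nlinarith

end

end Fermat.Agent.T4.helper44
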