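import Mathlib
import Fermat.Agent.T4.helper44_WpLaw
import Fermat.Agent.T4.helper44_WpNice

/-!
# T4 (I) / [I-FLD-WP] (helper44): the weight two slashes of `wpD M a b` by all of `SL(2, ℤ)`

* (D4) `wpD_eq_sum` : `wpD M a b τ = M⁻² ∑_{k < M} (℘(P_k) - ℘(P'_k))` for the lattice `ℤ + ℤ τ`,
  `P_k = (a τ - k) / M` (cosets of `⟨M, M τ⟩` in `⟨1, M τ⟩`);
* (D2) `wp_latP_smul` : the `SL(2, ℤ)`-law of the division values;
* `hasSum_wpD_slash` : `(c τ + d)⁻² wpD M a b (g τ)` is an explicit power series in `q_M`, for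
  every `g ∈ SL(2, ℤ)`; hence holomorphic and bounded for `Im τ ≥ 1`.

Mathlib only.
-/

set_option autoImplicit false
set_option linter.unusedSectionVars false

open Complex Filter Topology PeriodPair
open UpperHalfPlane hiding I
open scoped Real MatrixGroups

namespace Fermat.Agent.T4.helper44

noncomputable section

/-- the lattice sum of a difference, over `ℤ × ℤ` -/
lemma hasSum_latP_diff (τ : ℍ) (z z' : ℂ) :
    HasSum (fun x : ℤ × ℤ => 1 / (z - ((x.1 : ℂ) + x.2 * τ)) ^ 2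
      - 1 / (z' - ((x.1 : ℂ) + x.2 * τ)) ^ 2) (℘[latP τ] z - ℘[latP τ] z') := by
  have h1 := ((latP τ).hasSum_weierstrassP z).sub ((latP τ).hasSum_weierstrassP z')
  have h := ((latP τ).latticeEquivProd.symm.toEquiv.hasSum_iff).mpr h1
  refine hasSum_of_eq h fun x => ?_
  simp only [Function.comp_apply, LinearEquiv.coe_toEquiv, latticeEquiv_symm_apply,
    latP_ω₁, latP_ω₂, mul_one]
  ring

variable (M : ℕ) [NeZero M]

/-- the reindexing `(k, (m', n)) ↦ (m' M + k, n)` -/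
def cosetEquiv : Fin M × (ℤ × ℤ) ≃ ℤ × ℤ :=
  ((Equiv.prodAssoc (Fin M) ℤ ℤ).symm.trans
    ((Equiv.prodComm (Fin M) ℤ).prodCongr (Equiv.refl ℤ))).trans
    ((Int.divModEquiv M).symm.prodCongr (Equiv.refl ℤ))

lemma cosetEquiv_apply (k : Fin M) (m n : ℤ) :
    cosetEquiv M (k, (m, n)) = (m * M + ((k : ℕ) : ℤ), n) := rfl

/-- **(D4)** cosets of `⟨M, M τ⟩` in `⟨1, M τ⟩`. -/
theorem wpD_eq_sum (a b : ℤ) (τ : ℍ) :
    wpD M a b τ = ((M : ℂ) ^ 2)⁻¹ * ∑ k : Fin M,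
      (℘[latP τ] (divPt M τ a (-((k : ℕ) : ℤ))) - ℘[latP τ] (divPt M τ b (-((k : ℕ) : ℤ)))) := by
  have hM : (M : ℂ) ≠ 0 := by exact_mod_cast NeZero.ne M
  have h1 := hasSum_latP_diff (scaleTau M τ) ((a : ℂ) * τ) ((b : ℂ) * τ)
  have h2 := (cosetEquiv M).hasSum_iff.mpr h1
  have h3 := h2.prod_fiberwise (g := fun k : Fin M => ((M : ℂ) ^ 2)⁻¹ *
      (℘[latP τ] (divPt M τ a (-((k : ℕ) : ℤ))) - ℘[latP τ] (divPt M τ b (-((k : ℕ) : ℤ)))))
    (fun k => by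
      have h4 := (hasSum_latP_diff τ (divPt M τ a (-((k : ℕ) : ℤ)))
        (divPt M τ b (-((k : ℕ) : ℤ)))).mul_left (((M : ℂ) ^ 2)⁻¹)
      refine hasSum_of_eq h4 fun x => ?_
      obtain ⟨m, n⟩ := x
      simp only [Function.comp_apply, cosetEquiv_apply, coe_scaleTau, divPt]
      have e1 : ∀ c : ℤ, ((c : ℂ) * τ + ((-((k : ℕ) : ℤ) : ℤ) : ℂ)) / M - ((m : ℂ) + n * τ)
          = ((M : ℂ))⁻¹ * ((c : ℂ) * τ - (((m * M + ((k : ℕ) : ℤ) : ℤ) : ℂ) + n * (M * τ))) := by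
        intro c
        push_cast
        field_simp
        ring
      rw [e1 a, e1 b]
      simp only [mul_pow, one_div, mul_inv, inv_pow, inv_inv]
      field_simp)
  have h5 := hasSum_fintype (fun k : Fin M => ((M : ℂ) ^ 2)⁻¹ *
      (℘[latP τ] (divPt M τ a (-((k : ℕ) : ℤ))) - ℘[latP τ] (divPt M τ b (-((k : ℕ) : ℤ)))))
  have h6 := h3.unique h5
  rw [Finset.mul_sum]
  exact h6

/-! ### the `SL(2, ℤ)`-law of the division values -/

/-- the lattice `⟨1, g τ⟩` is `(c τ + d)⁻¹ ⟨1, τ⟩` -/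
lemma mem_latP_smul (g : SL(2, ℤ)) (τ : ℍ) (x : ℂ) :
    x ∈ (latP (g • τ)).lattice ↔ ∃ y ∈ (latP τ).lattice, x = (jfac g τ)⁻¹ * y := by
  have hj := jfac_ne_zero g τ
  have hdet := det_eq_one g
  have hdetC : ((g 0 0 : ℤ) : ℂ) * ((g 1 1 : ℤ) : ℂ) - ((g 0 1 : ℤ) : ℂ) * ((g 1 0 : ℤ) : ℂ)
      = 1 := by exact_mod_cast congrArg (fun x : ℤ => (x : ℂ)) hdet
  constructor
  · intro hx
    obtain ⟨m, n, rfl⟩ := mem_latP.1 hx
    refine ⟨_, mem_latP.2 ⟨m * g 1 1 + n * g 0 1, m * g 1 0 + n * g 0 0, rfl⟩, ?_⟩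
    rw [coe_smul_eq]
    field_simp
    simp only [jfac]
    push_cast
    ring
  · rintro ⟨y, hy, rfl⟩
    obtain ⟨p, q, rfl⟩ := mem_latP.1 hy
    refine mem_latP.2 ⟨g 0 0 * p - g 0 1 * q, - g 1 0 * p + g 1 1 * q, ?_⟩
    rw [coe_smul_eq]
    field_simp
    simp only [jfac]
    push_cast
    linear_combination ((p : ℂ) + q * τ) * hdetC

/-- **(D2)** the `SL(2, ℤ)`-law of the division values. -/
theorem wp_latP_smul (g : SL(2, ℤ)) (τ : ℍ) (r s : ℤ) :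
    ℘[latP (g • τ)] (divPt M (g • τ) r s)
      = jfac g τ ^ 2 * ℘[latP τ] (divPt M τ (r * g 0 0 + s * g 1 0) (r * g 0 1 + s * g 1 1)) := by
  have hj := jfac_ne_zero g τ
  have hM : (M : ℂ) ≠ 0 := by exact_mod_cast NeZero.ne M
  have h1 := weierstrassP_homog (latP τ) (latP (g • τ)) (jfac g τ)⁻¹ (inv_ne_zero hj)
    (mem_latP_smul g τ) (divPt M τ (r * g 0 0 + s * g 1 0) (r * g 0 1 + s * g 1 1))
  have h2 : divPt M (g • τ) r s
      = (jfac g τ)⁻¹ * divPt M τ (r * g 0 0 + s * g 1 0) (r * g 0 1 + s * g 1 1) := by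
    simp only [divPt]
    rw [coe_smul_eq]
    field_simp
    simp only [jfac]
    push_cast
    ring
  rw [h2, h1]
  simp

/-- the coefficients of the slash of `wpD M a b` by `g` -/
def cSlash (g : SL(2, ℤ)) (a b : ℤ) (e : ℕ) : ℂ :=
  ((M : ℂ) ^ 2)⁻¹ * ∑ k : Fin M,
    (cDiv M (a * g 0 0 + (-((k : ℕ) : ℤ)) * g 1 0) (a * g 0 1 + (-((k : ℕ) : ℤ)) * g 1 1) e
      - cDiv M (b * g 0 0 + (-((k : ℕ) : ℤ)) * g 1 0) (b * g 0 1 + (-((k : ℕ) : ℤ)) * g 1 1) e)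

/-- **The slash of `wpD M a b` by any `g ∈ SL(2, ℤ)` is a power series in `q_M`.** -/
theorem hasSum_wpD_slash (g : SL(2, ℤ)) (a b : ℤ) (τ : ℍ) :
    HasSum (fun e : ℕ => cSlash M g a b e * qM M τ ^ e)
      ((jfac g τ ^ 2)⁻¹ * wpD M a b (g • τ)) := by
  have hj := jfac_ne_zero g τ
  have h1 : (jfac g τ ^ 2)⁻¹ * wpD M a b (g • τ) = ((M : ℂ) ^ 2)⁻¹ * ∑ k : Fin M,
      (℘[latP τ] (divPt M τ (a * g 0 0 + (-((k : ℕ) : ℤ)) * g 1 0)
          (a * g 0 1 + (-((k : ℕ) : ℤ)) * g 1 1))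
        - ℘[latP τ] (divPt M τ (b * g 0 0 + (-((k : ℕ) : ℤ)) * g 1 0)
          (b * g 0 1 + (-((k : ℕ) : ℤ)) * g 1 1))) := by
    rw [wpD_eq_sum M a b (g • τ)]
    simp only [wp_latP_smul M g τ, ← mul_sub, ← Finset.mul_sum]
    field_simp
  rw [h1]
  have h2 := (hasSum_sum (s := Finset.univ) (f := fun (k : Fin M) (e : ℕ) =>
    (cDiv M (a * g 0 0 + (-((k : ℕ) : ℤ)) * g 1 0) (a * g 0 1 + (-((k : ℕ) : ℤ)) * g 1 1) e
      - cDiv M (b * g 0 0 + (-((k : ℕ) : ℤ)) * g 1 0) (b * g 0 1 + (-((k : ℕ) : ℤ)) * g 1 1) e)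
      * qM M τ ^ e) (fun k _ => hasSum_divPt M τ _ _ _ _)).mul_left (((M : ℂ) ^ 2)⁻¹)
  refine hasSum_of_eq h2 fun e => ?_
  rw [cSlash, mul_assoc, Finset.sum_mul]

/-- the slash of `wpD M a b` by `g`, as a function on `ℂ` -/
def slashFun (g : SL(2, ℤ)) (a b : ℤ) : ℂ → ℂ := psFun M (cSlash M g a b)

theorem slashFun_coe (g : SL(2, ℤ)) (a b : ℤ) (τ : ℍ) :
    slashFun M g a b τ = (jfac g τ ^ 2)⁻¹ * wpD M a b (g • τ) :=
  (psFun_eq (fun τ => hasSum_wpD_slash M g a b τ) τ).symm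

theorem differentiableOn_slashFun (g : SL(2, ℤ)) (a b : ℤ) :
    DifferentiableOn ℂ (slashFun M g a b) {z | 0 < z.im} :=
  differentiableOn_psFun fun τ => (hasSum_wpD_slash M g a b τ).summable

theorem slashFun_bounded (g : SL(2, ℤ)) (a b : ℤ) :
    ∃ B : ℝ, ∀ z : ℂ, 1 ≤ z.im → ‖slashFun M g a b z‖ ≤ B :=
  psFun_bounded fun τ => (hasSum_wpD_slash M g a b τ).summable

theorem slashFun_add (g : SL(2, ℤ)) (a b : ℤ) (z : ℂ) :
    slashFun M g a b (z + M) = slashFun M g a b z :=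
  psFun_add z

end

end Fermat.Agent.T4.helper44
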