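import Mathlib
import Fermat.Agent.S24.helper77_SymmFun

/-! # T4 (I) / I-FLD, generic growth lemma (helper77)

The inverse of a nowhere vanishing holomorphic function on the upper half plane which is periodic
(of some period `N ≥ 1`) and of at most exponential growth at `i∞` is again of at most exponential
growth at `i∞`: `inv_mem_holoExp_of_periodic`.  (The function is meromorphic at the cusp in the
local parameter `q^{1/N}`, and not identically zero, so it is bounded below by a power of `|q|`.)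

Consequently no lower bounds have to be proved by hand for modular units: upper bounds for all
translates, periodicity and non-vanishing suffice (`div_mem_holoExp_of_periodic`).
-/

set_option autoImplicit false

noncomputable section

open UpperHalfPlane Filter Asymptotics Function
open scoped Topology Manifold MatrixGroups

namespace Fermat.Agent.T4.helper77

open Fermat.Agent.S24.helper77

local notation "𝕢" => Function.Periodic.qParam

theorem ofComplex_add_natCast {z : ℂ} (N : ℕ) (hz : 0 < z.im) :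
    ofComplex (z + ((N : ℝ) : ℂ)) = (N : ℝ) +ᵥ ofComplex z := by
  have hz' : 0 < (z + ((N : ℝ) : ℂ)).im := by simpa using hz
  apply UpperHalfPlane.ext
  rw [ofComplex_apply_of_im_pos hz', UpperHalfPlane.coe_vadd, ofComplex_apply_of_im_pos hz]
  simp [add_comm]

theorem periodic_comp_ofComplex_natCast {s : ℍ → ℂ} {N : ℕ}
    (hper : ∀ τ : ℍ, s ((N : ℝ) +ᵥ τ) = s τ) :
    Function.Periodic (s ∘ ofComplex) ((N : ℝ) : ℂ) := by
  intro z
  simp only [Function.comp_apply]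
  by_cases hz : 0 < z.im
  · rw [ofComplex_add_natCast N hz, hper]
  · have hz1 : z.im ≤ 0 := not_lt.mp hz
    have hz' : (z + ((N : ℝ) : ℂ)).im ≤ 0 := by simpa using hz1
    rw [ofComplex_apply_eq_of_im_nonpos hz' hz1]

theorem norm_qParamN_pow {N : ℕ} (hN : 0 < N) (k : ℕ) (τ : ℍ) :
    ‖𝕢 (N : ℝ) τ ^ k‖ = Real.exp (-(2 * Real.pi * k * τ.im / N)) := by
  have hN' : (N : ℝ) ≠ 0 := by exact_mod_cast hN.ne'
  rw [norm_pow, Function.Periodic.norm_qParam, ← Real.exp_nat_mul]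
  congr 1
  simp only [UpperHalfPlane.coe_im]
  field_simp

theorem mdiff_qParamN_pow (N k : ℕ) : MDiff (fun τ : ℍ => 𝕢 (N : ℝ) τ ^ k) := by
  rw [UpperHalfPlane.mdifferentiable_iff]
  have h1 : Differentiable ℂ (fun z : ℂ => 𝕢 (N : ℝ) z ^ k) :=
    (Function.Periodic.differentiable_qParam (h := (N : ℝ))).pow k
  refine h1.differentiableOn.congr fun z hz => ?_
  simp only [comp_apply]
  rw [ofComplex_apply_of_im_pos hz]

theorem qParamN_vadd {N : ℕ} (hN : 0 < N) (τ : ℍ) :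
    𝕢 (N : ℝ) (((N : ℝ) +ᵥ τ : ℍ) : ℂ) = 𝕢 (N : ℝ) (τ : ℂ) := by
  have hN' : ((N : ℝ) : ℂ) ≠ 0 := by exact_mod_cast hN.ne'
  rw [UpperHalfPlane.coe_vadd, Function.Periodic.qParam, Function.Periodic.qParam]
  have : 2 * (Real.pi : ℂ) * Complex.I * (((N : ℝ) : ℂ) + (τ : ℂ)) / ((N : ℝ) : ℂ)
      = 2 * (Real.pi : ℂ) * Complex.I * (τ : ℂ) / ((N : ℝ) : ℂ) + 2 * (Real.pi : ℂ) * Complex.I := by
    field_simp
    ring
  rw [this, Complex.exp_add, Complex.exp_two_pi_mul_I, mul_one]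

/-- **Inverses of periodic units of exponential growth.** -/
theorem inv_mem_holoExp_of_periodic {s : ℍ → ℂ} (hs : s ∈ holoExp) {N : ℕ} (hN : 0 < N)
    (hper : ∀ τ : ℍ, s ((N : ℝ) +ᵥ τ) = s τ) (hne : ∀ τ, s τ ≠ 0) :
    (fun τ => (s τ)⁻¹) ∈ holoExp := by
  obtain ⟨hmd, A, hA⟩ := hs
  have hNpos : (0 : ℝ) < N := by exact_mod_cast hN
  have hN' : (N : ℝ) ≠ 0 := hNpos.ne'
  -- the bounded function `G = q_N^(N A) s`
  set G : ℍ → ℂ := fun τ => 𝕢 (N : ℝ) τ ^ (N * A) * s τ with hG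
  have hGbdd : IsBoundedAtImInfty G := by
    have h1 : (fun τ : ℍ => 𝕢 (N : ℝ) τ ^ (N * A)) =O[atImInfty]
        fun τ : ℍ => Real.exp (-(2 * Real.pi * A * τ.im)) := by
      refine IsBigO.of_bound 1 (Eventually.of_forall fun τ => ?_)
      rw [norm_qParamN_pow hN, one_mul, Real.norm_of_nonneg (Real.exp_pos _).le]
      apply le_of_eq
      congr 1
      push_cast
      field_simp
    have h2 := h1.mul hA
    refine h2.congr_right fun τ => ?_
    rw [← Real.exp_add]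
    simp
  have hGper : Function.Periodic (G ∘ ofComplex) ((N : ℝ) : ℂ) := by
    apply periodic_comp_ofComplex_natCast
    intro τ
    simp only [hG]
    rw [qParamN_vadd hN, hper]
  have hGmd : MDiff G := (mdiff_qParamN_pow N (N * A)).mul hmd
  have hF : AnalyticAt ℂ (cuspFunction (N : ℝ) G) 0 :=
    analyticAt_cuspFunction_zero hNpos hGper hGmd hGbdd
  have hFG : ∀ τ : ℍ, cuspFunction (N : ℝ) G (𝕢 (N : ℝ) τ) = G τ :=
    fun τ => eq_cuspFunction τ hN' hGper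
  have hGne : ∀ τ, G τ ≠ 0 := fun τ =>
    mul_ne_zero (pow_ne_zero _ (Function.Periodic.qParam_ne_zero _)) (hne τ)
  have hnz : ¬ ∀ᶠ z in 𝓝 (0 : ℂ), cuspFunction (N : ℝ) G z = 0 := by
    intro h
    have h1 := (qParam_tendsto_atImInfty hNpos).eventually h
    obtain ⟨τ, hτ⟩ := h1.exists
    rw [hFG] at hτ
    exact hGne τ hτ
  obtain ⟨n, g, hg_an, hg_ne, hg_eq⟩ := hF.exists_eventuallyEq_pow_smul_nonzero_iff.mpr hnz
  have hg0 : 0 < ‖g 0‖ := norm_pos_iff.mpr hg_ne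
  have hgc : ∀ᶠ z in 𝓝 (0 : ℂ), ‖g 0‖ / 2 < ‖g z‖ :=
    hg_an.continuousAt.norm.eventually (lt_mem_nhds (half_lt_self hg0))
  have hev : ∀ᶠ τ : ℍ in atImInfty,
      G τ = (𝕢 (N : ℝ) τ) ^ n * g (𝕢 (N : ℝ) τ) ∧ ‖g 0‖ / 2 < ‖g (𝕢 (N : ℝ) τ)‖ := by
    have h1 := (qParam_tendsto_atImInfty hNpos).eventually (hg_eq.and hgc)
    filter_upwards [h1] with τ hτ
    refine ⟨?_, hτ.2⟩
    rw [← hFG, hτ.1]
    simp
  refine ⟨MDifferentiable.inv hmd hne, n, ?_⟩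
  refine IsBigO.of_bound (2 / ‖g 0‖) ?_
  filter_upwards [hev] with τ hτ
  obtain ⟨h1, h2⟩ := hτ
  have hq0 : 𝕢 (N : ℝ) τ ≠ 0 := Function.Periodic.qParam_ne_zero _
  have hs_eq : (s τ)⁻¹ = 𝕢 (N : ℝ) τ ^ (N * A) * ((𝕢 (N : ℝ) τ ^ n)⁻¹ * (g (𝕢 (N : ℝ) τ))⁻¹) := by
    have hG' : G τ = 𝕢 (N : ℝ) τ ^ (N * A) * s τ := rfl
    have hgne : g (𝕢 (N : ℝ) τ) ≠ 0 := by
      intro h0
      rw [h0, norm_zero] at h2
      linarith
    have : s τ = (𝕢 (N : ℝ) τ ^ (N * A))⁻¹ * ((𝕢 (N : ℝ) τ) ^ n * g (𝕢 (N : ℝ) τ)) := by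
      rw [← h1, hG', ← mul_assoc, inv_mul_cancel₀ (pow_ne_zero _ hq0), one_mul]
    rw [this, mul_inv, mul_inv, inv_inv]
  rw [hs_eq, norm_mul, norm_mul, norm_inv, norm_inv, Real.norm_of_nonneg (Real.exp_pos _).le]
  have e1 : ‖𝕢 (N : ℝ) τ ^ (N * A)‖ ≤ 1 := by
    rw [norm_qParamN_pow hN, Real.exp_le_one_iff]
    have := τ.im_pos
    have hpi := Real.pi_pos
    have : 0 ≤ 2 * Real.pi * ((N * A : ℕ) : ℝ) * τ.im / N := by positivity
    linarith
  have e2 : ‖𝕢 (N : ℝ) τ ^ n‖⁻¹ ≤ Real.exp (2 * Real.pi * n * τ.im) := by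
    rw [norm_qParamN_pow hN, ← Real.exp_neg, neg_neg]
    apply Real.exp_le_exp.mpr
    have hτ := τ.im_pos
    have hpi := Real.pi_pos
    have h3 : (0 : ℝ) ≤ 2 * Real.pi * n * τ.im := by positivity
    have h4 : (1 : ℝ) ≤ N := by exact_mod_cast hN
    exact div_le_self h3 h4
  have e3 : ‖g (𝕢 (N : ℝ) τ)‖⁻¹ ≤ 2 / ‖g 0‖ := by
    rw [inv_le_comm₀ (lt_trans (half_pos hg0) h2) (div_pos two_pos hg0), inv_div]
    exact h2.le
  have e4 : 0 ≤ ‖𝕢 (N : ℝ) τ ^ n‖⁻¹ := inv_nonneg.mpr (norm_nonneg _)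
  have e5 : 0 ≤ ‖g (𝕢 (N : ℝ) τ)‖⁻¹ := inv_nonneg.mpr (norm_nonneg _)
  calc ‖𝕢 (N : ℝ) τ ^ (N * A)‖ * (‖𝕢 (N : ℝ) τ ^ n‖⁻¹ * ‖g (𝕢 (N : ℝ) τ)‖⁻¹)
      ≤ 1 * (Real.exp (2 * Real.pi * n * τ.im) * (2 / ‖g 0‖)) := by
        apply mul_le_mul e1 (mul_le_mul e2 e3 e5 (Real.exp_pos _).le)
          (mul_nonneg e4 e5) zero_le_one
    _ = 2 / ‖g 0‖ * Real.exp (2 * Real.pi * n * τ.im) := by ring

/-- Quotients by periodic units of exponential growth. -/
theorem div_mem_holoExp_of_periodic {f s : ℍ → ℂ} (hf : f ∈ holoExp) (hs : s ∈ holoExp) {N : ℕ}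
    (hN : 0 < N) (hper : ∀ τ : ℍ, s ((N : ℝ) +ᵥ τ) = s τ) (hne : ∀ τ, s τ ≠ 0) :
    (fun τ => f τ / s τ) ∈ holoExp := by
  have h := holoExp.mul_mem hf (inv_mem_holoExp_of_periodic hs hN hper hne)
  have e : (fun τ => f τ / s τ) = f * fun τ => (s τ)⁻¹ := by
    funext τ
    simp [div_eq_mul_inv]
  rw [e]
  exact h

open ModularForm

/-- A function which is weight-`k` invariant under `Γ(N)` has `N`-periodic translates. -/
theorem slash_vadd_of_Gamma_inv (k : ℤ) {N : ℕ} {g : ℍ → ℂ}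
    (hginv : ∀ γ ∈ CongruenceSubgroup.Gamma N, g ∣[k] γ = g) (δ : SL(2, ℤ)) (τ : ℍ) :
    (g ∣[k] δ) ((N : ℝ) +ᵥ τ) = (g ∣[k] δ) τ := by
  have hT : ModularGroup.T ^ (N : ℤ) ∈ CongruenceSubgroup.Gamma N := by
    have := CongruenceSubgroup.ModularGroup_T_pow_mem_Gamma (N : ℤ) (N : ℤ) dvd_rfl
    simpa using this
  have hconj : δ * ModularGroup.T ^ (N : ℤ) * δ⁻¹ ∈ CongruenceSubgroup.Gamma N :=
    (CongruenceSubgroup.Gamma_normal N).conj_mem _ hT δ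
  have h1 : (g ∣[k] δ) ∣[k] (ModularGroup.T ^ (N : ℤ)) = g ∣[k] δ := by
    rw [← SlashAction.slash_mul]
    have : δ * ModularGroup.T ^ (N : ℤ) = (δ * ModularGroup.T ^ (N : ℤ) * δ⁻¹) * δ := by group
    rw [this, SlashAction.slash_mul, hginv _ hconj]
  have h2 := congrFun h1 τ
  rw [ModularForm.SL_slash_apply, UpperHalfPlane.modular_T_zpow_smul] at h2
  have hden : denom ((ModularGroup.T ^ (N : ℤ) : SL(2, ℤ)) : GL (Fin 2) ℝ) τ = 1 := by
    rw [ModularGroup.denom_apply]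
    have h10 : ((ModularGroup.T ^ (N : ℤ) : SL(2, ℤ)) 1 0 : ℤ) = 0 := by
      rw [ModularGroup.coe_T_zpow]; rfl
    have h11 : ((ModularGroup.T ^ (N : ℤ) : SL(2, ℤ)) 1 1 : ℤ) = 1 := by
      rw [ModularGroup.coe_T_zpow]; rfl
    rw [h10, h11]
    simp
  rw [hden, one_zpow, mul_one] at h2
  simpa using h2

/-- **Growth of the translates of a quotient of two weight-`k` functions.** If all slashes of `f`
and `g` are holomorphic of exponential growth at `i∞`, `g` is `Γ(N)`-invariant and nowhere zero,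
then all translates of `f / g` are holomorphic of exponential growth at `i∞`. -/
theorem precomp_div_mem_holoExp (k : ℤ) {N : ℕ} (hN : 0 < N) {f g : ℍ → ℂ}
    (hf : ∀ δ : SL(2, ℤ), f ∣[k] δ ∈ holoExp) (hg : ∀ δ : SL(2, ℤ), g ∣[k] δ ∈ holoExp)
    (hginv : ∀ γ ∈ CongruenceSubgroup.Gamma N, g ∣[k] γ = g) (hgne : ∀ τ, g τ ≠ 0)
    (δ : SL(2, ℤ)) : precomp δ (fun τ => f τ / g τ) ∈ holoExp := by
  have hne : ∀ τ, (g ∣[k] δ⁻¹) τ ≠ 0 := by
    intro τ
    rw [ModularForm.SL_slash_apply]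
    exact mul_ne_zero (hgne _) (zpow_ne_zero _ (denom_ne_zero _ _))
  have h := div_mem_holoExp_of_periodic (hf δ⁻¹) (hg δ⁻¹) hN
    (slash_vadd_of_Gamma_inv k hginv δ⁻¹) hne
  have e : precomp δ (fun τ => f τ / g τ) = fun τ => (f ∣[k] δ⁻¹) τ / (g ∣[k] δ⁻¹) τ := by
    funext τ
    rw [precomp_apply, ModularForm.SL_slash_apply, ModularForm.SL_slash_apply,
      mul_div_mul_right _ _ (zpow_ne_zero _ (denom_ne_zero _ _))]
  rw [e]
  exact h

/-- **Growth of the translates of the inverse of a weight-`k` unit.** -/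
theorem slash_inv_mem_holoExp (k : ℤ) {N : ℕ} (hN : 0 < N) {g : ℍ → ℂ}
    (hg : ∀ δ : SL(2, ℤ), g ∣[k] δ ∈ holoExp)
    (hginv : ∀ γ ∈ CongruenceSubgroup.Gamma N, g ∣[k] γ = g) (hgne : ∀ τ, g τ ≠ 0)
    (δ : SL(2, ℤ)) : (fun τ => (g τ)⁻¹) ∣[-k] δ ∈ holoExp := by
  have hne : ∀ τ, (g ∣[k] δ) τ ≠ 0 := by
    intro τ
    rw [ModularForm.SL_slash_apply]
    exact mul_ne_zero (hgne _) (zpow_ne_zero _ (denom_ne_zero _ _))
  have h := inv_mem_holoExp_of_periodic (hg δ) hN (slash_vadd_of_Gamma_inv k hginv δ) hne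
  have e : (fun τ => (g τ)⁻¹) ∣[-k] δ = fun τ => ((g ∣[k] δ) τ)⁻¹ := by
    funext τ
    rw [ModularForm.SL_slash_apply, ModularForm.SL_slash_apply, mul_inv, ← zpow_neg]
  rw [e]
  exact h

end Fermat.Agent.T4.helper77
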