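import Mathlib
import Fermat.Agent.T4.helper44_WpCusp
import Fermat.Agent.T4.helper24_X1Sys
import Fermat.Agent.T4.helper77_InvGrowth

/-!
# T4 (I) / [I-FLD-WP] (helper44): the analytic inputs of `helper24.X1Inputs`

Bridge from `wpD M a b τ = ℘(a τ) - ℘(b τ)` (lattice `⟨1, M τ⟩`, Mathlib only files
`helper44_Wp*`) to the functions `helper24.wpDfn` / `helper24.sFn`:

* `wpDfn_eq` : `wpDfn M a b τ = (2 π i)⁻² wpD M a' b' τ` (W3);
* `wpDfn_ne_zero` (W1), `wpDfn_smul` (W2), `sFn_smul` (analytic diamond law);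
* `x1_inv` : invariance of `sFn M a` under `Γ₁(M)` (`X1Inputs.inv`);
* `wpDfn_slash_mem_holoExp`, `x1_growth` : all translates of `sFn M a` are of exponential growth
  (`X1Inputs.growth`).
-/

set_option autoImplicit false
set_option linter.unusedSectionVars false
set_option linter.style.haveILetI false

noncomputable section

open Complex Filter Topology Asymptotics
open UpperHalfPlane hiding I
open scoped Real MatrixGroups ModularForm Manifold

namespace Fermat.Agent.T4.helper44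

open Fermat.Agent.T4.helper24 Fermat.Agent.T4.helper32 Fermat.Agent.S24
open CongruenceSubgroup

local notation "𝕢" => Function.Periodic.qParam

variable (M : ℕ) [NeZero M]

lemma wpC_eq_wpCoeff (a : ZMod M) (e : ℕ) : wpC M a e = wpCoeff M a e := rfl

lemma qParam_one_eq (τ : ℍ) : 𝕢 1 (τ : ℂ) = cexp (2 * π * I * τ) := by
  simp [Function.Periodic.qParam]

/-- **(W3)** in the vocabulary of `helper24`. -/
theorem wpDfn_eq (a b : ℤ) (ha : (a : ZMod M) ≠ 0) (hb : (b : ZMod M) ≠ 0) (τ : ℍ) :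
    wpDfn M (a : ZMod M) (b : ZMod M) τ = ((2 * π * I) ^ 2)⁻¹ * wpD M a b τ := by
  have h := (hasSum_wpD M a b ha hb τ).mul_left (((2 * π * I) ^ 2)⁻¹)
  have hpi : ((2 * π * I) ^ 2 : ℂ) ≠ 0 := by
    have : (2 * π * I : ℂ) ≠ 0 := by
      simp [Real.pi_ne_zero, Complex.I_ne_zero]
    exact pow_ne_zero 2 this
  rw [← h.tsum_eq, wpDfn]
  refine tsum_congr fun n => ?_
  rw [qParam_one_eq, wpC_eq_wpCoeff, wpC_eq_wpCoeff]
  push_cast
  field_simp

lemma intCast_val (a : ZMod M) : (((a.val : ℕ) : ℤ) : ZMod M) = a := by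
  rw [Int.cast_natCast, ZMod.natCast_zmod_val]

theorem wpDfn_eq_val (a b : ZMod M) (ha : a ≠ 0) (hb : b ≠ 0) (τ : ℍ) :
    wpDfn M a b τ = ((2 * π * I) ^ 2)⁻¹ * wpD M (a.val : ℤ) (b.val : ℤ) τ := by
  have h := wpDfn_eq M (a.val : ℤ) (b.val : ℤ) (by rwa [intCast_val]) (by rwa [intCast_val]) τ
  rwa [intCast_val, intCast_val] at h

/-- **(W1)** in the vocabulary of `helper24`. -/
theorem wpDfn_ne_zero (a b : ZMod M) (ha : a ≠ 0) (hb : b ≠ 0) (hab : a ≠ b) (hab' : a ≠ -b)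
    (τ : ℍ) : wpDfn M a b τ ≠ 0 := by
  rw [wpDfn_eq_val M a b ha hb]
  have hpi : ((2 * π * I) ^ 2 : ℂ) ≠ 0 := by
    have : (2 * π * I : ℂ) ≠ 0 := by
      simp [Real.pi_ne_zero, Complex.I_ne_zero]
    exact pow_ne_zero 2 this
  refine mul_ne_zero (inv_ne_zero hpi) ?_
  exact wpD_ne_zero M _ _ (by rwa [intCast_val]) (by rwa [intCast_val])
    (by rwa [intCast_val, intCast_val]) (by rwa [intCast_val, intCast_val]) τ

lemma dvd_of_mem_Gamma0 {γ : SL(2, ℤ)} (hγ : γ ∈ Gamma0 M) : (M : ℤ) ∣ γ 1 0 := by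
  rw [Gamma0_mem] at hγ
  exact (ZMod.intCast_zmod_eq_zero_iff_dvd _ M).mp hγ

/-- the upper left entry of an element of `Γ₀(M)` is a unit modulo `M` -/
lemma upperLeft_mul_lowerRight {γ : SL(2, ℤ)} (hγ : γ ∈ Gamma0 M) :
    ((γ 0 0 : ℤ) : ZMod M) * ((γ 1 1 : ℤ) : ZMod M) = 1 := by
  have hdet := det_eq_one γ
  rw [Gamma0_mem] at hγ
  have h2 := congrArg (fun x : ℤ => (x : ZMod M)) hdet
  simp only [Int.cast_sub, Int.cast_mul, Int.cast_one] at h2
  rw [hγ, mul_zero, sub_zero] at h2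
  exact h2

lemma mul_upperLeft_ne_zero {γ : SL(2, ℤ)} (hγ : γ ∈ Gamma0 M) {a : ZMod M} (ha : a ≠ 0) :
    a * ((γ 0 0 : ℤ) : ZMod M) ≠ 0 := by
  intro h
  apply ha
  have := congrArg (fun x => x * ((γ 1 1 : ℤ) : ZMod M)) h
  simp only [zero_mul, mul_assoc] at this
  rwa [upperLeft_mul_lowerRight M hγ, mul_one] at this

/-- **(W2)** in the vocabulary of `helper24`: the weight two law on `Γ₀(M)`. -/
theorem wpDfn_smul {γ : SL(2, ℤ)} (hγ : γ ∈ Gamma0 M) (a b : ZMod M) (ha : a ≠ 0) (hb : b ≠ 0)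
    (τ : ℍ) :
    wpDfn M a b (γ • τ) = denom γ τ ^ 2 *
      wpDfn M (a * ((γ 0 0 : ℤ) : ZMod M)) (b * ((γ 0 0 : ℤ) : ZMod M)) τ := by
  rw [wpDfn_eq_val M a b ha hb, wpD_smul M γ (dvd_of_mem_Gamma0 M hγ), jfac_eq_denom]
  have h := wpDfn_eq M ((a.val : ℤ) * γ 0 0) ((b.val : ℤ) * γ 0 0)
    (by push_cast; rw [ZMod.natCast_zmod_val]; exact mul_upperLeft_ne_zero M hγ ha)
    (by push_cast; rw [ZMod.natCast_zmod_val]; exact mul_upperLeft_ne_zero M hγ hb) τ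
  simp only [Int.cast_mul, intCast_val] at h
  rw [h]
  ring

/-- the analytic diamond law: `s_a ∘ γ = (P_{u a} - P_u) / (P_{2 u} - P_u)`, `u = γ₀₀`. -/
theorem sFn_smul {γ : SL(2, ℤ)} (hγ : γ ∈ Gamma0 M) (hM : 3 ≤ M) (a : ZMod M) (ha : a ≠ 0)
    (τ : ℍ) :
    sFn M a (γ • τ) = wpDfn M (a * ((γ 0 0 : ℤ) : ZMod M)) ((γ 0 0 : ℤ) : ZMod M) τ /
      wpDfn M (2 * ((γ 0 0 : ℤ) : ZMod M)) ((γ 0 0 : ℤ) : ZMod M) τ := by
  have h1 : (1 : ZMod M) ≠ 0 := by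
    haveI : Fact (1 < M) := ⟨by omega⟩
    exact one_ne_zero
  have h2 : (2 : ZMod M) ≠ 0 := by
    intro h
    have h3 : ((2 : ℕ) : ZMod M) = 0 := by exact_mod_cast h
    have := (ZMod.natCast_eq_zero_iff 2 M).mp h3
    have := Nat.le_of_dvd (by norm_num) this
    omega
  have hd := denom_ne_zero γ τ
  simp only [sFn]
  rw [wpDfn_smul M hγ a 1 ha h1, wpDfn_smul M hγ 2 1 h2 h1, one_mul]
  rw [mul_div_mul_left _ _ (pow_ne_zero 2 hd)]

/-- **`X1Inputs.inv`** : invariance under `Γ₁(M)`. -/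
theorem x1_inv (hM : 3 ≤ M) (a : ZMod M) (ha : a ≠ 0) (γ : SL(2, ℤ)) (hγ : γ ∈ Gamma1 M)
    (τ : ℍ) : sFn M a (γ • τ) = sFn M a τ := by
  have h0 : γ ∈ Gamma0 M := Gamma1_in_Gamma0 M hγ
  rw [sFn_smul M h0 hM a ha]
  have hu : ((γ 0 0 : ℤ) : ZMod M) = 1 := by
    rw [Gamma1_mem] at hγ
    exact hγ.1
  rw [hu, mul_one, mul_one]
  rfl

/-! ### growth of all translates -/

/-- the slashes of `wpDfn M a b` are bounded holomorphic functions -/
theorem wpDfn_slash_mem_holoExp (a b : ZMod M) (ha : a ≠ 0) (hb : b ≠ 0) (δ : SL(2, ℤ)) :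
    (wpDfn M a b) ∣[(2 : ℤ)] δ ∈ helper77.holoExp := by
  have e : ((wpDfn M a b) ∣[(2 : ℤ)] δ)
      = fun τ : ℍ => ((2 * π * I) ^ 2)⁻¹ * slashFun M δ (a.val : ℤ) (b.val : ℤ) τ := by
    funext τ
    rw [ModularForm.SL_slash_apply, wpDfn_eq_val M a b ha hb, slashFun_coe, jfac_eq_denom]
    rw [zpow_neg]
    norm_cast
    ring
  rw [e]
  refine ⟨?_, 0, ?_⟩
  · refine helper17.mdiff_of_complex
      (fun z => ((2 * π * I) ^ 2)⁻¹ * slashFun M δ (a.val : ℤ) (b.val : ℤ) z) ?_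
    exact (differentiableOn_slashFun M δ _ _).const_mul _
  · obtain ⟨B, hB⟩ := slashFun_bounded M δ (a.val : ℤ) (b.val : ℤ)
    have hb' : IsBoundedAtImInfty
        (fun τ : ℍ => ((2 * π * I) ^ 2)⁻¹ * slashFun M δ (a.val : ℤ) (b.val : ℤ) τ) := by
      rw [isBoundedAtImInfty_iff]
      refine ⟨‖((2 * π * I) ^ 2 : ℂ)⁻¹‖ * B, 1, fun z hz => ?_⟩
      rw [norm_mul]
      exact mul_le_mul_of_nonneg_left (hB z hz) (norm_nonneg _)
    have h1 : (fun τ : ℍ => ((2 * π * I) ^ 2)⁻¹ * slashFun M δ (a.val : ℤ) (b.val : ℤ) τ)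
        =O[atImInfty] (1 : ℍ → ℝ) := hb'
    refine h1.congr_right fun τ => ?_
    simp

/-- `Γ(M)`-invariance of the weight two slash -/
theorem wpDfn_slash_Gamma (a b : ZMod M) (ha : a ≠ 0) (hb : b ≠ 0) (γ : SL(2, ℤ))
    (hγ : γ ∈ CongruenceSubgroup.Gamma M) : (wpDfn M a b) ∣[(2 : ℤ)] γ = wpDfn M a b := by
  have h1 : γ ∈ Gamma1 M := by
    rw [CongruenceSubgroup.Gamma_mem] at hγ
    rw [Gamma1_mem]
    exact ⟨hγ.1, hγ.2.2.2, hγ.2.2.1⟩
  have h0 : γ ∈ Gamma0 M := Gamma1_in_Gamma0 M h1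
  have hu : ((γ 0 0 : ℤ) : ZMod M) = 1 := by
    rw [Gamma1_mem] at h1
    exact h1.1
  funext τ
  have hd := denom_ne_zero γ τ
  rw [ModularForm.SL_slash_apply, wpDfn_smul M h0 a b ha hb, hu, mul_one, mul_one, zpow_neg]
  have : denom γ τ ^ (2 : ℤ) = denom γ τ ^ 2 := by norm_cast
  rw [this]
  field_simp

/-- **`X1Inputs.growth`** : all translates of `s_a` are holomorphic of exponential growth. -/
theorem x1_growth (hM : 4 ≤ M) (g : SL(2, ℤ)) (a : ZMod M) (ha : a ≠ 0) :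
    helper77.precomp g (sFn M a) ∈ helper77.holoExp := by
  have h1 : (1 : ZMod M) ≠ 0 := by
    haveI : Fact (1 < M) := ⟨by omega⟩
    exact one_ne_zero
  have hne : ∀ k : ℕ, 0 < k → k < M → ((k : ℕ) : ZMod M) ≠ 0 := by
    intro k hk hkM h
    have := (ZMod.natCast_eq_zero_iff k M).mp h
    have := Nat.le_of_dvd hk this
    omega
  have h2 : (2 : ZMod M) ≠ 0 := by
    have := hne 2 (by norm_num) (by omega)
    exact_mod_cast this
  have h21 : (2 : ZMod M) ≠ 1 := by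
    intro h
    apply h1
    have : (2 : ZMod M) - 1 = 0 := sub_eq_zero.mpr h
    have e : (2 : ZMod M) - 1 = 1 := by ring
    rw [e] at this
    exact this
  have h21' : (2 : ZMod M) ≠ -1 := by
    intro h
    have h3 : ((3 : ℕ) : ZMod M) = 0 := by
      push_cast
      have : (2 : ZMod M) + 1 = 0 := by rw [h]; ring
      have e : (3 : ZMod M) = 2 + 1 := by ring
      rw [e]; exact this
    exact hne 3 (by norm_num) (by omega) h3
  exact helper77.precomp_div_mem_holoExp 2 (NeZero.pos M)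
    (fun δ => wpDfn_slash_mem_holoExp M a 1 ha h1 δ)
    (fun δ => wpDfn_slash_mem_holoExp M 2 1 h2 h1 δ)
    (fun γ hγ => wpDfn_slash_Gamma M 2 1 h2 h1 γ hγ)
    (fun τ => wpDfn_ne_zero M 2 1 h2 h1 h21 h21' τ) g

end Fermat.Agent.T4.helper44

end
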