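import Mathlib
import Fermat.Agent.T4.helper44_WpBridge
import Fermat.Agent.T4.helper33_X1Series
import Fermat.Agent.T4.helper86_X1Ord
import Fermat.Agent.P3.helper48_AN1Ratio

/-!
# T4 (I) / [X1-SYS] (helper44): the analytic inputs `helper24.X1Inputs M`, unconditionally

* `isNice_wpDfn`, `isQExp_wpDfn` : `wpDfn M a b` is holomorphic, `1`-periodic, bounded at `i∞`,
  with `q`-expansion `q (P_a - P_b) / q`;
* `x1_qexp` : `IsQExp (coeffEmb ℂ (sSer ℚ M a)) (sFn M a)` (`X1Inputs.qexp`);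
* `x1_full` : fullness (`X1Inputs.full`), from the analytic diamond law and `helper86.fullness`;
* `x1Inputs : 6 ≤ M → X1Inputs M`, `x1Sys : X1SysStatement M`.
-/

set_option autoImplicit false
set_option linter.unusedSectionVars false
set_option linter.style.haveILetI false

noncomputable section

open Complex Filter Topology Asymptotics ModularCurve
open UpperHalfPlane hiding I
open scoped Real MatrixGroups ModularForm Manifold

namespace Fermat.Agent.T4.helper44

open Fermat.Agent.T4.helper24 Fermat.Agent.T4.helper32 Fermat.Agent.S24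
open CongruenceSubgroup

local notation "𝕢" => Function.Periodic.qParam

variable (M : ℕ) [NeZero M]

/-- the coefficients of `P_a - P_b` -/
def cAB (a b : ZMod M) (n : ℕ) : ℂ := ((wpCoeff M a n - wpCoeff M b n : ℤ) : ℂ)

lemma hasSum_wpDfn (a b : ZMod M) (ha : a ≠ 0) (hb : b ≠ 0) (τ : ℍ) :
    HasSum (fun n => cAB M a b n * 𝕢 1 (τ : ℂ) ^ n) (wpDfn M a b τ) := by
  have h := (hasSum_wpD M (a.val : ℤ) (b.val : ℤ) (by rwa [intCast_val]) (by rwa [intCast_val])
    τ).mul_left (((2 * π * I) ^ 2)⁻¹)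
  have hpi : ((2 * π * I) ^ 2 : ℂ) ≠ 0 := by
    have : (2 * π * I : ℂ) ≠ 0 := by
      simp [Real.pi_ne_zero, Complex.I_ne_zero]
    exact pow_ne_zero 2 this
  rw [← wpDfn_eq_val M a b ha hb] at h
  refine hasSum_of_eq h fun n => ?_
  rw [qParam_one_eq, wpC_eq_wpCoeff, wpC_eq_wpCoeff, intCast_val, intCast_val, cAB]
  push_cast
  field_simp

lemma qM_one (τ : ℍ) : qM 1 τ = 𝕢 1 (τ : ℂ) := by
  simp [qM, Function.Periodic.qParam]

lemma qC_one (z : ℂ) : qC 1 z = 𝕢 1 z := by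
  simp [qC, Function.Periodic.qParam]

/-- `wpDfn M a b` is nice. -/
theorem isNice_wpDfn (a b : ZMod M) (ha : a ≠ 0) (hb : b ≠ 0) :
    helper17.IsNice (wpDfn M a b) := by
  have hs : ∀ τ : ℍ, HasSum (fun e => cAB M a b e * qM 1 τ ^ e) (wpDfn M a b τ) := fun τ => by
    simpa [qM_one] using hasSum_wpDfn M a b ha hb τ
  have hs' : ∀ τ : ℍ, Summable fun e => cAB M a b e * qM 1 τ ^ e := fun τ => (hs τ).summable
  obtain ⟨B, hB⟩ := psFun_bounded hs'
  have h := helper17.isNice_of_complex (psFun 1 (cAB M a b))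
    (fun z _ => by simpa using psFun_add (M := 1) (c := cAB M a b) z)
    (differentiableOn_psFun hs') ⟨B, 1, fun z _ hz => hB z hz⟩
  exact h.congr fun τ => (psFun_eq hs τ).symm

theorem qExpansion_wpDfn (a b : ZMod M) (ha : a ≠ 0) (hb : b ≠ 0) :
    UpperHalfPlane.qExpansion 1 (wpDfn M a b) = PowerSeries.mk (cAB M a b) := by
  refine (isNice_wpDfn M a b ha hb).qExpansion_eq_of_hasSum _ fun τ => ?_
  simpa using hasSum_wpDfn M a b ha hb τ

/-- the `q`-expansion of `wpDfn M a b` -/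
def serAB (a b : ZMod M) : LaurentSeries ℂ :=
  HahnSeries.ofPowerSeries ℤ ℂ (PowerSeries.X * (wpDiff M a b).map (Int.castRingHom ℂ))

lemma mk_cAB (a b : ZMod M) :
    PowerSeries.mk (cAB M a b) = PowerSeries.X * (wpDiff M a b).map (Int.castRingHom ℂ) := by
  ext n
  rcases n with _ | n
  · simp [cAB, wpCoeff]
  · rw [PowerSeries.coeff_succ_X_mul]
    simp [cAB, wpDiff]

theorem isQExp_wpDfn (a b : ZMod M) (ha : a ≠ 0) (hb : b ≠ 0) :
    helper17.IsQExp (serAB M a b) (wpDfn M a b) := by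
  have h := helper17.IsQExp.of_isNice (isNice_wpDfn M a b ha hb)
  rwa [qExpansion_wpDfn M a b ha hb, mk_cAB] at h

/-! ### the quotients -/

lemma wpDfn_vadd (a b : ZMod M) (τ : ℍ) : wpDfn M a b ((1 : ℝ) +ᵥ τ) = wpDfn M a b τ := by
  simp only [wpDfn]
  refine tsum_congr fun n => ?_
  rw [UpperHalfPlane.coe_vadd]
  have : 𝕢 1 (((1 : ℝ) : ℂ) + (τ : ℂ)) = 𝕢 1 (τ : ℂ) := by
    rw [add_comm]
    simpa using helper17.qParam_add_one (τ : ℂ)
  rw [this]

lemma one_ne_zero' (hM : 2 ≤ M) : (1 : ZMod M) ≠ 0 := by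
  haveI : Fact (1 < M) := ⟨by omega⟩
  exact one_ne_zero

lemma natCast_ne_zero_of_lt {k : ℕ} (hk : 0 < k) (hkM : k < M) : ((k : ℕ) : ZMod M) ≠ 0 := by
  intro h
  have := (ZMod.natCast_eq_zero_iff k M).mp h
  have := Nat.le_of_dvd hk this
  omega

lemma two_ne_zero' (hM : 3 ≤ M) : (2 : ZMod M) ≠ 0 := by
  have := natCast_ne_zero_of_lt M (k := 2) (by norm_num) (by omega)
  exact_mod_cast this

lemma two_ne_one' (hM : 2 ≤ M) : (2 : ZMod M) ≠ 1 := by
  intro h
  apply one_ne_zero' M hM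
  have : (2 : ZMod M) - 1 = 0 := sub_eq_zero.mpr h
  have e : (2 : ZMod M) - 1 = 1 := by ring
  rw [e] at this
  exact this

lemma two_ne_neg_one' (hM : 4 ≤ M) : (2 : ZMod M) ≠ -1 := by
  intro h
  have h3 : ((3 : ℕ) : ZMod M) = 0 := by
    push_cast
    have : (2 : ZMod M) + 1 = 0 := by rw [h]; ring
    have e : (3 : ZMod M) = 2 + 1 := by ring
    rw [e]; exact this
  exact natCast_ne_zero_of_lt M (k := 3) (by norm_num) (by omega) h3

/-- the denominator `P_2 - P_1` vanishes nowhere -/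
theorem wpDfn_two_one_ne_zero (hM : 4 ≤ M) (τ : ℍ) : wpDfn M 2 1 τ ≠ 0 :=
  wpDfn_ne_zero M 2 1 (two_ne_zero' M (by omega)) (one_ne_zero' M (by omega))
    (two_ne_one' M (by omega)) (two_ne_neg_one' M hM) τ

/-- the `q`-expansion of the inverse of the denominator -/
theorem isQExp_inv_wpDfn (a b : ZMod M) (ha : a ≠ 0) (hb : b ≠ 0) (hab : a ≠ b) (hab' : a ≠ -b) :
    helper17.IsQExp (serAB M a b)⁻¹ (fun τ => (wpDfn M a b τ)⁻¹) := by
  have hmem0 : wpDfn M a b ∈ helper77.holoExp := by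
    have h := wpDfn_slash_mem_holoExp M a b ha hb 1
    rwa [SlashAction.slash_one] at h
  have hmem : (fun τ => (wpDfn M a b τ)⁻¹) ∈ helper77.holoExp :=
    helper77.inv_mem_holoExp_of_periodic hmem0 (N := 1) one_pos
      (fun τ => by simpa using wpDfn_vadd M a b τ) (wpDfn_ne_zero M a b ha hb hab hab')
  obtain ⟨G, hG⟩ := Fermat.Agent.P3.helper48.exists_isQExp hmem (fun τ => by
    show (wpDfn M a b ((1 : ℝ) +ᵥ τ))⁻¹ = (wpDfn M a b τ)⁻¹
    rw [wpDfn_vadd])
  have h1 : helper17.IsQExp (serAB M a b * G) (1 : ℍ → ℂ) :=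
    ((isQExp_wpDfn M a b ha hb).mul hG).congr_right fun τ => by
      simp only [Pi.mul_apply, Pi.one_apply]
      exact mul_inv_cancel₀ (wpDfn_ne_zero M a b ha hb hab hab' τ)
  have h2 : serAB M a b * G = 1 := h1.left_unique helper17.IsQExp.one
  have h3 : G = (serAB M a b)⁻¹ := eq_inv_of_mul_eq_one_right h2
  rw [← h3]
  exact hG

lemma serAB_ne_zero (a b : ZMod M) (ha : a ≠ 0) (hb : b ≠ 0) (hab : a ≠ b) (hab' : a ≠ -b) :
    serAB M a b ≠ 0 := by
  intro h
  have h1 := ((isQExp_wpDfn M a b ha hb).eq_zero_iff).mp h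
  have τ : ℍ := ⟨Complex.I, by simp⟩
  exact wpDfn_ne_zero M a b ha hb hab hab' τ (congrFun h1 τ)

/-- `s_a (P_2 - P_1) = P_a - P_1` in `ℂ((q))` -/
lemma sSer_mul_serAB (hM : 4 ≤ M) (a : ZMod M) :
    sSer ℂ M a * serAB M 2 1 = serAB M a 1 := by
  rw [helper33.sSer_eq, serAB, serAB, ← helper33.sInt_mul hM a, ← map_mul,
    map_mul (PowerSeries.map (Int.castRingHom ℂ))]
  congr 1
  ring

/-- **`X1Inputs.qexp`** -/
theorem x1_qexp (hM : 4 ≤ M) (a : ZMod M) (ha : a ≠ 0) :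
    helper17.IsQExp (coeffEmb ℂ (sSer ℚ M a)) (sFn M a) := by
  have h1 := one_ne_zero' M (by omega)
  have h2 := two_ne_zero' M (by omega)
  have h21 := two_ne_one' M (by omega)
  have h21' := two_ne_neg_one' M hM
  have hq := (isQExp_wpDfn M a 1 ha h1).mul (isQExp_inv_wpDfn M 2 1 h2 h1 h21 h21')
  have hne := serAB_ne_zero M 2 1 h2 h1 h21 h21'
  have e : serAB M a 1 * (serAB M 2 1)⁻¹ = coeffEmb ℂ (sSer ℚ M a) := by
    rw [helper33.coeffEmb_sSer, ← sSer_mul_serAB M hM a, mul_assoc, mul_inv_cancel₀ hne, mul_one]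
  rw [e] at hq
  refine hq.congr_right fun τ => ?_
  simp only [Pi.mul_apply, sFn, div_eq_mul_inv]

/-! ### fullness -/

lemma wpDfn_sub (x y : ZMod M) (hx : x ≠ 0) (hy : y ≠ 0) (hM : 2 ≤ M) (τ : ℍ) :
    wpDfn M x 1 τ - wpDfn M y 1 τ = wpDfn M x y τ := by
  have h1 := one_ne_zero' M hM
  rw [wpDfn_eq_val M x 1 hx h1, wpDfn_eq_val M y 1 hy h1, wpDfn_eq_val M x y hx hy]
  simp only [wpD]
  ring

/-- the analytic diamond law in terms of the `s_a` -/
theorem sFn_smul' {γ : SL(2, ℤ)} (hγ : γ ∈ Gamma0 M) (hM : 4 ≤ M) (a : ZMod M) (ha : a ≠ 0)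
    (τ : ℍ) :
    sFn M a (γ • τ) * (sFn M (((γ 0 0 : ℤ) : ZMod M) * 2) τ - sFn M ((γ 0 0 : ℤ) : ZMod M) τ)
      = sFn M (((γ 0 0 : ℤ) : ZMod M) * a) τ - sFn M ((γ 0 0 : ℤ) : ZMod M) τ := by
  set u : ZMod M := ((γ 0 0 : ℤ) : ZMod M) with hu
  have hu0 : u ≠ 0 := by
    have := mul_upperLeft_ne_zero M hγ (one_ne_zero' M (by omega))
    rwa [one_mul] at this
  have h2 := two_ne_zero' M (by omega)
  have hua : u * a ≠ 0 := by
    have := mul_upperLeft_ne_zero M hγ ha
    rwa [mul_comm] at this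
  have hu2 : u * 2 ≠ 0 := by
    have := mul_upperLeft_ne_zero M hγ h2
    rwa [mul_comm] at this
  have hd := wpDfn_two_one_ne_zero M hM τ
  have hne : wpDfn M (u * 2) u τ ≠ 0 := by
    have hinv := upperLeft_mul_lowerRight M hγ
    refine wpDfn_ne_zero M (u * 2) u hu2 hu0 ?_ ?_ τ
    · intro h
      apply two_ne_one' M (by omega)
      have := congrArg (fun x => ((γ 1 1 : ℤ) : ZMod M) * x) h
      simp only [← mul_assoc] at this
      rw [mul_comm ((γ 1 1 : ℤ) : ZMod M) u, hinv, one_mul] at this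
      exact this
    · intro h
      apply two_ne_neg_one' M hM
      have := congrArg (fun x => ((γ 1 1 : ℤ) : ZMod M) * x) h
      simp only [← mul_assoc, mul_neg] at this
      rw [mul_comm ((γ 1 1 : ℤ) : ZMod M) u, hinv, one_mul] at this
      exact this
  rw [sFn_smul M hγ (by omega) a ha]
  simp only [sFn]
  rw [div_sub_div_same, div_sub_div_same, wpDfn_sub M _ _ hu2 hu0 (by omega),
    wpDfn_sub M _ _ hua hu0 (by omega), ← hu, mul_comm a u, mul_comm (2 : ZMod M) u]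
  field_simp

/-- **`X1Inputs.full`** -/
theorem x1_full (hM : 6 ≤ M) (g : SL(2, ℤ)) (hg : g ∈ Gamma0 M)
    (h : ∀ a : ZMod M, a ≠ 0 → ∀ τ : ℍ, sFn M a (g • τ) = sFn M a τ) : g ∈ PG1 M := by
  set u : ZMod M := ((g 0 0 : ℤ) : ZMod M) with hu
  have hinv : u * ((g 1 1 : ℤ) : ZMod M) = 1 := upperLeft_mul_lowerRight M hg
  let d : (ZMod M)ˣ := Units.mkOfMulEqOne u _ hinv
  have hd : (d : ZMod M) = u := rfl
  have hu0 : u ≠ 0 := by
    have := mul_upperLeft_ne_zero M hg (one_ne_zero' M (by omega))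
    rwa [one_mul] at this
  have h2 := two_ne_zero' M (by omega)
  have hua : ∀ a : ZMod M, a ≠ 0 → u * a ≠ 0 := fun a ha => by
    have := mul_upperLeft_ne_zero M hg ha
    rwa [mul_comm] at this
  have key := helper86.fullness ℂ hM d (fun a ha => by
    rw [hd]
    have hL : helper17.IsQExp (sSer ℂ M (u * a) - sSer ℂ M u)
        (sFn M (u * a) - sFn M u) := by
      have h1 := x1_qexp M (by omega) (u * a) (hua a ha)
      have h2 := x1_qexp M (by omega) u hu0
      rw [helper33.coeffEmb_sSer] at h1 h2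
      exact h1.sub h2
    have hR : helper17.IsQExp (sSer ℂ M a * (sSer ℂ M (u * 2) - sSer ℂ M u))
        (sFn M a * (sFn M (u * 2) - sFn M u)) := by
      have h1 := x1_qexp M (by omega) a ha
      have h3 := x1_qexp M (by omega) (u * 2) (hua 2 h2)
      have h4 := x1_qexp M (by omega) u hu0
      rw [helper33.coeffEmb_sSer] at h1 h3 h4
      exact h1.mul (h3.sub h4)
    refine hL.left_unique (hR.congr_right fun τ => ?_)
    simp only [Pi.mul_apply, Pi.sub_apply]
    rw [← h a ha τ]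
    exact sFn_smul' M hg (by omega) a ha τ)
  rw [mem_PG1_iff]
  have hg0 : ((g 1 0 : ℤ) : ZMod M) = 0 := by
    rw [Gamma0_mem] at hg
    exact hg
  rcases key with h1 | h1
  · left
    have hu1 : u = 1 := by rw [← hd, h1]; rfl
    rw [Gamma1_mem]
    refine ⟨hu1, ?_, hg0⟩
    rw [hu1, one_mul] at hinv
    exact hinv
  · right
    have hu1 : u = -1 := by rw [← hd, h1]; rfl
    rw [Gamma1_mem]
    have e : ∀ i j, ((-g) i j : ℤ) = -(g i j) := fun i j => by
      simp [Matrix.SpecialLinearGroup.coe_neg]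
    rw [e, e, e]
    push_cast
    rw [hu1] at hinv
    refine ⟨by rw [← hu, hu1, neg_neg], ?_, by rw [hg0, neg_zero]⟩
    have : -((g 1 1 : ℤ) : ZMod M) = 1 := by rw [← hinv]; ring
    exact this

/-- **The analytic inputs on the functions `s_a`.** -/
theorem x1Inputs (hM : 6 ≤ M) : X1Inputs M where
  qexp := fun a ha => x1_qexp M (by omega) a ha
  inv := fun a ha γ hγ τ => x1_inv M (by omega) a ha γ hγ τ
  full := fun g hg h => x1_full M hM g hg h
  growth := fun g a ha => x1_growth M (by omega) g a ha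

/-- **[X1-SYS]** the generators of `X₁(M)` form a generator system. -/
theorem x1Sys : X1SysStatement M := fun hM => x1Sys_of M (x1Inputs M (by omega))

end Fermat.Agent.T4.helper44

end
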