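import Mathlib
import Fermat.Agent.T4.helper10_X1pDeg
import Fermat.Agent.T4.helper44_WpX1

/-!
# T4 block (I), I-FLD [X1P-SYS] (helper10): unconditional instances (`7 ≤ M`)

* `x1pSys` : the generators of the curve of triples form a generator system;
* `finrank_alpha1_uncond` : `[F1p M p : α₁ (F1 M)] = p + 1` for a prime `p ∤ M`;
* `finiteDimensional_alpha1`, `finiteDimensional_F1_uncond`, `finiteDimensional_F1p_uncond`.
-/

set_option autoImplicit false
set_option linter.unusedSectionVars false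
set_option linter.unusedVariables false
set_option linter.style.haveILetI false

noncomputable section

open UpperHalfPlane ModularCurve CongruenceSubgroup IntermediateField AlgebraicCurve
open scoped MatrixGroups

namespace Fermat.Agent.T4.helper10

open Fermat.Agent.S24 hiding Kbar
open Fermat.Agent.T4.helper32 Fermat.Agent.T4.helper24

variable (M p : ℕ) [NeZero M] [NeZero p]

/-- **[X1P-SYS]**, unconditional. -/
theorem x1pSys (h7 : 7 ≤ M) (hp : p.Prime) (hpM : ¬ p ∣ M) : (x1pData M p).IsSys :=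
  x1pSys_of M p (Fermat.Agent.T4.helper44.x1Sys M h7) ((Nat.Prime.coprime_iff_not_dvd hp).2 hpM)

/-- the degree of `F1 M` over `ℚ̄(j)` is the index of `±Γ₁(M)` -/
theorem finrank_F1_uncond (h7 : 7 ≤ M) :
    Module.finrank Kbar⟮jF1 M⟯ (F1 M) = Nat.card (SL(2, ℤ) ⧸ PG1 M) :=
  finrank_F1 M (Fermat.Agent.T4.helper44.x1Sys M h7)

/-- the degree of `F1p M p` over `ℚ̄(j)` is the index of `±Γ₁(M) ∩ Γ₀(p)` -/
theorem finrank_F1p_uncond (h7 : 7 ≤ M) (hp : p.Prime) (hpM : ¬ p ∣ M) :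
    Module.finrank Kbar⟮alpha1 Kbar M p (jF1 M)⟯ (F1p M p) =
      (p + 1) * Nat.card (SL(2, ℤ) ⧸ PG1 M) := by
  rw [finrank_F1p M p (Fermat.Agent.T4.helper44.x1Sys M h7)
    ((Nat.Prime.coprime_iff_not_dvd hp).2 hpM), card_X_x1pData M p hp hpM]
  rfl

theorem finiteDimensional_F1_uncond (h7 : 7 ≤ M) : FiniteDimensional Kbar⟮jF1 M⟯ (F1 M) :=
  finiteDimensional_F1 M (Fermat.Agent.T4.helper44.x1Sys M h7)

theorem finiteDimensional_F1p_uncond (h7 : 7 ≤ M) (hp : p.Prime) (hpM : ¬ p ∣ M) :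
    FiniteDimensional Kbar⟮alpha1 Kbar M p (jF1 M)⟯ (F1p M p) :=
  finiteDimensional_F1p M p (Fermat.Agent.T4.helper44.x1Sys M h7)
    ((Nat.Prime.coprime_iff_not_dvd hp).2 hpM)

/-- **Degree of `F1p M p` over `α₁ (F1 M)`**, unconditional. -/
theorem finrank_alpha1_uncond (h7 : 7 ≤ M) (hp : p.Prime) (hpM : ¬ p ∣ M) :
    letI := algebraAlong (alpha1 Kbar M p)
    Module.finrank (F1 M) (F1p M p) = p + 1 :=
  finrank_alpha1 M p (Fermat.Agent.T4.helper44.x1Sys M h7) hp hpM

theorem finiteDimensional_alpha1 (h7 : 7 ≤ M) (hp : p.Prime) (hpM : ¬ p ∣ M) :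
    letI := algebraAlong (alpha1 Kbar M p)
    FiniteDimensional (F1 M) (F1p M p) := by
  letI := algebraAlong (alpha1 Kbar M p)
  exact Module.finite_of_finrank_pos (by rw [finrank_alpha1_uncond M p h7 hp hpM]; omega)

end Fermat.Agent.T4.helper10

end
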