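import Fermat.Agent.T4.helper1_ContGen
import Fermat.Agent.T4.helper32_X1Defs

/-!
# T4 (I) [IN-c] (helper1): continuity of the Galois action on `J₁(M)`

`continuity1 : [FiniteDimensional ℚ̄(j) (F1 M)] → every point of J₁(M) is fixed by an open
subgroup of G_ℚ` — the field `GenTateInput.continuity` for `helper32.J1 M`, given the finiteness of
`F1 M` over `ℚ̄(j)` (block I-FLD).
-/

set_option autoImplicit false
set_option linter.unusedSectionVars false
set_option linter.style.haveILetI false

namespace Fermat.Agent.T4.helper1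

open AlgebraicCurve ModularCurve IntermediateField
open Fermat.Agent.P3 (Qbar GQ)

noncomputable section

/-- The `j`-function as an element of the function field of `X₁(M)`. -/
def jF1 (M : ℕ) : helper32.F1 M :=
  ⟨((Fermat.Agent.S24.xJ M : Fermat.Agent.S24.FN M) : LaurentSeries (AlgebraicClosure ℚ)),
    helper32.FF_le_F1 M (Fermat.Agent.S24.xJ M).2⟩

theorem arithmeticGalois_smul_jF1 (M : ℕ) (g : GQ) :
    arithmeticGalois (helper32.F1Q M) g • jF1 M = jF1 M :=
  Subtype.ext (coeffMap_coeffEmb g _)

/-- **[IN-c]** for `J₁(M)`: every point is fixed by an open subgroup of `G_ℚ`, given that the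
function field of `X₁(M)` is finite over `ℚ̄(j)`. -/
theorem continuity1 (M : ℕ) [FiniteDimensional Qbar⟮jF1 M⟯ (helper32.F1 M)]
    (x : helper32.J1 M) :
    ∃ K : IntermediateField ℚ (AlgebraicClosure ℚ), FiniteDimensional ℚ K ∧
      ∀ σ : GQ, (∀ y ∈ K, σ y = y) → σ • x = x :=
  continuity_of_chart (helper32.F1Q M) (jF1 M) (arithmeticGalois_smul_jF1 M) x

end

end Fermat.Agent.T4.helper1
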