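import Mathlib
import Fermat.Agent.T4.helper32_X1Defs
import Fermat.Agent.T4.helper1_Cont1
import Fermat.Agent.P3.helper58_HeckeInputs

/-!
# T4 block (I) [HECKE1-INPUTS] (helper11): the Hecke inputs for `J₁(M)`

The only hypothesis is the finiteness of the function field of `X₁(M)` over `ℚ̄(j)`
(block I-FLD, in the shape used by `helper1.continuity1`):
`[FiniteDimensional ℚ̄⟮helper1.jF1 M⟯ (helper32.F1 M)]`, together with `[NeZero M]`.

## Results (namespace `Fermat.Agent.T4.helper11`)

* `isAlgebraic_adjoin_simple_map`, `isAlgebraic_adjoin_simple_trans`, `finiteDimensional_of_gens`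
  : generic field theory (Mathlib only).
* `jF1_transcendental M`, `jF1p_transcendental M p`.
* `finiteDimensional_F1p M p` : the function field `F1p M p` of the curve of triples `(E, P, C)`
  is finite over `ℚ̄(j)`.  Its generators are `j(q^d)` (`d ∣ M p`; algebraic by S24),
  `s_a` (algebraic by hypothesis) and `s_a(q^p) = beta1 s_a` (algebraic over `ℚ̄(j(q^p))` by
  transport along `beta1`, and `j(q^p)` is algebraic over `ℚ̄(j)`).
* `hecke1Inputs M p : helper32.Hecke1Inputs Kbar M p`,
  `hecke1tInputs M p : helper32.Hecke1tInputs Kbar M p`.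
* `hasPrincipalDivisors_F1`, `hasPrincipalDivisors_F1p`, `place_deg_F1`, `place_deg_F1p`,
  `finiteAlong_alpha1`, `finiteAlong_beta1`.
* `hecke1Along_eq`, `hecke1tAlong_eq` (any `L`, any proofs of the inputs), `hecke1Along_of_not`,
  `hecke1tAlong_of_not`, `hecke1Along_eq_correspondence`, `hecke1tAlong_eq_correspondence`,
  `hecke1_apply_eq`, `hecke1t_apply_eq` : the total operators are the genuine correspondences
  `b_* a^*` and `a_* b^*`.
-/

set_option autoImplicit false
set_option linter.style.haveILetI false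
set_option linter.unusedSectionVars false

noncomputable section

open IntermediateField AlgebraicCurve ModularCurve

namespace Fermat.Agent.T4.helper11

section Abstract

variable {K F F' : Type*} [Field K] [Field F] [Field F'] [Algebra K F] [Algebra K F']

/-- the restriction `K(x) → K(φ x)` of an algebra homomorphism -/
def adjoinSimpleMap (φ : F →ₐ[K] F') (x : F) : K⟮x⟯ →+* K⟮φ x⟯ where
  toFun z := ⟨φ z, by
    have h : (K⟮x⟯).map φ = K⟮φ x⟯ := by
      rw [IntermediateField.adjoin_map, Set.image_singleton]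
    rw [← h]
    exact ⟨z, z.2, rfl⟩⟩
  map_one' := Subtype.ext (map_one φ)
  map_mul' _ _ := Subtype.ext (map_mul φ _ _)
  map_zero' := Subtype.ext (map_zero φ)
  map_add' _ _ := Subtype.ext (map_add φ _ _)

/-- **Lemma A**: algebraicity over `K(x)` is transported by algebra homomorphisms. -/
theorem isAlgebraic_adjoin_simple_map (φ : F →ₐ[K] F') {x y : F}
    (h : IsAlgebraic K⟮x⟯ y) : IsAlgebraic K⟮φ x⟯ (φ y) :=
  h.ringHom_of_comp_eq (adjoinSimpleMap φ x) φ (adjoinSimpleMap φ x).injective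
    (RingHom.ext fun _ => rfl)

/-- **Lemma B**: transitivity of algebraicity over simple extensions. -/
theorem isAlgebraic_adjoin_simple_trans {x₁ x₂ y : F} (h₂ : IsAlgebraic K⟮x₂⟯ y)
    (h₁ : IsAlgebraic K⟮x₁⟯ x₂) : IsAlgebraic K⟮x₁⟯ y := by
  haveI : Algebra.IsAlgebraic K⟮x₁⟯ (K⟮x₁⟯)⟮x₂⟯ :=
    IntermediateField.isAlgebraic_adjoin_simple h₁.isIntegral
  have hle' : ∀ z : F, z ∈ K⟮x₂⟯ → z ∈ (K⟮x₁⟯)⟮x₂⟯ := by
    intro z hz
    induction hz using IntermediateField.adjoin_induction with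
    | mem u hu =>
      rw [Set.mem_singleton_iff] at hu
      subst hu
      exact IntermediateField.mem_adjoin_simple_self _ _
    | algebraMap c =>
      exact IntermediateField.algebraMap_mem _ (algebraMap K K⟮x₁⟯ c)
    | add u v _ _ hu hv => exact add_mem hu hv
    | inv u _ hu => exact inv_mem hu
    | mul u v _ _ hu hv => exact mul_mem hu hv
  have hle : ∀ z : K⟮x₂⟯, (z : F) ∈ (K⟮x₁⟯)⟮x₂⟯ := fun z => hle' z z.2
  let f : K⟮x₂⟯ →+* (K⟮x₁⟯)⟮x₂⟯ :=
    { toFun := fun z => ⟨(z : F), hle z⟩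
      map_one' := rfl
      map_mul' := fun _ _ => rfl
      map_zero' := rfl
      map_add' := fun _ _ => rfl }
  have h3 : IsAlgebraic (K⟮x₁⟯)⟮x₂⟯ y :=
    h₂.ringHom_of_comp_eq f (RingHom.id F) f.injective (RingHom.ext fun _ => rfl)
  exact h3.restrictScalars K⟮x₁⟯

/-- finiteness over `K(x)` from finitely many algebraic generators -/
theorem finiteDimensional_of_gens {ι : Type*} [Finite ι] (x : F) (g : ι → F)
    (htop : IntermediateField.adjoin K (Set.range g) = ⊤)
    (halg : ∀ i, IsAlgebraic K⟮x⟯ (g i)) : FiniteDimensional K⟮x⟯ F := by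
  have htop' : IntermediateField.adjoin K⟮x⟯ (Set.range g) = ⊤ := by
    rw [eq_top_iff]
    intro y _
    have hy : y ∈ IntermediateField.adjoin K (Set.range g) := by
      rw [htop]; trivial
    induction hy using IntermediateField.adjoin_induction with
    | mem x hx => exact IntermediateField.subset_adjoin _ _ hx
    | algebraMap c =>
      exact IntermediateField.algebraMap_mem
        (IntermediateField.adjoin K⟮x⟯ (Set.range g))
        (⟨algebraMap K _ c, IntermediateField.algebraMap_mem _ c⟩ : K⟮x⟯)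
    | add x y _ _ hx hy => exact add_mem (hx trivial) (hy trivial)
    | inv x _ hx => exact inv_mem (hx trivial)
    | mul x y _ _ hx hy => exact mul_mem (hx trivial) (hy trivial)
  haveI : FiniteDimensional K⟮x⟯ (IntermediateField.adjoin K⟮x⟯ (Set.range g)) :=
    IntermediateField.finiteDimensional_adjoin fun y hy => by
      obtain ⟨i, rfl⟩ := hy
      exact (halg i).isIntegral
  rw [htop'] at this
  exact Module.Finite.equiv (IntermediateField.topEquiv (F := K⟮x⟯) (E := F)).toLinearEquiv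

end Abstract

section Modular

open Fermat.Agent.T4.helper32

variable (M p : ℕ) [NeZero p]

theorem full_le_F1Qp : modularFunctionFieldFull (M * p) ≤ F1Qp M p := by
  rw [modularFunctionFieldFull, F1Qp]
  exact IntermediateField.adjoin.mono ℚ _ _
    (Set.subset_union_left.trans Set.subset_union_left)

/-- the inclusion of the function field of `X₀(M p)` into that of the curve of triples -/
def ffIncl : Fermat.Agent.S24.FN (M * p) →ₐ[Kbar] F1p M p :=
  IntermediateField.inclusion (laurentBaseChange_mono Kbar (full_le_F1Qp M p))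

@[simp]
theorem coe_ffIncl (x : Fermat.Agent.S24.FN (M * p)) :
    (ffIncl M p x : LaurentSeries Kbar) = (x : LaurentSeries Kbar) :=
  IntermediateField.coe_inclusion _ x

/-- `j` as an element of the function field of the curve of triples -/
def jF1p : F1p M p := alpha1 Kbar M p (helper1.jF1 M)

theorem ffIncl_xJ : ffIncl M p (Fermat.Agent.S24.xJ (M * p)) = jF1p M p :=
  Subtype.ext rfl

theorem jF1_transcendental : Transcendental Kbar (helper1.jF1 M) := by
  intro h
  have h1 : IsAlgebraic Kbar ((F1 M).val (helper1.jF1 M)) :=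
    (isAlgebraic_algHom_iff (F1 M).val (F1 M).val.toRingHom.injective).2 h
  have h2 : IsAlgebraic Kbar
      ((modularFunctionFieldBar M).val (Fermat.Agent.S24.xJ M)) := h1
  exact Fermat.Agent.S24.helper77.an_transcendental M
    ((isAlgebraic_algHom_iff (modularFunctionFieldBar M).val
      (modularFunctionFieldBar M).val.toRingHom.injective).1 h2)

theorem jF1p_transcendental : Transcendental Kbar (jF1p M p) := by
  intro h
  exact jF1_transcendental M
    ((isAlgebraic_algHom_iff (alpha1 Kbar M p) (alpha1 Kbar M p).toRingHom.injective).1 h)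

/-! ### The generators of the function field of the curve of triples -/

/-- `j(q^d)`, `d ∣ M p`, as an element of the function field of the curve of triples -/
def genD (d : (M * p).divisors) : F1p M p :=
  haveI : NeZero d.1 := ⟨(Nat.pos_of_mem_divisors d.2).ne'⟩
  ffIncl M p (Fermat.Agent.S24.JdF (M * p) d.1 (Nat.dvd_of_mem_divisors d.2))

/-- the generators `j(q^d)`, `s_a`, `s_a(q^p)` of the function field of the curve of triples -/
def gen1p : (M * p).divisors ⊕ ({a : ZMod M // a ≠ 0} ⊕ {a : ZMod M // a ≠ 0}) → F1p M p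
  | Sum.inl d => genD M p d
  | Sum.inr (Sum.inl a) => alpha1 Kbar M p (sEl M a.1 a.2)
  | Sum.inr (Sum.inr a) => beta1 Kbar M p (sEl M a.1 a.2)

theorem coeffEmb_algebraMap_rat (c : ℚ) :
    coeffEmb Kbar (algebraMap ℚ (LaurentSeries ℚ) c)
      = algebraMap Kbar (LaurentSeries Kbar) (algebraMap ℚ Kbar c) := by
  rw [algebraMap_laurentSeries_eq_single, algebraMap_laurentSeries_eq_single]
  exact coeffMap_single _ _ _

theorem coeffEmb_mem_adjoin_gen1p [NeZero M] (y : LaurentSeries ℚ) (hy : y ∈ F1Qp M p) :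
    coeffEmb Kbar y ∈ IntermediateField.adjoin Kbar
      (Set.range fun i => (gen1p M p i : LaurentSeries Kbar)) := by
  rw [F1Qp] at hy
  induction hy using IntermediateField.adjoin_induction with
  | mem x hx =>
    rcases hx with (⟨d, hne, hd, rfl⟩ | ⟨a, ha, rfl⟩) | ⟨_, ⟨a, ha, rfl⟩, rfl⟩
    · have hMp : M * p ≠ 0 := Nat.mul_ne_zero (NeZero.ne M) (NeZero.ne p)
      exact IntermediateField.subset_adjoin Kbar _
        ⟨Sum.inl ⟨d, Nat.mem_divisors.mpr ⟨hd, hMp⟩⟩, rfl⟩
    · exact IntermediateField.subset_adjoin Kbar _ ⟨Sum.inr (Sum.inl ⟨a, ha⟩), rfl⟩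
    · refine IntermediateField.subset_adjoin Kbar _ ⟨Sum.inr (Sum.inr ⟨a, ha⟩), ?_⟩
      show qExpand Kbar p (coeffEmb Kbar (sSer ℚ M a)) = _
      rw [coeffEmb_qExpand]
  | algebraMap c =>
    rw [coeffEmb_algebraMap_rat]
    exact IntermediateField.algebraMap_mem _ _
  | add x y _ _ hx hy =>
    rw [map_add]
    exact add_mem hx hy
  | inv x _ hx =>
    rw [map_inv₀]
    exact inv_mem hx
  | mul x y _ _ hx hy =>
    rw [map_mul]
    exact mul_mem hx hy

theorem F1p_eq_adjoin [NeZero M] :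
    F1p M p = IntermediateField.adjoin Kbar
      (Set.range fun i => (gen1p M p i : LaurentSeries Kbar)) := by
  apply le_antisymm
  · show laurentBaseChange Kbar (F1Qp M p) ≤ _
    unfold laurentBaseChange
    rw [IntermediateField.adjoin_le_iff]
    rintro _ ⟨y, hy, rfl⟩
    exact coeffEmb_mem_adjoin_gen1p M p y hy
  · rw [IntermediateField.adjoin_le_iff]
    rintro _ ⟨i, rfl⟩
    exact (gen1p M p i).2

theorem adjoin_gen1p_eq_top [NeZero M] :
    IntermediateField.adjoin Kbar (Set.range (gen1p M p)) = ⊤ := by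
  apply IntermediateField.lift_injective (F1p M p)
  rw [lift_adjoin, lift_top]
  have : (Subtype.val '' Set.range (gen1p M p) : Set (LaurentSeries Kbar)) =
      Set.range fun i => (gen1p M p i : LaurentSeries Kbar) := by
    rw [← Set.range_comp]
    rfl
  rw [this]
  exact (F1p_eq_adjoin M p).symm

/-! ### Algebraicity of the generators over `ℚ̄(j)` -/

theorem isAlgebraic_ffIncl [NeZero M] (y : Fermat.Agent.S24.FN (M * p)) :
    IsAlgebraic Kbar⟮jF1p M p⟯ (ffIncl M p y) := by
  haveI : NeZero (M * p) := ⟨Nat.mul_ne_zero (NeZero.ne M) (NeZero.ne p)⟩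
  haveI := Fermat.Agent.S24.helper77.an_finiteDimensional (M * p)
  have h : IsAlgebraic Kbar⟮Fermat.Agent.S24.xJ (M * p)⟯ y :=
    (IsIntegral.of_finite Kbar⟮Fermat.Agent.S24.xJ (M * p)⟯ y).isAlgebraic
  have h2 := isAlgebraic_adjoin_simple_map (ffIncl M p) h
  rwa [ffIncl_xJ] at h2

theorem isAlgebraic_alpha1 [FiniteDimensional Kbar⟮helper1.jF1 M⟯ (F1 M)] (y : F1 M) :
    IsAlgebraic Kbar⟮jF1p M p⟯ (alpha1 Kbar M p y) := by
  have h : IsAlgebraic Kbar⟮helper1.jF1 M⟯ y :=
    (IsIntegral.of_finite Kbar⟮helper1.jF1 M⟯ y).isAlgebraic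
  exact isAlgebraic_adjoin_simple_map (alpha1 Kbar M p) h

theorem beta1_jF1 [NeZero M] :
    beta1 Kbar M p (helper1.jF1 M) =
      genD M p ⟨p, Nat.mem_divisors.mpr
        ⟨dvd_mul_left p M, Nat.mul_ne_zero (NeZero.ne M) (NeZero.ne p)⟩⟩ := by
  apply Subtype.ext
  show qExpand Kbar p (coeffEmb Kbar (qExpand ℚ 1 jq)) = coeffEmb Kbar (qExpand ℚ p jq)
  rw [qExpand_one_apply, ← coeffEmb_qExpand]

theorem isAlgebraic_beta1 [NeZero M] [FiniteDimensional Kbar⟮helper1.jF1 M⟯ (F1 M)]
    (y : F1 M) : IsAlgebraic Kbar⟮jF1p M p⟯ (beta1 Kbar M p y) := by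
  have h : IsAlgebraic Kbar⟮helper1.jF1 M⟯ y :=
    (IsIntegral.of_finite Kbar⟮helper1.jF1 M⟯ y).isAlgebraic
  have h2 := isAlgebraic_adjoin_simple_map (beta1 Kbar M p) h
  refine isAlgebraic_adjoin_simple_trans h2 ?_
  rw [beta1_jF1]
  exact isAlgebraic_ffIncl M p _

theorem isAlgebraic_gen1p [NeZero M] [FiniteDimensional Kbar⟮helper1.jF1 M⟯ (F1 M)]
    (i : (M * p).divisors ⊕ ({a : ZMod M // a ≠ 0} ⊕ {a : ZMod M // a ≠ 0})) :
    IsAlgebraic Kbar⟮jF1p M p⟯ (gen1p M p i) := by
  rcases i with d | a | a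
  · exact isAlgebraic_ffIncl M p _
  · exact isAlgebraic_alpha1 M p _
  · exact isAlgebraic_beta1 M p _

/-- **Finiteness**: the function field of the curve of triples `(E, P, C)` is finite over
`ℚ̄(j)`, given that the function field of `X₁(M)` is. -/
theorem finiteDimensional_F1p [NeZero M] [FiniteDimensional Kbar⟮helper1.jF1 M⟯ (F1 M)] :
    FiniteDimensional Kbar⟮jF1p M p⟯ (F1p M p) :=
  finiteDimensional_of_gens (jF1p M p) (gen1p M p) (adjoin_gen1p_eq_top M p)
    (isAlgebraic_gen1p M p)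

/-! ### The Hecke inputs -/

/-- **[HECKE1-INPUTS]** the inputs of `T_p = b_* a^*` on `J₁(M)` hold, given that the
function field of `X₁(M)` is finite over `ℚ̄(j)`. -/
theorem hecke1Inputs [NeZero M] [FiniteDimensional Kbar⟮helper1.jF1 M⟯ (F1 M)] :
    Hecke1Inputs Kbar M p := by
  haveI := finiteDimensional_F1p M p
  obtain ⟨hβ, hα, hP, hfin, hFI, hN⟩ :=
    Fermat.Agent.P3.helper58.heckeInputs_of_ff (alpha1 Kbar M p) (beta1 Kbar M p)
      (helper1.jF1 M) (jF1_transcendental M) (jF1p M p) (jF1p_transcendental M p)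
  exact ⟨hα, hβ, hP, hfin, hFI, hN⟩

/-- **[HECKE1-INPUTS]**, transposed: the inputs of `a_* b^*` on `J₁(M)`. -/
theorem hecke1tInputs [NeZero M] [FiniteDimensional Kbar⟮helper1.jF1 M⟯ (F1 M)] :
    Hecke1tInputs Kbar M p := by
  haveI := finiteDimensional_F1p M p
  exact Fermat.Agent.P3.helper58.heckeInputs_of_ff (beta1 Kbar M p) (alpha1 Kbar M p)
    (helper1.jF1 M) (jF1_transcendental M) (jF1p M p) (jF1p_transcendental M p)

/-! ### Corollaries: the function fields are function fields of one variable -/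

theorem hasPrincipalDivisors_F1 [FiniteDimensional Kbar⟮helper1.jF1 M⟯ (F1 M)] :
    HasPrincipalDivisors Kbar (F1 M) :=
  Fermat.Agent.S24.helper75.ff_hasPrincipalDivisors (helper1.jF1 M) (jF1_transcendental M)

theorem hasPrincipalDivisors_F1p [NeZero M] [FiniteDimensional Kbar⟮helper1.jF1 M⟯ (F1 M)] :
    HasPrincipalDivisors Kbar (F1p M p) :=
  haveI := finiteDimensional_F1p M p
  Fermat.Agent.S24.helper75.ff_hasPrincipalDivisors (jF1p M p) (jF1p_transcendental M p)

theorem place_deg_F1 [FiniteDimensional Kbar⟮helper1.jF1 M⟯ (F1 M)]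
    (v : Place Kbar (F1 M)) : v.deg = 1 :=
  Fermat.Agent.S24.helper82.ff_deg_eq_one (helper1.jF1 M) (jF1_transcendental M) v

theorem place_deg_F1p [NeZero M] [FiniteDimensional Kbar⟮helper1.jF1 M⟯ (F1 M)]
    (v : Place Kbar (F1p M p)) : v.deg = 1 :=
  haveI := finiteDimensional_F1p M p
  Fermat.Agent.S24.helper82.ff_deg_eq_one (jF1p M p) (jF1p_transcendental M p) v

theorem finiteAlong_alpha1 [NeZero M] [FiniteDimensional Kbar⟮helper1.jF1 M⟯ (F1 M)] :
    FiniteAlong Kbar (alpha1 Kbar M p) :=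
  haveI := finiteDimensional_F1p M p
  Fermat.Agent.P3.helper58.finiteAlong_of_ff (alpha1 Kbar M p) (helper1.jF1 M)
    (jF1_transcendental M) (jF1p M p) (jF1p_transcendental M p)

theorem finiteAlong_beta1 [NeZero M] [FiniteDimensional Kbar⟮helper1.jF1 M⟯ (F1 M)] :
    FiniteAlong Kbar (beta1 Kbar M p) :=
  haveI := finiteDimensional_F1p M p
  Fermat.Agent.P3.helper58.finiteAlong_of_ff (beta1 Kbar M p) (helper1.jF1 M)
    (jF1_transcendental M) (jF1p M p) (jF1p_transcendental M p)

/-! ### Unfolding the total operators -/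

section Unfold

variable (L : Type*) [Field L] [Algebra ℚ L]

theorem hecke1Along_eq (hα : (alpha1 L M p).toRingHom.IsIntegral)
    (hβ : (beta1 L M p).toRingHom.IsIntegral)
    [HasPrincipalDivisors L (laurentBaseChange L (F1Qp M p))]
    (hfin : FiniteAlong L (beta1 L M p))
    (hFI : FundamentalIdentityAlong L (alpha1 L M p) hα)
    (hN : NormFormulaAlong L (beta1 L M p) hfin) :
    hecke1Along L M p =
      Pic0.correspondence (alpha1 L M p) (beta1 L M p) hα hβ hFI hfin hN := by
  have h : Hecke1Inputs L M p := ⟨hα, hβ, ‹_›, hfin, hFI, hN⟩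
  rw [hecke1Along, dif_pos h]

theorem hecke1tAlong_eq (hα : (alpha1 L M p).toRingHom.IsIntegral)
    (hβ : (beta1 L M p).toRingHom.IsIntegral)
    [HasPrincipalDivisors L (laurentBaseChange L (F1Qp M p))]
    (hfin : FiniteAlong L (alpha1 L M p))
    (hFI : FundamentalIdentityAlong L (beta1 L M p) hβ)
    (hN : NormFormulaAlong L (alpha1 L M p) hfin) :
    hecke1tAlong L M p =
      Pic0.correspondence (beta1 L M p) (alpha1 L M p) hβ hα hFI hfin hN := by
  have h : Hecke1tInputs L M p := ⟨hα, hβ, ‹_›, hfin, hFI, hN⟩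
  rw [hecke1tAlong, dif_pos h]

theorem hecke1Along_of_not (h : ¬ Hecke1Inputs L M p) : hecke1Along L M p = 0 := by
  rw [hecke1Along, dif_neg h]

theorem hecke1tAlong_of_not (h : ¬ Hecke1tInputs L M p) : hecke1tAlong L M p = 0 := by
  rw [hecke1tAlong, dif_neg h]

end Unfold

/-- `T_p = b_* a^*` on `J₁(M)` is the genuine correspondence. -/
theorem hecke1Along_eq_correspondence [NeZero M]
    [FiniteDimensional Kbar⟮helper1.jF1 M⟯ (F1 M)] :
    ∃ (hα : (alpha1 Kbar M p).toRingHom.IsIntegral)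
      (hβ : (beta1 Kbar M p).toRingHom.IsIntegral)
      (_ : HasPrincipalDivisors Kbar (F1p M p))
      (hfin : FiniteAlong Kbar (beta1 Kbar M p))
      (hFI : FundamentalIdentityAlong Kbar (alpha1 Kbar M p) hα)
      (hN : NormFormulaAlong Kbar (beta1 Kbar M p) hfin),
      hecke1Along Kbar M p =
        Pic0.correspondence (alpha1 Kbar M p) (beta1 Kbar M p) hα hβ hFI hfin hN := by
  obtain ⟨hα, hβ, hP, hfin, hFI, hN⟩ := hecke1Inputs M p
  exact ⟨hα, hβ, hP, hfin, hFI, hN, hecke1Along_eq M p Kbar hα hβ hfin hFI hN⟩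

/-- the transpose `a_* b^*` on `J₁(M)` is the genuine correspondence. -/
theorem hecke1tAlong_eq_correspondence [NeZero M]
    [FiniteDimensional Kbar⟮helper1.jF1 M⟯ (F1 M)] :
    ∃ (hα : (alpha1 Kbar M p).toRingHom.IsIntegral)
      (hβ : (beta1 Kbar M p).toRingHom.IsIntegral)
      (_ : HasPrincipalDivisors Kbar (F1p M p))
      (hfin : FiniteAlong Kbar (alpha1 Kbar M p))
      (hFI : FundamentalIdentityAlong Kbar (beta1 Kbar M p) hβ)
      (hN : NormFormulaAlong Kbar (alpha1 Kbar M p) hfin),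
      hecke1tAlong Kbar M p =
        Pic0.correspondence (beta1 Kbar M p) (alpha1 Kbar M p) hβ hα hFI hfin hN := by
  obtain ⟨hα, hβ, hP, hfin, hFI, hN⟩ := hecke1tInputs M p
  exact ⟨hα, hβ, hP, hfin, hFI, hN, hecke1tAlong_eq M p Kbar hα hβ hfin hFI hN⟩

omit [NeZero p] in
/-- `hecke1 M q` is the genuine correspondence `b_* a^*` (as a `ℤ`-linear map). -/
theorem hecke1_apply_eq [NeZero M] [FiniteDimensional Kbar⟮helper1.jF1 M⟯ (F1 M)]
    (q : Nat.Primes) [NeZero (q : ℕ)] (x : J1 M) :
    ∃ (hα : (alpha1 Kbar M q).toRingHom.IsIntegral)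
      (hβ : (beta1 Kbar M q).toRingHom.IsIntegral)
      (_ : HasPrincipalDivisors Kbar (F1p M q))
      (hfin : FiniteAlong Kbar (beta1 Kbar M q))
      (hFI : FundamentalIdentityAlong Kbar (alpha1 Kbar M q) hα)
      (hN : NormFormulaAlong Kbar (beta1 Kbar M q) hfin),
      hecke1 M q x =
        Pic0.correspondence (alpha1 Kbar M q) (beta1 Kbar M q) hα hβ hFI hfin hN x := by
  obtain ⟨hα, hβ, hP, hfin, hFI, hN, h⟩ := hecke1Along_eq_correspondence M q
  refine ⟨hα, hβ, hP, hfin, hFI, hN, ?_⟩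
  show hecke1Along Kbar M q x = _
  rw [h]

omit [NeZero p] in
/-- `hecke1t M q` is the genuine correspondence `a_* b^*` (as a `ℤ`-linear map). -/
theorem hecke1t_apply_eq [NeZero M] [FiniteDimensional Kbar⟮helper1.jF1 M⟯ (F1 M)]
    (q : Nat.Primes) [NeZero (q : ℕ)] (x : J1 M) :
    ∃ (hα : (alpha1 Kbar M q).toRingHom.IsIntegral)
      (hβ : (beta1 Kbar M q).toRingHom.IsIntegral)
      (_ : HasPrincipalDivisors Kbar (F1p M q))
      (hfin : FiniteAlong Kbar (alpha1 Kbar M q))
      (hFI : FundamentalIdentityAlong Kbar (beta1 Kbar M q) hβ)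
      (hN : NormFormulaAlong Kbar (alpha1 Kbar M q) hfin),
      hecke1t M q x =
        Pic0.correspondence (beta1 Kbar M q) (alpha1 Kbar M q) hβ hα hFI hfin hN x := by
  obtain ⟨hα, hβ, hP, hfin, hFI, hN, h⟩ := hecke1tAlong_eq_correspondence M q
  refine ⟨hα, hβ, hP, hfin, hFI, hN, ?_⟩
  show hecke1tAlong Kbar M q x = _
  rw [h]

end Modular

end Fermat.Agent.T4.helper11
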