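import Mathlib
import Fermat.Agent.T4.helper11_Hecke1Inputs
import Fermat.Agent.T4.helper77_DegSys
import Fermat.Agent.T4.helper44_WpX1
import Fermat.Agent.T4.helper56_X1Field

/-!
# T4 block (I) [DEG1] wiring (helper11): the function field of `X₁(M)` is finite over `ℚ̄(j)`

For `7 ≤ M`, from `helper44.x1Sys` (generator system), `helper77.deg_of` ([G-DEG]) and
`helper56.f1_eq` ([X1-FIELD]):

* `finiteDimensional_F1 M hM : FiniteDimensional ℚ̄⟮helper1.jF1 M⟯ (helper32.F1 M)` — the instance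
  hypothesis of `helper1.continuity1`, `helper11.hecke1Inputs`, `helper99.desc1_of`, ...;
* `finrank_F1 M hM : finrank = Nat.card (SL(2, ℤ) ⧸ PG1 M)`;
* `hecke1Inputs_of_le`, `hecke1tInputs_of_le` : `helper32.Hecke1Inputs / Hecke1tInputs Kbar M p`
  UNCONDITIONALLY for `7 ≤ M`, every `p ≠ 0`;
* `finiteDimensional_F1p_of_le`, `hasPrincipalDivisors_F1_of_le`, `continuity1_of_le`.
-/

set_option autoImplicit false
set_option linter.style.haveILetI false
set_option linter.unusedSectionVars false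

noncomputable section

open IntermediateField AlgebraicCurve ModularCurve
open scoped MatrixGroups

namespace Fermat.Agent.T4.helper11

section Transport

variable {K L : Type*} [Field K] [Field L] [Algebra K L]

/-- transport of finiteness over `K(x)` along an equality of intermediate fields -/
theorem finiteDimensional_adjoin_simple_congr {E₁ E₂ : IntermediateField K L} (h : E₁ = E₂)
    (x₁ : E₁) (x₂ : E₂) (hx : (x₁ : L) = (x₂ : L))
    (hfin : FiniteDimensional K⟮x₂⟯ E₂) : FiniteDimensional K⟮x₁⟯ E₁ := by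
  subst h
  obtain rfl : x₁ = x₂ := Subtype.ext hx
  exact hfin

theorem finrank_adjoin_simple_congr {E₁ E₂ : IntermediateField K L} (h : E₁ = E₂)
    (x₁ : E₁) (x₂ : E₂) (hx : (x₁ : L) = (x₂ : L)) :
    Module.finrank K⟮x₁⟯ E₁ = Module.finrank K⟮x₂⟯ E₂ := by
  subst h
  obtain rfl : x₁ = x₂ := Subtype.ext hx
  rfl

end Transport

section X1

open Fermat.Agent.T4.helper32 Fermat.Agent.T4.helper24

variable (M : ℕ) [NeZero M]

theorem coe_jF1_eq : ((helper1.jF1 M : F1 M) : LaurentSeries Kbar) =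
    (((x1Data M).xJ Kbar : (x1Data M).field Kbar) : LaurentSeries Kbar) := by
  show coeffEmb Kbar (qExpand ℚ 1 jq) = coeffEmb Kbar (JdTQ 1)
  rw [JdTQ, dif_neg one_ne_zero]

/-- **[DEG1]** the function field of `X₁(M)` is finite over `ℚ̄(j)` (`7 ≤ M`). -/
theorem finiteDimensional_F1 (hM : 7 ≤ M) :
    FiniteDimensional Kbar⟮helper1.jF1 M⟯ (F1 M) := by
  obtain ⟨-, hfin, -⟩ := (helper77.deg_of (x1Data M) (helper44.x1Sys M hM)).1
  exact finiteDimensional_adjoin_simple_congr (helper56.f1_eq M) (helper1.jF1 M)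
    ((x1Data M).xJ Kbar) (coe_jF1_eq M) hfin

/-- **[DEG1]** the degree of the function field of `X₁(M)` over `ℚ̄(j)` is the index of
`± Γ₁(M)` (`7 ≤ M`). -/
theorem finrank_F1 (hM : 7 ≤ M) :
    Module.finrank Kbar⟮helper1.jF1 M⟯ (F1 M) = Nat.card (SL(2, ℤ) ⧸ PG1 M) := by
  obtain ⟨-, hfin, hrk⟩ := (helper77.deg_of (x1Data M) (helper44.x1Sys M hM)).1
  rw [finrank_adjoin_simple_congr (helper56.f1_eq M) (helper1.jF1 M)
    ((x1Data M).xJ Kbar) (coe_jF1_eq M)]
  exact hrk

variable (p : ℕ) [NeZero p]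

/-- **[HECKE1-INPUTS]**, unconditional for `7 ≤ M`. -/
theorem hecke1Inputs_of_le (hM : 7 ≤ M) : Hecke1Inputs Kbar M p :=
  haveI := finiteDimensional_F1 M hM
  hecke1Inputs M p

/-- **[HECKE1-INPUTS]**, transposed, unconditional for `7 ≤ M`. -/
theorem hecke1tInputs_of_le (hM : 7 ≤ M) : Hecke1tInputs Kbar M p :=
  haveI := finiteDimensional_F1 M hM
  hecke1tInputs M p

/-- the function field of the curve of triples is finite over `ℚ̄(j)` (`7 ≤ M`) -/
theorem finiteDimensional_F1p_of_le (hM : 7 ≤ M) :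
    FiniteDimensional Kbar⟮jF1p M p⟯ (F1p M p) :=
  haveI := finiteDimensional_F1 M hM
  finiteDimensional_F1p M p

theorem hasPrincipalDivisors_F1_of_le (hM : 7 ≤ M) : HasPrincipalDivisors Kbar (F1 M) :=
  haveI := finiteDimensional_F1 M hM
  hasPrincipalDivisors_F1 M

/-- **[IN-c]** continuity of the Galois action on `J₁(M)`, unconditional for `7 ≤ M`. -/
theorem continuity1_of_le (hM : 7 ≤ M) (x : J1 M) :
    ∃ K : IntermediateField ℚ (AlgebraicClosure ℚ), FiniteDimensional ℚ K ∧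
      ∀ σ : AlgebraicClosure ℚ ≃ₐ[ℚ] AlgebraicClosure ℚ, (∀ y ∈ K, σ y = y) → σ • x = x :=
  haveI := finiteDimensional_F1 M hM
  helper1.continuity1 M x

end X1

end Fermat.Agent.T4.helper11
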