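import Fermat.Agent.T4.helper32_X1Defs
import Fermat.Agent.P3.helper10_GalHecke

/-!
# T4 (I) [I-GALH1] (helper3): Galois, Hecke operators and diamonds on `J₁(M)`

For `J = helper32.J1 M` with the operators `helper32.hecke1`, `helper32.hecke1t`,
`helper32.diamond1` of `helper32_X1Defs`:

* `hecke1_galois_smul`, `hecke1t_galois_smul` : the arithmetic Galois action commutes with the
  Hecke operators (port of `P3.helper10`; `alpha1` is the inclusion, `beta1` is `q ↦ q^p`).
* `isDiamondAut_unique` : an automorphism with `IsDiamondAut M d` is unique (`F1 M` is generated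
  over `ℚ̄` by the `X₀`-part and the `s_a`).
* `diamondAut_galois_comm`, `diamond1_galois_smul` : the arithmetic Galois action commutes with
  the diamond operators (unconditional).
* `diamond1_comm` : the diamond operators commute (unconditional).
* `hecke1_diamond1_of_lift` : `T_p` commutes with `⟨d⟩` as soon as the diamond automorphism
  lifts to the level field `F1p M p` compatibly with `alpha1` and `beta1`.
-/

set_option autoImplicit false
set_option linter.style.haveILetI false
set_option linter.unusedSectionVars false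

noncomputable section

open HahnSeries IntermediateField AlgebraicCurve ModularCurve

namespace Fermat.Agent.T4.helper3

open Fermat.Agent.T4.helper32

/-! ### Galois and the Hecke operators -/

section GalHecke

variable {L : Type*} [Field L] [Algebra ℚ L] (M p : ℕ) [NeZero p]

theorem intertwines_alpha1 (σ : L ≃ₐ[ℚ] L) :
    SemilinearAut.IntertwinesAlong ((alpha1 L M p) : _ →+* _)
      (arithmeticGalois (F1Q M) σ) (arithmeticGalois (F1Qp M p) σ) := fun x => Subtype.ext <| by
  show coeffMap (σ : L →+* L) ((alpha1 L M p x : _) : LaurentSeries L)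
    = ((alpha1 L M p (arithmeticGalois (F1Q M) σ • x) : _) : LaurentSeries L)
  rw [coe_alpha1, coe_alpha1, coe_arithmeticGalois_smul]

theorem intertwines_beta1 (σ : L ≃ₐ[ℚ] L) :
    SemilinearAut.IntertwinesAlong ((beta1 L M p) : _ →+* _)
      (arithmeticGalois (F1Q M) σ) (arithmeticGalois (F1Qp M p) σ) := fun x => Subtype.ext <| by
  show coeffMap (σ : L →+* L) ((beta1 L M p x : _) : LaurentSeries L)
    = ((beta1 L M p (arithmeticGalois (F1Q M) σ • x) : _) : LaurentSeries L)
  rw [coe_beta1, coe_beta1, coe_arithmeticGalois_smul,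
    Fermat.Agent.P3.helper10.coeffMap_qExpand_aux]

/-- The arithmetic Galois action commutes with `T_p = b_* a^*` on `Pic⁰`. -/
theorem hecke1Along_galois_smul (σ : L ≃ₐ[ℚ] L)
    (x : Pic0 L (laurentBaseChange L (F1Q M))) :
    hecke1Along L M p (σ • x) = σ • hecke1Along L M p x := by
  by_cases h : Hecke1Inputs L M p
  · obtain ⟨hα, hβ, hP, hfin, hFI, hN⟩ := h
    haveI := hP
    have e : hecke1Along L M p = Pic0.correspondence (alpha1 L M p) (beta1 L M p) hα hβ hFI
        hfin hN := by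
      unfold hecke1Along
      rw [dif_pos ⟨hα, hβ, hP, hfin, hFI, hN⟩]
    rw [e, galois_smul_pic0_def, galois_smul_pic0_def]
    exact Fermat.Agent.P3.helper10.pic0_correspondence_smul (alpha1 L M p) (beta1 L M p) hα hβ
      hFI hfin hN (intertwines_alpha1 M p σ) (intertwines_beta1 M p σ) x
  · have e : hecke1Along L M p = 0 := by
      unfold hecke1Along
      rw [dif_neg h]
    rw [e, AddMonoidHom.zero_apply, AddMonoidHom.zero_apply, smul_zero]

/-- The arithmetic Galois action commutes with the transpose `a_* b^*` on `Pic⁰`. -/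
theorem hecke1tAlong_galois_smul (σ : L ≃ₐ[ℚ] L)
    (x : Pic0 L (laurentBaseChange L (F1Q M))) :
    hecke1tAlong L M p (σ • x) = σ • hecke1tAlong L M p x := by
  by_cases h : Hecke1tInputs L M p
  · obtain ⟨hα, hβ, hP, hfin, hFI, hN⟩ := h
    haveI := hP
    have e : hecke1tAlong L M p = Pic0.correspondence (beta1 L M p) (alpha1 L M p) hβ hα hFI
        hfin hN := by
      unfold hecke1tAlong
      rw [dif_pos ⟨hα, hβ, hP, hfin, hFI, hN⟩]
    rw [e, galois_smul_pic0_def, galois_smul_pic0_def]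
    exact Fermat.Agent.P3.helper10.pic0_correspondence_smul (beta1 L M p) (alpha1 L M p) hβ hα
      hFI hfin hN (intertwines_beta1 M p σ) (intertwines_alpha1 M p σ) x
  · have e : hecke1tAlong L M p = 0 := by
      unfold hecke1tAlong
      rw [dif_neg h]
    rw [e, AddMonoidHom.zero_apply, AddMonoidHom.zero_apply, smul_zero]

end GalHecke

/-- **[GALH1]** Galois commutes with `T_p` on `J₁(M)`. -/
theorem hecke1_galois_smul (M : ℕ) (p : Nat.Primes) (g : Kbar ≃ₐ[ℚ] Kbar) (x : J1 M) :
    hecke1 M p (g • x) = g • hecke1 M p x := by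
  haveI : NeZero (p : ℕ) := ⟨p.2.ne_zero⟩
  exact hecke1Along_galois_smul M (p : ℕ) g x

/-- **[GALH1]** Galois commutes with the transpose of `T_p` on `J₁(M)`. -/
theorem hecke1t_galois_smul (M : ℕ) (p : Nat.Primes) (g : Kbar ≃ₐ[ℚ] Kbar) (x : J1 M) :
    hecke1t M p (g • x) = g • hecke1t M p x := by
  haveI : NeZero (p : ℕ) := ⟨p.2.ne_zero⟩
  exact hecke1tAlong_galois_smul M (p : ℕ) g x

/-! ### Generation of `F1 M` -/

section Gen

variable (M : ℕ)

theorem coeffEmb_algebraMap_rat (c : ℚ) :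
    coeffEmb Kbar (algebraMap ℚ (LaurentSeries ℚ) c) =
      algebraMap Kbar (LaurentSeries Kbar) (algebraMap ℚ Kbar c) := by
  rw [algebraMap_laurentSeries_eq_single, algebraMap_laurentSeries_eq_single, coeffEmb,
    coeffMap_single]

/-- **generation**: two ring homomorphisms from `F1 M` to a field which agree on the constants,
on the `X₀`-part and on the `s_a` are equal. -/
theorem ringHom_ext_F1 {B : Type*} [Field B] (f g : F1 M →+* B)
    (hK : ∀ a : Kbar, f (algebraMap Kbar (F1 M) a) = g (algebraMap Kbar (F1 M) a))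
    (hFF : ∀ x : F1 M, (x : LaurentSeries Kbar) ∈
      laurentBaseChange Kbar (modularFunctionFieldFull M) → f x = g x)
    (hs : ∀ (a : ZMod M) (ha : a ≠ 0), f (sEl M a ha) = g (sEl M a ha)) : f = g := by
  -- the equalizer
  let E : Subfield (F1 M) := RingHom.eqLocusField f g
  have hE : ∀ x : F1 M, x ∈ E ↔ f x = g x := fun x => Iff.rfl
  -- the rational part
  have hQ : ∀ (y : LaurentSeries ℚ) (hy : y ∈ F1Q M),
      (⟨coeffEmb Kbar y, coeffEmb_mem_laurentBaseChange Kbar hy⟩ : F1 M) ∈ E := by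
    intro y hy
    unfold F1Q at hy
    induction hy using IntermediateField.adjoin_induction with
    | mem y hy =>
      rcases hy with hy | ⟨a, ha, rfl⟩
      · rw [hE]
        refine hFF _ ?_
        exact coeffEmb_mem_laurentBaseChange Kbar (subset_adjoin ℚ _ hy)
      · rw [hE]
        exact hs a ha
    | algebraMap c =>
      rw [hE]
      have e : (⟨coeffEmb Kbar (algebraMap ℚ (LaurentSeries ℚ) c),
          coeffEmb_mem_laurentBaseChange Kbar ((F1Q M).algebraMap_mem c)⟩ : F1 M) =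
          algebraMap Kbar (F1 M) (algebraMap ℚ Kbar c) :=
        Subtype.ext (coeffEmb_algebraMap_rat c)
      exact e ▸ hK _
    | add x y hx hy ihx ihy =>
      have e : (⟨coeffEmb Kbar (x + y),
          coeffEmb_mem_laurentBaseChange Kbar ((F1Q M).add_mem hx hy)⟩ : F1 M) =
          ⟨coeffEmb Kbar x, coeffEmb_mem_laurentBaseChange Kbar hx⟩ +
            ⟨coeffEmb Kbar y, coeffEmb_mem_laurentBaseChange Kbar hy⟩ :=
        Subtype.ext (map_add (coeffEmb Kbar) x y)
      exact e ▸ E.add_mem ihx ihy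
    | inv x hx ihx =>
      have e : (⟨coeffEmb Kbar x⁻¹,
          coeffEmb_mem_laurentBaseChange Kbar ((F1Q M).inv_mem hx)⟩ : F1 M) =
          (⟨coeffEmb Kbar x, coeffEmb_mem_laurentBaseChange Kbar hx⟩ : F1 M)⁻¹ :=
        Subtype.ext (map_inv₀ (coeffEmb Kbar) x)
      exact e ▸ E.inv_mem ihx
    | mul x y hx hy ihx ihy =>
      have e : (⟨coeffEmb Kbar (x * y),
          coeffEmb_mem_laurentBaseChange Kbar ((F1Q M).mul_mem hx hy)⟩ : F1 M) =
          ⟨coeffEmb Kbar x, coeffEmb_mem_laurentBaseChange Kbar hx⟩ *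
            ⟨coeffEmb Kbar y, coeffEmb_mem_laurentBaseChange Kbar hy⟩ :=
        Subtype.ext (map_mul (coeffEmb Kbar) x y)
      exact e ▸ E.mul_mem ihx ihy
  -- the whole field
  have hall : ∀ (x : LaurentSeries Kbar) (hx : x ∈ F1 M), (⟨x, hx⟩ : F1 M) ∈ E := by
    intro x hx
    have hx' := mem_laurentBaseChange_iff.mp hx
    induction hx' using Subfield.closure_induction with
    | mem y hy =>
      rcases hy with ⟨a, rfl⟩ | ⟨z, hz, rfl⟩
      · rw [hE]
        exact hK a
      · exact hQ z hz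
    | one => exact E.one_mem
    | add x y hx' hy' ihx ihy =>
      have e : (⟨x + y, hx⟩ : F1 M) = ⟨x, hx'⟩ + ⟨y, hy'⟩ := rfl
      exact e ▸ E.add_mem (ihx hx') (ihy hy')
    | neg x hx' ihx =>
      have e : (⟨-x, hx⟩ : F1 M) = -⟨x, hx'⟩ := rfl
      exact e ▸ E.neg_mem (ihx hx')
    | inv x hx' ihx =>
      have e : (⟨x⁻¹, hx⟩ : F1 M) = (⟨x, hx'⟩ : F1 M)⁻¹ := rfl
      exact e ▸ E.inv_mem (ihx hx')
    | mul x y hx' hy' ihx ihy =>
      have e : (⟨x * y, hx⟩ : F1 M) = ⟨x, hx'⟩ * ⟨y, hy'⟩ := rfl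
      exact e ▸ E.mul_mem (ihx hx') (ihy hy')
  exact RingHom.ext fun x => (hE x).mp (hall x.1 x.2)

/-- an automorphism with `IsDiamondAut M d` is unique -/
theorem isDiamondAut_unique (d : (ZMod M)ˣ) {σ τ : F1 M ≃ₐ[Kbar] F1 M}
    (hσ : IsDiamondAut M d σ) (hτ : IsDiamondAut M d τ) : σ = τ := by
  have h := ringHom_ext_F1 M (σ : F1 M →+* F1 M) (τ : F1 M →+* F1 M)
    (fun a => by
      show σ (algebraMap Kbar (F1 M) a) = τ (algebraMap Kbar (F1 M) a)
      rw [σ.commutes, τ.commutes])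
    (fun x hx => by
      show σ x = τ x
      rw [hσ.1 x hx, hτ.1 x hx])
    (fun a ha => by
      show σ (sEl M a ha) = τ (sEl M a ha)
      exact Subtype.ext ((hσ.2 a ha).trans (hτ.2 a ha).symm))
  exact AlgEquiv.ext fun x => RingHom.congr_fun h x

end Gen

/-! ### Galois and the diamonds -/

section GalDiamond

variable (M : ℕ)

/-- the right-hand side of `IsDiamondAut` -/
def diamondRhs (d : (ZMod M)ˣ) (a : ZMod M) : LaurentSeries Kbar :=
  (coeffEmb Kbar (sSer ℚ M ((d : ZMod M) * a)) - coeffEmb Kbar (sSer ℚ M (d : ZMod M))) /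
    (coeffEmb Kbar (sSer ℚ M ((d : ZMod M) * 2)) - coeffEmb Kbar (sSer ℚ M (d : ZMod M)))

theorem coeffMap_diamondRhs (g : Kbar ≃ₐ[ℚ] Kbar) (d : (ZMod M)ˣ) (a : ZMod M) :
    coeffMap (g : Kbar →+* Kbar) (diamondRhs M d a) = diamondRhs M d a := by
  unfold diamondRhs
  rw [map_div₀, map_sub, map_sub, coeffMap_coeffEmb, coeffMap_coeffEmb, coeffMap_coeffEmb]

theorem arithmeticRingAut_sEl (g : Kbar ≃ₐ[ℚ] Kbar) (a : ZMod M) (ha : a ≠ 0) :
    arithmeticRingAut (F1Q M) g (sEl M a ha) = sEl M a ha :=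
  Subtype.ext (coeffMap_coeffEmb g _)

/-- a diamond automorphism commutes with the arithmetic Galois action on `F1 M` -/
theorem isDiamondAut_galois_comm (d : (ZMod M)ˣ) {σ : F1 M ≃ₐ[Kbar] F1 M}
    (hσ : IsDiamondAut M d σ) (g : Kbar ≃ₐ[ℚ] Kbar) (x : F1 M) :
    arithmeticRingAut (F1Q M) g (σ x) = σ (arithmeticRingAut (F1Q M) g x) := by
  have h := ringHom_ext_F1 M
    (((arithmeticRingAut (F1Q M) g : F1 M ≃+* F1 M) : F1 M →+* F1 M).comp (σ : F1 M →+* F1 M))
    ((σ : F1 M →+* F1 M).comp ((arithmeticRingAut (F1Q M) g : F1 M ≃+* F1 M) : F1 M →+* F1 M))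
    (fun a => by
      show arithmeticRingAut (F1Q M) g (σ (algebraMap Kbar (F1 M) a)) =
        σ (arithmeticRingAut (F1Q M) g (algebraMap Kbar (F1 M) a))
      rw [σ.commutes, arithmeticRingAut_algebraMap, σ.commutes])
    (fun x hx => by
      show arithmeticRingAut (F1Q M) g (σ x) = σ (arithmeticRingAut (F1Q M) g x)
      rw [hσ.1 x hx]
      exact (hσ.1 _ (coeffMap_mem_laurentBaseChange g hx)).symm)
    (fun a ha => by
      show arithmeticRingAut (F1Q M) g (σ (sEl M a ha)) =
        σ (arithmeticRingAut (F1Q M) g (sEl M a ha))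
      rw [arithmeticRingAut_sEl]
      refine Subtype.ext ?_
      rw [coe_arithmeticRingAut_apply, hσ.2 a ha]
      exact coeffMap_diamondRhs M g d a)
  exact RingHom.congr_fun h x

theorem diamondAut_spec (d : (ZMod M)ˣ) :
    IsDiamondAut M d (diamondAut M d) ∨ diamondAut M d = AlgEquiv.refl := by
  rcases Classical.em (∃ σ : F1 M ≃ₐ[Kbar] F1 M, IsDiamondAut M d σ) with h | h
  · left
    have e : diamondAut M d = h.choose := by
      unfold diamondAut
      exact dif_pos h
    rw [e]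
    exact h.choose_spec
  · right
    unfold diamondAut
    exact dif_neg h

theorem diamondAut_eq_of_isDiamondAut (d : (ZMod M)ˣ) {σ : F1 M ≃ₐ[Kbar] F1 M}
    (hσ : IsDiamondAut M d σ) : diamondAut M d = σ := by
  have hex : ∃ σ : F1 M ≃ₐ[Kbar] F1 M, IsDiamondAut M d σ := ⟨σ, hσ⟩
  have e : diamondAut M d = hex.choose := by
    unfold diamondAut
    exact dif_pos hex
  rw [e]
  exact isDiamondAut_unique M d hex.choose_spec hσ

/-- the diamond automorphism commutes with the arithmetic Galois action on `F1 M` -/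
theorem diamondAut_galois_comm (d : (ZMod M)ˣ) (g : Kbar ≃ₐ[ℚ] Kbar) (x : F1 M) :
    arithmeticRingAut (F1Q M) g (diamondAut M d x) =
      diamondAut M d (arithmeticRingAut (F1Q M) g x) := by
  rcases diamondAut_spec M d with h | h
  · exact isDiamondAut_galois_comm M d h g x
  · rw [h]
    rfl

/-- the diamond automorphism commutes with the arithmetic Galois action, in `SemilinearAut` -/
theorem commute_ofAlgAut_diamondAut (d : (ZMod M)ˣ) (g : Kbar ≃ₐ[ℚ] Kbar) :
    Commute (SemilinearAut.ofAlgAut (diamondAut M d)) (arithmeticGalois (F1Q M) g) := by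
  refine Subtype.ext (Prod.ext (RingEquiv.ext fun x => ?_) ?_)
  · exact (diamondAut_galois_comm M d g x).symm
  · show (1 : RingAut Kbar) * g.toRingEquiv = g.toRingEquiv * 1
    rw [one_mul, mul_one]

/-- **[GALH1]** Galois commutes with the diamond operators on `J₁(M)`. -/
theorem diamond1_galois_smul (d : (ZMod M)ˣ) (g : Kbar ≃ₐ[ℚ] Kbar) (x : J1 M) :
    diamond1 M d (g • x) = g • diamond1 M d x := by
  rw [diamond1_apply, diamond1_apply, galois_smul_pic0_def, galois_smul_pic0_def, ← mul_smul,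
    ← mul_smul, ((commute_ofAlgAut_diamondAut M d g).inv_left).eq]

/-! ### The diamonds form a commutative family -/

theorem sEl_coe (a : ZMod M) (ha : a ≠ 0) :
    (sEl M a ha : LaurentSeries Kbar) = coeffEmb Kbar (sSer ℚ M a) :=
  rfl

theorem units_mul_ne_zero (d : (ZMod M)ˣ) {a : ZMod M} (ha : a ≠ 0) : (d : ZMod M) * a ≠ 0 :=
  fun h => ha ((Units.mul_right_eq_zero d).mp h)

theorem units_ne_zero_of_two (h2 : (2 : ZMod M) ≠ 0) (d : (ZMod M)ˣ) : (d : ZMod M) ≠ 0 := by
  intro h
  apply h2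
  have := units_mul_ne_zero M d h2
  rw [h, zero_mul] at this
  exact absurd rfl this

/-- the image of a diamond automorphism on `s_a`, in terms of the elements `sEl` -/
theorem isDiamondAut_apply_sEl (h2 : (2 : ZMod M) ≠ 0) (d : (ZMod M)ˣ)
    {σ : F1 M ≃ₐ[Kbar] F1 M} (hσ : IsDiamondAut M d σ) (a : ZMod M) (ha : a ≠ 0) :
    σ (sEl M a ha) =
      (sEl M ((d : ZMod M) * a) (units_mul_ne_zero M d ha) -
          sEl M (d : ZMod M) (units_ne_zero_of_two M h2 d)) /
        (sEl M ((d : ZMod M) * 2) (units_mul_ne_zero M d h2) -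
          sEl M (d : ZMod M) (units_ne_zero_of_two M h2 d)) :=
  Subtype.ext (hσ.2 a ha)

theorem sEl_congr {a b : ZMod M} (h : a = b) (ha : a ≠ 0) (hb : b ≠ 0) :
    sEl M a ha = sEl M b hb := by
  subst h
  rfl

/-- the composition of diamond automorphisms on `s_a`, inside `F1 M` -/
theorem isDiamondAut_mul_apply (h2 : (2 : ZMod M) ≠ 0) (d e : (ZMod M)ˣ)
    {σ τ : F1 M ≃ₐ[Kbar] F1 M} (hσ : IsDiamondAut M d σ) (hτ : IsDiamondAut M e τ)
    (a : ZMod M) (ha : a ≠ 0) :
    σ (τ (sEl M a ha)) =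
      (sEl M (((d * e : (ZMod M)ˣ) : ZMod M) * a) (units_mul_ne_zero M (d * e) ha) -
          sEl M ((d * e : (ZMod M)ˣ) : ZMod M) (units_ne_zero_of_two M h2 (d * e))) /
        (sEl M (((d * e : (ZMod M)ˣ) : ZMod M) * 2) (units_mul_ne_zero M (d * e) h2) -
          sEl M ((d * e : (ZMod M)ˣ) : ZMod M) (units_ne_zero_of_two M h2 (d * e))) := by
  have hea := units_mul_ne_zero M e ha
  have he := units_ne_zero_of_two M h2 e
  have he2 := units_mul_ne_zero M e h2
  rw [isDiamondAut_apply_sEl M h2 e hτ a ha, map_div₀, map_sub, map_sub,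
    isDiamondAut_apply_sEl M h2 d hσ _ hea, isDiamondAut_apply_sEl M h2 d hσ _ he,
    isDiamondAut_apply_sEl M h2 d hσ _ he2]
  rw [sEl_congr M (show ((d * e : (ZMod M)ˣ) : ZMod M) * a = (d : ZMod M) * ((e : ZMod M) * a) by
      rw [Units.val_mul, mul_assoc]) (units_mul_ne_zero M (d * e) ha)
      (units_mul_ne_zero M d hea),
    sEl_congr M (show ((d * e : (ZMod M)ˣ) : ZMod M) * 2 = (d : ZMod M) * ((e : ZMod M) * 2) by
      rw [Units.val_mul, mul_assoc]) (units_mul_ne_zero M (d * e) h2)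
      (units_mul_ne_zero M d he2),
    sEl_congr M (show ((d * e : (ZMod M)ˣ) : ZMod M) = (d : ZMod M) * (e : ZMod M) from
      Units.val_mul d e) (units_ne_zero_of_two M h2 (d * e)) (units_mul_ne_zero M d he)]
  set D : F1 M := sEl M ((d : ZMod M) * 2) (units_mul_ne_zero M d h2) -
    sEl M (d : ZMod M) (units_ne_zero_of_two M h2 d) with hD
  by_cases hD0 : D = 0
  · -- degenerate case: all `s_b` vanish
    have hz : ∀ (b : ZMod M) (hb : b ≠ 0), sEl M b hb = 0 := by
      intro b hb
      have h1 : σ (sEl M b hb) = 0 := by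
        rw [isDiamondAut_apply_sEl M h2 d hσ b hb, ← hD, hD0, div_zero]
      rw [← map_zero σ] at h1
      exact σ.injective h1
    rw [hD0, hz _ (units_mul_ne_zero M d hea), hz _ (units_mul_ne_zero M d he),
      hz _ (units_mul_ne_zero M d he2)]
    simp
  · rw [div_sub_div_same, div_sub_div_same, div_div_div_cancel_right₀ hD0,
      sub_sub_sub_cancel_right, sub_sub_sub_cancel_right]

/-- **multiplicativity**: the composition of diamond automorphisms for `d` and `e` is a diamond
automorphism for `d * e`. -/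
theorem isDiamondAut_mul (h2 : (2 : ZMod M) ≠ 0) (d e : (ZMod M)ˣ)
    {σ τ : F1 M ≃ₐ[Kbar] F1 M} (hσ : IsDiamondAut M d σ) (hτ : IsDiamondAut M e τ) :
    IsDiamondAut M (d * e) (σ * τ) := by
  refine ⟨fun x hx => ?_, fun a ha => ?_⟩
  · show σ (τ x) = x
    rw [hτ.1 x hx, hσ.1 x hx]
  · show ((σ (τ (sEl M a ha)) : F1 M) : LaurentSeries Kbar) = _
    rw [isDiamondAut_mul_apply M h2 d e hσ hτ a ha]
    rfl

/-- diamond automorphisms commute -/
theorem isDiamondAut_comm (d e : (ZMod M)ˣ) {σ τ : F1 M ≃ₐ[Kbar] F1 M}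
    (hσ : IsDiamondAut M d σ) (hτ : IsDiamondAut M e τ) : σ * τ = τ * σ := by
  by_cases h2 : (2 : ZMod M) = 0
  · -- then `(ZMod M)ˣ` is trivial
    have hde : d = e := by
      have hM : M ∣ 2 := (ZMod.natCast_eq_zero_iff 2 M).mp (by exact_mod_cast h2)
      have hM' : M = 1 ∨ M = 2 := (Nat.dvd_prime Nat.prime_two).mp hM
      rcases hM' with rfl | rfl
      · exact Subsingleton.elim d e
      · have hcard : Fintype.card (ZMod 2)ˣ = 1 := by
          rw [ZMod.card_units_eq_totient]
          rfl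
        haveI : Subsingleton (ZMod 2)ˣ := Fintype.card_le_one_iff_subsingleton.mp hcard.le
        exact Subsingleton.elim d e
    subst hde
    rw [isDiamondAut_unique M d hσ hτ]
  · have h1 := isDiamondAut_mul M h2 d e hσ hτ
    have h3 := isDiamondAut_mul M h2 e d hτ hσ
    rw [mul_comm e d] at h3
    exact isDiamondAut_unique M (d * e) h1 h3

/-- the diamond automorphisms commute -/
theorem diamondAut_comm (d e : (ZMod M)ˣ) :
    diamondAut M d * diamondAut M e = diamondAut M e * diamondAut M d := by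
  rcases diamondAut_spec M d with hd | hd
  · rcases diamondAut_spec M e with he | he
    · exact isDiamondAut_comm M d e hd he
    · rw [he]
      rfl
  · rw [hd]
    rfl

/-- the diamond automorphisms are multiplicative as soon as they exist -/
theorem diamondAut_mul (h2 : (2 : ZMod M) ≠ 0) (d e : (ZMod M)ˣ)
    (hd : ∃ σ : F1 M ≃ₐ[Kbar] F1 M, IsDiamondAut M d σ)
    (he : ∃ σ : F1 M ≃ₐ[Kbar] F1 M, IsDiamondAut M e σ) :
    diamondAut M (d * e) = diamondAut M d * diamondAut M e := by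
  obtain ⟨σ, hσ⟩ := hd
  obtain ⟨τ, hτ⟩ := he
  rw [diamondAut_eq_of_isDiamondAut M d hσ, diamondAut_eq_of_isDiamondAut M e hτ]
  exact diamondAut_eq_of_isDiamondAut M (d * e) (isDiamondAut_mul M h2 d e hσ hτ)

/-- **the diamond operators commute** on `J₁(M)`. -/
theorem diamond1_comm (d e : (ZMod M)ˣ) (x : J1 M) :
    diamond1 M d (diamond1 M e x) = diamond1 M e (diamond1 M d x) := by
  rw [diamond1_apply, diamond1_apply, diamond1_apply, diamond1_apply, ← mul_smul, ← mul_smul,
    ← mul_inv_rev, ← mul_inv_rev, ← map_mul, ← map_mul, diamondAut_comm M d e]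

/-- the diamond operators are multiplicative as soon as the diamond automorphisms exist -/
theorem diamond1_mul (h2 : (2 : ZMod M) ≠ 0) (d e : (ZMod M)ˣ)
    (hd : ∃ σ : F1 M ≃ₐ[Kbar] F1 M, IsDiamondAut M d σ)
    (he : ∃ σ : F1 M ≃ₐ[Kbar] F1 M, IsDiamondAut M e σ) (x : J1 M) :
    diamond1 M (d * e) x = diamond1 M d (diamond1 M e x) := by
  rw [diamond1_apply, diamond1_apply, diamond1_apply, ← mul_smul, ← mul_inv_rev, ← map_mul,
    diamondAut_mul M h2 d e hd he, diamondAut_comm M d e]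

end GalDiamond

/-! ### `T_p` and the diamonds: reduction to the level field -/

section DiamHecke

variable (M : ℕ) (p : ℕ) [NeZero p]

/-- `T_p = b_* a^*` commutes with `⟨d⟩` as soon as the diamond automorphism lifts to the level
field `F1p M p`, compatibly with `alpha1` and `beta1`. -/
theorem hecke1Along_diamond1_of_lift (d : (ZMod M)ˣ) (δ' : F1p M p ≃ₐ[Kbar] F1p M p)
    (hα : ∀ x : F1 M, δ' (alpha1 Kbar M p x) = alpha1 Kbar M p (diamondAut M d x))
    (hβ : ∀ x : F1 M, δ' (beta1 Kbar M p x) = beta1 Kbar M p (diamondAut M d x)) (x : J1 M) :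
    hecke1Along Kbar M p (diamond1 M d x) = diamond1 M d (hecke1Along Kbar M p x) := by
  have iα : SemilinearAut.IntertwinesAlong ((alpha1 Kbar M p) : _ →+* _)
      (SemilinearAut.ofAlgAut (diamondAut M d))⁻¹ (SemilinearAut.ofAlgAut δ')⁻¹ :=
    SemilinearAut.IntertwinesAlong.inv (fun x => hα x)
  have iβ : SemilinearAut.IntertwinesAlong ((beta1 Kbar M p) : _ →+* _)
      (SemilinearAut.ofAlgAut (diamondAut M d))⁻¹ (SemilinearAut.ofAlgAut δ')⁻¹ :=
    SemilinearAut.IntertwinesAlong.inv (fun x => hβ x)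
  by_cases h : Hecke1Inputs Kbar M p
  · obtain ⟨hα', hβ', hP, hfin, hFI, hN⟩ := h
    haveI := hP
    have e : hecke1Along Kbar M p = Pic0.correspondence (alpha1 Kbar M p) (beta1 Kbar M p) hα'
        hβ' hFI hfin hN := by
      unfold hecke1Along
      rw [dif_pos ⟨hα', hβ', hP, hfin, hFI, hN⟩]
    rw [e, diamond1_apply, diamond1_apply]
    exact Fermat.Agent.P3.helper10.pic0_correspondence_smul (alpha1 Kbar M p) (beta1 Kbar M p)
      hα' hβ' hFI hfin hN iα iβ x
  · have e : hecke1Along Kbar M p = 0 := by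
      unfold hecke1Along
      rw [dif_neg h]
    rw [e, AddMonoidHom.zero_apply, AddMonoidHom.zero_apply, map_zero]

/-- the transpose `a_* b^*` commutes with `⟨d⟩` under the same hypothesis. -/
theorem hecke1tAlong_diamond1_of_lift (d : (ZMod M)ˣ) (δ' : F1p M p ≃ₐ[Kbar] F1p M p)
    (hα : ∀ x : F1 M, δ' (alpha1 Kbar M p x) = alpha1 Kbar M p (diamondAut M d x))
    (hβ : ∀ x : F1 M, δ' (beta1 Kbar M p x) = beta1 Kbar M p (diamondAut M d x)) (x : J1 M) :
    hecke1tAlong Kbar M p (diamond1 M d x) = diamond1 M d (hecke1tAlong Kbar M p x) := by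
  have iα : SemilinearAut.IntertwinesAlong ((alpha1 Kbar M p) : _ →+* _)
      (SemilinearAut.ofAlgAut (diamondAut M d))⁻¹ (SemilinearAut.ofAlgAut δ')⁻¹ :=
    SemilinearAut.IntertwinesAlong.inv (fun x => hα x)
  have iβ : SemilinearAut.IntertwinesAlong ((beta1 Kbar M p) : _ →+* _)
      (SemilinearAut.ofAlgAut (diamondAut M d))⁻¹ (SemilinearAut.ofAlgAut δ')⁻¹ :=
    SemilinearAut.IntertwinesAlong.inv (fun x => hβ x)
  by_cases h : Hecke1tInputs Kbar M p
  · obtain ⟨hα', hβ', hP, hfin, hFI, hN⟩ := h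
    haveI := hP
    have e : hecke1tAlong Kbar M p = Pic0.correspondence (beta1 Kbar M p) (alpha1 Kbar M p) hβ'
        hα' hFI hfin hN := by
      unfold hecke1tAlong
      rw [dif_pos ⟨hα', hβ', hP, hfin, hFI, hN⟩]
    rw [e, diamond1_apply, diamond1_apply]
    exact Fermat.Agent.P3.helper10.pic0_correspondence_smul (beta1 Kbar M p) (alpha1 Kbar M p)
      hβ' hα' hFI hfin hN iβ iα x
  · have e : hecke1tAlong Kbar M p = 0 := by
      unfold hecke1tAlong
      rw [dif_neg h]
    rw [e, AddMonoidHom.zero_apply, AddMonoidHom.zero_apply, map_zero]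

end DiamHecke

/-- **[DIAM-HECKE]**, the geometric input: the diamond automorphisms lift to the level fields,
compatibly with both degeneracy maps. -/
def DiamondLiftStatement (M : ℕ) : Prop :=
  ∀ (p : ℕ) (_ : NeZero p), p.Prime → ¬ p ∣ M → ∀ d : (ZMod M)ˣ,
    ∃ δ' : F1p M p ≃ₐ[Kbar] F1p M p,
      (∀ x : F1 M, δ' (alpha1 Kbar M p x) = alpha1 Kbar M p (diamondAut M d x)) ∧
      ∀ x : F1 M, δ' (beta1 Kbar M p x) = beta1 Kbar M p (diamondAut M d x)

/-- `T_p` commutes with the diamonds on `J₁(M)` (from the lifts). -/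
theorem hecke1_diamond1 {M : ℕ} (h : DiamondLiftStatement M) (p : Nat.Primes) (hpM : ¬ (p : ℕ) ∣ M)
    (d : (ZMod M)ˣ) (x : J1 M) :
    hecke1 M p (diamond1 M d x) = diamond1 M d (hecke1 M p x) := by
  haveI : NeZero (p : ℕ) := ⟨p.2.ne_zero⟩
  obtain ⟨δ', hα, hβ⟩ := h (p : ℕ) inferInstance p.2 hpM d
  exact hecke1Along_diamond1_of_lift M (p : ℕ) d δ' hα hβ x

/-- the transpose of `T_p` commutes with the diamonds on `J₁(M)` (from the lifts). -/
theorem hecke1t_diamond1 {M : ℕ} (h : DiamondLiftStatement M) (p : Nat.Primes)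
    (hpM : ¬ (p : ℕ) ∣ M) (d : (ZMod M)ˣ) (x : J1 M) :
    hecke1t M p (diamond1 M d x) = diamond1 M d (hecke1t M p x) := by
  haveI : NeZero (p : ℕ) := ⟨p.2.ne_zero⟩
  obtain ⟨δ', hα, hβ⟩ := h (p : ℕ) inferInstance p.2 hpM d
  exact hecke1tAlong_diamond1_of_lift M (p : ℕ) d δ' hα hβ x

end Fermat.Agent.T4.helper3

end
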