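import Mathlib
import Fermat.Agent.T4.helper4_RedDefs

/-!
# T4 block (I), [I-ES-KWIRE] (helper92): LEAF PROPS of the Kummer wiring for `X₁(M)`

The Kummer wiring (`helper92_KumWire1.lean`) derives `helper4.KummerUnr1Statement` and
`helper4.KummerES1Statement` (convention [A]: `φ² - hecke1 φ + ℓ ⟨ℓ⟩ = 0`, `hecke1 = b_* a^*`,
`⟨ℓ⟩ = diamond1 = ` action of `(diamondAut)⁻¹`) from the following leaves.

* `heckeNorm1 M ℓ h = Norm_{β₁} (α₁ h)` : the function-level form of `hecke1` (Kummer dictionary: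
  `n • D = div h ⟹ n • hecke1 D = div (heckeNorm1 h)`).
* `DiamGood1Statement M A d` [DIAM-GOOD] : the inverse diamond `(diamondAut M d)⁻¹` maps good
  integral series to good integral series (integral `q`-expansion, nonzero reduction in the
  special fibre field).
* `EsRed1Statement M ℓ A d` [ES-RED1] : the reduction of the Hecke norm (Kronecker congruence
  with diamond): `red (N_β (α Y)) = (red Z)(q^ℓ) · Frob (red Y)`, `Z = (diamondAut M d)⁻¹ Y`
  (`d = ℓ mod M`).
* [SCALE1] is `helper4.ScaleStatement A (F1 M) (F1b A M)`, [HI1] is `helper32.Hecke1Inputs`.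
-/

set_option autoImplicit false

noncomputable section

open HahnSeries IntermediateField AlgebraicCurve ModularCurve
open Fermat.Agent.S18.helper19 (Kb kA)
open Fermat.Agent.P2.helper29 (incl red)
open Fermat.Agent.T4.helper32 Fermat.Agent.T4.helper4

namespace Fermat.Agent.T4.helper92

/-- the Hecke norm `h ↦ Norm_{F1(M;ℓ) / β₁ F1(M)} (α₁ h)`: the function-level form of
`hecke1 = b_* a^*`. -/
def heckeNorm1 (M ℓ : ℕ) [NeZero ℓ] (h : F1 M) : F1 M :=
  letI := algebraAlong (beta1 Kbar M ℓ)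
  Algebra.norm (F1 M) (alpha1 Kbar M ℓ h)

/-- **[DIAM-GOOD]** the inverse diamond preserves good integral series. -/
def DiamGood1Statement (M : ℕ) (A : ValuationSubring Kb) (d : (ZMod M)ˣ) : Prop :=
  ∀ (Y : LaurentSeries A) (hY : incl A Y ∈ F1 M), red A Y ∈ F1b A M → red A Y ≠ 0 →
    ∃ Z : LaurentSeries A,
      incl A Z = (((diamondAut M d).symm ⟨incl A Y, hY⟩ : F1 M) : LaurentSeries Kb) ∧
      red A Z ∈ F1b A M ∧ red A Z ≠ 0

/-- **[ES-RED1]** the reduction of the Hecke norm, with diamond: for integral `Y ∈ F1 M` and the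
integral series `Z` of `(diamondAut M d)⁻¹ Y`, the Hecke norm `N_β (α Y)` is integral and
`red (N_β (α Y)) = (red Z)(q^ℓ) · Frob (red Y)`. -/
def EsRed1Statement (M ℓ : ℕ) [NeZero ℓ] [Fact ℓ.Prime] (A : ValuationSubring Kb)
    (d : (ZMod M)ˣ) : Prop :=
  ∀ (Y Z : LaurentSeries A) (hY : incl A Y ∈ F1 M),
    incl A Z = (((diamondAut M d).symm ⟨incl A Y, hY⟩ : F1 M) : LaurentSeries Kb) →
    ∃ Y' : LaurentSeries A,
      incl A Y' = ((heckeNorm1 M ℓ ⟨incl A Y, hY⟩ : F1 M) : LaurentSeries Kb) ∧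
      ∀ [CharP (kA A) ℓ],
        red A Y' = qExpand (kA A) ℓ (red A Z) * coeffMap (frobenius (kA A) ℓ) (red A Y)

end Fermat.Agent.T4.helper92

end
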