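import Mathlib
import Fermat.Agent.P2.helper93_CoreWire
import Fermat.Agent.T4.helper3_GalH1
import Fermat.Agent.T4.helper33_X1Series
import Fermat.Agent.T4.helper92_KumWire1Defs

/-!
# T4 block (I), [I-ES-KWIRE] (helper92): the Kummer wiring for `X₁(M)`

Port of `P2/helper93_CoreWire` to the function field `F1 M` of `X₁(M)`:

* `kummerUnr1_of` : `helper4.KummerUnr1Statement M p` from [SCALE1];
* `kummerES1_of`  : `helper4.KummerES1Statement M p` from [SCALE1], [HI1], [DIAM-GOOD],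
  [ES-RED1] (the leaf Props of `helper92_KumWire1Defs`);
* `p2Core1_of_leaves` : `helper4.P2Core1Statement M p` from (INJ1) and the four leaves.

Convention [A] of `helper4_RedDefs`: `φ² - hecke1 φ + ℓ ⟨ℓ⟩ = 0`.  The function of
`φ² x - hecke1 (φ x) + ℓ ⟨ℓ⟩ x` is `φ² h / N_β (α φ h) · ((δ_ℓ)⁻¹ h) ^ ℓ`; with `a = red h`,
`a' = red ((δ_ℓ)⁻¹ h)` its reduction is `Fr² a / (a' ^ ℓ · Fr² a) · a' ^ ℓ = 1`.
-/

set_option autoImplicit false
set_option linter.unusedSectionVars false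
set_option linter.unusedVariables false
set_option linter.style.longLine false
set_option linter.style.haveILetI false

noncomputable section

open HahnSeries IntermediateField AlgebraicCurve ModularCurve
open Fermat.Agent.S18.helper19 (Kb kA)
open Fermat.Agent.P2.helper29 (incl red)
open Fermat.Agent.T4.helper32 Fermat.Agent.T4.helper4
open Fermat.Agent.P2.helper93 (IsRootDiv kum_exists_root kum_mk_eq_zero_of_ord decA decK actA
  coeffMap_subtype_actA coeffMap_residue_actA decK_eq_id_of_mem_inertia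
  decK_eq_frobenius_of_isFrobeniusAt cw_coeffMap_injective norm_along_const charP_residueField
  coeffMap_subtype_injective)

namespace Fermat.Agent.T4.helper92

/-! ## The Kummer dictionary on `F1 M` -/

section KummerX1

variable (M ℓ : ℕ) [NeZero ℓ]

/-- the coefficientwise Galois action on `F1 M` -/
def galF1 (σ : Kb ≃ₐ[ℚ] Kb) : F1 M ≃+* F1 M :=
  arithmeticRingAut (F1Q M) σ

theorem coe_galF1 (σ : Kb ≃ₐ[ℚ] Kb) (h : F1 M) :
    (galF1 M σ h : LaurentSeries Kb) = coeffMap (σ : Kb →+* Kb) (h : LaurentSeries Kb) := rfl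

theorem galF1_algebraMap (σ : Kb ≃ₐ[ℚ] Kb) (c : Kb) :
    galF1 M σ (algebraMap Kb (F1 M) c) = algebraMap Kb (F1 M) (σ c) :=
  arithmeticRingAut_algebraMap (F1Q M) σ c

theorem heckeNorm1_mul (x y : F1 M) :
    heckeNorm1 M ℓ (x * y) = heckeNorm1 M ℓ x * heckeNorm1 M ℓ y := by
  unfold heckeNorm1
  rw [map_mul, map_mul]

theorem heckeNorm1_algebraMap (c : Kb) :
    ∃ d : ℕ, heckeNorm1 M ℓ (algebraMap Kb (F1 M) c) = algebraMap Kb (F1 M) (c ^ d) :=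
  norm_along_const (beta1 Kbar M ℓ) (alpha1 Kbar M ℓ) c

theorem kum_hecke1 (hℓ : ℓ.Prime) (hHI : Hecke1Inputs Kbar M ℓ) {n : ℕ}
    {D : Divisor.degZero (K := Kb) (F := F1 M)}
    {h : F1 M} (H : IsRootDiv n (D : Divisor Kb (F1 M)) h) :
    ∃ D' : Divisor.degZero (K := Kb) (F := F1 M),
      hecke1 M ⟨ℓ, hℓ⟩ (Pic0.mk D) = Pic0.mk D' ∧
      IsRootDiv n (D' : Divisor Kb (F1 M)) (heckeNorm1 M ℓ h) := by
  obtain ⟨hα, hβ, hP, hfin, hFI, hN⟩ := hHI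
  haveI := hP
  refine ⟨Pic0.degZeroCorrespondence (alpha1 Kbar M ℓ) (beta1 Kbar M ℓ) hα hβ hFI D,
    ?_, ?_⟩
  · have e : hecke1Along Kbar M ℓ = Pic0.correspondence (alpha1 Kbar M ℓ) (beta1 Kbar M ℓ)
        hα hβ hFI hfin hN := by
      unfold hecke1Along
      rw [dif_pos ⟨hα, hβ, hP, hfin, hFI, hN⟩]
    have e2 : hecke1 M ⟨ℓ, hℓ⟩ (Pic0.mk D) = hecke1Along Kbar M ℓ (Pic0.mk D) := rfl
    rw [e2, e]
    rfl
  · exact H.correspondence (alpha1 Kbar M ℓ) (beta1 Kbar M ℓ) hα hβ hfin hN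

theorem kum_galois1 (σ : Kb ≃ₐ[ℚ] Kb) {n : ℕ}
    {D : Divisor.degZero (K := Kb) (F := F1 M)}
    {h : F1 M} (H : IsRootDiv n (D : Divisor Kb (F1 M)) h) :
    ∃ D' : Divisor.degZero (K := Kb) (F := F1 M),
      σ • (Pic0.mk D : J1 M) = Pic0.mk D' ∧
      IsRootDiv n (D' : Divisor Kb (F1 M)) (galF1 M σ h) := by
  refine ⟨SemilinearAut.degZeroSMulHom (arithmeticGalois (F1Q M) σ) D, ?_, ?_⟩
  · rfl
  · exact H.smul (arithmeticGalois (F1Q M) σ)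

theorem kum_diamond1 (d : (ZMod M)ˣ) {n : ℕ}
    {D : Divisor.degZero (K := Kb) (F := F1 M)}
    {h : F1 M} (H : IsRootDiv n (D : Divisor Kb (F1 M)) h) :
    ∃ D' : Divisor.degZero (K := Kb) (F := F1 M),
      diamond1 M d (Pic0.mk D) = Pic0.mk D' ∧
      IsRootDiv n (D' : Divisor Kb (F1 M)) ((diamondAut M d).symm h) := by
  refine ⟨SemilinearAut.degZeroSMulHom (SemilinearAut.ofAlgAut (diamondAut M d))⁻¹ D, ?_, ?_⟩
  · rfl
  · exact H.smul (SemilinearAut.ofAlgAut (diamondAut M d))⁻¹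

/-- the inverse diamond commutes with the coefficientwise Galois action -/
theorem diamondAut_symm_galF1 (d : (ZMod M)ˣ) (σ : Kb ≃ₐ[ℚ] Kb) (x : F1 M) :
    (diamondAut M d).symm (galF1 M σ x) = galF1 M σ ((diamondAut M d).symm x) := by
  apply (diamondAut M d).injective
  rw [AlgEquiv.apply_symm_apply]
  have h := Fermat.Agent.T4.helper3.diamondAut_galois_comm M d σ ((diamondAut M d).symm x)
  rw [AlgEquiv.apply_symm_apply] at h
  exact h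

end KummerX1

/-! ## Coefficientwise field homomorphisms preserve the special fibre field -/

section FullC

theorem coeffMap_mem_F1C {k k' : Type*} [Field k] [Field k'] (φ : k →+* k') (N : ℕ)
    {x : LaurentSeries k} (hx : x ∈ F1C k N) :
    coeffMap φ x ∈ F1C k' N := by
  unfold F1C at hx
  induction hx using IntermediateField.adjoin_induction with
  | mem x hx =>
    rcases hx with ⟨d, hd0, hd, rfl⟩ | ⟨a, ha, rfl⟩
    · haveI := hd0
      have e : coeffMap φ (qExpand k d (jqModC k)) = qExpand k' d (jqModC k') := by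
        rw [Fermat.Agent.P2.helper94.coeffMap_qExpand, coeffMap_jqModC]
      rw [e]
      exact IntermediateField.subset_adjoin k' _ (Or.inl ⟨d, hd0, hd, rfl⟩)
    · rw [Fermat.Agent.T4.helper33.coeffMap_sSer]
      exact IntermediateField.subset_adjoin k' _ (Or.inr ⟨a, ha, rfl⟩)
  | algebraMap c =>
    rw [algebraMap_laurentSeries_eq_single, coeffMap_single,
      ← algebraMap_laurentSeries_eq_single]
    exact (F1C k' N).algebraMap_mem _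
  | add x y _ _ hx hy => rw [map_add]; exact add_mem hx hy
  | inv x _ hx => rw [map_inv₀]; exact inv_mem hx
  | mul x y _ _ hx hy => rw [map_mul]; exact mul_mem hx hy

end FullC

/-! ## Functions with good reduction, and quotients of such -/

section Rep

variable {A : ValuationSubring Kb} {N : ℕ}

/-- `y ∈ F1 N` has an `A`-integral `q`-expansion whose reduction is the nonzero element `yb` of
the special fibre field. -/
def Lifts1 (A : ValuationSubring Kb) (N : ℕ) (y : F1 N) (yb : LaurentSeries (kA A)) : Prop :=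
  ∃ Y : LaurentSeries A, coeffMap A.subtype Y = (y : LaurentSeries Kb) ∧
    coeffMap (IsLocalRing.residue A) Y = yb ∧ yb ∈ F1b A N ∧ yb ≠ 0

theorem Lifts1.mem {y : F1 N} {yb : LaurentSeries (kA A)} (h : Lifts1 A N y yb) :
    yb ∈ F1b A N := by
  obtain ⟨Y, -, -, m, -⟩ := h
  exact m

theorem Lifts1.bar_ne_zero {y : F1 N} {yb : LaurentSeries (kA A)} (h : Lifts1 A N y yb) :
    yb ≠ 0 := by
  obtain ⟨Y, -, -, -, n0⟩ := h
  exact n0

theorem Lifts1.ne_zero {y : F1 N} {yb : LaurentSeries (kA A)} (h : Lifts1 A N y yb) :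
    y ≠ 0 := by
  obtain ⟨Y, e1, e2, -, n0⟩ := h
  rintro rfl
  have h1 : coeffMap A.subtype Y = coeffMap A.subtype 0 := by
    rw [e1, map_zero]; rfl
  have h2 : Y = 0 := coeffMap_subtype_injective h1
  rw [h2, map_zero] at e2
  exact n0 e2.symm

theorem Lifts1.mul {y y' : F1 N} {yb yb' : LaurentSeries (kA A)} (h : Lifts1 A N y yb)
    (h' : Lifts1 A N y' yb') : Lifts1 A N (y * y') (yb * yb') := by
  obtain ⟨Y, e1, e2, m, n0⟩ := h
  obtain ⟨Y', e1', e2', m', n0'⟩ := h'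
  refine ⟨Y * Y', ?_, ?_, mul_mem m m', mul_ne_zero n0 n0'⟩
  · rw [map_mul, e1, e1']; rfl
  · rw [map_mul, e2, e2']

theorem Lifts1.pow {y : F1 N} {yb : LaurentSeries (kA A)} (h : Lifts1 A N y yb) (m : ℕ) :
    Lifts1 A N (y ^ m) (yb ^ m) := by
  obtain ⟨Y, e1, e2, hm, n0⟩ := h
  refine ⟨Y ^ m, ?_, ?_, pow_mem hm m, pow_ne_zero m n0⟩
  · rw [map_pow, e1]; rfl
  · rw [map_pow, e2]

theorem Lifts1.gal (σ : Kb ≃ₐ[ℚ] Kb) (hσ : σ ∈ A.decompositionSubgroup ℚ) {y : F1 N}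
    {yb : LaurentSeries (kA A)} (h : Lifts1 A N y yb) :
    Lifts1 A N (galF1 N σ y) (coeffMap (decK σ hσ) yb) := by
  obtain ⟨Y, e1, e2, hm, n0⟩ := h
  refine ⟨actA σ hσ Y, ?_, ?_, coeffMap_mem_F1C _ N hm, ?_⟩
  · rw [coeffMap_subtype_actA, e1, coe_galF1]
  · rw [coeffMap_residue_actA, e2]
  · intro h0
    exact n0 (cw_coeffMap_injective _ (decK σ hσ).injective (h0.trans (map_zero _).symm))

/-- [DIAM-GOOD] in terms of `Lifts1` -/
theorem Lifts1.diamond {d : (ZMod N)ˣ} (hD : DiamGood1Statement N A d) {y : F1 N}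
    {yb : LaurentSeries (kA A)} (h : Lifts1 A N y yb) :
    ∃ zb : LaurentSeries (kA A), Lifts1 A N ((diamondAut N d).symm y) zb := by
  obtain ⟨Y, e1, e2, hm, n0⟩ := h
  have hY : incl A Y ∈ F1 N := by
    show coeffMap A.subtype Y ∈ F1 N
    rw [e1]; exact y.2
  have hy : (⟨incl A Y, hY⟩ : F1 N) = y := Subtype.ext e1
  obtain ⟨Z, hZ1, hZ2, hZ3⟩ := hD Y hY (by show coeffMap _ Y ∈ _; rw [e2]; exact hm)
    (by show coeffMap _ Y ≠ 0; rw [e2]; exact n0)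
  rw [hy] at hZ1
  exact ⟨red A Z, Z, hZ1, rfl, hZ2, hZ3⟩

/-- [ES-RED1] in terms of `Lifts1`: if `y` lifts `Fr a` and `(δ_d)⁻¹ y` lifts `Fr a'`, then the
Hecke norm of `y` lifts `a' ^ ℓ · Fr (Fr a)`. -/
theorem Lifts1.hecke (ℓ : ℕ) [NeZero ℓ] [Fact ℓ.Prime] [CharP (kA A) ℓ] {d : (ZMod N)ˣ}
    (hES : EsRed1Statement N ℓ A d) {y : F1 N} {a a' : LaurentSeries (kA A)}
    (ha' : a' ∈ F1b A N) (ha'0 : a' ≠ 0)
    (h : Lifts1 A N y (coeffMap (frobenius (kA A) ℓ) a))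
    (h' : Lifts1 A N ((diamondAut N d).symm y) (coeffMap (frobenius (kA A) ℓ) a')) :
    Lifts1 A N (heckeNorm1 N ℓ y)
      (a' ^ ℓ * coeffMap (frobenius (kA A) ℓ) (coeffMap (frobenius (kA A) ℓ) a)) := by
  obtain ⟨Y, e1, e2, hm, n0⟩ := h
  obtain ⟨Z, f1, f2, -, -⟩ := h'
  have hY : incl A Y ∈ F1 N := by
    show coeffMap A.subtype Y ∈ F1 N
    rw [e1]; exact y.2
  have hy : (⟨incl A Y, hY⟩ : F1 N) = y := Subtype.ext e1
  obtain ⟨Y', e1', e2'⟩ := hES Y Z hY (by rw [hy]; exact f1)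
  refine ⟨Y', ?_, ?_, ?_, ?_⟩
  · rw [← hy]; exact e1'
  · have := e2'
    show red A Y' = _
    rw [this]
    have hZ : red A Z = coeffMap (frobenius (kA A) ℓ) a' := f2
    have hYr : red A Y = coeffMap (frobenius (kA A) ℓ) a := e2
    rw [hZ, hYr, Fermat.Agent.P2.helper94.laurent_pow_char ℓ a']
  · exact mul_mem (pow_mem ha' ℓ) (coeffMap_mem_F1C _ N hm)
  · exact mul_ne_zero (pow_ne_zero ℓ ha'0) (fun h0 => n0
      (cw_coeffMap_injective _ (frobenius (kA A) ℓ).injective (h0.trans (map_zero _).symm)))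

/-- `h = c · y₁ / y₂` with `c` a nonzero constant and `y₁`, `y₂` of good reduction `a`, `b`. -/
def Rep1 (A : ValuationSubring Kb) (N : ℕ) (h : F1 N) (a b : LaurentSeries (kA A)) : Prop :=
  ∃ (c : Kb) (y₁ y₂ : F1 N), c ≠ 0 ∧ Lifts1 A N y₁ a ∧ Lifts1 A N y₂ b ∧
    algebraMap Kb (F1 N) c * y₁ = h * y₂

theorem Rep1.mem_left {h : F1 N} {a b : LaurentSeries (kA A)} (H : Rep1 A N h a b) :
    a ∈ F1b A N := by
  obtain ⟨c, y₁, y₂, -, l₁, -, -⟩ := H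
  exact l₁.mem

theorem Rep1.mem_right {h : F1 N} {a b : LaurentSeries (kA A)} (H : Rep1 A N h a b) :
    b ∈ F1b A N := by
  obtain ⟨c, y₁, y₂, -, -, l₂, -⟩ := H
  exact l₂.mem

theorem Rep1.ne_zero {h : F1 N} {a b : LaurentSeries (kA A)} (H : Rep1 A N h a b) : h ≠ 0 := by
  obtain ⟨c, y₁, y₂, hc, l₁, l₂, e⟩ := H
  rintro rfl
  rw [zero_mul] at e
  have hc' : algebraMap Kb (F1 N) c ≠ 0 := (map_ne_zero _).mpr hc
  exact mul_ne_zero hc' l₁.ne_zero e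

theorem Rep1.mul {h h' : F1 N} {a b a' b' : LaurentSeries (kA A)} (H : Rep1 A N h a b)
    (H' : Rep1 A N h' a' b') : Rep1 A N (h * h') (a * a') (b * b') := by
  obtain ⟨c, y₁, y₂, hc, l₁, l₂, e⟩ := H
  obtain ⟨c', y₁', y₂', hc', l₁', l₂', e'⟩ := H'
  refine ⟨c * c', y₁ * y₁', y₂ * y₂', mul_ne_zero hc hc', l₁.mul l₁', l₂.mul l₂', ?_⟩
  rw [map_mul, mul_mul_mul_comm, e, e', mul_mul_mul_comm]

theorem Rep1.inv {h : F1 N} {a b : LaurentSeries (kA A)} (H : Rep1 A N h a b) :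
    Rep1 A N h⁻¹ b a := by
  have hh := H.ne_zero
  obtain ⟨c, y₁, y₂, hc, l₁, l₂, e⟩ := H
  refine ⟨c⁻¹, y₂, y₁, inv_ne_zero hc, l₂, l₁, ?_⟩
  have hc' : algebraMap Kb (F1 N) c ≠ 0 := (map_ne_zero _).mpr hc
  rw [map_inv₀]
  field_simp
  rw [mul_comm]
  exact e.symm

theorem Rep1.div {h h' : F1 N} {a b a' b' : LaurentSeries (kA A)} (H : Rep1 A N h a b)
    (H' : Rep1 A N h' a' b') : Rep1 A N (h / h') (a * b') (b * a') := by
  rw [div_eq_mul_inv]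
  exact H.mul H'.inv

theorem Rep1.pow {h : F1 N} {a b : LaurentSeries (kA A)} (H : Rep1 A N h a b) (m : ℕ) :
    Rep1 A N (h ^ m) (a ^ m) (b ^ m) := by
  obtain ⟨c, y₁, y₂, hc, l₁, l₂, e⟩ := H
  refine ⟨c ^ m, y₁ ^ m, y₂ ^ m, pow_ne_zero m hc, l₁.pow m, l₂.pow m, ?_⟩
  rw [map_pow, ← mul_pow, e, mul_pow]

theorem Rep1.gal (σ : Kb ≃ₐ[ℚ] Kb) (hσ : σ ∈ A.decompositionSubgroup ℚ) {h : F1 N}
    {a b : LaurentSeries (kA A)} (H : Rep1 A N h a b) :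
    Rep1 A N (galF1 N σ h) (coeffMap (decK σ hσ) a) (coeffMap (decK σ hσ) b) := by
  obtain ⟨c, y₁, y₂, hc, l₁, l₂, e⟩ := H
  refine ⟨σ c, galF1 N σ y₁, galF1 N σ y₂, (map_ne_zero σ).mpr hc, l₁.gal σ hσ, l₂.gal σ hσ, ?_⟩
  rw [← galF1_algebraMap, ← map_mul, e, map_mul]

/-- the inverse diamond of a quotient of good series is a quotient of good series -/
theorem Rep1.diamond {d : (ZMod N)ˣ} (hD : DiamGood1Statement N A d) {h : F1 N}
    {a b : LaurentSeries (kA A)} (H : Rep1 A N h a b) :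
    ∃ a' b' : LaurentSeries (kA A), Rep1 A N ((diamondAut N d).symm h) a' b' := by
  obtain ⟨c, y₁, y₂, hc, l₁, l₂, e⟩ := H
  obtain ⟨a', l₁'⟩ := l₁.diamond hD
  obtain ⟨b', l₂'⟩ := l₂.diamond hD
  refine ⟨a', b', c, _, _, hc, l₁', l₂', ?_⟩
  have := congrArg (diamondAut N d).symm e
  rw [map_mul, map_mul, AlgEquiv.commutes] at this
  exact this

end Rep

/-! ## Applying (INJ) -/

section Inj

variable {A : ValuationSubring Kb} {N : ℕ}

theorem inj_apply1 {m : ℕ} (hinj : InjStatement A (F1 N) (F1b A N) m) {f : F1 N}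
    {a : LaurentSeries (kA A)}
    (hrep : Rep1 A N f a a) (hord : ∀ P : Place Kb (F1 N), (m : ℤ) ∣ P.ord f) :
    ∃ (c : Kb) (u : F1 N), f = algebraMap Kb (F1 N) c * u ^ m := by
  have hf := hrep.ne_zero
  obtain ⟨c, y₁, y₂, hc, ⟨Y₁, e1, e2, m1, n1⟩, ⟨Y₂, e1', e2', m2, n2⟩, e⟩ := hrep
  have hc' : algebraMap Kb (F1 N) c ≠ 0 := (map_ne_zero _).mpr hc
  have hci : algebraMap Kb (F1 N) c⁻¹ ≠ 0 := (map_ne_zero _).mpr (inv_ne_zero hc)
  have hf' : algebraMap Kb (F1 N) c⁻¹ * f ≠ 0 := mul_ne_zero hci hf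
  have hy : y₁ = algebraMap Kb (F1 N) c⁻¹ * f * y₂ := by
    rw [mul_assoc, ← e, ← mul_assoc, ← map_mul, inv_mul_cancel₀ hc, map_one, one_mul]
  obtain ⟨c', u, hcu⟩ := hinj (algebraMap Kb (F1 N) c⁻¹ * f) hf'
    (fun P => by
      rw [P.ord_mul hci hf, Fermat.Agent.S24.helper75.place_ord_algebraMap, zero_add]
      exact hord P)
    ⟨Y₁, Y₂, ⟨by show coeffMap _ Y₁ ∈ _; rw [e1]; exact y₁.2,
        by show coeffMap _ Y₁ ∈ _; rw [e2]; exact m1,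
        by show coeffMap _ Y₁ ≠ 0; rw [e2]; exact n1⟩,
      ⟨by show coeffMap _ Y₂ ∈ _; rw [e1']; exact y₂.2,
        by show coeffMap _ Y₂ ∈ _; rw [e2']; exact m2,
        by show coeffMap _ Y₂ ≠ 0; rw [e2']; exact n2⟩,
      by show coeffMap _ Y₁ = _ * coeffMap _ Y₂; rw [e1, e1', hy]; rfl,
      by show coeffMap _ Y₁ = coeffMap _ Y₂; rw [e2, e2']⟩
  refine ⟨c * c', u, ?_⟩
  rw [map_mul, mul_assoc, ← hcu, ← mul_assoc, ← map_mul, mul_inv_cancel₀ hc, map_one, one_mul]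

theorem mk_eq_zero_of_rep1 {m : ℕ} (hm : m ≠ 0) (hinj : InjStatement A (F1 N) (F1b A N) m)
    {E : Divisor.degZero (K := Kb) (F := F1 N)} {f : F1 N} {a : LaurentSeries (kA A)}
    (H : IsRootDiv m (E : Divisor Kb (F1 N)) f) (hrep : Rep1 A N f a a) :
    Pic0.mk E = 0 := by
  obtain ⟨c, u, hcu⟩ := inj_apply1 hinj hrep (fun P => ⟨_, (H.2 P).symm⟩)
  have hf := H.1
  have hc : algebraMap Kb (F1 N) c ≠ 0 := by
    rintro h0
    rw [h0, zero_mul] at hcu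
    exact hf hcu
  have hu : u ≠ 0 := by
    rintro rfl
    rw [zero_pow hm, mul_zero] at hcu
    exact hf hcu
  refine kum_mk_eq_zero_of_ord hu (fun P => ?_)
  have h1 := H.2 P
  rw [hcu, P.ord_mul hc (pow_ne_zero m hu), Fermat.Agent.S24.helper75.place_ord_algebraMap,
    zero_add, ← zpow_natCast, P.ord_zpow] at h1
  exact mul_left_cancel₀ (Nat.cast_ne_zero.mpr hm) h1

/-- [SCALE1] gives representations -/
theorem rep1_of_scale (hS : ScaleStatement A (F1 N) (F1b A N)) (h : F1 N) (hh : h ≠ 0) :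
    ∃ a b : LaurentSeries (kA A), Rep1 A N h a b := by
  obtain ⟨c, Y₁, Y₂, hc, g₁, g₂, e⟩ := hS (h : LaurentSeries Kb) h.2
    (fun h0 => hh (Subtype.ext h0))
  refine ⟨_, _, c, ⟨incl A Y₁, g₁.1⟩, ⟨incl A Y₂, g₂.1⟩, hc, ⟨Y₁, rfl, rfl, g₁.2.1, g₁.2.2⟩,
    ⟨Y₂, rfl, rfl, g₂.2.1, g₂.2.2⟩, Subtype.ext ?_⟩
  exact e

end Inj

/-! ## The main theorems -/

section Main

/-- **[K-UNR1]** the unramified part of the Kummer wiring for `X₁(M)`. -/
theorem kummerUnr1_of (M p : ℕ)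
    (hVAL : ∀ ℓ : ℕ, ℓ.Prime → ¬ ℓ ∣ M * p → ∀ A : ValuationSubring Kb, A.LiesOverPrime ℓ →
      ScaleStatement A (F1 M) (F1b A M)) :
    KummerUnr1Statement M p := by
  intro hINJ ℓ hℓ hℓMp A hA σ hσ x hx
  obtain ⟨n, hx⟩ := hx
  have hp0 : p ≠ 0 := by
    rintro rfl
    exact hℓMp (by rw [mul_zero]; exact dvd_zero ℓ)
  obtain ⟨D, rfl⟩ := Pic0.mk_surjective x
  obtain ⟨h, H⟩ := kum_exists_root hx
  obtain ⟨D', e', H'⟩ := kum_galois1 M σ H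
  obtain ⟨hσ', hid⟩ := decK_eq_id_of_mem_inertia hσ
  obtain ⟨a, b, R⟩ := rep1_of_scale (hVAL ℓ hℓ hℓMp A hA) h H.1
  have R' := R.gal σ hσ'
  rw [hid, coeffMap_id, coeffMap_id] at R'
  have R2 := R'.div R
  rw [mul_comm b a] at R2
  have H2 : IsRootDiv (p ^ n) ((D' - D : Divisor.degZero (K := Kb) (F := F1 M)) :
      Divisor Kb (F1 M)) (galF1 M σ h / h) := by
    rw [AddSubgroup.coe_sub]
    exact H'.div H
  have key := mk_eq_zero_of_rep1 (pow_ne_zero n hp0) (hINJ ℓ hℓ hℓMp A hA n) H2 R2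
  rw [e']
  exact sub_eq_zero.mp key

/-- **[K-ES1]** the Eichler-Shimura part of the Kummer wiring for `X₁(M)` (convention [A]). -/
theorem kummerES1_of (M p : ℕ)
    (hVAL : ∀ ℓ : ℕ, ℓ.Prime → ¬ ℓ ∣ M * p → ∀ A : ValuationSubring Kb, A.LiesOverPrime ℓ →
      ScaleStatement A (F1 M) (F1b A M))
    (hHI : ∀ (ℓ : ℕ) [NeZero ℓ], ℓ.Prime → ¬ ℓ ∣ M * p → Hecke1Inputs Kbar M ℓ)
    (hDG : ∀ (ℓ : ℕ) (hℓ : ℓ.Prime) (hℓMp : ¬ ℓ ∣ M * p) (A : ValuationSubring Kb),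
      A.LiesOverPrime ℓ →
      DiamGood1Statement M A (unitOfPrime M ℓ hℓ (fun h => hℓMp (Dvd.dvd.mul_right h p))))
    (hES : ∀ (ℓ : ℕ) [NeZero ℓ] [Fact ℓ.Prime] (hℓ : ℓ.Prime) (hℓMp : ¬ ℓ ∣ M * p)
      (A : ValuationSubring Kb), A.LiesOverPrime ℓ →
      EsRed1Statement M ℓ A (unitOfPrime M ℓ hℓ (fun h => hℓMp (Dvd.dvd.mul_right h p)))) :
    KummerES1Statement M p := by
  intro hINJ ℓ hℓ hℓMp A hA σ hF x hx
  obtain ⟨n, hx⟩ := hx
  haveI : Fact ℓ.Prime := ⟨hℓ⟩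
  haveI : NeZero ℓ := ⟨hℓ.ne_zero⟩
  haveI : CharP (kA A) ℓ := charP_residueField hℓ hA
  have hp0 : p ≠ 0 := by
    rintro rfl
    exact hℓMp (by rw [mul_zero]; exact dvd_zero ℓ)
  set d := unitOfPrime M ℓ hℓ (fun h => hℓMp (Dvd.dvd.mul_right h p)) with hd
  obtain ⟨D, rfl⟩ := Pic0.mk_surjective x
  obtain ⟨h, H⟩ := kum_exists_root hx
  obtain ⟨D1, e1, H1⟩ := kum_galois1 M σ H
  obtain ⟨D2, e2, H2⟩ := kum_galois1 M σ H1
  obtain ⟨D3, e3, H3⟩ := kum_hecke1 M ℓ hℓ (hHI ℓ hℓ hℓMp) H1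
  obtain ⟨D4, e4, H4⟩ := kum_diamond1 M d H
  obtain ⟨hσ', hfr⟩ := decK_eq_frobenius_of_isFrobeniusAt (ℓ := ℓ) hF
  -- representation of `h` as `c y₁ / y₂`
  obtain ⟨a, b, c, y₁, y₂, hc, l₁, l₂, e⟩ := rep1_of_scale (hVAL ℓ hℓ hℓMp A hA) h H.1
  have R : Rep1 A M h a b := ⟨c, y₁, y₂, hc, l₁, l₂, e⟩
  -- the diamonds of `y₁`, `y₂`
  obtain ⟨a', l₁'⟩ := l₁.diamond (hDG ℓ hℓ hℓMp A hA)
  obtain ⟨b', l₂'⟩ := l₂.diamond (hDG ℓ hℓ hℓMp A hA)
  have R' : Rep1 A M ((diamondAut M d).symm h) a' b' := by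
    refine ⟨c, _, _, hc, l₁', l₂', ?_⟩
    have := congrArg (diamondAut M d).symm e
    rw [map_mul, map_mul, AlgEquiv.commutes] at this
    exact this
  -- Galois twists
  have g₁ := l₁.gal σ hσ'
  have g₂ := l₂.gal σ hσ'
  have g₁' := l₁'.gal σ hσ'
  have g₂' := l₂'.gal σ hσ'
  rw [hfr] at g₁ g₂ g₁' g₂'
  rw [← diamondAut_symm_galF1] at g₁' g₂'
  -- the Hecke norms
  have n₁ := Lifts1.hecke ℓ (hES ℓ hℓ hℓMp A hA) l₁'.mem l₁'.bar_ne_zero g₁ g₁'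
  have n₂ := Lifts1.hecke ℓ (hES ℓ hℓ hℓMp A hA) l₂'.mem l₂'.bar_ne_zero g₂ g₂'
  have R1 : Rep1 A M (galF1 M σ h) (coeffMap (frobenius (kA A) ℓ) a)
      (coeffMap (frobenius (kA A) ℓ) b) := by
    have := R.gal σ hσ'
    rwa [hfr] at this
  have R2 : Rep1 A M (galF1 M σ (galF1 M σ h))
      (coeffMap (frobenius (kA A) ℓ) (coeffMap (frobenius (kA A) ℓ) a))
      (coeffMap (frobenius (kA A) ℓ) (coeffMap (frobenius (kA A) ℓ) b)) := by
    have := R1.gal σ hσ'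
    rwa [hfr] at this
  have R3 : Rep1 A M (heckeNorm1 M ℓ (galF1 M σ h))
      (a' ^ ℓ * coeffMap (frobenius (kA A) ℓ) (coeffMap (frobenius (kA A) ℓ) a))
      (b' ^ ℓ * coeffMap (frobenius (kA A) ℓ) (coeffMap (frobenius (kA A) ℓ) b)) := by
    obtain ⟨dd, hdd⟩ := heckeNorm1_algebraMap M ℓ (σ c)
    refine ⟨(σ c) ^ dd, _, _, pow_ne_zero dd ((map_ne_zero σ).mpr hc), n₁, n₂, ?_⟩
    have e' : algebraMap Kb (F1 M) (σ c) * galF1 M σ y₁ = galF1 M σ h * galF1 M σ y₂ := by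
      rw [← galF1_algebraMap, ← map_mul, e, map_mul]
    rw [← hdd, ← heckeNorm1_mul, e', heckeNorm1_mul]
  have R4 := (R2.div R3).mul (R'.pow ℓ)
  have E4 : IsRootDiv (p ^ n) ((D2 - D3 + ℓ • D4 : Divisor.degZero (K := Kb) (F := F1 M)) :
      Divisor Kb (F1 M))
      (galF1 M σ (galF1 M σ h) / heckeNorm1 M ℓ (galF1 M σ h) *
        ((diamondAut M d).symm h) ^ ℓ) := by
    rw [AddSubgroup.coe_add, AddSubgroup.coe_sub, AddSubgroup.coe_nsmul]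
    exact (H2.div H3).mul (H4.pow ℓ)
  have hab : coeffMap (frobenius (kA A) ℓ) (coeffMap (frobenius (kA A) ℓ) a) *
        (b' ^ ℓ * coeffMap (frobenius (kA A) ℓ) (coeffMap (frobenius (kA A) ℓ) b)) * a' ^ ℓ
      = coeffMap (frobenius (kA A) ℓ) (coeffMap (frobenius (kA A) ℓ) b) *
        (a' ^ ℓ * coeffMap (frobenius (kA A) ℓ) (coeffMap (frobenius (kA A) ℓ) a)) * b' ^ ℓ := by
    ring
  rw [hab] at R4
  have key := mk_eq_zero_of_rep1 (pow_ne_zero n hp0) (hINJ ℓ hℓ hℓMp A hA n) E4 R4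
  rw [e1, e2, e3, e4]
  have hkey : (Pic0.mk (D2 - D3 + ℓ • D4) : J1 M) = Pic0.mk D2 - Pic0.mk D3 + ℓ • Pic0.mk D4 := rfl
  rw [← hkey]
  exact key

/-- **P2-CORE for `X₁(M)`** from (INJ1) and the leaves. -/
theorem p2Core1_of_leaves (M p : ℕ)
    (hINJ : Inj1Statement M p)
    (hVAL : ∀ ℓ : ℕ, ℓ.Prime → ¬ ℓ ∣ M * p → ∀ A : ValuationSubring Kb, A.LiesOverPrime ℓ →
      ScaleStatement A (F1 M) (F1b A M))
    (hHI : ∀ (ℓ : ℕ) [NeZero ℓ], ℓ.Prime → ¬ ℓ ∣ M * p → Hecke1Inputs Kbar M ℓ)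
    (hDG : ∀ (ℓ : ℕ) (hℓ : ℓ.Prime) (hℓMp : ¬ ℓ ∣ M * p) (A : ValuationSubring Kb),
      A.LiesOverPrime ℓ →
      DiamGood1Statement M A (unitOfPrime M ℓ hℓ (fun h => hℓMp (Dvd.dvd.mul_right h p))))
    (hES : ∀ (ℓ : ℕ) [NeZero ℓ] [Fact ℓ.Prime] (hℓ : ℓ.Prime) (hℓMp : ¬ ℓ ∣ M * p)
      (A : ValuationSubring Kb), A.LiesOverPrime ℓ →
      EsRed1Statement M ℓ A (unitOfPrime M ℓ hℓ (fun h => hℓMp (Dvd.dvd.mul_right h p)))) :
    P2Core1Statement M p :=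
  p2Core1_of M p (kummerUnr1_of M p hVAL) (kummerES1_of M p hVAL hHI hDG hES) hINJ

end Main

end Fermat.Agent.T4.helper92

end
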