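import Mathlib
import Fermat.Agent.T4.helper92_KumWire1

/-!
# T4 block (I), [I-ES] (helper41): the Eichler-Shimura wiring for `X₁(M)` from the
characteristic-zero norm formula

`kummerES1_of_norm` : `helper4.KummerES1Statement M p` (convention [A]:
`φ² - hecke1 φ + ℓ ⟨ℓ⟩ = 0`) from

* [SCALE1] `helper4.ScaleStatement A (F1 M) (F1b A M)`,
* [HI1] `helper32.Hecke1Inputs`,
* [ES-NORM1] `EsNorm1Statement M ℓ d` : the norm formula in characteristic `0`
  `N_β (α h) (q^ℓ) = ((δ_d)⁻¹ h) (q^{ℓ²}) · ∏_{k<ℓ} h (ζ^k q)`.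

No statement about the reduction of the diamond or of the Hecke norm is needed: the function of
`φ² x - hecke1 (φ x) + ℓ ⟨ℓ⟩ x` is `f = φ² h / N_β (α φ h) · Z ^ ℓ` with `Z = (δ_ℓ)⁻¹ h`; writing
`h` and `Z` (independently) as quotients of good integral series, the norm formula represents
`f (q^ℓ)` as a quotient of two integral series (not in the function field) with the SAME
reduction, and a Gauss lemma argument transfers this to `f`.
-/

set_option autoImplicit false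
set_option linter.unusedSectionVars false
set_option linter.unusedVariables false
set_option linter.style.longLine false
set_option linter.style.haveILetI false

noncomputable section

open HahnSeries IntermediateField AlgebraicCurve ModularCurve
open Fermat.Agent.S18.helper19 (Kb kA)
open Fermat.Agent.P2.helper29 (incl red)
open Fermat.Agent.T4.helper32 Fermat.Agent.T4.helper4
open Fermat.Agent.P2.helper93 (IsRootDiv kum_exists_root kum_mk_eq_zero_of_ord decA decK actA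
  coeffMap_subtype_actA coeffMap_residue_actA decK_eq_id_of_mem_inertia
  decK_eq_frobenius_of_isFrobeniusAt cw_coeffMap_injective norm_along_const charP_residueField
  coeffMap_subtype_injective twistL twistL_coeff rootUnit coe_rootUnit rootUnit_sub_one_mem
  coeffMap_subtype_rot)
open Fermat.Agent.T4.helper92

namespace Fermat.Agent.T4.helper41

/-! ## The leaf -/

/-- **[ES-NORM1]** the norm formula for the Hecke correspondence of `X₁(M)` at `ℓ ∤ M`, in
`q`-series form, in characteristic `0`: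
`N_{β₁} (α₁ h) (q^ℓ) = ((δ_d)⁻¹ h) (q^{ℓ²}) · ∏_{k<ℓ} h (ζ^k q)` for one (equivalently, every)
primitive `ℓ`-th root of unity `ζ`; `d = ℓ mod M`. -/
def EsNorm1Statement (M ℓ : ℕ) [NeZero ℓ] (d : (ZMod M)ˣ) : Prop :=
  ∃ ζ : Kb, IsPrimitiveRoot ζ ℓ ∧ ∀ h : F1 M,
    qExpand Kb ℓ ((heckeNorm1 M ℓ h : F1 M) : LaurentSeries Kb)
      = qExpand Kb (ℓ * ℓ) (((diamondAut M d).symm h : F1 M) : LaurentSeries Kb) *
          ∏ k ∈ Finset.range ℓ, twistL (ζ ^ k) (h : LaurentSeries Kb)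

/-! ## Constants -/

section Const

theorem coeffMap_C {R S : Type*} [CommRing R] [CommRing S] (φ : R →+* S) (r : R) :
    coeffMap φ (HahnSeries.C r : LaurentSeries R) = HahnSeries.C (φ r) := by
  show coeffMap φ (HahnSeries.single 0 r) = HahnSeries.single 0 (φ r)
  exact coeffMap_single φ 0 r

theorem rot_C {R : Type*} [CommRing R] (u : Rˣ) (r : R) :
    Fermat.Agent.P2.helper94.rot u (HahnSeries.C r : LaurentSeries R) = HahnSeries.C r := by
  ext n
  show ((u ^ n : Rˣ) : R) * (HahnSeries.single (0 : ℤ) r).coeff n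
    = (HahnSeries.single (0 : ℤ) r).coeff n
  rw [HahnSeries.coeff_single]
  split_ifs with h
  · subst h; simp
  · simp

theorem algebraMap_eq_C (c : Kb) : algebraMap Kb (LaurentSeries Kb) c = HahnSeries.C c := by
  rw [algebraMap_laurentSeries_eq_single]
  rfl

theorem twistL_eq_rot (c : Kb) (hc : c ≠ 0) (f : LaurentSeries Kb) :
    twistL c f = Fermat.Agent.P2.helper94.rot (Units.mk0 c hc) f := by
  ext n
  rw [twistL_coeff, Fermat.Agent.P2.helper94.rot_coeff]
  congr 1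
  rw [Units.val_zpow_eq_zpow_val, Units.val_mk0]

end Const

/-! ## Ambient representations -/

section ARep

variable {A : ValuationSubring Kb}

/-- `f ∈ ℚ̄((q))` is a nonzero constant times a quotient of two `A`-integral series with nonzero
reductions `a`, `b` (no membership in a function field is required). -/
def ARep (A : ValuationSubring Kb) (f : LaurentSeries Kb) (a b : LaurentSeries (kA A)) : Prop :=
  ∃ (k : Kb) (P Q : LaurentSeries A), k ≠ 0 ∧ red A P = a ∧ red A Q = b ∧ a ≠ 0 ∧ b ≠ 0 ∧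
    HahnSeries.C k * incl A P = f * incl A Q

theorem incl_ne_zero_of_red {P : LaurentSeries A} (h : red A P ≠ 0) : incl A P ≠ 0 := by
  intro h0
  apply h
  have : P = 0 := coeffMap_subtype_injective (h0.trans (map_zero _).symm)
  rw [this, map_zero]

theorem C_ne_zero' {k : Kb} (hk : k ≠ 0) : (HahnSeries.C k : LaurentSeries Kb) ≠ 0 := by
  intro h
  apply hk
  have := congrArg (fun x : LaurentSeries Kb => x.coeff 0) h
  simpa using this

theorem ARep.ne_zero {f : LaurentSeries Kb} {a b : LaurentSeries (kA A)} (H : ARep A f a b) :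
    f ≠ 0 := by
  obtain ⟨k, P, Q, hk, rfl, rfl, ha, hb, e⟩ := H
  rintro rfl
  rw [zero_mul] at e
  exact mul_ne_zero (C_ne_zero' hk) (incl_ne_zero_of_red ha) e

theorem ARep.of_rep1 {N : ℕ} {h : F1 N} {a b : LaurentSeries (kA A)} (H : Rep1 A N h a b) :
    ARep A (h : LaurentSeries Kb) a b := by
  obtain ⟨c, y₁, y₂, hc, ⟨Y₁, e1, e2, m1, n1⟩, ⟨Y₂, e1', e2', m2, n2⟩, e⟩ := H
  refine ⟨c, Y₁, Y₂, hc, e2, e2', n1, n2, ?_⟩
  have e' := congrArg (fun x : F1 N => (x : LaurentSeries Kb)) e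
  simp only [MulMemClass.coe_mul] at e'
  show HahnSeries.C c * coeffMap A.subtype Y₁ = _ * coeffMap A.subtype Y₂
  rw [e1, e1', ← e']
  congr 1
  exact (algebraMap_eq_C c).symm

theorem ARep.mul {f f' : LaurentSeries Kb} {a b a' b' : LaurentSeries (kA A)}
    (H : ARep A f a b) (H' : ARep A f' a' b') : ARep A (f * f') (a * a') (b * b') := by
  obtain ⟨k, P, Q, hk, rfl, rfl, ha, hb, e⟩ := H
  obtain ⟨k', P', Q', hk', rfl, rfl, ha', hb', e'⟩ := H'
  refine ⟨k * k', P * P', Q * Q', mul_ne_zero hk hk', map_mul _ _ _, map_mul _ _ _,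
    mul_ne_zero ha ha', mul_ne_zero hb hb', ?_⟩
  rw [map_mul, map_mul, map_mul, mul_mul_mul_comm, e, e', mul_mul_mul_comm]

theorem ARep.inv {f : LaurentSeries Kb} {a b : LaurentSeries (kA A)} (H : ARep A f a b) :
    ARep A f⁻¹ b a := by
  have hf := H.ne_zero
  obtain ⟨k, P, Q, hk, rfl, rfl, ha, hb, e⟩ := H
  refine ⟨k⁻¹, Q, P, inv_ne_zero hk, rfl, rfl, hb, ha, ?_⟩
  have hC : (HahnSeries.C k : LaurentSeries Kb) ≠ 0 := C_ne_zero' hk
  rw [map_inv₀]
  field_simp
  rw [mul_comm]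
  exact e.symm

theorem ARep.div {f f' : LaurentSeries Kb} {a b a' b' : LaurentSeries (kA A)}
    (H : ARep A f a b) (H' : ARep A f' a' b') : ARep A (f / f') (a * b') (b * a') := by
  rw [div_eq_mul_inv]
  exact H.mul H'.inv

theorem ARep.pow {f : LaurentSeries Kb} {a b : LaurentSeries (kA A)} (H : ARep A f a b)
    (m : ℕ) : ARep A (f ^ m) (a ^ m) (b ^ m) := by
  obtain ⟨k, P, Q, hk, rfl, rfl, ha, hb, e⟩ := H
  refine ⟨k ^ m, P ^ m, Q ^ m, pow_ne_zero m hk, map_pow _ _ _, map_pow _ _ _,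
    pow_ne_zero m ha, pow_ne_zero m hb, ?_⟩
  rw [map_pow, map_pow, map_pow, ← mul_pow, e, mul_pow]

theorem ARep.qExp {f : LaurentSeries Kb} {a b : LaurentSeries (kA A)} (H : ARep A f a b)
    (n : ℕ) [NeZero n] :
    ARep A (qExpand Kb n f) (qExpand (kA A) n a) (qExpand (kA A) n b) := by
  obtain ⟨k, P, Q, hk, rfl, rfl, ha, hb, e⟩ := H
  refine ⟨k, qExpand A n P, qExpand A n Q, hk, ?_, ?_, ?_, ?_, ?_⟩
  · exact Fermat.Agent.P2.helper94.coeffMap_qExpand _ n P
  · exact Fermat.Agent.P2.helper94.coeffMap_qExpand _ n Q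
  · exact fun h0 => ha (qExpand_injective n (h0.trans (map_zero _).symm))
  · exact fun h0 => hb (qExpand_injective n (h0.trans (map_zero _).symm))
  · have := congrArg (qExpand Kb n) e
    rw [map_mul, map_mul, qExpand_C] at this
    show _ * coeffMap A.subtype (qExpand A n P) = _ * coeffMap A.subtype (qExpand A n Q)
    rw [Fermat.Agent.P2.helper94.coeffMap_qExpand, Fermat.Agent.P2.helper94.coeffMap_qExpand]
    exact this

theorem ARep.congr {f f' : LaurentSeries Kb} {a b a' b' : LaurentSeries (kA A)}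
    (H : ARep A f a b) (hf : f = f') (ha : a = a') (hb : b = b') : ARep A f' a' b' := by
  subst hf ha hb
  exact H

/-- the product of the twists by the powers of an `ℓ`-th root of unity, `A` over `ℓ`. -/
theorem ARep.twistProd {ℓ : ℕ} (hℓ : ℓ.Prime) (hA : A.LiesOverPrime ℓ) {ζ : Kb}
    (hζ : ζ ^ ℓ = 1) {f : LaurentSeries Kb} {a b : LaurentSeries (kA A)} (H : ARep A f a b) :
    ARep A (∏ i ∈ Finset.range ℓ, twistL (ζ ^ i) f) (a ^ ℓ) (b ^ ℓ) := by
  obtain ⟨k, P, Q, hk, rfl, rfl, ha, hb, e⟩ := H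
  set u : (↥A)ˣ := rootUnit A hℓ.ne_zero hζ with hu
  have hζ0 : ζ ≠ 0 := by
    rintro rfl
    rw [zero_pow hℓ.ne_zero] at hζ
    exact zero_ne_one hζ
  have hum : ∀ i : ℕ, ((u ^ i : (↥A)ˣ) : ↥A) - 1 ∈ IsLocalRing.maximalIdeal ↥A := by
    intro i
    have h1 : ((u : (↥A)ˣ) : ↥A) - 1 ∈ IsLocalRing.maximalIdeal ↥A :=
      rootUnit_sub_one_mem hℓ hA hζ
    have h2 : Ideal.Quotient.mk (IsLocalRing.maximalIdeal ↥A) ((u : (↥A)ˣ) : ↥A) = 1 := by
      rw [← sub_eq_zero, ← map_one (Ideal.Quotient.mk (IsLocalRing.maximalIdeal ↥A)), ← map_sub]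
      exact Ideal.Quotient.eq_zero_iff_mem.mpr h1
    rw [← Ideal.Quotient.eq_zero_iff_mem, map_sub, map_one, Units.val_pow_eq_pow_val, map_pow,
      h2, one_pow, sub_self]
  have hred : ∀ (i : ℕ) (X : LaurentSeries A),
      red A (Fermat.Agent.P2.helper94.rot (u ^ i) X) = red A X := fun i X =>
    Fermat.Agent.P2.helper94.coeffMap_rot_of_sub_one_mem (IsLocalRing.maximalIdeal ↥A) (u ^ i)
      (hum i) X
  have htw : ∀ (i : ℕ) (X : LaurentSeries A),
      incl A (Fermat.Agent.P2.helper94.rot (u ^ i) X) = twistL (ζ ^ i) (incl A X) := by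
    intro i X
    have := coeffMap_subtype_rot (u ^ i) X
    rw [this]
    rfl
  have hstep : ∀ i : ℕ, HahnSeries.C k * incl A (Fermat.Agent.P2.helper94.rot (u ^ i) P)
      = twistL (ζ ^ i) f * incl A (Fermat.Agent.P2.helper94.rot (u ^ i) Q) := by
    intro i
    rw [htw, htw, twistL_eq_rot _ (pow_ne_zero i hζ0), twistL_eq_rot _ (pow_ne_zero i hζ0),
      twistL_eq_rot _ (pow_ne_zero i hζ0), ← map_mul, ← e, map_mul, rot_C]
  refine ⟨k ^ ℓ, ∏ i ∈ Finset.range ℓ, Fermat.Agent.P2.helper94.rot (u ^ i) P,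
    ∏ i ∈ Finset.range ℓ, Fermat.Agent.P2.helper94.rot (u ^ i) Q, pow_ne_zero ℓ hk, ?_, ?_,
    pow_ne_zero ℓ ha, pow_ne_zero ℓ hb, ?_⟩
  · rw [map_prod, Finset.prod_congr rfl (fun i _ => hred i P), Finset.prod_const,
      Finset.card_range]
  · rw [map_prod, Finset.prod_congr rfl (fun i _ => hred i Q), Finset.prod_const,
      Finset.card_range]
  · rw [map_prod, map_prod, map_pow]
    have : (HahnSeries.C k : LaurentSeries Kb) ^ ℓ
        = ∏ i ∈ Finset.range ℓ, (HahnSeries.C k : LaurentSeries Kb) := by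
      rw [Finset.prod_const, Finset.card_range]
    rw [this, ← Finset.prod_mul_distrib, ← Finset.prod_mul_distrib]
    exact Finset.prod_congr rfl (fun i _ => hstep i)

end ARep

/-! ## The Gauss lemma and the transfer to the function field -/

section Transfer

variable {A : ValuationSubring Kb}

theorem isUnit_of_residue_ne_zero {w : A} (h : IsLocalRing.residue A w ≠ 0) : IsUnit w := by
  by_contra hu
  exact h ((IsLocalRing.residue_eq_zero_iff w).mpr ((IsLocalRing.mem_maximalIdeal w).mpr hu))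

/-- **Gauss lemma**: if `u · S₁ = S₂` with `A`-integral series `S₁`, `S₂` of nonzero reduction,
then `u` is a unit of `A`. -/
theorem gauss_unit {u : Kb} {S₁ S₂ : LaurentSeries A} (h₁ : red A S₁ ≠ 0) (h₂ : red A S₂ ≠ 0)
    (e : HahnSeries.C u * incl A S₁ = incl A S₂) :
    ∃ v : (↥A)ˣ, (((v : (↥A)ˣ) : ↥A) : Kb) = u := by
  have hu0 : u ≠ 0 := by
    rintro rfl
    rw [map_zero, zero_mul] at e
    exact incl_ne_zero_of_red h₂ e.symm
  rcases A.mem_or_inv_mem u with hu | hu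
  · have hS : HahnSeries.C (⟨u, hu⟩ : A) * S₁ = S₂ := by
      apply coeffMap_subtype_injective
      rw [map_mul, coeffMap_C]
      exact e
    have hr : HahnSeries.C (IsLocalRing.residue A ⟨u, hu⟩) * red A S₁ = red A S₂ := by
      rw [← hS, map_mul]
      congr 1
      exact (coeffMap_C _ _).symm
    have hne : IsLocalRing.residue A ⟨u, hu⟩ ≠ 0 := by
      intro h0
      rw [h0, map_zero, zero_mul] at hr
      exact h₂ hr.symm
    obtain ⟨v, hv⟩ := isUnit_of_residue_ne_zero hne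
    exact ⟨v, by rw [hv]⟩
  · have hS : HahnSeries.C (⟨u⁻¹, hu⟩ : A) * S₂ = S₁ := by
      apply coeffMap_subtype_injective
      rw [map_mul, coeffMap_C]
      show HahnSeries.C u⁻¹ * coeffMap A.subtype S₂ = coeffMap A.subtype S₁
      have e' : coeffMap A.subtype S₂ = HahnSeries.C u * coeffMap A.subtype S₁ := e.symm
      rw [e', ← mul_assoc, ← map_mul, inv_mul_cancel₀ hu0, map_one, one_mul]
    have hr : HahnSeries.C (IsLocalRing.residue A ⟨u⁻¹, hu⟩) * red A S₂ = red A S₁ := by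
      rw [← hS, map_mul]
      congr 1
      exact (coeffMap_C _ _).symm
    have hne : IsLocalRing.residue A ⟨u⁻¹, hu⟩ ≠ 0 := by
      intro h0
      rw [h0, map_zero, zero_mul] at hr
      exact h₁ hr.symm
    obtain ⟨v, hv⟩ := isUnit_of_residue_ne_zero hne
    refine ⟨v⁻¹, ?_⟩
    have h1 : (((v : (↥A)ˣ) : ↥A) : Kb) = u⁻¹ := by rw [hv]
    have h2 : (((v⁻¹ : (↥A)ˣ) : ↥A) : Kb) * (((v : (↥A)ˣ) : ↥A) : Kb) = 1 := by
      have := congrArg A.subtype (Units.inv_mul v)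
      rw [map_mul, map_one] at this
      exact this
    rw [h1] at h2
    exact eq_of_mul_inv_eq_one (by rw [inv_inv]; exact h2) |>.trans (inv_inv u)

/-- **Transfer**: if `f ∈ F1 N` is a quotient of good series and `f (q^n)` is, in `ℚ̄((q))`, a
quotient of integral series with the same reduction, then `f` is a quotient of good series with
the same reduction. -/
theorem rep1_of_arep {N n : ℕ} [NeZero n] {f : F1 N} {y1 y2 e₀ : LaurentSeries (kA A)}
    (R : Rep1 A N f y1 y2)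
    (H : ARep A (ModularCurve.qExpand Kb n (f : LaurentSeries Kb)) e₀ e₀) :
    Rep1 A N f y2 y2 := by
  have RA := (ARep.of_rep1 R).qExp n
  obtain ⟨c, y₁, y₂, hc, ⟨Y₁, e1, e2, m1, n1⟩, ⟨Y₂, e1', e2', m2, n2⟩, e⟩ := R
  obtain ⟨k, P, Q, hk, hP, hQ, he, -, eq⟩ := H
  have eL : HahnSeries.C c * incl A Y₁ = (f : LaurentSeries Kb) * incl A Y₂ := by
    have e' := congrArg (fun x : F1 N => (x : LaurentSeries Kb)) e
    simp only [MulMemClass.coe_mul] at e'
    show HahnSeries.C c * coeffMap A.subtype Y₁ = _ * coeffMap A.subtype Y₂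
    rw [e1, e1', ← e']
    congr 1
    exact (algebraMap_eq_C c).symm
  have eq1 : HahnSeries.C c * incl A (ModularCurve.qExpand A n Y₁)
      = ModularCurve.qExpand Kb n (f : LaurentSeries Kb) * incl A (ModularCurve.qExpand A n Y₂) := by
    have := congrArg (ModularCurve.qExpand Kb n) eL
    rw [map_mul, map_mul, qExpand_C] at this
    show _ * coeffMap A.subtype (ModularCurve.qExpand A n Y₁)
      = _ * coeffMap A.subtype (ModularCurve.qExpand A n Y₂)
    rw [Fermat.Agent.P2.helper94.coeffMap_qExpand, Fermat.Agent.P2.helper94.coeffMap_qExpand]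
    exact this
  -- the two integral series
  set S₁ : LaurentSeries A := ModularCurve.qExpand A n Y₁ * Q with hS₁
  set S₂ : LaurentSeries A := P * ModularCurve.qExpand A n Y₂ with hS₂
  have hV : ∀ X : LaurentSeries A,
      red A (ModularCurve.qExpand A n X) = ModularCurve.qExpand (kA A) n (red A X) := fun X =>
    Fermat.Agent.P2.helper94.coeffMap_qExpand _ n X
  have r₁ : red A S₁ = ModularCurve.qExpand (kA A) n y1 * e₀ := by
    rw [hS₁, map_mul, hV, hQ]
    congr 2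
  have r₂ : red A S₂ = e₀ * ModularCurve.qExpand (kA A) n y2 := by
    rw [hS₂, map_mul, hV, hP]
    congr 2
  have hVy1 : ModularCurve.qExpand (kA A) n y1 ≠ 0 := fun h0 =>
    n1 (ModularCurve.qExpand_injective n (h0.trans (map_zero _).symm))
  have hVy2 : ModularCurve.qExpand (kA A) n y2 ≠ 0 := fun h0 =>
    n2 (ModularCurve.qExpand_injective n (h0.trans (map_zero _).symm))
  have key : HahnSeries.C (c / k) * incl A S₁ = incl A S₂ := by
    have hCk : (HahnSeries.C k : LaurentSeries Kb) ≠ 0 := C_ne_zero' hk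
    have h1 : HahnSeries.C k * (HahnSeries.C (c / k) * incl A S₁)
        = HahnSeries.C k * incl A S₂ := by
      rw [← mul_assoc, ← map_mul, mul_div_cancel₀ c hk, hS₁, hS₂, map_mul, map_mul,
        ← mul_assoc, eq1, ← mul_assoc, eq]
      ring
    exact mul_left_cancel₀ hCk h1
  obtain ⟨v, hv⟩ := gauss_unit (by rw [r₁]; exact mul_ne_zero hVy1 he)
    (by rw [r₂]; exact mul_ne_zero he hVy2) key
  have hvS : HahnSeries.C ((v : (↥A)ˣ) : ↥A) * S₁ = S₂ := by
    apply coeffMap_subtype_injective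
    rw [map_mul, coeffMap_C]
    show HahnSeries.C (((v : (↥A)ˣ) : ↥A) : Kb) * _ = _
    rw [hv]
    exact key
  have hvr : HahnSeries.C (IsLocalRing.residue A ((v : (↥A)ˣ) : ↥A)) * y1 = y2 := by
    have h1 : HahnSeries.C (IsLocalRing.residue A ((v : (↥A)ˣ) : ↥A)) * red A S₁ = red A S₂ := by
      have h0 := congrArg (red A) hvS
      rw [map_mul] at h0
      rw [← h0]
      congr 1
      exact (coeffMap_C (IsLocalRing.residue A) ((v : (↥A)ˣ) : ↥A)).symm
    rw [r₁, r₂, ← mul_assoc, mul_comm e₀] at h1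
    have h2 := mul_right_cancel₀ he h1
    apply ModularCurve.qExpand_injective (R := kA A) n
    rw [map_mul, qExpand_C]
    exact h2
  have hv0 : (((v : (↥A)ˣ) : ↥A) : Kb) ≠ 0 := by
    rw [hv]
    exact div_ne_zero hc hk
  refine ⟨c / (((v : (↥A)ˣ) : ↥A) : Kb),
    ⟨incl A (HahnSeries.C ((v : (↥A)ˣ) : ↥A) * Y₁), ?_⟩, y₂, div_ne_zero hc hv0,
    ⟨HahnSeries.C ((v : (↥A)ˣ) : ↥A) * Y₁, rfl, ?_, m2, n2⟩, ⟨Y₂, e1', e2', m2, n2⟩, ?_⟩
  · show coeffMap A.subtype (HahnSeries.C ((v : (↥A)ˣ) : ↥A) * Y₁) ∈ F1 N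
    rw [map_mul, coeffMap_C, e1]
    have : (HahnSeries.C (A.subtype ((v : (↥A)ˣ) : ↥A)) : LaurentSeries Kb)
        = ((algebraMap Kb (F1 N) (((v : (↥A)ˣ) : ↥A) : Kb) : F1 N) : LaurentSeries Kb) :=
      (algebraMap_eq_C _).symm
    rw [this]
    exact (algebraMap Kb (F1 N) (((v : (↥A)ˣ) : ↥A) : Kb) * y₁).2
  · show coeffMap (IsLocalRing.residue A) (HahnSeries.C ((v : (↥A)ˣ) : ↥A) * Y₁) = y2
    rw [map_mul, coeffMap_C, e2]
    exact hvr
  · apply Subtype.ext
    show ((algebraMap Kb (F1 N) (c / (((v : (↥A)ˣ) : ↥A) : Kb)) : F1 N) : LaurentSeries Kb)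
        * coeffMap A.subtype (HahnSeries.C ((v : (↥A)ˣ) : ↥A) * Y₁)
      = (f : LaurentSeries Kb) * (y₂ : LaurentSeries Kb)
    rw [map_mul, coeffMap_C, ← e1']
    have h1 : ((algebraMap Kb (F1 N) (c / (((v : (↥A)ˣ) : ↥A) : Kb)) : F1 N) : LaurentSeries Kb)
        = HahnSeries.C (c / (((v : (↥A)ˣ) : ↥A) : Kb)) := algebraMap_eq_C _
    rw [h1, ← mul_assoc, ← map_mul]
    show HahnSeries.C (c / (((v : (↥A)ˣ) : ↥A) : Kb) * (((v : (↥A)ˣ) : ↥A) : Kb)) * _ = _
    rw [div_mul_cancel₀ c hv0]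
    exact eL

end Transfer

/-! ## The main theorem -/

section Main

/-- **[K-ES1] from the norm formula**: the Eichler-Shimura part of the Kummer wiring for
`X₁(M)` (convention [A]) from [SCALE1], [HI1] and the characteristic-zero norm formula
[ES-NORM1]. -/
theorem kummerES1_of_norm (M p : ℕ)
    (hVAL : ∀ ℓ : ℕ, ℓ.Prime → ¬ ℓ ∣ M * p → ∀ A : ValuationSubring Kb, A.LiesOverPrime ℓ →
      ScaleStatement A (F1 M) (F1b A M))
    (hHI : ∀ (ℓ : ℕ) [NeZero ℓ], ℓ.Prime → ¬ ℓ ∣ M * p → Hecke1Inputs Kbar M ℓ)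
    (hNorm : ∀ (ℓ : ℕ) [NeZero ℓ] (hℓ : ℓ.Prime) (hℓMp : ¬ ℓ ∣ M * p),
      EsNorm1Statement M ℓ (unitOfPrime M ℓ hℓ (fun h => hℓMp (Dvd.dvd.mul_right h p)))) :
    KummerES1Statement M p := by
  intro hINJ ℓ hℓ hℓMp A hA σ hF x hx
  obtain ⟨n, hx⟩ := hx
  haveI : Fact ℓ.Prime := ⟨hℓ⟩
  haveI : NeZero ℓ := ⟨hℓ.ne_zero⟩
  haveI : CharP (kA A) ℓ := charP_residueField hℓ hA
  have hp0 : p ≠ 0 := by
    rintro rfl
    exact hℓMp (by rw [mul_zero]; exact dvd_zero ℓ)
  set d := unitOfPrime M ℓ hℓ (fun h => hℓMp (Dvd.dvd.mul_right h p)) with hd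
  obtain ⟨D, rfl⟩ := Pic0.mk_surjective x
  obtain ⟨h, H⟩ := kum_exists_root hx
  obtain ⟨D1, e1, H1⟩ := kum_galois1 M σ H
  obtain ⟨D2, e2, H2⟩ := kum_galois1 M σ H1
  obtain ⟨D3, e3, H3⟩ := kum_hecke1 M ℓ hℓ (hHI ℓ hℓ hℓMp) H1
  obtain ⟨D4, e4, H4⟩ := kum_diamond1 M d H
  obtain ⟨hσ', hfr⟩ := decK_eq_frobenius_of_isFrobeniusAt (ℓ := ℓ) hF
  have hS := hVAL ℓ hℓ hℓMp A hA
  -- representations of `h` and of `Z = (δ_d)⁻¹ h`, independently
  obtain ⟨a, b, R⟩ := rep1_of_scale hS h H.1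
  obtain ⟨c, c', RZ⟩ := rep1_of_scale hS ((diamondAut M d).symm h) H4.1
  -- Frobenius twists
  have R1 : Rep1 A M (galF1 M σ h) (coeffMap (frobenius (kA A) ℓ) a)
      (coeffMap (frobenius (kA A) ℓ) b) := by
    have := R.gal σ hσ'
    rwa [hfr] at this
  have R2 : Rep1 A M (galF1 M σ (galF1 M σ h))
      (coeffMap (frobenius (kA A) ℓ) (coeffMap (frobenius (kA A) ℓ) a))
      (coeffMap (frobenius (kA A) ℓ) (coeffMap (frobenius (kA A) ℓ) b)) := by
    have := R1.gal σ hσ'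
    rwa [hfr] at this
  have RZ1 : Rep1 A M (galF1 M σ ((diamondAut M d).symm h)) (coeffMap (frobenius (kA A) ℓ) c)
      (coeffMap (frobenius (kA A) ℓ) c') := by
    have := RZ.gal σ hσ'
    rwa [hfr] at this
  -- the function of the class
  have E4 : IsRootDiv (p ^ n) ((D2 - D3 + ℓ • D4 : Divisor.degZero (K := Kb) (F := F1 M)) :
      Divisor Kb (F1 M))
      (galF1 M σ (galF1 M σ h) / heckeNorm1 M ℓ (galF1 M σ h) *
        ((diamondAut M d).symm h) ^ ℓ) := by
    rw [AddSubgroup.coe_add, AddSubgroup.coe_sub, AddSubgroup.coe_nsmul]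
    exact (H2.div H3).mul (H4.pow ℓ)
  obtain ⟨y1, y2, Rf⟩ := rep1_of_scale hS _ E4.1
  -- the ambient computation
  obtain ⟨ζ, hζ, hnorm⟩ := hNorm ℓ hℓ hℓMp
  have A2 := (ARep.of_rep1 R2).qExp ℓ
  have AZ1 := (ARep.of_rep1 RZ1).qExp (ℓ * ℓ)
  have AT := (ARep.of_rep1 R1).twistProd hℓ hA hζ.pow_eq_one
  have AN := AZ1.mul AT
  rw [← diamondAut_symm_galF1, ← hnorm (galF1 M σ h)] at AN
  have AZ := ((ARep.of_rep1 RZ).qExp ℓ).pow ℓ
  have Af := (A2.div AN).mul AZ
  have hfun : ModularCurve.qExpand Kb ℓ ((galF1 M σ (galF1 M σ h) : F1 M) : LaurentSeries Kb) /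
        ModularCurve.qExpand Kb ℓ ((heckeNorm1 M ℓ (galF1 M σ h) : F1 M) : LaurentSeries Kb) *
        ModularCurve.qExpand Kb ℓ (((diamondAut M d).symm h : F1 M) : LaurentSeries Kb) ^ ℓ
      = ModularCurve.qExpand Kb ℓ (((galF1 M σ (galF1 M σ h) / heckeNorm1 M ℓ (galF1 M σ h) *
        ((diamondAut M d).symm h) ^ ℓ : F1 M)) : LaurentSeries Kb) := by
    rw [← map_pow, ← map_div₀, ← map_mul]
    rfl
  have hpowF : ∀ x : LaurentSeries (kA A),
      (coeffMap (frobenius (kA A) ℓ) x) ^ ℓ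
        = ModularCurve.qExpand (kA A) ℓ
            (coeffMap (frobenius (kA A) ℓ) (coeffMap (frobenius (kA A) ℓ) x)) := fun x =>
    Fermat.Agent.P2.helper94.laurent_pow_char ℓ _
  have hpowV : ∀ x : LaurentSeries (kA A),
      (ModularCurve.qExpand (kA A) ℓ x) ^ ℓ
        = ModularCurve.qExpand (kA A) (ℓ * ℓ) (coeffMap (frobenius (kA A) ℓ) x) := fun x => by
    rw [Fermat.Agent.P2.helper94.laurent_pow_char ℓ,
      Fermat.Agent.P2.helper94.coeffMap_qExpand, qExpand_qExpand]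
  have hred : ModularCurve.qExpand (kA A) ℓ
        (coeffMap (frobenius (kA A) ℓ) (coeffMap (frobenius (kA A) ℓ) b)) *
        (ModularCurve.qExpand (kA A) (ℓ * ℓ) (coeffMap (frobenius (kA A) ℓ) c) *
          coeffMap (frobenius (kA A) ℓ) a ^ ℓ) * ModularCurve.qExpand (kA A) ℓ c' ^ ℓ
      = ModularCurve.qExpand (kA A) ℓ
        (coeffMap (frobenius (kA A) ℓ) (coeffMap (frobenius (kA A) ℓ) a)) *
        (ModularCurve.qExpand (kA A) (ℓ * ℓ) (coeffMap (frobenius (kA A) ℓ) c') *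
          coeffMap (frobenius (kA A) ℓ) b ^ ℓ) * ModularCurve.qExpand (kA A) ℓ c ^ ℓ := by
    rw [hpowF, hpowF, hpowV, hpowV]
    ring
  have Af' := Af.congr hfun rfl hred
  have R4 := rep1_of_arep Rf Af'
  have key := mk_eq_zero_of_rep1 (pow_ne_zero n hp0) (hINJ ℓ hℓ hℓMp A hA n) E4 R4
  rw [e1, e2, e3, e4]
  have hkey : (Pic0.mk (D2 - D3 + ℓ • D4) : J1 M) = Pic0.mk D2 - Pic0.mk D3 + ℓ • Pic0.mk D4 := rfl
  rw [← hkey]
  exact key

/-- **P2-CORE for `X₁(M)`** from (INJ1), [SCALE1], [HI1] and [ES-NORM1]. -/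
theorem p2Core1_of_norm (M p : ℕ)
    (hINJ : Inj1Statement M p)
    (hVAL : ∀ ℓ : ℕ, ℓ.Prime → ¬ ℓ ∣ M * p → ∀ A : ValuationSubring Kb, A.LiesOverPrime ℓ →
      ScaleStatement A (F1 M) (F1b A M))
    (hHI : ∀ (ℓ : ℕ) [NeZero ℓ], ℓ.Prime → ¬ ℓ ∣ M * p → Hecke1Inputs Kbar M ℓ)
    (hNorm : ∀ (ℓ : ℕ) [NeZero ℓ] (hℓ : ℓ.Prime) (hℓMp : ¬ ℓ ∣ M * p),
      EsNorm1Statement M ℓ (unitOfPrime M ℓ hℓ (fun h => hℓMp (Dvd.dvd.mul_right h p)))) :
    P2Core1Statement M p :=
  p2Core1_of M p (kummerUnr1_of M p hVAL) (kummerES1_of_norm M p hVAL hHI hNorm) hINJ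

end Main

end Fermat.Agent.T4.helper41

end
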