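/-
T4 block (I), [ES-KRON] sub-leaf (L4) [SWAP-ABS] (helper83; request of helper56).

Fields `F`, `E`, `E'`, ring homomorphisms `a : F → E'`, `b : F → E` and a ring homomorphism
`w : E → E'` with `w ∘ b = a`.  If `E'` is finite over `a(F)` then `E` is finite over `b(F)`
and `[E : b(F)] ≤ [E' : a(F)]`  (`w` is an injective `F`-linear map from `E` along `b` to `E'`
along `a`).

Forms:
* `RingHom.toAlgebra` form: `finite_of_swap`, `finrank_le_of_swap`;
* Prelude form (`AlgebraicCurve.algebraAlong`, `FiniteAlong`, `finrankAlong`):
  `finiteAlong_of_swap`, `finrankAlong_le_of_swap`, and the two-field variants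
  `finiteAlong_of_swap'`, `finrankAlong_le_of_swap'` (`w : E →+* E'`);
* equality when there are swaps in both directions: `finrankAlong_eq_of_swap`.
-/
import Mathlib
import Fermat.Prelude.Def_AlgebraicCurve_Correspondence

set_option autoImplicit false
set_option linter.style.haveILetI false

namespace Fermat.Agent.T4.helper83

open AlgebraicCurve

section RingHomForm

variable {F E E' : Type*} [Field F] [Field E] [Field E']

/-- the swap `w` as an `F`-linear map from `E` (along `b`) to `E'` (along `a`) -/
noncomputable def swapLinear (a : F →+* E') (b : F →+* E) (w : E →+* E')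
    (h : ∀ f, w (b f) = a f) :
    letI := a.toAlgebra
    letI := b.toAlgebra
    E →ₗ[F] E' :=
  letI := a.toAlgebra
  letI := b.toAlgebra
  { toFun := w
    map_add' := fun x y => map_add w x y
    map_smul' := fun f x => by
      simp only [RingHom.id_apply]
      rw [Algebra.smul_def, Algebra.smul_def, map_mul]
      congr 1
      exact h f }

theorem swapLinear_injective (a : F →+* E') (b : F →+* E) (w : E →+* E')
    (h : ∀ f, w (b f) = a f) :
    letI := a.toAlgebra
    letI := b.toAlgebra
    Function.Injective (swapLinear a b w h) :=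
  w.injective

/-- **[SWAP-ABS]**, finiteness (ring homomorphism form). -/
theorem finite_of_swap (a : F →+* E') (b : F →+* E) (w : E →+* E')
    (h : ∀ f, w (b f) = a f)
    (hfin : letI := a.toAlgebra; Module.Finite F E') :
    letI := b.toAlgebra; Module.Finite F E := by
  letI := a.toAlgebra
  letI := b.toAlgebra
  haveI : Module.Finite F E' := hfin
  exact Module.Finite.of_injective (swapLinear a b w h) (swapLinear_injective a b w h)

/-- **[SWAP-ABS]**, degree bound (ring homomorphism form). -/
theorem finrank_le_of_swap (a : F →+* E') (b : F →+* E) (w : E →+* E')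
    (h : ∀ f, w (b f) = a f)
    (hfin : letI := a.toAlgebra; Module.Finite F E') :
    (letI := b.toAlgebra; Module.finrank F E) ≤ (letI := a.toAlgebra; Module.finrank F E') := by
  letI := a.toAlgebra
  letI := b.toAlgebra
  haveI : Module.Finite F E' := hfin
  exact LinearMap.finrank_le_finrank_of_injective (swapLinear_injective a b w h)

/-- the same with the hypothesis in composition form -/
theorem finite_of_swap_comp (a : F →+* E') (b : F →+* E) (w : E →+* E')
    (h : w.comp b = a)
    (hfin : letI := a.toAlgebra; Module.Finite F E') :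
    letI := b.toAlgebra; Module.Finite F E :=
  finite_of_swap a b w (fun f => by rw [← h]; rfl) hfin

theorem finrank_le_of_swap_comp (a : F →+* E') (b : F →+* E) (w : E →+* E')
    (h : w.comp b = a)
    (hfin : letI := a.toAlgebra; Module.Finite F E') :
    (letI := b.toAlgebra; Module.finrank F E) ≤ (letI := a.toAlgebra; Module.finrank F E') :=
  finrank_le_of_swap a b w (fun f => by rw [← h]; rfl) hfin

end RingHomForm

section AlongForm

variable {K F E E' : Type*} [Field K] [Field F] [Field E] [Field E']
  [Algebra K F] [Algebra K E] [Algebra K E']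

/-- **[SWAP-ABS]**, finiteness, Prelude form, two target fields. -/
theorem finiteAlong_of_swap' (a : F →ₐ[K] E') (b : F →ₐ[K] E) (w : E →+* E')
    (h : ∀ f, w (b f) = a f) (hfin : FiniteAlong K a) : FiniteAlong K b :=
  finite_of_swap a.toRingHom b.toRingHom w h hfin

/-- **[SWAP-ABS]**, degree bound, Prelude form, two target fields. -/
theorem finrankAlong_le_of_swap' (a : F →ₐ[K] E') (b : F →ₐ[K] E) (w : E →+* E')
    (h : ∀ f, w (b f) = a f) (hfin : FiniteAlong K a) :
    finrankAlong K b ≤ finrankAlong K a :=
  finrank_le_of_swap a.toRingHom b.toRingHom w h hfin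

/-- **[SWAP-ABS]**, finiteness, Prelude form (`w : E → E`, `w ∘ b = a`). -/
theorem finiteAlong_of_swap (a b : F →ₐ[K] E) (w : E →+* E)
    (h : ∀ f, w (b f) = a f) (hfin : FiniteAlong K a) : FiniteAlong K b :=
  finiteAlong_of_swap' a b w h hfin

/-- **[SWAP-ABS]**, degree bound, Prelude form (`w : E → E`, `w ∘ b = a`):
`[E : b(F)] ≤ [E : a(F)]`. -/
theorem finrankAlong_le_of_swap (a b : F →ₐ[K] E) (w : E →+* E)
    (h : ∀ f, w (b f) = a f) (hfin : FiniteAlong K a) :
    finrankAlong K b ≤ finrankAlong K a :=
  finrankAlong_le_of_swap' a b w h hfin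

/-- the explicit form with `Module.finrank` and `algebraAlong` -/
theorem finrank_algebraAlong_le_of_swap (a b : F →ₐ[K] E) (w : E →+* E)
    (h : ∀ f, w (b f) = a f)
    (hfin : letI := algebraAlong a; Module.Finite F E) :
    (letI := algebraAlong b; Module.finrank F E) ≤
      (letI := algebraAlong a; Module.finrank F E) :=
  finrankAlong_le_of_swap a b w h hfin

/-- with `Module.Finite` along `b` as an explicit conclusion -/
theorem finite_algebraAlong_of_swap (a b : F →ₐ[K] E) (w : E →+* E)
    (h : ∀ f, w (b f) = a f)
    (hfin : letI := algebraAlong a; Module.Finite F E) :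
    letI := algebraAlong b; Module.Finite F E :=
  finiteAlong_of_swap a b w h hfin

/-- swaps in both directions: the two degrees are equal -/
theorem finrankAlong_eq_of_swap (a b : F →ₐ[K] E) (w w' : E →+* E)
    (h : ∀ f, w (b f) = a f) (h' : ∀ f, w' (a f) = b f) (hfin : FiniteAlong K a) :
    finrankAlong K b = finrankAlong K a :=
  le_antisymm (finrankAlong_le_of_swap a b w h hfin)
    (finrankAlong_le_of_swap b a w' h' (finiteAlong_of_swap a b w h hfin))

/-- upper bound transported along a swap: `[E : a(F)] ≤ n` gives `[E : b(F)] ≤ n` -/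
theorem finrankAlong_le_of_swap_of_le (a b : F →ₐ[K] E) (w : E →+* E)
    (h : ∀ f, w (b f) = a f) (hfin : FiniteAlong K a) {n : ℕ}
    (hn : finrankAlong K a ≤ n) : finrankAlong K b ≤ n :=
  (finrankAlong_le_of_swap a b w h hfin).trans hn

end AlongForm

end Fermat.Agent.T4.helper83
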