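import Mathlib
import Fermat.Agent.T4.helper92_KumWire1

/-!
# T4 block (I), [I-ES-KWIRE] (helper92), CORRECTED LEAF: `ScaleDiam1Statement`

WARNING.  `DiamGood1Statement` of `helper92_KumWire1Defs` is FALSE in general (for `d ≠ ± 1`):
the `q`-expansion of `(δ_d)⁻¹ Y` at `∞` is the expansion of `Y` at another cusp, and a function
with integral expansion at `∞` need not be integral at the other cusps
(`Y = 1 / (ℓ + f)` with `f = 1 + O(q)` at `∞` and `f = q^k · unit` at the other cusp).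
So `kummerES1_of` (which is a correct theorem) has an unprovable hypothesis.

The CORRECT leaf replacing [SCALE1] + [DIAM-GOOD] in the Eichler-Shimura part is

* `ScaleDiam1Statement M A d` [SCALE-DIAM] : every nonzero `h ∈ F1 M` is `c · Y₁ / Y₂` with `Y₁`,
  `Y₂` good integral series whose inverse diamonds `Z₁`, `Z₂` are good integral series, too.

It follows from the primitive-element form of [VAL-SC]: `Y₁ = G(j, θ)`, `Y₂ = s(j)` with integral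
polynomials `G`, `s` of nonzero reduction (`deg_θ G < deg Φ`), as soon as `(δ_d)⁻¹ θ` has an
integral `q`-expansion (true for `θ` a `ℤ`-polynomial in the `j(q^e)` and the `s_a`):
`Z₁ = G(j, (δ_d)⁻¹ θ)`, `Z₂ = Y₂`, and `red Z₁ ≠ 0` because `red ((δ_d)⁻¹ θ)` is a root of the
irreducible `Φ̄(j̃, ·)`.

* `kummerES1_of_scaleDiam` : `helper4.KummerES1Statement M p` from [SCALE-DIAM], [HI1], [ES-RED1];
* `p2Core1_of_leaves'` : `helper4.P2Core1Statement M p` from (INJ1), [SCALE1], [SCALE-DIAM], [HI1],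
  [ES-RED1].
-/

set_option autoImplicit false
set_option linter.unusedSectionVars false
set_option linter.unusedVariables false
set_option linter.style.longLine false
set_option linter.style.haveILetI false

noncomputable section

open HahnSeries IntermediateField AlgebraicCurve ModularCurve
open Fermat.Agent.S18.helper19 (Kb kA)
open Fermat.Agent.P2.helper29 (incl red)
open Fermat.Agent.T4.helper32 Fermat.Agent.T4.helper4
open Fermat.Agent.P2.helper93 (IsRootDiv kum_exists_root kum_mk_eq_zero_of_ord decA decK actA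
  coeffMap_subtype_actA coeffMap_residue_actA decK_eq_id_of_mem_inertia
  decK_eq_frobenius_of_isFrobeniusAt cw_coeffMap_injective norm_along_const charP_residueField
  coeffMap_subtype_injective)

namespace Fermat.Agent.T4.helper92

/-- **[SCALE-DIAM]** every nonzero function of `F1 M` is a constant times a quotient of two good
integral series whose inverse diamonds are good integral series. -/
def ScaleDiam1Statement (M : ℕ) (A : ValuationSubring Kb) (d : (ZMod M)ˣ) : Prop :=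
  ∀ h : F1 M, h ≠ 0 →
    ∃ (c : Kb) (Y₁ Y₂ Z₁ Z₂ : LaurentSeries A) (h₁ : incl A Y₁ ∈ F1 M) (h₂ : incl A Y₂ ∈ F1 M),
      c ≠ 0 ∧
      (red A Y₁ ∈ F1b A M ∧ red A Y₁ ≠ 0) ∧ (red A Y₂ ∈ F1b A M ∧ red A Y₂ ≠ 0) ∧
      algebraMap Kb (LaurentSeries Kb) c * incl A Y₁ = (h : LaurentSeries Kb) * incl A Y₂ ∧
      (incl A Z₁ = (((diamondAut M d).symm ⟨incl A Y₁, h₁⟩ : F1 M) : LaurentSeries Kb) ∧
        red A Z₁ ∈ F1b A M ∧ red A Z₁ ≠ 0) ∧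
      (incl A Z₂ = (((diamondAut M d).symm ⟨incl A Y₂, h₂⟩ : F1 M) : LaurentSeries Kb) ∧
        red A Z₂ ∈ F1b A M ∧ red A Z₂ ≠ 0)

/-- [SCALE-DIAM] implies [SCALE1]. -/
theorem scale1_of_scaleDiam {M : ℕ} {A : ValuationSubring Kb} {d : (ZMod M)ˣ}
    (H : ScaleDiam1Statement M A d) : ScaleStatement A (F1 M) (F1b A M) := by
  intro f hf hf0
  obtain ⟨c, Y₁, Y₂, Z₁, Z₂, h₁, h₂, hc, g₁, g₂, e, -, -⟩ :=
    H ⟨f, hf⟩ (fun h0 => hf0 (congrArg Subtype.val h0))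
  exact ⟨c, Y₁, Y₂, hc, ⟨h₁, g₁.1, g₁.2⟩, ⟨h₂, g₂.1, g₂.2⟩, e⟩

/-- **[K-ES1]** the Eichler-Shimura part of the Kummer wiring for `X₁(M)` (convention [A]), from
the corrected leaf [SCALE-DIAM]. -/
theorem kummerES1_of_scaleDiam (M p : ℕ)
    (hHI : ∀ (ℓ : ℕ) [NeZero ℓ], ℓ.Prime → ¬ ℓ ∣ M * p → Hecke1Inputs Kbar M ℓ)
    (hSD : ∀ (ℓ : ℕ) (hℓ : ℓ.Prime) (hℓMp : ¬ ℓ ∣ M * p) (A : ValuationSubring Kb),
      A.LiesOverPrime ℓ →
      ScaleDiam1Statement M A (unitOfPrime M ℓ hℓ (fun h => hℓMp (Dvd.dvd.mul_right h p))))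
    (hES : ∀ (ℓ : ℕ) [NeZero ℓ] [Fact ℓ.Prime] (hℓ : ℓ.Prime) (hℓMp : ¬ ℓ ∣ M * p)
      (A : ValuationSubring Kb), A.LiesOverPrime ℓ →
      EsRed1Statement M ℓ A (unitOfPrime M ℓ hℓ (fun h => hℓMp (Dvd.dvd.mul_right h p)))) :
    KummerES1Statement M p := by
  intro hINJ ℓ hℓ hℓMp A hA σ hF x hx
  obtain ⟨n, hx⟩ := hx
  haveI : Fact ℓ.Prime := ⟨hℓ⟩
  haveI : NeZero ℓ := ⟨hℓ.ne_zero⟩
  haveI : CharP (kA A) ℓ := charP_residueField hℓ hA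
  have hp0 : p ≠ 0 := by
    rintro rfl
    exact hℓMp (by rw [mul_zero]; exact dvd_zero ℓ)
  set d := unitOfPrime M ℓ hℓ (fun h => hℓMp (Dvd.dvd.mul_right h p)) with hd
  obtain ⟨D, rfl⟩ := Pic0.mk_surjective x
  obtain ⟨h, H⟩ := kum_exists_root hx
  obtain ⟨D1, e1, H1⟩ := kum_galois1 M σ H
  obtain ⟨D2, e2, H2⟩ := kum_galois1 M σ H1
  obtain ⟨D3, e3, H3⟩ := kum_hecke1 M ℓ hℓ (hHI ℓ hℓ hℓMp) H1
  obtain ⟨D4, e4, H4⟩ := kum_diamond1 M d H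
  obtain ⟨hσ', hfr⟩ := decK_eq_frobenius_of_isFrobeniusAt (ℓ := ℓ) hF
  -- representation of `h` as `c y₁ / y₂`, compatible with the diamond
  obtain ⟨c, Y₁, Y₂, Z₁, Z₂, h₁, h₂, hc, gd₁, gd₂, e, z₁, z₂⟩ := hSD ℓ hℓ hℓMp A hA h H.1
  have l₁ : Lifts1 A M ⟨incl A Y₁, h₁⟩ (red A Y₁) := ⟨Y₁, rfl, rfl, gd₁.1, gd₁.2⟩
  have l₂ : Lifts1 A M ⟨incl A Y₂, h₂⟩ (red A Y₂) := ⟨Y₂, rfl, rfl, gd₂.1, gd₂.2⟩
  have l₁' : Lifts1 A M ((diamondAut M d).symm ⟨incl A Y₁, h₁⟩) (red A Z₁) :=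
    ⟨Z₁, z₁.1, rfl, z₁.2.1, z₁.2.2⟩
  have l₂' : Lifts1 A M ((diamondAut M d).symm ⟨incl A Y₂, h₂⟩) (red A Z₂) :=
    ⟨Z₂, z₂.1, rfl, z₂.2.1, z₂.2.2⟩
  have e0 : algebraMap Kb (F1 M) c * (⟨incl A Y₁, h₁⟩ : F1 M) = h * ⟨incl A Y₂, h₂⟩ :=
    Subtype.ext e
  have R : Rep1 A M h (red A Y₁) (red A Y₂) := ⟨c, _, _, hc, l₁, l₂, e0⟩
  have R' : Rep1 A M ((diamondAut M d).symm h) (red A Z₁) (red A Z₂) := by
    refine ⟨c, _, _, hc, l₁', l₂', ?_⟩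
    have := congrArg (diamondAut M d).symm e0
    rw [map_mul, map_mul, AlgEquiv.commutes] at this
    exact this
  -- Galois twists
  have g₁ := l₁.gal σ hσ'
  have g₂ := l₂.gal σ hσ'
  have g₁' := l₁'.gal σ hσ'
  have g₂' := l₂'.gal σ hσ'
  rw [hfr] at g₁ g₂ g₁' g₂'
  rw [← diamondAut_symm_galF1] at g₁' g₂'
  -- the Hecke norms
  have n₁ := Lifts1.hecke ℓ (hES ℓ hℓ hℓMp A hA) l₁'.mem l₁'.bar_ne_zero g₁ g₁'
  have n₂ := Lifts1.hecke ℓ (hES ℓ hℓ hℓMp A hA) l₂'.mem l₂'.bar_ne_zero g₂ g₂'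
  have R1 : Rep1 A M (galF1 M σ h) (coeffMap (frobenius (kA A) ℓ) (red A Y₁))
      (coeffMap (frobenius (kA A) ℓ) (red A Y₂)) := by
    have := R.gal σ hσ'
    rwa [hfr] at this
  have R2 : Rep1 A M (galF1 M σ (galF1 M σ h))
      (coeffMap (frobenius (kA A) ℓ) (coeffMap (frobenius (kA A) ℓ) (red A Y₁)))
      (coeffMap (frobenius (kA A) ℓ) (coeffMap (frobenius (kA A) ℓ) (red A Y₂))) := by
    have := R1.gal σ hσ'
    rwa [hfr] at this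
  have R3 : Rep1 A M (heckeNorm1 M ℓ (galF1 M σ h))
      (red A Z₁ ^ ℓ *
        coeffMap (frobenius (kA A) ℓ) (coeffMap (frobenius (kA A) ℓ) (red A Y₁)))
      (red A Z₂ ^ ℓ *
        coeffMap (frobenius (kA A) ℓ) (coeffMap (frobenius (kA A) ℓ) (red A Y₂))) := by
    obtain ⟨dd, hdd⟩ := heckeNorm1_algebraMap M ℓ (σ c)
    refine ⟨(σ c) ^ dd, _, _, pow_ne_zero dd ((map_ne_zero σ).mpr hc), n₁, n₂, ?_⟩
    have e' : algebraMap Kb (F1 M) (σ c) * galF1 M σ ⟨incl A Y₁, h₁⟩ =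
        galF1 M σ h * galF1 M σ ⟨incl A Y₂, h₂⟩ := by
      rw [← galF1_algebraMap, ← map_mul, e0, map_mul]
    rw [← hdd, ← heckeNorm1_mul, e', heckeNorm1_mul]
  have R4 := (R2.div R3).mul (R'.pow ℓ)
  have E4 : IsRootDiv (p ^ n) ((D2 - D3 + ℓ • D4 : Divisor.degZero (K := Kb) (F := F1 M)) :
      Divisor Kb (F1 M))
      (galF1 M σ (galF1 M σ h) / heckeNorm1 M ℓ (galF1 M σ h) *
        ((diamondAut M d).symm h) ^ ℓ) := by
    rw [AddSubgroup.coe_add, AddSubgroup.coe_sub, AddSubgroup.coe_nsmul]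
    exact (H2.div H3).mul (H4.pow ℓ)
  have hab : coeffMap (frobenius (kA A) ℓ) (coeffMap (frobenius (kA A) ℓ) (red A Y₁)) *
        (red A Z₂ ^ ℓ *
          coeffMap (frobenius (kA A) ℓ) (coeffMap (frobenius (kA A) ℓ) (red A Y₂))) *
        red A Z₁ ^ ℓ
      = coeffMap (frobenius (kA A) ℓ) (coeffMap (frobenius (kA A) ℓ) (red A Y₂)) *
        (red A Z₁ ^ ℓ *
          coeffMap (frobenius (kA A) ℓ) (coeffMap (frobenius (kA A) ℓ) (red A Y₁))) *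
        red A Z₂ ^ ℓ := by
    ring
  rw [hab] at R4
  have key := mk_eq_zero_of_rep1 (pow_ne_zero n hp0) (hINJ ℓ hℓ hℓMp A hA n) E4 R4
  rw [e1, e2, e3, e4]
  have hkey : (Pic0.mk (D2 - D3 + ℓ • D4) : J1 M) = Pic0.mk D2 - Pic0.mk D3 + ℓ • Pic0.mk D4 := rfl
  rw [← hkey]
  exact key

/-- **P2-CORE for `X₁(M)`** from (INJ1) and the (corrected) leaves. -/
theorem p2Core1_of_leaves' (M p : ℕ)
    (hINJ : Inj1Statement M p)
    (hHI : ∀ (ℓ : ℕ) [NeZero ℓ], ℓ.Prime → ¬ ℓ ∣ M * p → Hecke1Inputs Kbar M ℓ)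
    (hSD : ∀ (ℓ : ℕ) (hℓ : ℓ.Prime) (hℓMp : ¬ ℓ ∣ M * p) (A : ValuationSubring Kb),
      A.LiesOverPrime ℓ →
      ScaleDiam1Statement M A (unitOfPrime M ℓ hℓ (fun h => hℓMp (Dvd.dvd.mul_right h p))))
    (hES : ∀ (ℓ : ℕ) [NeZero ℓ] [Fact ℓ.Prime] (hℓ : ℓ.Prime) (hℓMp : ¬ ℓ ∣ M * p)
      (A : ValuationSubring Kb), A.LiesOverPrime ℓ →
      EsRed1Statement M ℓ A (unitOfPrime M ℓ hℓ (fun h => hℓMp (Dvd.dvd.mul_right h p)))) :
    P2Core1Statement M p :=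
  p2Core1_of M p
    (kummerUnr1_of M p (fun ℓ hℓ hℓMp A hA => scale1_of_scaleDiam (hSD ℓ hℓ hℓMp A hA)))
    (kummerES1_of_scaleDiam M p hHI hSD hES) hINJ

end Fermat.Agent.T4.helper92

end
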