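import Mathlib
import Fermat.Agent.T4.helper92_KumWire1b

/-!
# T4 block (I), [I-ES-KWIRE-2] (helper92): the Eichler-Shimura wiring from the char-0 norm formula

`kummerES1_of_norm` : `helper4.KummerES1Statement M p` from

* [SCALE1] `helper4.ScaleStatement A (F1 M) (F1b A M)`,
* [HI1] `helper32.Hecke1Inputs`,
* [ES-NORM1] `EsNorm1Statement M ℓ d` : the norm formula in characteristic `0`,
  `N_β(α h)(q^ℓ) = ((δ_d)⁻¹ h)(q^{ℓ²}) · ∏_{k<ℓ} h(ζ^k q)`.

No statement about the integrality of diamonds is needed ([DIAM-GOOD] is false, [SCALE-DIAM] and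
[ES-RED1] are not used).  For `y` integral with reduction `Fr a₀`, [SCALE1] is applied to
`N y = e w₁ / w₂` and to `(δ_d)⁻¹ y = c' u₁ / u₂` SEPARATELY; the norm formula reads

  `e · [w₁(q^ℓ) u₂(q^{ℓ²})] = c' · [u₁(q^{ℓ²}) ∏_k y(ζ^k q) w₂(q^ℓ)]`

with both brackets integral of nonzero reduction, hence (Gauss) the reductions of the brackets
differ by a nonzero constant: `κ · w̄₁ · b'^ℓ = a'^ℓ · Fr² a₀ · w̄₂` (`ū₁ = Fr a'`, `ū₂ = Fr b'`).
The unknown reductions of the diamonds cancel in `σ² h / N(σ h) · ((δ_d)⁻¹ h)^ℓ`.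
-/

set_option autoImplicit false
set_option linter.unusedSectionVars false
set_option linter.unusedVariables false
set_option linter.style.longLine false
set_option linter.style.haveILetI false

noncomputable section

open HahnSeries IntermediateField AlgebraicCurve ModularCurve
open Fermat.Agent.S18.helper19 (Kb kA)
open Fermat.Agent.P2.helper29 (incl red)
open Fermat.Agent.T4.helper32 Fermat.Agent.T4.helper4
open Fermat.Agent.P2.helper93 (IsRootDiv kum_exists_root kum_mk_eq_zero_of_ord decA decK actA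
  coeffMap_subtype_actA coeffMap_residue_actA decK_eq_id_of_mem_inertia
  decK_eq_frobenius_of_isFrobeniusAt cw_coeffMap_injective norm_along_const charP_residueField
  coeffMap_subtype_injective twistL rootUnit coe_rootUnit rootUnit_sub_one_mem
  coeffMap_subtype_rot)

namespace Fermat.Agent.T4.helper92

/-- **[ES-NORM1]** the norm formula for the Hecke correspondence of `X₁(M)` in characteristic `0`:
`N_β(α h)(q^ℓ) = ((δ_d)⁻¹ h)(q^{ℓ²}) · ∏_{k<ℓ} h(ζ^k q)`. -/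
def EsNorm1Statement (M ℓ : ℕ) [NeZero ℓ] (d : (ZMod M)ˣ) : Prop :=
  ∀ ζ : Kb, IsPrimitiveRoot ζ ℓ → ∀ h : F1 M,
    qExpand Kb ℓ ((heckeNorm1 M ℓ h : F1 M) : LaurentSeries Kb)
      = qExpand Kb (ℓ * ℓ) (((diamondAut M d).symm h : F1 M) : LaurentSeries Kb) *
          ∏ k ∈ Finset.range ℓ, twistL (ζ ^ k) (h : LaurentSeries Kb)

/-! ## Constants -/

section Const

theorem kw2_coeff_const_mul {R : Type*} [Field R] (c : R) (x : LaurentSeries R) (k : ℤ) :
    (algebraMap R (LaurentSeries R) c * x).coeff k = c * x.coeff k := by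
  rw [algebraMap_laurentSeries_eq_single, HahnSeries.coeff_single_zero_mul]

theorem kw2_qExpand_const {R : Type*} [Field R] (n : ℕ) [NeZero n] (c : R) :
    qExpand R n (algebraMap R (LaurentSeries R) c) = algebraMap R (LaurentSeries R) c := by
  rw [algebraMap_laurentSeries_eq_single, qExpand_single, mul_zero]

end Const

/-! ## The Gauss lemma for two integral series of nonzero reduction -/

section Gauss

variable {A : ValuationSubring Kb}

theorem kw2_incl_coeff (X : LaurentSeries A) (k : ℤ) :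
    (incl A X).coeff k = ((X.coeff k : A) : Kb) := rfl

theorem kw2_red_coeff (X : LaurentSeries A) (k : ℤ) :
    (red A X).coeff k = IsLocalRing.residue A (X.coeff k) := rfl

/-- if `c · X = c' · X'` with `X`, `X'` integral of nonzero reduction, then the reductions differ
by a nonzero constant. -/
theorem kw2_gauss {c c' : Kb} (hc : c ≠ 0) (hc' : c' ≠ 0) {X X' : LaurentSeries A}
    (hX : red A X ≠ 0) (hX' : red A X' ≠ 0)
    (e : algebraMap Kb (LaurentSeries Kb) c * incl A X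
      = algebraMap Kb (LaurentSeries Kb) c' * incl A X') :
    ∃ κ : kA A, κ ≠ 0 ∧ algebraMap (kA A) (LaurentSeries (kA A)) κ * red A X = red A X' := by
  have hk : ∀ k : ℤ, c * ((X.coeff k : A) : Kb) = c' * ((X'.coeff k : A) : Kb) := by
    intro k
    have := congrArg (fun z : LaurentSeries Kb => z.coeff k) e
    simp only [kw2_coeff_const_mul, kw2_incl_coeff] at this
    exact this
  rcases A.mem_or_inv_mem (c'⁻¹ * c) with ht | ht
  · have h1 : ∀ k : ℤ, X'.coeff k = ⟨c'⁻¹ * c, ht⟩ * X.coeff k := by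
      intro k
      apply Subtype.ext
      show ((X'.coeff k : A) : Kb) = c'⁻¹ * c * ((X.coeff k : A) : Kb)
      rw [mul_assoc, hk k, ← mul_assoc, inv_mul_cancel₀ hc', one_mul]
    have h2 : algebraMap (kA A) (LaurentSeries (kA A))
        (IsLocalRing.residue A ⟨c'⁻¹ * c, ht⟩) * red A X = red A X' := by
      ext k
      rw [kw2_coeff_const_mul, kw2_red_coeff, kw2_red_coeff, h1 k, map_mul]
    refine ⟨_, ?_, h2⟩
    intro h0
    rw [h0, map_zero, zero_mul] at h2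
    exact hX' h2.symm
  · have h1 : ∀ k : ℤ, X.coeff k = ⟨(c'⁻¹ * c)⁻¹, ht⟩ * X'.coeff k := by
      intro k
      apply Subtype.ext
      show ((X.coeff k : A) : Kb) = (c'⁻¹ * c)⁻¹ * ((X'.coeff k : A) : Kb)
      have h3 : ((X'.coeff k : A) : Kb) = c'⁻¹ * (c * ((X.coeff k : A) : Kb)) := by
        rw [hk k, ← mul_assoc, inv_mul_cancel₀ hc', one_mul]
      rw [h3]
      field_simp
    have h2 : algebraMap (kA A) (LaurentSeries (kA A))
        (IsLocalRing.residue A ⟨(c'⁻¹ * c)⁻¹, ht⟩) * red A X' = red A X := by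
      ext k
      rw [kw2_coeff_const_mul, kw2_red_coeff, kw2_red_coeff, h1 k, map_mul]
    have h3 : IsLocalRing.residue A ⟨(c'⁻¹ * c)⁻¹, ht⟩ ≠ 0 := by
      intro h0
      rw [h0, map_zero, zero_mul] at h2
      exact hX h2.symm
    refine ⟨(IsLocalRing.residue A ⟨(c'⁻¹ * c)⁻¹, ht⟩)⁻¹, inv_ne_zero h3, ?_⟩
    rw [← h2, ← mul_assoc, ← map_mul, inv_mul_cancel₀ h3, map_one, one_mul]

end Gauss

/-! ## More on `Lifts1` and `Rep1` -/

section RepMore

variable {A : ValuationSubring Kb} {N : ℕ}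

theorem Lifts1.const_mul {y : F1 N} {yb : LaurentSeries (kA A)} (h : Lifts1 A N y yb) (t : A)
    (ht : IsLocalRing.residue A t ≠ 0) :
    Lifts1 A N (algebraMap Kb (F1 N) (t : Kb) * y)
      (algebraMap (kA A) (LaurentSeries (kA A)) (IsLocalRing.residue A t) * yb) := by
  obtain ⟨Y, e1, e2, hm, n0⟩ := h
  refine ⟨HahnSeries.single 0 t * Y, ?_, ?_, mul_mem ((F1b A N).algebraMap_mem _) hm,
    mul_ne_zero ((map_ne_zero _).mpr ht) n0⟩
  · rw [map_mul, coeffMap_single, e1]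
    show HahnSeries.single 0 (t : Kb) * (y : LaurentSeries Kb)
      = algebraMap Kb (LaurentSeries Kb) (t : Kb) * (y : LaurentSeries Kb)
    rw [algebraMap_laurentSeries_eq_single]
  · rw [map_mul, coeffMap_single, e2, algebraMap_laurentSeries_eq_single]

/-- the numerator reduction of a representation may be multiplied by a nonzero constant -/
theorem Rep1.scale_left {h : F1 N} {a b : LaurentSeries (kA A)} (H : Rep1 A N h a b)
    {κ : kA A} (hκ : κ ≠ 0) :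
    Rep1 A N h (algebraMap (kA A) (LaurentSeries (kA A)) κ * a) b := by
  obtain ⟨c, y₁, y₂, hc, l₁, l₂, e⟩ := H
  obtain ⟨t, rfl⟩ := Ideal.Quotient.mk_surjective κ
  have ht : (t : Kb) ≠ 0 := by
    intro h0
    apply hκ
    have : t = 0 := Subtype.ext h0
    rw [this]
    exact map_zero _
  refine ⟨c * (t : Kb)⁻¹, _, y₂, mul_ne_zero hc (inv_ne_zero ht), l₁.const_mul t hκ, l₂, ?_⟩
  rw [← mul_assoc, ← map_mul, mul_assoc, inv_mul_cancel₀ ht, mul_one, e]

theorem Rep1.const_mul {h : F1 N} {a b : LaurentSeries (kA A)} (H : Rep1 A N h a b)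
    {c₀ : Kb} (hc₀ : c₀ ≠ 0) :
    Rep1 A N (algebraMap Kb (F1 N) c₀ * h) a b := by
  obtain ⟨c, y₁, y₂, hc, l₁, l₂, e⟩ := H
  refine ⟨c₀ * c, y₁, y₂, mul_ne_zero hc₀ hc, l₁, l₂, ?_⟩
  rw [map_mul, mul_assoc, e, mul_assoc]

/-- a quotient of two represented functions, up to a constant -/
theorem Rep1.of_mul_eq {f g₁ g₂ : F1 N} {a₁ b₁ a₂ b₂ : LaurentSeries (kA A)}
    (H₁ : Rep1 A N g₁ a₁ b₁) (H₂ : Rep1 A N g₂ a₂ b₂) {c : Kb} (hc : c ≠ 0)
    (e : algebraMap Kb (F1 N) c * g₁ = f * g₂) :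
    Rep1 A N f (a₁ * b₂) (b₁ * a₂) := by
  have hg₂ := H₂.ne_zero
  have hf : f = algebraMap Kb (F1 N) c * (g₁ / g₂) := by
    rw [mul_div_assoc', e, mul_div_assoc, div_self hg₂, mul_one]
  rw [hf]
  exact (H₁.div H₂).const_mul hc

end RepMore

/-! ## The product of the rotations -/

section Rot

variable {A : ValuationSubring Kb}

theorem kw2_prod_rot (ℓ : ℕ) [Fact ℓ.Prime] (hA : A.LiesOverPrime ℓ) {ζ : Kb}
    (hζ : ζ ^ ℓ = 1) (Y : LaurentSeries A) :
    ∃ P : LaurentSeries A,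
      incl A P = ∏ k ∈ Finset.range ℓ, twistL (ζ ^ k) (incl A Y) ∧
      red A P = (red A Y) ^ ℓ := by
  have hℓ : ℓ.Prime := Fact.out
  set u : (↥A)ˣ := rootUnit A hℓ.ne_zero hζ with hu
  have hu1 : ((u : ↥A)) - 1 ∈ IsLocalRing.maximalIdeal ↥A := rootUnit_sub_one_mem hℓ hA hζ
  have hui : ∀ i : ℕ, ((u ^ i : (↥A)ˣ) : ↥A) - 1 ∈ IsLocalRing.maximalIdeal ↥A := by
    intro i
    induction i with
    | zero => simp
    | succ i ih =>
      have e : ((u ^ (i + 1) : (↥A)ˣ) : ↥A) - 1 = ((u ^ i : (↥A)ˣ) : ↥A) * ((u : ↥A) - 1) +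
          (((u ^ i : (↥A)ˣ) : ↥A) - 1) := by
        rw [pow_succ]
        push_cast
        ring
      rw [e]
      exact Ideal.add_mem _ (Ideal.mul_mem_left _ _ hu1) ih
  refine ⟨∏ i ∈ Finset.range ℓ, Fermat.Agent.P2.helper94.rot (u ^ i) Y, ?_, ?_⟩
  · show coeffMap A.subtype _ = _
    rw [map_prod]
    refine Finset.prod_congr rfl fun i _ => ?_
    rw [coeffMap_subtype_rot]
    rfl
  · show coeffMap (IsLocalRing.residue A) _ = _
    rw [map_prod]
    have hc : ∀ i ∈ Finset.range ℓ,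
        coeffMap (IsLocalRing.residue A) (Fermat.Agent.P2.helper94.rot (u ^ i) Y)
          = red A Y := fun i _ =>
      Fermat.Agent.P2.helper94.coeffMap_rot_of_sub_one_mem (IsLocalRing.maximalIdeal ↥A)
        (u ^ i) (hui i) Y
    rw [Finset.prod_congr rfl hc, Finset.prod_const, Finset.card_range]

end Rot

/-! ## The representation of the Hecke norm -/

section NormRep

variable {A : ValuationSubring Kb} {N : ℕ}

theorem kw2_incl_ne_zero {X : LaurentSeries A} (h : red A X ≠ 0) : incl A X ≠ 0 := by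
  intro h0
  have h1 : coeffMap A.subtype X = coeffMap A.subtype 0 := by
    rw [map_zero]; exact h0
  have h2 : X = 0 := coeffMap_subtype_injective h1
  rw [h2, map_zero] at h
  exact h rfl

theorem kw2_qExpand_ne_zero {R : Type*} [CommRing R] (n : ℕ) [NeZero n] {x : LaurentSeries R}
    (h : x ≠ 0) : qExpand R n x ≠ 0 := fun h0 =>
  h (ModularCurve.qExpand_injective n (h0.trans (map_zero _).symm))

/-- **[NORM-REP]** if `y` is integral with reduction `Fr a₀` and `(δ_d)⁻¹ y` is represented with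
reductions `Fr a'`, `Fr b'`, then the Hecke norm of `y` is represented with reductions `Ab`, `Bb`
such that `Ab · b'^ℓ = Bb · a'^ℓ · Fr² a₀`. -/
theorem kw2_normRep (ℓ : ℕ) [NeZero ℓ] [Fact ℓ.Prime] [CharP (kA A) ℓ]
    (hA : A.LiesOverPrime ℓ) {d : (ZMod N)ˣ}
    (hS : ScaleStatement A (F1 N) (F1b A N)) (hNorm : EsNorm1Statement N ℓ d)
    {y : F1 N} {a₀ a' b' : LaurentSeries (kA A)}
    (h : Lifts1 A N y (coeffMap (frobenius (kA A) ℓ) a₀))
    (h' : Rep1 A N ((diamondAut N d).symm y) (coeffMap (frobenius (kA A) ℓ) a')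
      (coeffMap (frobenius (kA A) ℓ) b')) :
    ∃ Ab Bb : LaurentSeries (kA A), Rep1 A N (heckeNorm1 N ℓ y) Ab Bb ∧
      Ab * b' ^ ℓ = Bb * (a' ^ ℓ *
        coeffMap (frobenius (kA A) ℓ) (coeffMap (frobenius (kA A) ℓ) a₀)) := by
  have hℓ : ℓ.Prime := Fact.out
  obtain ⟨ζ, hζ⟩ := HasEnoughRootsOfUnity.exists_primitiveRoot Kb ℓ
  obtain ⟨Y, e1, e2, hm, n0⟩ := h
  obtain ⟨c', u₁, u₂, hc', ⟨U₁, f1, f2, m1, k1⟩, ⟨U₂, g1, g2, m2, k2⟩, eU⟩ := h'
  obtain ⟨P, hP1, hP2⟩ := kw2_prod_rot ℓ hA hζ.pow_eq_one Y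
  have hP0 : red A P ≠ 0 := by
    rw [hP2]
    exact pow_ne_zero ℓ (by rw [show red A Y = _ from e2]; exact n0)
  have key := hNorm ζ hζ y
  have hYy : incl A Y = (y : LaurentSeries Kb) := e1
  rw [← hYy, ← hP1] at key
  -- the relation for the diamond
  have eU' : algebraMap Kb (LaurentSeries Kb) c' * incl A U₁
      = (((diamondAut N d).symm y : F1 N) : LaurentSeries Kb) * incl A U₂ := by
    have := congrArg (fun z : F1 N => (z : LaurentSeries Kb)) eU
    rw [show incl A U₁ = (u₁ : LaurentSeries Kb) from f1,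
      show incl A U₂ = (u₂ : LaurentSeries Kb) from g1]
    exact this
  -- Step A
  have stepA : qExpand Kb ℓ ((heckeNorm1 N ℓ y : F1 N) : LaurentSeries Kb) *
        qExpand Kb (ℓ * ℓ) (incl A U₂)
      = algebraMap Kb (LaurentSeries Kb) c' * (qExpand Kb (ℓ * ℓ) (incl A U₁) * incl A P) := by
    rw [key, mul_right_comm, ← map_mul, ← eU', map_mul, kw2_qExpand_const, mul_assoc]
  -- the Hecke norm does not vanish
  have hU₁0 : red A U₁ ≠ 0 := by rw [show red A U₁ = _ from f2]; exact k1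
  have hU₂0 : red A U₂ ≠ 0 := by rw [show red A U₂ = _ from g2]; exact k2
  have hN0 : heckeNorm1 N ℓ y ≠ 0 := by
    intro h0
    rw [h0] at stepA
    have hz : ((0 : F1 N) : LaurentSeries Kb) = 0 := rfl
    rw [hz, map_zero, zero_mul] at stepA
    exact mul_ne_zero ((map_ne_zero _).mpr hc')
      (mul_ne_zero (kw2_qExpand_ne_zero _ (kw2_incl_ne_zero hU₁0)) (kw2_incl_ne_zero hP0))
      stepA.symm
  -- scale the Hecke norm
  obtain ⟨e, W₁, W₂, he, gW₁, gW₂, eW⟩ := hS ((heckeNorm1 N ℓ y : F1 N) : LaurentSeries Kb)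
    (heckeNorm1 N ℓ y).2 (fun h0 => hN0 (Subtype.ext h0))
  have R0 : Rep1 A N (heckeNorm1 N ℓ y) (red A W₁) (red A W₂) :=
    ⟨e, ⟨incl A W₁, gW₁.1⟩, ⟨incl A W₂, gW₂.1⟩, he, ⟨W₁, rfl, rfl, gW₁.2.1, gW₁.2.2⟩,
      ⟨W₂, rfl, rfl, gW₂.2.1, gW₂.2.2⟩, Subtype.ext eW⟩
  -- the two integral series
  set X : LaurentSeries A := qExpand A ℓ W₁ * qExpand A (ℓ * ℓ) U₂ with hX
  set X' : LaurentSeries A := qExpand A (ℓ * ℓ) U₁ * P * qExpand A ℓ W₂ with hX'
  have hiq : ∀ (n : ℕ) [NeZero n] (Z : LaurentSeries A),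
      incl A (qExpand A n Z) = qExpand Kb n (incl A Z) :=
    fun n _ Z => Fermat.Agent.P2.helper94.coeffMap_qExpand _ n Z
  have hrq : ∀ (n : ℕ) [NeZero n] (Z : LaurentSeries A),
      red A (qExpand A n Z) = qExpand (kA A) n (red A Z) :=
    fun n _ Z => Fermat.Agent.P2.helper94.coeffMap_qExpand _ n Z
  have eX : algebraMap Kb (LaurentSeries Kb) e * incl A X
      = algebraMap Kb (LaurentSeries Kb) c' * incl A X' := by
    rw [hX, hX', map_mul, map_mul, map_mul, hiq, hiq, hiq, hiq]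
    calc algebraMap Kb (LaurentSeries Kb) e *
          (qExpand Kb ℓ (incl A W₁) * qExpand Kb (ℓ * ℓ) (incl A U₂))
        = qExpand Kb ℓ (algebraMap Kb (LaurentSeries Kb) e * incl A W₁) *
            qExpand Kb (ℓ * ℓ) (incl A U₂) := by
          rw [map_mul, kw2_qExpand_const, mul_assoc]
      _ = (qExpand Kb ℓ ((heckeNorm1 N ℓ y : F1 N) : LaurentSeries Kb) *
            qExpand Kb (ℓ * ℓ) (incl A U₂)) * qExpand Kb ℓ (incl A W₂) := by
          rw [eW, map_mul, mul_right_comm]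
      _ = algebraMap Kb (LaurentSeries Kb) c' *
            (qExpand Kb (ℓ * ℓ) (incl A U₁) * incl A P * qExpand Kb ℓ (incl A W₂)) := by
          rw [stepA]
          ring
  have hrX : red A X = qExpand (kA A) ℓ (red A W₁) * qExpand (kA A) (ℓ * ℓ) (red A U₂) := by
    rw [hX, map_mul, hrq, hrq]
  have hrX' : red A X' = qExpand (kA A) (ℓ * ℓ) (red A U₁) * red A P *
      qExpand (kA A) ℓ (red A W₂) := by
    rw [hX', map_mul, map_mul, hrq, hrq]
  have hX0 : red A X ≠ 0 := by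
    rw [hrX]
    exact mul_ne_zero (kw2_qExpand_ne_zero _ gW₁.2.2) (kw2_qExpand_ne_zero _ hU₂0)
  have hX'0 : red A X' ≠ 0 := by
    rw [hrX']
    exact mul_ne_zero (mul_ne_zero (kw2_qExpand_ne_zero _ hU₁0) hP0)
      (kw2_qExpand_ne_zero _ gW₂.2.2)
  obtain ⟨κ, hκ, eκ⟩ := kw2_gauss he hc' hX0 hX'0 eX
  refine ⟨_, _, R0.scale_left hκ, ?_⟩
  -- the relation between the reductions
  have hU₁r : qExpand (kA A) (ℓ * ℓ) (red A U₁) = qExpand (kA A) ℓ (a' ^ ℓ) := by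
    rw [show red A U₁ = _ from f2, ← qExpand_qExpand,
      ← Fermat.Agent.P2.helper94.laurent_pow_char ℓ a']
  have hU₂r : qExpand (kA A) (ℓ * ℓ) (red A U₂) = qExpand (kA A) ℓ (b' ^ ℓ) := by
    rw [show red A U₂ = _ from g2, ← qExpand_qExpand,
      ← Fermat.Agent.P2.helper94.laurent_pow_char ℓ b']
  have hPr : red A P = qExpand (kA A) ℓ
      (coeffMap (frobenius (kA A) ℓ) (coeffMap (frobenius (kA A) ℓ) a₀)) := by
    rw [hP2, show red A Y = _ from e2, Fermat.Agent.P2.helper94.laurent_pow_char ℓ]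
  rw [hrX, hrX', hU₁r, hU₂r, hPr, ← kw2_qExpand_const ℓ κ, ← map_mul, ← map_mul, ← map_mul,
    ← map_mul] at eκ
  have fin := ModularCurve.qExpand_injective ℓ eκ
  linear_combination fin

end NormRep

/-! ## The main theorems -/

section Main

/-- **[K-ES1]** the Eichler-Shimura part of the Kummer wiring for `X₁(M)` (convention [A]), from
[SCALE1], [HI1] and the norm formula [ES-NORM1] in characteristic `0`. -/
theorem kummerES1_of_norm (M p : ℕ)
    (hVAL : ∀ ℓ : ℕ, ℓ.Prime → ¬ ℓ ∣ M * p → ∀ A : ValuationSubring Kb, A.LiesOverPrime ℓ →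
      ScaleStatement A (F1 M) (F1b A M))
    (hHI : ∀ (ℓ : ℕ) [NeZero ℓ], ℓ.Prime → ¬ ℓ ∣ M * p → Hecke1Inputs Kbar M ℓ)
    (hNorm : ∀ (ℓ : ℕ) [NeZero ℓ] (hℓ : ℓ.Prime) (hℓMp : ¬ ℓ ∣ M * p),
      EsNorm1Statement M ℓ (unitOfPrime M ℓ hℓ (fun h => hℓMp (Dvd.dvd.mul_right h p)))) :
    KummerES1Statement M p := by
  intro hINJ ℓ hℓ hℓMp A hA σ hF x hx
  obtain ⟨n, hx⟩ := hx
  haveI : Fact ℓ.Prime := ⟨hℓ⟩
  haveI : NeZero ℓ := ⟨hℓ.ne_zero⟩
  haveI : CharP (kA A) ℓ := charP_residueField hℓ hA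
  have hp0 : p ≠ 0 := by
    rintro rfl
    exact hℓMp (by rw [mul_zero]; exact dvd_zero ℓ)
  set d := unitOfPrime M ℓ hℓ (fun h => hℓMp (Dvd.dvd.mul_right h p)) with hd
  obtain ⟨D, rfl⟩ := Pic0.mk_surjective x
  obtain ⟨h, H⟩ := kum_exists_root hx
  obtain ⟨D1, e1, H1⟩ := kum_galois1 M σ H
  obtain ⟨D2, e2, H2⟩ := kum_galois1 M σ H1
  obtain ⟨D3, e3, H3⟩ := kum_hecke1 M ℓ hℓ (hHI ℓ hℓ hℓMp) H1
  obtain ⟨D4, e4, H4⟩ := kum_diamond1 M d H
  obtain ⟨hσ', hfr⟩ := decK_eq_frobenius_of_isFrobeniusAt (ℓ := ℓ) hF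
  have hS := hVAL ℓ hℓ hℓMp A hA
  have hN := hNorm ℓ hℓ hℓMp
  -- representation of `h` as `c y₁ / y₂`
  obtain ⟨a, b, c, y₁, y₂, hc, l₁, l₂, e⟩ := rep1_of_scale hS h H.1
  have R : Rep1 A M h a b := ⟨c, y₁, y₂, hc, l₁, l₂, e⟩
  -- the diamonds of `y₁`, `y₂`, scaled separately
  have hd₁ : (diamondAut M d).symm y₁ ≠ 0 := fun h0 =>
    l₁.ne_zero ((map_eq_zero_iff _ (AlgEquiv.injective _)).mp h0)
  have hd₂ : (diamondAut M d).symm y₂ ≠ 0 := fun h0 =>
    l₂.ne_zero ((map_eq_zero_iff _ (AlgEquiv.injective _)).mp h0)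
  obtain ⟨a₁', b₁', Q₁⟩ := rep1_of_scale hS ((diamondAut M d).symm y₁) hd₁
  obtain ⟨a₂', b₂', Q₂⟩ := rep1_of_scale hS ((diamondAut M d).symm y₂) hd₂
  have R' : Rep1 A M ((diamondAut M d).symm h) (a₁' * b₂') (b₁' * a₂') := by
    refine Rep1.of_mul_eq Q₁ Q₂ hc ?_
    have := congrArg (diamondAut M d).symm e
    rw [map_mul, map_mul, AlgEquiv.commutes] at this
    exact this
  -- Galois twists
  have g₁ := l₁.gal σ hσ'
  have g₂ := l₂.gal σ hσ'
  have G₁ := Q₁.gal σ hσ'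
  have G₂ := Q₂.gal σ hσ'
  rw [hfr] at g₁ g₂ G₁ G₂
  rw [← diamondAut_symm_galF1] at G₁ G₂
  -- the Hecke norms
  obtain ⟨A₁, B₁, N₁, r₁⟩ := kw2_normRep ℓ hA hS hN g₁ G₁
  obtain ⟨A₂, B₂, N₂, r₂⟩ := kw2_normRep ℓ hA hS hN g₂ G₂
  have R1 : Rep1 A M (galF1 M σ h) (coeffMap (frobenius (kA A) ℓ) a)
      (coeffMap (frobenius (kA A) ℓ) b) := by
    have := R.gal σ hσ'
    rwa [hfr] at this
  have R2 : Rep1 A M (galF1 M σ (galF1 M σ h))
      (coeffMap (frobenius (kA A) ℓ) (coeffMap (frobenius (kA A) ℓ) a))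
      (coeffMap (frobenius (kA A) ℓ) (coeffMap (frobenius (kA A) ℓ) b)) := by
    have := R1.gal σ hσ'
    rwa [hfr] at this
  have R3 : Rep1 A M (heckeNorm1 M ℓ (galF1 M σ h)) (A₁ * B₂) (B₁ * A₂) := by
    obtain ⟨dd, hdd⟩ := heckeNorm1_algebraMap M ℓ (σ c)
    refine Rep1.of_mul_eq N₁ N₂ (pow_ne_zero dd ((map_ne_zero σ).mpr hc)) ?_
    have e' : algebraMap Kb (F1 M) (σ c) * galF1 M σ y₁ = galF1 M σ h * galF1 M σ y₂ := by
      rw [← galF1_algebraMap, ← map_mul, e, map_mul]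
    rw [← hdd, ← heckeNorm1_mul, e', heckeNorm1_mul]
  have R4 := (R2.div R3).mul (R'.pow ℓ)
  have E4 : IsRootDiv (p ^ n) ((D2 - D3 + ℓ • D4 : Divisor.degZero (K := Kb) (F := F1 M)) :
      Divisor Kb (F1 M))
      (galF1 M σ (galF1 M σ h) / heckeNorm1 M ℓ (galF1 M σ h) *
        ((diamondAut M d).symm h) ^ ℓ) := by
    rw [AddSubgroup.coe_add, AddSubgroup.coe_sub, AddSubgroup.coe_nsmul]
    exact (H2.div H3).mul (H4.pow ℓ)
  have hab : coeffMap (frobenius (kA A) ℓ) (coeffMap (frobenius (kA A) ℓ) a) * (B₁ * A₂) *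
        (a₁' * b₂') ^ ℓ
      = coeffMap (frobenius (kA A) ℓ) (coeffMap (frobenius (kA A) ℓ) b) * (A₁ * B₂) *
        (b₁' * a₂') ^ ℓ := by
    linear_combination
      (coeffMap (frobenius (kA A) ℓ) (coeffMap (frobenius (kA A) ℓ) a) * B₁ * a₁' ^ ℓ) * r₂ -
      (B₂ * a₂' ^ ℓ * coeffMap (frobenius (kA A) ℓ) (coeffMap (frobenius (kA A) ℓ) b)) * r₁
  rw [hab] at R4
  have key := mk_eq_zero_of_rep1 (pow_ne_zero n hp0) (hINJ ℓ hℓ hℓMp A hA n) E4 R4
  rw [e1, e2, e3, e4]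
  have hkey : (Pic0.mk (D2 - D3 + ℓ • D4) : J1 M) = Pic0.mk D2 - Pic0.mk D3 + ℓ • Pic0.mk D4 := rfl
  rw [← hkey]
  exact key

/-- **P2-CORE for `X₁(M)`** from (INJ1), [SCALE1], [HI1] and [ES-NORM1]. -/
theorem p2Core1_of_norm (M p : ℕ)
    (hINJ : Inj1Statement M p)
    (hVAL : ∀ ℓ : ℕ, ℓ.Prime → ¬ ℓ ∣ M * p → ∀ A : ValuationSubring Kb, A.LiesOverPrime ℓ →
      ScaleStatement A (F1 M) (F1b A M))
    (hHI : ∀ (ℓ : ℕ) [NeZero ℓ], ℓ.Prime → ¬ ℓ ∣ M * p → Hecke1Inputs Kbar M ℓ)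
    (hNorm : ∀ (ℓ : ℕ) [NeZero ℓ] (hℓ : ℓ.Prime) (hℓMp : ¬ ℓ ∣ M * p),
      EsNorm1Statement M ℓ (unitOfPrime M ℓ hℓ (fun h => hℓMp (Dvd.dvd.mul_right h p)))) :
    P2Core1Statement M p :=
  p2Core1_of M p (kummerUnr1_of M p hVAL) (kummerES1_of_norm M p hVAL hHI hNorm) hINJ

end Main

end Fermat.Agent.T4.helper92

end
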