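import Mathlib
import Fermat.Agent.T4.helper41_CoreWire1
import Fermat.Agent.T4.helper92_KumWire1c
import Fermat.Agent.T4.helper10_X1pInst
import Fermat.Agent.T4.helper11_Hecke1Inputs
import Fermat.Agent.T4.helper11_F1Fin
import Fermat.Agent.T4.helper83_SwapAbs
import Fermat.Agent.P2.helper93_ESNorm

/-!
# T4 block (I), [ES-NORM1] (helper21): the ABSTRACT END of the norm formula along `β₁`

`esNorm1_of_swapEmb` : the characteristic-zero norm formula [ES-NORM1]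
(`helper41.EsNorm1Statement M ℓ d`, `helper92.EsNorm1Statement M ℓ d`) from the existence of ONE
"swap" embedding

  `E : F1p M ℓ →+* ℂ((u))` with
  (P1) `E (β₁ f) = f(u^W)`,   (P2) `E (α₁ h) = ((δ_d)⁻¹ h)(u^{W ℓ})`

(analytically `E F = expansion of F ∘ G`, `G = (a b; M ℓ) ∈ Γ₀(M)`, `a ℓ - b M = 1`, in
`u = exp(2πiτ/W)`, `W = M ℓ`).  No analysis in this file:

* `E (F1p) ⊆ ρ (F1p)`, `ρ = (f ↦ f(u^W))`, because `F1p = α₁ F1 · β₁ F1`; hence the swap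
  `w = ρ⁻¹ ∘ E : F1p →+* F1p`, `w ∘ β₁ = α₁`, and `[F1p : β₁ F1] ≤ [F1p : α₁ F1] = ℓ + 1`;
* the family `Option (Fin ℓ) → (F1p →+* ℂ((u)))`: `none = E(u^ℓ)`, `some k = (f ↦ f(ξ^k u^W))`,
  is injective and restricts to `f ↦ f(u^{W ℓ})` on `β₁ F1`; hence `[F1p : β₁ F1] = ℓ + 1` and
  the norm is the product over the family.
-/

set_option autoImplicit false
set_option linter.unusedSectionVars false
set_option linter.unusedVariables false
set_option linter.style.longLine false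
set_option linter.style.haveILetI false

noncomputable section

open HahnSeries IntermediateField AlgebraicCurve ModularCurve Module
open Fermat.Agent.S24 (FN JdF Jd rotL xJ iotaC)
open Fermat.Agent.S24.helper17 (toC toC_injective toC_coeff)
open Fermat.Agent.T4.helper32
open Fermat.Agent.P2.helper93 (twistL toC_twistL rotL_qExpand prod_pow_primitiveRoot
  norm_eq_prod_of_embeddings)

namespace Fermat.Agent.T4.helper21

/-! ## Generic: the number of embeddings is at most the degree -/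

theorem card_le_finrank_of_embeddings {F E Ω : Type*} [Field F] [Field E] [Field Ω]
    [Algebra F E] [FiniteDimensional F E] [Algebra.IsSeparable F E] (σ : F →+* Ω) {ι : Type*}
    [Fintype ι] (τ : ι → (E →+* Ω)) (hτ : Function.Injective τ)
    (hcomp : ∀ i, (τ i).comp (algebraMap F E) = σ) :
    Fintype.card ι ≤ finrank F E := by
  classical
  let Ωb := AlgebraicClosure Ω
  let _ : Algebra F Ωb := ((algebraMap Ω Ωb).comp σ).toAlgebra
  have halg : ∀ a : F, algebraMap F Ωb a = algebraMap Ω Ωb (σ a) := fun a => rfl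
  let τ' : ι → (E →ₐ[F] Ωb) := fun i =>
    { (algebraMap Ω Ωb).comp (τ i) with
      commutes' := fun a => by
        show algebraMap Ω Ωb (τ i (algebraMap F E a)) = algebraMap F Ωb a
        rw [halg, ← hcomp i]
        rfl }
  have hτ'app : ∀ i y, τ' i y = algebraMap Ω Ωb (τ i y) := fun i y => rfl
  have hinj : Function.Injective τ' := by
    intro i j hij
    apply hτ
    ext y
    have := congrArg (fun f : E →ₐ[F] Ωb => f y) hij
    simp only [hτ'app] at this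
    exact (algebraMap Ω Ωb).injective this
  rw [← AlgHom.card F E Ωb]
  exact Fintype.card_le_of_injective τ' hinj

/-- a ring homomorphism between fields whose values lie in the range of an injective one factors
through it -/
theorem exists_factor_of_range {A B Ω : Type*} [Field A] [Field B] [Field Ω]
    (E : A →+* Ω) (ρ : B →+* Ω) (h : ∀ x, E x ∈ ρ.fieldRange) :
    ∃ w : A →+* B, ∀ x, ρ (w x) = E x :=
  ⟨(ρ.rangeRestrictFieldEquiv.symm : ρ.fieldRange →+* B).comp (E.codRestrict ρ.fieldRange h),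
    fun x => ρ.rangeRestrictFieldEquiv_apply_symm_apply _⟩

/-! ## The swap embedding -/

section Swap

variable (M ℓ : ℕ) [NeZero M] [NeZero ℓ]

/-- **[ES-NORM1-EMB]** (the analytic front of [ES-NORM1]) the swap embedding: a field embedding
`E : F1p M ℓ →+* ℂ((u))` with `E (β₁ f) = f(u^W)` and `E (α₁ h) = ((δ_d)⁻¹ h)(u^{W ℓ})`. -/
def SwapEmb1Statement (d : (ZMod M)ˣ) : Prop :=
  ∃ (W : ℕ) (_ : NeZero W) (E : F1p M ℓ →+* LaurentSeries ℂ),
    (∀ f : F1 M, E (beta1 Kbar M ℓ f) = qExpand ℂ W (toC (f : LaurentSeries Kbar))) ∧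
    (∀ h : F1 M, E (alpha1 Kbar M ℓ h) =
      qExpand ℂ (W * ℓ) (toC (((diamondAut M d).symm h : F1 M) : LaurentSeries Kbar)))

/-- the formal embedding `F ↦ F(u^W)` of the level field -/
def rhoP (W : ℕ) [NeZero W] : F1p M ℓ →+* LaurentSeries ℂ :=
  (qExpand ℂ W).comp (toC.comp (algebraMap (F1p M ℓ) (LaurentSeries Kbar)))

theorem rhoP_apply (W : ℕ) [NeZero W] (x : F1p M ℓ) :
    rhoP M ℓ W x = qExpand ℂ W (toC (x : LaurentSeries Kbar)) := rfl

theorem toC_qExpand (n : ℕ) [NeZero n] (x : LaurentSeries Kbar) :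
    toC (qExpand Kbar n x) = qExpand ℂ n (toC x) :=
  coeffMap_qExpand _ n x

theorem rhoP_alpha1 (W : ℕ) [NeZero W] (f : F1 M) :
    rhoP M ℓ W (alpha1 Kbar M ℓ f) = qExpand ℂ W (toC (f : LaurentSeries Kbar)) := by
  rw [rhoP_apply, coe_alpha1]

theorem rhoP_beta1 (W : ℕ) [NeZero W] (f : F1 M) :
    rhoP M ℓ W (beta1 Kbar M ℓ f) = qExpand ℂ (W * ℓ) (toC (f : LaurentSeries Kbar)) := by
  rw [rhoP_apply, coe_beta1, toC_qExpand, qExpand_qExpand]

/-- `j(q^d)`, `d ∣ M`, as an element of `F1 M` -/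
def jdEl (d : ℕ) [NeZero d] (hd : d ∣ M) : F1 M :=
  ⟨((JdF M d hd : FN M) : LaurentSeries Kbar), FF_le_F1 M (JdF M d hd).2⟩

/-- every generator of the level field is in `α₁ F1 ∪ β₁ F1` (`ℓ` prime) -/
theorem gen1p_mem (hℓ : ℓ.Prime)
    (i : (M * ℓ).divisors ⊕ ({a : ZMod M // a ≠ 0} ⊕ {a : ZMod M // a ≠ 0})) :
    (∃ f : F1 M, helper11.gen1p M ℓ i = alpha1 Kbar M ℓ f) ∨
      ∃ f : F1 M, helper11.gen1p M ℓ i = beta1 Kbar M ℓ f := by
  rcases i with d | a | a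
  · obtain ⟨d, hd⟩ := d
    have hdvd : d ∣ M * ℓ := Nat.dvd_of_mem_divisors hd
    have hd0 : d ≠ 0 := (Nat.pos_of_mem_divisors hd).ne'
    haveI : NeZero d := ⟨hd0⟩
    by_cases hℓd : ℓ ∣ d
    · right
      obtain ⟨e, rfl⟩ := hℓd
      have he0 : e ≠ 0 := fun h => hd0 (by rw [h, mul_zero])
      haveI : NeZero e := ⟨he0⟩
      have heM : e ∣ M := by
        have h2 : ℓ * e ∣ ℓ * M := by rwa [mul_comm M ℓ] at hdvd
        exact Nat.dvd_of_mul_dvd_mul_left hℓ.pos h2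
      refine ⟨jdEl M e heM, Subtype.ext ?_⟩
      show coeffEmb Kbar (qExpand ℚ (ℓ * e) jq) = qExpand Kbar ℓ (coeffEmb Kbar (qExpand ℚ e jq))
      rw [← coeffEmb_qExpand, qExpand_qExpand]
    · left
      have hdM : d ∣ M := (Nat.Coprime.dvd_mul_right
        ((Nat.Prime.coprime_iff_not_dvd hℓ).2 hℓd).symm).1 hdvd
      exact ⟨jdEl M d hdM, Subtype.ext rfl⟩
  · exact Or.inl ⟨sEl M a.1 a.2, rfl⟩
  · exact Or.inr ⟨sEl M a.1 a.2, rfl⟩

end Swap

/-! ## The swap and the degree along `β₁` -/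

section Main

variable (M ℓ : ℕ) [NeZero M] [NeZero ℓ]
variable {W : ℕ} [NeZero W] (E : F1p M ℓ →+* LaurentSeries ℂ) (d : (ZMod M)ˣ)

/-- the values of the swap embedding lie in the image of the formal embedding -/
theorem swap_mem_range (hℓ : ℓ.Prime)
    (hP1 : ∀ f : F1 M, E (beta1 Kbar M ℓ f) = qExpand ℂ W (toC (f : LaurentSeries Kbar)))
    (hP2 : ∀ h : F1 M, E (alpha1 Kbar M ℓ h) =
      qExpand ℂ (W * ℓ) (toC (((diamondAut M d).symm h : F1 M) : LaurentSeries Kbar)))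
    (x : F1p M ℓ) : E x ∈ (rhoP M ℓ W).fieldRange := by
  have hα : ∀ h : F1 M, E (alpha1 Kbar M ℓ h) ∈ (rhoP M ℓ W).fieldRange := fun h =>
    RingHom.mem_fieldRange.2 ⟨beta1 Kbar M ℓ ((diamondAut M d).symm h), by
      rw [rhoP_beta1, hP2]⟩
  have hβ : ∀ f : F1 M, E (beta1 Kbar M ℓ f) ∈ (rhoP M ℓ W).fieldRange := fun f =>
    RingHom.mem_fieldRange.2 ⟨alpha1 Kbar M ℓ f, by rw [rhoP_alpha1, hP1]⟩
  let T : IntermediateField Kbar (F1p M ℓ) :=
    Subfield.toIntermediateField ((rhoP M ℓ W).fieldRange.comap E) (fun c => by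
      show E (algebraMap Kbar (F1p M ℓ) c) ∈ (rhoP M ℓ W).fieldRange
      rw [← (alpha1 Kbar M ℓ).commutes c]
      exact hα _)
  have hT : (⊤ : IntermediateField Kbar (F1p M ℓ)) ≤ T := by
    rw [← helper11.adjoin_gen1p_eq_top M ℓ, IntermediateField.adjoin_le_iff]
    rintro _ ⟨i, rfl⟩
    rcases gen1p_mem M ℓ hℓ i with ⟨f, hf⟩ | ⟨f, hf⟩
    · show E (helper11.gen1p M ℓ i) ∈ (rhoP M ℓ W).fieldRange
      rw [hf]
      exact hα f
    · show E (helper11.gen1p M ℓ i) ∈ (rhoP M ℓ W).fieldRange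
      rw [hf]
      exact hβ f
  exact hT (IntermediateField.mem_top (x := x))

/-- **the degree along `β₁` is at most `ℓ + 1`** (swap). -/
theorem finrank_beta1_le (hM : 7 ≤ M) (hℓ : ℓ.Prime) (hℓM : ¬ ℓ ∣ M)
    (hP1 : ∀ f : F1 M, E (beta1 Kbar M ℓ f) = qExpand ℂ W (toC (f : LaurentSeries Kbar)))
    (hP2 : ∀ h : F1 M, E (alpha1 Kbar M ℓ h) =
      qExpand ℂ (W * ℓ) (toC (((diamondAut M d).symm h : F1 M) : LaurentSeries Kbar))) :
    (letI := algebraAlong (beta1 Kbar M ℓ); Module.finrank (F1 M) (F1p M ℓ)) ≤ ℓ + 1 := by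
  obtain ⟨w, hw⟩ := exists_factor_of_range E (rhoP M ℓ W)
    (swap_mem_range M ℓ E d hℓ hP1 hP2)
  have hinj : Function.Injective (rhoP M ℓ W) := (rhoP M ℓ W).injective
  have hswap : ∀ f, w (beta1 Kbar M ℓ f) = alpha1 Kbar M ℓ f := fun f =>
    hinj (by rw [hw, hP1, rhoP_alpha1])
  have key := helper83.finrank_algebraAlong_le_of_swap (alpha1 Kbar M ℓ) (beta1 Kbar M ℓ) w
    hswap (helper10.finiteDimensional_alpha1 M ℓ hM hℓ hℓM)
  rw [helper10.finrank_alpha1_uncond M ℓ hM hℓ hℓM] at key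
  exact key

/-! ## The family of embeddings over `β₁ F1` -/

/-- the family of the `ℓ + 1` embeddings of the level field over `β₁ F1` -/
def esFam (ξ : ℂ) (hξ : ξ ≠ 0) : Option (Fin ℓ) → (F1p M ℓ →+* LaurentSeries ℂ)
  | none => (qExpand ℂ ℓ).comp E
  | some k => (qExpand ℂ W).comp
      ((Fermat.Agent.S24.helper37.rotLHom (ξ ^ (k : ℕ)) (pow_ne_zero _ hξ)).comp
        (toC.comp (algebraMap (F1p M ℓ) (LaurentSeries Kbar))))

theorem esFam_none (ξ : ℂ) (hξ : ξ ≠ 0) (x : F1p M ℓ) :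
    esFam M ℓ (W := W) E ξ hξ none x = qExpand ℂ ℓ (E x) := rfl

theorem esFam_some (ξ : ℂ) (hξ : ξ ≠ 0) (k : Fin ℓ) (x : F1p M ℓ) :
    esFam M ℓ (W := W) E ξ hξ (some k) x =
      qExpand ℂ W (rotL (ξ ^ (k : ℕ)) (toC (x : LaurentSeries Kbar))) := rfl

theorem esFam_beta {ξ : ℂ} (hξ : IsPrimitiveRoot ξ ℓ)
    (hP1 : ∀ f : F1 M, E (beta1 Kbar M ℓ f) = qExpand ℂ W (toC (f : LaurentSeries Kbar)))
    (i : Option (Fin ℓ)) (f : F1 M) :
    esFam M ℓ (W := W) E ξ (hξ.ne_zero (NeZero.ne ℓ)) i (beta1 Kbar M ℓ f) =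
      qExpand ℂ (W * ℓ) (toC (f : LaurentSeries Kbar)) := by
  rcases i with _ | k
  · rw [esFam_none, hP1, qExpand_qExpand]
    exact qExpand_congr (mul_comm _ _) _
  · rw [esFam_some, coe_beta1, toC_qExpand, rotL_qExpand, ← pow_mul, mul_comm (k : ℕ) ℓ,
      pow_mul, hξ.pow_eq_one, one_pow, Fermat.Agent.S24.helper80.rotL_one, qExpand_qExpand]

theorem esFam_alpha_none (ξ : ℂ) (hξ : ξ ≠ 0)
    (hP2 : ∀ h : F1 M, E (alpha1 Kbar M ℓ h) =
      qExpand ℂ (W * ℓ) (toC (((diamondAut M d).symm h : F1 M) : LaurentSeries Kbar)))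
    (h : F1 M) :
    esFam M ℓ (W := W) E ξ hξ none (alpha1 Kbar M ℓ h) =
      qExpand ℂ W (qExpand ℂ (ℓ * ℓ)
        (toC (((diamondAut M d).symm h : F1 M) : LaurentSeries Kbar))) := by
  rw [esFam_none, hP2, qExpand_qExpand, qExpand_qExpand]
  exact qExpand_congr (by ring) _

theorem esFam_alpha_some (ξ : ℂ) (hξ : ξ ≠ 0) (k : Fin ℓ) (h : F1 M) :
    esFam M ℓ (W := W) E ξ hξ (some k) (alpha1 Kbar M ℓ h) =
      qExpand ℂ W (rotL (ξ ^ (k : ℕ)) (toC (h : LaurentSeries Kbar))) := by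
  rw [esFam_some, coe_alpha1]

theorem coeff_toC_jF1 : (toC ((helper1.jF1 M : F1 M) : LaurentSeries Kbar)).coeff (-1) = 1 := by
  show (toC (coeffEmb Kbar (qExpand ℚ 1 jq))).coeff (-1) = 1
  rw [qExpand_one_apply, toC_coeff, coeffEmb_coeff, coeff_jq_neg_one, map_one, map_one]

theorem coeff_esFam_none (hℓ : 2 ≤ ℓ) (ξ : ℂ) (hξ : ξ ≠ 0)
    (hP2 : ∀ h : F1 M, E (alpha1 Kbar M ℓ h) =
      qExpand ℂ (W * ℓ) (toC (((diamondAut M d).symm h : F1 M) : LaurentSeries Kbar))) :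
    (esFam M ℓ (W := W) E ξ hξ none (alpha1 Kbar M ℓ (helper1.jF1 M))).coeff (-(W : ℤ)) = 0 := by
  rw [esFam_alpha_none M ℓ E d ξ hξ hP2]
  have h : (-(W : ℤ)) = (W : ℤ) * (-1) := by ring
  rw [h, qExpand_coeff_mul]
  apply qExpand_coeff_of_not_dvd
  rintro ⟨c, hc⟩
  have h1 : ((ℓ * ℓ : ℕ) : ℤ) ∣ 1 := ⟨-c, by rw [mul_neg, ← hc]; ring⟩
  have h2 := Int.natCast_dvd_natCast.mp (by simpa using h1 : ((ℓ * ℓ : ℕ) : ℤ) ∣ ((1 : ℕ) : ℤ))
  have h3 := Nat.le_of_dvd one_pos h2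
  nlinarith

theorem coeff_esFam_some (ξ : ℂ) (hξ : ξ ≠ 0) (k : Fin ℓ) :
    (esFam M ℓ (W := W) E ξ hξ (some k) (alpha1 Kbar M ℓ (helper1.jF1 M))).coeff (-(W : ℤ))
      = (ξ ^ (k : ℕ))⁻¹ := by
  rw [esFam_alpha_some]
  have h : (-(W : ℤ)) = (W : ℤ) * (-1) := by ring
  rw [h, qExpand_coeff_mul, Fermat.Agent.S24.rotL_coeff, coeff_toC_jF1, mul_one, zpow_neg_one]

theorem esFam_injective (hℓ : 2 ≤ ℓ) {ξ : ℂ} (hξ : IsPrimitiveRoot ξ ℓ)
    (hP2 : ∀ h : F1 M, E (alpha1 Kbar M ℓ h) =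
      qExpand ℂ (W * ℓ) (toC (((diamondAut M d).symm h : F1 M) : LaurentSeries Kbar))) :
    Function.Injective (esFam M ℓ (W := W) E ξ (hξ.ne_zero (NeZero.ne ℓ))) := by
  have hξ0 : ξ ≠ 0 := hξ.ne_zero (NeZero.ne ℓ)
  intro i j hij
  have key := congrArg (fun σ : F1p M ℓ →+* LaurentSeries ℂ =>
    (σ (alpha1 Kbar M ℓ (helper1.jF1 M))).coeff (-(W : ℤ))) hij
  rcases i with _ | i <;> rcases j with _ | j
  · rfl
  · rw [coeff_esFam_none M ℓ E d hℓ ξ hξ0 hP2, coeff_esFam_some] at key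
    exact absurd key.symm (inv_ne_zero (pow_ne_zero _ hξ0))
  · rw [coeff_esFam_none M ℓ E d hℓ ξ hξ0 hP2, coeff_esFam_some] at key
    exact absurd key (inv_ne_zero (pow_ne_zero _ hξ0))
  · rw [coeff_esFam_some, coeff_esFam_some] at key
    have h1 := hξ.pow_inj i.2 j.2 (inv_injective key)
    exact congrArg some (Fin.ext h1)

/-- **[ES-NORM1] over `ℂ`** from the swap embedding. -/
theorem esNormC_of_swap (hM : 7 ≤ M) (hℓ : ℓ.Prime) (hℓM : ¬ ℓ ∣ M)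
    (hP1 : ∀ f : F1 M, E (beta1 Kbar M ℓ f) = qExpand ℂ W (toC (f : LaurentSeries Kbar)))
    (hP2 : ∀ h : F1 M, E (alpha1 Kbar M ℓ h) =
      qExpand ℂ (W * ℓ) (toC (((diamondAut M d).symm h : F1 M) : LaurentSeries Kbar)))
    {ξ : ℂ} (hξ : IsPrimitiveRoot ξ ℓ) (h : F1 M) :
    qExpand ℂ ℓ (toC ((helper92.heckeNorm1 M ℓ h : F1 M) : LaurentSeries Kbar)) =
      qExpand ℂ (ℓ * ℓ) (toC (((diamondAut M d).symm h : F1 M) : LaurentSeries Kbar)) *
        ∏ k ∈ Finset.range ℓ, rotL (ξ ^ k) (toC (h : LaurentSeries Kbar)) := by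
  letI := algebraAlong (beta1 Kbar M ℓ)
  haveI hfd0 : FiniteDimensional Kbar⟮helper1.jF1 M⟯ (F1 M) := helper11.finiteDimensional_F1 M hM
  haveI fd : FiniteDimensional (F1 M) (F1p M ℓ) := helper11.finiteAlong_beta1 M ℓ
  haveI : Algebra.IsSeparable (F1 M) (F1p M ℓ) := inferInstance
  have hξ0 : ξ ≠ 0 := hξ.ne_zero (NeZero.ne ℓ)
  let σ : F1 M →+* LaurentSeries ℂ :=
    (qExpand ℂ (W * ℓ)).comp (toC.comp (algebraMap (F1 M) (LaurentSeries Kbar)))
  have hcomp : ∀ i, (esFam M ℓ (W := W) E ξ hξ0 i).comp (algebraMap (F1 M) (F1p M ℓ)) = σ :=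
    fun i => RingHom.ext fun f => esFam_beta M ℓ E hξ hP1 i f
  have hinj := esFam_injective M ℓ E d hℓ.two_le hξ hP2
  have hle := finrank_beta1_le M ℓ E d hM hℓ hℓM hP1 hP2
  have hge := card_le_finrank_of_embeddings σ (esFam M ℓ (W := W) E ξ hξ0) hinj hcomp
  rw [Fintype.card_option, Fintype.card_fin] at hge
  have hfr : Module.finrank (F1 M) (F1p M ℓ) = ℓ + 1 := le_antisymm hle hge
  have key := norm_eq_prod_of_embeddings (F := F1 M) (E := F1p M ℓ) σ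
    (esFam M ℓ (W := W) E ξ hξ0) hinj hcomp
    (by rw [Fintype.card_option, Fintype.card_fin, hfr]) (alpha1 Kbar M ℓ h)
  rw [Fintype.prod_option, esFam_alpha_none M ℓ E d ξ hξ0 hP2] at key
  simp_rw [esFam_alpha_some] at key
  rw [Fin.prod_univ_eq_prod_range
    (fun k => qExpand ℂ W (rotL (ξ ^ k) (toC (h : LaurentSeries Kbar)))) ℓ,
    ← map_prod, ← map_mul] at key
  apply qExpand_injective W
  rw [← key, qExpand_qExpand]
  rfl


/-- **[ES-NORM1] over `ℚ̄`** from the swap embedding, for every primitive root. -/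
theorem esNorm1_of_swap (hM : 7 ≤ M) (hℓ : ℓ.Prime) (hℓM : ¬ ℓ ∣ M)
    (hP1 : ∀ f : F1 M, E (beta1 Kbar M ℓ f) = qExpand ℂ W (toC (f : LaurentSeries Kbar)))
    (hP2 : ∀ h : F1 M, E (alpha1 Kbar M ℓ h) =
      qExpand ℂ (W * ℓ) (toC (((diamondAut M d).symm h : F1 M) : LaurentSeries Kbar)))
    (ζ : Kbar) (hζ : IsPrimitiveRoot ζ ℓ) (h : F1 M) :
    qExpand Kbar ℓ ((helper92.heckeNorm1 M ℓ h : F1 M) : LaurentSeries Kbar) =
      qExpand Kbar (ℓ * ℓ) (((diamondAut M d).symm h : F1 M) : LaurentSeries Kbar) *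
        ∏ k ∈ Finset.range ℓ, twistL (ζ ^ k) (h : LaurentSeries Kbar) := by
  apply toC_injective
  rw [map_mul, map_prod, toC_qExpand, toC_qExpand]
  simp_rw [toC_twistL, map_pow]
  exact esNormC_of_swap M ℓ E d hM hℓ hℓM hP1 hP2
    (hζ.map_of_injective (iotaC : Kbar →+* ℂ).injective) h

end Main

/-! ## The final statements -/

section Final

variable (M ℓ : ℕ) [NeZero M] [NeZero ℓ]

/-- **[ES-NORM1]** (`helper92` form, every primitive root) from the swap embedding. -/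
theorem esNorm1_of_swapEmb (hM : 7 ≤ M) (hℓ : ℓ.Prime) (hℓM : ¬ ℓ ∣ M) (d : (ZMod M)ˣ)
    (hE : SwapEmb1Statement M ℓ d) : helper92.EsNorm1Statement M ℓ d := by
  obtain ⟨W, hW, E, hP1, hP2⟩ := hE
  intro ζ hζ h
  exact esNorm1_of_swap M ℓ E d hM hℓ hℓM hP1 hP2 ζ hζ h

/-- **[ES-NORM1]** (`helper41` form, some primitive root) from the swap embedding. -/
theorem esNorm1_of_swapEmb' (hM : 7 ≤ M) (hℓ : ℓ.Prime) (hℓM : ¬ ℓ ∣ M) (d : (ZMod M)ˣ)
    (hE : SwapEmb1Statement M ℓ d) : helper41.EsNorm1Statement M ℓ d := by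
  haveI : NeZero ((ℓ : ℕ) : Kbar) := ⟨Nat.cast_ne_zero.mpr hℓ.ne_zero⟩
  obtain ⟨ζ, hζ⟩ := HasEnoughRootsOfUnity.exists_primitiveRoot Kbar ℓ
  exact ⟨ζ, hζ, fun h => esNorm1_of_swapEmb M ℓ hM hℓ hℓM d hE ζ hζ h⟩

/-- **the degree of the level field along `β₁`** is `ℓ + 1`, from the swap embedding. -/
theorem finrank_beta1_of_swapEmb (hM : 7 ≤ M) (hℓ : ℓ.Prime) (hℓM : ¬ ℓ ∣ M) (d : (ZMod M)ˣ)
    (hE : SwapEmb1Statement M ℓ d) :
    (letI := algebraAlong (beta1 Kbar M ℓ); Module.finrank (F1 M) (F1p M ℓ)) = ℓ + 1 := by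
  obtain ⟨W, hW, E, hP1, hP2⟩ := hE
  letI := algebraAlong (beta1 Kbar M ℓ)
  haveI hfd0 : FiniteDimensional Kbar⟮helper1.jF1 M⟯ (F1 M) := helper11.finiteDimensional_F1 M hM
  haveI fd : FiniteDimensional (F1 M) (F1p M ℓ) := helper11.finiteAlong_beta1 M ℓ
  haveI : Algebra.IsSeparable (F1 M) (F1p M ℓ) := inferInstance
  haveI : NeZero ((ℓ : ℕ) : ℂ) := ⟨Nat.cast_ne_zero.mpr hℓ.ne_zero⟩
  obtain ⟨ξ, hξ⟩ := HasEnoughRootsOfUnity.exists_primitiveRoot ℂ ℓ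
  have hξ0 : ξ ≠ 0 := hξ.ne_zero (NeZero.ne ℓ)
  let σ : F1 M →+* LaurentSeries ℂ :=
    (qExpand ℂ (W * ℓ)).comp (toC.comp (algebraMap (F1 M) (LaurentSeries Kbar)))
  have hcomp : ∀ i, (esFam M ℓ (W := W) E ξ hξ0 i).comp (algebraMap (F1 M) (F1p M ℓ)) = σ :=
    fun i => RingHom.ext fun f => esFam_beta M ℓ E hξ hP1 i f
  have hinj := esFam_injective M ℓ E d hℓ.two_le hξ hP2
  have hle := finrank_beta1_le M ℓ E d hM hℓ hℓM hP1 hP2
  have hge := card_le_finrank_of_embeddings σ (esFam M ℓ (W := W) E ξ hξ0) hinj hcomp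
  rw [Fintype.card_option, Fintype.card_fin] at hge
  exact le_antisymm hle hge

end Final

end Fermat.Agent.T4.helper21

end
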