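/-
T4 block (I), [ES-NORM1] (helper76): the last wiring step of the norm formula.

`helper93.embInf` (the exotic embedding of the level field `F1p M p`, with `embInf_beta`,
`embInf_alpha`) IS the swap embedding `helper21.SwapEmb1Statement M p (unitOfPrime M p ..)`
(with `W = M`), hence [ES-NORM1] in both shapes (`helper92.EsNorm1Statement`,
`helper41.EsNorm1Statement`) holds unconditionally for `7 ≤ M`, `p` prime, `p ∤ M`.
-/
import Mathlib
import Fermat.Agent.T4.helper21_EsNormAbs
import Fermat.Agent.T4.helper93_ESNorm1b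

set_option autoImplicit false
set_option linter.style.haveILetI false
set_option linter.unusedSectionVars false

noncomputable section

namespace Fermat.Agent.T4.helper76

open Fermat.Agent.T4.helper4 (unitOfPrime)

/-- Bezout for a prime not dividing the level -/
theorem exists_bezout_prime (M p : ℕ) (hp : p.Prime) (hpM : ¬ p ∣ M) :
    ∃ a b : ℤ, a * p - b * M = 1 := by
  have hcop : Nat.Coprime p M := (Nat.Prime.coprime_iff_not_dvd hp).mpr hpM
  have h := Nat.gcd_eq_gcd_ab p M
  rw [hcop.gcd_eq_one] at h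
  refine ⟨Nat.gcdA p M, -Nat.gcdB p M, ?_⟩
  push_cast at h
  linarith

/-- **[ES-NORM1-EMB]** the swap embedding exists. -/
theorem swapEmb1 (M p : ℕ) [NeZero M] [NeZero p] (h7 : 7 ≤ M) (hp : p.Prime) (hpM : ¬ p ∣ M) :
    Fermat.Agent.T4.helper21.SwapEmb1Statement M p (unitOfPrime M p hp hpM) := by
  obtain ⟨a, b, hab⟩ := exists_bezout_prime M p hp hpM
  refine ⟨M, inferInstance, Fermat.Agent.T4.helper93.embInf M p h7 hp hpM a b hab, ?_, ?_⟩
  · intro f
    exact Fermat.Agent.T4.helper93.embInf_beta M p h7 hp hpM a b hab f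
  · intro h
    exact Fermat.Agent.T4.helper93.embInf_alpha M p h7 hp hpM a b hab
      (unitOfPrime M p hp hpM) (ZMod.coe_unitOfCoprime p _) h

/-- **[ES-NORM1]** (`helper92` form, every primitive root), unconditional. -/
theorem esNorm1 (M p : ℕ) [NeZero M] [NeZero p] (h7 : 7 ≤ M) (hp : p.Prime) (hpM : ¬ p ∣ M) :
    Fermat.Agent.T4.helper92.EsNorm1Statement M p (unitOfPrime M p hp hpM) :=
  Fermat.Agent.T4.helper21.esNorm1_of_swapEmb M p h7 hp hpM _ (swapEmb1 M p h7 hp hpM)

/-- **[ES-NORM1]** (`helper41` form, some primitive root), unconditional. -/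
theorem esNorm1' (M p : ℕ) [NeZero M] [NeZero p] (h7 : 7 ≤ M) (hp : p.Prime) (hpM : ¬ p ∣ M) :
    Fermat.Agent.T4.helper41.EsNorm1Statement M p (unitOfPrime M p hp hpM) :=
  Fermat.Agent.T4.helper21.esNorm1_of_swapEmb' M p h7 hp hpM _ (swapEmb1 M p h7 hp hpM)

end Fermat.Agent.T4.helper76

end
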