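/-!
# T4 = S48 (Deligne-Serre): an endgame that needs only FROBENIUS DIVISION density (helper2)

Comment-only notes (no declarations).  Audience: helper99 / helper80 / helper77 (block IV),
helper62 / helper31 (block II), helper32 (architect), lead.

## 0. Summary

The classical endgame uses the Chebotarev DENSITY theorem for conjugacy classes.  helper29
(#1953 (II)) observed correctly that the naive replacement by the Frobenius ("division") density
theorem fails if one counts in a single `G_l`.  The route below repairs this: it uses

* (RANK)  Rankin's bound for `f` and for all its conjugates,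
* (RES)   the residual representations for ALL residue maps `pi : Zbar -> k` (char k = l >= l0),
* (DIV)   the division density theorem (two-sided),
* (CHEBW) the weak Chebotarev theorem that is already on main (Cheb/helper40_ChebFinal),

and NOTHING else from analytic number theory: no ideal counting with error terms, no
L-functions over number fields, no Kronecker-Weber, no Dirichlet L-functions.  On the algebra
side it needs no Dickson, no Jordan / classification of finite subgroups of PGL2.

Notation: for a prime `p` not dividing `N`, `poly_p = X^2 - a_p X + e_p`, `e_p = eps(p)`.
`Zbar = integralClosure Z C`.  "density" = upper Dirichlet density with respect to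
`log(1/(s-1))`, always in the finite-sum form
`forall s in (1,2], forall finite F inside the set, sum_{p in F} p^-s <= d * log(1/(s-1)) + C`.

## 1. The three inputs, as Props

(RANK)  There is a finite-dimensional `K = Q(a_p, e_p)` inside `C`, all `a_p` are integral, and for
every ring hom `sigma : Zbar -> C` there is `C_sigma` with
`sum_{p in F} |sigma a_p|^2 p^-s <= log(1/(s-1)) + C_sigma` for `s in (1,2]`, `F` finite set of
primes not dividing `N`.   (helper39's DS-RANKIN applied to the conjugate form; block V gives the
conjugate forms.)

(RES)   exists l0, for every prime l >= l0, every field k of characteristic l and every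
`pi : Zbar ->+* k` there is `rhobar : GQ ->* GL (Fin 2) k` with `GaloisFactorsThroughFiniteLevel`,
and for `p` prime, `p` not dividing `N l`, every `A` over `p`: trivial on the inertia group of `A`,
and every Frobenius element at `A` has trace `pi a_p` and determinant `pi e_p`.
(NOT assumed semisimple; the endgame semisimplifies itself, see 4.1.)

(DIV)   For every finite group `G`, every `r : GQ ->* G` with `GaloisFactorsThroughFiniteLevel r`
and SURJECTIVE, and every `S : Set G` with
  (conj)  `g in S -> x * g * x^-1 in S`,
  (pow)   `g in S -> Nat.Coprime j (Nat.card G) -> g ^ j in S`,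
there are a finite set `Bad` of primes and `C : Real` such that for all `s in (1,2]`:
  (upper) for every finite set `F` of primes outside `Bad` such that every `p in F` has a place
          `A` over `p` and a Frobenius `phi` at `A` with `r phi in S`:
          `sum_{p in F} p^-s <= (card S / card G) * log(1/(s-1)) + C`;
  (lower) there is such a finite set `F` with
          `sum_{p in F} p^-s >= (card S / card G) * log(1/(s-1)) - C`.
A weighted form (division-invariant `w : G -> Real`, `w >= 0`) follows by linearity and is what
(C) uses:  `sum_{p in F} w(r Frob_p) p^-s` versus `(mean of w) * log(1/(s-1))`.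

Proof of (DIV) from what is on main: for a cyclic subgroup `C = <g>` of order `n` and
`E = L^C`, helper40_ChebCyclic already contains
`exists_bound_good_split` (two-sided!) and the inclusion-exclusion identity `htsum`; keeping the
upper bound as well gives
  `sum over good degree-one primes P of E whose Frobenius generates C of N(P)^-s
       = (phi(n)/n) * log(1/(s-1)) + O(1)`.
A rational prime `p` (unramified in `L`) with `Frob_p` in the division of `g` has exactly
`|N_G(C)| / n` such primes `P` above it, every other `p` has none, and
`|Div g| = phi(n) |G| / |N_G(C)|`.  Hence the density of `{p : Frob_p in Div g}` is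
`|Div g| / |G|`.  A division-stable `S` is a disjoint union of divisions.

## 2. Step (A): classes with a non-torsion eigenvalue have density zero

Let `z = X^2 - a X + e` with `a in Zbar`, `e` a root of unity, roots `alpha, beta` (algebraic
integers, units because `alpha beta = e`), and assume `alpha` is NOT a root of unity (then
neither is `u = alpha/beta = alpha^2/e`).  CLAIM: `P_z = {p : poly_p = z}` has density 0.

(A1) Kummer primes.  For a prime `r` with `zeta_r` not in `Q(alpha)` and `alpha` not an `r`-th
power in `Q(alpha)`, `alpha` is not an `r`-th power in any abelian extension of `Q(alpha)`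
(`X^r - alpha` is irreducible; a root in an abelian extension would give a normal extension of
degree `r` containing `zeta_r`).  `alpha` is an `r`-th power in `Q(alpha)` for finitely many `r`
only (Northcott: the roots would be integers of bounded degree with bounded conjugates, two of
them coincide, so `alpha` would be a root of unity; Mathlib
`NumberField.Embeddings.finite_of_norm_le`).  So there is `r0` such that for every squarefree
`M` all of whose prime factors are `> r0` there is `tau in GQ` fixing `alpha` and `zeta_M` and
moving `alpha^(1/r)` for every prime `r | M`.
(A2) CHEBW for the normal closure of `Q(zeta_M, alpha^(1/M))` and `tau`, outside any finite set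
of primes: a prime `l`, a place `A` over `l`, a Frobenius `phi` at `A` with `<phi> = <tau>` on
that field.  Then `phi` fixes `alpha, zeta_M` and moves every `alpha^(1/r)`, and
`phi x = x^l mod m_A` gives: `M | l - 1`, and `alpha^((l-1)/r) = phi(y)/y` is a nontrivial
`r`-th root of unity mod `m_A` (`y = alpha^(1/r)`), so `r | ord(alpha mod m_A)` for all `r | M`.
(Same pattern as P7 helper20 `not_isSquare_three_of_frobenius`.)
Take `pi : Zbar -> k_A` the residue map of `A`.  So: `M | ord(pi alpha)`.
(A3) The counting lemma (pure group theory, any field `k`, any finite `G <= GL2(k)`).
Let `abar != bbar` in `k^x`, `n = lcm(ord abar, ord bbar)`, `m = ord(abar/bbar) >= 2`,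
`C_d = {g in G : charpoly g = (X - abar^d)(X - bbar^d)}`.  If `abar^d != bbar^d` then
`x -> x^d` is an INJECTION `C_1 -> C_d`: `x` commutes with `y = x^d`, which has two distinct
eigenvalues, so `x` is diagonal in the eigenbasis of `y`, and on the `abar^d`-eigenline of `y`
the eigenvalue of `x` must be `abar` (if it were `bbar` then `bbar^d = abar^d`).
The sets `C_d` for distinct polynomials are disjoint and `d -> {abar^d, bbar^d}` is at most
2-to-1 on `Z/n`.  Hence
   `|G| >= |C_1| * (n - n/m)/2 >= |C_1| * n/4`.
For `j` prime to `|G|` (so prime to `n`, as `n | |G|` when `C_1` is nonempty), `x -> x^j` is a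
bijection `C_1 -> C_j`, so `Div(C_1) = union of the C_j` has at most `phi(n) |C_1|` elements.
So  `|Div C_1| / |G| <= 4 phi(n)/n = 4 prod_{r | n} (1 - 1/r)`.
(A4) Conclusion.  For `p in P_z`, `p` not dividing `N l`: `rhobar_pi(Frob_p) in C_1`.  By (DIV)
upper bound for `S = Div C_1`: density of `P_z <= 4 prod_{r | M} (1 - 1/r)`.  With
`M = prod of the primes in (r0, B]` and `B -> infinity` the product tends to 0 (Mathlib: the sum
of `1/p` over primes diverges).

## 3. Step (B): uniform torsion on a large portion of every G_l

Fix `eta <= 1/48`.  `c := r/eta` (`r = [K:Q]`), `Y(c) = {x in O_K : sum_sigma |sigma x|^2 <= c}`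
finite, `X(c) = {p : a_p not in Y(c)}` has density `<= eta` by (RANK).  `Z(c)` = the finitely
many polynomials `X^2 - a X + e`, `a in Y(c)`, `e in mu_{phi(N)}`; `Z_u` = those with both roots
roots of unity, `A0` = lcm of the orders of these roots; the others have `P_z` of density 0 by
(A).  So `X' = X(c) + union of P_z (z non-torsion)` has density `<= 2 eta`, and for `p` outside
`X'` both roots of `poly_p` lie in `mu_A0`.
For ANY `pi` (char `l >= l0`), `G = im(rhobar_pi)`:  `S = {g in G : both eigenvalues in
mu_A0(kbar)}` is stable under conjugation and under ALL powers.  The primes with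
`Frob_p` outside `S` lie in `X'` (or divide `N l`).  (DIV) lower bound for the complement of `S`
gives `|G - S| <= 2 eta |G|`.

## 4. From (B) to the representation

4.1 (IV-UNIP, helper80's leaf, with M = A0^2).  If `l | |G|` take `u != 1` of order `l`, `L` its
fixed line.  On a coset `g<u>` the trace is `tr g + t * tr(g(u-1))`, injective in `t` unless
`g L = L`.  If `G` does not stabilise `L` then `|S| <= |G|/2 + A0^2 |G|/l`, impossible for
`l > 4 A0^2`.  If `G` stabilises `L`, replace `rhobar` by the diagonal part `chi1 + chi2`
(same characteristic polynomials, same unramifiedness, image of order prime to `l`).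
So for `l > max(l0, 4 A0^2)`: a `rhobar` with `l` not dividing `|G|`.
4.2 (LIFT, helper82's leaf).  Fix FIRST a ring isomorphism `j : C = Cl` where `Cl` is an
algebraic closure of `Frac W(Fl-bar)` (Mathlib: `IsAlgClosed.ringEquivOfCardinalEqOfCharZero`),
a maximal ideal of the integral closure of `W` in `Cl` over `(l)`, and DEFINE
`pi_l := (residue map) o j : Zbar -> Fl-bar`.  Apply (RES) to THIS `pi_l`.  Then the lift
`rho_l : GQ -> GL2(W) -> GL2(C)` (via `j^-1`) has, for every `sigma`, eigenvalues which are roots
of unity `zeta` in `C` with `pi_l(zeta)` = eigenvalues of `rhobar(sigma)`.  No compatibility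
problem, no transitivity of Galois on primes above `l` is needed.
4.3 (bounded exponent in characteristic 0; replaces IV-CLASS / Jordan).
`G <= GL2(C)` finite, `S = {g : g^A0 = 1}`, `|G - S| <= 2 eta |G|`, `eta <= 1/48`.
CLAIM: every `g in G` has order `<= max(8 A0^2, 12 A0)`.
 * `g = a I` scalar: in a coset `x<g>` with `>= (1 - 4 eta) n` elements in `S` two good `t, t'`
   have `a^(t-t') in mu_A0`, so `n <= 2 A0`.
 * `g` with eigenvalues `a != b`, eigenlines `L1, L2`, `n = ord g`, `m = ord(a/b) >= 2`.
   At least half of the cosets `x<g>` have `>= (1 - 4 eta) n` elements in `S` (Markov).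
   If one of them has `x11 x22 != 0` (matrix of `x` in the eigenbasis of `g`):
   `tr(x g^t) = x11 a^t + x22 b^t` lies in the set `T = {zeta + zeta'}` (`<= A0^2` values); a
   value `!= 0` is taken for at most 2 values of `t mod n` (two distinct circles meet in at
   most 2 points), the value 0 for at most `n/m <= n/2` values.  So
   `(1 - 4 eta) n <= 2 A0^2 + n/2`, `n <= 8 A0^2`.
   Otherwise at least half of the elements `x` of `G` satisfy `x L1 = L2` or `x L2 = L1`, so
   one of the two lines has an orbit of at most 4 elements; its stabiliser `G1` (index `<= 4`)
   is reducible, hence diagonalisable (Maschke), hence abelian, `S` meets it in a subgroup of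
   index `< 2`, so `G1` has exponent dividing `A0`, and `g^k in G1` for some `k <= 4`.
4.4 (pigeonhole over `l`, as in Deligne-Serre 8.7).  `Y1` = the finite set of polynomials
`(X - zeta)(X - zeta')`, `zeta, zeta'` roots of unity of order `<= A1 = max(8 A0^2, 12 A0)`.
For every `p` not dividing `N` and every `l > max(l0, 4 A0^2, A1)`, `l != p`:
`pi_l(poly_p) = pi_l(y)` for some `y in Y1`.  A nonzero algebraic integer lies in `ker pi_l`
for finitely many `l` only (its norm is divisible by `l`), `Y1` is finite: `poly_p in Y1`.
Then for ONE large `l = l1` (injectivity of `pi_l1` on differences of elements of `Y1`):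
`charpoly(rho_l1(Frob_p)) = poly_p` for all `p` not dividing `N l1`.
4.5 (the prime `l1`).  Take a second prime `l2`.  `rho_l1` and `rho_l2` have the same
characteristic polynomials on all Frobenius elements at `p` not dividing `N l1 l2`.  CHEBW for
the compositum: every `sigma` generates the same cyclic subgroup as such a Frobenius `phi`,
`sigma = phi^i`; equal characteristic polynomials of `phi` give equal eigenvalues, hence equal
characteristic polynomials of `phi^i`.  So the characters agree on `GQ`, `rho_l1 = rho_l2` up to
conjugation (characteristic 0, finite image), so `rho_l1` is unramified at `l1` and has the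
right characteristic polynomial there.  (DS-CHAR of helper86 is not needed in the density form;
equality of characters EVERYWHERE => isomorphic is what is used.)

## 5. Step (C): irreducibility without Dirichlet characters

If `rho` is reducible it is `chi1 + chi2` (Maschke), `a_p = chi1(Frob_p) + chi2(Frob_p)`, values in
`mu_m`.  For `j in (Z/m)^x` let `sigma_j : Zbar -> C` extend `zeta -> zeta^j` on `Q(mu_m)`
(Mathlib: `IsCyclotomicExtension.autEquivPow`, then `IsAlgClosed.lift`).  Then
`w(g) = sum_j |chi1(g)^j + chi2(g)^j|^2` on `G = im(chi1, chi2)` is division-invariant, and
its mean over `G` is `sum_j (2 + 2 Re <chi1^j, chi2^j>) >= 2 phi(m)` (orthogonality on the abelian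
group `G`).  (DIV), weighted lower bound:  `sum_j sum_p |sigma_j a_p|^2 p^-s >= 2 phi(m)
log(1/(s-1)) - C`, while (RANK) gives `<= phi(m) log(1/(s-1)) + C'`.  Contradiction for `s -> 1`.

## 6. What this changes

* Block (II) = (DIV): about 1k lines on top of Cheb/helper40_ChebCyclic + S14 dictionary.
  The Weber / L-twist route (helper62, helper31, helper91) becomes a SPARE.
* Block (IV): new leaves (A1) Kummer non-power, (A2) Kummer prime via CHEBW, (A3) counting lemma,
  4.3 bounded exponent, 5 irreducibility; IV-CLASS, IV-IRR-AN, DS-CHAR (density form) are not on
  the critical path any more.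
* (RES) must be available for EVERY residue map `pi` of characteristic `l >= l0` (already the
  shape announced by helper32 in #2248).
-/
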