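/-
# T4 block (I), sub-blocks I-RED + I-ES: BLUEPRINT v1 (helper4, sub-coordinator, 03:50Z)

Interface file: `Fermat/Agent/T4/helper4_RedDefs.lean` (ns `Fermat.Agent.T4.helper4`).
Targets: `Unr1Statement M p`, `ES1Statement M p` (= fields `unramified`, `frobenius` of
`helper1.GenTateInput`, convention [A]) for `4 ∣ M ∨ 9 ∣ M`.

## 0. Notation

`F0 = FF M`, `F0b = FFb A M` (P2), `F1 = helper32.F1 M`, `F1b = helper4.F1b A M`,
`G = (ℤ/M)ˣ/±1` (diamonds), `Γ = SL₂(ℤ/M)/±1`, `t = q^(1/M)`, `k = kA A`, `A ∣ ℓ ∤ M`.
All P2 statements for `(F0, F0b)` are THEOREMS on main and may be used as inputs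
(`helper4.scaleStatement_iff` etc. are `Iff.rfl`).

## 1. The chain (same as P2, generic in `(E, Eb)`)

    PRIM/DEG (Igusa) ─► [VAL] RedMem, Scale, Integrality ─┐
    CUSP-REG ─► RegRed ───────────────────────────────────┤
    INF, RIE (RiemannSetting both fibres) ────────────────┼─► GEN-A (g̃ ≤ g) ─┐
    TAME-BASE, CUSP-BAR, TAME-BASE-0 ─► GEN-B (g ≤ g̃) ───────────────────────┼─► GEN ─► SURJ
    SURJ + VAL ─► PIVOT;  VAL + GEN ─► I1;  ROOT-V + ROOT-N ─► ROOT
    ROOT + PIVOT ─► REG;  I1 + REG + Integrality ─► INJ
    INJ ─► K-UNR1 (Unr1), K-ES1 (ES1: Kronecker congruence with the diamond)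

Generic ports (boxes A*): the P2 proof with `FF M ↦ E`, `FFb A M ↦ Eb`; every level-specific
lemma becomes a hypothesis which is a Prop of `helper4_RedDefs` (or a generic structure:
`helper74.RiemannSetting`, `HasPrincipalDivisors`, `IsAlgClosed k`).  The porter fixes the exact
list of hypotheses and REPORTS the final signature in one finding.

## 2. The only deep X1-specific leaf: IGUSA1 (`DegStatement` / `PrimStatement` for `(F1, F1b)`)

Route (no modular units, no Kubert-Lang; uses X0-Igusa from P2/S28 and Mathlib):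

(a) [CONJ1, from I-FLD] a subring `B` of `A((t))`, stable under an action of `SL₂(ℤ/M)` by ring
    automorphisms, with
      * `B ∋ j(t^M)`, fixed by the action; `B^Γ = A[j]`  (invariant elements are polynomials in
        `j` with coefficients in `A`: holomorphic on the upper half plane + integral expansion);
      * `B ∋` the `t`-expansions of the generators `j(q^d)` (`d ∣ M`), `s_a` of `F1`, and of ALL
        their `SL₂(ℤ)`-translates (`℘`-differences at general division points; coefficients in
        `ℤ[ζ_M, 1/M] ⊆ A`);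
      * `T = (1 1; 0 1)` acts by `t ↦ ζ_M t`; the stabiliser of the generators of `F0` (resp.
        `F1`) is the image of `Γ₀(M)` (resp. `± Γ₁(M)`); a matrix of `Γ₀(M)` acts on the
        `s_a` by the diamond formula.
(b) [DED] `𝔮 := B ∩ 𝔪_A((t))` (kernel of the coefficientwise reduction).  Mathlib
    `Ideal.Quotient.stabilizerHom_surjective`: `D := Stab(𝔮) → Aut(Frac(B/𝔮) / k(j̃))` is onto.
(c) [X0-TRANS] the reductions of the conjugates of `θ = j(q^M)` are pairwise distinct and are the
    roots of `Φ̄_M`, irreducible over `k(j̃)` (`helper81.phiBar_irreducible`, S28): hence `D` is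
    transitive on `SL₂(ℤ/M) / Borel = ℙ¹(ℤ/M)`.
(d) [GRP] `T ∈ D` (it preserves `𝔮`) and `D · Borel = SL₂(ℤ/M)` imply that `D` contains every
    conjugate of `⟨T⟩`, in particular the lower unipotent group; `SL₂(ℤ/M) = ⟨upper, lower
    unipotents⟩` (image of `SL₂(ℤ) = ⟨S, T⟩`, Mathlib `SL2Z_generators`).  So `D = SL₂(ℤ/M)`.
(e) consequences: the whole group acts on `B/𝔮`; the kernel `N` of the action on `Frac(B/𝔮)` is
    normal and contained in the image of `Γ₀(M)` (degree of `F0b` over `k(j̃)` is `ψ(M)`, P2), so
    it consists of scalars; a scalar acts as a diamond; FULLNESS in characteristic `ℓ`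
    (`helper86.fullness`, on main) gives `N = ±1`.  Hence
    `[F1b : k(j̃)] = [Γ : ± Γ₁(M)] = [F1 : ℚ̄(j)]` (DEG1), `F1b / F0b` is Galois with group `G`,
    the diamonds act on `F1b` compatibly with reduction, and the embeddings of `F1b` over
    `k(j̃)` into `k((t))` are the reductions of the coset expansions (input of CUSP-REG1 /
    CUSP-BAR1).

## 3. [VAL1] from the tower (alternative to porting the helper81 chain)

Given IGUSA1: choose integral `b₁ … b_n ∈ B ∩ F1` whose reductions are an `F0b`-basis of `F1b`
(`n = |G|`).  Then for `f = ∑ cᵢ bᵢ`, `cᵢ ∈ F0`: scale the `cᵢ` by `helper81.scaleStatement`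
(X0) to a common good denominator; the numerator has nonzero reduction (independence of the
`b̄ᵢ`): `ScaleStatement A F1 F1b`.  `RedMemStatement`: same computation.  Integrality1 / RegRed1:
characteristic polynomial over `F0` (coefficients are regular off `∞`, `w`-integral because the
diamonds preserve the Gauss valuation) + Integrality / RegRed for X0.

## 4. I-ES

Convention [A] (`helper41` packA): `φ² - hecke1 φ + ℓ diamond1(ℓ) = 0`, `hecke1 = b_* a^*` =
`Pic0.correspondence alpha1 beta1`: Kummer transport `h ↦ N_{beta1}(alpha1 h)`.  The `ℓ + 1`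
conjugates of `h(q)` over `{f(q^ℓ)}`: `h(ζ^k Q^(1/ℓ))` (`Q = q^ℓ`) and one branch carrying the
diamond (helper56 #2525 (c)).  Source: P2 `helper93_ES{Degree,Emb,Matrix,Norm,Red}`,
`helper94_ESFormal`, `helper93_TExpLevel`, `helper93_CoreWire` (written for `a_* b^*`, so the
roles of `alpha`, `beta` are exchanged).
-/
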