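/-!
# T4 block (IV), the Deligne-Serre endgame: recipes for the leaves (helper80, sub-coordinator)

Shapes: `Fermat/Agent/T4/helper80_EndgameDefs.lean` (namespace `Fermat.Agent.T4.helper80`).
Deliver `theorem <name> : <Leaf>Statement` in your own file
`Fermat/Agent/T4/<seat>_<Leaf>.lean`, namespace `Fermat.Agent.T4.<seat>`, importing the Defs
file (and Mathlib / files on main only).  All leaves are independent of each other.

## [IV-UNIP]  `UnipStatement`   (Mathlib only, about 500 lines)
`u ∈ G`, `n := u - 1`, `n ^ 2 = 0`, `n ≠ 0`; `L := ker n = range n` is a line `k v`.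
* `u ^ i = 1 + i n`, so `U := zpowers u` has order `l` and for every `g`:
  `trace (g * u ^ i) = trace g + i * trace (g * n)`, `det (g * u ^ i) = det g`.
* `trace (g * n) = 0  ↔  g` maps `L` into `L`   (write `n = v wᵀ` with `w v = 0`).
* `B := {g ∈ G | g L = L}`; `B` is a union of left cosets `g U`; on every other coset the
  `l` traces are pairwise distinct, so it contains at most `M` elements of `H`.
  Hence `|H| ≤ |B| + M (|G| - |B|) / l`.
* `G` does not stabilise `L`: pick `g₀` with `L' := g₀ L ≠ L`; the lines `L`, `u ^ i L'`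
  (`i < l`) are `l + 1` distinct points of the orbit of `L`, so `(l + 1) |B| ≤ |G|`.

## [IV-CLASS]  `ClassStatement`   (Mathlib only, about 1200 lines)
Pass to `K := AlgebraicClosure k`.  `Z := G ∩ scalars`, `n := |G / Z|`.  Every `g ∈ G \ Z`
is diagonalisable with two distinct eigenvalues (order prime to the characteristic: `X ^ m - 1`
is separable), so it fixes exactly two lines of `K²`.  For a line `x` the stabiliser
`G_x` is abelian (it embeds into `Kˣ × Kˣ` by the two diagonal characters: the kernel is
unipotent, hence trivial).  Counting pairs (`g ∈ G \ Z`, fixed line):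
`2 (n - 1) = ∑ over orbits of lines with stabiliser ≠ Z of (n / e_i) (e_i - 1)`,
i.e. `2 - 2 / n = ∑ (1 - 1 / e_i)`, `e_i := |G_x / Z| ≥ 2`.  Elementary case analysis:
at most three orbits, and `n / max e_i ≤ 12` (cases `(n, n)`, `(2, 2, n/2)`, `(2, 3, 3)`,
`(2, 3, 4)`, `(2, 3, 5)`).  Take `C := G_x` for the orbit with the largest `e_i`
(`C := G` if `n = 1`).

## [IV-BOUND]  `BoundStatement`  from `UnipStatement` and `ClassStatement`
Deliver `theorem bound_of : UnipStatement → ClassStatement → BoundStatement`, `A := 48 M + 2`.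
* `ψ := ρ`: `H := ρ '' F` is a `23/24` portion of `G := ρ.range`.  `l > A` and UNIP: either
  `G` stabilises a line, or `G` has no unipotent element `≠ 1`, hence `l ∤ |G|` (Cauchy: an
  element of order `l` satisfies `(g - 1) ^ l = 0`, so `(g - 1) ^ 2 = 0`).
* stable line: in an adapted basis `ρ` is upper triangular with diagonal characters
  `χ₁ χ₂`; `ρ' := diag (χ₁, χ₂)`.  Same trace and det, `ker ρ ≤ ker ρ'`, the image is a finite
  subgroup of `kˣ × kˣ` (order prime to `l`).  `LargeIn` for `ψ := ρ'` and: an abelian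
  diagonal group has at most `2` elements with a given `(trace, det)`; so `|G'| ≤ 48 M / 23`.
* no stable line: `ρ' := ρ`; CLASS gives `C` abelian of index `≤ 12`,
  `|C ∩ H| ≥ |C| - |G| / 24 ≥ |C| / 2`, and `C` (commuting semisimple elements) has at most
  `2` elements with a given `(trace, det)`; so `|C| ≤ 4 M`, `|G| ≤ 48 M`.

## [IV-LIFT]  `LiftStatement`   (Mathlib only, about 1500 lines)
`κ := ResidueField V`, `G := ρ.range`, `|G|` invertible in `κ` (hence in `V`).
* Maschke: `κ²` is a direct summand of `κ[G]²`; let `ē` be the idempotent of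
  `End_{κ[G]} (κ[G]²)` projecting onto it.
* `R := End_{V[G]} (V[G]²)` is a finite free `V`-module mapping onto the former; lift `ē` to
  any `e₀ ∈ R`.  Its characteristic polynomial `P` (as a `V`-endomorphism of `R`) splits
  over `ℂ` with roots in `V` (valuation subrings are integrally closed) and reduces to
  `X ^ a (X - 1) ^ b`.  `P = P₀ P₁` (roots reducing to `0`, resp. `1`); the resultant of
  `P₀`, `P₁` is a unit, so `u P₀ + v P₁ = 1` in `V[X]`; `e := (u P₀)(e₀)` is an idempotent
  lifting `ē` (Cayley-Hamilton).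
* `L := range e` is a finitely generated projective `V`-module with `G`-action, free of
  rank `2` (local ring), and `L / 𝔪 L ≅ κ²`.  A basis gives `G →* GL 2 V`; compose with
  `Γ → G` and `V ⊆ ℂ`.  Traces and dets reduce correctly (isomorphic reductions).

## [IV-FIN]  `FinStatement`   (Mathlib only, about 400 lines)
`r := number of embeddings of K`, `c := r / η`, `Y := ι '' {x ∈ 𝓞 K | ∀ τ, ‖τ x‖ ^ 2 ≤ c}`
(finite: `NumberField.Embeddings.finite_of_norm_le`), `X := {p | a p ∉ Y, p ∤ N}`.
For `p ∈ X` some `τ` has `‖τ (α p)‖ ^ 2 > c`; sum the `r` Rankin bounds.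

## [IV-DENSWIRE]  `DensWireStatement`   (needs conjugates of Frobenius elements, on main)
`ψ` with `ρ.ker ≤ ψ.ker` has finite level; `G := ψ.range`, `H := ψ '' frobElts X` is stable
under conjugation, `C := G \ H`, and `frobSet ψ C ⊆ X`.  DENS and `UpperDensityLE X (1/48)`
give `|C| / |G| ≤ 1 / 48`.

## [IV-INDEP]  `IndepStatement`   (needs weak Chebotarev `chebW_open_uncond`, on main)
`m := A !`.  `Y := {ζ + ζ' | ζ ^ m = ζ' ^ m = 1}`, `D := {ζ | ζ ^ m = 1}`.
* A nonzero algebraic integer `x` lies in `V.nonunits` for only finitely many residue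
  characteristics `l` (`l` divides the constant coefficient of the minimal polynomial).
* For a fixed prime `p ∤ N` and a Frobenius element `σ` at `p`: for all large `l` the trace
  of `r_l σ` is in `Y` and congruent to `a p`; pigeonhole: `a p ∈ Y`, `e p ∈ D`.
* For `l` beyond the finitely many residue characteristics of the nonzero differences of
  elements of `Y` (and of `D`): trace and det of `r_l σ` are EQUAL to `a p`, `e p` for all
  `p ∤ N l`.  Take two such primes `l₁ ≠ l₂`.  Weak Chebotarev for
  `U := ker r₁ ⊓ ker r₂`: every `g` is `φ ^ j` modulo `U` for a Frobenius element `φ` at a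
  prime not dividing `N l₁ l₂`; equal characteristic polynomials of diagonalisable matrices
  have equal power traces, so `trace (r₁ g) = trace (r₂ g)` for all `g`.
* Inertia at `l₁`: `trace (r₁ τ) = trace (r₂ τ) = 2` and `r₁ τ` has finite order, so
  `r₁ τ = 1`.  Frobenius at `l₁`: trace from `r₂`, `det g = (trace g ^ 2 - trace (g ^ 2)) / 2`.
  `ρ := r₁`.

## [IV-IRR]  `IrrStatement`
If `ρ` is reducible it is (finite image, Maschke) conjugate to `diag (χ₁, χ₂)`;
`‖a p‖ ^ 2 = 2 + 2 Re ψ (Frob p)`, `ψ := χ₁ / χ₂` with cyclic image of order `d`.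
DENS for the singletons `{c}` of the image of `ψ` (all coefficients `2 + 2 Re c` are `≥ 0`, so
lower densities suffice): the Rankin sum is `≥ (2 + 2 [d = 1] - ε) log (1 / (s - 1))`,
against `RankinBound`.

## [IV-RANKIN]  `RankinFormStatement`   (analysis, about 2000 lines)
* `‖f z‖ * (im z) ^ (1/2) ≤ C` (cusp form, `CuspFormClass.exists_bound`) and Parseval on
  the horizontal line of height `y` give `∑ ‖a n‖ ^ 2 * exp (-4 π n y) ≤ C ^ 2 / y`, hence
  `∑_{n ≤ x} ‖a n‖ ^ 2 ≤ C' x` and `D s := ∑ ‖a n‖ ^ 2 n ^ (-s) ≤ C'' / (s - 1)`.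
* the Hecke relations give multiplicativity on integers prime to `N` and, for `p ∤ N`,
  `∑_k ‖a (p ^ k)‖ ^ 2 x ^ k = (1 - x ^ 2) / ∏ (1 - γ x)` over the four products
  `γ = α ᾱ, α β̄, ᾱ β, β β̄` of the roots of `X ^ 2 - a p X + ε p`; the logarithm is
  `log (1 - x ^ 2) + ∑_m ‖α ^ m + β ^ m‖ ^ 2 x ^ m / m ≥ log (1 - x ^ 2) + ‖a p‖ ^ 2 x`.
* take logarithms of the Euler product over `p ∤ N`, `p ≤ P`, and let `P → ∞`.

## [IV-VAL]  `ValStatement`   (Mathlib only, short)
`LocalSubring.exists_le_valuationSubring` above the localisation of `ℤ` at `l` inside `ℂ`;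
a monic polynomial over the residue field lifts to a monic polynomial over `V`, which has a
root in `ℂ`, integral over `V`, hence in `V`.

## [IV-ASM]  `EndgameOfLeaves`   (helper80)
-/
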