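import Mathlib

/-!
# T4 (IV) [IV-CLASS], arithmetic of the class equation (helper10)
-/

set_option linter.style.haveILetI false
set_option linter.unusedSectionVars false
set_option linter.unusedVariables false

namespace Fermat.Agent.T4.helper10

/-- The possible values of `1 / a`, `a ≥ 2`. -/
def InvCases (x : ℚ) : Prop :=
  x = 1 / 2 ∨ x = 1 / 3 ∨ x = 1 / 4 ∨ x = 1 / 5 ∨ (0 < x ∧ x ≤ 1 / 6)

lemma invCases_of_nat (a : ℕ) (ha : 2 ≤ a) : InvCases ((1 : ℚ) / a) := by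
  unfold InvCases
  rcases Nat.lt_or_ge a 6 with h | h
  · interval_cases a
    · left; norm_num
    · right; left; norm_num
    · right; right; left; norm_num
    · right; right; right; left; norm_num
  · right; right; right; right
    have h6 : (6 : ℚ) ≤ a := by exact_mod_cast h
    have h0 : (0 : ℚ) < a := by linarith
    refine ⟨by positivity, ?_⟩
    rw [div_le_div_iff₀ h0 (by norm_num)]
    linarith

lemma InvCases.bounds {x : ℚ} (h : InvCases x) : 0 < x ∧ x ≤ 1 / 2 := by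
  rcases h with h | h | h | h | ⟨h1, h2⟩
  · subst h; norm_num
  · subst h; norm_num
  · subst h; norm_num
  · subst h; norm_num
  · exact ⟨h1, by linarith⟩

/-- The weight of a part in terms of `x = 1 / a`. -/
lemma weight_form (a ν : ℕ) (ha : 2 ≤ a) (hν : ν = 1 ∨ ν = 2) (y : ℚ)
    (h12 : 12 * (a : ℚ) * y < 1) :
    ∃ x : ℚ, InvCases x ∧ 12 * y < x ∧
      ((((a : ℚ) - 1) / (ν * a) = 1 - x) ∨ (((a : ℚ) - 1) / (ν * a) = (1 - x) / 2)) := by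
  have h0 : (0 : ℚ) < a := by exact_mod_cast (by omega : 0 < a)
  refine ⟨1 / a, invCases_of_nat a ha, ?_, ?_⟩
  · rw [lt_div_iff₀ h0]
    linarith
  · rcases hν with rfl | rfl
    · left
      push_cast
      field_simp
    · right
      push_cast
      field_simp

/-- One part cannot fill the class equation. -/
lemma arith_one {y x W : ℚ} (hy : 0 < y) (hx : InvCases x) (hxy : 12 * y < x)
    (hW : W = 1 - x ∨ W = (1 - x) / 2) (hsum : W = 1 - y) : False := by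
  have hb := hx.bounds
  rcases hW with h | h <;> linarith [hb.1, hb.2]

/-- Two parts cannot fill the class equation. -/
lemma arith_two {y x₁ x₂ W₁ W₂ : ℚ} (hy : 0 < y)
    (hx₁ : InvCases x₁) (hxy₁ : 12 * y < x₁) (hW₁ : W₁ = 1 - x₁ ∨ W₁ = (1 - x₁) / 2)
    (hx₂ : InvCases x₂) (hxy₂ : 12 * y < x₂) (hW₂ : W₂ = 1 - x₂ ∨ W₂ = (1 - x₂) / 2)
    (hsum : W₁ + W₂ = 1 - y) : False := by
  have hb₁ := hx₁.bounds
  have hb₂ := hx₂.bounds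
  rcases hW₁ with h₁ | h₁ <;> rcases hW₂ with h₂ | h₂
  · linarith [hb₁.1, hb₁.2, hb₂.1, hb₂.2]
  · rcases hx₁ with e₁ | e₁ | e₁ | e₁ | ⟨e₁, e₁'⟩ <;>
      rcases hx₂ with e₂ | e₂ | e₂ | e₂ | ⟨e₂, e₂'⟩ <;>
      (try subst e₁) <;> (try subst e₂) <;> linarith
  · rcases hx₁ with e₁ | e₁ | e₁ | e₁ | ⟨e₁, e₁'⟩ <;>
      rcases hx₂ with e₂ | e₂ | e₂ | e₂ | ⟨e₂, e₂'⟩ <;>
      (try subst e₁) <;> (try subst e₂) <;> linarith
  · linarith [hb₁.1, hb₁.2, hb₂.1, hb₂.2]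

/-- Three parts cannot fill the class equation. -/
lemma arith_three {y x₁ x₂ x₃ W₁ W₂ W₃ : ℚ} (hy : 0 < y)
    (hx₁ : InvCases x₁) (hxy₁ : 12 * y < x₁) (hW₁ : W₁ = 1 - x₁ ∨ W₁ = (1 - x₁) / 2)
    (hx₂ : InvCases x₂) (hxy₂ : 12 * y < x₂) (hW₂ : W₂ = 1 - x₂ ∨ W₂ = (1 - x₂) / 2)
    (hx₃ : InvCases x₃) (hxy₃ : 12 * y < x₃) (hW₃ : W₃ = 1 - x₃ ∨ W₃ = (1 - x₃) / 2)
    (hsum : W₁ + W₂ + W₃ = 1 - y) : False := by
  have hb₁ := hx₁.bounds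
  have hb₂ := hx₂.bounds
  have hb₃ := hx₃.bounds
  rcases hW₁ with h₁ | h₁ <;> rcases hW₂ with h₂ | h₂ <;> rcases hW₃ with h₃ | h₃
  · linarith [hb₁.1, hb₁.2, hb₂.1, hb₂.2, hb₃.1, hb₃.2]
  · linarith [hb₁.1, hb₁.2, hb₂.1, hb₂.2, hb₃.1, hb₃.2]
  · linarith [hb₁.1, hb₁.2, hb₂.1, hb₂.2, hb₃.1, hb₃.2]
  · linarith [hb₁.1, hb₁.2, hb₂.1, hb₂.2, hb₃.1, hb₃.2]
  · linarith [hb₁.1, hb₁.2, hb₂.1, hb₂.2, hb₃.1, hb₃.2]
  · linarith [hb₁.1, hb₁.2, hb₂.1, hb₂.2, hb₃.1, hb₃.2]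
  · linarith [hb₁.1, hb₁.2, hb₂.1, hb₂.2, hb₃.1, hb₃.2]
  · rcases hx₁ with e₁ | e₁ | e₁ | e₁ | ⟨e₁, e₁'⟩ <;>
      rcases hx₂ with e₂ | e₂ | e₂ | e₂ | ⟨e₂, e₂'⟩ <;>
      rcases hx₃ with e₃ | e₃ | e₃ | e₃ | ⟨e₃, e₃'⟩ <;>
      (try subst e₁) <;> (try subst e₂) <;> (try subst e₃) <;> linarith

/-- Every part has weight at least `1 / 4`. -/
lemma weight_ge {x W : ℚ} (hx : InvCases x) (hW : W = 1 - x ∨ W = (1 - x) / 2) :
    1 / 4 ≤ W := by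
  have hb := hx.bounds
  rcases hW with h | h <;> linarith [hb.1, hb.2]

end Fermat.Agent.T4.helper10
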