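import Mathlib
import Fermat.Agent.T4.helper10_ClassArith

/-!
# T4 (IV) [IV-CLASS], part A: abstract class equation (helper10)

A finite group `G` with a central subgroup `Z` such that centralisers of elements outside `Z`
are abelian and have index at most two in their normalisers: counting lemmas.
-/

set_option linter.style.haveILetI false
set_option linter.unusedSectionVars false
set_option linter.unusedVariables false

namespace Fermat.Agent.T4.helper10

open Finset

section Abstract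

variable {G : Type*} [Group G]

/-- The centraliser of one element. -/
def cen (g : G) : Subgroup G := Subgroup.centralizer ({g} : Set G)

lemma mem_cen {g x : G} : x ∈ cen g ↔ g * x = x * g := by
  simp [cen, Subgroup.mem_centralizer_iff]

lemma self_mem_cen (g : G) : g ∈ cen g := mem_cen.mpr rfl

lemma conj_mem_cen_conj {g x u : G} (hx : x ∈ cen g) : u * x * u⁻¹ ∈ cen (u * g * u⁻¹) := by
  rw [mem_cen] at hx ⊢
  calc u * g * u⁻¹ * (u * x * u⁻¹) = u * (g * x) * u⁻¹ := by group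
    _ = u * (x * g) * u⁻¹ := by rw [hx]
    _ = u * x * u⁻¹ * (u * g * u⁻¹) := by group

lemma mem_cen_conj_iff {g x u : G} : x ∈ cen (u * g * u⁻¹) ↔ u⁻¹ * x * u ∈ cen g := by
  constructor
  · intro h
    have := conj_mem_cen_conj (u := u⁻¹) h
    simpa [mul_assoc] using this
  · intro h
    have := conj_mem_cen_conj (u := u) h
    simpa [mul_assoc] using this

/-- The normaliser of the centraliser of one element. -/
def nrm (g : G) : Subgroup G := Subgroup.normalizer (cen g : Set G)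

lemma mem_nrm {g u : G} : u ∈ nrm g ↔ ∀ h, h ∈ cen g ↔ u * h * u⁻¹ ∈ cen g :=
  Subgroup.mem_normalizer_iff

lemma cen_le_nrm (g : G) : cen g ≤ nrm g := Subgroup.le_normalizer

/-- The hypotheses of the abstract class equation. -/
structure ClassHyp (Z : Subgroup G) : Prop where
  central : ∀ z ∈ Z, ∀ g : G, z * g = g * z
  comm : ∀ g, g ∉ Z → ∀ x y, g * x = x * g → g * y = y * g → x * y = y * x
  pair : ∀ g, g ∉ Z → ∃ g', ∀ h : G, g * (h * g * h⁻¹) = h * g * h⁻¹ * g →
    h * g * h⁻¹ = g ∨ h * g * h⁻¹ = g'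

variable {Z : Subgroup G}

lemma ClassHyp.le_cen (H : ClassHyp Z) (g : G) : Z ≤ cen g := fun z hz =>
  mem_cen.mpr (H.central z hz g).symm

lemma ClassHyp.conj_mem_iff (H : ClassHyp Z) {x u : G} : u * x * u⁻¹ ∈ Z ↔ x ∈ Z := by
  constructor
  · intro h
    have h1 := H.central _ h u
    have : u * x * u⁻¹ = x := by
      have : u * x * u⁻¹ * u = u * (u * x * u⁻¹) := h1
      have h2 : u * x = u * (u * x * u⁻¹) := by simpa [mul_assoc] using this
      exact (mul_left_cancel h2).symm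
    rwa [this] at h
  · intro h
    have h1 := H.central _ h u⁻¹
    have : u * x * u⁻¹ = x := by
      rw [mul_assoc, h1, ← mul_assoc, mul_inv_cancel, one_mul]
    rwa [this]

lemma ClassHyp.cen_abelian (H : ClassHyp Z) {g : G} (hg : g ∉ Z) {x y : G}
    (hx : x ∈ cen g) (hy : y ∈ cen g) : x * y = y * x :=
  H.comm g hg x y (mem_cen.mp hx) (mem_cen.mp hy)

lemma ClassHyp.cen_eq (H : ClassHyp Z) {g x : G} (hg : g ∉ Z) (hx : x ∈ cen g) (hxZ : x ∉ Z) :
    cen x = cen g := by
  ext y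
  constructor
  · intro hy
    -- `y` and `g` both commute with `x ∉ Z`
    have h1 : x * y = y * x := mem_cen.mp hy
    have h2 : x * g = g * x := (mem_cen.mp hx).symm
    exact mem_cen.mpr (H.comm x hxZ g y h2 h1)
  · intro hy
    exact mem_cen.mpr (H.cen_abelian hg hx hy)

/-- For `x ∈ cen g` outside `Z`: `u x u⁻¹ ∈ cen g` iff `u` normalises `cen g`. -/
lemma ClassHyp.conj_mem_cen_iff (H : ClassHyp Z) {g x u : G} (hg : g ∉ Z) (hx : x ∈ cen g)
    (hxZ : x ∉ Z) : u * x * u⁻¹ ∈ cen g ↔ u ∈ nrm g := by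
  constructor
  · intro h
    have hxZ' : u * x * u⁻¹ ∉ Z := fun h' => hxZ (H.conj_mem_iff.mp h')
    have e1 : cen (u * x * u⁻¹) = cen g := H.cen_eq hg h hxZ'
    have e2 : cen x = cen g := H.cen_eq hg hx hxZ
    rw [mem_nrm]
    intro y
    have key : u * y * u⁻¹ ∈ cen (u * x * u⁻¹) ↔ y ∈ cen x := by
      rw [mem_cen_conj_iff]
      have : u⁻¹ * (u * y * u⁻¹) * u = y := by group
      rw [this]
    rw [e1, e2] at key
    exact key.symm
  · intro h
    exact (mem_nrm.mp h x).mp hx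


/-! ### Counting -/

section Count

variable [Fintype G]

open Classical in
/-- The elements of a subgroup, as a finset. -/
noncomputable def sgF (H : Subgroup G) : Finset G := univ.filter (· ∈ H)

open Classical in
lemma mem_sgF {H : Subgroup G} {x : G} : x ∈ sgF H ↔ x ∈ H := by
  simp [sgF]

open Classical in
lemma card_sgF (H : Subgroup G) : (sgF H).card = Nat.card H := by
  rw [Nat.card_eq_fintype_card, Fintype.card_subtype]
  rfl

lemma sgF_mono {H K : Subgroup G} (h : H ≤ K) : sgF H ⊆ sgF K := fun x hx =>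
  mem_sgF.mpr (h (mem_sgF.mp hx))

open Classical in
/-- The part of `g`: the elements outside `Z` conjugate into `cen g`. -/
noncomputable def part (Z : Subgroup G) (g : G) : Finset G :=
  univ.filter (fun y => y ∉ Z ∧ ∃ h : G, h * y * h⁻¹ ∈ cen g)

open Classical in
lemma mem_part {g y : G} : y ∈ part Z g ↔ y ∉ Z ∧ ∃ h : G, h * y * h⁻¹ ∈ cen g := by
  simp [part]

lemma self_mem_part {g : G} (hg : g ∉ Z) : g ∈ part Z g :=
  mem_part.mpr ⟨hg, 1, by simpa using self_mem_cen g⟩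

lemma ClassHyp.mem_part_of_common (H : ClassHyp Z) {g g' y : G} (hg : g ∉ Z) (hg' : g' ∉ Z)
    (h1 : y ∈ part Z g) (h2 : y ∈ part Z g') : g' ∈ part Z g := by
  obtain ⟨hyZ, h, hh⟩ := mem_part.mp h1
  obtain ⟨_, h', hh'⟩ := mem_part.mp h2
  have hxZ : h * y * h⁻¹ ∉ Z := fun hc => hyZ (H.conj_mem_iff.mp hc)
  have hxZ' : h' * y * h'⁻¹ ∉ Z := fun hc => hyZ (H.conj_mem_iff.mp hc)
  have e1 : cen (h * y * h⁻¹) = cen g := H.cen_eq hg hh hxZ
  have e2 : cen (h' * y * h'⁻¹) = cen g' := H.cen_eq hg' hh' hxZ'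
  have h3 : g' ∈ cen (h' * y * h'⁻¹) := e2 ▸ self_mem_cen g'
  have h4 : h'⁻¹ * g' * h' ∈ cen y := mem_cen_conj_iff.mp h3
  have h5 : h * (h'⁻¹ * g' * h') * h⁻¹ ∈ cen (h * y * h⁻¹) := conj_mem_cen_conj h4
  rw [e1] at h5
  refine mem_part.mpr ⟨hg', h * h'⁻¹, ?_⟩
  have : h * h'⁻¹ * g' * (h * h'⁻¹)⁻¹ = h * (h'⁻¹ * g' * h') * h⁻¹ := by group
  rwa [this]

lemma ClassHyp.part_disjoint (H : ClassHyp Z) {g g' : G} (hg : g ∉ Z) (hg' : g' ∉ Z)
    (hn : g' ∉ part Z g) : Disjoint (part Z g) (part Z g') := by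
  rw [Finset.disjoint_left]
  intro y h1 h2
  exact hn (H.mem_part_of_common hg hg' h1 h2)

open Classical in
/-- For fixed `h`, the `y ∉ Z` with `h y h⁻¹ ∈ cen g` are in bijection with `cen g \ Z`. -/
lemma ClassHyp.card_fiber_left (H : ClassHyp Z) (g h : G) :
    (univ.filter (fun y : G => y ∉ Z ∧ h * y * h⁻¹ ∈ cen g)).card =
      (sgF (cen g) \ sgF Z).card := by
  refine Finset.card_bij (fun y _ => h * y * h⁻¹) ?_ ?_ ?_
  · intro y hy
    simp only [mem_filter, mem_univ, true_and] at hy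
    simp only [mem_sdiff, mem_sgF]
    exact ⟨hy.2, fun hc => hy.1 (H.conj_mem_iff.mp hc)⟩
  · intro y₁ _ y₂ _ he
    simpa using he
  · intro x hx
    simp only [mem_sdiff, mem_sgF] at hx
    refine ⟨h⁻¹ * x * h, ?_, by group⟩
    simp only [mem_filter, mem_univ, true_and]
    refine ⟨fun hc => hx.2 ?_, ?_⟩
    · have := H.conj_mem_iff (x := x) (u := h⁻¹)
      rw [inv_inv] at this
      exact this.mp hc
    · have : h * (h⁻¹ * x * h) * h⁻¹ = x := by group
      rw [this]; exact hx.1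

open Classical in
/-- For fixed `y` in the part of `g`, the `h` with `h y h⁻¹ ∈ cen g` form a coset of `nrm g`. -/
lemma ClassHyp.card_fiber_right (H : ClassHyp Z) {g y : G} (hg : g ∉ Z) (hy : y ∈ part Z g) :
    (univ.filter (fun h : G => y ∉ Z ∧ h * y * h⁻¹ ∈ cen g)).card = (sgF (nrm g)).card := by
  obtain ⟨hyZ, h₀, hh₀⟩ := mem_part.mp hy
  have hxZ : h₀ * y * h₀⁻¹ ∉ Z := fun hc => hyZ (H.conj_mem_iff.mp hc)
  refine Finset.card_bij (fun h _ => h * h₀⁻¹) ?_ ?_ ?_
  · intro h hh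
    simp only [mem_filter, mem_univ, true_and] at hh
    rw [mem_sgF, ← H.conj_mem_cen_iff hg hh₀ hxZ]
    have : h * h₀⁻¹ * (h₀ * y * h₀⁻¹) * (h * h₀⁻¹)⁻¹ = h * y * h⁻¹ := by group
    rw [this]; exact hh.2
  · intro h₁ _ h₂ _ he
    simpa using he
  · intro u hu
    rw [mem_sgF, ← H.conj_mem_cen_iff hg hh₀ hxZ] at hu
    refine ⟨u * h₀, ?_, by group⟩
    simp only [mem_filter, mem_univ, true_and]
    refine ⟨hyZ, ?_⟩
    have : u * h₀ * y * (u * h₀)⁻¹ = u * (h₀ * y * h₀⁻¹) * u⁻¹ := by group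
    rw [this]; exact hu

open Classical in
lemma card_fiber_right_zero {g y : G} (hy : y ∉ part Z g) :
    (univ.filter (fun h : G => y ∉ Z ∧ h * y * h⁻¹ ∈ cen g)).card = 0 := by
  rw [Finset.card_eq_zero, Finset.filter_eq_empty_iff]
  intro h _ hc
  exact hy (mem_part.mpr ⟨hc.1, h, hc.2⟩)

open Classical in
/-- The double count. -/
theorem ClassHyp.card_mul (H : ClassHyp Z) {g : G} (hg : g ∉ Z) :
    Fintype.card G * (sgF (cen g) \ sgF Z).card = (part Z g).card * (sgF (nrm g)).card := by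
  have h1 : ∑ h : G, (univ.filter (fun y : G => y ∉ Z ∧ h * y * h⁻¹ ∈ cen g)).card =
      Fintype.card G * (sgF (cen g) \ sgF Z).card := by
    rw [Finset.sum_congr rfl (fun h _ => H.card_fiber_left g h), Finset.sum_const,
      Finset.card_univ, smul_eq_mul]
  have h2 : ∑ y : G, (univ.filter (fun h : G => y ∉ Z ∧ h * y * h⁻¹ ∈ cen g)).card =
      (part Z g).card * (sgF (nrm g)).card := by
    rw [← Finset.sum_subset (Finset.subset_univ (part Z g))
      (fun y _ hy => card_fiber_right_zero hy),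
      Finset.sum_congr rfl (fun y hy => H.card_fiber_right hg hy), Finset.sum_const,
      smul_eq_mul]
  rw [← h1, ← h2]
  simp only [Finset.card_filter]
  exact Finset.sum_comm


/-! ### The normaliser has index at most two -/

open Classical in
lemma ClassHyp.card_nrm_le (H : ClassHyp Z) {g : G} (hg : g ∉ Z) :
    (sgF (nrm g)).card ≤ 2 * (sgF (cen g)).card := by
  obtain ⟨g', hg'⟩ := H.pair g hg
  -- split the normaliser according to the image of `g`
  have hsplit : sgF (nrm g) ⊆ sgF (cen g) ∪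
      (sgF (nrm g)).filter (fun u => u * g * u⁻¹ = g') := by
    intro u hu
    have hu' : u ∈ nrm g := mem_sgF.mp hu
    have h1 : u * g * u⁻¹ ∈ cen g := (mem_nrm.mp hu' g).mp (self_mem_cen g)
    rcases hg' u (mem_cen.mp h1) with h2 | h2
    · refine Finset.mem_union_left _ (mem_sgF.mpr (mem_cen.mpr ?_))
      have : u * g * u⁻¹ * u = g * u := by rw [h2]
      simpa [mul_assoc] using this.symm
    · exact Finset.mem_union_right _ (Finset.mem_filter.mpr ⟨hu, h2⟩)
  have hB : ((sgF (nrm g)).filter (fun u => u * g * u⁻¹ = g')).card ≤ (sgF (cen g)).card := by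
    by_cases hne : ((sgF (nrm g)).filter (fun u => u * g * u⁻¹ = g')).Nonempty
    · obtain ⟨u₀, hu₀⟩ := hne
      have hu₀' := (Finset.mem_filter.mp hu₀).2
      refine Finset.card_le_card_of_injOn (fun u => u₀⁻¹ * u) ?_ ?_
      · intro u hu
        have hu' := (Finset.mem_filter.mp hu).2
        refine mem_sgF.mpr (mem_cen.mpr ?_)
        -- `u₀⁻¹ u` commutes with `g`
        have e1 : u * g = g' * u := by
          have : u * g * u⁻¹ * u = g' * u := by rw [hu']
          simpa [mul_assoc] using this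
        have e2 : u₀ * g = g' * u₀ := by
          have : u₀ * g * u₀⁻¹ * u₀ = g' * u₀ := by rw [hu₀']
          simpa [mul_assoc] using this
        have e3 : u₀⁻¹ * g' = g * u₀⁻¹ := by
          have : u₀⁻¹ * (u₀ * g) * u₀⁻¹ = u₀⁻¹ * (g' * u₀) * u₀⁻¹ := by rw [e2]
          simpa [mul_assoc] using this.symm
        calc g * (u₀⁻¹ * u) = (g * u₀⁻¹) * u := by rw [mul_assoc]
          _ = (u₀⁻¹ * g') * u := by rw [e3]
          _ = u₀⁻¹ * (g' * u) := by rw [mul_assoc]
          _ = u₀⁻¹ * (u * g) := by rw [e1]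
          _ = u₀⁻¹ * u * g := by rw [mul_assoc]
      · intro u₁ _ u₂ _ he
        simpa using he
    · rw [Finset.not_nonempty_iff_eq_empty] at hne
      rw [hne]; simp
  calc (sgF (nrm g)).card ≤ (sgF (cen g) ∪
        (sgF (nrm g)).filter (fun u => u * g * u⁻¹ = g')).card := Finset.card_le_card hsplit
    _ ≤ (sgF (cen g)).card + ((sgF (nrm g)).filter (fun u => u * g * u⁻¹ = g')).card :=
        Finset.card_union_le _ _
    _ ≤ 2 * (sgF (cen g)).card := by omega

/-- The data attached to a part. -/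
theorem ClassHyp.part_data (H : ClassHyp Z) {g : G} (hg : g ∉ Z)
    (hbig : 12 * Nat.card (cen g) < Fintype.card G) :
    ∃ a ν : ℕ, 2 ≤ a ∧ (ν = 1 ∨ ν = 2) ∧
      12 * (a : ℚ) * ((Nat.card Z : ℚ) / Fintype.card G) < 1 ∧
      ((part Z g).card : ℚ) = (Fintype.card G : ℚ) * (((a : ℚ) - 1) / (ν * a)) := by
  classical
  have hzpos : 0 < Nat.card Z := Nat.card_pos
  have hcpos : 0 < Nat.card (cen g) := Nat.card_pos
  have hNpos : 0 < Fintype.card G := Fintype.card_pos
  -- `card (cen g) = a * card Z`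
  obtain ⟨a, ha⟩ := Subgroup.card_dvd_of_le (H.le_cen g)
  -- `card (nrm g) = ν * card (cen g)`
  obtain ⟨ν, hν⟩ := Subgroup.card_dvd_of_le (cen_le_nrm g)
  have hnpos : 0 < Nat.card (nrm g) := Nat.card_pos
  have hνle : Nat.card (nrm g) ≤ 2 * Nat.card (cen g) := by
    have := H.card_nrm_le hg
    rwa [card_sgF, card_sgF] at this
  have hν12 : ν = 1 ∨ ν = 2 := by
    have h1 : ν ≠ 0 := by
      rintro rfl
      rw [mul_zero] at hν
      omega
    have h2 : ν ≤ 2 := by
      by_contra hlt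
      have : 3 ≤ ν := by omega
      have : 3 * Nat.card (cen g) ≤ Nat.card (cen g) * ν := by nlinarith
      omega
    omega
  -- strict inclusion `Z < cen g`
  have hlt : Nat.card Z < Nat.card (cen g) := by
    rw [← card_sgF, ← card_sgF]
    refine Finset.card_lt_card ⟨sgF_mono (H.le_cen g), fun hsub => hg ?_⟩
    exact mem_sgF.mp (hsub (mem_sgF.mpr (self_mem_cen g)))
  have ha2 : 2 ≤ a := by
    by_contra hlt'
    have : a ≤ 1 := by omega
    have : Nat.card Z * a ≤ Nat.card Z := by nlinarith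
    omega
  -- the double count
  have hcount := H.card_mul hg
  rw [Finset.card_sdiff_of_subset (sgF_mono (H.le_cen g)), card_sgF, card_sgF, card_sgF] at hcount
  refine ⟨a, ν, ha2, hν12, ?_, ?_⟩
  · have h1 : (12 : ℚ) * (Nat.card (cen g) : ℚ) < Fintype.card G := by exact_mod_cast hbig
    rw [ha] at h1
    push_cast at h1
    have hN : (0 : ℚ) < Fintype.card G := by exact_mod_cast hNpos
    rw [mul_div_assoc', div_lt_one hN]
    linarith
  · have hz : (0 : ℚ) < Nat.card Z := by exact_mod_cast hzpos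
    have ha0 : (0 : ℚ) < a := by exact_mod_cast (by omega : 0 < a)
    have hν0 : (0 : ℚ) < ν := by
      rcases hν12 with rfl | rfl <;> norm_num
    have hq : (Fintype.card G : ℚ) * ((Nat.card (cen g) : ℚ) - Nat.card Z) =
        ((part Z g).card : ℚ) * (Nat.card (nrm g) : ℚ) := by
      have := congrArg (Nat.cast : ℕ → ℚ) hcount
      rw [Nat.cast_mul, Nat.cast_mul, Nat.cast_sub hlt.le] at this
      exact this
    rw [hν, ha] at hq
    push_cast at hq
    have h3 : ((part Z g).card : ℚ) * ((ν : ℚ) * a) = (Fintype.card G : ℚ) * ((a : ℚ) - 1) := by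
      have : (Nat.card Z : ℚ) * (((part Z g).card : ℚ) * ((ν : ℚ) * a)) =
          (Nat.card Z : ℚ) * ((Fintype.card G : ℚ) * ((a : ℚ) - 1)) := by
        linear_combination (-1 : ℚ) * hq
      exact mul_left_cancel₀ hz.ne' this
    rw [mul_div_assoc', eq_div_iff (by positivity)]
    exact h3


/-! ### The greedy decomposition -/

open Classical in
lemma part_subset_compl (g : G) : part Z g ⊆ univ \ sgF Z := by
  intro y hy
  rw [Finset.mem_sdiff]
  exact ⟨Finset.mem_univ _, fun h => (mem_part.mp hy).1 (mem_sgF.mp h)⟩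

open Classical in
lemma card_compl_sgF (Z : Subgroup G) :
    (((univ : Finset G) \ sgF Z).card : ℚ) =
      (Fintype.card G : ℚ) * (1 - (Nat.card Z : ℚ) / Fintype.card G) := by
  have hN : (0 : ℚ) < Fintype.card G := by exact_mod_cast Fintype.card_pos
  rw [Finset.card_sdiff_of_subset (Finset.subset_univ _), Finset.card_univ, card_sgF,
    Nat.cast_sub (by
      rw [← card_sgF, ← Finset.card_univ]
      exact Finset.card_le_card (Finset.subset_univ _))]
  field_simp

/-- The weight of a part. -/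
theorem ClassHyp.part_weight (H : ClassHyp Z) {g : G} (hg : g ∉ Z)
    (hbig : 12 * Nat.card (cen g) < Fintype.card G) :
    ∃ x W : ℚ, InvCases x ∧ 12 * ((Nat.card Z : ℚ) / Fintype.card G) < x ∧
      (W = 1 - x ∨ W = (1 - x) / 2) ∧
      ((part Z g).card : ℚ) = (Fintype.card G : ℚ) * W := by
  obtain ⟨a, ν, ha, hν, h12, hp⟩ := H.part_data hg hbig
  obtain ⟨x, hx, hxy, hW⟩ := weight_form a ν ha hν _ h12
  exact ⟨x, _, hx, hxy, hW, hp⟩

open Classical in
/-- **The abstract class equation**: some centraliser of an element outside `Z` has index at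
most `12`. -/
theorem ClassHyp.exists_cen_index_le (H : ClassHyp Z) (hne : ∃ g, g ∉ Z) :
    ∃ g, g ∉ Z ∧ Fintype.card G ≤ 12 * Nat.card (cen g) := by
  by_contra hcon
  have hbig : ∀ g, g ∉ Z → 12 * Nat.card (cen g) < Fintype.card G := by
    intro g hg
    by_contra hle
    exact hcon ⟨g, hg, not_lt.mp hle⟩
  have hN : (0 : ℚ) < Fintype.card G := by exact_mod_cast Fintype.card_pos
  have hy : (0 : ℚ) < (Nat.card Z : ℚ) / Fintype.card G := by
    have : (0 : ℚ) < Nat.card Z := by exact_mod_cast Nat.card_pos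
    positivity
  set y : ℚ := (Nat.card Z : ℚ) / Fintype.card G with hydef
  set S : Finset G := univ \ sgF Z with hS
  have hScard : (S.card : ℚ) = (Fintype.card G : ℚ) * (1 - y) := card_compl_sgF Z
  have hmemS : ∀ {g : G}, g ∈ S ↔ g ∉ Z := by
    intro g
    rw [hS, Finset.mem_sdiff]
    simp [mem_sgF]
  -- first part
  obtain ⟨g₁, hg₁⟩ := hne
  obtain ⟨x₁, W₁, hx₁, hxy₁, hW₁, hp₁⟩ := H.part_weight hg₁ (hbig g₁ hg₁)
  have hsub₁ : part Z g₁ ⊆ S := part_subset_compl g₁
  by_cases hc₁ : S ⊆ part Z g₁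
  · have he : S = part Z g₁ := Finset.Subset.antisymm hc₁ hsub₁
    have : (Fintype.card G : ℚ) * W₁ = (Fintype.card G : ℚ) * (1 - y) := by
      rw [← hp₁, ← hScard, he]
    exact arith_one hy hx₁ hxy₁ hW₁ (mul_left_cancel₀ hN.ne' this)
  -- second part
  obtain ⟨g₂, hg₂S, hg₂⟩ := Finset.not_subset.mp hc₁
  have hg₂Z : g₂ ∉ Z := hmemS.mp hg₂S
  obtain ⟨x₂, W₂, hx₂, hxy₂, hW₂, hp₂⟩ := H.part_weight hg₂Z (hbig g₂ hg₂Z)
  have hsub₂ : part Z g₂ ⊆ S := part_subset_compl g₂
  have hd₁₂ : Disjoint (part Z g₁) (part Z g₂) := H.part_disjoint hg₁ hg₂Z hg₂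
  by_cases hc₂ : S ⊆ part Z g₁ ∪ part Z g₂
  · have he : S = part Z g₁ ∪ part Z g₂ :=
      Finset.Subset.antisymm hc₂ (Finset.union_subset hsub₁ hsub₂)
    have hcard : S.card = (part Z g₁).card + (part Z g₂).card := by
      rw [he, Finset.card_union_of_disjoint hd₁₂]
    have : (Fintype.card G : ℚ) * (W₁ + W₂) = (Fintype.card G : ℚ) * (1 - y) := by
      rw [mul_add, ← hp₁, ← hp₂, ← hScard, hcard]
      push_cast; ring
    exact arith_two hy hx₁ hxy₁ hW₁ hx₂ hxy₂ hW₂ (mul_left_cancel₀ hN.ne' this)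
  -- third part
  obtain ⟨g₃, hg₃S, hg₃⟩ := Finset.not_subset.mp hc₂
  have hg₃Z : g₃ ∉ Z := hmemS.mp hg₃S
  obtain ⟨x₃, W₃, hx₃, hxy₃, hW₃, hp₃⟩ := H.part_weight hg₃Z (hbig g₃ hg₃Z)
  have hsub₃ : part Z g₃ ⊆ S := part_subset_compl g₃
  have hd₁₃ : Disjoint (part Z g₁) (part Z g₃) :=
    H.part_disjoint hg₁ hg₃Z (fun h => hg₃ (Finset.mem_union_left _ h))
  have hd₂₃ : Disjoint (part Z g₂) (part Z g₃) :=
    H.part_disjoint hg₂Z hg₃Z (fun h => hg₃ (Finset.mem_union_right _ h))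
  have hd₁₂₃ : Disjoint (part Z g₁ ∪ part Z g₂) (part Z g₃) :=
    Finset.disjoint_union_left.mpr ⟨hd₁₃, hd₂₃⟩
  by_cases hc₃ : S ⊆ part Z g₁ ∪ part Z g₂ ∪ part Z g₃
  · have he : S = part Z g₁ ∪ part Z g₂ ∪ part Z g₃ :=
      Finset.Subset.antisymm hc₃
        (Finset.union_subset (Finset.union_subset hsub₁ hsub₂) hsub₃)
    have hcard : S.card = (part Z g₁).card + (part Z g₂).card + (part Z g₃).card := by
      rw [he, Finset.card_union_of_disjoint hd₁₂₃, Finset.card_union_of_disjoint hd₁₂]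
    have : (Fintype.card G : ℚ) * (W₁ + W₂ + W₃) = (Fintype.card G : ℚ) * (1 - y) := by
      rw [mul_add, mul_add, ← hp₁, ← hp₂, ← hp₃, ← hScard, hcard]
      push_cast; ring
    exact arith_three hy hx₁ hxy₁ hW₁ hx₂ hxy₂ hW₂ hx₃ hxy₃ hW₃
      (mul_left_cancel₀ hN.ne' this)
  -- a fourth part is impossible
  obtain ⟨g₄, hg₄S, hg₄⟩ := Finset.not_subset.mp hc₃
  have hg₄Z : g₄ ∉ Z := hmemS.mp hg₄S
  obtain ⟨x₄, W₄, hx₄, hxy₄, hW₄, hp₄⟩ := H.part_weight hg₄Z (hbig g₄ hg₄Z)
  have hsub₄ : part Z g₄ ⊆ S := part_subset_compl g₄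
  have hd₁₄ : Disjoint (part Z g₁) (part Z g₄) :=
    H.part_disjoint hg₁ hg₄Z
      (fun h => hg₄ (Finset.mem_union_left _ (Finset.mem_union_left _ h)))
  have hd₂₄ : Disjoint (part Z g₂) (part Z g₄) :=
    H.part_disjoint hg₂Z hg₄Z
      (fun h => hg₄ (Finset.mem_union_left _ (Finset.mem_union_right _ h)))
  have hd₃₄ : Disjoint (part Z g₃) (part Z g₄) :=
    H.part_disjoint hg₃Z hg₄Z (fun h => hg₄ (Finset.mem_union_right _ h))
  have hd₁₂₃₄ : Disjoint (part Z g₁ ∪ part Z g₂ ∪ part Z g₃) (part Z g₄) :=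
    Finset.disjoint_union_left.mpr ⟨Finset.disjoint_union_left.mpr ⟨hd₁₄, hd₂₄⟩, hd₃₄⟩
  have hle : (part Z g₁).card + (part Z g₂).card + (part Z g₃).card + (part Z g₄).card
      ≤ S.card := by
    rw [← Finset.card_union_of_disjoint hd₁₂, ← Finset.card_union_of_disjoint hd₁₂₃,
      ← Finset.card_union_of_disjoint hd₁₂₃₄]
    exact Finset.card_le_card
      (Finset.union_subset (Finset.union_subset (Finset.union_subset hsub₁ hsub₂) hsub₃) hsub₄)
  have hleQ : (Fintype.card G : ℚ) * (W₁ + W₂ + W₃ + W₄) ≤ (Fintype.card G : ℚ) * (1 - y) := by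
    rw [mul_add, mul_add, mul_add, ← hp₁, ← hp₂, ← hp₃, ← hp₄, ← hScard]
    exact_mod_cast hle
  have h4 := le_of_mul_le_mul_left hleQ hN
  have := weight_ge hx₁ hW₁
  have := weight_ge hx₂ hW₂
  have := weight_ge hx₃ hW₃
  have := weight_ge hx₄ hW₄
  linarith

end Count

end Abstract

end Fermat.Agent.T4.helper10
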