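import Mathlib

/-!
# T4 (IV) [IV-CLASS], `2 × 2` matrix lemmas (helper10)
-/

set_option linter.style.haveILetI false
set_option linter.unusedSectionVars false
set_option linter.unusedVariables false

namespace Fermat.Agent.T4.helper10

open Matrix

variable {k : Type*} [Field k]

/-- `g` is not a scalar matrix. -/
def NonScalar (g : Matrix (Fin 2) (Fin 2) k) : Prop :=
  g 0 1 ≠ 0 ∨ g 1 0 ≠ 0 ∨ g 0 0 ≠ g 1 1

lemma comm_entries {x g : Matrix (Fin 2) (Fin 2) k} (h : g * x = x * g) :
    x 0 1 * g 1 0 = g 0 1 * x 1 0 ∧
    g 0 1 * (x 0 0 - x 1 1) = x 0 1 * (g 0 0 - g 1 1) ∧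
    g 1 0 * (x 0 0 - x 1 1) = x 1 0 * (g 0 0 - g 1 1) := by
  have h00 := congrFun (congrFun h 0) 0
  have h01 := congrFun (congrFun h 0) 1
  have h10 := congrFun (congrFun h 1) 0
  simp only [Matrix.mul_apply, Fin.sum_univ_two] at h00 h01 h10
  refine ⟨?_, ?_, ?_⟩
  · linear_combination (-1 : k) * h00
  · linear_combination (-1 : k) * h01
  · linear_combination h10

/-- The commutant of a non-scalar matrix: proportionality of the off-scalar parts. -/
lemma exists_beta {x g : Matrix (Fin 2) (Fin 2) k} (hg : NonScalar g) (h : g * x = x * g) :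
    ∃ β : k, x 0 1 = β * g 0 1 ∧ x 1 0 = β * g 1 0 ∧ x 0 0 - x 1 1 = β * (g 0 0 - g 1 1) := by
  obtain ⟨e1, e2, e3⟩ := comm_entries h
  rcases hg with hb | hc | had
  · refine ⟨x 0 1 / g 0 1, ?_, ?_, ?_⟩
    · field_simp
    · field_simp
      linear_combination (-1 : k) * e1
    · field_simp
      linear_combination e2
  · refine ⟨x 1 0 / g 1 0, ?_, ?_, ?_⟩
    · field_simp
      linear_combination e1
    · field_simp
    · field_simp
      linear_combination e3
  · have had' : g 0 0 - g 1 1 ≠ 0 := sub_ne_zero.mpr had
    by_cases hb : g 0 1 = 0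
    · by_cases hc : g 1 0 = 0
      · refine ⟨(x 0 0 - x 1 1) / (g 0 0 - g 1 1), ?_, ?_, ?_⟩
        · rw [hb, mul_zero]
          rw [hb, zero_mul] at e2
          rcases mul_eq_zero.mp e2.symm with h0 | h0
          · exact h0
          · exact absurd h0 had'
        · rw [hc, mul_zero]
          rw [hc, zero_mul] at e3
          rcases mul_eq_zero.mp e3.symm with h0 | h0
          · exact h0
          · exact absurd h0 had'
        · field_simp
      · refine ⟨x 1 0 / g 1 0, ?_, ?_, ?_⟩
        · field_simp
          linear_combination e1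
        · field_simp
        · field_simp
          linear_combination e3
    · refine ⟨x 0 1 / g 0 1, ?_, ?_, ?_⟩
      · field_simp
      · field_simp
        linear_combination (-1 : k) * e1
      · field_simp
        linear_combination e2

/-- Two matrices commuting with a non-scalar matrix commute. -/
theorem comm_of_comm_nonScalar {g x y : Matrix (Fin 2) (Fin 2) k} (hg : NonScalar g)
    (hx : g * x = x * g) (hy : g * y = y * g) : x * y = y * x := by
  obtain ⟨β, b1, b2, b3⟩ := exists_beta hg hx
  obtain ⟨γ, c1, c2, c3⟩ := exists_beta hg hy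
  ext i j
  fin_cases i <;> fin_cases j <;>
    simp only [Matrix.mul_apply, Fin.sum_univ_two, Fin.zero_eta, Fin.mk_one, Fin.isValue]
  · rw [b1, c2, c1, b2]; ring
  · have e : y 0 1 * (x 0 0 - x 1 1) = x 0 1 * (y 0 0 - y 1 1) := by
      rw [b1, c1, b3, c3]; ring
    linear_combination e
  · have e : y 1 0 * (x 0 0 - x 1 1) = x 1 0 * (y 0 0 - y 1 1) := by
      rw [b2, c2, b3, c3]; ring
    linear_combination (-1 : k) * e
  · rw [b1, c2, c1, b2]; ring


lemma nonScalar_of_disc_ne_zero {g : Matrix (Fin 2) (Fin 2) k}
    (hdisc : g.trace ^ 2 - 4 * g.det ≠ 0) : NonScalar g := by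
  by_contra hn
  unfold NonScalar at hn
  push Not at hn
  obtain ⟨h1, h2, h3⟩ := hn
  apply hdisc
  rw [Matrix.trace_fin_two, Matrix.det_fin_two, h1, h2, h3]
  ring

/-- A matrix commuting with `g`, with the same trace and determinant, is `g` or its adjugate,
when the discriminant of `g` is nonzero. -/
theorem eq_or_eq_adjugate {g x : Matrix (Fin 2) (Fin 2) k}
    (hdisc : g.trace ^ 2 - 4 * g.det ≠ 0) (hx : g * x = x * g)
    (htr : x.trace = g.trace) (hdet : x.det = g.det) : x = g ∨ x = adjugate g := by
  obtain ⟨β, e1, e2, e3⟩ := exists_beta (nonScalar_of_disc_ne_zero hdisc) hx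
  rw [Matrix.trace_fin_two, Matrix.trace_fin_two] at htr
  rw [Matrix.det_fin_two, Matrix.det_fin_two] at hdet
  rw [Matrix.trace_fin_two, Matrix.det_fin_two] at hdisc
  have hβ2 : (β ^ 2 - 1) * ((g 0 0 + g 1 1) ^ 2 - 4 * (g 0 0 * g 1 1 - g 0 1 * g 1 0)) = 0 := by
    linear_combination (x 0 0 + x 1 1 + g 0 0 + g 1 1) * htr - 4 * hdet -
      (x 0 0 - x 1 1 + β * (g 0 0 - g 1 1)) * e3 - 4 * x 1 0 * e1 - 4 * β * g 0 1 * e2
  have hβ : β = 1 ∨ β = -1 := by
    rcases mul_eq_zero.mp hβ2 with h | h
    · have : (β - 1) * (β + 1) = 0 := by linear_combination h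
      rcases mul_eq_zero.mp this with h' | h'
      · left; linear_combination h'
      · right; linear_combination h'
    · exact absurd h hdisc
  have hp : x 0 0 = g 0 0 ∨ x 0 0 = g 1 1 := by
    have hqr : x 0 1 * x 1 0 = g 0 1 * g 1 0 := by
      rcases hβ with rfl | rfl
      · rw [e1, e2]; ring
      · rw [e1, e2]; ring
    have : (x 0 0 - g 0 0) * (x 0 0 - g 1 1) = 0 := by
      linear_combination (x 0 0) * htr - hdet - hqr
    rcases mul_eq_zero.mp this with h | h
    · left; linear_combination h
    · right; linear_combination h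
  by_cases h2 : (2 : k) = 0
  · -- characteristic two: `-b = b`
    have hneg : ∀ b : k, -b = b := fun b => by
      have : 2 * b = 0 := by rw [h2, zero_mul]
      linear_combination (-1 : k) * this
    rcases hp with hp | hp
    · left
      have hs : x 1 1 = g 1 1 := by linear_combination htr - hp
      ext i j
      fin_cases i <;> fin_cases j
      · exact hp
      · show x 0 1 = g 0 1
        rcases hβ with rfl | rfl
        · rw [e1, one_mul]
        · rw [e1, neg_one_mul, hneg]
      · show x 1 0 = g 1 0
        rcases hβ with rfl | rfl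
        · rw [e2, one_mul]
        · rw [e2, neg_one_mul, hneg]
      · exact hs
    · right
      have hs : x 1 1 = g 0 0 := by linear_combination htr - hp
      rw [Matrix.adjugate_fin_two]
      ext i j
      fin_cases i <;> fin_cases j
      · exact hp
      · show x 0 1 = -g 0 1
        rcases hβ with rfl | rfl
        · rw [e1, one_mul, hneg]
        · rw [e1, neg_one_mul]
      · show x 1 0 = -g 1 0
        rcases hβ with rfl | rfl
        · rw [e2, one_mul, hneg]
        · rw [e2, neg_one_mul]
      · exact hs
  · rcases hβ with rfl | rfl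
    · left
      have hp' : x 0 0 = g 0 0 := by
        have : 2 * (x 0 0 - g 0 0) = 0 := by linear_combination htr + e3
        rcases mul_eq_zero.mp this with h | h
        · exact absurd h h2
        · linear_combination h
      have hs : x 1 1 = g 1 1 := by linear_combination htr - hp'
      ext i j
      fin_cases i <;> fin_cases j
      · exact hp'
      · show x 0 1 = g 0 1
        rw [e1, one_mul]
      · show x 1 0 = g 1 0
        rw [e2, one_mul]
      · exact hs
    · right
      have hp' : x 0 0 = g 1 1 := by
        have : 2 * (x 0 0 - g 1 1) = 0 := by linear_combination htr + e3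
        rcases mul_eq_zero.mp this with h | h
        · exact absurd h h2
        · linear_combination h
      have hs : x 1 1 = g 0 0 := by linear_combination htr - hp'
      rw [Matrix.adjugate_fin_two]
      ext i j
      fin_cases i <;> fin_cases j
      · exact hp'
      · show x 0 1 = -g 0 1
        rw [e1, neg_one_mul]
      · show x 1 0 = -g 1 0
        rw [e2, neg_one_mul]
      · exact hs


/-- Cayley–Hamilton for `2 × 2` matrices. -/
lemma sq_eq_fin_two (g : Matrix (Fin 2) (Fin 2) k) :
    g * g = g.trace • g - g.det • (1 : Matrix (Fin 2) (Fin 2) k) := by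
  ext i j
  fin_cases i <;> fin_cases j <;>
    simp [Matrix.mul_apply, Fin.sum_univ_two, Matrix.trace_fin_two, Matrix.det_fin_two] <;>
    ring

/-- Powers of `a + ν` with `ν ^ 2 = 0`. -/
lemma pow_scalar_add_nilp (a : k) (ν : Matrix (Fin 2) (Fin 2) k) (hν : ν * ν = 0) (j : ℕ) :
    ∃ c : k, c * a = j * a ^ j ∧
      (a • (1 : Matrix (Fin 2) (Fin 2) k) + ν) ^ j = (a ^ j) • (1 : Matrix (Fin 2) (Fin 2) k) + c • ν := by
  induction j with
  | zero => exact ⟨0, by simp, by simp⟩
  | succ j ih =>
    obtain ⟨c, hc, hpow⟩ := ih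
    refine ⟨a * c + a ^ j, ?_, ?_⟩
    · push_cast
      linear_combination a * hc
    · rw [pow_succ, hpow]
      simp only [add_mul, mul_add, Matrix.smul_mul, Matrix.mul_smul, Matrix.one_mul,
        Matrix.mul_one, hν, smul_zero, add_zero, smul_smul, pow_succ]
      rw [add_assoc, ← add_smul]
      congr 2
      ring

/-- A non-scalar invertible `2 × 2` matrix of finite order prime to the characteristic has
nonzero discriminant. -/
theorem disc_ne_zero_of_pow_eq_one {g : Matrix (Fin 2) (Fin 2) k} (hg : NonScalar g)
    (hdet : g.det ≠ 0) {m : ℕ} (hm : (m : k) ≠ 0) (hpow : g ^ m = 1) :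
    g.trace ^ 2 - 4 * g.det ≠ 0 := by
  intro hdisc
  by_cases h2 : (2 : k) = 0
  · -- characteristic two
    have h4 : (4 : k) = 0 := by
      have : (4 : k) = 2 * 2 := by norm_num
      rw [this, h2, zero_mul]
    have ht : g.trace = 0 := by
      have : g.trace ^ 2 = 0 := by rw [h4, zero_mul, sub_zero] at hdisc; exact hdisc
      exact pow_eq_zero_iff (two_ne_zero) |>.mp this
    have hneg : -g.det = g.det := by
      have : 2 * g.det = 0 := by rw [h2, zero_mul]
      linear_combination (-1 : k) * this
    have hsq : g * g = g.det • (1 : Matrix (Fin 2) (Fin 2) k) := by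
      rw [sq_eq_fin_two, ht, zero_smul, zero_sub, ← neg_smul, hneg]
    -- `m` is odd
    obtain ⟨j, hj | hj⟩ := Nat.even_or_odd' m
    · exfalso
      apply hm
      rw [hj]; push_cast; rw [h2, zero_mul]
    · have hgm : g ^ m = (g.det ^ j) • g := by
        rw [hj, pow_succ, pow_mul, pow_two, hsq, smul_pow, one_pow, Matrix.smul_mul,
          Matrix.one_mul]
      rw [hgm] at hpow
      have hdj : g.det ^ j ≠ 0 := pow_ne_zero _ hdet
      have e01 := congrFun (congrFun hpow 0) 1
      have e10 := congrFun (congrFun hpow 1) 0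
      have e00 := congrFun (congrFun hpow 0) 0
      have e11 := congrFun (congrFun hpow 1) 1
      simp only [Matrix.smul_apply, smul_eq_mul, Matrix.one_apply_ne (show (0 : Fin 2) ≠ 1 by decide),
        Matrix.one_apply_ne (show (1 : Fin 2) ≠ 0 by decide), Matrix.one_apply_eq] at e01 e10 e00 e11
      rcases hg with h | h | h
      · exact h ((mul_eq_zero.mp e01).resolve_left hdj)
      · exact h ((mul_eq_zero.mp e10).resolve_left hdj)
      · exact h (mul_left_cancel₀ hdj (e00.trans e11.symm))
  · -- odd or zero characteristic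
    set a : k := g.trace / 2 with ha
    set ν : Matrix (Fin 2) (Fin 2) k := g - a • (1 : Matrix (Fin 2) (Fin 2) k) with hνdef
    have hga : g = a • (1 : Matrix (Fin 2) (Fin 2) k) + ν := by rw [hνdef]; abel
    have hta : g.trace = 2 * a := by rw [ha]; field_simp
    have hda : g.det = a ^ 2 := by
      have : 4 * g.det = 4 * a ^ 2 := by
        rw [hta] at hdisc
        linear_combination (-1 : k) * hdisc
      have h4 : (4 : k) ≠ 0 := by
        have : (4 : k) = 2 * 2 := by norm_num
        rw [this]; exact mul_ne_zero h2 h2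
      exact mul_left_cancel₀ h4 this
    have ha0 : a ≠ 0 := by
      intro h0
      apply hdet
      rw [hda, h0]; ring
    have hνν : ν * ν = 0 := by
      have h1 : ν * ν = g * g - (2 * a) • g + (a ^ 2) • (1 : Matrix (Fin 2) (Fin 2) k) := by
        rw [hνdef]
        simp only [sub_mul, mul_sub, Matrix.smul_mul, Matrix.mul_smul, Matrix.one_mul,
          Matrix.mul_one, smul_smul]
        rw [two_mul, add_smul, pow_two]
        abel
      rw [h1, sq_eq_fin_two, hta, hda]
      abel
    obtain ⟨c, hc, hp⟩ := pow_scalar_add_nilp a ν hνν m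
    rw [← hga, hpow] at hp
    have hc0 : c ≠ 0 := by
      intro h0
      rw [h0, zero_mul] at hc
      exact (mul_ne_zero hm (pow_ne_zero _ ha0)) hc.symm
    have e01 := congrFun (congrFun hp 0) 1
    have e10 := congrFun (congrFun hp 1) 0
    have e00 := congrFun (congrFun hp 0) 0
    have e11 := congrFun (congrFun hp 1) 1
    simp only [Matrix.add_apply, Matrix.smul_apply, smul_eq_mul, Matrix.sub_apply,
      Matrix.one_apply_ne (show (0 : Fin 2) ≠ 1 by decide),
      Matrix.one_apply_ne (show (1 : Fin 2) ≠ 0 by decide), Matrix.one_apply_eq, hνdef,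
      mul_zero, sub_zero, zero_add, mul_one] at e01 e10 e00 e11
    rcases hg with h | h | h
    · exact h ((mul_eq_zero.mp e01.symm).resolve_left hc0)
    · exact h ((mul_eq_zero.mp e10.symm).resolve_left hc0)
    · apply h
      have : c * (g 0 0 - g 1 1) = 0 := by linear_combination e11 - e00
      have := (mul_eq_zero.mp this).resolve_left hc0
      linear_combination this

end Fermat.Agent.T4.helper10
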