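import Mathlib
import Fermat.Prelude.Def_GaloisRep_Residual
import Fermat.Prelude.Def_Deformations_MatrixRepresentation

/-!
# T4 block (IV): the Deligne-Serre endgame, interface (helper80)

Shapes only (definitions and `Prop`s).  The chain is

* `RankinStatement`  (forms side: Rankin bound for all conjugates)        -- input
* `ResStatement`     (blocks I + III + V: residual representations)      -- input
* `DensStatement`    (block II: Chebotarev, lower Dirichlet density)     -- input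
* `FinStatement`     : Rankin  ==> values in a finite set off a thin set of primes
* `DensWireStatement`: density ==> a 23/24 portion of every finite image is Frobenius
* `BoundStatement`   : pure group theory in `GL 2 k`, any field `k` of characteristic `l`
* `LiftStatement`    : lifting from the residue field of a valuation subring of `ℂ`
* `IndepStatement`   : independence of `l`
* `IrrStatement`     : irreducibility from the Rankin bound
* `EndgameStatement` : the conclusion of the frozen statement S48 for an abstract system.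
-/

set_option autoImplicit false

namespace Fermat.Agent.T4.helper80

/-- The absolute Galois group of `ℚ`. -/
abbrev GQ : Type := (AlgebraicClosure ℚ ≃ₐ[ℚ] AlgebraicClosure ℚ)

/-- The algebraic integers of `ℂ`. -/
abbrev Zbar : Subalgebra ℤ ℂ := integralClosure ℤ ℂ

/-! ## Dirichlet masses and densities of sets of primes -/

/-- The Dirichlet mass `∑_{p ∈ X, p prime} p ^ (-s)` of a set of primes. -/
noncomputable def primeMass (X : Set ℕ) (s : ℝ) : ℝ :=
  ∑' p : ℕ, Set.indicator {p : ℕ | p.Prime ∧ p ∈ X} (fun p : ℕ => (p : ℝ) ^ (-s)) p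

/-- `X` has upper Dirichlet density at most `η`. -/
def UpperDensityLE (X : Set ℕ) (η : ℝ) : Prop :=
  ∀ ε : ℝ, 0 < ε → ∃ δ : ℝ, 0 < δ ∧ ∀ s : ℝ, 1 < s → s < 1 + δ →
    primeMass X s ≤ (η + ε) * Real.log (1 / (s - 1))

/-- `X` has lower Dirichlet density at least `η`. -/
def LowerDensityGE (X : Set ℕ) (η : ℝ) : Prop :=
  ∀ ε : ℝ, 0 < ε → ∃ δ : ℝ, 0 < δ ∧ ∀ s : ℝ, 1 < s → s < 1 + δ →
    (η - ε) * Real.log (1 / (s - 1)) ≤ primeMass X s

/-- The primes having some Frobenius element whose image lies in `C`. -/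
def frobSet {G : Type} [Group G] (ρ : GQ →* G) (C : Set G) : Set ℕ :=
  {p : ℕ | ∃ (A : ValuationSubring (AlgebraicClosure ℚ)) (σ : GQ),
    A.LiesOverPrime p ∧ A.IsFrobeniusAt σ p ∧ ρ σ ∈ C}

/-- **Input from block (II)**: Chebotarev, in the lower-density form, for conjugation-stable
subsets of a finite quotient of `GQ`. -/
def DensStatement : Prop :=
  ∀ (G : Type) (_ : Group G) (_ : Finite G) (ρ : GQ →* G),
    GaloisFactorsThroughFiniteLevel ρ → Function.Surjective ρ →
    ∀ C : Set G, (∀ g h : G, h ∈ C → g * h * g⁻¹ ∈ C) →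
      LowerDensityGE (frobSet ρ C) ((Nat.card C : ℝ) / (Nat.card G : ℝ))

/-! ## The Rankin bound -/

/-- The summand of the Rankin sum. -/
noncomputable def rankinTerm (N : ℕ) (b : ℕ → ℂ) (s : ℝ) (p : ℕ) : ℝ :=
  Set.indicator {p : ℕ | p.Prime ∧ ¬ p ∣ N} (fun p : ℕ => ‖b p‖ ^ 2 * (p : ℝ) ^ (-s)) p

/-- Rankin's bound `∑_{p ∤ N} |b_p|² p^{-s} ≤ log (1/(s-1)) + C` for `1 < s < 2`. -/
def RankinBound (N : ℕ) (b : ℕ → ℂ) : Prop :=
  ∃ C : ℝ, ∀ s : ℝ, 1 < s → s < 2 →
    Summable (rankinTerm N b s) ∧ ∑' p : ℕ, rankinTerm N b s p ≤ Real.log (1 / (s - 1)) + C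

/-- **Input from the forms side**: the `a p` are integers of a number field and every
conjugate system satisfies the Rankin bound. -/
def RankinStatement (N : ℕ) (a : ℕ → ℂ) : Prop :=
  ∃ (K : Type) (_ : Field K) (_ : NumberField K) (ι : K →+* ℂ)
    (α : ℕ → NumberField.RingOfIntegers K),
    (∀ p : ℕ, p.Prime → ¬ p ∣ N → ι (α p : K) = a p) ∧
    ∀ τ : K →+* ℂ, RankinBound N (fun p : ℕ => τ (α p : K))

/-! ## Residual representations -/

/-- `ρ` is unramified at `p` with Frobenius trace `t` and determinant `d` there. -/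
def FrobData {R : Type} [CommRing R] (ρ : GQ →* GL (Fin 2) R) (p : ℕ) (t d : R) : Prop :=
  ∀ A : ValuationSubring (AlgebraicClosure ℚ), A.LiesOverPrime p →
    (∀ σ ∈ A.inertiaSubgroupIn ℚ, ρ σ = 1) ∧
    ∀ σ : GQ, A.IsFrobeniusAt σ p →
      ((ρ σ : GL (Fin 2) R) : Matrix (Fin 2) (Fin 2) R).trace = t ∧
      ((ρ σ : GL (Fin 2) R) : Matrix (Fin 2) (Fin 2) R).det = d

/-- A residual representation for the system `(a, e)` along `φ`, of level `N * l`. -/
def HasResidual (N : ℕ) (a e : ℕ → ℂ) (l : ℕ) {k : Type} [Field k] (φ : Zbar →+* k) : Prop :=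
  ∃ ρ : GQ →* GL (Fin 2) k, GaloisFactorsThroughFiniteLevel ρ ∧
    ∀ p : ℕ, p.Prime → ¬ p ∣ N * l →
      ∃ x y : Zbar, (x : ℂ) = a p ∧ (y : ℂ) = e p ∧ FrobData ρ p (φ x) (φ y)

/-- **Input from blocks (I) + (III) + (V)**: residual representations exist for
infinitely many `l`, along every residue map of the algebraic integers to an algebraically
closed field of characteristic `l`. -/
def ResStatement (N : ℕ) (a e : ℕ → ℂ) : Prop :=
  ∀ B : ℕ, ∃ l : ℕ, B ≤ l ∧ l.Prime ∧
    ∀ (k : Type) (_ : Field k) (_ : CharP k l) (_ : IsAlgClosed k) (φ : Zbar →+* k),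
      HasResidual N a e l φ

/-! ## The conclusion -/

/-- The conclusion of the frozen statement S48 for the abstract system `(a, e)`. -/
def Conclusion (N : ℕ) (a e : ℕ → ℂ) : Prop :=
  ∃ ρ : GQ →* GL (Fin 2) ℂ, GaloisFactorsThroughFiniteLevel ρ ∧
    (Deformation.matrixRepresentation ρ).IsIrreducible ∧
    ∀ p : ℕ, p.Prime → ¬ p ∣ N →
      ∀ A : ValuationSubring (AlgebraicClosure ℚ), A.LiesOverPrime p →
        (∀ σ ∈ A.inertiaSubgroupIn ℚ, ρ σ = 1) ∧
        ∀ σ : GQ, A.IsFrobeniusAt σ p →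
          ((ρ σ : GL (Fin 2) ℂ) : Matrix (Fin 2) (Fin 2) ℂ).trace = a p ∧
          ((ρ σ : GL (Fin 2) ℂ) : Matrix (Fin 2) (Fin 2) ℂ).det = e p

/-- **The endgame**: what block (IV) delivers. -/
def EndgameStatement : Prop :=
  ∀ (N : ℕ) (_ : NeZero N) (ε : DirichletCharacter ℂ N) (a : ℕ → ℂ),
    DensStatement → RankinStatement N a →
    ResStatement N a (fun p : ℕ => ε (p : ZMod N)) →
    Conclusion N a (fun p : ℕ => ε (p : ZMod N))

/-! ## The leaves -/

/-- The set of `(trace, det)` pairs of `ρ` on `F` has at most `M` elements. -/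
def FewCharpolys {Γ k : Type} [Group Γ] [Field k] (ρ : Γ →* GL (Fin 2) k) (F : Set Γ)
    (M : ℕ) : Prop :=
  ∃ T : Finset (k × k), T.card ≤ M ∧ ∀ f ∈ F,
    (((ρ f : GL (Fin 2) k) : Matrix (Fin 2) (Fin 2) k).trace,
      ((ρ f : GL (Fin 2) k) : Matrix (Fin 2) (Fin 2) k).det) ∈ T

/-- `F` meets every finite quotient through `ρ` in a `23/24` portion. -/
def LargeIn {Γ k : Type} [Group Γ] [Field k] (ρ : Γ →* GL (Fin 2) k) (F : Set Γ) : Prop :=
  ∀ ψ : Γ →* GL (Fin 2) k, ρ.ker ≤ ψ.ker →
    23 * Nat.card ψ.range ≤ 24 * Nat.card (ψ '' F)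

/-- **[IV-UNIP]** a subgroup of `GL 2 k` (characteristic `l`) stabilising no line and containing
a nontrivial unipotent element: a subset with at most `M` pairs `(trace, det)` has at most
`|G| (1 / (l + 1) + M / l)` elements. -/
def UnipStatement : Prop :=
  ∀ (k : Type) (_ : Field k) (l : ℕ) (_ : l.Prime) (_ : CharP k l)
    (G : Subgroup (GL (Fin 2) k)) (_ : Finite G) (M : ℕ) (H : Set (GL (Fin 2) k)),
    H ⊆ (G : Set (GL (Fin 2) k)) →
    (∃ T : Finset (k × k), T.card ≤ M ∧ ∀ h ∈ H,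
      ((h : Matrix (Fin 2) (Fin 2) k).trace, (h : Matrix (Fin 2) (Fin 2) k).det) ∈ T) →
    (¬ ∃ v : Fin 2 → k, v ≠ 0 ∧ ∀ g ∈ G, ∃ c : k,
      (g : Matrix (Fin 2) (Fin 2) k).mulVec v = c • v) →
    (∃ u ∈ G, u ≠ 1 ∧ ((u : Matrix (Fin 2) (Fin 2) k) - 1) ^ 2 = 0) →
    (Nat.card H : ℝ) ≤ (Nat.card G : ℝ) * (1 / ((l : ℝ) + 1) + (M : ℝ) / (l : ℝ))

/-- **[IV-CLASS]** a finite subgroup of `GL 2 k` of order prime to the characteristic has an
abelian subgroup of index at most `12`. -/
def ClassStatement : Prop :=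
  ∀ (k : Type) (_ : Field k) (G : Subgroup (GL (Fin 2) k)) (_ : Finite G),
    ((Nat.card G : ℕ) : k) ≠ 0 →
    ∃ C : Subgroup (GL (Fin 2) k), C ≤ G ∧ (∀ x ∈ C, ∀ y ∈ C, x * y = y * x) ∧
      Nat.card G ≤ 12 * Nat.card C

/-- **[IV-BOUND]** the group theory of the endgame: a representation into `GL 2 k` with finite
image, `k` of large characteristic `l`, such that a set `F` with few characteristic polynomials
is large in every quotient, has the same traces and determinants as a representation whose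
image has bounded order prime to `l`. -/
def BoundStatement : Prop :=
  ∀ M : ℕ, ∃ A : ℕ, ∀ (k : Type) (_ : Field k) (l : ℕ) (_ : l.Prime) (_ : CharP k l), A < l →
    ∀ (Γ : Type) (_ : Group Γ) (ρ : Γ →* GL (Fin 2) k), Finite ρ.range → ∀ F : Set Γ,
      LargeIn ρ F → FewCharpolys ρ F M →
      ∃ ρ' : Γ →* GL (Fin 2) k, ρ.ker ≤ ρ'.ker ∧
        (∀ γ : Γ,
          ((ρ' γ : GL (Fin 2) k) : Matrix (Fin 2) (Fin 2) k).trace =
            ((ρ γ : GL (Fin 2) k) : Matrix (Fin 2) (Fin 2) k).trace ∧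
          ((ρ' γ : GL (Fin 2) k) : Matrix (Fin 2) (Fin 2) k).det =
            ((ρ γ : GL (Fin 2) k) : Matrix (Fin 2) (Fin 2) k).det) ∧
        Nat.card ρ'.range ≤ A ∧ ¬ l ∣ Nat.card ρ'.range

/-- **[IV-LIFT]** lifting to characteristic zero: a representation with finite image of order
prime to the residue characteristic, over the residue field of a valuation subring `V` of `ℂ`,
is the reduction of a complex representation with traces and determinants in `V`. -/
def LiftStatement : Prop :=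
  ∀ (V : ValuationSubring ℂ) (Γ : Type) (_ : Group Γ)
    (ρ : Γ →* GL (Fin 2) (IsLocalRing.ResidueField V)), Finite ρ.range →
    ((Nat.card ρ.range : ℕ) : IsLocalRing.ResidueField V) ≠ 0 →
    ∃ r : Γ →* GL (Fin 2) ℂ, ρ.ker ≤ r.ker ∧
      ∀ γ : Γ, ∃ t d : V,
        (t : ℂ) = ((r γ : GL (Fin 2) ℂ) : Matrix (Fin 2) (Fin 2) ℂ).trace ∧
        (d : ℂ) = ((r γ : GL (Fin 2) ℂ) : Matrix (Fin 2) (Fin 2) ℂ).det ∧
        IsLocalRing.residue V t =
          ((ρ γ : GL (Fin 2) (IsLocalRing.ResidueField V)) :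
            Matrix (Fin 2) (Fin 2) (IsLocalRing.ResidueField V)).trace ∧
        IsLocalRing.residue V d =
          ((ρ γ : GL (Fin 2) (IsLocalRing.ResidueField V)) :
            Matrix (Fin 2) (Fin 2) (IsLocalRing.ResidueField V)).det

/-- **[IV-FIN]** Rankin for all conjugates: off a set of primes of small upper density the
`a p` take finitely many values. -/
def FinStatement : Prop :=
  ∀ (N : ℕ) (a : ℕ → ℂ), RankinStatement N a → ∀ η : ℝ, 0 < η →
    ∃ (Y : Finset ℂ) (X : Set ℕ), UpperDensityLE X η ∧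
      ∀ p : ℕ, p.Prime → ¬ p ∣ N → p ∉ X → a p ∈ Y

/-- The Frobenius elements at the primes outside `X`. -/
def frobElts (X : Set ℕ) : Set GQ :=
  {σ : GQ | ∃ (p : ℕ) (A : ValuationSubring (AlgebraicClosure ℚ)),
    p.Prime ∧ p ∉ X ∧ A.LiesOverPrime p ∧ A.IsFrobeniusAt σ p}

/-- **[IV-DENSWIRE]** density: the Frobenius elements off a set of primes of upper density at
most `1/48` are large in every finite-level representation. -/
def DensWireStatement : Prop :=
  DensStatement → ∀ X : Set ℕ, UpperDensityLE X (1 / 48) →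
    ∀ (k : Type) (_ : Field k) (ρ : GQ →* GL (Fin 2) k),
      GaloisFactorsThroughFiniteLevel ρ → LargeIn ρ (frobElts X)

/-- A complex representation congruent to `(a, e)` at the valuation subring `V`, away from
`N * l`, with image of order at most `A`. -/
def IsCongruentLift (N : ℕ) (a e : ℕ → ℂ) (A l : ℕ) (V : ValuationSubring ℂ)
    (r : GQ →* GL (Fin 2) ℂ) : Prop :=
  (l : ℂ) ∈ V.nonunits ∧ GaloisFactorsThroughFiniteLevel r ∧ Nat.card r.range ≤ A ∧
    ∀ p : ℕ, p.Prime → ¬ p ∣ N * l →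
      ∀ B : ValuationSubring (AlgebraicClosure ℚ), B.LiesOverPrime p →
        (∀ σ ∈ B.inertiaSubgroupIn ℚ, r σ = 1) ∧
        ∀ σ : GQ, B.IsFrobeniusAt σ p →
          ((r σ : GL (Fin 2) ℂ) : Matrix (Fin 2) (Fin 2) ℂ).trace - a p ∈ V.nonunits ∧
          ((r σ : GL (Fin 2) ℂ) : Matrix (Fin 2) (Fin 2) ℂ).det - e p ∈ V.nonunits

/-- **[IV-INDEP]** independence of `l`: congruent lifts of bounded order for infinitely many
`l` give one representation with the exact traces and determinants at all `p ∤ N`. -/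
def IndepStatement : Prop :=
  ∀ (N : ℕ) (a e : ℕ → ℂ), N ≠ 0 →
    (∀ p : ℕ, p.Prime → ¬ p ∣ N → IsIntegral ℤ (a p)) →
    (∀ p : ℕ, p.Prime → ¬ p ∣ N → IsIntegral ℤ (e p)) →
    ∀ A : ℕ, (∀ B : ℕ, ∃ l : ℕ, B ≤ l ∧ l.Prime ∧
      ∃ (V : ValuationSubring ℂ) (r : GQ →* GL (Fin 2) ℂ), IsCongruentLift N a e A l V r) →
    ∃ ρ : GQ →* GL (Fin 2) ℂ, GaloisFactorsThroughFiniteLevel ρ ∧
      ∀ p : ℕ, p.Prime → ¬ p ∣ N → FrobData ρ p (a p) (e p)

/-- **[IV-IRR]** irreducibility: a finite-level complex representation whose Frobenius traces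
satisfy the Rankin bound is irreducible. -/
def IrrStatement : Prop :=
  DensStatement → ∀ (N : ℕ) (a : ℕ → ℂ) (ρ : GQ →* GL (Fin 2) ℂ), N ≠ 0 →
    RankinBound N a → GaloisFactorsThroughFiniteLevel ρ →
    (∀ p : ℕ, p.Prime → ¬ p ∣ N →
      ∀ A : ValuationSubring (AlgebraicClosure ℚ), A.LiesOverPrime p →
        ∀ σ : GQ, A.IsFrobeniusAt σ p →
          ((ρ σ : GL (Fin 2) ℂ) : Matrix (Fin 2) (Fin 2) ℂ).trace = a p) →
    (Deformation.matrixRepresentation ρ).IsIrreducible

/-- **[IV-RANKIN]** the Rankin bound for a weight one form with the Hecke relations of the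
frozen statement. -/
def RankinFormStatement : Prop :=
  ∀ (N : ℕ) (_ : NeZero N) (ε : DirichletCharacter ℂ N)
    (f : CuspForm (CongruenceSubgroup.Gamma1 N) 1),
    ModularFormClass.qCoeff f 1 = 1 →
    (∀ p : ℕ, p.Prime → ¬ p ∣ N → ∀ n : ℕ,
      ModularFormClass.qCoeff f (p * n) +
          ε (p : ZMod N) * (if p ∣ n then ModularFormClass.qCoeff f (n / p) else 0) =
        ModularFormClass.qCoeff f p * ModularFormClass.qCoeff f n) →
    RankinBound N (fun p : ℕ => ModularFormClass.qCoeff f p)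

/-- **[IV-VAL]** valuation subrings of `ℂ` above every prime, with algebraically closed
residue field. -/
def ValStatement : Prop :=
  ∀ l : ℕ, l.Prime → ∃ V : ValuationSubring ℂ, (l : ℂ) ∈ V.nonunits ∧
    IsAlgClosed (IsLocalRing.ResidueField V) ∧ CharP (IsLocalRing.ResidueField V) l

/-- **Input from the forms side**, packaged: what blocks (I), (III), (V) and the conjugate
forms have to deliver for the frozen statement S48. -/
def FormsStatement : Prop :=
  ∀ (N : ℕ) (_ : NeZero N) (ε : DirichletCharacter ℂ N)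
    (f : CuspForm (CongruenceSubgroup.Gamma1 N) 1),
    ModularFormClass.qCoeff f 1 = 1 →
    (∀ p : ℕ, p.Prime → ¬ p ∣ N → ∀ n : ℕ,
      ModularFormClass.qCoeff f (p * n) +
          ε (p : ZMod N) * (if p ∣ n then ModularFormClass.qCoeff f (n / p) else 0) =
        ModularFormClass.qCoeff f p * ModularFormClass.qCoeff f n) →
    RankinStatement N (fun p : ℕ => ModularFormClass.qCoeff f p) ∧
      ResStatement N (fun p : ℕ => ModularFormClass.qCoeff f p)
        (fun p : ℕ => ε (p : ZMod N))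

end Fermat.Agent.T4.helper80
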