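import Mathlib
import Fermat.Agent.T4.helper80_EndgameDefs
import Fermat.Agent.T4.helper10_ClassEq
import Fermat.Agent.T4.helper10_ClassMat

/-!
# T4 (IV) [IV-CLASS]: a finite subgroup of `GL₂(k)` of order prime to the characteristic has
an abelian subgroup of index at most `12` (helper10)

`classS : helper80.ClassStatement`, verbatim.
-/

set_option linter.style.haveILetI false
set_option linter.unusedSectionVars false
set_option linter.unusedVariables false

namespace Fermat.Agent.T4.helper10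

open Matrix

variable {k : Type} [Field k]

/-- A scalar invertible matrix is central. -/
lemma mem_center_of_not_nonScalar (g : GL (Fin 2) k)
    (h : ¬ NonScalar (g : Matrix (Fin 2) (Fin 2) k)) : g ∈ Subgroup.center (GL (Fin 2) k) := by
  unfold NonScalar at h
  push Not at h
  obtain ⟨h1, h2, h3⟩ := h
  have hg : (g : Matrix (Fin 2) (Fin 2) k) = (g : Matrix (Fin 2) (Fin 2) k) 0 0 •
      (1 : Matrix (Fin 2) (Fin 2) k) := by
    ext i j
    fin_cases i <;> fin_cases j
    · simp
    · simpa using h1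
    · simpa using h2
    · simpa using h3.symm
  rw [Subgroup.mem_center_iff]
  intro x
  apply Units.ext
  rw [Units.val_mul, Units.val_mul, hg, Matrix.mul_smul, Matrix.smul_mul, Matrix.mul_one,
    Matrix.one_mul]

/-- The scalar subgroup of `G`. -/
def scalarSub (G : Subgroup (GL (Fin 2) k)) : Subgroup G :=
  (Subgroup.center (GL (Fin 2) k)).subgroupOf G

lemma nonScalar_of_not_mem {G : Subgroup (GL (Fin 2) k)} {g : G} (hg : g ∉ scalarSub G) :
    NonScalar ((g : GL (Fin 2) k) : Matrix (Fin 2) (Fin 2) k) := by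
  by_contra h
  exact hg (Subgroup.mem_subgroupOf.mpr (mem_center_of_not_nonScalar _ h))

lemma coe_comm {G : Subgroup (GL (Fin 2) k)} {g x : G} (h : g * x = x * g) :
    ((g : GL (Fin 2) k) : Matrix (Fin 2) (Fin 2) k) * ((x : GL (Fin 2) k) : Matrix _ _ k) =
      ((x : GL (Fin 2) k) : Matrix _ _ k) * ((g : GL (Fin 2) k) : Matrix _ _ k) := by
  have := congrArg (fun y : G => ((y : GL (Fin 2) k) : Matrix (Fin 2) (Fin 2) k)) h
  simpa using this

lemma eq_of_coe_eq {G : Subgroup (GL (Fin 2) k)} {x y : G}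
    (h : ((x : GL (Fin 2) k) : Matrix (Fin 2) (Fin 2) k) = ((y : GL (Fin 2) k) : Matrix _ _ k)) :
    x = y :=
  Subtype.ext (Units.ext h)

lemma coe_conj {G : Subgroup (GL (Fin 2) k)} (h g : G) :
    (((h * g * h⁻¹ : G) : GL (Fin 2) k) : Matrix (Fin 2) (Fin 2) k) =
      ((h : GL (Fin 2) k) : Matrix (Fin 2) (Fin 2) k) * ((g : GL (Fin 2) k) : Matrix _ _ k) *
        (((h : GL (Fin 2) k)⁻¹ : GL (Fin 2) k) : Matrix (Fin 2) (Fin 2) k) := by
  simp

lemma trace_conj {G : Subgroup (GL (Fin 2) k)} (h g : G) :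
    (((h * g * h⁻¹ : G) : GL (Fin 2) k) : Matrix (Fin 2) (Fin 2) k).trace =
      ((g : GL (Fin 2) k) : Matrix (Fin 2) (Fin 2) k).trace := by
  rw [coe_conj]
  exact Matrix.trace_units_conj _ _

lemma det_conj {G : Subgroup (GL (Fin 2) k)} (h g : G) :
    (((h * g * h⁻¹ : G) : GL (Fin 2) k) : Matrix (Fin 2) (Fin 2) k).det =
      ((g : GL (Fin 2) k) : Matrix (Fin 2) (Fin 2) k).det := by
  rw [coe_conj]
  exact Matrix.det_units_conj _ _

/-- The hypotheses of the class equation hold for finite subgroups of `GL₂(k)` of order prime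
to the characteristic. -/
theorem classHyp_scalarSub (G : Subgroup (GL (Fin 2) k)) [Finite G]
    (hcard : ((Nat.card G : ℕ) : k) ≠ 0) : ClassHyp (scalarSub G) := by
  have hdisc : ∀ g : G, g ∉ scalarSub G →
      ((g : GL (Fin 2) k) : Matrix (Fin 2) (Fin 2) k).trace ^ 2 -
        4 * ((g : GL (Fin 2) k) : Matrix (Fin 2) (Fin 2) k).det ≠ 0 := by
    intro g hg
    refine disc_ne_zero_of_pow_eq_one (nonScalar_of_not_mem hg) ?_ hcard ?_
    · exact ((Matrix.isUnit_iff_isUnit_det _).mp (g : GL (Fin 2) k).isUnit).ne_zero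
    · have h1 : g ^ Nat.card G = 1 := pow_card_eq_one'
      have h2 : ((g : GL (Fin 2) k) : Matrix (Fin 2) (Fin 2) k) ^ Nat.card G =
          (((g ^ Nat.card G : G) : GL (Fin 2) k) : Matrix (Fin 2) (Fin 2) k) := by
        simp only [Subgroup.coe_pow, Units.val_pow_eq_pow_val]
      rw [h2, h1]
      simp
  refine ⟨?_, ?_, ?_⟩
  · intro z hz g
    have hz' : (z : GL (Fin 2) k) ∈ Subgroup.center (GL (Fin 2) k) :=
      Subgroup.mem_subgroupOf.mp hz
    apply Subtype.ext
    have := Subgroup.mem_center_iff.mp hz' (g : GL (Fin 2) k)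
    simpa using this.symm
  · intro g hg x y hx hy
    apply eq_of_coe_eq
    have := comm_of_comm_nonScalar (nonScalar_of_not_mem hg) (coe_comm hx) (coe_comm hy)
    simpa using this
  · intro g hg
    by_cases hex : ∃ h : G, g * (h * g * h⁻¹) = h * g * h⁻¹ * g ∧ h * g * h⁻¹ ≠ g
    · obtain ⟨h₀, hc₀, hne₀⟩ := hex
      refine ⟨h₀ * g * h₀⁻¹, fun h hc => ?_⟩
      have key : ∀ u : G, g * (u * g * u⁻¹) = u * g * u⁻¹ * g →
          (((u * g * u⁻¹ : G) : GL (Fin 2) k) : Matrix (Fin 2) (Fin 2) k) =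
            ((g : GL (Fin 2) k) : Matrix (Fin 2) (Fin 2) k) ∨
          (((u * g * u⁻¹ : G) : GL (Fin 2) k) : Matrix (Fin 2) (Fin 2) k) =
            adjugate ((g : GL (Fin 2) k) : Matrix (Fin 2) (Fin 2) k) := fun u hu =>
        eq_or_eq_adjugate (hdisc g hg) (coe_comm hu) (trace_conj u g) (det_conj u g)
      rcases key h hc with e | e
      · exact Or.inl (eq_of_coe_eq e)
      · rcases key h₀ hc₀ with e₀ | e₀
        · exact absurd (eq_of_coe_eq e₀) hne₀
        · exact Or.inr (eq_of_coe_eq (e.trans e₀.symm))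
    · refine ⟨g, fun h hc => ?_⟩
      left
      by_contra hne
      exact hex ⟨h, hc, hne⟩

/-- **[IV-CLASS]**, verbatim. -/
theorem classS : Fermat.Agent.T4.helper80.ClassStatement := by
  intro k _ G _ hcard
  classical
  haveI : Fintype G := Fintype.ofFinite G
  have H := classHyp_scalarSub G hcard
  by_cases hne : ∃ g : G, g ∉ scalarSub G
  · obtain ⟨g, hg, hle⟩ := H.exists_cen_index_le hne
    refine ⟨(cen g).map G.subtype, Subgroup.map_subtype_le _, ?_, ?_⟩
    · rintro x ⟨x', hx', rfl⟩ y ⟨y', hy', rfl⟩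
      have := H.cen_abelian hg hx' hy'
      have h2 := congrArg (fun z : G => (z : GL (Fin 2) k)) this
      simpa using h2
    · rw [Subgroup.card_map_of_injective (Subgroup.subtype_injective G),
        Nat.card_eq_fintype_card]
      exact hle
  · push Not at hne
    refine ⟨G, le_rfl, ?_, by omega⟩
    intro x hx y hy
    have hxz : (⟨x, hx⟩ : G) ∈ scalarSub G := hne ⟨x, hx⟩
    have := H.central _ hxz ⟨y, hy⟩
    have h2 := congrArg (fun z : G => (z : GL (Fin 2) k)) this
    simpa using h2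

end Fermat.Agent.T4.helper10
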