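import Mathlib

/-!
# T4 (IV) leaf IV-IRR-AN: Dirichlet sums over primes (helper10)

* `primeZeta_bound`      : `∑_p p^{-s} = log (1 / (s - 1)) + O(1)` on `(1, 2]`;
* `primeDirichlet_bound` : `∑_p χ(p) p^{-s} = O(1)` on `(1, 2]` for `χ ≠ 1`;
* `primeSum_bound`       : both at once for the characters modulo `N`;
* `primesAP_bound`       : `∑_{p ≡ a (N)} p^{-s} = φ(N)⁻¹ log (1 / (s - 1)) + O(1)`.
-/

set_option linter.style.haveILetI false
set_option linter.unusedSectionVars false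
set_option linter.unusedVariables false

namespace Fermat.Agent.T4.helper10

open Complex LSeries DirichletCharacter ArithmeticFunction
open scoped LSeries.notation

/-- The coefficient function `n ↦ χ(n) Λ(n) / log n` of `log L(χ, s)`. -/
noncomputable def plCoeff {N : ℕ} (χ : DirichletCharacter ℂ N) (n : ℕ) : ℂ :=
  χ n * (vonMangoldt n : ℂ) / (Real.log n : ℂ)

lemma plCoeff_prime {N : ℕ} (χ : DirichletCharacter ℂ N) {p : ℕ} (hp : p.Prime) :
    plCoeff χ p = χ p := by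
  have hlog : (Real.log p : ℂ) ≠ 0 := by
    exact_mod_cast (Real.log_pos (by exact_mod_cast hp.one_lt)).ne'
  rw [plCoeff, vonMangoldt_apply_prime hp, mul_div_assoc, div_self hlog, mul_one]

lemma norm_plCoeff_le {N : ℕ} (χ : DirichletCharacter ℂ N) (n : ℕ) :
    ‖plCoeff χ n‖ ≤ vonMangoldt n / Real.log n := by
  rcases Nat.lt_or_ge n 2 with hn | hn
  · have : vonMangoldt n = 0 := by
      interval_cases n <;> simp
    simp [plCoeff, this]
  have hlog : 0 < Real.log n := Real.log_pos (by exact_mod_cast hn)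
  rw [plCoeff, norm_div, norm_mul, Complex.norm_real, Complex.norm_real,
    Real.norm_of_nonneg vonMangoldt_nonneg, Real.norm_of_nonneg hlog.le]
  refine div_le_div_of_nonneg_right ?_ hlog.le
  exact mul_le_of_le_one_left vonMangoldt_nonneg (χ.norm_le_one _)

lemma norm_plCoeff_le_one {N : ℕ} (χ : DirichletCharacter ℂ N) (n : ℕ) :
    ‖plCoeff χ n‖ ≤ 1 := by
  refine (norm_plCoeff_le χ n).trans ?_
  rcases Nat.lt_or_ge n 2 with hn | hn
  · have : vonMangoldt n = 0 := by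
      interval_cases n <;> simp
    simp [this]
  have hlog : 0 < Real.log n := Real.log_pos (by exact_mod_cast hn)
  rw [div_le_one hlog]
  exact vonMangoldt_le_log

lemma abscissa_plCoeff_le {N : ℕ} (χ : DirichletCharacter ℂ N) :
    abscissaOfAbsConv (plCoeff χ) ≤ 1 :=
  LSeries.abscissaOfAbsConv_le_of_le_const ⟨1, fun n _ => norm_plCoeff_le_one χ n⟩

lemma logMul_plCoeff {N : ℕ} (χ : DirichletCharacter ℂ N) :
    logMul (plCoeff χ) = fun n : ℕ => χ n * (vonMangoldt n : ℂ) := by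
  funext n
  rcases Nat.lt_or_ge n 2 with hn | hn
  · have : vonMangoldt n = 0 := by
      interval_cases n <;> simp
    simp [logMul, plCoeff, this]
  have hlog : (Real.log n : ℂ) ≠ 0 := by
    exact_mod_cast (Real.log_pos (by exact_mod_cast hn)).ne'
  simp only [logMul, plCoeff]
  rw [← Complex.natCast_log]
  field_simp

lemma hasDerivAt_LSeries_plCoeff {N : ℕ} (χ : DirichletCharacter ℂ N) {s : ℂ} (hs : 1 < s.re) :
    HasDerivAt (LSeries (plCoeff χ)) (deriv (L ↗χ) s / L ↗χ s) s := by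
  have h1 : abscissaOfAbsConv (plCoeff χ) < s.re :=
    lt_of_le_of_lt (abscissa_plCoeff_le χ) (by exact_mod_cast hs)
  have h2 := LSeries_hasDerivAt h1
  have h3 : LSeries (logMul (plCoeff χ)) s = L (↗χ * ↗Λ) s := by
    rw [logMul_plCoeff]
    rfl
  rw [h3, LSeries_twist_vonMangoldt_eq χ hs] at h2
  simpa [neg_div] using h2


lemma hasDerivAt_plReal {N : ℕ} [NeZero N] (χ : DirichletCharacter ℂ N) {x : ℝ} (hx : 1 < x) :
    HasDerivAt (fun y : ℝ => LSeries (plCoeff χ) (y : ℂ))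
      (deriv (LFunction χ) x / LFunction χ x) x := by
  have hx' : 1 < (x : ℂ).re := by simpa using hx
  have h := hasDerivAt_LSeries_plCoeff χ (s := (x : ℂ)) hx'
  rw [← deriv_LFunction_eq_deriv_LSeries χ hx', ← LFunction_eq_LSeries χ hx'] at h
  exact h.comp_ofReal

lemma exists_bound_logDeriv_nontriv {N : ℕ} [NeZero N] {χ : DirichletCharacter ℂ N}
    (hχ : χ ≠ 1) :
    ∃ C : ℝ, ∀ x ∈ Set.Icc (1 : ℝ) 2, ‖deriv (LFunction χ) x / LFunction χ x‖ ≤ C := by
  have hc : ContinuousOn (fun x : ℝ => -deriv (LFunction χ) x / LFunction χ x)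
      (Set.Icc (1 : ℝ) 2) := by
    refine (continuousOn_neg_logDeriv_LFunction_of_nontriv hχ).comp
      continuous_ofReal.continuousOn ?_
    intro x hx
    exact LFunction_ne_zero_of_one_le_re χ (.inl hχ) (by simpa using hx.1)
  obtain ⟨C, hC⟩ := isCompact_Icc.exists_bound_of_continuousOn hc
  refine ⟨C, fun x hx => ?_⟩
  have := hC x hx
  rwa [neg_div, norm_neg] at this

lemma exists_bound_LSeries_plCoeff_nontriv {N : ℕ} [NeZero N] {χ : DirichletCharacter ℂ N}
    (hχ : χ ≠ 1) :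
    ∃ C : ℝ, ∀ x ∈ Set.Ioc (1 : ℝ) 2, ‖LSeries (plCoeff χ) (x : ℂ)‖ ≤ C := by
  obtain ⟨C, hC⟩ := exists_bound_logDeriv_nontriv hχ
  refine ⟨‖LSeries (plCoeff χ) ((2 : ℝ) : ℂ)‖ + C, fun x hx => ?_⟩
  have h := Convex.norm_image_sub_le_of_norm_hasDerivWithin_le
    (f := fun y : ℝ => LSeries (plCoeff χ) (y : ℂ))
    (f' := fun y : ℝ => deriv (LFunction χ) y / LFunction χ y) (s := Set.Ioc (1 : ℝ) 2) (C := C)
    (fun y hy => (hasDerivAt_plReal χ hy.1).hasDerivWithinAt)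
    (fun y hy => hC y ⟨hy.1.le, hy.2⟩) (convex_Ioc 1 2) (x := 2) (y := x)
    ⟨by norm_num, le_rfl⟩ hx
  have hC0 : 0 ≤ C := (norm_nonneg _).trans (hC 1 ⟨le_rfl, by norm_num⟩)
  have h2 : ‖x - 2‖ ≤ 1 := by
    rw [Real.norm_eq_abs, abs_le]
    constructor <;> linarith [hx.1, hx.2]
  have h3 : ‖LSeries (plCoeff χ) (x : ℂ) - LSeries (plCoeff χ) ((2 : ℝ) : ℂ)‖ ≤ C :=
    h.trans (by nlinarith)
  calc ‖LSeries (plCoeff χ) (x : ℂ)‖
      = ‖LSeries (plCoeff χ) ((2 : ℝ) : ℂ) +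
          (LSeries (plCoeff χ) (x : ℂ) - LSeries (plCoeff χ) ((2 : ℝ) : ℂ))‖ := by
        congr 1; ring
    _ ≤ _ := (norm_add_le _ _).trans (by linarith)

/-! ### The non-prime part -/

/-- `n ↦ (if n.Prime then 0 else Λ n) / n`. -/
noncomputable def npTerm (n : ℕ) : ℝ := (if n.Prime then 0 else vonMangoldt n) / n

lemma summable_npTerm : Summable npTerm := by
  have h := vonMangoldt.summable_residueClass_non_primes_div (q := 1) (0 : ZMod 1)
  refine h.congr fun n => ?_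
  simp only [npTerm, vonMangoldt.residueClass]
  congr 2
  rw [Set.indicator_of_mem]
  exact Subsingleton.elim _ _

lemma npTerm_nonneg (n : ℕ) : 0 ≤ npTerm n := by
  unfold npTerm
  split_ifs
  · simp
  · exact div_nonneg vonMangoldt_nonneg (Nat.cast_nonneg _)

/-- The non-prime part of the terms of `LSeries (plCoeff χ)`. -/
noncomputable def npPart {N : ℕ} (χ : DirichletCharacter ℂ N) (s : ℂ) (n : ℕ) : ℂ :=
  if n.Prime then 0 else term (plCoeff χ) s n

/-- The prime part of the terms of `LSeries (plCoeff χ)`. -/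
noncomputable def prPart {N : ℕ} (χ : DirichletCharacter ℂ N) (s : ℂ) (n : ℕ) : ℂ :=
  if n.Prime then term (plCoeff χ) s n else 0

lemma prPart_add_npPart {N : ℕ} (χ : DirichletCharacter ℂ N) (s : ℂ) (n : ℕ) :
    prPart χ s n + npPart χ s n = term (plCoeff χ) s n := by
  unfold prPart npPart
  split_ifs <;> simp

lemma norm_npPart_le {N : ℕ} (χ : DirichletCharacter ℂ N) {s : ℂ} (hs : 1 ≤ s.re) (n : ℕ) :
    ‖npPart χ s n‖ ≤ (Real.log 2)⁻¹ * npTerm n := by
  have hl2 : 0 < Real.log 2 := Real.log_pos (by norm_num)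
  unfold npPart npTerm
  split_ifs with hp
  · simp
  rcases Nat.lt_or_ge n 2 with hn | hn
  · have : vonMangoldt n = 0 := by
      interval_cases n <;> simp
    have h0 : plCoeff χ n = 0 := by simp [plCoeff, this]
    simp [LSeries.term, h0, this]
  have hn0 : n ≠ 0 := by omega
  have hnpos : (0 : ℝ) < n := by exact_mod_cast Nat.pos_of_ne_zero hn0
  have hlog : Real.log 2 ≤ Real.log n :=
    Real.log_le_log (by norm_num) (by exact_mod_cast hn)
  rw [LSeries.norm_term_eq, if_neg hn0]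
  have h1 : ‖plCoeff χ n‖ ≤ (Real.log 2)⁻¹ * vonMangoldt n := by
    refine (norm_plCoeff_le χ n).trans ?_
    rw [div_eq_inv_mul]
    exact mul_le_mul_of_nonneg_right (inv_anti₀ hl2 hlog) vonMangoldt_nonneg
  have h2 : (n : ℝ) ≤ (n : ℝ) ^ s.re := by
    calc (n : ℝ) = (n : ℝ) ^ (1 : ℝ) := (Real.rpow_one _).symm
      _ ≤ _ := Real.rpow_le_rpow_of_exponent_le (by exact_mod_cast (by omega : 1 ≤ n)) hs
  calc ‖plCoeff χ n‖ / (n : ℝ) ^ s.re ≤ ((Real.log 2)⁻¹ * vonMangoldt n) / (n : ℝ) := by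
        refine div_le_div₀ ?_ h1 hnpos h2
        exact mul_nonneg (inv_nonneg.mpr hl2.le) vonMangoldt_nonneg
    _ = (Real.log 2)⁻¹ * (vonMangoldt n / n) := by ring

lemma summable_norm_npPart {N : ℕ} (χ : DirichletCharacter ℂ N) {s : ℂ} (hs : 1 ≤ s.re) :
    Summable fun n => ‖npPart χ s n‖ :=
  Summable.of_nonneg_of_le (fun _ => norm_nonneg _) (norm_npPart_le χ hs)
    (summable_npTerm.mul_left _)

/-- The universal bound for the non-prime part. -/
noncomputable def npBound : ℝ := (Real.log 2)⁻¹ * ∑' n, npTerm n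

lemma norm_tsum_npPart_le {N : ℕ} (χ : DirichletCharacter ℂ N) {s : ℂ} (hs : 1 ≤ s.re) :
    ‖∑' n, npPart χ s n‖ ≤ npBound := by
  refine (norm_tsum_le_tsum_norm (summable_norm_npPart χ hs)).trans ?_
  unfold npBound
  rw [← tsum_mul_left]
  exact (summable_norm_npPart χ hs).tsum_le_tsum (norm_npPart_le χ hs)
    (summable_npTerm.mul_left _)

lemma summable_term_plCoeff {N : ℕ} (χ : DirichletCharacter ℂ N) {s : ℂ} (hs : 1 < s.re) :
    Summable fun n => term (plCoeff χ) s n :=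
  LSeriesSummable_of_abscissaOfAbsConv_lt_re
    (lt_of_le_of_lt (abscissa_plCoeff_le χ) (by exact_mod_cast hs))

lemma summable_prPart {N : ℕ} (χ : DirichletCharacter ℂ N) {s : ℂ} (hs : 1 < s.re) :
    Summable fun n => prPart χ s n := by
  have h1 := summable_term_plCoeff χ hs
  have h2 : Summable fun n => npPart χ s n := (summable_norm_npPart χ hs.le).of_norm
  refine (h1.sub h2).congr fun n => ?_
  rw [← prPart_add_npPart χ s n]; ring

lemma LSeries_plCoeff_eq {N : ℕ} (χ : DirichletCharacter ℂ N) {s : ℂ} (hs : 1 < s.re) :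
    LSeries (plCoeff χ) s = ∑' n, prPart χ s n + ∑' n, npPart χ s n := by
  rw [← (summable_prPart χ hs).tsum_add (summable_norm_npPart χ hs.le).of_norm]
  exact tsum_congr fun n => (prPart_add_npPart χ s n).symm

lemma prPart_eq_indicator {N : ℕ} (χ : DirichletCharacter ℂ N) (s : ℂ) :
    (fun n => prPart χ s n) =
      Set.indicator {n : ℕ | n.Prime} (fun n : ℕ => χ n * (n : ℂ) ^ (-s)) := by
  funext n
  unfold prPart
  by_cases hp : n.Prime
  · rw [if_pos hp, Set.indicator_of_mem (by exact hp), LSeries.term_of_ne_zero hp.ne_zero,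
      plCoeff_prime χ hp, cpow_neg, div_eq_mul_inv]
  · rw [if_neg hp, Set.indicator_of_notMem (by exact hp)]

lemma tsum_prPart_eq {N : ℕ} (χ : DirichletCharacter ℂ N) (s : ℂ) :
    ∑' n, prPart χ s n = ∑' p : Nat.Primes, χ (p : ℕ) * ((p : ℕ) : ℂ) ^ (-s) := by
  rw [prPart_eq_indicator]
  exact (tsum_subtype {n : ℕ | n.Prime} (fun n : ℕ => χ n * (n : ℂ) ^ (-s))).symm

lemma summable_primes_char {N : ℕ} (χ : DirichletCharacter ℂ N) {s : ℂ} (hs : 1 < s.re) :
    Summable fun p : Nat.Primes => χ (p : ℕ) * ((p : ℕ) : ℂ) ^ (-s) := by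
  have h := summable_prPart χ hs
  rw [prPart_eq_indicator] at h
  exact (summable_subtype_iff_indicator (s := {n : ℕ | n.Prime})).mpr h

/-- **Bounded prime Dirichlet sums**: for a nontrivial Dirichlet character `χ`, the sum
`∑_p χ(p) p^{-s}` is bounded on `(1, 2]`. -/
theorem primeDirichlet_bound {N : ℕ} [NeZero N] (χ : DirichletCharacter ℂ N) (hχ : χ ≠ 1) :
    ∃ C : ℝ, ∀ s ∈ Set.Ioc (1 : ℝ) 2,
      ‖∑' p : Nat.Primes, χ (p : ℕ) * ((p : ℕ) : ℂ) ^ (-(s : ℂ))‖ ≤ C := by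
  obtain ⟨C, hC⟩ := exists_bound_LSeries_plCoeff_nontriv hχ
  refine ⟨C + npBound, fun x hx => ?_⟩
  have hx' : 1 < (x : ℂ).re := by simpa using hx.1
  have h1 := LSeries_plCoeff_eq χ hx'
  rw [tsum_prPart_eq] at h1
  have h2 : ∑' p : Nat.Primes, χ (p : ℕ) * ((p : ℕ) : ℂ) ^ (-(x : ℂ)) =
      LSeries (plCoeff χ) x - ∑' n, npPart χ x n := by
    rw [h1]; ring
  rw [h2]
  exact (norm_sub_le _ _).trans (add_le_add (hC x hx) (norm_tsum_npPart_le χ hx'.le))


/-! ### The trivial character: `∑_p p^{-s} = log (1 / (s - 1)) + O(1)` -/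

/-- The trivial character modulo `1`. -/
noncomputable abbrev chi1 : DirichletCharacter ℂ 1 := 1

lemma chi1_apply (n : ℕ) : chi1 (n : ZMod 1) = 1 := by
  have : IsUnit (n : ZMod 1) := by
    rw [Subsingleton.elim (n : ZMod 1) 1]; exact isUnit_one
  simp [chi1, MulChar.one_apply this]

lemma exists_bound_logDeriv_triv :
    ∃ C : ℝ, ∀ x ∈ Set.Icc (1 : ℝ) 2,
      ‖deriv (LFunctionTrivChar₁ 1) x / LFunctionTrivChar₁ 1 x‖ ≤ C := by
  have hc : ContinuousOn
      (fun x : ℝ => -deriv (LFunctionTrivChar₁ 1) x / LFunctionTrivChar₁ 1 x)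
      (Set.Icc (1 : ℝ) 2) := by
    refine (continuousOn_neg_logDeriv_LFunctionTrivChar₁ 1).comp
      continuous_ofReal.continuousOn ?_
    intro x hx
    rcases eq_or_ne x 1 with rfl | h1
    · left; simp
    · right
      refine LFunction_ne_zero_of_one_le_re _ (.inr ?_) (by simpa using hx.1)
      exact_mod_cast h1
  obtain ⟨C, hC⟩ := isCompact_Icc.exists_bound_of_continuousOn hc
  refine ⟨C, fun x hx => ?_⟩
  have := hC x hx
  rwa [neg_div, norm_neg] at this

lemma logDeriv_trivChar₁_eq {x : ℝ} (hx : 1 < x) :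
    deriv (LFunctionTrivChar₁ 1) x / LFunctionTrivChar₁ 1 x =
      deriv (LFunction chi1) x / LFunction chi1 x + ((x - 1 : ℝ) : ℂ)⁻¹ := by
  have hx1 : (x : ℂ) ≠ 1 := by exact_mod_cast hx.ne'
  have hx2 : (x : ℂ) - 1 ≠ 0 := sub_ne_zero.mpr hx1
  have hL : LFunction chi1 x ≠ 0 :=
    LFunction_ne_zero_of_one_le_re _ (.inr hx1) (by simpa using hx.le)
  rw [deriv_LFunctionTrivChar₁_apply_of_ne_one 1 hx1, LFunctionTrivChar₁,
    Function.update_of_ne hx1]
  push_cast
  show (((x : ℂ) - 1) * deriv (LFunction chi1) x + LFunction chi1 x) /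
    (((x : ℂ) - 1) * LFunction chi1 x) = _
  field_simp

/-- The real-variable function `x ↦ LSeries (plCoeff chi1) x + log (x - 1)`. -/
noncomputable def zetaAux (x : ℝ) : ℂ :=
  LSeries (plCoeff chi1) (x : ℂ) + ((Real.log (x - 1) : ℝ) : ℂ)

lemma hasDerivAt_zetaAux {x : ℝ} (hx : 1 < x) :
    HasDerivAt zetaAux (deriv (LFunctionTrivChar₁ 1) x / LFunctionTrivChar₁ 1 x) x := by
  rw [logDeriv_trivChar₁_eq hx]
  refine (hasDerivAt_plReal chi1 hx).add ?_
  have h1 : HasDerivAt (fun y : ℝ => Real.log (y - 1)) ((x - 1)⁻¹) x := by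
    have := ((hasDerivAt_id x).sub_const 1).log (sub_pos.mpr hx).ne'
    simpa [one_div] using this
  have h2 := h1.ofReal_comp
  rwa [Complex.ofReal_inv] at h2

lemma exists_bound_zetaAux :
    ∃ C : ℝ, ∀ x ∈ Set.Ioc (1 : ℝ) 2, ‖zetaAux x‖ ≤ C := by
  obtain ⟨C, hC⟩ := exists_bound_logDeriv_triv
  refine ⟨‖zetaAux 2‖ + C, fun x hx => ?_⟩
  have h := Convex.norm_image_sub_le_of_norm_hasDerivWithin_le
    (f := zetaAux)
    (f' := fun y : ℝ => deriv (LFunctionTrivChar₁ 1) y / LFunctionTrivChar₁ 1 y)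
    (s := Set.Ioc (1 : ℝ) 2) (C := C)
    (fun y hy => (hasDerivAt_zetaAux hy.1).hasDerivWithinAt)
    (fun y hy => hC y ⟨hy.1.le, hy.2⟩) (convex_Ioc 1 2) (x := 2) (y := x)
    ⟨by norm_num, le_rfl⟩ hx
  have hC0 : 0 ≤ C := (norm_nonneg _).trans (hC 1 ⟨le_rfl, by norm_num⟩)
  have h2 : ‖x - 2‖ ≤ 1 := by
    rw [Real.norm_eq_abs, abs_le]
    constructor <;> linarith [hx.1, hx.2]
  have h3 : ‖zetaAux x - zetaAux 2‖ ≤ C := h.trans (by nlinarith)
  calc ‖zetaAux x‖ = ‖zetaAux 2 + (zetaAux x - zetaAux 2)‖ := by congr 1; ring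
    _ ≤ _ := (norm_add_le _ _).trans (by linarith)

lemma summable_primes_rpow {s : ℝ} (hs : 1 < s) :
    Summable fun p : Nat.Primes => ((p : ℕ) : ℝ) ^ (-s) :=
  Nat.Primes.summable_rpow.mpr (by linarith)

lemma ofReal_tsum_primes_rpow (s : ℝ) :
    ((∑' p : Nat.Primes, ((p : ℕ) : ℝ) ^ (-s) : ℝ) : ℂ) =
      ∑' p : Nat.Primes, chi1 ((p : ℕ) : ZMod 1) * ((p : ℕ) : ℂ) ^ (-(s : ℂ)) := by
  rw [Complex.ofReal_tsum]
  refine tsum_congr fun p => ?_
  rw [chi1_apply, one_mul, Complex.ofReal_cpow (Nat.cast_nonneg _)]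
  simp

/-- **Mertens-type estimate in Dirichlet-series form**:
`∑_p p^{-s} = log (1 / (s - 1)) + O(1)` on `(1, 2]`. -/
theorem primeZeta_bound :
    ∃ C : ℝ, ∀ s ∈ Set.Ioc (1 : ℝ) 2,
      |∑' p : Nat.Primes, ((p : ℕ) : ℝ) ^ (-s) - Real.log (1 / (s - 1))| ≤ C := by
  obtain ⟨C, hC⟩ := exists_bound_zetaAux
  refine ⟨C + npBound, fun x hx => ?_⟩
  have hx' : 1 < (x : ℂ).re := by simpa using hx.1
  have h1 := LSeries_plCoeff_eq chi1 hx'
  rw [tsum_prPart_eq, ← ofReal_tsum_primes_rpow] at h1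
  have h2 : ((∑' p : Nat.Primes, ((p : ℕ) : ℝ) ^ (-x) - Real.log (1 / (x - 1)) : ℝ) : ℂ) =
      zetaAux x - ∑' n, npPart chi1 x n := by
    rw [zetaAux, h1, one_div, Real.log_inv]
    push_cast
    ring
  rw [← Real.norm_eq_abs, ← Complex.norm_real, h2]
  exact (norm_sub_le _ _).trans (add_le_add (hC x hx) (norm_tsum_npPart_le chi1 hx'.le))


/-! ### Primes in residue classes: Dirichlet density `1 / φ(N)` with `O(1)` error -/

/-- The prime Dirichlet sum `∑_p χ(p) p^{-s}`. -/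
noncomputable def primeSum {N : ℕ} (χ : DirichletCharacter ℂ N) (s : ℂ) : ℂ :=
  ∑' p : Nat.Primes, χ (p : ℕ) * ((p : ℕ) : ℂ) ^ (-s)

lemma norm_prime_cpow_le_one (p : Nat.Primes) {s : ℂ} (hs : 0 ≤ s.re) :
    ‖((p : ℕ) : ℂ) ^ (-s)‖ ≤ 1 := by
  have hp : (0 : ℝ) < ((p : ℕ) : ℝ) := by exact_mod_cast p.prop.pos
  rw [Complex.norm_natCast_cpow_of_pos p.prop.pos]
  simp only [neg_re]
  exact Real.rpow_le_one_of_one_le_of_nonpos (by exact_mod_cast p.prop.one_lt.le)
    (by linarith)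

/-- The trivial character modulo `N` versus the full prime sum. -/
lemma exists_bound_primeSum_one (N : ℕ) [NeZero N] :
    ∃ C : ℝ, ∀ s ∈ Set.Ioc (1 : ℝ) 2,
      ‖primeSum (1 : DirichletCharacter ℂ N) (s : ℂ) - ((Real.log (1 / (s - 1)) : ℝ) : ℂ)‖
        ≤ C := by
  classical
  obtain ⟨C, hC⟩ := primeZeta_bound
  refine ⟨C + N.primeFactors.card, fun x hx => ?_⟩
  have hx' : 1 < (x : ℂ).re := by simpa using hx.1
  -- the difference of the two prime sums is supported on the primes dividing `N`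
  have hs1 := summable_primes_char (1 : DirichletCharacter ℂ N) hx'
  have hs2 := summable_primes_char chi1 hx'
  have hdiff : primeSum chi1 (x : ℂ) - primeSum (1 : DirichletCharacter ℂ N) (x : ℂ) =
      ∑' p : Nat.Primes, (if (p : ℕ) ∣ N then ((p : ℕ) : ℂ) ^ (-(x : ℂ)) else 0) := by
    unfold primeSum
    rw [← hs2.tsum_sub hs1]
    refine tsum_congr fun p => ?_
    rw [chi1_apply, one_mul]
    by_cases hpN : (p : ℕ) ∣ N
    · rw [if_pos hpN]
      have : ¬ IsUnit ((p : ℕ) : ZMod N) := by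
        rw [ZMod.isUnit_iff_coprime, Nat.Prime.coprime_iff_not_dvd p.prop]
        exact not_not.mpr hpN
      rw [MulChar.map_nonunit _ this, zero_mul, sub_zero]
    · rw [if_neg hpN]
      have : IsUnit ((p : ℕ) : ZMod N) := by
        rw [ZMod.isUnit_iff_coprime, Nat.Prime.coprime_iff_not_dvd p.prop]
        exact hpN
      rw [MulChar.one_apply this, one_mul, sub_self]
  -- this finite sum has at most `ω(N)` terms of norm `≤ 1`
  have hfin : ‖∑' p : Nat.Primes, (if (p : ℕ) ∣ N then ((p : ℕ) : ℂ) ^ (-(x : ℂ)) else 0)‖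
      ≤ N.primeFactors.card := by
    let T : Finset Nat.Primes := N.primeFactors.subtype Nat.Prime
    have hT : ∀ p : Nat.Primes, p ∉ T →
        (if (p : ℕ) ∣ N then ((p : ℕ) : ℂ) ^ (-(x : ℂ)) else 0) = 0 := by
      intro p hp
      rw [if_neg]
      intro hpN
      exact hp (Finset.mem_subtype.mpr
        (Nat.mem_primeFactors.mpr ⟨p.prop, hpN, NeZero.ne N⟩))
    rw [tsum_eq_sum hT]
    refine (norm_sum_le _ _).trans ?_
    have hcard : T.card ≤ N.primeFactors.card :=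
      (Finset.card_subtype Nat.Prime N.primeFactors).trans_le (Finset.card_filter_le _ _)
    calc ∑ p ∈ T, ‖(if (p : ℕ) ∣ N then ((p : ℕ) : ℂ) ^ (-(x : ℂ)) else 0)‖
        ≤ ∑ p ∈ T, (1 : ℝ) := by
          refine Finset.sum_le_sum fun p _ => ?_
          split_ifs
          · exact norm_prime_cpow_le_one p (by simp; linarith [hx.1])
          · simp
      _ = T.card := by simp
      _ ≤ N.primeFactors.card := by exact_mod_cast hcard
  have hz : ‖primeSum chi1 (x : ℂ) - ((Real.log (1 / (x - 1)) : ℝ) : ℂ)‖ ≤ C := by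
    have := hC x hx
    rw [← Real.norm_eq_abs, ← Complex.norm_real] at this
    unfold primeSum
    rw [← ofReal_tsum_primes_rpow]
    simpa using this
  calc ‖primeSum (1 : DirichletCharacter ℂ N) (x : ℂ) - ((Real.log (1 / (x - 1)) : ℝ) : ℂ)‖
      = ‖(primeSum chi1 (x : ℂ) - ((Real.log (1 / (x - 1)) : ℝ) : ℂ)) -
          (primeSum chi1 (x : ℂ) - primeSum (1 : DirichletCharacter ℂ N) (x : ℂ))‖ := by
        congr 1; ring
    _ ≤ _ := (norm_sub_le _ _).trans (add_le_add hz (hdiff ▸ hfin))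

/-- Uniform statement over all characters modulo `N`:
`∑_p χ(p) p^{-s} = δ_{χ = 1} · log (1 / (s - 1)) + O(1)` on `(1, 2]`. -/
theorem primeSum_bound {N : ℕ} [NeZero N] (χ : DirichletCharacter ℂ N) :
    ∃ C : ℝ, ∀ s ∈ Set.Ioc (1 : ℝ) 2,
      ‖primeSum χ (s : ℂ) - (if χ = 1 then ((Real.log (1 / (s - 1)) : ℝ) : ℂ) else 0)‖ ≤ C := by
  by_cases hχ : χ = 1
  · subst hχ
    simpa using exists_bound_primeSum_one N
  · obtain ⟨C, hC⟩ := primeDirichlet_bound χ hχ
    refine ⟨C, fun s hs => ?_⟩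
    rw [if_neg hχ, sub_zero]
    exact hC s hs

/-- **Dirichlet's theorem in density form with `O(1)` error**: for `a` a unit modulo `N`,
`∑_{p ≡ a (N)} p^{-s} = φ(N)⁻¹ · log (1 / (s - 1)) + O(1)` on `(1, 2]`. -/
theorem primesAP_bound {N : ℕ} [NeZero N] {a : ZMod N} (ha : IsUnit a) :
    ∃ C : ℝ, ∀ s ∈ Set.Ioc (1 : ℝ) 2,
      |∑' p : Nat.Primes, (if ((p : ℕ) : ZMod N) = a then ((p : ℕ) : ℝ) ^ (-s) else 0)
        - (N.totient : ℝ)⁻¹ * Real.log (1 / (s - 1))| ≤ C := by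
  classical
  choose C hC using fun χ : DirichletCharacter ℂ N => primeSum_bound χ
  have hφ : (0 : ℝ) < N.totient := by exact_mod_cast Nat.totient_pos.mpr (NeZero.pos N)
  refine ⟨(N.totient : ℝ)⁻¹ * ∑ χ : DirichletCharacter ℂ N, C χ, fun x hx => ?_⟩
  have hx' : 1 < (x : ℂ).re := by simpa using hx.1
  -- the indicator as a combination of characters
  have hkey : ((∑' p : Nat.Primes,
      (if ((p : ℕ) : ZMod N) = a then ((p : ℕ) : ℝ) ^ (-x) else 0) : ℝ) : ℂ) =
      (N.totient : ℂ)⁻¹ * ∑ χ : DirichletCharacter ℂ N, χ a⁻¹ * primeSum χ (x : ℂ) := by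
    rw [Complex.ofReal_tsum]
    simp only [primeSum]
    simp_rw [← tsum_mul_left]
    rw [← Summable.tsum_finsetSum
      (fun χ _ => (summable_primes_char χ hx').mul_left _), ← tsum_mul_left]
    refine tsum_congr fun p => ?_
    have h1 := sum_char_inv_mul_char_eq ℂ ha ((p : ℕ) : ZMod N)
    have h2 : ∑ χ : DirichletCharacter ℂ N, χ a⁻¹ * (χ (p : ℕ) * ((p : ℕ) : ℂ) ^ (-(x : ℂ))) =
        (∑ χ : DirichletCharacter ℂ N, χ a⁻¹ * χ (p : ℕ)) * ((p : ℕ) : ℂ) ^ (-(x : ℂ)) := by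
      rw [Finset.sum_mul]
      exact Finset.sum_congr rfl fun χ _ => by ring
    rw [h2, h1]
    have hφ' : (N.totient : ℂ) ≠ 0 := by exact_mod_cast hφ.ne'
    by_cases hpa : ((p : ℕ) : ZMod N) = a
    · rw [if_pos hpa, if_pos hpa.symm, ← mul_assoc, inv_mul_cancel₀ hφ', one_mul,
        Complex.ofReal_cpow (Nat.cast_nonneg _)]
      simp
    · rw [if_neg hpa, if_neg (fun h => hpa h.symm)]
      simp
  have hone : (1 : DirichletCharacter ℂ N) a⁻¹ = 1 := by
    have : IsUnit a⁻¹ := by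
      obtain ⟨u, rfl⟩ := ha
      rw [ZMod.inv_coe_unit]
      exact Units.isUnit _
    exact MulChar.one_apply this
  have hsplit : ((∑' p : Nat.Primes,
      (if ((p : ℕ) : ZMod N) = a then ((p : ℕ) : ℝ) ^ (-x) else 0)
        - (N.totient : ℝ)⁻¹ * Real.log (1 / (x - 1)) : ℝ) : ℂ) =
      (N.totient : ℂ)⁻¹ * ∑ χ : DirichletCharacter ℂ N, χ a⁻¹ *
        (primeSum χ (x : ℂ) - (if χ = 1 then ((Real.log (1 / (x - 1)) : ℝ) : ℂ) else 0)) := by
    rw [Complex.ofReal_sub, hkey, Complex.ofReal_mul, Complex.ofReal_inv, Complex.ofReal_natCast,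
      ← mul_sub]
    congr 1
    simp_rw [mul_sub]
    rw [Finset.sum_sub_distrib]
    congr 1
    simp only [mul_ite, mul_zero]
    rw [Finset.sum_ite_eq' Finset.univ (1 : DirichletCharacter ℂ N), if_pos (Finset.mem_univ _),
      hone, one_mul]
  rw [← Real.norm_eq_abs, ← Complex.norm_real, hsplit, norm_mul, norm_inv,
    Complex.norm_natCast]
  refine mul_le_mul_of_nonneg_left ?_ (inv_nonneg.mpr hφ.le)
  refine (norm_sum_le _ _).trans (Finset.sum_le_sum fun χ _ => ?_)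
  rw [norm_mul]
  calc ‖χ a⁻¹‖ * _ ≤ 1 * C χ :=
        mul_le_mul (χ.norm_le_one _) (hC χ x hx) (norm_nonneg _) zero_le_one
    _ = C χ := one_mul _

end Fermat.Agent.T4.helper10
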