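import Mathlib
import Fermat.Agent.T4.helper80_EndgameDefs
import Fermat.Agent.T4.helper10_PrimeSums

/-!
# T4 (IV): calculus of Dirichlet masses and densities of sets of primes (helper10)

API for `helper80.primeMass`, `helper80.UpperDensityLE`, `helper80.LowerDensityGE`.
-/

set_option linter.style.haveILetI false
set_option linter.unusedSectionVars false
set_option linter.unusedVariables false

namespace Fermat.Agent.T4.helper10

open Fermat.Agent.T4.helper80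

/-! ### The summand -/

/-- The summand of `primeMass`. -/
noncomputable def pmTerm (X : Set ℕ) (s : ℝ) (p : ℕ) : ℝ :=
  Set.indicator {p : ℕ | p.Prime ∧ p ∈ X} (fun p : ℕ => (p : ℝ) ^ (-s)) p

lemma primeMass_eq_tsum (X : Set ℕ) (s : ℝ) : primeMass X s = ∑' p, pmTerm X s p := rfl

lemma pmTerm_nonneg (X : Set ℕ) (s : ℝ) (p : ℕ) : 0 ≤ pmTerm X s p :=
  Set.indicator_nonneg (fun _ _ => Real.rpow_nonneg (Nat.cast_nonneg _) _) _

lemma pmTerm_le_of_subset {X Y : Set ℕ} (h : X ⊆ Y) (s : ℝ) (p : ℕ) :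
    pmTerm X s p ≤ pmTerm Y s p := by
  unfold pmTerm
  have hsub : {p : ℕ | p.Prime ∧ p ∈ X} ⊆ {p : ℕ | p.Prime ∧ p ∈ Y} :=
    fun q hq => ⟨hq.1, h hq.2⟩
  exact Set.indicator_le_indicator_of_subset hsub
    (fun _ => Real.rpow_nonneg (Nat.cast_nonneg _) _) p

lemma pmTerm_univ_eq (s : ℝ) :
    pmTerm Set.univ s = Set.indicator {p : ℕ | p.Prime} (fun p : ℕ => (p : ℝ) ^ (-s)) := by
  funext p
  simp [pmTerm]

lemma summable_pmTerm_univ {s : ℝ} (hs : 1 < s) : Summable (pmTerm Set.univ s) := by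
  rw [pmTerm_univ_eq]
  exact (summable_subtype_iff_indicator (s := {p : ℕ | p.Prime})).mp
    (summable_primes_rpow hs)

lemma summable_pmTerm (X : Set ℕ) {s : ℝ} (hs : 1 < s) : Summable (pmTerm X s) :=
  Summable.of_nonneg_of_le (pmTerm_nonneg X s)
    (pmTerm_le_of_subset (Set.subset_univ X) s) (summable_pmTerm_univ hs)

lemma primeMass_nonneg (X : Set ℕ) (s : ℝ) : 0 ≤ primeMass X s :=
  tsum_nonneg (pmTerm_nonneg X s)

lemma primeMass_mono {X Y : Set ℕ} (h : X ⊆ Y) {s : ℝ} (hs : 1 < s) :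
    primeMass X s ≤ primeMass Y s :=
  (summable_pmTerm X hs).tsum_le_tsum (pmTerm_le_of_subset h s) (summable_pmTerm Y hs)

lemma pmTerm_union_le (X Y : Set ℕ) (s : ℝ) (p : ℕ) :
    pmTerm (X ∪ Y) s p ≤ pmTerm X s p + pmTerm Y s p := by
  have h0 : (0 : ℝ) ≤ (p : ℝ) ^ (-s) := Real.rpow_nonneg (Nat.cast_nonneg _) _
  unfold pmTerm
  by_cases hX : p.Prime ∧ p ∈ X
  · rw [Set.indicator_of_mem (s := {p : ℕ | p.Prime ∧ p ∈ X}) hX,
      Set.indicator_of_mem (s := {p : ℕ | p.Prime ∧ p ∈ X ∪ Y}) ⟨hX.1, Or.inl hX.2⟩]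
    linarith [Set.indicator_nonneg (s := {p : ℕ | p.Prime ∧ p ∈ Y})
      (f := fun p : ℕ => (p : ℝ) ^ (-s)) (fun _ _ => Real.rpow_nonneg (Nat.cast_nonneg _) _) p]
  · by_cases hY : p.Prime ∧ p ∈ Y
    · rw [Set.indicator_of_mem (s := {p : ℕ | p.Prime ∧ p ∈ Y}) hY,
        Set.indicator_of_mem (s := {p : ℕ | p.Prime ∧ p ∈ X ∪ Y}) ⟨hY.1, Or.inr hY.2⟩]
      linarith [Set.indicator_nonneg (s := {p : ℕ | p.Prime ∧ p ∈ X})
        (f := fun p : ℕ => (p : ℝ) ^ (-s))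
        (fun _ _ => Real.rpow_nonneg (Nat.cast_nonneg _) _) p]
    · have hXY : ¬ (p.Prime ∧ p ∈ X ∪ Y) := by
        rintro ⟨hp, h | h⟩
        · exact hX ⟨hp, h⟩
        · exact hY ⟨hp, h⟩
      rw [Set.indicator_of_notMem (s := {p : ℕ | p.Prime ∧ p ∈ X ∪ Y}) hXY]
      exact add_nonneg (Set.indicator_nonneg (fun _ _ => Real.rpow_nonneg (Nat.cast_nonneg _) _) _)
        (Set.indicator_nonneg (fun _ _ => Real.rpow_nonneg (Nat.cast_nonneg _) _) _)

lemma primeMass_union_le (X Y : Set ℕ) {s : ℝ} (hs : 1 < s) :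
    primeMass (X ∪ Y) s ≤ primeMass X s + primeMass Y s := by
  rw [primeMass_eq_tsum, primeMass_eq_tsum, primeMass_eq_tsum,
    ← (summable_pmTerm X hs).tsum_add (summable_pmTerm Y hs)]
  exact (summable_pmTerm _ hs).tsum_le_tsum (pmTerm_union_le X Y s)
    ((summable_pmTerm X hs).add (summable_pmTerm Y hs))

lemma pmTerm_add_compl (X : Set ℕ) (s : ℝ) (p : ℕ) :
    pmTerm X s p + pmTerm Xᶜ s p = pmTerm Set.univ s p := by
  unfold pmTerm
  by_cases hp : p.Prime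
  · by_cases hX : p ∈ X
    · rw [Set.indicator_of_mem (s := {p : ℕ | p.Prime ∧ p ∈ X}) ⟨hp, hX⟩,
        Set.indicator_of_notMem (s := {p : ℕ | p.Prime ∧ p ∈ Xᶜ}) (fun h => h.2 hX),
        Set.indicator_of_mem (s := {p : ℕ | p.Prime ∧ p ∈ Set.univ}) ⟨hp, trivial⟩, add_zero]
    · rw [Set.indicator_of_notMem (s := {p : ℕ | p.Prime ∧ p ∈ X}) (fun h => hX h.2),
        Set.indicator_of_mem (s := {p : ℕ | p.Prime ∧ p ∈ Xᶜ}) ⟨hp, hX⟩,
        Set.indicator_of_mem (s := {p : ℕ | p.Prime ∧ p ∈ Set.univ}) ⟨hp, trivial⟩, zero_add]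
  · rw [Set.indicator_of_notMem (s := {p : ℕ | p.Prime ∧ p ∈ X}) (fun h => hp h.1),
      Set.indicator_of_notMem (s := {p : ℕ | p.Prime ∧ p ∈ Xᶜ}) (fun h => hp h.1),
      Set.indicator_of_notMem (s := {p : ℕ | p.Prime ∧ p ∈ Set.univ}) (fun h => hp h.1),
      add_zero]

lemma primeMass_add_compl (X : Set ℕ) {s : ℝ} (hs : 1 < s) :
    primeMass X s + primeMass Xᶜ s = primeMass Set.univ s := by
  rw [primeMass_eq_tsum, primeMass_eq_tsum, primeMass_eq_tsum,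
    ← (summable_pmTerm X hs).tsum_add (summable_pmTerm Xᶜ hs)]
  exact tsum_congr (pmTerm_add_compl X s)

lemma primeMass_univ_eq (s : ℝ) :
    primeMass Set.univ s = ∑' p : Nat.Primes, ((p : ℕ) : ℝ) ^ (-s) := by
  rw [primeMass_eq_tsum, pmTerm_univ_eq]
  exact (tsum_subtype {p : ℕ | p.Prime} (fun p : ℕ => (p : ℝ) ^ (-s))).symm

/-- `primeMass univ s = log (1 / (s - 1)) + O(1)` on `(1, 2]`. -/
theorem primeMass_univ_bound :
    ∃ C : ℝ, ∀ s ∈ Set.Ioc (1 : ℝ) 2,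
      |primeMass Set.univ s - Real.log (1 / (s - 1))| ≤ C := by
  obtain ⟨C, hC⟩ := primeZeta_bound
  exact ⟨C, fun s hs => by rw [primeMass_univ_eq]; exact hC s hs⟩

lemma pmTerm_le_one (X : Set ℕ) {s : ℝ} (hs : 0 ≤ s) (p : ℕ) : pmTerm X s p ≤ 1 := by
  unfold pmTerm
  by_cases h : p.Prime ∧ p ∈ X
  · rw [Set.indicator_of_mem (s := {p : ℕ | p.Prime ∧ p ∈ X}) h]
    exact Real.rpow_le_one_of_one_le_of_nonpos (by exact_mod_cast h.1.one_lt.le) (by linarith)
  · rw [Set.indicator_of_notMem (s := {p : ℕ | p.Prime ∧ p ∈ X}) h]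
    exact zero_le_one

/-- A finite set of primes has bounded mass. -/
lemma primeMass_le_card (X : Finset ℕ) {s : ℝ} (hs : 0 ≤ s) :
    primeMass (X : Set ℕ) s ≤ X.card := by
  rw [primeMass_eq_tsum, tsum_eq_sum (s := X)]
  · calc ∑ p ∈ X, pmTerm (X : Set ℕ) s p ≤ ∑ p ∈ X, (1 : ℝ) :=
        Finset.sum_le_sum fun p _ => pmTerm_le_one _ hs p
      _ = X.card := by simp
  · intro p hp
    unfold pmTerm
    exact Set.indicator_of_notMem (fun h => hp (by exact_mod_cast h.2)) _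

/-! ### `log (1 / (s - 1))` near `1` -/

lemma log_inv_sub_one_pos {s : ℝ} (h1 : 1 < s) (h2 : s < 2) : 0 < Real.log (1 / (s - 1)) := by
  apply Real.log_pos
  rw [lt_div_iff₀ (by linarith)]
  linarith

lemma exists_delta_log_ge (K : ℝ) :
    ∃ δ : ℝ, 0 < δ ∧ δ ≤ 1 ∧ ∀ s : ℝ, 1 < s → s < 1 + δ → K ≤ Real.log (1 / (s - 1)) := by
  refine ⟨min 1 (Real.exp (-K)), lt_min one_pos (Real.exp_pos _), min_le_left _ _,
    fun s h1 h2 => ?_⟩
  have h3 : s - 1 < Real.exp (-K) := by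
    have := lt_of_lt_of_le h2 (add_le_add_right (min_le_right 1 (Real.exp (-K))) 1)
    linarith
  have h4 : 0 < s - 1 := by linarith
  rw [one_div, Real.log_inv]
  have h5 : Real.log (s - 1) < -K := by
    rw [← Real.log_exp (-K)]
    exact Real.log_lt_log h4 h3
  linarith

/-! ### Densities from `O(1)` estimates -/

/-- An estimate `primeMass X s ≤ η log (1/(s-1)) + C` near `1` gives upper density `≤ η`. -/
lemma upperDensityLE_of_le {X : Set ℕ} {η C δ₀ : ℝ} (hδ₀ : 0 < δ₀)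
    (h : ∀ s : ℝ, 1 < s → s < 1 + δ₀ → primeMass X s ≤ η * Real.log (1 / (s - 1)) + C) :
    UpperDensityLE X η := by
  intro ε hε
  obtain ⟨δ, hδ, hδ1, hK⟩ := exists_delta_log_ge (C / ε)
  refine ⟨min δ δ₀, lt_min hδ hδ₀, fun s h1 h2 => ?_⟩
  have hs1 : s < 1 + δ := lt_of_lt_of_le h2 (add_le_add_right (min_le_left _ _) 1)
  have hs2 : s < 1 + δ₀ := lt_of_lt_of_le h2 (add_le_add_right (min_le_right _ _) 1)
  have h3 := hK s h1 hs1
  have h4 : C ≤ ε * Real.log (1 / (s - 1)) := by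
    rw [div_le_iff₀ hε] at h3
    linarith
  have := h s h1 hs2
  nlinarith

/-- An estimate `η log (1/(s-1)) - C ≤ primeMass X s` near `1` gives lower density `≥ η`. -/
lemma lowerDensityGE_of_le {X : Set ℕ} {η C δ₀ : ℝ} (hδ₀ : 0 < δ₀)
    (h : ∀ s : ℝ, 1 < s → s < 1 + δ₀ → η * Real.log (1 / (s - 1)) - C ≤ primeMass X s) :
    LowerDensityGE X η := by
  intro ε hε
  obtain ⟨δ, hδ, hδ1, hK⟩ := exists_delta_log_ge (C / ε)
  refine ⟨min δ δ₀, lt_min hδ hδ₀, fun s h1 h2 => ?_⟩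
  have hs1 : s < 1 + δ := lt_of_lt_of_le h2 (add_le_add_right (min_le_left _ _) 1)
  have hs2 : s < 1 + δ₀ := lt_of_lt_of_le h2 (add_le_add_right (min_le_right _ _) 1)
  have h3 := hK s h1 hs1
  have h4 : C ≤ ε * Real.log (1 / (s - 1)) := by
    rw [div_le_iff₀ hε] at h3
    linarith
  have := h s h1 hs2
  nlinarith


/-! ### Monotonicity -/

lemma upperDensityLE_mono_set {X Y : Set ℕ} {η : ℝ} (h : UpperDensityLE Y η) (hXY : X ⊆ Y) :
    UpperDensityLE X η := by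
  intro ε hε
  obtain ⟨δ, hδ, hδ'⟩ := h ε hε
  exact ⟨δ, hδ, fun s h1 h2 => (primeMass_mono hXY h1).trans (hδ' s h1 h2)⟩

lemma lowerDensityGE_mono_set {X Y : Set ℕ} {η : ℝ} (h : LowerDensityGE X η) (hXY : X ⊆ Y) :
    LowerDensityGE Y η := by
  intro ε hε
  obtain ⟨δ, hδ, hδ'⟩ := h ε hε
  exact ⟨δ, hδ, fun s h1 h2 => (hδ' s h1 h2).trans (primeMass_mono hXY h1)⟩

lemma upperDensityLE_mono {X : Set ℕ} {η η' : ℝ} (h : UpperDensityLE X η) (hη : η ≤ η') :
    UpperDensityLE X η' := by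
  intro ε hε
  obtain ⟨δ, hδ, hδ'⟩ := h ε hε
  refine ⟨min δ 1, lt_min hδ one_pos, fun s h1 h2 => ?_⟩
  have hs1 : s < 1 + δ := lt_of_lt_of_le h2 (add_le_add_right (min_le_left _ _) 1)
  have hs2 : s < 2 := by
    have := lt_of_lt_of_le h2 (add_le_add_right (min_le_right δ 1) 1)
    linarith
  have hL := log_inv_sub_one_pos h1 hs2
  refine (hδ' s h1 hs1).trans ?_
  exact mul_le_mul_of_nonneg_right (by linarith) hL.le

lemma lowerDensityGE_mono {X : Set ℕ} {η η' : ℝ} (h : LowerDensityGE X η) (hη : η' ≤ η) :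
    LowerDensityGE X η' := by
  intro ε hε
  obtain ⟨δ, hδ, hδ'⟩ := h ε hε
  refine ⟨min δ 1, lt_min hδ one_pos, fun s h1 h2 => ?_⟩
  have hs1 : s < 1 + δ := lt_of_lt_of_le h2 (add_le_add_right (min_le_left _ _) 1)
  have hs2 : s < 2 := by
    have := lt_of_lt_of_le h2 (add_le_add_right (min_le_right δ 1) 1)
    linarith
  have hL := log_inv_sub_one_pos h1 hs2
  refine le_trans ?_ (hδ' s h1 hs1)
  exact mul_le_mul_of_nonneg_right (by linarith) hL.le

/-! ### Basic densities -/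

lemma upperDensityLE_univ : UpperDensityLE Set.univ 1 := by
  obtain ⟨C, hC⟩ := primeMass_univ_bound
  refine upperDensityLE_of_le (C := C) one_pos fun s h1 h2 => ?_
  have := (abs_le.mp (hC s ⟨h1, by linarith⟩)).2
  linarith

lemma lowerDensityGE_univ : LowerDensityGE Set.univ 1 := by
  obtain ⟨C, hC⟩ := primeMass_univ_bound
  refine lowerDensityGE_of_le (C := C) one_pos fun s h1 h2 => ?_
  have := (abs_le.mp (hC s ⟨h1, by linarith⟩)).1
  linarith

lemma upperDensityLE_one (X : Set ℕ) : UpperDensityLE X 1 :=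
  upperDensityLE_mono_set upperDensityLE_univ (Set.subset_univ X)

lemma lowerDensityGE_zero (X : Set ℕ) : LowerDensityGE X 0 := by
  refine lowerDensityGE_of_le (C := 0) one_pos fun s h1 h2 => ?_
  simpa using primeMass_nonneg X s

lemma upperDensityLE_of_finite {X : Set ℕ} (hX : X.Finite) : UpperDensityLE X 0 := by
  refine upperDensityLE_of_le (C := hX.toFinset.card) one_pos fun s h1 h2 => ?_
  have := primeMass_le_card hX.toFinset (s := s) (by linarith)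
  simpa using this

lemma upperDensityLE_union {X Y : Set ℕ} {η θ : ℝ} (hX : UpperDensityLE X η)
    (hY : UpperDensityLE Y θ) : UpperDensityLE (X ∪ Y) (η + θ) := by
  intro ε hε
  obtain ⟨δ₁, hδ₁, h₁⟩ := hX (ε / 2) (by linarith)
  obtain ⟨δ₂, hδ₂, h₂⟩ := hY (ε / 2) (by linarith)
  refine ⟨min δ₁ δ₂, lt_min hδ₁ hδ₂, fun s h1 h2 => ?_⟩
  have hs1 : s < 1 + δ₁ := lt_of_lt_of_le h2 (add_le_add_right (min_le_left _ _) 1)
  have hs2 : s < 1 + δ₂ := lt_of_lt_of_le h2 (add_le_add_right (min_le_right _ _) 1)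
  have := primeMass_union_le X Y h1
  have := h₁ s h1 hs1
  have := h₂ s h1 hs2
  nlinarith

/-- Lower density is at most upper density. -/
lemma lowerDensityGE_le_upper {X Y : Set ℕ} {η θ : ℝ} (hX : LowerDensityGE X η)
    (hY : UpperDensityLE Y θ) (hXY : X ⊆ Y) : η ≤ θ := by
  by_contra hlt
  rw [not_le] at hlt
  set ε := (η - θ) / 3 with hε
  have hε0 : 0 < ε := by rw [hε]; linarith
  obtain ⟨δ₁, hδ₁, h₁⟩ := hX ε hε0
  obtain ⟨δ₂, hδ₂, h₂⟩ := hY ε hε0
  set s := 1 + min (min δ₁ δ₂) 1 / 2 with hs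
  have hm : 0 < min (min δ₁ δ₂) 1 := lt_min (lt_min hδ₁ hδ₂) one_pos
  have h1 : 1 < s := by rw [hs]; linarith
  have hs1 : s < 1 + δ₁ := by
    have : min (min δ₁ δ₂) 1 ≤ δ₁ := (min_le_left _ _).trans (min_le_left _ _)
    rw [hs]; linarith
  have hs2 : s < 1 + δ₂ := by
    have : min (min δ₁ δ₂) 1 ≤ δ₂ := (min_le_left _ _).trans (min_le_right _ _)
    rw [hs]; linarith
  have hs3 : s < 2 := by
    have : min (min δ₁ δ₂) 1 ≤ 1 := min_le_right _ _
    rw [hs]; linarith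
  have hL := log_inv_sub_one_pos h1 hs3
  have ha := h₁ s h1 hs1
  have hb := h₂ s h1 hs2
  have hc := primeMass_mono hXY h1
  have : (η - ε) * Real.log (1 / (s - 1)) ≤ (θ + ε) * Real.log (1 / (s - 1)) :=
    ha.trans (hc.trans hb)
  have h3 : η - ε ≤ θ + ε := le_of_mul_le_mul_right this hL
  rw [hε] at h3
  linarith

lemma lowerDensityGE_compl_upper {X : Set ℕ} {η : ℝ} (hX : LowerDensityGE X η) :
    UpperDensityLE Xᶜ (1 - η) := by
  intro ε hε
  obtain ⟨δ₁, hδ₁, h₁⟩ := hX (ε / 2) (by linarith)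
  obtain ⟨δ₂, hδ₂, h₂⟩ := upperDensityLE_univ (ε / 2) (by linarith)
  refine ⟨min δ₁ δ₂, lt_min hδ₁ hδ₂, fun s h1 h2 => ?_⟩
  have hs1 : s < 1 + δ₁ := lt_of_lt_of_le h2 (add_le_add_right (min_le_left _ _) 1)
  have hs2 : s < 1 + δ₂ := lt_of_lt_of_le h2 (add_le_add_right (min_le_right _ _) 1)
  have := primeMass_add_compl X h1
  have := h₁ s h1 hs1
  have := h₂ s h1 hs2
  nlinarith

lemma upperDensityLE_compl_lower {X : Set ℕ} {η : ℝ} (hX : UpperDensityLE X η) :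
    LowerDensityGE Xᶜ (1 - η) := by
  intro ε hε
  obtain ⟨δ₁, hδ₁, h₁⟩ := hX (ε / 2) (by linarith)
  obtain ⟨δ₂, hδ₂, h₂⟩ := lowerDensityGE_univ (ε / 2) (by linarith)
  refine ⟨min δ₁ δ₂, lt_min hδ₁ hδ₂, fun s h1 h2 => ?_⟩
  have hs1 : s < 1 + δ₁ := lt_of_lt_of_le h2 (add_le_add_right (min_le_left _ _) 1)
  have hs2 : s < 1 + δ₂ := lt_of_lt_of_le h2 (add_le_add_right (min_le_right _ _) 1)
  have := primeMass_add_compl X h1
  have := h₁ s h1 hs1
  have := h₂ s h1 hs2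
  nlinarith

/-- Removing a finite set does not change the lower density. -/
lemma lowerDensityGE_diff_finite {X F : Set ℕ} {η : ℝ} (hX : LowerDensityGE X η)
    (hF : F.Finite) : LowerDensityGE (X \ F) η := by
  intro ε hε
  obtain ⟨δ₁, hδ₁, h₁⟩ := hX (ε / 2) (by linarith)
  obtain ⟨δ₂, hδ₂, h₂⟩ := upperDensityLE_of_finite hF (ε / 2) (by linarith)
  refine ⟨min δ₁ δ₂, lt_min hδ₁ hδ₂, fun s h1 h2 => ?_⟩
  have hs1 : s < 1 + δ₁ := lt_of_lt_of_le h2 (add_le_add_right (min_le_left _ _) 1)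
  have hs2 : s < 1 + δ₂ := lt_of_lt_of_le h2 (add_le_add_right (min_le_right _ _) 1)
  have hsub : X ⊆ (X \ F) ∪ F := by
    intro p hp
    by_cases hpF : p ∈ F
    · exact Or.inr hpF
    · exact Or.inl ⟨hp, hpF⟩
  have := (primeMass_mono hsub h1).trans (primeMass_union_le (X \ F) F h1)
  have := h₁ s h1 hs1
  have := h₂ s h1 hs2
  nlinarith

/-- Adding a finite set does not change the upper density. -/
lemma upperDensityLE_union_finite {X F : Set ℕ} {η : ℝ} (hX : UpperDensityLE X η)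
    (hF : F.Finite) : UpperDensityLE (X ∪ F) η := by
  simpa using upperDensityLE_union hX (upperDensityLE_of_finite hF)


/-! ### Sums over `Nat.Primes` -/

lemma primeMass_eq_tsum_primes (X : Set ℕ) [DecidablePred (· ∈ X)] (s : ℝ) :
    primeMass X s = ∑' p : Nat.Primes, (if (p : ℕ) ∈ X then ((p : ℕ) : ℝ) ^ (-s) else 0) := by
  rw [primeMass_eq_tsum]
  have h1 : pmTerm X s = Set.indicator {p : ℕ | p.Prime}
      (fun p : ℕ => if p ∈ X then (p : ℝ) ^ (-s) else 0) := by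
    funext p
    unfold pmTerm
    by_cases hp : p.Prime
    · by_cases hX : p ∈ X
      · rw [Set.indicator_of_mem (s := {p : ℕ | p.Prime ∧ p ∈ X}) ⟨hp, hX⟩,
          Set.indicator_of_mem (s := {p : ℕ | p.Prime}) hp, if_pos hX]
      · rw [Set.indicator_of_notMem (s := {p : ℕ | p.Prime ∧ p ∈ X}) (fun h => hX h.2),
          Set.indicator_of_mem (s := {p : ℕ | p.Prime}) hp, if_neg hX]
    · rw [Set.indicator_of_notMem (s := {p : ℕ | p.Prime ∧ p ∈ X}) (fun h => hp h.1),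
        Set.indicator_of_notMem (s := {p : ℕ | p.Prime}) hp]
  rw [h1]
  exact (tsum_subtype {p : ℕ | p.Prime}
    (fun p : ℕ => if p ∈ X then (p : ℝ) ^ (-s) else 0)).symm

/-- Primes in a residue class: `primeMass = φ(N)⁻¹ log (1/(s-1)) + O(1)`. -/
theorem primeMass_AP_bound {N : ℕ} [NeZero N] {a : ZMod N} (ha : IsUnit a) :
    ∃ C : ℝ, ∀ s ∈ Set.Ioc (1 : ℝ) 2,
      |primeMass {p : ℕ | (p : ZMod N) = a} s
        - (N.totient : ℝ)⁻¹ * Real.log (1 / (s - 1))| ≤ C := by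
  obtain ⟨C, hC⟩ := primesAP_bound ha
  refine ⟨C, fun s hs => ?_⟩
  have heq : primeMass {p : ℕ | (p : ZMod N) = a} s =
      ∑' p : Nat.Primes, (if ((p : ℕ) : ZMod N) = a then ((p : ℕ) : ℝ) ^ (-s) else 0) := by
    classical
    refine (primeMass_eq_tsum_primes _ s).trans (tsum_congr fun p => ?_)
    by_cases h : ((p : ℕ) : ZMod N) = a
    · rw [if_pos h, if_pos (show (p : ℕ) ∈ {p : ℕ | (p : ZMod N) = a} from h)]
    · rw [if_neg h, if_neg (show (p : ℕ) ∉ {p : ℕ | (p : ZMod N) = a} from h)]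
  rw [heq]
  exact hC s hs

theorem lowerDensityGE_AP {N : ℕ} [NeZero N] {a : ZMod N} (ha : IsUnit a) :
    LowerDensityGE {p : ℕ | (p : ZMod N) = a} ((N.totient : ℝ)⁻¹) := by
  obtain ⟨C, hC⟩ := primeMass_AP_bound ha
  refine lowerDensityGE_of_le (C := C) one_pos fun s h1 h2 => ?_
  have := (abs_le.mp (hC s ⟨h1, by linarith⟩)).1
  linarith

theorem upperDensityLE_AP {N : ℕ} [NeZero N] {a : ZMod N} (ha : IsUnit a) :
    UpperDensityLE {p : ℕ | (p : ZMod N) = a} ((N.totient : ℝ)⁻¹) := by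
  obtain ⟨C, hC⟩ := primeMass_AP_bound ha
  refine upperDensityLE_of_le (C := C) one_pos fun s h1 h2 => ?_
  have := (abs_le.mp (hC s ⟨h1, by linarith⟩)).2
  linarith

/-! ### Weighted sums: the Rankin bound against densities -/

/-- **Chebyshev step of [IV-FIN]**: if `∑_p w(p) p^{-s} ≤ K log (1/(s-1)) + C` near `1` for a
weight `w ≥ 0` on the primes not dividing `N`, and `w ≥ c > 0` on the primes of `X` not
dividing `N`, then `X` has upper density at most `K / c`. -/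
theorem upperDensityLE_of_weight {N : ℕ} (hN : N ≠ 0) {w : ℕ → ℝ} {K C c : ℝ} (hc : 0 < c)
    (hw : ∀ p : ℕ, 0 ≤ w p)
    (hsum : ∀ s : ℝ, 1 < s → s < 2 →
      Summable (Set.indicator {p : ℕ | p.Prime ∧ ¬ p ∣ N} (fun p : ℕ => w p * (p : ℝ) ^ (-s))) ∧
      ∑' p : ℕ, Set.indicator {p : ℕ | p.Prime ∧ ¬ p ∣ N}
        (fun p : ℕ => w p * (p : ℝ) ^ (-s)) p ≤ K * Real.log (1 / (s - 1)) + C)
    (X : Set ℕ) (hX : ∀ p ∈ X, p.Prime → ¬ p ∣ N → c ≤ w p) :
    UpperDensityLE X (K / c) := by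
  have hfin : (N.primeFactors : Set ℕ).Finite := N.primeFactors.finite_toSet
  -- first the set `X \ primeFactors N`
  have h1 : UpperDensityLE (X \ (N.primeFactors : Set ℕ)) (K / c) := by
    refine upperDensityLE_of_le (C := C / c) one_pos fun s hs1 hs2 => ?_
    obtain ⟨hS, hle⟩ := hsum s hs1 (by linarith)
    have hpt : ∀ p : ℕ, c * pmTerm (X \ (N.primeFactors : Set ℕ)) s p ≤
        Set.indicator {p : ℕ | p.Prime ∧ ¬ p ∣ N} (fun p : ℕ => w p * (p : ℝ) ^ (-s)) p := by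
      intro p
      have h0 : (0 : ℝ) ≤ (p : ℝ) ^ (-s) := Real.rpow_nonneg (Nat.cast_nonneg _) _
      unfold pmTerm
      by_cases hp : p.Prime ∧ p ∈ X \ (N.primeFactors : Set ℕ)
      · have hpN : ¬ p ∣ N := fun hd => hp.2.2 (by
          exact_mod_cast Nat.mem_primeFactors.mpr ⟨hp.1, hd, hN⟩)
        rw [Set.indicator_of_mem (s := {p : ℕ | p.Prime ∧ p ∈ X \ (N.primeFactors : Set ℕ)}) hp,
          Set.indicator_of_mem (s := {p : ℕ | p.Prime ∧ ¬ p ∣ N}) ⟨hp.1, hpN⟩]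
        exact mul_le_mul_of_nonneg_right (hX p hp.2.1 hp.1 hpN) h0
      · rw [Set.indicator_of_notMem
          (s := {p : ℕ | p.Prime ∧ p ∈ X \ (N.primeFactors : Set ℕ)}) hp, mul_zero]
        exact Set.indicator_nonneg (fun q _ => mul_nonneg (hw q)
          (Real.rpow_nonneg (Nat.cast_nonneg _) _)) p
    have h2 : c * primeMass (X \ (N.primeFactors : Set ℕ)) s ≤
        K * Real.log (1 / (s - 1)) + C := by
      rw [primeMass_eq_tsum, ← tsum_mul_left]
      exact (((summable_pmTerm _ hs1).mul_left c).tsum_le_tsum hpt hS).trans hle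
    rw [div_mul_eq_mul_div, ← add_div, le_div_iff₀ hc]
    linarith
  have h2 := upperDensityLE_union_finite h1 hfin
  refine upperDensityLE_mono_set h2 fun p hp => ?_
  by_cases hpF : p ∈ (N.primeFactors : Set ℕ)
  · exact Or.inr hpF
  · exact Or.inl ⟨hp, hpF⟩

lemma exists_common_delta {ι : Type} (I : Finset ι) (X : ι → Set ℕ) (η : ι → ℝ) {ε : ℝ}
    (hε : 0 < ε) (hd : ∀ i ∈ I, LowerDensityGE (X i) (η i)) :
    ∃ δ : ℝ, 0 < δ ∧ ∀ i ∈ I, ∀ s : ℝ, 1 < s → s < 1 + δ →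
      (η i - ε) * Real.log (1 / (s - 1)) ≤ primeMass (X i) s := by
  classical
  induction I using Finset.induction_on with
  | empty => exact ⟨1, one_pos, fun i hi => absurd hi (Finset.notMem_empty i)⟩
  | insert j J hj ih =>
    obtain ⟨δ₁, hδ₁, h₁⟩ := ih (fun i hi => hd i (Finset.mem_insert_of_mem hi))
    obtain ⟨δ₂, hδ₂, h₂⟩ := hd j (Finset.mem_insert_self j J) ε hε
    refine ⟨min δ₁ δ₂, lt_min hδ₁ hδ₂, fun i hi s h1 h2 => ?_⟩
    have hs1 : s < 1 + δ₁ := lt_of_lt_of_le h2 (add_le_add_right (min_le_left _ _) 1)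
    have hs2 : s < 1 + δ₂ := lt_of_lt_of_le h2 (add_le_add_right (min_le_right _ _) 1)
    rcases Finset.mem_insert.mp hi with rfl | hi'
    · exact h₂ s h1 hs2
    · exact h₁ i hi' s h1 hs1

lemma exists_common_delta_upper {ι : Type} (I : Finset ι) (X : ι → Set ℕ) (η : ι → ℝ) {ε : ℝ}
    (hε : 0 < ε) (hd : ∀ i ∈ I, UpperDensityLE (X i) (η i)) :
    ∃ δ : ℝ, 0 < δ ∧ ∀ i ∈ I, ∀ s : ℝ, 1 < s → s < 1 + δ →
      primeMass (X i) s ≤ (η i + ε) * Real.log (1 / (s - 1)) := by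
  classical
  induction I using Finset.induction_on with
  | empty => exact ⟨1, one_pos, fun i hi => absurd hi (Finset.notMem_empty i)⟩
  | insert j J hj ih =>
    obtain ⟨δ₁, hδ₁, h₁⟩ := ih (fun i hi => hd i (Finset.mem_insert_of_mem hi))
    obtain ⟨δ₂, hδ₂, h₂⟩ := hd j (Finset.mem_insert_self j J) ε hε
    refine ⟨min δ₁ δ₂, lt_min hδ₁ hδ₂, fun i hi s h1 h2 => ?_⟩
    have hs1 : s < 1 + δ₁ := lt_of_lt_of_le h2 (add_le_add_right (min_le_left _ _) 1)
    have hs2 : s < 1 + δ₂ := lt_of_lt_of_le h2 (add_le_add_right (min_le_right _ _) 1)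
    rcases Finset.mem_insert.mp hi with rfl | hi'
    · exact h₂ s h1 hs2
    · exact h₁ i hi' s h1 hs1

/-- **Analytic step of [IV-IRR]**: finitely many pairwise disjoint sets `X i` of primes with
lower densities `η i` on which `‖b p‖² ≥ w i ≥ 0`; the Rankin bound forces
`∑ w i * η i ≤ 1`. -/
theorem rankin_density_le {N : ℕ} (hN : N ≠ 0) {b : ℕ → ℂ} (hR : RankinBound N b)
    {ι : Type} (I : Finset ι) (X : ι → Set ℕ) (w η : ι → ℝ)
    (hw : ∀ i ∈ I, 0 ≤ w i)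
    (hdisj : ∀ i ∈ I, ∀ j ∈ I, i ≠ j → Disjoint (X i) (X j))
    (hX : ∀ i ∈ I, ∀ p ∈ X i, p.Prime → ¬ p ∣ N → w i ≤ ‖b p‖ ^ 2)
    (hd : ∀ i ∈ I, LowerDensityGE (X i) (η i)) :
    ∑ i ∈ I, w i * η i ≤ 1 := by
  classical
  obtain ⟨C, hC⟩ := hR
  have hfin : (N.primeFactors : Set ℕ).Finite := N.primeFactors.finite_toSet
  set X' : ι → Set ℕ := fun i => X i \ (N.primeFactors : Set ℕ) with hX'
  have hd' : ∀ i ∈ I, LowerDensityGE (X' i) (η i) := fun i hi =>
    lowerDensityGE_diff_finite (hd i hi) hfin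
  -- pointwise inequality
  have hpt : ∀ (s : ℝ) (p : ℕ), ∑ i ∈ I, w i * pmTerm (X' i) s p ≤ rankinTerm N b s p := by
    intro s p
    have h0 : (0 : ℝ) ≤ (p : ℝ) ^ (-s) := Real.rpow_nonneg (Nat.cast_nonneg _) _
    have hR0 : 0 ≤ rankinTerm N b s p :=
      Set.indicator_nonneg (fun q _ => mul_nonneg (sq_nonneg _)
        (Real.rpow_nonneg (Nat.cast_nonneg _) _)) p
    by_cases hex : ∃ i ∈ I, p.Prime ∧ p ∈ X' i
    · obtain ⟨i, hi, hp, hpi⟩ := hex
      have hpN : ¬ p ∣ N := fun hdv => hpi.2 (by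
        exact_mod_cast Nat.mem_primeFactors.mpr ⟨hp, hdv, hN⟩)
      have hothers : ∀ j ∈ I, j ≠ i → w j * pmTerm (X' j) s p = 0 := by
        intro j hj hji
        have : p ∉ X' j := fun hpj =>
          (Set.disjoint_left.mp (hdisj j hj i hi hji)) hpj.1 hpi.1
        unfold pmTerm
        rw [Set.indicator_of_notMem (s := {p : ℕ | p.Prime ∧ p ∈ X' j}) (fun h => this h.2),
          mul_zero]
      rw [Finset.sum_eq_single_of_mem i hi hothers]
      unfold pmTerm rankinTerm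
      rw [Set.indicator_of_mem (s := {p : ℕ | p.Prime ∧ p ∈ X' i}) ⟨hp, hpi⟩,
        Set.indicator_of_mem (s := {p : ℕ | p.Prime ∧ ¬ p ∣ N}) ⟨hp, hpN⟩]
      exact mul_le_mul_of_nonneg_right (hX i hi p hpi.1 hp hpN) h0
    · have : ∀ i ∈ I, w i * pmTerm (X' i) s p = 0 := by
        intro i hi
        unfold pmTerm
        rw [Set.indicator_of_notMem (s := {p : ℕ | p.Prime ∧ p ∈ X' i})
          (fun h => hex ⟨i, hi, h⟩), mul_zero]
      rw [Finset.sum_eq_zero this]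
      exact hR0
  -- summed inequality
  have hsum : ∀ s : ℝ, 1 < s → s < 2 →
      ∑ i ∈ I, w i * primeMass (X' i) s ≤ Real.log (1 / (s - 1)) + C := by
    intro s h1 h2
    obtain ⟨hS, hle⟩ := hC s h1 h2
    have hS' : Summable fun p => ∑ i ∈ I, w i * pmTerm (X' i) s p :=
      summable_sum fun i _ => (summable_pmTerm (X' i) h1).mul_left (w i)
    have : ∑ i ∈ I, w i * primeMass (X' i) s = ∑' p, ∑ i ∈ I, w i * pmTerm (X' i) s p := by
      rw [Summable.tsum_finsetSum fun i _ => (summable_pmTerm (X' i) h1).mul_left (w i)]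
      refine Finset.sum_congr rfl fun i _ => ?_
      rw [primeMass_eq_tsum, tsum_mul_left]
    rw [this]
    exact (hS'.tsum_le_tsum (hpt s) hS).trans hle
  -- conclusion by contradiction
  by_contra hlt
  rw [not_le] at hlt
  set W := ∑ i ∈ I, w i with hW
  have hW0 : 0 ≤ W := Finset.sum_nonneg hw
  set ε := (∑ i ∈ I, w i * η i - 1) / (2 * (W + 1)) with hε
  have hε0 : 0 < ε := by
    rw [hε]
    apply div_pos <;> linarith
  obtain ⟨δ, hδ, hδ'⟩ := exists_common_delta I X' η hε0 hd'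
  set κ := (∑ i ∈ I, w i * η i - 1) / 2 with hκ
  have hκ0 : 0 < κ := by rw [hκ]; linarith
  have hεW : ε * W ≤ κ := by
    rw [hε, hκ, div_mul_eq_mul_div, div_le_div_iff₀ (by linarith) (by norm_num)]
    nlinarith
  obtain ⟨δ₂, hδ₂, hδ₂1, hK⟩ := exists_delta_log_ge (C / κ + 1)
  set s := 1 + min δ δ₂ / 2 with hs
  have hm : 0 < min δ δ₂ := lt_min hδ hδ₂
  have h1 : 1 < s := by rw [hs]; linarith
  have hs1 : s < 1 + δ := by
    have : min δ δ₂ ≤ δ := min_le_left _ _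
    rw [hs]; linarith
  have hs2 : s < 1 + δ₂ := by
    have : min δ δ₂ ≤ δ₂ := min_le_right _ _
    rw [hs]; linarith
  have hs3 : s < 2 := by linarith
  have hL := hK s h1 hs2
  have hL0 : 0 < Real.log (1 / (s - 1)) := log_inv_sub_one_pos h1 hs3
  have hA : ∑ i ∈ I, w i * ((η i - ε) * Real.log (1 / (s - 1))) ≤
      ∑ i ∈ I, w i * primeMass (X' i) s :=
    Finset.sum_le_sum fun i hi => mul_le_mul_of_nonneg_left (hδ' i hi s h1 hs1) (hw i hi)
  have hB : ∑ i ∈ I, w i * ((η i - ε) * Real.log (1 / (s - 1))) =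
      (∑ i ∈ I, w i * η i - ε * W) * Real.log (1 / (s - 1)) := by
    rw [hW, Finset.mul_sum, ← Finset.sum_sub_distrib, Finset.sum_mul]
    exact Finset.sum_congr rfl fun i _ => by ring
  have hC' := hsum s h1 hs3
  have hD : (κ + 1) * Real.log (1 / (s - 1)) ≤ Real.log (1 / (s - 1)) + C := by
    have : κ + 1 ≤ ∑ i ∈ I, w i * η i - ε * W := by
      rw [hκ] at hεW ⊢; linarith
    calc (κ + 1) * Real.log (1 / (s - 1))
        ≤ (∑ i ∈ I, w i * η i - ε * W) * Real.log (1 / (s - 1)) :=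
          mul_le_mul_of_nonneg_right this hL0.le
      _ ≤ _ := by rw [← hB]; exact hA.trans hC'
  have hE : κ * Real.log (1 / (s - 1)) ≤ C := by linarith
  have hF : κ * (C / κ + 1) ≤ C := (mul_le_mul_of_nonneg_left hL hκ0.le).trans hE
  rw [mul_add, mul_div_cancel₀ _ hκ0.ne', mul_one] at hF
  linarith

end Fermat.Agent.T4.helper10
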