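import Fermat.Agent.T4.helper14_TransD1Char
import Fermat.Agent.T4.helper44_WpBridge

/-!
# T4 (I) [AN-TRANS-D], the analytic meaning of the diamond automorphism (helper14, row 1106)

`diamondEvSymm_of` : `DiamondEvSymm M d` (the only input of `transportD1_of` /
`transCharD1_of_step`) from

* `hM : 4 ≤ M`;
* `hq : ∀ a ≠ 0, IsQExp (coeffEmb ℂ (sSer ℚ M a)) (sFn M a)` (= `helper24.X1Inputs.qexp`);
* `hσ : ∃ σ, helper32.IsDiamondAut M d σ` (helper17, [I-FLD-DIAMOND]).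

Proof: for `γ ∈ Γ₀(M)` with upper left entry `≡ d` the set of all `h ∈ F1 M` such that some
function `f` of `toC h` has the property that `f ∘ γ` is a function of `toC (σ h)` is a subfield
containing the constants, the generators `j(q^e)` (`e ∣ M`; `σ` fixes them and `j(e τ)` is
`Γ₀(M)`-invariant) and the generators `s_a` (`helper44.sFn_smul`, the analytic diamond law); hence
it is everything.  Apply this to `σ.symm h` and `γ = (diamondRep d)⁻¹`.
-/

set_option autoImplicit false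
set_option linter.unusedSectionVars false
set_option linter.style.haveILetI false

noncomputable section

namespace Fermat.Agent.T4.helper14

open CongruenceSubgroup ModularCurve AlgebraicCurve UpperHalfPlane Filter Topology
open scoped MatrixGroups
open Fermat.Agent.P3.helper34
open Fermat.Agent.S24 hiding Kbar
open Fermat.Agent.S24.helper17
open Fermat.Agent.T4.helper32 Fermat.Agent.T4.helper24

/-! ### Generalities on `IsEv` -/

theorem toC_coeffEmb_h14 (y : LaurentSeries ℚ) : toC (coeffEmb Kbar y) = coeffEmb ℂ y := by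
  rw [toC, coeffEmb, coeffMap_coeffMap]
  exact coeffMap_congr (RingHom.ext fun c => by simp) y

theorem toC_algebraMap_h14 (c : Kbar) :
    toC (algebraMap Kbar (LaurentSeries Kbar) c) = HahnSeries.C (iotaC c) := by
  rw [algebraMap_laurentSeries_eq_single, toC, coeffMap_single]
  rfl

theorem isEv_zero_h14 : IsEv 0 (fun _ => (0 : ℂ)) := by
  have := isEv_const 0
  rwa [map_zero] at this

theorem isEv_neg_h14 {S : LaurentSeries ℂ} {f : ℂ → ℂ} (h : IsEv S f) :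
    IsEv (-S) (fun w => - f w) := by
  have h1 := (isEv_const (-1)).mul h
  have e : HahnSeries.C (-1 : ℂ) * S = -S := by
    rw [map_neg, map_one, neg_one_mul]
  rw [e] at h1
  exact h1.congr fun z _ => Eventually.of_forall fun w => by simp

theorem isEv_sub_h14 {S₁ S₂ : LaurentSeries ℂ} {f₁ f₂ : ℂ → ℂ} (h₁ : IsEv S₁ f₁)
    (h₂ : IsEv S₂ f₂) : IsEv (S₁ - S₂) (fun w => f₁ w - f₂ w) := by
  have h1 := h₁.add (isEv_neg_h14 h₂)
  rw [← sub_eq_add_neg] at h1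
  exact h1.congr fun z _ => Eventually.of_forall fun w => by ring

/-- on the upper half plane, `f ∘ ofComplex ∘ γ = (f ∘ γ) ∘ ofComplex` -/
theorem comp_ofComplex_moebC (s : ℍ → ℂ) (γ : SL(2, ℤ)) {w : ℂ} (hw : 0 < w.im) :
    s (ofComplex (moebC γ w)) = s (γ • (⟨w, hw⟩ : ℍ)) := by
  rw [moebC_eq_coe γ hw, ofComplex_apply]

theorem eventually_im_pos_h14 {z : ℂ} (hz : 0 < z.im) : ∀ᶠ w in 𝓝[≠] z, 0 < w.im :=
  mem_nhdsWithin_of_mem_nhds (UpperHalfPlane.isOpen_upperHalfPlaneSet.mem_nhds hz)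

/-- composition with a Möbius transformation preserves equality on punctured neighbourhoods -/
theorem isEv_congr_comp_moebC {S : LaurentSeries ℂ} {f₁ f₂ : ℂ → ℂ} (γ : SL(2, ℤ))
    (h : IsEv S (fun w => f₁ (moebC γ w)))
    (hff : ∀ z ∈ {z : ℂ | 0 < z.im}, f₁ =ᶠ[𝓝[≠] z] f₂) :
    IsEv S (fun w => f₂ (moebC γ w)) :=
  h.congr fun z hz => eventuallyEq_comp_moebC γ hz (hff _ (moebC_im_pos γ hz))

/-! ### The property -/

variable (M : ℕ) [NeZero M]

/-- `x ∈ F1 M` has a function `f` such that `f ∘ γ` is a function of `σ x`. -/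
def EvPairL (σ : F1 M ≃ₐ[Kbar] F1 M) (γ : SL(2, ℤ)) (x : LaurentSeries Kbar) : Prop :=
  ∃ (hm : x ∈ F1 M) (f : ℂ → ℂ), IsEv (toC x) f ∧
    IsEv (toC ((σ ⟨x, hm⟩ : F1 M) : LaurentSeries Kbar)) (fun w => f (moebC γ w))

variable {M} {σ : F1 M ≃ₐ[Kbar] F1 M} {γ : SL(2, ℤ)}

theorem evPairL_algebraMap (c : Kbar) :
    EvPairL M σ γ (algebraMap Kbar (LaurentSeries Kbar) c) := by
  refine ⟨(F1 M).algebraMap_mem c, fun _ => iotaC c, ?_, ?_⟩
  · rw [toC_algebraMap_h14]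
    exact isEv_const _
  · have e : (⟨algebraMap Kbar (LaurentSeries Kbar) c, (F1 M).algebraMap_mem c⟩ : F1 M) =
        algebraMap Kbar (F1 M) c := rfl
    rw [e, σ.commutes]
    show IsEv (toC (algebraMap Kbar (LaurentSeries Kbar) c)) _
    rw [toC_algebraMap_h14]
    exact isEv_const _

theorem evPairL_one : EvPairL M σ γ 1 := by
  have := evPairL_algebraMap (M := M) (σ := σ) (γ := γ) 1
  rwa [map_one] at this

theorem evPairL_add {x y : LaurentSeries Kbar} (hx : EvPairL M σ γ x) (hy : EvPairL M σ γ y) :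
    EvPairL M σ γ (x + y) := by
  obtain ⟨hmx, f, hf1, hf2⟩ := hx
  obtain ⟨hmy, g, hg1, hg2⟩ := hy
  refine ⟨add_mem hmx hmy, fun w => f w + g w, ?_, ?_⟩
  · rw [map_add]
    exact hf1.add hg1
  · have e : (⟨x + y, add_mem hmx hmy⟩ : F1 M) = ⟨x, hmx⟩ + ⟨y, hmy⟩ := rfl
    rw [e, map_add]
    show IsEv (toC (((σ ⟨x, hmx⟩ : F1 M) : LaurentSeries Kbar) +
      ((σ ⟨y, hmy⟩ : F1 M) : LaurentSeries Kbar))) _
    rw [map_add]
    exact hf2.add hg2

theorem evPairL_mul {x y : LaurentSeries Kbar} (hx : EvPairL M σ γ x) (hy : EvPairL M σ γ y) :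
    EvPairL M σ γ (x * y) := by
  obtain ⟨hmx, f, hf1, hf2⟩ := hx
  obtain ⟨hmy, g, hg1, hg2⟩ := hy
  refine ⟨mul_mem hmx hmy, fun w => f w * g w, ?_, ?_⟩
  · rw [map_mul]
    exact hf1.mul hg1
  · have e : (⟨x * y, mul_mem hmx hmy⟩ : F1 M) = ⟨x, hmx⟩ * ⟨y, hmy⟩ := rfl
    rw [e, map_mul]
    show IsEv (toC (((σ ⟨x, hmx⟩ : F1 M) : LaurentSeries Kbar) *
      ((σ ⟨y, hmy⟩ : F1 M) : LaurentSeries Kbar))) _
    rw [map_mul]
    exact hf2.mul hg2

theorem evPairL_neg {x : LaurentSeries Kbar} (hx : EvPairL M σ γ x) : EvPairL M σ γ (-x) := by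
  obtain ⟨hmx, f, hf1, hf2⟩ := hx
  refine ⟨neg_mem hmx, fun w => - f w, ?_, ?_⟩
  · rw [map_neg]
    exact isEv_neg_h14 hf1
  · have e : (⟨-x, neg_mem hmx⟩ : F1 M) = -⟨x, hmx⟩ := rfl
    rw [e, map_neg]
    show IsEv (toC (-((σ ⟨x, hmx⟩ : F1 M) : LaurentSeries Kbar))) _
    rw [map_neg]
    exact isEv_neg_h14 hf2

theorem evPairL_inv {x : LaurentSeries Kbar} (hx : EvPairL M σ γ x) : EvPairL M σ γ x⁻¹ := by
  obtain ⟨hmx, f, hf1, hf2⟩ := hx
  rcases eq_or_ne x 0 with rfl | hx0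
  · rw [inv_zero]
    exact ⟨hmx, f, hf1, hf2⟩
  refine ⟨inv_mem hmx, fun w => (f w)⁻¹, ?_, ?_⟩
  · rw [map_inv₀]
    exact hf1.inv (fun h0 => hx0 (toC_injective (by rw [h0, map_zero])))
  · have e : (⟨x⁻¹, inv_mem hmx⟩ : F1 M) = (⟨x, hmx⟩ : F1 M)⁻¹ := rfl
    rw [e, map_inv₀]
    show IsEv (toC (((σ ⟨x, hmx⟩ : F1 M) : LaurentSeries Kbar))⁻¹) _
    rw [map_inv₀]
    refine hf2.inv (fun h0 => hx0 ?_)
    have h1 : ((σ ⟨x, hmx⟩ : F1 M) : LaurentSeries Kbar) = 0 :=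
      toC_injective (by rw [h0, map_zero])
    have h2 : σ ⟨x, hmx⟩ = 0 := Subtype.ext h1
    have h3 : (⟨x, hmx⟩ : F1 M) = 0 := by
      rwa [map_eq_zero_iff σ σ.injective] at h2
    exact congrArg Subtype.val h3

/-! ### The generators `j(q^e)` -/

theorem evPairL_jd {d : (ZMod M)ˣ} (hσ : IsDiamondAut M d σ) (hγ : γ ∈ Gamma0 M) {e : ℕ}
    [NeZero e] (he : e ∣ M) : EvPairL M σ γ (coeffEmb Kbar (qExpand ℚ e jq)) := by
  have hX0 : coeffEmb Kbar (qExpand ℚ e jq) ∈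
      laurentBaseChange Kbar (modularFunctionFieldFull M) :=
    coeffEmb_mem_laurentBaseChange Kbar (jqd_mem_full M he)
  have hm : coeffEmb Kbar (qExpand ℚ e jq) ∈ F1 M := FF_le_F1 M hX0
  have hfix : σ ⟨_, hm⟩ = ⟨_, hm⟩ := hσ.1 ⟨_, hm⟩ hX0
  have hE : IsEv (toC (coeffEmb Kbar (qExpand ℚ e jq))) (fun w => jfunD e (ofComplex w)) := by
    rw [toC_coeffEmb_h14, ← JdC_eq_coeffEmb]
    exact isEv_of_isQExp (isQExp_jfunD e)
  refine ⟨hm, fun w => jfunD e (ofComplex w), hE, ?_⟩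
  rw [hfix]
  refine hE.congr fun z hz => ?_
  filter_upwards [eventually_im_pos_h14 hz] with w hw
  rw [comp_ofComplex_moebC (jfunD e) γ hw, helper24.jfunD_smul_of_mem_Gamma0 M e he γ hγ,
    ofComplex_apply_of_im_pos hw]

/-! ### The analytic diamond law in `s`-form -/

section Law

variable (M)

theorem natCast_ne_zero_h14 {k : ℕ} (hk : 0 < k) (hkM : k < M) : ((k : ℕ) : ZMod M) ≠ 0 := by
  intro h
  have h1 := (ZMod.natCast_eq_zero_iff k M).mp h
  have := Nat.le_of_dvd hk h1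
  omega

theorem one_ne_zero_h14 (hM : 4 ≤ M) : (1 : ZMod M) ≠ 0 := by
  have := natCast_ne_zero_h14 M (k := 1) (by norm_num) (by omega)
  simpa using this

theorem two_ne_zero_h14 (hM : 4 ≤ M) : (2 : ZMod M) ≠ 0 := by
  have := natCast_ne_zero_h14 M (k := 2) (by norm_num) (by omega)
  simpa using this

theorem three_ne_zero_h14 (hM : 4 ≤ M) : (3 : ZMod M) ≠ 0 := by
  have := natCast_ne_zero_h14 M (k := 3) (by norm_num) (by omega)
  simpa using this

/-- differences of the `s_a` are quotients of differences of `℘`-values -/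
theorem sFn_sub_h14 (hM : 4 ≤ M) (x y : ZMod M) (hx : x ≠ 0) (hy : y ≠ 0) (τ : ℍ) :
    sFn M x τ - sFn M y τ = wpDfn M x y τ / wpDfn M 2 1 τ := by
  have h1 := one_ne_zero_h14 M hM
  simp only [sFn]
  rw [← sub_div]
  congr 1
  rw [helper44.wpDfn_eq_val M x 1 hx h1, helper44.wpDfn_eq_val M y 1 hy h1,
    helper44.wpDfn_eq_val M x y hx hy]
  simp only [helper44.wpD]
  ring

/-- **the analytic diamond law**: for `γ ∈ Γ₀(M)` with upper left entry `u`,
`s_a ∘ γ = (s_{u a} - s_u) / (s_{2 u} - s_u)`. -/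
theorem sFn_law_h14 (hM : 4 ≤ M) {γ : SL(2, ℤ)} (hγ : γ ∈ Gamma0 M) (a : ZMod M) (ha : a ≠ 0)
    (τ : ℍ) :
    sFn M a (γ • τ) =
      (sFn M (((γ 0 0 : ℤ) : ZMod M) * a) τ - sFn M ((γ 0 0 : ℤ) : ZMod M) τ) /
        (sFn M (((γ 0 0 : ℤ) : ZMod M) * 2) τ - sFn M ((γ 0 0 : ℤ) : ZMod M) τ) := by
  have h1 := one_ne_zero_h14 M hM
  have h2 := two_ne_zero_h14 M hM
  have h3 := three_ne_zero_h14 M hM
  have hu : ((γ 0 0 : ℤ) : ZMod M) ≠ 0 := by
    have := helper44.mul_upperLeft_ne_zero M hγ h1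
    rwa [one_mul] at this
  have hua : ((γ 0 0 : ℤ) : ZMod M) * a ≠ 0 := by
    rw [mul_comm]
    exact helper44.mul_upperLeft_ne_zero M hγ ha
  have hu2 : ((γ 0 0 : ℤ) : ZMod M) * 2 ≠ 0 := by
    rw [mul_comm]
    exact helper44.mul_upperLeft_ne_zero M hγ h2
  have h21 : wpDfn M 2 1 τ ≠ 0 := by
    refine helper44.wpDfn_ne_zero M 2 1 h2 h1 ?_ ?_ τ
    · intro h
      apply h1
      have : (2 : ZMod M) - 1 = 0 := by rw [h]; ring
      rw [← this]
      ring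
    · intro h
      apply h3
      have : (2 : ZMod M) + 1 = 0 := by rw [h]; ring
      rw [← this]
      ring
  rw [helper44.sFn_smul M hγ (by omega) a ha τ, sFn_sub_h14 M hM _ _ hua hu,
    sFn_sub_h14 M hM _ _ hu2 hu, div_div_div_cancel_right₀ h21, mul_comm a, mul_comm 2]

/-- the denominator of the diamond law vanishes nowhere -/
theorem sFn_den_ne_zero_h14 (hM : 4 ≤ M) {γ : SL(2, ℤ)} (hγ : γ ∈ Gamma0 M) (τ : ℍ) :
    sFn M (((γ 0 0 : ℤ) : ZMod M) * 2) τ - sFn M ((γ 0 0 : ℤ) : ZMod M) τ ≠ 0 := by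
  have h1 := one_ne_zero_h14 M hM
  have h2 := two_ne_zero_h14 M hM
  have h3 := three_ne_zero_h14 M hM
  have hu : ((γ 0 0 : ℤ) : ZMod M) ≠ 0 := by
    have := helper44.mul_upperLeft_ne_zero M hγ h1
    rwa [one_mul] at this
  have hu2 : ((γ 0 0 : ℤ) : ZMod M) * 2 ≠ 0 := by
    rw [mul_comm]
    exact helper44.mul_upperLeft_ne_zero M hγ h2
  have hu3 : ((γ 0 0 : ℤ) : ZMod M) * 3 ≠ 0 := by
    rw [mul_comm]
    exact helper44.mul_upperLeft_ne_zero M hγ h3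
  have h21 : wpDfn M 2 1 τ ≠ 0 := by
    refine helper44.wpDfn_ne_zero M 2 1 h2 h1 ?_ ?_ τ
    · intro h
      apply h1
      have : (2 : ZMod M) - 1 = 0 := by rw [h]; ring
      rw [← this]
      ring
    · intro h
      apply h3
      have : (2 : ZMod M) + 1 = 0 := by rw [h]; ring
      rw [← this]
      ring
  rw [sFn_sub_h14 M hM _ _ hu2 hu]
  refine div_ne_zero (helper44.wpDfn_ne_zero M _ _ hu2 hu ?_ ?_ τ) h21
  · intro h
    apply hu
    have : ((γ 0 0 : ℤ) : ZMod M) * 2 - ((γ 0 0 : ℤ) : ZMod M) = 0 := by rw [h]; ring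
    rw [← this]
    ring
  · intro h
    apply hu3
    have : ((γ 0 0 : ℤ) : ZMod M) * 2 + ((γ 0 0 : ℤ) : ZMod M) = 0 := by rw [h]; ring
    rw [← this]
    ring

end Law

/-! ### The generators `s_a` -/

theorem evPairL_s (hM : 4 ≤ M) {d : (ZMod M)ˣ} (hσ : IsDiamondAut M d σ) (hγ : γ ∈ Gamma0 M)
    (hu : ((γ 0 0 : ℤ) : ZMod M) = (d : ZMod M))
    (hq : ∀ a : ZMod M, a ≠ 0 → IsQExp (coeffEmb ℂ (sSer ℚ M a)) (sFn M a))
    (a : ZMod M) (ha : a ≠ 0) : EvPairL M σ γ (coeffEmb Kbar (sSer ℚ M a)) := by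
  have h1 := one_ne_zero_h14 M hM
  have h2 := two_ne_zero_h14 M hM
  have hd0 : (d : ZMod M) ≠ 0 := by
    rw [← hu]
    have := helper44.mul_upperLeft_ne_zero M hγ h1
    rwa [one_mul] at this
  have hda : (d : ZMod M) * a ≠ 0 := by
    rw [← hu, mul_comm]
    exact helper44.mul_upperLeft_ne_zero M hγ ha
  have hd2 : (d : ZMod M) * 2 ≠ 0 := by
    rw [← hu, mul_comm]
    exact helper44.mul_upperLeft_ne_zero M hγ h2
  have hm : coeffEmb Kbar (sSer ℚ M a) ∈ F1 M := (sEl M a ha).2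
  have hE : IsEv (toC (coeffEmb Kbar (sSer ℚ M a))) (fun w => sFn M a (ofComplex w)) := by
    rw [toC_coeffEmb_h14]
    exact isEv_of_isQExp (hq a ha)
  refine ⟨hm, _, hE, ?_⟩
  have hσa := hσ.2 a ha
  show IsEv (toC ((σ (sEl M a ha) : F1 M) : LaurentSeries Kbar)) _
  rw [hσa, map_div₀, map_sub, map_sub, toC_coeffEmb_h14, toC_coeffEmb_h14, toC_coeffEmb_h14]
  have hden : coeffEmb ℂ (sSer ℚ M ((d : ZMod M) * 2)) - coeffEmb ℂ (sSer ℚ M (d : ZMod M)) ≠ 0 := by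
    intro h0
    have h3 := ((hq _ hd2).sub (hq _ hd0)).eq_zero_iff.mp h0
    have h4 := congrFun h3 UpperHalfPlane.I
    have h5 := sFn_den_ne_zero_h14 M hM hγ UpperHalfPlane.I
    rw [hu] at h5
    exact h5 h4
  have hev := (isEv_sub_h14 (isEv_of_isQExp (hq _ hda)) (isEv_of_isQExp (hq _ hd0))).div
    (isEv_sub_h14 (isEv_of_isQExp (hq _ hd2)) (isEv_of_isQExp (hq _ hd0))) hden
  refine hev.congr fun z hz => ?_
  filter_upwards [eventually_im_pos_h14 hz] with w hw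
  rw [comp_ofComplex_moebC (sFn M a) γ hw, ofComplex_apply_of_im_pos hw,
    sFn_law_h14 M hM hγ a ha, hu]

/-! ### Generation -/

section Gen

variable (M)

/-- the generators of `F1 M` over `ℚ̄` -/
def gens1 : Set (LaurentSeries Kbar) :=
  Set.range (algebraMap Kbar (LaurentSeries Kbar)) ∪
    (⇑(coeffEmb Kbar) '' (divisorExpansions M ∪ sGens ℚ M))

theorem coeffEmb_mem_closure_gens1 {y : LaurentSeries ℚ} (hy : y ∈ F1Q M) :
    coeffEmb Kbar y ∈ Subfield.closure (gens1 M) := by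
  unfold F1Q at hy
  induction hy using IntermediateField.adjoin_induction with
  | mem x hx => exact Subfield.subset_closure (Or.inr ⟨x, hx, rfl⟩)
  | algebraMap c =>
    refine Subfield.subset_closure (Or.inl ⟨algebraMap ℚ Kbar c, ?_⟩)
    rw [algebraMap_laurentSeries_eq_single, algebraMap_laurentSeries_eq_single, coeffEmb,
      coeffMap_single]
  | add x y _ _ hx hy =>
    rw [map_add]
    exact add_mem hx hy
  | inv x _ hx =>
    rw [map_inv₀]
    exact inv_mem hx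
  | mul x y _ _ hx hy =>
    rw [map_mul]
    exact mul_mem hx hy

theorem gens1_subset {z : LaurentSeries Kbar} (hz : z ∈ gens1 M) : z ∈ (F1 M).toSubfield := by
  rcases hz with ⟨c, rfl⟩ | ⟨y, hy, rfl⟩
  · exact (F1 M).algebraMap_mem c
  · refine coeffEmb_mem_laurentBaseChange Kbar ?_
    exact IntermediateField.subset_adjoin ℚ _ hy

theorem mem_closure_gens1 {x : LaurentSeries Kbar} (hx : x ∈ F1 M) :
    x ∈ Subfield.closure (gens1 M) := by
  rw [mem_laurentBaseChange_iff] at hx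
  refine (Subfield.closure_le (t := Subfield.closure (gens1 M))).mpr ?_ hx
  rintro y (⟨c, rfl⟩ | ⟨z, hz, rfl⟩)
  · exact Subfield.subset_closure (Or.inl ⟨c, rfl⟩)
  · exact coeffEmb_mem_closure_gens1 M hz

end Gen

/-- **every element of `F1 M` has a function `f` such that `f ∘ γ` is a function of its image
under the diamond automorphism**, `γ ∈ Γ₀(M)` with upper left entry `≡ d`. -/
theorem evPairL_of_mem_closure (hM : 4 ≤ M) {d : (ZMod M)ˣ} (hσ : IsDiamondAut M d σ)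
    (hγ : γ ∈ Gamma0 M) (hu : ((γ 0 0 : ℤ) : ZMod M) = (d : ZMod M))
    (hq : ∀ a : ZMod M, a ≠ 0 → IsQExp (coeffEmb ℂ (sSer ℚ M a)) (sFn M a))
    {x : LaurentSeries Kbar} (hx : x ∈ Subfield.closure (gens1 M)) : EvPairL M σ γ x := by
  induction hx using Subfield.closure_induction with
  | mem y hy =>
    rcases hy with ⟨c, rfl⟩ | ⟨z, (⟨e, hne, he, rfl⟩ | ⟨a, ha, rfl⟩), rfl⟩
    · exact evPairL_algebraMap c
    · haveI := hne
      exact evPairL_jd hσ hγ he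
    · exact evPairL_s hM hσ hγ hu hq a ha
  | one => exact evPairL_one
  | add x y _ _ ihx ihy => exact evPairL_add ihx ihy
  | neg x _ ih => exact evPairL_neg ih
  | inv x _ ih => exact evPairL_inv ih
  | mul x y _ _ ihx ihy => exact evPairL_mul ihx ihy

theorem evPairL_all (hM : 4 ≤ M) {d : (ZMod M)ˣ} (hσ : IsDiamondAut M d σ) (hγ : γ ∈ Gamma0 M)
    (hu : ((γ 0 0 : ℤ) : ZMod M) = (d : ZMod M))
    (hq : ∀ a : ZMod M, a ≠ 0 → IsQExp (coeffEmb ℂ (sSer ℚ M a)) (sFn M a))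
    (h : F1 M) : ∃ f : ℂ → ℂ, IsEv (toC (h : LaurentSeries Kbar)) f ∧
      IsEv (toC ((σ h : F1 M) : LaurentSeries Kbar)) (fun w => f (moebC γ w)) := by
  obtain ⟨hm, f, hf1, hf2⟩ := evPairL_of_mem_closure hM hσ hγ hu hq (mem_closure_gens1 M h.2)
  exact ⟨f, hf1, hf2⟩

/-! ### The analytic meaning of the diamond automorphism -/

/-- the function of `σ h` is `f ∘ γ` (for EVERY function `f` of `h`) -/
theorem isEv_diamondAut (hM : 4 ≤ M) {d : (ZMod M)ˣ} (hσ : IsDiamondAut M d σ)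
    (hγ : γ ∈ Gamma0 M) (hu : ((γ 0 0 : ℤ) : ZMod M) = (d : ZMod M))
    (hq : ∀ a : ZMod M, a ≠ 0 → IsQExp (coeffEmb ℂ (sSer ℚ M a)) (sFn M a))
    (h : F1 M) (f : ℂ → ℂ) (hf : IsEv (toC (h : LaurentSeries Kbar)) f) :
    IsEv (toC ((σ h : F1 M) : LaurentSeries Kbar)) (fun w => f (moebC γ w)) := by
  obtain ⟨f₀, h1, h2⟩ := evPairL_all hM hσ hγ hu hq h
  exact isEv_congr_comp_moebC γ h2 fun z hz => h1.unique hf hz

/-- the function of `σ.symm h` is `f ∘ γ⁻¹` (for EVERY function `f` of `h`) -/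
theorem isEv_diamondAut_symm (hM : 4 ≤ M) {d : (ZMod M)ˣ} (hσ : IsDiamondAut M d σ)
    (hγ : γ ∈ Gamma0 M) (hu : ((γ 0 0 : ℤ) : ZMod M) = (d : ZMod M))
    (hq : ∀ a : ZMod M, a ≠ 0 → IsQExp (coeffEmb ℂ (sSer ℚ M a)) (sFn M a))
    (h : F1 M) (f : ℂ → ℂ) (hf : IsEv (toC (h : LaurentSeries Kbar)) f) :
    IsEv (toC ((σ.symm h : F1 M) : LaurentSeries Kbar)) (fun w => f (moebC γ⁻¹ w)) := by
  obtain ⟨f₀, h1, h2⟩ := evPairL_all hM hσ hγ hu hq (σ.symm h)
  rw [AlgEquiv.apply_symm_apply] at h2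
  -- `f =ᶠ f₀ ∘ γ`, hence `f ∘ γ⁻¹ =ᶠ f₀`
  refine h1.congr fun z hz => ?_
  have h3 := eventuallyEq_comp_moebC γ⁻¹ hz (h2.unique hf (moebC_im_pos γ⁻¹ hz))
  filter_upwards [h3, eventually_im_pos_h14 hz] with w hw hw0
  rw [← hw, ← moebC_mul γ γ⁻¹ hw0, mul_inv_cancel, moebC_one hw0]

/-! ### The final statements -/

section Final

variable (M)

/-- `diamondAut M d` is the diamond automorphism as soon as the latter exists. -/
theorem isDiamondAut_diamondAut (d : (ZMod M)ˣ) (hσ : ∃ σ, IsDiamondAut M d σ) :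
    IsDiamondAut M d (diamondAut M d) := by
  unfold diamondAut
  rw [dif_pos hσ]
  exact hσ.choose_spec

theorem inv_diamondRep_mem (d : (ZMod M)ˣ) : (helper79.diamondRep d)⁻¹ ∈ Gamma0 M :=
  inv_mem (helper79.diamondRep_mem d)

/-- the upper left entry of `(diamondRep d)⁻¹` is `≡ d` -/
theorem inv_diamondRep_upperLeft (d : (ZMod M)ˣ) :
    (((((helper79.diamondRep d)⁻¹ : SL(2, ℤ)) 0 0 : ℤ)) : ZMod M) = (d : ZMod M) := by
  rw [← helper79.diamondRep_lowerRight d]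
  congr 1
  simp [Matrix.SpecialLinearGroup.coe_inv, Matrix.adjugate_fin_two]

/-- **the analytic meaning of `(diamondAut M d).symm`**, from the `q`-expansions of the `s_a`
(`helper24.X1Inputs.qexp`) and the existence of the diamond automorphism. -/
theorem diamondEvSymm_of (hM : 4 ≤ M) (d : (ZMod M)ˣ)
    (hq : ∀ a : ZMod M, a ≠ 0 → IsQExp (coeffEmb ℂ (sSer ℚ M a)) (sFn M a))
    (hσ : ∃ σ, IsDiamondAut M d σ) : DiamondEvSymm M d := by
  intro h f hf
  have h1 := isEv_diamondAut_symm hM (isDiamondAut_diamondAut M d hσ) (inv_diamondRep_mem M d)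
    (inv_diamondRep_upperLeft M d) hq h f hf
  rwa [inv_inv] at h1

/-- **the analytic meaning of `diamondAut M d`** : the function of `diamondAut M d h` is
`f ∘ g_d⁻¹`. -/
theorem diamondEv_of (hM : 4 ≤ M) (d : (ZMod M)ˣ)
    (hq : ∀ a : ZMod M, a ≠ 0 → IsQExp (coeffEmb ℂ (sSer ℚ M a)) (sFn M a))
    (hσ : ∃ σ, IsDiamondAut M d σ) (h : F1 M) (f : ℂ → ℂ)
    (hf : IsEv (toC (h : LaurentSeries Kbar)) f) :
    IsEv (toC ((diamondAut M d h : F1 M) : LaurentSeries Kbar))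
      (fun w => f (moebC (helper79.diamondRep d)⁻¹ w)) :=
  isEv_diamondAut hM (isDiamondAut_diamondAut M d hσ) (inv_diamondRep_mem M d)
    (inv_diamondRep_upperLeft M d) hq h f hf

/-- **[AN-TRANS-D]** (`helper21_AN1Defs` form). -/
theorem transportD1 (hM : 4 ≤ M) (p : ℕ) (d : (ZMod M)ˣ)
    (hq : ∀ a : ZMod M, a ≠ 0 → IsQExp (coeffEmb ℂ (sSer ℚ M a)) (sFn M a))
    (hσ : ∃ σ, IsDiamondAut M d σ) : helper21.Transport1Statement M p (.inr d) :=
  transportD1_of M p d (diamondEvSymm_of M hM d hq hσ)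

/-- **[AN-TRANS-D]** (character form of `helper21_AN1Final`). -/
theorem transCharD1 (hM : 4 ≤ M) (D : helper79.Hom1Data M) (d : (ZMod M)ˣ)
    (hcard : letI := D.fintypeJ (Sum.inr d); Fintype.card (D.J (Sum.inr d)) = 1)
    (hstep : ∀ (γ : Gamma1 M) (j : D.J (Sum.inr d)),
      ((D.step (Sum.inr d) γ j : Gamma1 M) : SL(2, ℤ)) =
        helper79.diamondRep d * (γ : SL(2, ℤ)) * (helper79.diamondRep d)⁻¹)
    (hq : ∀ a : ZMod M, a ≠ 0 → IsQExp (coeffEmb ℂ (sSer ℚ M a)) (sFn M a))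
    (hσ : ∃ σ, IsDiamondAut M d σ) : helper21.TransChar1Statement M D (Sum.inr d) :=
  transCharD1_of_step M D d hcard hstep (diamondEvSymm_of M hM d hq hσ)

/-- **[AN-TRANS-D]** from `helper24.X1Inputs`. -/
theorem transCharD1_of_x1Inputs (hM : 4 ≤ M) (D : helper79.Hom1Data M) (d : (ZMod M)ˣ)
    (hcard : letI := D.fintypeJ (Sum.inr d); Fintype.card (D.J (Sum.inr d)) = 1)
    (hstep : ∀ (γ : Gamma1 M) (j : D.J (Sum.inr d)),
      ((D.step (Sum.inr d) γ j : Gamma1 M) : SL(2, ℤ)) =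
        helper79.diamondRep d * (γ : SL(2, ℤ)) * (helper79.diamondRep d)⁻¹)
    (hX : X1Inputs M) (hσ : ∃ σ, IsDiamondAut M d σ) :
    helper21.TransChar1Statement M D (Sum.inr d) :=
  transCharD1 M hM D d hcard hstep hX.qexp hσ

end Final

end Fermat.Agent.T4.helper14

end
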