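import Mathlib
import Fermat.Agent.S24.helper17_Bridge

/-!
# T4 block (I), [I-FLD-DIAMOND] part 1 (helper17): inverses and quotients of `q`-expansions

`IsQExp f g` (S24, `helper17_QExp`) says that the formal Laurent series `f` is the `q`-expansion
at `∞` of the function `g` on the upper half plane (`g` holomorphic on `ℍ`, `1`-periodic,
meromorphic at `∞`).  Here:

* `exists_pow_div_isNice` : a nice nowhere vanishing function `g` has a nice `q^m / g`;
* `isQExp_inv`, `isQExp_div` : `q`-expansions of inverses and quotients of nowhere vanishing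
  functions;
* `isQExp_ne_zero` : the series of a nowhere vanishing function is not zero.
-/

set_option autoImplicit false

noncomputable section

open UpperHalfPlane ModularForm Function Filter
open scoped MatrixGroups Manifold Topology

namespace Fermat.Agent.T4.helper17

open Fermat.Agent.S24.helper17

local notation "𝕢" => Periodic.qParam

theorem qParam_ne_zero' (τ : ℍ) : 𝕢 1 (τ : ℂ) ≠ 0 := by
  unfold Periodic.qParam
  exact Complex.exp_ne_zero _

/-- A nice nowhere vanishing function has finite order at `∞`: `q^m / g` is nice for some `m`. -/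
theorem exists_pow_div_isNice {g : ℍ → ℂ} (h : IsNice g) (hg : ∀ τ, g τ ≠ 0) :
    ∃ m : ℕ, IsNice (fun τ : ℍ => 𝕢 1 τ ^ m / g τ) := by
  have hG : AnalyticAt ℂ (cuspFunction 1 g) 0 := h.analyticAt
  have hval : ∀ τ : ℍ, cuspFunction 1 g (𝕢 1 τ) = g τ := fun τ =>
    eq_cuspFunction τ one_ne_zero h.periodic
  have hq : Tendsto (fun τ : ℍ => 𝕢 1 (τ : ℂ)) atImInfty (𝓝 0) :=
    qParam_tendsto_atImInfty one_pos
  have hnz : ¬ ∀ᶠ z in 𝓝 (0 : ℂ), cuspFunction 1 g z = 0 := by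
    intro h0
    have h1 := hq.eventually h0
    obtain ⟨τ, hτ⟩ := h1.exists
    rw [hval] at hτ
    exact hg τ hτ
  obtain ⟨m, U, hU, hU0, hUe⟩ := hG.exists_eventuallyEq_pow_smul_nonzero_iff.mpr hnz
  refine ⟨m, ⟨?_, ?_, ?_⟩⟩
  · -- periodicity
    intro z
    have hp := h.periodic z
    simp only [comp_apply] at hp ⊢
    have hq1 := isNice_qParam.periodic z
    simp only [comp_apply] at hq1
    rw [hp, hq1]
  · -- holomorphy
    have h1 : MDiff (fun τ : ℍ => 𝕢 1 (τ : ℂ) ^ m) := (isNice_qParam_pow m).mdiff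
    rw [UpperHalfPlane.mdifferentiable_iff] at h1 ⊢
    have h2 := h.mdiff
    rw [UpperHalfPlane.mdifferentiable_iff] at h2
    have h3 : DifferentiableOn ℂ
        (fun z => ((fun τ : ℍ => 𝕢 1 (τ : ℂ) ^ m) ∘ ofComplex) z / (g ∘ ofComplex) z)
        {z | 0 < z.im} := h1.div h2 fun z _ => hg _
    exact h3
  · -- boundedness
    have hcont : ContinuousAt U 0 := hU.continuousAt
    have hne : ∀ᶠ z in 𝓝 (0 : ℂ), ‖U 0‖ / 2 < ‖U z‖ := by
      have h1 : Tendsto (fun z => ‖U z‖) (𝓝 0) (𝓝 ‖U 0‖) := hcont.norm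
      have h2 : ‖U 0‖ / 2 < ‖U 0‖ := by
        have : 0 < ‖U 0‖ := norm_pos_iff.mpr hU0
        linarith
      exact h1.eventually (lt_mem_nhds h2)
    have hev : ∀ᶠ τ : ℍ in atImInfty,
        ‖𝕢 1 (τ : ℂ) ^ m / g τ‖ ≤ (‖U 0‖ / 2)⁻¹ * ‖(1 : ℍ → ℝ) τ‖ := by
      filter_upwards [hq.eventually hUe, hq.eventually hne] with τ h1 h2
      rw [hval, sub_zero, smul_eq_mul] at h1
      have hqn : 𝕢 1 (τ : ℂ) ^ m ≠ 0 := pow_ne_zero _ (qParam_ne_zero' τ)
      have hU1 : U (𝕢 1 (τ : ℂ)) ≠ 0 := by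
        intro h0
        rw [h0, norm_zero] at h2
        have : 0 ≤ ‖U 0‖ / 2 := by positivity
        linarith
      rw [Pi.one_apply, h1, mul_comm, div_mul_cancel_right₀ hqn, norm_inv, norm_one, mul_one]
      have hpos : 0 < ‖U 0‖ / 2 := by
        have : 0 < ‖U 0‖ := norm_pos_iff.mpr hU0
        linarith
      exact inv_anti₀ hpos h2.le
    exact Asymptotics.IsBigO.of_bound _ hev

section QExp

variable {f f₁ f₂ : LaurentSeries ℂ} {g g₁ g₂ : ℍ → ℂ}

/-- The series of a nowhere vanishing function is not zero. -/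
theorem isQExp_ne_zero (h : IsQExp f g) (hg : ∀ τ, g τ ≠ 0) : f ≠ 0 := by
  intro h0
  have := (h.eq_zero_iff).mp h0
  have h1 := congrFun this UpperHalfPlane.I
  exact hg _ h1

/-- **The `q`-expansion of the inverse of a nowhere vanishing function.** -/
theorem isQExp_inv (h : IsQExp f g) (hg : ∀ τ, g τ ≠ 0) : IsQExp f⁻¹ (fun τ => (g τ)⁻¹) := by
  have hf0 : f ≠ 0 := isQExp_ne_zero h hg
  obtain ⟨M, hn, he⟩ := h
  have hne : ∀ τ : ℍ, 𝕢 1 (τ : ℂ) ^ M * g τ ≠ 0 := fun τ =>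
    mul_ne_zero (pow_ne_zero _ (qParam_ne_zero' τ)) (hg τ)
  obtain ⟨m, hm⟩ := exists_pow_div_isNice hn hne
  -- `q^m · g⁻¹ = q^M · (q^m / (q^M g))`
  have e1 : (fun τ : ℍ => 𝕢 1 (τ : ℂ) ^ m * (g τ)⁻¹) =
      (fun τ : ℍ => 𝕢 1 (τ : ℂ) ^ M) * (fun τ : ℍ => 𝕢 1 τ ^ m / (𝕢 1 τ ^ M * g τ)) := by
    funext τ
    simp only [Pi.mul_apply]
    have := pow_ne_zero M (qParam_ne_zero' τ)
    have := hg τ
    field_simp
  have hnice : IsNice (fun τ : ℍ => 𝕢 1 (τ : ℂ) ^ m * (g τ)⁻¹) := by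
    rw [e1]
    exact (isNice_qParam_pow M).mul hm
  refine ⟨m, hnice, ?_⟩
  -- the product with `q^M g` is `q^(m+M)`
  have e2 : (fun τ : ℍ => 𝕢 1 (τ : ℂ) ^ m * (g τ)⁻¹) * (fun τ : ℍ => 𝕢 1 τ ^ M * g τ) =
      fun τ : ℍ => 𝕢 1 (τ : ℂ) ^ (m + M) := by
    funext τ
    simp only [Pi.mul_apply]
    have := hg τ
    rw [pow_add]
    field_simp
  have h3 := hnice.qExpansion_mul hn
  rw [e2, qExpansion_qParam_pow] at h3
  have h4 := congrArg (HahnSeries.ofPowerSeries ℤ ℂ) h3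
  rw [map_mul, he, HahnSeries.ofPowerSeries_X_pow] at h4
  -- `single (m+M) 1 = A * (single M 1 * f)`
  have hs : (HahnSeries.single (M : ℤ) (1 : ℂ)) ≠ 0 := by
    simp
  have h5 : HahnSeries.single ((m + M : ℕ) : ℤ) (1 : ℂ) =
      HahnSeries.single (m : ℤ) (1 : ℂ) * HahnSeries.single (M : ℤ) (1 : ℂ) := by
    rw [HahnSeries.single_mul_single, mul_one]
    push_cast
    rfl
  rw [h5] at h4
  have h6 : HahnSeries.ofPowerSeries ℤ ℂ
      (qExpansion 1 (fun τ : ℍ => 𝕢 1 (τ : ℂ) ^ m * (g τ)⁻¹)) * f =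
      HahnSeries.single (m : ℤ) (1 : ℂ) := by
    have h7 : (HahnSeries.ofPowerSeries ℤ ℂ
        (qExpansion 1 (fun τ : ℍ => 𝕢 1 (τ : ℂ) ^ m * (g τ)⁻¹)) * f) *
        HahnSeries.single (M : ℤ) (1 : ℂ) =
        HahnSeries.single (m : ℤ) (1 : ℂ) * HahnSeries.single (M : ℤ) (1 : ℂ) := by
      rw [h4]
      ring
    exact mul_right_cancel₀ hs h7
  rw [← h6]
  field_simp

/-- **The `q`-expansion of a quotient with nowhere vanishing denominator.** -/
theorem isQExp_div (h₁ : IsQExp f₁ g₁) (h₂ : IsQExp f₂ g₂) (hg : ∀ τ, g₂ τ ≠ 0) :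
    IsQExp (f₁ / f₂) (fun τ => g₁ τ / g₂ τ) := by
  have := h₁.mul (isQExp_inv h₂ hg)
  rw [div_eq_mul_inv]
  exact this.congr_right fun τ => by
    simp only [Pi.mul_apply]
    rw [div_eq_mul_inv]

end QExp

end Fermat.Agent.T4.helper17

end
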