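import Mathlib
import Fermat.Agent.T4.helper32_X1Defs
import Fermat.Agent.T4.helper17_QExpInv
import Fermat.Agent.T2.helper36_AutOfRel
import Fermat.Agent.S24.helper24_FieldGen

/-!
# T4 block (I), [I-FLD-DIAMOND] part 2 (helper17): the diamond automorphisms of `F₁(M)`

`helper32.IsDiamondAut M d σ` : `σ` is an automorphism of `F1 M` over `ℚ̄` fixing the `X₀`-part
and mapping `s_a` to `(s_{d a} - s_d) / (s_{2 d} - s_d)`.

The input is an **analytic package** `WpPack M` (to be instantiated from the Weierstrass `℘`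
function of the lattice `⟨1, M τ⟩`, [I-FLD-WP]): functions `S x` on the upper half plane with
* `IsQExp (sSer ℂ M x) (S x)` for `x ≠ 0` (the formal `s_x` is the `q`-expansion of `S x`),
* `S (2 u) τ ≠ S u τ` for units `u`,
* for every unit `d` a substitution `ω` of the upper half plane (a matrix of `Γ₀(M)`) fixing all
  `j(e τ)`, `e ∣ M`, and with `S x (ω τ) = (S (d x) τ - S d τ) / (S (2 d) τ - S d τ)`.

Main results (`M ≥ 4`):
* `F1_eq_adjoin` : `F1 M = ℚ̄(j_e, t_{a,u})`, `t_{a,u} = (s_{u a} - s_u) / (s_{2 u} - s_u)`;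
* `rel_dRen` : polynomial relations between these generators are stable under
  `t_{a,u} ↦ t_{a,d u}`;
* `exists_isDiamondAut` : `∃ σ, IsDiamondAut M d σ`; `isDiamondAut_diamondAut`;
* `IsDiamondAut.unique'`, `diamondAut_mul`, `diamondAut_one`.
-/

set_option autoImplicit false
set_option linter.unusedSectionVars false
set_option linter.unusedVariables false
set_option linter.style.haveILetI false

noncomputable section

open UpperHalfPlane ModularCurve IntermediateField HahnSeries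
open scoped MatrixGroups Manifold Topology

namespace Fermat.Agent.T4.helper17

open Fermat.Agent.T4.helper32
open Fermat.Agent.S24.helper17 (IsQExp toC toC_injective toC_aeval bridge_of_isQExp
  isQExp_jfunDT toC_JdT JdTC)
open Fermat.Agent.S24 (jfunDT JdT iotaC)
open Fermat.Agent.S24.helper24 (genJ)
open Fermat.Agent.T2.helper36 (relAlgHom relAlgHom_gen relGen algHom_ext_relGen)

/-! ### Formal facts about the series `s_a` -/

section Formal

variable (M : ℕ)

theorem wpDiff_self (a : ZMod M) : wpDiff M a a = 0 := by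
  ext n
  simp [wpDiff]

theorem sInt_one : sInt M 1 = 0 := by
  rw [sInt, wpDiff_self, zero_mul]

theorem two_ne_zero_zmod (hM : 3 ≤ M) : (2 : ZMod M) ≠ 0 := by
  intro h
  have h2 : ((2 : ℕ) : ZMod M) = 0 := by exact_mod_cast h
  rw [ZMod.natCast_eq_zero_iff] at h2
  have := Nat.le_of_dvd (by norm_num) h2
  omega

theorem wpCoeff_one (a : ZMod M) :
    wpCoeff M a 1 = (if (1 : ZMod M) = a then 1 else 0) + (if (1 : ZMod M) = -a then 1 else 0) := by
  simp [wpCoeff]

theorem constantCoeff_wpDiff_two_one (hM : 4 ≤ M) :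
    PowerSeries.constantCoeff (wpDiff M 2 1) = ((-1 : ℤˣ) : ℤ) := by
  haveI : Fact (1 < M) := ⟨by omega⟩
  have h12 : (1 : ZMod M) ≠ 2 := by
    intro h
    have h1 : ((1 : ℕ) : ZMod M) = ((2 : ℕ) : ZMod M) := by exact_mod_cast h
    rw [ZMod.natCast_eq_natCast_iff'] at h1
    rw [Nat.mod_eq_of_lt (by omega), Nat.mod_eq_of_lt (by omega)] at h1
    omega
  have h1m2 : (1 : ZMod M) ≠ -2 := by
    intro h
    have h0 : ((3 : ℕ) : ZMod M) = 0 := by
      have : (1 : ZMod M) + 2 = 0 := by rw [h]; ring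
      push_cast
      rw [← this]
      ring
    rw [ZMod.natCast_eq_zero_iff] at h0
    have := Nat.le_of_dvd (by norm_num) h0
    omega
  have h1m1 : (1 : ZMod M) ≠ -1 := by
    intro h
    have h0 : ((2 : ℕ) : ZMod M) = 0 := by
      have : (1 : ZMod M) + 1 = 0 := by nth_rewrite 1 [h]; ring
      push_cast
      rw [← this]
      ring
    rw [ZMod.natCast_eq_zero_iff] at h0
    have := Nat.le_of_dvd (by norm_num) h0
    omega
  rw [← PowerSeries.coeff_zero_eq_constantCoeff_apply, wpDiff, PowerSeries.coeff_mk, zero_add,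
    wpCoeff_one, wpCoeff_one, if_neg h12, if_neg h1m2, if_pos rfl, if_neg h1m1]
  simp

theorem sInt_two (hM : 4 ≤ M) : sInt M 2 = 1 := by
  rw [sInt]
  exact PowerSeries.mul_invOfUnit _ _ (constantCoeff_wpDiff_two_one M hM)

/-- coefficientwise maps commute with the series `s_a` -/
theorem coeffMap_sSer {R S : Type*} [CommRing R] [CommRing S] (f : R →+* S) (a : ZMod M) :
    coeffMap f (sSer R M a) = sSer S M a := by
  ext k
  rw [coeffMap_coeff, sSer, sSer]
  change f (((PowerSeries.map (Int.castRingHom R) (sInt M a) : PowerSeries R) :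
    LaurentSeries R).coeff k) =
    ((PowerSeries.map (Int.castRingHom S) (sInt M a) : PowerSeries S) : LaurentSeries S).coeff k
  rw [PowerSeries.coeff_coe, PowerSeries.coeff_coe]
  split_ifs
  · exact map_zero f
  · rw [PowerSeries.coeff_map, PowerSeries.coeff_map]
    simp

theorem sSer_one (C : Type*) [CommRing C] : sSer C M 1 = 0 := by
  rw [sSer, sInt_one, map_zero, map_zero]

theorem sSer_two (C : Type*) [CommRing C] (hM : 4 ≤ M) : sSer C M 2 = 1 := by
  rw [sSer, sInt_two M hM, map_one, map_one]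

/-- `s_a` with coefficients in `ℚ̄` -/
def cs (a : ZMod M) : LaurentSeries Kbar := coeffEmb Kbar (sSer ℚ M a)

theorem cs_eq (a : ZMod M) : cs M a = sSer Kbar M a :=
  coeffMap_sSer M _ a

theorem toC_cs (a : ZMod M) : toC (cs M a) = sSer ℂ M a := by
  rw [cs_eq]
  exact coeffMap_sSer M _ a

theorem cs_one : cs M 1 = 0 := by rw [cs_eq, sSer_one]

theorem cs_two (hM : 4 ≤ M) : cs M 2 = 1 := by rw [cs_eq, sSer_two M Kbar hM]

theorem cs_mem (a : ZMod M) (ha : a ≠ 0) : cs M a ∈ F1 M :=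
  (sEl M a ha).2

end Formal

/-! ### The generators -/

section Gens

variable (M : ℕ)

/-- the index set of the generators: the divisors of `M` (for `j_e`) and the pairs `(a, u)`
(for `t_{a,u}`) -/
abbrev DIdx : Type := M.divisors ⊕ ({a : ZMod M // a ≠ 0} × (ZMod M)ˣ)

/-- `t_{a,u} = (s_{u a} - s_u) / (s_{2 u} - s_u)` -/
def tEl (a : ZMod M) (u : (ZMod M)ˣ) : LaurentSeries Kbar :=
  (cs M ((u : ZMod M) * a) - cs M (u : ZMod M)) / (cs M ((u : ZMod M) * 2) - cs M (u : ZMod M))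

/-- the generators of `F1 M` -/
def dGen : DIdx M → LaurentSeries Kbar
  | Sum.inl e => genJ M e
  | Sum.inr p => tEl M p.1.1 p.2

/-- the renaming of the generators attached to a unit `d` -/
def dRen (d : (ZMod M)ˣ) : DIdx M → DIdx M
  | Sum.inl e => Sum.inl e
  | Sum.inr p => Sum.inr (p.1, d * p.2)

theorem dRen_dRen (d d' : (ZMod M)ˣ) (i : DIdx M) :
    dRen M d (dRen M d' i) = dRen M (d * d') i := by
  rcases i with e | ⟨a, u⟩
  · rfl
  · simp [dRen, mul_assoc]

theorem dRen_one (i : DIdx M) : dRen M 1 i = i := by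
  rcases i with e | ⟨a, u⟩
  · rfl
  · simp [dRen]

theorem tEl_one (hM : 4 ≤ M) (a : ZMod M) : tEl M a 1 = cs M a := by
  rw [tEl, Units.val_one, one_mul, one_mul, cs_one, cs_two M hM, sub_zero, sub_zero, div_one]

theorem unit_ne_zero (hM : 4 ≤ M) (u : (ZMod M)ˣ) : (u : ZMod M) ≠ 0 := by
  haveI : Fact (1 < M) := ⟨by omega⟩
  exact u.ne_zero

theorem unit_mul_ne_zero (u : (ZMod M)ˣ) {a : ZMod M} (ha : a ≠ 0) : (u : ZMod M) * a ≠ 0 := by
  intro h
  apply ha
  have := congrArg (fun x => ((u⁻¹ : (ZMod M)ˣ) : ZMod M) * x) h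
  simpa using this

theorem tEl_mem (hM : 4 ≤ M) (a : ZMod M) (ha : a ≠ 0) (u : (ZMod M)ˣ) : tEl M a u ∈ F1 M := by
  have h2 : (2 : ZMod M) ≠ 0 := two_ne_zero_zmod M (by omega)
  exact div_mem (sub_mem (cs_mem M _ (unit_mul_ne_zero M u ha)) (cs_mem M _ (unit_ne_zero M hM u)))
    (sub_mem (cs_mem M _ (unit_mul_ne_zero M u h2)) (cs_mem M _ (unit_ne_zero M hM u)))

theorem genJ_mem [NeZero M] (e : M.divisors) : genJ M e ∈ F1 M := by
  have h := Fermat.Agent.S24.helper24.modularFunctionFieldBar_eq_adjoin M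
  have h1 : genJ M e ∈ modularFunctionFieldBar M := by
    rw [h]
    exact subset_adjoin _ _ ⟨e, rfl⟩
  exact FF_le_F1 M h1

theorem dGen_mem [NeZero M] (hM : 4 ≤ M) (i : DIdx M) : dGen M i ∈ F1 M := by
  rcases i with e | ⟨a, u⟩
  · exact genJ_mem M e
  · exact tEl_mem M hM a.1 a.2 u

theorem coeffEmb_mem_adjoin_dGen [NeZero M] (hM : 4 ≤ M) (y : LaurentSeries ℚ)
    (hy : y ∈ F1Q M) : coeffEmb Kbar y ∈ adjoin Kbar (Set.range (dGen M)) := by
  unfold F1Q at hy
  induction hy using IntermediateField.adjoin_induction with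
  | mem x hx =>
    rcases hx with ⟨d, hne, hd, rfl⟩ | ⟨a, ha, rfl⟩
    · haveI := hne
      refine subset_adjoin Kbar _ ⟨Sum.inl ⟨d, Nat.mem_divisors.mpr ⟨hd, NeZero.ne M⟩⟩, ?_⟩
      show JdT d = _
      exact Fermat.Agent.S24.helper24.JdT_eq_coeffEmb d
    · refine subset_adjoin Kbar _ ⟨Sum.inr (⟨a, ha⟩, 1), ?_⟩
      show tEl M a 1 = _
      rw [tEl_one M hM]
      rfl
  | algebraMap c =>
    rw [Fermat.Agent.S24.helper24.coeffEmb_algebraMap_rat]
    exact IntermediateField.algebraMap_mem _ _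
  | add x y _ _ hx hy =>
    rw [map_add]
    exact add_mem hx hy
  | inv x _ hx =>
    rw [map_inv₀]
    exact inv_mem hx
  | mul x y _ _ hx hy =>
    rw [map_mul]
    exact mul_mem hx hy

/-- **`F₁(M)` is generated over `ℚ̄` by the `j_e` and the `t_{a,u}`.** -/
theorem F1_eq_adjoin [NeZero M] (hM : 4 ≤ M) : F1 M = adjoin Kbar (Set.range (dGen M)) := by
  apply le_antisymm
  · unfold F1 laurentBaseChange
    rw [adjoin_le_iff]
    rintro _ ⟨y, hy, rfl⟩
    exact coeffEmb_mem_adjoin_dGen M hM y hy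
  · rw [adjoin_le_iff]
    rintro _ ⟨i, rfl⟩
    exact dGen_mem M hM i

end Gens

/-! ### The analytic package -/

/-- The analytic package behind the generators `s_a` of `F₁(M)`. -/
structure WpPack (M : ℕ) where
  /-- the function `s_x` on the upper half plane -/
  S : ZMod M → ℍ → ℂ
  isQExp : ∀ x : ZMod M, x ≠ 0 → IsQExp (sSer ℂ M x) (S x)
  ne : ∀ (u : (ZMod M)ˣ) (τ : ℍ), S ((u : ZMod M) * 2) τ ≠ S (u : ZMod M) τ
  subst : ∀ d : (ZMod M)ˣ, ∃ ω : ℍ → ℍ,
    (∀ e ∈ M.divisors, ∀ τ : ℍ, jfunDT e (ω τ) = jfunDT e τ) ∧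
    ∀ x : ZMod M, x ≠ 0 → ∀ τ : ℍ,
      S x (ω τ) = (S ((d : ZMod M) * x) τ - S (d : ZMod M) τ) /
        (S ((d : ZMod M) * 2) τ - S (d : ZMod M) τ)

section Analytic

variable {M : ℕ} (W : WpPack M)

/-- the functions of the generators -/
def dAn : DIdx M → ℍ → ℂ
  | Sum.inl e => jfunDT e.1
  | Sum.inr p => fun τ =>
      (W.S ((p.2 : ZMod M) * p.1.1) τ - W.S (p.2 : ZMod M) τ) /
        (W.S ((p.2 : ZMod M) * 2) τ - W.S (p.2 : ZMod M) τ)

theorem toC_tEl (a : ZMod M) (u : (ZMod M)ˣ) :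
    toC (tEl M a u) = (sSer ℂ M ((u : ZMod M) * a) - sSer ℂ M (u : ZMod M)) /
      (sSer ℂ M ((u : ZMod M) * 2) - sSer ℂ M (u : ZMod M)) := by
  rw [tEl, map_div₀, map_sub, map_sub, toC_cs, toC_cs, toC_cs]

theorem isQExp_dAn (hM : 4 ≤ M) (i : DIdx M) : IsQExp (toC (dGen M i)) (dAn W i) := by
  rcases i with e | ⟨a, u⟩
  · show IsQExp (toC (JdT e.1)) (jfunDT e.1)
    rw [toC_JdT]
    exact isQExp_jfunDT e.1
  · show IsQExp (toC (tEl M a.1 u)) _
    rw [toC_tEl]
    have h2 : (2 : ZMod M) ≠ 0 := two_ne_zero_zmod M (by omega)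
    have hu := W.isQExp _ (unit_ne_zero M hM u)
    have h1 := (W.isQExp _ (unit_mul_ne_zero M u a.2)).sub hu
    have h3 := (W.isQExp _ (unit_mul_ne_zero M u h2)).sub hu
    exact isQExp_div h1 h3 fun τ => sub_ne_zero.mpr (W.ne u τ)

theorem dAn_subst (d : (ZMod M)ˣ) {ω : ℍ → ℍ}
    (hj : ∀ e ∈ M.divisors, ∀ τ : ℍ, jfunDT e (ω τ) = jfunDT e τ)
    (hS : ∀ x : ZMod M, x ≠ 0 → ∀ τ : ℍ,
      W.S x (ω τ) = (W.S ((d : ZMod M) * x) τ - W.S (d : ZMod M) τ) /
        (W.S ((d : ZMod M) * 2) τ - W.S (d : ZMod M) τ))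
    (hM : 4 ≤ M) (i : DIdx M) (τ : ℍ) : dAn W i (ω τ) = dAn W (dRen M d i) τ := by
  rcases i with e | ⟨a, u⟩
  · exact hj e.1 e.2 τ
  · have h2 : (2 : ZMod M) ≠ 0 := two_ne_zero_zmod M (by omega)
    have he : W.S ((d : ZMod M) * 2) τ - W.S (d : ZMod M) τ ≠ 0 := sub_ne_zero.mpr (W.ne d τ)
    show (W.S ((u : ZMod M) * a.1) (ω τ) - W.S (u : ZMod M) (ω τ)) /
        (W.S ((u : ZMod M) * 2) (ω τ) - W.S (u : ZMod M) (ω τ)) =
      (W.S (((d * u : (ZMod M)ˣ) : ZMod M) * a.1) τ - W.S ((d * u : (ZMod M)ˣ) : ZMod M) τ) /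
        (W.S (((d * u : (ZMod M)ˣ) : ZMod M) * 2) τ - W.S ((d * u : (ZMod M)ˣ) : ZMod M) τ)
    rw [hS _ (unit_mul_ne_zero M u a.2), hS _ (unit_ne_zero M hM u),
      hS _ (unit_mul_ne_zero M u h2), Units.val_mul, ← mul_assoc, ← mul_assoc,
      div_sub_div_same, div_sub_div_same, div_div_div_cancel_right₀ he]
    congr 1 <;> ring

include W in
/-- **Relations between the generators are stable under the diamond renaming (over `ℂ`).** -/
theorem rel_dRen_C (hM : 4 ≤ M) (d : (ZMod M)ˣ) (R : MvPolynomial (DIdx M) ℂ)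
    (h : MvPolynomial.aeval (fun i => toC (dGen M i)) R = 0) :
    MvPolynomial.aeval (fun i => toC (dGen M i)) (MvPolynomial.rename (dRen M d) R) = 0 := by
  obtain ⟨ω, hj, hS⟩ := W.subst d
  rw [MvPolynomial.aeval_rename]
  have h1 := (bridge_of_isQExp (fun i => isQExp_dAn W hM i) R).mp h
  refine (bridge_of_isQExp (f := (fun i => toC (dGen M i)) ∘ dRen M d)
    (g := fun i => dAn W (dRen M d i)) (fun i => isQExp_dAn W hM (dRen M d i)) R).mpr fun τ => ?_
  have h2 := h1 (ω τ)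
  have e : (fun i => dAn W i (ω τ)) = fun i => dAn W (dRen M d i) τ :=
    funext fun i => dAn_subst W d hj hS hM i τ
  rw [e] at h2
  exact h2

include W in
/-- **Relations between the generators are stable under the diamond renaming.** -/
theorem rel_dRen (hM : 4 ≤ M) (d : (ZMod M)ˣ) (R : MvPolynomial (DIdx M) Kbar)
    (h : MvPolynomial.aeval (dGen M) R = 0) :
    MvPolynomial.aeval (dGen M) (MvPolynomial.rename (dRen M d) R) = 0 := by
  apply toC_injective
  rw [map_zero, toC_aeval, MvPolynomial.map_rename]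
  apply rel_dRen_C W hM d
  rw [← toC_aeval, h, map_zero]

include W in
theorem rel_dRen_inj (hM : 4 ≤ M) (d : (ZMod M)ˣ) (R : MvPolynomial (DIdx M) Kbar)
    (h : MvPolynomial.aeval (dGen M) (MvPolynomial.rename (dRen M d) R) = 0) :
    MvPolynomial.aeval (dGen M) R = 0 := by
  have h1 := rel_dRen W hM d⁻¹ _ h
  rw [MvPolynomial.rename_rename] at h1
  have e : dRen M d⁻¹ ∘ dRen M d = id := by
    funext i
    simp [dRen_dRen, dRen_one]
  rwa [e, MvPolynomial.rename_id_apply] at h1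

/-- the endomorphism of `ℚ̄(generators)` attached to `d` -/
def dHom (hM : 4 ≤ M) (d : (ZMod M)ˣ) :
    adjoin Kbar (Set.range (dGen M)) →ₐ[Kbar] adjoin Kbar (Set.range (dGen M)) :=
  relAlgHom (dGen M) (dRen M d) (rel_dRen W hM d) (rel_dRen_inj W hM d)

theorem dHom_gen (hM : 4 ≤ M) (d : (ZMod M)ˣ) (i : DIdx M) :
    dHom W hM d (relGen (dGen M) i) = relGen (dGen M) (dRen M d i) :=
  relAlgHom_gen _ _ _ _ i

theorem dHom_comp (hM : 4 ≤ M) (d d' : (ZMod M)ˣ) :
    (dHom W hM d).comp (dHom W hM d') = dHom W hM (d * d') := by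
  apply algHom_ext_relGen
  intro i
  rw [AlgHom.comp_apply, dHom_gen, dHom_gen, dHom_gen, dRen_dRen]

theorem dHom_one (hM : 4 ≤ M) : dHom W hM 1 = AlgHom.id Kbar _ := by
  apply algHom_ext_relGen
  intro i
  rw [dHom_gen, dRen_one]
  rfl

/-- the automorphism of `ℚ̄(generators)` attached to `d` -/
def dEquiv (hM : 4 ≤ M) (d : (ZMod M)ˣ) :
    adjoin Kbar (Set.range (dGen M)) ≃ₐ[Kbar] adjoin Kbar (Set.range (dGen M)) :=
  AlgEquiv.ofAlgHom (dHom W hM d) (dHom W hM d⁻¹)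
    (by rw [dHom_comp, mul_inv_cancel, dHom_one])
    (by rw [dHom_comp, inv_mul_cancel, dHom_one])

theorem dEquiv_gen (hM : 4 ≤ M) (d : (ZMod M)ˣ) (i : DIdx M) :
    dEquiv W hM d (relGen (dGen M) i) = relGen (dGen M) (dRen M d i) :=
  dHom_gen W hM d i

include W in
theorem exists_algEquiv_dRen (hM : 4 ≤ M) (d : (ZMod M)ˣ)
    {S : IntermediateField Kbar (LaurentSeries Kbar)}
    (hS : S = adjoin Kbar (Set.range (dGen M))) :
    ∃ σ : S ≃ₐ[Kbar] S, ∀ (i : DIdx M) (hi : dGen M i ∈ S),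
      ((σ ⟨dGen M i, hi⟩ : S) : LaurentSeries Kbar) = dGen M (dRen M d i) := by
  subst hS
  exact ⟨dEquiv W hM d, fun i hi => congrArg Subtype.val (dEquiv_gen W hM d i)⟩

end Analytic

/-! ### The diamond automorphisms -/

section Main

variable (M : ℕ) [NeZero M]

theorem adjoin_genJ_le_F1 : adjoin Kbar (Set.range (genJ M)) ≤ F1 M := by
  rw [← Fermat.Agent.S24.helper24.modularFunctionFieldBar_eq_adjoin M]
  exact FF_le_F1 M

theorem fixes_adjoin_genJ (σ : F1 M ≃ₐ[Kbar] F1 M)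
    (h : ∀ (e : M.divisors) (he : genJ M e ∈ F1 M), σ ⟨genJ M e, he⟩ = ⟨genJ M e, he⟩) :
    ∀ y ∈ adjoin Kbar (Set.range (genJ M)), ∀ hy : y ∈ F1 M, σ ⟨y, hy⟩ = ⟨y, hy⟩ := by
  intro y hy
  induction hy using IntermediateField.adjoin_induction with
  | mem y hy =>
    obtain ⟨e, rfl⟩ := hy
    exact fun he => h e he
  | algebraMap c =>
    intro _
    exact σ.commutes c
  | add y z hy hz h₁ h₂ =>
    intro hF
    have hy' : y ∈ F1 M := adjoin_genJ_le_F1 M hy
    have hz' : z ∈ F1 M := adjoin_genJ_le_F1 M hz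
    have e : (⟨y + z, hF⟩ : F1 M) = ⟨y, hy'⟩ + ⟨z, hz'⟩ := rfl
    rw [e, map_add, h₁ hy', h₂ hz']
  | inv y hy h₁ =>
    intro hF
    have hy' : y ∈ F1 M := adjoin_genJ_le_F1 M hy
    have e : (⟨y⁻¹, hF⟩ : F1 M) = (⟨y, hy'⟩ : F1 M)⁻¹ := rfl
    rw [e, map_inv₀, h₁ hy']
  | mul y z hy hz h₁ h₂ =>
    intro hF
    have hy' : y ∈ F1 M := adjoin_genJ_le_F1 M hy
    have hz' : z ∈ F1 M := adjoin_genJ_le_F1 M hz
    have e : (⟨y * z, hF⟩ : F1 M) = ⟨y, hy'⟩ * ⟨z, hz'⟩ := rfl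
    rw [e, map_mul, h₁ hy', h₂ hz']

/-- An automorphism of `F1 M` which fixes the generators `j_e` fixes the `X₀`-part. -/
theorem fixes_FF_of_fixes_genJ (σ : F1 M ≃ₐ[Kbar] F1 M)
    (h : ∀ (e : M.divisors) (he : genJ M e ∈ F1 M), σ ⟨genJ M e, he⟩ = ⟨genJ M e, he⟩)
    (x : F1 M)
    (hx : (x : LaurentSeries Kbar) ∈ laurentBaseChange Kbar (modularFunctionFieldFull M)) :
    σ x = x := by
  have hx' : (x : LaurentSeries Kbar) ∈ adjoin Kbar (Set.range (genJ M)) := by
    rw [← Fermat.Agent.S24.helper24.modularFunctionFieldBar_eq_adjoin M]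
    exact hx
  exact fixes_adjoin_genJ M σ h _ hx' x.2

/-- **Existence of the diamond automorphisms** of `F₁(M)`, `M ≥ 4`, from the analytic
package. -/
theorem exists_isDiamondAut (hM : 4 ≤ M) (W : WpPack M) (d : (ZMod M)ˣ) :
    ∃ σ : F1 M ≃ₐ[Kbar] F1 M, IsDiamondAut M d σ := by
  obtain ⟨σ, hσ⟩ := exists_algEquiv_dRen W hM d (F1_eq_adjoin M hM)
  refine ⟨σ, ?_, ?_⟩
  · refine fixes_FF_of_fixes_genJ M σ fun e he => ?_
    exact Subtype.ext (hσ (Sum.inl e) he)
  · intro a ha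
    have h1 : (sEl M a ha : F1 M) = ⟨dGen M (Sum.inr (⟨a, ha⟩, 1)),
        dGen_mem M hM (Sum.inr (⟨a, ha⟩, 1))⟩ := by
      apply Subtype.ext
      show coeffEmb Kbar (sSer ℚ M a) = tEl M a 1
      rw [tEl_one M hM]
      rfl
    rw [h1, hσ]
    show tEl M a (d * 1) = _
    rw [mul_one]
    rfl

/-- `diamondAut M d` is the diamond automorphism. -/
theorem isDiamondAut_diamondAut (hM : 4 ≤ M) (W : WpPack M) (d : (ZMod M)ˣ) :
    IsDiamondAut M d (diamondAut M d) := by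
  have h := exists_isDiamondAut M hM W d
  rw [diamondAut, dif_pos h]
  exact h.choose_spec

end Main

end Fermat.Agent.T4.helper17

end
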