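/-
T4 / S48 leaf [NEBEN], part 2 (helper79): diamond operators and the twisted Hecke operator
`T_p = U_p + V_p <p>` on cusp forms of level `Gamma1 N` (function level + closure of the
predicate "is a cusp form of level Gamma1 N").
-/
import Mathlib.NumberTheory.ModularForms.QExpansion
import Mathlib.NumberTheory.ModularForms.CongruenceSubgroups
import Mathlib.NumberTheory.ModularForms.ArithmeticSubgroups
import Mathlib.NumberTheory.ModularForms.Cusps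
import Mathlib.NumberTheory.ModularForms.BoundedAtCusp
import Mathlib.NumberTheory.Modular
import Fermat.Agent.T4.helper79_NebenMat
import Fermat.Prelude.Sol.S_CuspFormClass_isZeroAt_heckeT
import Fermat.Prelude.Thm_CuspFormClass_isZeroAt_heckeU
import Fermat.Prelude.Thm_ModularForm_mdifferentiable_heckeU

set_option autoImplicit false

noncomputable section

open Matrix.SpecialLinearGroup UpperHalfPlane ModularForm CongruenceSubgroup
open scoped MatrixGroups ModularForm OnePoint Manifold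
open P2MW.S_ModularForm_heckeT_slash_eq_self_of_mem_Gamma0.ModularForm.HeckeSlashInvariance

namespace Fermat.Agent.T4.helper79

variable {N : ℕ} {k : ℤ}

/-- Invariance under `Gamma1 N` (function level). -/
def NbInv (N : ℕ) (k : ℤ) (h : ℍ → ℂ) : Prop :=
  ∀ γ : SL(2, ℤ), γ ∈ Gamma1 N → h ∣[k] mapGL ℝ γ = h

/-- `h` is the function of a cusp form of weight `k` and level `Gamma1 N`. -/
def IsCF (N : ℕ) (k : ℤ) (h : ℍ → ℂ) : Prop :=
  ∃ F : CuspForm (Gamma1 N) k, ⇑F = h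

theorem IsCF.inv {h : ℍ → ℂ} (hh : IsCF N k h) : NbInv N k h := by
  obtain ⟨F, rfl⟩ := hh
  intro γ hγ
  exact SlashInvariantFormClass.slash_action_eq F _ (Subgroup.mem_map_of_mem (mapGL ℝ) hγ)

theorem isCF_coe (F : CuspForm (Gamma1 N) k) : IsCF N k ⇑F := ⟨F, rfl⟩

theorem isCF_zero : IsCF N k (0 : ℍ → ℂ) := ⟨0, rfl⟩

theorem IsCF.add {h₁ h₂ : ℍ → ℂ} (H₁ : IsCF N k h₁) (H₂ : IsCF N k h₂) : IsCF N k (h₁ + h₂) := by
  obtain ⟨F₁, rfl⟩ := H₁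
  obtain ⟨F₂, rfl⟩ := H₂
  exact ⟨F₁ + F₂, rfl⟩

theorem IsCF.sub {h₁ h₂ : ℍ → ℂ} (H₁ : IsCF N k h₁) (H₂ : IsCF N k h₂) : IsCF N k (h₁ - h₂) := by
  obtain ⟨F₁, rfl⟩ := H₁
  obtain ⟨F₂, rfl⟩ := H₂
  exact ⟨F₁ - F₂, rfl⟩

theorem IsCF.smul {h : ℍ → ℂ} (c : ℂ) (H : IsCF N k h) : IsCF N k (c • h) := by
  obtain ⟨F, rfl⟩ := H
  exact ⟨c • F, rfl⟩

/-- Two elements of `Gamma0 N` with the same lower-right entry mod `N` differ by `Gamma1 N`. -/
theorem mul_inv_mem_Gamma1 {a b : SL(2, ℤ)} (ha : a ∈ Gamma0 N) (hb : b ∈ Gamma0 N)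
    (hab : ((a 1 1 : ℤ) : ZMod N) = ((b 1 1 : ℤ) : ZMod N)) : a * b⁻¹ ∈ Gamma1 N := by
  have h2 : Gamma0Map N ⟨b, hb⟩ * Gamma0Map N (⟨b, hb⟩⁻¹) = 1 := by
    rw [← map_mul, mul_inv_cancel, map_one]
  have h3 : Gamma0Map N ⟨a, ha⟩ = Gamma0Map N ⟨b, hb⟩ := hab
  have h1 : Gamma0Map N (⟨a, ha⟩ * ⟨b, hb⟩⁻¹) = 1 := by
    rw [map_mul, h3, h2]
  have h4 : (⟨a, ha⟩ * ⟨b, hb⟩⁻¹ : Gamma0 N) ∈ Gamma1' N := Gamma1_mem'.mpr h1
  have h5 := (Gamma1_to_Gamma0_mem _).mp h4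
  rw [Gamma1_mem]
  exact h5

theorem NbInv.slash_congr {h : ℍ → ℂ} (hh : NbInv N k h) {a b : SL(2, ℤ)}
    (ha : a ∈ Gamma0 N) (hb : b ∈ Gamma0 N)
    (hab : ((a 1 1 : ℤ) : ZMod N) = ((b 1 1 : ℤ) : ZMod N)) :
    h ∣[k] mapGL ℝ a = h ∣[k] mapGL ℝ b := by
  have h1 : a = (a * b⁻¹) * b := by group
  conv_lhs => rw [h1, map_mul, SlashAction.slash_mul, hh _ (mul_inv_mem_Gamma1 ha hb hab)]

theorem lowerRight_mul {a b : SL(2, ℤ)} (ha : a ∈ Gamma0 N) (hb : b ∈ Gamma0 N) :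
    (((a * b) 1 1 : ℤ) : ZMod N) = ((a 1 1 : ℤ) : ZMod N) * ((b 1 1 : ℤ) : ZMod N) :=
  map_mul (Gamma0Map N) ⟨a, ha⟩ ⟨b, hb⟩

/-- Slash by an element of `Gamma0 N` preserves `Gamma1 N`-invariance. -/
theorem NbInv.slash {h : ℍ → ℂ} (hh : NbInv N k h) {δ : SL(2, ℤ)} (hδ : δ ∈ Gamma0 N) :
    NbInv N k (h ∣[k] mapGL ℝ δ) := by
  intro γ hγ
  have hγ0 : γ ∈ Gamma0 N := Gamma1_in_Gamma0 N hγ
  rw [← SlashAction.slash_mul, ← map_mul]
  refine hh.slash_congr (mul_mem hδ hγ0) hδ ?_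
  rw [lowerRight_mul hδ hγ0, ((Gamma1_mem N γ).mp hγ).2.1, mul_one]

section cusp

variable [NeZero N]

/-- The diamond operator: slash by an element of `Gamma0 N` preserves cusp forms of level
`Gamma1 N`. -/
theorem IsCF.slash {h : ℍ → ℂ} (H : IsCF N k h) {δ : SL(2, ℤ)} (hδ : δ ∈ Gamma0 N) :
    IsCF N k (h ∣[k] mapGL ℝ δ) := by
  have hinv := H.inv.slash hδ
  obtain ⟨F, rfl⟩ := H
  refine ⟨{ toFun := ⇑F ∣[k] mapGL ℝ δ
            slash_action_eq' := ?_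
            holo' := (ModularFormClass.holo F).slash k _
            zero_at_cusps' := ?_ }, rfl⟩
  · rintro _ ⟨γ, hγ, rfl⟩
    exact hinv γ hγ
  · intro c hc
    rw [← OnePoint.IsZeroAt.smul_iff]
    apply CuspFormClass.zero_at_cusps F
    rw [Subgroup.IsArithmetic.isCusp_iff_isCusp_SL2Z] at hc ⊢
    exact hc.smul_of_mem ⟨δ, rfl⟩

/-- `V_p` preserves the cusp conditions (but not the level). -/
theorem isZeroAt_slash_diag (F : CuspForm (Gamma1 N) k) (p : ℕ) {c : OnePoint ℝ}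
    (hc : IsCusp c (Gamma1 N : Subgroup (GL (Fin 2) ℝ))) :
    c.IsZeroAt (⇑F ∣[k] heckeDiagMatrix p) k := by
  obtain ⟨g, hg⟩ :=
    P2MW.S_CuspFormClass_isZeroAt_heckeT.ModularForm.S06W2.exists_heckeDiagMatrix_eq_map p
  rw [hg]
  exact P2MW.S_CuspFormClass_isZeroAt_heckeT.ModularForm.S06W2.isZeroAt_slash_ratCast F g hc

end cusp

/-! ### The twisted Hecke operator -/

/-- The representative of the diamond operator attached to a point of `P^1(F_p)`. -/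
def nbTw (p : ℕ) (δ : SL(2, ℤ)) (x : OnePoint (ZMod p)) : SL(2, ℤ) :=
  x.elim δ (fun _ ↦ 1)

@[simp] theorem nbTw_infty (p : ℕ) (δ : SL(2, ℤ)) : nbTw p δ (∞ : OnePoint (ZMod p)) = δ := rfl

@[simp] theorem nbTw_coe (p : ℕ) (δ : SL(2, ℤ)) (j : ZMod p) :
    nbTw p δ (j : OnePoint (ZMod p)) = 1 := rfl

/-- `V_p` at the function level (with the normalisation `p^(k-1) h(p tau)`). -/
def nbV (k : ℤ) (p : ℕ) (h : ℍ → ℂ) : ℍ → ℂ := h ∣[k] heckeDiagMatrix p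

/-- The twisted Hecke operator `T_p = U_p + V_p <p>`; `δ` is a representative of `<p>`. -/
def nbT (k : ℤ) (p : ℕ) (δ : SL(2, ℤ)) (f : ℍ → ℂ) : ℍ → ℂ :=
  heckeU k p f + nbV k p (f ∣[k] mapGL ℝ δ)

theorem nbT_eq_sum {p : ℕ} [NeZero p] (k : ℤ) (δ : SL(2, ℤ)) (f : ℍ → ℂ) :
    nbT k p δ f =
      ∑ x : OnePoint (ZMod p), (f ∣[k] mapGL ℝ (nbTw p δ x)) ∣[k] heckeRep p x := by
  rw [nbT, nbV, heckeU_eq_sum_zmod, add_comm]
  rw [show (∑ x : OnePoint (ZMod p), (f ∣[k] mapGL ℝ (nbTw p δ x)) ∣[k] heckeRep p x)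
      = ((f ∣[k] mapGL ℝ (nbTw p δ ∞)) ∣[k] heckeRep p ∞)
        + ∑ j : ZMod p, (f ∣[k] mapGL ℝ (nbTw p δ (j : OnePoint (ZMod p)))) ∣[k]
            heckeRep p (j : OnePoint (ZMod p)) from
    Fintype.sum_option (fun x : OnePoint (ZMod p) ↦
      (f ∣[k] mapGL ℝ (nbTw p δ x)) ∣[k] heckeRep p x)]
  simp only [nbTw_infty, nbTw_coe, heckeRep_infty, heckeRep_coe, map_one, SlashAction.slash_one]

theorem nbWeight_eq_lowerRight {p : ℕ} {δ : SL(2, ℤ)} (hδp : ((δ 1 1 : ℤ) : ZMod N) = p)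
    (x : OnePoint (ZMod p)) : (((nbTw p δ x) 1 1 : ℤ) : ZMod N) = nbWeight p N x := by
  induction x using OnePoint.rec with
  | infty => simpa using hδp
  | coe j => simp

theorem nbTw_mem {p : ℕ} {δ : SL(2, ℤ)} (hδ : δ ∈ Gamma0 N) (x : OnePoint (ZMod p)) :
    nbTw p δ x ∈ Gamma0 N := by
  induction x using OnePoint.rec with
  | infty => simpa using hδ
  | coe j => simpa using one_mem _

/-- The twisted Hecke operator commutes with the diamond operators; in particular it preserves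
`Gamma1 N`-invariance. -/
theorem nbT_slash {p : ℕ} [Fact p.Prime] (hpN : ¬ p ∣ N) {f : ℍ → ℂ} (hf : NbInv N k f)
    {δ : SL(2, ℤ)} (hδ : δ ∈ Gamma0 N) (hδp : ((δ 1 1 : ℤ) : ZMod N) = p)
    {g : SL(2, ℤ)} (hg : g ∈ Gamma0 N) :
    (nbT k p δ f) ∣[k] mapGL ℝ g = nbT k p δ (f ∣[k] mapGL ℝ g) := by
  have hcN : (N : ℤ) ∣ g 1 0 :=
    (ZMod.intCast_zmod_eq_zero_iff_dvd _ _).mp (Gamma0_mem.mp hg)
  rw [nbT_eq_sum, nbT_eq_sum, SlashAction.sum_slash]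
  calc ∑ x : OnePoint (ZMod p), ((f ∣[k] mapGL ℝ (nbTw p δ x)) ∣[k] heckeRep p x) ∣[k] mapGL ℝ g
      = ∑ x : OnePoint (ZMod p), ((f ∣[k] mapGL ℝ g) ∣[k] mapGL ℝ (nbTw p δ (redMatrix p g • x)))
          ∣[k] heckeRep p (redMatrix p g • x) := by
        refine Finset.sum_congr rfl fun x _ ↦ ?_
        obtain ⟨g', hg', hd', hmul⟩ := nbRep_mul hpN g hcN x
        have hg'N : g' ∈ Gamma0 N :=
          Gamma0_mem.mpr ((ZMod.intCast_zmod_eq_zero_iff_dvd _ _).mpr hg')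
        rw [← SlashAction.slash_mul, hmul, SlashAction.slash_mul]
        congr 1
        rw [← SlashAction.slash_mul, ← SlashAction.slash_mul, ← map_mul, ← map_mul]
        refine hf.slash_congr (mul_mem (nbTw_mem hδ _) hg'N) (mul_mem hg (nbTw_mem hδ _)) ?_
        rw [lowerRight_mul (nbTw_mem hδ _) hg'N, lowerRight_mul hg (nbTw_mem hδ _),
          nbWeight_eq_lowerRight hδp, nbWeight_eq_lowerRight hδp, mul_comm, hd']
    _ = ∑ x : OnePoint (ZMod p), ((f ∣[k] mapGL ℝ g) ∣[k] mapGL ℝ (nbTw p δ x))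
          ∣[k] heckeRep p x :=
        Equiv.sum_comp (MulAction.toPerm (redMatrix p g))
          (fun x ↦ ((f ∣[k] mapGL ℝ g) ∣[k] mapGL ℝ (nbTw p δ x)) ∣[k] heckeRep p x)

theorem NbInv.nbT {p : ℕ} [Fact p.Prime] (hpN : ¬ p ∣ N) {f : ℍ → ℂ} (hf : NbInv N k f)
    {δ : SL(2, ℤ)} (hδ : δ ∈ Gamma0 N) (hδp : ((δ 1 1 : ℤ) : ZMod N) = p) :
    NbInv N k (nbT k p δ f) := by
  intro γ hγ
  rw [nbT_slash hpN hf hδ hδp (Gamma1_in_Gamma0 N hγ), hf γ hγ]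

/-- The twisted Hecke operator preserves cusp forms of level `Gamma1 N`. -/
theorem IsCF.nbT [NeZero N] {p : ℕ} (hp : p.Prime) (hpN : ¬ p ∣ N) {f : ℍ → ℂ}
    (H : IsCF N k f) {δ : SL(2, ℤ)} (hδ : δ ∈ Gamma0 N) (hδp : ((δ 1 1 : ℤ) : ZMod N) = p) :
    IsCF N k (nbT k p δ f) := by
  haveI : Fact p.Prime := ⟨hp⟩
  have hinv := H.inv.nbT hpN hδ hδp
  obtain ⟨F', hF'⟩ := H.slash (k := k) hδ
  obtain ⟨F, rfl⟩ := H
  refine ⟨{ toFun := Fermat.Agent.T4.helper79.nbT k p δ ⇑F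
            slash_action_eq' := ?_
            holo' := ?_
            zero_at_cusps' := ?_ }, rfl⟩
  · rintro _ ⟨γ, hγ, rfl⟩
    exact hinv γ hγ
  · show MDiff (heckeU k p ⇑F + nbV k p (⇑F ∣[k] mapGL ℝ δ))
    exact (ModularForm.mdifferentiable_heckeU (ModularFormClass.holo F) k p).add
      (((ModularFormClass.holo F).slash k _).slash k _)
  · intro c hc
    show c.IsZeroAt (heckeU k p ⇑F + nbV k p (⇑F ∣[k] mapGL ℝ δ)) k
    refine (CuspFormClass.isZeroAt_heckeU F p hc).add ?_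
    rw [← hF']
    exact isZeroAt_slash_diag F' p hc

end Fermat.Agent.T4.helper79
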