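/-
T4 / S48 leaf [NEBEN], part 3 (helper79): if `g` and `V_p g` are both cusp forms of level
`Gamma1 N` (p prime, p not dividing N) then `g = 0`.
Proof: `V^(m+1) (<p>^m g)` is again a cusp form of level `Gamma1 N` for every `m`
(`V^2 <p> h = T_p (V h) - p^(k-1) h`), its q-expansion starts in degree `p^(m+1)`, and the
Sturm bound of the Prelude kills it.
-/
import Mathlib.RingTheory.PowerSeries.Order
import Fermat.Agent.T4.helper79_NebenOps
import Fermat.Prelude.Def_FLTPrelim_Modularity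
import Fermat.Prelude.Thm_ModularForm_sturm_bound_of_isArithmetic
import Fermat.Prelude.Thm_UpperHalfPlane_qCoeff_heckeT
import Fermat.Prelude.Thm_UpperHalfPlane_qCoeff_heckeU
import Fermat.Prelude.Thm_UpperHalfPlane_eq_of_forall_qCoeff_eq
import Fermat.Prelude.Thm_ModularForm_mdifferentiable_heckeT
import Fermat.Prelude.Thm_ModularForm_periodic_heckeT_comp_ofComplex
import Fermat.Prelude.Thm_ModularForm_periodic_heckeU_comp_ofComplex
import Fermat.Prelude.Thm_ModularForm_isBoundedAtImInfty_heckeT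
import Fermat.Prelude.Thm_ModularForm_isBoundedAtImInfty_heckeU

set_option autoImplicit false

noncomputable section

open Matrix.SpecialLinearGroup UpperHalfPlane ModularForm CongruenceSubgroup ModularFormClass
open scoped MatrixGroups ModularForm OnePoint Manifold

namespace Fermat.Agent.T4.helper79

variable {N : ℕ} {k : ℤ}

/-! ### Nice functions: 1-periodic, holomorphic, bounded at infinity -/

/-- `h` is 1-periodic, holomorphic and bounded at `i∞`. -/
structure IsNice (h : ℍ → ℂ) : Prop where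
  per : Function.Periodic (h ∘ ofComplex) 1
  hol : MDiff h
  bdd : IsBoundedAtImInfty h

theorem IsNice.analytic {h : ℍ → ℂ} (H : IsNice h) : AnalyticAt ℂ (cuspFunction 1 h) 0 :=
  analyticAt_cuspFunction_zero one_pos (by simpa using H.per) H.hol H.bdd

theorem IsNice.add {a b : ℍ → ℂ} (Ha : IsNice a) (Hb : IsNice b) : IsNice (a + b) where
  per := Ha.per.add Hb.per
  hol := Ha.hol.add Hb.hol
  bdd := Ha.bdd.add Hb.bdd

theorem IsNice.neg {a : ℍ → ℂ} (Ha : IsNice a) : IsNice (-a) where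
  per := fun x ↦ by
    simp only [Function.comp_apply, Pi.neg_apply]
    exact congrArg Neg.neg (Ha.per x)
  hol := Ha.hol.neg
  bdd := Ha.bdd.neg

theorem IsNice.sub {a b : ℍ → ℂ} (Ha : IsNice a) (Hb : IsNice b) : IsNice (a - b) := by
  rw [sub_eq_add_neg]
  exact Ha.add Hb.neg

theorem IsNice.smul {a : ℍ → ℂ} (c : ℂ) (Ha : IsNice a) : IsNice (c • a) where
  per := Ha.per.smul c
  hol := Ha.hol.const_smul c
  bdd := Ha.bdd.const_smul_left c

theorem IsNice.heckeU {a : ℍ → ℂ} (Ha : IsNice a) (k : ℤ) (p : ℕ) :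
    IsNice (ModularForm.heckeU k p a) where
  per := ModularForm.periodic_heckeU_comp_ofComplex Ha.per k p
  hol := ModularForm.mdifferentiable_heckeU Ha.hol k p
  bdd := ModularForm.isBoundedAtImInfty_heckeU Ha.bdd k p

theorem IsNice.heckeT {a : ℍ → ℂ} (Ha : IsNice a) (k : ℤ) (p : ℕ) :
    IsNice (ModularForm.heckeT k p a) where
  per := ModularForm.periodic_heckeT_comp_ofComplex Ha.per k p
  hol := ModularForm.mdifferentiable_heckeT Ha.hol k p
  bdd := ModularForm.isBoundedAtImInfty_heckeT Ha.bdd k p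

theorem nbV_eq_sub (k : ℤ) (p : ℕ) (h : ℍ → ℂ) :
    nbV k p h = ModularForm.heckeT k p h - ModularForm.heckeU k p h := by
  rw [heckeT_eq_heckeU_add, nbV, add_sub_cancel_left]

theorem IsNice.nbV {a : ℍ → ℂ} (Ha : IsNice a) (k : ℤ) (p : ℕ) : IsNice (nbV k p a) := by
  rw [nbV_eq_sub]
  exact (Ha.heckeT k p).sub (Ha.heckeU k p)

theorem qCoeff_add {a b : ℍ → ℂ} (Ha : IsNice a) (Hb : IsNice b) (n : ℕ) :
    qCoeff (a + b) n = qCoeff a n + qCoeff b n := by
  simp only [qCoeff, qExpansion_add Ha.analytic Hb.analytic, map_add]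

theorem qCoeff_sub {a b : ℍ → ℂ} (Ha : IsNice a) (Hb : IsNice b) (n : ℕ) :
    qCoeff (a - b) n = qCoeff a n - qCoeff b n := by
  simp only [qCoeff, qExpansion_sub Ha.analytic Hb.analytic, map_sub]

theorem qCoeff_smul {a : ℍ → ℂ} (Ha : IsNice a) (c : ℂ) (n : ℕ) :
    qCoeff (c • a) n = c * qCoeff a n := by
  simp only [qCoeff, qExpansion_smul Ha.analytic, PowerSeries.coeff_smul, smul_eq_mul]

theorem IsNice.ext {a b : ℍ → ℂ} (Ha : IsNice a) (Hb : IsNice b)
    (h : ∀ n, qCoeff a n = qCoeff b n) : a = b :=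
  UpperHalfPlane.eq_of_forall_qCoeff_eq Ha.per Ha.hol Ha.bdd Hb.per Hb.hol Hb.bdd h

theorem one_mem_strictPeriods_Gamma1 (N : ℕ) :
    (1 : ℝ) ∈ (Gamma1 N : Subgroup (GL (Fin 2) ℝ)).strictPeriods := by
  rw [strictPeriods_Gamma1]
  exact AddSubgroup.mem_zmultiples (1 : ℝ)

section level

variable [NeZero N]

theorem nice_coe (F : CuspForm (Gamma1 N) k) : IsNice ⇑F where
  per := by
    simpa using SlashInvariantFormClass.periodic_comp_ofComplex F (one_mem_strictPeriods_Gamma1 N)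
  hol := ModularFormClass.holo F
  bdd := ModularFormClass.bdd_at_infty F

theorem IsCF.nice {h : ℍ → ℂ} (H : IsCF N k h) : IsNice h := by
  obtain ⟨F, rfl⟩ := H
  exact nice_coe F

omit [NeZero N] in
theorem IsCF.qCoeff_zero {h : ℍ → ℂ} (H : IsCF N k h) : qCoeff h 0 = 0 := by
  obtain ⟨F, rfl⟩ := H
  exact CuspFormClass.qExpansion_coeff_zero F one_pos (one_mem_strictPeriods_Gamma1 N)

/-- The q-coefficients of `V_p h`. -/
theorem qCoeff_nbV {h : ℍ → ℂ} (H : IsNice h) {p : ℕ} (hp : p ≠ 0) (n : ℕ) :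
    qCoeff (nbV k p h) n = if p ∣ n then (p : ℂ) ^ (k - 1) * qCoeff h (n / p) else 0 := by
  rw [nbV_eq_sub, qCoeff_sub (H.heckeT k p) (H.heckeU k p),
    UpperHalfPlane.qCoeff_heckeT H.per H.hol H.bdd k hp,
    UpperHalfPlane.qCoeff_heckeU H.per H.hol H.bdd k hp, coeffHeckeT_eq_coeffHeckeU_add,
    add_sub_cancel_left]

/-- The Sturm bound for cusp forms of level `Gamma1 N`. -/
def nbSturm (N : ℕ) (k : ℤ) : ℕ :=
  (k * (Gamma1 N : Subgroup (GL (Fin 2) ℝ)).relIndex 𝒮ℒ).toNat / 12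

theorem IsCF.eq_zero_of_qCoeff {h : ℍ → ℂ} (H : IsCF N k h)
    (h0 : ∀ n ≤ nbSturm N k, qCoeff h n = 0) : h = 0 := by
  obtain ⟨F, rfl⟩ := H
  let G : ModularForm (Gamma1 N) k :=
    { toSlashInvariantForm := F.toSlashInvariantForm
      holo' := F.holo'
      bdd_at_cusps' := fun hc g hg ↦ (F.zero_at_cusps' hc g hg).isBoundedAtImInfty }
  have hG : G = 0 := by
    refine ModularForm.sturm_bound_of_isArithmetic (one_mem_strictPeriods_Gamma1 N) ?_
    refine lt_of_lt_of_le (by exact_mod_cast Nat.lt_succ_self _)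
      (PowerSeries.nat_le_order _ _ fun n hn ↦ ?_)
    exact h0 n (by unfold nbSturm; omega)
  have h1 : (⇑G : ℍ → ℂ) = 0 := by rw [hG]; rfl
  exact h1

end level

/-! ### `V` and the diamond operators -/

theorem slash_eq_zero {h : ℍ → ℂ} (A : GL (Fin 2) ℝ) (H : h ∣[k] A = 0) : h = 0 := by
  have h1 : h = (h ∣[k] A) ∣[k] A⁻¹ := by
    rw [← SlashAction.slash_mul, mul_inv_cancel, SlashAction.slash_one]
  rw [h1, H, SlashAction.zero_slash]

theorem nbV_iterate_eq_zero {p : ℕ} (m : ℕ) {h : ℍ → ℂ} (H : (nbV k p)^[m] h = 0) : h = 0 := by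
  induction m with
  | zero => simpa using H
  | succ m ih =>
    rw [Function.iterate_succ_apply'] at H
    exact ih (slash_eq_zero _ H)

theorem slash_iterate_eq_zero (A : GL (Fin 2) ℝ) (m : ℕ) {h : ℍ → ℂ}
    (H : (fun w : ℍ → ℂ ↦ w ∣[k] A)^[m] h = 0) : h = 0 := by
  induction m with
  | zero => simpa using H
  | succ m ih =>
    rw [Function.iterate_succ_apply'] at H
    exact ih (slash_eq_zero _ H)

/-- `<p> V = V <p>` for a representative `δ` of `<p>` with `p ∣ δ 1 0`. -/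
theorem nbV_slash_comm {p : ℕ} (hp : p.Prime) (hpN : ¬ p ∣ N) {h : ℍ → ℂ} (hh : NbInv N k h)
    {δ : SL(2, ℤ)} (hδ : δ ∈ Gamma0 N) (hδp : (p : ℤ) ∣ δ 1 0) :
    (nbV k p h) ∣[k] mapGL ℝ δ = nbV k p (h ∣[k] mapGL ℝ δ) := by
  obtain ⟨e, he⟩ := hδp
  obtain ⟨g', hg', hd', hmul⟩ := nbMat_inf_inf hp.ne_zero δ e he
  have hcN : (N : ℤ) ∣ δ 1 0 :=
    (ZMod.intCast_zmod_eq_zero_iff_dvd _ _).mp (Gamma0_mem.mp hδ)
  have hcop : IsCoprime (N : ℤ) (p : ℤ) :=
    Nat.isCoprime_iff_coprime.mpr ((Nat.Prime.coprime_iff_not_dvd hp).mpr hpN).symm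
  have hg'N : g' ∈ Gamma0 N := by
    rw [Gamma0_mem, hg', ZMod.intCast_zmod_eq_zero_iff_dvd]
    exact hcop.dvd_of_dvd_mul_left (he ▸ hcN)
  unfold nbV
  rw [← SlashAction.slash_mul, hmul, SlashAction.slash_mul]
  congr 1
  exact hh.slash_congr hg'N hδ (by rw [hd'])

theorem nbV_iterate_slash_comm {p : ℕ} (hp : p.Prime) (hpN : ¬ p ∣ N)
    {δ : SL(2, ℤ)} (hδ : δ ∈ Gamma0 N) (hδp : (p : ℤ) ∣ δ 1 0) (j : ℕ) {h : ℍ → ℂ}
    (hh : ∀ i < j, NbInv N k ((nbV k p)^[i] h)) :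
    (nbV k p)^[j] (h ∣[k] mapGL ℝ δ) = ((nbV k p)^[j] h) ∣[k] mapGL ℝ δ := by
  induction j with
  | zero => rfl
  | succ j ih =>
    rw [Function.iterate_succ_apply', Function.iterate_succ_apply',
      ih (fun i hi ↦ hh i (by omega)), nbV_slash_comm hp hpN (hh j (by omega)) hδ hδp]

section level

variable [NeZero N]

/-- `U V = p^(k-1)` on forms of level `Gamma1 N`. -/
theorem heckeU_nbV {h : ℍ → ℂ} (H : IsCF N k h) {p : ℕ} (hp : p ≠ 0) :
    ModularForm.heckeU k p (nbV k p h) = (p : ℂ) ^ (k - 1) • h := by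
  have hper := H.nice.per
  have hp' : (p : ℂ) ≠ 0 := by exact_mod_cast hp
  funext τ
  rw [heckeU_apply k hp]
  simp only [nbV, slash_heckeDiagMatrix_apply k hp, Pi.smul_apply, smul_eq_mul]
  have key : ∀ j : ℕ, h (heckeDiagMatrix p • heckeMatrix p j • τ) = h τ := by
    intro j
    have h1 : ((heckeDiagMatrix p • heckeMatrix p j • τ : ℍ) : ℂ) = (τ : ℂ) + j * 1 := by
      rw [coe_heckeDiagMatrix_smul hp, coe_heckeMatrix_smul hp]
      field_simp
    calc h (heckeDiagMatrix p • heckeMatrix p j • τ)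
        = (h ∘ ofComplex) ((heckeDiagMatrix p • heckeMatrix p j • τ : ℍ) : ℂ) := by
          simp [ofComplex_apply]
      _ = (h ∘ ofComplex) ((τ : ℂ) + j * 1) := by rw [h1]
      _ = (h ∘ ofComplex) (τ : ℂ) := (hper.nat_mul j) _
      _ = h τ := by simp [ofComplex_apply]
  simp only [key, Finset.sum_const, Finset.card_range, nsmul_eq_mul]
  field_simp

/-- One step of the iteration: from `h` to `<p> h`. -/
theorem isCF_step {p : ℕ} (hp : p.Prime) (hpN : ¬ p ∣ N)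
    {δ : SL(2, ℤ)} (hδ : δ ∈ Gamma0 N) (hδp : (p : ℤ) ∣ δ 1 0)
    (hδ1 : ((δ 1 1 : ℤ) : ZMod N) = p) (m : ℕ) {h : ℍ → ℂ}
    (hh : ∀ j ≤ m + 1, IsCF N k ((nbV k p)^[j] h)) :
    ∀ j ≤ m + 2, IsCF N k ((nbV k p)^[j] (h ∣[k] mapGL ℝ δ)) := by
  intro j hj
  have hcomm : ∀ j ≤ m + 1, (nbV k p)^[j] (h ∣[k] mapGL ℝ δ)
      = ((nbV k p)^[j] h) ∣[k] mapGL ℝ δ := fun j hj ↦
    nbV_iterate_slash_comm hp hpN hδ hδp j (fun i hi ↦ (hh i (by omega)).inv)
  rcases Nat.lt_or_ge j (m + 2) with hlt | hge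
  · rw [hcomm j (by omega)]
    exact (hh j (by omega)).slash hδ
  · obtain rfl : j = m + 2 := le_antisymm hj hge
    have hT := (hh (m + 1) le_rfl).nbT hp hpN hδ hδ1
    have hU : ModularForm.heckeU k p ((nbV k p)^[m + 1] h) = (p : ℂ) ^ (k - 1) • (nbV k p)^[m] h := by
      rw [Function.iterate_succ_apply']
      exact heckeU_nbV (hh m (by omega)) hp.ne_zero
    have hE : (nbV k p)^[m + 2] (h ∣[k] mapGL ℝ δ)
        = nbT k p δ ((nbV k p)^[m + 1] h) - (p : ℂ) ^ (k - 1) • (nbV k p)^[m] h := by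
      rw [Function.iterate_succ_apply', hcomm (m + 1) le_rfl, nbT, hU, add_sub_cancel_left]
    rw [hE]
    exact hT.sub ((hh m (by omega)).smul _)

theorem isCF_iterate {p : ℕ} (hp : p.Prime) (hpN : ¬ p ∣ N)
    {δ : SL(2, ℤ)} (hδ : δ ∈ Gamma0 N) (hδp : (p : ℤ) ∣ δ 1 0)
    (hδ1 : ((δ 1 1 : ℤ) : ZMod N) = p) {g : ℍ → ℂ}
    (hg : IsCF N k g) (hVg : IsCF N k (nbV k p g)) (m : ℕ) :
    ∀ j ≤ m + 1, IsCF N k ((nbV k p)^[j] ((fun w : ℍ → ℂ ↦ w ∣[k] mapGL ℝ δ)^[m] g)) := by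
  induction m with
  | zero =>
    intro j hj
    interval_cases j
    · simpa using hg
    · simpa using hVg
  | succ m ih =>
    rw [Function.iterate_succ_apply']
    exact isCF_step hp hpN hδ hδp hδ1 m ih

theorem qCoeff_nbV_iterate {p : ℕ} (hp : p ≠ 0) (j : ℕ) {w : ℍ → ℂ}
    (hw : ∀ i ≤ j, IsCF N k ((nbV k p)^[i] w)) (n : ℕ) (hn : n < p ^ j) :
    qCoeff ((nbV k p)^[j] w) n = 0 := by
  induction j generalizing n with
  | zero =>
    obtain rfl : n = 0 := by simpa using hn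
    simpa using (hw 0 le_rfl).qCoeff_zero
  | succ j ih =>
    rw [Function.iterate_succ_apply', qCoeff_nbV (hw j (by omega)).nice hp]
    split_ifs with hdvd
    · rw [ih (fun i hi ↦ hw i (by omega)) (n / p)
        (Nat.div_lt_of_lt_mul (by rw [pow_succ'] at hn; exact hn)), mul_zero]
    · rfl

omit [NeZero N] in
/-- A representative of the diamond operator `<p>` lying in `Gamma0 (N p)`. -/
theorem exists_diamond_rep {p : ℕ} (hp : p.Prime) (hpN : ¬ p ∣ N) :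
    ∃ δ : SL(2, ℤ), δ ∈ Gamma0 N ∧ (p : ℤ) ∣ δ 1 0 ∧ ((δ 1 1 : ℤ) : ZMod N) = p := by
  have hNp : Nat.Coprime N p := ((Nat.Prime.coprime_iff_not_dvd hp).mpr hpN).symm
  have hc : Nat.Coprime (N * p) (p + N) := by
    refine Nat.Coprime.mul_left ?_ ?_
    · simpa using hNp
    · simpa using hNp.symm
  have hcop : IsCoprime (((N * p : ℕ) : ℤ)) (((p + N : ℕ) : ℤ)) :=
    Nat.isCoprime_iff_coprime.mpr hc
  obtain ⟨g, -, hg⟩ := ModularGroup.bottom_row_surj (R := ℤ)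
    (show ![((N * p : ℕ) : ℤ), ((p + N : ℕ) : ℤ)] ∈ {cd : Fin 2 → ℤ | IsCoprime (cd 0) (cd 1)}
      from hcop)
  have h10 : g 1 0 = ((N * p : ℕ) : ℤ) := congrFun hg 0
  have h11 : g 1 1 = ((p + N : ℕ) : ℤ) := congrFun hg 1
  refine ⟨g, ?_, ?_, ?_⟩
  · rw [Gamma0_mem, h10]
    push_cast
    simp
  · rw [h10]
    exact ⟨N, by push_cast; ring⟩
  · rw [h11]
    push_cast
    simp

/-- **Key lemma**: if `g` and `V_p g` are cusp forms of level `Gamma1 N` (p prime not dividing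
`N`), then `g = 0`. -/
theorem eq_zero_of_isCF_nbV {p : ℕ} (hp : p.Prime) (hpN : ¬ p ∣ N) {g : ℍ → ℂ}
    (hg : IsCF N k g) (hVg : IsCF N k (nbV k p g)) : g = 0 := by
  obtain ⟨δ, hδ, hδp, hδ1⟩ := exists_diamond_rep (N := N) hp hpN
  set m := nbSturm N k with hm
  have hall := isCF_iterate hp hpN hδ hδp hδ1 hg hVg m
  have hzero : (nbV k p)^[m + 1] ((fun w : ℍ → ℂ ↦ w ∣[k] mapGL ℝ δ)^[m] g) = 0 := by
    refine (hall (m + 1) le_rfl).eq_zero_of_qCoeff fun n hn ↦ ?_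
    refine qCoeff_nbV_iterate hp.ne_zero (m + 1) hall n ?_
    calc n ≤ m := hn
      _ < m + 1 := Nat.lt_succ_self m
      _ < p ^ (m + 1) := Nat.lt_pow_self hp.one_lt
  exact slash_iterate_eq_zero _ m (nbV_iterate_eq_zero (m + 1) hzero)

end level

end Fermat.Agent.T4.helper79
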