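/-
T4 / S48 leaf [NEBEN], final part (helper79).

The cusp form `f` of the frozen statement S48 (weight 1, level `Gamma1 N`, with the formal Hecke
relations `hT` for a Dirichlet character `ε`) HAS NEBENTYPUS `ε`:
  `f ∣[1] γ = ε (γ 1 1) • f` for every `γ ∈ Gamma0 N`,
and it is an eigenfunction of the genuine Hecke operators `T_p = U_p + V_p <p>` of level
`Gamma1 N` (p prime, p not dividing N).  The hypothesis `qCoeff f 1 = 1` is not needed.
-/
import Mathlib.NumberTheory.LSeries.PrimesInAP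
import Mathlib.NumberTheory.DirichletCharacter.Basic
import Fermat.Agent.T4.helper79_NebenIter

set_option autoImplicit false

noncomputable section

open Matrix.SpecialLinearGroup UpperHalfPlane ModularForm CongruenceSubgroup ModularFormClass
open scoped MatrixGroups ModularForm OnePoint Manifold

namespace Fermat.Agent.T4.helper79

variable {N : ℕ} {k : ℤ}

theorem nbV_sub (k : ℤ) (p : ℕ) (a b : ℍ → ℂ) : nbV k p (a - b) = nbV k p a - nbV k p b := by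
  simp only [nbV_eq_sub, heckeT_sub, heckeU_sub]
  abel

theorem nbV_smul (k : ℤ) (p : ℕ) (c : ℂ) (a : ℍ → ℂ) : nbV k p (c • a) = c • nbV k p a := by
  simp only [nbV_eq_sub, heckeT_smul, heckeU_smul, smul_sub]

/-- The Hecke relations of the frozen statement S48 (weight one, character `ε`), as a property of
a function on the upper half plane. -/
def NbHecke (N : ℕ) (ε : DirichletCharacter ℂ N) (f : ℍ → ℂ) : Prop :=
  ∀ p : ℕ, p.Prime → ¬ p ∣ N → ∀ n : ℕ,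
    qCoeff f (p * n) + ε (p : ZMod N) * (if p ∣ n then qCoeff f (n / p) else 0) =
      qCoeff f p * qCoeff f n

section level

variable [NeZero N]

/-- The formal Hecke relation at `p` as an identity of functions: `U_p f + ε(p) V_p f = a_p f`. -/
theorem heckeU_add_nbV_eq {ε : DirichletCharacter ℂ N} {f : ℍ → ℂ} (hf : IsCF N 1 f)
    (hT : NbHecke N ε f) {p : ℕ} (hp : p.Prime) (hpN : ¬ p ∣ N) :
    ModularForm.heckeU 1 p f + ε (p : ZMod N) • nbV 1 p f = qCoeff f p • f := by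
  have hn := hf.nice
  refine IsNice.ext ((hn.heckeU 1 p).add ((hn.nbV 1 p).smul _)) (hn.smul _) fun n ↦ ?_
  rw [qCoeff_add (hn.heckeU 1 p) ((hn.nbV 1 p).smul _), qCoeff_smul (hn.nbV 1 p),
    qCoeff_smul hn, UpperHalfPlane.qCoeff_heckeU hn.per hn.hol hn.bdd 1 hp.ne_zero,
    qCoeff_nbV hn hp.ne_zero, coeffHeckeU_apply, ← hT p hp hpN n, mul_comm n p]
  simp

/-- `f` is an eigenvector of the diamond operator `<p>` with eigenvalue `ε(p)`. -/
theorem slash_eq_of_prime {ε : DirichletCharacter ℂ N} {f : ℍ → ℂ} (hf : IsCF N 1 f)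
    (hT : NbHecke N ε f) {p : ℕ} (hp : p.Prime) (hpN : ¬ p ∣ N)
    {δ : SL(2, ℤ)} (hδ : δ ∈ Gamma0 N) (hδ1 : ((δ 1 1 : ℤ) : ZMod N) = p) :
    f ∣[(1 : ℤ)] mapGL ℝ δ = ε (p : ZMod N) • f := by
  have hg : IsCF N 1 (f ∣[(1 : ℤ)] mapGL ℝ δ - ε (p : ZMod N) • f) :=
    (hf.slash hδ).sub (hf.smul _)
  have hV : nbV 1 p (f ∣[(1 : ℤ)] mapGL ℝ δ - ε (p : ZMod N) • f)
      = nbT 1 p δ f - qCoeff f p • f := by
    rw [nbV_sub, nbV_smul, ← heckeU_add_nbV_eq hf hT hp hpN, nbT]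
    abel
  have hVg : IsCF N 1 (nbV 1 p (f ∣[(1 : ℤ)] mapGL ℝ δ - ε (p : ZMod N) • f)) := by
    rw [hV]
    exact (hf.nbT hp hpN hδ hδ1).sub (hf.smul _)
  exact sub_eq_zero.mp (eq_zero_of_isCF_nbV hp hpN hg hVg)

omit [NeZero N] in
theorem isUnit_lowerRight {γ : SL(2, ℤ)} (hγ : γ ∈ Gamma0 N) :
    IsUnit (((γ 1 1 : ℤ) : ZMod N)) := by
  have h1 : (((γ 1 1 : ℤ) : ZMod N)) * (((γ⁻¹ 1 1 : ℤ) : ZMod N)) = 1 := by
    rw [← lowerRight_mul hγ (inv_mem hγ), mul_inv_cancel]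
    simp
  exact IsUnit.of_mul_eq_one _ h1

/-- **NEBENTYPUS** (function level): a cusp form of weight one and level `Gamma1 N` satisfying
the formal Hecke relations for `ε` at the primes not dividing `N` has nebentypus `ε`. -/
theorem neben_of_isCF {ε : DirichletCharacter ℂ N} {f : ℍ → ℂ} (hf : IsCF N 1 f)
    (hT : NbHecke N ε f) (γ : SL(2, ℤ)) (hγ : γ ∈ Gamma0 N) :
    f ∣[(1 : ℤ)] mapGL ℝ γ = ε ((γ 1 1 : ℤ) : ZMod N) • f := by
  obtain ⟨p, hpN, hp, hpd⟩ := Nat.forall_exists_prime_gt_and_eq_mod (isUnit_lowerRight hγ) N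
  have hpN' : ¬ p ∣ N := Nat.not_dvd_of_pos_of_lt (Nat.pos_of_ne_zero (NeZero.ne N)) hpN
  obtain ⟨δ, hδ, -, hδ1⟩ := exists_diamond_rep (N := N) hp hpN'
  rw [hf.inv.slash_congr hγ hδ (by rw [hδ1, hpd]), slash_eq_of_prime hf hT hp hpN' hδ hδ1, hpd]

end level

/-- **NEBENTYPUS of the form of frozen S48** (hypotheses `f`, `hT` verbatim; `hf₁` not needed):
`f ∣[1] γ = ε (γ 1 1) • f` for all `γ ∈ Gamma0 N`. -/
theorem neben (N : ℕ) [NeZero N] (ε : DirichletCharacter ℂ N) (f : CuspForm (Gamma1 N) 1)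
    (hT : ∀ p : ℕ, p.Prime → ¬ p ∣ N → ∀ n : ℕ,
        ModularFormClass.qCoeff f (p * n) +
            ε (p : ZMod N) * (if p ∣ n then ModularFormClass.qCoeff f (n / p) else 0) =
          ModularFormClass.qCoeff f p * ModularFormClass.qCoeff f n)
    (γ : SL(2, ℤ)) (hγ : γ ∈ Gamma0 N) :
    (⇑f : ℍ → ℂ) ∣[(1 : ℤ)] mapGL ℝ γ = ε ((γ 1 1 : ℤ) : ZMod N) • (⇑f : ℍ → ℂ) :=
  neben_of_isCF (isCF_coe f) hT γ hγ

/-- The same statement for the slash action of `SL(2, ℤ)`. -/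
theorem neben_SL (N : ℕ) [NeZero N] (ε : DirichletCharacter ℂ N) (f : CuspForm (Gamma1 N) 1)
    (hT : ∀ p : ℕ, p.Prime → ¬ p ∣ N → ∀ n : ℕ,
        ModularFormClass.qCoeff f (p * n) +
            ε (p : ZMod N) * (if p ∣ n then ModularFormClass.qCoeff f (n / p) else 0) =
          ModularFormClass.qCoeff f p * ModularFormClass.qCoeff f n)
    (γ : SL(2, ℤ)) (hγ : γ ∈ Gamma0 N) :
    (⇑f : ℍ → ℂ) ∣[(1 : ℤ)] γ = ε ((γ 1 1 : ℤ) : ZMod N) • (⇑f : ℍ → ℂ) :=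
  neben N ε f hT γ hγ

/-- `f` is an eigenfunction of the genuine Hecke operator `T_p = U_p + V_p <p>` of level
`Gamma1 N`, with eigenvalue `a_p`. -/
theorem neben_nbT (N : ℕ) [NeZero N] (ε : DirichletCharacter ℂ N) (f : CuspForm (Gamma1 N) 1)
    (hT : ∀ p : ℕ, p.Prime → ¬ p ∣ N → ∀ n : ℕ,
        ModularFormClass.qCoeff f (p * n) +
            ε (p : ZMod N) * (if p ∣ n then ModularFormClass.qCoeff f (n / p) else 0) =
          ModularFormClass.qCoeff f p * ModularFormClass.qCoeff f n)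
    {p : ℕ} (hp : p.Prime) (hpN : ¬ p ∣ N)
    {δ : SL(2, ℤ)} (hδ : δ ∈ Gamma0 N) (hδ1 : ((δ 1 1 : ℤ) : ZMod N) = p) :
    nbT 1 p δ ⇑f = ModularFormClass.qCoeff f p • (⇑f : ℍ → ℂ) := by
  rw [nbT, slash_eq_of_prime (isCF_coe f) hT hp hpN hδ hδ1, nbV_smul]
  exact heckeU_add_nbV_eq (isCF_coe f) hT hp hpN

end Fermat.Agent.T4.helper79
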