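/-
T4 / S48, block (I), forms side of I-DEF (helper79): the Hecke algebra of level `Gamma1 M`.

* `diamondLin k d`  : the diamond operator `<d>`, `d : (ZMod M)ˣ`;
* `heckeT1Lin k hp hpM` : the Hecke operator `T_p = U_p + V_p <p>` (p prime, p not dividing M);
* q-coefficient formulas, commutation relations;
* `heckeAlgebra1 M k` : the `ℤ`-subalgebra of `End_ℂ (CuspForm (Gamma1 M) k)` generated by the
  `T_p` and the `<d>`; it is a commutative ring (mirror of the Prelude's `CuspForm.heckeAlgebra`).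
-/
import Fermat.Agent.T4.helper79_Neben

set_option autoImplicit false

noncomputable section

open Matrix.SpecialLinearGroup UpperHalfPlane ModularForm CongruenceSubgroup ModularFormClass
open scoped MatrixGroups ModularForm OnePoint Manifold

namespace Fermat.Agent.T4.helper79

variable {M : ℕ} {k : ℤ}

/-! ### Function-level linearity -/

theorem σ_mapGL (γ : SL(2, ℤ)) : σ (mapGL ℝ γ) = .refl ℝ ℂ := by
  rw [σ, if_pos]
  simp

theorem slash_mapGL_smul (k : ℤ) (γ : SL(2, ℤ)) (c : ℂ) (f : ℍ → ℂ) :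
    (c • f) ∣[k] mapGL ℝ γ = c • (f ∣[k] mapGL ℝ γ) := by
  rw [ModularForm.smul_slash, σ_mapGL]
  rfl

theorem nbV_add (k : ℤ) (p : ℕ) (a b : ℍ → ℂ) : nbV k p (a + b) = nbV k p a + nbV k p b := by
  simp only [nbV, SlashAction.add_slash]

theorem nbT_add (k : ℤ) (p : ℕ) (δ : SL(2, ℤ)) (a b : ℍ → ℂ) :
    nbT k p δ (a + b) = nbT k p δ a + nbT k p δ b := by
  simp only [nbT, heckeU_add, SlashAction.add_slash, nbV_add]
  abel

theorem nbT_smul (k : ℤ) (p : ℕ) (δ : SL(2, ℤ)) (c : ℂ) (a : ℍ → ℂ) :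
    nbT k p δ (c • a) = c • nbT k p δ a := by
  simp only [nbT, heckeU_smul, slash_mapGL_smul, nbV_smul, smul_add]

/-! ### Bundling -/

/-- The cusp form with a given underlying function. -/
def ofIsCF (h : ℍ → ℂ) (H : IsCF M k h) : CuspForm (Gamma1 M) k := H.choose

@[simp] theorem coe_ofIsCF (h : ℍ → ℂ) (H : IsCF M k h) : ⇑(ofIsCF h H) = h := H.choose_spec

/-- Every unit mod `M` is the lower-right entry of an element of `Gamma0 M`. -/
theorem exists_rep_unit [NeZero M] (d : (ZMod M)ˣ) :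
    ∃ γ : SL(2, ℤ), γ ∈ Gamma0 M ∧ ((γ 1 1 : ℤ) : ZMod M) = (d : ZMod M) := by
  have hc : Nat.Coprime M (d : ZMod M).val := (ZMod.val_coe_unit_coprime d).symm
  have hcop : IsCoprime ((M : ℕ) : ℤ) (((d : ZMod M).val : ℕ) : ℤ) :=
    Nat.isCoprime_iff_coprime.mpr hc
  obtain ⟨g, -, hg⟩ := ModularGroup.bottom_row_surj (R := ℤ)
    (show ![((M : ℕ) : ℤ), (((d : ZMod M).val : ℕ) : ℤ)] ∈
      {cd : Fin 2 → ℤ | IsCoprime (cd 0) (cd 1)} from hcop)
  have h10 : g 1 0 = ((M : ℕ) : ℤ) := congrFun hg 0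
  have h11 : g 1 1 = (((d : ZMod M).val : ℕ) : ℤ) := congrFun hg 1
  refine ⟨g, ?_, ?_⟩
  · rw [Gamma0_mem, h10]
    simp
  · rw [h11]
    simp

/-- A chosen representative of the diamond operator `<d>`. -/
def diamondRep [NeZero M] (d : (ZMod M)ˣ) : SL(2, ℤ) := (exists_rep_unit d).choose

theorem diamondRep_mem [NeZero M] (d : (ZMod M)ˣ) : diamondRep d ∈ Gamma0 M :=
  (exists_rep_unit d).choose_spec.1

theorem diamondRep_lowerRight [NeZero M] (d : (ZMod M)ˣ) :
    (((diamondRep d) 1 1 : ℤ) : ZMod M) = (d : ZMod M) :=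
  (exists_rep_unit d).choose_spec.2

section level

variable [NeZero M]

/-- The diamond operator `<d>` on cusp forms of level `Gamma1 M`. -/
def diamondLin (k : ℤ) (d : (ZMod M)ˣ) :
    CuspForm (Gamma1 M) k →ₗ[ℂ] CuspForm (Gamma1 M) k where
  toFun F := ofIsCF (⇑F ∣[k] mapGL ℝ (diamondRep d)) ((isCF_coe F).slash (diamondRep_mem d))
  map_add' F G := by
    apply DFunLike.coe_injective
    simp only [coe_ofIsCF, FunLike.coe_add, SlashAction.add_slash]
  map_smul' c F := by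
    apply DFunLike.coe_injective
    simp only [coe_ofIsCF, FunLike.coe_smul, RingHom.id_apply, slash_mapGL_smul]

theorem coe_diamondLin_rep (d : (ZMod M)ˣ) (F : CuspForm (Gamma1 M) k) :
    ⇑(diamondLin k d F) = ⇑F ∣[k] mapGL ℝ (diamondRep d) :=
  coe_ofIsCF _ _

/-- The diamond operator is the slash by ANY representative. -/
theorem coe_diamondLin (d : (ZMod M)ˣ) (F : CuspForm (Gamma1 M) k) {γ : SL(2, ℤ)}
    (hγ : γ ∈ Gamma0 M) (hd : ((γ 1 1 : ℤ) : ZMod M) = (d : ZMod M)) :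
    ⇑(diamondLin k d F) = ⇑F ∣[k] mapGL ℝ γ := by
  rw [coe_diamondLin_rep]
  exact (isCF_coe F).inv.slash_congr (diamondRep_mem d) hγ (by rw [diamondRep_lowerRight, hd])

theorem diamondLin_one : diamondLin k (1 : (ZMod M)ˣ) = 1 := by
  ext F τ
  rw [coe_diamondLin (1 : (ZMod M)ˣ) F (one_mem _) (by simp)]
  simp

theorem diamondLin_mul (d d' : (ZMod M)ˣ) :
    diamondLin k (d * d') = diamondLin k d * diamondLin k d' := by
  apply LinearMap.ext
  intro F
  apply DFunLike.coe_injective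
  rw [Module.End.mul_apply, coe_diamondLin_rep d (diamondLin k d' F), coe_diamondLin_rep d' F,
    ← SlashAction.slash_mul, ← map_mul]
  refine coe_diamondLin (d * d') F (mul_mem (diamondRep_mem d') (diamondRep_mem d)) ?_
  rw [lowerRight_mul (diamondRep_mem d') (diamondRep_mem d), diamondRep_lowerRight,
    diamondRep_lowerRight, Units.val_mul, mul_comm]

theorem diamondLin_comm (d d' : (ZMod M)ˣ) : Commute (diamondLin k d) (diamondLin k d') := by
  rw [Commute, SemiconjBy, ← diamondLin_mul, ← diamondLin_mul, mul_comm]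

/-- The unit of `ZMod M` attached to a prime not dividing `M`. -/
def primeUnit {p : ℕ} (hp : p.Prime) (hpM : ¬ p ∣ M) : (ZMod M)ˣ :=
  ZMod.unitOfCoprime p ((Nat.Prime.coprime_iff_not_dvd hp).mpr hpM)

omit [NeZero M] in
@[simp] theorem coe_primeUnit {p : ℕ} (hp : p.Prime) (hpM : ¬ p ∣ M) :
    ((primeUnit hp hpM : (ZMod M)ˣ) : ZMod M) = (p : ZMod M) :=
  ZMod.coe_unitOfCoprime _ _

/-- The Hecke operator `T_p = U_p + V_p <p>` on cusp forms of level `Gamma1 M`. -/
def heckeT1Lin (k : ℤ) {p : ℕ} (hp : p.Prime) (hpM : ¬ p ∣ M) :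
    CuspForm (Gamma1 M) k →ₗ[ℂ] CuspForm (Gamma1 M) k where
  toFun F := ofIsCF (nbT k p (diamondRep (primeUnit hp hpM)) ⇑F)
    ((isCF_coe F).nbT hp hpM (diamondRep_mem _)
      (by rw [diamondRep_lowerRight, coe_primeUnit]))
  map_add' F G := by
    apply DFunLike.coe_injective
    simp only [coe_ofIsCF, FunLike.coe_add, nbT_add]
  map_smul' c F := by
    apply DFunLike.coe_injective
    simp only [coe_ofIsCF, FunLike.coe_smul, RingHom.id_apply, nbT_smul]

theorem coe_heckeT1Lin {p : ℕ} (hp : p.Prime) (hpM : ¬ p ∣ M) (F : CuspForm (Gamma1 M) k) :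
    ⇑(heckeT1Lin k hp hpM F) =
      ModularForm.heckeU k p ⇑F + nbV k p ⇑(diamondLin k (primeUnit hp hpM) F) := by
  rw [coe_diamondLin_rep]
  exact coe_ofIsCF _ _

/-- `T_p` in terms of ANY representative of `<p>`. -/
theorem coe_heckeT1Lin_rep {p : ℕ} (hp : p.Prime) (hpM : ¬ p ∣ M) (F : CuspForm (Gamma1 M) k)
    {δ : SL(2, ℤ)} (hδ : δ ∈ Gamma0 M) (hδ1 : ((δ 1 1 : ℤ) : ZMod M) = p) :
    ⇑(heckeT1Lin k hp hpM F) = nbT k p δ ⇑F := by
  rw [coe_heckeT1Lin, coe_diamondLin (primeUnit hp hpM) F hδ (by rw [hδ1, coe_primeUnit]), nbT]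

/-- The q-coefficients of `T_p F`. -/
theorem qCoeff_heckeT1Lin {p : ℕ} (hp : p.Prime) (hpM : ¬ p ∣ M) (F : CuspForm (Gamma1 M) k)
    (n : ℕ) :
    qCoeff ⇑(heckeT1Lin k hp hpM F) n = qCoeff ⇑F (n * p) +
      if p ∣ n then (p : ℂ) ^ (k - 1) * qCoeff ⇑(diamondLin k (primeUnit hp hpM) F) (n / p)
      else 0 := by
  have hn := nice_coe F
  have hn' := nice_coe (diamondLin k (primeUnit hp hpM) F)
  rw [coe_heckeT1Lin, qCoeff_add (hn.heckeU k p) (hn'.nbV k p),
    UpperHalfPlane.qCoeff_heckeU hn.per hn.hol hn.bdd k hp.ne_zero,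
    qCoeff_nbV hn' hp.ne_zero, coeffHeckeU_apply]

/-- `T_p` commutes with the diamond operators. -/
theorem heckeT1Lin_diamondLin_comm {p : ℕ} (hp : p.Prime) (hpM : ¬ p ∣ M) (d : (ZMod M)ˣ) :
    Commute (heckeT1Lin k hp hpM) (diamondLin k d) := by
  have : Fact p.Prime := ⟨hp⟩
  rw [Commute, SemiconjBy]
  apply LinearMap.ext
  intro F
  apply DFunLike.coe_injective
  have hδ := diamondRep_mem (primeUnit hp hpM)
  have hδ1 : ((((diamondRep (primeUnit hp hpM)) 1 1 : ℤ)) : ZMod M) = p := by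
    rw [diamondRep_lowerRight, coe_primeUnit]
  rw [Module.End.mul_apply, Module.End.mul_apply,
    coe_heckeT1Lin_rep hp hpM (diamondLin k d F) hδ hδ1, coe_diamondLin_rep d F,
    coe_diamondLin_rep d (heckeT1Lin k hp hpM F), coe_heckeT1Lin_rep hp hpM F hδ hδ1,
    nbT_slash hpM (isCF_coe F).inv hδ hδ1 (diamondRep_mem d)]

end level

/-! ### Commutativity of the `T_p` -/

/-- The arithmetic behind `T_p T_q = T_q T_p`. -/
theorem comm_arith {p q : ℕ} (hp : p.Prime) (hq : q.Prime) (hpq : p ≠ q) (x y : ℂ)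
    (A B C E : ℕ → ℂ) (n : ℕ) :
    (A (n * p * q) + if q ∣ n * p then y * C (n * p / q) else 0) +
      (if p ∣ n then x * (B (n / p * q) + if q ∣ n / p then y * E (n / p / q) else 0) else 0)
    = (A (n * q * p) + if p ∣ n * q then x * B (n * q / p) else 0) +
      (if q ∣ n then y * (C (n / q * p) + if p ∣ n / q then x * E (n / q / p) else 0) else 0) := by
  have hcop : Nat.Coprime p q := (Nat.coprime_primes hp hq).mpr hpq
  have h1 : q ∣ n * p ↔ q ∣ n := hcop.symm.dvd_mul_right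
  have h2 : p ∣ n * q ↔ p ∣ n := hcop.dvd_mul_right
  have hA : A (n * p * q) = A (n * q * p) := by rw [mul_right_comm]
  simp only [h1, h2, hA]
  by_cases hpn : p ∣ n
  · obtain ⟨m, rfl⟩ := hpn
    have e1 : p * m / p = m := Nat.mul_div_cancel_left m hp.pos
    have e2 : p * m * q / p = m * q := by
      rw [mul_assoc]; exact Nat.mul_div_cancel_left _ hp.pos
    have h3 : q ∣ p * m ↔ q ∣ m := hcop.symm.dvd_mul_left
    simp only [dvd_mul_right, if_true, e1, e2, h3]
    by_cases hqm : q ∣ m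
    · obtain ⟨r, rfl⟩ := hqm
      have e3 : p * (q * r) / q = p * r := by
        rw [mul_left_comm]; exact Nat.mul_div_cancel_left _ hq.pos
      have e4 : p * (q * r) * p / q = p * r * p := by
        rw [mul_left_comm p q r, mul_assoc]; exact Nat.mul_div_cancel_left _ hq.pos
      have e5 : q * r / q = r := Nat.mul_div_cancel_left r hq.pos
      have e6 : p * r / p = r := Nat.mul_div_cancel_left r hp.pos
      simp only [dvd_mul_right, if_true, e3, e4, e5, e6]
      ring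
    · simp only [hqm, if_false]
      ring
  · simp only [hpn, if_false]
    by_cases hqn : q ∣ n
    · obtain ⟨r, rfl⟩ := hqn
      have e1 : q * r / q = r := Nat.mul_div_cancel_left r hq.pos
      have e2 : q * r * p / q = r * p := by
        rw [mul_assoc]; exact Nat.mul_div_cancel_left _ hq.pos
      have h3 : ¬ p ∣ r := fun h ↦ hpn (h.mul_left q)
      simp only [dvd_mul_right, if_true, e1, e2, h3, if_false]
      ring
    · simp only [hqn, if_false]

section level

variable [NeZero M]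

/-- The Hecke operators of level `Gamma1 M` commute. -/
theorem heckeT1Lin_comm {p : ℕ} (hp : p.Prime) (hpM : ¬ p ∣ M) {q : ℕ} (hq : q.Prime)
    (hqM : ¬ q ∣ M) : Commute (heckeT1Lin k hp hpM) (heckeT1Lin k hq hqM) := by
  by_cases hpq : p = q
  · subst hpq
    exact Commute.refl _
  rw [Commute, SemiconjBy]
  apply LinearMap.ext
  intro F
  apply DFunLike.coe_injective
  refine IsNice.ext (nice_coe _) (nice_coe _) fun n ↦ ?_
  have hc1 : diamondLin k (primeUnit hp hpM) (heckeT1Lin k hq hqM F)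
      = heckeT1Lin k hq hqM (diamondLin k (primeUnit hp hpM) F) :=
    (LinearMap.congr_fun (heckeT1Lin_diamondLin_comm hq hqM (primeUnit hp hpM)).eq F).symm
  have hc2 : diamondLin k (primeUnit hq hqM) (heckeT1Lin k hp hpM F)
      = heckeT1Lin k hp hpM (diamondLin k (primeUnit hq hqM) F) :=
    (LinearMap.congr_fun (heckeT1Lin_diamondLin_comm hp hpM (primeUnit hq hqM)).eq F).symm
  have hc3 : diamondLin k (primeUnit hp hpM) (diamondLin k (primeUnit hq hqM) F)
      = diamondLin k (primeUnit hq hqM) (diamondLin k (primeUnit hp hpM) F) :=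
    LinearMap.congr_fun (diamondLin_comm (primeUnit hp hpM) (primeUnit hq hqM)).eq F
  rw [Module.End.mul_apply, Module.End.mul_apply, qCoeff_heckeT1Lin, qCoeff_heckeT1Lin,
    qCoeff_heckeT1Lin, qCoeff_heckeT1Lin, hc1, hc2, qCoeff_heckeT1Lin, qCoeff_heckeT1Lin, hc3]
  exact comm_arith hp hq hpq _ _ _ _ _ _ n

/-! ### The Hecke algebra of level `Gamma1 M` -/

variable (M k)

/-- The generators of the Hecke algebra: the `T_p` (p prime, p not dividing M) and the `<d>`. -/
def hecke1Generators : Set (Module.End ℂ (CuspForm (Gamma1 M) k)) :=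
  {T | ∃ (p : ℕ) (hp : p.Prime) (hpM : ¬ p ∣ M), T = heckeT1Lin k hp hpM} ∪
    {D | ∃ d : (ZMod M)ˣ, D = diamondLin k d}

/-- The Hecke algebra of level `Gamma1 M` and weight `k`. -/
def heckeAlgebra1 : Subalgebra ℤ (Module.End ℂ (CuspForm (Gamma1 M) k)) :=
  Algebra.adjoin ℤ (hecke1Generators M k)

variable {M k}

theorem heckeT1Lin_mem_hecke1Generators {p : ℕ} (hp : p.Prime) (hpM : ¬ p ∣ M) :
    heckeT1Lin k hp hpM ∈ hecke1Generators M k :=
  Or.inl ⟨p, hp, hpM, rfl⟩

theorem diamondLin_mem_hecke1Generators (d : (ZMod M)ˣ) :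
    diamondLin k d ∈ hecke1Generators M k :=
  Or.inr ⟨d, rfl⟩

theorem heckeT1Lin_mem_heckeAlgebra1 {p : ℕ} (hp : p.Prime) (hpM : ¬ p ∣ M) :
    heckeT1Lin k hp hpM ∈ heckeAlgebra1 M k :=
  Algebra.subset_adjoin (heckeT1Lin_mem_hecke1Generators hp hpM)

theorem diamondLin_mem_heckeAlgebra1 (d : (ZMod M)ˣ) : diamondLin k d ∈ heckeAlgebra1 M k :=
  Algebra.subset_adjoin (diamondLin_mem_hecke1Generators d)

theorem commute_of_mem_hecke1Generators {T T' : Module.End ℂ (CuspForm (Gamma1 M) k)}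
    (hT : T ∈ hecke1Generators M k) (hT' : T' ∈ hecke1Generators M k) : Commute T T' := by
  rcases hT with ⟨p, hp, hpM, rfl⟩ | ⟨d, rfl⟩ <;>
    rcases hT' with ⟨q, hq, hqM, rfl⟩ | ⟨d', rfl⟩
  · exact heckeT1Lin_comm hp hpM hq hqM
  · exact heckeT1Lin_diamondLin_comm hp hpM d'
  · exact (heckeT1Lin_diamondLin_comm hq hqM d).symm
  · exact diamondLin_comm d d'

variable (M k)

instance heckeAlgebra1.instIsMulCommutative : IsMulCommutative (heckeAlgebra1 M k) :=
  Algebra.isMulCommutative_adjoin ℤ fun _ hT _ hT' => commute_of_mem_hecke1Generators hT hT'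

open scoped IsMulCommutative in
instance heckeAlgebra1.instCommRing : CommRing (heckeAlgebra1 M k) := inferInstance

instance heckeAlgebra1.instIsAddTorsionFree : IsAddTorsionFree (heckeAlgebra1 M k) where
  nsmul_right_injective n hn a b hab := by
    apply Subtype.ext
    have h : (n : ℂ) • (a : Module.End ℂ (CuspForm (Gamma1 M) k)) =
        (n : ℂ) • (b : Module.End ℂ (CuspForm (Gamma1 M) k)) := by
      simp only [Nat.cast_smul_eq_nsmul]
      exact congrArg Subtype.val hab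
    exact smul_right_injective _ (Nat.cast_ne_zero.mpr hn) h

variable {M k}

/-- `T_p` as an element of the Hecke algebra. -/
def heckeAlgebra1.T {p : ℕ} (hp : p.Prime) (hpM : ¬ p ∣ M) : heckeAlgebra1 M k :=
  ⟨heckeT1Lin k hp hpM, heckeT1Lin_mem_heckeAlgebra1 hp hpM⟩

/-- `<d>` as an element of the Hecke algebra. -/
def heckeAlgebra1.D (d : (ZMod M)ˣ) : heckeAlgebra1 M k :=
  ⟨diamondLin k d, diamondLin_mem_heckeAlgebra1 d⟩

@[simp] theorem heckeAlgebra1.coe_T {p : ℕ} (hp : p.Prime) (hpM : ¬ p ∣ M) :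
    ((heckeAlgebra1.T hp hpM : heckeAlgebra1 M k) :
      Module.End ℂ (CuspForm (Gamma1 M) k)) = heckeT1Lin k hp hpM := rfl

@[simp] theorem heckeAlgebra1.coe_D (d : (ZMod M)ˣ) :
    ((heckeAlgebra1.D d : heckeAlgebra1 M k) :
      Module.End ℂ (CuspForm (Gamma1 M) k)) = diamondLin k d := rfl

/-! ### Forms with nebentypus -/

/-- `F` has nebentypus `χ`. -/
def HasNeben (χ : DirichletCharacter ℂ M) (F : CuspForm (Gamma1 M) k) : Prop :=
  ∀ γ : SL(2, ℤ), γ ∈ Gamma0 M →
    (⇑F : ℍ → ℂ) ∣[k] mapGL ℝ γ = χ ((γ 1 1 : ℤ) : ZMod M) • (⇑F : ℍ → ℂ)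

theorem HasNeben.diamondLin {χ : DirichletCharacter ℂ M} {F : CuspForm (Gamma1 M) k}
    (hF : HasNeben χ F) (d : (ZMod M)ˣ) :
    Fermat.Agent.T4.helper79.diamondLin k d F = χ (d : ZMod M) • F := by
  apply DFunLike.coe_injective
  rw [coe_diamondLin_rep, hF _ (diamondRep_mem d), diamondRep_lowerRight]
  rfl

theorem hasNeben_of_diamondLin {χ : DirichletCharacter ℂ M} {F : CuspForm (Gamma1 M) k}
    (hF : ∀ d : (ZMod M)ˣ, Fermat.Agent.T4.helper79.diamondLin k d F = χ (d : ZMod M) • F) :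
    HasNeben χ F := by
  intro γ hγ
  have hu := isUnit_lowerRight hγ
  rw [← coe_diamondLin hu.unit F hγ (by simp), hF hu.unit]
  simp

/-- The q-coefficients of `T_p F` for a form with nebentypus `χ`. -/
theorem HasNeben.qCoeff_heckeT1Lin {χ : DirichletCharacter ℂ M} {F : CuspForm (Gamma1 M) k}
    (hF : HasNeben χ F) {p : ℕ} (hp : p.Prime) (hpM : ¬ p ∣ M) (n : ℕ) :
    qCoeff ⇑(heckeT1Lin k hp hpM F) n = qCoeff ⇑F (n * p) +
      if p ∣ n then χ (p : ZMod M) * (p : ℂ) ^ (k - 1) * qCoeff ⇑F (n / p) else 0 := by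
  rw [Fermat.Agent.T4.helper79.qCoeff_heckeT1Lin, hF.diamondLin, coe_primeUnit]
  congr 1
  split_ifs
  · rw [show (⇑(χ (p : ZMod M) • F) : ℍ → ℂ) = χ (p : ZMod M) • (⇑F : ℍ → ℂ) from rfl,
      qCoeff_smul (nice_coe F)]
    ring
  · rfl

/-- `T_p` preserves the nebentypus. -/
theorem HasNeben.heckeT1Lin {χ : DirichletCharacter ℂ M} {F : CuspForm (Gamma1 M) k}
    (hF : HasNeben χ F) {p : ℕ} (hp : p.Prime) (hpM : ¬ p ∣ M) :
    HasNeben χ (Fermat.Agent.T4.helper79.heckeT1Lin k hp hpM F) := by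
  refine hasNeben_of_diamondLin fun d ↦ ?_
  have h := LinearMap.congr_fun (heckeT1Lin_diamondLin_comm (k := k) hp hpM d).eq F
  rw [Module.End.mul_apply, Module.End.mul_apply] at h
  rw [← h, hF.diamondLin, map_smul]

/-- **The form of frozen S48, bundled**: nebentypus `ε`, and eigenform of all `T_p`. -/
theorem s48_hasNeben (N : ℕ) [NeZero N] (ε : DirichletCharacter ℂ N)
    (f : CuspForm (Gamma1 N) 1)
    (hT : ∀ p : ℕ, p.Prime → ¬ p ∣ N → ∀ n : ℕ,
        ModularFormClass.qCoeff f (p * n) +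
            ε (p : ZMod N) * (if p ∣ n then ModularFormClass.qCoeff f (n / p) else 0) =
          ModularFormClass.qCoeff f p * ModularFormClass.qCoeff f n) :
    HasNeben ε f :=
  fun γ hγ ↦ neben N ε f hT γ hγ

theorem s48_heckeT1Lin (N : ℕ) [NeZero N] (ε : DirichletCharacter ℂ N)
    (f : CuspForm (Gamma1 N) 1)
    (hT : ∀ p : ℕ, p.Prime → ¬ p ∣ N → ∀ n : ℕ,
        ModularFormClass.qCoeff f (p * n) +
            ε (p : ZMod N) * (if p ∣ n then ModularFormClass.qCoeff f (n / p) else 0) =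
          ModularFormClass.qCoeff f p * ModularFormClass.qCoeff f n)
    {p : ℕ} (hp : p.Prime) (hpN : ¬ p ∣ N) :
    heckeT1Lin 1 hp hpN f = ModularFormClass.qCoeff f p • f := by
  apply DFunLike.coe_injective
  rw [coe_heckeT1Lin_rep hp hpN f (diamondRep_mem (primeUnit hp hpN))
    (by rw [diamondRep_lowerRight, coe_primeUnit])]
  exact neben_nbT N ε f hT hp hpN (diamondRep_mem _) (by rw [diamondRep_lowerRight, coe_primeUnit])

theorem s48_diamondLin (N : ℕ) [NeZero N] (ε : DirichletCharacter ℂ N)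
    (f : CuspForm (Gamma1 N) 1)
    (hT : ∀ p : ℕ, p.Prime → ¬ p ∣ N → ∀ n : ℕ,
        ModularFormClass.qCoeff f (p * n) +
            ε (p : ZMod N) * (if p ∣ n then ModularFormClass.qCoeff f (n / p) else 0) =
          ModularFormClass.qCoeff f p * ModularFormClass.qCoeff f n)
    (d : (ZMod N)ˣ) : diamondLin 1 d f = ε (d : ZMod N) • f :=
  (s48_hasNeben N ε f hT).diamondLin d

end level

end Fermat.Agent.T4.helper79
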