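import Mathlib
import Fermat.Agent.T4.helper17_Diamond
import Fermat.Agent.T4.helper44_WpX1
import Fermat.Agent.T4.helper79_Hecke1

/-!
# T4 block (I), [I-FLD-DIAMOND] part 3 (helper17): the diamond automorphisms exist

The analytic package `WpPack M` of `helper17_Diamond` is instantiated with the functions
`helper24.sFn M a` (`q`-expansion `helper44.x1_qexp`, diamond law `helper44.sFn_smul'`,
nowhere vanishing denominators `helper44.wpDfn_ne_zero`).  Hence, for `M ≥ 4` and every unit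
`d` modulo `M`:

* `exists_isDiamondAut_x1` : `∃ σ : F1 M ≃ₐ[ℚ̄] F1 M, IsDiamondAut M d σ`  (UNCONDITIONAL);
* `isDiamondAut_diamondAut_x1` : `IsDiamondAut M d (diamondAut M d)`;
* `diamondAut_sEl` : the value of `diamondAut M d` on the generators `s_a`;
* `diamondAut_fix` : `diamondAut M d` fixes the `X₀`-part of `F1 M`.
-/

set_option autoImplicit false
set_option linter.unusedSectionVars false
set_option linter.unusedVariables false
set_option linter.style.haveILetI false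

noncomputable section

open ModularCurve CongruenceSubgroup UpperHalfPlane
open scoped MatrixGroups

namespace Fermat.Agent.T4.helper17

open Fermat.Agent.T4.helper32 Fermat.Agent.T4.helper24
open Fermat.Agent.S24.helper17 (IsQExp)
open Fermat.Agent.S24 (jfunDT)

variable (M : ℕ) [NeZero M]

theorem one_ne_zero_zmod (hM : 4 ≤ M) : (1 : ZMod M) ≠ 0 := by
  haveI : Fact (1 < M) := ⟨by omega⟩
  exact one_ne_zero

theorem two_ne_one_zmod (hM : 4 ≤ M) : (2 : ZMod M) ≠ 1 := by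
  intro h
  have h1 : ((2 : ℕ) : ZMod M) = ((1 : ℕ) : ZMod M) := by exact_mod_cast h
  rw [ZMod.natCast_eq_natCast_iff'] at h1
  rw [Nat.mod_eq_of_lt (by omega), Nat.mod_eq_of_lt (by omega)] at h1
  omega

theorem two_ne_neg_one_zmod (hM : 4 ≤ M) : (2 : ZMod M) ≠ -1 := by
  intro h
  have h0 : ((3 : ℕ) : ZMod M) = 0 := by
    have : (2 : ZMod M) + 1 = 0 := by rw [h]; ring
    push_cast
    rw [← this]
    ring
  rw [ZMod.natCast_eq_zero_iff] at h0
  have := Nat.le_of_dvd (by norm_num) h0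
  omega

theorem two_unit_ne (hM : 4 ≤ M) (u : (ZMod M)ˣ) : (u : ZMod M) * 2 ≠ (u : ZMod M) := by
  intro h
  have h1 : (u : ZMod M) * 2 = (u : ZMod M) * 1 := by rw [h, mul_one]
  exact two_ne_one_zmod M hM (u.isUnit.mul_left_cancel h1)

theorem two_unit_ne_neg (hM : 4 ≤ M) (u : (ZMod M)ˣ) : (u : ZMod M) * 2 ≠ -(u : ZMod M) := by
  intro h
  have h1 : (u : ZMod M) * 2 = (u : ZMod M) * (-1) := by rw [h, mul_neg, mul_one]
  exact two_ne_neg_one_zmod M hM (u.isUnit.mul_left_cancel h1)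

/-- the denominators of the diamond law vanish nowhere -/
theorem sFn_ne (hM : 4 ≤ M) (u : (ZMod M)ˣ) (τ : ℍ) :
    sFn M ((u : ZMod M) * 2) τ ≠ sFn M (u : ZMod M) τ := by
  have h2 : (2 : ZMod M) ≠ 0 := two_ne_zero_zmod M (by omega)
  have hu2 : (u : ZMod M) * 2 ≠ 0 := unit_mul_ne_zero M u h2
  have hu0 : (u : ZMod M) ≠ 0 := unit_ne_zero M hM u
  intro h
  have h1 : sFn M ((u : ZMod M) * 2) τ - sFn M (u : ZMod M) τ =
      wpDfn M ((u : ZMod M) * 2) (u : ZMod M) τ / wpDfn M 2 1 τ := by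
    rw [sFn, sFn, div_sub_div_same,
      Fermat.Agent.T4.helper44.wpDfn_sub M _ _ hu2 hu0 (by omega)]
  rw [h, sub_self] at h1
  have hne := Fermat.Agent.T4.helper44.wpDfn_ne_zero M _ _ hu2 hu0 (two_unit_ne M hM u)
    (two_unit_ne_neg M hM u) τ
  have hd := Fermat.Agent.T4.helper44.wpDfn_two_one_ne_zero M hM τ
  exact (div_ne_zero hne hd) h1.symm

theorem exists_mem_Gamma0_upperLeft (d : (ZMod M)ˣ) :
    ∃ γ : SL(2, ℤ), γ ∈ Gamma0 M ∧ ((γ 0 0 : ℤ) : ZMod M) = (d : ZMod M) := by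
  obtain ⟨γ, hγ, h11⟩ := Fermat.Agent.T4.helper79.exists_rep_unit (M := M) d⁻¹
  refine ⟨γ, hγ, ?_⟩
  have hmul := Fermat.Agent.T4.helper44.upperLeft_mul_lowerRight M hγ
  rw [h11] at hmul
  have : ((γ 0 0 : ℤ) : ZMod M) =
      ((γ 0 0 : ℤ) : ZMod M) * ((d⁻¹ : (ZMod M)ˣ) : ZMod M) * (d : ZMod M) := by
    rw [mul_assoc, Units.inv_mul, mul_one]
  rw [this, hmul, one_mul]

theorem jfunDT_smul_of_mem_Gamma0 (e : ℕ) (he : e ∈ M.divisors) {γ : SL(2, ℤ)}
    (hγ : γ ∈ Gamma0 M) (τ : ℍ) : jfunDT e (γ • τ) = jfunDT e τ := by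
  have hd0 : e ≠ 0 := fun h => by
    have := (Nat.mem_divisors.1 he).1
    rw [h] at this
    exact NeZero.ne M (Nat.eq_zero_of_zero_dvd this)
  haveI : NeZero e := ⟨hd0⟩
  rw [Fermat.Agent.S24.helper77.jfunDT_of_ne_zero]
  exact Fermat.Agent.S24.helper77.jfunD_smul_of_mem_Gamma0 (Nat.mem_divisors.1 he).1 hγ τ

/-- **The analytic package of `X₁(M)`** (`M ≥ 4`). -/
def wpPackX1 (hM : 4 ≤ M) : WpPack M where
  S := sFn M
  isQExp x hx := by
    have := Fermat.Agent.T4.helper44.x1_qexp M hM x hx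
    rwa [show coeffEmb ℂ (sSer ℚ M x) = sSer ℂ M x from coeffMap_sSer M _ x] at this
  ne u τ := sFn_ne M hM u τ
  subst d := by
    obtain ⟨γ, hγ, hu⟩ := exists_mem_Gamma0_upperLeft M d
    refine ⟨fun τ => γ • τ, fun e he τ => jfunDT_smul_of_mem_Gamma0 M e he hγ τ,
      fun x hx τ => ?_⟩
    have h := Fermat.Agent.T4.helper44.sFn_smul' M hγ hM x hx τ
    rw [hu] at h
    exact eq_div_of_mul_eq (sub_ne_zero.mpr (sFn_ne M hM d τ)) h

@[simp]
theorem wpPackX1_S (hM : 4 ≤ M) : (wpPackX1 M hM).S = sFn M := rfl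

/-- **The diamond automorphisms of `F₁(M)` exist** (`M ≥ 4`), unconditionally. -/
theorem exists_isDiamondAut_x1 (hM : 4 ≤ M) (d : (ZMod M)ˣ) :
    ∃ σ : F1 M ≃ₐ[Kbar] F1 M, IsDiamondAut M d σ :=
  exists_isDiamondAut M hM (wpPackX1 M hM) d

/-- `diamondAut M d` is the diamond automorphism (`M ≥ 4`). -/
theorem isDiamondAut_diamondAut_x1 (hM : 4 ≤ M) (d : (ZMod M)ˣ) :
    IsDiamondAut M d (diamondAut M d) :=
  isDiamondAut_diamondAut M hM (wpPackX1 M hM) d

/-- `diamondAut M d` fixes the `X₀`-part of `F1 M`. -/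
theorem diamondAut_fix (hM : 4 ≤ M) (d : (ZMod M)ˣ) (x : F1 M)
    (hx : (x : LaurentSeries Kbar) ∈ laurentBaseChange Kbar (modularFunctionFieldFull M)) :
    diamondAut M d x = x :=
  (isDiamondAut_diamondAut_x1 M hM d).1 x hx

/-- the value of `diamondAut M d` on the generators `s_a` -/
theorem diamondAut_sEl (hM : 4 ≤ M) (d : (ZMod M)ˣ) (a : ZMod M) (ha : a ≠ 0) :
    ((diamondAut M d (sEl M a ha) : F1 M) : LaurentSeries Kbar) =
      (coeffEmb Kbar (sSer ℚ M ((d : ZMod M) * a)) - coeffEmb Kbar (sSer ℚ M (d : ZMod M))) /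
        (coeffEmb Kbar (sSer ℚ M ((d : ZMod M) * 2)) - coeffEmb Kbar (sSer ℚ M (d : ZMod M))) :=
  (isDiamondAut_diamondAut_x1 M hM d).2 a ha

end Fermat.Agent.T4.helper17

end
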