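import Mathlib
import Fermat.Agent.S24.Defs
import Fermat.Agent.S24.helper37_TExp
import Fermat.Agent.S24.helper17_Bridge
import Fermat.Agent.S24.helper24_FieldGen
import Fermat.Agent.S24.helper24_JBasic

/-!
# T4 block (I), I-FLD [CUSP1] (helper37): local embeddings at all cosets — GENERIC core

Port of `S24/helper37_Cusp` (which treats `F_N = ℚ̄(j(q^d) : d ∣ N)` and `Γ₀(N)`) to an ARBITRARY
subfield `F = ℚ̄(gen i : i ∈ ι)` of `ℚ̄((q))` generated by `q`-expansions of holomorphic functions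
`fn i` on the upper half plane all of whose `SL₂(ℤ)`-translates are `M`-periodic and meromorphic
at `i∞` (a `CuspPack ι M`).

For every `g ∈ SL₂(ℤ)` we construct the field embedding
`embG D g : F → ℂ((t))`, `f ↦ t-expansion of (f ∘ g⁻¹)` (`t = exp(2πiτ/M)`), and prove

* `embG_aeval`, `embG_gen`, `embG_algebraMap`: its values;
* `embG_T_mul`: `embG D (T g) f = rotL ζ (embG D g f)`, `ζ = exp(-2πi/M)`;
* `embG_eq_iff`: `embG D g = embG D g' ↔ g⁻¹ g' ∈ D.stab`, where `D.stab` is the subgroup of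
  all `γ` with `fn i ∘ γ = fn i` for all `i`;
* `embG_one`: `embG D 1 f = (f with complex coefficients)(t^M)`;
* `cuspData D : LocalEmbData iotaC y⁻¹ (SL₂(ℤ) ⧸ D.stab)` with `E = M`, `π =` action of `T`,
  when `y ∈ F` has the function `j`.

The instance for `F1 M` (function field of `X₁(M)`, `helper32_X1Defs`) is in
`helper37_Cusp1Inst`.
-/

set_option autoImplicit false
set_option linter.unusedSectionVars false
set_option linter.unusedVariables false
set_option linter.style.haveILetI false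

noncomputable section

open UpperHalfPlane Filter Topology Function ModularCurve CongruenceSubgroup
open scoped MatrixGroups Manifold

namespace Fermat.Agent.T4.helper37c

open Fermat.Agent.S24 Fermat.Agent.S24.helper37

local notation "𝕢" => Function.Periodic.qParam

/-- Analytic data of a subfield of `ℚ̄((q))` generated by `q`-expansions of functions on the
upper half plane, all of whose `SL₂(ℤ)`-translates have expansions in `t = exp(2πiτ/M)`. -/
structure CuspPack (ι : Type*) (M : ℕ) where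
  /-- the field -/
  F : IntermediateField Kbar (LaurentSeries Kbar)
  /-- the generators -/
  gen : ι → LaurentSeries Kbar
  F_eq : F = IntermediateField.adjoin Kbar (Set.range gen)
  /-- the functions of the generators -/
  fn : ι → ℍ → ℂ
  isQExp : ∀ i, helper17.IsQExp (helper17.toC (gen i)) (fn i)
  nice : ∀ (g : SL(2, ℤ)) (i : ι), ∃ n : ℕ,
    IsNice M (fun τ : ℍ => 𝕢 (M : ℝ) (τ : ℂ) ^ n * fn i (g⁻¹ • τ))

namespace CuspPack

variable {ι : Type*} {M : ℕ} (D : CuspPack ι M)

/-! ## The bridge -/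

/-- **Bridge.** A polynomial relation between the generators holds iff it holds between their
functions. -/
theorem bridge (P : MvPolynomial ι Kbar) :
    MvPolynomial.aeval D.gen P = 0 ↔
      ∀ τ : ℍ, MvPolynomial.eval₂ (iotaC : Kbar →+* ℂ) (fun i => D.fn i τ) P = 0 := by
  rw [← helper17.toC_injective.eq_iff, map_zero, helper17.toC_aeval,
    helper17.bridge_of_isQExp D.isQExp]
  simp only [MvPolynomial.eval_map]

/-! ## The conjugate functions -/

/-- the conjugate `τ ↦ fn i (g⁻¹ τ)`. -/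
def conjFun (g : SL(2, ℤ)) (i : ι) : ℍ → ℂ := fun τ => D.fn i (g⁻¹ • τ)

theorem conjFun_apply (g : SL(2, ℤ)) (i : ι) (τ : ℍ) : D.conjFun g i τ = D.fn i (g⁻¹ • τ) := rfl

/-- a pole bound for the conjugate. -/
def poleBound (g : SL(2, ℤ)) (i : ι) : ℕ := (D.nice g i).choose

theorem isNice_conj (g : SL(2, ℤ)) (i : ι) :
    IsNice M (fun τ : ℍ => 𝕢 (M : ℝ) (τ : ℂ) ^ D.poleBound g i * D.conjFun g i τ) :=
  (D.nice g i).choose_spec

/-- the `t`-expansion of the conjugate `fn i ∘ g⁻¹`. -/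
def conjExp (g : SL(2, ℤ)) (i : ι) : LaurentSeries ℂ :=
  HahnSeries.single (-((D.poleBound g i : ℕ) : ℤ)) (1 : ℂ) *
    HahnSeries.ofPowerSeries ℤ ℂ
      (qExpansion (M : ℝ)
        (fun τ : ℍ => 𝕢 (M : ℝ) (τ : ℂ) ^ D.poleBound g i * D.conjFun g i τ))

variable [NeZero M]

theorem isTExp_conjExp (g : SL(2, ℤ)) (i : ι) :
    IsTExp M (D.conjExp g i) (D.conjFun g i) :=
  ⟨D.poleBound g i, exists_isTExp (D.poleBound g i) (D.isNice_conj g i)⟩

/-- the expansion of a conjugate is determined by the function. -/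
theorem conjExp_eq_of_conjFun_eq {g g' : SL(2, ℤ)} {i i' : ι}
    (h : D.conjFun g i = D.conjFun g' i') : D.conjExp g i = D.conjExp g' i' := by
  have h1 := D.isTExp_conjExp g i
  have h2 := D.isTExp_conjExp g' i'
  rw [h] at h1
  exact h1.unique h2

theorem conjFun_eq_of_conjExp_eq {g g' : SL(2, ℤ)} {i i' : ι}
    (h : D.conjExp g i = D.conjExp g' i') : D.conjFun g i = D.conjFun g' i' := by
  have h1 := D.isTExp_conjExp g i
  have h2 := D.isTExp_conjExp g' i'
  rw [h] at h1
  exact h1.fun_unique h2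

/-! ## The stabilizer -/

/-- the subgroup of all `γ ∈ SL₂(ℤ)` fixing all the functions `fn i`. -/
def stab : Subgroup SL(2, ℤ) where
  carrier := {γ | ∀ (i : ι) (τ : ℍ), D.fn i (γ • τ) = D.fn i τ}
  one_mem' := fun i τ => by rw [one_smul]
  mul_mem' := by
    intro a b ha hb i τ
    rw [mul_smul, ha i, hb i]
  inv_mem' := by
    intro a ha i τ
    have := ha i (a⁻¹ • τ)
    rw [smul_inv_smul] at this
    exact this.symm

theorem mem_stab {γ : SL(2, ℤ)} :
    γ ∈ D.stab ↔ ∀ (i : ι) (τ : ℍ), D.fn i (γ • τ) = D.fn i τ := Iff.rfl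

theorem conjFun_eq_iff {g g' : SL(2, ℤ)} :
    (∀ i, D.conjFun g' i = D.conjFun g i) ↔ g⁻¹ * g' ∈ D.stab := by
  rw [mem_stab]
  constructor
  · intro h i τ
    have := congrFun (h i) (g' • τ)
    rw [conjFun_apply, conjFun_apply, inv_smul_smul] at this
    rw [mul_smul]
    exact this.symm
  · intro h i
    funext τ
    rw [conjFun_apply, conjFun_apply]
    have := h i (g'⁻¹ • τ)
    rw [mul_smul, smul_inv_smul] at this
    exact this.symm

theorem conjFun_congr {g g' : SL(2, ℤ)} (h : g⁻¹ * g' ∈ D.stab) (i : ι) :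
    D.conjFun g' i = D.conjFun g i :=
  D.conjFun_eq_iff.mpr h i

theorem conjExp_congr {g g' : SL(2, ℤ)} (h : g⁻¹ * g' ∈ D.stab) (i : ι) :
    D.conjExp g' i = D.conjExp g i :=
  D.conjExp_eq_of_conjFun_eq (D.conjFun_congr h i)

/-- `T^M` acts trivially on the cosets of the stabilizer. -/
theorem conj_T_pow_mem (g : SL(2, ℤ)) : g⁻¹ * (ModularGroup.T ^ M * g) ∈ D.stab := by
  rw [← conjFun_eq_iff]
  intro i
  funext τ
  rw [conjFun_apply, conjFun_apply, mul_inv_rev, mul_smul]
  have hT : (ModularGroup.T ^ M : SL(2, ℤ))⁻¹ • τ = ((-(M : ℕ) : ℤ) : ℝ) +ᵥ τ := by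
    have := UpperHalfPlane.modular_T_zpow_smul τ (-(M : ℤ))
    rw [zpow_neg, zpow_natCast] at this
    rw [this]
  -- periodicity of the conjugate
  have hper := (D.isNice_conj g i).per (((-(M : ℕ) : ℤ) : ℝ) +ᵥ τ)
  have e : (((M : ℕ) : ℝ) +ᵥ ((((-(M : ℕ) : ℤ) : ℝ)) +ᵥ τ) : ℍ) = τ := by
    rw [vadd_vadd]
    have : ((M : ℕ) : ℝ) + (((-(M : ℕ) : ℤ)) : ℝ) = 0 := by push_cast; ring
    rw [this, zero_vadd]
  rw [e] at hper
  have hq : 𝕢 (M : ℝ) (τ : ℂ) ^ D.poleBound g i ≠ 0 :=
    pow_ne_zero _ (Complex.exp_ne_zero _)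
  have hq' : 𝕢 (M : ℝ) ((((((-(M : ℕ) : ℤ)) : ℝ) +ᵥ τ : ℍ)) : ℂ) = 𝕢 (M : ℝ) (τ : ℂ) := by
    have h1 := qParam_vadd (N := M) ((((-(M : ℕ) : ℤ)) : ℝ) +ᵥ τ)
    rw [e] at h1
    exact h1.symm
  rw [hq'] at hper
  have h2 := mul_left_cancel₀ hq hper
  rw [hT]
  rw [conjFun_apply, conjFun_apply] at h2
  exact h2.symm

/-! ## The embeddings -/

/-- constants `ℚ̄ → ℂ((t))`. -/
def constHom1 : Kbar →+* LaurentSeries ℂ :=
  (HahnSeries.C : ℂ →+* LaurentSeries ℂ).comp (iotaC : Kbar →+* ℂ)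

/-- evaluation of polynomials in the generators at the expansions of the conjugates. -/
def Theta (g : SL(2, ℤ)) : MvPolynomial ι Kbar →+* LaurentSeries ℂ :=
  MvPolynomial.eval₂Hom constHom1 (D.conjExp g)

theorem Theta_apply (g : SL(2, ℤ)) (P : MvPolynomial ι Kbar) :
    D.Theta g P
      = MvPolynomial.aeval (D.conjExp g) (MvPolynomial.map (iotaC : Kbar →+* ℂ) P) := by
  rw [Theta, MvPolynomial.coe_eval₂Hom, MvPolynomial.aeval_def, MvPolynomial.eval₂_map]
  congr 1
  ext c
  simp only [constHom1, RingHom.comp_apply]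
  rw [ModularCurve.algebraMap_laurentSeries_eq_single]
  rfl

theorem Theta_C (g : SL(2, ℤ)) (k : Kbar) :
    D.Theta g (MvPolynomial.C k) = HahnSeries.C ((iotaC : Kbar →+* ℂ) k) := by
  rw [Theta, MvPolynomial.coe_eval₂Hom, MvPolynomial.eval₂_C]
  rfl

theorem Theta_X (g : SL(2, ℤ)) (i : ι) : D.Theta g (MvPolynomial.X i) = D.conjExp g i := by
  rw [Theta, MvPolynomial.coe_eval₂Hom, MvPolynomial.eval₂_X]

/-- the function attached to a polynomial in the generators and a coset representative. -/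
def polyFun (g : SL(2, ℤ)) (P : MvPolynomial ι Kbar) : ℍ → ℂ :=
  fun τ => MvPolynomial.eval₂ (iotaC : Kbar →+* ℂ) (fun i => D.conjFun g i τ) P

theorem polyFun_eq (g : SL(2, ℤ)) (P : MvPolynomial ι Kbar) (τ : ℍ) :
    D.polyFun g P τ
      = MvPolynomial.eval₂ (iotaC : Kbar →+* ℂ) (fun i : ι => D.fn i (g⁻¹ • τ)) P := rfl

theorem isTExp_Theta (g : SL(2, ℤ)) (P : MvPolynomial ι Kbar) :
    IsTExp M (D.Theta g P) (D.polyFun g P) := by
  rw [Theta_apply]
  have := IsTExp.aeval (N := M) (fun i => D.isTExp_conjExp g i)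
    (MvPolynomial.map (iotaC : Kbar →+* ℂ) P)
  convert this using 1
  funext τ
  rw [polyFun, MvPolynomial.eval_map]

theorem Theta_eq_zero_iff (g : SL(2, ℤ)) (P : MvPolynomial ι Kbar) :
    MvPolynomial.aeval D.gen P = 0 ↔ D.Theta g P = 0 := by
  rw [(D.isTExp_Theta g P).eq_zero_iff, D.bridge P]
  constructor
  · intro h
    funext τ
    exact h (g⁻¹ • τ)
  · intro h τ
    have := congrFun h (g • τ)
    rw [polyFun_eq, inv_smul_smul] at this
    exact this

/-- the embedding attached to a coset representative, on `ℚ̄(gen)`. -/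
def embAdj (g : SL(2, ℤ)) :
    ↥(IntermediateField.adjoin Kbar (Set.range D.gen)) →+* LaurentSeries ℂ :=
  helper24.adjoinLift D.gen (D.Theta g) (D.Theta_eq_zero_iff g)

/-- the identification of `F` with `ℚ̄(gen)`. -/
def toAdj : D.F ≃ₐ[Kbar] ↥(IntermediateField.adjoin Kbar (Set.range D.gen)) :=
  IntermediateField.equivOfEq D.F_eq

/-- **The embedding attached to a coset representative.** -/
def embG (g : SL(2, ℤ)) : D.F →+* LaurentSeries ℂ :=
  (D.embAdj g).comp D.toAdj.toRingEquiv.toRingHom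

theorem aeval_mem (P : MvPolynomial ι Kbar) : MvPolynomial.aeval D.gen P ∈ D.F := by
  rw [D.F_eq]
  exact helper24.aeval_mem_adjoin _ P

theorem gen_mem (i : ι) : D.gen i ∈ D.F := by
  have := D.aeval_mem (MvPolynomial.X i)
  simpa using this

/-- the generator as an element of the field. -/
def genEl (i : ι) : D.F := ⟨D.gen i, D.gen_mem i⟩

theorem embG_aeval (g : SL(2, ℤ)) (P : MvPolynomial ι Kbar) :
    D.embG g ⟨MvPolynomial.aeval D.gen P, D.aeval_mem P⟩ = D.Theta g P :=
  helper24.adjoinLift_aeval D.gen (D.Theta g) (D.Theta_eq_zero_iff g) P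

theorem ringHom_ext {L : Type*} [Field L] {σ σ' : D.F →+* L}
    (h : ∀ P : MvPolynomial ι Kbar,
      σ ⟨MvPolynomial.aeval D.gen P, D.aeval_mem P⟩
        = σ' ⟨MvPolynomial.aeval D.gen P, D.aeval_mem P⟩) : σ = σ' := by
  have h1 : σ.comp D.toAdj.symm.toRingEquiv.toRingHom
      = σ'.comp D.toAdj.symm.toRingEquiv.toRingHom := by
    apply helper24.ringHom_ext_adjoin D.gen
    intro P
    exact h P
  ext x
  have := congrArg (fun φ => φ (D.toAdj x)) h1
  simpa using this

/-- two ring homomorphisms agreeing on constants and generators agree. -/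
theorem ringHom_ext_gen {L : Type*} [Field L] {σ σ' : D.F →+* L}
    (hc : ∀ k : Kbar, σ (algebraMap Kbar D.F k) = σ' (algebraMap Kbar D.F k))
    (hg : ∀ i, σ (D.genEl i) = σ' (D.genEl i)) : σ = σ' := by
  apply D.ringHom_ext
  intro P
  induction P using MvPolynomial.induction_on with
  | C a =>
    have e : (⟨MvPolynomial.aeval D.gen (MvPolynomial.C a), D.aeval_mem _⟩ : D.F)
        = algebraMap Kbar D.F a := by
      apply Subtype.ext
      simp
    rw [e]
    exact hc a
  | add p q hp hq =>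
    have e : (⟨MvPolynomial.aeval D.gen (p + q), D.aeval_mem _⟩ : D.F)
        = ⟨MvPolynomial.aeval D.gen p, D.aeval_mem _⟩
          + ⟨MvPolynomial.aeval D.gen q, D.aeval_mem _⟩ := by
      apply Subtype.ext
      simp
    rw [e, map_add, map_add, hp, hq]
  | mul_X p i hp =>
    have e : (⟨MvPolynomial.aeval D.gen (p * MvPolynomial.X i), D.aeval_mem _⟩ : D.F)
        = ⟨MvPolynomial.aeval D.gen p, D.aeval_mem _⟩ * D.genEl i := by
      apply Subtype.ext
      simp [genEl]
    rw [e, map_mul, map_mul, hp, hg]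

theorem embG_algebraMap (g : SL(2, ℤ)) (k : Kbar) :
    D.embG g (algebraMap Kbar D.F k) = HahnSeries.C ((iotaC : Kbar →+* ℂ) k) := by
  have h := D.embG_aeval g (MvPolynomial.C k)
  have e : (⟨MvPolynomial.aeval D.gen (MvPolynomial.C k),
      D.aeval_mem (MvPolynomial.C k)⟩ : D.F) = algebraMap Kbar D.F k := by
    apply Subtype.ext
    simp
  rw [e] at h
  rw [h, Theta_C]

theorem embG_gen (g : SL(2, ℤ)) (i : ι) : D.embG g (D.genEl i) = D.conjExp g i := by
  have h := D.embG_aeval g (MvPolynomial.X i)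
  have e : (⟨MvPolynomial.aeval D.gen (MvPolynomial.X i),
      D.aeval_mem (MvPolynomial.X i)⟩ : D.F) = D.genEl i := by
    apply Subtype.ext
    simp [genEl]
  rw [e] at h
  rw [h, Theta_X]

/-- every element of the field has a function: `embG D g f` is the `t`-expansion of a function,
namely of a quotient of two polynomials in the conjugates. -/
theorem exists_poly_quot (f : D.F) :
    ∃ P Q : MvPolynomial ι Kbar, MvPolynomial.aeval D.gen Q ≠ 0 ∧
      (f : LaurentSeries Kbar) * MvPolynomial.aeval D.gen Q = MvPolynomial.aeval D.gen P := by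
  have hf : (f : LaurentSeries Kbar) ∈ IntermediateField.adjoin Kbar (Set.range D.gen) := by
    rw [← D.F_eq]
    exact f.2
  rw [IntermediateField.mem_adjoin_range_iff] at hf
  obtain ⟨r, s, hrs⟩ := hf
  by_cases hs : MvPolynomial.aeval D.gen s = 0
  · refine ⟨0, 1, by simp, ?_⟩
    rw [hrs, hs, div_zero]
    simp
  · refine ⟨r, s, hs, ?_⟩
    rw [hrs, div_mul_cancel₀ _ hs]

theorem embG_congr {g g' : SL(2, ℤ)} (h : g⁻¹ * g' ∈ D.stab) : D.embG g' = D.embG g := by
  apply D.ringHom_ext_gen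
  · intro k
    rw [embG_algebraMap, embG_algebraMap]
  · intro i
    rw [embG_gen, embG_gen, D.conjExp_congr h]

theorem mem_stab_of_embG_eq {g g' : SL(2, ℤ)} (h : D.embG g = D.embG g') :
    g⁻¹ * g' ∈ D.stab := by
  rw [← conjFun_eq_iff]
  intro i
  apply D.conjFun_eq_of_conjExp_eq
  rw [← embG_gen, ← embG_gen, h]

/-- **Distinct cosets of the stabilizer give distinct embeddings.** -/
theorem embG_eq_iff {g g' : SL(2, ℤ)} : D.embG g = D.embG g' ↔ g⁻¹ * g' ∈ D.stab :=
  ⟨D.mem_stab_of_embG_eq, fun h => (D.embG_congr h).symm⟩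

/-! ## Rotation -/

/-- the root of unity `exp(-2πi/M)`. -/
def zetaCusp1 (M : ℕ) : ℂ := zetaR M (-1)

theorem zetaCusp1_ne_zero : zetaCusp1 M ≠ 0 := zetaR_ne_zero M (-1)

theorem isPrimitiveRoot_zetaCusp1 : IsPrimitiveRoot (zetaCusp1 M) M := by
  have h := (Complex.isPrimitiveRoot_exp M (NeZero.ne M)).inv
  have e : zetaCusp1 M = (Complex.exp (2 * Real.pi * Complex.I / M))⁻¹ := by
    show zetaR M (-1) = _
    rw [zetaR, ← Complex.exp_neg]
    congr 1
    push_cast
    ring
  rw [e]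
  exact h

theorem T_inv_smul1 (τ : ℍ) : (ModularGroup.T⁻¹ : SL(2, ℤ)) • τ = (-1 : ℝ) +ᵥ τ := by
  have := UpperHalfPlane.modular_T_zpow_smul τ (-1)
  simpa using this

theorem conjFun_T_mul (g : SL(2, ℤ)) (i : ι) (τ : ℍ) :
    D.conjFun (ModularGroup.T * g) i τ = D.conjFun g i ((-1 : ℝ) +ᵥ τ) := by
  rw [conjFun_apply, conjFun_apply, ← T_inv_smul1, ← mul_smul, mul_inv_rev]

theorem conjExp_T_mul (g : SL(2, ℤ)) (i : ι) :
    D.conjExp (ModularGroup.T * g) i = rotL (zetaCusp1 M) (D.conjExp g i) := by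
  have h1 := D.isTExp_conjExp (ModularGroup.T * g) i
  have h2 := (D.isTExp_conjExp g i).comp_vadd (-1)
  have e : D.conjFun (ModularGroup.T * g) i = fun τ => D.conjFun g i ((-1 : ℝ) +ᵥ τ) :=
    funext (D.conjFun_T_mul g i)
  rw [e] at h1
  exact h1.unique h2

theorem embG_T_mul (g : SL(2, ℤ)) (f : D.F) :
    D.embG (ModularGroup.T * g) f = rotL (zetaCusp1 M) (D.embG g f) := by
  have h : D.embG (ModularGroup.T * g)
      = (rotLHom (zetaCusp1 M) zetaCusp1_ne_zero).comp (D.embG g) := by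
    apply D.ringHom_ext_gen
    · intro k
      rw [RingHom.comp_apply, embG_algebraMap, embG_algebraMap, rotLHom_apply, rotL_C]
    · intro i
      rw [RingHom.comp_apply, embG_gen, embG_gen, rotLHom_apply, conjExp_T_mul]
  rw [h]
  rfl

/-! ## Elements with the function `j` -/

theorem qParam_pow_self1 (τ : ℍ) : 𝕢 (M : ℝ) (τ : ℂ) ^ M = 𝕢 1 (τ : ℂ) := by
  have hM : ((M : ℝ) : ℂ) ≠ 0 := by exact_mod_cast (natCast_pos_real M).ne'
  rw [Function.Periodic.qParam, Function.Periodic.qParam, ← Complex.exp_nat_mul]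
  congr 1
  push_cast at hM ⊢
  field_simp

theorem conjFun_of_fn_eq_jfun {i : ι} (hi : D.fn i = jfun) (g : SL(2, ℤ)) :
    D.conjFun g i = jfun := by
  funext τ
  rw [conjFun_apply, hi]
  exact helper24.jfun_smul _ _

theorem isNice_qParam_mul_jfun1 :
    IsNice M (fun τ : ℍ => 𝕢 (M : ℝ) (τ : ℂ) ^ M * jfun τ) where
  per τ := by
    show 𝕢 (M : ℝ) ((((M : ℝ) +ᵥ τ : ℍ)) : ℂ) ^ M * jfun ((M : ℝ) +ᵥ τ) = _
    rw [qParam_vadd]
    congr 1
    have h1 : ((M : ℝ) +ᵥ τ : ℍ) = (ModularGroup.T ^ M : SL(2, ℤ)) • τ := by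
      have := UpperHalfPlane.modular_T_zpow_smul τ (M : ℤ)
      rw [zpow_natCast] at this
      rw [this]
      congr 1
    rw [h1]
    exact helper24.jfun_smul _ _
  mdiff := (isNice_qParam_pow (N := M) M).mdiff.mul helper17.mdiff_jfun
  bdd := by
    have h := helper24.tendsto_qParam_mul_jfun
    have h2 : Tendsto (fun τ : ℍ => 𝕢 (M : ℝ) (τ : ℂ) ^ M * jfun τ) atImInfty (𝓝 1) :=
      h.congr fun τ => by rw [qParam_pow_self1]
    exact h2.isBigO_one ℝ

theorem order_conjExp_of_fn_eq_jfun {i : ι} (hi : D.fn i = jfun) (g : SL(2, ℤ)) :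
    (D.conjExp g i).order = -(M : ℤ) := by
  have h1 := D.isTExp_conjExp g i
  rw [D.conjFun_of_fn_eq_jfun hi] at h1
  have ht : Tendsto (fun τ : ℍ => 𝕢 (M : ℝ) (τ : ℂ) ^ M * jfun τ) atImInfty (𝓝 1) := by
    have := helper24.tendsto_qParam_mul_jfun
    refine this.congr fun τ => ?_
    rw [qParam_pow_self1]
  exact (h1.order_eq_of_tendsto M isNice_qParam_mul_jfun1 one_ne_zero ht).1

theorem conjExp_ne_zero_of_fn_eq_jfun {i : ι} (hi : D.fn i = jfun) (g : SL(2, ℤ)) :
    D.conjExp g i ≠ 0 := by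
  intro h
  have := D.order_conjExp_of_fn_eq_jfun hi g
  rw [h, HahnSeries.order_zero] at this
  have hM : (M : ℤ) ≠ 0 := by exact_mod_cast NeZero.ne M
  omega

theorem order_inv_laurent1 {F : LaurentSeries ℂ} (hF : F ≠ 0) : F⁻¹.order = -F.order := by
  have h := HahnSeries.order_mul hF (inv_ne_zero hF)
  rw [mul_inv_cancel₀ hF, HahnSeries.order_one] at h
  omega

/-! ## The local embedding data over `j = ∞` -/

/-- **The local embedding data at the cusps**, for the field of a `CuspPack` whose generator `i`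
has the function `j`. -/
def cuspData (i : ι) (hi : D.fn i = jfun) :
    LocalEmbData (iotaC : Kbar →+* ℂ) ((D.genEl i)⁻¹) (SL(2, ℤ) ⧸ D.stab) where
  emb c := D.embG (Quotient.out c)
  emb_algebraMap c k := D.embG_algebraMap _ k
  emb_injective := by
    intro c c' h
    have h1 := D.mem_stab_of_embG_eq h
    have h2 : ((Quotient.out c : SL(2, ℤ)) : SL(2, ℤ) ⧸ D.stab)
        = ((Quotient.out c' : SL(2, ℤ)) : SL(2, ℤ) ⧸ D.stab) :=
      QuotientGroup.eq.mpr h1
    rwa [QuotientGroup.out_eq', QuotientGroup.out_eq'] at h2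
  emb_y c c' := by
    rw [map_inv₀, map_inv₀, embG_gen, embG_gen]
    congr 1
    apply D.conjExp_eq_of_conjFun_eq
    rw [D.conjFun_of_fn_eq_jfun hi, D.conjFun_of_fn_eq_jfun hi]
  E := M
  E_pos := Nat.pos_of_ne_zero (NeZero.ne M)
  order_y c := by
    rw [map_inv₀, embG_gen, order_inv_laurent1 (D.conjExp_ne_zero_of_fn_eq_jfun hi _),
      D.order_conjExp_of_fn_eq_jfun hi]
    simp
  ζ := zetaCusp1 M
  hζ := isPrimitiveRoot_zetaCusp1
  π := MulAction.toPerm (ModularGroup.T : SL(2, ℤ))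
  rot c f := by
    have hmem : (Quotient.out ((ModularGroup.T : SL(2, ℤ)) • c))⁻¹ *
        (ModularGroup.T * Quotient.out c) ∈ D.stab := by
      apply QuotientGroup.eq.mp
      rw [QuotientGroup.out_eq']
      conv_lhs => rw [← QuotientGroup.out_eq' c]
      rfl
    have h1 := D.embG_congr hmem
    show D.embG (Quotient.out ((ModularGroup.T : SL(2, ℤ)) • c)) f = _
    rw [← h1, embG_T_mul]

@[simp] theorem cuspData_E (i : ι) (hi : D.fn i = jfun) : (D.cuspData i hi).E = M := rfl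

@[simp] theorem cuspData_π (i : ι) (hi : D.fn i = jfun) :
    (D.cuspData i hi).π = MulAction.toPerm (ModularGroup.T : SL(2, ℤ)) := rfl

@[simp] theorem cuspData_ζ (i : ι) (hi : D.fn i = jfun) :
    (D.cuspData i hi).ζ = zetaCusp1 M := rfl

theorem cuspData_emb (i : ι) (hi : D.fn i = jfun) (c : SL(2, ℤ) ⧸ D.stab) :
    (D.cuspData i hi).emb c = D.embG (Quotient.out c) := rfl

end CuspPack

end Fermat.Agent.T4.helper37c
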