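import Mathlib
import Fermat.Agent.T4.helper37_Cusp1
import Fermat.Agent.T4.helper24_FldDefs
import Fermat.Agent.T4.helper77_DegGen
import Fermat.Agent.P2.helper93_ESEmb

/-!
# T4 block (I), I-FLD [G-CUSP] (helper37): local embeddings at all cosets for a generator system

Final theorems of the box [G-CUSP] of `helper24_FldDefs`: for a generator system
`(D : helper24.GenData) (hD : D.IsSys)` and a width `W` with `Γ(W) ≤ D.Γ`:

* `embG1 hD W hW g : D.field ℚ̄ →+* ℂ((t))` (`t = exp(2πiτ/W)`), the `t`-expansion of `f ∘ g⁻¹`;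
* `embG1_algebraMap`, `embG1_gen`, `isTExp_embG1_gen`;
* `embG1_one`: `embG1 1 f = (f with complex coefficients)(t^W)`;
* `embG1_T_mul`: `embG1 (T g) f = rotL ζ (embG1 g f)`, `ζ = exp(-2πi/W)`;
* `embG1_eq_iff`: `embG1 g = embG1 g' ↔ g⁻¹ g' ∈ D.Γ`;
* `cuspData1 hD W hW : LocalEmbData iotaC (D.xJ ℚ̄)⁻¹ D.X` with `E = W`, `π =` action of `T`.
-/

set_option autoImplicit false
set_option linter.unusedSectionVars false
set_option linter.unusedVariables false
set_option linter.style.haveILetI false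

noncomputable section

open UpperHalfPlane Filter Topology Function ModularCurve CongruenceSubgroup
open scoped MatrixGroups Manifold

namespace Fermat.Agent.T4.helper37c

open Fermat.Agent.S24 Fermat.Agent.S24.helper37 Fermat.Agent.T4.helper24

local notation "𝕢" => Function.Periodic.qParam

section Gen

variable {D : GenData}

/-! ## Niceness of the translates -/

theorem T_pow_conj_mem_Gamma (W : ℕ) (g : SL(2, ℤ)) :
    g⁻¹ * ModularGroup.T ^ W * g ∈ Gamma W := by
  have h1 : (ModularGroup.T ^ W : SL(2, ℤ)) ∈ Gamma W := by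
    have := ModularGroup_T_pow_mem_Gamma (W : ℤ) (W : ℤ) dvd_rfl
    rw [zpow_natCast, Int.natAbs_natCast] at this
    exact this
  have h2 := (Gamma_normal W).conj_mem _ h1 g⁻¹
  rw [inv_inv] at h2
  exact h2

theorem fn_conj_vadd (hD : D.IsSys) (W : ℕ) (hW : Gamma W ≤ D.Γ) (g : SL(2, ℤ)) (i : D.I)
    (τ : ℍ) : D.fn i (g⁻¹ • ((W : ℝ) +ᵥ τ)) = D.fn i (g⁻¹ • τ) := by
  have h1 : ((W : ℝ) +ᵥ τ : ℍ) = (ModularGroup.T ^ W : SL(2, ℤ)) • τ := by
    have := UpperHalfPlane.modular_T_zpow_smul τ (W : ℤ)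
    rw [zpow_natCast] at this
    rw [this]
    congr 1
  have h2 := hD.inv i _ (hW (T_pow_conj_mem_Gamma W g)) (g⁻¹ • τ)
  have e : (g⁻¹ * ModularGroup.T ^ W * g) • g⁻¹ • τ = g⁻¹ • ((ModularGroup.T ^ W : SL(2, ℤ)) • τ) := by
    rw [mul_smul, mul_smul, smul_inv_smul]
  rw [h1, ← h2, e]

theorem norm_qParam_pow_mul (W : ℕ) [NeZero W] (K : ℕ) (τ : ℍ) :
    ‖𝕢 (W : ℝ) (τ : ℂ) ^ (K * W)‖ = Real.exp (-(2 * Real.pi * K * τ.im)) := by
  have hW : (W : ℝ) ≠ 0 := (natCast_pos_real W).ne'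
  rw [norm_pow, Function.Periodic.norm_qParam, ← Real.exp_nat_mul]
  congr 1
  have : (τ : ℂ).im = τ.im := rfl
  rw [this]
  push_cast
  field_simp

theorem nice_of_isSys (hD : D.IsSys) (W : ℕ) [NeZero W] (hW : Gamma W ≤ D.Γ) (g : SL(2, ℤ))
    (i : D.I) : ∃ n : ℕ, IsNice W (fun τ : ℍ => 𝕢 (W : ℝ) (τ : ℂ) ^ n * D.fn i (g⁻¹ • τ)) := by
  obtain ⟨hmd, K, hK⟩ := hD.growth g i
  refine ⟨K * W, ?_, ?_, ?_⟩
  · intro τ
    show 𝕢 (W : ℝ) ((((W : ℝ) +ᵥ τ : ℍ)) : ℂ) ^ (K * W) * D.fn i (g⁻¹ • ((W : ℝ) +ᵥ τ)) = _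
    rw [qParam_vadd, fn_conj_vadd hD W hW]
  · exact (isNice_qParam_pow (N := W) (K * W)).mdiff.mul hmd
  · have h2 : (fun τ : ℍ => 𝕢 (W : ℝ) (τ : ℂ) ^ (K * W))
        =O[atImInfty] fun τ : ℍ => Real.exp (-(2 * Real.pi * K * τ.im)) := by
      refine Asymptotics.IsBigO.of_bound 1 (Filter.Eventually.of_forall fun τ => ?_)
      rw [norm_qParam_pow_mul, one_mul, Real.norm_of_nonneg (Real.exp_pos _).le]
    have h3 := h2.mul hK
    have h4 : (fun τ : ℍ => Real.exp (-(2 * Real.pi * K * τ.im)) *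
        Real.exp (2 * Real.pi * K * τ.im)) = fun _ => (1 : ℝ) := by
      funext τ
      rw [← Real.exp_add]
      simp
    rw [h4] at h3
    exact h3

/-! ## The pack of a generator system -/

/-- the `CuspPack` of a generator system. -/
def cuspPack (hD : D.IsSys) (W : ℕ) [NeZero W] (hW : Gamma W ≤ D.Γ) : CuspPack D.I W where
  F := D.field Kbar
  gen := D.ser Kbar
  F_eq := helper77.laurentBaseChange_adjoin_range Kbar D.serQ
  fn := D.fn
  isQExp i := by
    have := hD.isQExp i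
    rw [GenData.ser] at this ⊢
    rw [helper77.toC_coeffEmb]
    exact this
  nice := nice_of_isSys hD W hW

/-- two ring homomorphisms out of the field agreeing on constants and generators agree. -/
theorem ringHom_ext_gen1 (hD : D.IsSys) (W : ℕ) [NeZero W] (hW : Gamma W ≤ D.Γ)
    {L : Type*} [Field L] {σ σ' : D.field Kbar →+* L}
    (hc : ∀ k : Kbar, σ (algebraMap Kbar (D.field Kbar) k) = σ' (algebraMap Kbar (D.field Kbar) k))
    (hg : ∀ i, σ (D.gen Kbar i) = σ' (D.gen Kbar i)) : σ = σ' :=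
  (cuspPack hD W hW).ringHom_ext_gen hc hg

variable (hD : D.IsSys) (W : ℕ) [NeZero W] (hW : Gamma W ≤ D.Γ)

theorem cuspPack_stab : (cuspPack hD W hW).stab = D.Γ := by
  ext γ
  rw [CuspPack.mem_stab]
  exact ⟨fun h => hD.stab γ h, fun h i τ => hD.inv i γ h τ⟩

/-- **[G-CUSP]** the embedding `f ↦ t-expansion of f ∘ g⁻¹` of the field of a generator
system. -/
def embG1 (g : SL(2, ℤ)) : D.field Kbar →+* LaurentSeries ℂ := (cuspPack hD W hW).embG g

/-- the `t`-expansion of the translate `fn i ∘ g⁻¹`. -/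
def conjExp1 (g : SL(2, ℤ)) (i : D.I) : LaurentSeries ℂ := (cuspPack hD W hW).conjExp g i

theorem isTExp_conjExp1 (g : SL(2, ℤ)) (i : D.I) :
    IsTExp W (conjExp1 hD W hW g i) (fun τ => D.fn i (g⁻¹ • τ)) :=
  (cuspPack hD W hW).isTExp_conjExp g i

theorem embG1_algebraMap (g : SL(2, ℤ)) (k : Kbar) :
    embG1 hD W hW g (algebraMap Kbar (D.field Kbar) k) = HahnSeries.C ((iotaC : Kbar →+* ℂ) k) :=
  (cuspPack hD W hW).embG_algebraMap g k

theorem embG1_gen (g : SL(2, ℤ)) (i : D.I) :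
    embG1 hD W hW g (D.gen Kbar i) = conjExp1 hD W hW g i :=
  (cuspPack hD W hW).embG_gen g i

/-- the value on a generator is the `t`-expansion of the translate of its function. -/
theorem isTExp_embG1_gen (g : SL(2, ℤ)) (i : D.I) :
    IsTExp W (embG1 hD W hW g (D.gen Kbar i)) (fun τ => D.fn i (g⁻¹ • τ)) := by
  rw [embG1_gen]
  exact isTExp_conjExp1 hD W hW g i

theorem embG1_T_mul (g : SL(2, ℤ)) (f : D.field Kbar) :
    embG1 hD W hW (ModularGroup.T * g) f = rotL (CuspPack.zetaCusp1 W) (embG1 hD W hW g f) :=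
  (cuspPack hD W hW).embG_T_mul g f

theorem embG1_eq_iff {g g' : SL(2, ℤ)} :
    embG1 hD W hW g = embG1 hD W hW g' ↔ g⁻¹ * g' ∈ D.Γ := by
  rw [← cuspPack_stab hD W hW]
  exact (cuspPack hD W hW).embG_eq_iff

theorem embG1_congr {g g' : SL(2, ℤ)} (h : g⁻¹ * g' ∈ D.Γ) :
    embG1 hD W hW g' = embG1 hD W hW g :=
  ((embG1_eq_iff hD W hW).mpr h).symm

theorem embG1_injective_of_ne {g g' : SL(2, ℤ)} (h : embG1 hD W hW g = embG1 hD W hW g') :
    g⁻¹ * g' ∈ D.Γ :=
  (embG1_eq_iff hD W hW).mp h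


/-! ## The identity coset -/

theorem conjExp1_one (i : D.I) :
    conjExp1 hD W hW 1 i = qExpand ℂ W (D.ser ℂ i) := by
  have h1 := isTExp_conjExp1 hD W hW 1 i
  have e : (fun τ : ℍ => D.fn i ((1 : SL(2, ℤ))⁻¹ • τ)) = D.fn i := by
    funext τ
    rw [inv_one, one_smul]
  rw [e] at h1
  exact h1.unique (Fermat.Agent.P2.helper93.isTExp_of_isQExp (hD.isQExp i) W)

/-- the formal expansion `f ↦ f(t^W)` with complex coefficients. -/
def formalEmb1 (D : GenData) (W : ℕ) [NeZero W] : D.field Kbar →+* LaurentSeries ℂ :=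
  (qExpand ℂ W).comp (helper17.toC.comp (algebraMap (D.field Kbar) (LaurentSeries Kbar)))

theorem formalEmb1_apply (f : D.field Kbar) :
    formalEmb1 D W f = qExpand ℂ W (helper17.toC (f : LaurentSeries Kbar)) := rfl

/-- **the embedding attached to the identity coset is the formal expansion.** -/
theorem embG1_one (f : D.field Kbar) :
    embG1 hD W hW 1 f = qExpand ℂ W (helper17.toC (f : LaurentSeries Kbar)) := by
  have : embG1 hD W hW 1 = formalEmb1 D W := by
    apply ringHom_ext_gen1 hD W hW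
    · intro c
      rw [embG1_algebraMap, formalEmb1_apply]
      show _ = qExpand ℂ W (helper17.toC (algebraMap Kbar (LaurentSeries Kbar) c))
      rw [Fermat.Agent.P2.helper93.toC_C, Fermat.Agent.P2.helper93.qExpand_C']
    · intro i
      rw [embG1_gen, conjExp1_one, formalEmb1_apply]
      show _ = qExpand ℂ W (helper17.toC (coeffEmb Kbar (D.serQ i)))
      rw [helper77.toC_coeffEmb]
      rfl
  rw [this, formalEmb1_apply]

/-! ## The element `j` -/

theorem embG1_xJ_eq (g g' : SL(2, ℤ)) :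
    embG1 hD W hW g (D.xJ Kbar) = embG1 hD W hW g' (D.xJ Kbar) := by
  show embG1 hD W hW g (D.gen Kbar D.j0) = embG1 hD W hW g' (D.gen Kbar D.j0)
  rw [embG1_gen, embG1_gen]
  apply (cuspPack hD W hW).conjExp_eq_of_conjFun_eq
  rw [(cuspPack hD W hW).conjFun_of_fn_eq_jfun hD.fn_j0,
    (cuspPack hD W hW).conjFun_of_fn_eq_jfun hD.fn_j0]

theorem order_embG1_xJ (g : SL(2, ℤ)) : (embG1 hD W hW g (D.xJ Kbar)).order = -(W : ℤ) := by
  show (embG1 hD W hW g (D.gen Kbar D.j0)).order = _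
  rw [embG1_gen]
  exact (cuspPack hD W hW).order_conjExp_of_fn_eq_jfun hD.fn_j0 g

theorem embG1_xJ_ne_zero (g : SL(2, ℤ)) : embG1 hD W hW g (D.xJ Kbar) ≠ 0 := by
  intro h
  have := order_embG1_xJ hD W hW g
  rw [h, HahnSeries.order_zero] at this
  have hW0 : (W : ℤ) ≠ 0 := by exact_mod_cast NeZero.ne W
  omega

/-! ## The local embedding data over `j = ∞` -/

/-- **[G-CUSP] The local embedding data at the cusps** of a generator system. -/
def cuspData1 : LocalEmbData (iotaC : Kbar →+* ℂ) ((D.xJ Kbar)⁻¹) D.X where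
  emb c := embG1 hD W hW (Quotient.out c)
  emb_algebraMap c k := embG1_algebraMap hD W hW _ k
  emb_injective := by
    intro c c' h
    have h1 := (embG1_eq_iff hD W hW).mp h
    have h2 : ((Quotient.out c : SL(2, ℤ)) : SL(2, ℤ) ⧸ D.Γ)
        = ((Quotient.out c' : SL(2, ℤ)) : SL(2, ℤ) ⧸ D.Γ) :=
      QuotientGroup.eq.mpr h1
    rwa [QuotientGroup.out_eq', QuotientGroup.out_eq'] at h2
  emb_y c c' := by
    rw [map_inv₀, map_inv₀, embG1_xJ_eq hD W hW _ (Quotient.out c')]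
  E := W
  E_pos := Nat.pos_of_ne_zero (NeZero.ne W)
  order_y c := by
    rw [map_inv₀, CuspPack.order_inv_laurent1 (embG1_xJ_ne_zero hD W hW _), order_embG1_xJ]
    simp
  ζ := CuspPack.zetaCusp1 W
  hζ := CuspPack.isPrimitiveRoot_zetaCusp1
  π := MulAction.toPerm (ModularGroup.T : SL(2, ℤ))
  rot c f := by
    have hmem : (Quotient.out ((ModularGroup.T : SL(2, ℤ)) • c))⁻¹ *
        (ModularGroup.T * Quotient.out c) ∈ D.Γ := by
      apply QuotientGroup.eq.mp
      rw [QuotientGroup.out_eq']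
      conv_lhs => rw [← QuotientGroup.out_eq' c]
      rfl
    have h1 := embG1_congr hD W hW hmem
    show embG1 hD W hW (Quotient.out ((ModularGroup.T : SL(2, ℤ)) • c)) f = _
    rw [← h1, embG1_T_mul]

@[simp] theorem cuspData1_E : (cuspData1 hD W hW).E = W := rfl

@[simp] theorem cuspData1_π :
    (cuspData1 hD W hW).π = MulAction.toPerm (ModularGroup.T : SL(2, ℤ)) := rfl

@[simp] theorem cuspData1_ζ : (cuspData1 hD W hW).ζ = CuspPack.zetaCusp1 W := rfl

theorem cuspData1_emb (c : D.X) :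
    (cuspData1 hD W hW).emb c = embG1 hD W hW (Quotient.out c) := rfl

theorem cuspData1_emb_mk (g : SL(2, ℤ)) :
    (cuspData1 hD W hW).emb (QuotientGroup.mk g : D.X) = embG1 hD W hW g := by
  rw [cuspData1_emb]
  apply embG1_congr
  apply QuotientGroup.eq.mp
  rw [QuotientGroup.out_eq']

end Gen

end Fermat.Agent.T4.helper37c
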