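import Mathlib

/-!
# T4 block (I), [ES-NORM1] part 0 (helper93): abstract field theory

* `h93_card_le_finrank_of_embeddings` : an injective family of ring homomorphisms `E →+* Ω`
  with a common restriction to `F` has at most `[E : F]` members (`E / F` finite separable).
* `h93_exists_lift_of_range` : a ring homomorphism `g : E' →+* Ω` whose values lie in the range
  of `f : E →+* Ω` (`E` a field) factors through `f`.
* `h93_mem_of_quot` : membership in a subfield of a quotient.
-/

set_option autoImplicit false

namespace Fermat.Agent.T4.helper93

open Module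

/-- the number of embeddings over `F` is at most the degree. -/
theorem h93_card_le_finrank_of_embeddings {F E Ω : Type*} [Field F] [Field E] [Field Ω]
    [Algebra F E] [FiniteDimensional F E] [Algebra.IsSeparable F E] (σ : F →+* Ω) {ι : Type*}
    [Fintype ι] (τ : ι → (E →+* Ω)) (hτ : Function.Injective τ)
    (hcomp : ∀ i, (τ i).comp (algebraMap F E) = σ) :
    Fintype.card ι ≤ finrank F E := by
  classical
  let Ωb := AlgebraicClosure Ω
  let _ : Algebra F Ωb := ((algebraMap Ω Ωb).comp σ).toAlgebra
  have halg : ∀ a : F, algebraMap F Ωb a = algebraMap Ω Ωb (σ a) := fun a => rfl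
  let τ' : ι → (E →ₐ[F] Ωb) := fun i =>
    { (algebraMap Ω Ωb).comp (τ i) with
      commutes' := fun a => by
        show algebraMap Ω Ωb (τ i (algebraMap F E a)) = algebraMap F Ωb a
        rw [halg, ← hcomp i]
        rfl }
  have hτ'app : ∀ i y, τ' i y = algebraMap Ω Ωb (τ i y) := fun i y => rfl
  have hinj : Function.Injective τ' := by
    intro i j hij
    apply hτ
    ext y
    have := congrArg (fun f : E →ₐ[F] Ωb => f y) hij
    simp only [hτ'app] at this
    exact (algebraMap Ω Ωb).injective this
  have h1 := Fintype.card_le_of_injective τ' hinj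
  rwa [AlgHom.card F E Ωb] at h1

/-- a ring homomorphism with values in the range of a field embedding factors through it. -/
theorem h93_exists_lift_of_range {E E' Ω : Type*} [Field E] [Ring E'] [Field Ω]
    (f : E →+* Ω) (g : E' →+* Ω) (h : ∀ y, g y ∈ f.range) :
    ∃ w : E' →+* E, ∀ y, f (w y) = g y := by
  let e : E ≃+* f.range := RingEquiv.ofBijective f.rangeRestrict
    ⟨fun a b hab => f.injective (congrArg Subtype.val hab), f.rangeRestrict_surjective⟩
  refine ⟨e.symm.toRingHom.comp (g.codRestrict f.range h), fun y => ?_⟩
  have h1 : e (e.symm (g.codRestrict f.range h y)) = g.codRestrict f.range h y :=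
    e.apply_symm_apply _
  have h2 := congrArg Subtype.val h1
  exact h2

end Fermat.Agent.T4.helper93
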