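import Mathlib
import Fermat.Agent.T4.helper93_EmbAbs
import Fermat.Agent.T4.helper10_X1pInst
import Fermat.Agent.T4.helper37_Cusp1Gen
import Fermat.Agent.T4.helper56_X1Field
import Fermat.Agent.P2.helper93_ESNorm

/-!
# T4 block (I), [ES-NORM1] part 1 (helper93): transport of the coset embeddings, the matrix `G`

* `embT hD W hW hE g` : the coset embedding `helper37c.embG1` transported to
  `laurentBaseChange ℚ̄ E₀` for any field `E₀ = D.fieldQ`;
* `ringHom_ext_T`, `range_T` : ring homomorphisms out of `laurentBaseChange ℚ̄ E₀` are determined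
  by (resp. have their values in a subfield as soon as this holds for) constants and generators;
* `matG a b hab = (a b; M p)` (`a p - b M = 1`) with `p (G τ) = γ (τ / p)`, `γ ∈ Γ₁(M)`.
-/

set_option autoImplicit false
set_option linter.unusedSectionVars false
set_option linter.unusedVariables false
set_option linter.style.haveILetI false

noncomputable section

open UpperHalfPlane Filter Topology Function ModularCurve CongruenceSubgroup
open scoped MatrixGroups Manifold

namespace Fermat.Agent.T4.helper93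

open Fermat.Agent.S24 Fermat.Agent.S24.helper37 Fermat.Agent.T4.helper24
open Fermat.Agent.T4.helper37c

/-! ## Transport of the coset embeddings -/

section Transport

variable {D : GenData} {E₀ : IntermediateField ℚ (LaurentSeries ℚ)}

theorem lbc_eq_field (hE : E₀ = D.fieldQ) : laurentBaseChange Kbar E₀ = D.field Kbar := by
  rw [hE, GenData.field]

theorem lbc_le_field (hE : E₀ = D.fieldQ) : laurentBaseChange Kbar E₀ ≤ D.field Kbar :=
  le_of_eq (lbc_eq_field hE)

/-- the identification of `laurentBaseChange ℚ̄ E₀` with the field of the generator system -/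
def castT (hE : E₀ = D.fieldQ) : laurentBaseChange Kbar E₀ →ₐ[Kbar] D.field Kbar :=
  IntermediateField.inclusion (lbc_le_field hE)

@[simp]
theorem coe_castT (hE : E₀ = D.fieldQ) (x : laurentBaseChange Kbar E₀) :
    ((castT hE x : D.field Kbar) : LaurentSeries Kbar) = (x : LaurentSeries Kbar) :=
  IntermediateField.coe_inclusion (lbc_le_field hE) x

/-- the coset embedding, transported -/
def embT (hD : D.IsSys) (W : ℕ) [NeZero W] (hW : Gamma W ≤ D.Γ) (hE : E₀ = D.fieldQ)
    (g : SL(2, ℤ)) : laurentBaseChange Kbar E₀ →+* LaurentSeries ℂ :=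
  (embG1 hD W hW g).comp (castT hE).toRingHom

theorem embT_apply (hD : D.IsSys) (W : ℕ) [NeZero W] (hW : Gamma W ≤ D.Γ) (hE : E₀ = D.fieldQ)
    (g : SL(2, ℤ)) (x : laurentBaseChange Kbar E₀) :
    embT hD W hW hE g x = embG1 hD W hW g (castT hE x) := rfl

theorem embT_algebraMap (hD : D.IsSys) (W : ℕ) [NeZero W] (hW : Gamma W ≤ D.Γ)
    (hE : E₀ = D.fieldQ) (g : SL(2, ℤ)) (k : Kbar) :
    embT hD W hW hE g (algebraMap Kbar (laurentBaseChange Kbar E₀) k) =
      HahnSeries.C ((iotaC : Kbar →+* ℂ) k) := by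
  rw [embT_apply, AlgHom.commutes, embG1_algebraMap]

theorem castT_eq_gen (hE : E₀ = D.fieldQ) {x : laurentBaseChange Kbar E₀} {i : D.I}
    (hx : (x : LaurentSeries Kbar) = D.ser Kbar i) : castT hE x = D.gen Kbar i :=
  Subtype.ext ((coe_castT hE x).trans hx)

/-- the value on a generator is the `t`-expansion of the translate of its function -/
theorem isTExp_embT (hD : D.IsSys) (W : ℕ) [NeZero W] (hW : Gamma W ≤ D.Γ) (hE : E₀ = D.fieldQ)
    (g : SL(2, ℤ)) {x : laurentBaseChange Kbar E₀} {i : D.I}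
    (hx : (x : LaurentSeries Kbar) = D.ser Kbar i) :
    IsTExp W (embT hD W hW hE g x) (fun τ => D.fn i (g⁻¹ • τ)) := by
  rw [embT_apply, castT_eq_gen hE hx]
  exact isTExp_embG1_gen hD W hW g i

/-- ring homomorphisms are determined by constants and generators -/
theorem ringHom_ext_T (hD : D.IsSys) (W : ℕ) [NeZero W] (hW : Gamma W ≤ D.Γ)
    (hE : E₀ = D.fieldQ) {L : Type*} [Field L] {σ σ' : laurentBaseChange Kbar E₀ →+* L}
    (hc : ∀ k : Kbar, σ (algebraMap Kbar _ k) = σ' (algebraMap Kbar _ k))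
    (hg : ∀ (i : D.I) (x : laurentBaseChange Kbar E₀),
      (x : LaurentSeries Kbar) = D.ser Kbar i → σ x = σ' x) : σ = σ' := by
  subst hE
  exact ringHom_ext_gen1 hD W hW hc (fun i => hg i (D.gen Kbar i) rfl)

/-- values in a subfield: enough on constants and generators (field of the system) -/
theorem range_gen1 (hD : D.IsSys) (W : ℕ) [NeZero W] (hW : Gamma W ≤ D.Γ)
    {L : Type*} [Field L] (σ : D.field Kbar →+* L) (S : Subfield L)
    (hc : ∀ k : Kbar, σ (algebraMap Kbar _ k) ∈ S)
    (hg : ∀ i : D.I, σ (D.gen Kbar i) ∈ S) (y : D.field Kbar) : σ y ∈ S := by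
  set C := cuspPack hD W hW with hC
  have hP : ∀ P : MvPolynomial D.I Kbar,
      σ (⟨MvPolynomial.aeval C.gen P, C.aeval_mem P⟩ : D.field Kbar) ∈ S := by
    intro P
    induction P using MvPolynomial.induction_on with
    | C a =>
      have e : (⟨MvPolynomial.aeval C.gen (MvPolynomial.C a), C.aeval_mem _⟩ : D.field Kbar)
          = algebraMap Kbar (D.field Kbar) a := by
        apply Subtype.ext
        simp
      rw [e]
      exact hc a
    | add p q hp hq =>
      have e : (⟨MvPolynomial.aeval C.gen (p + q), C.aeval_mem _⟩ : D.field Kbar)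
          = ⟨MvPolynomial.aeval C.gen p, C.aeval_mem _⟩
            + ⟨MvPolynomial.aeval C.gen q, C.aeval_mem _⟩ := by
        apply Subtype.ext
        simp
      rw [e, map_add]
      exact S.add_mem hp hq
    | mul_X p i hp =>
      have e : (⟨MvPolynomial.aeval C.gen (p * MvPolynomial.X i), C.aeval_mem _⟩ : D.field Kbar)
          = ⟨MvPolynomial.aeval C.gen p, C.aeval_mem _⟩ * D.gen Kbar i := by
        apply Subtype.ext
        show MvPolynomial.aeval C.gen (p * MvPolynomial.X i) =
          MvPolynomial.aeval C.gen p * C.gen i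
        rw [map_mul, MvPolynomial.aeval_X]
      rw [e, map_mul]
      exact S.mul_mem hp (hg i)
  obtain ⟨P, Q, hQ, hPQ⟩ := C.exists_poly_quot y
  have hQ' : (⟨MvPolynomial.aeval C.gen Q, C.aeval_mem Q⟩ : D.field Kbar) ≠ 0 := by
    intro h
    exact hQ (congrArg Subtype.val h)
  have e : y * ⟨MvPolynomial.aeval C.gen Q, C.aeval_mem Q⟩
      = (⟨MvPolynomial.aeval C.gen P, C.aeval_mem P⟩ : D.field Kbar) := Subtype.ext hPQ
  have e2 := congrArg σ e
  rw [map_mul] at e2
  have hσQ : σ ⟨MvPolynomial.aeval C.gen Q, C.aeval_mem Q⟩ ≠ 0 :=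
    (map_ne_zero σ).mpr hQ'
  have e3 : σ y = σ ⟨MvPolynomial.aeval C.gen P, C.aeval_mem P⟩ /
      σ ⟨MvPolynomial.aeval C.gen Q, C.aeval_mem Q⟩ := by
    rw [eq_div_iff hσQ, e2]
  rw [e3]
  exact S.div_mem (hP P) (hP Q)

/-- values in a subfield: enough on constants and generators -/
theorem range_T (hD : D.IsSys) (W : ℕ) [NeZero W] (hW : Gamma W ≤ D.Γ) (hE : E₀ = D.fieldQ)
    {L : Type*} [Field L] (σ : laurentBaseChange Kbar E₀ →+* L) (S : Subfield L)
    (hc : ∀ k : Kbar, σ (algebraMap Kbar _ k) ∈ S)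
    (hg : ∀ (i : D.I) (x : laurentBaseChange Kbar E₀),
      (x : LaurentSeries Kbar) = D.ser Kbar i → σ x ∈ S)
    (y : laurentBaseChange Kbar E₀) : σ y ∈ S := by
  subst hE
  exact range_gen1 hD W hW σ S hc (fun i => hg i (D.gen Kbar i) rfl) y

end Transport

/-! ## The matrix `G = (a b; M p)` -/

section Matrix

variable (M p : ℕ) [NeZero M] [NeZero p]

/-- `G = (a b; M p)`, `a p - b M = 1` -/
def matG (a b : ℤ) (hab : a * p - b * M = 1) : SL(2, ℤ) :=
  ⟨!![a, b; (M : ℤ), (p : ℤ)], by
    rw [Matrix.det_fin_two_of]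
    linear_combination hab⟩

/-- `γ = (p a, b; M, 1) ∈ Γ₁(M)` -/
def matGam (a b : ℤ) (hab : a * p - b * M = 1) : SL(2, ℤ) :=
  ⟨!![(p : ℤ) * a, b; (M : ℤ), 1], by
    rw [Matrix.det_fin_two_of]
    linear_combination hab⟩

variable {M p} (a b : ℤ) (hab : a * p - b * M = 1)

@[simp] theorem matG_00 : matG M p a b hab 0 0 = a := rfl
@[simp] theorem matG_01 : matG M p a b hab 0 1 = b := rfl
@[simp] theorem matG_10 : matG M p a b hab 1 0 = M := rfl
@[simp] theorem matG_11 : matG M p a b hab 1 1 = p := rfl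

theorem matG_mem_Gamma0 : matG M p a b hab ∈ Gamma0 M := by
  rw [Gamma0_mem]
  show (((M : ℤ) : ℤ) : ZMod M) = 0
  simp

theorem matGam_mem_Gamma1 : matGam M p a b hab ∈ Gamma1 M := by
  rw [Gamma1_mem]
  refine ⟨?_, ?_, ?_⟩
  · show (((p : ℤ) * a : ℤ) : ZMod M) = 1
    have h : (p : ℤ) * a = 1 + b * M := by linear_combination hab
    rw [h]
    simp
  · show (((1 : ℤ) : ℤ) : ZMod M) = 1
    simp
  · show (((M : ℤ) : ℤ) : ZMod M) = 0
    simp

/-- the upper left entry of `G` is the inverse of `p` modulo `M` -/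
theorem matG_upperLeft_mul : ((matG M p a b hab 0 0 : ℤ) : ZMod M) * (p : ZMod M) = 1 := by
  rw [matG_00]
  have h : a * p = 1 + b * M := by linear_combination hab
  have h2 := congrArg (fun x : ℤ => (x : ZMod M)) h
  simpa using h2

/-- `p (G τ) = γ (τ / p)` -/
theorem scaleH_matG_smul (τ : ℍ) :
    scaleH p (matG M p a b hab • τ) = matGam M p a b hab • Fermat.Agent.P2.helper93.divH p τ := by
  apply UpperHalfPlane.ext
  rw [helper77.coe_scaleH, helper77.coe_SL_smul, helper77.coe_SL_smul,
    Fermat.Agent.P2.helper93.coe_divH]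
  have h1 := helper77.SL_denom_ne_zero (matG M p a b hab) τ
  have h2 := helper77.SL_denom_ne_zero (matGam M p a b hab) (Fermat.Agent.P2.helper93.divH p τ)
  rw [Fermat.Agent.P2.helper93.coe_divH] at h2
  have e00 : (matGam M p a b hab 0 0 : ℤ) = p * a := rfl
  have e01 : (matGam M p a b hab 0 1 : ℤ) = b := rfl
  have e10 : (matGam M p a b hab 1 0 : ℤ) = M := rfl
  have e11 : (matGam M p a b hab 1 1 : ℤ) = 1 := rfl
  rw [e10, e11] at h2
  rw [e00, e01, e10, e11, matG_00, matG_01, matG_10, matG_11]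
  rw [matG_10, matG_11] at h1
  have hp : (p : ℂ) ≠ 0 := by exact_mod_cast NeZero.ne p
  push_cast at h1 h2 ⊢
  have h3 : (M : ℂ) * ((τ : ℂ) / p) + 1 = ((M : ℂ) * τ + p) / p := by
    field_simp
  rw [h3]
  field_simp

end Matrix

end Fermat.Agent.T4.helper93

end
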