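import Mathlib
import Fermat.Agent.T4.helper93_ESNorm1a
import Fermat.Agent.T4.helper17_DiamondX1
import Fermat.Agent.T4.helper14_TransD1Ev

/-!
# T4 block (I), [ES-NORM1] part 2 (helper93): the exotic embedding of the curve of triples

`embInf : F1p M p →+* ℂ((t))`, `t = q^(1/(M p))`: the expansion of `F ∘ G`,
`G = (a b; M p) ∈ Γ₀(M)`, `a p - b M = 1`.  Its restrictions along the two degeneracy maps:

* `embInf_beta`  : `embInf (β₁ x) = x(t^M)`  (`(β₁ x) ∘ G = x(τ / p)`);
* `embInf_alpha` : `embInf (α₁ (δ x)) = x(t^(M p))` for `δ = diamondAut M d`, `d ≡ p mod M`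
  (`(α₁ h) ∘ G = (δ⁻¹ h)(τ)`).
-/

set_option autoImplicit false
set_option linter.unusedSectionVars false
set_option linter.unusedVariables false
set_option linter.style.haveILetI false

noncomputable section

open UpperHalfPlane Filter Topology Function ModularCurve CongruenceSubgroup
open scoped MatrixGroups Manifold

namespace Fermat.Agent.T4.helper93

open Fermat.Agent.S24 Fermat.Agent.S24.helper37 Fermat.Agent.T4.helper24
open Fermat.Agent.T4.helper37c
open Fermat.Agent.T4.helper32 (F1 F1p F1Q F1Qp alpha1 beta1 coe_alpha1 coe_beta1 sSer sEl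
  diamondAut IsDiamondAut)
open Fermat.Agent.P2.helper93 (divH coe_divH isTExp_comp_scaleR isTExp_of_isQExp
  isTExp_one_of_isQExp inv_natCast_pos)

variable (M p : ℕ) [NeZero M] [NeZero p]

theorem neZero_mul_h93 : NeZero (M * p) := ⟨Nat.mul_ne_zero (NeZero.ne M) (NeZero.ne p)⟩

/-! ## `t`-expansions of `f(τ / p)` -/

/-- the `t`-expansion (`t = q^(1/(M p))`) of `f(τ / p)` is `F(t^M)` -/
theorem isTExp_comp_divH {F : LaurentSeries ℂ} {f : ℍ → ℂ} (h : helper17.IsQExp F f) :
    haveI := neZero_mul_h93 M p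
    IsTExp (M * p) (qExpand ℂ M F) (fun τ => f (divH p τ)) := by
  haveI := neZero_mul_h93 M p
  have hp : (p : ℝ) ≠ 0 := by exact_mod_cast NeZero.ne p
  exact isTExp_comp_scaleR (N := 1) (N' := M * p) (isTExp_one_of_isQExp h) ((p : ℝ))⁻¹
    (inv_natCast_pos p) M (by push_cast; field_simp)

/-! ## The functions `s_1 = 0`, `s_2 = 1` -/

theorem sFn_one_h93 (τ : ℍ) : sFn M 1 τ = 0 := by
  unfold sFn wpDfn
  simp

theorem sFn_two_h93 (hM : 4 ≤ M) (τ : ℍ) : sFn M 2 τ = 1 := by
  unfold sFn
  exact div_self (Fermat.Agent.T4.helper44.wpDfn_two_one_ne_zero M hM τ)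

/-! ## The exotic embedding -/

section Emb

variable (h7 : 7 ≤ M) (hp : p.Prime) (hpM : ¬ p ∣ M) (a b : ℤ) (hab : a * p - b * M = 1)

/-- **the exotic embedding** of the function field of the curve of triples: the expansion of
`F ∘ G`, `G = (a b; M p)`. -/
def embInf : F1p M p →+* LaurentSeries ℂ :=
  haveI := neZero_mul_h93 M p
  embT (Fermat.Agent.T4.helper10.x1pSys M p h7 hp hpM) (M * p)
    (Fermat.Agent.T4.helper10.Gamma_mul_le_PG1p M p) (Fermat.Agent.T4.helper10.x1pField M p)
    (matG M p a b hab)⁻¹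

theorem embInf_algebraMap (k : Kbar) :
    embInf M p h7 hp hpM a b hab (algebraMap Kbar (F1p M p) k) =
      HahnSeries.C ((iotaC : Kbar →+* ℂ) k) := by
  haveI := neZero_mul_h93 M p
  exact embT_algebraMap _ _ _ _ _ k

/-- value on `j(d τ)`, `d ∣ M p` -/
theorem isTExp_embInf_j (d : ℕ) (hd : d ∈ (M * p).divisors) (x : F1p M p)
    (hx : (x : LaurentSeries Kbar) = coeffEmb Kbar (JdTQ d)) :
    haveI := neZero_mul_h93 M p
    IsTExp (M * p) (embInf M p h7 hp hpM a b hab x)
      (fun τ => jfunDT d (matG M p a b hab • τ)) := by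
  haveI := neZero_mul_h93 M p
  have h := isTExp_embT (Fermat.Agent.T4.helper10.x1pSys M p h7 hp hpM) (M * p)
    (Fermat.Agent.T4.helper10.Gamma_mul_le_PG1p M p) (Fermat.Agent.T4.helper10.x1pField M p)
    (matG M p a b hab)⁻¹ (x := x) (i := Sum.inl ⟨d, hd⟩) hx
  simp only [inv_inv] at h
  exact h

/-- value on `s_c(τ)` -/
theorem isTExp_embInf_s (c : ZMod M) (hc : c ≠ 0) (x : F1p M p)
    (hx : (x : LaurentSeries Kbar) = coeffEmb Kbar (sSer ℚ M c)) :
    haveI := neZero_mul_h93 M p
    IsTExp (M * p) (embInf M p h7 hp hpM a b hab x)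
      (fun τ => sFn M c (matG M p a b hab • τ)) := by
  haveI := neZero_mul_h93 M p
  have h := isTExp_embT (Fermat.Agent.T4.helper10.x1pSys M p h7 hp hpM) (M * p)
    (Fermat.Agent.T4.helper10.Gamma_mul_le_PG1p M p) (Fermat.Agent.T4.helper10.x1pField M p)
    (matG M p a b hab)⁻¹ (x := x) (i := Sum.inr (Sum.inl ⟨c, hc⟩)) hx
  simp only [inv_inv] at h
  exact h

/-- value on `s_c(p τ)` -/
theorem isTExp_embInf_sp (c : ZMod M) (hc : c ≠ 0) (x : F1p M p)
    (hx : (x : LaurentSeries Kbar) = coeffEmb Kbar (qExpand ℚ p (sSer ℚ M c))) :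
    haveI := neZero_mul_h93 M p
    IsTExp (M * p) (embInf M p h7 hp hpM a b hab x)
      (fun τ => sFn M c (scaleH p (matG M p a b hab • τ))) := by
  haveI := neZero_mul_h93 M p
  have h := isTExp_embT (Fermat.Agent.T4.helper10.x1pSys M p h7 hp hpM) (M * p)
    (Fermat.Agent.T4.helper10.Gamma_mul_le_PG1p M p) (Fermat.Agent.T4.helper10.x1pField M p)
    (matG M p a b hab)⁻¹ (x := x) (i := Sum.inr (Sum.inr ⟨c, hc⟩)) hx
  simp only [inv_inv] at h
  exact h

end Emb

/-! ## Auxiliary identities for the generators -/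

omit [NeZero M] in
theorem JdTQ_mul_h93 (d : ℕ) (hd : d ≠ 0) : qExpand ℚ p (JdTQ d) = JdTQ (p * d) := by
  haveI : NeZero d := ⟨hd⟩
  haveI : NeZero (p * d) := ⟨Nat.mul_ne_zero (NeZero.ne p) hd⟩
  unfold JdTQ
  rw [dif_neg hd, dif_neg (NeZero.ne (p * d)), qExpand_qExpand]

theorem ne_zero_of_mem_divisors_h93 {N d : ℕ} (hd : d ∈ N.divisors) : d ≠ 0 :=
  Fermat.Agent.T4.helper10.ne_zero_of_mem_divisors hd

theorem toC_const_h93 (F : IntermediateField Kbar (LaurentSeries Kbar)) (k : Kbar) :
    helper17.toC ((algebraMap Kbar F k : F) : LaurentSeries Kbar) =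
      HahnSeries.C ((iotaC : Kbar →+* ℂ) k) :=
  Fermat.Agent.P2.helper93.toC_C k

/-! ## The restrictions of the exotic embedding -/

section Restr

variable (h7 : 7 ≤ M) (hp : p.Prime) (hpM : ¬ p ∣ M) (a b : ℤ) (hab : a * p - b * M = 1)

/-- **`E_∞ ∘ β₁`** is the formal expansion `x ↦ x(t^M)`. -/
theorem embInf_beta (x : F1 M) :
    embInf M p h7 hp hpM a b hab (beta1 Kbar M p x) =
      qExpand ℂ M (helper17.toC (x : LaurentSeries Kbar)) := by
  haveI := neZero_mul_h93 M p
  have hM4 : 4 ≤ M := by omega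
  have hD1 : (x1Data M).IsSys := Fermat.Agent.T4.helper44.x1Sys M h7
  obtain ⟨W, hW0, hW⟩ := hD1.level
  haveI : NeZero W := ⟨hW0.ne'⟩
  have key : (embInf M p h7 hp hpM a b hab).comp (beta1 Kbar M p).toRingHom =
      (qExpand ℂ M).comp (helper17.toC.comp (algebraMap (F1 M) (LaurentSeries Kbar))) := by
    apply ringHom_ext_T hD1 W hW (Fermat.Agent.T4.helper56.x1Field M)
    · intro k
      rw [RingHom.comp_apply, RingHom.comp_apply, RingHom.comp_apply]
      have e1 : (beta1 Kbar M p).toRingHom (algebraMap Kbar (F1 M) k) =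
          algebraMap Kbar (F1p M p) k := (beta1 Kbar M p).commutes k
      rw [e1, embInf_algebraMap]
      show _ = qExpand ℂ M (helper17.toC ((algebraMap Kbar (F1 M) k : F1 M) :
        LaurentSeries Kbar))
      rw [toC_const_h93, qExpand_C]
    · rintro (d | c) y hy
      · -- `j(d τ)`
        have hy' : (y : LaurentSeries Kbar) = coeffEmb Kbar (JdTQ d.1) := hy
        have hd0 : d.1 ≠ 0 := ne_zero_of_mem_divisors_h93 d.2
        have hdM : d.1 ∣ M := (Nat.mem_divisors.1 d.2).1
        haveI : NeZero d.1 := ⟨hd0⟩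
        haveI : NeZero (p * d.1) := ⟨Nat.mul_ne_zero (NeZero.ne p) hd0⟩
        have hmem : p * d.1 ∈ (M * p).divisors := by
          rw [Nat.mem_divisors]
          exact ⟨by rw [mul_comm M p]; exact mul_dvd_mul_left p hdM, NeZero.ne (M * p)⟩
        have hβ : ((beta1 Kbar M p y : F1p M p) : LaurentSeries Kbar) =
            coeffEmb Kbar (JdTQ (p * d.1)) := by
          rw [coe_beta1, hy', ← JdTQ_mul_h93 p d.1 hd0]
          exact (Fermat.Agent.T4.helper32.coeffEmb_qExpand Kbar p _).symm
        have h1 := isTExp_embInf_j M p h7 hp hpM a b hab (p * d.1) hmem (beta1 Kbar M p y) hβ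
        have hfun : (fun τ => jfunDT (p * d.1) (matG M p a b hab • τ)) =
            fun τ => jfunDT d.1 (divH p τ) := by
          funext τ
          rw [helper77.jfunDT_of_ne_zero, helper77.jfunDT_of_ne_zero]
          exact Fermat.Agent.P2.helper93.jfunD_mul_smul_eq M p a b hab (matG M p a b hab)
            rfl rfl rfl rfl d.1 hdM τ
        rw [hfun] at h1
        have h2 := isTExp_comp_divH M p (helper17.isQExp_jfunDT d.1)
        rw [RingHom.comp_apply, RingHom.comp_apply, RingHom.comp_apply]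
        show embInf M p h7 hp hpM a b hab (beta1 Kbar M p y) =
          qExpand ℂ M (helper17.toC (y : LaurentSeries Kbar))
        rw [hy', helper77.toC_coeffEmb, coeffEmb_JdTQ]
        exact h1.unique h2
      · -- `s_c`
        have hy' : (y : LaurentSeries Kbar) = coeffEmb Kbar (sSer ℚ M c.1) := hy
        have hβ : ((beta1 Kbar M p y : F1p M p) : LaurentSeries Kbar) =
            coeffEmb Kbar (qExpand ℚ p (sSer ℚ M c.1)) := by
          rw [coe_beta1, hy']
          exact (Fermat.Agent.T4.helper32.coeffEmb_qExpand Kbar p _).symm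
        have h1 := isTExp_embInf_sp M p h7 hp hpM a b hab c.1 c.2 (beta1 Kbar M p y) hβ
        have hfun : (fun τ => sFn M c.1 (scaleH p (matG M p a b hab • τ))) =
            fun τ => sFn M c.1 (divH p τ) := by
          funext τ
          rw [scaleH_matG_smul a b hab τ]
          exact hD1.inv (Sum.inr c) _ (Gamma1_le_PG1 M (matGam_mem_Gamma1 a b hab)) _
        rw [hfun] at h1
        have h2 := isTExp_comp_divH M p (hD1.isQExp (Sum.inr c))
        rw [RingHom.comp_apply, RingHom.comp_apply, RingHom.comp_apply]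
        show embInf M p h7 hp hpM a b hab (beta1 Kbar M p y) =
          qExpand ℂ M (helper17.toC (y : LaurentSeries Kbar))
        rw [hy', helper77.toC_coeffEmb]
        exact h1.unique h2
  exact RingHom.congr_fun key x

/-- the diamond law at `G`, difference form -/
theorem sFn_matG_sub (hM : 4 ≤ M) (d : (ZMod M)ˣ) (hd : (d : ZMod M) = (p : ZMod M))
    (c : ZMod M) (hc : c ≠ 0) (τ : ℍ) :
    sFn M ((d : ZMod M) * c) (matG M p a b hab • τ) - sFn M (d : ZMod M) (matG M p a b hab • τ) =
      sFn M c τ / (sFn M (((matG M p a b hab 0 0 : ℤ) : ZMod M) * 2) τ -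
        sFn M ((matG M p a b hab 0 0 : ℤ) : ZMod M) τ) := by
  have hG := matG_mem_Gamma0 (M := M) (p := p) a b hab
  have hu : ((matG M p a b hab 0 0 : ℤ) : ZMod M) * (d : ZMod M) = 1 := by
    rw [hd]
    exact matG_upperLeft_mul a b hab
  have hd0 : (d : ZMod M) ≠ 0 := Fermat.Agent.T4.helper17.unit_ne_zero M hM d
  have hdc : (d : ZMod M) * c ≠ 0 := Fermat.Agent.T4.helper17.unit_mul_ne_zero M d hc
  rw [Fermat.Agent.T4.helper14.sFn_law_h14 M hM hG _ hdc τ,
    Fermat.Agent.T4.helper14.sFn_law_h14 M hM hG _ hd0 τ, ← mul_assoc, hu, one_mul,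
    sFn_one_h93, ← sub_div]
  congr 1
  ring

/-- **`E_∞ ∘ α₁ ∘ δ`** is the formal expansion `x ↦ x(t^(M p))` (`δ = diamondAut M d`,
`d ≡ p mod M`): on the exotic branch `α₁ h` is `δ⁻¹ h`. -/
theorem embInf_alpha_diamond (d : (ZMod M)ˣ) (hd : (d : ZMod M) = (p : ZMod M)) (x : F1 M) :
    haveI := neZero_mul_h93 M p
    embInf M p h7 hp hpM a b hab (alpha1 Kbar M p (diamondAut M d x)) =
      qExpand ℂ (M * p) (helper17.toC (x : LaurentSeries Kbar)) := by
  haveI := neZero_mul_h93 M p
  have hM4 : 4 ≤ M := by omega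
  have hD1 : (x1Data M).IsSys := Fermat.Agent.T4.helper44.x1Sys M h7
  obtain ⟨W, hW0, hW⟩ := hD1.level
  haveI : NeZero W := ⟨hW0.ne'⟩
  have hσ := Fermat.Agent.T4.helper17.isDiamondAut_diamondAut_x1 M hM4 d
  have hG := matG_mem_Gamma0 (M := M) (p := p) a b hab
  have key : (embInf M p h7 hp hpM a b hab).comp
      ((alpha1 Kbar M p).toRingHom.comp (diamondAut M d).toRingEquiv.toRingHom) =
      (qExpand ℂ (M * p)).comp
        (helper17.toC.comp (algebraMap (F1 M) (LaurentSeries Kbar))) := by
    apply ringHom_ext_T hD1 W hW (Fermat.Agent.T4.helper56.x1Field M)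
    · intro k
      rw [RingHom.comp_apply, RingHom.comp_apply, RingHom.comp_apply, RingHom.comp_apply]
      have e0 : (diamondAut M d).toRingEquiv.toRingHom (algebraMap Kbar (F1 M) k) =
          algebraMap Kbar (F1 M) k := (diamondAut M d).commutes k
      have e1 : (alpha1 Kbar M p).toRingHom (algebraMap Kbar (F1 M) k) =
          algebraMap Kbar (F1p M p) k := (alpha1 Kbar M p).commutes k
      rw [e0, e1, embInf_algebraMap]
      show _ = qExpand ℂ (M * p) (helper17.toC ((algebraMap Kbar (F1 M) k : F1 M) :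
        LaurentSeries Kbar))
      rw [toC_const_h93, qExpand_C]
    · rintro (e | c) y hy
      · -- `j(e τ)`: fixed by the diamond, invariant under `Γ₀(M)`
        have hy' : (y : LaurentSeries Kbar) = coeffEmb Kbar (JdTQ e.1) := hy
        have he0 : e.1 ≠ 0 := ne_zero_of_mem_divisors_h93 e.2
        have heM : e.1 ∣ M := (Nat.mem_divisors.1 e.2).1
        haveI : NeZero e.1 := ⟨he0⟩
        have hmemFF : (y : LaurentSeries Kbar) ∈
            laurentBaseChange Kbar (modularFunctionFieldFull M) := by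
          rw [hy']
          apply coeffEmb_mem_laurentBaseChange
          unfold JdTQ
          rw [dif_neg he0]
          exact jqd_mem_full M heM
        have hfix : diamondAut M d y = y := hσ.1 y hmemFF
        have hmem : e.1 ∈ (M * p).divisors := by
          rw [Nat.mem_divisors]
          exact ⟨heM.trans (dvd_mul_right M p), NeZero.ne (M * p)⟩
        have hα : ((alpha1 Kbar M p y : F1p M p) : LaurentSeries Kbar) =
            coeffEmb Kbar (JdTQ e.1) := by
          rw [coe_alpha1, hy']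
        have h1 := isTExp_embInf_j M p h7 hp hpM a b hab e.1 hmem (alpha1 Kbar M p y) hα
        have hfun : (fun τ => jfunDT e.1 (matG M p a b hab • τ)) = jfunDT e.1 := by
          funext τ
          exact Fermat.Agent.T4.helper17.jfunDT_smul_of_mem_Gamma0 M e.1 e.2 hG τ
        rw [hfun] at h1
        have h2 := isTExp_of_isQExp (helper17.isQExp_jfunDT e.1) (M * p)
        rw [RingHom.comp_apply, RingHom.comp_apply, RingHom.comp_apply, RingHom.comp_apply]
        show embInf M p h7 hp hpM a b hab (alpha1 Kbar M p (diamondAut M d y)) =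
          qExpand ℂ (M * p) (helper17.toC (y : LaurentSeries Kbar))
        rw [hfix, hy', helper77.toC_coeffEmb, coeffEmb_JdTQ]
        exact h1.unique h2
      · -- `s_c`
        have hy' : (y : LaurentSeries Kbar) = coeffEmb Kbar (sSer ℚ M c.1) := hy
        have hyS : y = sEl M c.1 c.2 := Subtype.ext hy'
        have h2' : (2 : ZMod M) ≠ 0 := Fermat.Agent.T4.helper17.two_ne_zero_zmod M (by omega)
        have hd0 : (d : ZMod M) ≠ 0 := Fermat.Agent.T4.helper17.unit_ne_zero M hM4 d
        have hdc : (d : ZMod M) * c.1 ≠ 0 := Fermat.Agent.T4.helper17.unit_mul_ne_zero M d c.2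
        have hd2 : (d : ZMod M) * 2 ≠ 0 := Fermat.Agent.T4.helper17.unit_mul_ne_zero M d h2'
        -- the three expansions
        have hTc := isTExp_embInf_s M p h7 hp hpM a b hab _ hdc
          (alpha1 Kbar M p (sEl M _ hdc)) (by rw [coe_alpha1]; rfl)
        have hTd := isTExp_embInf_s M p h7 hp hpM a b hab _ hd0
          (alpha1 Kbar M p (sEl M _ hd0)) (by rw [coe_alpha1]; rfl)
        have hT2 := isTExp_embInf_s M p h7 hp hpM a b hab _ hd2
          (alpha1 Kbar M p (sEl M _ hd2)) (by rw [coe_alpha1]; rfl)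
        have hB := isTExp_of_isQExp (hD1.isQExp (Sum.inr c)) (M * p)
        have hΔ : ∀ τ : ℍ, sFn M (((matG M p a b hab 0 0 : ℤ) : ZMod M) * 2) τ -
            sFn M ((matG M p a b hab 0 0 : ℤ) : ZMod M) τ ≠ 0 :=
          fun τ => Fermat.Agent.T4.helper14.sFn_den_ne_zero_h14 M hM4 hG τ
        have hf2 := sFn_matG_sub M p a b hab hM4 d hd c.1 c.2
        have hf1 := sFn_matG_sub M p a b hab hM4 d hd 2 h2'
        -- `B * (T₂ - T_d) = T_c - T_d`
        have hprod := (hB.mul (hT2.sub hTd)).unique ((hTc.sub hTd).congr_fun (by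
          funext τ
          simp only [Pi.mul_apply, Pi.sub_apply]
          rw [hf1 τ, hf2 τ, sFn_two_h93 M hM4]
          show _ = (x1Data M).fn (Sum.inr c) τ * _
          show sFn M c.1 τ / _ = sFn M c.1 τ * _
          rw [mul_one_div]))
        -- `T₂ - T_d ≠ 0`
        have hne : embInf M p h7 hp hpM a b hab (alpha1 Kbar M p (sEl M _ hd2)) -
            embInf M p h7 hp hpM a b hab (alpha1 Kbar M p (sEl M _ hd0)) ≠ 0 := by
          intro h0
          have h3 := (hT2.sub hTd).eq_zero_iff.mp h0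
          have h4 := congrFun h3 UpperHalfPlane.I
          simp only [Pi.sub_apply, Pi.zero_apply] at h4
          rw [hf1 UpperHalfPlane.I, sFn_two_h93 M hM4] at h4
          exact one_div_ne_zero (hΔ _) h4
        -- the relation in `F1 M`
        have hSne : (sEl M _ hd2 : F1 M) - sEl M _ hd0 ≠ 0 := by
          intro h0
          apply hne
          rw [← map_sub, ← map_sub, h0, map_zero, map_zero]
        have hSne' : coeffEmb Kbar (sSer ℚ M ((d : ZMod M) * 2)) -
            coeffEmb Kbar (sSer ℚ M (d : ZMod M)) ≠ 0 := by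
          intro h0
          apply hSne
          apply Subtype.ext
          exact h0
        have hz : diamondAut M d y * ((sEl M _ hd2 : F1 M) - sEl M _ hd0) =
            (sEl M _ hdc : F1 M) - sEl M _ hd0 := by
          apply Subtype.ext
          show ((diamondAut M d y : F1 M) : LaurentSeries Kbar) *
            (coeffEmb Kbar (sSer ℚ M ((d : ZMod M) * 2)) -
              coeffEmb Kbar (sSer ℚ M (d : ZMod M))) =
            coeffEmb Kbar (sSer ℚ M ((d : ZMod M) * c.1)) -
              coeffEmb Kbar (sSer ℚ M (d : ZMod M))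
          rw [hyS, hσ.2 c.1 c.2, div_mul_cancel₀ _ hSne']
        have hz' := congrArg (fun t => embInf M p h7 hp hpM a b hab (alpha1 Kbar M p t)) hz
        simp only [map_mul, map_sub] at hz'
        rw [← hprod] at hz'
        have hfin := mul_right_cancel₀ hne hz'
        rw [RingHom.comp_apply, RingHom.comp_apply, RingHom.comp_apply, RingHom.comp_apply]
        show embInf M p h7 hp hpM a b hab (alpha1 Kbar M p (diamondAut M d y)) =
          qExpand ℂ (M * p) (helper17.toC (y : LaurentSeries Kbar))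
        rw [hfin, hy', helper77.toC_coeffEmb]
        rfl
  exact RingHom.congr_fun key x

/-- `E_∞ (α₁ h) = (δ⁻¹ h)(t^(M p))`. -/
theorem embInf_alpha (d : (ZMod M)ˣ) (hd : (d : ZMod M) = (p : ZMod M)) (h : F1 M) :
    haveI := neZero_mul_h93 M p
    embInf M p h7 hp hpM a b hab (alpha1 Kbar M p h) =
      qExpand ℂ (M * p) (helper17.toC (((diamondAut M d).symm h : F1 M) :
        LaurentSeries Kbar)) := by
  haveI := neZero_mul_h93 M p
  have := embInf_alpha_diamond M p h7 hp hpM a b hab d hd ((diamondAut M d).symm h)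
  rwa [AlgEquiv.apply_symm_apply] at this

end Restr

end Fermat.Agent.T4.helper93

end
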