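import Mathlib
import Fermat.Agent.T4.helper21_EsNormAbs
import Fermat.Agent.T4.helper93_ESNorm1b

/-!
# T4 block (I), [ES-NORM1] glue (helper10)

`helper93.embInf` (the exotic embedding, with `embInf_beta` / `embInf_alpha`) is an instance of
`helper21.SwapEmb1Statement`, hence [ES-NORM1] in the forms `helper92.EsNorm1Statement` and
`helper41.EsNorm1Statement`, for every prime `p ∤ M`, `7 ≤ M`.
-/

set_option autoImplicit false
set_option linter.unusedSectionVars false
set_option linter.unusedVariables false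
set_option linter.style.haveILetI false

noncomputable section

namespace Fermat.Agent.T4.helper10

variable (M p : ℕ) [NeZero M] [NeZero p]

/-- **[ES-NORM1-EMB]** the swap embedding exists. -/
theorem swapEmb1 (h7 : 7 ≤ M) (hp : p.Prime) (hpM : ¬ p ∣ M) (d : (ZMod M)ˣ)
    (hd : (d : ZMod M) = (p : ZMod M)) : Fermat.Agent.T4.helper21.SwapEmb1Statement M p d := by
  obtain ⟨a, b, hab⟩ := Fermat.Agent.P2.helper93.exists_bezout_int M p
    ((Nat.Prime.coprime_iff_not_dvd hp).mpr hpM).symm
  exact ⟨M, inferInstance, Fermat.Agent.T4.helper93.embInf M p h7 hp hpM a b hab,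
    Fermat.Agent.T4.helper93.embInf_beta M p h7 hp hpM a b hab,
    Fermat.Agent.T4.helper93.embInf_alpha M p h7 hp hpM a b hab d hd⟩

theorem coe_unitOfPrime (hp : p.Prime) (hpM : ¬ p ∣ M) :
    ((Fermat.Agent.T4.helper4.unitOfPrime M p hp hpM : (ZMod M)ˣ) : ZMod M) = (p : ZMod M) :=
  ZMod.coe_unitOfCoprime p _

/-- **[ES-NORM1]**, `helper92` form (every primitive root). -/
theorem esNorm1 (h7 : 7 ≤ M) (hp : p.Prime) (hpM : ¬ p ∣ M) :
    Fermat.Agent.T4.helper92.EsNorm1Statement M p
      (Fermat.Agent.T4.helper4.unitOfPrime M p hp hpM) :=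
  Fermat.Agent.T4.helper21.esNorm1_of_swapEmb M p h7 hp hpM _
    (swapEmb1 M p h7 hp hpM _ (coe_unitOfPrime M p hp hpM))

/-- **[ES-NORM1]**, `helper41` form (some primitive root). -/
theorem esNorm1' (h7 : 7 ≤ M) (hp : p.Prime) (hpM : ¬ p ∣ M) :
    Fermat.Agent.T4.helper41.EsNorm1Statement M p
      (Fermat.Agent.T4.helper4.unitOfPrime M p hp hpM) :=
  Fermat.Agent.T4.helper21.esNorm1_of_swapEmb' M p h7 hp hpM _
    (swapEmb1 M p h7 hp hpM _ (coe_unitOfPrime M p hp hpM))

end Fermat.Agent.T4.helper10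

end
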