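import Mathlib
import Fermat.Agent.T4.helper10_X1pInst
import Fermat.Agent.T4.helper37_Cusp1Gen
import Fermat.Agent.P2.helper93_TExpLevel
import Fermat.Agent.S24.helper80_LocalEmb

/-!
# T4 block (I), [X1P-CONJ] (helper10): coset embeddings of `F1 M` and `F1p M p`

* `embE` : for a generator system `D` and ANY `E` with `E = D.fieldQ`, the coset embedding
  `laurentBaseChange ℚ̄ E →+* ℂ((t))` (transport of `helper37c.embG1`), with its API;
* `emb1 g : F1 M →+* ℂ((t))` (`t = exp(2πiτ/M)`), `embP g : F1p M p →+* ℂ((t))`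
  (`t = exp(2πiτ/(M p))`);
* `embP_alpha`    : `embP g (α₁ f) = (emb1 g f)(t^p)`;
* `embP_beta_one` : `embP 1 (β₁ f) = f(t^{M p²})`;
* `embP_beta_of`  : `embP g (β₁ f) = emb1 δ⁻¹ f` when `p · g⁻¹ τ = δ (τ / p)`.
-/

set_option autoImplicit false
set_option linter.unusedSectionVars false
set_option linter.unusedVariables false
set_option linter.style.haveILetI false

noncomputable section

open UpperHalfPlane ModularCurve CongruenceSubgroup IntermediateField AlgebraicCurve
open scoped MatrixGroups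

namespace Fermat.Agent.T4.helper10

open Fermat.Agent.S24 hiding Kbar
open Fermat.Agent.S24.helper37
open Fermat.Agent.T4.helper32 Fermat.Agent.T4.helper24 Fermat.Agent.T4.helper37c

/-! ## The coset embeddings of a field equal to the field of a generator system -/

section Generic

variable (D : GenData) (hD : D.IsSys) (W : ℕ) [NeZero W] (hW : Gamma W ≤ D.Γ)
  (E : IntermediateField ℚ (LaurentSeries ℚ)) (hE : E = D.fieldQ)

theorem le_field_of_eq (D : GenData) (E : IntermediateField ℚ (LaurentSeries ℚ))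
    (hE : E = D.fieldQ) : laurentBaseChange Kbar E ≤ D.field Kbar := by
  rw [hE]
  exact le_rfl

/-- the identification of `laurentBaseChange ℚ̄ E` with the field of the system -/
def toSys : laurentBaseChange Kbar E →+* D.field Kbar :=
  (IntermediateField.inclusion (le_field_of_eq D E hE)).toRingHom

theorem toSys_apply (x : laurentBaseChange Kbar E) :
    toSys D E hE x = IntermediateField.inclusion (le_field_of_eq D E hE) x := rfl

theorem coe_toSys (x : laurentBaseChange Kbar E) :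
    ((toSys D E hE x : D.field Kbar) : LaurentSeries Kbar) = (x : LaurentSeries Kbar) := by
  rw [toSys_apply]
  exact IntermediateField.coe_inclusion _ x

theorem toSys_algebraMap (c : Kbar) :
    toSys D E hE (algebraMap Kbar (laurentBaseChange Kbar E) c) =
      algebraMap Kbar (D.field Kbar) c := by
  rw [toSys_apply]
  exact (IntermediateField.inclusion (le_field_of_eq D E hE)).commutes c

theorem toSys_surjective : Function.Surjective (toSys D E hE) := by
  subst hE
  intro y
  exact ⟨y, Subtype.ext (coe_toSys D _ rfl y)⟩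

/-- the coset embedding `f ↦ t-expansion of f ∘ g⁻¹` -/
def embE (g : SL(2, ℤ)) : laurentBaseChange Kbar E →+* LaurentSeries ℂ :=
  (embG1 hD W hW g).comp (toSys D E hE)

theorem embE_apply (g : SL(2, ℤ)) (x : laurentBaseChange Kbar E) :
    embE D hD W hW E hE g x = embG1 hD W hW g (toSys D E hE x) := rfl

theorem embE_algebraMap (g : SL(2, ℤ)) (c : Kbar) :
    embE D hD W hW E hE g (algebraMap Kbar (laurentBaseChange Kbar E) c) =
      HahnSeries.C ((iotaC : Kbar →+* ℂ) c) := by
  rw [embE_apply, toSys_algebraMap, embG1_algebraMap]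

theorem embE_of_ser (g : SL(2, ℤ)) (i : D.I) (x : laurentBaseChange Kbar E)
    (hx : (x : LaurentSeries Kbar) = D.ser Kbar i) :
    embE D hD W hW E hE g x = conjExp1 hD W hW g i := by
  have : toSys D E hE x = D.gen Kbar i := Subtype.ext ((coe_toSys D E hE x).trans hx)
  rw [embE_apply, this, embG1_gen]

theorem embE_one (x : laurentBaseChange Kbar E) :
    embE D hD W hW E hE 1 x = qExpand ℂ W (helper17.toC (x : LaurentSeries Kbar)) := by
  rw [embE_apply, embG1_one, coe_toSys]

theorem embE_T_mul (g : SL(2, ℤ)) (x : laurentBaseChange Kbar E) :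
    embE D hD W hW E hE (ModularGroup.T * g) x =
      rotL (CuspPack.zetaCusp1 W) (embE D hD W hW E hE g x) := by
  rw [embE_apply, embG1_T_mul, embE_apply]

theorem embE_T_pow_mul (k : ℕ) (g : SL(2, ℤ)) (x : laurentBaseChange Kbar E) :
    embE D hD W hW E hE (ModularGroup.T ^ k * g) x =
      rotL (CuspPack.zetaCusp1 W ^ k) (embE D hD W hW E hE g x) := by
  induction k with
  | zero => rw [pow_zero, one_mul, pow_zero, Fermat.Agent.S24.helper80.rotL_one]
  | succ k ih => rw [pow_succ', mul_assoc, embE_T_mul, ih, Fermat.Agent.S24.helper80.rotL_rotL, pow_succ']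

theorem embE_congr {g g' : SL(2, ℤ)} (h : g⁻¹ * g' ∈ D.Γ) :
    embE D hD W hW E hE g' = embE D hD W hW E hE g := by
  unfold embE
  rw [embG1_congr hD W hW h]

theorem embE_eq_iff {g g' : SL(2, ℤ)} :
    embE D hD W hW E hE g = embE D hD W hW E hE g' ↔ g⁻¹ * g' ∈ D.Γ := by
  refine ⟨fun h => ?_, fun h => (embE_congr D hD W hW E hE h).symm⟩
  apply (embG1_eq_iff hD W hW).1
  ext y : 1
  obtain ⟨x, rfl⟩ := toSys_surjective D E hE y
  exact congrArg (fun φ => φ x) h

/-- two ring homomorphisms agreeing on constants and on the generators are equal -/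
theorem ringHom_ext_E (D : GenData) (hD : D.IsSys) (W : ℕ) [NeZero W] (hW : Gamma W ≤ D.Γ)
    (E : IntermediateField ℚ (LaurentSeries ℚ)) (hE : E = D.fieldQ)
    {L : Type*} [Field L] {σ σ' : laurentBaseChange Kbar E →+* L}
    (hc : ∀ c : Kbar, σ (algebraMap Kbar (laurentBaseChange Kbar E) c) =
      σ' (algebraMap Kbar (laurentBaseChange Kbar E) c))
    (hg : ∀ (i : D.I) (x : laurentBaseChange Kbar E),
      (x : LaurentSeries Kbar) = D.ser Kbar i → σ x = σ' x) : σ = σ' := by
  subst hE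
  exact ringHom_ext_gen1 hD W hW hc (fun i => hg i (D.gen Kbar i) rfl)

end Generic

/-! ## The two index maps -/

section Index

variable (M p : ℕ) [NeZero M] [NeZero p]

/-- the index map of `α₁`: `j(d τ) ↦ j(d τ)`, `s_a ↦ s_a` -/
def kapA : (x1Data M).I → (x1pData M p).I
  | Sum.inl d => Sum.inl ⟨d.1, Nat.mem_divisors.2
      ⟨(Nat.mem_divisors.1 d.2).1.trans (dvd_mul_right M p),
        Nat.mul_ne_zero (NeZero.ne M) (NeZero.ne p)⟩⟩
  | Sum.inr a => Sum.inr (Sum.inl a)

/-- the index map of `β₁`: `j(d τ) ↦ j(p d τ)`, `s_a ↦ s_a(p τ)` -/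
def kapB : (x1Data M).I → (x1pData M p).I
  | Sum.inl d => Sum.inl ⟨p * d.1, Nat.mem_divisors.2
      ⟨by rw [mul_comm M p]; exact mul_dvd_mul_left p (Nat.mem_divisors.1 d.2).1,
        Nat.mul_ne_zero (NeZero.ne M) (NeZero.ne p)⟩⟩
  | Sum.inr a => Sum.inr (Sum.inr a)

theorem ser_kapA (i : (x1Data M).I) :
    (x1pData M p).ser Kbar (kapA M p i) = (x1Data M).ser Kbar i := by
  cases i <;> rfl

theorem fn_kapA (i : (x1Data M).I) : (x1pData M p).fn (kapA M p i) = (x1Data M).fn i := by
  cases i <;> rfl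

theorem JdTQ_mul (d : ℕ) (hd : d ≠ 0) : JdTQ (p * d) = qExpand ℚ p (JdTQ d) := by
  haveI : NeZero d := ⟨hd⟩
  have h1 : JdTQ d = qExpand ℚ d jq := by rw [JdTQ, dif_neg hd]
  have h2 : JdTQ (p * d) = qExpand ℚ (p * d) jq := by
    rw [JdTQ, dif_neg (Nat.mul_ne_zero (NeZero.ne p) hd)]
  rw [h1, h2, qExpand_qExpand]

theorem ser_kapB (i : (x1Data M).I) :
    (x1pData M p).ser Kbar (kapB M p i) = qExpand Kbar p ((x1Data M).ser Kbar i) := by
  cases i with
  | inl d =>
    show coeffEmb Kbar (JdTQ (p * d.1)) = qExpand Kbar p (coeffEmb Kbar (JdTQ d.1))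
    rw [JdTQ_mul p d.1 (ne_zero_of_mem_divisors d.2), coeffEmb_qExpand]
  | inr a =>
    show coeffEmb Kbar (qExpand ℚ p (sSer ℚ M a.1)) = qExpand Kbar p (coeffEmb Kbar (sSer ℚ M a.1))
    rw [coeffEmb_qExpand]

theorem scaleH_mul (d : ℕ) [NeZero d] (τ : ℍ) :
    haveI : NeZero (p * d) := ⟨Nat.mul_ne_zero (NeZero.ne p) (NeZero.ne d)⟩
    scaleH (p * d) τ = scaleH d (scaleH p τ) := by
  apply UpperHalfPlane.ext
  rw [helper77.coe_scaleH, helper77.coe_scaleH, helper77.coe_scaleH]
  push_cast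
  ring

theorem jfunDT_mul (d : ℕ) (hd : d ≠ 0) (τ : ℍ) :
    jfunDT (p * d) τ = jfunDT d (scaleH p τ) := by
  haveI : NeZero d := ⟨hd⟩
  haveI : NeZero (p * d) := ⟨Nat.mul_ne_zero (NeZero.ne p) hd⟩
  rw [helper77.jfunDT_of_ne_zero, helper77.jfunDT_of_ne_zero]
  show jfun (scaleH (p * d) τ) = jfun (scaleH d (scaleH p τ))
  rw [scaleH_mul]

theorem fn_kapB (i : (x1Data M).I) (τ : ℍ) :
    (x1pData M p).fn (kapB M p i) τ = (x1Data M).fn i (scaleH p τ) := by
  cases i with
  | inl d => exact jfunDT_mul p d.1 (ne_zero_of_mem_divisors d.2) τ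
  | inr a => rfl

end Index

/-! ## The coset embeddings of `F1 M` and `F1p M p` -/

section X1

variable (M p : ℕ) [NeZero M] [NeZero p] (hS : (x1Data M).IsSys) (hpM : Nat.Coprime p M)

theorem width1 (M : ℕ) [NeZero M] : Gamma M ≤ (x1Data M).Γ := Gamma_le_PG1 M

theorem widthP (M p : ℕ) [NeZero M] [NeZero p] : Gamma (M * p) ≤ (x1pData M p).Γ :=
  Gamma_mul_le_PG1p M p

theorem fieldEq1 (M : ℕ) [NeZero M] : F1Q M = (x1Data M).fieldQ := x1Field M

/-- the coset embedding of `F1 M`: the `t`-expansion of `f ∘ g⁻¹`, `t = exp(2πiτ/M)` -/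
def emb1 (g : SL(2, ℤ)) : F1 M →+* LaurentSeries ℂ :=
  embE (x1Data M) hS M (width1 M) (F1Q M) (fieldEq1 M) g

/-- the coset embedding of `F1p M p`: the `t`-expansion of `f ∘ g⁻¹`, `t = exp(2πiτ/(M p))` -/
def embP (g : SL(2, ℤ)) : F1p M p →+* LaurentSeries ℂ :=
  embE (x1pData M p) (x1pSys_of M p hS hpM) (M * p) (widthP M p) (F1Qp M p)
    (x1pField M p) g

theorem emb1_of_ser (g : SL(2, ℤ)) (i : (x1Data M).I) (x : F1 M)
    (hx : (x : LaurentSeries Kbar) = (x1Data M).ser Kbar i) :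
    emb1 M hS g x = conjExp1 hS M (width1 M) g i :=
  embE_of_ser (x1Data M) hS M (width1 M) (F1Q M) (fieldEq1 M) g i x hx

theorem embP_of_ser (g : SL(2, ℤ)) (i : (x1pData M p).I) (x : F1p M p)
    (hx : (x : LaurentSeries Kbar) = (x1pData M p).ser Kbar i) :
    embP M p hS hpM g x = conjExp1 (x1pSys_of M p hS hpM) (M * p) (widthP M p) g i :=
  embE_of_ser (x1pData M p) (x1pSys_of M p hS hpM) (M * p) (widthP M p) (F1Qp M p)
    (x1pField M p) g i x hx

/-- two ring homomorphisms out of `F1 M` agreeing on constants and generators are equal -/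
theorem ringHom_ext_F1 (M : ℕ) [NeZero M] (hS : (x1Data M).IsSys)
    {L : Type*} [Field L] {σ σ' : F1 M →+* L}
    (hc : ∀ c : Kbar, σ (algebraMap Kbar (F1 M) c) = σ' (algebraMap Kbar (F1 M) c))
    (hg : ∀ (i : (x1Data M).I) (x : F1 M),
      (x : LaurentSeries Kbar) = (x1Data M).ser Kbar i → σ x = σ' x) : σ = σ' :=
  ringHom_ext_E (x1Data M) hS M (width1 M) (F1Q M) (fieldEq1 M) hc hg

/-- two ring homomorphisms out of `F1p M p` agreeing on constants and generators are equal -/
theorem ringHom_ext_F1p (M p : ℕ) [NeZero M] [NeZero p] (hS : (x1Data M).IsSys)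
    (hpM : Nat.Coprime p M) {L : Type*} [Field L] {σ σ' : F1p M p →+* L}
    (hc : ∀ c : Kbar, σ (algebraMap Kbar (F1p M p) c) = σ' (algebraMap Kbar (F1p M p) c))
    (hg : ∀ (i : (x1pData M p).I) (x : F1p M p),
      (x : LaurentSeries Kbar) = (x1pData M p).ser Kbar i → σ x = σ' x) : σ = σ' :=
  ringHom_ext_E (x1pData M p) (x1pSys_of M p hS hpM) (M * p) (widthP M p) (F1Qp M p)
    (x1pField M p) hc hg

theorem emb1_algebraMap (g : SL(2, ℤ)) (c : Kbar) :
    emb1 M hS g (algebraMap Kbar (F1 M) c) = HahnSeries.C ((iotaC : Kbar →+* ℂ) c) :=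
  embE_algebraMap _ _ _ _ _ _ g c

theorem embP_algebraMap (g : SL(2, ℤ)) (c : Kbar) :
    embP M p hS hpM g (algebraMap Kbar (F1p M p) c) = HahnSeries.C ((iotaC : Kbar →+* ℂ) c) :=
  embE_algebraMap _ _ _ _ _ _ g c

theorem emb1_one (f : F1 M) :
    emb1 M hS 1 f = qExpand ℂ M (helper17.toC (f : LaurentSeries Kbar)) :=
  embE_one _ _ _ _ _ _ f

theorem embP_one (f : F1p M p) :
    embP M p hS hpM 1 f = qExpand ℂ (M * p) (helper17.toC (f : LaurentSeries Kbar)) :=
  embE_one _ _ _ _ _ _ f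

theorem emb1_congr {g g' : SL(2, ℤ)} (h : g⁻¹ * g' ∈ PG1 M) : emb1 M hS g' = emb1 M hS g :=
  embE_congr (x1Data M) hS M (width1 M) (F1Q M) (fieldEq1 M) h

theorem embP_congr {g g' : SL(2, ℤ)} (h : g⁻¹ * g' ∈ PG1p M p) :
    embP M p hS hpM g' = embP M p hS hpM g :=
  embE_congr (x1pData M p) (x1pSys_of M p hS hpM) (M * p) (widthP M p) (F1Qp M p)
    (x1pField M p) h

theorem embP_eq_iff {g g' : SL(2, ℤ)} :
    embP M p hS hpM g = embP M p hS hpM g' ↔ g⁻¹ * g' ∈ PG1p M p :=
  embE_eq_iff (x1pData M p) (x1pSys_of M p hS hpM) (M * p) (widthP M p) (F1Qp M p)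
    (x1pField M p)

theorem embP_T_pow_mul (k : ℕ) (g : SL(2, ℤ)) (f : F1p M p) :
    embP M p hS hpM (ModularGroup.T ^ k * g) f =
      rotL (CuspPack.zetaCusp1 (M * p) ^ k) (embP M p hS hpM g f) :=
  embE_T_pow_mul _ _ _ _ _ _ k g f

/-- **restriction along `α₁`** : `embP g (α₁ f) = (emb1 g f)(t^p)` -/
theorem embP_alpha (g : SL(2, ℤ)) (f : F1 M) :
    embP M p hS hpM g (alpha1 Kbar M p f) = qExpand ℂ p (emb1 M hS g f) := by
  have key : (embP M p hS hpM g).comp (alpha1 Kbar M p).toRingHom =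
      (qExpand ℂ p).comp (emb1 M hS g) := by
    apply ringHom_ext_F1 M hS
    · intro c
      rw [RingHom.comp_apply, RingHom.comp_apply]
      have e : (alpha1 Kbar M p).toRingHom (algebraMap Kbar (F1 M) c) =
          algebraMap Kbar (F1p M p) c := (alpha1 Kbar M p).commutes c
      rw [e, embP_algebraMap, emb1_algebraMap, Fermat.Agent.P2.helper93.qExpand_C']
    · intro i x hx
      rw [RingHom.comp_apply, RingHom.comp_apply]
      have hx' : (((alpha1 Kbar M p).toRingHom x : F1p M p) : LaurentSeries Kbar) =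
          (x1pData M p).ser Kbar (kapA M p i) := by
        rw [ser_kapA]
        exact (coe_alpha1 Kbar M p x).trans hx
      rw [embP_of_ser M p hS hpM g (kapA M p i) _ hx', emb1_of_ser M hS g i x hx]
      have h1 := isTExp_conjExp1 (x1pSys_of M p hS hpM) (M * p) (widthP M p) g
        (kapA M p i)
      have h2 := Fermat.Agent.P2.helper93.isTExp_refine
        (isTExp_conjExp1 hS M (width1 M) g i) p
      rw [fn_kapA] at h1
      exact h1.unique h2
  exact congrArg (fun φ => φ f) key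

/-- **`β₁` at the identity coset** : `embP 1 (β₁ f) = f(t^{M p²})` -/
theorem embP_beta_one (f : F1 M) :
    embP M p hS hpM 1 (beta1 Kbar M p f) =
      qExpand ℂ (M * p) (qExpand ℂ p (helper17.toC (f : LaurentSeries Kbar))) := by
  rw [embP_one, coe_beta1]
  congr 1
  exact coeffMap_qExpand _ p _

/-- **`β₁` at a coset with `p · g⁻¹ τ = δ (τ / p)`** : `embP g (β₁ f) = emb1 δ⁻¹ f` -/
theorem embP_beta_of (g δ : SL(2, ℤ))
    (hg : ∀ τ : ℍ, scaleH p (g⁻¹ • τ) = δ • Fermat.Agent.P2.helper93.divH p τ) (f : F1 M) :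
    embP M p hS hpM g (beta1 Kbar M p f) = emb1 M hS δ⁻¹ f := by
  have key : (embP M p hS hpM g).comp (beta1 Kbar M p).toRingHom = emb1 M hS δ⁻¹ := by
    apply ringHom_ext_F1 M hS
    · intro c
      rw [RingHom.comp_apply]
      have e : (beta1 Kbar M p).toRingHom (algebraMap Kbar (F1 M) c) =
          algebraMap Kbar (F1p M p) c := (beta1 Kbar M p).commutes c
      rw [e, embP_algebraMap, emb1_algebraMap]
    · intro i x hx
      rw [RingHom.comp_apply]
      have hx' : (((beta1 Kbar M p).toRingHom x : F1p M p) : LaurentSeries Kbar) =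
          (x1pData M p).ser Kbar (kapB M p i) := by
        rw [ser_kapB, ← hx]
        exact coe_beta1 Kbar M p x
      rw [embP_of_ser M p hS hpM g (kapB M p i) _ hx', emb1_of_ser M hS δ⁻¹ i x hx]
      have h1 := isTExp_conjExp1 (x1pSys_of M p hS hpM) (M * p) (widthP M p) g
        (kapB M p i)
      have h2 := Fermat.Agent.P2.helper93.isTExp_comp_div
        (isTExp_conjExp1 hS M (width1 M) δ⁻¹ i) p
      refine h1.unique (h2.congr_fun ?_)
      funext τ
      rw [fn_kapB, hg, inv_inv]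
  exact congrArg (fun φ => φ f) key

end X1

end Fermat.Agent.T4.helper10

end
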