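import Mathlib
import Fermat.Agent.T4.helper10_X1pConj
import Fermat.Agent.T4.helper17_DiamondX1

/-!
# T4 block (I), [X1P-CONJ] (helper10): the diamond automorphism on the coset embeddings

* `emb1_diamond` : for `δ ∈ Γ₀(M)` with upper left entry `≡ d` and `σ` the diamond automorphism
  `δ_d^*` (`IsDiamondAut M d σ`): `emb1 δ⁻¹ f = emb1 1 (σ f)`, i.e. the `t`-expansion of
  `f ∘ δ` is the `q`-expansion of `σ f` (in `t = q^{1/M}`).
-/

set_option autoImplicit false
set_option linter.unusedSectionVars false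
set_option linter.unusedVariables false
set_option linter.style.haveILetI false

noncomputable section

open UpperHalfPlane ModularCurve CongruenceSubgroup IntermediateField AlgebraicCurve
open scoped MatrixGroups

namespace Fermat.Agent.T4.helper10

open Fermat.Agent.S24 hiding Kbar
open Fermat.Agent.S24.helper37
open Fermat.Agent.T4.helper32 Fermat.Agent.T4.helper24 Fermat.Agent.T4.helper37c

section Diamond

variable (M : ℕ) [NeZero M] (hS : (x1Data M).IsSys)

/-- the `t`-expansion (`t = q^{1/M}`) of `s_b` -/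
def sT (b : ZMod M) : LaurentSeries ℂ :=
  qExpand ℂ M (helper17.toC (coeffEmb Kbar (sSer ℚ M b)))

theorem isTExp_sT (hS : (x1Data M).IsSys) (b : ZMod M) (hb : b ≠ 0) :
    IsTExp M (sT M b) (sFn M b) := by
  have h := Fermat.Agent.P2.helper93.isTExp_of_isQExp (hS.isQExp (Sum.inr ⟨b, hb⟩)) M
  have e : (x1Data M).ser ℂ (Sum.inr ⟨b, hb⟩) = helper17.toC (coeffEmb Kbar (sSer ℚ M b)) :=
    (Fermat.Agent.T4.helper77.toC_coeffEmb (sSer ℚ M b)).symm
  rw [e] at h
  exact h

theorem jd_mem_FF (d : {d : ℕ // d ∈ M.divisors}) :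
    coeffEmb Kbar (JdTQ d.1) ∈ laurentBaseChange Kbar (modularFunctionFieldFull M) := by
  have hd0 : d.1 ≠ 0 := ne_zero_of_mem_divisors d.2
  haveI : NeZero d.1 := ⟨hd0⟩
  have h1 : JdTQ d.1 = qExpand ℚ d.1 jq := by rw [JdTQ, dif_neg hd0]
  rw [h1]
  exact coeffEmb_mem_laurentBaseChange Kbar (jqd_mem_full M (Nat.mem_divisors.1 d.2).1)

/-- **the analytic meaning of the diamond automorphism on the coset embeddings** -/
theorem emb1_diamond (hM : 4 ≤ M) (δ : SL(2, ℤ)) (hδ : δ ∈ Gamma0 M) (d : (ZMod M)ˣ)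
    (hd : ((δ 0 0 : ℤ) : ZMod M) = (d : ZMod M)) (σ : F1 M ≃ₐ[Kbar] F1 M)
    (hσ : IsDiamondAut M d σ) (f : F1 M) :
    emb1 M hS δ⁻¹ f = emb1 M hS 1 (σ f) := by
  have key : emb1 M hS δ⁻¹ = (emb1 M hS 1).comp (σ : F1 M →ₐ[Kbar] F1 M).toRingHom := by
    apply ringHom_ext_F1 M hS
    · intro c
      rw [RingHom.comp_apply]
      have e : (σ : F1 M →ₐ[Kbar] F1 M).toRingHom (algebraMap Kbar (F1 M) c) =
          algebraMap Kbar (F1 M) c := σ.commutes c
      rw [e, emb1_algebraMap, emb1_algebraMap]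
    · intro i x hx
      rw [RingHom.comp_apply]
      have hσx : (σ : F1 M →ₐ[Kbar] F1 M).toRingHom x = σ x := rfl
      rw [hσx]
      cases i with
      | inl e =>
        have hxe : (x : LaurentSeries Kbar) = coeffEmb Kbar (JdTQ e.1) := hx
        have hfix : σ x = x := hσ.1 x (by rw [hxe]; exact jd_mem_FF M e)
        rw [hfix, emb1_of_ser M hS δ⁻¹ (Sum.inl e) x hx, emb1_of_ser M hS 1 (Sum.inl e) x hx]
        have h1 := isTExp_conjExp1 hS M (width1 M) δ⁻¹ (Sum.inl e)
        have h2 := isTExp_conjExp1 hS M (width1 M) 1 (Sum.inl e)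
        refine h1.unique (h2.congr_fun ?_)
        funext τ
        rw [inv_one, one_smul, inv_inv]
        exact (Fermat.Agent.T4.helper17.jfunDT_smul_of_mem_Gamma0 M e.1 e.2 hδ τ).symm
      | inr a =>
        have hxa : (x : LaurentSeries Kbar) = coeffEmb Kbar (sSer ℚ M a.1) := hx
        have hxs : x = sEl M a.1 a.2 := Subtype.ext hxa
        have h2 : (2 : ZMod M) ≠ 0 := Fermat.Agent.T4.helper17.two_ne_zero_zmod M (by omega)
        have hd0 : (d : ZMod M) ≠ 0 := Fermat.Agent.T4.helper17.unit_ne_zero M hM d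
        have hda : (d : ZMod M) * a.1 ≠ 0 := Fermat.Agent.T4.helper17.unit_mul_ne_zero M d a.2
        have hd2 : (d : ZMod M) * 2 ≠ 0 := Fermat.Agent.T4.helper17.unit_mul_ne_zero M d h2
        -- the right-hand side
        have hR : emb1 M hS 1 (σ x) =
            (sT M ((d : ZMod M) * a.1) - sT M (d : ZMod M)) /
              (sT M ((d : ZMod M) * 2) - sT M (d : ZMod M)) := by
          rw [emb1_one, hxs, hσ.2 a.1 a.2, map_div₀, map_div₀, map_sub, map_sub, map_sub,
            map_sub]
          rfl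
        -- the left-hand side
        have hA := isTExp_conjExp1 hS M (width1 M) δ⁻¹ (Sum.inr a)
        have hden := (isTExp_sT M hS _ hd2).sub (isTExp_sT M hS _ hd0)
        have hnum := (isTExp_sT M hS _ hda).sub (isTExp_sT M hS _ hd0)
        have hprod := hA.mul hden
        have hfun : ((fun τ => (x1Data M).fn (Sum.inr a) (δ⁻¹⁻¹ • τ)) *
            (sFn M ((d : ZMod M) * 2) - sFn M (d : ZMod M))) =
            (sFn M ((d : ZMod M) * a.1) - sFn M (d : ZMod M)) := by
          funext τ
          have := Fermat.Agent.T4.helper44.sFn_smul' M hδ hM a.1 a.2 τ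
          rw [hd] at this
          rw [inv_inv]
          exact this
        have heq := (hprod.congr_fun hfun).unique hnum
        have hne : sT M ((d : ZMod M) * 2) - sT M (d : ZMod M) ≠ 0 := by
          intro h0
          have h3 := (hden.eq_zero_iff).1 h0
          have h4 := congrFun h3 UpperHalfPlane.I
          simp only [Pi.sub_apply, Pi.zero_apply] at h4
          exact Fermat.Agent.T4.helper17.sFn_ne M hM d UpperHalfPlane.I (sub_eq_zero.1 h4)
        rw [hR, emb1_of_ser M hS δ⁻¹ (Sum.inr a) x hx, eq_div_iff hne]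
        exact heq
  rw [key]
  rfl

end Diamond

end Fermat.Agent.T4.helper10

end
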