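import Mathlib
import Fermat.Agent.T4.helper10_X1pDiam
import Fermat.Agent.P2.helper93_ESNorm

/-!
# T4 block (I), [X1P-CONJ] (helper10): the `p + 1` conjugates of `β₁ f` over `α₁ (F1 M)` and the
norm formula along `α₁`

For a prime `p ∤ M`, `σ = δ_p^*` the diamond automorphism of the unit `p mod M`, `f ∈ F1 M` and
`ζ ∈ ℚ̄` a primitive `p`-th root of unity:

  `N_{F1p / α₁ F1}(β₁ f)(q^p) = f(q^{p²}) · ∏_{k<p} (σ f)(ζ^k q)`     (`es_norm_alpha`)

The `p + 1` embeddings of `F1p M p` over `α₁ (F1 M)` are `embP 1` and `embP (T^k g₀)`, `k < p`,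
`g₀⁻¹ = [1, e; M, p d'] ∈ Γ₁(M)`; their values on `β₁ f` are `f(t^{M p²})` and
`(σ f)(ξ^k t^M)`.
-/

set_option autoImplicit false
set_option linter.unusedSectionVars false
set_option linter.unusedVariables false
set_option linter.style.haveILetI false

noncomputable section

open UpperHalfPlane ModularCurve CongruenceSubgroup IntermediateField AlgebraicCurve
open scoped MatrixGroups

namespace Fermat.Agent.T4.helper10

open Fermat.Agent.S24 hiding Kbar
open Fermat.Agent.S24.helper37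
open Fermat.Agent.T4.helper32 Fermat.Agent.T4.helper24 Fermat.Agent.T4.helper37c
open Fermat.Agent.P2.helper93 (twistL toC_twistL rotL_qExpand prod_pow_primitiveRoot
  norm_eq_prod_of_embeddings exists_bezout_int divH coe_divH)

/-! ## The matrices -/

section Matrices

variable (M p : ℕ) [NeZero M] [NeZero p]

/-- `g₀⁻¹ = [1, e; M, p d']` -/
def gInv (d' e : ℤ) (h : d' * p - e * M = 1) : SL(2, ℤ) :=
  ⟨!![1, e; (M : ℤ), p * d'], by rw [Matrix.det_fin_two_of]; linear_combination h⟩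

/-- `δ = [p, e; M, d']` -/
def dMat (d' e : ℤ) (h : d' * p - e * M = 1) : SL(2, ℤ) :=
  ⟨!![(p : ℤ), e; (M : ℤ), d'], by rw [Matrix.det_fin_two_of]; linear_combination h⟩

variable {M p}

theorem gInv_mem_Gamma1 (d' e : ℤ) (h : d' * p - e * M = 1) : gInv M p d' e h ∈ Gamma1 M := by
  rw [Gamma1_mem]
  refine ⟨?_, ?_, ?_⟩
  · show (((1 : ℤ) : ℤ) : ZMod M) = 1
    simp
  · show ((((p : ℤ) * d' : ℤ)) : ZMod M) = 1
    have e1 : (p : ℤ) * d' = 1 + e * M := by linear_combination h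
    rw [e1]
    push_cast
    simp
  · show (((M : ℤ) : ℤ) : ZMod M) = 0
    simp

theorem dMat_mem_Gamma0 (d' e : ℤ) (h : d' * p - e * M = 1) : dMat M p d' e h ∈ Gamma0 M := by
  rw [Gamma0_mem]
  show (((M : ℤ) : ℤ) : ZMod M) = 0
  simp

theorem dMat_00 (d' e : ℤ) (h : d' * p - e * M = 1) : (dMat M p d' e h) 0 0 = p := rfl

theorem scaleH_gInv (d' e : ℤ) (h : d' * p - e * M = 1) (τ : ℍ) :
    scaleH p (gInv M p d' e h • τ) = dMat M p d' e h • divH p τ := by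
  apply UpperHalfPlane.ext
  rw [helper77.coe_scaleH, helper77.coe_SL_smul, helper77.coe_SL_smul, coe_divH]
  have h1 := helper77.SL_denom_ne_zero (gInv M p d' e h) τ
  have h2 := helper77.SL_denom_ne_zero (dMat M p d' e h) (divH p τ)
  rw [coe_divH] at h2
  have a00 : (gInv M p d' e h) 0 0 = 1 := rfl
  have a01 : (gInv M p d' e h) 0 1 = e := rfl
  have a10 : (gInv M p d' e h) 1 0 = M := rfl
  have a11 : (gInv M p d' e h) 1 1 = p * d' := rfl
  have b00 : (dMat M p d' e h) 0 0 = p := rfl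
  have b01 : (dMat M p d' e h) 0 1 = e := rfl
  have b10 : (dMat M p d' e h) 1 0 = M := rfl
  have b11 : (dMat M p d' e h) 1 1 = d' := rfl
  rw [a10, a11] at h1
  rw [b10, b11] at h2
  rw [a00, a01, a10, a11, b00, b01, b10, b11]
  have hp : (p : ℂ) ≠ 0 := by exact_mod_cast NeZero.ne p
  push_cast at h1 h2 ⊢
  have h3 : (M : ℂ) * ((τ : ℂ) / p) + d' = ((M : ℂ) * τ + p * d') / p := by
    field_simp
  rw [h3] at h2 ⊢
  have h4 : (M : ℂ) * τ + p * d' ≠ 0 := h1
  field_simp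

end Matrices

/-! ## The family of `p + 1` embeddings -/

section Family

variable (M p : ℕ) [NeZero M] [NeZero p] (hS : (x1Data M).IsSys) (hpM : Nat.Coprime p M)

/-- the primitive `p`-th root of unity `exp(-2πi/p)`, as `zetaCusp1 (M p) ^ M` -/
def xi1 : ℂ := CuspPack.zetaCusp1 (M * p) ^ M

theorem isPrimitiveRoot_xi1 : IsPrimitiveRoot (xi1 M p) p :=
  (CuspPack.isPrimitiveRoot_zetaCusp1 (M := M * p)).pow
    (Nat.pos_of_ne_zero (NeZero.ne (M * p))) rfl

/-- the family of `p + 1` embeddings of `F1p M p` -/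
def embFam1 (g₀ : SL(2, ℤ)) : Option (Fin p) → (F1p M p →+* LaurentSeries ℂ)
  | none => embP M p hS hpM 1
  | some k => embP M p hS hpM (ModularGroup.T ^ (k : ℕ) * g₀)

theorem T_mem_Gamma1 (N : ℕ) : ModularGroup.T ∈ Gamma1 N := by
  rw [Gamma1_mem]
  simp [ModularGroup.T]

variable {M p}

theorem emb1_of_mem_Gamma1 {g : SL(2, ℤ)} (hg : g ∈ Gamma1 M) : emb1 M hS g = emb1 M hS 1 :=
  emb1_congr M hS (by rw [inv_one, one_mul]; exact Gamma1_le_PG1 M hg)

theorem embFam1_alpha {g₀ : SL(2, ℤ)} (hg₀ : g₀ ∈ Gamma1 M) (i : Option (Fin p)) (f : F1 M) :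
    embFam1 M p hS hpM g₀ i (alpha1 Kbar M p f) = qExpand ℂ p (emb1 M hS 1 f) := by
  cases i with
  | none => exact embP_alpha M p hS hpM 1 f
  | some k =>
    show embP M p hS hpM (ModularGroup.T ^ (k : ℕ) * g₀) (alpha1 Kbar M p f) = _
    rw [embP_alpha, emb1_of_mem_Gamma1 hS (mul_mem (pow_mem (T_mem_Gamma1 M) _) hg₀)]

theorem embFam1_beta_none (g₀ : SL(2, ℤ)) (f : F1 M) :
    embFam1 M p hS hpM g₀ none (beta1 Kbar M p f)
      = qExpand ℂ M (qExpand ℂ (p * p) (helper17.toC (f : LaurentSeries Kbar))) := by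
  show embP M p hS hpM 1 (beta1 Kbar M p f) = _
  rw [embP_beta_one, qExpand_qExpand, qExpand_qExpand]
  exact qExpand_congr (by ring) _

/-- the values of the twisted embeddings on `β₁ f`, in terms of the expansion at the coset
of `δ⁻¹` -/
theorem embFam1_beta_some (g₀ δ : SL(2, ℤ))
    (hg : ∀ τ : ℍ, scaleH p (g₀⁻¹ • τ) = δ • divH p τ) (k : Fin p) (f : F1 M) :
    embFam1 M p hS hpM g₀ (some k) (beta1 Kbar M p f)
      = rotL (CuspPack.zetaCusp1 (M * p) ^ (k : ℕ)) (emb1 M hS δ⁻¹ f) := by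
  show embP M p hS hpM (ModularGroup.T ^ (k : ℕ) * g₀) (beta1 Kbar M p f) = _
  rw [embP_T_pow_mul, embP_beta_of M p hS hpM g₀ δ hg]

/-- the values of the twisted embeddings on `β₁ f`: `(σ f)(ξ^k t^M)` -/
theorem embFam1_beta_some' (hM : 4 ≤ M) (g₀ δ : SL(2, ℤ))
    (hg : ∀ τ : ℍ, scaleH p (g₀⁻¹ • τ) = δ • divH p τ) (hδ : δ ∈ Gamma0 M) (d : (ZMod M)ˣ)
    (hd : ((δ 0 0 : ℤ) : ZMod M) = (d : ZMod M)) (σ : F1 M ≃ₐ[Kbar] F1 M)
    (hσ : IsDiamondAut M d σ) (k : Fin p) (f : F1 M) :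
    embFam1 M p hS hpM g₀ (some k) (beta1 Kbar M p f)
      = qExpand ℂ M (rotL (xi1 M p ^ (k : ℕ))
          (helper17.toC ((σ f : F1 M) : LaurentSeries Kbar))) := by
  rw [embFam1_beta_some hS hpM g₀ δ hg, emb1_diamond M hS hM δ hδ d hd σ hσ, emb1_one,
    rotL_qExpand, xi1, pow_right_comm]

/-! ### Injectivity of the family (test function `j`) -/

theorem coeff_toC_jF1 :
    (helper17.toC ((jF1 M : F1 M) : LaurentSeries Kbar)).coeff (-1) = 1 := by
  rw [coe_jF1, Fermat.Agent.T4.helper77.toC_coeffEmb, helper17.coeffEmb_jq ℂ,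
    coeff_jqModC_neg_one]

theorem jF1_mem_FF :
    ((jF1 M : F1 M) : LaurentSeries Kbar) ∈
      laurentBaseChange Kbar (modularFunctionFieldFull M) :=
  coeffEmb_mem_laurentBaseChange Kbar
    (IntermediateField.subset_adjoin ℚ _
      ⟨1, ⟨one_ne_zero⟩, one_dvd M, (qExpand_one_apply jq).symm⟩)

theorem coeff_embFam1_none (hp2 : 2 ≤ p) (g₀ : SL(2, ℤ)) :
    (embFam1 M p hS hpM g₀ none (beta1 Kbar M p (jF1 M))).coeff (-(M : ℤ)) = 0 := by
  rw [embFam1_beta_none]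
  have h : (-(M : ℤ)) = (M : ℤ) * (-1) := by ring
  rw [h, qExpand_coeff_mul]
  apply qExpand_coeff_of_not_dvd
  rintro ⟨c, hc⟩
  have h1 : ((p * p : ℕ) : ℤ) ∣ 1 := ⟨-c, by rw [mul_neg, ← hc]; ring⟩
  have h2 := Int.natCast_dvd_natCast.mp (by simpa using h1 : ((p * p : ℕ) : ℤ) ∣ ((1 : ℕ) : ℤ))
  have h3 := Nat.le_of_dvd one_pos h2
  nlinarith

theorem coeff_embFam1_some (hM : 4 ≤ M) (g₀ δ : SL(2, ℤ))
    (hg : ∀ τ : ℍ, scaleH p (g₀⁻¹ • τ) = δ • divH p τ) (hδ : δ ∈ Gamma0 M) (d : (ZMod M)ˣ)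
    (hd : ((δ 0 0 : ℤ) : ZMod M) = (d : ZMod M)) (σ : F1 M ≃ₐ[Kbar] F1 M)
    (hσ : IsDiamondAut M d σ) (k : Fin p) :
    (embFam1 M p hS hpM g₀ (some k) (beta1 Kbar M p (jF1 M))).coeff (-(M : ℤ))
      = (xi1 M p ^ (k : ℕ))⁻¹ := by
  rw [embFam1_beta_some' hS hpM hM g₀ δ hg hδ d hd σ hσ, hσ.1 (jF1 M) jF1_mem_FF]
  have h : (-(M : ℤ)) = (M : ℤ) * (-1) := by ring
  rw [h, qExpand_coeff_mul, rotL_coeff, coeff_toC_jF1, mul_one, zpow_neg_one]

theorem embFam1_injective (hp2 : 2 ≤ p) (hM : 4 ≤ M) (g₀ δ : SL(2, ℤ))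
    (hg : ∀ τ : ℍ, scaleH p (g₀⁻¹ • τ) = δ • divH p τ) (hδ : δ ∈ Gamma0 M) (d : (ZMod M)ˣ)
    (hd : ((δ 0 0 : ℤ) : ZMod M) = (d : ZMod M)) (σ : F1 M ≃ₐ[Kbar] F1 M)
    (hσ : IsDiamondAut M d σ) :
    Function.Injective (embFam1 M p hS hpM g₀) := by
  have hξ := isPrimitiveRoot_xi1 M p
  have hne : ∀ k : ℕ, (xi1 M p ^ k)⁻¹ ≠ 0 := fun k =>
    inv_ne_zero (pow_ne_zero _ (hξ.ne_zero (NeZero.ne p)))
  intro a b hab
  have hab' := congrArg (fun φ : F1p M p →+* LaurentSeries ℂ =>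
    (φ (beta1 Kbar M p (jF1 M))).coeff (-(M : ℤ))) hab
  beta_reduce at hab'
  cases a with
  | none =>
    cases b with
    | none => rfl
    | some k =>
      rw [coeff_embFam1_none hS hpM hp2, coeff_embFam1_some hS hpM hM g₀ δ hg hδ d hd σ hσ]
        at hab'
      exact absurd hab'.symm (hne _)
  | some k =>
    cases b with
    | none =>
      rw [coeff_embFam1_none hS hpM hp2, coeff_embFam1_some hS hpM hM g₀ δ hg hδ d hd σ hσ]
        at hab'
      exact absurd hab' (hne _)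
    | some k' =>
      rw [coeff_embFam1_some hS hpM hM g₀ δ hg hδ d hd σ hσ,
        coeff_embFam1_some hS hpM hM g₀ δ hg hδ d hd σ hσ, inv_inj] at hab'
      have := hξ.pow_inj k.2 k'.2 hab'
      exact congrArg some (Fin.ext this)

end Family

/-! ## The norm formula along `α₁` -/

section Norm

variable (M p : ℕ) [NeZero M] [NeZero p]

/-- existence of the coset representative `g₀` and of the matrix `δ` -/
theorem exists_g0_delta (hpM : Nat.Coprime p M) :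
    ∃ g₀ δ : SL(2, ℤ), g₀ ∈ Gamma1 M ∧ δ ∈ Gamma0 M ∧ δ 0 0 = p ∧
      ∀ τ : ℍ, scaleH p (g₀⁻¹ • τ) = δ • divH p τ := by
  obtain ⟨a, b, hab⟩ := exists_bezout_int M p hpM.symm
  refine ⟨(gInv M p a b hab)⁻¹, dMat M p a b hab, inv_mem (gInv_mem_Gamma1 a b hab),
    dMat_mem_Gamma0 a b hab, dMat_00 a b hab, fun τ => ?_⟩
  rw [inv_inv]
  exact scaleH_gInv a b hab τ

set_option synthInstance.maxHeartbeats 200000 in
/-- **Norm formula along `α₁`, complex coefficients.** -/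
theorem es_norm_alpha_complex (hS : (x1Data M).IsSys) (hM : 4 ≤ M) (hp : p.Prime)
    (hpM : ¬ p ∣ M) (d : (ZMod M)ˣ) (hd : (d : ZMod M) = (p : ZMod M))
    (σ : F1 M ≃ₐ[Kbar] F1 M) (hσ : IsDiamondAut M d σ) (f : F1 M) :
    letI := algebraAlong (alpha1 Kbar M p)
    qExpand ℂ p (helper17.toC
        ((Algebra.norm (F1 M) (beta1 Kbar M p f) : F1 M) : LaurentSeries Kbar))
      = qExpand ℂ (p * p) (helper17.toC (f : LaurentSeries Kbar)) *
          ∏ k ∈ Finset.range p,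
            rotL (xi1 M p ^ k) (helper17.toC ((σ f : F1 M) : LaurentSeries Kbar)) := by
  letI := algebraAlong (alpha1 Kbar M p)
  letI : Module (F1 M) (F1p M p) := Algebra.toModule
  have hfr := finrank_alpha1 M p hS hp hpM
  haveI fd : FiniteDimensional (F1 M) (F1p M p) :=
    Module.finite_of_finrank_pos (by rw [hfr]; omega)
  haveI : Algebra.IsSeparable (F1 M) (F1p M p) := inferInstance
  have hcop : Nat.Coprime p M := (Nat.Prime.coprime_iff_not_dvd hp).mpr hpM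
  obtain ⟨g₀, δ, hg₀, hδ, hδ00, hg⟩ := exists_g0_delta M p hcop
  have hd' : ((δ 0 0 : ℤ) : ZMod M) = (d : ZMod M) := by
    rw [hδ00, hd]
    simp
  have key := norm_eq_prod_of_embeddings (F := F1 M) (E := F1p M p)
    ((qExpand ℂ p).comp (emb1 M hS 1)) (embFam1 M p hS hcop g₀)
    (embFam1_injective hS hcop hp.two_le hM g₀ δ hg hδ d hd' σ hσ)
    (fun i => RingHom.ext fun f => embFam1_alpha hS hcop hg₀ i f)
    (by rw [Fintype.card_option, Fintype.card_fin, hfr]) (beta1 Kbar M p f)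
  rw [Fintype.prod_option, embFam1_beta_none] at key
  simp_rw [embFam1_beta_some' hS hcop hM g₀ δ hg hδ d hd' σ hσ] at key
  rw [Fin.prod_univ_eq_prod_range
    (fun k => qExpand ℂ M (rotL (xi1 M p ^ k)
      (helper17.toC ((σ f : F1 M) : LaurentSeries Kbar)))) p,
    RingHom.comp_apply, emb1_one, qExpand_qExpand, ← map_prod, ← map_mul] at key
  apply qExpand_injective M
  rw [qExpand_qExpand, ← key]
  exact qExpand_congr (mul_comm _ _) _

/-- **[ES-NORM1], `α`-order**: the norm formula for the transposed Hecke correspondence of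
`X₁(M)` at a prime `p ∤ M`, in `q`-series form:
`N_{F1p/α₁F1}(β₁ f)(q^p) = f(q^{p²}) · ∏_{k<p} (σ f)(ζ^k q)`, `σ = δ_p^*`. -/
theorem es_norm_alpha (hS : (x1Data M).IsSys) (hM : 4 ≤ M) (hp : p.Prime) (hpM : ¬ p ∣ M)
    (d : (ZMod M)ˣ) (hd : (d : ZMod M) = (p : ZMod M))
    (σ : F1 M ≃ₐ[Kbar] F1 M) (hσ : IsDiamondAut M d σ)
    (ζ : Kbar) (hζ : IsPrimitiveRoot ζ p) (f : F1 M) :
    letI := algebraAlong (alpha1 Kbar M p)
    qExpand Kbar p
        ((Algebra.norm (F1 M) (beta1 Kbar M p f) : F1 M) : LaurentSeries Kbar)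
      = qExpand Kbar (p * p) (f : LaurentSeries Kbar) *
          ∏ k ∈ Finset.range p, twistL (ζ ^ k) ((σ f : F1 M) : LaurentSeries Kbar) := by
  letI := algebraAlong (alpha1 Kbar M p)
  apply helper17.toC_injective
  have hq : ∀ (n : ℕ) [NeZero n] (x : LaurentSeries Kbar),
      helper17.toC (qExpand Kbar n x) = qExpand ℂ n (helper17.toC x) :=
    fun n _ x => coeffMap_qExpand _ n x
  rw [map_mul, map_prod, hq, hq]
  simp_rw [toC_twistL, map_pow]
  rw [prod_pow_primitiveRoot (hζ.map_of_injective (iotaC : Kbar →+* ℂ).injective)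
    (isPrimitiveRoot_xi1 M p)
    (fun c => rotL c (helper17.toC ((σ f : F1 M) : LaurentSeries Kbar)))]
  exact es_norm_alpha_complex M p hS hM hp hpM d hd σ hσ f

end Norm

end Fermat.Agent.T4.helper10

end
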