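import Mathlib
import Fermat.Agent.T4.helper80_EndgameDefs

/-!
# T4 block (IV), leaf [IV-FIN] (helper11, row 985)

`fin : helper80.FinStatement`: if the `a p` (`p ∤ N` prime) are the images of integers `α p` of
a number field `K` and every conjugate system `τ ∘ α` satisfies the Rankin bound, then for
every `η > 0` the `a p` lie in a finite set `Y` for all primes `p ∤ N` outside a set `X` of upper
Dirichlet density at most `η`.

Proof: `r` = number of embeddings of `K`, `c := r / η`,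
`Y := ι '' {x integral | ∀ τ, ‖τ x‖ ≤ √c}` (finite, `NumberField.Embeddings.finite_of_norm_le`),
`X := {p prime, p ∤ N, a p ∉ Y}`; for `p ∈ X` some `τ` has `‖τ (α p)‖² > c`, so
`p^(-s) ≤ (1/c) ∑_τ ‖τ (α p)‖² p^(-s)`, and the sum of the `r` Rankin bounds gives
`primeMass X s ≤ η log (1/(s-1)) + η C`.
-/

set_option autoImplicit false

open scoped BigOperators

namespace Fermat.Agent.T4.helper11

open Fermat.Agent.T4.helper80

/-- The summand of `primeMass`. -/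
noncomputable def massTerm (X : Set ℕ) (s : ℝ) (p : ℕ) : ℝ :=
  Set.indicator {p : ℕ | p.Prime ∧ p ∈ X} (fun p : ℕ => (p : ℝ) ^ (-s)) p

lemma primeMass_eq (X : Set ℕ) (s : ℝ) : primeMass X s = ∑' p : ℕ, massTerm X s p := rfl

lemma massTerm_nonneg (X : Set ℕ) (s : ℝ) (p : ℕ) : 0 ≤ massTerm X s p := by
  unfold massTerm
  apply Set.indicator_nonneg
  intro q _
  exact Real.rpow_nonneg (Nat.cast_nonneg q) _

lemma rankinTerm_nonneg (N : ℕ) (b : ℕ → ℂ) (s : ℝ) (p : ℕ) : 0 ≤ rankinTerm N b s p := by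
  unfold rankinTerm
  apply Set.indicator_nonneg
  intro q _
  exact mul_nonneg (sq_nonneg _) (Real.rpow_nonneg (Nat.cast_nonneg q) _)

/-- The pointwise comparison: if every `p ∈ X` (prime) is prime to `N` and has some index `τ`
with `c < ‖b τ p‖²`, then `c * massTerm ≤ ∑_τ rankinTerm`. -/
lemma mul_massTerm_le {ι : Type} [Fintype ι] (N : ℕ) (b : ι → ℕ → ℂ) (X : Set ℕ) (c : ℝ)
    (hX : ∀ p ∈ X, p.Prime → ¬ p ∣ N ∧ ∃ τ, c < ‖b τ p‖ ^ 2) (s : ℝ) (p : ℕ) :
    c * massTerm X s p ≤ ∑ τ, rankinTerm N (b τ) s p := by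
  have hsum_nonneg : 0 ≤ ∑ τ, rankinTerm N (b τ) s p :=
    Finset.sum_nonneg fun τ _ => rankinTerm_nonneg N (b τ) s p
  by_cases hp : p.Prime ∧ p ∈ X
  · obtain ⟨hN, τ, hτ⟩ := hX p hp.2 hp.1
    have h1 : massTerm X s p = (p : ℝ) ^ (-s) := by
      unfold massTerm
      rw [Set.indicator_of_mem (show p ∈ {p : ℕ | p.Prime ∧ p ∈ X} from hp)]
    have h2 : rankinTerm N (b τ) s p = ‖b τ p‖ ^ 2 * (p : ℝ) ^ (-s) := by
      unfold rankinTerm
      rw [Set.indicator_of_mem (show p ∈ {p : ℕ | p.Prime ∧ ¬ p ∣ N} from ⟨hp.1, hN⟩)]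
    have h3 : rankinTerm N (b τ) s p ≤ ∑ τ, rankinTerm N (b τ) s p :=
      Finset.single_le_sum (fun τ _ => rankinTerm_nonneg N (b τ) s p) (Finset.mem_univ τ)
    have h4 : 0 ≤ (p : ℝ) ^ (-s) := Real.rpow_nonneg (Nat.cast_nonneg p) _
    calc c * massTerm X s p = c * (p : ℝ) ^ (-s) := by rw [h1]
      _ ≤ ‖b τ p‖ ^ 2 * (p : ℝ) ^ (-s) := mul_le_mul_of_nonneg_right hτ.le h4
      _ = rankinTerm N (b τ) s p := h2.symm
      _ ≤ _ := h3
  · have h1 : massTerm X s p = 0 := by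
      unfold massTerm
      rw [Set.indicator_of_notMem (show p ∉ {p : ℕ | p.Prime ∧ p ∈ X} from hp)]
    rw [h1, mul_zero]
    exact hsum_nonneg

/-- The abstract density estimate: finitely many Rankin bounds dominate the mass of `X`. -/
theorem upperDensityLE_of_rankin {ι : Type} [Fintype ι] [Nonempty ι] (N : ℕ)
    (b : ι → ℕ → ℂ) (hb : ∀ τ, RankinBound N (b τ)) (X : Set ℕ) (η : ℝ) (hη : 0 < η)
    (hX : ∀ p ∈ X, p.Prime →
      ¬ p ∣ N ∧ ∃ τ, (Fintype.card ι : ℝ) / η < ‖b τ p‖ ^ 2) :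
    UpperDensityLE X η := by
  classical
  set r : ℝ := (Fintype.card ι : ℝ) with hr
  have hr0 : 0 < r := by
    rw [hr]
    exact_mod_cast Fintype.card_pos
  set c : ℝ := r / η with hc
  have hc0 : 0 < c := div_pos hr0 hη
  choose C hC using hb
  -- a common constant
  obtain ⟨Cm, hCm⟩ : ∃ Cm : ℝ, 0 ≤ Cm ∧ ∀ τ, C τ ≤ Cm := by
    refine ⟨∑ τ, |C τ|, Finset.sum_nonneg fun τ _ => abs_nonneg _, fun τ => ?_⟩
    exact (le_abs_self _).trans
      (Finset.single_le_sum (f := fun τ => |C τ|) (fun τ _ => abs_nonneg _) (Finset.mem_univ τ))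
  obtain ⟨hCm0, hCm⟩ := hCm
  -- the key bound for `1 < s < 2`
  have key : ∀ s : ℝ, 1 < s → s < 2 →
      primeMass X s ≤ η * Real.log (1 / (s - 1)) + η * Cm := by
    intro s hs1 hs2
    have hsumm : ∀ τ, Summable (rankinTerm N (b τ) s) := fun τ => (hC τ s hs1 hs2).1
    have hle : ∀ τ, ∑' p : ℕ, rankinTerm N (b τ) s p ≤ Real.log (1 / (s - 1)) + Cm :=
      fun τ => ((hC τ s hs1 hs2).2).trans (by linarith [hCm τ])
    have hsummS : Summable (fun p : ℕ => ∑ τ, rankinTerm N (b τ) s p) :=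
      summable_sum fun τ _ => hsumm τ
    have hpt : ∀ p : ℕ, massTerm X s p ≤ c⁻¹ * ∑ τ, rankinTerm N (b τ) s p := by
      intro p
      have := mul_massTerm_le N b X c hX s p
      rw [← div_eq_inv_mul, le_div_iff₀ hc0, mul_comm]
      exact this
    have hsummM : Summable (massTerm X s) :=
      Summable.of_nonneg_of_le (massTerm_nonneg X s) hpt (hsummS.mul_left _)
    have h1 : primeMass X s ≤ ∑' p : ℕ, c⁻¹ * ∑ τ, rankinTerm N (b τ) s p := by
      rw [primeMass_eq]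
      exact hsummM.tsum_le_tsum hpt (hsummS.mul_left _)
    have h2 : ∑' p : ℕ, c⁻¹ * ∑ τ, rankinTerm N (b τ) s p =
        c⁻¹ * ∑ τ, ∑' p : ℕ, rankinTerm N (b τ) s p := by
      rw [tsum_mul_left, Summable.tsum_finsetSum fun τ _ => hsumm τ]
    have h3 : ∑ τ, ∑' p : ℕ, rankinTerm N (b τ) s p ≤ r * (Real.log (1 / (s - 1)) + Cm) := by
      calc ∑ τ, ∑' p : ℕ, rankinTerm N (b τ) s p
          ≤ ∑ _τ : ι, (Real.log (1 / (s - 1)) + Cm) := Finset.sum_le_sum fun τ _ => hle τ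
        _ = r * (Real.log (1 / (s - 1)) + Cm) := by
          rw [Finset.sum_const, Finset.card_univ, nsmul_eq_mul]
    have h4 : c⁻¹ * (r * (Real.log (1 / (s - 1)) + Cm)) =
        η * Real.log (1 / (s - 1)) + η * Cm := by
      rw [hc]
      field_simp
    calc primeMass X s ≤ c⁻¹ * ∑ τ, ∑' p : ℕ, rankinTerm N (b τ) s p := h1.trans h2.le
      _ ≤ c⁻¹ * (r * (Real.log (1 / (s - 1)) + Cm)) :=
        mul_le_mul_of_nonneg_left h3 (inv_nonneg.mpr hc0.le)
      _ = _ := h4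
  -- conclusion
  intro ε hε
  refine ⟨min 1 (Real.exp (-(η * Cm / ε))), lt_min one_pos (Real.exp_pos _), ?_⟩
  intro s hs1 hs
  have hs2 : s < 2 := by
    have := min_le_left (1 : ℝ) (Real.exp (-(η * Cm / ε)))
    linarith
  have hs3 : s - 1 < Real.exp (-(η * Cm / ε)) := by
    have := min_le_right (1 : ℝ) (Real.exp (-(η * Cm / ε)))
    linarith
  have hpos : 0 < s - 1 := by linarith
  have hlog : η * Cm / ε ≤ Real.log (1 / (s - 1)) := by
    rw [one_div, Real.log_inv]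
    have h5 : Real.log (s - 1) < -(η * Cm / ε) := by
      have := Real.log_lt_log hpos hs3
      rwa [Real.log_exp] at this
    linarith
  have h6 : η * Cm ≤ ε * Real.log (1 / (s - 1)) := by
    have := mul_le_mul_of_nonneg_left hlog hε.le
    rwa [mul_div_cancel₀ _ hε.ne'] at this
  calc primeMass X s ≤ η * Real.log (1 / (s - 1)) + η * Cm := key s hs1 hs2
    _ ≤ η * Real.log (1 / (s - 1)) + ε * Real.log (1 / (s - 1)) := by linarith
    _ = (η + ε) * Real.log (1 / (s - 1)) := by ring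

/-- **[IV-FIN]** -/
theorem fin : FinStatement := by
  classical
  intro N a hR η hη
  obtain ⟨K, hKf, hKn, ι, α, hα, hτ⟩ := hR
  letI : Field K := hKf
  haveI : NumberField K := hKn
  haveI : Nonempty (K →+* ℂ) := ⟨ι⟩
  set c : ℝ := (Fintype.card (K →+* ℂ) : ℝ) / η with hc
  have hfin : {x : K | IsIntegral ℤ x ∧ ∀ φ : K →+* ℂ, ‖φ x‖ ≤ Real.sqrt c}.Finite :=
    NumberField.Embeddings.finite_of_norm_le K ℂ (Real.sqrt c)
  set Y : Finset ℂ := (hfin.toFinset).image ι with hY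
  set X : Set ℕ := {p : ℕ | p.Prime ∧ ¬ p ∣ N ∧ a p ∉ Y} with hXdef
  refine ⟨Y, X, ?_, ?_⟩
  · apply upperDensityLE_of_rankin N (fun (τ : K →+* ℂ) (p : ℕ) => τ (α p : K)) hτ X η hη
    rintro p ⟨hp, hpN, hpY⟩ -
    refine ⟨hpN, ?_⟩
    by_contra hcon
    have hcon : ∀ τ : K →+* ℂ, ‖τ (α p : K)‖ ^ 2 ≤ c := fun τ =>
      not_lt.mp fun h => hcon ⟨τ, h⟩
    apply hpY
    rw [hY, Finset.mem_image]
    refine ⟨(α p : K), ?_, hα p hp hpN⟩
    rw [Set.Finite.mem_toFinset]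
    refine ⟨(α p).2, fun φ => ?_⟩
    have h1 : ‖φ (α p : K)‖ ^ 2 ≤ c := hcon φ
    calc ‖φ (α p : K)‖ = Real.sqrt (‖φ (α p : K)‖ ^ 2) := (Real.sqrt_sq (norm_nonneg _)).symm
      _ ≤ Real.sqrt c := Real.sqrt_le_sqrt h1
  · intro p hp hpN hpX
    by_contra hcon
    exact hpX ⟨hp, hpN, hcon⟩

end Fermat.Agent.T4.helper11
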