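import Mathlib
import Fermat.Prelude.Def_GaloisRep_Residual
import Fermat.Prelude.Def_Deformations_MatrixRepresentation

/-!
# T4 block (IV), Deligne–Serre endgame: interface (Props only), helper99

Chain (Deligne–Serre §§5–8, no Dickson, no completions):

* inputs from the other blocks: `ResStatement` (blocks I + III + V: residual representations
  for infinitely many `ℓ`), `ChebDensityStatement` (block II: lower Dirichlet density of
  Frobenius classes), `RankinStatement` (helper39), `ConjStatement` (block V: the Galois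
  conjugates of the eigensystem are eigensystems of cusp forms of the same level);
* `FinStatement` (DS 5.5) from `RankinStatement` + `ConjStatement`;
* `GroupStatement` (Mathlib only): semisimple subgroups of `GL₂(k)`, `char k = ℓ` large, with few
  characteristic polynomials on a subset of density `≥ 23/24` are of bounded order prime to `ℓ`;
* lifting to characteristic zero + independence of `ℓ` + irreducibility (Rankin + Chebotarev):
  `S48Statement`.
-/

set_option autoImplicit false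

open CongruenceSubgroup
open scoped MatrixGroups

namespace Fermat.Agent.T4.helper99

local notation "Γℚ" => (AlgebraicClosure ℚ ≃ₐ[ℚ] AlgebraicClosure ℚ)
local notation "Qbar" => AlgebraicClosure ℚ
local notation "Zbar" => integralClosure ℤ ℂ

/-- The hypotheses of the frozen S48 on `(N, ε, f)`: `a₁ = 1` and the formal Hecke relations
at the primes `p ∤ N`. -/
def IsEigenSystem (N : ℕ) [NeZero N] (ε : DirichletCharacter ℂ N)
    (f : CuspForm (Gamma1 N) 1) : Prop :=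
  ModularFormClass.qCoeff f 1 = 1 ∧
  ∀ p : ℕ, p.Prime → ¬ p ∣ N → ∀ n : ℕ,
    ModularFormClass.qCoeff f (p * n) +
        ε (p : ZMod N) * (if p ∣ n then ModularFormClass.qCoeff f (n / p) else 0) =
      ModularFormClass.qCoeff f p * ModularFormClass.qCoeff f n

/-- `∑_{p ∈ X} p^{-s}` over the primes in `X`. -/
noncomputable def primeSum (X : Set ℕ) (s : ℝ) : ℝ :=
  ∑' p : Nat.Primes, Set.indicator X (fun n : ℕ => (n : ℝ) ^ (-s)) (p : ℕ)

/-- `∑_p w(p) p^{-s}` over all primes. -/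
noncomputable def wPrimeSum (w : ℕ → ℝ) (s : ℝ) : ℝ :=
  ∑' p : Nat.Primes, w (p : ℕ) * ((p : ℕ) : ℝ) ^ (-s)

/-- `X` has upper Dirichlet density `≤ η`. -/
def UpperDensityLE (X : Set ℕ) (η : ℝ) : Prop :=
  ∀ e : ℝ, 0 < e → ∃ δ : ℝ, 0 < δ ∧ ∀ s : ℝ, 1 < s → s < 1 + δ →
    primeSum X s ≤ (η + e) * Real.log (1 / (s - 1))

/-- The primes `p` at which `ρ` is unramified with a Frobenius in `C`. -/
def frobSet {G : Type*} [Monoid G] (ρ : Γℚ →* G) (C : Set G) : Set ℕ :=
  {p | p.Prime ∧ ∃ (A : ValuationSubring Qbar) (σ : Γℚ), A.LiesOverPrime p ∧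
      (∀ τ ∈ A.inertiaSubgroupIn ℚ, ρ τ = 1) ∧ A.IsFrobeniusAt σ p ∧ ρ σ ∈ C}

/-- **Input from block (II)**: Chebotarev, lower Dirichlet density form, for
conjugation-stable subsets of a finite quotient of `Γℚ`. -/
def ChebDensityStatement : Prop :=
  ∀ (G : Type) [Group G] [Finite G] (ρ : Γℚ →* G), Function.Surjective ρ →
    GaloisFactorsThroughFiniteLevel ρ →
    ∀ C : Set G, (∀ g h : G, g ∈ C → h * g * h⁻¹ ∈ C) →
    ∀ e : ℝ, 0 < e → ∃ δ : ℝ, 0 < δ ∧ ∀ s : ℝ, 1 < s → s < 1 + δ →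
      ((Nat.card C : ℝ) / Nat.card G - e) * Real.log (1 / (s - 1)) ≤ primeSum (frobSet ρ C) s

/-- The property of a residual representation `ρ` over `k` (with `φ : ℤ̄ → k`) of being attached
to the eigensystem of `f` away from `N ℓ`. -/
def IsResidualFor (N : ℕ) [NeZero N] (ε : DirichletCharacter ℂ N) (f : CuspForm (Gamma1 N) 1)
    (ℓ : ℕ) {k : Type} [Field k] (φ : Zbar →+* k) (ρ : Γℚ →* GL (Fin 2) k) : Prop :=
  GaloisFactorsThroughFiniteLevel ρ ∧
  ∀ p : ℕ, p.Prime → ¬ p ∣ N → p ≠ ℓ →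
    ∀ A : ValuationSubring Qbar, A.LiesOverPrime p →
      (∀ σ ∈ A.inertiaSubgroupIn ℚ, ρ σ = 1) ∧
      ∀ σ : Γℚ, A.IsFrobeniusAt σ p →
        ∃ a e : Zbar, (a : ℂ) = ModularFormClass.qCoeff f p ∧ (e : ℂ) = ε (p : ZMod N) ∧
          ((ρ σ : GL (Fin 2) k) : Matrix (Fin 2) (Fin 2) k).trace = φ a ∧
          ((ρ σ : GL (Fin 2) k) : Matrix (Fin 2) (Fin 2) k).det = φ e

/-- **Input from blocks (I) + (III) + (V)**: residual representations for infinitely many `ℓ`
(any field `k` of characteristic `ℓ` receiving `ℤ̄`; no semisimplicity required: block (IV)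
semisimplifies itself). -/
def ResStatement : Prop :=
  ∀ (N : ℕ) [NeZero N] (ε : DirichletCharacter ℂ N) (f : CuspForm (Gamma1 N) 1),
    IsEigenSystem N ε f → ∀ B : ℕ, ∃ ℓ : ℕ, B < ℓ ∧ ℓ.Prime ∧
      ∃ (k : Type) (_ : Field k) (_ : CharP k ℓ) (φ : Zbar →+* k) (ρ : Γℚ →* GL (Fin 2) k),
        IsResidualFor N ε f ℓ φ ρ

/-- **Rankin bound** (helper39): `∑_{p ∤ N} |a_p|² p^{-s} ≤ log (1/(s-1)) + C` on `(1, 2]`. -/
def RankinStatement : Prop :=
  ∀ (N : ℕ) [NeZero N] (ε : DirichletCharacter ℂ N) (f : CuspForm (Gamma1 N) 1),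
    IsEigenSystem N ε f → ∃ C : ℝ, ∀ s : ℝ, 1 < s → s ≤ 2 →
      Summable (fun p : Nat.Primes =>
        (if (p : ℕ) ∣ N then 0 else ‖ModularFormClass.qCoeff f p‖ ^ 2) * ((p : ℕ) : ℝ) ^ (-s)) ∧
      wPrimeSum (fun p => if p ∣ N then 0 else ‖ModularFormClass.qCoeff f p‖ ^ 2) s ≤
        Real.log (1 / (s - 1)) + C

/-- **Input from block (V)**: the eigenvalues `a_p` (`p ∤ N`) are algebraic integers of bounded
degree and their conjugates are again eigenvalues of eigensystems of cusp forms of level `N`: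
there are finitely many eigensystems `g 0 = f, g 1, …, g r` such that for every prime `p ∤ N`
the polynomial `∏ i, (X - a_p (g i))` has integer coefficients. -/
def ConjStatement : Prop :=
  ∀ (N : ℕ) [NeZero N] (ε : DirichletCharacter ℂ N) (f : CuspForm (Gamma1 N) 1),
    IsEigenSystem N ε f →
    ∃ (r : ℕ) (g : Fin (r + 1) → CuspForm (Gamma1 N) 1)
      (ε' : Fin (r + 1) → DirichletCharacter ℂ N),
      g 0 = f ∧ (∀ i, IsEigenSystem N (ε' i) (g i)) ∧
      ∀ p : ℕ, p.Prime → ¬ p ∣ N → ∃ P : Polynomial ℤ,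
        P.map (Int.castRingHom ℂ) =
          ∏ i, (Polynomial.X - Polynomial.C (ModularFormClass.qCoeff (g i) p))

/-- **DS 5.5**: off a set of primes of arbitrarily small upper density the `a_p` take finitely
many values. -/
def FinStatement : Prop :=
  ∀ (N : ℕ) [NeZero N] (ε : DirichletCharacter ℂ N) (f : CuspForm (Gamma1 N) 1),
    IsEigenSystem N ε f → ∀ η : ℝ, 0 < η →
    ∃ (Y : Finset ℂ) (X : Set ℕ), UpperDensityLE X η ∧
      ∀ p : ℕ, p.Prime → ¬ p ∣ N → p ∉ X → ModularFormClass.qCoeff f p ∈ Y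

/-- `G` stabilises a line of `k²`. -/
def StabilisesLine {k : Type*} [Field k] (G : Subgroup (GL (Fin 2) k)) : Prop :=
  ∃ v : Fin 2 → k, v ≠ 0 ∧ ∀ g ∈ G, ∃ c : k,
    ((g : GL (Fin 2) k) : Matrix (Fin 2) (Fin 2) k).mulVec v = c • v

/-- **The group lemma** (Mathlib only): uniformly in `ℓ > A(M)` and in the field `k` of
characteristic `ℓ`, a finite subgroup `G` of `GL₂(k)` which is irreducible or of order prime to
`ℓ`, and which has a subset `H` with `24 |G ∖ H| ≤ |G|` on which `(tr, det)` takes at most `M`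
values, is of order `≤ A(M)` (and of order prime to `ℓ`). -/
def GroupStatement : Prop :=
  ∀ M : ℕ, ∃ A : ℕ, ∀ (k : Type) [Field k] (ℓ : ℕ) [CharP k ℓ], ℓ.Prime → A < ℓ →
    ∀ (G : Subgroup (GL (Fin 2) k)) [Finite G],
      (StabilisesLine G → ¬ ℓ ∣ Nat.card G) →
      ∀ H : Set (GL (Fin 2) k), H ⊆ (G : Set (GL (Fin 2) k)) →
        24 * Nat.card ((G : Set (GL (Fin 2) k)) \ H : Set (GL (Fin 2) k)) ≤ Nat.card G →
        (∃ S : Finset (k × k), S.card ≤ M ∧ ∀ g ∈ H,
          (((g : GL (Fin 2) k) : Matrix (Fin 2) (Fin 2) k).trace,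
            ((g : GL (Fin 2) k) : Matrix (Fin 2) (Fin 2) k).det) ∈ S) →
        Nat.card G ≤ A ∧ ¬ ℓ ∣ Nat.card G

/-- **Bounded images** (DS §7): the images of the residual representations attached to `f` are
of bounded order, prime to `ℓ`, for `ℓ` large. -/
def ImgStatement : Prop :=
  ∀ (N : ℕ) [NeZero N] (ε : DirichletCharacter ℂ N) (f : CuspForm (Gamma1 N) 1),
    IsEigenSystem N ε f → ∃ A : ℕ, ∀ B : ℕ, ∃ ℓ : ℕ, B < ℓ ∧ ℓ.Prime ∧
      ∃ (k : Type) (_ : Field k) (_ : CharP k ℓ) (φ : Zbar →+* k) (ρ : Γℚ →* GL (Fin 2) k),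
        IsResidualFor N ε f ℓ φ ρ ∧ Nat.card ρ.range ≤ A ∧ ¬ ℓ ∣ Nat.card ρ.range

/-- The conclusion of the frozen S48 for `(N, ε, f)`, for a given `ρ`, away from a finite set
`S` of primes. -/
def IsAttachedAway (N : ℕ) [NeZero N] (ε : DirichletCharacter ℂ N) (f : CuspForm (Gamma1 N) 1)
    (S : Finset ℕ) (ρ : Γℚ →* GL (Fin 2) ℂ) : Prop :=
  GaloisFactorsThroughFiniteLevel ρ ∧
  ∀ p : ℕ, p.Prime → ¬ p ∣ N → p ∉ S →
    ∀ A : ValuationSubring Qbar, A.LiesOverPrime p →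
      (∀ σ ∈ A.inertiaSubgroupIn ℚ, ρ σ = 1) ∧
      ∀ σ : Γℚ, A.IsFrobeniusAt σ p →
        ((ρ σ : GL (Fin 2) ℂ) : Matrix (Fin 2) (Fin 2) ℂ).trace = ModularFormClass.qCoeff f p ∧
        ((ρ σ : GL (Fin 2) ℂ) : Matrix (Fin 2) (Fin 2) ℂ).det = ε (p : ZMod N)

/-- **Lifting + independence of `ℓ`** (DS §8): for every bound `B` there is a prime `ℓ > B` and
a complex representation attached to `f` away from `ℓ`. -/
def LiftStatement : Prop :=
  ∀ (N : ℕ) [NeZero N] (ε : DirichletCharacter ℂ N) (f : CuspForm (Gamma1 N) 1),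
    IsEigenSystem N ε f → ∀ B : ℕ, ∃ ℓ : ℕ, B < ℓ ∧ ℓ.Prime ∧
      ∃ ρ : Γℚ →* GL (Fin 2) ℂ, IsAttachedAway N ε f {ℓ} ρ

/-- **Gluing two primes**: a complex representation attached to `f` at all `p ∤ N`. -/
def GlueStatement : Prop :=
  ∀ (N : ℕ) [NeZero N] (ε : DirichletCharacter ℂ N) (f : CuspForm (Gamma1 N) 1),
    IsEigenSystem N ε f → ∃ ρ : Γℚ →* GL (Fin 2) ℂ, IsAttachedAway N ε f ∅ ρ

/-- **Irreducibility** (Rankin + Chebotarev): an attached representation is irreducible. -/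
def IrrStatement : Prop :=
  ∀ (N : ℕ) [NeZero N] (ε : DirichletCharacter ℂ N) (f : CuspForm (Gamma1 N) 1),
    IsEigenSystem N ε f → ∀ ρ : Γℚ →* GL (Fin 2) ℂ, IsAttachedAway N ε f ∅ ρ →
      (Deformation.matrixRepresentation ρ).IsIrreducible

/-- The frozen S48, as a Prop. -/
def S48Statement : Prop :=
  ∀ (N : ℕ) [NeZero N] (ε : DirichletCharacter ℂ N) (f : CuspForm (Gamma1 N) 1)
    (_ : ModularFormClass.qCoeff f 1 = 1)
    (_ : ∀ p : ℕ, p.Prime → ¬ p ∣ N → ∀ n : ℕ,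
        ModularFormClass.qCoeff f (p * n) +
            ε (p : ZMod N) * (if p ∣ n then ModularFormClass.qCoeff f (n / p) else 0) =
          ModularFormClass.qCoeff f p * ModularFormClass.qCoeff f n),
    ∃ ρ : Γℚ →* GL (Fin 2) ℂ, GaloisFactorsThroughFiniteLevel ρ ∧
      (Deformation.matrixRepresentation ρ).IsIrreducible ∧
      ∀ p : ℕ, p.Prime → ¬ p ∣ N →
        ∀ A : ValuationSubring (AlgebraicClosure ℚ), A.LiesOverPrime p →
          (∀ σ ∈ A.inertiaSubgroupIn ℚ, ρ σ = 1) ∧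
          ∀ σ : Γℚ, A.IsFrobeniusAt σ p →
            ((ρ σ : GL (Fin 2) ℂ) : Matrix (Fin 2) (Fin 2) ℂ).trace =
              ModularFormClass.qCoeff f p ∧
            ((ρ σ : GL (Fin 2) ℂ) : Matrix (Fin 2) (Fin 2) ℂ).det = ε (p : ZMod N)

/-- Final wiring: the frozen S48 from gluing and irreducibility. -/
theorem s48_of_glue_irr (hG : GlueStatement) (hI : IrrStatement) : S48Statement := by
  intro N _ ε f hf₁ hT
  obtain ⟨ρ, hρ⟩ := hG N ε f ⟨hf₁, hT⟩
  refine ⟨ρ, hρ.1, hI N ε f ⟨hf₁, hT⟩ ρ hρ, fun p hp hpN A hA => ?_⟩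
  exact hρ.2 p hp hpN (Finset.notMem_empty p) A hA

end Fermat.Agent.T4.helper99
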