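import Mathlib
import Fermat.Agent.T4.helper99_DSDefs

/-!
# T4 block (IV), leaf FIN in the shapes of `helper99_DSDefs` (helper11)

`fin99 : helper99.RankinStatement → helper99.ConjStatement → helper99.FinStatement`
(Deligne–Serre 5.5): the eigenvalues `a_p` of a weight one eigensystem take finitely many values
off a set of primes of arbitrarily small upper Dirichlet density.

Proof: let `g 0 = f, …, g r` be the conjugate eigensystems, `d := r + 1`, `c := d / η`.  If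
`‖a_p (g i)‖² ≤ c` for all `i` then the integer polynomial `∏ (X - a_p (g i))` has bounded
coefficients, so `a_p (f)` is a root of one of finitely many integer polynomials (the set `Y`).
Otherwise `p^(-s) ≤ c⁻¹ ∑ i, ‖a_p (g i)‖² p^(-s)`, and the sum of the `d` Rankin bounds gives
the density estimate.
-/

set_option autoImplicit false

open scoped BigOperators
open Polynomial

namespace Fermat.Agent.T4.helper11

open Fermat.Agent.T4.helper99

/-- The summand of `helper99.primeSum`. -/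
noncomputable def massTerm99 (X : Set ℕ) (s : ℝ) (p : Nat.Primes) : ℝ :=
  Set.indicator X (fun n : ℕ => (n : ℝ) ^ (-s)) (p : ℕ)

lemma primeSum_eq99 (X : Set ℕ) (s : ℝ) : primeSum X s = ∑' p : Nat.Primes, massTerm99 X s p :=
  rfl

lemma massTerm99_nonneg (X : Set ℕ) (s : ℝ) (p : Nat.Primes) : 0 ≤ massTerm99 X s p := by
  unfold massTerm99
  apply Set.indicator_nonneg
  intro q _
  exact Real.rpow_nonneg (Nat.cast_nonneg q) _

/-- The abstract density estimate (prime-indexed sums): finitely many Rankin bounds dominate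
the mass of `X`. -/
theorem upperDensityLE99_of_rankin {ι : Type} [Fintype ι] [Nonempty ι] (w : ι → ℕ → ℝ)
    (hw0 : ∀ τ p, 0 ≤ w τ p)
    (hb : ∀ τ, ∃ C : ℝ, ∀ s : ℝ, 1 < s → s ≤ 2 →
      Summable (fun p : Nat.Primes => w τ (p : ℕ) * ((p : ℕ) : ℝ) ^ (-s)) ∧
      wPrimeSum (w τ) s ≤ Real.log (1 / (s - 1)) + C)
    (X : Set ℕ) (η : ℝ) (hη : 0 < η)
    (hX : ∀ p : Nat.Primes, (p : ℕ) ∈ X → ∃ τ, (Fintype.card ι : ℝ) / η < w τ (p : ℕ)) :
    UpperDensityLE X η := by
  classical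
  set r : ℝ := (Fintype.card ι : ℝ) with hr
  have hr0 : 0 < r := by
    rw [hr]
    exact_mod_cast Fintype.card_pos
  set c : ℝ := r / η with hc
  have hc0 : 0 < c := div_pos hr0 hη
  choose C hC using hb
  obtain ⟨Cm, hCm0, hCm⟩ : ∃ Cm : ℝ, 0 ≤ Cm ∧ ∀ τ, C τ ≤ Cm := by
    refine ⟨∑ τ, |C τ|, Finset.sum_nonneg fun τ _ => abs_nonneg _, fun τ => ?_⟩
    exact (le_abs_self _).trans
      (Finset.single_le_sum (f := fun τ => |C τ|) (fun τ _ => abs_nonneg _) (Finset.mem_univ τ))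
  have hterm0 : ∀ (τ : ι) (s : ℝ) (p : Nat.Primes), 0 ≤ w τ (p : ℕ) * ((p : ℕ) : ℝ) ^ (-s) :=
    fun τ s p => mul_nonneg (hw0 τ p) (Real.rpow_nonneg (Nat.cast_nonneg _) _)
  have key : ∀ s : ℝ, 1 < s → s < 2 →
      primeSum X s ≤ η * Real.log (1 / (s - 1)) + η * Cm := by
    intro s hs1 hs2
    have hsumm : ∀ τ, Summable (fun p : Nat.Primes => w τ (p : ℕ) * ((p : ℕ) : ℝ) ^ (-s)) :=
      fun τ => (hC τ s hs1 hs2.le).1
    have hle : ∀ τ, ∑' p : Nat.Primes, w τ (p : ℕ) * ((p : ℕ) : ℝ) ^ (-s) ≤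
        Real.log (1 / (s - 1)) + Cm :=
      fun τ => ((hC τ s hs1 hs2.le).2).trans (by linarith [hCm τ])
    have hsummS : Summable (fun p : Nat.Primes => ∑ τ, w τ (p : ℕ) * ((p : ℕ) : ℝ) ^ (-s)) :=
      summable_sum fun τ _ => hsumm τ
    have hpt : ∀ p : Nat.Primes,
        massTerm99 X s p ≤ c⁻¹ * ∑ τ, w τ (p : ℕ) * ((p : ℕ) : ℝ) ^ (-s) := by
      intro p
      have hsum_nonneg : 0 ≤ ∑ τ, w τ (p : ℕ) * ((p : ℕ) : ℝ) ^ (-s) :=
        Finset.sum_nonneg fun τ _ => hterm0 τ s p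
      rw [← div_eq_inv_mul, le_div_iff₀ hc0]
      by_cases hp : (p : ℕ) ∈ X
      · obtain ⟨τ, hτ⟩ := hX p hp
        have h1 : massTerm99 X s p = ((p : ℕ) : ℝ) ^ (-s) := by
          unfold massTerm99
          rw [Set.indicator_of_mem hp]
        have h4 : 0 ≤ ((p : ℕ) : ℝ) ^ (-s) := Real.rpow_nonneg (Nat.cast_nonneg _) _
        calc massTerm99 X s p * c = c * ((p : ℕ) : ℝ) ^ (-s) := by rw [h1, mul_comm]
          _ ≤ w τ (p : ℕ) * ((p : ℕ) : ℝ) ^ (-s) := mul_le_mul_of_nonneg_right hτ.le h4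
          _ ≤ _ := Finset.single_le_sum (f := fun τ => w τ (p : ℕ) * ((p : ℕ) : ℝ) ^ (-s))
            (fun τ _ => hterm0 τ s p) (Finset.mem_univ τ)
      · have h1 : massTerm99 X s p = 0 := by
          unfold massTerm99
          rw [Set.indicator_of_notMem hp]
        rw [h1, zero_mul]
        exact hsum_nonneg
    have hsummM : Summable (massTerm99 X s) :=
      Summable.of_nonneg_of_le (massTerm99_nonneg X s) hpt (hsummS.mul_left _)
    have h1 : primeSum X s ≤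
        ∑' p : Nat.Primes, c⁻¹ * ∑ τ, w τ (p : ℕ) * ((p : ℕ) : ℝ) ^ (-s) := by
      rw [primeSum_eq99]
      exact hsummM.tsum_le_tsum hpt (hsummS.mul_left _)
    have h2 : ∑' p : Nat.Primes, c⁻¹ * ∑ τ, w τ (p : ℕ) * ((p : ℕ) : ℝ) ^ (-s) =
        c⁻¹ * ∑ τ, ∑' p : Nat.Primes, w τ (p : ℕ) * ((p : ℕ) : ℝ) ^ (-s) := by
      rw [tsum_mul_left, Summable.tsum_finsetSum fun τ _ => hsumm τ]
    have h3 : ∑ τ, ∑' p : Nat.Primes, w τ (p : ℕ) * ((p : ℕ) : ℝ) ^ (-s) ≤
        r * (Real.log (1 / (s - 1)) + Cm) := by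
      calc ∑ τ, ∑' p : Nat.Primes, w τ (p : ℕ) * ((p : ℕ) : ℝ) ^ (-s)
          ≤ ∑ _τ : ι, (Real.log (1 / (s - 1)) + Cm) := Finset.sum_le_sum fun τ _ => hle τ
        _ = r * (Real.log (1 / (s - 1)) + Cm) := by
          rw [Finset.sum_const, Finset.card_univ, nsmul_eq_mul]
    have h4 : c⁻¹ * (r * (Real.log (1 / (s - 1)) + Cm)) =
        η * Real.log (1 / (s - 1)) + η * Cm := by
      rw [hc]
      field_simp
    calc primeSum X s
        ≤ c⁻¹ * ∑ τ, ∑' p : Nat.Primes, w τ (p : ℕ) * ((p : ℕ) : ℝ) ^ (-s) := h1.trans h2.le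
      _ ≤ c⁻¹ * (r * (Real.log (1 / (s - 1)) + Cm)) :=
        mul_le_mul_of_nonneg_left h3 (inv_nonneg.mpr hc0.le)
      _ = _ := h4
  intro ε hε
  refine ⟨min 1 (Real.exp (-(η * Cm / ε))), lt_min one_pos (Real.exp_pos _), ?_⟩
  intro s hs1 hs
  have hs2 : s < 2 := by
    have := min_le_left (1 : ℝ) (Real.exp (-(η * Cm / ε)))
    linarith
  have hs3 : s - 1 < Real.exp (-(η * Cm / ε)) := by
    have := min_le_right (1 : ℝ) (Real.exp (-(η * Cm / ε)))
    linarith
  have hpos : 0 < s - 1 := by linarith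
  have hlog : η * Cm / ε ≤ Real.log (1 / (s - 1)) := by
    rw [one_div, Real.log_inv]
    have h5 : Real.log (s - 1) < -(η * Cm / ε) := by
      have := Real.log_lt_log hpos hs3
      rwa [Real.log_exp] at this
    linarith
  have h6 : η * Cm ≤ ε * Real.log (1 / (s - 1)) := by
    have := mul_le_mul_of_nonneg_left hlog hε.le
    rwa [mul_div_cancel₀ _ hε.ne'] at this
  calc primeSum X s ≤ η * Real.log (1 / (s - 1)) + η * Cm := key s hs1 hs2
    _ ≤ η * Real.log (1 / (s - 1)) + ε * Real.log (1 / (s - 1)) := by linarith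
    _ = (η + ε) * Real.log (1 / (s - 1)) := by ring

/-- A complex number all of whose "conjugates" `z i` (the roots of a monic integer polynomial of
degree `d`) have norm at most `B` is a root of an integer polynomial of degree `≤ d` with
coefficients in `[-C, C]`, `C = ⌈max B 1 ^ d * d.choose (d / 2)⌉`. -/
lemma mem_roots_of_bounded {d : ℕ} (z : Fin d → ℂ) (P : ℤ[X])
    (hP : P.map (Int.castRingHom ℂ) = ∏ i, (X - C (z i))) (B : ℝ) (hz : ∀ i, ‖z i‖ ≤ B)
    (i₀ : Fin d) :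
    ∃ f : ℤ[X], (f.natDegree ≤ d ∧ ∀ i, f.coeff i ∈
        Set.Icc (-(Nat.ceil (max B 1 ^ d * d.choose (d / 2)) : ℤ))
          (Nat.ceil (max B 1 ^ d * d.choose (d / 2)) : ℤ)) ∧
      z i₀ ∈ ((f.map (Int.castRingHom ℂ)).roots.toFinset : Set ℂ) := by
  classical
  have hinj : Function.Injective (Int.castRingHom ℂ) := Int.cast_injective
  have hmonic' : (∏ i, (X - C (z i)) : ℂ[X]).Monic :=
    monic_prod_of_monic _ _ fun i _ => monic_X_sub_C (z i)
  have hmonic : P.Monic := monic_of_injective hinj (hP ▸ hmonic')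
  have hdeg : P.natDegree = d := by
    rw [← natDegree_map_eq_of_injective hinj, hP,
      natDegree_prod_of_monic _ _ fun i _ => monic_X_sub_C (z i)]
    simp
  have hroots : ∀ y ∈ (P.map (Int.castRingHom ℂ)).roots, ‖y‖ ≤ B := by
    intro y hy
    have hy' := (mem_roots'.mp hy).2
    rw [IsRoot.def, hP, eval_prod] at hy'
    obtain ⟨i, -, hi⟩ := Finset.prod_eq_zero_iff.mp hy'
    rw [eval_sub, eval_X, eval_C, sub_eq_zero] at hi
    rw [hi]
    exact hz i
  refine ⟨P, ⟨hdeg.le, fun i => ?_⟩, ?_⟩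
  · have hb := coeff_bdd_of_roots_le (Int.castRingHom ℂ) hmonic (IsAlgClosed.splits _) hdeg.le
      hroots i
    rw [coeff_map, eq_intCast, Complex.norm_intCast] at hb
    have hb' : |((P.coeff i : ℤ) : ℝ)| ≤ (Nat.ceil (max B 1 ^ d * d.choose (d / 2)) : ℝ) :=
      hb.trans (Nat.le_ceil _)
    rw [Set.mem_Icc, ← abs_le]
    have : ((|P.coeff i| : ℤ) : ℝ) ≤ ((Nat.ceil (max B 1 ^ d * d.choose (d / 2)) : ℤ) : ℝ) := by
      rw [Int.cast_abs]
      exact_mod_cast hb'
    exact_mod_cast this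
  · rw [Finset.mem_coe, Multiset.mem_toFinset, mem_roots']
    refine ⟨(hP ▸ hmonic').ne_zero, ?_⟩
    rw [IsRoot.def, hP, eval_prod]
    apply Finset.prod_eq_zero (Finset.mem_univ i₀)
    rw [eval_sub, eval_X, eval_C, sub_self]

/-- **FIN** (Deligne–Serre 5.5) in the shapes of `helper99_DSDefs`. -/
theorem fin99 (hR : RankinStatement) (hCj : ConjStatement) : FinStatement := by
  classical
  intro N _ ε f hf η hη
  obtain ⟨r, g, ε', hg0, hg, hP⟩ := hCj N ε f hf
  set c : ℝ := (Fintype.card (Fin (r + 1)) : ℝ) / η with hc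
  set B : ℝ := Real.sqrt c with hB
  set Cc : ℕ := Nat.ceil (max B 1 ^ (r + 1) * (r + 1).choose ((r + 1) / 2)) with hCc
  have hfin := bUnion_roots_finite (Int.castRingHom ℂ) (r + 1) (Set.finite_Icc (-(Cc : ℤ)) (Cc : ℤ))
  set Y : Finset ℂ := hfin.toFinset with hY
  set X : Set ℕ := {p : ℕ | p.Prime ∧ ¬ p ∣ N ∧ ModularFormClass.qCoeff f p ∉ Y} with hXdef
  refine ⟨Y, X, ?_, ?_⟩
  · apply upperDensityLE99_of_rankin
      (fun (i : Fin (r + 1)) (p : ℕ) => if p ∣ N then 0 else ‖ModularFormClass.qCoeff (g i) p‖ ^ 2)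
      (fun i p => by
        by_cases h : p ∣ N
        · simp [h]
        · simp only [h, if_false]; positivity)
      (fun i => hR N (ε' i) (g i) (hg i)) X η hη
    rintro p ⟨hp, hpN, hpY⟩
    by_contra hcon
    have hcon : ∀ i : Fin (r + 1), ‖ModularFormClass.qCoeff (g i) (p : ℕ)‖ ^ 2 ≤ c := by
      intro i
      have := not_lt.mp fun h => hcon ⟨i, h⟩
      simpa only [hpN, if_false] using this
    apply hpY
    obtain ⟨P, hPp⟩ := hP p hp hpN
    have hz : ∀ i : Fin (r + 1), ‖ModularFormClass.qCoeff (g i) (p : ℕ)‖ ≤ B := by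
      intro i
      calc ‖ModularFormClass.qCoeff (g i) (p : ℕ)‖
          = Real.sqrt (‖ModularFormClass.qCoeff (g i) (p : ℕ)‖ ^ 2) :=
            (Real.sqrt_sq (norm_nonneg _)).symm
        _ ≤ Real.sqrt c := Real.sqrt_le_sqrt (hcon i)
    obtain ⟨F, hF, hroot⟩ := mem_roots_of_bounded
      (fun i : Fin (r + 1) => ModularFormClass.qCoeff (g i) (p : ℕ)) P hPp B hz 0
    rw [hY, Set.Finite.mem_toFinset, Set.mem_iUnion]
    refine ⟨F, ?_⟩
    rw [Set.mem_iUnion]
    refine ⟨hF, ?_⟩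
    have h0 : ModularFormClass.qCoeff (g 0) (p : ℕ) = ModularFormClass.qCoeff f (p : ℕ) := by
      rw [hg0]
    rw [← h0]
    exact hroot
  · intro p hp hpN hpX
    by_contra hcon
    exact hpX ⟨hp, hpN, hcon⟩

end Fermat.Agent.T4.helper11
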