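import Mathlib

/-!
# T4 block (IV), leaf [IV-LIFT], core (helper11, second prover): lifting representations of
finite groups from the residue field of a local ring with the root property

`V` is a commutative local ring in which every monic polynomial of positive degree has a root
(`HasMonicRoots V`; e.g. a valuation subring of an algebraically closed field), `κ` its residue
field, `G` a finite group with `|G|` invertible in `κ`.

* `exists_factor`     : a monic polynomial over `V` factors as `P₀ * P₁` with `P₀`, `P₁` coprime,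
  `P₀ ≡ X ^ k` modulo the maximal ideal and `P₁ 0` a unit.
* `exists_idem_lift`  : idempotent lifting for matrices (Cayley-Hamilton + the factorisation).
* `lift_core`         : every `ρ : G →* GL₂(κ)` is the reduction of some `r : G →* GL₂(V)`
  (EXACTLY, entry by entry).

Pure matrix form: `G × Fin 2` indexes the free module `V[G]²`; `Lm g` is the translation matrix;
`sK`, `piK` split `κ²` off `κ[G]²`; `e₀` lifts the idempotent `sK * piK` commuting with all
`Lm g`; `e` is the idempotent polynomial in `e₀`; `e = ι * p`, `p * ι = 1`; `r g = p * Lm g * ι`.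
-/

set_option autoImplicit false
set_option linter.unusedSectionVars false

open Polynomial

namespace Fermat.Agent.T4.helper11

section Factor

/-- Every monic polynomial of positive degree has a root. -/
def HasMonicRoots (V : Type*) [CommRing V] : Prop :=
  ∀ P : V[X], P.Monic → 0 < P.natDegree → ∃ a : V, P.IsRoot a

variable {V : Type*} [CommRing V] [IsLocalRing V]

lemma isUnit_add_of_mem_maximalIdeal {u m : V} (hu : IsUnit u)
    (hm : m ∈ IsLocalRing.maximalIdeal V) : IsUnit (u + m) := by
  by_contra h
  have h1 : u + m ∈ IsLocalRing.maximalIdeal V := (IsLocalRing.mem_maximalIdeal _).mpr h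
  have h2 : u ∈ IsLocalRing.maximalIdeal V := by
    have := (IsLocalRing.maximalIdeal V).sub_mem h1 hm
    simpa using this
  exact (IsLocalRing.mem_maximalIdeal _).mp h2 hu

lemma isCoprime_X_sub_C_of_isUnit_eval {a : V} {Q : V[X]} (h : IsUnit (Q.eval a)) :
    IsCoprime (X - C a) Q := by
  obtain ⟨w, hw⟩ := h.exists_left_inv
  obtain ⟨T, hT⟩ : (X - C a) ∣ Q - C (Q.eval a) := by
    have := Polynomial.dvd_iff_isRoot (p := Q - C (Q.eval a)) (a := a)
    rw [this]
    simp
  refine ⟨-(C w * T), C w, ?_⟩
  have : Q = (X - C a) * T + C (Q.eval a) := by rw [← hT]; ring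
  calc -(C w * T) * (X - C a) + C w * Q
      = -(C w * T) * (X - C a) + C w * ((X - C a) * T + C (Q.eval a)) := by rw [← this]
    _ = C (w * Q.eval a) := by rw [C_mul]; ring
    _ = 1 := by rw [hw, C_1]

lemma residue_eval (P : V[X]) (a : V) :
    IsLocalRing.residue V (P.eval a) = (P.map (IsLocalRing.residue V)).eval
      (IsLocalRing.residue V a) := by
  rw [Polynomial.eval_map, Polynomial.eval₂_at_apply]

/-- Factorisation of a monic polynomial over a local ring with the root property into the part
with roots in the maximal ideal and the part with unit roots. -/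
lemma exists_factor (hV : HasMonicRoots V) : ∀ (d : ℕ) (P : V[X]), P.Monic → P.natDegree = d →
    ∃ P₀ P₁ : V[X], P = P₀ * P₁ ∧ IsCoprime P₀ P₁ ∧
      (∃ k : ℕ, P₀.map (IsLocalRing.residue V) = X ^ k) ∧ IsUnit (P₁.eval 0) := by
  intro d
  induction d with
  | zero =>
    intro P hP hd
    have : P = 1 := eq_one_of_monic_natDegree_zero hP hd
    refine ⟨1, 1, by rw [this, mul_one], isCoprime_one_left, ⟨0, by simp⟩, by simp⟩
  | succ d ih =>
    intro P hP hd
    obtain ⟨a, ha⟩ := hV P hP (by omega)
    obtain ⟨Q, hQ⟩ := Polynomial.dvd_iff_isRoot.mpr ha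
    have hQm : Q.Monic := by
      have h1 : ((X - C a) * Q).Monic := hQ ▸ hP
      exact (monic_X_sub_C a).of_mul_monic_left h1
    have hQd : Q.natDegree = d := by
      have := congrArg natDegree hQ
      rw [(monic_X_sub_C a).natDegree_mul hQm, natDegree_X_sub_C, hd] at this
      omega
    obtain ⟨Q₀, Q₁, hQQ, hcop, ⟨k, hk⟩, hu⟩ := ih Q hQm hQd
    by_cases hA : a ∈ IsLocalRing.maximalIdeal V
    · -- root in the maximal ideal
      refine ⟨(X - C a) * Q₀, Q₁, by rw [hQ, hQQ, mul_assoc], ?_, ⟨k + 1, ?_⟩, hu⟩
      · apply IsCoprime.mul_left _ hcop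
        apply isCoprime_X_sub_C_of_isUnit_eval
        have h1 : Q₁.eval a - Q₁.eval 0 ∈ IsLocalRing.maximalIdeal V := by
          obtain ⟨t, ht⟩ := Polynomial.sub_dvd_eval_sub a 0 Q₁
          rw [ht, sub_zero]
          exact Ideal.mul_mem_right _ _ hA
        have := isUnit_add_of_mem_maximalIdeal hu h1
        simpa using this
      · have ha0 : IsLocalRing.residue V a = 0 := (IsLocalRing.residue_eq_zero_iff a).mpr hA
        rw [Polynomial.map_mul, hk, Polynomial.map_sub, map_X, map_C, ha0, C_0, sub_zero,
          pow_succ, mul_comm]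
    · -- unit root
      have hau : IsUnit a := by
        by_contra h
        exact hA ((IsLocalRing.mem_maximalIdeal _).mpr h)
      refine ⟨Q₀, (X - C a) * Q₁, by rw [hQ, hQQ]; ring, ?_, ⟨k, hk⟩, ?_⟩
      · apply IsCoprime.mul_right _ hcop
        apply IsCoprime.symm
        apply isCoprime_X_sub_C_of_isUnit_eval
        have h1 : IsLocalRing.residue V (Q₀.eval a) ≠ 0 := by
          rw [residue_eval, hk, eval_pow, eval_X]
          apply pow_ne_zero
          intro h0
          exact hA ((IsLocalRing.residue_eq_zero_iff a).mp h0)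
        by_contra h
        exact h1 ((IsLocalRing.residue_eq_zero_iff _).mpr ((IsLocalRing.mem_maximalIdeal _).mpr h))
      · rw [eval_mul, eval_sub, eval_X, eval_C, zero_sub]
        exact (hau.neg).mul hu

end Factor


section Idem

/-- Evaluation of a polynomial at an idempotent. -/
lemma aeval_idem {k B : Type*} [CommRing k] [Ring B] [Algebra k B] (E : B) (hE : E * E = E)
    (g : k[X]) : aeval E g = g.eval 0 • (1 - E) + g.eval 1 • E := by
  have hpow : ∀ n : ℕ, E ^ (n + 1) = E := by
    intro n
    induction n with
    | zero => simp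
    | succ n ih => rw [pow_succ, ih, hE]
  induction g using Polynomial.induction_on' with
  | add p q hp hq =>
    rw [map_add, hp, hq, eval_add, eval_add, add_smul, add_smul]
    abel
  | monomial n a =>
    rw [aeval_monomial, eval_monomial, eval_monomial, one_pow, mul_one]
    cases n with
    | zero =>
      rw [pow_zero, pow_zero, mul_one, mul_one, ← smul_add, sub_add_cancel,
        Algebra.smul_def, mul_one]
    | succ n =>
      rw [hpow, zero_pow (Nat.succ_ne_zero n), mul_zero, zero_smul, zero_add, Algebra.smul_def]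

variable {V : Type*} [CommRing V] [IsLocalRing V] {I : Type*} [Fintype I] [DecidableEq I]

/-- Reduction of square matrices modulo the maximal ideal. -/
noncomputable abbrev redM : Matrix I I V →+* Matrix I I (IsLocalRing.ResidueField V) :=
  (IsLocalRing.residue V).mapMatrix

lemma redM_aeval (M : Matrix I I V) (f : V[X]) :
    redM (aeval M f) = aeval (redM M) (f.map (IsLocalRing.residue V)) := by
  rw [aeval_def, aeval_def, Polynomial.hom_eval₂, Polynomial.eval₂_map]
  congr 1
  ext v i j
  simp [Matrix.algebraMap_matrix_apply]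
  split_ifs <;> simp

/-- **Idempotent lifting** for matrices over a local ring with the root property: if the
reduction of `M` is idempotent, some polynomial in `M` is an idempotent with the same
reduction. -/
theorem exists_idem_lift (hV : HasMonicRoots V) (M : Matrix I I V)
    (hM : redM M * redM M = redM M) :
    ∃ f : V[X], aeval M f * aeval M f = aeval M f ∧ redM (aeval M f) = redM M := by
  classical
  obtain ⟨P₀, P₁, hP, ⟨u, v, huv⟩, ⟨k, hk⟩, hu1⟩ :=
    exists_factor hV _ M.charpoly (Matrix.charpoly_monic M) rfl
  have hCH : aeval M (P₀ * P₁) = 0 := by rw [← hP]; exact Matrix.aeval_self_charpoly M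
  refine ⟨u * P₀, ?_, ?_⟩
  · -- idempotent
    have h1 : aeval M (u * P₀) + aeval M (v * P₁) = 1 := by
      rw [← map_add, huv, map_one]
    have h2 : aeval M (u * P₀) * aeval M (v * P₁) = 0 := by
      rw [← map_mul, show u * P₀ * (v * P₁) = u * v * (P₀ * P₁) by ring, map_mul, hCH, mul_zero]
    have h3 : aeval M (v * P₁) = 1 - aeval M (u * P₀) := by rw [← h1]; abel
    rw [h3, mul_sub, mul_one, sub_eq_zero] at h2
    exact h2.symm
  · -- reduction
    set E := redM M with hE
    set r := IsLocalRing.residue V with hr
    have hform := aeval_idem (k := IsLocalRing.ResidueField V) E hM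
    rw [redM_aeval, hform]
    have hPbar : aeval E ((P₀ * P₁).map r) = 0 := by
      rw [← redM_aeval, hCH, map_zero]
    rw [hform] at hPbar
    have huvbar : (u.map r) * (P₀.map r) + (v.map r) * (P₁.map r) = 1 := by
      rw [← Polynomial.map_mul, ← Polynomial.map_mul, ← Polynomial.map_add, huv,
        Polynomial.map_one]
    have hP1unit : (P₁.map r).eval 0 ≠ 0 := by
      have : (P₁.map r).eval 0 = r (P₁.eval 0) := by
        rw [Polynomial.eval_map, ← r.map_zero, Polynomial.eval₂_at_apply]
      rw [this]
      exact (hu1.map r).ne_zero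
    -- the two coefficients
    have hA : ((u * P₀).map r).eval 1 • E = E := by
      by_cases hE0 : E = 0
      · rw [hE0, smul_zero]
      · have h1 : ((P₀ * P₁).map r).eval 1 • E = 0 := by
          have := congrArg (fun Z => Z * E) hPbar
          simp only [add_mul, smul_mul_assoc, sub_mul, one_mul, hM, sub_self, smul_zero,
            zero_add, zero_mul] at this
          exact this
        have h2 : ((P₀ * P₁).map r).eval 1 = 0 := by
          rcases smul_eq_zero.mp h1 with h | h
          · exact h
          · exact absurd h hE0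
        have h3 : (P₁.map r).eval 1 = 0 := by
          rw [Polynomial.map_mul, eval_mul, hk, eval_pow, eval_X, one_pow, one_mul] at h2
          exact h2
        have h4 : ((u * P₀).map r).eval 1 = 1 := by
          have := congrArg (fun p => p.eval 1) huvbar
          simp only [eval_add, eval_mul, eval_one, h3, mul_zero, add_zero] at this
          rw [Polynomial.map_mul, eval_mul]
          exact this
        rw [h4, one_smul]
    have hB : ((u * P₀).map r).eval 0 • (1 - E) = 0 := by
      by_cases hE1 : 1 - E = 0
      · rw [hE1, smul_zero]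
      · have h1 : ((P₀ * P₁).map r).eval 0 • (1 - E) = 0 := by
          have := congrArg (fun Z => Z * (1 - E)) hPbar
          have hEE : E * (1 - E) = 0 := by rw [mul_sub, mul_one, hM, sub_self]
          have hEE' : (1 - E) * (1 - E) = 1 - E := by
            rw [sub_mul, one_mul, hEE, sub_zero]
          simp only [add_mul, smul_mul_assoc, hEE, hEE', smul_zero, add_zero, zero_mul] at this
          exact this
        have h2 : ((P₀ * P₁).map r).eval 0 = 0 := by
          rcases smul_eq_zero.mp h1 with h | h
          · exact h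
          · exact absurd h hE1
        have h3 : (P₀.map r).eval 0 = 0 := by
          rw [Polynomial.map_mul, eval_mul] at h2
          rcases mul_eq_zero.mp h2 with h | h
          · exact h
          · exact absurd h hP1unit
        rw [Polynomial.map_mul, eval_mul, h3, mul_zero, zero_smul]
    rw [hA, hB, zero_add]

end Idem


section Perm

variable {G : Type*} [Group G] [Fintype G] [DecidableEq G] {R : Type*} [CommRing R]
  {J : Type*} [Fintype J]

/-- The matrix of left translation by `g` on `G × Fin 2`. -/
def Lm (R : Type*) [CommRing R] (g : G) : Matrix (G × Fin 2) (G × Fin 2) R :=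
  fun x y => if x.1 = g * y.1 ∧ x.2 = y.2 then 1 else 0

lemma Lm_mul_apply (g : G) (A : Matrix (G × Fin 2) J R) (x : G × Fin 2) (y : J) :
    (Lm R g * A) x y = A (g⁻¹ * x.1, x.2) y := by
  rw [Matrix.mul_apply, Finset.sum_eq_single (g⁻¹ * x.1, x.2)]
  · simp [Lm]
  · intro z _ hz
    have : ¬ (x.1 = g * z.1 ∧ x.2 = z.2) := by
      rintro ⟨h1, h2⟩
      apply hz
      ext
      · simp [h1]
      · simp [h2]
    simp [Lm, this]
  · intro h
    exact absurd (Finset.mem_univ _) h

lemma mul_Lm_apply (g : G) (A : Matrix J (G × Fin 2) R) (x : J) (y : G × Fin 2) :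
    (A * Lm R g) x y = A x (g * y.1, y.2) := by
  rw [Matrix.mul_apply, Finset.sum_eq_single (g * y.1, y.2)]
  · simp [Lm]
  · intro z _ hz
    have : ¬ (z.1 = g * y.1 ∧ z.2 = y.2) := by
      rintro ⟨h1, h2⟩
      apply hz
      ext
      · simp [h1]
      · simp [h2]
    simp [Lm, this]
  · intro h
    exact absurd (Finset.mem_univ _) h

lemma Lm_one : Lm R (1 : G) = 1 := by
  ext x y
  simp only [Lm, one_mul, Matrix.one_apply]
  congr 1
  rw [Prod.ext_iff]

lemma Lm_mul (g g' : G) : Lm R (g * g') = Lm R g * Lm R g' := by
  ext x y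
  rw [Lm_mul_apply]
  simp only [Lm]
  congr 1
  rw [eq_iff_iff]
  constructor
  · rintro ⟨h1, h2⟩
    exact ⟨by rw [h1]; group, h2⟩
  · rintro ⟨h1, h2⟩
    refine ⟨?_, h2⟩
    have := congrArg (fun z => g * z) h1
    simp only [mul_inv_cancel_left] at this
    rw [this, mul_assoc]

lemma Lm_map {S : Type*} [CommRing S] (f : R →+* S) (g : G) : (Lm R g).map f = Lm S g := by
  ext x y
  simp only [Lm, Matrix.map_apply]
  split_ifs <;> simp

end Perm


section Core

variable {V : Type*} [CommRing V] [IsLocalRing V]

local notation "res" => IsLocalRing.residue V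

lemma isUnit_of_residue_ne_zero {x : V} (h : IsLocalRing.residue V x ≠ 0) : IsUnit x := by
  by_contra hx
  exact h ((IsLocalRing.residue_eq_zero_iff x).mpr ((IsLocalRing.mem_maximalIdeal x).mpr hx))

/-- A square matrix over a local ring whose reduction is `1` is invertible. -/
lemma isUnit_det_of_map_eq_one {n : Type*} [Fintype n] [DecidableEq n] (U : Matrix n n V)
    (hU : U.map (IsLocalRing.residue V) = 1) : IsUnit U.det := by
  apply isUnit_of_residue_ne_zero
  have : IsLocalRing.residue V U.det = (U.map (IsLocalRing.residue V)).det := by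
    rw [RingHom.map_det]
    rfl
  rw [this, hU, Matrix.det_one]
  exact one_ne_zero

/-- An idempotent matrix over a local ring with reduction `0` is `0`. -/
lemma eq_zero_of_idem_of_map_eq_zero {n : Type*} [Fintype n] [DecidableEq n] (F : Matrix n n V)
    (hF : F * F = F) (h0 : F.map (IsLocalRing.residue V) = 0) : F = 0 := by
  have h1 : (1 - F).map (IsLocalRing.residue V) = 1 := by
    rw [Matrix.map_sub (IsLocalRing.residue V) (fun a b => map_sub _ a b), h0, sub_zero,
      Matrix.map_one _ (map_zero _) (map_one _)]
  have hu : IsUnit (1 - F).det := isUnit_det_of_map_eq_one _ h1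
  have h2 : (1 - F) * F = 0 := by rw [sub_mul, one_mul, hF, sub_self]
  have h3 := congrArg (fun Z => (1 - F)⁻¹ * Z) h2
  simp only [mul_zero] at h3
  rw [← Matrix.mul_assoc, Matrix.nonsing_inv_mul _ hu, Matrix.one_mul] at h3
  exact h3

variable {G : Type*} [Group G] [Fintype G] [DecidableEq G]

/-- **The lifting theorem** (core form): over a local ring `V` with the root property, a
representation of a finite group `G` in `GL₂` of the residue field, `|G|` invertible there, is
the reduction of a representation in `GL₂ V`. -/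
theorem lift_core (hV : HasMonicRoots V)
    (ρ : G →* GL (Fin 2) (IsLocalRing.ResidueField V))
    (hn : ((Fintype.card G : ℕ) : IsLocalRing.ResidueField V) ≠ 0) :
    ∃ r : G →* GL (Fin 2) V, ∀ g : G,
      ((r g : GL (Fin 2) V) : Matrix (Fin 2) (Fin 2) V).map (IsLocalRing.residue V) =
        ((ρ g : GL (Fin 2) (IsLocalRing.ResidueField V)) :
          Matrix (Fin 2) (Fin 2) (IsLocalRing.ResidueField V)) := by
  classical
  -- the matrices of `ρ`
  set ρm : G → Matrix (Fin 2) (Fin 2) (IsLocalRing.ResidueField V) :=
    fun g => ((ρ g : GL (Fin 2) (IsLocalRing.ResidueField V)) : Matrix (Fin 2) (Fin 2) _) with hρm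
  have hρmul : ∀ g h : G, ρm (g * h) = ρm g * ρm h := by
    intro g h
    simp only [hρm, map_mul, Units.val_mul]
  have hρone : ρm 1 = 1 := by
    simp only [hρm, map_one, Units.val_one]
  -- the constant `c = 1 / |G|`
  have hnu : IsUnit ((Fintype.card G : ℕ) : V) := by
    apply isUnit_of_residue_ne_zero
    rw [map_natCast]
    exact hn
  obtain ⟨c, hc⟩ := hnu.exists_left_inv
  have hcres : res c * ((Fintype.card G : ℕ) : IsLocalRing.ResidueField V) = 1 := by
    have := congrArg res hc
    rwa [map_mul, map_natCast, map_one] at this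
  -- a section of the residue map
  set lam : IsLocalRing.ResidueField V → V :=
    Function.surjInv (IsLocalRing.residue_surjective (R := V)) with hlam
  have hlam_res : ∀ x, res (lam x) = x := fun x => Function.surjInv_eq _ x
  -- the splitting over the residue field
  set sK : Matrix (G × Fin 2) (Fin 2) (IsLocalRing.ResidueField V) :=
    fun x j => res c * ρm (x.1⁻¹) x.2 j with hsK
  set piK : Matrix (Fin 2) (G × Fin 2) (IsLocalRing.ResidueField V) :=
    fun j x => ρm x.1 j x.2 with hpiK
  have hps : piK * sK = 1 := by
    ext j j'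
    rw [Matrix.mul_apply, Fintype.sum_prod_type]
    have : ∀ h : G, ∑ i : Fin 2, piK j (h, i) * sK (h, i) j' = res c * (1 : Matrix _ _ _) j j' := by
      intro h
      simp only [hpiK, hsK]
      have h1 : (ρm h * ρm h⁻¹) j j' = ∑ i : Fin 2, ρm h j i * ρm h⁻¹ i j' := Matrix.mul_apply
      rw [← hρmul, mul_inv_cancel, hρone] at h1
      rw [h1, Finset.mul_sum]
      apply Finset.sum_congr rfl
      intro i _
      ring
    rw [Finset.sum_congr rfl fun h _ => this h, Finset.sum_const, Finset.card_univ, nsmul_eq_mul,
      ← mul_assoc, mul_comm _ (res c), hcres, one_mul]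
  have hLs : ∀ g : G, Lm (IsLocalRing.ResidueField V) g * sK = sK * ρm g := by
    intro g
    ext x j
    rw [Lm_mul_apply, Matrix.mul_apply]
    simp only [hsK]
    have h1 : ρm ((g⁻¹ * x.1)⁻¹) = ρm x.1⁻¹ * ρm g := by
      rw [← hρmul]
      congr 1
      group
    rw [h1, Matrix.mul_apply, Finset.mul_sum]
    apply Finset.sum_congr rfl
    intro i _
    ring
  -- the first lift
  set e₀ : Matrix (G × Fin 2) (G × Fin 2) V :=
    fun x y => c * lam (ρm (x.1⁻¹ * y.1) x.2 y.2) with he₀
  have he₀red : redM e₀ = sK * piK := by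
    ext x y
    rw [RingHom.mapMatrix_apply, Matrix.map_apply, Matrix.mul_apply]
    simp only [he₀, hsK, hpiK, map_mul, hlam_res]
    rw [hρmul, Matrix.mul_apply, Finset.mul_sum]
    apply Finset.sum_congr rfl
    intro i _
    ring
  have hEidem : redM e₀ * redM e₀ = redM e₀ := by
    rw [he₀red, Matrix.mul_assoc, ← Matrix.mul_assoc piK, hps, Matrix.one_mul]
  have hcomm₀ : ∀ g : G, Lm V g * e₀ = e₀ * Lm V g := by
    intro g
    ext x y
    rw [Lm_mul_apply, mul_Lm_apply]
    simp only [he₀]
    congr 3
    group
  -- the idempotent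
  obtain ⟨f, hfid, hfred⟩ := exists_idem_lift hV e₀ hEidem
  set e : Matrix (G × Fin 2) (G × Fin 2) V := aeval e₀ f with he
  have hered : e.map res = sK * piK := by
    rw [← he₀red, ← hfred]
    rfl
  have hcomm : ∀ g : G, Lm V g * e = e * Lm V g := by
    intro g
    have hmem : e₀ ∈ Subalgebra.centralizer V ({Lm V g} : Set (Matrix (G × Fin 2) (G × Fin 2) V)) := by
      rw [Subalgebra.mem_centralizer_iff]
      intro b hb
      rw [Set.mem_singleton_iff.mp hb]
      exact hcomm₀ g
    have h2 : e ∈ Subalgebra.centralizer V ({Lm V g} : Set (Matrix (G × Fin 2) (G × Fin 2) V)) := by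
      have := Polynomial.aeval_subalgebra_coe f _ (⟨e₀, hmem⟩ : Subalgebra.centralizer V _)
      rw [he, ← this]
      exact Subtype.property _
    rw [Subalgebra.mem_centralizer_iff] at h2
    exact h2 _ rfl
  -- the factorisation of `e`
  set sV : Matrix (G × Fin 2) (Fin 2) V := sK.map lam with hsV
  set piV : Matrix (Fin 2) (G × Fin 2) V := piK.map lam with hpiV
  have hsVred : sV.map res = sK := by
    ext x j
    simp [hsV, hlam_res]
  have hpiVred : piV.map res = piK := by
    ext x j
    simp [hpiV, hlam_res]
  set ι : Matrix (G × Fin 2) (Fin 2) V := e * sV with hι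
  set p₀ : Matrix (Fin 2) (G × Fin 2) V := piV * e with hp₀
  have hιred : ι.map res = sK := by
    rw [hι, Matrix.map_mul, hered, hsVred, Matrix.mul_assoc, hps, Matrix.mul_one]
  have hp₀red : p₀.map res = piK := by
    rw [hp₀, Matrix.map_mul, hered, hpiVred, ← Matrix.mul_assoc, hps, Matrix.one_mul]
  set U : Matrix (Fin 2) (Fin 2) V := p₀ * ι with hU
  have hUred : U.map res = 1 := by
    rw [hU, Matrix.map_mul, hιred, hp₀red, hps]
  have hUdet : IsUnit U.det := isUnit_det_of_map_eq_one U hUred
  set p : Matrix (Fin 2) (G × Fin 2) V := U⁻¹ * p₀ with hp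
  have hpι : p * ι = 1 := by
    rw [hp, Matrix.mul_assoc, ← hU, Matrix.nonsing_inv_mul _ hUdet]
  have hUinvred : (U⁻¹).map res = 1 := by
    have := congrArg (fun Z : Matrix (Fin 2) (Fin 2) V => Z.map res) (Matrix.nonsing_inv_mul U hUdet)
    simp only [Matrix.map_mul, hUred, Matrix.mul_one] at this
    rw [this, Matrix.map_one _ (map_zero _) (map_one _)]
  have hpred : p.map res = piK := by
    rw [hp, Matrix.map_mul, hUinvred, hp₀red, Matrix.one_mul]
  have heι : e * ι = ι := by
    rw [hι, ← Matrix.mul_assoc, hfid]
  have hpe : p * e = p := by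
    rw [hp, hp₀, Matrix.mul_assoc, Matrix.mul_assoc, hfid]
  have hιp : ι * p = e := by
    have hF : (e - ι * p) * (e - ι * p) = e - ι * p := by
      have h1 : e * (ι * p) = ι * p := by rw [← Matrix.mul_assoc, heι]
      have h2 : (ι * p) * e = ι * p := by rw [Matrix.mul_assoc, hpe]
      have h3 : (ι * p) * (ι * p) = ι * p := by
        rw [Matrix.mul_assoc, ← Matrix.mul_assoc p, hpι, Matrix.one_mul]
      rw [sub_mul, mul_sub, mul_sub, hfid, h1, h2, h3]
      abel
    have h0 : (e - ι * p).map res = 0 := by
      rw [Matrix.map_sub res (fun a b => map_sub _ a b), Matrix.map_mul, hered, hιred, hpred,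
        sub_self]
    have := eq_zero_of_idem_of_map_eq_zero _ hF h0
    exact (sub_eq_zero.mp this).symm
  -- the representation
  set r₀ : G → Matrix (Fin 2) (Fin 2) V := fun g => p * Lm V g * ι with hr₀
  have hr₀one : r₀ 1 = 1 := by
    simp only [hr₀, Lm_one, Matrix.mul_one, hpι]
  have hr₀mul : ∀ g h : G, r₀ (g * h) = r₀ g * r₀ h := by
    intro g h
    simp only [hr₀]
    calc p * Lm V (g * h) * ι = p * (Lm V g * Lm V h) * ι := by rw [Lm_mul]
      _ = p * Lm V g * (e * (Lm V h * ι)) := by
        rw [← Matrix.mul_assoc e, ← hcomm h, Matrix.mul_assoc (Lm V h), heι]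
        simp only [Matrix.mul_assoc]
      _ = p * Lm V g * (ι * p * (Lm V h * ι)) := by rw [hιp]
      _ = p * Lm V g * ι * (p * Lm V h * ι) := by simp only [Matrix.mul_assoc]
  have hr₀red : ∀ g : G, (r₀ g).map res = ρm g := by
    intro g
    simp only [hr₀]
    rw [Matrix.map_mul, Matrix.map_mul, hpred, hιred, Lm_map, Matrix.mul_assoc, hLs,
      ← Matrix.mul_assoc, hps, Matrix.one_mul]
  let rM : G →* Matrix (Fin 2) (Fin 2) V :=
    { toFun := r₀
      map_one' := hr₀one
      map_mul' := hr₀mul }
  refine ⟨rM.toHomUnits, fun g => ?_⟩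
  have : ((rM.toHomUnits g : GL (Fin 2) V) : Matrix (Fin 2) (Fin 2) V) = r₀ g := rfl
  rw [this]
  exact hr₀red g

end Core


end Fermat.Agent.T4.helper11
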