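import Mathlib
import Fermat.Agent.T4.helper11_LiftCore
import Fermat.Agent.T4.helper80_EndgameDefs

/-!
# T4 block (IV), leaf [IV-LIFT] (helper11, second prover of row 984)

`lift : helper80.LiftStatement`: a representation with finite image of order prime to the
residue characteristic, over the residue field of a valuation subring `V` of `ℂ`, is the
reduction of a complex representation with traces and determinants in `V`.

* `hasMonicRoots_valuationSubring` : a valuation subring of `ℂ` has the root property
  (`ℂ` is algebraically closed and `V` is integrally closed).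
* `lift_valuationSubring` : the exact form: `r : Γ →* GL₂(V)` with `ρ.ker ≤ r.ker` and
  `(r γ).map residue = ρ γ` for all `γ`.
* `lift` : `helper80.LiftStatement` verbatim.
-/

set_option autoImplicit false

open Polynomial

namespace Fermat.Agent.T4.helper11

/-- A valuation subring of `ℂ` has the root property. -/
theorem hasMonicRoots_valuationSubring (V : ValuationSubring ℂ) : HasMonicRoots V := by
  intro P hP hdeg
  have hdeg' : 0 < (P.map (algebraMap V ℂ)).degree := by
    rw [degree_map_eq_of_injective (FaithfulSMul.algebraMap_injective V ℂ)]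
    exact natDegree_pos_iff_degree_pos.mp hdeg
  obtain ⟨z, hz⟩ := Complex.exists_root hdeg'
  have hint : IsIntegral V z := by
    refine ⟨P, hP, ?_⟩
    rw [IsRoot.def, eval_map] at hz
    exact hz
  obtain ⟨y, hy⟩ := IsIntegrallyClosed.algebraMap_eq_of_integral hint
  refine ⟨y, ?_⟩
  apply FaithfulSMul.algebraMap_injective V ℂ
  rw [IsRoot.def, eval_map, ← hy, Polynomial.eval₂_at_apply] at hz
  rw [hz, map_zero]

/-- **[IV-LIFT]**, exact form over `V`. -/
theorem lift_valuationSubring (V : ValuationSubring ℂ) (Γ : Type) [Group Γ]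
    (ρ : Γ →* GL (Fin 2) (IsLocalRing.ResidueField V)) (hfin : Finite ρ.range)
    (hn : ((Nat.card ρ.range : ℕ) : IsLocalRing.ResidueField V) ≠ 0) :
    ∃ r : Γ →* GL (Fin 2) V, ρ.ker ≤ r.ker ∧ ∀ γ : Γ,
      ((r γ : GL (Fin 2) V) : Matrix (Fin 2) (Fin 2) V).map (IsLocalRing.residue V) =
        ((ρ γ : GL (Fin 2) (IsLocalRing.ResidueField V)) :
          Matrix (Fin 2) (Fin 2) (IsLocalRing.ResidueField V)) := by
  classical
  haveI : Finite ρ.range := hfin
  letI : Fintype ρ.range := Fintype.ofFinite _
  have hn' : ((Fintype.card ρ.range : ℕ) : IsLocalRing.ResidueField V) ≠ 0 := by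
    rw [← Nat.card_eq_fintype_card]
    exact hn
  obtain ⟨r₀, hr₀⟩ := lift_core (hasMonicRoots_valuationSubring V) ρ.range.subtype hn'
  refine ⟨r₀.comp ρ.rangeRestrict, ?_, fun γ => ?_⟩
  · intro γ hγ
    rw [MonoidHom.mem_ker] at hγ ⊢
    have h1 : ρ.rangeRestrict γ = 1 := by
      apply Subtype.ext
      exact hγ
    rw [MonoidHom.comp_apply, h1, map_one]
  · rw [MonoidHom.comp_apply, hr₀]
    rfl

/-- **[IV-LIFT]** `helper80.LiftStatement`, verbatim. -/
theorem lift : Fermat.Agent.T4.helper80.LiftStatement := by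
  intro V Γ _ ρ hfin hn
  obtain ⟨r, hker, hr⟩ := lift_valuationSubring V Γ ρ hfin hn
  refine ⟨(Matrix.GeneralLinearGroup.map (algebraMap V ℂ)).comp r, ?_, fun γ => ?_⟩
  · intro γ hγ
    have h1 : r γ = 1 := hker hγ
    rw [MonoidHom.mem_ker, MonoidHom.comp_apply, h1, map_one]
  · set M : Matrix (Fin 2) (Fin 2) V := ((r γ : GL (Fin 2) V) : Matrix (Fin 2) (Fin 2) V) with hM
    have hmap : ((((Matrix.GeneralLinearGroup.map (algebraMap V ℂ)).comp r) γ : GL (Fin 2) ℂ) :
        Matrix (Fin 2) (Fin 2) ℂ) = M.map (algebraMap V ℂ) := by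
      ext i j
      rfl
    refine ⟨M.trace, M.det, ?_, ?_, ?_, ?_⟩
    · rw [hmap]
      exact AddMonoidHom.map_trace (algebraMap V ℂ) M
    · rw [hmap]
      exact RingHom.map_det (algebraMap V ℂ) M
    · rw [← hr γ]
      exact AddMonoidHom.map_trace (IsLocalRing.residue V) M
    · rw [← hr γ]
      exact RingHom.map_det (IsLocalRing.residue V) M

end Fermat.Agent.T4.helper11
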