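import Mathlib

/-!
# T4 (I) [I-FLD-WP1] (helper11): injectivity of the Weierstrass `℘`-function modulo `±`

For ANY Mathlib `PeriodPair` `L` and `u, v ∉ L.lattice`:

* `deriv_derivWeierstrassP` : `℘'' = 6 ℘² - g₂ / 2` off the lattice;
* `weierstrassP_eq_iff` : `℘ u = ℘ v ↔ u - v ∈ L.lattice ∨ u + v ∈ L.lattice`;
* `weierstrassP_divPt_eq_iff` : the same for the `M`-division points `(x ω₁ + y ω₂) / M`;
* `weierstrassP_int_mul_ne` : for `ω₂ = M τ`, `℘ (a τ) ≠ ℘ (b τ)` if `a, b ≢ 0`, `a ≢ ± b (M)`.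

Proof without zero counting: `℘ u = ℘ v` gives `℘' u = ± ℘' v` (Mathlib `derivWeierstrassP_sq`);
for the right sign `D z = ℘ (u + z) - ℘ (± v + z)` solves the linear equation
`D'' = 6 (℘ (u + z) + ℘ (± v + z)) D` with `D 0 = D' 0 = 0`, so `D` vanishes near `0` (orders of
vanishing), hence on its connected domain (identity theorem); so `u ∓ v` is a period of `℘`, and
a period is a lattice point because `℘` has a pole at `0`.
-/

set_option autoImplicit false

noncomputable section

open Filter Topology Set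

namespace Fermat.Agent.T4.helper11

/-! ### A linear second order equation with zero initial data -/

/-- an analytic solution of `D'' = A D` with `D z₀ = D' z₀ = 0` vanishes near `z₀` -/
theorem eventually_eq_zero_of_linear_ode {D A : ℂ → ℂ} {z₀ : ℂ} (hD : AnalyticAt ℂ D z₀)
    (hA : AnalyticAt ℂ A z₀) (h0 : D z₀ = 0) (h1 : deriv D z₀ = 0)
    (hode : deriv (deriv D) =ᶠ[𝓝 z₀] fun z => A z * D z) : ∀ᶠ z in 𝓝 z₀, D z = 0 := by
  rw [← analyticOrderAt_eq_top]
  have e1 : analyticOrderAt (deriv D) z₀ + 1 = analyticOrderAt D z₀ := by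
    simpa [h0] using hD.analyticOrderAt_deriv_add_one
  have e2 : analyticOrderAt (deriv (deriv D)) z₀ + 1 = analyticOrderAt (deriv D) z₀ := by
    simpa [h1] using hD.deriv.analyticOrderAt_deriv_add_one
  have e3 : analyticOrderAt (deriv (deriv D)) z₀ = analyticOrderAt A z₀ + analyticOrderAt D z₀ := by
    rw [analyticOrderAt_congr hode]
    exact analyticOrderAt_mul hA hD
  rw [e3] at e2
  rw [← e2] at e1
  by_contra hn
  obtain ⟨n, hn'⟩ := ENat.ne_top_iff_exists.mp hn
  rw [← hn'] at e1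
  have ha : analyticOrderAt A z₀ ≠ ⊤ := by
    intro h
    rw [h] at e1
    simp at e1
  obtain ⟨a, ha'⟩ := ENat.ne_top_iff_exists.mp ha
  rw [← ha'] at e1
  norm_cast at e1
  omega

variable (L : PeriodPair)

theorem countable_lattice : (L.lattice : Set ℂ).Countable :=
  countable_of_Lindelof_of_discrete (X := L.lattice)

theorem isPreconnected_compl_lattice : IsPreconnected (L.lattice : Set ℂ)ᶜ :=
  (Set.Countable.isConnected_compl_of_one_lt_rank (by simp) (countable_lattice L)).2

theorem isOpen_compl_lattice : IsOpen (L.lattice : Set ℂ)ᶜ :=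
  L.isClosed_lattice.isOpen_compl

/-- `℘'` does not vanish identically off the lattice -/
theorem exists_derivWeierstrassP_ne_zero : ∃ z, z ∉ L.lattice ∧ L.derivWeierstrassP z ≠ 0 := by
  by_contra hcon
  have h0 : ∀ z, z ∉ L.lattice → L.derivWeierstrassP z = 0 := by
    intro z hz
    by_contra h
    exact hcon ⟨z, hz, h⟩
  have hz1 : L.ω₁ / 2 ∈ (L.lattice : Set ℂ)ᶜ := L.ω₁_div_two_notMem_lattice
  have hconst : ∀ z, z ∉ L.lattice → L.weierstrassP z = L.weierstrassP (L.ω₁ / 2) := by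
    intro z hz
    refine (isOpen_compl_lattice L).is_const_of_deriv_eq_zero (isPreconnected_compl_lattice L)
      L.differentiableOn_weierstrassP ?_ hz hz1
    intro w hw
    rw [L.deriv_weierstrassP]
    exact h0 w hw
  have hev : L.weierstrassP =ᶠ[𝓝[≠] (0 : ℂ)] fun _ => L.weierstrassP (L.ω₁ / 2) := by
    filter_upwards [self_mem_nhdsWithin, mem_nhdsWithin_of_mem_nhds
      (L.compl_lattice_sdiff_singleton_mem_nhds 0)] with w hw hw'
    refine hconst w fun hmem => hw' ⟨hmem, hw⟩
  have hord := meromorphicOrderAt_congr hev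
  rw [L.order_weierstrassP 0 (zero_mem _)] at hord
  have hnn : (0 : WithTop ℤ) ≤ meromorphicOrderAt (fun _ : ℂ => L.weierstrassP (L.ω₁ / 2)) 0 :=
    (analyticAt_const).meromorphicOrderAt_nonneg
  rw [← hord] at hnn
  exact absurd hnn (by decide)

/-- `℘'' = 6 ℘² - g₂ / 2` off the lattice -/
theorem deriv_derivWeierstrassP {z : ℂ} (hz : z ∉ L.lattice) :
    deriv L.derivWeierstrassP z = 6 * L.weierstrassP z ^ 2 - L.g₂ / 2 := by
  have hP : AnalyticOnNhd ℂ L.weierstrassP (L.lattice : Set ℂ)ᶜ := L.analyticOnNhd_weierstrassP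
  have hP' : AnalyticOnNhd ℂ L.derivWeierstrassP (L.lattice : Set ℂ)ᶜ :=
    L.analyticOnNhd_derivWeierstrassP
  have hP'' : AnalyticOnNhd ℂ (deriv L.derivWeierstrassP) (L.lattice : Set ℂ)ᶜ :=
    hP'.deriv
  have hH : AnalyticOnNhd ℂ
      (fun w => 2 * deriv L.derivWeierstrassP w - 12 * L.weierstrassP w ^ 2 + L.g₂)
      (L.lattice : Set ℂ)ᶜ := by
    intro w hw
    have h1 := hP w hw
    have h2 := hP'' w hw
    fun_prop
  have hmul : ∀ w ∈ (L.lattice : Set ℂ)ᶜ, L.derivWeierstrassP w *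
      (2 * deriv L.derivWeierstrassP w - 12 * L.weierstrassP w ^ 2 + L.g₂) = 0 := by
    intro w hw
    have hev : (fun x => L.derivWeierstrassP x ^ 2) =ᶠ[𝓝 w]
        fun x => 4 * L.weierstrassP x ^ 3 - L.g₂ * L.weierstrassP x - L.g₃ := by
      filter_upwards [(isOpen_compl_lattice L).mem_nhds hw] with x hx
      exact L.derivWeierstrassP_sq x hx
    have hd := hev.deriv_eq
    have d1 : HasDerivAt L.weierstrassP (L.derivWeierstrassP w) w := by
      have := (hP w hw).differentiableAt.hasDerivAt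
      rwa [L.deriv_weierstrassP] at this
    have d2 : HasDerivAt L.derivWeierstrassP (deriv L.derivWeierstrassP w) w :=
      (hP' w hw).differentiableAt.hasDerivAt
    have l1 : deriv (fun x => L.derivWeierstrassP x ^ 2) w
        = 2 * L.derivWeierstrassP w * deriv L.derivWeierstrassP w := by
      have h := (d2.fun_pow 2).deriv
      rw [h]
      simp
    have l2 : deriv (fun x => 4 * L.weierstrassP x ^ 3 - L.g₂ * L.weierstrassP x - L.g₃) w
        = 12 * L.weierstrassP w ^ 2 * L.derivWeierstrassP w - L.g₂ * L.derivWeierstrassP w := by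
      have h : HasDerivAt (fun x => 4 * L.weierstrassP x ^ 3 - L.g₂ * L.weierstrassP x - L.g₃)
          (4 * (3 * L.weierstrassP w ^ 2 * L.derivWeierstrassP w) - L.g₂ * L.derivWeierstrassP w)
          w := by
        have h3 := d1.fun_pow 3
        simp only [Nat.cast_ofNat, Nat.add_one_sub_one] at h3
        exact ((h3.const_mul (4 : ℂ)).fun_sub (d1.const_mul L.g₂)).sub_const L.g₃
      rw [h.deriv]
      ring
    rw [l1, l2] at hd
    linear_combination hd
  rcases AnalyticOnNhd.eq_zero_or_eq_zero_of_mul_eq_zero hP' hH hmul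
    (isPreconnected_compl_lattice L) with h | h
  · obtain ⟨w, hw, hne⟩ := exists_derivWeierstrassP_ne_zero L
    exact absurd (h w hw) hne
  · have := h z hz
    linear_combination this / 2

/-! ### Translates -/

theorem hasDerivAt_weierstrassP_add (c z : ℂ) (h : c + z ∉ L.lattice) :
    HasDerivAt (fun w => L.weierstrassP (c + w)) (L.derivWeierstrassP (c + z)) z := by
  have d1 : HasDerivAt L.weierstrassP (L.derivWeierstrassP (c + z)) (c + z) := by
    have := (L.analyticOnNhd_weierstrassP (c + z) h).differentiableAt.hasDerivAt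
    rwa [L.deriv_weierstrassP] at this
  exact d1.comp_const_add c z

theorem hasDerivAt_derivWeierstrassP_add (c z : ℂ) (h : c + z ∉ L.lattice) :
    HasDerivAt (fun w => L.derivWeierstrassP (c + w))
      (6 * L.weierstrassP (c + z) ^ 2 - L.g₂ / 2) z := by
  have d1 : HasDerivAt L.derivWeierstrassP (6 * L.weierstrassP (c + z) ^ 2 - L.g₂ / 2) (c + z) := by
    have := (L.analyticOnNhd_derivWeierstrassP (c + z) h).differentiableAt.hasDerivAt
    rwa [deriv_derivWeierstrassP L h] at this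
  exact d1.comp_const_add c z

theorem analyticAt_weierstrassP_add (c z : ℂ) (h : c + z ∉ L.lattice) :
    AnalyticAt ℂ (fun w => L.weierstrassP (c + w)) z := by
  have h1 : AnalyticAt ℂ L.weierstrassP (c + z) := L.analyticOnNhd_weierstrassP (c + z) h
  have h2 : AnalyticAt ℂ (fun w : ℂ => c + w) z := by fun_prop
  exact h1.fun_comp h2

/-- the domain where both translates are regular -/
def regSet (u v : ℂ) : Set ℂ := {z | u + z ∉ L.lattice ∧ v + z ∉ L.lattice}

theorem regSet_eq (u v : ℂ) :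
    regSet L u v = (((fun z => u + z) ⁻¹' (L.lattice : Set ℂ)) ∪
      ((fun z => v + z) ⁻¹' (L.lattice : Set ℂ)))ᶜ := by
  ext z
  simp [regSet]

theorem isOpen_regSet (u v : ℂ) : IsOpen (regSet L u v) := by
  rw [regSet_eq]
  exact ((L.isClosed_lattice.preimage (by fun_prop)).union
    (L.isClosed_lattice.preimage (by fun_prop))).isOpen_compl

theorem isPreconnected_regSet (u v : ℂ) : IsPreconnected (regSet L u v) := by
  rw [regSet_eq]
  refine (Set.Countable.isConnected_compl_of_one_lt_rank (by simp) ?_).2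
  exact ((countable_lattice L).preimage (add_right_injective u)).union
    ((countable_lattice L).preimage (add_right_injective v))

/-- equal values and equal derivatives at `u`, `v` force equality of the translates -/
theorem weierstrassP_add_eq_of_eq {u v : ℂ} (hu : u ∉ L.lattice) (hv : v ∉ L.lattice)
    (h0 : L.weierstrassP u = L.weierstrassP v)
    (h1 : L.derivWeierstrassP u = L.derivWeierstrassP v) :
    ∀ z, u + z ∉ L.lattice → v + z ∉ L.lattice →
      L.weierstrassP (u + z) = L.weierstrassP (v + z) := by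
  set D : ℂ → ℂ := fun z => L.weierstrassP (u + z) - L.weierstrassP (v + z) with hDdef
  set A : ℂ → ℂ := fun z => 6 * (L.weierstrassP (u + z) + L.weierstrassP (v + z)) with hAdef
  have hDan : AnalyticOnNhd ℂ D (regSet L u v) := fun z hz =>
    (analyticAt_weierstrassP_add L u z hz.1).sub (analyticAt_weierstrassP_add L v z hz.2)
  have hAan : AnalyticOnNhd ℂ A (regSet L u v) := fun z hz =>
    analyticAt_const.mul
      ((analyticAt_weierstrassP_add L u z hz.1).add (analyticAt_weierstrassP_add L v z hz.2))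
  have hD1 : ∀ z ∈ regSet L u v,
      HasDerivAt D (L.derivWeierstrassP (u + z) - L.derivWeierstrassP (v + z)) z := fun z hz =>
    (hasDerivAt_weierstrassP_add L u z hz.1).fun_sub (hasDerivAt_weierstrassP_add L v z hz.2)
  have h00 : (0 : ℂ) ∈ regSet L u v := by
    refine ⟨?_, ?_⟩
    · simpa using hu
    · simpa using hv
  have hderivD : deriv D =ᶠ[𝓝 (0 : ℂ)]
      fun z => L.derivWeierstrassP (u + z) - L.derivWeierstrassP (v + z) := by
    filter_upwards [(isOpen_regSet L u v).mem_nhds h00] with z hz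
    exact (hD1 z hz).deriv
  have hode : deriv (deriv D) =ᶠ[𝓝 (0 : ℂ)] fun z => A z * D z := by
    have hmem := (isOpen_regSet L u v).mem_nhds h00
    have hev : ∀ᶠ z in 𝓝 (0 : ℂ), deriv D =ᶠ[𝓝 z]
        fun z => L.derivWeierstrassP (u + z) - L.derivWeierstrassP (v + z) :=
      hderivD.eventuallyEq_nhds
    filter_upwards [hmem, hev] with z hz hz'
    rw [hz'.deriv_eq]
    have := ((hasDerivAt_derivWeierstrassP_add L u z hz.1).fun_sub
      (hasDerivAt_derivWeierstrassP_add L v z hz.2)).deriv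
    rw [this]
    simp only [hAdef, hDdef]
    ring
  have hzero : ∀ᶠ z in 𝓝 (0 : ℂ), D z = 0 := by
    refine eventually_eq_zero_of_linear_ode (hDan 0 h00) (hAan 0 h00) ?_ ?_ hode
    · simp [hDdef, h0]
    · rw [(hD1 0 h00).deriv]
      simp [h1]
  have hall := hDan.eqOn_zero_of_preconnected_of_eventuallyEq_zero (isPreconnected_regSet L u v)
    h00 hzero
  intro z hz1 hz2
  have := hall ⟨hz1, hz2⟩
  simpa [hDdef, sub_eq_zero] using this

/-- equal values and equal derivatives: the difference is a lattice point -/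
theorem sub_mem_lattice_of_eq {u v : ℂ} (hu : u ∉ L.lattice) (hv : v ∉ L.lattice)
    (h0 : L.weierstrassP u = L.weierstrassP v)
    (h1 : L.derivWeierstrassP u = L.derivWeierstrassP v) : u - v ∈ L.lattice := by
  by_contra hω
  have key := weierstrassP_add_eq_of_eq L hu hv h0 h1
  have hev : L.weierstrassP =ᶠ[𝓝[≠] (0 : ℂ)] fun w => L.weierstrassP ((u - v) + w) := by
    have hopen : ∀ᶠ w in 𝓝 (0 : ℂ), (u - v) + w ∈ (L.lattice : Set ℂ)ᶜ := by
      have hc : ContinuousAt (fun w : ℂ => (u - v) + w) 0 := by fun_prop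
      refine hc.eventually_mem ?_
      simpa using (isOpen_compl_lattice L).mem_nhds hω
    filter_upwards [self_mem_nhdsWithin, mem_nhdsWithin_of_mem_nhds
      (L.compl_lattice_sdiff_singleton_mem_nhds 0), mem_nhdsWithin_of_mem_nhds hopen]
      with w hw hw' hw''
    have hwL : w ∉ L.lattice := fun hmem => hw' ⟨hmem, hw⟩
    have h := key (w - v) (by rwa [show u + (w - v) = u - v + w by ring])
      (by rwa [show v + (w - v) = w by ring])
    rw [show u + (w - v) = u - v + w by ring, show v + (w - v) = w by ring] at h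
    exact h.symm
  have hord := meromorphicOrderAt_congr hev
  rw [L.order_weierstrassP 0 (zero_mem _)] at hord
  have han : AnalyticAt ℂ (fun w => L.weierstrassP ((u - v) + w)) 0 :=
    analyticAt_weierstrassP_add L (u - v) 0 (by simpa using hω)
  have hnn := han.meromorphicOrderAt_nonneg
  rw [← hord] at hnn
  exact absurd hnn (by decide)

/-- **injectivity of `℘` modulo `±`**: for `u, v` off the lattice,
`℘ u = ℘ v` iff `u ≡ v` or `u ≡ -v` modulo the lattice. -/
theorem weierstrassP_eq_iff {u v : ℂ} (hu : u ∉ L.lattice) (hv : v ∉ L.lattice) :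
    L.weierstrassP u = L.weierstrassP v ↔ (u - v ∈ L.lattice ∨ u + v ∈ L.lattice) := by
  constructor
  · intro h
    have hsq : L.derivWeierstrassP u ^ 2 = L.derivWeierstrassP v ^ 2 := by
      rw [L.derivWeierstrassP_sq u hu, L.derivWeierstrassP_sq v hv, h]
    rcases sq_eq_sq_iff_eq_or_eq_neg.mp hsq with h1 | h1
    · exact Or.inl (sub_mem_lattice_of_eq L hu hv h h1)
    · right
      have hv' : -v ∉ L.lattice := fun hm => hv (by simpa using neg_mem hm)
      have := sub_mem_lattice_of_eq L hu hv' (by rw [L.weierstrassP_neg, h])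
        (by rw [L.derivWeierstrassP_neg, h1])
      simpa using this
  · rintro (h | h)
    · have := L.weierstrassP_add_coe v ⟨u - v, h⟩
      simpa using this
    · have := L.weierstrassP_add_coe (-v) ⟨u + v, h⟩
      simpa using this

/-! ### Division points -/

/-- the `M`-division point `(x ω₁ + y ω₂) / M` is a lattice point iff `M ∣ x` and `M ∣ y` -/
theorem div_mem_lattice_iff (M : ℕ) (hM : M ≠ 0) (x y : ℤ) :
    ((x : ℂ) * L.ω₁ + (y : ℂ) * L.ω₂) / (M : ℂ) ∈ L.lattice ↔ ((M : ℤ) ∣ x ∧ (M : ℤ) ∣ y) := by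
  have hM' : (M : ℤ) ≠ 0 := by exact_mod_cast hM
  have hMc : (M : ℂ) ≠ 0 := by exact_mod_cast hM
  have e : ((x : ℂ) * L.ω₁ + (y : ℂ) * L.ω₂) / (M : ℂ)
      = (((x : ℚ) / ((M : ℤ) : ℚ) : ℚ) : ℂ) * L.ω₁ + (((y : ℚ) / ((M : ℤ) : ℚ) : ℚ) : ℂ) * L.ω₂ := by
    push_cast
    field_simp
  rw [e, PeriodPair.mul_ω₁_add_mul_ω₂_mem_lattice, Rat.den_div_intCast_eq_one_iff x M hM',
    Rat.den_div_intCast_eq_one_iff y M hM']

/-- the `M`-division point attached to `(x, y)` -/
def divPt (M : ℕ) (x y : ℤ) : ℂ := ((x : ℂ) * L.ω₁ + (y : ℂ) * L.ω₂) / (M : ℂ)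

theorem divPt_sub (M : ℕ) (x y x' y' : ℤ) :
    divPt L M x y - divPt L M x' y' = divPt L M (x - x') (y - y') := by
  simp only [divPt]
  push_cast
  ring

theorem divPt_add (M : ℕ) (x y x' y' : ℤ) :
    divPt L M x y + divPt L M x' y' = divPt L M (x + x') (y + y') := by
  simp only [divPt]
  push_cast
  ring

theorem divPt_mem_lattice_iff (M : ℕ) (hM : M ≠ 0) (x y : ℤ) :
    divPt L M x y ∈ L.lattice ↔ ((M : ℤ) ∣ x ∧ (M : ℤ) ∣ y) :=
  div_mem_lattice_iff L M hM x y

/-- **`℘` at division points**: for two `M`-division points off the lattice,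
`℘ P = ℘ Q` iff `P ≡ ± Q`. -/
theorem weierstrassP_divPt_eq_iff (M : ℕ) (hM : M ≠ 0) (x y x' y' : ℤ)
    (h : ¬ ((M : ℤ) ∣ x ∧ (M : ℤ) ∣ y)) (h' : ¬ ((M : ℤ) ∣ x' ∧ (M : ℤ) ∣ y')) :
    L.weierstrassP (divPt L M x y) = L.weierstrassP (divPt L M x' y') ↔
      (((M : ℤ) ∣ x - x' ∧ (M : ℤ) ∣ y - y') ∨ ((M : ℤ) ∣ x + x' ∧ (M : ℤ) ∣ y + y')) := by
  rw [weierstrassP_eq_iff L (fun hm => h ((divPt_mem_lattice_iff L M hM x y).mp hm))
    (fun hm => h' ((divPt_mem_lattice_iff L M hM x' y').mp hm)), divPt_sub, divPt_add,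
    divPt_mem_lattice_iff L M hM, divPt_mem_lattice_iff L M hM]

/-- **the differences `℘(a τ) - ℘(b τ)` for a lattice `⟨ω₁, M τ⟩` (e.g. `⟨1, M τ⟩`) do not
vanish** (`a, b ≢ 0`, `a ≢ ± b` modulo `M`). -/
theorem weierstrassP_int_mul_ne (M : ℕ) (hM : M ≠ 0) (τ : ℂ)
    (h2 : L.ω₂ = (M : ℂ) * τ) (a b : ℤ) (ha : ¬ (M : ℤ) ∣ a) (hb : ¬ (M : ℤ) ∣ b)
    (hab : ¬ (M : ℤ) ∣ a - b) (hab' : ¬ (M : ℤ) ∣ a + b) :
    L.weierstrassP ((a : ℂ) * τ) ≠ L.weierstrassP ((b : ℂ) * τ) := by
  have hMc : (M : ℂ) ≠ 0 := by exact_mod_cast hM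
  have e : ∀ c : ℤ, (c : ℂ) * τ = divPt L M 0 c := by
    intro c
    simp only [divPt, h2]
    push_cast
    field_simp
    ring
  rw [e a, e b, Ne, weierstrassP_divPt_eq_iff L M hM 0 a 0 b (fun h => ha h.2) (fun h => hb h.2)]
  rintro (h | h)
  · exact hab h.2
  · exact hab' h.2

/-- the same with the periods in the other order: lattice `⟨M τ, ω₂⟩` -/
theorem weierstrassP_int_mul_ne' (M : ℕ) (hM : M ≠ 0) (τ : ℂ) (h1 : L.ω₁ = (M : ℂ) * τ)
    (a b : ℤ) (ha : ¬ (M : ℤ) ∣ a) (hb : ¬ (M : ℤ) ∣ b)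
    (hab : ¬ (M : ℤ) ∣ a - b) (hab' : ¬ (M : ℤ) ∣ a + b) :
    L.weierstrassP ((a : ℂ) * τ) ≠ L.weierstrassP ((b : ℂ) * τ) := by
  have hMc : (M : ℂ) ≠ 0 := by exact_mod_cast hM
  have e : ∀ c : ℤ, (c : ℂ) * τ = divPt L M c 0 := by
    intro c
    simp only [divPt, h1]
    push_cast
    field_simp
    ring
  rw [e a, e b, Ne, weierstrassP_divPt_eq_iff L M hM a 0 b 0 (fun h => ha h.1) (fun h => hb h.1)]
  rintro (h | h)
  · exact hab h.1
  · exact hab' h.1

end Fermat.Agent.T4.helper11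

end
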