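import Mathlib
import Fermat.Agent.T4.helper80_EndgameDefs

/-!
# T4 block (IV), the DIV branch (helper2): Deligne-Serre endgame from the FROBENIUS
# (division) density theorem only.  Props and the chain.

Route: `Fermat/Agent/T4/NOTES_helper2_T4Endgame.lean`.  Vocabulary: helper80_EndgameDefs
(`GQ`, `Zbar`, `primeMass`, `UpperDensityLE`, `LowerDensityGE`, `frobSet`, `FrobData`,
`HasResidual`, `RankinStatement`, `LargeIn`, `FewCharpolys`, `Conclusion`).

Inputs:
* `DivLowerStatement`, `DivUpperStatement` : the division density theorem (helper40, row 996);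
* `ResAllStatement` : residual representations for ALL primes `l ≥ l₀` and all residue maps;
* `RankinStatement` (helper80 shape: Rankin for all conjugates).

Leaves:
* `CountStatement`  [DIV-COUNT]  pure group theory in `GL 2 k`;
* `KummerPrimeStatement` [DIV-KUMMER] residue maps along which a non-torsion unit has an order
  with small `φ(n)/n`;
* `ZeroDensStatement` [DIV-ZERO] classes with a non-torsion eigenvalue have density zero;
* `TorsionStatement` [DIV-TORS] off a thin set of primes the eigenvalues are `A₀`-th roots of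
  unity;
* `DivWireStatement` [DIV-WIRE] the torsion set is large in every finite image;
* `IrrDivStatement` [DIV-IRR] irreducibility from Rankin for all conjugates;
* `EndgameDivStatement` : the conclusion of the frozen S48.
-/

set_option autoImplicit false

namespace Fermat.Agent.T4.helper2

open Fermat.Agent.T4.helper80

/-! ## The inputs -/

/-- **Division density, lower bound**: for a subset `C` of a finite quotient of `GQ` stable
under conjugation and under the powers prime to the group order. -/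
def DivLowerStatement : Prop :=
  ∀ (G : Type) (_ : Group G) (_ : Finite G) (ρ : GQ →* G),
    GaloisFactorsThroughFiniteLevel ρ → Function.Surjective ρ →
    ∀ C : Set G, (∀ g h : G, h ∈ C → g * h * g⁻¹ ∈ C) →
      (∀ (h : G) (j : ℕ), h ∈ C → Nat.Coprime j (Nat.card G) → h ^ j ∈ C) →
      LowerDensityGE (frobSet ρ C) ((Nat.card C : ℝ) / (Nat.card G : ℝ))

/-- **Division density, upper bound** (away from a finite set of primes). -/
def DivUpperStatement : Prop :=
  ∀ (G : Type) (_ : Group G) (_ : Finite G) (ρ : GQ →* G),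
    GaloisFactorsThroughFiniteLevel ρ → Function.Surjective ρ →
    ∀ C : Set G, (∀ g h : G, h ∈ C → g * h * g⁻¹ ∈ C) →
      (∀ (h : G) (j : ℕ), h ∈ C → Nat.Coprime j (Nat.card G) → h ^ j ∈ C) →
      ∃ Bad : Finset ℕ,
        UpperDensityLE (frobSet ρ C \ (Bad : Set ℕ)) ((Nat.card C : ℝ) / (Nat.card G : ℝ))

/-- **Input from blocks (I) + (III) + (V)**, strong form: residual representations for ALL
primes `l ≥ l₀`, along every residue map to an algebraically closed field. -/
def ResAllStatement (N : ℕ) (a e : ℕ → ℂ) : Prop :=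
  ∃ l₀ : ℕ, ∀ l : ℕ, l₀ ≤ l → l.Prime →
    ∀ (k : Type) (_ : Field k) (_ : CharP k l) (_ : IsAlgClosed k) (φ : Zbar →+* k),
      HasResidual N a e l φ

/-! ## The leaves -/

/-- **[DIV-COUNT]** (Mathlib only).  `G` a finite subgroup of `GL 2 k`, `a ≠ b` in `k`, and
some element of `G` has trace `a + b` and determinant `a b`.
If every element of `D ⊆ G` has trace `a ^ j + b ^ j` and determinant `(a b) ^ j` for some `j`
prime to `|G|`, then `|D| ord(a) ≤ 4 φ(ord a) |G|`. -/
def CountStatement : Prop :=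
  ∀ (k : Type) (_ : Field k) (G : Subgroup (GL (Fin 2) k)) (_ : Finite G) (a b : k),
    a ≠ b →
    (∃ g₁ ∈ G, (g₁ : Matrix (Fin 2) (Fin 2) k).trace = a + b ∧
      (g₁ : Matrix (Fin 2) (Fin 2) k).det = a * b) →
    ∀ D : Set (GL (Fin 2) k), D ⊆ (G : Set (GL (Fin 2) k)) →
    (∀ g ∈ D, ∃ j : ℕ, Nat.Coprime j (Nat.card G) ∧
      (g : Matrix (Fin 2) (Fin 2) k).trace = a ^ j + b ^ j ∧
      (g : Matrix (Fin 2) (Fin 2) k).det = (a * b) ^ j) →
    (Nat.card D : ℝ) * (orderOf a : ℝ) ≤ 4 * ((orderOf a).totient : ℝ) * (Nat.card G : ℝ)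

/-- **[DIV-KUMMER]** (weak Chebotarev on main + Kummer theory).  For a unit `α` of the
algebraic integers which is not a root of unity there are residue maps of arbitrarily large
residue characteristic along which the order `n` of `α` has `φ(n) ≤ ε n`. -/
def KummerPrimeStatement : Prop :=
  ∀ α : Zbar, IsUnit α → (∀ n : ℕ, 0 < n → α ^ n ≠ 1) → ∀ ε : ℝ, 0 < ε → ∀ l₀ : ℕ,
    ∃ l : ℕ, l₀ ≤ l ∧ l.Prime ∧
      ∃ (k : Type) (_ : Field k) (_ : CharP k l) (_ : IsAlgClosed k) (φ : Zbar →+* k),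
        0 < orderOf (φ α) ∧ ((orderOf (φ α)).totient : ℝ) ≤ ε * (orderOf (φ α) : ℝ)

/-- The primes `p ∤ N` with `a p = a₀` and `e p = e₀`. -/
def classSet (N : ℕ) (a e : ℕ → ℂ) (a₀ e₀ : ℂ) : Set ℕ :=
  {p : ℕ | p.Prime ∧ ¬ p ∣ N ∧ a p = a₀ ∧ e p = e₀}

/-- **[DIV-ZERO]** a class `X² - a₀ X + e₀ = (X - α)(X - β)` with `e₀` a root of unity and
`α` an algebraic integer which is not a root of unity has density zero. -/
def ZeroDensStatement : Prop :=
  DivUpperStatement → KummerPrimeStatement → CountStatement →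
  ∀ (N : ℕ) (a e : ℕ → ℂ), N ≠ 0 → ResAllStatement N a e →
    ∀ α β : Zbar, (∃ m : ℕ, 0 < m ∧ (α * β) ^ m = 1) → (∀ n : ℕ, 0 < n → α ^ n ≠ 1) →
      UpperDensityLE (classSet N a e ((α : ℂ) + (β : ℂ)) ((α : ℂ) * (β : ℂ))) 0

/-- Both roots of `X² - a X + e` are `A`-th roots of unity. -/
def IsTorsionPair (A : ℕ) (a e : ℂ) : Prop :=
  ∃ ζ ζ' : ℂ, ζ ^ A = 1 ∧ ζ' ^ A = 1 ∧ a = ζ + ζ' ∧ e = ζ * ζ'

/-- **[DIV-TORS]** off a set of primes of arbitrarily small upper density the roots of
`X² - a p X + e p` are `A₀`-th roots of unity (`A₀` depending on the density). -/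
def TorsionStatement : Prop :=
  FinStatement →
  (∀ (N : ℕ) (a e : ℕ → ℂ), N ≠ 0 → ResAllStatement N a e →
    ∀ α β : Zbar, (∃ m : ℕ, 0 < m ∧ (α * β) ^ m = 1) → (∀ n : ℕ, 0 < n → α ^ n ≠ 1) →
      UpperDensityLE (classSet N a e ((α : ℂ) + (β : ℂ)) ((α : ℂ) * (β : ℂ))) 0) →
  ∀ (N : ℕ) (a e : ℕ → ℂ), N ≠ 0 → RankinStatement N a → ResAllStatement N a e →
    (∃ m : ℕ, 0 < m ∧ ∀ p : ℕ, p.Prime → ¬ p ∣ N → e p ^ m = 1) →
    ∀ η : ℝ, 0 < η → ∃ (A₀ : ℕ) (X : Set ℕ), 0 < A₀ ∧ UpperDensityLE X η ∧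
      ∀ p : ℕ, p.Prime → ¬ p ∣ N → p ∉ X → IsTorsionPair A₀ (a p) (e p)

/-- The elements of `Γ` whose image under `ρ` has both eigenvalues in `μ_A`. -/
def torsSet {Γ k : Type} [Group Γ] [Field k] (ρ : Γ →* GL (Fin 2) k) (A : ℕ) : Set Γ :=
  {γ : Γ | ∃ s t : k, s ^ A = 1 ∧ t ^ A = 1 ∧
    ((ρ γ : GL (Fin 2) k) : Matrix (Fin 2) (Fin 2) k).trace = s + t ∧
    ((ρ γ : GL (Fin 2) k) : Matrix (Fin 2) (Fin 2) k).det = s * t}

/-- **[DIV-WIRE]** if the eigenvalues at the primes outside a set of upper density `≤ 1/48` are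
`A₀`-th roots of unity, then for every residual representation the torsion set is large in
every quotient and carries at most `A₀ ^ 2` characteristic polynomials. -/
def DivWireStatement : Prop :=
  DivLowerStatement →
  ∀ (N : ℕ) (a e : ℕ → ℂ) (A₀ : ℕ) (X : Set ℕ), N ≠ 0 → 0 < A₀ → UpperDensityLE X (1 / 48) →
    (∀ p : ℕ, p.Prime → ¬ p ∣ N → p ∉ X → IsTorsionPair A₀ (a p) (e p)) →
    ∀ (l : ℕ) (k : Type) (_ : Field k) (φ : Zbar →+* k) (ρ : GQ →* GL (Fin 2) k),
      l.Prime → GaloisFactorsThroughFiniteLevel ρ →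
      (∀ p : ℕ, p.Prime → ¬ p ∣ N * l →
        ∃ x y : Zbar, (x : ℂ) = a p ∧ (y : ℂ) = e p ∧ FrobData ρ p (φ x) (φ y)) →
      LargeIn ρ (torsSet ρ A₀) ∧ FewCharpolys ρ (torsSet ρ A₀) (A₀ ^ 2)

/-- **[DIV-IRR]** irreducibility: a finite-level complex representation whose Frobenius traces
are the `a p` of a system satisfying the Rankin bound for ALL conjugates is irreducible. -/
def IrrDivStatement : Prop :=
  DivLowerStatement → ∀ (N : ℕ) (a : ℕ → ℂ) (ρ : GQ →* GL (Fin 2) ℂ), N ≠ 0 →
    RankinStatement N a → GaloisFactorsThroughFiniteLevel ρ →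
    (∀ p : ℕ, p.Prime → ¬ p ∣ N →
      ∀ A : ValuationSubring (AlgebraicClosure ℚ), A.LiesOverPrime p →
        ∀ σ : GQ, A.IsFrobeniusAt σ p →
          ((ρ σ : GL (Fin 2) ℂ) : Matrix (Fin 2) (Fin 2) ℂ).trace = a p) →
    (Deformation.matrixRepresentation ρ).IsIrreducible

/-- **The endgame, DIV form**: what the DIV branch delivers. -/
def EndgameDivStatement : Prop :=
  ∀ (N : ℕ) (_ : NeZero N) (ε : DirichletCharacter ℂ N) (a : ℕ → ℂ),
    DivLowerStatement → DivUpperStatement → RankinStatement N a →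
    ResAllStatement N a (fun p : ℕ => ε (p : ZMod N)) →
    Conclusion N a (fun p : ℕ => ε (p : ZMod N))

/-- The assembly of the DIV branch from its leaves and the leaves of helper80. -/
def EndgameDivOfLeaves : Prop :=
  FinStatement → CountStatement → KummerPrimeStatement → ZeroDensStatement →
    TorsionStatement → DivWireStatement → BoundStatement → LiftStatement → ValStatement →
    IndepStatement → IrrDivStatement → EndgameDivStatement

/-- **Input from the forms side**, strong form. -/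
def FormsAllStatement : Prop :=
  ∀ (N : ℕ) (_ : NeZero N) (ε : DirichletCharacter ℂ N)
    (f : CuspForm (CongruenceSubgroup.Gamma1 N) 1),
    ModularFormClass.qCoeff f 1 = 1 →
    (∀ p : ℕ, p.Prime → ¬ p ∣ N → ∀ n : ℕ,
      ModularFormClass.qCoeff f (p * n) +
          ε (p : ZMod N) * (if p ∣ n then ModularFormClass.qCoeff f (n / p) else 0) =
        ModularFormClass.qCoeff f p * ModularFormClass.qCoeff f n) →
    RankinStatement N (fun p : ℕ => ModularFormClass.qCoeff f p) ∧
      ResAllStatement N (fun p : ℕ => ModularFormClass.qCoeff f p)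
        (fun p : ℕ => ε (p : ZMod N))

/-- The frozen statement S48 (verbatim shape) from the DIV endgame, the division density
theorem and the forms-side inputs. -/
theorem s48_of_div (hE : EndgameDivStatement) (hL : DivLowerStatement)
    (hU : DivUpperStatement) (hF : FormsAllStatement)
    (N : ℕ) [NeZero N] (ε : DirichletCharacter ℂ N)
    (f : CuspForm (CongruenceSubgroup.Gamma1 N) 1)
    (hf₁ : ModularFormClass.qCoeff f 1 = 1)
    (hT : ∀ p : ℕ, p.Prime → ¬ p ∣ N → ∀ n : ℕ,
        ModularFormClass.qCoeff f (p * n) +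
            ε (p : ZMod N) * (if p ∣ n then ModularFormClass.qCoeff f (n / p) else 0) =
          ModularFormClass.qCoeff f p * ModularFormClass.qCoeff f n) :
    ∃ ρ : GQ →* GL (Fin 2) ℂ, GaloisFactorsThroughFiniteLevel ρ ∧
      (Deformation.matrixRepresentation ρ).IsIrreducible ∧
      ∀ p : ℕ, p.Prime → ¬ p ∣ N →
        ∀ A : ValuationSubring (AlgebraicClosure ℚ), A.LiesOverPrime p →
          (∀ σ ∈ A.inertiaSubgroupIn ℚ, ρ σ = 1) ∧
          ∀ σ : GQ, A.IsFrobeniusAt σ p →
            ((ρ σ : GL (Fin 2) ℂ) : Matrix (Fin 2) (Fin 2) ℂ).trace =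
                ModularFormClass.qCoeff f p ∧
            ((ρ σ : GL (Fin 2) ℂ) : Matrix (Fin 2) (Fin 2) ℂ).det = ε (p : ZMod N) := by
  obtain ⟨hR, hRes⟩ := hF N inferInstance ε f hf₁ hT
  exact hE N inferInstance ε _ hL hU hR hRes

end Fermat.Agent.T4.helper2
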