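import Mathlib
import Fermat.Agent.T4.helper2_DivDefs

/-!
# T4 block (IV), DIV branch, leaf [DIV-COUNT] (helper12)

`count : helper2.CountStatement`: for a finite subgroup `G` of `GL₂(k)`, `a ≠ b` and
`C₁ = {x ∈ G : tr x = a + b, det x = a b}` nonempty, a subset `D` of `G` all of whose elements
have trace `a ^ j + b ^ j` and determinant `(a b) ^ j` for some `j` prime to `|G|` satisfies
`|D| ord(a) ≤ 4 φ(ord a) |G|`.

Steps: the `2 × 2` power formula `(a - b) X ^ d = (a ^ d - b ^ d) X + (a b ^ d - a ^ d b)`,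
all elements of `C₁` have the same order `n` (and `ord a ∣ n`), `n |C₁| ≤ 4 |G|` (the map
`(d, x) ↦ x ^ d` has fibres of size `≤ 2` on `{d < n : a ^ d ≠ b ^ d} × C₁`),
`|D| ≤ φ(n) |C₁|` and `φ(n) ord(a) ≤ φ(ord a) n`.
-/

set_option autoImplicit false

namespace Fermat.Agent.T4.helper12

open Matrix

section Mat

variable {k : Type} [Field k]

/-- Cayley-Hamilton for `2 × 2` matrices. -/
theorem cnt_sq (X : Matrix (Fin 2) (Fin 2) k) :
    X * X = X.trace • X - X.det • (1 : Matrix (Fin 2) (Fin 2) k) := by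
  ext i j
  fin_cases i <;> fin_cases j <;>
    simp [Matrix.mul_apply, Fin.sum_univ_two, Matrix.trace_fin_two, Matrix.det_fin_two] <;> ring

/-- the power formula -/
theorem cnt_pow {X : Matrix (Fin 2) (Fin 2) k} {a b : k} (ht : X.trace = a + b)
    (hd : X.det = a * b) (d : ℕ) :
    (a - b) • X ^ d = (a ^ d - b ^ d) • X + (a * b ^ d - a ^ d * b) • (1 : Matrix (Fin 2) (Fin 2) k) := by
  induction d with
  | zero =>
    simp only [pow_zero, sub_self, zero_smul, zero_add, mul_one, one_mul]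
  | succ d ih =>
    have h1 : (a - b) • X ^ (d + 1) = ((a - b) • X ^ d) * X := by
      rw [pow_succ, Matrix.smul_mul]
    rw [h1, ih, Matrix.add_mul, Matrix.smul_mul, Matrix.smul_mul, Matrix.one_mul, cnt_sq X, ht, hd]
    module

/-- a scalar matrix with trace `a + b` and determinant `a b` forces `a = b`. -/
theorem cnt_scalar {X : Matrix (Fin 2) (Fin 2) k} {a b c : k} (ht : X.trace = a + b)
    (hd : X.det = a * b) (hX : X = c • (1 : Matrix (Fin 2) (Fin 2) k)) : a = b := by
  subst hX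
  have h1 : a + b = c + c := by
    rw [← ht, Matrix.trace_fin_two]; simp
  have h2 : a * b = c * c := by
    rw [← hd, Matrix.det_fin_two]; simp
  have h3 : (a - b) ^ 2 = 0 := by
    have : (a - b) ^ 2 = (a + b) ^ 2 - 4 * (a * b) := by ring
    rw [this, h1, h2]; ring
  exact sub_eq_zero.mp (pow_eq_zero_iff (two_ne_zero) |>.mp h3)

theorem cnt_pow_eq_one_iff {X : Matrix (Fin 2) (Fin 2) k} {a b : k} (ht : X.trace = a + b)
    (hd : X.det = a * b) (hab : a ≠ b) (d : ℕ) :
    X ^ d = 1 ↔ a ^ d = 1 ∧ b ^ d = 1 := by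
  have hf := cnt_pow ht hd d
  have hab' : a - b ≠ 0 := sub_ne_zero.mpr hab
  constructor
  · intro h
    rw [h] at hf
    by_cases hs : a ^ d = b ^ d
    · rw [hs, sub_self, zero_smul, zero_add] at hf
      have h00 := congrFun (congrFun hf 0) 0
      simp only [Matrix.smul_apply, Matrix.one_apply_eq, smul_eq_mul, mul_one] at h00
      have h3 : (a - b) * (b ^ d - 1) = 0 := by linear_combination -h00
      rcases mul_eq_zero.mp h3 with h4 | h4
      · exact absurd h4 hab'
      · have : b ^ d = 1 := sub_eq_zero.mp h4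
        exact ⟨hs.trans this, this⟩
    · exfalso
      have hs' : a ^ d - b ^ d ≠ 0 := sub_ne_zero.mpr hs
      apply hab
      refine cnt_scalar (c := ((a - b) - (a * b ^ d - a ^ d * b)) / (a ^ d - b ^ d)) ht hd ?_
      have h5 : (a ^ d - b ^ d) • X =
          ((a - b) - (a * b ^ d - a ^ d * b)) • (1 : Matrix (Fin 2) (Fin 2) k) := by
        rw [sub_smul ((a - b)) _ (1 : Matrix (Fin 2) (Fin 2) k), hf]; abel
      have h6 : X = (a ^ d - b ^ d)⁻¹ • ((a ^ d - b ^ d) • X) := by
        rw [smul_smul, inv_mul_cancel₀ hs', one_smul]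
      rw [h6, h5, smul_smul, div_eq_inv_mul]
  · rintro ⟨h1, h2⟩
    rw [h1, h2, sub_self, zero_smul, zero_add, mul_one, one_mul] at hf
    exact smul_right_injective _ hab' hf

/-- the trace of a power -/
theorem cnt_trace_pow {X : Matrix (Fin 2) (Fin 2) k} {a b : k} (ht : X.trace = a + b)
    (hd : X.det = a * b) (hab : a ≠ b) (d : ℕ) : (X ^ d).trace = a ^ d + b ^ d := by
  have hf := congrArg Matrix.trace (cnt_pow ht hd d)
  rw [Matrix.trace_smul, Matrix.trace_add, Matrix.trace_smul, Matrix.trace_smul, ht,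
    Matrix.trace_one] at hf
  simp only [smul_eq_mul, Fintype.card_fin, Nat.cast_ofNat] at hf
  have hab' : a - b ≠ 0 := sub_ne_zero.mpr hab
  apply mul_left_cancel₀ hab'
  rw [hf]; ring

end Mat

section Aux

/-- powers only depend on the exponent modulo `n` when `x ^ n = 1` -/
theorem cnt_pow_mod {M : Type*} [Monoid M] {x : M} {n : ℕ} (h : x ^ n = 1) (m : ℕ) :
    x ^ (m % n) = x ^ m := by
  conv_rhs => rw [← Nat.div_add_mod m n, pow_add, pow_mul, h, one_pow, one_mul]

/-- `φ(n) / n ≤ φ(d) / d` for `d ∣ n`. -/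
theorem cnt_totient {d n : ℕ} (hdn : d ∣ n) (hn : 0 < n) :
    Nat.totient n * d ≤ Nat.totient d * n := by
  have hd : 0 < d := Nat.pos_of_dvd_of_pos hdn hn
  have hsub : d.primeFactors ⊆ n.primeFactors := Nat.primeFactors_mono hdn hn.ne'
  have hPn : ∏ p ∈ n.primeFactors, p =
      (∏ p ∈ n.primeFactors \ d.primeFactors, p) * ∏ p ∈ d.primeFactors, p :=
    (Finset.prod_sdiff hsub).symm
  have hQn : ∏ p ∈ n.primeFactors, (p - 1) =
      (∏ p ∈ n.primeFactors \ d.primeFactors, (p - 1)) * ∏ p ∈ d.primeFactors, (p - 1) :=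
    (Finset.prod_sdiff hsub).symm
  have hQR : ∏ p ∈ n.primeFactors \ d.primeFactors, (p - 1) ≤
      ∏ p ∈ n.primeFactors \ d.primeFactors, p :=
    Finset.prod_le_prod' fun p _ => Nat.sub_le p 1
  have hPdpos : 0 < ∏ p ∈ d.primeFactors, p :=
    Finset.prod_pos fun p hp => (Nat.prime_of_mem_primeFactors hp).pos
  have hPnpos : 0 < ∏ p ∈ n.primeFactors, p :=
    Finset.prod_pos fun p hp => (Nat.prime_of_mem_primeFactors hp).pos
  have h1 := Nat.totient_mul_prod_primeFactors n
  have h2 := Nat.totient_mul_prod_primeFactors d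
  apply Nat.le_of_mul_le_mul_right (c := (∏ p ∈ n.primeFactors, p) * ∏ p ∈ d.primeFactors, p)
    _ (Nat.mul_pos hPnpos hPdpos)
  calc Nat.totient n * d * ((∏ p ∈ n.primeFactors, p) * ∏ p ∈ d.primeFactors, p)
      = (Nat.totient n * ∏ p ∈ n.primeFactors, p) * (d * ∏ p ∈ d.primeFactors, p) := by ring
    _ = (n * ∏ p ∈ n.primeFactors, (p - 1)) * (d * ∏ p ∈ d.primeFactors, p) := by rw [h1]
    _ = (n * d * ((∏ p ∈ d.primeFactors, (p - 1)) * ∏ p ∈ d.primeFactors, p)) *
          ∏ p ∈ n.primeFactors \ d.primeFactors, (p - 1) := by rw [hQn]; ring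
    _ ≤ (n * d * ((∏ p ∈ d.primeFactors, (p - 1)) * ∏ p ∈ d.primeFactors, p)) *
          ∏ p ∈ n.primeFactors \ d.primeFactors, p := Nat.mul_le_mul_left _ hQR
    _ = (d * ∏ p ∈ d.primeFactors, (p - 1)) * (n * ∏ p ∈ n.primeFactors, p) := by
        rw [hPn]; ring
    _ = (Nat.totient d * ∏ p ∈ d.primeFactors, p) * (n * ∏ p ∈ n.primeFactors, p) := by rw [h2]
    _ = Nat.totient d * n * ((∏ p ∈ n.primeFactors, p) * ∏ p ∈ d.primeFactors, p) := by ring

end Aux

section Grp

variable {k : Type} [Field k]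

theorem cnt_gl_pow_eq_one_iff {g : GL (Fin 2) k} {a b : k}
    (ht : (g : Matrix (Fin 2) (Fin 2) k).trace = a + b)
    (hd : (g : Matrix (Fin 2) (Fin 2) k).det = a * b) (hab : a ≠ b) (d : ℕ) :
    g ^ d = 1 ↔ a ^ d = 1 ∧ b ^ d = 1 := by
  rw [← cnt_pow_eq_one_iff ht hd hab d, ← Units.val_pow_eq_pow_val, Units.val_eq_one]

theorem cnt_gl_trace_pow {g : GL (Fin 2) k} {a b : k}
    (ht : (g : Matrix (Fin 2) (Fin 2) k).trace = a + b)
    (hd : (g : Matrix (Fin 2) (Fin 2) k).det = a * b) (hab : a ≠ b) (d : ℕ) :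
    ((g ^ d : GL (Fin 2) k) : Matrix (Fin 2) (Fin 2) k).trace = a ^ d + b ^ d := by
  rw [Units.val_pow_eq_pow_val, cnt_trace_pow ht hd hab d]

theorem cnt_gl_det_pow {g : GL (Fin 2) k} {e : k}
    (hd : (g : Matrix (Fin 2) (Fin 2) k).det = e) (d : ℕ) :
    ((g ^ d : GL (Fin 2) k) : Matrix (Fin 2) (Fin 2) k).det = e ^ d := by
  rw [Units.val_pow_eq_pow_val, Matrix.det_pow, hd]

/-- the counting core, with finsets in `GL₂(k)` -/
theorem cnt_core [DecidableEq (GL (Fin 2) k)] [DecidableEq k]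
    (G : Subgroup (GL (Fin 2) k)) (GF DF : Finset (GL (Fin 2) k)) (N : ℕ)
    (hGF : ∀ g, g ∈ GF ↔ g ∈ G) (hcard : GF.card = N)
    (hpowN : ∀ g ∈ G, g ^ N = 1) (a b : k) (hab : a ≠ b)
    (g₁ : GL (Fin 2) k) (hg₁G : g₁ ∈ G)
    (hg₁t : (g₁ : Matrix (Fin 2) (Fin 2) k).trace = a + b)
    (hg₁d : (g₁ : Matrix (Fin 2) (Fin 2) k).det = a * b)
    (hDG : ∀ g ∈ DF, g ∈ G)
    (hD : ∀ g ∈ DF, ∃ j : ℕ, Nat.Coprime j N ∧
      (g : Matrix (Fin 2) (Fin 2) k).trace = a ^ j + b ^ j ∧
      (g : Matrix (Fin 2) (Fin 2) k).det = (a * b) ^ j) :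
    DF.card * orderOf a ≤ 4 * (orderOf a).totient * N := by
  have hNpos : 0 < N := by
    rw [← hcard]
    exact Finset.card_pos.mpr ⟨g₁, (hGF g₁).mpr hg₁G⟩
  -- the constants
  have habN := (cnt_gl_pow_eq_one_iff hg₁t hg₁d hab N).mp (hpowN g₁ hg₁G)
  have haN : a ^ N = 1 := habN.1
  have hbN : b ^ N = 1 := habN.2
  have ha0 : a ≠ 0 := by
    rintro rfl
    rw [zero_pow hNpos.ne'] at haN
    exact zero_ne_one haN
  set n := orderOf g₁ with hn
  have hnN : n ∣ N := orderOf_dvd_of_pow_eq_one (hpowN g₁ hg₁G)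
  have hnpos : 0 < n := Nat.pos_of_dvd_of_pos hnN hNpos
  have habn := (cnt_gl_pow_eq_one_iff hg₁t hg₁d hab n).mp (pow_orderOf_eq_one g₁)
  have han : a ^ n = 1 := habn.1
  have hbn : b ^ n = 1 := habn.2
  have hoa : orderOf a ∣ n := orderOf_dvd_of_pow_eq_one han
  have hn1 : n ≠ 1 := by
    intro h
    rw [h, pow_one] at han hbn
    exact hab (han.trans hbn.symm)
  have hN1 : 1 < N := by
    have : 1 < n := by omega
    exact lt_of_lt_of_le this (Nat.le_of_dvd hNpos hnN)
  -- the class `C₁`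
  set C1 := GF.filter (fun x : GL (Fin 2) k =>
    (x : Matrix (Fin 2) (Fin 2) k).trace = a + b ∧ (x : Matrix (Fin 2) (Fin 2) k).det = a * b)
    with hC1
  have hC1mem : ∀ x, x ∈ C1 ↔ x ∈ G ∧ (x : Matrix (Fin 2) (Fin 2) k).trace = a + b ∧
      (x : Matrix (Fin 2) (Fin 2) k).det = a * b := by
    intro x
    rw [hC1, Finset.mem_filter, hGF]
  have hord : ∀ x ∈ C1, orderOf x = n := by
    intro x hx
    obtain ⟨-, hxt, hxd⟩ := (hC1mem x).mp hx
    rw [hn, orderOf_eq_orderOf_iff]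
    intro d
    rw [cnt_gl_pow_eq_one_iff hxt hxd hab, cnt_gl_pow_eq_one_iff hg₁t hg₁d hab]
  -- (3) `n |C₁| ≤ 4 |G|`
  set S := (Finset.range n).filter (fun d => a ^ d ≠ b ^ d) with hS
  set T := (Finset.range n).filter (fun d => ¬ (a ^ d ≠ b ^ d)) with hT
  have hST : S.card + T.card = n := by
    rw [hS, hT, Finset.card_filter_add_card_filter_not, Finset.card_range]
  have hTS : T.card ≤ S.card := by
    apply Finset.card_le_card_of_injOn (fun d => (d + 1) % n)
    · intro d hd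
      rw [hT, Finset.coe_filter] at hd
      obtain ⟨hdn, hdab⟩ := hd
      have hdab' : a ^ d = b ^ d := not_not.mp hdab
      rw [hS, Finset.coe_filter]
      refine ⟨Finset.mem_range.mpr (Nat.mod_lt _ hnpos), ?_⟩
      show a ^ ((d + 1) % n) ≠ b ^ ((d + 1) % n)
      rw [cnt_pow_mod han, cnt_pow_mod hbn, pow_succ, pow_succ, hdab']
      intro h
      have hb0 : b ^ d ≠ 0 := by
        rw [← hdab']; exact pow_ne_zero _ ha0
      exact hab (mul_left_cancel₀ hb0 h)
    · intro d hd d' hd' h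
      rw [hT, Finset.coe_filter] at hd hd'
      have h1 : (d + 1) ≡ (d' + 1) [MOD n] := h
      have h2 : d ≡ d' [MOD n] := Nat.ModEq.add_right_cancel' 1 h1
      exact Nat.ModEq.eq_of_lt_of_lt h2 (Finset.mem_range.mp hd.1) (Finset.mem_range.mp hd'.1)
  have hfib : ∀ y ∈ (S ×ˢ C1).image (fun p : ℕ × GL (Fin 2) k => p.2 ^ p.1),
      ((S ×ˢ C1).filter (fun p : ℕ × GL (Fin 2) k => p.2 ^ p.1 = y)).card ≤ 2 := by
    intro y _
    rcases Finset.eq_empty_or_nonempty
      ((S ×ˢ C1).filter (fun p : ℕ × GL (Fin 2) k => p.2 ^ p.1 = y)) with h0 | ⟨p0, hp0⟩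
    · rw [h0]; simp
    · have key : ∀ p ∈ (S ×ˢ C1).filter (fun p : ℕ × GL (Fin 2) k => p.2 ^ p.1 = y),
          p.1 < n ∧ a ^ p.1 ≠ b ^ p.1 ∧ p.2 ∈ C1 ∧
          (y : Matrix (Fin 2) (Fin 2) k).trace = a ^ p.1 + b ^ p.1 ∧
          (y : Matrix (Fin 2) (Fin 2) k).det = (a * b) ^ p.1 ∧ p.2 ^ p.1 = y := by
        intro p hp
        rw [Finset.mem_filter, Finset.mem_product, hS, Finset.mem_filter, Finset.mem_range] at hp
        obtain ⟨⟨⟨h1, h2⟩, h3⟩, h4⟩ := hp
        obtain ⟨-, hxt, hxd⟩ := (hC1mem p.2).mp h3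
        refine ⟨h1, h2, h3, ?_, ?_, h4⟩
        · rw [← h4, cnt_gl_trace_pow hxt hxd hab]
        · rw [← h4, cnt_gl_det_pow hxd]
      obtain ⟨-, -, -, ht0, hd0, -⟩ := key p0 hp0
      have hle : ((S ×ˢ C1).filter (fun p : ℕ × GL (Fin 2) k => p.2 ^ p.1 = y)).card ≤
          ({a ^ p0.1, b ^ p0.1} : Finset k).card := by
        apply Finset.card_le_card_of_injOn (fun p : ℕ × GL (Fin 2) k => a ^ p.1)
        · intro p hp
          obtain ⟨-, -, -, ht, hd, -⟩ := key p hp
          have e1 : a ^ p.1 + b ^ p.1 = a ^ p0.1 + b ^ p0.1 := by rw [← ht, ← ht0]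
          have e2 : a ^ p.1 * b ^ p.1 = a ^ p0.1 * b ^ p0.1 := by
            rw [← mul_pow, ← mul_pow, ← hd, ← hd0]
          have e3 : (a ^ p.1 - a ^ p0.1) * (a ^ p.1 - b ^ p0.1) = 0 := by
            linear_combination (a ^ p.1) * e1 - e2
          rw [Finset.coe_insert, Finset.coe_singleton]
          rcases mul_eq_zero.mp e3 with h | h
          · exact Or.inl (sub_eq_zero.mp h)
          · exact Or.inr (sub_eq_zero.mp h)
        · intro p hp p' hp' h
          obtain ⟨hpn, hpab, hpC, ht, hd, hy⟩ := key p hp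
          obtain ⟨hpn', hpab', hpC', ht', hd', hy'⟩ := key p' hp'
          have ha' : a ^ p.1 = a ^ p'.1 := h
          have hb' : b ^ p.1 = b ^ p'.1 := by
            have : a ^ p.1 + b ^ p.1 = a ^ p'.1 + b ^ p'.1 := by rw [← ht, ← ht']
            rw [ha'] at this
            exact add_left_cancel this
          obtain ⟨-, hxt, hxd⟩ := (hC1mem p.2).mp hpC
          obtain ⟨-, hxt', hxd'⟩ := (hC1mem p'.2).mp hpC'
          have f1 := cnt_pow hxt hxd p.1
          have f2 := cnt_pow hxt' hxd' p'.1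
          rw [← Units.val_pow_eq_pow_val, hy] at f1
          rw [← Units.val_pow_eq_pow_val, hy', ← ha', ← hb'] at f2
          have f3 : (a ^ p.1 - b ^ p.1) • (p.2 : Matrix (Fin 2) (Fin 2) k) =
              (a ^ p.1 - b ^ p.1) • (p'.2 : Matrix (Fin 2) (Fin 2) k) := by
            have := f1.symm.trans f2
            exact add_right_cancel this
          have f4 : (p.2 : Matrix (Fin 2) (Fin 2) k) = (p'.2 : Matrix (Fin 2) (Fin 2) k) :=
            smul_right_injective _ (sub_ne_zero.mpr hpab) f3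
          have f5 : p.2 = p'.2 := Units.ext f4
          have f6 : p.1 = p'.1 := by
            have hinj := pow_injOn_Iio_orderOf (x := p.2)
            rw [hord p.2 hpC] at hinj
            apply hinj (Set.mem_Iio.mpr hpn) (Set.mem_Iio.mpr hpn')
            show p.2 ^ p.1 = p.2 ^ p'.1
            rw [hy, f5, hy']
          exact Prod.ext f6 f5
      exact hle.trans Finset.card_le_two
  have himg : ((S ×ˢ C1).image (fun p : ℕ × GL (Fin 2) k => p.2 ^ p.1)).card ≤ N := by
    rw [← hcard]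
    apply Finset.card_le_card
    intro y hy
    rw [Finset.mem_image] at hy
    obtain ⟨p, hp, rfl⟩ := hy
    rw [Finset.mem_product] at hp
    rw [hGF]
    exact G.pow_mem ((hC1mem p.2).mp hp.2).1 _
  have h3 : n * C1.card ≤ 4 * N := by
    have e1 := Finset.card_le_mul_card_image (S ×ˢ C1) 2 hfib
    rw [Finset.card_product] at e1
    have e2 : S.card * C1.card ≤ 2 * N := e1.trans (Nat.mul_le_mul_left 2 himg)
    calc n * C1.card = (S.card + T.card) * C1.card := by rw [hST]
      _ ≤ (S.card + S.card) * C1.card := Nat.mul_le_mul_right _ (Nat.add_le_add_left hTS _)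
      _ = 2 * (S.card * C1.card) := by ring
      _ ≤ 2 * (2 * N) := Nat.mul_le_mul_left 2 e2
      _ = 4 * N := by ring
  -- (4) `|D| ≤ φ(n) |C₁|`
  have h4 : DF.card ≤ n.totient * C1.card := by
    have hsub : DF ⊆ (((Finset.range n).filter (fun r => n.Coprime r)) ×ˢ C1).image
        (fun p : ℕ × GL (Fin 2) k => p.2 ^ p.1) := by
      intro g hg
      obtain ⟨j, hjN, htr, hdet⟩ := hD g hg
      have hgG := hDG g hg
      obtain ⟨j', -, hj'⟩ := Nat.exists_mul_mod_eq_one_of_coprime hjN hN1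
      have haj : a ^ (j * j') = a := by
        rw [← cnt_pow_mod haN, hj', pow_one]
      have hbj : b ^ (j * j') = b := by
        rw [← cnt_pow_mod hbN, hj', pow_one]
      have hst : a ^ j ≠ b ^ j := by
        intro h
        apply hab
        rw [← haj, ← hbj, pow_mul, pow_mul, h]
      have hdet' : (g : Matrix (Fin 2) (Fin 2) k).det = a ^ j * b ^ j := by
        rw [hdet, mul_pow]
      have hxt : ((g ^ j' : GL (Fin 2) k) : Matrix (Fin 2) (Fin 2) k).trace = a + b := by
        rw [cnt_gl_trace_pow htr hdet' hst, ← pow_mul, ← pow_mul, haj, hbj]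
      have hxd : ((g ^ j' : GL (Fin 2) k) : Matrix (Fin 2) (Fin 2) k).det = a * b := by
        rw [cnt_gl_det_pow hdet', mul_pow, ← pow_mul, ← pow_mul, haj, hbj]
      have hxC : g ^ j' ∈ C1 := (hC1mem _).mpr ⟨G.pow_mem hgG _, hxt, hxd⟩
      have hxj : (g ^ j') ^ j = g := by
        rw [← pow_mul, mul_comm, ← cnt_pow_mod (hpowN g hgG), hj', pow_one]
      have hxjn : (g ^ j') ^ (j % n) = g := by
        have := pow_mod_orderOf (g ^ j') j
        rw [hord _ hxC] at this
        rw [this, hxj]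
      rw [Finset.mem_image]
      refine ⟨(j % n, g ^ j'), ?_, hxjn⟩
      rw [Finset.mem_product, Finset.mem_filter, Finset.mem_range]
      refine ⟨⟨Nat.mod_lt _ hnpos, ?_⟩, hxC⟩
      have hjn : Nat.Coprime j n := Nat.Coprime.coprime_dvd_right hnN hjN
      have : Nat.Coprime n j := hjn.symm
      rw [Nat.Coprime, Nat.gcd_rec] at this
      exact Nat.Coprime.symm this
    calc DF.card ≤ _ := Finset.card_le_card hsub
      _ ≤ (((Finset.range n).filter (fun r => n.Coprime r)) ×ˢ C1).card := Finset.card_image_le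
      _ = n.totient * C1.card := by
          rw [Finset.card_product, Nat.totient_eq_card_coprime]
  -- (5) and the assembly
  have h5 : n.totient * orderOf a ≤ (orderOf a).totient * n := cnt_totient hoa hnpos
  calc DF.card * orderOf a ≤ n.totient * C1.card * orderOf a := Nat.mul_le_mul_right _ h4
    _ = (n.totient * orderOf a) * C1.card := by ring
    _ ≤ ((orderOf a).totient * n) * C1.card := Nat.mul_le_mul_right _ h5
    _ = (orderOf a).totient * (n * C1.card) := by ring
    _ ≤ (orderOf a).totient * (4 * N) := Nat.mul_le_mul_left _ h3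
    _ = 4 * (orderOf a).totient * N := by ring

end Grp

/-- **[DIV-COUNT]** -/
theorem count : Fermat.Agent.T4.helper2.CountStatement := by
  intro k _ G _ a b hab hg₁ D hDG hD
  classical
  obtain ⟨g₁, hg₁G, hg₁t, hg₁d⟩ := hg₁
  have hGfin : (G : Set (GL (Fin 2) k)).Finite := Set.toFinite _
  have hDfin : D.Finite := hGfin.subset hDG
  have hcardG : hGfin.toFinset.card = Nat.card G := by
    rw [← Set.ncard_eq_toFinset_card _ hGfin, ← Nat.card_coe_set_eq]
    rfl
  have hcardD : hDfin.toFinset.card = Nat.card D := by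
    rw [← Set.ncard_eq_toFinset_card _ hDfin, Nat.card_coe_set_eq]
  have hpowN : ∀ g ∈ G, g ^ Nat.card G = 1 := by
    intro g hg
    have h := pow_card_eq_one' (G := G) (x := ⟨g, hg⟩)
    exact congrArg Subtype.val h
  have key := cnt_core G hGfin.toFinset hDfin.toFinset (Nat.card G)
    (fun g => hGfin.mem_toFinset) hcardG hpowN a b hab g₁ hg₁G hg₁t hg₁d
    (fun g hg => hDG (hDfin.mem_toFinset.mp hg)) (fun g hg => hD g (hDfin.mem_toFinset.mp hg))
  rw [hcardD] at key
  exact_mod_cast key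

end Fermat.Agent.T4.helper12
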