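import Mathlib

/-!
# T4 block (III) (helper21, sub-coordinator): weight-one Eisenstein series — definitions and Props

For a prime `ℓ` and an ODD Dirichlet character `χ` mod `ℓ` the Eisenstein series
`G_χ = -B_{1,χ}/2 + ∑_{n ≥ 1} (∑_{d ∣ n} χ d) qⁿ` is a modular form of weight one on `Γ₁(ℓ)` with
nebentypus `χ` (`ℓ B_{1,χ} = ∑_{k < ℓ} k χ(k)`).

ROUTE (no Hecke trick, no theta zeros): division values of the Weierstrass zeta function.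

* `wZeta z τ = 1/z + ∑_{ω ≠ 0} z² / (ω² (z - ω))`, `ω = mτ + n` (terms `O(|ω|⁻³)`: absolutely
  convergent, hence `SL₂(ℤ)`-covariant by reindexing: `SL2Statement`).
* `divVal ℓ a τ = wZeta(z_a, τ) - z_a G₂(τ) + 2πi a₀/ℓ`, `z_a = (a₀ τ + a₁)/ℓ`.
  With Mathlib's `EisensteinSeries.G2_slash_action` the corrections cancel exactly:
  `divVal ℓ a (γ τ) = (cτ + d) divVal ℓ (a γ) τ` (`LawStatement`, pure algebra from `SL2Statement`).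
* row summation (`RowStatement`, Mathlib cotangent series):
  `wZeta z τ = z G₂ τ + π cot(πz) + ∑_{m ≥ 1} π (cot(π(z - mτ)) + cot(π(z + mτ)))`;
  hence the quasi-periods (`QPStatement`), `divVal ℓ (a + ℓ e) = divVal ℓ a` (`PerStatement`),
  the `q`-expansion (`QExpStatement`), boundedness (`BddStatement`), holomorphy (`HoloStatement`).
* `eisPre ℓ χ = ∑_k χ⁻¹(k) divVal ℓ (0, k)`; Gauss sums give `eisPre = c · ∑ eisCoeff n qⁿ`,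
  `c ≠ 0` (`GaussStatement`).
* `EisStatement` : the consumer statement; `MulStatement` : `f · G ∈ S₂(Γ₁(Nℓ))`;
  `CongStatement` : for a maximal ideal `P ∣ ℓ` of the algebraic integers the character
  `χ = ω⁻¹ mod P` is odd and `u = ℓ B_{1,χ} ≡ -1 mod P`, so `(-2ℓ/u) G_χ ≡ 1 mod P`.
-/

set_option autoImplicit false

noncomputable section

namespace Fermat.Agent.T4.helper21

open UpperHalfPlane hiding I
open Complex EisensteinSeries CongruenceSubgroup ModularForm Filter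
open scoped MatrixGroups Real Manifold

/-! ## Definitions -/

/-- the lattice point `v₀ τ + v₁` of `ℤ τ + ℤ`. -/
def lat (τ : ℂ) (v : Fin 2 → ℤ) : ℂ := (v 0 : ℂ) * τ + (v 1 : ℂ)

/-- the summand of the Weierstrass zeta function: `1/z` for `v = 0`, and
`1/(z - ω) + 1/ω + z/ω² = z² / (ω² (z - ω))` for `ω = lat τ v ≠ 0`. -/
def zetaTerm (z τ : ℂ) (v : Fin 2 → ℤ) : ℂ :=
  if v = 0 then z⁻¹ else z ^ 2 / (lat τ v ^ 2 * (z - lat τ v))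

/-- the Weierstrass zeta function of the lattice `ℤ τ + ℤ`. -/
def wZeta (z τ : ℂ) : ℂ := ∑' v : Fin 2 → ℤ, zetaTerm z τ v

/-- the division point `z_a = (a₀ τ + a₁) / ℓ`. -/
def divPt (ℓ : ℕ) (a : Fin 2 → ℤ) (τ : ℂ) : ℂ := lat τ a / (ℓ : ℂ)

/-- the weight-one division value `wZeta(z_a, τ) - z_a G₂(τ) + 2πi a₀ / ℓ`. -/
def divVal (ℓ : ℕ) (a : Fin 2 → ℤ) (τ : ℍ) : ℂ :=
  wZeta (divPt ℓ a τ) τ - divPt ℓ a τ * G2 τ + 2 * π * I * (a 0 : ℂ) / (ℓ : ℂ)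

/-- `a` is not divisible by `ℓ` (the division point is not a lattice point). -/
def NotDiv (ℓ : ℕ) (a : Fin 2 → ℤ) : Prop := ¬ ∀ i, (ℓ : ℤ) ∣ a i

/-- `q = exp(2πi τ)` to the power `n`. -/
def qPow (τ : ℂ) (n : ℕ) : ℂ := cexp (2 * π * I * τ * n)

/-- `ζ_ℓ^m = exp(2πi m / ℓ)`. -/
def zetaPow (ℓ : ℕ) (m : ℤ) : ℂ := cexp (2 * π * I * (m : ℂ) / (ℓ : ℂ))

/-- the coefficients of `G_χ`: `-B_{1,χ}/2` and `∑_{d ∣ n} χ d`. -/
def eisCoeff (ℓ : ℕ) (χ : DirichletCharacter ℂ ℓ) (n : ℕ) : ℂ :=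
  if n = 0 then -(∑ k ∈ Finset.range ℓ, (k : ℂ) * χ (k : ZMod ℓ)) / (2 * (ℓ : ℂ))
  else ∑ d ∈ n.divisors, χ (d : ZMod ℓ)

/-- the unnormalised character sum `∑_{k < ℓ} χ⁻¹(k) divVal ℓ (0, k)`. -/
def eisPre (ℓ : ℕ) (χ : DirichletCharacter ℂ ℓ) (τ : ℍ) : ℂ :=
  ∑ k ∈ Finset.range ℓ, χ⁻¹ (k : ZMod ℓ) * divVal ℓ ![0, (k : ℤ)] τ

/-! ## The leaves -/

/-- **[EIS-SUM]** absolute convergence of the zeta series off the lattice. -/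
def SumStatement : Prop :=
  ∀ (τ : ℍ) (z : ℂ), (∀ v : Fin 2 → ℤ, z ≠ lat τ v) → Summable fun v => ‖zetaTerm z τ v‖

/-- **[EIS-SL2]** covariance: `ζ(z/(cτ+d); γτ) = (cτ+d) ζ(z; τ)` (reindexing; unconditional). -/
def SL2Statement : Prop :=
  ∀ (γ : SL(2, ℤ)) (τ : ℍ) (z : ℂ),
    wZeta (z / denom γ τ) ((γ • τ : ℍ) : ℂ) = denom γ τ * wZeta z τ

/-- **[EIS-ROW]** row summation. -/
def RowStatement : Prop :=
  ∀ (τ : ℍ) (z : ℂ), (∀ v : Fin 2 → ℤ, z ≠ lat τ v) →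
    (Summable fun m : ℕ => π * cot (π * (z - (m + 1 : ℂ) * τ)) + π * cot (π * (z + (m + 1 : ℂ) * τ))) ∧
    wZeta z τ = z * G2 τ + π * cot (π * z) +
      ∑' m : ℕ, (π * cot (π * (z - (m + 1 : ℂ) * τ)) + π * cot (π * (z + (m + 1 : ℂ) * τ)))

/-- **[EIS-QP]** the quasi-periods `η(1) = G₂`, `η(τ) = τ G₂ - 2πi`. -/
def QPStatement : Prop :=
  ∀ (τ : ℍ) (z : ℂ), (∀ v : Fin 2 → ℤ, z ≠ lat τ v) →
    wZeta (z + 1) τ = wZeta z τ + G2 τ ∧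
    wZeta (z + τ) τ = wZeta z τ + τ * G2 τ - 2 * π * I

/-- **[EIS-LAW]** the weight-one law of the division values under `SL₂(ℤ)`. -/
def LawStatement : Prop :=
  ∀ (ℓ : ℕ) (a : Fin 2 → ℤ) (γ : SL(2, ℤ)) (τ : ℍ),
    divVal ℓ a (γ • τ) = denom γ τ * divVal ℓ (Matrix.vecMul a (γ : Matrix (Fin 2) (Fin 2) ℤ)) τ

/-- **[EIS-PER]** the division value depends on `a` mod `ℓ` only. -/
def PerStatement : Prop :=
  ∀ (ℓ : ℕ) (a e : Fin 2 → ℤ), 0 < ℓ → NotDiv ℓ a → ∀ τ : ℍ,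
    divVal ℓ (a + (ℓ : ℤ) • e) τ = divVal ℓ a τ

/-- **[EIS-QEXP]** the `q`-expansion of the division value at `z = k/ℓ`. -/
def QExpStatement : Prop :=
  ∀ (ℓ : ℕ) (k : ℤ), 0 < ℓ → ¬ (ℓ : ℤ) ∣ k → ∀ τ : ℍ,
    HasSum (fun n : ℕ => 2 * π * I *
        (∑ r ∈ (n + 1).divisors, (zetaPow ℓ (-((r : ℤ) * k)) - zetaPow ℓ ((r : ℤ) * k))) *
        qPow τ (n + 1))
      (divVal ℓ ![0, k] τ - π * cot (π * (k : ℂ) / (ℓ : ℂ)))

/-- **[EIS-BDD]** the division values are bounded at `i∞`. -/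
def BddStatement : Prop :=
  ∀ (ℓ : ℕ) (a : Fin 2 → ℤ), 0 < ℓ → NotDiv ℓ a → IsBoundedAtImInfty (divVal ℓ a)

/-- **[EIS-HOLO]** the division values are holomorphic. -/
def HoloStatement : Prop :=
  ∀ (ℓ : ℕ) (a : Fin 2 → ℤ), 0 < ℓ → NotDiv ℓ a → MDiff (divVal ℓ a)

/-- **[EIS-GAUSS]** the character sum of the `q`-expansions: `eisPre = c ∑ eisCoeff n qⁿ` with
`c = -4πi τ(χ⁻¹) ≠ 0`. -/
def GaussStatement : Prop :=
  ∀ (ℓ : ℕ) [Fact ℓ.Prime] (χ : DirichletCharacter ℂ ℓ), χ (-1) = -1 →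
    ∃ c : ℂ, c ≠ 0 ∧ ∀ τ : ℍ,
      HasSum (fun n : ℕ => c * eisCoeff ℓ χ n * qPow τ n) (eisPre ℓ χ τ)

/-- **[EIS-MF]** the consumer statement: `G_χ` is a modular form of weight one on `Γ₁(ℓ)` with
nebentypus `χ` and `q`-expansion `eisCoeff`. -/
def EisStatement : Prop :=
  ∀ (ℓ : ℕ) [Fact ℓ.Prime] (χ : DirichletCharacter ℂ ℓ), χ (-1) = -1 →
    ∃ G : ModularForm (Gamma1 ℓ) 1,
      (∀ γ ∈ Gamma0 ℓ, ∀ τ : ℍ,
        G (γ • τ) = χ (((γ 1 1 : ℤ) : ZMod ℓ)) * denom γ τ * G τ) ∧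
      ∀ τ : ℍ, HasSum (fun n : ℕ => eisCoeff ℓ χ n * qPow τ n) (G τ)

/-- **[EIS-MUL]** the product of a weight-one cusp form of level `Γ₁(N)` and a weight-one
modular form of level `Γ₁(ℓ)` is a weight-two cusp form of level `Γ₁(Nℓ)`. -/
def MulStatement : Prop :=
  ∀ (N ℓ : ℕ) [NeZero N] [NeZero ℓ] (f : CuspForm (Gamma1 N) 1) (G : ModularForm (Gamma1 ℓ) 1),
    ∃ h : CuspForm (Gamma1 (N * ℓ)) 2, ∀ τ : ℍ, h τ = f τ * G τ

/-- **[EIS-CONG]** for a maximal ideal `P` over `ℓ` of the ring of algebraic integers there is an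
odd character `χ` mod `ℓ` with integral values, `χ(k) k ≡ 1 mod P` for `k` prime to `ℓ`
(`χ = ω⁻¹`), and `u = ∑_{k<ℓ} k χ(k) = ℓ B_{1,χ}` is an algebraic integer with `u + 1 ∈ P`. -/
def CongStatement : Prop :=
  ∀ (ℓ : ℕ) [Fact ℓ.Prime], 3 ≤ ℓ →
    ∀ P : Ideal (integralClosure ℤ ℂ), P.IsMaximal → ((ℓ : ℕ) : integralClosure ℤ ℂ) ∈ P →
      ∃ (χ : DirichletCharacter ℂ ℓ) (X : ZMod ℓ → integralClosure ℤ ℂ)
        (u : integralClosure ℤ ℂ),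
        χ (-1) = -1 ∧ (∀ k, (X k : ℂ) = χ k) ∧
        (∀ k : ℕ, ¬ ℓ ∣ k → X (k : ZMod ℓ) * (k : integralClosure ℤ ℂ) - 1 ∈ P) ∧
        (u : ℂ) = ∑ k ∈ Finset.range ℓ, (k : ℂ) * χ (k : ZMod ℓ) ∧ u + 1 ∈ P

end Fermat.Agent.T4.helper21
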