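import Mathlib
import Fermat.Agent.T4.helper21_EisDefs

/-!
# T4 block (III), leaf [EIS-QP] (helper12): the quasi-periods of the Weierstrass zeta function

`qp_of : RowStatement → QPStatement`: from the row summation formula
`ζ(z) = z G₂ + π cot(πz) + ∑_{m ≥ 1} π (cot(π(z - mτ)) + cot(π(z + mτ)))` we get
`ζ(z + 1) = ζ(z) + G₂` (`cot` is `π`-periodic) and `ζ(z + τ) = ζ(z) + τ G₂ - 2πi`
(telescoping; `cot(πw) → ∓ i` as `Im w → ± ∞`).
-/

set_option autoImplicit false

noncomputable section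

namespace Fermat.Agent.T4.helper12

open UpperHalfPlane hiding I
open Complex EisensteinSeries Filter Topology
open scoped Real
open Fermat.Agent.T4.helper21

/-- `π cot(π w)` -/
def qpC (w : ℂ) : ℂ := π * Complex.cot (π * w)

theorem qpC_add_one (w : ℂ) : qpC (w + 1) = qpC w := by
  unfold qpC
  have h : (π : ℂ) * (w + 1) = π * w + π := by ring
  rw [h, Complex.cot_eq_cos_div_sin, Complex.cot_eq_cos_div_sin, Complex.cos_add_pi,
    Complex.sin_add_pi, neg_div_neg_eq]

theorem qpC_neg (w : ℂ) : qpC (-w) = - qpC w := by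
  unfold qpC
  have h : (π : ℂ) * (-w) = -(π * w) := by ring
  rw [h, Complex.cot_eq_cos_div_sin, Complex.cot_eq_cos_div_sin, Complex.cos_neg,
    Complex.sin_neg, div_neg, mul_neg]

/-- if `exp(2πi w_M) → 0` then `π cot(π w_M) → -πi`. -/
theorem tendsto_qpC_of_exp {w : ℕ → ℂ}
    (h : Tendsto (fun M => Complex.exp (2 * π * I * w M)) atTop (𝓝 0)) :
    Tendsto (fun M => qpC (w M)) atTop (𝓝 (-(π * I))) := by
  have h1 : Tendsto (fun M => (π : ℂ) * ((Complex.exp (2 * π * I * w M) + 1) /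
      (I * (1 - Complex.exp (2 * π * I * w M))))) atTop (𝓝 ((π : ℂ) * ((0 + 1) / (I * (1 - 0))))) := by
    refine Tendsto.const_mul _ (Tendsto.div (h.add_const 1) ?_ ?_)
    · exact Tendsto.const_mul _ (Tendsto.const_sub 1 h)
    · simp
  have h2 : (π : ℂ) * ((0 + 1) / (I * (1 - 0))) = -(π * I) := by
    simp only [zero_add, sub_zero, mul_one, one_div, Complex.inv_I, mul_neg]
  rw [h2] at h1
  refine h1.congr fun M => ?_
  unfold qpC
  rw [Complex.cot_pi_eq_exp_ratio]

/-- `exp(2πi (a + M τ)) → 0` for `τ` in the upper half plane. -/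
theorem tendsto_exp_add_mul (τ : ℍ) (a : ℂ) :
    Tendsto (fun M : ℕ => Complex.exp (2 * π * I * (a + (M : ℂ) * τ))) atTop (𝓝 0) := by
  have h1 : ∀ M : ℕ, Complex.exp (2 * π * I * (a + (M : ℂ) * τ)) =
      Complex.exp (2 * π * I * a) * Complex.exp (2 * π * I * τ) ^ M := by
    intro M
    rw [← Complex.exp_nat_mul, ← Complex.exp_add]
    congr 1
    ring
  simp_rw [h1]
  have h2 := tendsto_pow_atTop_nhds_zero_of_norm_lt_one
    (UpperHalfPlane.norm_exp_two_pi_I_lt_one τ)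
  simpa using h2.const_mul (Complex.exp (2 * π * I * a))

theorem tendsto_qpC_add (τ : ℍ) (a : ℂ) :
    Tendsto (fun M : ℕ => qpC (a + (M : ℂ) * τ)) atTop (𝓝 (-(π * I))) :=
  tendsto_qpC_of_exp (tendsto_exp_add_mul τ a)

theorem tendsto_qpC_sub (τ : ℍ) (a : ℂ) :
    Tendsto (fun M : ℕ => qpC (a - (M : ℂ) * τ)) atTop (𝓝 (π * I)) := by
  have h := (tendsto_qpC_add τ (-a)).neg
  rw [neg_neg] at h
  refine h.congr fun M => ?_
  rw [← qpC_neg]
  congr 1
  ring

/-- the telescoping identity -/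
theorem qp_telescope (z τ : ℂ) (M : ℕ) :
    (∑ m ∈ Finset.range M, (qpC (z + τ - ((m : ℂ) + 1) * τ) + qpC (z + τ + ((m : ℂ) + 1) * τ)))
      - ∑ m ∈ Finset.range M, (qpC (z - ((m : ℂ) + 1) * τ) + qpC (z + ((m : ℂ) + 1) * τ))
    = (qpC z - qpC (z - (M : ℂ) * τ)) + (qpC (z + τ + (M : ℂ) * τ) - qpC (z + τ)) := by
  induction M with
  | zero => simp
  | succ M ih =>
    rw [Finset.sum_range_succ, Finset.sum_range_succ]
    have e1 : z + τ - ((M : ℂ) + 1) * τ = z - (M : ℂ) * τ := by ring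
    have e2 : z + τ + ((M : ℂ) + 1) * τ = z + τ + ((M + 1 : ℕ) : ℂ) * τ := by
      push_cast; ring
    have e3 : z - ((M : ℂ) + 1) * τ = z - ((M + 1 : ℕ) : ℂ) * τ := by push_cast; ring
    have e4 : z + ((M : ℂ) + 1) * τ = z + τ + (M : ℂ) * τ := by ring
    rw [e1, e2, e3, e4]
    linear_combination ih

theorem lat_shift_one {τ z : ℂ} (hz : ∀ v : Fin 2 → ℤ, z ≠ lat τ v) :
    ∀ v : Fin 2 → ℤ, z + 1 ≠ lat τ v := by
  intro v h
  apply hz ![v 0, v 1 - 1]
  unfold lat at h ⊢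
  simp only [Matrix.cons_val_zero, Matrix.cons_val_one, Int.cast_sub, Int.cast_one]
  linear_combination h

theorem lat_shift_tau {τ z : ℂ} (hz : ∀ v : Fin 2 → ℤ, z ≠ lat τ v) :
    ∀ v : Fin 2 → ℤ, z + τ ≠ lat τ v := by
  intro v h
  apply hz ![v 0 - 1, v 1]
  unfold lat at h ⊢
  simp only [Matrix.cons_val_zero, Matrix.cons_val_one, Int.cast_sub, Int.cast_one]
  linear_combination h

/-- **[EIS-QP]** the quasi-periods from the row summation. -/
theorem qp_of (h : RowStatement) : QPStatement := by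
  intro τ z hz
  obtain ⟨hs0, h0⟩ := h τ z hz
  constructor
  · obtain ⟨_, h1⟩ := h τ (z + 1) (lat_shift_one hz)
    rw [h1, h0]
    have e : ∀ m : ℕ, (π * Complex.cot (π * (z + 1 - ((m : ℂ) + 1) * τ)) +
        π * Complex.cot (π * (z + 1 + ((m : ℂ) + 1) * τ))) =
        (π * Complex.cot (π * (z - ((m : ℂ) + 1) * τ)) +
        π * Complex.cot (π * (z + ((m : ℂ) + 1) * τ))) := by
      intro m
      have a1 := qpC_add_one (z - ((m : ℂ) + 1) * τ)
      have a2 := qpC_add_one (z + ((m : ℂ) + 1) * τ)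
      unfold qpC at a1 a2
      have b1 : z + 1 - ((m : ℂ) + 1) * τ = z - ((m : ℂ) + 1) * τ + 1 := by ring
      have b2 : z + 1 + ((m : ℂ) + 1) * τ = z + ((m : ℂ) + 1) * τ + 1 := by ring
      rw [b1, b2, a1, a2]
    have e0 := qpC_add_one z
    unfold qpC at e0
    simp_rw [e]
    rw [e0]
    ring
  · obtain ⟨hs1, h1⟩ := h τ (z + τ) (lat_shift_tau hz)
    rw [h1, h0]
    -- the difference of the two series
    have ht := (hs1.hasSum.tendsto_sum_nat).sub (hs0.hasSum.tendsto_sum_nat)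
    have hlim : Tendsto (fun M : ℕ => (qpC z - qpC (z - (M : ℂ) * τ)) +
        (qpC (z + τ + (M : ℂ) * τ) - qpC (z + τ))) atTop
        (𝓝 ((qpC z - π * I) + (-(π * I) - qpC (z + τ)))) :=
      ((tendsto_qpC_sub τ z).const_sub _).add ((tendsto_qpC_add τ (z + τ)).sub_const _)
    have hEq : (fun M : ℕ => (∑ m ∈ Finset.range M,
          (π * Complex.cot (π * (z + τ - ((m : ℂ) + 1) * τ)) +
            π * Complex.cot (π * (z + τ + ((m : ℂ) + 1) * τ)))) -
        ∑ m ∈ Finset.range M, (π * Complex.cot (π * (z - ((m : ℂ) + 1) * τ)) +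
            π * Complex.cot (π * (z + ((m : ℂ) + 1) * τ)))) =
        fun M : ℕ => (qpC z - qpC (z - (M : ℂ) * τ)) +
          (qpC (z + τ + (M : ℂ) * τ) - qpC (z + τ)) := by
      funext M
      exact qp_telescope z τ M
    rw [hEq] at ht
    have hu := tendsto_nhds_unique ht hlim
    have hu' : (∑' m : ℕ, (π * Complex.cot (π * (z + τ - ((m : ℂ) + 1) * τ)) +
            π * Complex.cot (π * (z + τ + ((m : ℂ) + 1) * τ)))) =
        (∑' m : ℕ, (π * Complex.cot (π * (z - ((m : ℂ) + 1) * τ)) +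
            π * Complex.cot (π * (z + ((m : ℂ) + 1) * τ)))) +
          ((qpC z - π * I) + (-(π * I) - qpC (z + τ))) := by
      rw [← hu]; ring
    rw [hu']
    unfold qpC
    ring

end Fermat.Agent.T4.helper12
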