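import Mathlib
import Fermat.Agent.S24.helper24_Chart
import Fermat.Agent.S24.helper17_Bridge
import Fermat.Agent.S24.helper48_Moebius

/-!
# T4 (I) / I-FLD [ANDICT], part 1 (helper80): charts for a function field generated by
`q`-expansions of holomorphic functions

This is the generic form of `Fermat.Agent.S24.helper24.Chart` and of
`Fermat.Agent.P3.helper80` (`ChartC`): the generators `j(q^d)`, `d ∣ N`, of the function field of
`X₀(N)` are replaced by an arbitrary family `x i ∈ ℂ((q))` of `q`-expansions of holomorphic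
functions `X i` on the upper half plane (`Fam`), the group `Γ₀(N)` by the stabiliser `Fam.stab`
of the family in `SL(2,ℤ)`.

* `Fam ι` : the family; `Fam.S` is the field generated by the `x i` inside `ℂ((q))`.
* `Chart A` : a local chart (`u : ℍ → ℂ` near `z₀`, and functions `H g i` meromorphic at `z₀`
  with `H g i (u τ) = X i (g⁻¹ τ)`).
* `Chart.sigma g : A.F →+* MeroGerm z₀` : the field embedding `f ↦ f ∘ g⁻¹` in the local
  coordinate; `Chart.sigma_eq_iff` : it depends exactly on the coset `g · stab`.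
* `interiorChart A τ₀` : the chart at an interior point.
-/

set_option autoImplicit false

noncomputable section

open UpperHalfPlane ModularForm Filter Topology CongruenceSubgroup ModularCurve
open scoped MatrixGroups Manifold

namespace Fermat.Agent.T4.helper80.Gen

open Fermat.Agent.S24 Fermat.Agent.S24.helper24 Fermat.Agent.S24.helper99

/-- A family of `q`-expansions `x i` of holomorphic functions `X i` on the upper half plane,
containing the `j`-function, together with the field `S` generated by the `x i`. -/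
structure Fam (ι : Type*) where
  /-- the formal generators -/
  x : ι → LaurentSeries ℂ
  /-- the analytic generators -/
  X : ι → ℍ → ℂ
  /-- the field generated by the `x i` -/
  S : IntermediateField ℂ (LaurentSeries ℂ)
  hS : S = IntermediateField.adjoin ℂ (Set.range x)
  hq : ∀ i, helper17.IsQExp (x i) (X i)
  /-- the index of the `j`-function -/
  i₀ : ι
  hj : X i₀ = jfun

namespace Fam

variable {ι : Type*} (A : Fam ι)

/-- the field generated by the `x i`, as a type -/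
abbrev F : Type := ↥A.S

theorem mdiff (i : ι) : MDiff (A.X i) := (A.hq i).mdiff

theorem x_i₀ : A.x A.i₀ = jqModC ℂ := by
  have h := A.hq A.i₀
  rw [A.hj] at h
  exact h.left_unique helper17.isQExp_jfun

theorem x_mem (i : ι) : A.x i ∈ A.S := by
  rw [A.hS]
  exact IntermediateField.subset_adjoin ℂ _ ⟨i, rfl⟩

/-- the generator `x i` as an element of the field -/
def gen (i : ι) : A.F := ⟨A.x i, A.x_mem i⟩

@[simp] theorem coe_gen (i : ι) : ((A.gen i : A.F) : LaurentSeries ℂ) = A.x i := rfl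

/-- the `j`-function as an element of the field -/
def xJ : A.F := A.gen A.i₀

theorem coe_xJ : ((A.xJ : A.F) : LaurentSeries ℂ) = jqModC ℂ := A.x_i₀

/-- Evaluation of a polynomial with complex coefficients at the functions `X i`. -/
def ev0 (P : MvPolynomial ι ℂ) (τ : ℍ) : ℂ := MvPolynomial.eval (fun i => A.X i τ) P

/-- Evaluation of a polynomial at the conjugates `X i ∘ g⁻¹`. -/
def evg (g : SL(2, ℤ)) (P : MvPolynomial ι ℂ) (τ : ℍ) : ℂ := A.ev0 P (g⁻¹ • τ)

@[simp] theorem ev0_C (c : ℂ) (τ : ℍ) : A.ev0 (MvPolynomial.C c) τ = c := by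
  simp [ev0]

@[simp] theorem ev0_X (i : ι) (τ : ℍ) : A.ev0 (MvPolynomial.X i) τ = A.X i τ := by
  simp [ev0]

@[simp] theorem ev0_add (P Q : MvPolynomial ι ℂ) (τ : ℍ) :
    A.ev0 (P + Q) τ = A.ev0 P τ + A.ev0 Q τ := by
  simp [ev0]

@[simp] theorem ev0_mul (P Q : MvPolynomial ι ℂ) (τ : ℍ) :
    A.ev0 (P * Q) τ = A.ev0 P τ * A.ev0 Q τ := by
  simp [ev0]

theorem mdiff_ev0 (P : MvPolynomial ι ℂ) : MDiff (A.ev0 P) := by
  induction P using MvPolynomial.induction_on with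
  | C c =>
    have : A.ev0 (MvPolynomial.C c) = fun _ => c := funext fun τ => A.ev0_C c τ
    rw [this]
    exact mdifferentiable_const
  | add P Q hP hQ =>
    have : A.ev0 (P + Q) = fun τ => A.ev0 P τ + A.ev0 Q τ :=
      funext fun τ => A.ev0_add P Q τ
    rw [this]
    exact hP.add hQ
  | mul_X P i hP =>
    have : A.ev0 (P * MvPolynomial.X i) = fun τ => A.ev0 P τ * A.X i τ :=
      funext fun τ => by rw [ev0_mul, ev0_X]
    rw [this]
    exact hP.mul (A.mdiff i)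

theorem mdiff_evg (g : SL(2, ℤ)) (P : MvPolynomial ι ℂ) : MDiff (A.evg g P) :=
  mdiff_smul_comp (A.mdiff_ev0 P) g⁻¹

theorem evg_eq_zero_iff (g : SL(2, ℤ)) (P : MvPolynomial ι ℂ) :
    (∀ τ, A.evg g P τ = 0) ↔ ∀ τ, A.ev0 P τ = 0 := by
  constructor
  · intro h τ
    have := h (g • τ)
    unfold evg at this
    rwa [inv_smul_smul] at this
  · intro h τ
    exact h _

/-- The bridge: a polynomial relation among the `q`-expansions holds iff it holds among the
analytic functions. -/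
theorem bridge (P : MvPolynomial ι ℂ) :
    MvPolynomial.aeval A.x P = 0 ↔ ∀ τ : ℍ, A.ev0 P τ = 0 :=
  helper17.bridge_of_isQExp A.hq P

/-- The stabiliser of the family in `SL(2,ℤ)`. -/
def stab : Subgroup SL(2, ℤ) where
  carrier := {g | ∀ (i : ι) (τ : ℍ), A.X i (g • τ) = A.X i τ}
  mul_mem' := by
    intro a b ha hb i τ
    rw [mul_smul, ha, hb]
  one_mem' := by
    intro i τ
    rw [one_smul]
  inv_mem' := by
    intro a ha i τ
    have := ha i (a⁻¹ • τ)
    rw [smul_inv_smul] at this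
    exact this.symm

theorem mem_stab {g : SL(2, ℤ)} : g ∈ A.stab ↔ ∀ (i : ι) (τ : ℍ), A.X i (g • τ) = A.X i τ :=
  Iff.rfl

theorem neg_one_mem_stab : (-1 : SL(2, ℤ)) ∈ A.stab := by
  intro i τ
  rw [ModularGroup.SL_neg_smul, one_smul]

theorem ev0_smul_of_mem_stab (P : MvPolynomial ι ℂ) {γ : SL(2, ℤ)} (hγ : γ ∈ A.stab) (τ : ℍ) :
    A.ev0 P (γ • τ) = A.ev0 P τ := by
  have hfun : (fun i => A.X i (γ • τ)) = (fun i => A.X i τ) := funext fun i => hγ i τ
  show MvPolynomial.eval (fun i => A.X i (γ • τ)) P = MvPolynomial.eval (fun i => A.X i τ) P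
  rw [hfun]

/-- Every element of the field is a quotient of polynomials in the generators. -/
theorem exists_poly_repr (f : A.F) :
    ∃ P Q : MvPolynomial ι ℂ, MvPolynomial.aeval A.x Q ≠ 0 ∧
      (f : LaurentSeries ℂ) = MvPolynomial.aeval A.x P / MvPolynomial.aeval A.x Q := by
  obtain ⟨f, hf⟩ := f
  have hf' : f ∈ IntermediateField.adjoin ℂ (Set.range A.x) := by
    rw [← A.hS]
    exact hf
  rw [IntermediateField.mem_adjoin_range_iff] at hf'
  obtain ⟨P, Q, hf'⟩ := hf'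
  by_cases hQ : MvPolynomial.aeval A.x Q = 0
  · refine ⟨0, 1, by simp, ?_⟩
    show f = _
    rw [hf', hQ]
    simp
  · exact ⟨P, Q, hQ, hf'⟩

theorem aeval_mem (P : MvPolynomial ι ℂ) : MvPolynomial.aeval A.x P ∈ A.S := by
  rw [A.hS]
  exact helper24.aeval_mem_adjoin _ P

/-- Two ring homomorphisms out of the field agreeing on polynomials in the generators are
equal. -/
theorem ringHom_ext {L : Type*} [Field L] {σ σ' : A.F →+* L}
    (h : ∀ (f : A.F) (P : MvPolynomial ι ℂ),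
      (f : LaurentSeries ℂ) = MvPolynomial.aeval A.x P → σ f = σ' f) : σ = σ' :=
  helper24.ringHom_ext_of_eq_adjoin A.x A.hS h

end Fam

/-! ### Charts -/

/-- A local chart for the family of conjugates of the `X i`. -/
structure Chart {ι : Type*} (A : Fam ι) where
  /-- the base point -/
  z₀ : ℂ
  /-- the local uniformizing map -/
  u : ℍ → ℂ
  u_cont : Continuous u
  cover : ∀ᶠ z in 𝓝[≠] z₀, z ∈ Set.range u
  /-- the conjugates of the `X i` in the local coordinate -/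
  H : SL(2, ℤ) → ι → ℂ → ℂ
  H_mero : ∀ g i, MeromorphicAt (H g i) z₀
  H_spec : ∀ g i τ, H g i (u τ) = A.X i (g⁻¹ • τ)

namespace Chart

variable {ι : Type*} {A : Fam ι} (C : Chart A)

/-- The preimage under the chart of a punctured neighbourhood of the base point contains a
nonempty open set. -/
theorem exists_open_of_eventually {p : ℂ → Prop} (h : ∀ᶠ z in 𝓝[≠] C.z₀, p z) :
    ∃ U : Set ℍ, IsOpen U ∧ U.Nonempty ∧ ∀ τ ∈ U, p (C.u τ) := by
  rw [eventually_nhdsWithin_iff, eventually_nhds_iff] at h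
  obtain ⟨W, hW, hWo, hzW⟩ := h
  have hcov := C.cover
  rw [eventually_nhdsWithin_iff, eventually_nhds_iff] at hcov
  obtain ⟨W', hW', hWo', hzW'⟩ := hcov
  have hWW : (W ∩ W') ∈ 𝓝 C.z₀ := (hWo.inter hWo').mem_nhds ⟨hzW, hzW'⟩
  have hne : ((W ∩ W') ∩ {C.z₀}ᶜ).Nonempty := by
    have : (W ∩ W') ∩ {C.z₀}ᶜ ∈ 𝓝[≠] C.z₀ := by
      rw [Set.inter_comm]
      exact inter_mem_nhdsWithin _ hWW
    exact (NormedField.nhdsNE_neBot C.z₀).nonempty_of_mem this
  obtain ⟨w, ⟨hwW, hwW'⟩, hwne⟩ := hne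
  obtain ⟨τ₁, hτ₁⟩ := hW' w hwW' hwne
  refine ⟨C.u ⁻¹' (W ∩ {C.z₀}ᶜ), (hWo.inter isOpen_compl_singleton).preimage C.u_cont,
    ⟨τ₁, ?_⟩, fun τ hτ => hW _ hτ.1 hτ.2⟩
  rw [Set.mem_preimage, hτ₁]
  exact ⟨hwW, hwne⟩

/-- A germ represented by `F` vanishes iff `F ∘ u` vanishes identically, provided `F ∘ u` is
holomorphic. -/
theorem mk_eq_zero_iff_forall {F : ℂ → ℂ} (hF : MeromorphicAt F C.z₀) {f : ℍ → ℂ}
    (hf : MDiff f) (hFf : ∀ τ, F (C.u τ) = f τ) :
    MeroGerm.mk F hF = 0 ↔ ∀ τ, f τ = 0 := by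
  rw [MeroGerm.mk_eq_zero_iff]
  constructor
  · intro h
    obtain ⟨U, hU, hne, h0⟩ := C.exists_open_of_eventually h
    exact eq_zero_of_isOpen hf hU hne fun τ hτ => by rw [← hFf, h0 τ hτ]
  · intro h
    filter_upwards [C.cover] with z hz
    obtain ⟨τ, rfl⟩ := hz
    rw [hFf, h]

theorem mk_eq_mk_iff_forall {F G : ℂ → ℂ} (hF : MeromorphicAt F C.z₀)
    (hG : MeromorphicAt G C.z₀) {f g : ℍ → ℂ}
    (hf : MDiff f) (hg : MDiff g) (hFf : ∀ τ, F (C.u τ) = f τ) (hGg : ∀ τ, G (C.u τ) = g τ) :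
    MeroGerm.mk F hF = MeroGerm.mk G hG ↔ ∀ τ, f τ = g τ := by
  rw [← sub_eq_zero, ← MeroGerm.mk_sub]
  rw [C.mk_eq_zero_iff_forall (hF.sub hG) (f := fun τ => f τ - g τ) (hf.sub hg)
    (fun τ => by simp [hFf, hGg])]
  simp only [sub_eq_zero]

/-- The ring homomorphism from polynomials with complex coefficients to germs. -/
def Θ (g : SL(2, ℤ)) : MvPolynomial ι ℂ →+* MeroGerm C.z₀ :=
  MvPolynomial.eval₂Hom (MeroGerm.constHom C.z₀)
    (fun i => MeroGerm.mk (C.H g i) (C.H_mero g i))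

theorem Θ_C (g : SL(2, ℤ)) (c : ℂ) :
    C.Θ g (MvPolynomial.C c) = MeroGerm.const C.z₀ c := by
  simp [Θ]

theorem Θ_X (g : SL(2, ℤ)) (i : ι) :
    C.Θ g (MvPolynomial.X i) = MeroGerm.mk (C.H g i) (C.H_mero g i) := by
  simp [Θ]

/-- Every value of `Θ` is represented by a function which on the image of the chart is given
by the evaluation of the polynomial at the conjugates. -/
theorem Θ_spec (g : SL(2, ℤ)) (P : MvPolynomial ι ℂ) :
    ∃ (F : ℂ → ℂ) (hF : MeromorphicAt F C.z₀), C.Θ g P = MeroGerm.mk F hF ∧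
      ∀ τ, F (C.u τ) = A.evg g P τ := by
  induction P using MvPolynomial.induction_on with
  | C c =>
    refine ⟨fun _ => c, MeromorphicAt.const _ _, ?_, fun τ => ?_⟩
    · rw [Θ_C]
      rfl
    · simp [Fam.evg]
  | add P Q hP hQ =>
    obtain ⟨F, hF, h1, h2⟩ := hP
    obtain ⟨G, hG, h3, h4⟩ := hQ
    refine ⟨F + G, hF.add hG, ?_, fun τ => ?_⟩
    · rw [map_add, h1, h3, MeroGerm.mk_add]
    · simp only [Pi.add_apply, Fam.evg, Fam.ev0_add]
      rw [h2, h4]
      rfl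
  | mul_X P i hP =>
    obtain ⟨F, hF, h1, h2⟩ := hP
    refine ⟨F * C.H g i, hF.mul (C.H_mero g i), ?_, fun τ => ?_⟩
    · rw [map_mul, h1, Θ_X, MeroGerm.mk_mul]
    · simp only [Pi.mul_apply, Fam.evg, Fam.ev0_mul, Fam.ev0_X]
      rw [h2, C.H_spec]
      rfl

theorem Θ_eq_zero_iff (g : SL(2, ℤ)) (P : MvPolynomial ι ℂ) :
    C.Θ g P = 0 ↔ ∀ τ, A.ev0 P τ = 0 := by
  obtain ⟨F, hF, h1, h2⟩ := C.Θ_spec g P
  rw [h1, C.mk_eq_zero_iff_forall hF (A.mdiff_evg g P) h2, A.evg_eq_zero_iff]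

theorem hker (g : SL(2, ℤ)) (P : MvPolynomial ι ℂ) :
    MvPolynomial.aeval A.x P = 0 ↔ C.Θ g P = 0 := by
  rw [A.bridge P, C.Θ_eq_zero_iff]

/-- The field embedding `A.F → MeroGerm z₀` attached to `g ∈ SL(2,ℤ)`: `f ↦ f ∘ g⁻¹` in the
local coordinate. -/
def sigma (g : SL(2, ℤ)) : A.F →+* MeroGerm C.z₀ :=
  liftOfEqAdjoin A.x A.hS (C.Θ g) (C.hker g)

theorem sigma_of_eq (g : SL(2, ℤ)) (f : A.F) (P : MvPolynomial ι ℂ)
    (hf : (f : LaurentSeries ℂ) = MvPolynomial.aeval A.x P) :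
    C.sigma g f = C.Θ g P :=
  liftOfEqAdjoin_apply A.x A.hS (C.Θ g) (C.hker g) f P hf

theorem sigma_algebraMap (g : SL(2, ℤ)) (c : ℂ) :
    C.sigma g (algebraMap ℂ A.F c) = MeroGerm.const C.z₀ c := by
  rw [C.sigma_of_eq g _ (MvPolynomial.C c) (by simp), Θ_C]

theorem sigma_gen (g : SL(2, ℤ)) (i : ι) :
    C.sigma g (A.gen i) = MeroGerm.mk (C.H g i) (C.H_mero g i) := by
  rw [C.sigma_of_eq g _ (MvPolynomial.X i) (by simp), Θ_X]

/-- `sigma g` only depends on the functions `X i ∘ g⁻¹`. -/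
theorem sigma_eq_of_forall (g g' : SL(2, ℤ))
    (h : ∀ (i : ι) (τ : ℍ), A.X i (g⁻¹ • τ) = A.X i (g'⁻¹ • τ)) :
    C.sigma g = C.sigma g' := by
  apply A.ringHom_ext
  intro f P hf
  rw [C.sigma_of_eq g f P hf, C.sigma_of_eq g' f P hf]
  obtain ⟨F, hF, h1, h2⟩ := C.Θ_spec g P
  obtain ⟨G, hG, h3, h4⟩ := C.Θ_spec g' P
  rw [h1, h3, C.mk_eq_mk_iff_forall hF hG (A.mdiff_evg g P) (A.mdiff_evg g' P) h2 h4]
  intro τ
  have hfun : (fun i => A.X i (g⁻¹ • τ)) = (fun i => A.X i (g'⁻¹ • τ)) :=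
    funext fun i => h i τ
  show MvPolynomial.eval (fun i => A.X i (g⁻¹ • τ)) _
    = MvPolynomial.eval (fun i => A.X i (g'⁻¹ • τ)) _
  rw [hfun]

/-- `sigma g` only depends on the coset `g · stab`. -/
theorem sigma_eq_of_mem (g g' : SL(2, ℤ)) (h : g⁻¹ * g' ∈ A.stab) :
    C.sigma g = C.sigma g' := by
  apply C.sigma_eq_of_forall
  intro i τ
  have := h i (g'⁻¹ • τ)
  rw [mul_smul, smul_inv_smul] at this
  exact this

/-- Distinct cosets give distinct embeddings. -/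
theorem mem_of_sigma_eq (g g' : SL(2, ℤ)) (h : C.sigma g = C.sigma g') :
    g⁻¹ * g' ∈ A.stab := by
  intro i τ
  have h1 := C.sigma_gen g i
  have h2 := C.sigma_gen g' i
  rw [h] at h1
  have h3 := h1.symm.trans h2
  rw [C.mk_eq_mk_iff_forall (C.H_mero g i) (C.H_mero g' i)
    (f := fun τ => A.X i (g⁻¹ • τ)) (g := fun τ => A.X i (g'⁻¹ • τ))
    (mdiff_smul_comp (A.mdiff i) g⁻¹) (mdiff_smul_comp (A.mdiff i) g'⁻¹)
    (fun τ => C.H_spec g i τ) (fun τ => C.H_spec g' i τ)] at h3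
  have := h3 (g' • τ)
  rw [inv_smul_smul] at this
  rw [mul_smul]
  exact this

theorem sigma_eq_iff (g g' : SL(2, ℤ)) :
    C.sigma g = C.sigma g' ↔ g⁻¹ * g' ∈ A.stab :=
  ⟨C.mem_of_sigma_eq g g', C.sigma_eq_of_mem g g'⟩

theorem sigma_ne_zero (g : SL(2, ℤ)) {f : A.F} (hf : f ≠ 0) : C.sigma g f ≠ 0 :=
  (map_ne_zero_iff _ (C.sigma g).injective).mpr hf

/-- The element `h⁻¹` acts in the chart as the local biholomorphism `φ` fixing the base
point. -/
structure IsRot (h : SL(2, ℤ)) (φ : ℂ → ℂ) : Prop where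
  an : AnalyticAt ℂ φ C.z₀
  fix : φ C.z₀ = C.z₀
  deriv_ne : deriv φ C.z₀ ≠ 0
  spec : ∀ τ, C.u (h⁻¹ • τ) = φ (C.u τ)

theorem sigma_rot (h g : SL(2, ℤ)) (φ : ℂ → ℂ) (hR : C.IsRot h φ) :
    C.sigma (h * g) = (precomp φ hR.an hR.fix hR.deriv_ne).comp (C.sigma g) := by
  apply A.ringHom_ext
  intro f P hf
  rw [RingHom.comp_apply, C.sigma_of_eq (h * g) f P hf, C.sigma_of_eq g f P hf]
  obtain ⟨F, hF, h1, h2⟩ := C.Θ_spec (h * g) P
  obtain ⟨G, hG, h3, h4⟩ := C.Θ_spec g P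
  rw [h1, h3, precomp_mk]
  rw [C.mk_eq_mk_iff_forall hF _ (f := A.evg (h * g) P) (g := A.evg (h * g) P)
    (A.mdiff_evg (h * g) P) (A.mdiff_evg (h * g) P) h2]
  · intro τ
    rfl
  · intro τ
    rw [Function.comp_apply, ← hR.spec, h4]
    unfold Fam.evg
    rw [mul_inv_rev, mul_smul]

/-- The embedding attached to a coset. -/
def sigmaQ (c : SL(2, ℤ) ⧸ A.stab) : A.F →+* MeroGerm C.z₀ := C.sigma (Quotient.out c)

theorem sigmaQ_mk (g : SL(2, ℤ)) :
    C.sigmaQ (QuotientGroup.mk g : SL(2, ℤ) ⧸ A.stab) = C.sigma g := by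
  unfold sigmaQ
  apply C.sigma_eq_of_mem
  have h : (QuotientGroup.mk (Quotient.out (QuotientGroup.mk g : SL(2, ℤ) ⧸ A.stab)) :
      SL(2, ℤ) ⧸ A.stab) = QuotientGroup.mk g := Quotient.out_eq _
  exact QuotientGroup.eq.mp h

theorem sigmaQ_injective : Function.Injective C.sigmaQ := by
  intro c c' h
  induction c using QuotientGroup.induction_on with
  | H g =>
  induction c' using QuotientGroup.induction_on with
  | H g' =>
  rw [sigmaQ_mk, sigmaQ_mk] at h
  exact QuotientGroup.eq.mpr (C.mem_of_sigma_eq g g' h)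

theorem sigmaQ_smul (h : SL(2, ℤ)) (c : SL(2, ℤ) ⧸ A.stab) (φ : ℂ → ℂ) (hR : C.IsRot h φ) :
    C.sigmaQ (h • c) = (precomp φ hR.an hR.fix hR.deriv_ne).comp (C.sigmaQ c) := by
  induction c using QuotientGroup.induction_on with
  | H g =>
  have : h • (QuotientGroup.mk g : SL(2, ℤ) ⧸ A.stab) = QuotientGroup.mk (h * g) := rfl
  rw [this, sigmaQ_mk, sigmaQ_mk]
  exact C.sigma_rot h g φ hR

end Chart

/-! ### The chart at an interior point -/

section Interior

variable {ι : Type*} (A : Fam ι)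

/-- The chart at an interior point `τ₀`. -/
@[reducible] def interiorChart (τ₀ : ℍ) : Chart A where
  z₀ := (τ₀ : ℂ)
  u := fun τ => (τ : ℂ)
  u_cont := UpperHalfPlane.continuous_coe
  cover := by
    have : {z : ℂ | 0 < z.im} ∈ 𝓝 (τ₀ : ℂ) := isOpen_upperHalfPlaneSet.mem_nhds τ₀.im_pos
    filter_upwards [mem_nhdsWithin_of_mem_nhds this] with z hz
    exact ⟨⟨z, hz⟩, rfl⟩
  H := fun g i z => A.X i (g⁻¹ • ofComplex z)
  H_mero := fun g i =>
    (helper48.analyticAt_comp_ofComplex (f := fun τ => A.X i (g⁻¹ • τ))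
      (mdiff_smul_comp (A.mdiff i) g⁻¹) τ₀).meromorphicAt
  H_spec := fun g i τ => by
    show A.X i (g⁻¹ • ofComplex (τ : ℂ)) = _
    rw [ofComplex_apply]

theorem analyticAt_jfunC (τ₀ : ℍ) : AnalyticAt ℂ (fun z => jfun (ofComplex z)) (τ₀ : ℂ) :=
  helper48.analyticAt_comp_ofComplex helper24.mdiff_jfun τ₀

theorem X_i₀_smul (g : SL(2, ℤ)) (τ : ℍ) : A.X A.i₀ (g • τ) = jfun τ := by
  rw [A.hj, helper24.jfun_smul]

theorem sigma_interior_xJ (τ₀ : ℍ) (g : SL(2, ℤ)) :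
    (interiorChart A τ₀).sigma g A.xJ
      = MeroGerm.mk (fun z => jfun (ofComplex z)) (analyticAt_jfunC τ₀).meromorphicAt := by
  unfold Fam.xJ
  rw [(interiorChart A τ₀).sigma_gen g A.i₀]
  apply MeroGerm.mk_eq_mk_iff.mpr
  refine Eventually.of_forall fun z => ?_
  show A.X A.i₀ (g⁻¹ • ofComplex z) = jfun (ofComplex z)
  exact X_i₀_smul A g⁻¹ _

theorem sigma_interior_sub (τ₀ : ℍ) (g : SL(2, ℤ)) (a : ℂ) :
    (interiorChart A τ₀).sigma g (A.xJ - algebraMap ℂ A.F a)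
      = MeroGerm.mk (fun z => jfun (ofComplex z) - a)
          ((analyticAt_jfunC τ₀).sub analyticAt_const).meromorphicAt := by
  rw [map_sub, sigma_interior_xJ, Chart.sigma_algebraMap]
  unfold MeroGerm.const
  rw [← MeroGerm.mk_sub]
  rfl

theorem isRot_interior (τ₀ : ℍ) (h : SL(2, ℤ)) (hfix : h⁻¹ • τ₀ = τ₀) :
    (interiorChart A τ₀).IsRot h (helper48.chartSL h⁻¹) where
  an := helper48.analyticAt_chartSL h⁻¹ τ₀
  fix := helper48.chartSL_of_smul_eq hfix
  deriv_ne := helper48.deriv_chartSL_ne_zero h⁻¹ τ₀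
  spec := fun τ => (helper48.chartSL_coe h⁻¹ τ).symm

end Interior

end Fermat.Agent.T4.helper80.Gen
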