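import Mathlib
import Fermat.Agent.T4.helper80_GenChart
import Fermat.Agent.T4.helper77_DegGen
import Fermat.Agent.S24.helper80_DegreeLB

/-!
# T4 (I) / I-FLD [ANDICT], part 2 (helper80): the degree `[F : ℂ(j)] = [SL(2,ℤ) : stab]`

Generic form of `Fermat.Agent.P3.helper80` (`DegreeC`): for a family `A : Fam ι` (finite index
set) whose stabiliser has finite index and all of whose `SL(2,ℤ)`-translates have at most
exponential growth at `i∞`, the field `A.F` is finite over `ℂ(j)` of degree
`[SL(2,ℤ) : A.stab]`.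
-/

set_option autoImplicit false

noncomputable section

open UpperHalfPlane ModularForm Filter Topology CongruenceSubgroup ModularCurve
  IntermediateField Polynomial
open scoped MatrixGroups Manifold

namespace Fermat.Agent.T4.helper80.Gen

open Fermat.Agent.S24 Fermat.Agent.S24.helper24 Fermat.Agent.S24.helper99

variable {ι : Type*} (A : Fam ι)

/-- The growth hypothesis: all `SL(2,ℤ)`-translates of the generators have at most exponential
growth at `i∞`. -/
def Fam.ExpGrowth : Prop :=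
  ∀ (g : SL(2, ℤ)) (i : ι), S24.helper77.precomp g (A.X i) ∈ S24.helper77.holoExp

/-- `j` is transcendental over `ℂ`. -/
theorem xJ_transcendental : Transcendental ℂ A.xJ := by
  intro halg
  have h1 : IsAlgebraic ℂ ((A.xJ : A.F) : LaurentSeries ℂ) := by
    have := halg.algebraMap (A := LaurentSeries ℂ)
    simpa using this
  have h2 := S24.helper77.coeff_eq_zero_of_isAlgebraic h1 (k := -1) (by norm_num)
  rw [A.coe_xJ, ← helper17.coeffEmb_jq ℂ, coeffEmb_coeff, coeff_jq_neg_one, map_one] at h2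
  exact one_ne_zero h2

theorem adjoin_gen_eq_top : IntermediateField.adjoin ℂ (Set.range A.gen) = ⊤ := by
  apply IntermediateField.lift_injective A.S
  rw [lift_adjoin, IntermediateField.lift_top]
  have : (Subtype.val '' Set.range A.gen : Set (LaurentSeries ℂ)) = Set.range A.x := by
    rw [← Set.range_comp]
    rfl
  rw [this]
  exact A.hS.symm

theorem precomp_X_of_mem_stab {γ : SL(2, ℤ)} (hγ : γ ∈ A.stab) (i : ι) :
    S24.helper77.precomp γ (A.X i) = A.X i := by
  funext τ
  rw [S24.helper77.precomp_apply]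
  exact A.stab.inv_mem hγ i τ

/-- The formal relation of degree `n = [SL(2,ℤ) : stab]` over `ℂ[j]`. -/
theorem formal_relation [A.stab.FiniteIndex] (hexp : A.ExpGrowth) (P : MvPolynomial ι ℂ) :
    ∃ p : ℕ → Polynomial ℂ, p A.stab.index = 1 ∧
      ∑ k ∈ Finset.range (A.stab.index + 1),
        Polynomial.aeval (jqModC ℂ) (p k) * (MvPolynomial.aeval A.x P) ^ k = 0 := by
  obtain ⟨p, hp1, hp⟩ := T4.helper77.exists_relation_thetaG A.X A.stab
    (fun γ hγ i => precomp_X_of_mem_stab A hγ i) hexp P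
  refine ⟨p, hp1, ?_⟩
  set Q : MvPolynomial ι ℂ := ∑ k ∈ Finset.range (A.stab.index + 1),
    Polynomial.aeval (MvPolynomial.X A.i₀ : MvPolynomial ι ℂ) (p k) * P ^ k
    with hQ
  have hQ0 : ∀ τ : ℍ, A.ev0 Q τ = 0 := by
    intro τ
    unfold Fam.ev0
    rw [hQ, map_sum, ← hp τ]
    refine Finset.sum_congr rfl fun k _ => ?_
    rw [map_mul, map_pow]
    congr 1
    rw [Polynomial.aeval_def, Polynomial.hom_eval₂, MvPolynomial.eval_X]
    show Polynomial.eval₂ _ (A.X A.i₀ τ) (p k) = _
    rw [A.hj]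
    have : (MvPolynomial.eval fun i => A.X i τ).comp
        (algebraMap ℂ (MvPolynomial ι ℂ)) = RingHom.id ℂ := by
      ext c; simp
    rw [this]
    rfl
  have hb := (A.bridge Q).mpr hQ0
  rw [hQ, map_sum] at hb
  rw [← hb]
  refine Finset.sum_congr rfl fun k _ => ?_
  rw [map_mul, map_pow, ← Polynomial.aeval_algHom_apply, MvPolynomial.aeval_X, A.x_i₀]

/-- The relation of `formal_relation`, inside the function field. -/
theorem relation_in_F [A.stab.FiniteIndex] (hexp : A.ExpGrowth) (P : MvPolynomial ι ℂ) :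
    ∃ q : ℕ → Polynomial ℂ, q A.stab.index = 1 ∧
      ∑ k ∈ Finset.range (A.stab.index + 1),
        aeval A.xJ (q k) * (MvPolynomial.aeval A.gen P) ^ k = 0 := by
  obtain ⟨q, hq1, hq⟩ := formal_relation A hexp P
  refine ⟨q, hq1, ?_⟩
  obtain ⟨v, hv⟩ : ∃ v : A.F →ₐ[ℂ] LaurentSeries ℂ, ∀ y, v y = (y : LaurentSeries ℂ) :=
    ⟨A.S.val, fun _ => rfl⟩
  have hvinj : Function.Injective v := fun a b h => Subtype.ext (by rw [← hv, ← hv, h])
  apply hvinj
  rw [map_sum, map_zero, ← hq]
  refine Finset.sum_congr rfl fun k _ => ?_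
  rw [map_mul, map_pow, ← Polynomial.aeval_algHom_apply, MvPolynomial.comp_aeval_apply]
  have h1 : v A.xJ = jqModC ℂ := (hv _).trans A.coe_xJ
  have h2 : (fun i => v (A.gen i)) = A.x := funext fun i => hv _
  rw [h1, h2]

theorem exists_poly_over_adjoin [A.stab.FiniteIndex] (hexp : A.ExpGrowth)
    (P : MvPolynomial ι ℂ) :
    ∃ Q : Polynomial ℂ⟮A.xJ⟯, Q ≠ 0 ∧ Q.natDegree ≤ A.stab.index ∧
      aeval (MvPolynomial.aeval A.gen P) Q = 0 := by
  obtain ⟨q, hq1, hq⟩ := relation_in_F A hexp P
  exact S24.helper77.exists_poly_of_relation _ _ _ q hq1 hq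

/-- **Upper bound**: the field is finite over `ℂ(j)`, of degree at most `[SL(2,ℤ) : stab]`. -/
theorem finiteDimensional_and_finrank_le [Finite ι] [A.stab.FiniteIndex] (hexp : A.ExpGrowth) :
    FiniteDimensional ℂ⟮A.xJ⟯ A.F ∧ Module.finrank ℂ⟮A.xJ⟯ A.F ≤ A.stab.index :=
  S24.helper77.finrank_le_of_forall_aeval A.xJ (xJ_transcendental A) A.gen
    (adjoin_gen_eq_top A)
    (Algebra.subset_adjoin ⟨A.i₀, rfl⟩) _
    (exists_poly_over_adjoin A hexp)

/-- **Lower bound**. -/
theorem index_le_finrank [A.stab.FiniteIndex] [FiniteDimensional ℂ⟮A.xJ⟯ A.F] :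
    A.stab.index ≤ Module.finrank ℂ⟮A.xJ⟯ A.F := by
  have : Finite (SL(2, ℤ) ⧸ A.stab) := Subgroup.finite_quotient_of_finiteIndex
  rw [Subgroup.index]
  refine S24.helper80.card_le_finrank_of_embeddings A.xJ
    ((interiorChart A UpperHalfPlane.I).sigmaQ)
    ((interiorChart A UpperHalfPlane.I).sigmaQ_injective) ?_ ?_
  · intro c c' k
    unfold Chart.sigmaQ
    rw [Chart.sigma_algebraMap, Chart.sigma_algebraMap]
  · intro c c'
    unfold Chart.sigmaQ
    rw [sigma_interior_xJ, sigma_interior_xJ]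

/-- **The degree of the field over `ℂ(j)`.** -/
theorem finrank_eq_index [Finite ι] [A.stab.FiniteIndex] (hexp : A.ExpGrowth) :
    Module.finrank ℂ⟮A.xJ⟯ A.F = A.stab.index := by
  have := (finiteDimensional_and_finrank_le A hexp).1
  exact le_antisymm (finiteDimensional_and_finrank_le A hexp).2 (index_le_finrank A)

end Fermat.Agent.T4.helper80.Gen
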