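import Mathlib
import Fermat.Agent.T4.helper80_GenChart

/-!
# T4 (I) / I-FLD [ANDICT], part 4 (helper80): functions on the upper half plane representing
elements of the field

Generic form of `Fermat.Agent.P3.helper80` (`Represents`).

`Represents A h f` : the function `f : ℂ → ℂ` (only its restriction to the upper half plane
matters, and only up to a discrete set) is the analytic function attached to `h ∈ A.F`, i.e.
at every `τ₀ ∈ ℍ` the germ of `f` is the image of `h` under the chart embedding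
`(interiorChart A τ₀).sigma 1`.
-/

set_option autoImplicit false

noncomputable section

open UpperHalfPlane ModularForm Filter Topology CongruenceSubgroup ModularCurve
  IntermediateField
open scoped MatrixGroups Manifold

namespace Fermat.Agent.T4.helper80.Gen

open Fermat.Agent.S24 Fermat.Agent.S24.helper24 Fermat.Agent.S24.helper99

variable {ι : Type*} (A : Fam ι)

/-- The germ of `h ∈ A.F` at the interior point `τ₀`. -/
def germAt (τ₀ : ℍ) : A.F →+* MeroGerm (τ₀ : ℂ) :=
  (interiorChart A τ₀).sigma 1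

/-- `f` represents `h ∈ A.F`: at every point of the upper half plane, the germ of `f` is the
germ of `h`. -/
def Represents (h : A.F) (f : ℂ → ℂ) : Prop :=
  ∀ τ₀ : ℍ, ∃ hf : MeromorphicAt f (τ₀ : ℂ), germAt A τ₀ h = MeroGerm.mk f hf

variable {A}

theorem Represents.meromorphicAt {h : A.F} {f : ℂ → ℂ} (H : Represents A h f) (τ₀ : ℍ) :
    MeromorphicAt f (τ₀ : ℂ) := (H τ₀).choose

theorem Represents.germAt_eq {h : A.F} {f : ℂ → ℂ} (H : Represents A h f) (τ₀ : ℍ) :
    germAt A τ₀ h = MeroGerm.mk f (H.meromorphicAt τ₀) := (H τ₀).choose_spec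

theorem Represents.meromorphicOn {h : A.F} {f : ℂ → ℂ} (H : Represents A h f) :
    MeromorphicOn f {z : ℂ | 0 < z.im} := fun z hz => H.meromorphicAt ⟨z, hz⟩

variable (A)

theorem represents_algebraMap (c : ℂ) : Represents A (algebraMap ℂ A.F c) (fun _ => c) :=
  fun τ₀ => ⟨MeromorphicAt.const c _, (interiorChart A τ₀).sigma_algebraMap 1 c⟩

theorem represents_zero : Represents A (0 : A.F) (fun _ => 0) := by
  have := represents_algebraMap A 0
  rwa [map_zero] at this

theorem represents_one : Represents A (1 : A.F) (fun _ => 1) := by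
  have := represents_algebraMap A 1
  rwa [map_one] at this

theorem represents_gen (i : ι) : Represents A (A.gen i) (fun z => A.X i (ofComplex z)) := by
  intro τ₀
  refine ⟨(interiorChart A τ₀).H_mero 1 i |>.congr (Eventually.of_forall fun z => ?_), ?_⟩
  · show A.X i ((1 : SL(2, ℤ))⁻¹ • ofComplex z) = A.X i (ofComplex z)
    rw [inv_one, one_smul]
  · unfold germAt
    rw [Chart.sigma_gen]
    apply MeroGerm.mk_eq_mk_iff.mpr
    refine Eventually.of_forall fun z => ?_
    show A.X i ((1 : SL(2, ℤ))⁻¹ • ofComplex z) = A.X i (ofComplex z)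
    rw [inv_one, one_smul]

theorem represents_xJ : Represents A A.xJ (fun z => jfun (ofComplex z)) := by
  have h := represents_gen A A.i₀
  rw [A.hj] at h
  exact h

variable {A}

theorem Represents.add {h h' : A.F} {f f' : ℂ → ℂ} (H : Represents A h f)
    (H' : Represents A h' f') : Represents A (h + h') (f + f') :=
  fun τ₀ => ⟨(H.meromorphicAt τ₀).add (H'.meromorphicAt τ₀), by
    rw [map_add, H.germAt_eq, H'.germAt_eq, MeroGerm.mk_add]⟩

theorem Represents.mul {h h' : A.F} {f f' : ℂ → ℂ} (H : Represents A h f)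
    (H' : Represents A h' f') : Represents A (h * h') (f * f') :=
  fun τ₀ => ⟨(H.meromorphicAt τ₀).mul (H'.meromorphicAt τ₀), by
    rw [map_mul, H.germAt_eq, H'.germAt_eq, MeroGerm.mk_mul]⟩

theorem Represents.neg {h : A.F} {f : ℂ → ℂ} (H : Represents A h f) :
    Represents A (-h) (-f) :=
  fun τ₀ => ⟨(H.meromorphicAt τ₀).neg, by rw [map_neg, H.germAt_eq, MeroGerm.mk_neg]⟩

theorem Represents.sub {h h' : A.F} {f f' : ℂ → ℂ} (H : Represents A h f)
    (H' : Represents A h' f') : Represents A (h - h') (f - f') :=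
  fun τ₀ => ⟨(H.meromorphicAt τ₀).sub (H'.meromorphicAt τ₀), by
    rw [map_sub, H.germAt_eq, H'.germAt_eq, MeroGerm.mk_sub]⟩

theorem Represents.inv {h : A.F} {f : ℂ → ℂ} (H : Represents A h f) :
    Represents A h⁻¹ f⁻¹ :=
  fun τ₀ => ⟨(H.meromorphicAt τ₀).inv, by rw [map_inv₀, H.germAt_eq, MeroGerm.mk_inv]⟩

theorem Represents.div {h h' : A.F} {f f' : ℂ → ℂ} (H : Represents A h f)
    (H' : Represents A h' f') : Represents A (h / h') (f / f') :=
  fun τ₀ => ⟨(H.meromorphicAt τ₀).div (H'.meromorphicAt τ₀), by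
    rw [map_div₀, H.germAt_eq, H'.germAt_eq, MeroGerm.mk_div]⟩

theorem Represents.pow {h : A.F} {f : ℂ → ℂ} (H : Represents A h f) (n : ℕ) :
    Represents A (h ^ n) (f ^ n) :=
  fun τ₀ => ⟨(H.meromorphicAt τ₀).pow n, by rw [map_pow, H.germAt_eq, MeroGerm.mk_pow]⟩

/-- Changing `f` on a discrete set does not matter. -/
theorem Represents.congr {h : A.F} {f f' : ℂ → ℂ} (H : Represents A h f)
    (hff' : ∀ τ₀ : ℍ, f =ᶠ[𝓝[≠] (τ₀ : ℂ)] f') : Represents A h f' :=
  fun τ₀ => ⟨(H.meromorphicAt τ₀).congr (hff' τ₀), by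
    rw [H.germAt_eq]
    exact MeroGerm.mk_eq_mk_iff.mpr (hff' τ₀)⟩

/-- `h` is determined by any function representing it (it suffices to compare at one point). -/
theorem Represents.unique {h h' : A.F} {f : ℂ → ℂ} (H : Represents A h f)
    (H' : Represents A h' f) : h = h' := by
  apply (germAt A UpperHalfPlane.I).injective
  rw [H.germAt_eq, H'.germAt_eq]

/-- Two functions representing the same `h` agree near every point of the upper half plane. -/
theorem Represents.eventuallyEq {h : A.F} {f f' : ℂ → ℂ} (H : Represents A h f)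
    (H' : Represents A h f') (τ₀ : ℍ) : f =ᶠ[𝓝[≠] (τ₀ : ℂ)] f' := by
  have := (H.germAt_eq τ₀).symm.trans (H'.germAt_eq τ₀)
  exact MeroGerm.mk_eq_mk_iff.mp this

/-- If `f` represents `h ≠ 0` then `f` has finite order at every point. -/
theorem Represents.meromorphicOrderAt_ne_top {h : A.F} {f : ℂ → ℂ} (H : Represents A h f)
    (hh : h ≠ 0) (τ₀ : ℍ) : meromorphicOrderAt f (τ₀ : ℂ) ≠ ⊤ := by
  intro htop
  have h1 : MeroGerm.mk f (H.meromorphicAt τ₀) = 0 := MeroGerm.mk_eq_zero_iff_order.mpr htop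
  rw [← H.germAt_eq] at h1
  exact hh ((map_eq_zero_iff _ (germAt A τ₀).injective).mp h1)

variable (A)

/-! ### The canonical representative -/

theorem represents_aeval (P : MvPolynomial ι ℂ) (f : A.F)
    (hf : (f : LaurentSeries ℂ) = MvPolynomial.aeval A.x P) :
    Represents A f (fun z => A.ev0 P (ofComplex z)) := by
  intro τ₀
  obtain ⟨F, hF, h1, h2⟩ := (interiorChart A τ₀).Θ_spec 1 P
  have hev : F =ᶠ[𝓝[≠] (τ₀ : ℂ)] fun z => A.ev0 P (ofComplex z) := by
    have hH : {z : ℂ | 0 < z.im} ∈ 𝓝 (τ₀ : ℂ) := isOpen_upperHalfPlaneSet.mem_nhds τ₀.im_pos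
    filter_upwards [mem_nhdsWithin_of_mem_nhds hH] with z hz
    have := h2 ⟨z, hz⟩
    have e1 : (interiorChart A τ₀).u ⟨z, hz⟩ = z := rfl
    rw [e1] at this
    rw [this]
    show A.ev0 P ((1 : SL(2, ℤ))⁻¹ • (⟨z, hz⟩ : ℍ)) = A.ev0 P (ofComplex z)
    rw [inv_one, one_smul, ofComplex_apply_of_im_pos hz]
  refine ⟨hF.congr hev, ?_⟩
  unfold germAt
  rw [(interiorChart A τ₀).sigma_of_eq 1 f P hf, h1]
  exact MeroGerm.mk_eq_mk_iff.mpr hev

/-- **Every element of the field is represented by a `stab`-invariant function.** -/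
theorem exists_represents (h : A.F) :
    ∃ f : ℍ → ℂ, Represents A h (fun z => f (ofComplex z)) ∧
      ∀ γ ∈ A.stab, ∀ τ : ℍ, f (γ • τ) = f τ := by
  obtain ⟨P, Q, hQ, hPQ⟩ := A.exists_poly_repr h
  have hP' : MvPolynomial.aeval A.x P ∈ A.S := A.aeval_mem P
  have hQ' : MvPolynomial.aeval A.x Q ∈ A.S := A.aeval_mem Q
  have e : h = (⟨_, hP'⟩ : A.F) / ⟨_, hQ'⟩ := by
    apply Subtype.ext
    rw [hPQ]
    rfl
  refine ⟨fun τ => A.ev0 P τ / A.ev0 Q τ, ?_, fun γ hγ τ => ?_⟩
  · rw [e]
    exact (represents_aeval A P ⟨_, hP'⟩ rfl).div (represents_aeval A Q ⟨_, hQ'⟩ rfl)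
  · show A.ev0 P (γ • τ) / A.ev0 Q (γ • τ) = _
    rw [A.ev0_smul_of_mem_stab P hγ, A.ev0_smul_of_mem_stab Q hγ]

/-! ### The canonical function of an element of the field -/

/-- A `stab`-invariant function on the upper half plane representing `h ∈ A.F`. -/
def evH (h : A.F) : ℍ → ℂ := (exists_represents A h).choose

/-- The function `evH A h`, extended to `ℂ` (by `ofComplex`). -/
def evC (h : A.F) : ℂ → ℂ := fun z => evH A h (ofComplex z)

theorem represents_evC (h : A.F) : Represents A h (evC A h) :=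
  (exists_represents A h).choose_spec.1

theorem evH_smul (h : A.F) {γ : SL(2, ℤ)} (hγ : γ ∈ A.stab) (τ : ℍ) :
    evH A h (γ • τ) = evH A h τ :=
  (exists_represents A h).choose_spec.2 γ hγ τ

theorem evC_coe (h : A.F) (τ : ℍ) : evC A h (τ : ℂ) = evH A h τ := by
  unfold evC
  rw [ofComplex_apply]

theorem evC_smul (h : A.F) {γ : SL(2, ℤ)} (hγ : γ ∈ A.stab) (τ : ℍ) :
    evC A h ((γ • τ : ℍ) : ℂ) = evC A h (τ : ℂ) := by
  rw [evC_coe, evC_coe, evH_smul A h hγ]

theorem meromorphicOn_evC (h : A.F) : MeromorphicOn (evC A h) {z : ℂ | 0 < z.im} :=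
  (represents_evC A h).meromorphicOn

/-- `f` represents `h` iff `f` agrees with `evC A h` near every point of the upper half
plane. -/
theorem represents_iff_eventuallyEq_evC {h : A.F} {f : ℂ → ℂ} :
    Represents A h f ↔ ∀ τ₀ : ℍ, f =ᶠ[𝓝[≠] (τ₀ : ℂ)] evC A h :=
  ⟨fun H τ₀ => H.eventuallyEq (represents_evC A h) τ₀,
    fun H => (represents_evC A h).congr fun τ₀ => (H τ₀).symm⟩

end Fermat.Agent.T4.helper80.Gen
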