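import Mathlib
import Fermat.Agent.T4.helper80_GenRep
import Fermat.Agent.T4.helper80_GenDegree
import Fermat.Agent.P3.helper20_Mon
import Fermat.Agent.S24.helper75_FFCore2
import Fermat.Agent.S24.helper82_Separating
import Fermat.Agent.S24.helper55_RH
import Fermat.Agent.S24.helper43_LocalCount

/-!
# T4 (I) / I-FLD [ANDICT], part 5 (helper80): the analytic dictionary of a field generated by
`q`-expansions, in the shape of `helper20.AnDict`

Generic form of `Fermat.Agent.P3.helper80` (`AnDict`), for a family `A : Fam ι` whose field is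
finite over `ℂ(j)`.

* `exists_valAt_eq`: every point `τ₀` of the upper half plane defines a place `w` of the field,
  with `V_{τ₀}(germ of f) = exp(-(d · ord_w f))`;
* `Represents.dvd_order` (**T2**): if all `ord_w h` are divisible by `m` then so are the orders of
  the function of `h` at all points of the upper half plane;
* `exists_eq_algebraMap_of_ord_eq_zero`: an element without zeros and poles is constant;
* `hasPrincipalDivisors`: principal divisors exist and have degree `0`;
* `anDict`: the `helper20.AnDict A.F Γ` for every `Γ ≤ A.stab` (given the `root_mem` clause).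
-/

set_option autoImplicit false

noncomputable section

open UpperHalfPlane ModularForm Filter Topology CongruenceSubgroup ModularCurve
  IntermediateField AlgebraicCurve WithZero
open scoped MatrixGroups Manifold

namespace Fermat.Agent.T4.helper80.Gen

open Fermat.Agent.S24 Fermat.Agent.S24.helper24 Fermat.Agent.S24.helper99

variable {ι : Type*} (A : Fam ι)

/-! ### The place attached to a point of the upper half plane -/

/-- The valuation of the field attached to the point `τ₀`. -/
def valAt (τ₀ : ℍ) : Valuation A.F ℤᵐ⁰ :=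
  (MeroGerm.V (τ₀ : ℂ)).comap (germAt A τ₀)

theorem valAt_apply (τ₀ : ℍ) (f : A.F) :
    valAt A τ₀ f = MeroGerm.V (τ₀ : ℂ) (germAt A τ₀ f) := rfl

theorem valAt_algebraMap (τ₀ : ℍ) (c : ℂ) (hc : c ≠ 0) :
    valAt A τ₀ (algebraMap ℂ A.F c) = 1 := by
  rw [valAt_apply]
  unfold germAt
  rw [Chart.sigma_algebraMap]
  exact MeroGerm.V_const hc

theorem valAt_nontrivial (τ₀ : ℍ) : ∃ x : A.F, valAt A τ₀ x ≠ 0 ∧ valAt A τ₀ x ≠ 1 := by
  refine ⟨A.xJ - algebraMap ℂ A.F (jfun τ₀), ?_, ?_⟩
  · rw [Valuation.ne_zero_iff]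
    intro h0
    apply helper55.transcendental_sub_algebraMap (xJ_transcendental A) (jfun τ₀)
    rw [h0]
    exact isAlgebraic_zero
  · intro h1
    rw [valAt_apply] at h1
    unfold germAt at h1
    rw [sigma_interior_sub] at h1
    have han : AnalyticAt ℂ (fun z => jfun (ofComplex z) - jfun τ₀) (τ₀ : ℂ) :=
      (analyticAt_jfunC τ₀).sub analyticAt_const
    have hne : MeroGerm.mk (fun z => jfun (ofComplex z) - jfun τ₀) han.meromorphicAt ≠ 0 := by
      intro h0
      rw [h0, map_zero] at h1
      exact zero_ne_one h1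
    have htop : meromorphicOrderAt (fun z => jfun (ofComplex z) - jfun τ₀) (τ₀ : ℂ) ≠ ⊤ :=
      fun h => hne (MeroGerm.mk_eq_zero_iff_order.mpr h)
    obtain ⟨n, hn⟩ := WithTop.ne_top_iff_exists.mp htop
    rw [MeroGerm.V_mk_of_order_eq _ hn.symm] at h1
    have hn0 : n = 0 := by
      have : exp (-n) = exp (0 : ℤ) := by rw [h1]; rfl
      have := exp_injective this
      omega
    rw [hn0] at hn
    have h2 := han.meromorphicOrderAt_eq
    rw [← hn] at h2
    have h3 : analyticOrderAt (fun z => jfun (ofComplex z) - jfun τ₀) (τ₀ : ℂ) = 0 := by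
      cases hcase : analyticOrderAt (fun z => jfun (ofComplex z) - jfun τ₀) (τ₀ : ℂ) with
      | top =>
        rw [hcase] at h2
        simp at h2
      | coe k =>
        rw [hcase] at h2
        simp only [ENat.map_natCast] at h2
        have : (k : ℤ) = 0 := by exact_mod_cast h2.symm
        have : k = 0 := by exact_mod_cast this
        rw [this]
        rfl
    rw [han.analyticOrderAt_eq_zero] at h3
    apply h3
    show jfun (ofComplex (τ₀ : ℂ)) - jfun τ₀ = 0
    rw [ofComplex_apply, sub_self]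

/-- The place of the field attached to the point `τ₀` of the upper half plane. -/
def placeAt (τ₀ : ℍ) : Place ℂ A.F :=
  helper43.placeOf (valAt A τ₀) (valAt_algebraMap A τ₀) (valAt_nontrivial A τ₀)

/-- **The place of a point.** -/
theorem exists_valAt_eq (τ₀ : ℍ) : ∃ d : ℤ, 0 < d ∧
    ∀ f : A.F, f ≠ 0 →
      MeroGerm.V (τ₀ : ℂ) (germAt A τ₀ f) = exp (-(d * (placeAt A τ₀).ord f)) := by
  obtain ⟨d, hd, -, h⟩ :=
    helper43.exists_val_eq_exp_ord (valAt A τ₀) (valAt_algebraMap A τ₀) (valAt_nontrivial A τ₀)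
  exact ⟨d, hd, h⟩

/-- The order of a function representing `h` at `τ₀` is a positive multiple (by a factor
depending only on `τ₀`) of the order of `h` at the place of `τ₀`. -/
theorem exists_order_eq (τ₀ : ℍ) :
    ∃ d : ℤ, 0 < d ∧ ∀ (h' : A.F) (f' : ℂ → ℂ), Represents A h' f' → h' ≠ 0 →
      meromorphicOrderAt f' (τ₀ : ℂ) = ((d * (placeAt A τ₀).ord h' : ℤ) : WithTop ℤ) := by
  obtain ⟨d, hd, hV⟩ := exists_valAt_eq A τ₀
  refine ⟨d, hd, fun h' f' H' hh' => ?_⟩
  have htop := H'.meromorphicOrderAt_ne_top hh' τ₀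
  obtain ⟨n, hn⟩ := WithTop.ne_top_iff_exists.mp htop
  have h1 := hV h' hh'
  rw [H'.germAt_eq, MeroGerm.V_mk_of_order_eq _ hn.symm] at h1
  have h2 := exp_injective h1
  rw [← hn]
  congr 1
  omega

variable {A} in
/-- **T2.** If all orders of `h ≠ 0` at the places of the field are divisible by `m`, then so
are the orders of any function representing `h` at the points of the upper half plane. -/
theorem Represents.dvd_order {h : A.F} {f : ℂ → ℂ} (H : Represents A h f) (hh : h ≠ 0)
    (m : ℕ) (hdvd : ∀ w : Place ℂ A.F, (m : ℤ) ∣ w.ord h) :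
    ∀ z ∈ {z : ℂ | 0 < z.im}, (m : ℤ) ∣ (meromorphicOrderAt f z).untop₀ := by
  intro z hz
  obtain ⟨d, -, hd⟩ := exists_order_eq A ⟨z, hz⟩
  have h1 := hd h f H hh
  have e : ((⟨z, hz⟩ : ℍ) : ℂ) = z := rfl
  rw [e] at h1
  rw [h1, WithTop.untop₀_coe]
  exact Dvd.dvd.mul_left (hdvd _) d

/-! ### Constants and principal divisors -/

/-- Principal divisors of the field exist and have degree zero. -/
theorem hasPrincipalDivisors [FiniteDimensional ℂ⟮A.xJ⟯ A.F] : HasPrincipalDivisors ℂ A.F :=
  helper75.ff_hasPrincipalDivisors A.xJ (xJ_transcendental A)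

/-- An element of the field without zeros is constant. -/
theorem exists_eq_algebraMap_of_ord_le_zero [FiniteDimensional ℂ⟮A.xJ⟯ A.F] (h : A.F)
    (h0 : ∀ w : Place ℂ A.F, w.ord h ≤ 0) : ∃ a : ℂ, h = algebraMap ℂ A.F a := by
  by_contra hcon
  have hnot : h ∉ Set.range (algebraMap ℂ A.F) := by
    rintro ⟨a, ha⟩
    exact hcon ⟨a, ha.symm⟩
  obtain ⟨htr, hfd⟩ := helper82.ff_transcendental A.xJ (xJ_transcendental A) h hnot
  have hsum := helper75.ff_sum_ord_zeros h htr
  have hempty : (helper75.ff_finite_zeros h htr).toFinset = ∅ := by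
    ext w
    simp only [Set.Finite.mem_toFinset, Set.mem_ofPred_eq, Finset.notMem_empty, iff_false,
      not_lt]
    exact h0 w
  rw [hempty, Finset.sum_empty] at hsum
  have hpos : 0 < Module.finrank ℂ⟮h⟯ A.F := Module.finrank_pos
  have : (Module.finrank ℂ⟮h⟯ A.F : ℤ) = 0 := hsum.symm
  omega

/-- An element of the field without zeros and poles is constant. -/
theorem exists_eq_algebraMap_of_ord_eq_zero [FiniteDimensional ℂ⟮A.xJ⟯ A.F] (h : A.F)
    (h0 : ∀ w : Place ℂ A.F, w.ord h = 0) : ∃ a : ℂ, h = algebraMap ℂ A.F a :=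
  exists_eq_algebraMap_of_ord_le_zero A h fun w => (h0 w).le

/-! ### The analytic dictionary -/

open Fermat.Agent.P3.helper20 Fermat.Agent.P3.helper34

theorem eqH_iff' {f g : ℂ → ℂ} : EqH f g ↔ ∀ τ₀ : ℍ, f =ᶠ[𝓝[≠] (τ₀ : ℂ)] g :=
  ⟨fun h τ₀ => h _ τ₀.im_pos, fun h z hz => h ⟨z, hz⟩⟩

/-- `f` represents `h` iff `f` is `EqH` to `evC A h`. -/
theorem represents_iff_eqH {h : A.F} {f : ℂ → ℂ} : Represents A h f ↔ EqH f (evC A h) := by
  rw [eqH_iff']
  exact represents_iff_eventuallyEq_evC A

/-- The `root_mem` clause of `helper20.AnDict` for the field `A.F` and the group `Γ`. -/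
def RootMemStatement (Γ : Subgroup SL(2, ℤ)) : Prop :=
  ∀ (m : ℕ) (h : A.F) (g : ℂ → ℂ), 0 < m → h ≠ 0 →
    MeromorphicOn g {z : ℂ | 0 < z.im} → EqH (fun w ↦ g w ^ m) (evC A h) →
    (∀ γ : Γ, EqH (fun w ↦ g (moebC γ w)) g) → ∃ k : A.F, EqH g (evC A k)

/-- **The analytic dictionary of the field `A.F`**, for every subgroup `Γ` of the stabiliser,
given the `root_mem` clause. -/
def anDict [FiniteDimensional ℂ⟮A.xJ⟯ A.F] (Γ : Subgroup SL(2, ℤ)) (hΓ : Γ ≤ A.stab)
    (hroot : RootMemStatement A Γ) : AnDict A.F Γ where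
  ev := evC A
  mero := meromorphicOn_evC A
  ev_add h k := (represents_iff_eqH A).mp ((represents_evC A h).add (represents_evC A k)) |>.symm
  ev_mul h k := (represents_iff_eqH A).mp ((represents_evC A h).mul (represents_evC A k)) |>.symm
  ev_algebraMap a := ((represents_iff_eqH A).mp (represents_algebraMap A a)).symm
  fin h hh z hz := (represents_evC A h).meromorphicOrderAt_ne_top hh ⟨z, hz⟩
  inv h γ z hz := by
    filter_upwards [mem_nhdsWithin_of_mem_nhds
      (UpperHalfPlane.isOpen_upperHalfPlaneSet.mem_nhds hz)] with w hw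
    have := evC_smul A h (hΓ γ.2) ⟨w, hw⟩
    rw [← moebC_coe] at this
    exact this
  const h _ h0 := exists_eq_algebraMap_of_ord_eq_zero A h h0
  t2 m h hh hdvd := (represents_evC A h).dvd_order hh m hdvd
  root_mem := hroot

@[simp] theorem anDict_ev [FiniteDimensional ℂ⟮A.xJ⟯ A.F] (Γ : Subgroup SL(2, ℤ))
    (hΓ : Γ ≤ A.stab) (hroot : RootMemStatement A Γ) : (anDict A Γ hΓ hroot).ev = evC A := rfl

end Fermat.Agent.T4.helper80.Gen
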