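import Mathlib
import Fermat.Agent.T4.helper80_GenAnDict
import Fermat.Agent.P3.helper48_AN1Root

/-!
# T4 (I) / I-FLD [G-ROOT] (helper12): the `root_mem` clause of the analytic dictionary of a field
generated by `q`-expansions

Generic form of `Fermat.Agent.P3.helper48` (`AN1Core` Theorem A, `AN1Ratio` Theorem C,
`AN1Root`, `AN1RootMem`) for a family `A : helper80.Gen.Fam ι`.

* `eq_of_le_of_finrank_adjoin_simple` : two intermediate fields `F ≤ F'` of the same finite
  degree over `K(x)` are equal (pure field theory);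
* `isQExp_vadd`, `T_mem_stab` : a function with a `q`-expansion is `1`-periodic, so the
  translation `T` lies in the stabiliser of every family;
* `mem_S_of_isQExp` (**Theorem A**) : the `q`-expansion of a holomorphic `stab`-invariant
  function with at most exponential growth at all cusps lies in the field `A.S`.  Proof: the
  family extended by the new function has the same stabiliser, hence (`finrank_eq_index`
  twice) the same degree over `ℂ(j)`;
* `root_mem_S` (**Theorem C**) : the same for a function one of whose powers has at most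
  exponential growth at all cusps;
* `rootMem` : `helper80.Gen.RootMemStatement A Γ` for every subgroup `Γ` with
  `A.stab ≤ ± Γ`;
* `anDictOfGrowth` : the resulting unconditional `helper20.AnDict A.F Γ` for
  `Γ ≤ A.stab ≤ ± Γ`.
-/

set_option autoImplicit false

noncomputable section

open UpperHalfPlane ModularForm Filter Topology ModularCurve IntermediateField
open scoped MatrixGroups Manifold

namespace Fermat.Agent.T4.helper12

open Fermat.Agent.S24 Fermat.Agent.S24.helper17 Fermat.Agent.S24.helper77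
open Fermat.Agent.P3.helper34 Fermat.Agent.P3.helper20
open Fermat.Agent.T4.helper80.Gen

/-! ### A lemma of field theory -/

section FieldLemma

variable {K L : Type*} [Field K] [Field L] [Algebra K L]

/-- The degree of `F` over `K(x)`, computed inside `F`, is the relative degree of
`K(x) ≤ F`. -/
theorem relfinrank_adjoin_simple (F : IntermediateField K L) (x : L) (hx : x ∈ F) :
    IntermediateField.relfinrank K⟮x⟯ F = Module.finrank K⟮(⟨x, hx⟩ : F)⟯ F := by
  have h1 := IntermediateField.relfinrank_map_map (A := K⟮(⟨x, hx⟩ : F)⟯)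
    (B := (⊤ : IntermediateField K F)) F.val
  rw [IntermediateField.relfinrank_top_right] at h1
  rw [← h1]
  congr 1
  · rw [IntermediateField.adjoin_map]
    simp
  · rw [← AlgHom.fieldRange_eq_map, IntermediateField.fieldRange_val]

/-- Two intermediate fields `F ≤ F'` with the same finite degree over `K(x)` are equal. -/
theorem eq_of_le_of_finrank_adjoin_simple (F F' : IntermediateField K L) (hle : F ≤ F')
    (x : L) (hx : x ∈ F) (n : ℕ) (hn : n ≠ 0)
    (h1 : Module.finrank K⟮(⟨x, hx⟩ : F)⟯ F = n)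
    (h2 : Module.finrank K⟮(⟨x, hle hx⟩ : F')⟯ F' = n) : F = F' := by
  have hJ : K⟮x⟯ ≤ F := by
    rw [IntermediateField.adjoin_simple_le_iff]
    exact hx
  have e1 := relfinrank_adjoin_simple F x hx
  have e2 := relfinrank_adjoin_simple F' x (hle hx)
  have e3 := IntermediateField.relfinrank_mul_relfinrank hJ hle
  rw [e1, e2, h1, h2] at e3
  have e4 : IntermediateField.relfinrank F F' = 1 := by
    have hn' : 0 < n := Nat.pos_of_ne_zero hn
    exact Nat.eq_of_mul_eq_mul_left hn' (by rw [e3, mul_one])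
  exact le_antisymm hle (IntermediateField.relfinrank_eq_one_iff.mp e4)

end FieldLemma

/-! ### Periodicity -/

/-- A function with a `q`-expansion is `1`-periodic. -/
theorem isQExp_vadd {f : LaurentSeries ℂ} {g : ℍ → ℂ} (h : IsQExp f g) (τ : ℍ) :
    g ((1 : ℝ) +ᵥ τ) = g τ := by
  obtain ⟨M, hn, -⟩ := h
  have h1 := hn.periodic (τ : ℂ)
  have h2 := (isNice_qParam_pow M).periodic (τ : ℂ)
  simp only [Function.comp_apply] at h1 h2
  rw [Fermat.Agent.P3.helper48.ofComplex_add_one τ.im_pos, ofComplex_apply] at h1 h2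
  rw [h2] at h1
  have hq : Function.Periodic.qParam 1 (τ : ℂ) ^ M ≠ 0 :=
    pow_ne_zero _ (Function.Periodic.qParam_ne_zero _)
  exact mul_left_cancel₀ hq h1

variable {ι : Type*} (A : Fam ι)

/-- The translation `T` stabilises every family of functions with `q`-expansions. -/
theorem T_mem_stab : ModularGroup.T ∈ A.stab := by
  intro i τ
  rw [modular_T_smul]
  exact isQExp_vadd (A.hq i) τ

/-! ### The family extended by one function -/

section Ext

variable {S : LaurentSeries ℂ} {s : ℍ → ℂ} (hS : IsQExp S s)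

/-- The family `A` extended by one more function with a `q`-expansion. -/
def extFam : Fam (Option ι) where
  x := fun o => o.elim S A.x
  X := fun o => o.elim s A.X
  S := IntermediateField.adjoin ℂ (Set.range fun o : Option ι => o.elim S A.x)
  hS := rfl
  hq := by
    rintro (_ | i)
    · exact hS
    · exact A.hq i
  i₀ := some A.i₀
  hj := A.hj

theorem extFam_stab (hinv : ∀ γ ∈ A.stab, ∀ τ : ℍ, s (γ • τ) = s τ) :
    (extFam A hS).stab = A.stab := by
  ext γ
  constructor
  · intro h i τ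
    exact h (some i) τ
  · intro h o τ
    rcases o with _ | i
    · exact hinv γ h τ
    · exact h i τ

theorem extFam_expGrowth (hexp : A.ExpGrowth) (hmem : ∀ g : SL(2, ℤ), precomp g s ∈ holoExp) :
    (extFam A hS).ExpGrowth := by
  rintro g (_ | i)
  · exact hmem g
  · exact hexp g i

theorem le_extFam : A.S ≤ (extFam A hS).S := by
  rw [A.hS]
  show IntermediateField.adjoin ℂ (Set.range A.x) ≤
    IntermediateField.adjoin ℂ (Set.range fun o : Option ι => o.elim S A.x)
  apply IntermediateField.adjoin.mono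
  rintro _ ⟨i, rfl⟩
  exact ⟨some i, rfl⟩

theorem jq_mem : jqModC ℂ ∈ A.S := by
  rw [← A.x_i₀]
  exact A.x_mem _

include hS in
/-- **Theorem A.** The `q`-expansion of a holomorphic function on `ℍ`, invariant under the
stabiliser of the family and with at most exponential growth at all cusps, lies in the field
generated by the family. -/
theorem mem_S_of_isQExp [Finite ι] [A.stab.FiniteIndex] (hexp : A.ExpGrowth)
    (hinv : ∀ γ ∈ A.stab, ∀ τ : ℍ, s (γ • τ) = s τ)
    (hmem : ∀ g : SL(2, ℤ), precomp g s ∈ holoExp) : S ∈ A.S := by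
  have hstab : (extFam A hS).stab = A.stab := extFam_stab A hS hinv
  have hfi : (extFam A hS).stab.FiniteIndex := by
    rw [hstab]
    infer_instance
  have h1 := finrank_eq_index A hexp
  have h2 := finrank_eq_index (extFam A hS) (extFam_expGrowth A hS hexp hmem)
  rw [hstab] at h2
  have hle : A.S ≤ (extFam A hS).S := le_extFam A hS
  have hx : jqModC ℂ ∈ A.S := jq_mem A
  have e1 : (⟨jqModC ℂ, hx⟩ : A.S) = A.xJ := Subtype.ext A.coe_xJ.symm
  have e2 : (⟨jqModC ℂ, hle hx⟩ : (extFam A hS).S) = (extFam A hS).xJ :=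
    Subtype.ext (extFam A hS).coe_xJ.symm
  have heq : A.S = (extFam A hS).S :=
    eq_of_le_of_finrank_adjoin_simple A.S (extFam A hS).S hle (jqModC ℂ) hx A.stab.index
      Subgroup.FiniteIndex.index_ne_zero (by rw [e1]; exact h1) (by rw [e2]; exact h2)
  rw [heq]
  exact (extFam A hS).x_mem none

end Ext

/-- **Theorem A**, with existence of the `q`-expansion. -/
theorem exists_mem_S_isQExp [Finite ι] [A.stab.FiniteIndex] (hexp : A.ExpGrowth) {s : ℍ → ℂ}
    (hinv : ∀ γ ∈ A.stab, ∀ τ : ℍ, s (γ • τ) = s τ)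
    (hmem : ∀ g : SL(2, ℤ), precomp g s ∈ holoExp) : ∃ S ∈ A.S, IsQExp S s := by
  have h1 : s ∈ holoExp := by
    have := hmem 1
    rwa [precomp_one] at this
  have hper : ∀ τ : ℍ, s ((1 : ℝ) +ᵥ τ) = s τ := by
    intro τ
    rw [← modular_T_smul]
    exact hinv _ (T_mem_stab A) τ
  obtain ⟨S, hS⟩ := Fermat.Agent.P3.helper48.exists_isQExp h1 hper
  exact ⟨S, mem_S_of_isQExp A hS hexp hinv hmem, hS⟩

/-- **Theorem C (roots).** A holomorphic `stab`-invariant function `G` on `ℍ` such that some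
power `G ^ m` (`m ≥ 1`) has at most exponential growth at all cusps has a `q`-expansion, which
lies in the field generated by the family. -/
theorem root_mem_S [Finite ι] [A.stab.FiniteIndex] (hexp : A.ExpGrowth) {m : ℕ} (hm : 0 < m)
    {G : ℍ → ℂ} (hG : MDiff G) (hinv : ∀ γ ∈ A.stab, ∀ τ : ℍ, G (γ • τ) = G τ)
    (hpow : ∀ g : SL(2, ℤ), precomp g (G ^ m) ∈ holoExp) : ∃ S ∈ A.S, IsQExp S G :=
  exists_mem_S_isQExp A hexp hinv fun g =>
    Fermat.Agent.P3.helper48.mem_holoExp_of_pow_mem hm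
      (Fermat.Agent.P3.helper48.mdiff_precomp hG g) (by rw [← map_pow]; exact hpow g)

/-! ### Polynomials in the generators, as functions on `ℂ` -/

/-- The function `P(X_i)` on `ℂ` (junk outside the upper half plane). -/
def evP (P : MvPolynomial ι ℂ) (w : ℂ) : ℂ := A.ev0 P (ofComplex w)

theorem evP_coe (P : MvPolynomial ι ℂ) (τ : ℍ) : evP A P (τ : ℂ) = A.ev0 P τ := by
  rw [evP, ofComplex_apply]

theorem analyticOnNhd_evP (P : MvPolynomial ι ℂ) :
    AnalyticOnNhd ℂ (evP A P) {z : ℂ | 0 < z.im} :=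
  (UpperHalfPlane.mdifferentiable_iff.mp (A.mdiff_ev0 P)).analyticOnNhd
    UpperHalfPlane.isOpen_upperHalfPlaneSet

theorem evP_mul (P Q : MvPolynomial ι ℂ) (w : ℂ) :
    evP A (P * Q) w = evP A P w * evP A Q w := A.ev0_mul P Q _

theorem evP_pow (P : MvPolynomial ι ℂ) (n : ℕ) (w : ℂ) :
    evP A (P ^ n) w = evP A P w ^ n := by
  induction n with
  | zero => simp [evP, Fam.ev0]
  | succ n ih => rw [pow_succ, pow_succ, evP_mul, ih]

theorem ev0_eq_thetaFam (P : MvPolynomial ι ℂ) :
    A.ev0 P = Fermat.Agent.P3.helper48.thetaFam A.X P := by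
  funext τ
  rw [Fermat.Agent.P3.helper48.thetaFam_apply]
  rfl

theorem isQExp_ev0 (P : MvPolynomial ι ℂ) : IsQExp (MvPolynomial.aeval A.x P) (A.ev0 P) :=
  IsQExp.aeval A.hq P

theorem precomp_ev0_mem_holoExp (hexp : A.ExpGrowth) (δ : SL(2, ℤ)) (P : MvPolynomial ι ℂ) :
    precomp δ (A.ev0 P) ∈ holoExp := by
  rw [ev0_eq_thetaFam]
  exact Fermat.Agent.P3.helper48.precomp_thetaFam_mem_holoExp A.X (fun i g => hexp g i) δ P

/-- A polynomial in the generators which is nonzero as a `q`-series is nonzero on a punctured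
neighbourhood of every point of `ℍ`. -/
theorem eventually_evP_ne_zero {Q : MvPolynomial ι ℂ} (hQ : MvPolynomial.aeval A.x Q ≠ 0)
    {z : ℂ} (hz : z ∈ {z : ℂ | 0 < z.im}) : ∀ᶠ w in 𝓝[≠] z, evP A Q w ≠ 0 := by
  by_contra hcon
  rw [Filter.not_eventually] at hcon
  have hfreq : ∃ᶠ w in 𝓝[≠] z, evP A Q w = 0 := hcon.mono fun w hw => not_not.mp hw
  have h0 := (analyticOnNhd_evP A Q).eqOn_zero_of_preconnected_of_frequently_eq_zero
    Fermat.Agent.P3.helper48.isPreconnected_uhp hz hfreq
  apply hQ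
  rw [A.bridge]
  intro τ
  have := h0 τ.2
  rwa [evP_coe] at this

theorem evP_moebC {γ : SL(2, ℤ)} (hγ : γ ∈ A.stab) (P : MvPolynomial ι ℂ) {w : ℂ}
    (hw : w ∈ {z : ℂ | 0 < z.im}) : evP A P (moebC γ w) = evP A P w := by
  rw [moebC_eq_coe γ hw, evP_coe, A.ev0_smul_of_mem_stab P hγ]
  exact (evP_coe A P ⟨w, hw⟩).symm

/-- The element `P(x_i) / Q(x_i)` of the field. -/
def ratF (P Q : MvPolynomial ι ℂ) : A.F :=
  (⟨_, A.aeval_mem P⟩ : A.F) / ⟨_, A.aeval_mem Q⟩

theorem coe_ratF (P Q : MvPolynomial ι ℂ) :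
    ((ratF A P Q : A.F) : LaurentSeries ℂ)
      = MvPolynomial.aeval A.x P / MvPolynomial.aeval A.x Q := rfl

/-- The element `P(x_i) / Q(x_i)` is represented by the function `P(X_i) / Q(X_i)`. -/
theorem represents_ratF (P Q : MvPolynomial ι ℂ) :
    Represents A (ratF A P Q) (fun w => evP A P w / evP A Q w) :=
  (represents_aeval A P ⟨_, A.aeval_mem P⟩ rfl).div
    (represents_aeval A Q ⟨_, A.aeval_mem Q⟩ rfl)

theorem eqH_evP_ratF (P Q : MvPolynomial ι ℂ) :
    EqH (fun w => evP A P w / evP A Q w) (evC A (ratF A P Q)) :=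
  (represents_iff_eqH A).mp (represents_ratF A P Q)

/-! ### Möbius transformations and `-1` -/

theorem moebC_neg (γ : SL(2, ℤ)) (w : ℂ) : moebC (-γ) w = moebC γ w := by
  unfold moebC
  have h : ∀ i j, ((-γ : SL(2, ℤ)) i j : ℤ) = -(γ i j) := fun i j => by
    simp [Matrix.SpecialLinearGroup.coe_neg]
  rw [h, h, h, h]
  push_cast
  rw [show -(γ 0 0 : ℂ) * w + -(γ 0 1 : ℂ) = -((γ 0 0 : ℂ) * w + (γ 0 1 : ℂ)) by ring,
    show -(γ 1 0 : ℂ) * w + -(γ 1 1 : ℂ) = -((γ 1 0 : ℂ) * w + (γ 1 1 : ℂ)) by ring,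
    neg_div_neg_eq]

/-! ### Roots -/

/-- **Roots of elements of the field.** If `g` is meromorphic on `ℍ`, invariant under the
stabiliser of the family, and `g ^ m` (`m ≥ 1`) is on punctured neighbourhoods the quotient
`P(X_i) / Q(X_i)` of two polynomials in the generators, then `g` is itself such a quotient. -/
theorem root_glue [Finite ι] [A.stab.FiniteIndex] (hexp : A.ExpGrowth) {m : ℕ} (hm : 0 < m)
    (g : ℂ → ℂ) (hg : MeromorphicOn g {z : ℂ | 0 < z.im}) (P Q : MvPolynomial ι ℂ)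
    (hQ : MvPolynomial.aeval A.x Q ≠ 0)
    (hpow : EqH (fun w => g w ^ m) (fun w => evP A P w / evP A Q w))
    (hinv : ∀ γ ∈ A.stab, EqH (fun w => g (moebC γ w)) g) :
    ∃ P' Q' : MvPolynomial ι ℂ, MvPolynomial.aeval A.x Q' ≠ 0 ∧
      EqH g (fun w => evP A P' w / evP A Q' w) := by
  -- the function `g Q(X_i)` and its `m`-th power `P Q^(m-1)`
  set g₁ : ℂ → ℂ := fun w => g w * evP A Q w with hg₁
  have hQan := analyticOnNhd_evP A Q
  have hg₁mero : MeromorphicOn g₁ {z : ℂ | 0 < z.im} :=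
    hg.fun_mul fun z hz => (hQan z hz).meromorphicAt
  set R : MvPolynomial ι ℂ := P * Q ^ (m - 1) with hR
  have hg₁pow : EqH (fun w => g₁ w ^ m) (evP A R) := by
    intro z hz
    filter_upwards [hpow z hz, eventually_evP_ne_zero A hQ hz] with w hw hw0
    simp only [hg₁, hR]
    rw [mul_pow, hw, evP_mul, evP_pow]
    obtain ⟨n, rfl⟩ : ∃ n, m = n + 1 := ⟨m - 1, by omega⟩
    rw [Nat.add_sub_cancel, pow_succ]
    field_simp
  obtain ⟨G, hGan, hg₁G, hGpow⟩ :=
    Fermat.Agent.P3.helper48.exists_analytic_of_pow_eq hm hg₁mero (analyticOnNhd_evP A R) hg₁pow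
  -- invariance of `G`
  have hGinv : ∀ γ ∈ A.stab, ∀ z ∈ {z : ℂ | 0 < z.im}, G (moebC γ z) = G z := by
    intro γ hγ z hz
    have h1 : EqH (fun w => g₁ (moebC γ w)) g₁ := by
      intro z hz
      have hH : {w : ℂ | 0 < w.im} ∈ 𝓝[≠] z :=
        mem_nhdsWithin_of_mem_nhds (UpperHalfPlane.isOpen_upperHalfPlaneSet.mem_nhds hz)
      filter_upwards [hinv γ hγ z hz, hH] with w hw hwH
      simp only [hg₁]
      rw [hw, evP_moebC A hγ Q hwH]
    have h2 : EqH (fun w => G (moebC γ w)) G :=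
      ((hg₁G.comp_moebC γ).symm.trans h1).trans hg₁G
    have ha : AnalyticAt ℂ (fun w => G (moebC γ w)) z :=
      (hGan _ (moebC_im_pos γ hz)).comp (analyticAt_moebC γ hz)
    exact eq_of_meromorphicNFAt_of_eventuallyEq ha.meromorphicNFAt
      (hGan z hz).meromorphicNFAt (h2 z hz)
  -- the function on `ℍ`
  set s : ℍ → ℂ := fun τ => G (τ : ℂ) with hs
  have hsmd : MDiff s := mdiff_of_complex G hGan.differentiableOn
  have hsinv : ∀ γ ∈ A.stab, ∀ τ : ℍ, s (γ • τ) = s τ := by
    intro γ hγ τ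
    simp only [hs]
    rw [← moebC_coe]
    exact hGinv γ hγ τ τ.2
  have hspow : s ^ m = A.ev0 R := by
    funext τ
    rw [Pi.pow_apply]
    simp only [hs]
    rw [hGpow τ τ.2, evP_coe]
  have hsmem : ∀ δ : SL(2, ℤ), precomp δ (s ^ m) ∈ holoExp := by
    intro δ
    rw [hspow]
    exact precomp_ev0_mem_holoExp A hexp δ R
  obtain ⟨S, hSmem, hSq⟩ := root_mem_S A hexp hm hsmd hsinv hsmem
  obtain ⟨P', Q', hQ', hS⟩ := A.exists_poly_repr (⟨S, hSmem⟩ : A.F)
  have hS' : S = MvPolynomial.aeval A.x P' / MvPolynomial.aeval A.x Q' := hS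
  -- `s Q'(X_i) = P'(X_i)` as functions on `ℍ`
  have hfun : s * A.ev0 Q' = A.ev0 P' := by
    have h1 : IsQExp (S * MvPolynomial.aeval A.x Q') (s * A.ev0 Q') :=
      hSq.mul (isQExp_ev0 A Q')
    have h2 : S * MvPolynomial.aeval A.x Q' = MvPolynomial.aeval A.x P' := by
      rw [hS', div_mul_cancel₀ _ hQ']
    rw [h2] at h1
    exact h1.right_unique (isQExp_ev0 A P')
  refine ⟨P', Q' * Q, ?_, ?_⟩
  · rw [map_mul]
    exact mul_ne_zero hQ' hQ
  · intro z hz
    have hH : {w : ℂ | 0 < w.im} ∈ 𝓝[≠] z :=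
      mem_nhdsWithin_of_mem_nhds (UpperHalfPlane.isOpen_upperHalfPlaneSet.mem_nhds hz)
    filter_upwards [hg₁G z hz, eventually_evP_ne_zero A hQ hz,
      eventually_evP_ne_zero A hQ' hz, hH] with w hw hwQ hwQ' hwH
    have h3 : G w * evP A Q' w = evP A P' w := by
      have := congrFun hfun ⟨w, hwH⟩
      rw [Pi.mul_apply] at this
      simp only [hs] at this
      rw [← evP_coe, ← evP_coe] at this
      exact this
    have h4 : g w * evP A Q w = G w := hw
    rw [evP_mul]
    field_simp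
    rw [← h3, ← h4]
    ring

/-- **[G-ROOT] The `root_mem` clause of the analytic dictionary** of the field generated by a
family of `q`-expansions, for every subgroup `Γ` such that the stabiliser of the family is
contained in `± Γ`. -/
theorem rootMem [Finite ι] [A.stab.FiniteIndex] (hexp : A.ExpGrowth) (Γ : Subgroup SL(2, ℤ))
    (hΓ : ∀ γ ∈ A.stab, γ ∈ Γ ∨ -γ ∈ Γ) : RootMemStatement A Γ := by
  intro m h g hm _ hg hpow hinv
  obtain ⟨P, Q, hQ, hPQ⟩ := A.exists_poly_repr h
  have hh : h = ratF A P Q := Subtype.ext hPQ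
  have hpow' : EqH (fun w => g w ^ m) (fun w => evP A P w / evP A Q w) := by
    rw [hh] at hpow
    exact hpow.trans (eqH_evP_ratF A P Q).symm
  have hinv' : ∀ γ ∈ A.stab, EqH (fun w => g (moebC γ w)) g := by
    intro γ hγ
    rcases hΓ γ hγ with h1 | h1
    · exact hinv ⟨γ, h1⟩
    · have h2 := hinv ⟨-γ, h1⟩
      have e : (fun w => g (moebC ((⟨-γ, h1⟩ : Γ) : SL(2, ℤ)) w)) = fun w => g (moebC γ w) :=
        funext fun w => by rw [moebC_neg]
      rwa [e] at h2
  obtain ⟨P', Q', -, hg'⟩ := root_glue A hexp hm g hg P Q hQ hpow' hinv'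
  exact ⟨ratF A P' Q', hg'.trans (eqH_evP_ratF A P' Q')⟩

/-- `RootMemStatement` for the full stabiliser. -/
theorem rootMem_stab [Finite ι] [A.stab.FiniteIndex] (hexp : A.ExpGrowth) :
    RootMemStatement A A.stab :=
  rootMem A hexp A.stab fun _ hγ => Or.inl hγ

/-- **The analytic dictionary** of the field generated by a family of `q`-expansions with
finite-index stabiliser and exponential growth at all cusps, for every `Γ` with
`Γ ≤ stab ≤ ± Γ` (unconditional). -/
def anDictOfGrowth [Finite ι] [A.stab.FiniteIndex] (hexp : A.ExpGrowth)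
    (Γ : Subgroup SL(2, ℤ)) (hΓ : Γ ≤ A.stab) (hΓ' : ∀ γ ∈ A.stab, γ ∈ Γ ∨ -γ ∈ Γ) :
    AnDict A.F Γ :=
  haveI : FiniteDimensional ℂ⟮A.xJ⟯ A.F := (finiteDimensional_and_finrank_le A hexp).1
  anDict A Γ hΓ (rootMem A hexp Γ hΓ')

theorem anDictOfGrowth_ev [Finite ι] [A.stab.FiniteIndex] (hexp : A.ExpGrowth)
    (Γ : Subgroup SL(2, ℤ)) (hΓ : Γ ≤ A.stab) (hΓ' : ∀ γ ∈ A.stab, γ ∈ Γ ∨ -γ ∈ Γ) :
    (anDictOfGrowth A hexp Γ hΓ hΓ').ev = evC A := rfl

end Fermat.Agent.T4.helper12
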