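import Fermat.Agent.T4.helper89_ConjDefs

/-!
# T4 / S48, block (V): further Props of the `Γ₀`-reduction route (helper89)

* `CharDecStatement`: decomposition of `S₁(Γ₁(N))` into nebentypus components
  (`f = ∑_ε f_ε`, `f_ε = φ(N)⁻¹ ∑_d ε(d)⁻¹ f ∣ γ_d`);
* `ExtStatement`: extension of embeddings of algebraic subfields of `ℂ` to ring
  endomorphisms of `ℂ`.
-/

set_option autoImplicit false

open CongruenceSubgroup UpperHalfPlane
open scoped MatrixGroups ModularForm Manifold

namespace Fermat.Agent.T4.helper89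

/-- **[V-CHARDEC]** every cusp form of weight one on `Γ₁(N)` is a finite sum of cusp forms
on `Γ₁(N)` with a nebentypus. -/
def CharDecStatement : Prop :=
  ∀ (N : ℕ) [NeZero N] (f : CuspForm (Gamma1 N) 1),
    ∃ (S : Finset (DirichletCharacter ℂ N)) (F : DirichletCharacter ℂ N → CuspForm (Gamma1 N) 1),
      (∀ ε ∈ S, HasNeben N 1 ε ⇑(F ε)) ∧ f = ∑ ε ∈ S, F ε

/-- **[V-EXT]** two embeddings `ι`, `τ` of a field `K` into `ℂ`, the first with algebraic
image: there is a ring endomorphism `σ` of `ℂ` with `σ ∘ ι = τ`. -/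
def ExtStatement : Prop :=
  ∀ (K : Type) [Field K] (ι τ : K →+* ℂ), (∀ x : K, IsAlgebraic ℚ (ι x)) →
    ∃ σ : ℂ →+* ℂ, ∀ x : K, σ (ι x) = τ x

end Fermat.Agent.T4.helper89
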