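import Mathlib
import Fermat.Agent.T4.helper89_ConjDefs2
import Fermat.Agent.S23.helper87_GaloisDescent

/-!
# T4 block (V), leaf [V-EXT] (helper12): extension of embeddings to ring endomorphisms of `ℂ`

`ext : helper89.ExtStatement`: for two embeddings `ι, τ : K → ℂ`, the first with algebraic image,
there is a ring endomorphism (in fact an automorphism) `σ` of `ℂ` with `σ ∘ ι = τ`.

Proof: `A = ` algebraic closure of `ℚ` in `ℂ`; `IsAlgClosed.lift` gives `φ : A → ℂ` with
`φ ∘ ι = τ`; its image is algebraic, so `φ` is an automorphism of `A`; extend it to `ℂ` along a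
transcendence basis (`S23.helper87.exists_ringEquiv_extending`).
-/

set_option autoImplicit false

noncomputable section

namespace Fermat.Agent.T4.helper12

open Polynomial

/-- the automorphism form of [V-EXT] -/
theorem ext_equiv (K : Type) [Field K] (ι τ : K →+* ℂ) (hι : ∀ x : K, IsAlgebraic ℚ (ι x)) :
    ∃ σ : ℂ ≃+* ℂ, ∀ x : K, σ (ι x) = τ x := by
  classical
  have : CharZero K := RingHom.charZero ι
  let A : IntermediateField ℚ ℂ := algebraicClosure ℚ ℂ
  have hA : ∀ a : A, IsAlgebraic ℚ a := fun a =>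
    (algebraicClosure.isAlgebraic ℚ ℂ).isAlgebraic a
  have hιA : ∀ x, ι x ∈ A := fun x => mem_algebraicClosure_iff.mpr (hι x)
  let ιA : K →+* A := ι.codRestrict A hιA
  let algKA : Algebra K A := ιA.toAlgebra
  let algKC : Algebra K ℂ := τ.toAlgebra
  have tower : IsScalarTower ℚ K A := IsScalarTower.of_algebraMap_eq fun q =>
    RingHom.congr_fun (Subsingleton.elim (algebraMap ℚ A) ((algebraMap K A).comp (algebraMap ℚ K))) q
  have : Algebra.IsAlgebraic K A := ⟨fun a => (hA a).tower_top K⟩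
  have hAQ : Algebra.IsAlgebraic ℚ A := algebraicClosure.isAlgebraic ℚ ℂ
  let φ : A →ₐ[K] ℂ := IsAlgClosed.lift
  have hφ : ∀ x : K, φ (ιA x) = τ x := fun x => φ.commutes x
  -- the image of `φ` is algebraic
  have hφA : ∀ a : A, (φ : A →+* ℂ) a ∈ A := fun a =>
    mem_algebraicClosure_iff.mpr ((hA a).algHom ((φ : A →+* ℂ).toRatAlgHom))
  let g : A →+* A := (φ : A →+* ℂ).codRestrict A hφA
  let gAlg : A →ₐ[ℚ] A :=
    { g with
      commutes' := fun q => by
        show g (algebraMap ℚ A q) = algebraMap ℚ A q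
        rw [eq_ratCast, map_ratCast] }
  have hbij : Function.Bijective g := Algebra.IsAlgebraic.algHom_bijective gAlg
  let f : A ≃+* A := RingEquiv.ofBijective g hbij
  obtain ⟨I, v, hv⟩ := exists_isTranscendenceBasis' A ℂ
  obtain ⟨σ, hσ⟩ := Fermat.Agent.S23.helper87.exists_ringEquiv_extending v hv
    (MvPolynomial.mapEquiv I f)
  refine ⟨σ, fun x => ?_⟩
  have h := hσ (MvPolynomial.C (ιA x))
  simp only [MvPolynomial.mapEquiv_apply, MvPolynomial.map_C, MvPolynomial.aeval_C] at h
  have h1 : algebraMap A ℂ (ιA x) = ι x := rfl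
  have h2 : algebraMap A ℂ (f (ιA x)) = τ x := by
    rw [← hφ x]
    rfl
  rw [h1] at h
  rw [h]
  exact h2

/-- **[V-EXT]** -/
theorem ext : Fermat.Agent.T4.helper89.ExtStatement := by
  intro K _ ι τ hι
  obtain ⟨σ, hσ⟩ := ext_equiv K ι τ hι
  exact ⟨σ.toRingHom, hσ⟩

end Fermat.Agent.T4.helper12
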