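import Fermat.Agent.T4.helper14_TransD1Final
import Fermat.Agent.T4.helper17_DiamondX1

/-!
# T4 (I) [AN-TRANS-D], UNCONDITIONAL (helper14, row 1106)

With `helper17.exists_isDiamondAut_x1` (the diamond automorphisms of `F₁(M)` exist, `4 ≤ M`):

* `diamondEvSymm : 4 ≤ M → DiamondEvSymm M d` — the leaf `hD` of `helper21.ian_of_leaves`;
* `transCharD1_uncond : 4 ≤ M → TransChar1Statement M (hom1Data M) (Sum.inr d)` — the diamond
  half of the field `an` of `helper41.Leaves1`;
* `transportD1_uncond : 4 ≤ M → Transport1Statement M p (.inr d)`;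
* `diamondEv : 4 ≤ M →` the function of `diamondAut M d h` is `f ∘ g_d⁻¹`.
-/

set_option autoImplicit false
set_option linter.unusedSectionVars false
set_option linter.style.haveILetI false

noncomputable section

namespace Fermat.Agent.T4.helper14

open CongruenceSubgroup ModularCurve AlgebraicCurve
open scoped MatrixGroups
open Fermat.Agent.T4.helper32

variable (M : ℕ) [NeZero M]

/-- **the analytic meaning of `(diamondAut M d).symm`**, unconditional. -/
theorem diamondEvSymm (hM : 4 ≤ M) (d : (ZMod M)ˣ) : DiamondEvSymm M d :=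
  diamondEvSymm_of_exists M hM d (helper17.exists_isDiamondAut_x1 M hM d)

/-- **[AN-TRANS-D]**, unconditional (character form, `helper79.hom1Data M`). -/
theorem transCharD1_uncond (hM : 4 ≤ M) (d : (ZMod M)ˣ) :
    helper21.TransChar1Statement M (helper79.hom1Data M) (Sum.inr d) :=
  transCharD1_hom1Data M hM d (helper17.exists_isDiamondAut_x1 M hM d)

/-- **[AN-TRANS-D]**, unconditional (`helper21_AN1Defs` form). -/
theorem transportD1_uncond (hM : 4 ≤ M) (p : ℕ) (d : (ZMod M)ˣ) :
    helper21.Transport1Statement M p (.inr d) :=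
  transportD1_of_exists M hM p d (helper17.exists_isDiamondAut_x1 M hM d)

/-- the function of `diamondAut M d h` is `f ∘ g_d⁻¹`, for every function `f` of `h` -/
theorem diamondEv (hM : 4 ≤ M) (d : (ZMod M)ˣ) (h : F1 M) (f : ℂ → ℂ)
    (hf : Fermat.Agent.P3.helper34.IsEv
      (Fermat.Agent.S24.helper17.toC (h : LaurentSeries Kbar)) f) :
    Fermat.Agent.P3.helper34.IsEv
      (Fermat.Agent.S24.helper17.toC ((diamondAut M d h : F1 M) : LaurentSeries Kbar))
      (fun w => f (Fermat.Agent.P3.helper34.moebC (helper79.diamondRep d)⁻¹ w)) :=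
  diamondEv_of_exists M hM d (helper17.exists_isDiamondAut_x1 M hM d) h f hf

end Fermat.Agent.T4.helper14

end
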