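import Fermat.Agent.T4.helper1_Hom1Gen
import Fermat.Agent.T4.helper79_Hecke1

/-!
# T4 (I) [AN-HOM1] (helper1): Hecke operators and diamonds on `Hom(Γ₁(M), A)`

* `systemT1 M hp hpM` : the coset system of `T_p` (`p ∤ M`) for `Γ₁(M)`, with representatives
  `(1 j; 0 p)` (`j mod p`) and `δ_p · diag(p, 1)` (`δ_p = helper79.diamondRep (primeUnit p)`),
  i.e. EXACTLY the matrices of `helper79.heckeT1Lin` (`T_p = U_p + V_p ⟨p⟩`, the standard `T_p`);
* `systemD1 M d` : the one-element coset system `{diamondRep d}` of the diamond operator `⟨d⟩`;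
* `heckeHom1 M hp hpM`, `diamondHom1 M d` : the operators on `Additive (Γ₁(M)) →+ A`;
* `periodGen_heckeT1Lin`, `periodGen_diamondLin` : compatibility with the period homomorphism;
* `heckeHom1_charInvGen`, `diamondHom1_charInvGen` : compatibility with the involution;
* `periodPairGen_heckeT1Lin`, `periodPairGen_diamondLin` : compatibility with the pair map.
-/

set_option autoImplicit false
set_option linter.unusedSectionVars false
set_option linter.style.haveILetI false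

namespace Fermat.Agent.T4.helper1

open CongruenceSubgroup ModularCurve ModularCurve.Period
open UpperHalfPlane hiding I
open scoped Manifold MatrixGroups ModularForm OnePoint
open Matrix.SpecialLinearGroup ModularForm
open P2MW.S_ModularForm_heckeT_slash_eq_self_of_mem_Gamma0.ModularForm.HeckeSlashInvariance
open Fermat.Agent.T4.helper71 Fermat.Agent.T4.helper79 Fermat.Agent.S16.helper26

noncomputable section

variable (M : ℕ) [NeZero M]

example : (Gamma1 M).FiniteIndex := inferInstance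

/-! ### The coset system of `T_p` -/

section SystemT

variable {p : ℕ} (hp : p.Prime) (hpM : ¬ p ∣ M)

/-- The representatives of `T_p` for `Γ₁(M)`. -/
def repT1 (x : OnePoint (ZMod p)) : GL (Fin 2) ℝ :=
  mapGL ℝ (nbTw p (diamondRep (primeUnit hp hpM)) x) * heckeRep p x

theorem diamondRep_primeUnit_lowerRight :
    ((((diamondRep (primeUnit hp hpM)) 1 1 : ℤ)) : ZMod M) = p := by
  rw [diamondRep_lowerRight, coe_primeUnit]

theorem repT1_mul (γ : SL(2, ℤ)) (hγ : γ ∈ Gamma1 M) (x : OnePoint (ZMod p)) :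
    haveI : Fact p.Prime := ⟨hp⟩
    ∃ γ' ∈ Gamma1 M, repT1 M hp hpM x * mapGL ℝ γ =
      mapGL ℝ γ' * repT1 M hp hpM (redMatrix p γ • x) := by
  haveI : Fact p.Prime := ⟨hp⟩
  have hδ := diamondRep_mem (primeUnit hp hpM)
  have hδp := diamondRep_primeUnit_lowerRight M hp hpM
  have hγ0 : γ ∈ Gamma0 M := Gamma1_in_Gamma0 M hγ
  have hcN : (M : ℤ) ∣ γ 1 0 := (ZMod.intCast_zmod_eq_zero_iff_dvd _ _).mp (Gamma0_mem.mp hγ0)
  obtain ⟨g', hg', hd', hmul⟩ := nbRep_mul hpM γ hcN x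
  have hg'M : g' ∈ Gamma0 M := Gamma0_mem.mpr ((ZMod.intCast_zmod_eq_zero_iff_dvd _ _).mpr hg')
  rw [repT1, repT1]
  generalize diamondRep (primeUnit hp hpM) = δ at hδ hδp ⊢
  refine ⟨(nbTw p δ x * g') * (nbTw p δ (redMatrix p γ • x))⁻¹,
    mul_inv_mem_Gamma1 (mul_mem (nbTw_mem hδ x) hg'M) (nbTw_mem hδ _) ?_, ?_⟩
  · rw [lowerRight_mul (nbTw_mem hδ x) hg'M, nbWeight_eq_lowerRight hδp,
      nbWeight_eq_lowerRight hδp, mul_comm, hd', ((Gamma1_mem M γ).mp hγ).2.1, one_mul]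
  · rw [mul_assoc, hmul, map_mul, map_mul, map_inv]
    group

theorem repT1_inj (x y : OnePoint (ZMod p)) (g : SL(2, ℤ)) (hg : g ∈ Gamma1 M)
    (h : repT1 M hp hpM x = mapGL ℝ g * repT1 M hp hpM y) : x = y := by
  haveI : Fact p.Prime := ⟨hp⟩
  have hδ := diamondRep_mem (primeUnit hp hpM)
  rw [repT1, repT1] at h
  generalize diamondRep (primeUnit hp hpM) = δ at hδ h
  refine (systemT M p hpM).inj x y ((nbTw p δ x)⁻¹ * g * nbTw p δ y)
    (mul_mem (mul_mem (inv_mem (nbTw_mem hδ x)) (Gamma1_in_Gamma0 M hg)) (nbTw_mem hδ y)) ?_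
  rw [systemT_α, systemT_α, map_mul, map_mul, map_inv]
  calc heckeRep p x = (mapGL ℝ (nbTw p δ x))⁻¹ * (mapGL ℝ (nbTw p δ x) * heckeRep p x) := by
        group
    _ = (mapGL ℝ (nbTw p δ x))⁻¹ * (mapGL ℝ g * (mapGL ℝ (nbTw p δ y) * heckeRep p y)) := by
        rw [h]
    _ = (mapGL ℝ (nbTw p δ x))⁻¹ * mapGL ℝ g * mapGL ℝ (nbTw p δ y) * heckeRep p y := by
        group

/-- **The coset system of `T_p`** (`p ∤ M`) for `Γ₁(M)`. -/
def systemT1 : CosetSystem (Gamma1 M) (OnePoint (ZMod p)) where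
  α := repT1 M hp hpM
  exists_step γ hγ x := by
    obtain ⟨γ', hγ', h⟩ := repT1_mul M hp hpM γ hγ x
    exact ⟨_, γ', hγ', h⟩
  inj x y g hg h := repT1_inj M hp hpM x y g hg h

@[simp] theorem systemT1_α (x : OnePoint (ZMod p)) :
    (systemT1 M hp hpM).α x = repT1 M hp hpM x := rfl

theorem det_repT1_pos (x : OnePoint (ZMod p)) : 0 < ((repT1 M hp hpM x).det : ℝ) := by
  rw [repT1, map_mul, Units.val_mul]
  have h1 : ((mapGL ℝ (nbTw p (diamondRep (primeUnit hp hpM)) x)).det : ℝ) = 1 := by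
    simp
  rw [h1, one_mul]
  induction x using OnePoint.rec with
  | infty => exact ModularForm.det_heckeDiagMatrix_pos p
  | coe j => exact ModularForm.det_heckeMatrix_pos p j.val

/-- `T_p` as a sum of slashes by the representatives of the coset system. -/
theorem coe_heckeT1Lin_eq_sum (F : CuspForm (Gamma1 M) 2) :
    haveI : NeZero p := ⟨hp.ne_zero⟩
    (⇑(heckeT1Lin 2 hp hpM F) : ℍ → ℂ) =
      ∑ x : OnePoint (ZMod p), (⇑F : ℍ → ℂ) ∣[(2 : ℤ)] (systemT1 M hp hpM).α x := by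
  haveI : NeZero p := ⟨hp.ne_zero⟩
  rw [coe_heckeT1Lin_rep hp hpM F (diamondRep_mem (primeUnit hp hpM))
    (diamondRep_primeUnit_lowerRight M hp hpM), nbT_eq_sum]
  refine Finset.sum_congr rfl fun x _ => ?_
  rw [systemT1_α, repT1, SlashAction.slash_mul]

end SystemT

/-! ### The coset system of `⟨d⟩` -/

section SystemD

variable (d : (ZMod M)ˣ)

theorem conj_mem_Gamma1 {δ γ : SL(2, ℤ)} (hδ : δ ∈ Gamma0 M) (hγ : γ ∈ Gamma1 M) :
    δ * γ * δ⁻¹ ∈ Gamma1 M := by
  refine mul_inv_mem_Gamma1 (mul_mem hδ (Gamma1_in_Gamma0 M hγ)) hδ ?_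
  rw [lowerRight_mul hδ (Gamma1_in_Gamma0 M hγ), ((Gamma1_mem M γ).mp hγ).2.1, mul_one]

/-- **The coset system of the diamond operator `⟨d⟩`** for `Γ₁(M)`. -/
def systemD1 : CosetSystem (Gamma1 M) Unit where
  α _ := mapGL ℝ (diamondRep d)
  exists_step γ hγ _ :=
    ⟨(), diamondRep d * γ * (diamondRep d)⁻¹, conj_mem_Gamma1 M (diamondRep_mem d) hγ, by
      rw [map_mul, map_mul, map_inv]
      group⟩
  inj _ _ _ _ _ := rfl

@[simp] theorem systemD1_α (u : Unit) : (systemD1 M d).α u = mapGL ℝ (diamondRep d) := rfl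

theorem det_systemD1_pos (u : Unit) : 0 < (((systemD1 M d).α u).det : ℝ) := by
  simp

theorem coe_diamondLin_eq_sum (F : CuspForm (Gamma1 M) 2) :
    (⇑(diamondLin 2 d F) : ℍ → ℂ) =
      ∑ u : Unit, (⇑F : ℍ → ℂ) ∣[(2 : ℤ)] (systemD1 M d).α u := by
  rw [coe_diamondLin_rep]
  simp

/-- The cocycle of the diamond system is conjugation by `diamondRep d`. -/
theorem systemD1_step (γ : Gamma1 M) (u : Unit) :
    (((systemD1 M d).step γ u : Gamma1 M) : SL(2, ℤ)) =
      diamondRep d * (γ : SL(2, ℤ)) * (diamondRep d)⁻¹ := by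
  have h := (systemD1 M d).rel γ u
  simp only [systemD1_α] at h
  have key : mapGL ℝ (((systemD1 M d).step γ u : Gamma1 M) : SL(2, ℤ)) =
      mapGL ℝ (diamondRep d * (γ : SL(2, ℤ)) * (diamondRep d)⁻¹) := by
    rw [map_mul, map_mul, map_inv]
    calc mapGL ℝ (((systemD1 M d).step γ u : Gamma1 M) : SL(2, ℤ))
        = mapGL ℝ (((systemD1 M d).step γ u : Gamma1 M) : SL(2, ℤ)) * mapGL ℝ (diamondRep d) *
            (mapGL ℝ (diamondRep d))⁻¹ := by group
      _ = mapGL ℝ (diamondRep d) * mapGL ℝ (γ : SL(2, ℤ)) * (mapGL ℝ (diamondRep d))⁻¹ := by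
          rw [← h]
  exact mapGL_injective key

end SystemD

/-! ### The operators on homomorphisms -/

section Hom

variable {A : Type*} [AddCommGroup A]

/-- The Hecke operator `T_p` (`p ∤ M`) on homomorphisms `Γ₁(M) → A`. -/
def heckeHom1 {p : ℕ} (hp : p.Prime) (hpM : ¬ p ∣ M) :
    (Additive (Gamma1 M) →+ A) →+ (Additive (Gamma1 M) →+ A) :=
  haveI : NeZero p := ⟨hp.ne_zero⟩
  (systemT1 M hp hpM).heckeFun

/-- The diamond operator `⟨d⟩` on homomorphisms `Γ₁(M) → A`. -/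
def diamondHom1 (d : (ZMod M)ˣ) :
    (Additive (Gamma1 M) →+ A) →+ (Additive (Gamma1 M) →+ A) :=
  (systemD1 M d).heckeFun

theorem heckeHom1_apply {p : ℕ} (hp : p.Prime) (hpM : ¬ p ∣ M) (φ : Additive (Gamma1 M) →+ A)
    (γ : Gamma1 M) :
    haveI : NeZero p := ⟨hp.ne_zero⟩
    heckeHom1 M hp hpM φ (Additive.ofMul γ) =
      ∑ x : OnePoint (ZMod p), φ (Additive.ofMul ((systemT1 M hp hpM).step γ x)) := rfl

theorem diamondHom1_apply (d : (ZMod M)ˣ) (φ : Additive (Gamma1 M) →+ A) (γ : Gamma1 M) :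
    diamondHom1 M d φ (Additive.ofMul γ) =
      φ (Additive.ofMul ((systemD1 M d).step γ ())) := by
  rw [diamondHom1, CosetSystem.heckeFun_apply]
  simp

/-- Naturality in the coefficient group. -/
theorem heckeHom1_comp {B : Type*} [AddCommGroup B] {p : ℕ} (hp : p.Prime) (hpM : ¬ p ∣ M)
    (f : A →+ B) (φ : Additive (Gamma1 M) →+ A) :
    heckeHom1 M hp hpM (f.comp φ) = f.comp (heckeHom1 M hp hpM φ) := by
  haveI : NeZero p := ⟨hp.ne_zero⟩
  exact CosetSystem.heckeFun_comp _ f φ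

theorem diamondHom1_comp {B : Type*} [AddCommGroup B] (d : (ZMod M)ˣ)
    (f : A →+ B) (φ : Additive (Gamma1 M) →+ A) :
    diamondHom1 M d (f.comp φ) = f.comp (diamondHom1 M d φ) :=
  CosetSystem.heckeFun_comp _ f φ

end Hom

/-! ### Compatibility with the period homomorphism -/

section Period

/-- **Period compatibility of `T_p`**. -/
theorem periodGen_heckeT1Lin {p : ℕ} (hp : p.Prime) (hpM : ¬ p ∣ M)
    (F : CuspForm (Gamma1 M) 2) :
    periodGen (Gamma1 M) (heckeT1Lin 2 hp hpM F) =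
      heckeHom1 M hp hpM (periodGen (Gamma1 M) F) := by
  haveI : NeZero p := ⟨hp.ne_zero⟩
  exact periodGen_eq_heckeFun (Gamma1 M) (systemT1 M hp hpM) (det_repT1_pos M hp hpM) F
    (heckeT1Lin 2 hp hpM F) (coe_heckeT1Lin_eq_sum M hp hpM F)

/-- **Period compatibility of `⟨d⟩`**. -/
theorem periodGen_diamondLin (d : (ZMod M)ˣ) (F : CuspForm (Gamma1 M) 2) :
    periodGen (Gamma1 M) (diamondLin 2 d F) = diamondHom1 M d (periodGen (Gamma1 M) F) :=
  periodGen_eq_heckeFun (Gamma1 M) (systemD1 M d) (det_systemD1_pos M d) F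
    (diamondLin 2 d F) (coe_diamondLin_eq_sum M d F)

end Period

/-! ### Compatibility with the involution -/

section Involution

theorem jConj_mul_inv_mem_Gamma1 {δ : SL(2, ℤ)} (hδ : δ ∈ Gamma0 M) :
    jConjSL δ * δ⁻¹ ∈ Gamma1 M := by
  refine mul_inv_mem_Gamma1 (jConjSL_mem_Gamma0 hδ) hδ ?_
  show ((((jConjSL δ : SL(2, ℤ)) : Matrix (Fin 2) (Fin 2) ℤ) 1 1 : ℤ) : ZMod M) = _
  rw [jConjSL_coe, jConjMat_apply_one_one]

theorem unip_mem_Gamma1 (t : ℤ) : unip t ∈ Gamma1 M := by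
  rw [Gamma1_mem]
  simp [unip]

theorem conjJ_mapGL_eq (δ : SL(2, ℤ)) :
    conjJ (mapGL ℝ δ) = mapGL ℝ (jConjSL δ * δ⁻¹) * mapGL ℝ δ := by
  rw [conjJ_mapGL, map_mul, map_inv]
  group

/-- The correction terms for the conjugation of the representatives of `T_p` by `diag(1,-1)`. -/
def tauT1 {p : ℕ} (hp : p.Prime) (hpM : ¬ p ∣ M) (x : OnePoint (ZMod p)) : Gamma1 M :=
  x.elim ⟨jConjSL (diamondRep (primeUnit hp hpM)) * (diamondRep (primeUnit hp hpM))⁻¹,
      jConj_mul_inv_mem_Gamma1 M (diamondRep_mem _)⟩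
    (fun j => ⟨unip (negShift p j), unip_mem_Gamma1 M _⟩)

theorem conjJ_repT1 {p : ℕ} (hp : p.Prime) (hpM : ¬ p ∣ M) (x : OnePoint (ZMod p)) :
    haveI : NeZero p := ⟨hp.ne_zero⟩
    conjJ (repT1 M hp hpM x) = mapGL ℝ ((tauT1 M hp hpM x : Gamma1 M) : SL(2, ℤ)) *
      repT1 M hp hpM (Equiv.optionCongr (Equiv.neg (ZMod p)) x) := by
  haveI : NeZero p := ⟨hp.ne_zero⟩
  induction x using OnePoint.rec with
  | infty =>
    have e : Equiv.optionCongr (Equiv.neg (ZMod p)) (∞ : OnePoint (ZMod p)) = ∞ := rfl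
    rw [e]
    simp only [repT1, tauT1, nbTw_infty, heckeRep_infty, map_mul, OnePoint.elim_infty]
    rw [conjJ_heckeDiagMatrix, conjJ_mapGL_eq, map_one, one_mul, map_mul, map_inv]
    group
  | coe j =>
    have e : Equiv.optionCongr (Equiv.neg (ZMod p)) ((j : ZMod p) : OnePoint (ZMod p)) =
        ((-j : ZMod p) : OnePoint (ZMod p)) := rfl
    rw [e]
    simp only [repT1, tauT1, nbTw_coe, heckeRep_coe, map_one, one_mul, OnePoint.elim_some]
    exact conjJ_heckeMatrix p j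

variable (R : Type*) [Semiring R] {A : Type*} [AddCommGroup A] [Module R A]

/-- `T_p` commutes with the involution. -/
theorem heckeHom1_charInvGen {p : ℕ} (hp : p.Prime) (hpM : ¬ p ∣ M)
    (φ : Additive (Gamma1 M) →+ A) :
    heckeHom1 M hp hpM (charInvGen (jStable_Gamma1 M) R A φ) =
      charInvGen (jStable_Gamma1 M) R A (heckeHom1 M hp hpM φ) := by
  haveI : NeZero p := ⟨hp.ne_zero⟩
  exact heckeFun_charInvGen (jStable_Gamma1 M) (systemT1 M hp hpM)
    (Equiv.optionCongr (Equiv.neg (ZMod p))) (tauT1 M hp hpM) (conjJ_repT1 M hp hpM) R A φ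

/-- `⟨d⟩` commutes with the involution. -/
theorem diamondHom1_charInvGen (d : (ZMod M)ˣ) (φ : Additive (Gamma1 M) →+ A) :
    diamondHom1 M d (charInvGen (jStable_Gamma1 M) R A φ) =
      charInvGen (jStable_Gamma1 M) R A (diamondHom1 M d φ) :=
  heckeFun_charInvGen (jStable_Gamma1 M) (systemD1 M d) (Equiv.refl Unit)
    (fun _ => ⟨jConjSL (diamondRep d) * (diamondRep d)⁻¹,
      jConj_mul_inv_mem_Gamma1 M (diamondRep_mem d)⟩)
    (fun _ => conjJ_mapGL_eq (diamondRep d)) R A φ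

/-- **The pair map and `T_p`**. -/
theorem periodPairGen_heckeT1Lin {p : ℕ} (hp : p.Prime) (hpM : ¬ p ∣ M)
    (x : CuspForm (Gamma1 M) 2 × CuspForm (Gamma1 M) 2) :
    periodPairGen (jStable_Gamma1 M) (heckeT1Lin 2 hp hpM x.1, heckeT1Lin 2 hp hpM x.2) =
      heckeHom1 M hp hpM (periodPairGen (jStable_Gamma1 M) x) := by
  haveI : NeZero p := ⟨hp.ne_zero⟩
  exact periodPairGen_eq_heckeFun (jStable_Gamma1 M) (systemT1 M hp hpM)
    (det_repT1_pos M hp hpM) (Equiv.optionCongr (Equiv.neg (ZMod p))) (tauT1 M hp hpM)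
    (conjJ_repT1 M hp hpM) x (heckeT1Lin 2 hp hpM x.1, heckeT1Lin 2 hp hpM x.2)
    (coe_heckeT1Lin_eq_sum M hp hpM x.1) (coe_heckeT1Lin_eq_sum M hp hpM x.2)

/-- **The pair map and `⟨d⟩`**. -/
theorem periodPairGen_diamondLin (d : (ZMod M)ˣ)
    (x : CuspForm (Gamma1 M) 2 × CuspForm (Gamma1 M) 2) :
    periodPairGen (jStable_Gamma1 M) (diamondLin 2 d x.1, diamondLin 2 d x.2) =
      diamondHom1 M d (periodPairGen (jStable_Gamma1 M) x) :=
  periodPairGen_eq_heckeFun (jStable_Gamma1 M) (systemD1 M d) (det_systemD1_pos M d)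
    (Equiv.refl Unit)
    (fun _ => ⟨jConjSL (diamondRep d) * (diamondRep d)⁻¹,
      jConj_mul_inv_mem_Gamma1 M (diamondRep_mem d)⟩)
    (fun _ => conjJ_mapGL_eq (diamondRep d)) x (diamondLin 2 d x.1, diamondLin 2 d x.2)
    (coe_diamondLin_eq_sum M d x.1) (coe_diamondLin_eq_sum M d x.2)

end Involution

end

end Fermat.Agent.T4.helper1
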