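import Fermat.Agent.T4.helper21_AN1Defs
import Fermat.Agent.T4.helper1_Hom1

/-!
# T4 (I) [AN-TRANS-D] (helper14, row 1106): Kummer transport along the diamond operators

`helper21.Transport1Statement M p (.inr d)` : if `x ∈ J₁(M)[p^n]` has a Kummer representative `h`
whose function `f` has the Kummer character `latPsi1 n ε`, then `⟨d⟩ x = diamond1 M d x` has the
Kummer representative `h' = (diamondAut M d).symm h`, whose function `f ∘ g_d`
(`g_d = helper79.diamondRep d`, an element of `Γ₀(M)` with LOWER RIGHT entry `≡ d`) has the Kummer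
character `latPsi1 n (latCharT1 (.inr d) ε)`.

## Contents

* `perZ1_comp_diamond`, `perZ1_comp_hecke` : the transposes of `⟨d⟩`, `T_q` on the period
  functionals (from `helper1` [AN-HOM1]);
* `perStable1 : helper21.PerStable1Statement M` (**[PER1-STABLE]**, unconditional);
* `hTr1_diamond`, `latPsi1_latCharT1_diamond` : the lattice side for the diamonds,
  `latPsi1 n (latCharT1 (.inr d) ε) = heckeChar (systemD1 M d) (latPsi1 n ε)`, i.e.
  `γ ↦ latPsi1 n ε (g_d γ g_d⁻¹)`;
* `IsKummerChar.comp_diamondRep` : the Kummer character of `f ∘ g_d`;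
* `isKummerRep_diamond1` : (KD4) for `diamond1 M d`;
* `transportD1_of` : **the transport statement**, with the analytic meaning of
  `(diamondAut M d).symm` (`DiamondEvSymm M d`) as the ONLY hypothesis.

## Convention check

`diamond1 M d = (δ_d)_*` acts on functions by `(diamondAut M d)⁻¹ = (δ_d^*)⁻¹`.  In the model of
`helper32` (`s_a(τ) = x`-coordinate of `a τ` on `ℂ / ⟨1, M τ⟩`), for `γ = (a b; c e) ∈ Γ₀(M)`,
`s_k ∘ γ = (s_{ka} - s_a) / (s_{2a} - s_a)` (`helper44.wpD_smul`: the UPPER LEFT entry), so
`δ_d^* = (f ↦ f ∘ γ)` for `γ` with upper left entry `≡ d`, and `(δ_d^*)⁻¹ = (f ↦ f ∘ γ⁻¹)`, where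
`γ⁻¹` has LOWER RIGHT entry `≡ d`, as `diamondRep d`.  Hence NO inverse is forced: the operator
`diamond1 M d` on `J₁(M)` corresponds to `helper79.diamondLin 2 d` on the lattice characters.
-/

set_option autoImplicit false
set_option linter.unusedSectionVars false
set_option linter.style.haveILetI false

noncomputable section

namespace Fermat.Agent.T4.helper14

open CongruenceSubgroup ModularCurve ModularCurve.Period AlgebraicCurve
open scoped MatrixGroups
open Fermat.Agent.P3.helper20 Fermat.Agent.P3.helper34 Fermat.Agent.P3.helper94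
open Fermat.Agent.T4.helper21

variable (M : ℕ) [NeZero M]

/-! ### The transposes on the period functionals -/

/-- the transpose of `⟨d⟩` on the period functionals: conjugation by `diamondRep d` -/
theorem perZ1_comp_diamond (d : (ZMod M)ˣ) (γ : Gamma1 M) :
    (perZ1 M (Additive.ofMul γ)) ∘ₗ pairLin1 M (genLin1 M (.inr d)) =
      perZ1 M (Additive.ofMul ((helper1.systemD1 M d).step γ ())) := by
  refine LinearMap.ext fun x => ?_
  rw [LinearMap.comp_apply, perZ1_apply, perZ1_apply]
  have h := helper1.periodPairGen_diamondLin M d x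
  have e : pairLin1 M (genLin1 M (.inr d)) x =
      (helper79.diamondLin 2 d x.1, helper79.diamondLin 2 d x.2) := rfl
  rw [e]
  show helper71.periodPairGen (helper71.jStable_Gamma1 M) _ _ = _
  rw [h, helper1.diamondHom1_apply]

/-- the transpose of `T_q` on the period functionals -/
theorem perZ1_comp_hecke (q : {q : Nat.Primes // ¬ (q : ℕ) ∣ M}) (γ : Gamma1 M) :
    haveI : NeZero (q.1 : ℕ) := ⟨q.1.2.ne_zero⟩
    (perZ1 M (Additive.ofMul γ)) ∘ₗ pairLin1 M (genLin1 M (.inl q)) =
      ∑ x : OnePoint (ZMod (q.1 : ℕ)),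
        perZ1 M (Additive.ofMul ((helper1.systemT1 M q.1.2 q.2).step γ x)) := by
  haveI : NeZero (q.1 : ℕ) := ⟨q.1.2.ne_zero⟩
  refine LinearMap.ext fun x => ?_
  rw [LinearMap.comp_apply, perZ1_apply, LinearMap.sum_apply]
  have h := helper1.periodPairGen_heckeT1Lin M q.1.2 q.2 x
  have e : pairLin1 M (genLin1 M (.inl q)) x =
      (helper79.heckeT1Lin 2 q.1.2 q.2 x.1, helper79.heckeT1Lin 2 q.1.2 q.2 x.2) := rfl
  rw [e]
  show helper71.periodPairGen (helper71.jStable_Gamma1 M) _ _ = _
  rw [h, helper1.heckeHom1_apply]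
  rfl

/-- **[PER1-STABLE]** the period lattice of `Γ₁(M)` is stable under the transposes of the
operators `T_q` and `⟨d⟩`. -/
theorem perStable1 : PerStable1Statement M := by
  rintro (q | d) lam ⟨γ, rfl⟩
  · haveI : NeZero (q.1 : ℕ) := ⟨q.1.2.ne_zero⟩
    have h := perZ1_comp_hecke M q (Additive.toMul γ)
    rw [show Additive.ofMul (Additive.toMul γ) = γ from rfl] at h
    rw [h]
    exact AddSubgroup.sum_mem _ fun x _ => perZ1_mem_perLat1 M _
  · have h := perZ1_comp_diamond M d (Additive.toMul γ)
    rw [show Additive.ofMul (Additive.toMul γ) = γ from rfl] at h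
    rw [h]
    exact perZ1_mem_perLat1 M _

/-! ### The lattice side for the diamonds -/

/-- the transpose of `⟨d⟩` on the period lattice -/
theorem hTr1_diamond (d : (ZMod M)ˣ) (γ : Gamma1 M) :
    hTr1 M (.inr d) (perZ1' M (Additive.ofMul γ)) =
      perZ1' M (Additive.ofMul ((helper1.systemD1 M d).step γ ())) := by
  apply Subtype.ext
  rw [coe_hTr1 M (perStable1 M), coe_perZ1', coe_perZ1', perZ1_comp_diamond]

/-- the lattice character of `⟨d⟩ ε` is the conjugate of the lattice character of `ε` -/
theorem latPsi1_latCharT1_diamond (p n : ℕ) (d : (ZMod M)ˣ) (ε : LatChar1 M) :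
    latPsi1 M p n (latCharT1 M (.inr d) ε) =
      heckeChar (helper1.systemD1 M d) (latPsi1 M p n ε) := by
  ext γ
  rw [heckeChar_apply, Fintype.prod_unique, latPsi1_apply, latPsi1_apply, latCharT1_apply,
    hTr1_diamond]

theorem latPsi1_latCharT1_diamond_apply (p n : ℕ) (d : (ZMod M)ˣ) (ε : LatChar1 M)
    (γ : Gamma1 M) :
    latPsi1 M p n (latCharT1 M (.inr d) ε) γ =
      latPsi1 M p n ε ((helper1.systemD1 M d).step γ ()) := by
  rw [latPsi1_latCharT1_diamond, heckeChar_apply, Fintype.prod_unique]

/-! ### The Kummer character of `f ∘ g_d` -/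

/-- the norm product along the one-element system of `⟨d⟩` is `f ∘ g_d` -/
theorem normProd_systemD1 (d : (ZMod M)ˣ) (f : ℂ → ℂ) {w : ℂ} (hw : 0 < w.im) :
    normProd (helper1.systemD1 M d) f w = f (moebC (helper79.diamondRep d) w) := by
  rw [normProd, Fintype.prod_unique, helper1.systemD1_α, moebG_mapGL _ hw]

/-- **the Kummer character of `f ∘ g_d`** is the conjugate character. -/
theorem isKummerChar_comp_diamondRep (d : (ZMod M)ˣ) {m : ℕ} {f : ℂ → ℂ}
    {ψ : Gamma1 M →* ℂˣ} (h : IsKummerChar (Gamma1 M) m f ψ) :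
    IsKummerChar (Gamma1 M) m (fun w => f (moebC (helper79.diamondRep d) w))
      (heckeChar (helper1.systemD1 M d) ψ) := by
  have h1 := h.normProd (helper1.systemD1 M d) (helper1.det_systemD1_pos M d)
  refine h1.congr fun z hz => ?_
  filter_upwards [mem_nhdsWithin_of_mem_nhds
    (UpperHalfPlane.isOpen_upperHalfPlaneSet.mem_nhds hz)] with w hw
  exact normProd_systemD1 M d f hw

/-! ### (KD4) for the diamond operator -/

/-- (KD4) `diamond1 M d x` is represented by `(diamondAut M d).symm h`. -/
theorem isKummerRep_diamond1 (d : (ZMod M)ˣ) {m : ℕ} {x : helper32.J1 M} {h : helper32.F1 M}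
    (H : IsKummerRep m x h) :
    IsKummerRep m (helper32.diamond1 M d x) ((helper32.diamondAut M d).symm h) := by
  have h1 := H.smul (SemilinearAut.ofAlgAut (helper32.diamondAut M d))⁻¹
  rw [helper32.diamond1_apply]
  exact h1

/-! ### The transport statement -/

/-- **the analytic meaning of `(diamondAut M d)⁻¹`** : the function of
`(diamondAut M d).symm h` is `f ∘ g_d`, `g_d = diamondRep d` (lower right entry `≡ d`). -/
def DiamondEvSymm (d : (ZMod M)ˣ) : Prop :=
  ∀ (h : helper32.F1 M) (f : ℂ → ℂ),
    IsEv (Fermat.Agent.S24.helper17.toC (h : LaurentSeries helper32.Kbar)) f →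
    IsEv (Fermat.Agent.S24.helper17.toC
        (((helper32.diamondAut M d).symm h : helper32.F1 M) : LaurentSeries helper32.Kbar))
      (fun w => f (moebC (helper79.diamondRep d) w))

/-- **[AN-TRANS-D]** Kummer transport along the diamond operator `⟨d⟩ = diamond1 M d`; the only
input is the analytic meaning of `(diamondAut M d).symm`. -/
theorem transportD1_of (p : ℕ) (d : (ZMod M)ˣ) (hEv : DiamondEvSymm M d) :
    Transport1Statement M p (.inr d) := by
  intro n ε x h f hK hE hC
  refine ⟨(helper32.diamondAut M d).symm h, fun w => f (moebC (helper79.diamondRep d) w),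
    isKummerRep_diamond1 M d hK, hEv h f hE, ?_⟩
  rw [latPsi1_latCharT1_diamond]
  exact isKummerChar_comp_diamondRep M d hC

end Fermat.Agent.T4.helper14

end
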