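import Mathlib
import Fermat.Prelude.Def_GaloisRep_Residual
import Fermat.Agent.T4.helper80_EndgameDefs

/-!
# T4 (S48): cross-block contracts of the forms side (helper32, T4 architect)

Everything here is a definition or a `Prop`, in Mathlib + Prelude vocabulary only.

* `Eigen1Statement` : **the deliverable of block (I)** (the `X₁(M)` stack).  A weight-two cusp form
  on `Γ₁(M)` with nebentypus `χ` and integral `q`-expansion which is, modulo `r : ℤ̄ → k`
  (`char k = ℓ`), a nonzero eigenvector of the formal Hecke operators `T_p` (`p ∤ M`) with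
  eigenvalues `b p` yields a NONZERO finite-dimensional `k`-representation of `G_ℚ`, through a
  finite quotient, unramified outside `M ℓ`, on which every Frobenius lift at `p ∤ M ℓ`
  satisfies `X² - b_p X + p χ(p)`.
  (Mathematically: the system of eigenvalues occurs in `J₁(M)[ℓ] ⊗ k`, and Eichler-Shimura.)
* `PrimStatement`   : block (V): an integral primitive form in the eigen-packet of `f`.
* `ConjStatement`   : block (V): the conjugate eigen-systems are eigen-systems of weight-one forms.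
* `Res1Statement c` : the residual representations with auxiliary level `c ∈ {4, 9}`.
-/

set_option autoImplicit false

open CongruenceSubgroup UpperHalfPlane
open scoped MatrixGroups

namespace Fermat.Agent.T4.helper32

open Fermat.Agent.T4.helper80 (GQ Zbar)

/-- `g` has nebentypus `χ` on `Γ₀(M)` in weight `w` (explicit form of the slash law). -/
def HasNeben (M : ℕ) (w : ℕ) (χ : DirichletCharacter ℂ M) (g : ℍ → ℂ) : Prop :=
  ∀ γ : SL(2, ℤ), γ ∈ Gamma0 M → ∀ τ : ℍ,
    g (γ • τ) = χ (((γ 1 1 : ℤ) : ZMod M)) *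
      (((γ 1 0 : ℤ) : ℂ) * (τ : ℂ) + ((γ 1 1 : ℤ) : ℂ)) ^ w * g τ

/-- The formal Hecke relation at `p` for a sequence `c` with "eigenvalue" `b` and
"determinant" `e`: `c (p n) + e · c (n / p) = b · c n`. -/
def FormalEigenAt {R : Type*} [CommRing R] (c : ℕ → R) (p : ℕ) (b e : R) : Prop :=
  ∀ n : ℕ, c (p * n) + e * (if p ∣ n then c (n / p) else 0) = b * c n

/-- The Eichler-Shimura relations on a finite-dimensional representation: trivial inertia and
`φ² - b φ + e = 0` for every Frobenius lift at `p`. -/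
def EsAt {k V : Type} [Field k] [AddCommGroup V] [Module k V] (ρ : GQ →* Module.End k V)
    (p : ℕ) (b e : k) : Prop :=
  ∀ A : ValuationSubring (AlgebraicClosure ℚ), A.LiesOverPrime p →
    (∀ σ ∈ A.inertiaSubgroupIn ℚ, ρ σ = 1) ∧
    ∀ σ : GQ, A.IsFrobeniusAt σ p →
      ρ σ * ρ σ - b • ρ σ + e • (1 : Module.End k V) = 0

/-- **[EIGEN1]**, the deliverable of block (I). -/
def Eigen1Statement : Prop :=
  ∀ (M : ℕ) (_ : NeZero M), (4 ∣ M ∨ 9 ∣ M) → ∀ ℓ : ℕ, ℓ.Prime → ℓ ≠ 2 →
  ∀ (k : Type) (_ : Field k) (_ : CharP k ℓ) (_ : IsAlgClosed k) (r : Zbar →+* k)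
    (g : CuspForm (Gamma1 M) 2) (χ : DirichletCharacter ℂ M) (x : ZMod M → Zbar)
    (c : ℕ → Zbar) (b : ℕ → k),
    (∀ a : ZMod M, ((x a : Zbar) : ℂ) = χ a) →
    (∀ n : ℕ, ((c n : Zbar) : ℂ) = ModularFormClass.qCoeff g n) →
    (∃ n : ℕ, r (c n) ≠ 0) →
    HasNeben M 2 χ g →
    (∀ p : ℕ, p.Prime → ¬ p ∣ M →
      FormalEigenAt (fun n => r (c n)) p (b p) ((p : k) * r (x (p : ZMod M)))) →
    ∃ (V : Type) (_ : AddCommGroup V) (_ : Module k V) (_ : Module.Finite k V)
      (_ : Nontrivial V) (ρ : GQ →* Module.End k V),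
      GaloisFactorsThroughFiniteLevel ρ ∧
      ∀ p : ℕ, p.Prime → ¬ p ∣ M * ℓ → EsAt ρ p (b p) ((p : k) * r (x (p : ZMod M)))

/-- The hypotheses of the frozen statement S48 on the coefficients, for a form `h` with the
eigenvalues `a p`. -/
def InPacket (N : ℕ) (ε : DirichletCharacter ℂ N) (a : ℕ → ℂ) (h : ℍ → ℂ) : Prop :=
  ∀ p : ℕ, p.Prime → ¬ p ∣ N → ∀ n : ℕ,
    ModularFormClass.qCoeff h (p * n) +
        ε (p : ZMod N) * (if p ∣ n then ModularFormClass.qCoeff h (n / p) else 0) =
      a p * ModularFormClass.qCoeff h n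

/-- **[V-PRIM]** for every maximal ideal `P` of the algebraic integers the eigen-packet of the
form of the frozen statement S48 contains a form with nebentypus `ε`, all of whose
`q`-coefficients are algebraic integers, not all in `P`; and the eigenvalues are algebraic
integers. -/
def PrimStatement : Prop :=
  ∀ (N : ℕ) (_ : NeZero N) (ε : DirichletCharacter ℂ N) (f : CuspForm (Gamma1 N) 1),
    ModularFormClass.qCoeff f 1 = 1 →
    InPacket N ε (fun p => ModularFormClass.qCoeff f p) f →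
    (∀ p : ℕ, p.Prime → ¬ p ∣ N → IsIntegral ℤ (ModularFormClass.qCoeff f p)) ∧
    ∀ P : Ideal Zbar, P.IsMaximal →
      ∃ (h : CuspForm (Gamma1 N) 1) (A : ℕ → Zbar),
        (∀ n : ℕ, ((A n : Zbar) : ℂ) = ModularFormClass.qCoeff h n) ∧
        (∃ n : ℕ, A n ∉ P) ∧ HasNeben N 1 ε h ∧
        InPacket N ε (fun p => ModularFormClass.qCoeff f p) h

/-- **[V-CONJ]** the conjugates of the eigen-system of the form of the frozen statement S48 are
eigen-systems of weight-one cusp forms on `Γ₁(N)` (for the conjugate characters): whenever the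
`a p` (`p ∤ N`) and the values of `ε` lie in a subfield `K` (via `ι`), every embedding `τ` of `K`
is realised by a form `f'` with character `ε' = τ ∘ ε`. -/
def ConjStatement : Prop :=
  ∀ (N : ℕ) (_ : NeZero N) (ε : DirichletCharacter ℂ N) (f : CuspForm (Gamma1 N) 1),
    ModularFormClass.qCoeff f 1 = 1 →
    InPacket N ε (fun p => ModularFormClass.qCoeff f p) f →
    ∀ (K : Type) (_ : Field K) (ι : K →+* ℂ) (α : ℕ → K) (e : ZMod N → K),
      (∀ p : ℕ, p.Prime → ¬ p ∣ N → ι (α p) = ModularFormClass.qCoeff f p) →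
      (∀ a : ZMod N, ι (e a) = ε a) →
      ∀ τ : K →+* ℂ, ∃ (ε' : DirichletCharacter ℂ N) (f' : CuspForm (Gamma1 N) 1),
        (∀ a : ZMod N, ε' a = τ (e a)) ∧ ModularFormClass.qCoeff f' 1 = 1 ∧
        (∀ p : ℕ, p.Prime → ¬ p ∣ N → ModularFormClass.qCoeff f' p = τ (α p)) ∧
        InPacket N ε' (fun p => ModularFormClass.qCoeff f' p) f'

/-- A residual representation (module form) for the system `(a, e)` along `φ`, unramified
outside `D`. -/
def HasResidualMod (D : ℕ) (a e : ℕ → ℂ) {k : Type} [Field k] (φ : Zbar →+* k) : Prop :=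
  ∃ ρ : ResidualGaloisRep k, ∀ p : ℕ, p.Prime → ¬ p ∣ D →
    ∃ x y : Zbar, (x : ℂ) = a p ∧ (y : ℂ) = e p ∧
      ∀ A : ValuationSubring (AlgebraicClosure ℚ), A.LiesOverPrime p →
        (∀ σ ∈ A.inertiaSubgroupIn ℚ, ρ.ρ σ = 1) ∧
        ∀ σ : GQ, A.IsFrobeniusAt σ p →
          LinearMap.charpoly (ρ.ρ σ) =
            Polynomial.X ^ 2 - Polynomial.C (φ x) * Polynomial.X + Polynomial.C (φ y)

/-- **[RES1]** residual representations with the auxiliary level `c`: for every odd prime
`ℓ ∤ c N` and every residue map to an algebraically closed field of characteristic `ℓ`. -/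
def Res1Statement (c : ℕ) : Prop :=
  ∀ (N : ℕ) (_ : NeZero N) (ε : DirichletCharacter ℂ N) (f : CuspForm (Gamma1 N) 1),
    ModularFormClass.qCoeff f 1 = 1 →
    InPacket N ε (fun p => ModularFormClass.qCoeff f p) f →
    ∀ ℓ : ℕ, ℓ.Prime → ℓ ≠ 2 → ¬ ℓ ∣ c * N →
    ∀ (k : Type) (_ : Field k) (_ : CharP k ℓ) (_ : IsAlgClosed k) (φ : Zbar →+* k),
      HasResidualMod (c * N * ℓ) (fun p => ModularFormClass.qCoeff f p)
        (fun p => ε (p : ZMod N)) φ

end Fermat.Agent.T4.helper32
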