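/-
T4 / S48, block (I), step (R2) (helper79): the mod-`r` eigen-character of the Hecke algebra of
level `Gamma1 M`.

Under the hypotheses of `helper32.Eigen1Statement` (a weight-two cusp form `g` on `Gamma1 M` with
nebentypus `χ`, integral q-coefficients `c n`, and such that `r ∘ c` is a nonzero formal
eigenvector of the `T_p`, `p ∤ M`, with eigenvalues `b p`) there is a ring homomorphism
`θ : heckeAlgebra1 M 2 →+* k` with `θ (T_p) = b p` and `θ (<d>) = r (χ d)`.
-/
import Fermat.Agent.T4.helper79_Hecke1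
import Fermat.Agent.T4.helper32_ResDefs

set_option autoImplicit false

noncomputable section

open Matrix.SpecialLinearGroup UpperHalfPlane ModularForm CongruenceSubgroup ModularFormClass
open scoped MatrixGroups ModularForm OnePoint Manifold

namespace Fermat.Agent.T4.helper79

open Fermat.Agent.T4.helper80 (Zbar)

variable {M : ℕ}

/-! ### Bridge to the explicit form of the nebentypus law -/

theorem slash_mapGL_apply (w : ℤ) (γ : SL(2, ℤ)) (f : ℍ → ℂ) (τ : ℍ) :
    (f ∣[w] mapGL ℝ γ) τ =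
      f (γ • τ) * (((γ 1 0 : ℤ) : ℂ) * (τ : ℂ) + ((γ 1 1 : ℤ) : ℂ)) ^ (-w) := by
  have := ModularForm.SL_slash_apply (k := w) f γ τ
  rw [ModularGroup.denom_apply] at this
  rw [← this]
  rfl

theorem lowerRow_ne_zero (γ : SL(2, ℤ)) (τ : ℍ) :
    ((γ 1 0 : ℤ) : ℂ) * (τ : ℂ) + ((γ 1 1 : ℤ) : ℂ) ≠ 0 := by
  rw [← ModularGroup.denom_apply]
  exact denom_ne_zero _ τ

/-- The slash form of the nebentypus law is equivalent to the explicit form of
`helper32.HasNeben`. -/
theorem hasNeben_iff_helper32 {k : ℤ} (w : ℕ) (hw : (w : ℤ) = k) (χ : DirichletCharacter ℂ M)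
    (F : CuspForm (Gamma1 M) k) :
    HasNeben χ F ↔ helper32.HasNeben M w χ ⇑F := by
  subst hw
  constructor
  · intro h γ hγ τ
    have h1 := congrFun (h γ hγ) τ
    rw [slash_mapGL_apply, Pi.smul_apply, smul_eq_mul, zpow_neg, zpow_natCast] at h1
    have h0 := pow_ne_zero w (lowerRow_ne_zero γ τ)
    field_simp at h1
    rw [h1]
    ring
  · intro h γ hγ
    funext τ
    rw [slash_mapGL_apply, Pi.smul_apply, smul_eq_mul, zpow_neg, zpow_natCast, h γ hγ τ]
    have h0 := pow_ne_zero w (lowerRow_ne_zero γ τ)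
    field_simp

/-- The form of frozen S48 has nebentypus `ε` in the explicit form of `helper32.HasNeben`. -/
theorem s48_hasNeben32 (N : ℕ) [NeZero N] (ε : DirichletCharacter ℂ N)
    (f : CuspForm (Gamma1 N) 1)
    (hT : ∀ p : ℕ, p.Prime → ¬ p ∣ N → ∀ n : ℕ,
        ModularFormClass.qCoeff f (p * n) +
            ε (p : ZMod N) * (if p ∣ n then ModularFormClass.qCoeff f (n / p) else 0) =
          ModularFormClass.qCoeff f p * ModularFormClass.qCoeff f n) :
    helper32.HasNeben N 1 ε ⇑f :=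
  (hasNeben_iff_helper32 1 (by norm_num) ε f).mp (s48_hasNeben N ε f hT)

/-! ### Stability of the nebentypus -/

section level

variable [NeZero M] {k : ℤ}

theorem HasNeben.add {χ : DirichletCharacter ℂ M} {F G : CuspForm (Gamma1 M) k}
    (hF : HasNeben χ F) (hG : HasNeben χ G) : HasNeben χ (F + G) :=
  hasNeben_of_diamondLin fun d ↦ by rw [map_add, hF.diamondLin, hG.diamondLin, smul_add]

theorem HasNeben.smul {χ : DirichletCharacter ℂ M} {F : CuspForm (Gamma1 M) k}
    (hF : HasNeben χ F) (a : ℂ) : HasNeben χ (a • F) :=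
  hasNeben_of_diamondLin fun d ↦ by rw [map_smul, hF.diamondLin, smul_comm]

/-! ### The eigen-character -/

/-- The index set of the generators of the Hecke algebra. -/
abbrev Gen1 (M : ℕ) : Type := {p : ℕ // p.Prime ∧ ¬ p ∣ M} ⊕ (ZMod M)ˣ

/-- The generators of the Hecke algebra, as elements of it. -/
def gen1 (M : ℕ) [NeZero M] (k : ℤ) : Gen1 M → heckeAlgebra1 M k :=
  Sum.elim (fun p ↦ heckeAlgebra1.T p.2.1 p.2.2) (fun d ↦ heckeAlgebra1.D d)

/-- Evaluation of polynomials at the generators of the Hecke algebra. -/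
def heckeEval1 (M : ℕ) [NeZero M] (k : ℤ) : MvPolynomial (Gen1 M) ℤ →ₐ[ℤ] heckeAlgebra1 M k :=
  MvPolynomial.aeval (gen1 M k)

theorem range_gen1 :
    Set.range (gen1 M k) =
      ((↑) : heckeAlgebra1 M k → Module.End ℂ (CuspForm (Gamma1 M) k)) ⁻¹'
        hecke1Generators M k := by
  ext T
  constructor
  · rintro ⟨i, rfl⟩
    rcases i with p | d
    · exact heckeT1Lin_mem_hecke1Generators p.2.1 p.2.2
    · exact diamondLin_mem_hecke1Generators d
  · rintro (⟨p, hp, hpM, h⟩ | ⟨d, h⟩)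
    · exact ⟨Sum.inl ⟨p, hp, hpM⟩, Subtype.ext h.symm⟩
    · exact ⟨Sum.inr d, Subtype.ext h.symm⟩

theorem heckeEval1_surjective : Function.Surjective (heckeEval1 M k) := by
  rw [← AlgHom.range_eq_top]
  unfold heckeEval1
  rw [← Algebra.adjoin_range_eq_range_aeval, range_gen1]
  exact Algebra.adjoin_adjoin_coe_preimage

end level

section eigen

variable [NeZero M] {K : Type} [Field K]

/-- The values of the eigen-character on the generators. -/
def val1 (r : Zbar →+* K) (x : ZMod M → Zbar) (b : ℕ → K) : Gen1 M → K :=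
  Sum.elim (fun p ↦ b p.1) (fun d ↦ r (x (d : ZMod M)))

/-- Evaluation of polynomials at the eigenvalues. -/
def valEval1 (r : Zbar →+* K) (x : ZMod M → Zbar) (b : ℕ → K) :
    MvPolynomial (Gen1 M) ℤ →ₐ[ℤ] K :=
  MvPolynomial.aeval (val1 r x b)

omit [NeZero M] in
theorem coe_zsmul_cuspForm {k : ℤ} (a : ℤ) (F : CuspForm (Gamma1 M) k) :
    a • F = (a : ℂ) • F := by
  rw [Int.cast_smul_eq_zsmul]

/-- **Integrality and reduction** of `P(T, <d>) g`. -/
theorem exists_coeff_heckeEval1 (r : Zbar →+* K) (g : CuspForm (Gamma1 M) 2)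
    (χ : DirichletCharacter ℂ M) (x : ZMod M → Zbar) (c : ℕ → Zbar) (b : ℕ → K)
    (hx : ∀ a : ZMod M, ((x a : Zbar) : ℂ) = χ a)
    (hc : ∀ n : ℕ, ((c n : Zbar) : ℂ) = qCoeff g n)
    (hχ : HasNeben χ g)
    (hE : ∀ p : ℕ, p.Prime → ¬ p ∣ M →
      helper32.FormalEigenAt (fun n => r (c n)) p (b p) ((p : K) * r (x (p : ZMod M))))
    (P : MvPolynomial (Gen1 M) ℤ) :
    ∃ C : ℕ → Zbar,
      (∀ n : ℕ, ((C n : Zbar) : ℂ) =
        qCoeff ⇑((heckeEval1 M 2 P : Module.End ℂ (CuspForm (Gamma1 M) 2)) g) n) ∧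
      (∀ n : ℕ, r (C n) = valEval1 r x b P * r (c n)) ∧
      HasNeben χ ((heckeEval1 M 2 P : Module.End ℂ (CuspForm (Gamma1 M) 2)) g) := by
  induction P using MvPolynomial.induction_on with
  | C a =>
    have h1 : ((heckeEval1 M 2 (MvPolynomial.C a) :
        Module.End ℂ (CuspForm (Gamma1 M) 2)) g) = (a : ℂ) • g := by
      rw [heckeEval1, MvPolynomial.aeval_C, ← coe_zsmul_cuspForm]
      rfl
    refine ⟨fun n ↦ (a : Zbar) * c n, fun n ↦ ?_, fun n ↦ ?_, ?_⟩
    · rw [h1]
      rw [show (⇑((a : ℂ) • g) : ℍ → ℂ) = (a : ℂ) • (⇑g : ℍ → ℂ) from rfl,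
        qCoeff_smul (nice_coe g), ← hc]
      push_cast
      rfl
    · rw [valEval1, MvPolynomial.aeval_C, map_mul, map_intCast]
      simp
    · rw [h1]
      exact hχ.smul _
  | add P Q hP hQ =>
    obtain ⟨CP, hP1, hP2, hP3⟩ := hP
    obtain ⟨CQ, hQ1, hQ2, hQ3⟩ := hQ
    have h1 : ((heckeEval1 M 2 (P + Q) : Module.End ℂ (CuspForm (Gamma1 M) 2)) g)
        = (heckeEval1 M 2 P : Module.End ℂ (CuspForm (Gamma1 M) 2)) g
          + (heckeEval1 M 2 Q : Module.End ℂ (CuspForm (Gamma1 M) 2)) g := by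
      rw [map_add]
      rfl
    refine ⟨fun n ↦ CP n + CQ n, fun n ↦ ?_, fun n ↦ ?_, ?_⟩
    · rw [h1]
      rw [show (⇑((heckeEval1 M 2 P : Module.End ℂ (CuspForm (Gamma1 M) 2)) g
          + (heckeEval1 M 2 Q : Module.End ℂ (CuspForm (Gamma1 M) 2)) g) : ℍ → ℂ)
          = ⇑((heckeEval1 M 2 P : Module.End ℂ (CuspForm (Gamma1 M) 2)) g)
            + ⇑((heckeEval1 M 2 Q : Module.End ℂ (CuspForm (Gamma1 M) 2)) g) from rfl,
        qCoeff_add (nice_coe _) (nice_coe _), ← hP1, ← hQ1]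
      push_cast
      rfl
    · rw [map_add, hP2, hQ2, map_add, add_mul]
    · rw [h1]
      exact hP3.add hQ3
  | mul_X P i hP =>
    obtain ⟨CP, hP1, hP2, hP3⟩ := hP
    set G := (heckeEval1 M 2 P : Module.End ℂ (CuspForm (Gamma1 M) 2)) g with hG
    have h1 : ((heckeEval1 M 2 (P * MvPolynomial.X i) :
        Module.End ℂ (CuspForm (Gamma1 M) 2)) g)
        = (gen1 M 2 i : Module.End ℂ (CuspForm (Gamma1 M) 2)) G := by
      rw [map_mul, mul_comm, heckeEval1, MvPolynomial.aeval_X]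
      rfl
    rcases i with ⟨p, hp, hpM⟩ | d
    · -- the Hecke operator `T_p`
      have h2 : (gen1 M 2 (Sum.inl ⟨p, hp, hpM⟩) : Module.End ℂ (CuspForm (Gamma1 M) 2)) G
          = heckeT1Lin 2 hp hpM G := rfl
      refine ⟨fun n ↦ CP (n * p) + if p ∣ n then x (p : ZMod M) * (p : Zbar) * CP (n / p) else 0,
        fun n ↦ ?_, fun n ↦ ?_, ?_⟩
      · rw [h1, h2, hP3.qCoeff_heckeT1Lin hp hpM n, ← hP1, ← hP1, ← hx]
        by_cases hpn : p ∣ n
        · simp only [hpn, if_true]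
          push_cast
          norm_num
        · simp only [hpn, if_false]
          push_cast
          simp
      · have hEn : r (c (p * n)) + (p : K) * r (x (p : ZMod M)) *
            (if p ∣ n then r (c (n / p)) else 0) = b p * r (c n) := hE p hp hpM n
        have hv : valEval1 r x b (P * MvPolynomial.X (Sum.inl ⟨p, hp, hpM⟩))
            = valEval1 r x b P * b p := by
          rw [map_mul]
          congr 1
          exact MvPolynomial.aeval_X _ _
        rw [hv]
        have hR : valEval1 r x b P * b p * r (c n) = valEval1 r x b P * (b p * r (c n)) := by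
          ring
        rw [hR, ← hEn, mul_comm p n]
        by_cases hpn : p ∣ n
        · simp only [hpn, if_true]
          rw [map_add, map_mul, map_mul, hP2, hP2, map_natCast]
          ring
        · simp only [hpn, if_false]
          rw [add_zero, hP2]
          ring
      · rw [h1, h2]
        exact hP3.heckeT1Lin hp hpM
    · -- the diamond operator `<d>`
      have h2 : (gen1 M 2 (Sum.inr d) : Module.End ℂ (CuspForm (Gamma1 M) 2)) G
          = diamondLin 2 d G := rfl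
      have h3 : diamondLin 2 d G = χ (d : ZMod M) • G := hP3.diamondLin d
      refine ⟨fun n ↦ x (d : ZMod M) * CP n, fun n ↦ ?_, fun n ↦ ?_, ?_⟩
      · rw [h1, h2, h3]
        rw [show (⇑(χ (d : ZMod M) • G) : ℍ → ℂ) = χ (d : ZMod M) • (⇑G : ℍ → ℂ) from rfl,
          qCoeff_smul (nice_coe G), ← hP1, ← hx]
        push_cast
        rfl
      · have hv : valEval1 r x b (P * MvPolynomial.X (Sum.inr d))
            = valEval1 r x b P * r (x (d : ZMod M)) := by
          rw [map_mul]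
          congr 1
          exact MvPolynomial.aeval_X _ _
        rw [hv, map_mul, hP2]
        ring
      · rw [h1, h2, h3]
        exact hP3.smul _

theorem qCoeff_zero_fun (n : ℕ) : qCoeff (0 : ℍ → ℂ) n = 0 := by
  simp [qCoeff, qExpansion_zero]

/-- **[I-EIGENCHAR1]** the eigen-character `θ : 𝕋₁(M) → K` of a mod-`r` formal eigenvector
(hypotheses of `helper32.Eigen1Statement`, nebentypus in slash form). -/
theorem exists_eigenChar1_of_hasNeben (r : Zbar →+* K) (g : CuspForm (Gamma1 M) 2)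
    (χ : DirichletCharacter ℂ M) (x : ZMod M → Zbar) (c : ℕ → Zbar) (b : ℕ → K)
    (hx : ∀ a : ZMod M, ((x a : Zbar) : ℂ) = χ a)
    (hc : ∀ n : ℕ, ((c n : Zbar) : ℂ) = qCoeff g n)
    (hne : ∃ n : ℕ, r (c n) ≠ 0)
    (hχ : HasNeben χ g)
    (hE : ∀ p : ℕ, p.Prime → ¬ p ∣ M →
      helper32.FormalEigenAt (fun n => r (c n)) p (b p) ((p : K) * r (x (p : ZMod M)))) :
    ∃ θ : heckeAlgebra1 M 2 →+* K,
      (∀ (p : ℕ) (hp : p.Prime) (hpM : ¬ p ∣ M), θ (heckeAlgebra1.T hp hpM) = b p) ∧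
      ∀ d : (ZMod M)ˣ, θ (heckeAlgebra1.D d) = r (x (d : ZMod M)) := by
  have hker : RingHom.ker (heckeEval1 M 2).toRingHom ≤
      RingHom.ker (valEval1 r x b).toRingHom := by
    intro P hP
    rw [RingHom.mem_ker] at hP ⊢
    obtain ⟨C, hC1, hC2, -⟩ := exists_coeff_heckeEval1 r g χ x c b hx hc hχ hE P
    obtain ⟨n₀, hn₀⟩ := hne
    have hP' : heckeEval1 M 2 P = 0 := hP
    have h0 : C n₀ = 0 := by
      apply Subtype.ext
      rw [hC1 n₀, hP']
      exact qCoeff_zero_fun n₀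
    have h1 := hC2 n₀
    rw [h0, map_zero] at h1
    rcases mul_eq_zero.mp h1.symm with h | h
    · exact h
    · exact absurd h hn₀
  let θ : heckeAlgebra1 M 2 →ₐ[ℤ] K :=
    AlgHom.liftOfSurjective (heckeEval1 M 2) heckeEval1_surjective (valEval1 r x b) hker
  have hθ : ∀ P, θ (heckeEval1 M 2 P) = valEval1 r x b P :=
    AlgHom.liftOfSurjective_apply (heckeEval1 M 2) heckeEval1_surjective (valEval1 r x b) hker
  refine ⟨θ.toRingHom, fun p hp hpM ↦ ?_, fun d ↦ ?_⟩
  · have h := hθ (MvPolynomial.X (Sum.inl ⟨p, hp, hpM⟩))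
    rw [heckeEval1, valEval1, MvPolynomial.aeval_X, MvPolynomial.aeval_X] at h
    exact h
  · have h := hθ (MvPolynomial.X (Sum.inr d))
    rw [heckeEval1, valEval1, MvPolynomial.aeval_X, MvPolynomial.aeval_X] at h
    exact h

/-- **[I-EIGENCHAR1]**, hypotheses of `helper32.Eigen1Statement` VERBATIM. -/
theorem exists_eigenChar1 (r : Zbar →+* K) (g : CuspForm (Gamma1 M) 2)
    (χ : DirichletCharacter ℂ M) (x : ZMod M → Zbar) (c : ℕ → Zbar) (b : ℕ → K)
    (hx : ∀ a : ZMod M, ((x a : Zbar) : ℂ) = χ a)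
    (hc : ∀ n : ℕ, ((c n : Zbar) : ℂ) = ModularFormClass.qCoeff g n)
    (hne : ∃ n : ℕ, r (c n) ≠ 0)
    (hχ : helper32.HasNeben M 2 χ g)
    (hE : ∀ p : ℕ, p.Prime → ¬ p ∣ M →
      helper32.FormalEigenAt (fun n => r (c n)) p (b p) ((p : K) * r (x (p : ZMod M)))) :
    ∃ θ : heckeAlgebra1 M 2 →+* K,
      (∀ (p : ℕ) (hp : p.Prime) (hpM : ¬ p ∣ M), θ (heckeAlgebra1.T hp hpM) = b p) ∧
      ∀ d : (ZMod M)ˣ, θ (heckeAlgebra1.D d) = r (x (d : ZMod M)) :=
  exists_eigenChar1_of_hasNeben r g χ x c b hx hc hne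
    ((hasNeben_iff_helper32 2 (by norm_num) χ g).mpr hχ) hE

end eigen

end Fermat.Agent.T4.helper79
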