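import Fermat.Agent.T4.helper1_TateFibre
import Fermat.Agent.T4.helper79_EigenChar1
import Fermat.Agent.T4.helper32_ResDefs
import Fermat.Agent.T4.helper32_X1Defs

/-!
# T4 (I): `Eigen1Statement` from the Tate datum of `J₁(M)` (helper1)

* `Tate1Statement` : for every good level `M` and odd prime `ℓ` there is a generic Tate datum
  (`GenTateDatum`) for the Hecke algebra `helper79.heckeAlgebra1 M 2` with its generators
  `helper79.gen1 M 2` (`T_p`, `p ∤ M`, and `⟨d⟩`), unramified at the primes not dividing `M ℓ`,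
  with the Eichler-Shimura relation `φ² - T_p φ + p ⟨p⟩ = 0` at Frobenius lifts.
* `eigen1_of_tate1 : Tate1Statement → helper32.Eigen1Statement` (the deliverable of block (I)).

`Tate1Statement` is produced by `genTateAssembly` from the hypotheses `GenTateInput` (blocks
I-DEF, I-RED, I-ES) and `GenKappa` (block I-AN) for `J = helper32.J1 M`.
-/

set_option autoImplicit false
set_option linter.style.haveILetI false

noncomputable section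

namespace Fermat.Agent.T4.helper1

open Fermat.Agent.T4.helper79 (Gen1 gen1 heckeAlgebra1 primeUnit)

/-- The inertia groups at the primes not dividing `D`. -/
def inertiaAway (D : ℕ) : Set GalQ :=
  {σ | ∃ p : ℕ, p.Prime ∧ ¬ p ∣ D ∧ ∃ A : ValuationSubring (AlgebraicClosure ℚ),
    A.LiesOverPrime p ∧ σ ∈ A.inertiaSubgroupIn ℚ}

/-- The Eichler-Shimura quadruples `(φ, T_p, p, ⟨p⟩)`, `φ` a Frobenius lift at `p ∤ M ℓ`. -/
def esSet (M ℓ : ℕ) : Set (GalQ × Gen1 M × ℤ × Gen1 M) :=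
  {e | ∃ (p : ℕ) (hp : p.Prime) (hpM : ¬ p ∣ M), ¬ p ∣ M * ℓ ∧
    ∃ A : ValuationSubring (AlgebraicClosure ℚ), A.LiesOverPrime p ∧ A.IsFrobeniusAt e.1 p ∧
      e.2.1 = Sum.inl ⟨p, hp, hpM⟩ ∧ e.2.2.1 = (p : ℤ) ∧ e.2.2.2 = Sum.inr (primeUnit hp hpM)}

/-- **[TATE1]** the Tate datum of `J₁(M)` at `ℓ`, in generic form. -/
def Tate1Statement : Prop :=
  ∀ (M : ℕ) [NeZero M], (4 ∣ M ∨ 9 ∣ M) → ∀ (ℓ : ℕ) [Fact ℓ.Prime], ℓ ≠ 2 →
    Nonempty (GenTateDatum ℓ (Gen1 M) (heckeAlgebra1 M 2) (gen1 M 2)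
      (inertiaAway (M * ℓ)) (esSet M ℓ))

/-- **[EIGEN1]** from **[TATE1]**. -/
theorem eigen1_of_tate1 (h : Tate1Statement) : helper32.Eigen1Statement := by
  intro M _ hM ℓ hℓ hℓ2 k _ _ _ r g χ x c b hx hc hne hχ hE
  haveI : Fact ℓ.Prime := ⟨hℓ⟩
  obtain ⟨θ, hθT, hθD⟩ := helper79.exists_eigenChar1 r g χ x c b hx hc hne hχ hE
  obtain ⟨D⟩ := h M hM ℓ hℓ2
  obtain ⟨V, i1, i2, i3, i4, ρ, hfin, hU, hEs⟩ := D.exists_fibre k θ
  refine ⟨V, i1, i2, i3, i4, ρ, hfin, fun p hp hpMℓ A hA => ⟨fun σ hσ => ?_, fun σ hσ => ?_⟩⟩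
  · exact hU σ ⟨p, hp, hpMℓ, A, hA, hσ⟩
  · have hpM : ¬ p ∣ M := fun hd => hpMℓ (Dvd.dvd.mul_right hd ℓ)
    have h1 := hEs (σ, Sum.inl ⟨p, hp, hpM⟩, (p : ℤ), Sum.inr (primeUnit hp hpM))
      ⟨p, hp, hpM, hpMℓ, A, hA, hσ, rfl, rfl, rfl⟩
    simp only [gen1, Sum.elim_inl, Sum.elim_inr] at h1
    rw [hθT p hp hpM, hθD, helper79.coe_primeUnit] at h1
    simpa using h1

/-- **[TATE1]** from the hypotheses on the `ℓ`-power torsion (`GenTateInput`: blocks I-DEF,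
I-RED, I-ES) and the `κ`-package (`GenKappa`: block I-AN), for ANY model `J M` of `J₁(M)(ℚ̄)` and
any family of operators `op M` indexed by the generators of the Hecke algebra. -/
theorem tate1_of (J : ℕ → Type) [∀ M, AddCommGroup (J M)] [∀ M, DistribMulAction GalQ (J M)]
    (op : ∀ M : ℕ, Gen1 M → J M →+ J M)
    (hI : ∀ (M : ℕ) [NeZero M], (4 ∣ M ∨ 9 ∣ M) → ∀ (ℓ : ℕ) [Fact ℓ.Prime], ℓ ≠ 2 →
      GenTateInput ℓ (op M) (inertiaAway (M * ℓ)) (esSet M ℓ))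
    (hK : ∀ (M : ℕ) [NeZero M], (4 ∣ M ∨ 9 ∣ M) → ∀ (ℓ : ℕ) [Fact ℓ.Prime], ℓ ≠ 2 →
      GenKappa ℓ (op M) (gen1 M 2)) :
    Tate1Statement := fun M _ hM ℓ _ hℓ2 =>
  genTateAssembly ℓ (op M) (gen1 M 2) (inertiaAway (M * ℓ)) (esSet M ℓ) (hI M hM ℓ hℓ2)
    (hK M hM ℓ hℓ2)

/-- The standard operators on `J₁(M)` (definitions of `helper32_X1Defs`): `T_p = hecke1 M p` and
`⟨d⟩ = diamond1 M d`. -/
def op1 (M : ℕ) : Gen1 M → helper32.J1 M →+ helper32.J1 M :=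
  Sum.elim (fun p => (helper32.hecke1 M ⟨p.1, p.2.1⟩).toAddMonoidHom)
    (fun d => (helper32.diamond1 M d).toAddMonoidHom)

/-- **[EIGEN1]** from the two inputs of the Tate assembly for `J₁(M)` with the standard
operators. -/
theorem eigen1_of_inputs
    (hI : ∀ (M : ℕ) [NeZero M], (4 ∣ M ∨ 9 ∣ M) → ∀ (ℓ : ℕ) [Fact ℓ.Prime], ℓ ≠ 2 →
      GenTateInput ℓ (op1 M) (inertiaAway (M * ℓ)) (esSet M ℓ))
    (hK : ∀ (M : ℕ) [NeZero M], (4 ∣ M ∨ 9 ∣ M) → ∀ (ℓ : ℕ) [Fact ℓ.Prime], ℓ ≠ 2 →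
      GenKappa ℓ (op1 M) (gen1 M 2)) :
    helper32.Eigen1Statement :=
  eigen1_of_tate1 (tate1_of (fun M => helper32.J1 M) op1 hI hK)

end Fermat.Agent.T4.helper1

end
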