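import Fermat.Agent.T4.helper21_AN1Defs
import Fermat.Agent.T4.helper1_Eigen1Wire

/-!
# T4 block (I), sub-block I-AN (helper21): the assembly

* `genKappa_comp` : `helper1.GenKappa` is stable under reindexing along any map `ι' → ι`;
* `kappa1_of` : `Kappa1Statement M p` from an analytic dictionary `𝒟` of `F1Cx M` (standard),
  `Surj1Statement`, `Desc1Statement`, `Transport1Statement` for all operators, and
  `Faith1Statement` (the `Γ₁` analogue of P3 `bridge_of_dict` + `anDescStatement_of` +
  `kappa_of_anDesc`);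
* `fin1_of` : `Fin1Statement M p` from `𝒟` and `Desc1Statement`;
* `genKappa_canonical` : `Kappa1Statement M p → helper1.GenKappa p (helper1.op1 M)
  (helper79.gen1 M 2)` (the canonical input of `helper1.eigen1_of_inputs`), and
  `genKappa_restrict` for any sub-family of the generators.
-/

set_option autoImplicit false

noncomputable section

namespace Fermat.Agent.T4.helper21

open CongruenceSubgroup ModularCurve ModularCurve.Period AlgebraicCurve
open scoped MatrixGroups
open Fermat.Agent.P3.helper20 Fermat.Agent.P3.helper34 Fermat.Agent.P3.helper94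
open Fermat.Agent.T4.helper1 (GenKappa genWordEnd)

/-! ## Reindexing -/

theorem genWordEnd_comp {ι ι' : Type} {X : Type*} [AddCommGroup X] (e : ι' → ι)
    (T : ι → X →+ X) (w : List ι') :
    genWordEnd (fun i => T (e i)) w = genWordEnd T (w.map e) := by
  induction w with
  | nil => rfl
  | cons i w ih =>
    show (T (e i)).comp (genWordEnd (fun i => T (e i)) w) = (T (e i)).comp (genWordEnd T (w.map e))
    rw [ih]

/-- `GenKappa` is stable under reindexing of the operators. -/
theorem genKappa_comp {J : Type} [AddCommGroup J] {ι ι' : Type} (e : ι' → ι)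
    (op : ι → J →+ J) {𝕋 : Type} [CommRing 𝕋] (gen : ι → 𝕋) (p : ℕ)
    (h : GenKappa p op gen) : GenKappa p (fun i => op (e i)) (fun i => gen (e i)) := by
  classical
  obtain ⟨X, i1, i2, i3, Tst, κ, h1, h2, h3, h4, h5⟩ := h
  refine ⟨X, i1, i2, i3, fun i => Tst (e i), κ, h1, h2, h3, fun n i x => h4 n (e i) x, ?_⟩
  intro c hc
  have key := h5 (c.mapDomain (List.map e)) (fun x => by
    rw [Finsupp.sum_mapDomain_index (fun _ => by simp) (fun _ _ _ => by rw [add_smul])]
    have := hc x
    simp only [genWordEnd_comp] at this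
    exact this)
  rw [Finsupp.sum_mapDomain_index (fun _ => by simp) (fun _ _ _ => by rw [add_smul])] at key
  simp only [List.map_map] at key
  exact key

/-! ## The assembly -/

variable (M : ℕ) [NeZero M] (p : ℕ)

/-- Division of a lattice character by `d`, when all its values are divisible by `d`. -/
theorem exists_eq_nsmul_of_forall_dvd1 (d : ℕ) (ε : LatChar1 M)
    (h : ∀ lam : perLat1 M, (d : ℤ) ∣ ε lam) : ∃ y : LatChar1 M, ε = d • y := by
  rcases Nat.eq_zero_or_pos d with rfl | hd
  · refine ⟨0, AddMonoidHom.ext fun lam => ?_⟩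
    have := h lam
    rw [Nat.cast_zero, zero_dvd_iff] at this
    rw [this]
    simp
  · have hd' : (d : ℤ) ≠ 0 := by exact_mod_cast hd.ne'
    refine ⟨{ toFun := fun lam => ε lam / (d : ℤ)
              map_zero' := by simp
              map_add' := fun a b => by
                rw [map_add, Int.add_ediv_of_dvd_left (h a)] }, AddMonoidHom.ext fun lam => ?_⟩
    have h1 : ε lam = (d : ℤ) * (ε lam / (d : ℤ)) := (Int.mul_ediv_cancel' (h lam)).symm
    rw [AddMonoidHom.smul_apply, nsmul_eq_mul]
    exact h1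

/-- **The bridge**: equivariance of the analytic Kummer map, transported to `J₁(M)(ℚ̄)`. -/
theorem bridge1 (hp : 0 < p) (𝒟 : AnDict (F1Cx M) (Gamma1 M)) (hstd : IsStdDict M 𝒟)
    (κC : ℕ → LatChar1 M →+ J1Cx M)
    (hκ : ∀ (n : ℕ) (ε : LatChar1 M), IsMonData 𝒟 (p ^ n) (κC n ε) (latPsi1 M p n ε))
    (con : helper32.J1 M →+ J1Cx M) (hinj : Function.Injective con)
    (ι : helper32.F1 M → F1Cx M)
    (hι : ∀ h : helper32.F1 M, ((ι h : F1Cx M) : LaurentSeries ℂ) =
      Fermat.Agent.S24.helper17.toC (h : LaurentSeries helper32.Kbar))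
    (hcon : ∀ (m : ℕ) (x : helper32.J1 M) (h : helper32.F1 M),
      IsKummerRep m x h → IsKummerRep m (con x) (ι h))
    (i : Idx1 M) (htr : Transport1Statement M p i)
    (n : ℕ) (ε : LatChar1 M) (x : helper32.J1 M) (hx : con x = κC n ε) :
    con (op1 M i x) = κC n (latCharT1 M i ε) := by
  have hm : 0 < p ^ n := pow_pos hp n
  have hx0 : p ^ n • x = 0 := by
    apply hinj
    rw [map_nsmul, hx, (hκ n ε).nsmul_eq_zero, map_zero]
  obtain ⟨h, H⟩ := exists_isKummerRep hx0
  have HC : IsKummerRep (p ^ n) (con x) (ι h) := hcon _ _ _ H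
  have hmon : IsMonData 𝒟 (p ^ n) (con x) (latPsi1 M p n ε) := by
    rw [hx]
    exact hκ n ε
  have hchar : IsKummerChar (Gamma1 M) (p ^ n) (𝒟.ev (ι h)) (latPsi1 M p n ε) :=
    Fermat.Agent.P3.helper16.isKummerChar_of_isMonData hm hmon HC
  have hev : IsEv (Fermat.Agent.S24.helper17.toC (h : LaurentSeries helper32.Kbar))
      (𝒟.ev (ι h)) := by
    rw [← hι h]
    exact hstd (ι h)
  obtain ⟨h', f', HT, hev', hchar'⟩ := htr n ε x h (𝒟.ev (ι h)) H hev hchar
  have HCT : IsKummerRep (p ^ n) (con (op1 M i x)) (ι h') := hcon _ _ _ HT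
  have hev'' : IsEv (Fermat.Agent.S24.helper17.toC (h' : LaurentSeries helper32.Kbar))
      (𝒟.ev (ι h')) := by
    rw [← hι h']
    exact hstd (ι h')
  have hcharT : IsKummerChar (Gamma1 M) (p ^ n) (𝒟.ev (ι h'))
      (latPsi1 M p n (latCharT1 M i ε)) :=
    hchar'.congr fun z hz => hev'.unique hev'' hz
  have hmonT : IsMonData 𝒟 (p ^ n) (con (op1 M i x)) (latPsi1 M p n (latCharT1 M i ε)) :=
    Fermat.Agent.P3.helper16.isMonData_iff_exists_isKummerRep.mpr ⟨_, HCT, hcharT⟩
  exact hmonT.eq_of_eq hm (hκ n (latCharT1 M i ε))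

/-- **[KAPPA1]** the `κ`-package of `J₁(M)` from the leaves. -/
theorem kappa1_of (hp : 0 < p) (𝒟 : AnDict (F1Cx M) (Gamma1 M)) (hstd : IsStdDict M 𝒟)
    (hsurj : Surj1Statement M p 𝒟) (hdesc : Desc1Statement M)
    (htr : ∀ i : Idx1 M, Transport1Statement M p i) (hfaith : Faith1Statement M) :
    Kappa1Statement M p := by
  obtain ⟨κC, hκ, ha, hb, hc⟩ := exists_kappa (𝒟 := 𝒟) hp (latPsi1 M p)
    (fun n ε ε' => latPsi1_add M p n ε ε') (fun n ε => latPsi1_pow_succ M p hp n ε) hsurj
  obtain ⟨con, ι, hι, hinj, htors, hcon⟩ := hdesc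
  have hex : ∀ (n : ℕ) (ε : LatChar1 M), ∃ x : helper32.J1 M, con x = κC n ε := fun n ε =>
    htors _ ⟨p ^ n, pow_pos hp n, ha n ε⟩
  choose f hf using hex
  let κ : ℕ → LatChar1 M →+ helper32.J1 M := fun n =>
    { toFun := f n
      map_zero' := hinj (by rw [hf, map_zero, map_zero])
      map_add' := fun a b => hinj (by rw [hf, map_add, map_add, hf, hf]) }
  have hκ' : ∀ n ε, con (κ n ε) = κC n ε := fun n ε => hf n ε
  refine ⟨LatChar1 M, inferInstance, inferInstance, inferInstance, latCharT1 M, κ,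
    ?_, ?_, ?_, ?_, hfaith⟩
  · intro n x
    apply hinj
    rw [map_nsmul, hκ', ha, map_zero]
  · intro n x hx
    have h0 : κC n x = 0 := by rw [← hκ', hx, map_zero]
    exact exists_eq_nsmul_of_forall_dvd1 M (p ^ n) x
      ((latPsi1_eq_one_iff M p hp n x).mp (hb n x h0))
  · intro n x
    apply hinj
    rw [map_nsmul, hκ', hκ', hc]
  · intro n i x
    apply hinj
    rw [hκ']
    exact (bridge1 M p hp 𝒟 hstd κC hκ con hinj ι hι hcon i (htr i) n x (κ n x)
      (hκ' n x)).symm

/-- **[FIN1]** the `p`-torsion of `J₁(M)(ℚ̄)` is finite. -/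
theorem fin1_of (hp : 0 < p) (𝒟 : AnDict (F1Cx M) (Gamma1 M)) (hdesc : Desc1Statement M) :
    Fin1Statement M p := by
  obtain ⟨con, ι, hι, hinj, htors, hcon⟩ := hdesc
  have : Group.FG (Gamma1 M) := fg_Gamma1 M
  have hfin : Finite (nsmulAddMonoidHom (α := J1Cx M) (p ^ 1)).ker :=
    finite_torsion_of_fg 𝒟 (pow_pos hp 1)
  let g : (nsmulAddMonoidHom (α := helper32.J1 M) (p ^ 1)).ker →
      (nsmulAddMonoidHom (α := J1Cx M) (p ^ 1)).ker := fun x =>
    ⟨con x.1, by
      have h0 := x.2
      rw [AddMonoidHom.mem_ker, nsmulAddMonoidHom_apply] at h0 ⊢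
      rw [← map_nsmul, h0, map_zero]⟩
  have hg : Function.Injective g := fun x y hxy =>
    Subtype.ext (hinj (congrArg Subtype.val hxy))
  exact Finite.of_injective g hg

/-! ## The canonical index type -/

omit [NeZero M] in
/-- the canonical generators (helper79) as indices of `Idx1` -/
def idxOfGen1 : helper79.Gen1 M → Idx1 M :=
  Sum.map (fun q => ⟨⟨q.1, q.2.1⟩, q.2.2⟩) id

omit [NeZero M] in
theorem op1_idxOfGen1 (i : helper79.Gen1 M) : op1 M (idxOfGen1 M i) = helper1.op1 M i := by
  rcases i with q | d <;> rfl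

theorem gen1_idxOfGen1 (i : helper79.Gen1 M) : gen1 M (idxOfGen1 M i) = helper79.gen1 M 2 i := by
  rcases i with q | d <;> rfl

/-- **[KAPPA1], canonical form**: the input `hK` of `helper1.eigen1_of_inputs`. -/
theorem genKappa_canonical (h : Kappa1Statement M p) :
    GenKappa p (helper1.op1 M) (helper79.gen1 M 2) := by
  have h1 := genKappa_comp (idxOfGen1 M) (op1 M) (gen1 M) p h
  have e1 : (fun i => op1 M (idxOfGen1 M i)) = helper1.op1 M := funext (op1_idxOfGen1 M)
  have e2 : (fun i => gen1 M (idxOfGen1 M i)) = helper79.gen1 M 2 := funext (gen1_idxOfGen1 M)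
  rw [e1, e2] at h1
  exact h1

/-- **[KAPPA1]** for any sub-family of the canonical generators (e.g. without the prime `ℓ`). -/
theorem genKappa_restrict (h : Kappa1Statement M p) {ι' : Type} (e : ι' → helper79.Gen1 M) :
    GenKappa p (fun i => helper1.op1 M (e i)) (fun i => helper79.gen1 M 2 (e i)) :=
  genKappa_comp e (helper1.op1 M) (helper79.gen1 M 2) p (genKappa_canonical M p h)

end Fermat.Agent.T4.helper21

end
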