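import Fermat.Agent.T4.helper79_Lat1
import Fermat.Agent.T4.helper21_AN1Asm

/-!
# T4 block (I), sub-block I-AN (helper21): the final assembly in the `PerSys` framework

`genKappa1_final` : for `D : helper79.Hom1Data M` (coset systems + period compatibility, [HOM1]),
a standard analytic dictionary `𝒟` of `F1Cx M` ([I-FLD]) and the three LATTICE-FREE leaves

* `SurjChar1Statement M 𝒟` [SURJ1] : every parabolic character of finite order of `Γ₁(M)` is a
  monodromy;
* `Desc1Statement M` [DESC1] : the constant field extension `ℚ̄ → ℂ`;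
* `TransChar1Statement M D i` [TRANS-T], [TRANS-D] : Kummer transport along the operator `i`, in
  character form `ψ ↦ (γ ↦ ∏ j, ψ (D.step i γ j))`;

we get `helper1.GenKappa p (helper1.op1 M) (helper79.gen1 M 2)`, the input `hK` of
`helper1.eigen1_of_inputs`, and `Fin1Statement M p` (`fin1_of`, `helper21_AN1Asm`).

The characters of the period lattice of an abstract period system: `psLatPsi P p n ε`,
`γ ↦ exp(2πi ε(per γ) / p^n)`, with `psLatPsi_Tst` (= P3 `latPsi_heckeChar`).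
-/

set_option autoImplicit false

noncomputable section

namespace Fermat.Agent.T4.helper21

open CongruenceSubgroup ModularCurve ModularCurve.Period AlgebraicCurve
open scoped MatrixGroups
open Fermat.Agent.P3.helper20 Fermat.Agent.P3.helper34 Fermat.Agent.P3.helper94
open Fermat.Agent.T4.helper1 (GenKappa genWordEnd)
open Fermat.Agent.T4.helper79 (PerSys Hom1Data Gen1)

/-- `u ^ (∑ a j) = ∏ u ^ a j` -/
theorem zpow_finsum_units {ι : Type} [Fintype ι] (u : ℂˣ) (a : ι → ℤ) :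
    u ^ (∑ j, a j) = ∏ j, u ^ a j :=
  map_sum (zpowersHom ℂˣ u).toAdditive a Finset.univ

/-! ## The characters of the period lattice of a period system -/

section PerSysChar

variable {G : Type} [Group G] {V : Type} [AddCommGroup V] [Module ℂ V] {ι : Type}
  (P : PerSys G V ι) (p : ℕ)

/-- The character `γ ↦ exp(2πi · ε(per γ) / p^n)`. -/
def psLatPsi (n : ℕ) (ε : P.LatChar) : G →* ℂˣ :=
  MonoidHom.toAdditive.symm ((Fermat.Agent.P3.helper16.zetaHom p n).comp (ε.comp P.per'))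

theorem psLatPsi_apply (n : ℕ) (ε : P.LatChar) (γ : G) :
    psLatPsi P p n ε γ =
      Fermat.Agent.P3.helper16.zetaUnit (p ^ n) ^ (ε (P.per' (Additive.ofMul γ))) := by
  rw [← Fermat.Agent.P3.helper16.zetaHom_apply]
  rfl

theorem psLatPsi_add (n : ℕ) (ε ε' : P.LatChar) :
    psLatPsi P p n (ε + ε') = psLatPsi P p n ε * psLatPsi P p n ε' := by
  ext γ
  rw [MonoidHom.mul_apply, psLatPsi_apply, psLatPsi_apply, psLatPsi_apply,
    AddMonoidHom.add_apply, zpow_add, Units.val_mul]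

theorem psLatPsi_pow_succ (hp : 0 < p) (n : ℕ) (ε : P.LatChar) :
    psLatPsi P p (n + 1) ε ^ p = psLatPsi P p n ε := by
  ext γ
  rw [MonoidHom.pow_apply, psLatPsi_apply, psLatPsi_apply, ← zpow_natCast, ← zpow_mul, mul_comm,
    zpow_mul, zpow_natCast, pow_succ',
    Fermat.Agent.P3.helper16.zetaUnit_mul_pow p (p ^ n) hp.ne']

theorem psLatPsi_pow (hp : 0 < p) (n : ℕ) (ε : P.LatChar) (γ : G) :
    psLatPsi P p n ε γ ^ (p ^ n) = 1 := by
  rw [psLatPsi_apply, ← zpow_natCast, ← zpow_mul, mul_comm,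
    zpow_mul, zpow_natCast,
    Fermat.Agent.P3.helper16.zetaUnit_pow_self _ (pow_pos hp n).ne', one_zpow]

theorem psLatPsi_eq_one_iff (hp : 0 < p) (n : ℕ) (ε : P.LatChar) :
    psLatPsi P p n ε = 1 ↔ ∀ lam : P.perLat, ((p ^ n : ℕ) : ℤ) ∣ ε lam := by
  constructor
  · intro h lam
    obtain ⟨γ, rfl⟩ := P.per'_surjective lam
    have h1 := DFunLike.congr_fun h (Additive.toMul γ)
    rw [psLatPsi_apply, MonoidHom.one_apply] at h1
    exact (Fermat.Agent.P3.helper16.zetaUnit_zpow_eq_one_iff _ (pow_pos hp n).ne' _).mp h1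
  · intro h
    ext γ
    rw [psLatPsi_apply, MonoidHom.one_apply,
      (Fermat.Agent.P3.helper16.zetaUnit_zpow_eq_one_iff _ (pow_pos hp n).ne' _).mpr (h _)]

/-- **The operators on the characters**: `psLatPsi (Tst i ε) γ = ∏ j, psLatPsi ε (step i γ j)`. -/
theorem psLatPsi_Tst (n : ℕ) (i : ι) (ε : P.LatChar) (γ : G) :
    letI := P.fintypeJ i
    psLatPsi P p n (P.Tst i ε) γ = ∏ j : P.J i, psLatPsi P p n ε (P.step i γ j) := by
  letI := P.fintypeJ i
  simp only [psLatPsi_apply]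
  rw [PerSys.Tst_apply, AddMonoidHom.comp_apply, ← P.sum_comp_step i ε γ]
  exact zpow_finsum_units _ _

end PerSysChar

/-! ## The lattice-free leaves -/

variable (M : ℕ) [NeZero M]

/-- **[SURJ1]** every character of `Γ₁(M)` of finite order which is trivial on the parabolic
elements is the monodromy of a class of `Pic⁰(F_ℂ)`. -/
def SurjChar1Statement (𝒟 : AnDict (F1Cx M) (Gamma1 M)) : Prop :=
  ∀ m : ℕ, 0 < m → ∀ ψ : Gamma1 M →* ℂˣ, (∀ γ : Gamma1 M, ψ γ ^ m = 1) →
    (∀ γ : Gamma1 M, ((γ : SL(2, ℤ)) : Matrix (Fin 2) (Fin 2) ℤ).trace ^ 2 = 4 → ψ γ = 1) →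
    ∃ c : J1Cx M, IsMonData 𝒟 m c ψ

/-- **[TRANS]** Kummer transport along the operator `i`, in character form: if `x ∈ J₁(M)` has a
Kummer representative `h` (w.r.t. `m`) and a function `f` of `toC h` has the Kummer character
`ψ`, then `op1 M i x` has a Kummer representative `h'` with a function `f'` of `toC h'` whose
Kummer character is `γ ↦ ∏ j, ψ (D.step i γ j)`. -/
def TransChar1Statement (D : Hom1Data M) (i : Gen1 M) : Prop :=
  letI := D.fintypeJ i
  ∀ m : ℕ, 0 < m → ∀ (x : helper32.J1 M) (h : helper32.F1 M) (f : ℂ → ℂ)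
    (ψ : Gamma1 M →* ℂˣ),
    IsKummerRep m x h →
    IsEv (Fermat.Agent.S24.helper17.toC (h : LaurentSeries helper32.Kbar)) f →
    IsKummerChar (Gamma1 M) m f ψ →
    ∃ (h' : helper32.F1 M) (f' : ℂ → ℂ) (ψ' : Gamma1 M →* ℂˣ),
      IsKummerRep m (helper1.op1 M i x) h' ∧
      IsEv (Fermat.Agent.S24.helper17.toC (h' : LaurentSeries helper32.Kbar)) f' ∧
      IsKummerChar (Gamma1 M) m f' ψ' ∧
      ∀ γ : Gamma1 M, ψ' γ = ∏ j : D.J i, ψ (D.step i γ j)

/-! ## The final assembly -/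

variable (p : ℕ)

/-- **The bridge** in the `PerSys` framework. -/
theorem bridgeD (hp : 0 < p) (D : Hom1Data M) (𝒟 : AnDict (F1Cx M) (Gamma1 M))
    (hstd : IsStdDict M 𝒟)
    (κC : ℕ → D.perSys.LatChar →+ J1Cx M)
    (hκ : ∀ (n : ℕ) (ε : D.perSys.LatChar),
      IsMonData 𝒟 (p ^ n) (κC n ε) (psLatPsi D.perSys p n ε))
    (con : helper32.J1 M →+ J1Cx M) (hinj : Function.Injective con)
    (ι : helper32.F1 M → F1Cx M)
    (hι : ∀ h : helper32.F1 M, ((ι h : F1Cx M) : LaurentSeries ℂ) =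
      Fermat.Agent.S24.helper17.toC (h : LaurentSeries helper32.Kbar))
    (hcon : ∀ (m : ℕ) (x : helper32.J1 M) (h : helper32.F1 M),
      IsKummerRep m x h → IsKummerRep m (con x) (ι h))
    (i : Gen1 M) (htr : TransChar1Statement M D i)
    (n : ℕ) (ε : D.perSys.LatChar) (x : helper32.J1 M) (hx : con x = κC n ε) :
    con (helper1.op1 M i x) = κC n (D.perSys.Tst i ε) := by
  have hm : 0 < p ^ n := pow_pos hp n
  have hx0 : p ^ n • x = 0 := by
    apply hinj
    rw [map_nsmul, hx, (hκ n ε).nsmul_eq_zero, map_zero]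
  obtain ⟨h, H⟩ := exists_isKummerRep hx0
  have HC : IsKummerRep (p ^ n) (con x) (ι h) := hcon _ _ _ H
  have hmon : IsMonData 𝒟 (p ^ n) (con x) (psLatPsi D.perSys p n ε) := by
    rw [hx]
    exact hκ n ε
  have hchar : IsKummerChar (Gamma1 M) (p ^ n) (𝒟.ev (ι h)) (psLatPsi D.perSys p n ε) :=
    Fermat.Agent.P3.helper16.isKummerChar_of_isMonData hm hmon HC
  have hev : IsEv (Fermat.Agent.S24.helper17.toC (h : LaurentSeries helper32.Kbar))
      (𝒟.ev (ι h)) := by
    rw [← hι h]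
    exact hstd (ι h)
  obtain ⟨h', f', ψ', HT, hev', hchar', hψ'⟩ :=
    htr (p ^ n) hm x h (𝒟.ev (ι h)) (psLatPsi D.perSys p n ε) H hev hchar
  have hψeq : ψ' = psLatPsi D.perSys p n (D.perSys.Tst i ε) := by
    ext γ
    rw [hψ' γ]
    exact congrArg Units.val (psLatPsi_Tst D.perSys p n i ε γ).symm
  rw [hψeq] at hchar'
  have HCT : IsKummerRep (p ^ n) (con (helper1.op1 M i x)) (ι h') := hcon _ _ _ HT
  have hev'' : IsEv (Fermat.Agent.S24.helper17.toC (h' : LaurentSeries helper32.Kbar))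
      (𝒟.ev (ι h')) := by
    rw [← hι h']
    exact hstd (ι h')
  have hcharT : IsKummerChar (Gamma1 M) (p ^ n) (𝒟.ev (ι h'))
      (psLatPsi D.perSys p n (D.perSys.Tst i ε)) :=
    hchar'.congr fun z hz => hev'.unique hev'' hz
  have hmonT : IsMonData 𝒟 (p ^ n) (con (helper1.op1 M i x))
      (psLatPsi D.perSys p n (D.perSys.Tst i ε)) :=
    Fermat.Agent.P3.helper16.isMonData_iff_exists_isKummerRep.mpr ⟨_, HCT, hcharT⟩
  exact hmonT.eq_of_eq hm (hκ n (D.perSys.Tst i ε))

/-- **[KAPPA1], final form**: the input `hK` of `helper1.eigen1_of_inputs` from the leaves. -/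
theorem genKappa1_final (hp : 0 < p) (D : Hom1Data M) (𝒟 : AnDict (F1Cx M) (Gamma1 M))
    (hstd : IsStdDict M 𝒟) (hsurj : SurjChar1Statement M 𝒟) (hdesc : Desc1Statement M)
    (htr : ∀ i : Gen1 M, TransChar1Statement M D i) :
    GenKappa p (helper1.op1 M) (helper79.gen1 M 2) := by
  have hsurj' : ∀ (n : ℕ) (ε : D.perSys.LatChar),
      ∃ c : J1Cx M, IsMonData 𝒟 (p ^ n) c (psLatPsi D.perSys p n ε) := fun n ε =>
    hsurj (p ^ n) (pow_pos hp n) _ (fun γ => psLatPsi_pow D.perSys p hp n ε γ) (fun γ hγ => by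
      rw [psLatPsi_apply, D.per'_parabolic γ hγ, map_zero, zpow_zero])
  obtain ⟨κC, hκ, ha, hb, hc⟩ := exists_kappa (𝒟 := 𝒟) hp (psLatPsi D.perSys p)
    (fun n ε ε' => psLatPsi_add D.perSys p n ε ε')
    (fun n ε => psLatPsi_pow_succ D.perSys p hp n ε) hsurj'
  obtain ⟨con, ι, hι, hinj, htors, hcon⟩ := hdesc
  have hex : ∀ (n : ℕ) (ε : D.perSys.LatChar), ∃ x : helper32.J1 M, con x = κC n ε :=
    fun n ε => htors _ ⟨p ^ n, pow_pos hp n, ha n ε⟩
  choose f hf using hex
  let κ : ℕ → D.perSys.LatChar →+ helper32.J1 M := fun n =>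
    { toFun := f n
      map_zero' := hinj (by rw [hf, map_zero, map_zero])
      map_add' := fun a b => hinj (by rw [hf, map_add, map_add, hf, hf]) }
  have hκ' : ∀ n ε, con (κ n ε) = κC n ε := fun n ε => hf n ε
  refine ⟨D.perSys.LatChar, inferInstance, inferInstance, inferInstance, D.perSys.Tst, κ,
    ?_, ?_, ?_, ?_, D.faith1⟩
  · intro n x
    apply hinj
    rw [map_nsmul, hκ', ha, map_zero]
  · intro n x hx
    have h0 : κC n x = 0 := by rw [← hκ', hx, map_zero]
    exact helper79.exists_eq_nsmul_of_forall_dvd (p ^ n) x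
      ((psLatPsi_eq_one_iff D.perSys p hp n x).mp (hb n x h0))
  · intro n x
    apply hinj
    rw [map_nsmul, hκ', hκ', hc]
  · intro n i x
    apply hinj
    rw [hκ']
    exact (bridgeD M p hp D 𝒟 hstd κC hκ con hinj ι hι hcon i (htr i) n x (κ n x)
      (hκ' n x)).symm

end Fermat.Agent.T4.helper21

end
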