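import Fermat.Agent.T4.helper14_TransD1
import Fermat.Agent.T4.helper21_AN1Final

/-!
# T4 (I) [AN-TRANS-D], character form (helper14, row 1106)

`helper21.TransChar1Statement M D (Sum.inr d)` (the lattice-free target of `helper21_AN1Final`) for
every `D : helper79.Hom1Data M` whose coset system at the index `Sum.inr d` is the one-element
system "conjugation by `helper79.diamondRep d`":

* `transCharD1_core` : the transport with the explicit character
  `ψ' = heckeChar (helper1.systemD1 M d) ψ`, `ψ' γ = ψ (g_d γ g_d⁻¹)`;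
* `transCharD1_of_prod` : `TransChar1Statement M D (Sum.inr d)` if
  `∏ j, ψ (D.step (Sum.inr d) γ j) = ψ ((helper1.systemD1 M d).step γ ())` for all `ψ`, `γ`;
* `transCharD1_of_step` : the same if the index type of `D` at `Sum.inr d` has one element and
  the steps are `g_d γ g_d⁻¹` (as matrices);
* `step_eq_conj_of_alpha` : the cocycle of ANY coset system of `Γ₁(M)` all of whose
  representatives are `mapGL ℝ g` is `γ ↦ g γ g⁻¹` (this gives the hypothesis `hstep` of
  `transCharD1_of_step` for `Hom1Data.ofCosetSystems` with a one-element system at `Sum.inr d`).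

The only analytic input is `DiamondEvSymm M d` (the analytic meaning of `(diamondAut M d).symm`).
-/

set_option autoImplicit false
set_option linter.unusedSectionVars false
set_option linter.style.haveILetI false

noncomputable section

namespace Fermat.Agent.T4.helper14

open CongruenceSubgroup ModularCurve ModularCurve.Period AlgebraicCurve
open scoped MatrixGroups
open Fermat.Agent.P3.helper20 Fermat.Agent.P3.helper34 Fermat.Agent.P3.helper94
open Fermat.Agent.T4.helper21

variable (M : ℕ) [NeZero M]

/-- the conjugate character `γ ↦ ψ (g_d γ g_d⁻¹)` -/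
theorem heckeChar_systemD1_apply (d : (ZMod M)ˣ) (ψ : Gamma1 M →* ℂˣ) (γ : Gamma1 M) :
    heckeChar (helper1.systemD1 M d) ψ γ = ψ ((helper1.systemD1 M d).step γ ()) := by
  rw [heckeChar_apply, Fintype.prod_unique]

/-- **Kummer transport along `⟨d⟩`** with the explicit character. -/
theorem transCharD1_core (d : (ZMod M)ˣ) (hEv : DiamondEvSymm M d) (m : ℕ)
    (x : helper32.J1 M) (h : helper32.F1 M) (f : ℂ → ℂ) (ψ : Gamma1 M →* ℂˣ)
    (hK : IsKummerRep m x h)
    (hE : IsEv (Fermat.Agent.S24.helper17.toC (h : LaurentSeries helper32.Kbar)) f)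
    (hC : IsKummerChar (Gamma1 M) m f ψ) :
    IsKummerRep m (helper32.diamond1 M d x) ((helper32.diamondAut M d).symm h) ∧
      IsEv (Fermat.Agent.S24.helper17.toC
          (((helper32.diamondAut M d).symm h : helper32.F1 M) : LaurentSeries helper32.Kbar))
        (fun w => f (moebC (helper79.diamondRep d) w)) ∧
      IsKummerChar (Gamma1 M) m (fun w => f (moebC (helper79.diamondRep d) w))
        (heckeChar (helper1.systemD1 M d) ψ) :=
  ⟨isKummerRep_diamond1 M d hK, hEv h f hE, isKummerChar_comp_diamondRep M d hC⟩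

/-- **[AN-TRANS-D], character form**: `TransChar1Statement M D (Sum.inr d)` for every `D` whose
steps at `Sum.inr d` multiply to the conjugation by `diamondRep d`. -/
theorem transCharD1_of_prod (D : helper79.Hom1Data M) (d : (ZMod M)ˣ)
    (hstep : ∀ (ψ : Gamma1 M →* ℂˣ) (γ : Gamma1 M),
      letI := D.fintypeJ (Sum.inr d)
      (∏ j : D.J (Sum.inr d), ψ (D.step (Sum.inr d) γ j)) =
        ψ ((helper1.systemD1 M d).step γ ()))
    (hEv : DiamondEvSymm M d) : TransChar1Statement M D (Sum.inr d) := by
  letI := D.fintypeJ (Sum.inr d)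
  intro m _ x h f ψ hK hE hC
  obtain ⟨h1, h2, h3⟩ := transCharD1_core M d hEv m x h f ψ hK hE hC
  refine ⟨(helper32.diamondAut M d).symm h, fun w => f (moebC (helper79.diamondRep d) w),
    heckeChar (helper1.systemD1 M d) ψ, h1, h2, h3, fun γ => ?_⟩
  rw [heckeChar_systemD1_apply]
  exact (hstep ψ γ).symm

/-- **[AN-TRANS-D], character form**, for a one-element system with steps `g_d γ g_d⁻¹`. -/
theorem transCharD1_of_step (D : helper79.Hom1Data M) (d : (ZMod M)ˣ)
    (hcard : letI := D.fintypeJ (Sum.inr d); Fintype.card (D.J (Sum.inr d)) = 1)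
    (hstep : ∀ (γ : Gamma1 M) (j : D.J (Sum.inr d)),
      ((D.step (Sum.inr d) γ j : Gamma1 M) : SL(2, ℤ)) =
        helper79.diamondRep d * (γ : SL(2, ℤ)) * (helper79.diamondRep d)⁻¹)
    (hEv : DiamondEvSymm M d) : TransChar1Statement M D (Sum.inr d) := by
  refine transCharD1_of_prod M D d (fun ψ γ => ?_) hEv
  letI := D.fintypeJ (Sum.inr d)
  have hst : ∀ j : D.J (Sum.inr d),
      D.step (Sum.inr d) γ j = (helper1.systemD1 M d).step γ () := fun j =>
    Subtype.ext ((hstep γ j).trans (helper1.systemD1_step M d γ ()).symm)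
  rw [Finset.prod_congr rfl (fun j _ => by rw [hst j]), Finset.prod_const, Finset.card_univ,
    hcard, pow_one]

/-- The cocycle of any coset system all of whose representatives are `mapGL ℝ g` is the
conjugation by `g`. -/
theorem step_eq_conj_of_alpha {ι : Type} (S : Fermat.Agent.S16.helper26.CosetSystem (Gamma1 M) ι)
    (g : SL(2, ℤ)) (hα : ∀ i, S.α i = Matrix.SpecialLinearGroup.mapGL ℝ g) (γ : Gamma1 M)
    (i : ι) : ((S.step γ i : Gamma1 M) : SL(2, ℤ)) = g * (γ : SL(2, ℤ)) * g⁻¹ := by
  have h := S.rel γ i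
  rw [hα, hα] at h
  have key : Matrix.SpecialLinearGroup.mapGL ℝ ((S.step γ i : Gamma1 M) : SL(2, ℤ)) =
      Matrix.SpecialLinearGroup.mapGL ℝ (g * (γ : SL(2, ℤ)) * g⁻¹) := by
    rw [map_mul, map_mul, map_inv, h]
    group
  exact Matrix.SpecialLinearGroup.mapGL_injective key

end Fermat.Agent.T4.helper14

end
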