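import Fermat.Agent.T4.helper21_AN1Final
import Fermat.Agent.T4.helper1_Hom1

/-!
# T4 (I) [AN-HOM1-2] (helper79): the instance `hom1Data M : Hom1Data M`

The input `D : helper79.Hom1Data M` of `helper21.genKappa1_final`, built from the coset systems
of helper1's [AN-HOM1]:

* `hom1Data M : Hom1Data M`, with
  `(hom1Data M).step (Sum.inl p) = (helper1.systemT1 M p.2.1 p.2.2).step` and
  `(hom1Data M).step (Sum.inr d) = (helper1.systemD1 M d).step` (by `rfl`);
* `hom1Data_prod_inl`, `hom1Data_prod_inr` : the character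
  `γ ↦ ∏ j, ψ ((hom1Data M).step i γ j)` of `helper21.TransChar1Statement` is
  `helper34.heckeChar` of the coset system (`ψ (δ γ δ⁻¹)` for the diamonds);
* `transChar1_inl_of`, `transChar1_inr_of` : `helper21.TransChar1Statement M (hom1Data M) i` from
  Kummer transport in `heckeChar` form (the P3 shape);
* `genKappa1_of_leaves` : `helper21.genKappa1_final` for `D = hom1Data M`.
-/

set_option autoImplicit false
set_option linter.unusedSectionVars false
set_option linter.style.haveILetI false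

noncomputable section

open CongruenceSubgroup ModularCurve ModularCurve.Period AlgebraicCurve
open Fermat.Agent.S16.helper26 (CosetSystem)
open Fermat.Agent.P3.helper20 Fermat.Agent.P3.helper34 Fermat.Agent.P3.helper94
open Fermat.Agent.T4.helper71 (periodPair1)
open scoped MatrixGroups

namespace Fermat.Agent.T4.helper79

variable (M : ℕ) [NeZero M]

/-- the index types of the coset systems of the generators -/
def hom1J : Gen1 M → Type
  | Sum.inl p => OnePoint (ZMod p.1)
  | Sum.inr _ => Unit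

/-- the index types are finite -/
@[reducible] def hom1Fintype : ∀ i : Gen1 M, Fintype (hom1J M i)
  | Sum.inl p =>
    haveI : NeZero p.1 := ⟨p.2.1.ne_zero⟩
    (inferInstance : Fintype (OnePoint (ZMod p.1)))
  | Sum.inr _ => (inferInstance : Fintype Unit)

/-- the coset systems of the generators (those of helper1's [AN-HOM1]) -/
def hom1Sys : ∀ i : Gen1 M, CosetSystem (Gamma1 M) (hom1J M i)
  | Sum.inl p => helper1.systemT1 M p.2.1 p.2.2
  | Sum.inr d => helper1.systemD1 M d

theorem hom1_compat (i : Gen1 M) (x : V1 M) :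
    letI := hom1Fintype M i
    periodPair1 M (TV1 M i x) = (hom1Sys M i).heckeFun (periodPair1 M x) := by
  rcases i with p | d
  · exact helper1.periodPairGen_heckeT1Lin M p.2.1 p.2.2 x
  · exact helper1.periodPairGen_diamondLin M d x

/-- **[AN-HOM1-2]** the period-compatible coset systems of `Γ₁(M)`. -/
def hom1Data : Hom1Data M :=
  Hom1Data.ofCosetSystems M (hom1J M) (hom1Fintype M) (hom1Sys M) (hom1_compat M)

@[simp] theorem hom1Data_J (i : Gen1 M) : (hom1Data M).J i = hom1J M i := rfl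

theorem hom1Data_step (i : Gen1 M) : (hom1Data M).step i = (hom1Sys M i).step := rfl

theorem hom1Data_step_inl (p : {p : ℕ // p.Prime ∧ ¬ p ∣ M}) :
    (hom1Data M).step (Sum.inl p) = (helper1.systemT1 M p.2.1 p.2.2).step := rfl

theorem hom1Data_step_inr (d : (ZMod M)ˣ) :
    (hom1Data M).step (Sum.inr d) = (helper1.systemD1 M d).step := rfl

/-- The character of `TransChar1Statement` for `T_p` is `heckeChar` of `helper1.systemT1`. -/
theorem hom1Data_prod_inl (p : {p : ℕ // p.Prime ∧ ¬ p ∣ M}) (ψ : Gamma1 M →* ℂˣ)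
    (γ : Gamma1 M) :
    letI := (hom1Data M).fintypeJ (Sum.inl p)
    haveI : NeZero p.1 := ⟨p.2.1.ne_zero⟩
    ∏ j : (hom1Data M).J (Sum.inl p), ψ ((hom1Data M).step (Sum.inl p) γ j) =
      heckeChar (helper1.systemT1 M p.2.1 p.2.2) ψ γ := by
  haveI : NeZero p.1 := ⟨p.2.1.ne_zero⟩
  apply Units.ext
  rw [heckeChar_apply]
  rfl

/-- The character of `TransChar1Statement` for `⟨d⟩` is `heckeChar` of `helper1.systemD1`. -/
theorem hom1Data_prod_inr (d : (ZMod M)ˣ) (ψ : Gamma1 M →* ℂˣ) (γ : Gamma1 M) :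
    letI := (hom1Data M).fintypeJ (Sum.inr d)
    ∏ j : (hom1Data M).J (Sum.inr d), ψ ((hom1Data M).step (Sum.inr d) γ j) =
      heckeChar (helper1.systemD1 M d) ψ γ := by
  apply Units.ext
  rw [heckeChar_apply]
  rfl

/-- The character of `TransChar1Statement` for `⟨d⟩`, explicitly. -/
theorem hom1Data_prod_inr' (d : (ZMod M)ˣ) (ψ : Gamma1 M →* ℂˣ) (γ : Gamma1 M) :
    letI := (hom1Data M).fintypeJ (Sum.inr d)
    ∏ j : (hom1Data M).J (Sum.inr d), ψ ((hom1Data M).step (Sum.inr d) γ j) =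
      ψ ((helper1.systemD1 M d).step γ ()) := by
  show ∏ j : Unit, ψ ((helper1.systemD1 M d).step γ j) = _
  rw [Finset.univ_unique, Finset.prod_singleton]

/-- **[TRANS-T] ⟹ `TransChar1Statement`**: Kummer transport along `T_p` in `heckeChar` form. -/
theorem transChar1_inl_of (p : {p : ℕ // p.Prime ∧ ¬ p ∣ M})
    (h : haveI : NeZero p.1 := ⟨p.2.1.ne_zero⟩
      ∀ m : ℕ, 0 < m → ∀ (x : helper32.J1 M) (h : helper32.F1 M) (f : ℂ → ℂ)
      (ψ : Gamma1 M →* ℂˣ),
      IsKummerRep m x h →
      IsEv (Fermat.Agent.S24.helper17.toC (h : LaurentSeries helper32.Kbar)) f →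
      IsKummerChar (Gamma1 M) m f ψ →
      ∃ (h' : helper32.F1 M) (f' : ℂ → ℂ),
        IsKummerRep m (helper1.op1 M (Sum.inl p) x) h' ∧
        IsEv (Fermat.Agent.S24.helper17.toC (h' : LaurentSeries helper32.Kbar)) f' ∧
        IsKummerChar (Gamma1 M) m f' (heckeChar (helper1.systemT1 M p.2.1 p.2.2) ψ)) :
    helper21.TransChar1Statement M (hom1Data M) (Sum.inl p) := by
  haveI : NeZero p.1 := ⟨p.2.1.ne_zero⟩
  intro m hm x h0 f ψ H hev hchar
  obtain ⟨h', f', H', hev', hchar'⟩ := h m hm x h0 f ψ H hev hchar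
  exact ⟨h', f', _, H', hev', hchar', fun γ => (hom1Data_prod_inl M p ψ γ).symm⟩

/-- **[TRANS-D] ⟹ `TransChar1Statement`**: Kummer transport along `⟨d⟩` in `heckeChar`
form. -/
theorem transChar1_inr_of (d : (ZMod M)ˣ)
    (h : ∀ m : ℕ, 0 < m → ∀ (x : helper32.J1 M) (h : helper32.F1 M) (f : ℂ → ℂ)
      (ψ : Gamma1 M →* ℂˣ),
      IsKummerRep m x h →
      IsEv (Fermat.Agent.S24.helper17.toC (h : LaurentSeries helper32.Kbar)) f →
      IsKummerChar (Gamma1 M) m f ψ →
      ∃ (h' : helper32.F1 M) (f' : ℂ → ℂ),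
        IsKummerRep m (helper1.op1 M (Sum.inr d) x) h' ∧
        IsEv (Fermat.Agent.S24.helper17.toC (h' : LaurentSeries helper32.Kbar)) f' ∧
        IsKummerChar (Gamma1 M) m f' (heckeChar (helper1.systemD1 M d) ψ)) :
    helper21.TransChar1Statement M (hom1Data M) (Sum.inr d) := by
  intro m hm x h0 f ψ H hev hchar
  obtain ⟨h', f', H', hev', hchar'⟩ := h m hm x h0 f ψ H hev hchar
  exact ⟨h', f', _, H', hev', hchar', fun γ => (hom1Data_prod_inr M d ψ γ).symm⟩

/-- **[KAPPA1]** for `D = hom1Data M`: `helper1.GenKappa p (helper1.op1 M) (gen1 M 2)` from the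
lattice-free leaves. -/
theorem genKappa1_of_leaves (p : ℕ) (hp : 0 < p) (𝒟 : AnDict (helper21.F1Cx M) (Gamma1 M))
    (hstd : helper21.IsStdDict M 𝒟) (hsurj : helper21.SurjChar1Statement M 𝒟)
    (hdesc : helper21.Desc1Statement M)
    (htr : ∀ i : Gen1 M, helper21.TransChar1Statement M (hom1Data M) i) :
    helper1.GenKappa p (helper1.op1 M) (gen1 M 2) :=
  helper21.genKappa1_final M p hp (hom1Data M) 𝒟 hstd hsurj hdesc htr

end Fermat.Agent.T4.helper79

end
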