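import Fermat.Agent.T4.helper14_TransD1Ev
import Fermat.Agent.T4.helper44_WpX1
import Fermat.Agent.T4.helper79_Hom1Data

/-!
# T4 (I) [AN-TRANS-D], final form (helper14, row 1106)

With `helper44.x1_qexp` (the `q`-expansions of the functions `s_a`, unconditional for `4 ≤ M`) and
`helper79.hom1Data M`, the diamond transport depends ONLY on the existence of the diamond
automorphism (`helper32.IsDiamondAut`, helper17 [I-FLD-DIAMOND]):

* `diamondEvSymm_of_exists` : `4 ≤ M → (∃ σ, IsDiamondAut M d σ) → DiamondEvSymm M d`;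
* `diamondEvSymm_all` : the hypothesis `hD` of `helper21.ian_of_leaves`;
* `transCharD1_hom1Data` : `TransChar1Statement M (hom1Data M) (Sum.inr d)`;
* `transportD1_of_exists` : `Transport1Statement M p (.inr d)`.
-/

set_option autoImplicit false
set_option linter.unusedSectionVars false
set_option linter.style.haveILetI false

noncomputable section

namespace Fermat.Agent.T4.helper14

open CongruenceSubgroup ModularCurve AlgebraicCurve
open scoped MatrixGroups
open Fermat.Agent.T4.helper32

variable (M : ℕ) [NeZero M]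

/-- **the analytic meaning of `(diamondAut M d).symm`** from the existence of the diamond
automorphism. -/
theorem diamondEvSymm_of_exists (hM : 4 ≤ M) (d : (ZMod M)ˣ)
    (hσ : ∃ σ, IsDiamondAut M d σ) : DiamondEvSymm M d :=
  diamondEvSymm_of M hM d (fun a ha => helper44.x1_qexp M hM a ha) hσ

/-- the hypothesis `hD` of `helper21.ian_of_leaves` -/
theorem diamondEvSymm_all (hM : 4 ≤ M)
    (hσ : ∀ d : (ZMod M)ˣ, ∃ σ, IsDiamondAut M d σ) (d : (ZMod M)ˣ) : DiamondEvSymm M d :=
  diamondEvSymm_of_exists M hM d (hσ d)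

/-- **[AN-TRANS-D]** for `helper79.hom1Data M`. -/
theorem transCharD1_hom1Data (hM : 4 ≤ M) (d : (ZMod M)ˣ) (hσ : ∃ σ, IsDiamondAut M d σ) :
    helper21.TransChar1Statement M (helper79.hom1Data M) (Sum.inr d) :=
  transCharD1_of_prod M (helper79.hom1Data M) d
    (fun ψ γ => helper79.hom1Data_prod_inr' M d ψ γ) (diamondEvSymm_of_exists M hM d hσ)

/-- **[AN-TRANS-D]** in the `helper21_AN1Defs` form. -/
theorem transportD1_of_exists (hM : 4 ≤ M) (p : ℕ) (d : (ZMod M)ˣ)
    (hσ : ∃ σ, IsDiamondAut M d σ) : helper21.Transport1Statement M p (.inr d) :=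
  transportD1_of M p d (diamondEvSymm_of_exists M hM d hσ)

/-- the function of `diamondAut M d h` is `f ∘ g_d⁻¹`, for every function `f` of `h` -/
theorem diamondEv_of_exists (hM : 4 ≤ M) (d : (ZMod M)ˣ) (hσ : ∃ σ, IsDiamondAut M d σ)
    (h : F1 M) (f : ℂ → ℂ)
    (hf : Fermat.Agent.P3.helper34.IsEv
      (Fermat.Agent.S24.helper17.toC (h : LaurentSeries Kbar)) f) :
    Fermat.Agent.P3.helper34.IsEv
      (Fermat.Agent.S24.helper17.toC ((diamondAut M d h : F1 M) : LaurentSeries Kbar))
      (fun w => f (Fermat.Agent.P3.helper34.moebC (helper79.diamondRep d)⁻¹ w)) :=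
  diamondEv_of M hM d (fun a ha => helper44.x1_qexp M hM a ha) hσ h f hf

end Fermat.Agent.T4.helper14

end
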