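import Mathlib
import Fermat.Agent.S23.helper87_GaloisDescent

/-!
# T4 / S48, block (V): extension of embeddings of algebraic subfields to automorphisms of `ℂ`
(helper15)

`exists_ringEquiv_of_algebraic`: for a field `K` with two ring homomorphisms `ι τ : K →+* ℂ` and
a set `S ⊆ K` whose `ι`-image is algebraic over `ℚ` there is a ring automorphism `σ` of `ℂ` with
`σ (ι s) = τ s` for all `s ∈ S`.
-/

set_option autoImplicit false
set_option linter.style.haveILetI false

noncomputable section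

namespace Fermat.Agent.T4.helper15

open MvPolynomial

/-- every ring automorphism of the algebraic closure of `ℚ` in `ℂ` extends to `ℂ` -/
theorem exists_ringEquiv_extending_algClosure
    (f : algebraicClosure ℚ ℂ ≃ₐ[ℚ] algebraicClosure ℚ ℂ) :
    ∃ σ : ℂ ≃+* ℂ, ∀ x : algebraicClosure ℚ ℂ, σ (x : ℂ) = (f x : ℂ) := by
  obtain ⟨ι, v, hv⟩ := exists_isTranscendenceBasis' (algebraicClosure ℚ ℂ) ℂ
  obtain ⟨σ, hσ⟩ := Fermat.Agent.S23.helper87.exists_ringEquiv_extending v hv
    (MvPolynomial.mapEquiv ι f.toRingEquiv)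
  refine ⟨σ, fun x => ?_⟩
  have h := hσ (C x)
  simp only [MvPolynomial.mapEquiv_apply, MvPolynomial.map_C, aeval_C] at h
  exact h

/-- **Extension lemma**: an identification of two embeddings on a set of elements which are
algebraic over `ℚ` is induced by a ring automorphism of `ℂ`. -/
theorem exists_ringEquiv_of_algebraic {K : Type*} [Field K] (ι τ : K →+* ℂ) (S : Set K)
    (hS : ∀ s ∈ S, IsAlgebraic ℚ (ι s)) :
    ∃ σ : ℂ ≃+* ℂ, ∀ s ∈ S, σ (ι s) = τ s := by
  classical
  haveI : CharZero K := (RingHom.charZero_iff ι.injective).mpr inferInstance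
  -- the subfield generated by `S`
  let K₀ : Subfield K := Subfield.closure S
  have halg : ∀ x ∈ K₀, IsAlgebraic ℚ (ι x) := by
    intro x hx
    induction hx using Subfield.closure_induction with
    | mem y hy => exact hS y hy
    | one => rw [map_one]; exact isAlgebraic_one
    | add x y _ _ hx hy => rw [map_add]; exact hx.add hy
    | neg x _ hx => rw [map_neg]; exact hx.neg
    | inv x _ hx => rw [map_inv₀]; exact hx.inv
    | mul x y _ _ hx hy => rw [map_mul]; exact hx.mul hy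
  let ι₀ : K₀ →+* algebraicClosure ℚ ℂ :=
    (ι.comp K₀.subtype).codRestrict (algebraicClosure ℚ ℂ)
      (fun x => (mem_algebraicClosure_iff).mpr (halg x x.2))
  letI alg1 : Algebra K₀ (algebraicClosure ℚ ℂ) := ι₀.toAlgebra
  letI alg2 : Algebra K₀ ℂ := (τ.comp K₀.subtype).toAlgebra
  haveI tower : IsScalarTower ℚ K₀ (algebraicClosure ℚ ℂ) :=
    IsScalarTower.of_algebraMap_eq fun q =>
      RingHom.congr_fun (Subsingleton.elim (algebraMap ℚ (algebraicClosure ℚ ℂ))
        ((algebraMap K₀ (algebraicClosure ℚ ℂ)).comp (algebraMap ℚ K₀))) q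
  haveI : Algebra.IsAlgebraic ℚ (algebraicClosure ℚ ℂ) := algebraicClosure.isAlgebraic ℚ ℂ
  haveI : Algebra.IsAlgebraic K₀ (algebraicClosure ℚ ℂ) :=
    Algebra.IsAlgebraic.tower_top (K := ℚ) K₀
  let g : algebraicClosure ℚ ℂ →ₐ[K₀] ℂ := IsAlgClosed.lift
  let gQ : algebraicClosure ℚ ℂ →ₐ[ℚ] ℂ := g.toRingHom.toRatAlgHom
  have hg : ∀ y : algebraicClosure ℚ ℂ, gQ y ∈ algebraicClosure ℚ ℂ := by
    intro y
    rw [mem_algebraicClosure_iff]
    exact IsAlgebraic.algHom gQ (Algebra.IsAlgebraic.isAlgebraic (R := ℚ) y)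
  let g' : algebraicClosure ℚ ℂ →ₐ[ℚ] algebraicClosure ℚ ℂ :=
    gQ.codRestrict (algebraicClosure ℚ ℂ).toSubalgebra hg
  let f : algebraicClosure ℚ ℂ ≃ₐ[ℚ] algebraicClosure ℚ ℂ :=
    AlgEquiv.ofBijective g' (Algebra.IsAlgebraic.algHom_bijective g')
  obtain ⟨σ, hσ⟩ := exists_ringEquiv_extending_algClosure f
  refine ⟨σ, fun s hs => ?_⟩
  let s' : K₀ := ⟨s, Subfield.subset_closure hs⟩
  have h1 : ι s = ((ι₀ s' : algebraicClosure ℚ ℂ) : ℂ) := rfl
  rw [h1, hσ]
  have h2 : (f (ι₀ s') : ℂ) = g (ι₀ s') := rfl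
  rw [h2]
  have h3 : g (ι₀ s') = algebraMap K₀ ℂ s' := g.commutes s'
  rw [h3]
  rfl

end Fermat.Agent.T4.helper15
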