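import Mathlib

/-!
# T4 [DS-RANKIN], part C (helper39): Abel summation

If `b ≥ 0` has partial sums `∑_{n ≤ X} b n ≤ C X`, then for `1 < s` every partial sum of
`∑ b n / n^s` is `≤ C (1 + 1/(s-1))`.  Mathlib only.
-/

namespace Fermat.Agent.T4.helper39

open Finset

/-- Abel summation as an inequality: `f ≥ 0` antitone, partial sums of `g` at most `C n`. -/
lemma sum_mul_le_of_partial_sums_le {f g : ℕ → ℝ} {C : ℝ} (hf0 : ∀ n, 0 ≤ f n)
    (hf : ∀ n, f (n + 1) ≤ f n) (hG : ∀ n, ∑ i ∈ range n, g i ≤ C * n) (n : ℕ) :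
    ∑ i ∈ range n, f i * g i ≤ C * ∑ i ∈ range n, f i := by
  have key : ∀ n, ∑ i ∈ range n, f i * g i + f n * (C * n - ∑ i ∈ range n, g i) ≤
      C * ∑ i ∈ range n, f i := by
    intro n
    induction n with
    | zero => simp
    | succ n ih =>
      rw [sum_range_succ, sum_range_succ, sum_range_succ]
      have h1 : 0 ≤ C * (n + 1 : ℕ) - (∑ i ∈ range n, g i + g n) := by
        have := hG (n + 1)
        rw [sum_range_succ] at this
        linarith
      have h2 : f (n + 1) * (C * (n + 1 : ℕ) - (∑ i ∈ range n, g i + g n)) ≤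
          f n * (C * (n + 1 : ℕ) - (∑ i ∈ range n, g i + g n)) :=
        mul_le_mul_of_nonneg_right (hf n) h1
      push_cast at h1 h2 ⊢
      nlinarith
  have h := key n
  have h1 : 0 ≤ f n * (C * n - ∑ i ∈ range n, g i) :=
    mul_nonneg (hf0 n) (by linarith [hG n])
  linarith

/-- `∑_{i<n} (i+1)^(-s) ≤ 1 + 1/(s-1)`. -/
lemma sum_rpow_neg_le {s : ℝ} (hs : 1 < s) (n : ℕ) :
    ∑ i ∈ range n, ((i : ℝ) + 1) ^ (-s) ≤ 1 + 1 / (s - 1) := by
  rcases n with _ | n
  · simp only [range_zero, sum_empty]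
    have : 0 < 1 / (s - 1) := by
      apply div_pos one_pos; linarith
    linarith
  rw [sum_range_succ']
  simp only [Nat.cast_zero, zero_add, Real.one_rpow]
  have hanti : AntitoneOn (fun x : ℝ => x ^ (-s)) (Set.Icc (1 : ℝ) (1 + (n : ℕ))) := by
    intro x hx y hy hxy
    have hx0 : (0 : ℝ) < x := lt_of_lt_of_le one_pos hx.1
    exact Real.rpow_le_rpow_of_nonpos hx0 hxy (by linarith)
  have h1 := hanti.sum_le_integral
  have h2 : ∫ x in (1 : ℝ)..1 + (n : ℕ), x ^ (-s) =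
      ((1 + (n : ℝ)) ^ (-s + 1) - 1 ^ (-s + 1)) / (-s + 1) := by
    apply integral_rpow
    right
    refine ⟨by linarith, ?_⟩
    rw [Set.uIcc_of_le (by simp)]
    intro h0
    have := h0.1
    linarith
  rw [h2] at h1
  have h3 : ((1 + (n : ℝ)) ^ (-s + 1) - 1 ^ (-s + 1)) / (-s + 1) ≤ 1 / (s - 1) := by
    rw [Real.one_rpow]
    have hpos : 0 ≤ (1 + (n : ℝ)) ^ (-s + 1) := by positivity
    have : ((1 + (n : ℝ)) ^ (-s + 1) - 1) / (-s + 1) = (1 - (1 + (n : ℝ)) ^ (-s + 1)) / (s - 1) := by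
      have h1 : -s + 1 ≠ 0 := by linarith
      have h2 : s - 1 ≠ 0 := by linarith
      field_simp
      ring
    rw [this]
    apply div_le_div_of_nonneg_right _ (by linarith)
    linarith
  have h4 : ∑ i ∈ range n, ((↑(i + 1) : ℝ) + 1) ^ (-s) =
      ∑ i ∈ range n, (fun x : ℝ => x ^ (-s)) (1 + ↑(i + 1)) := by
    apply sum_congr rfl
    intro i _
    simp only [add_comm]
  rw [h4]
  linarith

/-- **Dirichlet series bound**: if `b ≥ 0` and `∑_{i<n} b (i+1) ≤ C n`, then all partial sums of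
`∑ b (i+1) / (i+1)^s` are at most `C (1 + 1/(s-1))`. -/
lemma sum_div_rpow_le {b : ℕ → ℝ} {C : ℝ} (hC : 0 ≤ C)
    (hb : ∀ n, ∑ i ∈ range n, b (i + 1) ≤ C * n) {s : ℝ} (hs : 1 < s) (n : ℕ) :
    ∑ i ∈ range n, b (i + 1) / ((i : ℝ) + 1) ^ s ≤ C * (1 + 1 / (s - 1)) := by
  have h1 := sum_mul_le_of_partial_sums_le (f := fun i : ℕ => ((i : ℝ) + 1) ^ (-s))
    (g := fun i => b (i + 1)) (C := C) (fun i => by positivity)
    (fun i => by
      apply Real.rpow_le_rpow_of_nonpos (by positivity) _ (by linarith)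
      push_cast; linarith) hb n
  have h2 := sum_rpow_neg_le hs n
  calc ∑ i ∈ range n, b (i + 1) / ((i : ℝ) + 1) ^ s
      = ∑ i ∈ range n, ((i : ℝ) + 1) ^ (-s) * b (i + 1) := by
        apply sum_congr rfl
        intro i _
        rw [Real.rpow_neg (by positivity), div_eq_inv_mul]
    _ ≤ C * ∑ i ∈ range n, ((i : ℝ) + 1) ^ (-s) := h1
    _ ≤ C * (1 + 1 / (s - 1)) := mul_le_mul_of_nonneg_left h2 hC

end Fermat.Agent.T4.helper39
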