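import Mathlib

/-!
# T4 [DS-RANKIN], part A (helper39): local positivity at a good prime

For a Hecke recursion `u 0 = 1`, `u 1 = a`, `u (k+2) = a * u (k+1) - ε * u k` with `‖ε‖ = 1`
we prove, WITHOUT roots and WITHOUT formal power series,

  `(1 - X ^ 2) * exp (‖a‖ ^ 2 * X) ≤ L`  whenever all partial sums `∑_{k<K} ‖u k‖² X^k ≤ L`,

for `0 ≤ X ≤ 1`.  This replaces the positivity of the logarithm of the degree-4 Euler factor
of the Rankin-Selberg square in Deligne-Serre, section 5.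

Route: `B k := ∑_{j ≤ k/2} ‖u (k - 2 j)‖²` satisfies `‖a‖² B k ≤ (k+1) B (k+1)`
(for `k ≥ 3` from `a u_i = u_{i+1} + ε u_{i-1}` and `‖x+y‖² ≤ 2‖x‖²+2‖y‖²`; for `k ≤ 2` by hand),
hence `‖a‖^(2k) / k! ≤ B k`, and `(1 - X²) ∑ B k X^k ≤ ∑ ‖u k‖² X^k`.
-/

namespace Fermat.Agent.T4.helper39

open Finset

/-- The Hecke recursion at a good prime: `u k = a_{p^k}`. -/
structure IsHeckeSeq (a ε : ℂ) (u : ℕ → ℂ) : Prop where
  zero : u 0 = 1
  one : u 1 = a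
  step : ∀ k, u (k + 2) = a * u (k + 1) - ε * u k

/-- `rankB u k = ∑_{j ≤ k/2} ‖u (k - 2 j)‖²`, by recursion. -/
noncomputable def rankB (u : ℕ → ℂ) : ℕ → ℝ
  | 0 => ‖u 0‖ ^ 2
  | 1 => ‖u 1‖ ^ 2
  | (k + 2) => ‖u (k + 2)‖ ^ 2 + rankB u k

lemma rankB_zero (u : ℕ → ℂ) : rankB u 0 = ‖u 0‖ ^ 2 := by
  simp [rankB]

lemma rankB_one (u : ℕ → ℂ) : rankB u 1 = ‖u 1‖ ^ 2 := by
  simp [rankB]

lemma rankB_add_two (u : ℕ → ℂ) (k : ℕ) : rankB u (k + 2) = ‖u (k + 2)‖ ^ 2 + rankB u k := by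
  simp [rankB]

lemma rankB_nonneg (u : ℕ → ℂ) : ∀ k, 0 ≤ rankB u k
  | 0 => by rw [rankB_zero]; positivity
  | 1 => by rw [rankB_one]; positivity
  | (k + 2) => by
      rw [rankB_add_two]
      have := rankB_nonneg u k
      positivity

lemma rankB_le_add_two (u : ℕ → ℂ) (k : ℕ) : rankB u k ≤ rankB u (k + 2) := by
  rw [rankB_add_two]
  have : 0 ≤ ‖u (k + 2)‖ ^ 2 := by positivity
  linarith

lemma norm_add_sq_le_two (x y : ℂ) : ‖x + y‖ ^ 2 ≤ 2 * ‖x‖ ^ 2 + 2 * ‖y‖ ^ 2 := by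
  have h1 : ‖x + y‖ ≤ ‖x‖ + ‖y‖ := norm_add_le x y
  have h2 : ‖x + y‖ ^ 2 ≤ (‖x‖ + ‖y‖) ^ 2 := by
    apply pow_le_pow_left₀ (norm_nonneg _) h1
  nlinarith [sq_nonneg (‖x‖ - ‖y‖)]

variable {a ε : ℂ} {u : ℕ → ℂ}

lemma IsHeckeSeq.mul_eq (hu : IsHeckeSeq a ε u) (k : ℕ) :
    a * u (k + 1) = u (k + 2) + ε * u k := by
  rw [hu.step k]; ring

lemma IsHeckeSeq.norm_mul_sq_le (hε : ‖ε‖ = 1) (hu : IsHeckeSeq a ε u) (k : ℕ) :
    ‖a‖ ^ 2 * ‖u (k + 1)‖ ^ 2 ≤ 2 * ‖u (k + 2)‖ ^ 2 + 2 * ‖u k‖ ^ 2 := by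
  have h := norm_add_sq_le_two (u (k + 2)) (ε * u k)
  rw [← hu.mul_eq k, norm_mul, norm_mul, hε, one_mul, mul_pow] at h
  exact h

/-- `‖a‖² B_{k+1} ≤ 2 B_{k+2} + 2 B_k`. -/
lemma IsHeckeSeq.key (hε : ‖ε‖ = 1) (hu : IsHeckeSeq a ε u) :
    ∀ k, ‖a‖ ^ 2 * rankB u (k + 1) ≤ 2 * rankB u (k + 2) + 2 * rankB u k
  | 0 => by
      have h := hu.norm_mul_sq_le hε 0
      rw [rankB_add_two, rankB_zero]
      simp only [zero_add] at h ⊢
      rw [rankB_one]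
      have : 0 ≤ ‖u 0‖ ^ 2 := by positivity
      linarith
  | 1 => by
      have h := hu.norm_mul_sq_le hε 1
      have h0 : ‖a‖ ^ 2 * ‖u 0‖ ^ 2 = ‖u 1‖ ^ 2 := by
        rw [hu.zero, hu.one]; simp
      have e1 : rankB u (1 + 1) = ‖u 2‖ ^ 2 + ‖u 0‖ ^ 2 := by
        have := rankB_add_two u 0
        simpa [rankB_zero] using this
      have e2 : rankB u (1 + 2) = ‖u 3‖ ^ 2 + ‖u 1‖ ^ 2 := by
        have := rankB_add_two u 1
        simpa [rankB_one] using this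
      rw [e1, e2, rankB_one]
      simp only [show 1 + 1 = 2 from rfl, show 1 + 2 = 3 from rfl] at h
      have : 0 ≤ ‖u 1‖ ^ 2 := by positivity
      nlinarith
  | (k + 2) => by
      have ih := IsHeckeSeq.key hε hu k
      have h := hu.norm_mul_sq_le hε (k + 2)
      have e1 : rankB u (k + 2 + 1) = ‖u (k + 3)‖ ^ 2 + rankB u (k + 1) := rankB_add_two u (k + 1)
      have e2 : rankB u (k + 2 + 2) = ‖u (k + 4)‖ ^ 2 + rankB u (k + 2) := rankB_add_two u (k + 2)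
      have e3 : rankB u (k + 2) = ‖u (k + 2)‖ ^ 2 + rankB u k := rankB_add_two u k
      rw [e1, e2]
      simp only [show k + 2 + 1 = k + 3 from rfl, show k + 2 + 2 = k + 4 from rfl] at h
      nlinarith

end Fermat.Agent.T4.helper39

namespace Fermat.Agent.T4.helper39

open Finset ComplexConjugate

variable {a ε : ℂ} {u : ℕ → ℂ}

lemma norm_sq_sub_smul (hε : ‖ε‖ = 1) (a : ℂ) (c : ℝ) :
    ‖a ^ 2 - (c : ℂ) * ε‖ ^ 2 = ‖a‖ ^ 4 + c ^ 2 - 2 * c * (a ^ 2 * conj ε).re := by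
  rw [Complex.sq_norm, Complex.normSq_sub, ← Complex.sq_norm, ← Complex.sq_norm, norm_pow,
    norm_mul, hε, Complex.norm_real, map_mul, Complex.conj_ofReal]
  have : (a ^ 2 * ((c : ℂ) * conj ε)).re = c * (a ^ 2 * conj ε).re := by
    rw [show a ^ 2 * ((c : ℂ) * conj ε) = (c : ℂ) * (a ^ 2 * conj ε) by ring, Complex.re_ofReal_mul]
  rw [this]
  simp only [Real.norm_eq_abs, mul_one, sq_abs]
  ring

lemma re_le_norm_sq (hε : ‖ε‖ = 1) (a : ℂ) : (a ^ 2 * conj ε).re ≤ ‖a‖ ^ 2 := by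
  have h := Complex.re_le_norm (a ^ 2 * conj ε)
  rwa [norm_mul, norm_pow, Complex.norm_conj, hε, mul_one] at h

lemma IsHeckeSeq.two (hu : IsHeckeSeq a ε u) : u 2 = a ^ 2 - ε := by
  have := hu.step 0
  simp only [zero_add] at this
  rw [this, hu.one, hu.zero]; ring

lemma IsHeckeSeq.three (hu : IsHeckeSeq a ε u) : u 3 = a * (a ^ 2 - 2 * ε) := by
  have := hu.step 1
  simp only [show 1 + 2 = 3 from rfl, show 1 + 1 = 2 from rfl] at this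
  rw [this, hu.two, hu.one]; ring

/-- `‖a‖² B_k ≤ (k+1) B_{k+1}` (the first term of Newton's identity for the complete
symmetric functions of the four Rankin parameters). -/
lemma IsHeckeSeq.newton (hε : ‖ε‖ = 1) (hu : IsHeckeSeq a ε u) (k : ℕ) :
    ‖a‖ ^ 2 * rankB u k ≤ (k + 1 : ℝ) * rankB u (k + 1) := by
  have hr := re_le_norm_sq hε a
  have h1 := norm_sq_sub_smul hε a 1
  have h2 := norm_sq_sub_smul hε a 2
  simp only [Complex.ofReal_one, one_mul] at h1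
  simp only [Complex.ofReal_ofNat] at h2
  set n := ‖a‖ with hn
  set r := (a ^ 2 * conj ε).re with hrdef
  have hn0 : 0 ≤ n := norm_nonneg a
  rcases k with _ | _ | _ | k
  · rw [rankB_zero, rankB_one, hu.zero, hu.one]; simp [hn]
  · have e : rankB u (1 + 1) = ‖u 2‖ ^ 2 + ‖u 0‖ ^ 2 := by
      have := rankB_add_two u 0
      simpa [rankB_zero] using this
    rw [e, rankB_one, hu.two, hu.zero, hu.one, h1]
    simp only [norm_one]
    push_cast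
    nlinarith [sq_nonneg (n ^ 2 - 2)]
  · have e2 : rankB u 2 = ‖u 2‖ ^ 2 + ‖u 0‖ ^ 2 := by
      have := rankB_add_two u 0
      simpa [rankB_zero] using this
    have e3 : rankB u (2 + 1) = ‖u 3‖ ^ 2 + ‖u 1‖ ^ 2 := by
      have := rankB_add_two u 1
      simpa [rankB_one] using this
    rw [e2, e3, hu.two, hu.three, hu.zero, hu.one, norm_mul, mul_pow, h1, h2]
    simp only [norm_one]
    push_cast
    have hn2 : 0 ≤ n ^ 2 := by positivity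
    have key : n ^ 4 + 1 ^ 2 - 2 * 1 * r + 1 ^ 2 ≤ 3 * ((n ^ 4 + 2 ^ 2 - 2 * 2 * r) + 1) := by
      nlinarith [sq_nonneg (2 * n ^ 2 - 5)]
    calc n ^ 2 * (n ^ 4 + 1 ^ 2 - 2 * 1 * r + 1 ^ 2)
        ≤ n ^ 2 * (3 * ((n ^ 4 + 2 ^ 2 - 2 * 2 * r) + 1)) :=
          mul_le_mul_of_nonneg_left key hn2
      _ = (2 + 1) * (n ^ 2 * (n ^ 4 + 2 ^ 2 - 2 * 2 * r) + n ^ 2) := by ring
  · have h := hu.key hε (k + 2)
    have hmono := rankB_le_add_two u (k + 2)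
    have hB := rankB_nonneg u (k + 2 + 2)
    simp only [show k + 1 + 1 + 1 = k + 2 + 1 from rfl,
      show k + 2 + 1 + 1 = k + 2 + 2 from rfl] at h ⊢
    push_cast
    have hk : (0 : ℝ) ≤ k := Nat.cast_nonneg k
    nlinarith

/-- `‖a‖^(2k) ≤ k! B_k`. -/
lemma IsHeckeSeq.pow_le (hε : ‖ε‖ = 1) (hu : IsHeckeSeq a ε u) :
    ∀ k : ℕ, (‖a‖ ^ 2) ^ k ≤ (k.factorial : ℝ) * rankB u k
  | 0 => by rw [rankB_zero, hu.zero]; simp
  | (k + 1) => by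
      have ih := IsHeckeSeq.pow_le hε hu k
      have h := hu.newton hε k
      have hf : (0 : ℝ) ≤ k.factorial := Nat.cast_nonneg _
      have ha : 0 ≤ ‖a‖ ^ 2 := by positivity
      calc (‖a‖ ^ 2) ^ (k + 1) = ‖a‖ ^ 2 * (‖a‖ ^ 2) ^ k := by ring
        _ ≤ ‖a‖ ^ 2 * ((k.factorial : ℝ) * rankB u k) := mul_le_mul_of_nonneg_left ih ha
        _ = (k.factorial : ℝ) * (‖a‖ ^ 2 * rankB u k) := by ring
        _ ≤ (k.factorial : ℝ) * ((k + 1 : ℝ) * rankB u (k + 1)) :=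
            mul_le_mul_of_nonneg_left h hf
        _ = ((k + 1).factorial : ℝ) * rankB u (k + 1) := by
            rw [Nat.factorial_succ]; push_cast; ring

end Fermat.Agent.T4.helper39

namespace Fermat.Agent.T4.helper39

open Finset

variable {a ε : ℂ} {u : ℕ → ℂ}

lemma sum_rankB_add_two (u : ℕ → ℂ) (X : ℝ) : ∀ K : ℕ,
    ∑ k ∈ range (K + 2), rankB u k * X ^ k =
      ∑ k ∈ range (K + 2), ‖u k‖ ^ 2 * X ^ k + X ^ 2 * ∑ k ∈ range K, rankB u k * X ^ k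
  | 0 => by
      simp [sum_range_succ, rankB_zero, rankB_one]
  | (K + 1) => by
      have ih := sum_rankB_add_two u X K
      rw [sum_range_succ, ih, sum_range_succ (fun k => ‖u k‖ ^ 2 * X ^ k) (K + 2),
        sum_range_succ (fun k => rankB u k * X ^ k) K, rankB_add_two]
      ring

lemma sum_rankB_mono (u : ℕ → ℂ) {X : ℝ} (hX : 0 ≤ X) {K L : ℕ} (h : K ≤ L) :
    ∑ k ∈ range K, rankB u k * X ^ k ≤ ∑ k ∈ range L, rankB u k * X ^ k := by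
  apply sum_le_sum_of_subset_of_nonneg (range_mono h)
  intro k _ _
  exact mul_nonneg (rankB_nonneg u k) (pow_nonneg hX k)

/-- `(1 - X²) ∑_{k<K} B_k X^k ≤ ∑_{k<K} ‖u k‖² X^k`. -/
lemma one_sub_sq_mul_sum_rankB_le (u : ℕ → ℂ) {X : ℝ} (hX : 0 ≤ X) (K : ℕ) :
    (1 - X ^ 2) * ∑ k ∈ range K, rankB u k * X ^ k ≤ ∑ k ∈ range K, ‖u k‖ ^ 2 * X ^ k := by
  rcases K with _ | _ | K
  · simp
  · simp only [zero_add, range_one, sum_singleton, pow_zero, mul_one, rankB_zero]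
    have : 0 ≤ ‖u 0‖ ^ 2 := by positivity
    nlinarith [sq_nonneg X]
  · have h1 := sum_rankB_add_two u X K
    have h2 := sum_rankB_mono u hX (show K ≤ K + 2 by omega)
    have h3 : 0 ≤ X ^ 2 := by positivity
    simp only [show K + 1 + 1 = K + 2 from rfl]
    nlinarith

/-- `∑_{k<K} (‖a‖² X)^k / k! ≤ ∑_{k<K} B_k X^k`. -/
lemma IsHeckeSeq.sum_exp_le (hε : ‖ε‖ = 1) (hu : IsHeckeSeq a ε u) {X : ℝ} (hX : 0 ≤ X) (K : ℕ) :
    ∑ k ∈ range K, (‖a‖ ^ 2 * X) ^ k / (k.factorial : ℝ) ≤ ∑ k ∈ range K, rankB u k * X ^ k := by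
  apply sum_le_sum
  intro k _
  have h := hu.pow_le hε k
  have hf : (0 : ℝ) < k.factorial := by exact_mod_cast k.factorial_pos
  rw [mul_pow, div_le_iff₀ hf]
  have hXk : 0 ≤ X ^ k := pow_nonneg hX k
  nlinarith

/-- Finite form of the local positivity. -/
lemma IsHeckeSeq.local_bound_finite (hε : ‖ε‖ = 1) (hu : IsHeckeSeq a ε u) {X : ℝ}
    (hX0 : 0 ≤ X) (hX1 : X ≤ 1) (K : ℕ) :
    (1 - X ^ 2) * ∑ k ∈ range K, (‖a‖ ^ 2 * X) ^ k / (k.factorial : ℝ) ≤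
      ∑ k ∈ range K, ‖u k‖ ^ 2 * X ^ k := by
  have h1 := hu.sum_exp_le hε hX0 K
  have h2 := one_sub_sq_mul_sum_rankB_le u hX0 K
  have h3 : 0 ≤ 1 - X ^ 2 := by nlinarith
  exact (mul_le_mul_of_nonneg_left h1 h3).trans h2

/-- **Local positivity** (replaces the positivity of the logarithm of the Rankin-Selberg local
factor): if all partial sums of `∑ ‖u k‖² X^k` are `≤ L`, then
`(1 - X²) exp (‖a‖² X) ≤ L`. -/
theorem IsHeckeSeq.local_bound (hε : ‖ε‖ = 1) (hu : IsHeckeSeq a ε u) {X : ℝ}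
    (hX0 : 0 ≤ X) (hX1 : X ≤ 1) {L : ℝ}
    (hL : ∀ K : ℕ, ∑ k ∈ range K, ‖u k‖ ^ 2 * X ^ k ≤ L) :
    (1 - X ^ 2) * Real.exp (‖a‖ ^ 2 * X) ≤ L := by
  have hs : HasSum (fun k : ℕ => (‖a‖ ^ 2 * X) ^ k / (k.factorial : ℝ))
      (Real.exp (‖a‖ ^ 2 * X)) := by
    rw [Real.exp_eq_exp_ℝ]
    exact NormedSpace.expSeries_div_hasSum_exp (‖a‖ ^ 2 * X)
  have ht := (hs.tendsto_sum_nat).const_mul (1 - X ^ 2)
  refine le_of_tendsto' ht (fun K => ?_)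
  exact (hu.local_bound_finite hε hX0 hX1 K).trans (hL K)

end Fermat.Agent.T4.helper39
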