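import Mathlib
import Fermat.Agent.T4.helper39_RankinLocal
import Fermat.Agent.T4.helper39_RankinAbel

/-!
# T4 [DS-RANKIN], part B (helper39): multiplicativity, Euler product and the abstract Rankin bound

* `HeckeRel N χ a`: the Hecke relations of frozen S48 for an abstract sequence;
* `HeckeRel.isHeckeSeq`, `HeckeRel.prime_pow_mul`, `HeckeRel.mul_of_coprime`: multiplicativity;
* `rankin_abstract`: `∑_{p ∈ P} ‖a p‖² / p^s ≤ log (1/(s-1)) + C` from `∑_{n ≤ X} ‖a n‖² ≤ C₀ X`.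

Mathlib only.
-/

namespace Fermat.Agent.T4.helper39

open Finset

/-- The Hecke relations at the primes not dividing `N`, for an abstract coefficient sequence `a`
and character values `χ` (shape of the hypothesis `hT` of frozen S48). -/
def HeckeRel (N : ℕ) (χ : ℕ → ℂ) (a : ℕ → ℂ) : Prop :=
  ∀ p : ℕ, p.Prime → ¬ p ∣ N → ∀ n : ℕ,
    a (p * n) + χ p * (if p ∣ n then a (n / p) else 0) = a p * a n

variable {N : ℕ} {χ a : ℕ → ℂ}

lemma HeckeRel.isHeckeSeq (hT : HeckeRel N χ a) (ha1 : a 1 = 1) {p : ℕ} (hp : p.Prime)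
    (hpN : ¬ p ∣ N) : IsHeckeSeq (a p) (χ p) (fun k => a (p ^ k)) where
  zero := by simpa using ha1
  one := by simp
  step k := by
    have h := hT p hp hpN (p ^ (k + 1))
    have hdvd : p ∣ p ^ (k + 1) := dvd_pow_self p (Nat.succ_ne_zero k)
    have hdiv : p ^ (k + 1) / p = p ^ k := by
      rw [pow_succ, Nat.mul_div_cancel _ hp.pos]
    rw [if_pos hdvd, hdiv, ← pow_succ'] at h
    show a (p ^ (k + 2)) = a p * a (p ^ (k + 1)) - χ p * a (p ^ k)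
    rw [← h]; ring

lemma HeckeRel.prime_pow_mul (hT : HeckeRel N χ a) (ha1 : a 1 = 1) {p : ℕ} (hp : p.Prime)
    (hpN : ¬ p ∣ N) {m : ℕ} (hm : ¬ p ∣ m) : ∀ k : ℕ, a (p ^ k * m) = a (p ^ k) * a m
  | 0 => by simp [ha1]
  | 1 => by
      have h := hT p hp hpN m
      rw [if_neg hm, mul_zero, add_zero] at h
      simpa using h
  | (k + 2) => by
      have ih0 := HeckeRel.prime_pow_mul hT ha1 hp hpN hm k
      have ih1 := HeckeRel.prime_pow_mul hT ha1 hp hpN hm (k + 1)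
      have h := hT p hp hpN (p ^ (k + 1) * m)
      have hdvd : p ∣ p ^ (k + 1) * m := Dvd.dvd.mul_right (dvd_pow_self p (Nat.succ_ne_zero k)) m
      have hdiv : p ^ (k + 1) * m / p = p ^ k * m := by
        rw [pow_succ, mul_assoc, mul_comm p m, ← mul_assoc, Nat.mul_div_cancel _ hp.pos]
      rw [if_pos hdvd, hdiv, ← mul_assoc, ← pow_succ', ih0, ih1] at h
      have hs : a (p ^ (k + 2)) = a p * a (p ^ (k + 1)) - χ p * a (p ^ k) :=
        (hT.isHeckeSeq ha1 hp hpN).step k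
      rw [hs]
      linear_combination h

/-- Multiplicativity: `a (m n) = a m * a n` for coprime `m`, `n` with `m` prime to `N`. -/
lemma HeckeRel.mul_of_coprime (hT : HeckeRel N χ a) (ha1 : a 1 = 1) :
    ∀ m : ℕ, m.Coprime N → ∀ n : ℕ, m.Coprime n → a (m * n) = a m * a n := by
  intro m
  induction m using Nat.recOnPrimeCoprime with
  | zero =>
    intro _ n hn
    have : n = 1 := by simpa using hn
    subst this
    simp [ha1]
  | prime_pow p k hp =>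
    intro hN n hn
    rcases k with _ | k
    · simp [ha1]
    · have hpN : ¬ p ∣ N := by
        have := (Nat.coprime_pow_left_iff (Nat.succ_pos k) p N).mp hN
        exact (Nat.Prime.coprime_iff_not_dvd hp).mp this
      have hpn : ¬ p ∣ n := by
        have := (Nat.coprime_pow_left_iff (Nat.succ_pos k) p n).mp hn
        exact (Nat.Prime.coprime_iff_not_dvd hp).mp this
      exact hT.prime_pow_mul ha1 hp hpN hpn (k + 1)
  | coprime x y _ _ hxy ihx ihy =>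
    intro hN n hn
    have hxN : x.Coprime N := Nat.Coprime.coprime_mul_right hN
    have hyN : y.Coprime N := Nat.Coprime.coprime_mul_left hN
    have hxn : x.Coprime n := Nat.Coprime.coprime_mul_right hn
    have hyn : y.Coprime n := Nat.Coprime.coprime_mul_left hn
    rw [mul_assoc, ihx hxN (y * n) (Nat.Coprime.mul_right hxy hxn), ihy hyN n hyn,
      ihx hxN y hxy]
    ring


/-! ### The Dirichlet series `∑_{(n,N)=1} ‖a n‖² n^{-s}` -/

/-- The coefficients `‖a n‖² n^{-s}` restricted to `n` prime to `N`. -/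
noncomputable def rankC (N : ℕ) (a : ℕ → ℂ) (s : ℝ) (n : ℕ) : ℝ :=
  if n.Coprime N then ‖a n‖ ^ 2 / (n : ℝ) ^ s else 0

lemma rankC_nonneg (N : ℕ) (a : ℕ → ℂ) (s : ℝ) (n : ℕ) : 0 ≤ rankC N a s n := by
  unfold rankC
  split_ifs
  · positivity
  · exact le_rfl

lemma rankC_le (N : ℕ) (a : ℕ → ℂ) (s : ℝ) (n : ℕ) :
    rankC N a s n ≤ ‖a n‖ ^ 2 / (n : ℝ) ^ s := by
  unfold rankC
  split_ifs
  · exact le_rfl
  · positivity

lemma rankC_one (N : ℕ) {a : ℕ → ℂ} (ha1 : a 1 = 1) (s : ℝ) : rankC N a s 1 = 1 := by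
  simp [rankC, ha1]

lemma rankC_mul (hT : HeckeRel N χ a) (ha1 : a 1 = 1) (s : ℝ) {m n : ℕ} (h : m.Coprime n) :
    rankC N a s (m * n) = rankC N a s m * rankC N a s n := by
  unfold rankC
  by_cases hm : m.Coprime N
  · by_cases hn : n.Coprime N
    · rw [if_pos hm, if_pos hn, if_pos (Nat.Coprime.mul_left hm hn), hT.mul_of_coprime ha1 m hm n h,
        norm_mul, mul_pow, Nat.cast_mul, Real.mul_rpow (Nat.cast_nonneg m) (Nat.cast_nonneg n),
        mul_div_mul_comm]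
    · have : ¬ (m * n).Coprime N := fun hc => hn (Nat.Coprime.coprime_mul_left hc)
      rw [if_neg hn, if_neg this, mul_zero]
  · have : ¬ (m * n).Coprime N := fun hc => hm (Nat.Coprime.coprime_mul_right hc)
    rw [if_neg hm, if_neg this, zero_mul]

lemma rankC_prime_pow {p : ℕ} (hp : p.Prime) (hpN : ¬ p ∣ N) (a : ℕ → ℂ) (s : ℝ) (e : ℕ) :
    rankC N a s (p ^ e) = ‖a (p ^ e)‖ ^ 2 * (((p : ℝ) ^ s)⁻¹) ^ e := by
  have hc : (p ^ e).Coprime N :=
    Nat.Coprime.pow_left e ((Nat.Prime.coprime_iff_not_dvd hp).mpr hpN)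
  unfold rankC
  rw [if_pos hc, div_eq_mul_inv, Nat.cast_pow, ← Real.rpow_natCast _ e,
    ← Real.rpow_mul (Nat.cast_nonneg p), mul_comm (e : ℝ) s, Real.rpow_mul (Nat.cast_nonneg p),
    Real.rpow_natCast, inv_pow]

lemma sum_range_rankC_le {C₀ : ℝ} (hC₀ : 0 ≤ C₀)
    (hS : ∀ X : ℕ, 1 ≤ X → ∑ n ∈ range (X + 1), ‖a n‖ ^ 2 ≤ C₀ * X) {s : ℝ} (hs : 1 < s)
    (m : ℕ) : ∑ n ∈ range m, rankC N a s n ≤ C₀ * (1 + 1 / (s - 1)) := by
  have hD : 0 ≤ C₀ * (1 + 1 / (s - 1)) := by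
    have : 0 < 1 / (s - 1) := div_pos one_pos (by linarith)
    positivity
  have hb : ∀ n : ℕ, ∑ i ∈ range n, ‖a (i + 1)‖ ^ 2 ≤ C₀ * n := by
    intro n
    rcases n with _ | n
    · simp
    · have h := hS (n + 1) (Nat.succ_pos n)
      rw [sum_range_succ' _ (n + 1)] at h
      have h0 : 0 ≤ ‖a 0‖ ^ 2 := by positivity
      linarith
  rcases m with _ | m
  · simpa using hD
  · calc ∑ n ∈ range (m + 1), rankC N a s n
        ≤ ∑ n ∈ range (m + 1), ‖a n‖ ^ 2 / (n : ℝ) ^ s :=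
          sum_le_sum (fun n _ => rankC_le N a s n)
      _ = ∑ i ∈ range m, ‖a (i + 1)‖ ^ 2 / ((i : ℝ) + 1) ^ s := by
          rw [sum_range_succ']
          have hs0 : s ≠ 0 := by linarith
          simp [Real.zero_rpow hs0]
      _ ≤ C₀ * (1 + 1 / (s - 1)) := sum_div_rpow_le (b := fun n => ‖a n‖ ^ 2) hC₀ hb hs m


/-- The constant `∑ 1/n²` absorbing `∑_p -log (1 - p^{-2s})`. -/
noncomputable def rankZ : ℝ := ∑' n : ℕ, 1 / (n : ℝ) ^ 2

lemma inv_rpow_le_half {p : ℕ} (hp : p.Prime) {s : ℝ} (hs : 1 < s) :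
    ((p : ℝ) ^ s)⁻¹ ≤ 1 / 2 ∧ ((p : ℝ) ^ s)⁻¹ ≤ 1 / (p : ℝ) ∧ 0 < ((p : ℝ) ^ s)⁻¹ := by
  have hp2 : (2 : ℝ) ≤ p := by exact_mod_cast hp.two_le
  have hp1 : (1 : ℝ) ≤ p := by linarith
  have h1 : (p : ℝ) ^ (1 : ℝ) ≤ (p : ℝ) ^ s := Real.rpow_le_rpow_of_exponent_le hp1 hs.le
  rw [Real.rpow_one] at h1
  have hpos : (0 : ℝ) < (p : ℝ) ^ s := by positivity
  have hppos : (0 : ℝ) < p := by linarith
  refine ⟨?_, ?_, inv_pos.mpr hpos⟩
  · rw [inv_le_comm₀ hpos (by norm_num)]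
    simp only [one_div, inv_inv]
    linarith
  · rw [one_div]
    exact inv_anti₀ hppos h1

/-- **Rankin's bound, abstract form.**  Let `a : ℕ → ℂ` satisfy `a 1 = 1`, the Hecke relations
at the primes not dividing `N` with unitary character values, and `∑_{n ≤ X} ‖a n‖² ≤ C₀ X`.
Then `∑_{p ∈ P} ‖a p‖² / p^s ≤ log (1/(s-1)) + C` for `1 < s ≤ 2`, uniformly in the finite set
`P` of primes not dividing `N`. -/
theorem rankin_abstract (hT : HeckeRel N χ a) (ha1 : a 1 = 1)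
    (hχ : ∀ p : ℕ, p.Prime → ¬ p ∣ N → ‖χ p‖ = 1) {C₀ : ℝ}
    (hS : ∀ X : ℕ, 1 ≤ X → ∑ n ∈ range (X + 1), ‖a n‖ ^ 2 ≤ C₀ * X) :
    ∃ C : ℝ, ∀ s : ℝ, 1 < s → s ≤ 2 → ∀ P : Finset ℕ, (∀ p ∈ P, p.Prime ∧ ¬ p ∣ N) →
      ∑ p ∈ P, ‖a p‖ ^ 2 / (p : ℝ) ^ s ≤ Real.log (1 / (s - 1)) + C := by
  set C₁ : ℝ := max C₀ 1 with hC₁
  have hC₁1 : 1 ≤ C₁ := le_max_right _ _
  have hC₁0 : 0 ≤ C₁ := by linarith
  have hS' : ∀ X : ℕ, 1 ≤ X → ∑ n ∈ range (X + 1), ‖a n‖ ^ 2 ≤ C₁ * X := by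
    intro X hX
    refine (hS X hX).trans ?_
    exact mul_le_mul_of_nonneg_right (le_max_left _ _) (Nat.cast_nonneg X)
  refine ⟨Real.log (2 * C₁) + 2 * rankZ, fun s hs hs2 P hP => ?_⟩
  have hs1 : 0 < s - 1 := by linarith
  set D : ℝ := C₁ * (1 + 1 / (s - 1)) with hD
  have hinv : 0 < 1 / (s - 1) := div_pos one_pos hs1
  have hDpos : 0 < D := by positivity
  -- summability and the total bound
  have hpart := sum_range_rankC_le (N := N) (a := a) hC₁0 hS' hs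
  have hsumm : Summable (rankC N a s) :=
    summable_of_sum_range_le (rankC_nonneg N a s) hpart
  have htsum : ∑' n, rankC N a s n ≤ D :=
    Real.tsum_le_of_sum_range_le (rankC_nonneg N a s) hpart
  -- Euler product over `P`
  have hfilter : P.filter Nat.Prime = P := filter_true_of_mem (fun p hp => (hP p hp).1)
  have hE := EulerProduct.prod_filter_prime_tsum_eq_tsum_factoredNumbers
    (f := rankC N a s) (rankC_one N ha1 s) (fun h => rankC_mul hT ha1 s h) hsumm.norm P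
  rw [hfilter] at hE
  have hsub : ∑' m : Nat.factoredNumbers P, rankC N a s m ≤ ∑' n, rankC N a s n :=
    hsumm.tsum_subtype_le _ (Nat.factoredNumbers P) (rankC_nonneg N a s)
  -- local bounds
  have hloc : ∀ p ∈ P, (1 - (((p : ℝ) ^ s)⁻¹) ^ 2) * Real.exp (‖a p‖ ^ 2 * ((p : ℝ) ^ s)⁻¹) ≤
      ∑' e : ℕ, rankC N a s (p ^ e) := by
    intro p hp
    obtain ⟨hpp, hpN⟩ := hP p hp
    obtain ⟨hX2, -, hX0⟩ := inv_rpow_le_half hpp hs
    have hsp : Summable (fun e : ℕ => rankC N a s (p ^ e)) :=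
      hsumm.comp_injective (Nat.pow_right_injective hpp.two_le)
    refine (hT.isHeckeSeq ha1 hpp hpN).local_bound (hχ p hpp hpN) hX0.le (by linarith) ?_
    intro K
    have := hsp.sum_le_tsum (range K) (fun e _ => rankC_nonneg N a s (p ^ e))
    refine le_trans (le_of_eq ?_) this
    apply sum_congr rfl
    intro e _
    exact (rankC_prime_pow hpp hpN a s e).symm
  have hfac0 : ∀ p ∈ P, 0 ≤ (1 - (((p : ℝ) ^ s)⁻¹) ^ 2) *
      Real.exp (‖a p‖ ^ 2 * ((p : ℝ) ^ s)⁻¹) := by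
    intro p hp
    obtain ⟨hX2, -, hX0⟩ := inv_rpow_le_half (hP p hp).1 hs
    have : 0 ≤ 1 - (((p : ℝ) ^ s)⁻¹) ^ 2 := by nlinarith
    positivity
  have hprod : ∏ p ∈ P, (1 - (((p : ℝ) ^ s)⁻¹) ^ 2) * Real.exp (‖a p‖ ^ 2 * ((p : ℝ) ^ s)⁻¹) ≤ D :=
    calc _ ≤ ∏ p ∈ P, ∑' e : ℕ, rankC N a s (p ^ e) := prod_le_prod hfac0 hloc
      _ = ∑' m : Nat.factoredNumbers P, rankC N a s m := hE
      _ ≤ D := hsub.trans htsum
  -- take logarithms
  have hexp : Real.exp (∑ p ∈ P, (‖a p‖ ^ 2 * ((p : ℝ) ^ s)⁻¹ +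
      Real.log (1 - (((p : ℝ) ^ s)⁻¹) ^ 2))) =
      ∏ p ∈ P, (1 - (((p : ℝ) ^ s)⁻¹) ^ 2) * Real.exp (‖a p‖ ^ 2 * ((p : ℝ) ^ s)⁻¹) := by
    rw [Real.exp_sum]
    apply prod_congr rfl
    intro p hp
    obtain ⟨hX2, -, hX0⟩ := inv_rpow_le_half (hP p hp).1 hs
    have hpos : 0 < 1 - (((p : ℝ) ^ s)⁻¹) ^ 2 := by nlinarith
    rw [Real.exp_add, Real.exp_log hpos, mul_comm]
  have hlog : ∑ p ∈ P, (‖a p‖ ^ 2 * ((p : ℝ) ^ s)⁻¹ +
      Real.log (1 - (((p : ℝ) ^ s)⁻¹) ^ 2)) ≤ Real.log D := by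
    rw [Real.le_log_iff_exp_le hDpos, hexp]
    exact hprod
  -- the correction terms
  have hcorr : ∀ p ∈ P, -(2 * (1 / (p : ℝ) ^ 2)) ≤ Real.log (1 - (((p : ℝ) ^ s)⁻¹) ^ 2) := by
    intro p hp
    obtain ⟨hX2, hXp, hX0⟩ := inv_rpow_le_half (hP p hp).1 hs
    set X := ((p : ℝ) ^ s)⁻¹ with hXdef
    have hXsq : X ^ 2 ≤ 1 / 4 := by nlinarith
    have hpos : 0 < 1 - X ^ 2 := by nlinarith
    have h1 := Real.one_sub_inv_le_log_of_pos hpos
    have h2 : -(2 * X ^ 2) ≤ 1 - (1 - X ^ 2)⁻¹ := by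
      rw [show 1 - (1 - X ^ 2)⁻¹ = -(X ^ 2 / (1 - X ^ 2)) by field_simp; ring]
      rw [neg_le_neg_iff, div_le_iff₀ hpos]
      nlinarith [sq_nonneg X]
    have h3 : X ^ 2 ≤ 1 / (p : ℝ) ^ 2 := by
      rw [← one_div_pow]
      exact pow_le_pow_left₀ hX0.le hXp 2
    linarith
  have hZ : ∑ p ∈ P, 1 / (p : ℝ) ^ 2 ≤ rankZ := by
    have hsum2 : Summable (fun n : ℕ => 1 / (n : ℝ) ^ 2) :=
      Real.summable_one_div_nat_pow.mpr one_lt_two
    exact hsum2.sum_le_tsum P (fun n _ => by positivity)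
  have hDle : Real.log D ≤ Real.log (2 * C₁) + Real.log (1 / (s - 1)) := by
    rw [← Real.log_mul (by positivity) (by positivity)]
    apply Real.log_le_log hDpos
    rw [hD]
    have : 1 + 1 / (s - 1) ≤ 2 * (1 / (s - 1)) := by
      have h1 : 1 ≤ 1 / (s - 1) := by
        rw [le_div_iff₀ hs1]; linarith
      linarith
    calc C₁ * (1 + 1 / (s - 1)) ≤ C₁ * (2 * (1 / (s - 1))) :=
          mul_le_mul_of_nonneg_left this hC₁0
      _ = 2 * C₁ * (1 / (s - 1)) := by ring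
  have hsplit : ∑ p ∈ P, (‖a p‖ ^ 2 * ((p : ℝ) ^ s)⁻¹ +
      Real.log (1 - (((p : ℝ) ^ s)⁻¹) ^ 2)) =
      ∑ p ∈ P, ‖a p‖ ^ 2 / (p : ℝ) ^ s + ∑ p ∈ P, Real.log (1 - (((p : ℝ) ^ s)⁻¹) ^ 2) := by
    rw [sum_add_distrib]
    simp only [div_eq_mul_inv]
  have hcorr' : -(2 * rankZ) ≤ ∑ p ∈ P, Real.log (1 - (((p : ℝ) ^ s)⁻¹) ^ 2) := by
    calc -(2 * rankZ) ≤ -(2 * ∑ p ∈ P, 1 / (p : ℝ) ^ 2) := by linarith
      _ = ∑ p ∈ P, -(2 * (1 / (p : ℝ) ^ 2)) := by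
          rw [mul_sum, ← sum_neg_distrib]
      _ ≤ _ := sum_le_sum hcorr
  rw [hsplit] at hlog
  linarith

end Fermat.Agent.T4.helper39
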