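import Mathlib

/-!
# T4 [DS-RANKIN], part D (helper39): partial sums of `|a_n|²` by Parseval

For a cusp form `f` of weight `k` on `Γ₁(N)` with `q`-expansion `∑ a_n q^n`:

* `sum_norm_sq_coeff_mul_exp_le`: Bessel's inequality on the horizontal line `Im τ = y`;
* `exists_sum_norm_sq_coeff_le`: `∑_{n ≤ X} ‖a_n‖² ≤ C X^k`.

Mathlib only (`hasSum_sq_fourierCoeffOn`, `qExpansion_coeff_eq_intervalIntegral`,
`CuspFormClass.exists_bound`).
-/

open UpperHalfPlane ModularFormClass CongruenceSubgroup MeasureTheory Set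
open scoped Real MatrixGroups

namespace Fermat.Agent.T4.helper39

local notation "𝕢" => Function.Periodic.qParam

variable {N : ℕ} {k : ℤ}

lemma one_mem_strictPeriods_Gamma1 (N : ℕ) :
    (1 : ℝ) ∈ (Gamma1 N : Subgroup (GL (Fin 2) ℝ)).strictPeriods := by
  rw [strictPeriods_Gamma1]
  exact AddSubgroup.mem_zmultiples 1

/-- The restriction of `f` to the horizontal line of height `y`. -/
noncomputable def lineFun (f : CuspForm (Gamma1 N) k) (y : ℝ) (hy : 0 < y) : ℝ → ℂ :=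
  fun x => f ⟨(x : ℂ) + y * Complex.I, by simpa using hy⟩

lemma continuous_lineFun (f : CuspForm (Gamma1 N) k) (y : ℝ) (hy : 0 < y) :
    Continuous (lineFun f y hy) := by
  unfold lineFun
  fun_prop

lemma qParam_one_pow (x y : ℝ) (n : ℕ) :
    1 / 𝕢 1 ((x : ℂ) + y * Complex.I) ^ n =
      Complex.exp (2 * π * n * y) * Complex.exp (2 * π * Complex.I * (-(n : ℤ) : ℤ) * x / (1 - 0 : ℝ)) := by
  rw [Function.Periodic.qParam, ← Complex.exp_nat_mul, one_div, ← Complex.exp_neg,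
    ← Complex.exp_add]
  congr 1
  push_cast
  have := Complex.I_mul_I
  ring_nf
  rw [Complex.I_sq]
  ring

lemma fourierCoeffOn_lineFun (f : CuspForm (Gamma1 N) k) (y : ℝ) (hy : 0 < y) (n : ℕ) :
    (qExpansion 1 f).coeff n =
      Complex.exp (2 * π * n * y) * fourierCoeffOn (zero_lt_one' ℝ) (lineFun f y hy) (n : ℤ) := by
  rw [ModularFormClass.qExpansion_coeff_eq_intervalIntegral (h := 1) f one_pos
    (one_mem_strictPeriods_Gamma1 N) n hy, fourierCoeffOn_eq_integral]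
  simp only [one_mul, sub_zero, div_one, one_smul, Complex.ofReal_one]
  rw [← intervalIntegral.integral_const_mul]
  congr 1 with x
  rw [fourier_coe_apply, smul_eq_mul]
  have h := qParam_one_pow x y n
  simp only [sub_zero, Complex.ofReal_one, div_one, one_div] at h ⊢
  rw [h]
  unfold lineFun
  ring


/-- **Bessel on a horizontal line**: if `‖f‖ ≤ B` on the line `Im τ = y`, then
`∑_{n ∈ s} ‖a_n‖² e^{-4π n y} ≤ B²`. -/
lemma sum_norm_sq_coeff_mul_exp_le (f : CuspForm (Gamma1 N) k) {y : ℝ} (hy : 0 < y) {B : ℝ}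
    (hB : ∀ x : ℝ, ‖lineFun f y hy x‖ ≤ B) (s : Finset ℕ) :
    ∑ n ∈ s, ‖(qExpansion 1 f).coeff n‖ ^ 2 * Real.exp (-(4 * π * n * y)) ≤ B ^ 2 := by
  have hB0 : 0 ≤ B := (norm_nonneg _).trans (hB 0)
  have hcont := continuous_lineFun f y hy
  have hL2 : MemLp (lineFun f y hy) 2 (volume.restrict (Ioc (0 : ℝ) 1)) :=
    MemLp.of_bound hcont.aestronglyMeasurable B (Filter.Eventually.of_forall hB)
  have hsum := hasSum_sq_fourierCoeffOn (zero_lt_one' ℝ) hL2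
  have hint : ((1 : ℝ) - 0)⁻¹ • ∫ x in (0 : ℝ)..1, ‖lineFun f y hy x‖ ^ 2 ≤ B ^ 2 := by
    simp only [sub_zero, inv_one, one_smul]
    have h1 : ∀ x ∈ Set.uIoc (0 : ℝ) 1, ‖‖lineFun f y hy x‖ ^ 2‖ ≤ B ^ 2 := by
      intro x _
      rw [Real.norm_of_nonneg (by positivity)]
      exact pow_le_pow_left₀ (norm_nonneg _) (hB x) 2
    have h2 := intervalIntegral.norm_integral_le_of_norm_le_const h1
    simp only [sub_zero, abs_one, mul_one] at h2
    exact (Real.le_norm_self _).trans h2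
  have hterm : ∀ n : ℕ, ‖(qExpansion 1 f).coeff n‖ ^ 2 * Real.exp (-(4 * π * n * y)) =
      ‖fourierCoeffOn (zero_lt_one' ℝ) (lineFun f y hy) (n : ℤ)‖ ^ 2 := by
    intro n
    rw [fourierCoeffOn_lineFun f y hy n, norm_mul, mul_pow, Complex.norm_exp]
    have : (2 * (π : ℂ) * n * y).re = 2 * π * n * y := by
      have : (2 * (π : ℂ) * n * y) = ((2 * π * n * y : ℝ) : ℂ) := by push_cast; ring
      rw [this, Complex.ofReal_re]
    rw [this, ← Real.exp_nat_mul, mul_comm, ← mul_assoc, ← Real.exp_add]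
    have : -(4 * π * n * y) + (2 : ℕ) * (2 * π * n * y) = 0 := by push_cast; ring
    rw [this, Real.exp_zero, one_mul]
  calc ∑ n ∈ s, ‖(qExpansion 1 f).coeff n‖ ^ 2 * Real.exp (-(4 * π * n * y))
      = ∑ n ∈ s, ‖fourierCoeffOn (zero_lt_one' ℝ) (lineFun f y hy) (n : ℤ)‖ ^ 2 :=
        Finset.sum_congr rfl (fun n _ => hterm n)
    _ = ∑ i ∈ s.map Nat.castEmbedding,
          ‖fourierCoeffOn (zero_lt_one' ℝ) (lineFun f y hy) i‖ ^ 2 := by
        rw [Finset.sum_map]; rfl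
    _ ≤ ((1 : ℝ) - 0)⁻¹ • ∫ x in (0 : ℝ)..1, ‖lineFun f y hy x‖ ^ 2 :=
        sum_le_hasSum _ (fun i _ => by positivity) hsum
    _ ≤ B ^ 2 := hint


/-- **Partial sums of `|a_n|²`** (Parseval + the bound `‖f τ‖ ≤ C (Im τ)^(-k/2)`): for a cusp
form of weight `k` on `Γ₁(N)`, `∑_{n ≤ X} ‖a_n‖² ≤ C X^k`. -/
theorem exists_sum_norm_sq_coeff_le [NeZero N] (f : CuspForm (Gamma1 N) k) :
    ∃ C : ℝ, 0 ≤ C ∧ ∀ X : ℕ, 1 ≤ X →
      ∑ n ∈ Finset.range (X + 1), ‖(qExpansion 1 f).coeff n‖ ^ 2 ≤ C * (X : ℝ) ^ (k : ℝ) := by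
  obtain ⟨C, hC⟩ := CuspFormClass.exists_bound f
  refine ⟨Real.exp (4 * π) * C ^ 2, by positivity, fun X hX => ?_⟩
  have hXpos : (0 : ℝ) < X := by exact_mod_cast hX
  have hy : (0 : ℝ) < (X : ℝ)⁻¹ := inv_pos.mpr hXpos
  have hB : ∀ x : ℝ, ‖lineFun f (X : ℝ)⁻¹ hy x‖ ≤ C / ((X : ℝ)⁻¹) ^ ((k : ℝ) / 2) := by
    intro x
    have := hC ⟨(x : ℂ) + ((X : ℝ)⁻¹ : ℝ) * Complex.I, by simpa using hy⟩
    simpa [lineFun, UpperHalfPlane.im] using this
  have hmain := sum_norm_sq_coeff_mul_exp_le f hy hB (Finset.range (X + 1))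
  have hBsq : (C / ((X : ℝ)⁻¹) ^ ((k : ℝ) / 2)) ^ 2 = C ^ 2 * (X : ℝ) ^ (k : ℝ) := by
    rw [div_pow, ← Real.rpow_natCast (((X : ℝ)⁻¹) ^ ((k : ℝ) / 2)) 2, ← Real.rpow_mul hy.le,
      Real.inv_rpow hXpos.le]
    have : (k : ℝ) / 2 * ((2 : ℕ) : ℝ) = k := by push_cast; ring
    rw [this, div_inv_eq_mul]
  rw [hBsq] at hmain
  have hlow : ∑ n ∈ Finset.range (X + 1), ‖(qExpansion 1 f).coeff n‖ ^ 2 * Real.exp (-(4 * π)) ≤
      ∑ n ∈ Finset.range (X + 1),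
        ‖(qExpansion 1 f).coeff n‖ ^ 2 * Real.exp (-(4 * π * n * (X : ℝ)⁻¹)) := by
    apply Finset.sum_le_sum
    intro n hn
    apply mul_le_mul_of_nonneg_left _ (by positivity)
    apply Real.exp_le_exp.mpr
    have hnX : (n : ℝ) ≤ X := by
      have := Finset.mem_range.mp hn
      exact_mod_cast Nat.lt_succ_iff.mp this
    have h1 : (n : ℝ) * (X : ℝ)⁻¹ ≤ 1 := by
      rw [← div_eq_mul_inv]
      exact (div_le_one hXpos).mpr hnX
    have hpi : 0 < π := Real.pi_pos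
    nlinarith
  rw [← Finset.sum_mul] at hlow
  have hfin := hlow.trans hmain
  have hexp : Real.exp (4 * π) * Real.exp (-(4 * π)) = 1 := by
    rw [← Real.exp_add]; simp
  calc ∑ n ∈ Finset.range (X + 1), ‖(qExpansion 1 f).coeff n‖ ^ 2
      = Real.exp (4 * π) *
          ((∑ n ∈ Finset.range (X + 1), ‖(qExpansion 1 f).coeff n‖ ^ 2) * Real.exp (-(4 * π))) := by
        rw [mul_comm (∑ n ∈ Finset.range (X + 1), ‖(qExpansion 1 f).coeff n‖ ^ 2), ← mul_assoc,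
          hexp, one_mul]
    _ ≤ Real.exp (4 * π) * (C ^ 2 * (X : ℝ) ^ (k : ℝ)) :=
        mul_le_mul_of_nonneg_left hfin (by positivity)
    _ = Real.exp (4 * π) * C ^ 2 * (X : ℝ) ^ (k : ℝ) := by ring

end Fermat.Agent.T4.helper39
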