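import Mathlib
import Fermat.Prelude.Def_FLTPrelim_Modularity
import Fermat.Agent.T4.helper39_RankinParseval
import Fermat.Agent.T4.helper39_RankinEuler

/-!
# T4 [DS-RANKIN] (helper39, task 955): Rankin's bound for weight-one Hecke eigensystems

Hypotheses VERBATIM as in frozen S48 (`f : CuspForm (Gamma1 N) 1`, `a_1 = 1`, Hecke relations off
`N` with a Dirichlet character `ε`).  Conclusion (Deligne-Serre (5.1), with the sharp constant):

  `∑_{p ∈ P} ‖a_p‖² / p^s ≤ log (1/(s-1)) + C`   for `1 < s ≤ 2`,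

uniformly in the finite set `P` of primes not dividing `N`.  No Rankin-Selberg continuation:
Parseval on horizontal lines + positivity of the local factors.
-/

open CongruenceSubgroup UpperHalfPlane

namespace Fermat.Agent.T4.helper39

open Finset

lemma qCoeff_eq {N : ℕ} (f : CuspForm (Gamma1 N) 1) (n : ℕ) :
    ModularFormClass.qCoeff f n = (qExpansion 1 f).coeff n := rfl

/-- Character values at primes not dividing the level have norm one. -/
lemma norm_dirichlet_prime {N : ℕ} [NeZero N] (ε : DirichletCharacter ℂ N) {p : ℕ}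
    (hp : p.Prime) (hpN : ¬ p ∣ N) : ‖ε (p : ZMod N)‖ = 1 := by
  have hc : p.Coprime N := (Nat.Prime.coprime_iff_not_dvd hp).mpr hpN
  have := DirichletCharacter.unit_norm_eq_one ε (ZMod.unitOfCoprime p hc)
  simpa using this

/-- Partial sums of `‖a_n‖²` for a weight-one cusp form on `Γ₁(N)` are `O(X)`. -/
theorem exists_sum_norm_sq_qCoeff_le {N : ℕ} [NeZero N] (f : CuspForm (Gamma1 N) 1) :
    ∃ C : ℝ, 0 ≤ C ∧ ∀ X : ℕ, 1 ≤ X →
      ∑ n ∈ range (X + 1), ‖ModularFormClass.qCoeff f n‖ ^ 2 ≤ C * X := by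
  obtain ⟨C, hC0, hC⟩ := exists_sum_norm_sq_coeff_le f
  refine ⟨C, hC0, fun X hX => ?_⟩
  have := hC X hX
  simpa [qCoeff_eq] using this

/-- The hypothesis `hT` of frozen S48 is a `HeckeRel`. -/
lemma heckeRel_of_hT {N : ℕ} (ε : DirichletCharacter ℂ N) (f : CuspForm (Gamma1 N) 1)
    (hT : ∀ p : ℕ, p.Prime → ¬ p ∣ N → ∀ n : ℕ,
        ModularFormClass.qCoeff f (p * n) +
            ε (p : ZMod N) * (if p ∣ n then ModularFormClass.qCoeff f (n / p) else 0) =
          ModularFormClass.qCoeff f p * ModularFormClass.qCoeff f n) :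
    HeckeRel N (fun p => ε (p : ZMod N)) (fun n => ModularFormClass.qCoeff f n) :=
  hT

/-- **Rankin's bound** (Deligne-Serre (5.1)) under the hypotheses of frozen S48. -/
theorem rankin_bound (N : ℕ) [NeZero N] (ε : DirichletCharacter ℂ N) (f : CuspForm (Gamma1 N) 1)
    (hf₁ : ModularFormClass.qCoeff f 1 = 1)
    (hT : ∀ p : ℕ, p.Prime → ¬ p ∣ N → ∀ n : ℕ,
        ModularFormClass.qCoeff f (p * n) +
            ε (p : ZMod N) * (if p ∣ n then ModularFormClass.qCoeff f (n / p) else 0) =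
          ModularFormClass.qCoeff f p * ModularFormClass.qCoeff f n) :
    ∃ C : ℝ, ∀ s : ℝ, 1 < s → s ≤ 2 → ∀ P : Finset ℕ, (∀ p ∈ P, p.Prime ∧ ¬ p ∣ N) →
      ∑ p ∈ P, ‖ModularFormClass.qCoeff f p‖ ^ 2 / (p : ℝ) ^ s ≤
        Real.log (1 / (s - 1)) + C := by
  obtain ⟨C₀, -, hS⟩ := exists_sum_norm_sq_qCoeff_le f
  exact rankin_abstract (heckeRel_of_hT ε f hT) hf₁
    (fun p hp hpN => norm_dirichlet_prime ε hp hpN) hS

/-- `tsum` form of `rankin_bound`, over the primes not dividing `N`. -/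
theorem rankin_bound_tsum (N : ℕ) [NeZero N] (ε : DirichletCharacter ℂ N)
    (f : CuspForm (Gamma1 N) 1)
    (hf₁ : ModularFormClass.qCoeff f 1 = 1)
    (hT : ∀ p : ℕ, p.Prime → ¬ p ∣ N → ∀ n : ℕ,
        ModularFormClass.qCoeff f (p * n) +
            ε (p : ZMod N) * (if p ∣ n then ModularFormClass.qCoeff f (n / p) else 0) =
          ModularFormClass.qCoeff f p * ModularFormClass.qCoeff f n) :
    ∃ C : ℝ, ∀ s : ℝ, 1 < s → s ≤ 2 →
      Summable (fun p : {p : ℕ // p.Prime ∧ ¬ p ∣ N} =>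
        ‖ModularFormClass.qCoeff f p‖ ^ 2 / ((p : ℕ) : ℝ) ^ s) ∧
      ∑' p : {p : ℕ // p.Prime ∧ ¬ p ∣ N},
        ‖ModularFormClass.qCoeff f p‖ ^ 2 / ((p : ℕ) : ℝ) ^ s ≤ Real.log (1 / (s - 1)) + C := by
  obtain ⟨C, hC⟩ := rankin_bound N ε f hf₁ hT
  refine ⟨C, fun s hs hs2 => ?_⟩
  have hnn : ∀ p : {p : ℕ // p.Prime ∧ ¬ p ∣ N},
      0 ≤ ‖ModularFormClass.qCoeff f p‖ ^ 2 / ((p : ℕ) : ℝ) ^ s := fun p => by positivity
  have hfin : ∀ T : Finset {p : ℕ // p.Prime ∧ ¬ p ∣ N},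
      ∑ p ∈ T, ‖ModularFormClass.qCoeff f p‖ ^ 2 / ((p : ℕ) : ℝ) ^ s ≤
        Real.log (1 / (s - 1)) + C := by
    intro T
    have h := hC s hs hs2 (T.map (Function.Embedding.subtype _)) (by
      intro p hp
      obtain ⟨q, -, rfl⟩ := Finset.mem_map.mp hp
      exact q.2)
    rwa [Finset.sum_map] at h
  have hsum : Summable (fun p : {p : ℕ // p.Prime ∧ ¬ p ∣ N} =>
      ‖ModularFormClass.qCoeff f p‖ ^ 2 / ((p : ℕ) : ℝ) ^ s) :=
    summable_of_sum_le hnn hfin
  exact ⟨hsum, hsum.tsum_le_of_sum_le hfin⟩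

end Fermat.Agent.T4.helper39
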