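import Mathlib
import Fermat.Agent.T4.helper39_Rankin
import Fermat.Agent.T4.helper99_DSDefs
import Fermat.Agent.T4.helper80_EndgameDefs

/-!
# T4 [DS-RANKIN] wires (helper39): the Rankin bound in the two interface shapes of block (IV)

* `rankinStatement : helper99.RankinStatement`
* `rankinFormStatement : helper80.RankinFormStatement`
* `rankinBound_of_heckeRel`: `helper80.RankinBound N a` for an abstract Hecke system with
  partial sums `∑_{n ≤ X} ‖a n‖² ≤ C₀ X` (for the conjugate systems).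
-/

open CongruenceSubgroup

namespace Fermat.Agent.T4.helper39

open Finset

/-- From the finite-set form to `helper80.RankinBound`. -/
lemma rankinBound_of_finset {N : ℕ} {a : ℕ → ℂ}
    (h : ∃ C : ℝ, ∀ s : ℝ, 1 < s → s ≤ 2 → ∀ P : Finset ℕ, (∀ p ∈ P, p.Prime ∧ ¬ p ∣ N) →
      ∑ p ∈ P, ‖a p‖ ^ 2 / (p : ℝ) ^ s ≤ Real.log (1 / (s - 1)) + C) :
    helper80.RankinBound N a := by
  obtain ⟨C, hC⟩ := h
  refine ⟨C, fun s hs hs2 => ?_⟩
  have hnn : ∀ p : ℕ, 0 ≤ helper80.rankinTerm N a s p := by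
    intro p
    unfold helper80.rankinTerm
    apply Set.indicator_nonneg
    intro p _
    positivity
  have hfin : ∀ T : Finset ℕ, ∑ p ∈ T, helper80.rankinTerm N a s p ≤
      Real.log (1 / (s - 1)) + C := by
    intro T
    classical
    have h1 := hC s hs hs2.le (T.filter (fun p => p.Prime ∧ ¬ p ∣ N)) (by
      intro p hp
      exact (Finset.mem_filter.mp hp).2)
    refine le_trans (le_of_eq ?_) h1
    rw [Finset.sum_filter]
    apply Finset.sum_congr rfl
    intro p _
    unfold helper80.rankinTerm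
    by_cases hp : p.Prime ∧ ¬ p ∣ N
    · rw [Set.indicator_of_mem (by exact hp), if_pos hp, Real.rpow_neg (Nat.cast_nonneg p),
        div_eq_mul_inv]
    · rw [Set.indicator_of_notMem (by exact hp), if_neg hp]
  have hsum : Summable (helper80.rankinTerm N a s) := summable_of_sum_le hnn hfin
  exact ⟨hsum, hsum.tsum_le_of_sum_le hfin⟩

/-- `helper80.RankinBound` for an abstract Hecke system with linear partial sums of `‖a n‖²`. -/
theorem rankinBound_of_heckeRel {N : ℕ} {χ a : ℕ → ℂ} (hT : HeckeRel N χ a) (ha1 : a 1 = 1)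
    (hχ : ∀ p : ℕ, p.Prime → ¬ p ∣ N → ‖χ p‖ = 1) {C₀ : ℝ}
    (hS : ∀ X : ℕ, 1 ≤ X → ∑ n ∈ range (X + 1), ‖a n‖ ^ 2 ≤ C₀ * X) :
    helper80.RankinBound N a :=
  rankinBound_of_finset (rankin_abstract hT ha1 hχ hS)

/-- **[IV-RANKIN]** in the shape of `helper80_EndgameDefs`. -/
theorem rankinFormStatement : helper80.RankinFormStatement := by
  intro N _ ε f hf₁ hT
  exact rankinBound_of_finset (rankin_bound N ε f hf₁ hT)

/-- **Rankin bound** in the shape of `helper99_DSDefs`. -/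
theorem rankinStatement : helper99.RankinStatement := by
  intro N _ ε f hf
  obtain ⟨hf₁, hT⟩ := hf
  obtain ⟨C, hC⟩ := rankin_bound N ε f hf₁ hT
  refine ⟨C, fun s hs hs2 => ?_⟩
  have hnn : ∀ p : Nat.Primes,
      0 ≤ (if (p : ℕ) ∣ N then 0 else ‖ModularFormClass.qCoeff f p‖ ^ 2) *
        ((p : ℕ) : ℝ) ^ (-s) := by
    intro p
    split_ifs
    · simp
    · positivity
  have hfin : ∀ T : Finset Nat.Primes,
      ∑ p ∈ T, (if (p : ℕ) ∣ N then 0 else ‖ModularFormClass.qCoeff f p‖ ^ 2) *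
        ((p : ℕ) : ℝ) ^ (-s) ≤ Real.log (1 / (s - 1)) + C := by
    intro T
    classical
    have h1 := hC s hs hs2
      ((T.image (fun p : Nat.Primes => (p : ℕ))).filter (fun p => ¬ p ∣ N)) (by
      intro p hp
      obtain ⟨hp1, hp2⟩ := Finset.mem_filter.mp hp
      obtain ⟨q, -, rfl⟩ := Finset.mem_image.mp hp1
      exact ⟨q.2, hp2⟩)
    refine le_trans (le_of_eq ?_) h1
    have himg := Finset.sum_image (s := T) (g := fun p : Nat.Primes => (p : ℕ))
      (f := fun a : ℕ => if ¬ a ∣ N then ‖ModularFormClass.qCoeff f a‖ ^ 2 / (a : ℝ) ^ s else 0)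
      (fun x _ y _ h => Nat.Primes.coe_nat_injective h)
    rw [Finset.sum_filter]
    refine Eq.trans ?_ himg.symm
    apply Finset.sum_congr rfl
    intro p _
    by_cases hp : (p : ℕ) ∣ N
    · simp [hp]
    · have hp' : ¬ ((p : ℕ) ∣ N) := hp
      rw [if_neg hp, if_pos hp', Real.rpow_neg (Nat.cast_nonneg _), div_eq_mul_inv]
  have hsum : Summable (fun p : Nat.Primes =>
      (if (p : ℕ) ∣ N then 0 else ‖ModularFormClass.qCoeff f p‖ ^ 2) *
        ((p : ℕ) : ℝ) ^ (-s)) := summable_of_sum_le hnn hfin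
  exact ⟨hsum, hsum.tsum_le_of_sum_le hfin⟩

end Fermat.Agent.T4.helper39
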