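import Fermat.Agent.T4.helper78_VAlg
import Fermat.Prelude.Def_FLTPrelim_Modularity

/-!
# T4 / S48, block (V): integrality of the Hecke eigenvalues of the frozen S48 (helper78)

For `f : CuspForm (Gamma1 N) 1` with the hypotheses `hf₁`, `hT` of the frozen statement S48 and
all `q`-coefficients in one finitely generated subgroup of `ℂ` (`CoeffsInFG`): the coefficients
`a_n(f)`, `n > 0` prime to `N`, are algebraic integers and `ℚ(ε, a_p(f) : p ∤ N)` is a number
field.
-/

set_option autoImplicit false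

open CongruenceSubgroup

namespace Fermat.Agent.T4.helper78

/-- the values of a Dirichlet character are algebraic integers -/
lemma isIntegral_dirichlet {N : ℕ} [NeZero N] (ε : DirichletCharacter ℂ N) (x : ZMod N) :
    IsIntegral ℤ (ε x) := by
  by_cases hx : IsUnit x
  · obtain ⟨u, rfl⟩ := hx
    have hpow : (ε (u : ZMod N)) ^ (Fintype.card (ZMod N)ˣ) = 1 := by
      rw [← map_pow, ← Units.val_pow_eq_pow_val, pow_card_eq_one, Units.val_one, map_one]
    exact IsIntegral.of_pow Fintype.card_pos (by rw [hpow]; exact isIntegral_one)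
  · rw [ε.map_nonunit hx]
    exact isIntegral_zero

/-- the hypothesis `hT` of the frozen S48 is `HeckeRel` -/
lemma heckeRel_of_hT (N : ℕ) [NeZero N] (ε : DirichletCharacter ℂ N) (a : ℕ → ℂ)
    (hT : ∀ p : ℕ, p.Prime → ¬ p ∣ N → ∀ n : ℕ,
        a (p * n) + ε (p : ZMod N) * (if p ∣ n then a (n / p) else 0) = a p * a n) :
    HeckeRel N (fun p => ε (p : ZMod N)) a := hT

/-- **[V-ALG]** in the shape of the frozen S48. -/
theorem s48_integrality (N : ℕ) [NeZero N] (ε : DirichletCharacter ℂ N)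
    (f : CuspForm (Gamma1 N) 1) (hf₁ : ModularFormClass.qCoeff f 1 = 1)
    (hT : ∀ p : ℕ, p.Prime → ¬ p ∣ N → ∀ n : ℕ,
        ModularFormClass.qCoeff f (p * n) +
            ε (p : ZMod N) * (if p ∣ n then ModularFormClass.qCoeff f (n / p) else 0) =
          ModularFormClass.qCoeff f p * ModularFormClass.qCoeff f n)
    (hΛ : CoeffsInFG (ModularFormClass.qCoeff f)) :
    (∀ n : ℕ, 0 < n → n.Coprime N → IsIntegral ℤ (ModularFormClass.qCoeff f n)) ∧
      (heckeRing N (ModularFormClass.qCoeff f) (Set.range ε)).toSubmodule.FG ∧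
      FiniteDimensional ℚ
        (IntermediateField.adjoin ℚ (heckeGens N (ModularFormClass.qCoeff f) (Set.range ε))) := by
  obtain ⟨Λ, hfg, hmem⟩ := hΛ
  have hS : (Set.range ε).Finite := Set.finite_range _
  have hSint : ∀ x ∈ Set.range ε, IsIntegral ℤ x := by
    rintro _ ⟨y, rfl⟩
    exact isIntegral_dirichlet ε y
  have he : ∀ p : ℕ, p.Prime → ¬ p ∣ N → (fun p : ℕ => ε (p : ZMod N)) p ∈ Set.range ε :=
    fun p _ _ => ⟨_, rfl⟩
  have hrel := heckeRel_of_hT N ε _ hT
  exact ⟨fun n hn0 hn => isIntegral_coprime_of_heckeRel hf₁ hrel hS hSint he Λ hfg hmem n hn0 hn,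
    fg_heckeRing hf₁ hrel hS hSint he Λ hfg hmem,
    finiteDimensional_heckeField hf₁ hrel hS hSint he Λ hfg hmem⟩

end Fermat.Agent.T4.helper78
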