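import Mathlib

/-!
# T4 / S48, block (V): algebraicity and integrality of Hecke eigenvalues, abstract form (helper78)

Let `a : ℕ → ℂ` be a normalised sequence (`a 1 = 1`) satisfying the formal Hecke relations of the
frozen statement S48,
`a (p n) + e p * [p ∣ n] a (n / p) = a p * a n` for the primes `p ∤ N`,
where the values `e p` lie in a finite set `S` of algebraic integers.  If all the `a n` lie in one
finitely generated subgroup `Λ` of `ℂ` (e.g. `a` is a `ℂ`-linear combination of finitely many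
sequences with integer values), then the ring generated by `S` and the `a p` (`p ∤ N`) is a
finitely generated `ℤ`-module.  Hence the `a n`, `n` prime to `N`, are algebraic integers and
generate a number field.

* `HeckeRel N e a` : the relation;
* `fg_heckeRing` : the ring `ℤ[S, a p]` is a finitely generated `ℤ`-module;
* `isIntegral_of_heckeRel`, `isIntegral_coprime_of_heckeRel` : integrality of `a p`, `a n`;
* `finiteDimensional_heckeField` : `ℚ(S, a p)` is a number field;
* `exists_fg_of_span` : the hypothesis on `Λ` from a finite integral spanning set.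
-/

set_option autoImplicit false

namespace Fermat.Agent.T4.helper78

/-- the formal Hecke relations (shape of the hypothesis `hT` of the frozen S48) -/
def HeckeRel (N : ℕ) (e a : ℕ → ℂ) : Prop :=
  ∀ p : ℕ, p.Prime → ¬ p ∣ N → ∀ n : ℕ,
    a (p * n) + e p * (if p ∣ n then a (n / p) else 0) = a p * a n

/-- the generators of the Hecke ring: the finite set `S` and the eigenvalues `a p`, `p ∤ N` -/
def heckeGens (N : ℕ) (a : ℕ → ℂ) (S : Set ℂ) : Set ℂ :=
  S ∪ {x | ∃ p : ℕ, p.Prime ∧ ¬ p ∣ N ∧ x = a p}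

/-- the Hecke ring `ℤ[S, a p : p ∤ N]` -/
noncomputable def heckeRing (N : ℕ) (a : ℕ → ℂ) (S : Set ℂ) : Subalgebra ℤ ℂ :=
  Algebra.adjoin ℤ (heckeGens N a S)

section main

variable {N : ℕ} {e a : ℕ → ℂ} {S : Set ℂ}

/-- the `ℤ[S]`-span of the values `a n` -/
noncomputable def valSpan (a : ℕ → ℂ) (S : Set ℂ) : Submodule ℤ ℂ :=
  (Algebra.adjoin ℤ S).toSubmodule * Submodule.span ℤ (Set.range a)

lemma mul_mem_valSpan {c : ℂ} (hc : c ∈ Algebra.adjoin ℤ S) (n : ℕ) : c * a n ∈ valSpan a S :=
  Submodule.mul_mem_mul hc (Submodule.subset_span ⟨n, rfl⟩)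

/-- multiplication by an element of `ℤ[S]` preserves `valSpan` -/
lemma adjoin_mul_valSpan {c : ℂ} (hc : c ∈ Algebra.adjoin ℤ S) {t : ℂ} (ht : t ∈ valSpan a S) :
    c * t ∈ valSpan a S := by
  unfold valSpan at ht ⊢
  refine Submodule.mul_induction_on ht ?_ ?_
  · intro x hx y hy
    rw [← mul_assoc]
    exact Submodule.mul_mem_mul ((Algebra.adjoin ℤ S).mul_mem hc hx) hy
  · intro x y hx hy
    rw [mul_add]
    exact Submodule.add_mem _ hx hy

/-- multiplication by `a p` preserves `valSpan` -/
lemma eigen_mul_valSpan (hT : HeckeRel N e a) (he : ∀ p : ℕ, p.Prime → ¬ p ∣ N → e p ∈ S)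
    {p : ℕ} (hp : p.Prime) (hpN : ¬ p ∣ N) {t : ℂ} (ht : t ∈ valSpan a S) :
    a p * t ∈ valSpan a S := by
  have hspan : ∀ y ∈ Submodule.span ℤ (Set.range a), a p * y ∈ valSpan a S := by
    intro y hy
    refine Submodule.span_induction ?_ ?_ ?_ ?_ hy
    · rintro _ ⟨n, rfl⟩
      have h := hT p hp hpN n
      rw [← h]
      refine Submodule.add_mem _ ?_ ?_
      · have := mul_mem_valSpan (a := a) (S := S) (c := 1) (Subalgebra.one_mem _) (p * n)
        simpa using this
      · split_ifs
        · exact mul_mem_valSpan (Algebra.subset_adjoin (he p hp hpN)) _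
        · rw [mul_zero]
          exact Submodule.zero_mem _
    · rw [mul_zero]
      exact Submodule.zero_mem _
    · intro x y _ _ hx hy
      rw [mul_add]
      exact Submodule.add_mem _ hx hy
    · intro c x _ hx
      rw [mul_smul_comm]
      exact Submodule.smul_mem _ c hx
  have ht' := ht
  unfold valSpan at ht'
  refine Submodule.mul_induction_on ht' ?_ ?_
  · intro x hx y hy
    have h1 : a p * (x * y) = x * (a p * y) := by ring
    rw [h1]
    exact adjoin_mul_valSpan hx (hspan y hy)
  · intro x y hx hy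
    rw [mul_add]
    exact Submodule.add_mem _ hx hy

/-- the Hecke ring is contained in the `ℤ[S]`-span of the values -/
theorem heckeRing_le_valSpan (h1 : a 1 = 1) (hT : HeckeRel N e a)
    (he : ∀ p : ℕ, p.Prime → ¬ p ∣ N → e p ∈ S) :
    (heckeRing N a S).toSubmodule ≤ valSpan a S := by
  intro x hx
  have key : ∀ y ∈ heckeRing N a S, ∀ t ∈ valSpan a S, y * t ∈ valSpan a S := by
    intro y hy
    unfold heckeRing at hy
    refine Algebra.adjoin_induction (p := fun y _ => ∀ t ∈ valSpan a S, y * t ∈ valSpan a S)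
      ?_ ?_ ?_ ?_ hy
    · rintro g (hg | ⟨p, hp, hpN, rfl⟩) t ht
      · exact adjoin_mul_valSpan (Algebra.subset_adjoin hg) ht
      · exact eigen_mul_valSpan hT he hp hpN ht
    · intro r t ht
      exact adjoin_mul_valSpan (Subalgebra.algebraMap_mem _ r) ht
    · intro x y _ _ hx hy t ht
      rw [add_mul]
      exact Submodule.add_mem _ (hx t ht) (hy t ht)
    · intro x y _ _ hx hy t ht
      rw [mul_assoc]
      exact hx _ (hy t ht)
  have h1' : (1 : ℂ) ∈ valSpan a S := by
    have := mul_mem_valSpan (a := a) (S := S) (c := 1) (Subalgebra.one_mem _) 1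
    simpa [h1] using this
  have := key x hx 1 h1'
  simpa using this

/-- **[V-ALG]** the Hecke ring `ℤ[S, a p : p ∤ N]` is a finitely generated `ℤ`-module. -/
theorem fg_heckeRing (h1 : a 1 = 1) (hT : HeckeRel N e a) (hS : S.Finite)
    (hSint : ∀ x ∈ S, IsIntegral ℤ x) (he : ∀ p : ℕ, p.Prime → ¬ p ∣ N → e p ∈ S)
    (Λ : Submodule ℤ ℂ) (hΛ : Λ.FG) (ha : ∀ n, a n ∈ Λ) :
    (heckeRing N a S).toSubmodule.FG := by
  have hO : (Algebra.adjoin ℤ S).toSubmodule.FG := fg_adjoin_of_finite hS hSint
  have hM : ((Algebra.adjoin ℤ S).toSubmodule * Λ).FG := hO.mul hΛ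
  have hle : valSpan a S ≤ (Algebra.adjoin ℤ S).toSubmodule * Λ := by
    unfold valSpan
    refine mul_le_mul' le_rfl ?_
    rw [Submodule.span_le]
    rintro _ ⟨n, rfl⟩
    exact ha n
  have hle' : (heckeRing N a S).toSubmodule ≤ (Algebra.adjoin ℤ S).toSubmodule * Λ :=
    (heckeRing_le_valSpan h1 hT he).trans hle
  have hN : IsNoetherian ℤ ↥((Algebra.adjoin ℤ S).toSubmodule * Λ) :=
    isNoetherian_of_fg_of_noetherian _ hM
  exact Submodule.FG.of_le_of_isNoetherian hle'

/-- the eigenvalues `a p`, `p ∤ N`, are algebraic integers. -/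
theorem isIntegral_of_heckeRel (h1 : a 1 = 1) (hT : HeckeRel N e a) (hS : S.Finite)
    (hSint : ∀ x ∈ S, IsIntegral ℤ x) (he : ∀ p : ℕ, p.Prime → ¬ p ∣ N → e p ∈ S)
    (Λ : Submodule ℤ ℂ) (hΛ : Λ.FG) (ha : ∀ n, a n ∈ Λ) {x : ℂ} (hx : x ∈ heckeRing N a S) :
    IsIntegral ℤ x :=
  IsIntegral.of_mem_of_fg (heckeRing N a S) (fg_heckeRing h1 hT hS hSint he Λ hΛ ha) x hx

lemma eigen_mem_heckeRing {p : ℕ} (hp : p.Prime) (hpN : ¬ p ∣ N) : a p ∈ heckeRing N a S :=
  Algebra.subset_adjoin (Or.inr ⟨p, hp, hpN, rfl⟩)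

lemma mem_heckeRing_of_mem {x : ℂ} (hx : x ∈ S) : x ∈ heckeRing N a S :=
  Algebra.subset_adjoin (Or.inl hx)

/-- the values `a n`, `n > 0` prime to `N`, lie in the Hecke ring. -/
theorem coeff_mem_heckeRing (h1 : a 1 = 1) (hT : HeckeRel N e a)
    (he : ∀ p : ℕ, p.Prime → ¬ p ∣ N → e p ∈ S) :
    ∀ n : ℕ, 0 < n → n.Coprime N → a n ∈ heckeRing N a S := by
  intro n
  induction n using Nat.strong_induction_on with
  | _ n ih =>
    intro hn0 hn
    rcases Nat.lt_or_ge n 2 with h | h
    · have hn1 : n = 1 := by omega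
      subst hn1
      rw [h1]; exact Subalgebra.one_mem _
    · obtain ⟨p, hp, hpn⟩ := Nat.exists_prime_and_dvd (show n ≠ 1 by omega)
      obtain ⟨m, rfl⟩ := hpn
      have hpN : ¬ p ∣ N := by
        intro hd
        have : p ∣ Nat.gcd (p * m) N := Nat.dvd_gcd (dvd_mul_right p m) hd
        rw [hn] at this
        exact hp.one_lt.ne' (Nat.dvd_one.1 this)
      have hm0 : 0 < m := by
        rcases Nat.eq_zero_or_pos m with h0 | h0
        · subst h0; omega
        · exact h0
      have hmlt : m < p * m := by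
        have := hp.two_le
        nlinarith
      have hmc : m.Coprime N := Nat.Coprime.coprime_dvd_left (dvd_mul_left m p) hn
      have hrel := hT p hp hpN m
      have e1 : a (p * m) = a p * a m - e p * (if p ∣ m then a (m / p) else 0) := by
        rw [← hrel]; ring
      rw [e1]
      refine Subalgebra.sub_mem _ (Subalgebra.mul_mem _ (eigen_mem_heckeRing hp hpN)
        (ih m hmlt hm0 hmc)) ?_
      split_ifs with hd
      · refine Subalgebra.mul_mem _ (mem_heckeRing_of_mem (he p hp hpN)) ?_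
        obtain ⟨k, rfl⟩ := hd
        have hk0 : 0 < k := by
          rcases Nat.eq_zero_or_pos k with h0 | h0
          · subst h0; omega
          · exact h0
        rw [Nat.mul_div_cancel_left k hp.pos]
        have hklt : k < p * (p * k) := by
          have := hp.two_le
          nlinarith
        exact ih k hklt hk0 (Nat.Coprime.coprime_dvd_left (dvd_mul_left k p) hmc)
      · rw [mul_zero]; exact Subalgebra.zero_mem _

/-- **[V-ALG]** the coefficients `a n`, `n > 0` prime to `N`, are algebraic integers. -/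
theorem isIntegral_coprime_of_heckeRel (h1 : a 1 = 1) (hT : HeckeRel N e a) (hS : S.Finite)
    (hSint : ∀ x ∈ S, IsIntegral ℤ x) (he : ∀ p : ℕ, p.Prime → ¬ p ∣ N → e p ∈ S)
    (Λ : Submodule ℤ ℂ) (hΛ : Λ.FG) (ha : ∀ n, a n ∈ Λ) (n : ℕ) (hn0 : 0 < n)
    (hn : n.Coprime N) : IsIntegral ℤ (a n) :=
  isIntegral_of_heckeRel h1 hT hS hSint he Λ hΛ ha (coeff_mem_heckeRing h1 hT he n hn0 hn)

/-- **[V-ALG]** the field `ℚ(S, a p : p ∤ N)` is a number field. -/
theorem finiteDimensional_heckeField (h1 : a 1 = 1) (hT : HeckeRel N e a) (hS : S.Finite)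
    (hSint : ∀ x ∈ S, IsIntegral ℤ x) (he : ∀ p : ℕ, p.Prime → ¬ p ∣ N → e p ∈ S)
    (Λ : Submodule ℤ ℂ) (hΛ : Λ.FG) (ha : ∀ n, a n ∈ Λ) :
    FiniteDimensional ℚ (IntermediateField.adjoin ℚ (heckeGens N a S)) := by
  obtain ⟨G, hG⟩ := fg_heckeRing h1 hT hS hSint he Λ hΛ ha
  -- the finite set `G` generates the same field
  have hGmem : ∀ g ∈ G, g ∈ heckeRing N a S := by
    intro g hg
    have : g ∈ Submodule.span ℤ (G : Set ℂ) := Submodule.subset_span hg
    rw [hG] at this
    exact this
  have hGint : ∀ g ∈ (G : Set ℂ), IsIntegral ℚ g := by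
    intro g hg
    exact (isIntegral_of_heckeRel h1 hT hS hSint he Λ hΛ ha (hGmem g hg)).tower_top
  have hfin : FiniteDimensional ℚ (IntermediateField.adjoin ℚ (G : Set ℂ)) :=
    IntermediateField.finiteDimensional_adjoin hGint
  have hle : IntermediateField.adjoin ℚ (heckeGens N a S) ≤
      IntermediateField.adjoin ℚ (G : Set ℂ) := by
    rw [IntermediateField.adjoin_le_iff]
    intro x hx
    have hx' : x ∈ (heckeRing N a S).toSubmodule := Algebra.subset_adjoin hx
    rw [← hG] at hx'
    refine Submodule.span_induction ?_ ?_ ?_ ?_ hx'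
    · intro g hg
      exact IntermediateField.subset_adjoin ℚ _ hg
    · exact zero_mem _
    · intro x y _ _ hx hy
      exact add_mem hx hy
    · intro c x _ hx
      rw [zsmul_eq_mul]
      exact mul_mem (by exact_mod_cast (IntermediateField.adjoin ℚ (G : Set ℂ)).intCast_mem c) hx
  exact FiniteDimensional.of_injective
    (IntermediateField.inclusion hle).toLinearMap (IntermediateField.inclusion hle).injective

end main

/-! ### the hypothesis "all coefficients in one finitely generated group" -/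

/-- all values of `a` lie in one finitely generated subgroup of `ℂ` -/
def CoeffsInFG (a : ℕ → ℂ) : Prop := ∃ Λ : Submodule ℤ ℂ, Λ.FG ∧ ∀ n, a n ∈ Λ

/-- a `ℂ`-linear combination of finitely many integer sequences has its values in a finitely
generated group. -/
theorem coeffsInFG_of_span {ι : Type*} [Fintype ι] (b : ι → ℕ → ℤ) (c : ι → ℂ) (a : ℕ → ℂ)
    (h : ∀ n, a n = ∑ i, c i * (b i n : ℂ)) : CoeffsInFG a := by
  classical
  refine ⟨Submodule.span ℤ (Set.range c), Submodule.fg_span (Set.finite_range c), fun n => ?_⟩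
  rw [h n]
  refine Submodule.sum_mem _ fun i _ => ?_
  have : c i * (b i n : ℂ) = (b i n) • c i := by
    rw [zsmul_eq_mul]; ring
  rw [this]
  exact Submodule.smul_mem _ _ (Submodule.subset_span ⟨i, rfl⟩)

/-- division by a power series with integer coefficients and constant term `1` preserves
`CoeffsInFG`: if `g * f = F` with `g ∈ 1 + q ℤ[[q]]` and the coefficients of `F` lie in a
finitely generated group, so do those of `f`. -/
theorem coeffsInFG_of_mul (f F : PowerSeries ℂ) (g : PowerSeries ℤ)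
    (hg : PowerSeries.constantCoeff g = 1)
    (h : PowerSeries.map (Int.castRingHom ℂ) g * f = F)
    (hF : CoeffsInFG fun n => PowerSeries.coeff n F) :
    CoeffsInFG fun n => PowerSeries.coeff n f := by
  obtain ⟨Λ, hΛ, hmem⟩ := hF
  refine ⟨Λ, hΛ, fun n => ?_⟩
  -- an inverse of `g` with integer coefficients
  have hu : IsUnit g := by
    rw [PowerSeries.isUnit_iff_constantCoeff, hg]
    exact isUnit_one
  obtain ⟨u, rfl⟩ := hu
  have hf : f = PowerSeries.map (Int.castRingHom ℂ) (↑u⁻¹ : PowerSeries ℤ) * F := by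
    rw [← h, ← mul_assoc, ← map_mul]
    simp
  change PowerSeries.coeff n f ∈ Λ
  rw [hf, PowerSeries.coeff_mul]
  refine Submodule.sum_mem _ fun x _ => ?_
  rw [PowerSeries.coeff_map]
  have : (Int.castRingHom ℂ) (PowerSeries.coeff x.1 (↑u⁻¹ : PowerSeries ℤ)) *
      PowerSeries.coeff x.2 F =
      (PowerSeries.coeff x.1 (↑u⁻¹ : PowerSeries ℤ)) • PowerSeries.coeff x.2 F := by
    rw [zsmul_eq_mul]; rfl
  rw [this]
  exact Submodule.smul_mem _ _ (hmem x.2)

end Fermat.Agent.T4.helper78
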