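import Mathlib
import Fermat.Prelude.Def_FLTPrelim_Modularity
import Fermat.Agent.T4.helper78_VAlg

/-!
# T4 / S48, block (V): conjugate forms WITHOUT an integral structure on `Γ₁` (helper89)

Route (reduction to `Γ₀(N)` with trivial character, where S23 on main applies in every weight):
for `f ∈ S₁(Γ₁(N))` with nebentypus `ε` (helper79.neben) and `h` the weight-3 Eisenstein series
with nebentypus `ε⁻¹` (`E3Statement`), `f * h ∈ S₄(Γ₀(N))` and `f ^ m ∈ S_m(Γ₀(N))` (`ε ^ m = 1`)
have trivial character.  For a ring homomorphism `σ : ℂ →+* ℂ` the conjugates `K = (f h)^σ`,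
`P = (f^m)^σ` exist by S23 and `H = h^σ` is the Eisenstein series of `σ ∘ ε⁻¹`.  From
`K ^ m = P * H ^ m` the quotient `K / H` has no poles on `ℍ`; it is the conjugate `f^σ`.

This file: the Props only.
-/

set_option autoImplicit false

open CongruenceSubgroup UpperHalfPlane
open scoped MatrixGroups ModularForm Manifold

namespace Fermat.Agent.T4.helper89

/-- The `n`-th `q`-coefficient `∑_{c ∣ n} χ(c) (n/c)²` of the weight-3 Eisenstein series with
nebentypus `χ` that vanishes at `∞`. -/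
noncomputable def eis3Coeff {N : ℕ} (χ : DirichletCharacter ℂ N) (n : ℕ) : ℂ :=
  ∑ c ∈ n.divisors, χ (c : ZMod N) * ((n / c : ℕ) : ℂ) ^ 2

/-- `f` has nebentypus `χ` in weight `k`: `f ∣[k] γ = χ(γ 1 1) • f` for all `γ ∈ Γ₀(N)`
(the shape of `helper79.neben_SL`). -/
def HasNeben (N : ℕ) (k : ℤ) (χ : DirichletCharacter ℂ N) (f : ℍ → ℂ) : Prop :=
  ∀ γ : SL(2, ℤ), γ ∈ Gamma0 N → f ∣[k] γ = χ ((γ 1 1 : ℤ) : ZMod N) • f

/-- **[E3]** (Mathlib only): for every odd Dirichlet character `χ` mod `N` there is a modular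
form of weight 3 on `Γ₁(N)` with nebentypus `χ` and `q`-expansion `∑ eis3Coeff χ n qⁿ`
(a nonzero multiple of `∑_{(c,d) ≠ 0} χ(c) (c τ + d)⁻³`). -/
def E3Statement : Prop :=
  ∀ (N : ℕ) [NeZero N] (χ : DirichletCharacter ℂ N), χ (-1) = -1 →
    ∃ h : ModularForm (Gamma1 N) 3, HasNeben N 3 χ ⇑h ∧
      ∀ n : ℕ, ModularFormClass.qCoeff h n = eis3Coeff χ n

/-- **[DIV]** (Mathlib only): division of holomorphic functions on `ℍ`: if `K ^ m = P * H ^ m`
with `K`, `P`, `H` holomorphic, `H ≠ 0` and `0 < m`, then `K = φ * H` with `φ` holomorphic. -/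
def DivStatement : Prop :=
  ∀ (K P H : ℍ → ℂ) (m : ℕ), 0 < m → MDiff K → MDiff P → MDiff H → H ≠ 0 →
    K ^ m = P * H ^ m → ∃ φ : ℍ → ℂ, MDiff φ ∧ K = φ * H

/-- **[V-CONJ-HOM]**: the cusp forms of weight one with a nebentypus are stable under every
ring homomorphism of `ℂ` applied to the `q`-coefficients (same level, conjugate nebentypus). -/
def ConjHomStatement : Prop :=
  ∀ (N : ℕ) [NeZero N] (ε : DirichletCharacter ℂ N) (f : CuspForm (Gamma1 N) 1),
    HasNeben N 1 ε ⇑f → ∀ σ : ℂ →+* ℂ, ∃ g : CuspForm (Gamma1 N) 1,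
      HasNeben N 1 (ε.ringHomComp σ) ⇑g ∧
      ∀ n : ℕ, ModularFormClass.qCoeff g n = σ (ModularFormClass.qCoeff f n)

/-- **[V-SPAN]**: the `q`-coefficients of a cusp form of weight one with a nebentypus lie in
one finitely generated subgroup of `ℂ` (the hypothesis `hΛ` of `helper78.s48_integrality`). -/
def SpanStatement : Prop :=
  ∀ (N : ℕ) [NeZero N] (ε : DirichletCharacter ℂ N) (f : CuspForm (Gamma1 N) 1),
    HasNeben N 1 ε ⇑f → helper78.CoeffsInFG (ModularFormClass.qCoeff f)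

end Fermat.Agent.T4.helper89
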