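import Mathlib
import Fermat.Agent.T4.helper15_ConjExt
import Fermat.Agent.T4.helper32_ResDefs
import Fermat.Agent.T4.helper89_ConjDefs
import Fermat.Agent.T4.helper79_Neben
import Fermat.Agent.T4.helper78_VAlgS48
import Fermat.Agent.T4.helper39_RankinWire

/-!
# T4 / S48, block (V): the contract `ConjStatement` and the Rankin input of the endgame
(helper15, task 1052)

* `conj_of : helper89.ConjHomStatement → helper89.SpanStatement → helper32.ConjStatement`:
  the conjugate eigen-systems are eigen-systems of weight-one cusp forms.  The embedding `τ` of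
  the abstract field `K` is realised on the (algebraic) eigenvalues by a ring automorphism `σ` of
  `ℂ` (`exists_ringEquiv_of_algebraic`), and the conjugate form is the coefficientwise
  `σ`-conjugate of `f`.
* `rankin_of` / `rankinStatement_of_span` : `helper80.RankinStatement` (the eigenvalues are
  integers of a number field and every conjugate system satisfies the Rankin bound) from
  `ConjStatement`, integrality and the number field of `helper78`.
-/

set_option autoImplicit false
set_option linter.style.haveILetI false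

noncomputable section

open CongruenceSubgroup UpperHalfPlane
open scoped MatrixGroups ModularForm

namespace Fermat.Agent.T4.helper15

open Fermat.Agent.T4

/-- the form of the frozen S48 has nebentypus, in the shape of `helper89.HasNeben` -/
theorem hasNeben_of_hT (N : ℕ) [NeZero N] (ε : DirichletCharacter ℂ N)
    (f : CuspForm (Gamma1 N) 1)
    (hT : helper32.InPacket N ε (fun p => ModularFormClass.qCoeff f p) f) :
    helper89.HasNeben N 1 ε ⇑f :=
  fun γ hγ => helper79.neben_SL N ε f hT γ hγ

/-- **[V-CONJ]** in the shape of the contract `helper32.ConjStatement`. -/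
theorem conj_of (hC : helper89.ConjHomStatement) (hSp : helper89.SpanStatement) :
    helper32.ConjStatement := by
  intro N _ ε f hf₁ hpk K _ ι α e hα he τ
  have hneb : helper89.HasNeben N 1 ε ⇑f := hasNeben_of_hT N ε f hpk
  obtain ⟨hint, -, -⟩ := helper78.s48_integrality N ε f hf₁ hpk (hSp N ε f hneb)
  let S : Set K := {x | (∃ p : ℕ, p.Prime ∧ ¬ p ∣ N ∧ x = α p) ∨ ∃ a : ZMod N, x = e a}
  have hS : ∀ s ∈ S, IsAlgebraic ℚ (ι s) := by
    rintro s (⟨p, hp, hpN, rfl⟩ | ⟨a, rfl⟩)
    · rw [hα p hp hpN]
      exact (IsIntegral.tower_top (A := ℚ)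
        (hint p hp.pos ((Nat.Prime.coprime_iff_not_dvd hp).mpr hpN))).isAlgebraic
    · rw [he a]
      exact (IsIntegral.tower_top (A := ℚ) (helper78.isIntegral_dirichlet ε a)).isAlgebraic
  obtain ⟨σ, hσ⟩ := exists_ringEquiv_of_algebraic ι τ S hS
  obtain ⟨g, -, hgc⟩ := hC N ε f hneb (σ : ℂ →+* ℂ)
  have hε' : ∀ a : ZMod N, (ε.ringHomComp (σ : ℂ →+* ℂ)) a = τ (e a) := by
    intro a
    rw [MulChar.ringHomComp_apply, ← he a]
    exact hσ (e a) (Or.inr ⟨a, rfl⟩)
  refine ⟨ε.ringHomComp (σ : ℂ →+* ℂ), g, hε', ?_, ?_, ?_⟩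
  · rw [hgc, hf₁]
    exact map_one σ
  · intro p hp hpN
    rw [hgc, ← hα p hp hpN]
    exact hσ (α p) (Or.inl ⟨p, hp, hpN, rfl⟩)
  · intro p hp hpN n
    have h := congrArg (σ : ℂ →+* ℂ) (hpk p hp hpN n)
    simp only [map_add, map_mul, apply_ite (σ : ℂ →+* ℂ), map_zero] at h
    show ModularFormClass.qCoeff g (p * n) +
        (ε.ringHomComp (σ : ℂ →+* ℂ)) (p : ZMod N) *
          (if p ∣ n then ModularFormClass.qCoeff g (n / p) else 0) =
      ModularFormClass.qCoeff g p * ModularFormClass.qCoeff g n
    simp only [hgc, MulChar.ringHomComp_apply]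
    exact h

/-- `RankinBound` only depends on the values at the primes not dividing `N`. -/
theorem rankinBound_congr {N : ℕ} {b b' : ℕ → ℂ}
    (h : ∀ p : ℕ, p.Prime → ¬ p ∣ N → b p = b' p) (hb : helper80.RankinBound N b) :
    helper80.RankinBound N b' := by
  have hterm : ∀ s : ℝ, helper80.rankinTerm N b s = helper80.rankinTerm N b' s := by
    intro s
    funext p
    unfold helper80.rankinTerm
    by_cases hp : p ∈ {p : ℕ | p.Prime ∧ ¬ p ∣ N}
    · rw [Set.indicator_of_mem hp, Set.indicator_of_mem hp, h p hp.1 hp.2]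
    · rw [Set.indicator_of_notMem hp, Set.indicator_of_notMem hp]
  obtain ⟨C, hC⟩ := hb
  refine ⟨C, fun s hs hs2 => ?_⟩
  rw [← hterm s]
  exact hC s hs hs2

/-- **The Rankin input of the endgame** from `ConjStatement`, integrality of the eigenvalues
and finiteness of the Hecke field. -/
theorem rankin_of (hConj : helper32.ConjStatement) (N : ℕ) [NeZero N]
    (ε : DirichletCharacter ℂ N) (f : CuspForm (Gamma1 N) 1)
    (hf₁ : ModularFormClass.qCoeff f 1 = 1)
    (hT : helper32.InPacket N ε (fun p => ModularFormClass.qCoeff f p) f)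
    (hint : ∀ p : ℕ, p.Prime → ¬ p ∣ N → IsIntegral ℤ (ModularFormClass.qCoeff f p))
    (hfd : FiniteDimensional ℚ (IntermediateField.adjoin ℚ
      (helper78.heckeGens N (ModularFormClass.qCoeff f) (Set.range ε)))) :
    helper80.RankinStatement N (fun p : ℕ => ModularFormClass.qCoeff f p) := by
  classical
  let K : IntermediateField ℚ ℂ := IntermediateField.adjoin ℚ
      (helper78.heckeGens N (ModularFormClass.qCoeff f) (Set.range ε))
  haveI : NumberField K := { to_charZero := inferInstance, to_finiteDimensional := hfd }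
  have hmemA : ∀ p : ℕ, p.Prime → ¬ p ∣ N → ModularFormClass.qCoeff f p ∈ K :=
    fun p hp hpN => IntermediateField.subset_adjoin ℚ _ (Or.inr ⟨p, hp, hpN, rfl⟩)
  have hmemE : ∀ a : ZMod N, ε a ∈ K :=
    fun a => IntermediateField.subset_adjoin ℚ _ (Or.inl ⟨a, rfl⟩)
  have hintK : ∀ (p : ℕ) (hp : p.Prime) (hpN : ¬ p ∣ N),
      IsIntegral ℤ (⟨ModularFormClass.qCoeff f p, hmemA p hp hpN⟩ : K) := by
    intro p hp hpN
    refine (isIntegral_algebraMap_iff (B := ℂ) (algebraMap K ℂ).injective).mp ?_
    exact hint p hp hpN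
  let α : ℕ → NumberField.RingOfIntegers K := fun p =>
    if h : p.Prime ∧ ¬ p ∣ N then
      (⟨⟨ModularFormClass.qCoeff f p, hmemA p h.1 h.2⟩, hintK p h.1 h.2⟩ :
        NumberField.RingOfIntegers K)
    else 0
  have hα : ∀ p : ℕ, p.Prime → ¬ p ∣ N →
      algebraMap K ℂ (α p : K) = ModularFormClass.qCoeff f p := by
    intro p hp hpN
    have hαp : α p = (⟨⟨ModularFormClass.qCoeff f p, hmemA p hp hpN⟩, hintK p hp hpN⟩ :
        NumberField.RingOfIntegers K) := dif_pos (And.intro hp hpN)
    rw [hαp]
    rfl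
  refine ⟨K, inferInstance, inferInstance, algebraMap K ℂ, α, hα, fun τ => ?_⟩
  obtain ⟨ε', f', -, hf'₁, hf'p, hpk'⟩ := hConj N inferInstance ε f hf₁ hT K inferInstance
    (algebraMap K ℂ) (fun p => (α p : K)) (fun a => ⟨ε a, hmemE a⟩) hα (fun a => rfl) τ
  exact rankinBound_congr (fun p hp hpN => hf'p p hp hpN)
    (helper39.rankinFormStatement N inferInstance ε' f' hf'₁ hpk')

/-- **The Rankin input of the endgame** from `ConjStatement` and `SpanStatement`
(integrality and the number field are `helper78.s48_integrality`). -/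
theorem rankinStatement_of_span (hConj : helper32.ConjStatement)
    (hSp : helper89.SpanStatement) (N : ℕ) [NeZero N]
    (ε : DirichletCharacter ℂ N) (f : CuspForm (Gamma1 N) 1)
    (hf₁ : ModularFormClass.qCoeff f 1 = 1)
    (hT : ∀ p : ℕ, p.Prime → ¬ p ∣ N → ∀ n : ℕ,
        ModularFormClass.qCoeff f (p * n) +
            ε (p : ZMod N) * (if p ∣ n then ModularFormClass.qCoeff f (n / p) else 0) =
          ModularFormClass.qCoeff f p * ModularFormClass.qCoeff f n) :
    helper80.RankinStatement N (fun p : ℕ => ModularFormClass.qCoeff f p) := by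
  have hneb : helper89.HasNeben N 1 ε ⇑f := hasNeben_of_hT N ε f hT
  obtain ⟨hint, -, hfd⟩ := helper78.s48_integrality N ε f hf₁ hT (hSp N ε f hneb)
  exact rankin_of hConj N ε f hf₁ hT
    (fun p hp hpN => hint p hp.pos ((Nat.Prime.coprime_iff_not_dvd hp).mpr hpN)) hfd

/-- The same with `PrimStatement` as the source of integrality (the finiteness of the Hecke
field is an explicit hypothesis). -/
theorem rankinStatement_of (hConj : helper32.ConjStatement) (hPrim : helper32.PrimStatement)
    (N : ℕ) [NeZero N] (ε : DirichletCharacter ℂ N) (f : CuspForm (Gamma1 N) 1)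
    (hf₁ : ModularFormClass.qCoeff f 1 = 1)
    (hT : ∀ p : ℕ, p.Prime → ¬ p ∣ N → ∀ n : ℕ,
        ModularFormClass.qCoeff f (p * n) +
            ε (p : ZMod N) * (if p ∣ n then ModularFormClass.qCoeff f (n / p) else 0) =
          ModularFormClass.qCoeff f p * ModularFormClass.qCoeff f n)
    (hfd : FiniteDimensional ℚ (IntermediateField.adjoin ℚ
      (helper78.heckeGens N (ModularFormClass.qCoeff f) (Set.range ε)))) :
    helper80.RankinStatement N (fun p : ℕ => ModularFormClass.qCoeff f p) :=
  rankin_of hConj N ε f hf₁ hT (hPrim N inferInstance ε f hf₁ hT).1 hfd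

end Fermat.Agent.T4.helper15
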