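import Mathlib
import Fermat.Agent.T4.helper21_EisDefs

/-!
# T4 block (III), leaf [EIS-MF] (helper17, task 975): the weight-one Eisenstein series as a
modular form

`eis_of : LawStatement → PerStatement → HoloStatement → BddStatement → GaussStatement →
EisStatement` : for an odd Dirichlet character `χ` modulo a prime `ℓ`, the function
`G = c⁻¹ · eisPre ℓ χ` (`c` the Gauss-sum constant of `GaussStatement`) is a modular form of
weight one on `Γ₁(ℓ)` with nebentypus `χ` and `q`-expansion `eisCoeff ℓ χ`.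

* `eisPre_smul` : `eisPre (γ τ) = (cτ + d) ∑_k χ⁻¹(k) divVal ℓ ((0, k) γ) τ` for `γ ∈ SL₂(ℤ)`;
* `eisPre_smul_of_mem_Gamma0` : `eisPre (γ τ) = χ(d) (cτ + d) eisPre τ` for `γ ∈ Γ₀(ℓ)`;
* `mdiff_eisPre`, `isBoundedAtImInfty_eisPre_slash` : holomorphy, boundedness at all cusps.
-/

set_option autoImplicit false
set_option linter.unusedSectionVars false
set_option linter.unusedVariables false
set_option linter.style.haveILetI false

noncomputable section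

namespace Fermat.Agent.T4.helper17

open UpperHalfPlane hiding I
open Complex EisensteinSeries CongruenceSubgroup ModularForm Filter
open scoped MatrixGroups Real Manifold
open Fermat.Agent.T4.helper21

variable (ℓ : ℕ) [Fact ℓ.Prime] (χ : DirichletCharacter ℂ ℓ)

/-! ### Elementary facts -/

theorem ell_pos : 0 < ℓ := (Fact.out : ℓ.Prime).pos

theorem chi_inv_zero : χ⁻¹ (0 : ZMod ℓ) = 0 :=
  MulChar.map_nonunit _ not_isUnit_zero

theorem natCast_zmod_eq_zero_iff (k : ℕ) : ((k : ZMod ℓ) = 0) ↔ ℓ ∣ k :=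
  ZMod.natCast_eq_zero_iff k ℓ

theorem intCast_zmod_eq_zero_iff (k : ℤ) : ((k : ZMod ℓ) = 0) ↔ (ℓ : ℤ) ∣ k :=
  ZMod.intCast_zmod_eq_zero_iff_dvd k ℓ

/-- the entries of `(0, k) γ`. -/
theorem vecMul_zero_left (k : ℤ) (γ : SL(2, ℤ)) :
    Matrix.vecMul ![0, k] (γ : Matrix (Fin 2) (Fin 2) ℤ) = ![k * γ 1 0, k * γ 1 1] := by
  funext i
  fin_cases i <;> simp [Matrix.vecMul, dotProduct, Fin.sum_univ_two]

theorem det_entries (γ : SL(2, ℤ)) : γ 0 0 * γ 1 1 - γ 0 1 * γ 1 0 = 1 := by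
  have := γ.det_coe
  rwa [Matrix.det_fin_two] at this

/-- `(0, k) γ` is not divisible by `ℓ` if `k` is not. -/
theorem notDiv_vecMul {k : ℤ} (hk : ¬ (ℓ : ℤ) ∣ k) (γ : SL(2, ℤ)) :
    NotDiv ℓ (Matrix.vecMul ![0, k] (γ : Matrix (Fin 2) (Fin 2) ℤ)) := by
  intro h
  rw [vecMul_zero_left] at h
  have hp : Prime (ℓ : ℤ) := Nat.prime_iff_prime_int.mp (Fact.out : ℓ.Prime)
  have h0 : (ℓ : ℤ) ∣ γ 1 0 := by
    have this : (ℓ : ℤ) ∣ k * γ 1 0 := h 0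
    exact (hp.dvd_or_dvd this).resolve_left hk
  have h1 : (ℓ : ℤ) ∣ γ 1 1 := by
    have this : (ℓ : ℤ) ∣ k * γ 1 1 := h 1
    exact (hp.dvd_or_dvd this).resolve_left hk
  have hdet := det_entries γ
  have : (ℓ : ℤ) ∣ 1 := by
    rw [← hdet]
    exact dvd_sub (h1.mul_left _) (h0.mul_left _)
  exact hp.not_dvd_one this

/-! ### The transformation law of `eisPre` -/

/-- `eisPre (γ τ) = (cτ + d) ∑_k χ⁻¹(k) divVal ℓ ((0, k) γ) τ`. -/
theorem eisPre_smul (hLaw : LawStatement) (γ : SL(2, ℤ)) (τ : ℍ) :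
    eisPre ℓ χ (γ • τ) = denom γ τ *
      ∑ k ∈ Finset.range ℓ, χ⁻¹ (k : ZMod ℓ) *
        divVal ℓ (Matrix.vecMul ![0, (k : ℤ)] (γ : Matrix (Fin 2) (Fin 2) ℤ)) τ := by
  unfold eisPre
  rw [Finset.mul_sum]
  refine Finset.sum_congr rfl fun k _ => ?_
  rw [hLaw ℓ ![0, (k : ℤ)] γ τ]
  ring

/-- sums over `range ℓ` as sums over `ZMod ℓ`. -/
theorem sum_range_eq_sum_zmod (f : ℕ → ℂ) :
    ∑ k ∈ Finset.range ℓ, f k = ∑ x : ZMod ℓ, f x.val := by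
  haveI : NeZero ℓ := ⟨(Fact.out : ℓ.Prime).ne_zero⟩
  refine Finset.sum_nbij' (fun k => (k : ZMod ℓ)) (fun x => x.val) ?_ ?_ ?_ ?_ ?_
  · intro k _
    exact Finset.mem_univ _
  · intro x _
    exact Finset.mem_range.mpr (ZMod.val_lt x)
  · intro k hk
    exact ZMod.val_natCast_of_lt (Finset.mem_range.mp hk)
  · intro x _
    exact ZMod.natCast_zmod_val x
  · intro k hk
    rw [ZMod.val_natCast_of_lt (Finset.mem_range.mp hk)]

theorem eisPre_eq_sum_zmod (τ : ℍ) :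
    eisPre ℓ χ τ = ∑ x : ZMod ℓ, χ⁻¹ x * divVal ℓ ![0, (x.val : ℤ)] τ := by
  haveI : NeZero ℓ := ⟨(Fact.out : ℓ.Prime).ne_zero⟩
  unfold eisPre
  rw [sum_range_eq_sum_zmod ℓ (fun k => χ⁻¹ (k : ZMod ℓ) * divVal ℓ ![0, (k : ℤ)] τ)]
  refine Finset.sum_congr rfl fun x _ => ?_
  rw [ZMod.natCast_zmod_val]

/-- For `γ ∈ Γ₀(ℓ)` and `x ≠ 0`: `divVal ℓ ((0, x) γ) = divVal ℓ (0, x d)`. -/
theorem divVal_vecMul_of_mem_Gamma0 (hPer : PerStatement) {γ : SL(2, ℤ)} (hγ : γ ∈ Gamma0 ℓ)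
    (x : ZMod ℓ) (hx : x ≠ 0) (τ : ℍ) :
    divVal ℓ (Matrix.vecMul ![0, (x.val : ℤ)] (γ : Matrix (Fin 2) (Fin 2) ℤ)) τ =
      divVal ℓ ![0, (((x * ((γ 1 1 : ℤ) : ZMod ℓ)).val : ℕ) : ℤ)] τ := by
  haveI : NeZero ℓ := ⟨(Fact.out : ℓ.Prime).ne_zero⟩
  have hc : (ℓ : ℤ) ∣ γ 1 0 := by
    rw [Gamma0_mem] at hγ
    exact (intCast_zmod_eq_zero_iff ℓ _).mp hγ
  obtain ⟨c', hc'⟩ := hc
  set d : ZMod ℓ := ((γ 1 1 : ℤ) : ZMod ℓ) with hd
  -- `d ≠ 0`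
  have hd0 : d ≠ 0 := by
    intro h0
    have h1 : (ℓ : ℤ) ∣ γ 1 1 := (intCast_zmod_eq_zero_iff ℓ _).mp h0
    have hdet := det_entries γ
    have hp : Prime (ℓ : ℤ) := Nat.prime_iff_prime_int.mp (Fact.out : ℓ.Prime)
    have : (ℓ : ℤ) ∣ 1 := by
      rw [← hdet]
      exact dvd_sub (h1.mul_left _) ((Dvd.intro _ hc'.symm).mul_left _)
    exact hp.not_dvd_one this
  have hxd : x * d ≠ 0 := mul_ne_zero hx hd0
  -- the second entry
  have h2 : (ℓ : ℤ) ∣ (x.val : ℤ) * γ 1 1 - ((x * d).val : ℤ) := by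
    rw [← intCast_zmod_eq_zero_iff]
    push_cast
    rw [ZMod.natCast_zmod_val, ZMod.natCast_zmod_val, sub_self]
  obtain ⟨e1, he1⟩ := h2
  have hnd : NotDiv ℓ ![0, (((x * d).val : ℕ) : ℤ)] := by
    intro h
    have this : (ℓ : ℤ) ∣ (((x * d).val : ℕ) : ℤ) := h 1
    apply hxd
    have h3 : (((x * d).val : ℕ) : ZMod ℓ) = 0 := by
      have := (intCast_zmod_eq_zero_iff ℓ _).mpr this
      exact_mod_cast this
    rwa [ZMod.natCast_zmod_val] at h3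
  have key : Matrix.vecMul ![0, (x.val : ℤ)] (γ : Matrix (Fin 2) (Fin 2) ℤ) =
      ![0, (((x * d).val : ℕ) : ℤ)] + (ℓ : ℤ) • ![(x.val : ℤ) * c', e1] := by
    rw [vecMul_zero_left]
    funext i
    fin_cases i
    · simp only [Fin.zero_eta, Matrix.cons_val_zero, Pi.add_apply, Pi.smul_apply, smul_eq_mul,
        zero_add]
      rw [hc']
      ring
    · show (x.val : ℤ) * γ 1 1 = (((x * d).val : ℕ) : ℤ) + (ℓ : ℤ) * e1
      linear_combination he1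
  rw [key]
  exact hPer ℓ _ _ (ell_pos ℓ) hnd τ

/-- **The law on `Γ₀(ℓ)`**: `eisPre (γ τ) = χ(d) (cτ + d) eisPre τ`. -/
theorem eisPre_smul_of_mem_Gamma0 (hLaw : LawStatement) (hPer : PerStatement) {γ : SL(2, ℤ)}
    (hγ : γ ∈ Gamma0 ℓ) (τ : ℍ) :
    eisPre ℓ χ (γ • τ) = χ (((γ 1 1 : ℤ) : ZMod ℓ)) * denom γ τ * eisPre ℓ χ τ := by
  haveI : NeZero ℓ := ⟨(Fact.out : ℓ.Prime).ne_zero⟩
  set d : ZMod ℓ := ((γ 1 1 : ℤ) : ZMod ℓ) with hd
  have hd0 : d ≠ 0 := by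
    intro h0
    have hc : (ℓ : ℤ) ∣ γ 1 0 := by
      rw [Gamma0_mem] at hγ
      exact (intCast_zmod_eq_zero_iff ℓ _).mp hγ
    have h1 : (ℓ : ℤ) ∣ γ 1 1 := (intCast_zmod_eq_zero_iff ℓ _).mp h0
    have hdet := det_entries γ
    have hp : Prime (ℓ : ℤ) := Nat.prime_iff_prime_int.mp (Fact.out : ℓ.Prime)
    have : (ℓ : ℤ) ∣ 1 := by
      rw [← hdet]
      exact dvd_sub (h1.mul_left _) (hc.mul_left _)
    exact hp.not_dvd_one this
  rw [eisPre_smul ℓ χ hLaw γ τ,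
    sum_range_eq_sum_zmod ℓ (fun k => χ⁻¹ (k : ZMod ℓ) *
      divVal ℓ (Matrix.vecMul ![0, (k : ℤ)] (γ : Matrix (Fin 2) (Fin 2) ℤ)) τ)]
  -- rewrite every term
  have h1 : ∀ x : ZMod ℓ, χ⁻¹ ((x.val : ℕ) : ZMod ℓ) *
      divVal ℓ (Matrix.vecMul ![0, ((x.val : ℕ) : ℤ)] (γ : Matrix (Fin 2) (Fin 2) ℤ)) τ =
      χ⁻¹ x * divVal ℓ ![0, (((x * d).val : ℕ) : ℤ)] τ := by
    intro x
    rw [ZMod.natCast_zmod_val]
    by_cases hx : x = 0
    · rw [hx, chi_inv_zero, zero_mul, zero_mul]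
    · rw [divVal_vecMul_of_mem_Gamma0 ℓ hPer hγ x hx τ]
  rw [Finset.sum_congr rfl fun x _ => h1 x]
  -- reindex by `y = x d`
  have h2 : ∑ x : ZMod ℓ, χ⁻¹ x * divVal ℓ ![0, (((x * d).val : ℕ) : ℤ)] τ =
      ∑ y : ZMod ℓ, χ⁻¹ (y * d⁻¹) * divVal ℓ ![0, ((y.val : ℕ) : ℤ)] τ := by
    refine Fintype.sum_equiv (Equiv.mulRight₀ d hd0) _ _ fun x => ?_
    simp only [Equiv.mulRight₀_apply]
    rw [mul_inv_cancel_right₀ hd0]
  rw [h2, eisPre_eq_sum_zmod, Finset.mul_sum, Finset.mul_sum]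
  refine Finset.sum_congr rfl fun y _ => ?_
  have h3 : χ⁻¹ (y * d⁻¹) = χ⁻¹ y * χ d := by
    rw [map_mul]
    congr 1
    rw [MulChar.inv_apply_eq_inv']
    have h4 : χ d * χ d⁻¹ = 1 := by
      rw [← map_mul, mul_inv_cancel₀ hd0, map_one]
    exact (eq_inv_of_mul_eq_one_left h4).symm
  rw [h3]
  ring

/-! ### Holomorphy -/

theorem mdiff_sum {ι : Type*} (s : Finset ι) (f : ι → ℍ → ℂ) (hf : ∀ i ∈ s, MDiff (f i)) :
    MDiff (fun τ => ∑ i ∈ s, f i τ) := by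
  classical
  induction s using Finset.induction_on with
  | empty =>
    simp only [Finset.sum_empty]
    exact mdifferentiable_const
  | insert a s ha ih =>
    have h1 : (fun τ => ∑ i ∈ insert a s, f i τ) = f a + fun τ => ∑ i ∈ s, f i τ := by
      funext τ
      rw [Finset.sum_insert ha]
      rfl
    rw [h1]
    exact (hf a (Finset.mem_insert_self a s)).add
      (ih fun i hi => hf i (Finset.mem_insert_of_mem hi))

theorem notDiv_of_not_dvd {k : ℤ} (hk : ¬ (ℓ : ℤ) ∣ k) : NotDiv ℓ ![0, k] := by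
  intro h
  have this : (ℓ : ℤ) ∣ k := h 1
  exact hk this

theorem mdiff_eisPre (hHolo : HoloStatement) : MDiff (eisPre ℓ χ) := by
  have h : eisPre ℓ χ = fun τ => ∑ k ∈ Finset.range ℓ,
      χ⁻¹ (k : ZMod ℓ) * divVal ℓ ![0, (k : ℤ)] τ := rfl
  rw [h]
  refine mdiff_sum _ _ fun k _ => ?_
  by_cases hk : (k : ZMod ℓ) = 0
  · have : (fun τ : ℍ => χ⁻¹ (k : ZMod ℓ) * divVal ℓ ![0, (k : ℤ)] τ) = fun _ => 0 := by
      funext τ
      rw [hk, chi_inv_zero, zero_mul]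
    rw [this]
    exact mdifferentiable_const
  · have hk' : ¬ (ℓ : ℤ) ∣ (k : ℤ) := by
      intro h
      apply hk
      have := (intCast_zmod_eq_zero_iff ℓ _).mpr h
      exact_mod_cast this
    have h1 : MDiff (divVal ℓ ![0, (k : ℤ)]) := hHolo ℓ _ (ell_pos ℓ) (notDiv_of_not_dvd ℓ hk')
    have h2 : (fun τ : ℍ => χ⁻¹ (k : ZMod ℓ) * divVal ℓ ![0, (k : ℤ)] τ) =
        (fun _ : ℍ => χ⁻¹ (k : ZMod ℓ)) * divVal ℓ ![0, (k : ℤ)] := rfl
    rw [h2]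
    exact mdifferentiable_const.mul h1

/-! ### Boundedness at the cusps -/

theorem bdd_sum {ι : Type*} (s : Finset ι) (f : ι → ℍ → ℂ)
    (hf : ∀ i ∈ s, IsBoundedAtImInfty (f i)) :
    IsBoundedAtImInfty (fun τ => ∑ i ∈ s, f i τ) := by
  classical
  induction s using Finset.induction_on with
  | empty =>
    simp only [Finset.sum_empty]
    exact const_boundedAtFilter _ (0 : ℂ)
  | insert a s ha ih =>
    have h1 : (fun τ => ∑ i ∈ insert a s, f i τ) = f a + fun τ => ∑ i ∈ s, f i τ := by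
      funext τ
      rw [Finset.sum_insert ha]
      rfl
    rw [h1]
    exact BoundedAtFilter.add (hf a (Finset.mem_insert_self a s))
      (ih fun i hi => hf i (Finset.mem_insert_of_mem hi))

/-- the slash of `eisPre` by any `γ ∈ SL₂(ℤ)`. -/
theorem eisPre_slash (hLaw : LawStatement) (γ : SL(2, ℤ)) :
    (eisPre ℓ χ) ∣[(1 : ℤ)] γ = fun τ => ∑ k ∈ Finset.range ℓ, χ⁻¹ (k : ZMod ℓ) *
      divVal ℓ (Matrix.vecMul ![0, (k : ℤ)] (γ : Matrix (Fin 2) (Fin 2) ℤ)) τ := by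
  funext τ
  rw [SL_slash_apply, eisPre_smul ℓ χ hLaw γ τ]
  have hD : denom γ τ ≠ 0 := denom_ne_zero _ τ
  rw [zpow_neg_one]
  field_simp

theorem isBoundedAtImInfty_eisPre_slash (hLaw : LawStatement) (hBdd : BddStatement)
    (γ : SL(2, ℤ)) : IsBoundedAtImInfty ((eisPre ℓ χ) ∣[(1 : ℤ)] γ) := by
  rw [eisPre_slash ℓ χ hLaw γ]
  refine bdd_sum _ _ fun k _ => ?_
  by_cases hk : (k : ZMod ℓ) = 0
  · have : (fun τ : ℍ => χ⁻¹ (k : ZMod ℓ) *
        divVal ℓ (Matrix.vecMul ![0, (k : ℤ)] (γ : Matrix (Fin 2) (Fin 2) ℤ)) τ) =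
        fun _ => 0 := by
      funext τ
      rw [hk, chi_inv_zero, zero_mul]
    rw [this]
    exact const_boundedAtFilter _ (0 : ℂ)
  · have hk' : ¬ (ℓ : ℤ) ∣ (k : ℤ) := by
      intro h
      apply hk
      have := (intCast_zmod_eq_zero_iff ℓ _).mpr h
      exact_mod_cast this
    have h1 : IsBoundedAtImInfty
        (divVal ℓ (Matrix.vecMul ![0, (k : ℤ)] (γ : Matrix (Fin 2) (Fin 2) ℤ))) :=
      hBdd ℓ _ (ell_pos ℓ) (notDiv_vecMul ℓ hk' γ)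
    have h2 : (fun τ : ℍ => χ⁻¹ (k : ZMod ℓ) *
        divVal ℓ (Matrix.vecMul ![0, (k : ℤ)] (γ : Matrix (Fin 2) (Fin 2) ℤ)) τ) =
        (Function.const ℍ (χ⁻¹ (k : ZMod ℓ))) *
          divVal ℓ (Matrix.vecMul ![0, (k : ℤ)] (γ : Matrix (Fin 2) (Fin 2) ℤ)) := rfl
    rw [h2]
    exact BoundedAtFilter.mul (const_boundedAtFilter _ _) h1

/-! ### The modular form -/

/-- the slash-invariant form `a · eisPre ℓ χ` on `Γ₁(ℓ)`. -/
def eisSIF (hLaw : LawStatement) (hPer : PerStatement) (a : ℂ) :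
    SlashInvariantForm (Gamma1 ℓ) 1 where
  toFun τ := a * eisPre ℓ χ τ
  slash_action_eq' := by
    intro g hg
    obtain ⟨γ, hγ, rfl⟩ := Subgroup.mem_map.mp hg
    have hγ0 : γ ∈ Gamma0 ℓ := Gamma1_in_Gamma0 ℓ hγ
    have hd1 : ((γ 1 1 : ℤ) : ZMod ℓ) = 1 := ((Gamma1_mem ℓ γ).mp hγ).2.1
    show (fun τ => a * eisPre ℓ χ τ) ∣[(1 : ℤ)] γ = fun τ => a * eisPre ℓ χ τ
    funext τ
    rw [SL_slash_apply, eisPre_smul_of_mem_Gamma0 ℓ χ hLaw hPer hγ0 τ, hd1, map_one]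
    have hD : denom γ τ ≠ 0 := denom_ne_zero _ τ
    rw [zpow_neg_one]
    field_simp

/-- the modular form `a · eisPre ℓ χ` of weight one on `Γ₁(ℓ)`. -/
def eisMF (hLaw : LawStatement) (hPer : PerStatement) (hHolo : HoloStatement)
    (hBdd : BddStatement) (a : ℂ) : ModularForm (Gamma1 ℓ) 1 where
  toSlashInvariantForm := eisSIF ℓ χ hLaw hPer a
  holo' := by
    show MDiff (fun τ => a * eisPre ℓ χ τ)
    have h : (fun τ : ℍ => a * eisPre ℓ χ τ) = (fun _ : ℍ => a) * eisPre ℓ χ := rfl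
    rw [h]
    exact mdifferentiable_const.mul (mdiff_eisPre ℓ χ hHolo)
  bdd_at_cusps' := by
    intro c hc
    have hc' : IsCusp c (Matrix.SpecialLinearGroup.mapGL ℝ).range :=
      (Subgroup.IsArithmetic.isCusp_iff_isCusp_SL2Z _).mp hc
    rw [OnePoint.isBoundedAt_iff_forall_SL2Z hc']
    intro γ _
    show IsBoundedAtImInfty ((fun τ => a * eisPre ℓ χ τ) ∣[(1 : ℤ)] γ)
    have h : (fun τ : ℍ => a * eisPre ℓ χ τ) ∣[(1 : ℤ)] γ =
        (Function.const ℍ a) * ((eisPre ℓ χ) ∣[(1 : ℤ)] γ) := by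
      funext τ
      rw [SL_slash_apply, Pi.mul_apply, SL_slash_apply, Function.const_apply]
      ring
    rw [h]
    exact BoundedAtFilter.mul (const_boundedAtFilter _ _)
      (isBoundedAtImInfty_eisPre_slash ℓ χ hLaw hBdd γ)

theorem eisMF_apply (hLaw : LawStatement) (hPer : PerStatement) (hHolo : HoloStatement)
    (hBdd : BddStatement) (a : ℂ) (τ : ℍ) :
    eisMF ℓ χ hLaw hPer hHolo hBdd a τ = a * eisPre ℓ χ τ := rfl

/-- **[EIS-MF]**: the weight-one Eisenstein series `G_χ` is a modular form on `Γ₁(ℓ)` with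
nebentypus `χ` and `q`-expansion `eisCoeff ℓ χ`. -/
theorem eis_of (hLaw : LawStatement) (hPer : PerStatement) (hHolo : HoloStatement)
    (hBdd : BddStatement) (hGauss : GaussStatement) : EisStatement := by
  intro ℓ _ χ hχ
  obtain ⟨c, hc, hsum⟩ := hGauss ℓ χ hχ
  refine ⟨eisMF ℓ χ hLaw hPer hHolo hBdd c⁻¹, ?_, ?_⟩
  · intro γ hγ τ
    rw [eisMF_apply, eisMF_apply, eisPre_smul_of_mem_Gamma0 ℓ χ hLaw hPer hγ τ]
    ring
  · intro τ
    rw [eisMF_apply]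
    have h := (hsum τ).mul_left c⁻¹
    have e : (fun n : ℕ => c⁻¹ * (c * eisCoeff ℓ χ n * qPow τ n)) =
        fun n : ℕ => eisCoeff ℓ χ n * qPow τ n := by
      funext n
      field_simp
    rw [e] at h
    exact h

end Fermat.Agent.T4.helper17

end
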