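import Mathlib
import Fermat.Agent.T4.helper80_EndgameDefs

/-!
# T4 block (IV), leaf [IV-BOUND] (helper18)

`bound_of : UnipStatement → ClassStatement → BoundStatement`, with `A = 48 M + 2`.

Pure group theory in `GL 2 k`, `k` a field of characteristic `l`:

* `cayley_two`            : Cayley-Hamilton for `2 × 2` matrices, `A² = tr A • A - det A • 1`.
* `exists_unipotent_of_dvd_card` : a finite subgroup of order divisible by `l` contains a
  nontrivial unipotent element (Cauchy).
* `eq_or_eq_sub_of_commute` : commuting `g`, `h` with the same trace and determinant and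
  `g⁻¹ h` not a nontrivial unipotent: `h = g` or `h = tr g - g`.
* `ncard_le_two_mul`      : in an abelian subgroup without nontrivial unipotent elements a set
  whose `(trace, det)` pairs lie in `T` has at most `2 |T|` elements.
* `bound_of`              : the leaf.
-/

set_option autoImplicit false

open Matrix

namespace Fermat.Agent.T4.helper18

open Fermat.Agent.T4.helper80

variable {k : Type} [Field k]

/-- Cayley-Hamilton for `2 × 2` matrices. -/
theorem cayley_two (A : Matrix (Fin 2) (Fin 2) k) :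
    A ^ 2 = A.trace • A - A.det • (1 : Matrix (Fin 2) (Fin 2) k) := by
  ext i j
  fin_cases i <;> fin_cases j <;>
    simp [pow_two, Matrix.mul_apply, Fin.sum_univ_two, Matrix.trace_fin_two,
      Matrix.det_fin_two] <;> ring

/-- A singular `2 × 2` matrix of trace zero has square zero. -/
theorem sq_eq_zero_of_trace_det (A : Matrix (Fin 2) (Fin 2) k) (ht : A.trace = 0)
    (hd : A.det = 0) : A ^ 2 = 0 := by
  rw [cayley_two, ht, hd, zero_smul, zero_smul, sub_zero]

theorem pow_eq_zero_iff_of_pos' {x : k} {n : ℕ} (h : x ^ n = 0) : x = 0 := by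
  rcases Nat.eq_zero_or_pos n with h0 | h0
  · subst h0
    simp at h
  · exact (pow_eq_zero_iff h0.ne').mp h

/-- A nilpotent `2 × 2` matrix over a field has square zero. -/
theorem sq_eq_zero_of_isNilpotent (A : Matrix (Fin 2) (Fin 2) k) (h : IsNilpotent A) :
    A ^ 2 = 0 := by
  apply sq_eq_zero_of_trace_det
  · exact (Matrix.isNilpotent_trace_of_isNilpotent h).eq_zero
  · obtain ⟨n, hn⟩ := h
    have : A.det ^ n = 0 := by
      rw [← Matrix.det_pow, hn]
      simp
    exact pow_eq_zero_iff_of_pos' this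

/-- **Cauchy**: a finite subgroup of `GL 2 k`, `k` of characteristic `l`, whose order is divisible
by `l`, contains a nontrivial unipotent element. -/
theorem exists_unipotent_of_dvd_card (l : ℕ) (hl : l.Prime) [CharP k l]
    (G : Subgroup (GL (Fin 2) k)) [Finite G] (hdvd : l ∣ Nat.card G) :
    ∃ u ∈ G, u ≠ 1 ∧ ((u : Matrix (Fin 2) (Fin 2) k) - 1) ^ 2 = 0 := by
  have : Fact l.Prime := ⟨hl⟩
  obtain ⟨x, hx⟩ := exists_prime_orderOf_dvd_card' (G := G) l hdvd
  refine ⟨(x : GL (Fin 2) k), x.2, ?_, ?_⟩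
  · intro h1
    have hx1 : x = 1 := Subtype.ext h1
    rw [hx1, orderOf_one] at hx
    exact hl.one_lt.ne hx
  · apply sq_eq_zero_of_isNilpotent
    refine ⟨l, ?_⟩
    have hpow : ((x : GL (Fin 2) k) : Matrix (Fin 2) (Fin 2) k) ^ l = 1 := by
      have h1 : x ^ l = 1 := by rw [← hx]; exact pow_orderOf_eq_one x
      have h2 : ((x : GL (Fin 2) k)) ^ l = 1 := by
        have := congrArg (Subtype.val) h1
        simpa using this
      have h3 := congrArg (Units.val) h2
      simpa using h3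
    rw [sub_pow_char_of_commute l (Commute.one_right _), hpow, one_pow, sub_self]

/-- Commuting elements `g`, `h` of `GL 2 k` with the same trace and determinant, such that
`g⁻¹ h` is not a nontrivial unipotent element: `h = g` or `h = tr g - g`. -/
theorem eq_or_eq_sub_of_commute {g h : GL (Fin 2) k} (hc : g * h = h * g)
    (hun : ((((g⁻¹ * h : GL (Fin 2) k)) : Matrix (Fin 2) (Fin 2) k) - 1) ^ 2 = 0 → g⁻¹ * h = 1)
    (ht : (h : Matrix (Fin 2) (Fin 2) k).trace = (g : Matrix (Fin 2) (Fin 2) k).trace)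
    (hd : (h : Matrix (Fin 2) (Fin 2) k).det = (g : Matrix (Fin 2) (Fin 2) k).det) :
    h = g ∨ (h : Matrix (Fin 2) (Fin 2) k) =
      (g : Matrix (Fin 2) (Fin 2) k).trace • (1 : Matrix (Fin 2) (Fin 2) k) -
        (g : Matrix (Fin 2) (Fin 2) k) := by
  set G : Matrix (Fin 2) (Fin 2) k := (g : Matrix (Fin 2) (Fin 2) k) with hG
  set H : Matrix (Fin 2) (Fin 2) k := (h : Matrix (Fin 2) (Fin 2) k) with hH
  set Gi : Matrix (Fin 2) (Fin 2) k := ((g⁻¹ : GL (Fin 2) k) : Matrix (Fin 2) (Fin 2) k) with hGi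
  have hGH : G * H = H * G := by
    have := congrArg (Units.val) hc
    simpa using this
  have hGiG : Gi * G = 1 := by
    have := congrArg (Units.val) (inv_mul_cancel g)
    rw [Units.val_mul, Units.val_one] at this
    exact this
  have hGGi : G * Gi = 1 := by
    have := congrArg (Units.val) (mul_inv_cancel g)
    rw [Units.val_mul, Units.val_one] at this
    exact this
  have hG2 := cayley_two G
  have hH2 := cayley_two H
  rw [ht, hd] at hH2
  by_cases hB : H + G - G.trace • (1 : Matrix (Fin 2) (Fin 2) k) = 0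
  · right
    have : H = G.trace • (1 : Matrix (Fin 2) (Fin 2) k) - G := by
      rw [eq_sub_iff_add_eq]
      exact sub_eq_zero.mp hB
    exact this
  · left
    -- `A := H - G` is singular of trace zero
    have hAB : (H - G) * (H + G - G.trace • (1 : Matrix (Fin 2) (Fin 2) k)) = 0 := by
      have e : (H - G) * (H + G - G.trace • (1 : Matrix (Fin 2) (Fin 2) k)) =
          (H ^ 2 - G.trace • H) - (G ^ 2 - G.trace • G) + (H * G - G * H) := by
        simp only [pow_two, sub_mul, mul_sub, mul_add, Matrix.mul_smul, mul_one]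
        abel
      rw [e, hG2, hH2, hGH]
      abel
    have hdet : (H - G).det = 0 := by
      by_contra hne
      have hu : IsUnit (H - G).det := isUnit_iff_ne_zero.mpr hne
      have := congrArg (fun X => (H - G)⁻¹ * X) hAB
      simp only [mul_zero] at this
      rw [← mul_assoc, Matrix.nonsing_inv_mul _ hu, one_mul] at this
      exact hB this
    have htr : (H - G).trace = 0 := by
      rw [Matrix.trace_sub, ht, sub_self]
    have hA2 : (H - G) ^ 2 = 0 := sq_eq_zero_of_trace_det _ htr hdet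
    -- `Gi` commutes with `H - G`
    have hGiH : Gi * H = H * Gi := by
      calc Gi * H = Gi * H * (G * Gi) := by rw [hGGi, mul_one]
        _ = Gi * (H * G) * Gi := by simp only [mul_assoc]
        _ = Gi * (G * H) * Gi := by rw [hGH]
        _ = (Gi * G) * H * Gi := by simp only [mul_assoc]
        _ = H * Gi := by rw [hGiG, one_mul]
    have hGiGc : Gi * G = G * Gi := by rw [hGiG, hGGi]
    have hcomm : Gi * (H - G) = (H - G) * Gi := by
      rw [mul_sub, sub_mul, hGiH, hGiGc]
    have hx : (((g⁻¹ * h : GL (Fin 2) k)) : Matrix (Fin 2) (Fin 2) k) - 1 = Gi * (H - G) := by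
      rw [mul_sub, hGiG]
      simp [hGi, hH]
    have hx2 : ((((g⁻¹ * h : GL (Fin 2) k)) : Matrix (Fin 2) (Fin 2) k) - 1) ^ 2 = 0 := by
      rw [hx, pow_two]
      calc Gi * (H - G) * (Gi * (H - G)) = Gi * ((H - G) * Gi) * (H - G) := by
            simp only [mul_assoc]
        _ = Gi * (Gi * (H - G)) * (H - G) := by rw [hcomm]
        _ = Gi * Gi * ((H - G) ^ 2) := by simp only [mul_assoc, pow_two]
        _ = 0 := by rw [hA2, mul_zero]
    have := hun hx2
    have h2 : g * (g⁻¹ * h) = g * 1 := by rw [this]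
    rw [mul_inv_cancel_left, mul_one] at h2
    exact h2

/-- The `(trace, det)` pair of an element of `GL 2 k`. -/
def trDet (g : GL (Fin 2) k) : k × k :=
  ((g : Matrix (Fin 2) (Fin 2) k).trace, (g : Matrix (Fin 2) (Fin 2) k).det)

/-- In an abelian subgroup of `GL 2 k` without nontrivial unipotent elements, a finite set whose
`(trace, det)` pairs lie in `T` has at most `2 |T|` elements. -/
theorem ncard_le_two_mul (C : Subgroup (GL (Fin 2) k))
    (hab : ∀ x ∈ C, ∀ y ∈ C, x * y = y * x)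
    (hun : ∀ u ∈ C, ((u : Matrix (Fin 2) (Fin 2) k) - 1) ^ 2 = 0 → u = 1)
    (S : Set (GL (Fin 2) k)) (hSfin : S.Finite) (hS : S ⊆ (C : Set (GL (Fin 2) k)))
    (T : Finset (k × k))
    (hT : ∀ h ∈ S, ((h : Matrix (Fin 2) (Fin 2) k).trace,
      (h : Matrix (Fin 2) (Fin 2) k).det) ∈ T) :
    S.ncard ≤ 2 * T.card := by
  classical
  rw [Set.ncard_eq_toFinset_card S hSfin]
  have hfib : ∀ a ∈ hSfin.toFinset.image trDet,
      (hSfin.toFinset.filter fun x => trDet x = a).card ≤ 2 := by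
    intro a _
    by_contra hlt
    rw [not_le, Finset.two_lt_card] at hlt
    obtain ⟨x, hx, y, hy, z, hz, hxy, hxz, hyz⟩ := hlt
    simp only [Finset.mem_filter, Set.Finite.mem_toFinset] at hx hy hz
    have key : ∀ w : GL (Fin 2) k, w ∈ S → trDet w = a → w ≠ x →
        (w : Matrix (Fin 2) (Fin 2) k) =
          (x : Matrix (Fin 2) (Fin 2) k).trace • (1 : Matrix (Fin 2) (Fin 2) k) -
            (x : Matrix (Fin 2) (Fin 2) k) := by
      intro w hw hwa hwx
      have hwt : trDet w = trDet x := hwa.trans hx.2.symm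
      have h1 : (w : Matrix (Fin 2) (Fin 2) k).trace = (x : Matrix (Fin 2) (Fin 2) k).trace :=
        congrArg Prod.fst hwt
      have h2 : (w : Matrix (Fin 2) (Fin 2) k).det = (x : Matrix (Fin 2) (Fin 2) k).det :=
        congrArg Prod.snd hwt
      rcases eq_or_eq_sub_of_commute (hab x (hS hx.1) w (hS hw))
        (hun _ (C.mul_mem (C.inv_mem (hS hx.1)) (hS hw))) h1 h2 with h | h
      · exact absurd h hwx
      · exact h
    have hy' := key y hy.1 hy.2 (Ne.symm hxy)
    have hz' := key z hz.1 hz.2 (Ne.symm hxz)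
    exact hyz (Units.ext (hy'.trans hz'.symm))
  have h1 := Finset.card_le_mul_card_image hSfin.toFinset 2 hfib
  have h2 : (hSfin.toFinset.image trDet).card ≤ T.card := by
    apply Finset.card_le_card
    intro a ha
    rw [Finset.mem_image] at ha
    obtain ⟨w, hw, rfl⟩ := ha
    rw [Set.Finite.mem_toFinset] at hw
    exact hT w hw
  calc hSfin.toFinset.card ≤ 2 * (hSfin.toFinset.image trDet).card := h1
    _ ≤ 2 * T.card := Nat.mul_le_mul_left 2 h2

/-- If `ker ρ ≤ ker ρ'` and `ρ` has finite range, then `ρ'` has finite range. -/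
theorem finite_range_of_ker_le {Γ G₁ G₂ : Type*} [Group Γ] [Group G₁] [Group G₂]
    (ρ : Γ →* G₁) (ρ' : Γ →* G₂) (hker : ρ.ker ≤ ρ'.ker) [Finite ρ.range] :
    Finite ρ'.range := by
  classical
  have hex : ∀ g : ρ.range, ∃ γ : Γ, ρ γ = g := fun g => g.2
  choose sec hsec using hex
  refine Finite.of_surjective (fun g : ρ.range => (⟨ρ' (sec g), ⟨sec g, rfl⟩⟩ : ρ'.range)) ?_
  rintro ⟨y, γ, rfl⟩
  refine ⟨⟨ρ γ, γ, rfl⟩, ?_⟩
  apply Subtype.ext
  show ρ' (sec ⟨ρ γ, γ, rfl⟩) = ρ' γ
  have h1 : ρ (sec ⟨ρ γ, γ, rfl⟩) = ρ γ := hsec ⟨ρ γ, γ, rfl⟩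
  have h2 : (sec ⟨ρ γ, γ, rfl⟩)⁻¹ * γ ∈ ρ.ker := by
    rw [MonoidHom.mem_ker, map_mul, map_inv, h1, inv_mul_cancel]
  have h3 := hker h2
  rw [MonoidHom.mem_ker, map_mul, map_inv, inv_mul_eq_one] at h3
  exact h3

/-- The diagonal matrix `diag (a, b)`. -/
def diagMat (a b : k) : Matrix (Fin 2) (Fin 2) k := !![a, 0; 0, b]

theorem diagMat_mul (a b c d : k) : diagMat a b * diagMat c d = diagMat (a * c) (b * d) := by
  simp [diagMat]

theorem diagMat_one : diagMat (1 : k) 1 = 1 := by
  simp [diagMat, Matrix.one_fin_two]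

theorem trace_diagMat (a b : k) : (diagMat a b).trace = a + b := by
  simp [diagMat, Matrix.trace_fin_two_of]

theorem det_diagMat (a b : k) : (diagMat a b).det = a * b := by
  simp [diagMat, Matrix.det_fin_two_of]

theorem diagMat_inj {a b c d : k} (h : diagMat a b = diagMat c d) : a = c ∧ b = d := by
  have h0 := congrFun (congrFun h 0) 0
  have h1 := congrFun (congrFun h 1) 1
  simp [diagMat] at h0 h1
  exact ⟨h0, h1⟩

/-- **Semisimplification** of a representation stabilising a line: the diagonal representation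
`diag (χ₁, χ₂)` has the same traces and determinants, a larger kernel, abelian image without
nontrivial unipotent elements. -/
theorem exists_diag_of_line {Γ : Type} [Group Γ] (ρ : Γ →* GL (Fin 2) k)
    (v : Fin 2 → k) (hv : v ≠ 0)
    (hstab : ∀ g ∈ ρ.range, ∃ c : k, (g : Matrix (Fin 2) (Fin 2) k).mulVec v = c • v) :
    ∃ ρ' : Γ →* GL (Fin 2) k, ρ.ker ≤ ρ'.ker ∧
      (∀ γ : Γ,
        ((ρ' γ : GL (Fin 2) k) : Matrix (Fin 2) (Fin 2) k).trace =
          ((ρ γ : GL (Fin 2) k) : Matrix (Fin 2) (Fin 2) k).trace ∧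
        ((ρ' γ : GL (Fin 2) k) : Matrix (Fin 2) (Fin 2) k).det =
          ((ρ γ : GL (Fin 2) k) : Matrix (Fin 2) (Fin 2) k).det) ∧
      (∀ x ∈ ρ'.range, ∀ y ∈ ρ'.range, x * y = y * x) ∧
      (∀ u ∈ ρ'.range, ((u : Matrix (Fin 2) (Fin 2) k) - 1) ^ 2 = 0 → u = 1) := by
  classical
  obtain ⟨i, hi⟩ := Function.ne_iff.mp hv
  have hi' : v i ≠ 0 := hi
  -- the eigenvalue on the line
  set d₁ : Γ → k := fun γ => ((ρ γ : Matrix (Fin 2) (Fin 2) k).mulVec v) i / v i with hd₁def
  have hd₁ : ∀ γ : Γ, (ρ γ : Matrix (Fin 2) (Fin 2) k).mulVec v = d₁ γ • v := by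
    intro γ
    obtain ⟨c, hc⟩ := hstab (ρ γ) ⟨γ, rfl⟩
    have : d₁ γ = c := by
      simp only [hd₁def, hc, Pi.smul_apply, smul_eq_mul]
      field_simp
    rw [this, hc]
  have hone : d₁ 1 = 1 := by
    simp only [hd₁def, map_one, Units.val_one, Matrix.one_mulVec]
    exact div_self hi'
  have hmul : ∀ γ γ' : Γ, d₁ (γ * γ') = d₁ γ * d₁ γ' := by
    intro γ γ'
    have h1 : (ρ (γ * γ') : Matrix (Fin 2) (Fin 2) k).mulVec v = (d₁ γ * d₁ γ') • v := by
      rw [map_mul, Units.val_mul, ← Matrix.mulVec_mulVec, hd₁ γ', Matrix.mulVec_smul, hd₁ γ,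
        smul_smul, mul_comm]
    have h2 := hd₁ (γ * γ')
    rw [h1] at h2
    have h3 := congrFun h2 i
    simp only [Pi.smul_apply, smul_eq_mul] at h3
    exact (mul_right_cancel₀ hi' h3).symm
  have hne : ∀ γ : Γ, d₁ γ ≠ 0 := by
    intro γ h0
    have := hmul γ γ⁻¹
    rw [mul_inv_cancel, hone, h0, zero_mul] at this
    exact one_ne_zero this
  -- the characteristic equation on the line
  have hchar : ∀ γ : Γ, d₁ γ * d₁ γ + (ρ γ : Matrix (Fin 2) (Fin 2) k).det =
      (ρ γ : Matrix (Fin 2) (Fin 2) k).trace * d₁ γ := by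
    intro γ
    have h2 := cayley_two (ρ γ : Matrix (Fin 2) (Fin 2) k)
    have h3 := congrArg (fun X : Matrix (Fin 2) (Fin 2) k => (X.mulVec v) i) h2
    simp only [pow_two, ← Matrix.mulVec_mulVec, hd₁ γ, Matrix.mulVec_smul, Matrix.sub_mulVec,
      Matrix.smul_mulVec, Matrix.one_mulVec, Pi.smul_apply, Pi.sub_apply, smul_eq_mul] at h3
    have h4 : (d₁ γ * d₁ γ + (ρ γ : Matrix (Fin 2) (Fin 2) k).det -
        (ρ γ : Matrix (Fin 2) (Fin 2) k).trace * d₁ γ) * v i = 0 := by
      linear_combination h3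
    rcases mul_eq_zero.mp h4 with h | h
    · exact sub_eq_zero.mp h
    · exact absurd h hi'
  set d₂ : Γ → k := fun γ => (ρ γ : Matrix (Fin 2) (Fin 2) k).det * (d₁ γ)⁻¹ with hd₂def
  have hone₂ : d₂ 1 = 1 := by
    simp only [hd₂def, hone, map_one, Units.val_one, Matrix.det_one, inv_one, mul_one]
  have hmul₂ : ∀ γ γ' : Γ, d₂ (γ * γ') = d₂ γ * d₂ γ' := by
    intro γ γ'
    simp only [hd₂def, hmul, map_mul, Units.val_mul, Matrix.det_mul, mul_inv]
    ring
  let f : Γ →* Matrix (Fin 2) (Fin 2) k :=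
    { toFun := fun γ => diagMat (d₁ γ) (d₂ γ)
      map_one' := by rw [hone, hone₂, diagMat_one]
      map_mul' := fun γ γ' => by rw [hmul, hmul₂, diagMat_mul] }
  have hf : ∀ γ : Γ, ((f.toHomUnits γ : GL (Fin 2) k) : Matrix (Fin 2) (Fin 2) k) =
      diagMat (d₁ γ) (d₂ γ) := fun γ => rfl
  refine ⟨f.toHomUnits, ?_, ?_, ?_, ?_⟩
  · intro γ hγ
    rw [MonoidHom.mem_ker] at hγ ⊢
    apply Units.ext
    rw [hf, Units.val_one]
    have e1 : d₁ γ = 1 := by
      simp only [hd₁def, hγ, Units.val_one, Matrix.one_mulVec]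
      exact div_self hi'
    have e2 : d₂ γ = 1 := by
      simp only [hd₂def, e1, hγ, Units.val_one, Matrix.det_one, inv_one, mul_one]
    rw [e1, e2, diagMat_one]
  · intro γ
    rw [hf, trace_diagMat, det_diagMat]
    constructor
    · have := hchar γ
      simp only [hd₂def]
      field_simp [hne γ]
      linear_combination this
    · simp only [hd₂def]
      field_simp [hne γ]
  · rintro x ⟨γ, rfl⟩ y ⟨γ', rfl⟩
    apply Units.ext
    rw [Units.val_mul, Units.val_mul, hf, hf, diagMat_mul, diagMat_mul, mul_comm (d₁ γ),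
      mul_comm (d₂ γ)]
  · rintro u ⟨γ, rfl⟩ hu
    apply Units.ext
    rw [hf] at hu ⊢
    rw [Units.val_one]
    have e : (diagMat (d₁ γ) (d₂ γ) - 1) ^ 2 =
        diagMat ((d₁ γ - 1) * (d₁ γ - 1)) ((d₂ γ - 1) * (d₂ γ - 1)) := by
      rw [← diagMat_mul, pow_two]
      have : diagMat (d₁ γ) (d₂ γ) - 1 = diagMat (d₁ γ - 1) (d₂ γ - 1) := by
        rw [← diagMat_one]
        ext a b
        fin_cases a <;> fin_cases b <;> simp [diagMat]
      rw [this]
    rw [e] at hu
    have hz : (0 : Matrix (Fin 2) (Fin 2) k) = diagMat 0 0 := by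
      ext a b
      fin_cases a <;> fin_cases b <;> simp [diagMat]
    rw [hz] at hu
    obtain ⟨h1, h2⟩ := diagMat_inj hu
    have e1 : d₁ γ = 1 := sub_eq_zero.mp (mul_self_eq_zero.mp h1)
    have e2 : d₂ γ = 1 := sub_eq_zero.mp (mul_self_eq_zero.mp h2)
    rw [e1, e2, diagMat_one]

/-- The images of `F` have their `(trace, det)` pairs in `T`. -/
theorem trDet_mem_of_image {Γ : Type} [Group Γ] (ρ ρ' : Γ →* GL (Fin 2) k) (F : Set Γ)
    (T : Finset (k × k))
    (htd : ∀ γ : Γ,
      ((ρ' γ : GL (Fin 2) k) : Matrix (Fin 2) (Fin 2) k).trace =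
        ((ρ γ : GL (Fin 2) k) : Matrix (Fin 2) (Fin 2) k).trace ∧
      ((ρ' γ : GL (Fin 2) k) : Matrix (Fin 2) (Fin 2) k).det =
        ((ρ γ : GL (Fin 2) k) : Matrix (Fin 2) (Fin 2) k).det)
    (hT : ∀ f ∈ F, (((ρ f : GL (Fin 2) k) : Matrix (Fin 2) (Fin 2) k).trace,
      ((ρ f : GL (Fin 2) k) : Matrix (Fin 2) (Fin 2) k).det) ∈ T) :
    ∀ h ∈ ρ' '' F, ((h : Matrix (Fin 2) (Fin 2) k).trace,
      (h : Matrix (Fin 2) (Fin 2) k).det) ∈ T := by
  rintro h ⟨f, hf, rfl⟩
  rw [(htd f).1, (htd f).2]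
  exact hT f hf

/-- **[IV-BOUND]** the group theory of the Deligne-Serre endgame, from [IV-UNIP] and
[IV-CLASS], with `A = 48 M + 2`. -/
theorem bound_of : UnipStatement → ClassStatement → BoundStatement := by
  intro hU hC M
  refine ⟨48 * M + 2, ?_⟩
  intro k _ l hl hchar hAl Γ _ ρ hfin F hLarge hFew
  classical
  obtain ⟨T, hTcard, hT⟩ := hFew
  by_cases hline : ∃ v : Fin 2 → k, v ≠ 0 ∧ ∀ g ∈ ρ.range, ∃ c : k,
      (g : Matrix (Fin 2) (Fin 2) k).mulVec v = c • v
  · -- a stable line: semisimplify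
    obtain ⟨v, hv, hstab⟩ := hline
    obtain ⟨ρ', hker, htd, hab, hun⟩ := exists_diag_of_line ρ v hv hstab
    have hfin' : Finite ρ'.range := finite_range_of_ker_le ρ ρ' hker
    refine ⟨ρ', hker, htd, ?_, ?_⟩
    · have h1 := hLarge ρ' hker
      have hfinS : (ρ' '' F).Finite :=
        Set.Finite.subset (Set.toFinite (ρ'.range : Set (GL (Fin 2) k)))
          (by rintro _ ⟨f, -, rfl⟩; exact ⟨f, rfl⟩)
      have h2 := ncard_le_two_mul ρ'.range hab hun (ρ' '' F) hfinS
        (by rintro _ ⟨f, -, rfl⟩; exact ⟨f, rfl⟩) T (trDet_mem_of_image ρ ρ' F T htd hT)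
      rw [Nat.card_coe_set_eq] at h1
      omega
    · intro hdvd
      obtain ⟨u, hu, hu1, hu2⟩ := exists_unipotent_of_dvd_card l hl ρ'.range hdvd
      exact hu1 (hun u hu hu2)
  · by_cases hunip : ∃ u ∈ ρ.range, u ≠ 1 ∧ ((u : Matrix (Fin 2) (Fin 2) k) - 1) ^ 2 = 0
    · -- a nontrivial unipotent element and no stable line: impossible for `l > 48 M + 2`
      exfalso
      have h1 := hLarge ρ le_rfl
      have h2 := hU k inferInstance l hl hchar ρ.range hfin M (ρ '' F)
        (by rintro _ ⟨f, -, rfl⟩; exact ⟨f, rfl⟩)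
        ⟨T, hTcard, trDet_mem_of_image ρ ρ F T (fun _ => ⟨rfl, rfl⟩) hT⟩ hline hunip
      have hpos : 0 < Nat.card ρ.range := Nat.card_pos
      have hposR : (0 : ℝ) < (Nat.card ρ.range : ℝ) := by exact_mod_cast hpos
      have h1R : (23 : ℝ) * (Nat.card ρ.range : ℝ) ≤ 24 * (Nat.card (ρ '' F) : ℝ) := by
        exact_mod_cast h1
      have hlR : (48 : ℝ) * (M : ℝ) + 2 < (l : ℝ) := by exact_mod_cast hAl
      have hl0 : (0 : ℝ) < (l : ℝ) := by
        have : (0 : ℝ) ≤ (M : ℝ) := Nat.cast_nonneg M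
        linarith
      have hM0 : (0 : ℝ) ≤ (M : ℝ) := Nat.cast_nonneg M
      have h3 : 1 / ((l : ℝ) + 1) + (M : ℝ) / (l : ℝ) < 23 / 24 := by
        have e1 : 1 / ((l : ℝ) + 1) ≤ 1 / (l : ℝ) :=
          one_div_le_one_div_of_le hl0 (by linarith)
        have e2 : 1 / (l : ℝ) + (M : ℝ) / (l : ℝ) = ((M : ℝ) + 1) / (l : ℝ) := by
          field_simp
          ring
        have e3 : ((M : ℝ) + 1) / (l : ℝ) < 23 / 24 := by
          rw [div_lt_div_iff₀ hl0 (by norm_num)]
          nlinarith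
        linarith
      have h4 : (Nat.card ρ.range : ℝ) * (1 / ((l : ℝ) + 1) + (M : ℝ) / (l : ℝ)) <
          (Nat.card ρ.range : ℝ) * (23 / 24) := mul_lt_mul_of_pos_left h3 hposR
      nlinarith
    · -- no unipotent element: order prime to `l`, abelian subgroup of index at most `12`
      have hun : ∀ u ∈ ρ.range, ((u : Matrix (Fin 2) (Fin 2) k) - 1) ^ 2 = 0 → u = 1 := by
        intro u hu hu2
        by_contra hne
        exact hunip ⟨u, hu, hne, hu2⟩
      have hndvd : ¬ l ∣ Nat.card ρ.range := by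
        intro hdvd
        obtain ⟨u, hu, hu1, hu2⟩ := exists_unipotent_of_dvd_card l hl ρ.range hdvd
        exact hu1 (hun u hu hu2)
      have hcast : ((Nat.card ρ.range : ℕ) : k) ≠ 0 := by
        intro h0
        exact hndvd ((CharP.cast_eq_zero_iff k l _).mp h0)
      obtain ⟨C, hCG, hCab, hCcard⟩ := hC k inferInstance ρ.range hfin hcast
      refine ⟨ρ, le_rfl, fun _ => ⟨rfl, rfl⟩, ?_, hndvd⟩
      have h1 := hLarge ρ le_rfl
      rw [Nat.card_coe_set_eq] at h1
      have hGfin : (ρ.range : Set (GL (Fin 2) k)).Finite := Set.toFinite _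
      have hCfin : (C : Set (GL (Fin 2) k)).Finite := hGfin.subset hCG
      have hHsub : ρ '' F ⊆ (ρ.range : Set (GL (Fin 2) k)) := by
        rintro _ ⟨f, -, rfl⟩; exact ⟨f, rfl⟩
      have hHfin : (ρ '' F).Finite := hGfin.subset hHsub
      have hS := ncard_le_two_mul C hCab (fun u hu => hun u (hCG hu))
        ((C : Set (GL (Fin 2) k)) ∩ ρ '' F) (hCfin.subset Set.inter_subset_left)
        Set.inter_subset_left T
        (fun h hh => trDet_mem_of_image ρ ρ F T (fun _ => ⟨rfl, rfl⟩) hT h hh.2)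
      have hie := Set.ncard_inter_add_ncard_union (C : Set (GL (Fin 2) k)) (ρ '' F) hCfin hHfin
      have hunion : ((C : Set (GL (Fin 2) k)) ∪ ρ '' F).ncard ≤
          (ρ.range : Set (GL (Fin 2) k)).ncard :=
        Set.ncard_le_ncard (Set.union_subset hCG hHsub) hGfin
      have hGc : Nat.card ρ.range = (ρ.range : Set (GL (Fin 2) k)).ncard :=
        Nat.card_coe_set_eq _
      have hCc : Nat.card C = (C : Set (GL (Fin 2) k)).ncard :=
        Nat.card_coe_set_eq _
      rw [hGc] at h1 hCcard ⊢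
      rw [hCc] at hCcard
      omega

end Fermat.Agent.T4.helper18
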