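/-
T4 block (I), I-RED [RED-CUSP1-ROOTS] (helper18): a cheaper constructor for the integral
conjugate data `ConjPackA` of `helper18_CosetConj`.

The product formula `∏ (Y - Θ i) = Φ(j(t ^ W), Y)` follows from
* `Φ(j(t ^ W), Θ i) = 0` for all `i` (each conjugate is a root),
* the `Θ i` have pairwise distinct reductions,
* `deg Φ = |I|`.

* `prod_X_sub_C_eq_of_roots` : the generic statement over a field.
* `ConjPackA.ofRoots` : the constructor.
-/
import Mathlib
import Fermat.Agent.T4.helper18_CosetConj

set_option autoImplicit false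
set_option linter.unusedSectionVars false
set_option linter.style.haveILetI false

noncomputable section

open ModularCurve Polynomial

namespace Fermat.Agent.T4.helper18

/-- a monic polynomial of degree `|I|` over a field with pairwise distinct roots `Θ i` is
`∏ (X - Θ i)` -/
theorem prod_X_sub_C_eq_of_roots {L : Type*} [Field L] {I : Type*} [Fintype I]
    (p : Polynomial L) (hp : p.Monic) (Θ : I → L) (hinj : Function.Injective Θ)
    (hroot : ∀ i, p.eval (Θ i) = 0) (hcard : p.natDegree = Fintype.card I) :
    ∏ i, (Polynomial.X - Polynomial.C (Θ i)) = p := by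
  classical
  have hq : (∏ i, (Polynomial.X - Polynomial.C (Θ i)) : Polynomial L).Monic :=
    Polynomial.monic_prod_of_monic _ _ (fun i _ => Polynomial.monic_X_sub_C _)
  have hqdeg : (∏ i, (Polynomial.X - Polynomial.C (Θ i)) : Polynomial L).natDegree =
      Fintype.card I := by
    rw [Polynomial.natDegree_prod_of_monic _ _ (fun i _ => Polynomial.monic_X_sub_C _)]
    simp only [Polynomial.natDegree_X_sub_C, Finset.sum_const, Finset.card_univ, smul_eq_mul,
      mul_one]
  have hdvd : (∏ i, (Polynomial.X - Polynomial.C (Θ i)) : Polynomial L) ∣ p := by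
    have h1 : (∏ i, (Polynomial.X - Polynomial.C (Θ i)) : Polynomial L) =
        ((Finset.univ.val.map Θ).map fun a => Polynomial.X - Polynomial.C a).prod := by
      rw [Multiset.map_map]
      rfl
    rw [h1, Multiset.prod_X_sub_C_dvd_iff_le_roots hp.ne_zero]
    have hnd : (Finset.univ.val.map Θ).Nodup := Multiset.Nodup.map hinj Finset.univ.nodup
    rw [Multiset.le_iff_subset hnd]
    intro a ha
    obtain ⟨i, -, rfl⟩ := Multiset.mem_map.mp ha
    exact (Polynomial.mem_roots hp.ne_zero).mpr (hroot i)
  exact (Polynomial.eq_of_monic_of_dvd_of_natDegree_le hq hp hdvd (by rw [hcard, hqdeg])).symm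

section Roots

open Fermat.Agent.S18.helper19 (Kb kA)
open Fermat.Agent.P2.helper29 (incl red)
open Fermat.Agent.P2.helper81 (ev₂ ev₂_apply)

variable {A : ValuationSubring Kb} {θ : LaurentSeries A} {Φ : Polynomial (Polynomial A)}
  {I : Type*} [Fintype I] {W : ℕ} [NeZero W] {π : Equiv.Perm I} {i₀ : I}

/-- the product formula over `A((t))` from the roots -/
theorem prod_eq_of_roots (hm : Φ.Monic) (Θ : I → LaurentSeries A)
    (hinj : Function.Injective fun i => red A (Θ i))
    (hroot : ∀ i, ev₂ (qExpand A W (jqModC A)) (Θ i) Φ = 0)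
    (hcard : Φ.natDegree = Fintype.card I) :
    ∏ i, (Polynomial.X - Polynomial.C (Θ i)) =
      Φ.map ((aeval (qExpand A W (jqModC A)) : Polynomial A →ₐ[A] LaurentSeries A) :
        Polynomial A →+* LaurentSeries A) := by
  have hinj' : Function.Injective fun i => incl A (Θ i) := by
    intro i i' h
    apply hinj
    have h1 : Θ i = Θ i' := Fermat.Agent.P2.helper81.coeffMap_subtype_injective A h
    show red A (Θ i) = red A (Θ i')
    rw [h1]
  apply Polynomial.map_injective (incl A) (Fermat.Agent.P2.helper81.coeffMap_subtype_injective A)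
  rw [Polynomial.map_prod]
  have h1 : ∀ i, Polynomial.map (incl A) (Polynomial.X - Polynomial.C (Θ i)) =
      Polynomial.X - Polynomial.C (incl A (Θ i)) := fun i => by
    rw [Polynomial.map_sub, Polynomial.map_X, Polynomial.map_C]
  simp only [h1]
  apply prod_X_sub_C_eq_of_roots _ ((hm.map _).map _) (fun i => incl A (Θ i)) hinj'
  · intro i
    rw [Polynomial.eval_map, Polynomial.eval₂_map, ← Polynomial.hom_eval₂]
    have := hroot i
    rw [ev₂_apply] at this
    rw [this, map_zero]
  · rw [((hm.map _).natDegree_map _), hm.natDegree_map, hcard]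

/-- **constructor of the integral conjugate data from the roots** -/
def ConjPackA.ofRoots (hm : Φ.Monic) (Θ : I → LaurentSeries A)
    (injb : Function.Injective fun i => red A (Θ i))
    (ζ : Aˣ) (hζ : orderOf ζ = W)
    (hζb : orderOf (Units.map ((IsLocalRing.residue A : A →+* kA A) : A →* kA A) ζ) = W)
    (hroot : ∀ i, ev₂ (qExpand A W (jqModC A)) (Θ i) Φ = 0)
    (hcard : Φ.natDegree = Fintype.card I)
    (rot : ∀ i, Θ (π i) = Fermat.Agent.P2.helper94.rot ζ (Θ i))
    (base : Θ i₀ = qExpand A W θ) : ConjPackA A θ Φ W π i₀ where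
  Θ := Θ
  injb := injb
  ζ := ζ
  hζ := hζ
  hζb := hζb
  prod := prod_eq_of_roots hm Θ injb hroot hcard
  rot := rot
  base := base

end Roots

end Fermat.Agent.T4.helper18
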