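/-
T4 block (I), sub-block I-RED, box [GEN-A] / [GEN] / [SURJ] (helper18, row 1121).

GENERIC port of `P2/helper96_Gen` to the vocabulary of `T4/helper4_RedDefs`: for ANY pair

  `E  : IntermediateField ℚ̄ ℚ̄((q))`,   `Eb : IntermediateField k k((q))`   (`k = kA A`),

* `genusBarLe_of` : semicontinuity half `g̃ ≤ g` of genus equality (`helper4.GenusBarLeStatement`)
  from `Infty`, `Scale`, `Integrality`, `RegRed` and the two `RiemannSetting`s;
* `genusEq_of`    : `helper4.GenusEqStatement` from the two halves;
* `surjRed_of`    : `helper4.SurjRedStatement` from genus equality.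

The bridge lemmas `helper96.LSub`, `mem_LSub_iff`, `exists_finrank_LSub`, ... are generic
already and are used unchanged.
-/
import Mathlib
import Fermat.Agent.T4.helper4_RedDefs
import Fermat.Agent.P2.helper96_Gen

set_option autoImplicit false
set_option synthInstance.maxHeartbeats 200000

noncomputable section

open HahnSeries IntermediateField AlgebraicCurve ModularCurve
open Fermat.Agent.S18.helper19 (Kb kA)
open Fermat.Agent.P2.helper29 (incl red IsInfty InL HasRiemannGenus)
open Fermat.Agent.P2
open Fermat.Agent.T4.helper4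

namespace Fermat.Agent.T4.helper18

variable {A : ValuationSubring Kb} {E : IntermediateField Kb (LaurentSeries Kb)}
  {Eb : IntermediateField (kA A) (LaurentSeries (kA A))}

/-- every nonzero element of `L(n ∞)` has a scalar multiple with integral `q`-expansion and
nonzero reduction (generic pair) -/
theorem redGen_exists_scaled (hSc : ScaleStatement A E Eb) (hInt : IntegralityStatement A E Eb)
    {P : Place Kb E} (hP : IsInfty P) (n : ℤ)
    (u : LaurentSeries Kb) (hu : u ∈ helper96.LSub P n) (hu0 : u ≠ 0) :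
    ∃ c : Kb, c ≠ 0 ∧ ∃ Y : LaurentSeries A,
      coeffMap A.subtype Y = c • u ∧ coeffMap (IsLocalRing.residue A) Y ≠ 0 := by
  have huL : InL E n u := (helper96.mem_LSub_iff hP n u).mp hu
  obtain ⟨hmem, -⟩ := huL
  obtain ⟨c, Y₁, Y₂, hc, hY₁, hY₂, e⟩ := hSc u hmem hu0
  have hu' : InL E n (c⁻¹ • u) :=
    (helper96.mem_LSub_iff hP n _).mp (Submodule.smul_mem _ _ hu)
  have e' : incl A Y₁ = (c⁻¹ • u) * incl A Y₂ := by
    rw [← HahnSeries.C_mul_eq_smul, mul_assoc, ← e, algebraMap_laurentSeries_eq_single,
      ← HahnSeries.C_apply, ← mul_assoc, ← map_mul, inv_mul_cancel₀ hc, map_one, one_mul]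
  obtain ⟨Y, hY⟩ := hInt n _ hu' ⟨Y₁, Y₂, hY₁.1, hY₂, e'⟩
  refine ⟨c⁻¹, inv_ne_zero hc, Y, hY, ?_⟩
  intro h0
  have h1 : Y * Y₂ = Y₁ := by
    apply helper74.coeffMap_subtype_injective A
    rw [map_mul, hY]
    exact e'.symm
  have h2 := congrArg (coeffMap (IsLocalRing.residue A)) h1
  rw [map_mul, h0, zero_mul] at h2
  exact hY₁.2.2 h2.symm

/-- an integral basis of `L(n ∞)` whose reductions are linearly independent elements of
`L(n ∞̃)` (generic pair) -/
theorem redGen_exists_family (hSc : ScaleStatement A E Eb)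
    (hInt : IntegralityStatement A E Eb) (hReg : RegRedStatement A E Eb)
    (hS : helper74.RiemannSetting Kb E)
    {P : Place Kb E} (hP : IsInfty P) {Q : Place (kA A) Eb} (hQ : IsInfty Q)
    (n : ℤ) :
    ∃ Y : Fin (Module.finrank Kb (helper96.LSub P n)) → LaurentSeries A,
      (∀ i, incl A (Y i) ∈ helper96.LSub P n) ∧
      LinearIndependent (kA A) (fun i => red A (Y i)) ∧
      (∀ i, red A (Y i) ∈ helper96.LSub Q n) := by
  have := helper96.finite_LSub hS P n
  obtain ⟨Y, hYV, -, -, hYred⟩ := helper74.exists_integral_basis A (IsLocalRing.residue A)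
    helper96.isUnit_of_residue_ne_zero (helper96.LSub P n)
    (fun u hu hu0 => redGen_exists_scaled hSc hInt hP n u hu hu0)
  refine ⟨Y, hYV, helper74.linearIndependent_coeffMap_of_forall A _
    IsLocalRing.residue_surjective Y hYred, fun i => ?_⟩
  exact (helper96.mem_LSub_iff hQ n _).mpr
    (hReg n (Y i) ((helper96.mem_LSub_iff hP n _).mp (hYV i)))

/-- semicontinuity of `dim L(n ∞)` (generic pair) -/
theorem redGen_finrank_LSub_le (hSc : ScaleStatement A E Eb)
    (hInt : IntegralityStatement A E Eb) (hReg : RegRedStatement A E Eb)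
    (hS : helper74.RiemannSetting Kb E) (hSb : helper74.RiemannSetting (kA A) Eb)
    {P : Place Kb E} (hP : IsInfty P) {Q : Place (kA A) Eb} (hQ : IsInfty Q)
    (n : ℤ) :
    Module.finrank Kb (helper96.LSub P n) ≤ Module.finrank (kA A) (helper96.LSub Q n) := by
  obtain ⟨Y, -, hli, hmem⟩ := redGen_exists_family hSc hInt hReg hS hP hQ n
  have := helper96.finite_LSub hSb Q n
  have hspan : Submodule.span (kA A) (Set.range fun i => red A (Y i)) ≤ helper96.LSub Q n :=
    Submodule.span_le.mpr (by rintro _ ⟨i, rfl⟩; exact hmem i)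
  have h1 := Submodule.finrank_mono hspan
  rw [finrank_span_eq_card hli, Fintype.card_fin] at h1
  exact h1

/-- **[GEN-A]** the semicontinuity half of genus equality, `g̃ ≤ g`, for a generic pair. -/
theorem genusBarLe_of (hInf : InftyStatement A E Eb) (hSc : ScaleStatement A E Eb)
    (hInt : IntegralityStatement A E Eb) (hReg : RegRedStatement A E Eb)
    (hS : helper74.RiemannSetting Kb E) (hSb : helper74.RiemannSetting (kA A) Eb) :
    GenusBarLeStatement A E Eb := by
  intro g gb hg hgb
  obtain ⟨⟨P, hP⟩, ⟨Q, hQ⟩⟩ := hInf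
  obtain ⟨c, hc⟩ := helper96.exists_finrank_LSub hS hg P
  obtain ⟨cb, hcb⟩ := helper96.exists_finrank_LSub hSb hgb Q
  have h1 := hc (max c cb) (le_max_left _ _)
  have h2 := hcb (max c cb) (le_max_right _ _)
  have h3 := redGen_finrank_LSub_le hSc hInt hReg hS hSb hP hQ (max c cb)
  have h4 : (Module.finrank Kb (helper96.LSub P (max c cb)) : ℤ) ≤
      (Module.finrank (kA A) (helper96.LSub Q (max c cb)) : ℤ) := by exact_mod_cast h3
  omega

/-- **[GEN]** genus equality from the two halves, for a generic pair. -/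
theorem genusEq_of (hR : RiemannStatement E) (hRb : RiemannBarStatement A Eb)
    (hA : GenusBarLeStatement A E Eb) (hB : GenusLeBarStatement A E Eb) :
    GenusEqStatement A E Eb := by
  obtain ⟨g, hg⟩ := hR
  obtain ⟨gb, hgb⟩ := hRb
  have e : g = gb := le_antisymm (hB g gb hg hgb) (hA g gb hg hgb)
  exact ⟨g, hg, e ▸ hgb⟩

/-- **[GEN]** genus equality from the leaf statements, for a generic pair. -/
theorem genusEq_of_leaves (hR : RiemannStatement E) (hRb : RiemannBarStatement A Eb)
    (hInf : InftyStatement A E Eb) (hSc : ScaleStatement A E Eb)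
    (hInt : IntegralityStatement A E Eb) (hReg : RegRedStatement A E Eb)
    (hS : helper74.RiemannSetting Kb E) (hSb : helper74.RiemannSetting (kA A) Eb)
    (hB : GenusLeBarStatement A E Eb) : GenusEqStatement A E Eb :=
  genusEq_of hR hRb (genusBarLe_of hInf hSc hInt hReg hS hSb) hB

/-- **[SURJ]** for large `n` every element of `L(n ∞̃)` is the reduction of an integral element
of `L(n ∞)`, for a generic pair. -/
theorem surjRed_of (hInf : InftyStatement A E Eb) (hSc : ScaleStatement A E Eb)
    (hInt : IntegralityStatement A E Eb) (hReg : RegRedStatement A E Eb)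
    (hS : helper74.RiemannSetting Kb E) (hSb : helper74.RiemannSetting (kA A) Eb)
    (hGen : GenusEqStatement A E Eb) : SurjRedStatement A E Eb := by
  obtain ⟨g, hg, hgb⟩ := hGen
  obtain ⟨⟨P, hP⟩, ⟨Q, hQ⟩⟩ := hInf
  obtain ⟨c, hc⟩ := helper96.exists_finrank_LSub hS hg P
  obtain ⟨cb, hcb⟩ := helper96.exists_finrank_LSub hSb hgb Q
  refine ⟨max c cb, fun n hn y hy => ?_⟩
  have h1 := hc n (le_trans (le_max_left _ _) hn)
  have h2 := hcb n (le_trans (le_max_right _ _) hn)
  have hfr : Module.finrank Kb (helper96.LSub P n) =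
      Module.finrank (kA A) (helper96.LSub Q n) := by
    have : (Module.finrank Kb (helper96.LSub P n) : ℤ) =
        (Module.finrank (kA A) (helper96.LSub Q n) : ℤ) := by
      omega
    exact_mod_cast this
  obtain ⟨Y, hYV, hli, hmem⟩ := redGen_exists_family hSc hInt hReg hS hP hQ n
  have := helper96.finite_LSub hSb Q n
  have hspan : Submodule.span (kA A) (Set.range fun i => red A (Y i)) = helper96.LSub Q n := by
    apply Submodule.eq_of_le_of_finrank_eq
      (Submodule.span_le.mpr (by rintro _ ⟨i, rfl⟩; exact hmem i))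
    rw [finrank_span_eq_card hli, Fintype.card_fin, hfr]
  have hy' : y ∈ Submodule.span (kA A) (Set.range fun i => red A (Y i)) := by
    rw [hspan]
    exact (helper96.mem_LSub_iff hQ n y).mpr hy
  obtain ⟨cf, hcf⟩ := (Submodule.mem_span_range_iff_exists_fun _).mp hy'
  choose a ha using fun i => IsLocalRing.residue_surjective (cf i)
  refine ⟨∑ i, a i • Y i, ?_, ?_⟩
  · apply (helper96.mem_LSub_iff hP n _).mp
    rw [helper74.coeffMap_subtype_sum]
    exact Submodule.sum_mem _ (fun i _ => Submodule.smul_mem _ _ (hYV i))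
  · rw [← hcf, map_sum]
    refine Finset.sum_congr rfl fun i _ => ?_
    ext m
    simp [ha]

/-- **[SURJ]** from the leaf statements, for a generic pair. -/
theorem surjRed_of_leaves (hR : RiemannStatement E) (hRb : RiemannBarStatement A Eb)
    (hInf : InftyStatement A E Eb) (hSc : ScaleStatement A E Eb)
    (hInt : IntegralityStatement A E Eb) (hReg : RegRedStatement A E Eb)
    (hS : helper74.RiemannSetting Kb E) (hSb : helper74.RiemannSetting (kA A) Eb)
    (hB : GenusLeBarStatement A E Eb) : SurjRedStatement A E Eb :=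
  surjRed_of hInf hSc hInt hReg hS hSb
    (genusEq_of_leaves hR hRb hInf hSc hInt hReg hS hSb hB)

end Fermat.Agent.T4.helper18

end
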