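/-
T4 block (I), I-RED [GEN-B] (helper68): the Hurwitz half `g ≤ g̃` of genus equality for the
GENERIC pair `(E, Eb)` of `helper4_RedDefs` (port of P2 `helper68_GenB`).

`genusLeBar_of` : from `TameBaseStatement` (special fibre), `CuspBarStatement`,
`TameBaseZeroStatement c` (characteristic `0`, exact count), `DegStatement` (equal degrees over
the `j`-line) and the Hurwitz inequality in count form on the special fibre:
`helper4.GenusLeBarStatement A E Eb`.
-/
import Mathlib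
import Fermat.Agent.T4.helper4_RedDefs
import Fermat.Agent.P2.helper68_GenB

set_option autoImplicit false
set_option synthInstance.maxHeartbeats 200000
set_option linter.style.haveILetI false

noncomputable section

open HahnSeries IntermediateField AlgebraicCurve ModularCurve
open Fermat.Agent.S18.helper19 (Kb kA)

namespace Fermat.Agent.T4.helper68

/-- the arithmetic of [GEN-B] -/
theorem genB_arith (g gb c Tc v n v₀ n₀ Nb N : ℤ) (hdeg : 6 * v * n = Nb)
    (hdeg₀ : 6 * v₀ * n₀ = N) (hfin : Nb = N) (hcore : v * n - Tc ≤ 2 * gb - 2)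
    (hgen : 2 * g - 2 = v₀ * n₀ - c) (hc : Tc ≤ c) : g ≤ gb := by
  have h1 : 6 * (v * n) = 6 * (v₀ * n₀) := by
    rw [← mul_assoc, ← mul_assoc, hdeg, hdeg₀, hfin]
  have h2 : v * n = v₀ * n₀ := by linarith
  linarith

/-- **[GEN-B]**, generic pair: `g ≤ g̃`. -/
theorem genusLeBar_of (A : ValuationSubring Kb) (E : IntermediateField Kb (LaurentSeries Kb))
    (Eb : IntermediateField (kA A) (LaurentSeries (kA A)))
    (hj : jqModC Kb ∈ E) (hjb : jqModC (kA A) ∈ Eb) (c : ℕ)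
    (hT : Fermat.Agent.T4.helper4.TameBaseStatement A Eb hjb)
    (hC : Fermat.Agent.T4.helper4.CuspBarStatement A E Eb hj hjb)
    (hT0 : Fermat.Agent.T4.helper4.TameBaseZeroStatement E hj c)
    (hD : Fermat.Agent.T4.helper4.DegStatement A E Eb hj hjb)
    (hH : Fermat.Agent.P2.helper96.HurwitzCount (kA A) Eb) :
    Fermat.Agent.T4.helper4.GenusLeBarStatement A E Eb := by
  classical
  intro g gb hg hgb
  obtain ⟨t, V, ht, fd, sep, hpoles, hdeg⟩ := hT
  obtain ⟨T, T₀, hT1, hT₀, hcard⟩ := hC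
  obtain ⟨t₀, V₀, -, -, -, hdeg₀, S₀, hS₀, hS₀c, hgen⟩ := hT0
  obtain ⟨-, -, -, hfin⟩ := hD
  have hcore := Fermat.Agent.P2.helper68.hurwitz_count_core t
    (Fermat.Agent.T4.helper4.jbEl A Eb hjb) V T hpoles hT1
    (Module.finrank (kA A)⟮t⟯ Eb : ℤ) (gb : ℤ)
    (fun Z Zinf hZ hZinf => hH t ht fd sep gb hgb.2 V Z Zinf hZ hZinf)
  have hsub : T₀ ⊆ S₀ := fun P hP => (hS₀ P).1 (hT₀ P hP)
  have hc : (T.card : ℤ) ≤ (c : ℤ) := by
    have h1 : T.card ≤ S₀.card := hcard.trans (Finset.card_le_card hsub)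
    rw [hS₀c] at h1
    exact Int.ofNat_le.2 h1
  have h9 : (g : ℤ) ≤ gb :=
    genB_arith (g : ℤ) (gb : ℤ) (c : ℤ) (T.card : ℤ) ((V.card : ℤ) - 1) _ ((V₀.card : ℤ) - 1) _
      _ _ hdeg hdeg₀ (congrArg (Nat.cast : ℕ → ℤ) hfin) hcore (hgen g hg) hc
  exact Int.ofNat_le.1 h9

end Fermat.Agent.T4.helper68

end
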