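/-
T4 block (I), sub-block I-RED, box [GEN] (helper18, row 1125): GENERIC genus equality and [SURJ]
for a pair `(E, Eb)` of `helper4_RedDefs`, with hypotheses ONLY Props of `helper4_RedDefs` and
the generic structure `helper74.RiemannSetting`.

* `hurwitzCount_G` : the Hurwitz inequality in count form holds for EVERY special fibre field
  (the residue field of `A` is algebraically closed; `helper39.hurwitz_inequality_fibres`).
* `genusBarLe_G`   : `g̃ ≤ g`  (semicontinuity; `helper18_RedGen`).
* `genusLeBar_G`   : `g ≤ g̃`  (Hurwitz; `helper68_GenB1` with `hurwitzCount_G`).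
* `genusEq_G`      : `helper4.GenusEqStatement A E Eb`.
* `surjRed_G`      : `helper4.SurjRedStatement A E Eb`.
-/
import Mathlib
import Fermat.Agent.T4.helper18_RedGen
import Fermat.Agent.T4.helper68_GenB1
import Fermat.Agent.P2.helper39_Hurwitz
import Fermat.Agent.P2.helper74_RieInst

set_option autoImplicit false
set_option synthInstance.maxHeartbeats 200000

noncomputable section

open HahnSeries IntermediateField AlgebraicCurve ModularCurve
open Fermat.Agent.S18.helper19 (Kb kA)
open Fermat.Agent.P2
open Fermat.Agent.T4.helper4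

namespace Fermat.Agent.T4.helper18

variable (A : ValuationSubring Kb) (E : IntermediateField Kb (LaurentSeries Kb))
  (Eb : IntermediateField (kA A) (LaurentSeries (kA A)))

/-- **[RH]** the Hurwitz inequality in count form for every special fibre field. -/
theorem hurwitzCount_G : helper96.HurwitzCount (kA A) Eb := by
  have : IsAlgClosed (kA A) := helper74.isAlgClosed_residueField A
  intro t ht hfd hsep g hg C Z Zinf hZ hZinf
  exact helper39.hurwitz_inequality_fibres t ht hg C Z hZ Zinf hZinf

variable {A E Eb}

/-- **[GEN-A]** `g̃ ≤ g`, generic pair. -/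
theorem genusBarLe_G (hInf : InftyStatement A E Eb) (hSc : ScaleStatement A E Eb)
    (hInt : IntegralityStatement A E Eb) (hReg : RegRedStatement A E Eb)
    (hS : helper74.RiemannSetting Kb E) (hSb : helper74.RiemannSetting (kA A) Eb) :
    GenusBarLeStatement A E Eb :=
  genusBarLe_of hInf hSc hInt hReg hS hSb

/-- **[GEN-B]** `g ≤ g̃`, generic pair. -/
theorem genusLeBar_G (hj : jqModC Kb ∈ E) (hjb : jqModC (kA A) ∈ Eb) (c : ℕ)
    (hT : TameBaseStatement A Eb hjb) (hC : CuspBarStatement A E Eb hj hjb)
    (hT0 : TameBaseZeroStatement E hj c) (hD : DegStatement A E Eb hj hjb) :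
    GenusLeBarStatement A E Eb :=
  helper68.genusLeBar_of A E Eb hj hjb c hT hC hT0 hD (hurwitzCount_G A Eb)

/-- **[GEN]** genus equality, generic pair, from the leaf Props. -/
theorem genusEq_G (hR : RiemannStatement E) (hRb : RiemannBarStatement A Eb)
    (hInf : InftyStatement A E Eb) (hSc : ScaleStatement A E Eb)
    (hInt : IntegralityStatement A E Eb) (hReg : RegRedStatement A E Eb)
    (hS : helper74.RiemannSetting Kb E) (hSb : helper74.RiemannSetting (kA A) Eb)
    (hj : jqModC Kb ∈ E) (hjb : jqModC (kA A) ∈ Eb) (c : ℕ)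
    (hT : TameBaseStatement A Eb hjb) (hC : CuspBarStatement A E Eb hj hjb)
    (hT0 : TameBaseZeroStatement E hj c) (hD : DegStatement A E Eb hj hjb) :
    GenusEqStatement A E Eb :=
  genusEq_of hR hRb (genusBarLe_G hInf hSc hInt hReg hS hSb)
    (genusLeBar_G hj hjb c hT hC hT0 hD)

/-- **[SURJ]** generic pair, from the leaf Props. -/
theorem surjRed_G (hR : RiemannStatement E) (hRb : RiemannBarStatement A Eb)
    (hInf : InftyStatement A E Eb) (hSc : ScaleStatement A E Eb)
    (hInt : IntegralityStatement A E Eb) (hReg : RegRedStatement A E Eb)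
    (hS : helper74.RiemannSetting Kb E) (hSb : helper74.RiemannSetting (kA A) Eb)
    (hj : jqModC Kb ∈ E) (hjb : jqModC (kA A) ∈ Eb) (c : ℕ)
    (hT : TameBaseStatement A Eb hjb) (hC : CuspBarStatement A E Eb hj hjb)
    (hT0 : TameBaseZeroStatement E hj c) (hD : DegStatement A E Eb hj hjb) :
    SurjRedStatement A E Eb :=
  surjRed_of hInf hSc hInt hReg hS hSb
    (genusEq_G hR hRb hInf hSc hInt hReg hS hSb hj hjb c hT hC hT0 hD)

end Fermat.Agent.T4.helper18

end
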