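import Fermat.Agent.P3.helper85_Cont

/-!
# T4 (I) [IN-c] (helper1): continuity of the Galois action on `Pic⁰`, generic form

For ANY `F₀ ⊆ ℚ((q))` such that `ℚ̄ · F₀` is finite over `ℚ̄(t)` for some `t` fixed by the
arithmetic Galois action, every point of `Pic⁰ (ℚ̄ · F₀)` is fixed by `Gal(ℚ̄/K)` for a number
field `K` (`continuity_of_chart`).  This is the field `GenTateInput.continuity` for
`J₁(M) = Pic⁰ (ℚ̄ · F1Q M)` once `ℚ̄ · F1Q M` is known to be finite over `ℚ̄(j)` (block I-FLD).
The proof is the proof of `Fermat.Agent.P3.helper85.torsionContinuity`.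
-/

set_option autoImplicit false
set_option linter.unusedSectionVars false
set_option linter.style.haveILetI false
set_option linter.deprecated false

namespace Fermat.Agent.T4.helper1

open AlgebraicCurve ModularCurve IntermediateField IsDedekindDomain
open Fermat.Agent.S24 Fermat.Agent.S24.helper75 Fermat.Agent.P3.helper85
open Fermat.Agent.P3 (Qbar GQ)
open scoped IntermediateField.algebraAdjoinAdjoin

noncomputable section

variable (F₀ : IntermediateField ℚ (LaurentSeries ℚ))

theorem exists_numberField_fixing_place_of_chart (t : laurentBaseChange Qbar F₀)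
    [FiniteDimensional Qbar⟮t⟯ (laurentBaseChange Qbar F₀)]
    (ht : ∀ g : GQ, arithmeticGalois F₀ g • t = t)
    (v : Place Qbar (laurentBaseChange Qbar F₀)) (hv : t ∈ v.toValuationSubring) :
    ∃ K : IntermediateField ℚ Qbar, FiniteDimensional ℚ K ∧
      ∀ g : GQ, (∀ y ∈ K, g y = y) → arithmeticGalois F₀ g • v = v := by
  classical
  obtain ⟨s, hs⟩ := primeOfPlace_fg t v hv
  obtain ⟨K, hK, h⟩ := exists_numberField_fixing_finset F₀ s
    (fun b => (b : laurentBaseChange Qbar F₀))
  refine ⟨K, hK, fun g hg => ?_⟩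
  exact smul_place_eq_of_fixes t v hv (s : Set _) hs _ (ht g) (fun b hb => h g hg b hb)

theorem exists_numberField_fixing_place_gen (t : laurentBaseChange Qbar F₀)
    [FiniteDimensional Qbar⟮t⟯ (laurentBaseChange Qbar F₀)]
    (ht : ∀ g : GQ, arithmeticGalois F₀ g • t = t)
    (v : Place Qbar (laurentBaseChange Qbar F₀)) :
    ∃ K : IntermediateField ℚ Qbar, FiniteDimensional ℚ K ∧
      ∀ g : GQ, (∀ y ∈ K, g y = y) → arithmeticGalois F₀ g • v = v := by
  rcases v.toValuationSubring.mem_or_inv_mem t with h | h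
  · exact exists_numberField_fixing_place_of_chart F₀ t ht v h
  · haveI := finiteDimensional_adjoin_inv (K := Qbar) t
    refine exists_numberField_fixing_place_of_chart F₀ t⁻¹ (fun g => ?_) v h
    rw [smul_inv'', ht]

theorem exists_numberField_fixing_divisor_gen (t : laurentBaseChange Qbar F₀)
    [FiniteDimensional Qbar⟮t⟯ (laurentBaseChange Qbar F₀)]
    (ht : ∀ g : GQ, arithmeticGalois F₀ g • t = t)
    (D : Divisor Qbar (laurentBaseChange Qbar F₀)) :
    ∃ K : IntermediateField ℚ Qbar, FiniteDimensional ℚ K ∧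
      ∀ g : GQ, (∀ y ∈ K, g y = y) → arithmeticGalois F₀ g • D = D := by
  classical
  induction D using Finsupp.induction with
  | zero => exact ⟨⊥, inferInstance, fun g _ => smul_zero _⟩
  | single_add v n D _ _ ih =>
      obtain ⟨K₁, h₁, hK₁⟩ := ih
      obtain ⟨K₂, h₂, hK₂⟩ := exists_numberField_fixing_place_gen F₀ t ht v
      refine ⟨K₁ ⊔ K₂, IntermediateField.finiteDimensional_sup K₁ K₂, fun g hg => ?_⟩
      rw [smul_add, SemilinearAut.smul_single,
        hK₂ g fun z hz => hg z ((le_sup_right : K₂ ≤ K₁ ⊔ K₂) hz),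
        hK₁ g fun z hz => hg z ((le_sup_left : K₁ ≤ K₁ ⊔ K₂) hz)]

/-- **[IN-c]**, generic form: every point of `Pic⁰ (ℚ̄ · F₀)` is fixed by an open subgroup of
`G_ℚ`, as soon as `ℚ̄ · F₀` is finite over `ℚ̄(t)` for a Galois-fixed `t`. -/
theorem continuity_of_chart (t : laurentBaseChange Qbar F₀)
    [FiniteDimensional Qbar⟮t⟯ (laurentBaseChange Qbar F₀)]
    (ht : ∀ g : GQ, arithmeticGalois F₀ g • t = t)
    (x : Pic0 Qbar (laurentBaseChange Qbar F₀)) :
    ∃ K : IntermediateField ℚ Qbar, FiniteDimensional ℚ K ∧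
      ∀ g : GQ, (∀ y ∈ K, g y = y) → g • x = x := by
  obtain ⟨D, rfl⟩ := Pic0.mk_surjective x
  obtain ⟨K, hK, h⟩ := exists_numberField_fixing_divisor_gen F₀ t ht
    (D : Divisor Qbar (laurentBaseChange Qbar F₀))
  refine ⟨K, hK, fun g hg => ?_⟩
  rw [galois_smul_pic0_def, SemilinearAut.pic0_smul_mk]
  exact congrArg Pic0.mk (Subtype.ext (h g hg))

end

end Fermat.Agent.T4.helper1
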