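import Fermat.Agent.T4.helper71_PeriodGen
import Fermat.Agent.S16.helper26_HeckeFun
import Fermat.Agent.S16.helper1_PeriodSlash

/-!
# T4 (I) [AN-HOM1] (helper1): periods and coset systems, for a general subgroup `Γ`

Port of S16-[B2] (`helper1_PeriodSlash`, `helper1_PeriodInvol`, `helper26_HeckeGlue`) from
`Γ₀(N)` / `periodMap` to an arbitrary subgroup `Γ ≤ SL(2, ℤ)` of finite index and the period
homomorphism `helper71.periodGen Γ`.

* `periodGen_eq_sum_of_slash` : periods of a finite sum of slashes;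
* `periodGen_eq_heckeFun` : if `g = ∑ i, f ∣[2] S.α i` for a coset system `S` of `Γ`, then
  `periodGen Γ g = S.heckeFun (periodGen Γ f)`;
* `heckeFun_charInvGen` : `S.heckeFun` commutes with the involution `charInvGen` if the cosets
  `Γ α i` are permuted by conjugation by `diag(1, -1)`;
* `periodPairGen_eq_heckeFun` : the same for the pair map `periodPairGen`.
-/

set_option autoImplicit false

namespace Fermat.Agent.T4.helper1

open Filter Topology Complex Function CongruenceSubgroup ModularCurve ModularCurve.Period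
open UpperHalfPlane hiding I
open scoped Manifold MatrixGroups ModularForm
open Matrix.SpecialLinearGroup
open Fermat.Agent.T4.helper71 Fermat.Agent.S16.helper26

section Periods

variable (Γ : Subgroup SL(2, ℤ)) [Γ.FiniteIndex]

/-- **Periods of a finite sum of slashes**, for a general subgroup. -/
theorem periodGen_eq_sum_of_slash {ι : Type*} [Fintype ι] (α : ι → GL (Fin 2) ℝ)
    (hα : ∀ i, 0 < ((α i).det : ℝ)) (f g : CuspForm Γ 2)
    (hg : (⇑g : ℍ → ℂ) = ∑ i, (⇑f : ℍ → ℂ) ∣[(2 : ℤ)] α i)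
    (γ : Γ) (δ : ι → Γ) (s : Equiv.Perm ι)
    (h : ∀ i, α i * mapGL ℝ (γ : SL(2, ℤ)) = mapGL ℝ (δ i : SL(2, ℤ)) * α (s i)) :
    periodGen Γ g (Additive.ofMul γ) = ∑ i, periodGen Γ f (Additive.ofMul (δ i)) := by
  obtain ⟨F, hF⟩ := exists_hasEqPrim Γ f
  obtain ⟨G₀, hG₀⟩ := exists_hasEqPrim Γ g
  have hG : ∀ τ : ℍ, HasDerivAt ((fun z : ℍ => ∑ i, F (α i • z)) ∘ ofComplex) (g τ) ↑τ := by
    intro τ
    have h1 : ∀ i ∈ (Finset.univ : Finset ι),
        HasDerivAt ((fun w : ℍ => F (α i • w)) ∘ ofComplex)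
          (((⇑f : ℍ → ℂ) ∣[(2 : ℤ)] α i) τ) ↑τ :=
      fun i _ => Fermat.Agent.S16.helper1.hasDerivAt_comp_GL_smul hF.1 (α i) (hα i) τ
    have h2 := HasDerivAt.fun_sum h1
    have h3 : g τ = ∑ i, ((⇑f : ℍ → ℂ) ∣[(2 : ℤ)] α i) τ := by
      rw [hg, Finset.sum_apply]
    rw [h3]
    exact h2
  obtain ⟨c, hc⟩ := Fermat.Agent.S21.exists_eq_add_const_of_hasDerivAt hG₀.1 hG
  rw [periodGen_apply Γ g hG₀ γ UpperHalfPlane.I, hc, hc]
  have h4 : ∀ i, F (α i • ((γ : SL(2, ℤ)) • UpperHalfPlane.I)) =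
      periodGen Γ f (Additive.ofMul (δ i)) + F (α (s i) • UpperHalfPlane.I) := by
    intro i
    rw [periodGen_apply Γ f hF (δ i) (α (s i) • UpperHalfPlane.I)]
    have h5 : α i • ((γ : SL(2, ℤ)) • UpperHalfPlane.I) =
        ((δ i : Γ) : SL(2, ℤ)) • (α (s i) • UpperHalfPlane.I) := by
      show α i • (mapGL ℝ (γ : SL(2, ℤ)) • UpperHalfPlane.I) =
        mapGL ℝ (δ i : SL(2, ℤ)) • (α (s i) • UpperHalfPlane.I)
      rw [← mul_smul, ← mul_smul, h i]
    rw [h5]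
    ring
  simp only [h4, Finset.sum_add_distrib]
  rw [Equiv.sum_comp s (fun i => F (α i • UpperHalfPlane.I))]
  ring

/-- **Periods and coset systems**: if `g = ∑ i, f ∣[2] S.α i`, then the period homomorphism of
`g` is the Hecke operator of the coset system applied to the period homomorphism of `f`. -/
theorem periodGen_eq_heckeFun {ι : Type*} [Fintype ι] (S : CosetSystem Γ ι)
    (hα : ∀ i, 0 < ((S.α i).det : ℝ)) (f g : CuspForm Γ 2)
    (hg : (⇑g : ℍ → ℂ) = ∑ i, (⇑f : ℍ → ℂ) ∣[(2 : ℤ)] S.α i) :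
    periodGen Γ g = S.heckeFun (periodGen Γ f) := by
  refine AddMonoidHom.ext fun γ' => ?_
  obtain ⟨γ, rfl⟩ := Additive.ofMul.surjective γ'
  rw [CosetSystem.heckeFun_apply]
  exact periodGen_eq_sum_of_slash Γ S.α hα f g hg γ (S.step γ) (S.permEquiv γ)
    (fun i => S.rel γ i)

end Periods

section Involution

variable {Γ : Subgroup SL(2, ℤ)} (hJ : JStable Γ)

theorem conjJ_mapGL_sub (γ : Γ) :
    conjJ (mapGL ℝ (γ : SL(2, ℤ))) = mapGL ℝ ((jConjSub hJ γ : Γ) : SL(2, ℤ)) :=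
  conjJ_mapGL _

/-- The Hecke operator of a coset system commutes with the involution, if the cosets are
permuted by conjugation by `diag(1, -1)`. -/
theorem heckeFun_charInvGen {ι : Type*} [Fintype ι] (S : CosetSystem Γ ι)
    (π : Equiv.Perm ι) (τ : ι → Γ)
    (hconj : ∀ i, conjJ (S.α i) = mapGL ℝ (τ i : SL(2, ℤ)) * S.α (π i))
    (R : Type*) [Semiring R] (A : Type*) [AddCommGroup A] [Module R A]
    (φ : Additive Γ →+ A) :
    S.heckeFun (charInvGen hJ R A φ) = charInvGen hJ R A (S.heckeFun φ) := by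
  refine AddMonoidHom.ext fun γ' => ?_
  obtain ⟨γ, rfl⟩ := Additive.ofMul.surjective γ'
  change S.heckeFun (charInvGen hJ R A φ) (Additive.ofMul γ) =
    S.heckeFun φ (Additive.ofMul (jConjSub hJ γ))
  rw [S.heckeFun_apply_aut φ conjJ (jConjSub hJ) (conjJ_mapGL_sub hJ) π τ hconj γ,
    CosetSystem.heckeFun_apply]
  rfl

variable [Γ.FiniteIndex]

/-- **The pair map and coset systems.** -/
theorem periodPairGen_eq_heckeFun {ι : Type*} [Fintype ι] (S : CosetSystem Γ ι)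
    (hα : ∀ i, 0 < ((S.α i).det : ℝ)) (π : Equiv.Perm ι) (τ : ι → Γ)
    (hconj : ∀ i, conjJ (S.α i) = mapGL ℝ (τ i : SL(2, ℤ)) * S.α (π i))
    (x y : CuspForm Γ 2 × CuspForm Γ 2)
    (hy₁ : (⇑y.1 : ℍ → ℂ) = ∑ i, (⇑x.1 : ℍ → ℂ) ∣[(2 : ℤ)] S.α i)
    (hy₂ : (⇑y.2 : ℍ → ℂ) = ∑ i, (⇑x.2 : ℍ → ℂ) ∣[(2 : ℤ)] S.α i) :
    periodPairGen hJ y = S.heckeFun (periodPairGen hJ x) := by
  obtain ⟨x₁, x₂⟩ := x
  obtain ⟨y₁, y₂⟩ := y
  rw [periodPairGen_apply, periodPairGen_apply, periodGen_eq_heckeFun Γ S hα x₁ y₁ hy₁,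
    periodGen_eq_heckeFun Γ S hα x₂ y₂ hy₂, map_add, map_add, map_sub,
    heckeFun_charInvGen hJ S π τ hconj ℂ ℂ, heckeFun_charInvGen hJ S π τ hconj ℂ ℂ]

end Involution

end Fermat.Agent.T4.helper1
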