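import Fermat.Agent.T4.helper1_Hom1

/-!
# T4 (I) [AN-HOM1] (4) (helper1): Hecke operators preserve parabolic homomorphisms

For ANY subgroup `Γ ≤ SL(2, ℤ)`, any coset system `S` of `Γ` and ANY coefficient group `A`, the
operator `S.heckeFun` preserves `parabolicHoms R Γ A` (`heckeFun_mem_parabolicHoms`).

Proof: for `γ` with `(tr γ)² = 4` the index set decomposes into the cycles of `perm γ`; along a
cycle `i, σ i, …` of length `m` the product of the `step γ (σ^k i)` is `step (γ^m) i`, which is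
conjugate in `GL₂(ℝ)` to `γ^m`, hence has `(tr)² = 4` as well.
-/

set_option autoImplicit false
set_option linter.unusedSectionVars false
set_option linter.style.haveILetI false

namespace Fermat.Agent.T4.helper1

open CongruenceSubgroup ModularCurve ModularCurve.Period
open scoped MatrixGroups
open Matrix.SpecialLinearGroup
open Fermat.Agent.T4.helper79 Fermat.Agent.S16.helper26

/-! ### Sums along the cycles of a permutation -/

section Cycles

variable {ι : Type*} {A : Type*} [AddCommMonoid A]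

theorem perm_pow_succ_apply (σ : Equiv.Perm ι) (k : ℕ) (i : ι) :
    (σ ^ (k + 1)) i = σ ((σ ^ k) i) := by
  rw [pow_succ', Equiv.Perm.mul_apply]

theorem sum_eq_zero_of_stable_aux (σ : Equiv.Perm ι) (f : ι → A)
    (hfin : ∀ i : ι, ∃ m : ℕ, 0 < m ∧ (σ ^ m) i = i)
    (h : ∀ (i : ι) (m : ℕ), 0 < m → (σ ^ m) i = i →
      ∑ k ∈ Finset.range m, f ((σ ^ k) i) = 0) :
    ∀ (n : ℕ) (s : Finset ι), s.card = n → (∀ i ∈ s, σ i ∈ s) → ∑ i ∈ s, f i = 0 := by
  classical
  intro n
  induction n using Nat.strong_induction_on with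
  | _ n ih =>
    intro s hcard hs
    rcases s.eq_empty_or_nonempty with rfl | ⟨x, hx⟩
    · simp
    let m := Nat.find (hfin x)
    have hm0 : 0 < m := (Nat.find_spec (hfin x)).1
    have hmx : (σ ^ m) x = x := (Nat.find_spec (hfin x)).2
    have hmin : ∀ k : ℕ, 0 < k → k < m → (σ ^ k) x ≠ x := fun k hk0 hkm hk =>
      Nat.find_min (hfin x) hkm ⟨hk0, hk⟩
    have hinj : Set.InjOn (fun k : ℕ => (σ ^ k) x) (Finset.range m : Set ℕ) := by
      have key : ∀ k l : ℕ, k < l → l < m → (σ ^ k) x ≠ (σ ^ l) x := by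
        intro k l hkl hlm hEq
        have e : (σ ^ l) x = (σ ^ k) ((σ ^ (l - k)) x) := by
          rw [← Equiv.Perm.mul_apply, ← pow_add, Nat.add_sub_cancel' hkl.le]
        rw [e] at hEq
        exact hmin (l - k) (by omega) (by omega) ((σ ^ k).injective hEq).symm
      intro k hk l hl hkl
      simp only [Finset.coe_range, Set.mem_Iio] at hk hl
      rcases lt_trichotomy k l with hlt | heq | hgt
      · exact absurd hkl (key k l hlt hl)
      · exact heq
      · exact absurd hkl.symm (key l k hgt hk)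
    let O : Finset ι := (Finset.range m).image (fun k : ℕ => (σ ^ k) x)
    have hpow_mem : ∀ k : ℕ, (σ ^ k) x ∈ s := by
      intro k
      induction k with
      | zero => simpa using hx
      | succ k ihk => rw [perm_pow_succ_apply]; exact hs _ ihk
    have hO : O ⊆ s := by
      intro y hy
      obtain ⟨k, -, rfl⟩ := Finset.mem_image.mp hy
      exact hpow_mem k
    have hxO : x ∈ O := Finset.mem_image.mpr ⟨0, Finset.mem_range.mpr hm0, by simp⟩
    have hstable : ∀ i ∈ s \ O, σ i ∈ s \ O := by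
      intro i hi
      rw [Finset.mem_sdiff] at hi ⊢
      refine ⟨hs i hi.1, fun hσ => hi.2 ?_⟩
      obtain ⟨k, hk, hkx⟩ := Finset.mem_image.mp hσ
      rw [Finset.mem_range] at hk
      rcases Nat.eq_zero_or_pos k with rfl | hk0
      · have e : σ i = σ ((σ ^ (m - 1)) x) := by
          rw [← perm_pow_succ_apply, Nat.sub_add_cancel hm0, hmx, ← hkx]
          simp
        exact Finset.mem_image.mpr ⟨m - 1, Finset.mem_range.mpr (by omega),
          (σ.injective e).symm⟩
      · have e : σ i = σ ((σ ^ (k - 1)) x) := by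
          rw [← perm_pow_succ_apply, Nat.sub_add_cancel hk0, hkx]
        exact Finset.mem_image.mpr ⟨k - 1, Finset.mem_range.mpr (by omega),
          (σ.injective e).symm⟩
    have hlt : (s \ O).card < n := by
      rw [← hcard]
      exact Finset.card_lt_card (Finset.sdiff_ssubset hO ⟨x, hxO⟩)
    rw [← Finset.sum_sdiff hO, ih _ hlt (s \ O) rfl hstable, zero_add,
      Finset.sum_image hinj]
    exact h x m hm0 hmx

/-- If the sums of `f` along the closed paths `i, σ i, …, σ^(m-1) i` (`σ^m i = i`) of a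
permutation of a finite set all vanish, then the total sum of `f` vanishes. -/
theorem sum_eq_zero_of_cycle_sums [Fintype ι] (σ : Equiv.Perm ι) (f : ι → A)
    (h : ∀ (i : ι) (m : ℕ), 0 < m → (σ ^ m) i = i →
      ∑ k ∈ Finset.range m, f ((σ ^ k) i) = 0) :
    ∑ i, f i = 0 := by
  refine sum_eq_zero_of_stable_aux σ f (fun i => ⟨orderOf σ, orderOf_pos σ, ?_⟩) h _
    Finset.univ rfl (fun i _ => Finset.mem_univ _)
  rw [pow_orderOf_eq_one, Equiv.Perm.one_apply]

end Cycles

/-! ### Traces -/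

section Trace

theorem sq_eq_of_det_one (B : Matrix (Fin 2) (Fin 2) ℤ) (hdet : B.det = 1) :
    B * B = B.trace • B - 1 := by
  rw [Matrix.det_fin_two] at hdet
  ext i j
  rw [Matrix.mul_apply, Fin.sum_univ_two, Matrix.sub_apply, Matrix.smul_apply, smul_eq_mul,
    Matrix.trace_fin_two, Matrix.one_apply]
  fin_cases i <;> fin_cases j <;> simp <;>
    first
      | ring1
      | linear_combination (-1 : ℤ) * hdet

theorem trace_pow_succ_succ (B : Matrix (Fin 2) (Fin 2) ℤ) (hdet : B.det = 1) (m : ℕ) :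
    (B ^ (m + 2)).trace = B.trace * (B ^ (m + 1)).trace - (B ^ m).trace := by
  have e : B ^ (m + 2) = B.trace • B ^ (m + 1) - B ^ m := by
    rw [pow_add, pow_two, sq_eq_of_det_one B hdet, mul_sub, mul_one, Matrix.mul_smul,
      ← pow_succ]
  rw [e, Matrix.trace_sub, Matrix.trace_smul, smul_eq_mul]

theorem trace_pow_sq (B : Matrix (Fin 2) (Fin 2) ℤ) (hdet : B.det = 1)
    (htr : B.trace ^ 2 = 4) (m : ℕ) : (B ^ m).trace ^ 2 = 4 := by
  have key : ∀ m : ℕ, (B ^ m).trace * 2 ^ m = 2 * B.trace ^ m ∧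
      (B ^ (m + 1)).trace * 2 ^ (m + 1) = 2 * B.trace ^ (m + 1) := by
    intro m
    induction m with
    | zero =>
      refine ⟨by simp [Matrix.trace_fin_two], ?_⟩
      rw [zero_add, pow_one, pow_one, pow_one]
      ring
    | succ m ih =>
      refine ⟨ih.2, ?_⟩
      rw [trace_pow_succ_succ B hdet m]
      linear_combination (2 * B.trace) * ih.2 - 4 * ih.1 + 2 * B.trace ^ m * htr
  have h1 := (key m).1
  have ht' : (B.trace ^ m) ^ 2 = (2 ^ m) ^ 2 := by
    rw [← pow_mul, mul_comm, pow_mul, htr, ← pow_mul, mul_comm m 2, pow_mul]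
    norm_num
  have h2 : ((B ^ m).trace ^ 2 - 4) * (2 ^ m) ^ 2 = 0 := by
    linear_combination ((B ^ m).trace * 2 ^ m + 2 * B.trace ^ m) * h1 + 4 * ht'
  have h3 : ((2 : ℤ) ^ m) ^ 2 ≠ 0 := by positivity
  have h4 := (mul_eq_zero.mp h2).resolve_right h3
  linarith

theorem trace_eq_of_rel {α : GL (Fin 2) ℝ} {g g' : SL(2, ℤ)}
    (h : α * mapGL ℝ g = mapGL ℝ g' * α) :
    (g' : Matrix (Fin 2) (Fin 2) ℤ).trace = (g : Matrix (Fin 2) (Fin 2) ℤ).trace := by
  have h1 : mapGL ℝ g' = α * mapGL ℝ g * α⁻¹ := by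
    rw [h]; group
  have h2 : ((mapGL ℝ g' : GL (Fin 2) ℝ) : Matrix (Fin 2) (Fin 2) ℝ).trace =
      ((mapGL ℝ g : GL (Fin 2) ℝ) : Matrix (Fin 2) (Fin 2) ℝ).trace := by
    rw [h1, Units.val_mul, Units.val_mul, Matrix.trace_mul_comm, ← mul_assoc,
      ← Units.val_mul, inv_mul_cancel, Units.val_one, one_mul]
  have h3 : ∀ x : SL(2, ℤ), ((mapGL ℝ x : GL (Fin 2) ℝ) : Matrix (Fin 2) (Fin 2) ℝ).trace =
      (((x : Matrix (Fin 2) (Fin 2) ℤ).trace : ℤ) : ℝ) := by
    intro x
    simp [Matrix.trace, Fin.sum_univ_two]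
  rw [h3, h3] at h2
  exact_mod_cast h2

end Trace

/-! ### Coset systems and parabolic homomorphisms -/

section Parabolic

variable {Γ : Subgroup SL(2, ℤ)} {ι : Type*} (S : CosetSystem Γ ι)

theorem perm_pow (γ : Γ) (k : ℕ) (i : ι) : S.perm (γ ^ k) i = ((S.permEquiv γ) ^ k) i := by
  induction k with
  | zero => simp [S.perm_one]
  | succ k ih =>
    rw [pow_succ, (S.perm_mul (γ ^ k) γ i).1, ih, perm_pow_succ_apply]
    rfl

theorem step_pow_succ (γ : Γ) (k : ℕ) (i : ι) :
    S.step (γ ^ (k + 1)) i = S.step (γ ^ k) i * S.step γ (((S.permEquiv γ) ^ k) i) := by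
  rw [pow_succ, (S.perm_mul (γ ^ k) γ i).2, perm_pow]

theorem map_step_pow {A : Type*} [AddCommGroup A] (φ : Additive Γ →+ A) (γ : Γ) (m : ℕ)
    (i : ι) :
    φ (Additive.ofMul (S.step (γ ^ m) i)) =
      ∑ k ∈ Finset.range m, φ (Additive.ofMul (S.step γ (((S.permEquiv γ) ^ k) i))) := by
  induction m with
  | zero => simp [S.step_one]
  | succ m ih =>
    rw [step_pow_succ, ofMul_mul, map_add, ih, Finset.sum_range_succ]

/-- **Hecke operators preserve parabolic homomorphisms** (any coset system, any coefficients). -/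
theorem heckeFun_mem_parabolicHoms [Fintype ι] (R : Type*) [Semiring R] {A : Type*}
    [AddCommGroup A] [Module R A] {φ : Additive Γ →+ A} (hφ : φ ∈ parabolicHoms R Γ A) :
    S.heckeFun φ ∈ parabolicHoms R Γ A := by
  classical
  rw [mem_parabolicHoms_iff] at hφ ⊢
  intro γ hγ
  rw [CosetSystem.heckeFun_apply]
  refine sum_eq_zero_of_cycle_sums (S.permEquiv γ)
    (fun i => φ (Additive.ofMul (S.step γ i))) (fun i m _ hmi => ?_)
  rw [← map_step_pow]
  apply hφ
  have hrel := S.rel (γ ^ m) i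
  rw [perm_pow, hmi] at hrel
  rw [trace_eq_of_rel hrel, Subgroup.coe_pow, Matrix.SpecialLinearGroup.coe_pow]
  exact trace_pow_sq _ (γ : SL(2, ℤ)).2 hγ m

end Parabolic

/-! ### The case of `Γ₁(M)` -/

section Gamma1

variable (M : ℕ) [NeZero M] (R : Type*) [Semiring R] {A : Type*} [AddCommGroup A] [Module R A]

/-- `T_p` preserves parabolic homomorphisms. -/
theorem heckeHom1_mem_parabolicHoms {p : ℕ} (hp : p.Prime) (hpM : ¬ p ∣ M)
    {φ : Additive (Gamma1 M) →+ A} (hφ : φ ∈ parabolicHoms R (Gamma1 M) A) :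
    heckeHom1 M hp hpM φ ∈ parabolicHoms R (Gamma1 M) A := by
  haveI : NeZero p := ⟨hp.ne_zero⟩
  exact heckeFun_mem_parabolicHoms (systemT1 M hp hpM) R hφ

/-- `⟨d⟩` preserves parabolic homomorphisms. -/
theorem diamondHom1_mem_parabolicHoms (d : (ZMod M)ˣ)
    {φ : Additive (Gamma1 M) →+ A} (hφ : φ ∈ parabolicHoms R (Gamma1 M) A) :
    diamondHom1 M d φ ∈ parabolicHoms R (Gamma1 M) A :=
  heckeFun_mem_parabolicHoms (systemD1 M d) R hφ

end Gamma1

end Fermat.Agent.T4.helper1
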