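import Mathlib
import Fermat.Prelude.Def_FLTPrelim_Modularity

/-!
# T4 / S48, block (III): a weight-one Eisenstein form congruent to a unit constant
## definitions and package statements (helper85, sub-coordinator of block (III))

Goal (`Wt1Statement`): for every odd prime `ℓ` and every ring hom `φ` from the algebraic integers
of `ℂ` to a field of characteristic `ℓ` there are an odd Dirichlet character `ψ` mod `ℓ` with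
`φ (ψ d) * d = 1` and a modular form `E` of weight one on `Γ₁(ℓ)`, of nebentypus `ψ` on `Γ₀(ℓ)`,
with `q`-expansion `S - 2 ℓ ∑ (∑_{d ∣ n} ψ d) qⁿ`, `S = ∑_{a < ℓ} ψ(a) a`, whose coefficients are
algebraic integers with `φ (a₀) = -1` and `φ (aₙ) = 0` for `n ≥ 1`.

Route (Hecke): division values of the Weierstrass zeta function.
* `zetaW L z = ∑_{l ∈ L} (1/(z-l) + 1/l + z/l²)` (the junk value `1/0 = 0` gives the term `1/z`);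
* `gH ℓ a b τ = ζ(z_v) - (a η(τ) + b η(1)) / ℓ`, `z_v = (a τ + b)/ℓ`: the law
  `gH ℓ a b (γ τ) = (c τ + d) gH ℓ ((a,b) γ) τ` is formal (homogeneity of lattice functions);
* `ζ(z) = A z + R(z)` with the explicit `q`-series `Rq` (cotangent summation, or Liouville), so
  `gH ℓ a b τ = Rq τ z_v + 2 π i a / ℓ` is an explicit series in `q^(1/ℓ)`;
* `E = -(ℓ / 2 π i) ∑_b c_b gH ℓ 0 b`, `c_b = (1/ℓ) ∑_a ψ(a) e^(2 π i a b/ℓ)`.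

Every package proves ONE `Prop` of this file verbatim, possibly from other `Prop`s of this file as
hypotheses (`theorem foo_of (h : AStatement) : FooStatement`).
-/

set_option autoImplicit false

open Complex
open UpperHalfPlane hiding I
open scoped MatrixGroups Real Manifold

namespace Fermat.Agent.T4.helper85

noncomputable section

/-! ### The Weierstrass zeta function -/

/-- The Weierstrass zeta function of the lattice of `L`. -/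
def zetaW (L : PeriodPair) (z : ℂ) : ℂ :=
  ∑' l : L.lattice, (1 / (z - (l : ℂ)) + 1 / (l : ℂ) + z / (l : ℂ) ^ 2)

/-- The quasi-period of `zetaW` at `ω` (meaningful for `ω` in the lattice). -/
def etaW (L : PeriodPair) (ω : ℂ) : ℂ := zetaW L (L.ω₁ / 2 + ω) - zetaW L (L.ω₁ / 2)

/-- **[W1-ZETA]** differentiability, derivative, oddness, quasi-periodicity of `zetaW`. -/
def ZetaStatement : Prop :=
  ∀ L : PeriodPair,
    DifferentiableOn ℂ (zetaW L) ((L.lattice : Set ℂ))ᶜ ∧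
    (∀ z : ℂ, z ∉ L.lattice → deriv (zetaW L) z = - L.weierstrassP z) ∧
    (∀ z : ℂ, zetaW L (-z) = - zetaW L z) ∧
    (∀ z : ℂ, z ∉ L.lattice → ∀ ω ∈ L.lattice, zetaW L (z + ω) = zetaW L z + etaW L ω) ∧
    (∀ ω₁ ∈ L.lattice, ∀ ω₂ ∈ L.lattice, etaW L (ω₁ + ω₂) = etaW L ω₁ + etaW L ω₂)

/-- **[W1-HOM]** `zetaW` is a lattice function, homogeneous of degree `-1` (termwise; all `z`). -/
def ZetaHomStatement : Prop :=
  ∀ (L L' : PeriodPair) (c : ℂ), c ≠ 0 →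
    (∀ x : ℂ, x ∈ L'.lattice ↔ ∃ y ∈ L.lattice, x = c * y) →
    ∀ z : ℂ, zetaW L' (c * z) = c⁻¹ * zetaW L z

/-! ### The period pair `(τ, 1)` and the `q`-series `R` -/

/-- The period pair `(τ, 1)`. -/
def ppOf (τ : ℍ) : PeriodPair where
  ω₁ := τ
  ω₂ := 1
  indep := by
    rw [LinearIndependent.pair_iff]
    intro s t h
    have him := congrArg Complex.im h
    simp only [Complex.real_smul, Complex.add_im, Complex.mul_im, Complex.ofReal_re,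
      Complex.ofReal_im, Complex.one_im, Complex.zero_im, zero_mul, add_zero, mul_zero] at him
    have hs : s = 0 := by
      rcases mul_eq_zero.1 him with h0 | h0
      · exact h0
      · exact absurd h0 τ.im_pos.ne'
    subst hs
    have hre := congrArg Complex.re h
    simp at hre
    exact ⟨rfl, hre⟩

@[simp] lemma ppOf_ω₁ (τ : ℍ) : (ppOf τ).ω₁ = τ := rfl
@[simp] lemma ppOf_ω₂ (τ : ℍ) : (ppOf τ).ω₂ = 1 := rfl

/-- `q = e^(2 π i τ)`. -/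
def qOf (τ : ℍ) : ℂ := cexp (2 * π * I * τ)

/-- `w = e^(2 π i z)`. -/
def wOf (z : ℂ) : ℂ := cexp (2 * π * I * z)

/-- The `n`-th term of the `q`-series `R`. -/
def RqTerm (τ : ℍ) (z : ℂ) (n : ℕ) : ℂ :=
  qOf τ ^ (n + 1) / wOf z / (1 - qOf τ ^ (n + 1) / wOf z)
    - qOf τ ^ (n + 1) * wOf z / (1 - qOf τ ^ (n + 1) * wOf z)

/-- The `q`-series `R(z; τ) = π cot(π z) + 2 π i ∑_{n ≥ 1} (qⁿ/w / (1 - qⁿ/w) - qⁿ w / (1 - qⁿ w))`. -/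
def Rq (τ : ℍ) (z : ℂ) : ℂ :=
  π * Complex.cot (π * z) + 2 * π * I * ∑' n : ℕ, RqTerm τ z n

/-- **[W1-R]** summability and the three functional equations of `R`. -/
def RStatement : Prop :=
  ∀ (τ : ℍ) (z : ℂ), z ∉ (ppOf τ).lattice →
    Summable (RqTerm τ z) ∧
    Rq τ (z + 1) = Rq τ z ∧ Rq τ (z + τ) = Rq τ z - 2 * π * I ∧ Rq τ (-z) = - Rq τ z

/-- **[W1-LIOU]** `ζ(z) = A z + R(z)`. -/
def LiouStatement : Prop :=
  ∀ τ : ℍ, ∃ A : ℂ, ∀ z : ℂ, z ∉ (ppOf τ).lattice → zetaW (ppOf τ) z = A * z + Rq τ z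

/-! ### Hecke's weight-one forms -/

/-- Hecke's weight-one form of index `(a, b)` mod `ℓ`. -/
def gH (ℓ : ℕ) (a b : ℤ) (τ : ℍ) : ℂ :=
  zetaW (ppOf τ) ((a * τ + b) / ℓ) - (a * etaW (ppOf τ) τ + b * etaW (ppOf τ) 1) / ℓ

/-- **[W1-GMOD]** the transformation law of Hecke's forms (formal; all `ℓ`, `a`, `b`). -/
def GModStatement : Prop :=
  ∀ (ℓ : ℕ) (a b : ℤ) (γ : SL(2, ℤ)) (τ : ℍ),
    gH ℓ a b (γ • τ) =
      ((γ 1 0 : ℂ) * τ + (γ 1 1 : ℂ)) *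
        gH ℓ (a * γ 0 0 + b * γ 1 0) (a * γ 0 1 + b * γ 1 1) τ

/-- **[W1-GPER]** Hecke's forms only depend on the index mod `ℓ`. -/
def GPerStatement : Prop :=
  ∀ (ℓ : ℕ) (a b m n : ℤ) (τ : ℍ), 0 < ℓ → ¬ ((ℓ : ℤ) ∣ a ∧ (ℓ : ℤ) ∣ b) →
    gH ℓ (a + ℓ * m) (b + ℓ * n) τ = gH ℓ a b τ

/-- **[W1-GEXP]** Hecke's forms as explicit `q`-series. -/
def GExpStatement : Prop :=
  ∀ (ℓ : ℕ) (a b : ℤ) (τ : ℍ), 0 < ℓ → ¬ ((ℓ : ℤ) ∣ a ∧ (ℓ : ℤ) ∣ b) →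
    gH ℓ a b τ = Rq τ ((a * τ + b) / ℓ) + 2 * π * I * a / ℓ

/-- **[W1-GHOL]** Hecke's forms are holomorphic on the upper half plane. -/
def GHolStatement : Prop :=
  ∀ (ℓ : ℕ) (a b : ℤ), 0 < ℓ → ¬ ((ℓ : ℤ) ∣ a ∧ (ℓ : ℤ) ∣ b) →
    MDifferentiable 𝓘(ℂ) 𝓘(ℂ) (gH ℓ a b)

/-- **[W1-GBDD]** Hecke's forms are bounded at `i∞`. -/
def GBddStatement : Prop :=
  ∀ (ℓ : ℕ) (a b : ℤ), 0 < ℓ → ¬ ((ℓ : ℤ) ∣ a ∧ (ℓ : ℤ) ∣ b) →
    IsBoundedAtImInfty (gH ℓ a b)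

/-! ### The Eisenstein series of weight one -/

/-- `e^(2 π i a b / ℓ)`. -/
def eRoot (ℓ : ℕ) (m : ℤ) : ℂ := cexp (2 * π * I * m / ℓ)

/-- The finite Fourier transform `c_b = (1/ℓ) ∑_{a < ℓ} ψ(a) e^(2 π i a b/ℓ)`. -/
def cFou (ℓ : ℕ) (ψ : DirichletCharacter ℂ ℓ) (b : ℕ) : ℂ :=
  (ℓ : ℂ)⁻¹ * ∑ a ∈ Finset.range ℓ, ψ (a : ZMod ℓ) * eRoot ℓ ((a : ℤ) * b)

/-- The Eisenstein series `E_ψ = -(ℓ / 2 π i) ∑_b c_b g_(0,b)` as a function. -/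
def eisFun (ℓ : ℕ) (ψ : DirichletCharacter ℂ ℓ) (τ : ℍ) : ℂ :=
  -((ℓ : ℂ) / (2 * π * I)) * ∑ b ∈ Finset.range ℓ, cFou ℓ ψ b * gH ℓ 0 b τ

/-- The constant term `S_ψ = ∑_{a < ℓ} ψ(a) a`. -/
def sumS (ℓ : ℕ) (ψ : DirichletCharacter ℂ ℓ) : ℂ :=
  ∑ a ∈ Finset.range ℓ, ψ (a : ZMod ℓ) * a

/-- The divisor sum `σ_ψ(n) = ∑_{d ∣ n} ψ(d)`. -/
def sigmaPsi (ℓ : ℕ) (ψ : DirichletCharacter ℂ ℓ) (n : ℕ) : ℂ :=
  ∑ d ∈ n.divisors, ψ (d : ZMod ℓ)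

/-- The `n`-th coefficient of `E_ψ`. -/
def eisCoeff (ℓ : ℕ) (ψ : DirichletCharacter ℂ ℓ) (n : ℕ) : ℂ :=
  if n = 0 then sumS ℓ ψ else -2 * ℓ * sigmaPsi ℓ ψ n

/-- **[W1-EISQ]** the `q`-expansion of `E_ψ` (as a convergent series), `ψ` odd. -/
def EisQStatement : Prop :=
  ∀ (ℓ : ℕ) [NeZero ℓ] (ψ : DirichletCharacter ℂ ℓ), ψ (-1) = -1 →
    ∀ τ : ℍ, HasSum (fun n : ℕ => eisCoeff ℓ ψ n * qOf τ ^ n) (eisFun ℓ ψ τ)

/-- **[W1-EISNEB]** the nebentypus law of `E_ψ` on `Γ₀(ℓ)`. -/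
def EisNebStatement : Prop :=
  ∀ (ℓ : ℕ) [NeZero ℓ] (ψ : DirichletCharacter ℂ ℓ), ψ (-1) = -1 →
    ∀ γ ∈ CongruenceSubgroup.Gamma0 ℓ, ∀ τ : ℍ,
      eisFun ℓ ψ (γ • τ) =
        ψ ((γ 1 1 : ℤ) : ZMod ℓ) * ((γ 1 0 : ℂ) * τ + (γ 1 1 : ℂ)) * eisFun ℓ ψ τ

/-- **[W1-EISMF]** `E_ψ` is a modular form of weight one on `Γ₁(ℓ)`. -/
def EisMFStatement : Prop :=
  ∀ (ℓ : ℕ) [NeZero ℓ] (ψ : DirichletCharacter ℂ ℓ), ψ (-1) = -1 →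
    ∃ E : ModularForm (CongruenceSubgroup.Gamma1 ℓ) 1,
      (∀ τ : ℍ, E τ = eisFun ℓ ψ τ) ∧
      ∀ n : ℕ, ModularFormClass.qCoeff E n = eisCoeff ℓ ψ n

/-! ### The Teichmüller character and the congruence -/

/-- **[W1-CONG]** the inverse Teichmüller character attached to a reduction map `φ`: it is odd,
its values are algebraic integers with `φ (ψ d) * d = 1`, and `φ (S_ψ) = -1`. -/
def CongStatement : Prop :=
  ∀ (ℓ : ℕ) [Fact ℓ.Prime], ℓ ≠ 2 →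
    ∀ (k : Type) [Field k] [CharP k ℓ] (φ : integralClosure ℤ ℂ →+* k),
      ∃ ψ : DirichletCharacter ℂ ℓ, ψ (-1) = -1 ∧
        (∀ d : ℕ, ¬ ℓ ∣ d → ∃ u : integralClosure ℤ ℂ,
          (u : ℂ) = ψ (d : ZMod ℓ) ∧ φ u * (d : k) = 1) ∧
        (∃ s : integralClosure ℤ ℂ, (s : ℂ) = sumS ℓ ψ ∧ φ s = -1) ∧
        ∀ n : ℕ, n ≠ 0 → ∃ t : integralClosure ℤ ℂ, (t : ℂ) = eisCoeff ℓ ψ n ∧ φ t = 0

/-- **BLOCK (III)**: a weight-one form on `Γ₁(ℓ)` congruent to the constant `-1`. -/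
def Wt1Statement : Prop :=
  ∀ (ℓ : ℕ) [Fact ℓ.Prime], ℓ ≠ 2 →
    ∀ (k : Type) [Field k] [CharP k ℓ] (φ : integralClosure ℤ ℂ →+* k),
      ∃ (ψ : DirichletCharacter ℂ ℓ) (E : ModularForm (CongruenceSubgroup.Gamma1 ℓ) 1),
        ψ (-1) = -1 ∧
        (∀ d : ℕ, ¬ ℓ ∣ d → ∃ u : integralClosure ℤ ℂ,
          (u : ℂ) = ψ (d : ZMod ℓ) ∧ φ u * (d : k) = 1) ∧
        (∀ γ ∈ CongruenceSubgroup.Gamma0 ℓ, ∀ τ : ℍ,
          E (γ • τ) = ψ ((γ 1 1 : ℤ) : ZMod ℓ) * ((γ 1 0 : ℂ) * τ + (γ 1 1 : ℂ)) * E τ) ∧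
        (∀ n : ℕ, n ≠ 0 →
          ModularFormClass.qCoeff E n = -2 * ℓ * ∑ d ∈ n.divisors, ψ (d : ZMod ℓ)) ∧
        (∃ s : integralClosure ℤ ℂ, (s : ℂ) = ModularFormClass.qCoeff E 0 ∧ φ s = -1) ∧
        ∀ n : ℕ, n ≠ 0 → ∃ t : integralClosure ℤ ℂ,
          (t : ℂ) = ModularFormClass.qCoeff E n ∧ φ t = 0

/-- The assembly of block (III) from its packages. -/
theorem wt1_of (hMF : EisMFStatement) (hNeb : EisNebStatement) (hCong : CongStatement) :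
    Wt1Statement := by
  intro ℓ _ hℓ2 k _ _ φ
  obtain ⟨ψ, hodd, hψ, ⟨s, hs, hφs⟩, hn⟩ := hCong ℓ hℓ2 k φ
  have : NeZero ℓ := ⟨(Fact.out : ℓ.Prime).ne_zero⟩
  obtain ⟨E, hE, hq⟩ := hMF ℓ ψ hodd
  refine ⟨ψ, E, hodd, hψ, ?_, ?_, ⟨s, ?_, hφs⟩, ?_⟩
  · intro γ hγ τ
    rw [hE, hE]
    exact hNeb ℓ ψ hodd γ hγ τ
  · intro n hn0
    rw [hq n, eisCoeff, if_neg hn0, sigmaPsi]
  · rw [hs, hq 0, eisCoeff, if_pos rfl]
  · intro n hn0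
    obtain ⟨t, ht, hφt⟩ := hn n hn0
    exact ⟨t, by rw [ht, hq n], hφt⟩

end

end Fermat.Agent.T4.helper85
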