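import Mathlib
import Fermat.Agent.T4.helper85_Wt1Defs

/-!
# T4 / S48 block (III), leaf [W1-LIOU] (helper1): `ζ(z) = A z + R(z)`

`liou_of : RStatement → LiouStatement` (shapes of `helper85_Wt1Defs`); only the summability part
of `RStatement` is used.

Route A (no complex analysis beyond Mathlib's cotangent series): the lattice sum of
`1/(z-l) + 1/l + z/l²` is absolutely convergent, so it may be summed by rows `l = m τ + n`.
Row `m`, summed over `n` by pairing `n` with `-n`, is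
`π cot(π (z - m τ)) + π cot(π m τ) + z S₂(m τ)` (row `0`: `π cot(π z) + c₀ z`), and the rows
`m` and `-m` together are `2 π i RqTerm + z (S₂(m τ) + S₂(-m τ))`.
-/

set_option autoImplicit false

open Complex
open UpperHalfPlane hiding I
open scoped Real

namespace Fermat.Agent.T4.helper1

open Fermat.Agent.T4.helper85

noncomputable section

/-! ### sums over `ℤ` by pairing `n` with `-n` -/

theorem summable_int_pair {f : ℤ → ℂ} (hf : Summable f) :
    Summable (fun k : ℕ => f ((k : ℤ) + 1) + f (-((k : ℤ) + 1))) := by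
  have h1 : Summable (fun k : ℕ => f ((k : ℤ) + 1)) :=
    hf.comp_injective (fun a b h => by simpa using h)
  have h2 : Summable (fun k : ℕ => f (-((k : ℤ) + 1))) :=
    hf.comp_injective (fun a b h => by simpa using h)
  exact h1.add h2

theorem tsum_int_pair {f : ℤ → ℂ} (hf : Summable f) :
    ∑' n : ℤ, f n = f 0 + ∑' k : ℕ, (f ((k : ℤ) + 1) + f (-((k : ℤ) + 1))) := by
  have h1 : Summable (fun k : ℕ => f ((k : ℤ) + 1)) :=
    hf.comp_injective (fun a b h => by simpa using h)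
  have h2 : Summable (fun k : ℕ => f (-((k : ℤ) + 1))) :=
    hf.comp_injective (fun a b h => by simpa using h)
  rw [tsum_of_add_one_of_neg_add_one h1 h2, h1.tsum_add h2]
  ring

/-! ### the terms of the zeta series -/

/-- the term of the Weierstrass zeta series -/
def zT (z l : ℂ) : ℂ := 1 / (z - l) + 1 / l + z / l ^ 2

theorem zetaW_eq_tsum (L : PeriodPair) (z : ℂ) :
    zetaW L z = ∑' l : L.lattice, zT z (l : ℂ) := rfl

theorem zT_eq {z l : ℂ} (hl : l ≠ 0) (hzl : z ≠ l) : zT z l = z ^ 2 / (l ^ 2 * (z - l)) := by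
  have h : z - l ≠ 0 := sub_ne_zero.mpr hzl
  unfold zT
  field_simp
  ring

theorem zT_bound (r : ℝ) (hr : 0 < r) (s : ℂ) (hs : ‖s‖ < r) (l : ℂ) (h : 2 * r ≤ ‖l‖) :
    ‖zT s l‖ ≤ 2 * r ^ 2 * ‖l‖ ^ (-3 : ℝ) := by
  have hl0 : 0 < ‖l‖ := by linarith
  have hl : l ≠ 0 := norm_pos_iff.mp hl0
  have hsl : s ≠ l := by rintro rfl; linarith
  have h1 : ‖l‖ / 2 ≤ ‖s - l‖ := by
    rw [norm_sub_rev]
    have := norm_sub_norm_le l s
    linarith
  have h1' : 0 < ‖s - l‖ := by linarith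
  rw [zT_eq hl hsl, norm_div, norm_mul, norm_pow, norm_pow]
  have h2 : ‖l‖ ^ (-3 : ℝ) = (‖l‖ ^ 3)⁻¹ := by
    rw [Real.rpow_neg hl0.le]
    norm_cast
  rw [h2, div_le_iff₀ (by positivity)]
  have h3 : ‖s‖ ^ 2 ≤ r ^ 2 := by gcongr
  calc ‖s‖ ^ 2 ≤ r ^ 2 := h3
    _ = 2 * r ^ 2 * (‖l‖ ^ 3)⁻¹ * (‖l‖ ^ 2 * (‖l‖ / 2)) := by
        field_simp
    _ ≤ 2 * r ^ 2 * (‖l‖ ^ 3)⁻¹ * (‖l‖ ^ 2 * ‖s - l‖) := by gcongr

theorem summable_zT (L : PeriodPair) (z : ℂ) : Summable (fun l : L.lattice => zT z (l : ℂ)) := by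
  have h := L.hasSumLocallyUniformly_aux (f := fun l x => zT x (l : ℂ))
    (u := fun r l => 2 * r ^ 2 * ‖l‖ ^ (-3 : ℝ))
    (fun r _ => (ZLattice.summable_norm_rpow _ _ (by simp; norm_num)).mul_left _)
    (fun r hr => Filter.eventually_atTop.mpr ⟨2 * r, by
      rintro _ h s hs l rfl
      exact zT_bound r hr s hs l h⟩)
  exact (h.hasSum (x := z)).summable

/-! ### summation by rows -/

/-- the zeta term at the lattice point `m τ + n` -/
def zR (τ : ℍ) (z : ℂ) (m n : ℤ) : ℂ := zT z ((m : ℂ) * (τ : ℂ) + (n : ℂ))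

theorem zT_latticeEquiv (τ : ℍ) (z : ℂ) (p : ℤ × ℤ) :
    zT z (((ppOf τ).latticeEquivProd.symm p : (ppOf τ).lattice) : ℂ) = zR τ z p.1 p.2 := by
  rw [PeriodPair.latticeEquiv_symm_apply]
  simp [zR]

theorem summable_zR_prod (τ : ℍ) (z : ℂ) : Summable (fun p : ℤ × ℤ => zR τ z p.1 p.2) := by
  have h := summable_zT (ppOf τ) z
  have h2 := ((ppOf τ).latticeEquivProd.symm.toEquiv.summable_iff).mpr h
  refine h2.congr (fun p => ?_)
  exact zT_latticeEquiv τ z p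

theorem zetaW_eq_tsum_rows (τ : ℍ) (z : ℂ) :
    zetaW (ppOf τ) z = ∑' m : ℤ, ∑' n : ℤ, zR τ z m n := by
  rw [zetaW_eq_tsum, ← (ppOf τ).latticeEquivProd.symm.toEquiv.tsum_eq,
    ← (summable_zR_prod τ z).tsum_prod]
  exact tsum_congr (fun p => zT_latticeEquiv τ z p)

theorem summable_zR_row (τ : ℍ) (z : ℂ) (m : ℤ) : Summable (fun n : ℤ => zR τ z m n) :=
  (summable_zR_prod τ z).prod_factor m

theorem summable_zR_rows (τ : ℍ) (z : ℂ) : Summable (fun m : ℤ => ∑' n : ℤ, zR τ z m n) :=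
  (summable_zR_prod τ z).prod


/-! ### integer complement bookkeeping -/

theorem sub_mul_mem_integerComplement {τ : ℍ} {z : ℂ} (hz : z ∉ (ppOf τ).lattice) (m : ℤ) :
    z - (m : ℂ) * (τ : ℂ) ∈ Complex.integerComplement := by
  rw [Complex.mem_integerComplement_iff]
  rintro ⟨n, hn⟩
  apply hz
  rw [PeriodPair.mem_lattice]
  refine ⟨m, n, ?_⟩
  simp only [ppOf_ω₁, ppOf_ω₂, mul_one]
  rw [hn]
  ring

theorem mem_integerComplement_of_notMem {τ : ℍ} {z : ℂ} (hz : z ∉ (ppOf τ).lattice) :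
    z ∈ Complex.integerComplement := by
  have := sub_mul_mem_integerComplement hz 0
  simpa using this

theorem mul_mem_integerComplement (τ : ℍ) {m : ℤ} (hm : m ≠ 0) :
    (m : ℂ) * (τ : ℂ) ∈ Complex.integerComplement := by
  rw [Complex.mem_integerComplement_iff]
  rintro ⟨n, hn⟩
  have him := congrArg Complex.im hn
  simp only [Complex.intCast_im, Complex.mul_im, Complex.intCast_re, zero_mul, add_zero] at him
  have h1 : (m : ℝ) ≠ 0 := by exact_mod_cast hm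
  have h2 : (τ : ℂ).im ≠ 0 := τ.im_pos.ne'
  exact mul_ne_zero h1 h2 him.symm

/-! ### the rows -/

/-- the paired square terms -/
def sq2 (y : ℂ) (k : ℕ) : ℂ := 1 / (y + ((k : ℂ) + 1)) ^ 2 + 1 / (y - ((k : ℂ) + 1)) ^ 2

/-- `∑_n 1/(y+n)²`, summed by pairing `n` with `-n` -/
def S2 (y : ℂ) : ℂ := 1 / y ^ 2 + ∑' k : ℕ, sq2 y k

/-- `2 ∑_{n ≥ 1} 1/n²` -/
def c0 : ℂ := ∑' k : ℕ, 2 / ((k : ℂ) + 1) ^ 2

theorem zR_pair (τ : ℍ) (z : ℂ) (m : ℤ) (k : ℕ) :
    zR τ z m ((k : ℤ) + 1) + zR τ z m (-((k : ℤ) + 1)) =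
      cotTerm (z - (m : ℂ) * (τ : ℂ)) k + cotTerm ((m : ℂ) * (τ : ℂ)) k +
        z * sq2 ((m : ℂ) * (τ : ℂ)) k := by
  simp only [zR, zT, cotTerm, sq2]
  push_cast
  ring

theorem zR_zero_pair (τ : ℍ) (z : ℂ) (k : ℕ) :
    zR τ z 0 ((k : ℤ) + 1) + zR τ z 0 (-((k : ℤ) + 1)) =
      cotTerm z k + z * (2 / ((k : ℂ) + 1) ^ 2) := by
  simp only [zR, zT, cotTerm]
  push_cast
  have h1 : ((k : ℂ) + 1) ≠ 0 := by exact_mod_cast Nat.succ_ne_zero k
  simp only [zero_mul, zero_add, one_div, inv_neg, neg_sq, sub_neg_eq_add]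
  ring

theorem zR_zero_zero (τ : ℍ) (z : ℂ) : zR τ z 0 0 = 1 / z := by
  simp [zR, zT]

theorem zR_m_zero (τ : ℍ) (z : ℂ) (m : ℤ) :
    zR τ z m 0 = 1 / (z - (m : ℂ) * (τ : ℂ)) + 1 / ((m : ℂ) * (τ : ℂ)) +
      z / ((m : ℂ) * (τ : ℂ)) ^ 2 := by
  simp [zR, zT]

/-- `π cot(π x) = 1/x + ∑ cotTerm x` -/
theorem pi_cot_eq {x : ℂ} (hx : x ∈ Complex.integerComplement) :
    (π : ℂ) * Complex.cot (π * x) = 1 / x + ∑' k : ℕ, cotTerm x k := by
  have h := cot_series_rep' hx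
  simp only [cotTerm]
  rw [← h]
  ring

theorem summable_z_c0 (τ : ℍ) {z : ℂ} (hz : z ∈ Complex.integerComplement) :
    Summable (fun k : ℕ => z * (2 / ((k : ℂ) + 1) ^ 2)) := by
  have h1 := summable_int_pair (summable_zR_row τ z 0)
  have h2 := summable_cotTerm hz
  refine (h1.sub h2).congr (fun k => ?_)
  rw [zR_zero_pair]
  ring

theorem tsum_zR_row_zero (τ : ℍ) {z : ℂ} (hz : z ∈ Complex.integerComplement) :
    ∑' n : ℤ, zR τ z 0 n = π * Complex.cot (π * z) + c0 * z := by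
  rw [tsum_int_pair (summable_zR_row τ z 0), zR_zero_zero, pi_cot_eq hz]
  have h2 := summable_cotTerm hz
  have h3 := summable_z_c0 τ hz
  have h4 : ∑' k : ℕ, (zR τ z 0 ((k : ℤ) + 1) + zR τ z 0 (-((k : ℤ) + 1))) =
      ∑' k : ℕ, cotTerm z k + z * c0 := by
    rw [c0, ← tsum_mul_left, ← h2.tsum_add h3]
    exact tsum_congr (fun k => zR_zero_pair τ z k)
  rw [h4]
  ring

theorem summable_z_sq2 (τ : ℍ) {z : ℂ} (hz : z ∉ (ppOf τ).lattice) {m : ℤ} (hm : m ≠ 0) :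
    Summable (fun k : ℕ => z * sq2 ((m : ℂ) * (τ : ℂ)) k) := by
  have h1 := summable_int_pair (summable_zR_row τ z m)
  have h2 := summable_cotTerm (sub_mul_mem_integerComplement hz m)
  have h3 := summable_cotTerm (mul_mem_integerComplement τ hm)
  refine ((h1.sub h2).sub h3).congr (fun k => ?_)
  rw [zR_pair]
  ring

theorem tsum_zR_row (τ : ℍ) {z : ℂ} (hz : z ∉ (ppOf τ).lattice) {m : ℤ} (hm : m ≠ 0) :
    ∑' n : ℤ, zR τ z m n =
      π * Complex.cot (π * (z - (m : ℂ) * (τ : ℂ))) + π * Complex.cot (π * ((m : ℂ) * (τ : ℂ))) +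
        z * S2 ((m : ℂ) * (τ : ℂ)) := by
  have hx := sub_mul_mem_integerComplement hz m
  have hy := mul_mem_integerComplement τ hm
  rw [tsum_int_pair (summable_zR_row τ z m), zR_m_zero, pi_cot_eq hx, pi_cot_eq hy]
  have h2 := summable_cotTerm hx
  have h3 := summable_cotTerm hy
  have h4 := summable_z_sq2 τ hz hm
  have h5 : ∑' k : ℕ, (zR τ z m ((k : ℤ) + 1) + zR τ z m (-((k : ℤ) + 1))) =
      ∑' k : ℕ, cotTerm (z - (m : ℂ) * (τ : ℂ)) k + ∑' k : ℕ, cotTerm ((m : ℂ) * (τ : ℂ)) k +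
        z * ∑' k : ℕ, sq2 ((m : ℂ) * (τ : ℂ)) k := by
    rw [← tsum_mul_left, ← h2.tsum_add h3, ← (h2.add h3).tsum_add h4]
    exact tsum_congr (fun k => zR_pair τ z m k)
  rw [h5, S2]
  ring

/-! ### pairing the rows `M` and `-M` -/

theorem cot_neg_eq (x : ℂ) : Complex.cot (-x) = -Complex.cot x := by
  rw [Complex.cot_eq_cos_div_sin, Complex.cot_eq_cos_div_sin, Complex.cos_neg, Complex.sin_neg,
    div_neg]

theorem exp_ne_one_of_mem_integerComplement {x : ℂ} (hx : x ∈ Complex.integerComplement) :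
    cexp (2 * π * I * x) ≠ 1 := by
  intro h
  rw [Complex.exp_eq_one_iff] at h
  obtain ⟨n, hn⟩ := h
  rw [Complex.mem_integerComplement_iff] at hx
  apply hx
  refine ⟨n, ?_⟩
  have h2 : (2 * (π : ℂ) * I) ≠ 0 := by
    simp [Real.pi_ne_zero, Complex.I_ne_zero]
  apply mul_left_cancel₀ h2
  rw [hn]
  ring

theorem exp_sub_eq (τ : ℍ) (z : ℂ) (k : ℕ) :
    cexp (2 * π * I * (z - (((k : ℤ) + 1 : ℤ) : ℂ) * (τ : ℂ))) = wOf z / qOf τ ^ (k + 1) := by
  rw [wOf, qOf, ← Complex.exp_nat_mul, ← Complex.exp_sub]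
  congr 1
  push_cast
  ring

theorem exp_add_eq (τ : ℍ) (z : ℂ) (k : ℕ) :
    cexp (2 * π * I * (z - ((-((k : ℤ) + 1) : ℤ) : ℂ) * (τ : ℂ))) = wOf z * qOf τ ^ (k + 1) := by
  rw [wOf, qOf, ← Complex.exp_nat_mul, ← Complex.exp_add]
  congr 1
  push_cast
  ring

theorem pi_cot_pair (τ : ℍ) {z : ℂ} (hz : z ∉ (ppOf τ).lattice) (k : ℕ) :
    (π : ℂ) * Complex.cot (π * (z - (((k : ℤ) + 1 : ℤ) : ℂ) * (τ : ℂ))) +
        π * Complex.cot (π * (z - ((-((k : ℤ) + 1) : ℤ) : ℂ) * (τ : ℂ))) =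
      2 * π * I * RqTerm τ z k := by
  have h1 := exp_ne_one_of_mem_integerComplement (sub_mul_mem_integerComplement hz ((k : ℤ) + 1))
  have h2 := exp_ne_one_of_mem_integerComplement
    (sub_mul_mem_integerComplement hz (-((k : ℤ) + 1)))
  rw [exp_sub_eq] at h1
  rw [exp_add_eq] at h2
  rw [Complex.cot_pi_eq_exp_ratio, Complex.cot_pi_eq_exp_ratio, exp_sub_eq, exp_add_eq, RqTerm]
  have hq : qOf τ ^ (k + 1) ≠ 0 := pow_ne_zero _ (Complex.exp_ne_zero _)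
  have hw : wOf z ≠ 0 := Complex.exp_ne_zero _
  have d1 : 1 - wOf z / qOf τ ^ (k + 1) ≠ 0 := sub_ne_zero.mpr (Ne.symm h1)
  have d2 : 1 - wOf z * qOf τ ^ (k + 1) ≠ 0 := sub_ne_zero.mpr (Ne.symm h2)
  have d3 : 1 - qOf τ ^ (k + 1) / wOf z ≠ 0 := by
    intro h
    apply h1
    have h' : qOf τ ^ (k + 1) / wOf z = 1 := (sub_eq_zero.mp h).symm
    rw [div_eq_one_iff_eq hw] at h'
    rw [h', div_self hw]
  have d4 : 1 - qOf τ ^ (k + 1) * wOf z ≠ 0 := by
    rw [mul_comm]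
    exact d2
  have d5 : qOf τ ^ (k + 1) - wOf z ≠ 0 := by
    intro h
    apply h1
    rw [← sub_eq_zero.mp h, div_self hq]
  have d6 : wOf z - qOf τ ^ (k + 1) ≠ 0 := by
    intro h
    apply d5
    rw [← neg_sub, h, neg_zero]
  have hI : I ≠ 0 := Complex.I_ne_zero
  field_simp
  ring_nf
  simp only [Complex.I_sq]
  ring

/-- the `z`-coefficient contributed by the rows `±(k+1)` -/
def T2 (τ : ℍ) (k : ℕ) : ℂ :=
  S2 ((((k : ℤ) + 1 : ℤ) : ℂ) * (τ : ℂ)) + S2 (((-((k : ℤ) + 1) : ℤ) : ℂ) * (τ : ℂ))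

theorem tsum_zR_rows_pair (τ : ℍ) {z : ℂ} (hz : z ∉ (ppOf τ).lattice) (k : ℕ) :
    (∑' n : ℤ, zR τ z ((k : ℤ) + 1) n) + (∑' n : ℤ, zR τ z (-((k : ℤ) + 1)) n) =
      2 * π * I * RqTerm τ z k + z * T2 τ k := by
  have hm1 : ((k : ℤ) + 1) ≠ 0 := by omega
  have hm2 : (-((k : ℤ) + 1)) ≠ 0 := by omega
  rw [tsum_zR_row τ hz hm1, tsum_zR_row τ hz hm2, ← pi_cot_pair τ hz k, T2]
  have h : Complex.cot (π * (((-((k : ℤ) + 1) : ℤ) : ℂ) * (τ : ℂ))) =
      -Complex.cot (π * ((((k : ℤ) + 1 : ℤ) : ℂ) * (τ : ℂ))) := by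
    rw [← cot_neg_eq]
    congr 1
    push_cast
    ring
  rw [h]
  ring

/-! ### the theorem -/

/-- `ζ(z) = A z + R(z)`, given the summability of the `q`-series. -/
theorem liou_of_summable
    (hS : ∀ (τ : ℍ) (z : ℂ), z ∉ (ppOf τ).lattice → Summable (RqTerm τ z)) :
    LiouStatement := by
  intro τ
  refine ⟨c0 + ∑' k : ℕ, T2 τ k, fun z hz => ?_⟩
  have hsum1 : Summable (fun k => 2 * π * I * RqTerm τ z k) := (hS τ z hz).mul_left _
  have hsum2 : Summable (fun k => z * T2 τ k) := by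
    refine ((summable_int_pair (summable_zR_rows τ z)).sub hsum1).congr (fun k => ?_)
    rw [tsum_zR_rows_pair τ hz]
    ring
  rw [zetaW_eq_tsum_rows, tsum_int_pair (summable_zR_rows τ z),
    tsum_zR_row_zero τ (mem_integerComplement_of_notMem hz),
    tsum_congr (tsum_zR_rows_pair τ hz), hsum1.tsum_add hsum2, tsum_mul_left, tsum_mul_left, Rq]
  ring

/-- **[W1-LIOU]** from **[W1-R]** (only the summability part is used). -/
theorem liou_of (hR : RStatement) : LiouStatement :=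
  liou_of_summable (fun τ z hz => (hR τ z hz).1)

/-! ### the summability of the `q`-series, directly -/

theorem summable_geom_ratio {q : ℂ} (hq : ‖q‖ < 1) (c : ℂ) :
    Summable (fun n : ℕ => c * q ^ (n + 1) / (1 - c * q ^ (n + 1))) := by
  have hs : Summable (fun n : ℕ => ‖c * q ^ (n + 1)‖) := by
    have h := ((summable_geometric_of_norm_lt_one hq).mul_left (c * q)).norm
    refine h.congr (fun n => ?_)
    congr 1
    ring
  have ht : Filter.Tendsto (fun n : ℕ => ‖c * q ^ (n + 1)‖) Filter.atTop (nhds 0) :=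
    hs.tendsto_atTop_zero
  have hev : ∀ᶠ n : ℕ in Filter.atTop, ‖c * q ^ (n + 1)‖ < 1 / 2 :=
    ht.eventually (gt_mem_nhds (by norm_num))
  refine Summable.of_norm_bounded_eventually_nat (g := fun n => 2 * ‖c * q ^ (n + 1)‖)
    (hs.mul_left 2) ?_
  filter_upwards [hev] with n hn
  have h1 : 1 / 2 ≤ ‖1 - c * q ^ (n + 1)‖ := by
    have h2 := norm_sub_norm_le (1 : ℂ) (c * q ^ (n + 1))
    rw [norm_one] at h2
    linarith
  rw [norm_div, div_le_iff₀ (by linarith)]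
  have h3 : 0 ≤ ‖c * q ^ (n + 1)‖ := norm_nonneg _
  nlinarith

theorem summable_RqTerm (τ : ℍ) (z : ℂ) : Summable (RqTerm τ z) := by
  have hq : ‖qOf τ‖ < 1 := UpperHalfPlane.norm_exp_two_pi_I_lt_one τ
  have h1 := summable_geom_ratio hq (wOf z)⁻¹
  have h2 := summable_geom_ratio hq (wOf z)
  refine (h1.sub h2).congr (fun n => ?_)
  rw [RqTerm, div_eq_inv_mul (qOf τ ^ (n + 1)) (wOf z), mul_comm (qOf τ ^ (n + 1)) (wOf z)]

/-- **[W1-LIOU]**, unconditionally. -/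
theorem liou : LiouStatement :=
  liou_of_summable (fun τ z _ => summable_RqTerm τ z)

end

end Fermat.Agent.T4.helper1
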