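import Mathlib
import Fermat.Agent.T4.helper4_IgusaDefs
import Fermat.Agent.S28.AnalyticConj
import Fermat.Agent.S28.helper81_Reduce
import Fermat.Agent.S28.helper81_Assembly

/-!
# T4 block (I), [IGUSA1] route A, leaf [IG-JM] (helper1): the pivot `j_M = j(M τ)`

`pivotJM : zetaC M ∈ S → (M : ℂ)⁻¹ ∈ S → Function.Surjective r → (M : k) ≠ 0 →
  helper4.Ig.PivotJMStatement M S r`

for every subring `S ⊆ ℂ` and every SURJECTIVE ring hom `r : S →+* k` onto a field in which
`M ≠ 0` (instance: `S = P2.helper81.subringC A`, `r = rhoC A`, `rhoC_surjective`).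

* the element: `jMB M S hζ : BS (Gamma M) M S` with underlying function `jfunD M = jfunDT M`;
  all its expansions are the Hermite series `(hData M γ).jSer M` of S28 (`EA_jMA`);
* invariance under `Γ₀(M)`: `trB_jMB`;
* the reduced conjugates separate: the expansion of `j_M ∘ γ` has leading exponent `- a²`,
  `a = gcd(M, c_γ)`, with a unit leading coefficient, and `a = M` iff `γ ∈ Γ₀(M)`
  (`mem_Gamma0_of_EB_eq`);
* the modular equation: `S28.item7` + `helper81.ConjData.irreducible_reduction` applied to the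
  concrete conjugate data `conjD M` (`I = SL₂(ℤ)/Γ₀(M)`, `G = S28.GAlg M`).
-/

set_option autoImplicit false
set_option linter.unusedSectionVars false
set_option linter.unusedVariables false
set_option linter.style.haveILetI false

noncomputable section

namespace Fermat.Agent.T4.helper1

open UpperHalfPlane CongruenceSubgroup ModularCurve Polynomial
open Fermat.Agent.S28 Fermat.Agent.S24
open Fermat.Agent.T4.helper32.Conj1 Fermat.Agent.T4.helper4.Ig
open scoped MatrixGroups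

/-! ### the concrete conjugate data of S28 -/

/-- the conjugate data of S28 in CONCRETE form: `I = SL₂(ℤ)/Γ₀(N)`, `G = GAlg N`,
`E i = EI N i`. -/
def conjD (N : ℕ) [NeZero N] : helper81.ConjData N :=
  haveI hfin : Finite (IX N) := Fermat.Agent.S24.helper37.finite_quotient_Gamma0 N
  { I := IX N
    instFintype := Fintype.ofFinite _
    instDecEq := Classical.decEq _
    i₀ := i0 N
    G := GAlg N
    instCommRing := inferInstance
    instAlgebra := inferInstance
    E := EI N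
    J := JG N
    Jd := JdG N
    U := UG N
    a := aI N
    hJ := EI_JG N
    hJd := fun d hd hNd => EI_i0_JdG N d hd hNd
    ha := aI_dvd N
    ha₀ := eq_i0_of_aI_eq N
    m := mI N
    hm := item4_inj N
    hΘ := item4_lead N
    hU := item5 N
    hS := fun S hζ hN i n => item6 N S hζ hN i n
    hchar := fun S g h =>
      @item7 N _ (charpolyCoeffs N) (Fintype.ofFinite _) (Classical.decEq _) S g h }

/-! ### the element `j_M` -/

theorem gamma_le_gamma0 (N : ℕ) : Gamma N ≤ Gamma0 N := by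
  intro γ hγ
  rw [Gamma_mem] at hγ
  rw [Gamma0_mem]
  exact hγ.2.2.1

variable (M : ℕ) [NeZero M] (S : Subring ℂ)

/-- `j_M = j(M τ)` as a modular function of level `Γ(M)` -/
def jMA : GA (Gamma M) M :=
  ⟨jfunD M, GAlg_le (Gamma M) M (gamma_le_gamma0 M) (jfunD_mem M M dvd_rfl)⟩

theorem coe_jMA : ((jMA M : GA (Gamma M) M) : ℍ → ℂ) = jfunDT M := by
  funext τ
  rw [jfunDT, dif_neg (NeZero.ne M)]
  rfl

theorem jMA_apply (τ : ℍ) : ((jMA M : GA (Gamma M) M) : ℍ → ℂ) τ = jfunD M τ := rfl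

/-- all expansions of `j_M` are Hermite series -/
theorem EA_jMA (γ : SL(2, ℤ)) : EA (Gamma M) M γ (jMA M) = (hData M γ).jSer M := by
  apply EA_eq
  exact (hData M γ).hasExp_j M dvd_rfl

theorem jMA_mem_BS (hζ : zetaC M ∈ S) : jMA M ∈ BS (Gamma M) M S := by
  rw [mem_BS_iff]
  intro γ n
  rw [EA_jMA]
  obtain ⟨h1, h2⟩ := (hData M γ).ξ_mem (N := M) dvd_rfl S hζ
  exact helper25.affL_coeff_mem S _ h1 h2 _ _ (helper25.jqModC_coeff_mem S) n

/-- `j_M` as an `S`-integral modular function of level `Γ(M)` -/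
def jMB (hζ : zetaC M ∈ S) : BS (Gamma M) M S := ⟨jMA M, jMA_mem_BS M S hζ⟩

theorem coe_jMB (hζ : zetaC M ∈ S) :
    (((jMB M S hζ : BS (Gamma M) M S) : GA (Gamma M) M) : ℍ → ℂ) = jfunDT M :=
  coe_jMA M

/-- invariance under `Γ₀(M)` -/
theorem trB_jMB (hζ : zetaC M ∈ S) {γ : SL(2, ℤ)} (hγ : γ ∈ Gamma0 M) :
    trB (Gamma M) M S γ (jMB M S hζ) = jMB M S hζ := by
  apply Subtype.ext
  apply Subtype.ext
  funext τ
  show jfunD M (γ • τ) = jfunD M τ
  exact Fermat.Agent.S24.helper24.jfunD_smul_of_mem_Gamma0 M M dvd_rfl γ hγ τ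

/-! ### leading terms -/

/-- the leading term of the expansion of `j_M ∘ γ`: exponent `- a²`, coefficient `ξ⁻¹` -/
theorem EA_jMA_lead (γ : SL(2, ℤ)) :
    ∃ p : PowerSeries ℂ, PowerSeries.constantCoeff p = 1 ∧
      EA (Gamma M) M γ (jMA M) =
        HahnSeries.single (-(((hData M γ).a : ℤ) ^ 2)) ((hData M γ).ξ)⁻¹ *
          HahnSeries.ofPowerSeries ℤ ℂ p := by
  obtain ⟨p', hp', hl⟩ := helper25.affL_lead (hData M γ).ξ (hData M γ).ξ_ne_zero
    ((hData M γ).e M) ((hData M γ).e_ne_zero M dvd_rfl) (-1) 1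
    (jNum.map (Int.castRingHom ℂ)) (constantCoeff_map_int _ constantCoeff_jNum)
  refine ⟨p', hp', ?_⟩
  rw [EA_jMA, HData.jSer, jqModC_eq, hl, HData.e_self]
  congr 2
  · push_cast; ring_nf
  · rw [one_mul, zpow_neg_one]

theorem hData_a_dvd (γ : SL(2, ℤ)) : (hData M γ).a ∣ M :=
  ⟨(hData M γ).D, (hData M γ).had.symm⟩

theorem hData_one_a : (hData M (1 : SL(2, ℤ))).a = M := by
  rw [(hData M (1 : SL(2, ℤ))).hgcd]
  simp

variable {k : Type} [Field k] (r : S →+* k)

/-- the coefficient of `t^(-M²)` of the reduced expansion at the identity is not zero -/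
theorem EB_one_jMB_coeff_ne_zero (hζ : zetaC M ∈ S) :
    (EB (Gamma M) M S r 1 (jMB M S hζ)).coeff (-((M : ℤ) ^ 2)) ≠ 0 := by
  obtain ⟨p, hp, hl⟩ := EA_jMA_lead M 1
  obtain ⟨h1, h2⟩ := (hData M (1 : SL(2, ℤ))).ξ_mem (N := M) dvd_rfl S hζ
  have hc : (EA (Gamma M) M 1 (jMA M)).coeff (-((M : ℤ) ^ 2)) =
      ((hData M (1 : SL(2, ℤ))).ξ)⁻¹ := by
    rw [hl, hData_one_a, helper81.coeff_single_mul_ofPowerSeries_self, hp, mul_one]
  have hES : (ES (Gamma M) M S 1 (jMB M S hζ)).coeff (-((M : ℤ) ^ 2)) =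
      (⟨((hData M (1 : SL(2, ℤ))).ξ)⁻¹, h2⟩ : S) := by
    apply Subtype.ext
    rw [ES_coeff]
    exact hc
  rw [EB_coeff, hES]
  intro h0
  have hmul : (⟨((hData M (1 : SL(2, ℤ))).ξ)⁻¹, h2⟩ : S) *
      (⟨(hData M (1 : SL(2, ℤ))).ξ, h1⟩ : S) = 1 := by
    apply Subtype.ext
    show ((hData M (1 : SL(2, ℤ))).ξ)⁻¹ * (hData M (1 : SL(2, ℤ))).ξ = 1
    exact inv_mul_cancel₀ (hData M (1 : SL(2, ℤ))).ξ_ne_zero
  have := congrArg r hmul
  rw [map_mul, h0, zero_mul, map_one] at this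
  exact zero_ne_one this

/-- the reduced conjugates of `j_M` separate the cosets of `Γ₀(M)` from the identity coset -/
theorem mem_Gamma0_of_EB_eq (hζ : zetaC M ∈ S) (γ : SL(2, ℤ))
    (h : EB (Gamma M) M S r γ (jMB M S hζ) = EB (Gamma M) M S r 1 (jMB M S hζ)) :
    γ ∈ Gamma0 M := by
  have hMpos : 0 < M := Nat.pos_of_ne_zero (NeZero.ne M)
  have hne := EB_one_jMB_coeff_ne_zero M S r hζ
  rw [← h] at hne
  have hale : (hData M γ).a ≤ M := Nat.le_of_dvd hMpos (hData_a_dvd M γ)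
  have haM : (hData M γ).a = M := by
    by_contra hcon
    have hlt : (hData M γ).a < M := lt_of_le_of_ne hale hcon
    obtain ⟨p, hp, hl⟩ := EA_jMA_lead M γ
    have hlt' : -((M : ℤ) ^ 2) < -(((hData M γ).a : ℤ) ^ 2) := by
      have h1 : ((hData M γ).a : ℤ) < (M : ℤ) := by exact_mod_cast hlt
      have h0 : (0 : ℤ) ≤ ((hData M γ).a : ℤ) := Int.natCast_nonneg _
      nlinarith
    have hc : (EA (Gamma M) M γ (jMA M)).coeff (-((M : ℤ) ^ 2)) = 0 := by
      rw [hl]
      exact helper81.coeff_single_mul_ofPowerSeries_of_lt _ _ _ hlt'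
    apply hne
    have hES : (ES (Gamma M) M S γ (jMB M S hζ)).coeff (-((M : ℤ) ^ 2)) = 0 := by
      apply Subtype.ext
      rw [ES_coeff]
      exact hc
    rw [EB_coeff, hES, map_zero]
  apply mem_Gamma0_of_dvd_lower
  have h1 : M ∣ (γ 1 0).natAbs := by
    have h2 := (hData M γ).hgcd
    rw [haM] at h2
    have := Nat.gcd_dvd_right M (γ 1 0).natAbs
    rwa [← h2] at this
  exact Int.natCast_dvd.mpr h1

/-! ### the modular equation -/

/-- the expansion of `j_M` at the identity is the expansion of `Θ` at `i₀` -/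
theorem EA_one_jMA : EA (Gamma M) M 1 (jMA M) = EI M (i0 M) (JdG M M) := by
  haveI hMM : NeZero (M * M) := ⟨Nat.mul_ne_zero (NeZero.ne M) (NeZero.ne M)⟩
  rw [EI_i0_JdG M M dvd_rfl hMM]
  apply EA_eq
  have e : (fun τ : ℍ => ((jMA M : GA (Gamma M) M) : ℍ → ℂ) ((1 : SL(2, ℤ)) • τ)) =
      jfunD M := by
    funext τ
    rw [one_smul]
    rfl
  rw [e]
  exact hasExp_jfunD M M hMM

theorem exists_modEq (hζ : zetaC M ∈ S) (hM : (M : ℂ)⁻¹ ∈ S)
    (hr : Function.Surjective r) (hMk : (M : k) ≠ 0) :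
    ∃ F : Polynomial (Polynomial S),
      F.eval₂ (polyB (Gamma M) M S) (jMB M S hζ) = 0 ∧
      (F.map (Polynomial.mapRingHom r)).Monic ∧
      Irreducible (F.map (Polynomial.mapRingHom r)) := by
  classical
  let D := conjD M
  have hmemΘ : ∀ i n, (D.E i (D.Jd M)).coeff n ∈ S := fun i n =>
    ((D.hS S hζ hM i n).2 M dvd_rfl).1
  obtain ⟨P, hPc, hP⟩ := D.hchar S (D.Jd M) hmemΘ
  obtain ⟨Q, hQ⟩ := helper81.exists_lift_poly₂ S P hPc
  have hirr : Irreducible (Q.map (Polynomial.mapRingHom r)) :=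
    D.irreducible_reduction S hζ hM r hr hMk Q (by rw [hQ]; exact hP)
  have hinj : Function.Injective
      ((aeval (helper81.xC M) : Polynomial ℂ →ₐ[ℂ] LaurentSeries ℂ) :
        Polynomial ℂ →+* LaurentSeries ℂ) :=
    helper93.aeval_injective_of_order_neg (helper81.xC M) (helper81.xC_order_neg M)
  have hmonic' : (∏ i, (X - C (D.E i (D.Jd M)))).Monic :=
    Polynomial.monic_prod_of_monic _ _ (fun i _ => Polynomial.monic_X_sub_C _)
  have hmonicP : P.Monic := by
    apply Polynomial.monic_of_injective hinj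
    rw [← hP]
    exact hmonic'
  have hinjS : Function.Injective (Polynomial.mapRingHom S.subtype) :=
    Polynomial.map_injective _ Subtype.val_injective
  have hmonicQ : Q.Monic := by
    apply Polynomial.monic_of_injective hinjS
    rw [hQ]
    exact hmonicP
  refine ⟨Q, ?_, hmonicQ.map _, hirr⟩
  -- the root
  let φ : BS (Gamma M) M S →+* LaurentSeries ℂ :=
    ((EA (Gamma M) M 1 : GA (Gamma M) M →ₐ[ℂ] LaurentSeries ℂ) :
      GA (Gamma M) M →+* LaurentSeries ℂ).comp (BS (Gamma M) M S).subtype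
  have hφinj : Function.Injective φ := by
    intro a b hab
    apply Subtype.ext
    exact EA_one_injective (Gamma M) M hab
  apply hφinj
  rw [map_zero, Polynomial.hom_eval₂]
  have hcomp : φ.comp (polyB (Gamma M) M S) =
      ((aeval (helper81.xC M) : Polynomial ℂ →ₐ[ℂ] LaurentSeries ℂ) :
        Polynomial ℂ →+* LaurentSeries ℂ).comp (Polynomial.mapRingHom S.subtype) := by
    apply RingHom.ext
    intro R
    exact EA_polyB (Gamma M) M S 1 R
  rw [hcomp, ← Polynomial.eval₂_map, hQ, ← Polynomial.eval_map, ← hP, Polynomial.eval_prod]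
  apply Finset.prod_eq_zero (Finset.mem_univ D.i₀)
  rw [Polynomial.eval_sub, Polynomial.eval_X, Polynomial.eval_C, sub_eq_zero]
  exact EA_one_jMA M

/-! ### the statement -/

/-- **[IG-JM]** the pivot `j_M`, for every subring `S ∋ ζ_M, 1/M` and every surjective
`r : S →+* k` onto a field in which `M ≠ 0`. -/
theorem pivotJM (hζ : zetaC M ∈ S) (hM : (M : ℂ)⁻¹ ∈ S)
    (hr : Function.Surjective r) (hMk : (M : k) ≠ 0) :
    PivotJMStatement M S r :=
  ⟨jMB M S hζ, coe_jMB M S hζ, fun γ hγ => trB_jMB M S hζ hγ,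
    fun γ h => mem_Gamma0_of_EB_eq M S r hζ γ h, exists_modEq M S r hζ hM hr hMk⟩

end Fermat.Agent.T4.helper1
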