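import Mathlib
import Fermat.Agent.T4.helper1_PivotJM
import Fermat.Agent.P2.helper81_ValBase

/-!
# T4 block (I), [IGUSA1] route A, leaf [IG-JM] (helper1): the instance `(subringC A, rhoC A)`

`pivotJM_A M A hA hℓM : helper4.Ig.PivotJMStatement M (subringC A) (rhoC A)` for every valuation
subring `A` of `ℚ̄` lying over a prime `ℓ ∤ M`.
-/

set_option autoImplicit false
set_option linter.unusedSectionVars false
set_option linter.style.haveILetI false

noncomputable section

namespace Fermat.Agent.T4.helper1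

open Fermat.Agent.S24 Fermat.Agent.P2.helper81

theorem natCast_residue_ne_zero (A : ValuationSubring Kbar) {ℓ : ℕ} [Fact ℓ.Prime]
    (hA : A.LiesOverPrime ℓ) (M : ℕ) (hℓM : ¬ ℓ ∣ M) : ((M : ℕ) : kA A) ≠ 0 := by
  have hu := isUnit_natCast_of_not_dvd A hA M hℓM
  have h := (IsLocalRing.residue A).isUnit_map hu
  rw [map_natCast] at h
  exact h.ne_zero

/-- **[IG-JM]** at `(subringC A, rhoC A)`, `A` over `ℓ ∤ M`. -/
theorem pivotJM_A (M : ℕ) [NeZero M] (A : ValuationSubring Kbar) {ℓ : ℕ} [Fact ℓ.Prime]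
    (hA : A.LiesOverPrime ℓ) (hℓM : ¬ ℓ ∣ M) :
    Fermat.Agent.T4.helper4.Ig.PivotJMStatement M (subringC A) (rhoC A) :=
  pivotJM M (subringC A) (rhoC A) (zetaC_mem_subringC A M)
    (natCast_inv_mem_subringC A hA M hℓM) (rhoC_surjective A)
    (natCast_residue_ne_zero A hA M hℓM)

end Fermat.Agent.T4.helper1
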