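import Fermat.Agent.T4.helper1_TateGen
import Fermat.Agent.P3.helper57_EigenAbs

/-!
# T4 (I) [I-TATE-GEN] (helper1): the fibre of a generic Tate datum at a field-valued point

For a generic Tate datum `D : GenTateDatum p ι 𝕋 gen U E`, a field `k` of characteristic `p` and
a ring homomorphism `π : 𝕋 →+* k`, the fibre `V = k ⊗[𝔸] Λ` is a nonzero finite-dimensional
`k`-vector space with an action `ρ` of `G_ℚ` which is trivial on `Gal(ℚ̄/L)` for a number field
`L`, trivial on `U`, and satisfies
`ρ(φ)² - π(gen i) ρ(φ) + c π(gen j) = 0` for `(φ, i, c, j) ∈ E`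
(`GenTateDatum.exists_fibre`).
-/

set_option autoImplicit false
set_option linter.unusedSectionVars false
set_option linter.style.haveILetI false

open TensorProduct

noncomputable section

namespace Fermat.Agent.T4.helper1

variable {p : ℕ} [Fact p.Prime] {ι : Type} {𝕋 : Type} [CommRing 𝕋] {gen : ι → 𝕋}
  {U : Set GalQ} {E : Set (GalQ × ι × ℤ × ι)} (D : GenTateDatum p ι 𝕋 gen U E)

namespace GenTateDatum

/-- the Galois action on the Tate module by `𝔸`-linear maps -/
def rEnd : GalQ →* Module.End D.𝔸 D.Λ where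
  toFun g :=
    { toFun := D.r g
      map_add' := fun v w => map_add _ v w
      map_smul' := fun a v => D.r_smul g a v }
  map_one' := by
    refine LinearMap.ext fun v => ?_
    change D.r 1 v = v
    rw [map_one]
    rfl
  map_mul' g h := by
    refine LinearMap.ext fun v => ?_
    change D.r (g * h) v = D.r g (D.r h v)
    rw [map_mul]
    rfl

@[simp] lemma rEnd_apply (g : GalQ) (v : D.Λ) : D.rEnd g v = D.r g v := rfl

lemma finite_over : Module.Finite D.𝔸 D.Λ :=
  Module.Finite.of_restrictScalars_finite ℤ_[p] D.𝔸 D.Λ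

/-- evaluation of polynomials at the generators of `𝔸` -/
def polyEval : MvPolynomial ι ℤ_[p] →ₐ[ℤ_[p]] D.𝔸 := MvPolynomial.aeval D.τ

lemma polyEval_surjective : Function.Surjective D.polyEval := by
  rw [← AlgHom.range_eq_top]
  unfold polyEval
  rw [← Algebra.adjoin_range_eq_range_aeval]
  exact D.adjoin_τ

/-- evaluation of polynomials at the `π (gen i)` -/
def genEval (R : Type) [CommRing R] [Algebra ℤ_[p] R] (π : 𝕋 →+* R) :
    MvPolynomial ι ℤ_[p] →ₐ[ℤ_[p]] R :=
  MvPolynomial.aeval (fun i => π (gen i))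

lemma ker_polyEval_le (R : Type) [CommRing R] [Algebra ℤ_[p] R] (π : 𝕋 →+* R) :
    RingHom.ker D.polyEval.toRingHom ≤ RingHom.ker (genEval (p := p) (gen := gen) R π).toRingHom := by
  intro P hP
  rw [RingHom.mem_ker] at hP ⊢
  exact D.faithful R π P hP

/-- the character `Θ : 𝔸 → R` attached to `π : 𝕋 → R` -/
def theta (R : Type) [CommRing R] [Algebra ℤ_[p] R] (π : 𝕋 →+* R) : D.𝔸 →ₐ[ℤ_[p]] R :=
  AlgHom.liftOfSurjective D.polyEval D.polyEval_surjective (genEval R π)
    (D.ker_polyEval_le R π)

lemma theta_τ (R : Type) [CommRing R] [Algebra ℤ_[p] R] (π : 𝕋 →+* R) (i : ι) :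
    D.theta R π (D.τ i) = π (gen i) := by
  have h := AlgHom.liftOfSurjective_apply D.polyEval D.polyEval_surjective
    (genEval R π) (D.ker_polyEval_le R π) (MvPolynomial.X i)
  have e1 : D.polyEval (MvPolynomial.X i) = D.τ i := MvPolynomial.aeval_X _ _
  have e2 : genEval (p := p) (gen := gen) R π (MvPolynomial.X i) = π (gen i) := MvPolynomial.aeval_X _ _
  rw [e1, e2] at h
  exact h

end GenTateDatum

/-- The `ℤ_p`-algebra structure of a field of characteristic `p`. -/
def zpToCharP (p : ℕ) [Fact p.Prime] (k : Type) [Field k] [CharP k p] : ℤ_[p] →+* k :=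
  (ZMod.castHom (dvd_refl p) k).comp PadicInt.toZMod

theorem zpToCharP_p (p : ℕ) [Fact p.Prime] (k : Type) [Field k] [CharP k p] :
    zpToCharP p k (p : ℤ_[p]) = 0 := by
  rw [map_natCast]
  exact CharP.cast_eq_zero k p

section Fibre

variable {A : Type*} [CommRing A] {M : Type*} [AddCommGroup M] [Module A M]
  (k : Type*) [Field k] [Algebra A k]

theorem baseChange_quadratic (f : Module.End A M) (a b : A)
    (h : ∀ v : M, f (f v) - a • f v + b • v = 0) :
    Module.End.baseChangeHom A k M f * Module.End.baseChangeHom A k M f -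
      algebraMap A k a • Module.End.baseChangeHom A k M f +
      algebraMap A k b • (1 : Module.End k (k ⊗[A] M)) = 0 := by
  have e : f * f - a • f + b • (1 : Module.End A M) = 0 :=
    LinearMap.ext fun v => by
      simpa using h v
  have e2 := congrArg (Module.End.baseChangeHom A k M) e
  rw [map_add, map_sub, map_mul, map_smul, map_smul, map_one, map_zero] at e2
  rw [← e2, algebraMap_smul, algebraMap_smul]

theorem baseChange_eq_one_of_sub_mem (I : Ideal A) (hI : ∀ a ∈ I, algebraMap A k a = 0)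
    (f : Module.End A M) (h : ∀ v : M, f v - v ∈ I • (⊤ : Submodule A M)) :
    Module.End.baseChangeHom A k M f = 1 := by
  have key : ∀ w ∈ I • (⊤ : Submodule A M), ∀ c : k, c ⊗ₜ[A] w = 0 := by
    intro w hw c
    induction hw using Submodule.smul_induction_on' with
    | smul a ha v _ =>
      rw [TensorProduct.tmul_smul, TensorProduct.smul_tmul', Algebra.smul_def, hI a ha,
        zero_mul, TensorProduct.zero_tmul]
    | add x _ y _ hx hy => rw [TensorProduct.tmul_add, hx, hy, add_zero]
  refine LinearMap.ext fun x => ?_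
  induction x using TensorProduct.induction_on with
  | zero => simp
  | tmul c v =>
    change c ⊗ₜ[A] f v = c ⊗ₜ[A] v
    have := key _ (h v) c
    rw [TensorProduct.tmul_sub, sub_eq_zero] at this
    exact this
  | add x y hx hy => rw [map_add, hx, hy, map_add]

end Fibre

/-- **The fibre of a generic Tate datum** at a point `π : 𝕋 → k` with values in a field of
characteristic `p`. -/
theorem GenTateDatum.exists_fibre (D : GenTateDatum p ι 𝕋 gen U E)
    (k : Type) [Field k] [CharP k p] (π : 𝕋 →+* k) :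
    ∃ (V : Type) (_ : AddCommGroup V) (_ : Module k V) (_ : Module.Finite k V)
      (_ : Nontrivial V) (ρ : GalQ →* Module.End k V),
      (∃ L : IntermediateField ℚ (AlgebraicClosure ℚ), FiniteDimensional ℚ L ∧
          ∀ σ : GalQ, (∀ x ∈ L, σ x = x) → ρ σ = 1) ∧
      (∀ σ ∈ U, ρ σ = 1) ∧
      (∀ e ∈ E, ρ e.1 * ρ e.1 - π (gen e.2.1) • ρ e.1 +
          ((e.2.2.1 : k) * π (gen e.2.2.2)) • (1 : Module.End k V) = 0) := by
  letI : Algebra ℤ_[p] k := (zpToCharP p k).toAlgebra
  letI : Algebra D.𝔸 k := (D.theta k π).toRingHom.toAlgebra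
  haveI : Module.Finite D.𝔸 D.Λ := D.finite_over
  have halg : ∀ a : D.𝔸, algebraMap D.𝔸 k a = D.theta k π a := fun _ => rfl
  refine ⟨k ⊗[D.𝔸] D.Λ, inferInstance, inferInstance, inferInstance,
    Fermat.Agent.P3.helper57.nontrivial_tensor_field_of_faithful D.smul_faithful k,
    (Module.End.baseChangeHom D.𝔸 k D.Λ).toMonoidHom.comp D.rEnd, ?_, ?_, ?_⟩
  · obtain ⟨L, hL, h⟩ := D.isAdicContinuous 1
    refine ⟨L, hL, fun σ hσ => ?_⟩
    rw [MonoidHom.comp_apply]
    refine baseChange_eq_one_of_sub_mem k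
      ((IsLocalRing.maximalIdeal ℤ_[p]).map (algebraMap ℤ_[p] D.𝔸)) ?_ (D.rEnd σ) ?_
    · intro a ha
      induction ha using Submodule.span_induction with
      | mem x hx =>
        obtain ⟨b, hb, rfl⟩ := hx
        rw [halg, AlgHom.commutes]
        have hb' : b ∈ IsLocalRing.maximalIdeal ℤ_[p] := hb
        rw [PadicInt.maximalIdeal_eq_span_p, Ideal.mem_span_singleton] at hb'
        obtain ⟨c, rfl⟩ := hb'
        change zpToCharP p k ((p : ℤ_[p]) * c) = 0
        rw [map_mul, zpToCharP_p, zero_mul]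
      | zero => exact map_zero _
      | add x y _ _ hx hy => rw [map_add, hx, hy, add_zero]
      | smul a x _ hx => rw [smul_eq_mul, map_mul, hx, mul_zero]
    · intro v
      have h1 := h σ hσ v
      rw [pow_one] at h1
      rw [GenTateDatum.rEnd_apply]
      have key : ∀ w ∈ (IsLocalRing.maximalIdeal ℤ_[p]) • (⊤ : Submodule ℤ_[p] D.Λ),
          w ∈ ((IsLocalRing.maximalIdeal ℤ_[p]).map (algebraMap ℤ_[p] D.𝔸)) •
            (⊤ : Submodule D.𝔸 D.Λ) := by
        intro w hw
        induction hw using Submodule.smul_induction_on' with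
        | smul a ha w _ =>
          rw [← algebraMap_smul D.𝔸 a w]
          exact Submodule.smul_mem_smul (Ideal.mem_map_of_mem _ ha) Submodule.mem_top
        | add x _ y _ hx hy => exact Submodule.add_mem _ hx hy
      exact key _ h1
  · intro σ hσ
    rw [MonoidHom.comp_apply]
    have h1 : D.rEnd σ = 1 := by
      refine LinearMap.ext fun v => ?_
      change D.r σ v = v
      rw [D.unramified σ hσ]
      rfl
    rw [h1, map_one]
  · intro e he
    rw [MonoidHom.comp_apply]
    have h := D.frobenius e he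
    have h' : ∀ v : D.Λ, D.rEnd e.1 (D.rEnd e.1 v) - D.τ e.2.1 • D.rEnd e.1 v +
        (algebraMap ℤ_[p] D.𝔸 (e.2.2.1 : ℤ_[p]) * D.τ e.2.2.2) • v = 0 := by
      intro v
      have := h v
      rw [mul_smul, algebraMap_smul]
      exact this
    have h2 := baseChange_quadratic k (D.rEnd e.1) (D.τ e.2.1)
      (algebraMap ℤ_[p] D.𝔸 (e.2.2.1 : ℤ_[p]) * D.τ e.2.2.2) h'
    rw [halg, halg, D.theta_τ, map_mul, D.theta_τ, AlgHom.commutes] at h2
    have e3 : algebraMap ℤ_[p] k ((e.2.2.1 : ℤ) : ℤ_[p]) = ((e.2.2.1 : ℤ) : k) := map_intCast _ _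
    rw [e3] at h2
    exact h2

end Fermat.Agent.T4.helper1

end
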