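import Mathlib
import Fermat.Prelude.Def_GaloisRep_Adic
import Fermat.Agent.P3.helper1_TateModel
import Fermat.Agent.P3.helper1_TateFaith
import Fermat.Agent.P3.helper44_Tate1Model

/-!
# T4 (I) [I-TATE-GEN] (helper1): the generic Tate assembly

A port of the P3 Tate assembly in which everything specific to `Γ₀` is abstracted:

* `J` : an additive group with an action of `G_ℚ` (the `ℚ̄`-points of a Jacobian);
* `op : ι → J →+ J` : a family of additive endomorphisms (Hecke operators and diamonds);
* `𝕋` : a commutative ring with elements `gen : ι → 𝕋` (the Hecke algebra of cusp forms);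
* `U : Set G_ℚ` : elements acting trivially on the `p`-power torsion (inertia at good primes);
* `E : Set (G_ℚ × ι × ℤ × ι)` : quadruples `(φ, i, c, j)` with
  `φ² - op_i φ + c op_j = 0` on the `p`-power torsion (Eichler-Shimura at Frobenius lifts).

`genTateAssembly` produces a `GenTateDatum p ι 𝕋 gen U E` from hypotheses on the `p`-power
torsion of `J` only and a `κ`-package (`GenKappa`).
-/

set_option autoImplicit false
set_option linter.unusedSectionVars false
set_option linter.style.haveILetI false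

noncomputable section

namespace Fermat.Agent.T4.helper1

open Fermat.Agent.P3.helper1 (TateModel)

/-- The absolute Galois group of `ℚ` (the same type as `Fermat.Agent.P3.GQ`). -/
abbrev GalQ : Type := AlgebraicClosure ℚ ≃ₐ[ℚ] AlgebraicClosure ℚ

/-! ### Words -/

section Words

variable {ι : Type*}

/-- The operator attached to a word in additive endomorphisms. -/
def genWordEnd {X : Type*} [AddCommGroup X] (T : ι → X →+ X) : List ι → X →+ X
  | [] => AddMonoidHom.id X
  | i :: w => (T i).comp (genWordEnd T w)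

/-- The word attached to a monomial. -/
def genMonoWord (m : ι →₀ ℕ) : List ι := (Finsupp.toMultiset m).toList

theorem genMonoWord_prod {C : Type*} [CommMonoid C] (u : ι → C) (m : ι →₀ ℕ) :
    ((genMonoWord m).map u).prod = m.prod fun i k => u i ^ k := by
  classical
  rw [genMonoWord, ← Multiset.prod_coe, ← Multiset.map_coe, Multiset.coe_toList,
    Finsupp.toMultiset_map, Finsupp.prod_toMultiset,
    Finsupp.prod_mapDomain_index (fun _ => pow_zero _) (fun _ _ _ => pow_add _ _ _)]

theorem genAeval_eq_sum_words {R : Type*} [CommRing R] {C : Type*} [CommRing C] [Algebra R C]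
    (u : ι → C) (P : MvPolynomial ι R) :
    MvPolynomial.aeval u P =
      ∑ m ∈ P.support, algebraMap R C (P.coeff m) * ((genMonoWord m).map u).prod := by
  rw [MvPolynomial.aeval_def, MvPolynomial.eval₂_eq]
  refine Finset.sum_congr rfl fun m _ => ?_
  rw [genMonoWord_prod]
  rfl

end Words

/-! ### The generic Tate datum -/

/-- **The generic Tate datum**: a finite free `ℤ_p`-module `Λ` with an adic-continuous action `r`
of `G_ℚ` and a commutative `ℤ_p`-algebra `𝔸` of `G_ℚ`-equivariant endomorphisms generated by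
elements `τ i`, such that
* every `σ ∈ U` acts trivially,
* for `(φ, i, c, j) ∈ E`: `φ² - τ_i φ + c τ_j = 0` on `Λ`,
* (faithfulness) every polynomial relation between the `τ i` holds between the `π (gen i)` for
  every ring homomorphism `π` from `𝕋` to a `ℤ_p`-algebra. -/
structure GenTateDatum (p : ℕ) [Fact p.Prime] (ι : Type) (𝕋 : Type) [CommRing 𝕋] (gen : ι → 𝕋)
    (U : Set GalQ) (E : Set (GalQ × ι × ℤ × ι)) : Type 1 where
  /-- the Tate module -/
  Λ : Type
  [instAddCommGroup : AddCommGroup Λ]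
  [instModule : Module ℤ_[p] Λ]
  [instFree : Module.Free ℤ_[p] Λ]
  [instFinite : Module.Finite ℤ_[p] Λ]
  /-- the Hecke algebra acting on the Tate module -/
  𝔸 : Type
  [instCommRing : CommRing 𝔸]
  [instAlgebra : Algebra ℤ_[p] 𝔸]
  [instModule𝔸 : Module 𝔸 Λ]
  [instTower : IsScalarTower ℤ_[p] 𝔸 Λ]
  /-- the Galois action -/
  r : GalQ →* Module.End ℤ_[p] Λ
  /-- the generators of the Hecke algebra -/
  τ : ι → 𝔸
  isAdicContinuous : GaloisActionIsAdicContinuous ℤ_[p] r
  smul_faithful : ∀ a : 𝔸, (∀ v : Λ, a • v = 0) → a = 0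
  adjoin_τ : Algebra.adjoin ℤ_[p] (Set.range τ) = ⊤
  r_smul : ∀ (g : GalQ) (a : 𝔸) (v : Λ), r g (a • v) = a • r g v
  unramified : ∀ σ ∈ U, r σ = 1
  frobenius : ∀ e ∈ E, ∀ v : Λ,
    r e.1 (r e.1 v) - τ e.2.1 • r e.1 v + (e.2.2.1 : ℤ_[p]) • τ e.2.2.2 • v = 0
  faithful : ∀ (R : Type) [CommRing R] [Algebra ℤ_[p] R] (π : 𝕋 →+* R)
    (P : MvPolynomial ι ℤ_[p]),
      MvPolynomial.aeval τ P = 0 → MvPolynomial.aeval (fun i => π (gen i)) P = 0

attribute [instance] GenTateDatum.instAddCommGroup GenTateDatum.instModule GenTateDatum.instFree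
  GenTateDatum.instFinite GenTateDatum.instCommRing GenTateDatum.instAlgebra
  GenTateDatum.instModule𝔸 GenTateDatum.instTower

/-- **The `κ`-package**: a finite free `ℤ`-module `X` with operators `Tst i`, and for every `n` a
homomorphism `κ n : X → J[p^n]` with kernel `p^n X`, equivariant for the operators, compatible
with the transition maps, such that the integer relations between the words in the `Tst i` on `X`
hold between the words in the `gen i` in `𝕋`. -/
def GenKappa (p : ℕ) {J : Type} [AddCommGroup J] {ι : Type} (op : ι → J →+ J)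
    {𝕋 : Type} [CommRing 𝕋] (gen : ι → 𝕋) : Prop :=
  ∃ (X : Type) (_ : AddCommGroup X) (_ : Module.Free ℤ X) (_ : Module.Finite ℤ X)
    (Tst : ι → X →+ X) (κ : ∀ _ : ℕ, X →+ J),
    (∀ (n : ℕ) (x : X), p ^ n • κ n x = 0) ∧
    (∀ (n : ℕ) (x : X), κ n x = 0 → ∃ y : X, x = p ^ n • y) ∧
    (∀ (n : ℕ) (x : X), p • κ (n + 1) x = κ n x) ∧
    (∀ (n : ℕ) (i : ι) (x : X), κ n (Tst i x) = op i (κ n x)) ∧
    (∀ c : List ι →₀ ℤ,
      (∀ x : X, (c.sum fun w a => a • genWordEnd Tst w x) = 0) →
        (c.sum fun w a => a • (w.map gen).prod) = 0)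

/-- The hypotheses of the generic Tate assembly on the `p`-power torsion of `J`. -/
structure GenTateInput (p : ℕ) {J : Type} [AddCommGroup J] [DistribMulAction GalQ J]
    {ι : Type} (op : ι → J →+ J) (U : Set GalQ) (E : Set (GalQ × ι × ℤ × ι)) : Prop where
  op_comm : ∀ (i j : ι) (x : J), (∃ n : ℕ, p ^ n • x = 0) → op i (op j x) = op j (op i x)
  op_gal : ∀ (i : ι) (g : GalQ) (x : J), (∃ n : ℕ, p ^ n • x = 0) → op i (g • x) = g • op i x
  continuity : ∀ x : J, (∃ n : ℕ, p ^ n • x = 0) →
    ∃ K : IntermediateField ℚ (AlgebraicClosure ℚ), FiniteDimensional ℚ K ∧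
      ∀ σ : GalQ, (∀ y ∈ K, σ y = y) → σ • x = x
  finite_torsion : Finite (nsmulAddMonoidHom (α := J) (p ^ 1)).ker
  unramified : ∀ σ ∈ U, ∀ x : J, (∃ n : ℕ, p ^ n • x = 0) → σ • x = x
  frobenius : ∀ e ∈ E, ∀ x : J, (∃ n : ℕ, p ^ n • x = 0) →
    e.1 • e.1 • x - op e.2.1 (e.1 • x) + e.2.2.1 • op e.2.2.2 x = 0

/-! ### The operators on the Tate module -/

section Operators

variable {p : ℕ} [Fact p.Prime] {J : Type} [AddCommGroup J] [DistribMulAction GalQ J]
  {ι : Type} (op : ι → J →+ J) (T : TateModel p J)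

/-- The operator `op i` on the Tate module. -/
def gTauEnd (i : ι) : Module.End ℤ_[p] T.Λ := T.map (op i)

@[simp]
theorem proj_gTauEnd (i : ι) (n : ℕ) (v : T.Λ) :
    T.proj n (gTauEnd op T i v) = op i (T.proj n v) := by
  rw [gTauEnd, TateModel.proj_map]

/-- The Galois action on the Tate module. -/
def gGalRep : GalQ →* Module.End ℤ_[p] T.Λ := T.action

@[simp]
theorem proj_gGalRep (g : GalQ) (n : ℕ) (v : T.Λ) :
    T.proj n (gGalRep T g v) = g • T.proj n v :=
  T.proj_action g n v

theorem gIsPTors_proj (n : ℕ) (v : T.Λ) : ∃ k : ℕ, p ^ k • T.proj n v = 0 :=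
  ⟨n, T.pow_smul_proj n v⟩

/-- The generators of the Hecke algebra of the Tate module. -/
def gTauSet : Set (Module.End ℤ_[p] T.Λ) := Set.range fun i : ι => gTauEnd op T i

variable {U : Set GalQ} {E : Set (GalQ × ι × ℤ × ι)}

theorem gTauEnd_comm (hI : GenTateInput p op U E) (i j : ι) :
    gTauEnd op T i * gTauEnd op T j = gTauEnd op T j * gTauEnd op T i := by
  refine LinearMap.ext fun v => T.ext_proj fun n => ?_
  rw [Module.End.mul_apply, Module.End.mul_apply, proj_gTauEnd, proj_gTauEnd, proj_gTauEnd,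
    proj_gTauEnd]
  exact hI.op_comm i j _ (gIsPTors_proj T n v)

theorem gTauSet_comm (hI : GenTateInput p op U E) :
    ∀ a ∈ gTauSet op T, ∀ b ∈ gTauSet op T, a * b = b * a := by
  rintro _ ⟨i, rfl⟩ _ ⟨j, rfl⟩
  exact gTauEnd_comm op T hI i j

theorem gTauEnd_galRep (hI : GenTateInput p op U E) (i : ι) (g : GalQ) (v : T.Λ) :
    gGalRep T g (gTauEnd op T i v) = gTauEnd op T i (gGalRep T g v) := by
  refine T.ext_proj fun n => ?_
  rw [proj_gGalRep, proj_gTauEnd, proj_gTauEnd, proj_gGalRep,
    hI.op_gal i g _ (gIsPTors_proj T n v)]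

/-- The Hecke algebra of the Tate module. -/
def gHeckeSub : Subalgebra ℤ_[p] (Module.End ℤ_[p] T.Λ) := Algebra.adjoin ℤ_[p] (gTauSet op T)

theorem gGalRep_heckeSub (hI : GenTateInput p op U E) (g : GalQ) (a : gHeckeSub op T)
    (v : T.Λ) : gGalRep T g (a • v) = a • gGalRep T g v := by
  have key : ∀ b ∈ gHeckeSub op T, gGalRep T g * b = b * gGalRep T g := by
    intro b hb
    induction hb using Algebra.adjoin_induction with
    | mem x hx =>
      obtain ⟨i, rfl⟩ := hx
      exact LinearMap.ext fun w => gTauEnd_galRep op T hI i g w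
    | algebraMap r =>
      exact ((Algebra.commutes r (gGalRep T g)).symm)
    | add x y _ _ hx hy => rw [mul_add, add_mul, hx, hy]
    | mul x y _ _ hx hy => rw [← mul_assoc, hx, mul_assoc, hy, mul_assoc]
  exact LinearMap.congr_fun (key a a.2) v

theorem gGalRep_isAdicContinuous (hI : GenTateInput p op U E) :
    GaloisActionIsAdicContinuous ℤ_[p] (gGalRep T) := by
  intro n
  haveI := Fermat.Agent.P3.helper44.finite_torsion_pow p J hI.finite_torsion n
  have hC : ∀ x : (nsmulAddMonoidHom (α := J) (p ^ n)).ker,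
      ∃ K : IntermediateField ℚ (AlgebraicClosure ℚ), FiniteDimensional ℚ K ∧
        ∀ σ : GalQ, (∀ y ∈ K, σ y = y) → σ • (x : J) = x := fun x =>
    hI.continuity x ⟨n, by
      have := x.2
      rwa [AddMonoidHom.mem_ker, nsmulAddMonoidHom_apply] at this⟩
  choose K hK1 hK2 using hC
  let L : IntermediateField ℚ (AlgebraicClosure ℚ) := ⨆ x, K x
  haveI : ∀ x, FiniteDimensional ℚ (K x) := fun x => hK1 x
  refine ⟨L, IntermediateField.finiteDimensional_iSup_of_finite, fun σ hσ v => ?_⟩
  apply T.mem_smul_top_of_proj_eq_zero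
  rw [map_sub, proj_gGalRep, sub_eq_zero]
  have hmem : T.proj n v ∈ (nsmulAddMonoidHom (α := J) (p ^ n)).ker := by
    rw [AddMonoidHom.mem_ker, nsmulAddMonoidHom_apply]
    exact T.pow_smul_proj n v
  exact hK2 ⟨T.proj n v, hmem⟩ σ fun y hy => hσ y (le_iSup K ⟨T.proj n v, hmem⟩ hy)

theorem gGalRep_unramified (hI : GenTateInput p op U E) (σ : GalQ) (hσ : σ ∈ U) :
    gGalRep T σ = 1 := by
  refine LinearMap.ext fun v => T.ext_proj fun n => ?_
  rw [proj_gGalRep, Module.End.one_apply]
  exact hI.unramified σ hσ _ (gIsPTors_proj T n v)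

theorem gGalRep_frobenius (hI : GenTateInput p op U E) (e : GalQ × ι × ℤ × ι) (he : e ∈ E)
    (v : T.Λ) :
    gGalRep T e.1 (gGalRep T e.1 v) - gTauEnd op T e.2.1 (gGalRep T e.1 v) +
      (e.2.2.1 : ℤ_[p]) • gTauEnd op T e.2.2.2 v = 0 := by
  refine T.ext_proj fun n => ?_
  rw [map_add, map_sub, proj_gGalRep, proj_gGalRep, proj_gTauEnd, proj_gGalRep,
    T.proj_intCast_smul, proj_gTauEnd, map_zero]
  exact hI.frobenius e he _ (gIsPTors_proj T n v)

end Operators

/-! ### Faithfulness -/

section Faithful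

variable {p : ℕ} [Fact p.Prime] {J : Type} [AddCommGroup J] [DistribMulAction GalQ J]
  {ι : Type} (op : ι → J →+ J) (T : TateModel p J)
  {𝕋 : Type} [CommRing 𝕋] (gen : ι → 𝕋)
  {X : Type} [AddCommGroup X]
  (Tst : ι → X →+ X) (κ : ∀ _ : ℕ, X →+ J)
  (h1 : ∀ (n : ℕ) (x : X), p ^ n • κ n x = 0)
  (h2 : ∀ (n : ℕ) (x : X), κ n x = 0 → ∃ y : X, x = p ^ n • y)
  (h3 : ∀ (n : ℕ) (x : X), p • κ (n + 1) x = κ n x)
  (h4 : ∀ (n : ℕ) (i : ι) (x : X), κ n (Tst i x) = op i (κ n x))

include h4 in
theorem gLift_tst (i : ι) (x : X) :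
    T.lift κ h1 h3 (Tst i x) = gTauEnd op T i (T.lift κ h1 h3 x) := by
  refine T.ext_proj fun n => ?_
  rw [TateModel.proj_lift, proj_gTauEnd, TateModel.proj_lift, h4]

include h4 in
theorem gLift_word (w : List ι) (x : X) :
    T.lift κ h1 h3 (genWordEnd Tst w x) =
      (w.map fun i => gTauEnd op T i).prod (T.lift κ h1 h3 x) := by
  induction w with
  | nil => simp [genWordEnd]
  | cons i w ih =>
    rw [List.map_cons, List.prod_cons, Module.End.mul_apply, ← ih]
    exact gLift_tst op T Tst κ h1 h3 h4 i _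

include h2 in
theorem gLift_mod_p (x : X) (h : ∃ w : T.Λ, T.lift κ h1 h3 x = (p : ℤ_[p]) • w) :
    ∃ y : X, x = p • y := by
  obtain ⟨w, hw⟩ := h
  have h0 : κ 1 x = 0 := by
    rw [← TateModel.proj_lift T κ h1 h3 1 x, hw]
    have := T.proj_pow_smul 1 w
    rwa [pow_one] at this
  obtain ⟨y, hy⟩ := h2 1 x h0
  exact ⟨y, by rw [hy, pow_one]⟩

variable [Module.Free ℤ X] [Module.Finite ℤ X]

include h1 h2 h3 h4 in
/-- **Faithfulness**: a `ℤ_p`-polynomial relation between the operators on the Tate module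
holds for the images of the `gen i` in every `ℤ_p`-algebra. -/
theorem gFaithful_of_kappa
    (h5 : ∀ c : List ι →₀ ℤ,
      (∀ x : X, (c.sum fun w a => a • genWordEnd Tst w x) = 0) →
        (c.sum fun w a => a • (w.map gen).prod) = 0)
    (R : Type) [CommRing R] [Algebra ℤ_[p] R] (π : 𝕋 →+* R) (P : MvPolynomial ι ℤ_[p])
    (hP : ∀ v : T.Λ, ∑ m ∈ P.support,
      P.coeff m • ((genMonoWord m).map fun i => gTauEnd op T i).prod v = 0) :
    MvPolynomial.aeval (fun i => π (gen i)) P = 0 := by
  classical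
  obtain ⟨k, c, b, hc, hb⟩ := Fermat.Agent.P3.helper1.exists_int_relations (p := p)
    (T.lift κ h1 h3) (gLift_mod_p T κ h1 h2 h3) (I := P.support)
    (fun m => genWordEnd Tst (genMonoWord m.1)) (fun m => P.coeff m.1)
    (by
      intro x
      rw [Finset.sum_coe_sort P.support
        (fun m => P.coeff m • T.lift κ h1 h3 (genWordEnd Tst (genMonoWord m) x))]
      rw [← hP (T.lift κ h1 h3 x)]
      refine Finset.sum_congr rfl fun m _ => ?_
      rw [gLift_word op T Tst κ h1 h3 h4])
  -- the integral relations hold in the Hecke algebra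
  have hrel : ∀ j : Fin k, ∑ m : P.support, c j m • ((genMonoWord m.1).map gen).prod = 0 := by
    intro j
    have e1 : ∀ x : X, ((∑ m : P.support, Finsupp.single (genMonoWord m.1) (c j m)).sum
        fun w a => a • genWordEnd Tst w x) = 0 := by
      intro x
      rw [← Finsupp.sum_finsetSum_index
        (h := fun (w : List ι) (a : ℤ) => a • genWordEnd Tst w x)
        (fun w => zero_smul _ _) (fun w a a' => add_smul _ _ _)]
      rw [← hc j x]
      refine Finset.sum_congr rfl fun m _ => ?_
      exact Finsupp.sum_single_index (by simp)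
    have e2 := h5 _ e1
    rw [← Finsupp.sum_finsetSum_index
      (h := fun (w : List ι) (a : ℤ) => a • (w.map gen).prod)
      (fun w => zero_smul _ _) (fun w a a' => add_smul _ _ _)] at e2
    rw [← e2]
    refine Finset.sum_congr rfl fun m _ => ?_
    exact (Finsupp.sum_single_index
      (h := fun (w : List ι) (a : ℤ) => a • (w.map gen).prod)
      (zero_smul _ _)).symm
  rw [genAeval_eq_sum_words, ← Finset.sum_coe_sort P.support
    (fun m => algebraMap ℤ_[p] R (P.coeff m) * ((genMonoWord m).map fun i => π (gen i)).prod)]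
  have e3 : ∀ m : P.support, ((genMonoWord m.1).map fun i => π (gen i)).prod =
      π ((genMonoWord m.1).map gen).prod := by
    intro m
    rw [map_list_prod, List.map_map]
    rfl
  calc ∑ m : P.support, algebraMap ℤ_[p] R (P.coeff m.1) *
        ((genMonoWord m.1).map fun i => π (gen i)).prod
      = ∑ m : P.support, ∑ j, algebraMap ℤ_[p] R (b j) *
          ((c j m : R) * π ((genMonoWord m.1).map gen).prod) := by
        refine Finset.sum_congr rfl fun m _ => ?_
        rw [e3 m, hb m, map_sum, Finset.sum_mul]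
        refine Finset.sum_congr rfl fun j _ => ?_
        rw [map_mul, map_intCast, mul_assoc]
    _ = ∑ j, algebraMap ℤ_[p] R (b j) *
          π (∑ m : P.support, c j m • ((genMonoWord m.1).map gen).prod) := by
        rw [Finset.sum_comm]
        refine Finset.sum_congr rfl fun j _ => ?_
        rw [map_sum, Finset.mul_sum]
        refine Finset.sum_congr rfl fun m _ => ?_
        rw [map_zsmul, zsmul_eq_mul]
    _ = 0 := by
        refine Finset.sum_eq_zero fun j _ => ?_
        rw [hrel j, map_zero, mul_zero]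

end Faithful

/-! ### The assembly -/

section Assembly

variable {p : ℕ} [Fact p.Prime] {J : Type} [AddCommGroup J] [DistribMulAction GalQ J]
  {ι : Type} (op : ι → J →+ J) (T : TateModel p J)

/-- The generators as elements of the Hecke algebra of the Tate module. -/
def gTauGen (i : ι) : gHeckeSub op T := ⟨gTauEnd op T i, Algebra.subset_adjoin ⟨i, rfl⟩⟩

theorem range_gTauGen :
    Set.range (gTauGen op T) =
      ((↑) : gHeckeSub op T → Module.End ℤ_[p] T.Λ) ⁻¹' gTauSet op T := by
  ext x
  constructor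
  · rintro ⟨i, rfl⟩
    exact ⟨i, rfl⟩
  · rintro ⟨i, hi⟩
    exact ⟨i, Subtype.ext hi⟩

theorem adjoin_gTauGen : Algebra.adjoin ℤ_[p] (Set.range (gTauGen op T)) = ⊤ := by
  rw [range_gTauGen]
  exact Algebra.adjoin_adjoin_coe_preimage

variable {U : Set GalQ} {E : Set (GalQ × ι × ℤ × ι)}

/-- The commutative ring structure on the Hecke algebra of the Tate module. -/
@[reducible] def gHeckeSubCommRing (hI : GenTateInput p op U E) : CommRing (gHeckeSub op T) :=
  { (gHeckeSub op T).toRing with
    mul_comm := fun x y =>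
      (Algebra.isMulCommutative_adjoin ℤ_[p] (gTauSet_comm op T hI)).is_comm.comm x y }

theorem gHeckeSub_smul_faithful (a : gHeckeSub op T) (h : ∀ v : T.Λ, a • v = 0) : a = 0 :=
  Subtype.ext (LinearMap.ext fun v => h v)

theorem coe_list_prod_gTauGen (w : List ι) :
    (((w.map (gTauGen op T)).prod : gHeckeSub op T) : Module.End ℤ_[p] T.Λ) =
      (w.map fun i => gTauEnd op T i).prod := by
  induction w with
  | nil => rfl
  | cons i w ih =>
    rw [List.map_cons, List.map_cons, List.prod_cons, List.prod_cons, ← ih]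
    rfl

end Assembly

/-- **[I-TATE-GEN]** the generic Tate datum from the hypotheses on the `p`-power torsion and the
`κ`-package. -/
theorem genTateAssembly (p : ℕ) [Fact p.Prime] {J : Type} [AddCommGroup J]
    [DistribMulAction GalQ J] {ι : Type} (op : ι → J →+ J)
    {𝕋 : Type} [CommRing 𝕋] (gen : ι → 𝕋) (U : Set GalQ) (E : Set (GalQ × ι × ℤ × ι))
    (hI : GenTateInput p op U E) (hK : GenKappa p op gen) :
    Nonempty (GenTateDatum p ι 𝕋 gen U E) := by
  obtain ⟨X, iX1, iX2, iX3, Tst, κ, h1, h2, h3, h4, h5⟩ := hK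
  let T : TateModel p J := Fermat.Agent.P3.helper44.tateModel p J hI.finite_torsion
  letI : CommRing (gHeckeSub op T) := gHeckeSubCommRing op T hI
  refine ⟨{ Λ := T.Λ
            𝔸 := gHeckeSub op T
            r := gGalRep T
            τ := gTauGen op T
            isAdicContinuous := gGalRep_isAdicContinuous op T hI
            smul_faithful := gHeckeSub_smul_faithful op T
            adjoin_τ := adjoin_gTauGen op T
            r_smul := fun g a v => gGalRep_heckeSub op T hI g a v
            unramified := fun σ hσ => gGalRep_unramified op T hI σ hσ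
            frobenius := fun e he v => gGalRep_frobenius op T hI e he v
            faithful := ?_ }⟩
  intro R _ _ π P hP
  refine gFaithful_of_kappa op T gen Tst κ h1 h2 h3 h4 h5 R π P fun v => ?_
  have h0 : ((MvPolynomial.aeval (gTauGen op T) P : gHeckeSub op T) :
      Module.End ℤ_[p] T.Λ) v = 0 := by
    rw [hP]
    rfl
  rw [genAeval_eq_sum_words] at h0
  rw [← h0]
  rw [AddSubmonoidClass.coe_finset_sum, LinearMap.sum_apply]
  refine Finset.sum_congr rfl fun m _ => ?_
  rw [MulMemClass.coe_mul, coe_list_prod_gTauGen, Module.End.mul_apply]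
  rfl

end Fermat.Agent.T4.helper1

end
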