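import Fermat.Agent.P3.helper20_TwistedU

/-!
# Twisted Eisenstein series and the function `u_ψ` for an arbitrary subgroup of `SL(2, ℤ)`
(T4, row I-AN-TWIST1)

Port of `P3/helper20_TwistedEis` and `P3/helper20_TwistedU` from `Γ₀(N)` to an arbitrary
subgroup `Γ ≤ SL(2, ℤ)` (in particular `Γ₁(M)`, where `-1 ∉ Γ` for `M ≥ 3`).

For a character `ψ : Γ →* ℂˣ` which is trivial on the elements of trace `±2`
(`IsParabolicChar1`) and unitary (`IsUnitaryChar1`):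

* `psiRow1 ψ`: the weight `(ψ γ)⁻¹` on the bottom rows of the `γ ∈ Γ`, zero elsewhere;
* `eisC Γ ∈ {1, 2}`: the number of the vectors `(0, ±1)` which are bottom rows of elements of `Γ`;
* `twistedEis1 k ψ = (eisC Γ)⁻¹ ∑ ψ(γ)⁻¹ (c z + d) ^ (-k)`: holomorphic, multiplier `ψ` under
  `Γ`, all `SL(2, ℤ)`-translates bounded at `i∞` and (if `Γ(M) ≤ Γ`) `M`-periodic, limit `1` at
  `i∞` (for even `k ≥ 4`);
* `twistedU1 ψ = twistedEis1 4 ψ / E₄`: multiplier `ψ` under `Γ`, all translates bounded at `i∞`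
  and `M`-periodic, limit `1` at `i∞`, meromorphic of finite order on the upper half plane;
* `twistedEisPow1`: for `ψ ^ m = 1` and `Γ` of finite index, the power `E_ψ ^ m` as a Mathlib
  modular form of weight `m * k` on `Γ`; `twistedU1_pow_eq`: `u ^ m = E_ψ ^ m / E₄ ^ m`;
* the specialisations to `Γ₁(M)` at the end (`Gamma_le_Gamma1`, `eisC_Gamma1`, `…_Gamma1`).

The `Γ`-independent analysis (weighted Eisenstein series `wEis`, `E₄`) is imported from the two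
P3 files.
-/

noncomputable section

namespace Fermat.Agent.T4.helper20

open UpperHalfPlane EisensteinSeries Matrix ModularForm CongruenceSubgroup Filter Topology
open scoped MatrixGroups Manifold
open Fermat.Agent.P3.helper20

/-! ## The weight attached to a character of `Γ` -/

section Twisted1

variable {Γ : Subgroup SL(2, ℤ)} (ψ : Γ →* ℂˣ) {k : ℤ}

/-- A character of `Γ` is *parabolic* if it is trivial on all elements of trace `±2`
(this includes `-1`, if it is in `Γ`, and all parabolic elements). -/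
def IsParabolicChar1 (ψ : Γ →* ℂˣ) : Prop :=
  ∀ γ : Γ, ((γ : SL(2, ℤ)) : Matrix (Fin 2) (Fin 2) ℤ).trace ^ 2 = 4 → ψ γ = 1

/-- A character of `Γ` is *unitary* if all its values have norm `1`. -/
def IsUnitaryChar1 (ψ : Γ →* ℂˣ) : Prop := ∀ γ : Γ, ‖((ψ γ : ℂˣ) : ℂ)‖ = 1

lemma isParabolicChar1_of_trace_sq_le
    (h : ∀ γ : Γ, ((γ : SL(2, ℤ)) : Matrix (Fin 2) (Fin 2) ℤ).trace ^ 2 ≤ 4 → ψ γ = 1) :
    IsParabolicChar1 ψ := fun γ hγ ↦ h γ hγ.le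

lemma isUnitaryChar1_of_pow_eq_one {m : ℕ} (hm : m ≠ 0) (h : ∀ γ : Γ, ψ γ ^ m = 1) :
    IsUnitaryChar1 ψ := by
  intro γ
  refine Complex.norm_eq_one_of_pow_eq_one (n := m) ?_ hm
  have := congrArg (fun u : ℂˣ ↦ (u : ℂ)) (h γ)
  simpa using this

lemma coe_pow_eq_one1 {m : ℕ} (hpow : ∀ γ : Γ, ψ γ ^ m = 1) (γ : Γ) :
    (((ψ γ : ℂˣ) : ℂ)) ^ m = 1 := by
  have := congrArg (fun u : ℂˣ ↦ (u : ℂ)) (hpow γ)
  simpa using this

open Classical in
/-- The weight function of the twisted Eisenstein series: `(ψ γ)⁻¹` on the bottom row of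
`γ ∈ Γ`, and `0` on the vectors which are not such bottom rows. -/
def psiRow1 (ψ : Γ →* ℂˣ) (v : Fin 2 → ℤ) : ℂ :=
  if h : ∃ γ : Γ, bottomRow (γ : SL(2, ℤ)) = v then (((ψ h.choose)⁻¹ : ℂˣ) : ℂ) else 0

variable {ψ}

lemma psi_eq_of_bottomRow_eq1 (hψ : IsParabolicChar1 ψ) {γ γ' : Γ}
    (h : bottomRow (γ : SL(2, ℤ)) = bottomRow (γ' : SL(2, ℤ))) : ψ γ = ψ γ' := by
  have htr := trace_mul_inv_of_bottomRow_eq h
  have h1 : ψ (γ * γ'⁻¹) = 1 := by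
    apply hψ
    have : (((γ * γ'⁻¹ : Γ) : SL(2, ℤ)) : Matrix (Fin 2) (Fin 2) ℤ).trace = 2 := by
      simpa using htr
    rw [this]
    norm_num
  rw [map_mul, map_inv, mul_inv_eq_one] at h1
  exact h1

lemma psiRow1_bottomRow (hψ : IsParabolicChar1 ψ) (γ : Γ) :
    psiRow1 ψ (bottomRow (γ : SL(2, ℤ))) = (((ψ γ)⁻¹ : ℂˣ) : ℂ) := by
  have h : ∃ γ' : Γ, bottomRow (γ' : SL(2, ℤ)) = bottomRow (γ : SL(2, ℤ)) := ⟨γ, rfl⟩
  rw [psiRow1, dif_pos h, psi_eq_of_bottomRow_eq1 hψ h.choose_spec]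

lemma psiRow1_of_not_bottomRow {v : Fin 2 → ℤ}
    (h : ¬ ∃ γ : Γ, bottomRow (γ : SL(2, ℤ)) = v) : psiRow1 ψ v = 0 := by
  rw [psiRow1, dif_neg h]

lemma norm_psiRow1_le (hu : IsUnitaryChar1 ψ) (v : Fin 2 → ℤ) : ‖psiRow1 ψ v‖ ≤ 1 := by
  unfold psiRow1
  split_ifs with h
  · rw [Units.val_inv_eq_inv_val, norm_inv, hu, inv_one]
  · simp

/-- The transformation rule of the weight: `Ψ (v γ) = Ψ v * (ψ γ)⁻¹` for `γ ∈ Γ`. -/
lemma psiRow1_vecMul (hψ : IsParabolicChar1 ψ) (v : Fin 2 → ℤ) (γ : Γ) :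
    psiRow1 ψ (v ᵥ* ((γ : SL(2, ℤ)) : Matrix (Fin 2) (Fin 2) ℤ)) =
      psiRow1 ψ v * (((ψ γ)⁻¹ : ℂˣ) : ℂ) := by
  by_cases h : ∃ δ : Γ, bottomRow (δ : SL(2, ℤ)) = v
  · obtain ⟨δ, rfl⟩ := h
    have : bottomRow (δ : SL(2, ℤ)) ᵥ* ((γ : SL(2, ℤ)) : Matrix (Fin 2) (Fin 2) ℤ) =
        bottomRow (((δ * γ : Γ)) : SL(2, ℤ)) := by
      rw [Subgroup.coe_mul, bottomRow_mul]
    rw [this, psiRow1_bottomRow hψ, psiRow1_bottomRow hψ, map_mul, mul_inv, Units.val_mul]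
  · have h' : ¬ ∃ δ : Γ, bottomRow (δ : SL(2, ℤ)) =
        v ᵥ* ((γ : SL(2, ℤ)) : Matrix (Fin 2) (Fin 2) ℤ) := by
      rintro ⟨δ, hδ⟩
      refine h ⟨δ * γ⁻¹, ?_⟩
      rw [Subgroup.coe_mul, bottomRow_mul, hδ, vecMul_vecMul, Subgroup.coe_inv,
        ← Matrix.SpecialLinearGroup.coe_mul, mul_inv_cancel, Matrix.SpecialLinearGroup.coe_one,
        vecMul_one]
    rw [psiRow1_of_not_bottomRow h, psiRow1_of_not_bottomRow h', zero_mul]

lemma psiRow1_zero_one (hψ : IsParabolicChar1 ψ) : psiRow1 ψ ![0, 1] = 1 := by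
  have := psiRow1_bottomRow hψ (1 : Γ)
  rw [Subgroup.coe_one, bottomRow_one_eq] at this
  simpa using this

/-- An element of `SL(2, ℤ)` with bottom row `(0, -1)` has trace `-2`. -/
lemma trace_of_bottomRow_eq_neg {A : SL(2, ℤ)} (h : bottomRow A = ![0, -1]) :
    (A : Matrix (Fin 2) (Fin 2) ℤ).trace = -2 := by
  have h0 : A 1 0 = 0 := by rw [← bottomRow_zero, h]; rfl
  have h1 : A 1 1 = -1 := by rw [← bottomRow_one, h]; rfl
  have hA := A.det_coe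
  rw [Matrix.det_fin_two, h0, h1] at hA
  rw [Matrix.trace_fin_two, h1]
  linarith

lemma psiRow1_zero_neg_one (hψ : IsParabolicChar1 ψ)
    (h : ∃ γ : Γ, bottomRow (γ : SL(2, ℤ)) = ![0, -1]) : psiRow1 ψ ![0, -1] = 1 := by
  obtain ⟨γ, hγ⟩ := h
  have h1 := psiRow1_bottomRow hψ γ
  have h2 : ψ γ = 1 := by
    apply hψ
    rw [trace_of_bottomRow_eq_neg hγ]
    norm_num
  rw [h2, hγ] at h1
  simpa using h1

lemma psiRow1_eq_zero_of_zero {v : Fin 2 → ℤ} (hv0 : v 0 = 0) (hv1 : v 1 ≠ 1)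
    (hv1' : v 1 ≠ -1) : psiRow1 ψ v = 0 := by
  apply psiRow1_of_not_bottomRow
  rintro ⟨γ, rfl⟩
  rw [bottomRow_zero] at hv0
  rw [bottomRow_one] at hv1 hv1'
  have hdet := (γ : SL(2, ℤ)).det_coe
  rw [Matrix.det_fin_two, hv0, mul_zero, sub_zero] at hdet
  rcases Int.eq_one_or_neg_one_of_mul_eq_one' hdet with ⟨-, h⟩ | ⟨-, h⟩
  · exact hv1 h
  · exact hv1' h

open Classical in
/-- The constant term of the (unnormalised) twisted Eisenstein series of `Γ`: the number of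
vectors `(0, ±1)` which are bottom rows of elements of `Γ` (`2` if `-T ^ n ∈ Γ` for some `n`,
and `1` otherwise). -/
def eisC (Γ : Subgroup SL(2, ℤ)) : ℂ :=
  if ∃ γ : Γ, bottomRow (γ : SL(2, ℤ)) = ![0, -1] then 2 else 1

lemma eisC_ne_zero (Γ : Subgroup SL(2, ℤ)) : eisC Γ ≠ 0 := by
  unfold eisC
  split_ifs <;> norm_num

lemma eisC_eq_two (h : ∃ γ : Γ, bottomRow (γ : SL(2, ℤ)) = ![0, -1]) : eisC Γ = 2 := by
  unfold eisC
  rw [if_pos h]

lemma eisC_eq_one (h : ¬ ∃ γ : Γ, bottomRow (γ : SL(2, ℤ)) = ![0, -1]) : eisC Γ = 1 := by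
  unfold eisC
  rw [if_neg h]

lemma eisC_of_neg_one_mem (h : (-1 : SL(2, ℤ)) ∈ Γ) : eisC Γ = 2 :=
  eisC_eq_two ⟨⟨-1, h⟩, bottomRow_neg_one⟩

/-- The constant term of the twisted weight is `eisC Γ` (for even `k`). -/
lemma wEisConst_psiRow1 (hψ : IsParabolicChar1 ψ) (hk : Even k) :
    wEisConst k (psiRow1 ψ) = eisC Γ := by
  unfold wEisConst
  rw [tsum_eq_sum (s := {![0, 1], ![0, -1]})]
  · rw [Finset.sum_pair vec_zero_one_ne]
    simp only [Matrix.cons_val_zero, if_true, Matrix.cons_val_one, Matrix.cons_val_fin_one,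
      psiRow1_zero_one hψ]
    have h1 : ((-1 : ℤ) : ℂ) ^ (-k) = 1 := by
      rw [Int.cast_neg, Int.cast_one]
      exact Even.neg_one_zpow hk.neg
    rw [h1]
    by_cases h : ∃ γ : Γ, bottomRow (γ : SL(2, ℤ)) = ![0, -1]
    · rw [psiRow1_zero_neg_one hψ h, eisC_eq_two h]
      simp
      norm_num
    · rw [psiRow1_of_not_bottomRow h, eisC_eq_one h]
      simp
  · intro v hv
    simp only [Finset.mem_insert, Finset.mem_singleton, not_or] at hv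
    split_ifs with h0
    · have hv1 : v 1 ≠ 1 := by
        intro h1
        apply hv.1
        ext j
        fin_cases j
        · simpa using h0
        · simpa using h1
      have hv1' : v 1 ≠ -1 := by
        intro h1
        apply hv.2
        ext j
        fin_cases j
        · simpa using h0
        · simpa using h1
      rw [psiRow1_eq_zero_of_zero h0 hv1 hv1', zero_mul]
    · rfl

/-! ## The twisted Eisenstein series -/

/-- The twisted Eisenstein series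
`E_{k,ψ}(z) = c⁻¹ ∑ ψ(γ)⁻¹ (c z + d) ^ (-k)`, the sum being over the bottom rows `(c, d)`
of the elements `γ` of `Γ`, normalised by `c = eisC Γ` so that the limit at `i∞` is `1`. -/
def twistedEis1 (k : ℤ) (ψ : Γ →* ℂˣ) (z : ℍ) : ℂ := (eisC Γ)⁻¹ * wEis k (psiRow1 ψ) z

lemma twistedEis1_eq (k : ℤ) (ψ : Γ →* ℂˣ) :
    twistedEis1 k ψ = (eisC Γ)⁻¹ • wEis k (psiRow1 ψ) := by
  ext z
  simp [twistedEis1]

/-- Absolute convergence of the series defining `twistedEis1`. -/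
theorem summable_twistedEis1_term (hk : 3 ≤ k) (hu : IsUnitaryChar1 ψ) (z : ℍ) :
    Summable fun v : Fin 2 → ℤ ↦ ‖psiRow1 ψ v * eisSummand k v z‖ :=
  summable_norm_wEis_term hk (norm_psiRow1_le hu) z

/-- The twisted Eisenstein series is holomorphic on the upper half plane. -/
theorem twistedEis1_mdifferentiable (hk : 3 ≤ k) (hu : IsUnitaryChar1 ψ) :
    MDiff (twistedEis1 k ψ) := by
  rw [twistedEis1_eq]
  exact (wEis_mdifferentiable hk (norm_psiRow1_le hu)).const_smul _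

/-- The extension to `ℂ` of the twisted Eisenstein series is holomorphic on the upper half
plane. -/
theorem twistedEis1_differentiableOn (hk : 3 ≤ k) (hu : IsUnitaryChar1 ψ) :
    DifferentiableOn ℂ (↑ₕ(twistedEis1 k ψ)) {z : ℂ | 0 < z.im} := by
  have : (↑ₕ(twistedEis1 k ψ)) = fun z ↦ (eisC Γ)⁻¹ * (↑ₕ(wEis k (psiRow1 ψ))) z := by
    ext z
    simp [twistedEis1]
  rw [this]
  exact (wEis_differentiableOn hk (norm_psiRow1_le hu)).const_mul _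

/-- Slash action of `SL(2, ℤ)` on the twisted Eisenstein series. -/
lemma twistedEis1_slash_SL (k : ℤ) (ψ : Γ →* ℂˣ) (δ : SL(2, ℤ)) :
    twistedEis1 k ψ ∣[k] δ =
      (eisC Γ)⁻¹ •
        wEis k (fun v ↦ psiRow1 ψ (v ᵥ* ((δ⁻¹ : SL(2, ℤ)) : Matrix (Fin 2) (Fin 2) ℤ))) := by
  rw [twistedEis1_eq, ModularForm.SL_smul_slash, wEis_slash]

/-- All `SL(2, ℤ)`-translates of the twisted Eisenstein series are holomorphic. -/
theorem mdiff_twistedEis1_slash (hk : 3 ≤ k) (hu : IsUnitaryChar1 ψ) (δ : SL(2, ℤ)) :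
    MDiff (twistedEis1 k ψ ∣[k] δ) := by
  rw [twistedEis1_slash_SL]
  exact (wEis_mdifferentiable hk (fun v ↦ norm_psiRow1_le hu _)).const_smul _

/-- The transformation law of the twisted Eisenstein series under `Γ`:
`E ∣[k] γ = ψ(γ) • E`. -/
theorem twistedEis1_slash (k : ℤ) (hψ : IsParabolicChar1 ψ) (γ : Γ) :
    twistedEis1 k ψ ∣[k] (γ : SL(2, ℤ)) = ((ψ γ : ℂˣ) : ℂ) • twistedEis1 k ψ := by
  rw [twistedEis1_slash_SL, twistedEis1_eq, smul_comm]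
  congr 1
  ext z
  simp only [wEis, Pi.smul_apply, smul_eq_mul, ← tsum_mul_left]
  refine tsum_congr fun v ↦ ?_
  have := psiRow1_vecMul hψ v γ⁻¹
  rw [Subgroup.coe_inv] at this
  rw [this, map_inv, inv_inv]
  ring

/-- The transformation law of the twisted Eisenstein series under `Γ`:
`E (γ z) = ψ(γ) (c z + d) ^ k E(z)`. -/
theorem twistedEis1_smul (k : ℤ) (hψ : IsParabolicChar1 ψ) (γ : Γ) (z : ℍ) :
    twistedEis1 k ψ ((γ : SL(2, ℤ)) • z) =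
      ((ψ γ : ℂˣ) : ℂ) * denom (γ : SL(2, ℤ)) z ^ k * twistedEis1 k ψ z := by
  have h := congrFun (twistedEis1_slash k hψ γ) z
  rw [SL_slash_apply, Pi.smul_apply, smul_eq_mul, _root_.zpow_neg,
    mul_inv_eq_iff_eq_mul₀ (zpow_ne_zero _ <| denom_ne_zero _ z)] at h
  rw [h]
  ring

/-- More generally, for `γ ∈ Γ` and `δ ∈ SL(2, ℤ)`: `E ∣[k] (γ δ) = ψ(γ) • (E ∣[k] δ)`. -/
theorem twistedEis1_slash_mul (k : ℤ) (hψ : IsParabolicChar1 ψ) (γ : Γ) (δ : SL(2, ℤ)) :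
    twistedEis1 k ψ ∣[k] ((γ : SL(2, ℤ)) * δ) =
      ((ψ γ : ℂˣ) : ℂ) • (twistedEis1 k ψ ∣[k] δ) := by
  rw [SlashAction.slash_mul, twistedEis1_slash k hψ, ModularForm.SL_smul_slash]

/-- All `SL(2, ℤ)`-translates of the twisted Eisenstein series are bounded at `i∞`, i.e. the
twisted Eisenstein series is bounded at every cusp. -/
theorem isBoundedAtImInfty_twistedEis1_slash (hk : 3 ≤ k) (hu : IsUnitaryChar1 ψ)
    (δ : SL(2, ℤ)) : IsBoundedAtImInfty (twistedEis1 k ψ ∣[k] δ) := by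
  rw [twistedEis1_eq, ModularForm.SL_smul_slash]
  exact (isBoundedAtImInfty_wEis_slash hk (norm_psiRow1_le hu) δ).const_smul_left _

/-- The twisted Eisenstein series tends to `1` at `i∞`. -/
theorem tendsto_twistedEis1_atImInfty (hk : 4 ≤ k) (hk2 : Even k) (hψ : IsParabolicChar1 ψ)
    (hu : IsUnitaryChar1 ψ) : Tendsto (twistedEis1 k ψ) atImInfty (𝓝 1) := by
  have h := (tendsto_wEis_atImInfty hk (norm_psiRow1_le hu)).const_mul (eisC Γ)⁻¹
  rw [wEisConst_psiRow1 hψ hk2, inv_mul_cancel₀ (eisC_ne_zero Γ)] at h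
  exact h

/-- The twisted Eisenstein series is not identically zero. -/
theorem exists_twistedEis1_ne_zero (hk : 4 ≤ k) (hk2 : Even k) (hψ : IsParabolicChar1 ψ)
    (hu : IsUnitaryChar1 ψ) : ∃ z : ℍ, twistedEis1 k ψ z ≠ 0 := by
  have h := tendsto_twistedEis1_atImInfty hk hk2 hψ hu
  have h1 : ∀ᶠ z in atImInfty, twistedEis1 k ψ z ≠ 0 :=
    h.eventually_ne one_ne_zero
  exact h1.exists

/-- The twisted Eisenstein series is nonzero near `i∞`. -/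
theorem eventually_norm_twistedEis1_ge (hk : 4 ≤ k) (hk2 : Even k) (hψ : IsParabolicChar1 ψ)
    (hu : IsUnitaryChar1 ψ) :
    ∃ A : ℝ, ∀ z : ℍ, A ≤ z.im → (1 / 2 : ℝ) ≤ ‖twistedEis1 k ψ z‖ := by
  have h := tendsto_twistedEis1_atImInfty hk hk2 hψ hu
  have h1 : ∀ᶠ z in atImInfty, ‖twistedEis1 k ψ z - 1‖ < 1 / 2 :=
    (tendsto_iff_norm_sub_tendsto_zero.mp h).eventually
      (gt_mem_nhds (show (0 : ℝ) < 1 / 2 by norm_num))
  rw [Filter.Eventually, atImInfty_mem] at h1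
  obtain ⟨A, hA⟩ := h1
  refine ⟨A, fun z hz ↦ ?_⟩
  have h2 : ‖twistedEis1 k ψ z - 1‖ < 1 / 2 := hA z hz
  have h3 : ‖(1 : ℂ)‖ ≤ ‖twistedEis1 k ψ z‖ + ‖twistedEis1 k ψ z - 1‖ := by
    have := norm_sub_le (twistedEis1 k ψ z) (twistedEis1 k ψ z - 1)
    simpa using this
  rw [norm_one] at h3
  linarith

end Twisted1

/-! ## The function `u = E_{4,ψ} / E₄` -/

section U1

variable {Γ : Subgroup SL(2, ℤ)} {ψ : Γ →* ℂˣ}

/-- The function `u_ψ = E_{4,ψ} / E₄` on the upper half plane: it has multiplier `ψ` under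
`Γ`. -/
def twistedU1 (ψ : Γ →* ℂˣ) (z : ℍ) : ℂ := twistedEis1 4 ψ z / E₄ z

/-- `u (γ z) = ψ(γ) u(z)` for `γ ∈ Γ` and every `z`. -/
theorem twistedU1_smul (hψ : IsParabolicChar1 ψ) (γ : Γ) (z : ℍ) :
    twistedU1 ψ ((γ : SL(2, ℤ)) • z) = ((ψ γ : ℂˣ) : ℂ) * twistedU1 ψ z := by
  unfold twistedU1
  rw [twistedEis1_smul 4 hψ, E₄_smul, mul_assoc, mul_div_assoc,
    mul_div_mul_left _ _ (zpow_ne_zero _ <| denom_ne_zero _ z)]

/-- `u (δ z) = (E_ψ ∣[4] δ) z / E₄ z` for every `δ ∈ SL(2, ℤ)`. -/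
theorem twistedU1_smul_SL (ψ : Γ →* ℂˣ) (δ : SL(2, ℤ)) (z : ℍ) :
    twistedU1 ψ (δ • z) = (twistedEis1 4 ψ ∣[(4 : ℤ)] δ) z / E₄ z := by
  unfold twistedU1
  have hd : denom δ z ^ (4 : ℤ) ≠ 0 := zpow_ne_zero _ <| denom_ne_zero _ z
  rw [SL_slash_apply, E₄_smul, _root_.zpow_neg]
  field_simp

/-- Every `SL(2, ℤ)`-translate of `u` is bounded at `i∞`: the function `u` is holomorphic
at every cusp. -/
theorem isBoundedAtImInfty_twistedU1_smul (hu : IsUnitaryChar1 ψ) (δ : SL(2, ℤ)) :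
    IsBoundedAtImInfty (fun z : ℍ ↦ twistedU1 ψ (δ • z)) := by
  obtain ⟨M, A, hMA⟩ := UpperHalfPlane.isBoundedAtImInfty_iff.mp
    (isBoundedAtImInfty_twistedEis1_slash (k := 4) (by norm_num) hu δ)
  obtain ⟨B, hB⟩ := eventually_norm_E₄_ge
  rw [UpperHalfPlane.isBoundedAtImInfty_iff]
  refine ⟨2 * M, max A B, fun z hz ↦ ?_⟩
  have h1 := hMA z ((le_max_left A B).trans hz)
  have h2 := hB z ((le_max_right A B).trans hz)
  rw [twistedU1_smul_SL, norm_div]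
  have hM : 0 ≤ M := (norm_nonneg _).trans h1
  rw [div_le_iff₀ (by linarith)]
  calc ‖(twistedEis1 4 ψ ∣[(4 : ℤ)] δ) z‖ ≤ M := h1
    _ = 2 * M * (1 / 2) := by ring
    _ ≤ 2 * M * ‖E₄ z‖ := by gcongr

/-- `u` tends to `1` at `i∞`. -/
theorem tendsto_twistedU1_atImInfty (hψ : IsParabolicChar1 ψ) (hu : IsUnitaryChar1 ψ) :
    Tendsto (twistedU1 ψ) atImInfty (𝓝 1) := by
  have h := (tendsto_twistedEis1_atImInfty (k := 4) (by norm_num) (by decide) hψ hu).div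
    tendsto_E₄_atImInfty one_ne_zero
  rw [div_one] at h
  exact h

/-! ### Meromorphy of `u` (vocabulary: functions `ℂ → ℂ`, Mathlib `MeromorphicOn`) -/

theorem twistedU1_comp_ofComplex (ψ : Γ →* ℂˣ) :
    (↑ₕ(twistedU1 ψ)) = (↑ₕ(twistedEis1 4 ψ)) / (↑ₕ(E₄ : ℍ → ℂ)) := rfl

/-- `u` is meromorphic on the upper half plane. -/
theorem meromorphicOn_twistedU1 (hu : IsUnitaryChar1 ψ) :
    MeromorphicOn (↑ₕ(twistedU1 ψ)) {z : ℂ | 0 < z.im} := by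
  have hopen : IsOpen {z : ℂ | 0 < z.im} := isOpen_upperHalfPlaneSet
  have h1 : AnalyticOnNhd ℂ (↑ₕ(twistedEis1 4 ψ)) {z : ℂ | 0 < z.im} :=
    (twistedEis1_differentiableOn (k := 4) (by norm_num) hu).analyticOnNhd hopen
  have h2 : AnalyticOnNhd ℂ (↑ₕ(E₄ : ℍ → ℂ)) {z : ℂ | 0 < z.im} :=
    E₄_differentiableOn.analyticOnNhd hopen
  rw [twistedU1_comp_ofComplex]
  exact fun z hz ↦ (h1 z hz).meromorphicAt.div (h2 z hz).meromorphicAt

/-- `E_ψ` has finite order at every point of the upper half plane. -/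
theorem meromorphicOrderAt_twistedEis1_ne_top (hψ : IsParabolicChar1 ψ)
    (hu : IsUnitaryChar1 ψ) {z : ℂ} (hz : z ∈ {z : ℂ | 0 < z.im}) :
    meromorphicOrderAt (↑ₕ(twistedEis1 4 ψ)) z ≠ ⊤ := by
  refine meromorphicOrderAt_ne_top_of_differentiableOn
    (twistedEis1_differentiableOn (k := 4) (by norm_num) hu) ?_ hz
  obtain ⟨w, hw⟩ := exists_twistedEis1_ne_zero (k := 4) (by norm_num) (by decide) hψ hu
  exact ⟨w, w.im_pos, by simpa [Function.comp, ofComplex_apply] using hw⟩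

/-- `E₄` has finite order at every point of the upper half plane. -/
theorem meromorphicOrderAt_E₄_ne_top1 {z : ℂ} (hz : z ∈ {z : ℂ | 0 < z.im}) :
    meromorphicOrderAt (↑ₕ(E₄ : ℍ → ℂ)) z ≠ ⊤ := by
  refine meromorphicOrderAt_ne_top_of_differentiableOn E₄_differentiableOn ?_ hz
  obtain ⟨w, hw⟩ := exists_E₄_ne_zero
  exact ⟨w, w.im_pos, by simpa [Function.comp, ofComplex_apply] using hw⟩

/-- `u` has finite order at every point of the upper half plane (it is not identically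
zero). -/
theorem meromorphicOrderAt_twistedU1_ne_top (hψ : IsParabolicChar1 ψ) (hu : IsUnitaryChar1 ψ)
    {z : ℂ} (hz : z ∈ {z : ℂ | 0 < z.im}) : meromorphicOrderAt (↑ₕ(twistedU1 ψ)) z ≠ ⊤ := by
  have hopen : IsOpen {z : ℂ | 0 < z.im} := isOpen_upperHalfPlaneSet
  have hd1 := twistedEis1_differentiableOn (ψ := ψ) (k := 4) (by norm_num) hu
  have hd2 := E₄_differentiableOn
  have ho1 := meromorphicOrderAt_twistedEis1_ne_top hψ hu hz
  have ho2 := meromorphicOrderAt_E₄_ne_top1 hz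
  have hm1 : MeromorphicAt (↑ₕ(twistedEis1 4 ψ)) z :=
    ((hd1.analyticOnNhd hopen) z hz).meromorphicAt
  have hm2 : MeromorphicAt (↑ₕ(E₄ : ℍ → ℂ)) z := ((hd2.analyticOnNhd hopen) z hz).meromorphicAt
  rw [meromorphicOrderAt_ne_top_iff_eventually_ne_zero (meromorphicOn_twistedU1 hu z hz)]
  rw [meromorphicOrderAt_ne_top_iff_eventually_ne_zero hm1] at ho1
  rw [meromorphicOrderAt_ne_top_iff_eventually_ne_zero hm2] at ho2
  filter_upwards [ho1, ho2] with w h1 h2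
  rw [twistedU1_comp_ofComplex]
  exact div_ne_zero h1 h2

/-- The order of `u` at a point is the difference of the orders of `E_ψ` and `E₄`. -/
theorem meromorphicOrderAt_twistedU1 (hu : IsUnitaryChar1 ψ) {z : ℂ}
    (hz : z ∈ {z : ℂ | 0 < z.im}) :
    meromorphicOrderAt (↑ₕ(twistedU1 ψ)) z =
      meromorphicOrderAt (↑ₕ(twistedEis1 4 ψ)) z - meromorphicOrderAt (↑ₕ(E₄ : ℍ → ℂ)) z := by
  have hopen : IsOpen {z : ℂ | 0 < z.im} := isOpen_upperHalfPlaneSet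
  have hd1 := twistedEis1_differentiableOn (ψ := ψ) (k := 4) (by norm_num) hu
  have hd2 := E₄_differentiableOn
  rw [twistedU1_comp_ofComplex]
  exact meromorphicOrderAt_div ((hd1.analyticOnNhd hopen) z hz).meromorphicAt
    ((hd2.analyticOnNhd hopen) z hz).meromorphicAt

/-- Holomorphy of every translate of `u` at the points where `E₄` does not vanish (in
particular near `i∞`, see `eventually_norm_E₄_ge`). -/
theorem differentiableAt_twistedU1_smul (hu : IsUnitaryChar1 ψ) (δ : SL(2, ℤ)) {τ : ℍ}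
    (hE : E₄ τ ≠ 0) :
    DifferentiableAt ℂ ((fun τ : ℍ ↦ twistedU1 ψ (δ • τ)) ∘ ofComplex) (τ : ℂ) := by
  have hfun : (fun τ : ℍ ↦ twistedU1 ψ (δ • τ))
      = fun τ : ℍ ↦ (twistedEis1 4 ψ ∣[(4 : ℤ)] δ) τ / E₄ τ :=
    funext fun τ ↦ twistedU1_smul_SL ψ δ τ
  rw [hfun]
  have h1 : DifferentiableAt ℂ ((twistedEis1 4 ψ ∣[(4 : ℤ)] δ) ∘ ofComplex) (τ : ℂ) :=
    UpperHalfPlane.mdifferentiableAt_iff.mp (mdiff_twistedEis1_slash (by norm_num) hu δ τ)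
  have h2 : DifferentiableAt ℂ ((E₄ : ℍ → ℂ) ∘ ofComplex) (τ : ℂ) :=
    UpperHalfPlane.mdifferentiableAt_iff.mp (ModularFormClass.holo E₄ τ)
  have h3 : ((E₄ : ℍ → ℂ) ∘ ofComplex) (τ : ℂ) ≠ 0 := by
    simpa [Function.comp, ofComplex_apply] using hE
  exact h1.div h2 h3

end U1

/-! ## Periodicity of the translates -/

lemma conj_T_zpow_mem1 {Γ : Subgroup SL(2, ℤ)} {M : ℕ} (hΓ : Gamma M ≤ Γ) (δ : SL(2, ℤ)) :
    δ * ModularGroup.T ^ (M : ℤ) * δ⁻¹ ∈ Γ := by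
  have h1 : ModularGroup.T ^ (M : ℤ) ∈ Gamma M := by
    simpa using ModularGroup_T_pow_mem_Gamma (M : ℤ) (M : ℤ) dvd_rfl
  exact hΓ ((Gamma_normal M).conj_mem _ h1 δ)

section Periodic1

variable {Γ : Subgroup SL(2, ℤ)} {ψ : Γ →* ℂˣ} {M : ℕ}

/-- Every translate `E_ψ ∣[k] δ` is invariant under `z ↦ z + M` (if `Γ(M) ≤ Γ`). -/
theorem twistedEis1_slash_T_zpow_smul (hΓ : Gamma M ≤ Γ) (k : ℤ) (hψ : IsParabolicChar1 ψ)
    (δ : SL(2, ℤ)) (z : ℍ) :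
    (twistedEis1 k ψ ∣[k] δ) (ModularGroup.T ^ (M : ℤ) • z) = (twistedEis1 k ψ ∣[k] δ) z := by
  set γ : Γ := ⟨δ * ModularGroup.T ^ (M : ℤ) * δ⁻¹, conj_T_zpow_mem1 hΓ δ⟩ with hγ
  have h1 : ψ γ = 1 := by
    apply hψ
    have : (((γ : Γ) : SL(2, ℤ)) : Matrix (Fin 2) (Fin 2) ℤ).trace = 2 :=
      trace_conj_T_zpow (M : ℤ) δ
    rw [this]
    norm_num
  have h2 := twistedEis1_slash_mul k hψ γ δ
  rw [h1, Units.val_one, one_smul] at h2
  have h3 : ((γ : Γ) : SL(2, ℤ)) * δ = δ * ModularGroup.T ^ (M : ℤ) := by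
    simp [hγ]
  rw [h3, SlashAction.slash_mul] at h2
  have h4 := congrFun h2 z
  rw [SL_slash_apply, denom_T_zpow, _root_.one_zpow, mul_one] at h4
  exact h4

/-- Every translate `E_ψ ∣[k] δ` is invariant under `z ↦ z + M` (if `Γ(M) ≤ Γ`). -/
theorem twistedEis1_slash_vadd (hΓ : Gamma M ≤ Γ) (k : ℤ) (hψ : IsParabolicChar1 ψ)
    (δ : SL(2, ℤ)) (z : ℍ) :
    (twistedEis1 k ψ ∣[k] δ) ((M : ℝ) +ᵥ z) = (twistedEis1 k ψ ∣[k] δ) z := by
  have := twistedEis1_slash_T_zpow_smul hΓ k hψ δ z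
  rwa [modular_T_zpow_smul, Int.cast_natCast] at this

/-- Every translate `z ↦ u (δ z)` is invariant under `z ↦ z + M` (if `Γ(M) ≤ Γ`). -/
theorem twistedU1_smul_T_zpow_smul (hΓ : Gamma M ≤ Γ) (hψ : IsParabolicChar1 ψ) (δ : SL(2, ℤ))
    (z : ℍ) :
    twistedU1 ψ (δ • (ModularGroup.T ^ (M : ℤ) • z)) = twistedU1 ψ (δ • z) := by
  rw [twistedU1_smul_SL, twistedU1_smul_SL, twistedEis1_slash_T_zpow_smul hΓ 4 hψ,
    E₄_T_zpow_smul]

/-- Every translate `z ↦ u (δ z)` is invariant under `z ↦ z + M` (if `Γ(M) ≤ Γ`). -/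
theorem twistedU1_smul_vadd (hΓ : Gamma M ≤ Γ) (hψ : IsParabolicChar1 ψ) (δ : SL(2, ℤ))
    (z : ℍ) :
    twistedU1 ψ (δ • ((M : ℝ) +ᵥ z)) = twistedU1 ψ (δ • z) := by
  have := twistedU1_smul_T_zpow_smul hΓ hψ δ z
  rwa [modular_T_zpow_smul, Int.cast_natCast] at this

/-- If `ψ ^ m = 1` then `u ^ m` is `Γ`-invariant. -/
theorem twistedU1_pow_smul (hψ : IsParabolicChar1 ψ) {m : ℕ} (hpow : ∀ γ : Γ, ψ γ ^ m = 1)
    (γ : Γ) (z : ℍ) :
    twistedU1 ψ ((γ : SL(2, ℤ)) • z) ^ m = twistedU1 ψ z ^ m := by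
  rw [twistedU1_smul hψ, mul_pow, coe_pow_eq_one1 ψ hpow, one_mul]

end Periodic1

/-! ## Powers of the twisted Eisenstein series as modular forms on `Γ` -/

section MF1

variable {Γ : Subgroup SL(2, ℤ)} [Γ.FiniteIndex] {ψ : Γ →* ℂˣ} {k : ℤ}

/-- If `ψ ^ m = 1`, the `m`-th power of the twisted Eisenstein series is a modular form of
weight `m * k` on `Γ` (with trivial character). -/
def twistedEisPow1 (hk : 3 ≤ k) (hψ : IsParabolicChar1 ψ) {m : ℕ} (hm : m ≠ 0)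
    (hpow : ∀ γ : Γ, ψ γ ^ m = 1) :
    ModularForm (Γ : Subgroup (GL (Fin 2) ℝ)) ((m : ℤ) * k) where
  toFun := twistedEis1 k ψ ^ m
  slash_action_eq' A hA := by
    obtain ⟨γ, hγ, rfl⟩ := hA
    have h1 := pow_slash_SL (twistedEis1 k ψ) k m γ
    rw [twistedEis1_slash k hψ ⟨γ, hγ⟩, smul_pow, coe_pow_eq_one1 ψ hpow, one_smul] at h1
    exact h1
  holo' := (twistedEis1_mdifferentiable hk (isUnitaryChar1_of_pow_eq_one ψ hm hpow)).pow m
  bdd_at_cusps' {c} hc := by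
    rw [Subgroup.IsArithmetic.isCusp_iff_isCusp_SL2Z] at hc
    rw [OnePoint.isBoundedAt_iff_forall_SL2Z hc]
    intro δ _
    rw [pow_slash_SL]
    exact isBoundedAtImInfty_pow
      (isBoundedAtImInfty_twistedEis1_slash hk (isUnitaryChar1_of_pow_eq_one ψ hm hpow) δ) m

@[simp] lemma coe_twistedEisPow1 (hk : 3 ≤ k) (hψ : IsParabolicChar1 ψ) {m : ℕ} (hm : m ≠ 0)
    (hpow : ∀ γ : Γ, ψ γ ^ m = 1) :
    (twistedEisPow1 hk hψ hm hpow : ℍ → ℂ) = twistedEis1 k ψ ^ m := rfl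

lemma twistedEisPow1_apply (hk : 3 ≤ k) (hψ : IsParabolicChar1 ψ) {m : ℕ} (hm : m ≠ 0)
    (hpow : ∀ γ : Γ, ψ γ ^ m = 1) (z : ℍ) :
    twistedEisPow1 hk hψ hm hpow z = twistedEis1 k ψ z ^ m := rfl

/-- The modular form `E_ψ ^ m` is not zero. -/
lemma twistedEisPow1_ne_zero (hk : 4 ≤ k) (hk2 : Even k) (hψ : IsParabolicChar1 ψ) {m : ℕ}
    (hm : m ≠ 0) (hpow : ∀ γ : Γ, ψ γ ^ m = 1) :
    (twistedEisPow1 (k := k) (show (3 : ℤ) ≤ k by omega) hψ hm hpow : ℍ → ℂ) ≠ 0 := by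
  obtain ⟨z, hz⟩ := exists_twistedEis1_ne_zero hk hk2 hψ
    (isUnitaryChar1_of_pow_eq_one ψ hm hpow)
  intro h
  have := congrFun h z
  rw [coe_twistedEisPow1, Pi.pow_apply, Pi.zero_apply] at this
  exact hz (pow_eq_zero_iff hm |>.mp this)

/-- `u ^ m` is the quotient of the two modular forms `E_ψ ^ m` and `E₄ ^ m` of weight `4 m` on
`Γ`. -/
theorem twistedU1_pow_eq (hψ : IsParabolicChar1 ψ) {m : ℕ} (hm : m ≠ 0)
    (hpow : ∀ γ : Γ, ψ γ ^ m = 1) (z : ℍ) :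
    twistedU1 ψ z ^ m =
      twistedEisPow1 (k := 4) (by norm_num) hψ hm hpow z / (E₄.pow m) z := by
  rw [twistedEisPow1_apply, ModularForm.coe_pow, Pi.pow_apply, twistedU1, div_pow]

end MF1

/-! ## Specialisation to `Γ₁(M)` -/

section Gamma1

variable {M : ℕ}

lemma Gamma_le_Gamma1 (M : ℕ) : Gamma M ≤ Gamma1 M := by
  intro γ hγ
  rw [Gamma_mem] at hγ
  rw [Gamma1_mem]
  exact ⟨hγ.1, hγ.2.2.2, hγ.2.2.1⟩

lemma Gamma_le_Gamma0 (M : ℕ) : Gamma M ≤ Gamma0 M :=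
  (Gamma_le_Gamma1 M).trans (Gamma1_in_Gamma0 M)

/-- For `M ≥ 3` no element of `Γ₁(M)` has bottom row `(0, -1)`. -/
lemma not_exists_bottomRow_Gamma1 (hM : 3 ≤ M) :
    ¬ ∃ γ : Gamma1 M, bottomRow (γ : SL(2, ℤ)) = ![0, -1] := by
  rintro ⟨γ, hγ⟩
  have h1 : (γ : SL(2, ℤ)) 1 1 = -1 := by rw [← bottomRow_one, hγ]; rfl
  have h2 := ((Gamma1_mem M _).mp γ.2).2.1
  rw [h1] at h2
  have h3 : ((2 : ℤ) : ZMod M) = 0 := by
    have : ((2 : ℤ) : ZMod M) = 1 - ((-1 : ℤ) : ZMod M) := by push_cast; ring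
    rw [this, h2, sub_self]
  rw [ZMod.intCast_zmod_eq_zero_iff_dvd] at h3
  have := Int.le_of_dvd (by norm_num) h3
  omega

lemma eisC_Gamma1 (hM : 3 ≤ M) : eisC (Gamma1 M) = 1 :=
  eisC_eq_one (not_exists_bottomRow_Gamma1 hM)

lemma eisC_Gamma0 (N : ℕ) : eisC (Gamma0 N) = 2 :=
  eisC_of_neg_one_mem (neg_one_mem_Gamma0 N)

variable {ψ : Gamma1 M →* ℂˣ}

/-- Every translate `z ↦ u (δ z)` of `u_ψ`, `ψ` a character of `Γ₁(M)`, is invariant under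
`z ↦ z + M`. -/
theorem twistedU1_smul_vadd_Gamma1 (hψ : IsParabolicChar1 ψ) (δ : SL(2, ℤ)) (z : ℍ) :
    twistedU1 ψ (δ • ((M : ℝ) +ᵥ z)) = twistedU1 ψ (δ • z) :=
  twistedU1_smul_vadd (Gamma_le_Gamma1 M) hψ δ z

/-- Every translate `E_ψ ∣[k] δ`, `ψ` a character of `Γ₁(M)`, is invariant under
`z ↦ z + M`. -/
theorem twistedEis1_slash_vadd_Gamma1 (k : ℤ) (hψ : IsParabolicChar1 ψ) (δ : SL(2, ℤ))
    (z : ℍ) :
    (twistedEis1 k ψ ∣[k] δ) ((M : ℝ) +ᵥ z) = (twistedEis1 k ψ ∣[k] δ) z :=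
  twistedEis1_slash_vadd (Gamma_le_Gamma1 M) k hψ δ z

end Gamma1

end Fermat.Agent.T4.helper20
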