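import Fermat.Agent.T4.helper71_PeriodGen
import Fermat.Agent.S21.helper71_GroupBound

/-!
# T4 (I), helper71: the group-theoretic bound for `H¹_par(Γ, ℂ)` WITHOUT the hypothesis `-1 ∈ Γ`

The S21 bound (`S21.helper71.finrank_parabolicHoms_le`) needs `-1 ∈ Γ`, which fails for
`Γ₁(M)`, `M ≥ 3`.  Put `pm Γ := {g | g ∈ Γ ∨ -g ∈ Γ}` (`= ± Γ`).  Homomorphisms `Γ → ℂ` extend
uniquely to `pm Γ` (they kill `-1` when it lies in `Γ`), and the extension of a parabolic
homomorphism is parabolic.  Hence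

* `finite_parabolicHoms_gen`   : `H¹_par(Γ, ℂ)` is finite dimensional for every `Γ` of finite index;
* `finrank_parabolicHoms_add_le_gen` :
  `dim H¹_par(Γ, ℂ) + #orb(S) + #orb(ST) + #orb(T) ≤ [SL₂(ℤ) : ±Γ] + 2` (orbits on `SL₂(ℤ)/±Γ`);
* `finite_cuspForm_gen`, `two_mul_finrank_cuspForm_add_le_gen` : the same for `2 dim S₂(Γ)`,
  for `J`-stable `Γ` (injectivity of the period pair map);
* `eichlerShimura_gen_of_lower_bound` : the pair map is bijective onto the parabolic
  homomorphisms as soon as `[SL₂(ℤ) : ±Γ] + 2 ≤ 2 dim S₂(Γ) + #orb(S) + #orb(ST) + #orb(T)`.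
-/

set_option autoImplicit false

namespace Fermat.Agent.T4.helper71

open ModularCurve ModularCurve.Period CongruenceSubgroup
open scoped MatrixGroups

section PM

variable (Γ : Subgroup SL(2, ℤ))

/-- The subgroup `± Γ`. -/
def pm : Subgroup SL(2, ℤ) where
  carrier := {g | g ∈ Γ ∨ -g ∈ Γ}
  one_mem' := Or.inl Γ.one_mem
  mul_mem' := by
    rintro a b (ha | ha) (hb | hb)
    · exact Or.inl (Γ.mul_mem ha hb)
    · refine Or.inr ?_
      have := Γ.mul_mem ha hb
      rwa [mul_neg] at this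
    · refine Or.inr ?_
      have := Γ.mul_mem ha hb
      rwa [neg_mul] at this
    · refine Or.inl ?_
      have := Γ.mul_mem ha hb
      rwa [neg_mul_neg] at this
  inv_mem' := by
    rintro a (ha | ha)
    · exact Or.inl (Γ.inv_mem ha)
    · refine Or.inr ?_
      have := Γ.inv_mem ha
      rwa [inv_neg] at this

theorem mem_pm {g : SL(2, ℤ)} : g ∈ pm Γ ↔ g ∈ Γ ∨ -g ∈ Γ := Iff.rfl

theorem le_pm : Γ ≤ pm Γ := fun _ h => Or.inl h

theorem neg_one_mem_pm : (-1 : SL(2, ℤ)) ∈ pm Γ := Or.inr (by rw [neg_neg]; exact Γ.one_mem)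

instance [Γ.FiniteIndex] : (pm Γ).FiniteIndex := Subgroup.finiteIndex_of_le (le_pm Γ)

theorem pm_eq_self (h : (-1 : SL(2, ℤ)) ∈ Γ) : pm Γ = Γ := by
  refine le_antisymm ?_ (le_pm Γ)
  rintro g (hg | hg)
  · exact hg
  · have := Γ.mul_mem h hg
    rwa [neg_mul_neg, one_mul] at this

variable {Γ}

/-- A homomorphism to `ℂ` kills `-1`. -/
theorem hom_neg_one (φ : Additive Γ →+ ℂ) (h : (-1 : SL(2, ℤ)) ∈ Γ) :
    φ (Additive.ofMul ⟨-1, h⟩) = 0 := by
  have h1 : (⟨-1, h⟩ : Γ) * ⟨-1, h⟩ = 1 := by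
    apply Subtype.ext
    show (-1 : SL(2, ℤ)) * -1 = 1
    rw [neg_mul_neg, one_mul]
  have h2 : φ (Additive.ofMul ((⟨-1, h⟩ : Γ) * ⟨-1, h⟩)) = 0 := by
    rw [h1]; exact map_zero φ
  rw [ofMul_mul, map_add] at h2
  have h3 : (2 : ℂ) * φ (Additive.ofMul ⟨-1, h⟩) = 0 := by rw [two_mul]; exact h2
  exact (mul_eq_zero.mp h3).resolve_left two_ne_zero

/-- A homomorphism to `ℂ` takes the same value on `γ` and `-γ`. -/
theorem hom_neg (φ : Additive Γ →+ ℂ) {g : SL(2, ℤ)} (hg : g ∈ Γ) (hg' : -g ∈ Γ) :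
    φ (Additive.ofMul ⟨-g, hg'⟩) = φ (Additive.ofMul ⟨g, hg⟩) := by
  have hneg : (-1 : SL(2, ℤ)) ∈ Γ := by
    have := Γ.mul_mem hg' (Γ.inv_mem hg)
    rwa [neg_mul, mul_inv_cancel] at this
  have h1 : (⟨-g, hg'⟩ : Γ) = ⟨-1, hneg⟩ * ⟨g, hg⟩ := by
    apply Subtype.ext
    show -g = -1 * g
    rw [neg_mul, one_mul]
  rw [h1, ofMul_mul, map_add, hom_neg_one φ hneg, zero_add]

open Classical in
/-- The value of the extension of `φ` to `± Γ`. -/
noncomputable def extFun (φ : Additive Γ →+ ℂ) (g : SL(2, ℤ)) : ℂ :=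
  if h : g ∈ Γ then φ (Additive.ofMul ⟨g, h⟩)
  else if h' : -g ∈ Γ then φ (Additive.ofMul ⟨-g, h'⟩) else 0

theorem extFun_of_mem (φ : Additive Γ →+ ℂ) {g : SL(2, ℤ)} (h : g ∈ Γ) :
    extFun φ g = φ (Additive.ofMul ⟨g, h⟩) := by
  classical
  rw [extFun, dif_pos h]

theorem extFun_of_neg_mem (φ : Additive Γ →+ ℂ) {g : SL(2, ℤ)} (h : -g ∈ Γ) :
    extFun φ g = φ (Additive.ofMul ⟨-g, h⟩) := by
  classical
  by_cases hg : g ∈ Γ
  · rw [extFun_of_mem φ hg, hom_neg φ hg h]
  · rw [extFun, dif_neg hg, dif_pos h]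

theorem extFun_mul (φ : Additive Γ →+ ℂ) {a b : SL(2, ℤ)} (ha : a ∈ pm Γ) (hb : b ∈ pm Γ) :
    extFun φ (a * b) = extFun φ a + extFun φ b := by
  rcases ha with ha | ha <;> rcases hb with hb | hb
  · rw [extFun_of_mem φ ha, extFun_of_mem φ hb, extFun_of_mem φ (Γ.mul_mem ha hb),
      ← map_add, ← ofMul_mul]
    rfl
  · have hab : -(a * b) ∈ Γ := by
      have := Γ.mul_mem ha hb
      rwa [mul_neg] at this
    rw [extFun_of_mem φ ha, extFun_of_neg_mem φ hb, extFun_of_neg_mem φ hab, ← map_add,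
      ← ofMul_mul]
    congr 2
    apply Subtype.ext
    show -(a * b) = a * -b
    rw [mul_neg]
  · have hab : -(a * b) ∈ Γ := by
      have := Γ.mul_mem ha hb
      rwa [neg_mul] at this
    rw [extFun_of_neg_mem φ ha, extFun_of_mem φ hb, extFun_of_neg_mem φ hab, ← map_add,
      ← ofMul_mul]
    congr 2
    apply Subtype.ext
    show -(a * b) = -a * b
    rw [neg_mul]
  · have hab : a * b ∈ Γ := by
      have := Γ.mul_mem ha hb
      rwa [neg_mul_neg] at this
    rw [extFun_of_neg_mem φ ha, extFun_of_neg_mem φ hb, extFun_of_mem φ hab, ← map_add,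
      ← ofMul_mul]
    congr 2
    apply Subtype.ext
    show a * b = -a * -b
    rw [neg_mul_neg]

/-- The extension of a homomorphism `Γ → ℂ` to `± Γ`. -/
noncomputable def extHom (φ : Additive Γ →+ ℂ) : Additive (pm Γ) →+ ℂ where
  toFun g := extFun φ ((Additive.toMul g : pm Γ) : SL(2, ℤ))
  map_zero' := by
    show extFun φ ((1 : pm Γ) : SL(2, ℤ)) = 0
    rw [OneMemClass.coe_one, extFun_of_mem φ Γ.one_mem]
    exact map_zero φ
  map_add' a b := by
    show extFun φ (((Additive.toMul a * Additive.toMul b : pm Γ)) : SL(2, ℤ)) = _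
    rw [MulMemClass.coe_mul]
    exact extFun_mul φ (Additive.toMul a).2 (Additive.toMul b).2

theorem extHom_apply (φ : Additive Γ →+ ℂ) (g : pm Γ) :
    extHom φ (Additive.ofMul g) = extFun φ (g : SL(2, ℤ)) := rfl

theorem extHom_of_mem (φ : Additive Γ →+ ℂ) (γ : Γ) :
    extHom φ (Additive.ofMul ⟨(γ : SL(2, ℤ)), le_pm Γ γ.2⟩) = φ (Additive.ofMul γ) := by
  rw [extHom_apply, extFun_of_mem φ γ.2]

/-- The extension, as a linear map. -/
noncomputable def extLin : (Additive Γ →+ ℂ) →ₗ[ℂ] (Additive (pm Γ) →+ ℂ) where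
  toFun := extHom
  map_add' φ ψ := by
    refine AddMonoidHom.ext fun g => ?_
    obtain ⟨g, rfl⟩ := Additive.ofMul.surjective g
    rw [AddMonoidHom.add_apply, extHom_apply, extHom_apply, extHom_apply]
    rcases g.2 with hg | hg
    · rw [extFun_of_mem _ hg, extFun_of_mem _ hg, extFun_of_mem _ hg]; rfl
    · rw [extFun_of_neg_mem _ hg, extFun_of_neg_mem _ hg, extFun_of_neg_mem _ hg]; rfl
  map_smul' c φ := by
    refine AddMonoidHom.ext fun g => ?_
    obtain ⟨g, rfl⟩ := Additive.ofMul.surjective g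
    rw [RingHom.id_apply, AddMonoidHom.smul_apply, extHom_apply, extHom_apply]
    rcases g.2 with hg | hg
    · rw [extFun_of_mem _ hg, extFun_of_mem _ hg]; rfl
    · rw [extFun_of_neg_mem _ hg, extFun_of_neg_mem _ hg]; rfl

theorem extLin_injective : Function.Injective (extLin (Γ := Γ)) := by
  intro φ ψ h
  refine AddMonoidHom.ext fun γ => ?_
  obtain ⟨γ, rfl⟩ := Additive.ofMul.surjective γ
  have := DFunLike.congr_fun h (Additive.ofMul ⟨(γ : SL(2, ℤ)), le_pm Γ γ.2⟩)
  change extHom φ _ = extHom ψ _ at this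
  rwa [extHom_of_mem, extHom_of_mem] at this

theorem extLin_mem_parabolicHoms {φ : Additive Γ →+ ℂ} (hφ : φ ∈ parabolicHoms ℂ Γ ℂ) :
    extLin φ ∈ parabolicHoms ℂ (pm Γ) ℂ := by
  rw [mem_parabolicHoms_iff] at hφ ⊢
  intro g hg
  change extHom φ (Additive.ofMul g) = 0
  rw [extHom_apply]
  rcases g.2 with h | h
  · rw [extFun_of_mem φ h]
    exact hφ ⟨_, h⟩ hg
  · rw [extFun_of_neg_mem φ h]
    refine hφ ⟨_, h⟩ ?_
    show ((-(g : SL(2, ℤ)) : SL(2, ℤ)) : Matrix (Fin 2) (Fin 2) ℤ).trace ^ 2 = 4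
    rw [Matrix.SpecialLinearGroup.coe_neg, Matrix.trace_neg, neg_sq]
    exact hg

/-- The extension map on parabolic homomorphisms. -/
noncomputable def extPar : parabolicHoms ℂ Γ ℂ →ₗ[ℂ] parabolicHoms ℂ (pm Γ) ℂ :=
  (extLin.comp (parabolicHoms ℂ Γ ℂ).subtype).codRestrict _ fun φ =>
    extLin_mem_parabolicHoms φ.2

theorem extPar_injective : Function.Injective (extPar (Γ := Γ)) := by
  intro φ ψ h
  apply Subtype.ext
  apply extLin_injective
  have := congrArg Subtype.val h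
  simpa [extPar] using this

end PM

section Bound

open MulAction Subgroup

variable (Γ : Subgroup SL(2, ℤ)) [Γ.FiniteIndex]

/-- Number of orbits of the cyclic group generated by `g` on `SL(2,ℤ) ⧸ ±Γ`. -/
noncomputable abbrev orbCountPM (g : SL(2, ℤ)) : ℕ :=
  Nat.card (orbitRel.Quotient (zpowers g) (SL(2, ℤ) ⧸ pm Γ))

/-- `H¹_par(Γ, ℂ)` is finite dimensional, for every subgroup of finite index. -/
theorem finite_parabolicHoms_gen : Module.Finite ℂ (parabolicHoms ℂ Γ ℂ) := by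
  have h := (Fermat.Agent.S21.helper71.finrank_parabolicHoms_le (pm Γ) (neg_one_mem_pm Γ)).1
  exact Module.Finite.of_injective extPar extPar_injective

/-- **Group-theoretic upper bound**, no hypothesis on `-1`:
`dim H¹_par(Γ, ℂ) + #orb(S) + #orb(ST) + #orb(T) ≤ [SL₂(ℤ) : ±Γ] + 2`. -/
theorem finrank_parabolicHoms_add_le_gen :
    Module.finrank ℂ (parabolicHoms ℂ Γ ℂ)
      + orbCountPM Γ ModularGroup.S + orbCountPM Γ (ModularGroup.S * ModularGroup.T)
      + orbCountPM Γ ModularGroup.T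
      ≤ Nat.card (SL(2, ℤ) ⧸ pm Γ) + 2 := by
  obtain ⟨hfin, hle⟩ :=
    Fermat.Agent.S21.helper71.finrank_parabolicHoms_le (pm Γ) (neg_one_mem_pm Γ)
  have h1 : Module.finrank ℂ (parabolicHoms ℂ Γ ℂ)
      ≤ Module.finrank ℂ (parabolicHoms ℂ (pm Γ) ℂ) :=
    LinearMap.finrank_le_finrank_of_injective extPar_injective
  unfold orbCountPM
  omega

variable {Γ}
variable (hJ : JStable Γ)

include hJ in
/-- `S₂(Γ)` is finite dimensional. -/
theorem finite_cuspForm_gen : Module.Finite ℂ (CuspForm Γ 2) := by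
  have := finite_parabolicHoms_gen Γ
  exact finite_cuspForm_of_finite_parabolicHoms hJ

include hJ in
/-- **Upper bound for `dim S₂(Γ)`**, in orbit-count form. -/
theorem two_mul_finrank_cuspForm_add_le_gen :
    2 * Module.finrank ℂ (CuspForm Γ 2)
      + orbCountPM Γ ModularGroup.S + orbCountPM Γ (ModularGroup.S * ModularGroup.T)
      + orbCountPM Γ ModularGroup.T
      ≤ Nat.card (SL(2, ℤ) ⧸ pm Γ) + 2 := by
  have := finite_parabolicHoms_gen Γ
  have h1 := two_mul_finrank_cuspForm_le_gen hJ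
  have h2 := finrank_parabolicHoms_add_le_gen Γ
  omega

/-- **Eichler-Shimura for `Γ`** from the lower bound `g ≤ dim S₂(Γ)` in orbit-count form. -/
theorem eichlerShimura_gen_of_lower_bound
    (hLB : Nat.card (SL(2, ℤ) ⧸ pm Γ) + 2
      ≤ 2 * Module.finrank ℂ (CuspForm Γ 2)
        + orbCountPM Γ ModularGroup.S + orbCountPM Γ (ModularGroup.S * ModularGroup.T)
        + orbCountPM Γ ModularGroup.T) :
    Function.Injective (periodPairGen hJ)
      ∧ LinearMap.range (periodPairGen hJ) = parabolicHoms ℂ Γ ℂ := by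
  have := finite_parabolicHoms_gen Γ
  apply periodPairGen_range_eq_of_finrank_le hJ
  have h2 := finrank_parabolicHoms_add_le_gen Γ
  omega

include hJ in
/-- Given the lower bound, `dim H¹_par(Γ, ℂ) = 2 dim S₂(Γ)`. -/
theorem finrank_parabolicHoms_eq_of_lower_bound
    (hLB : Nat.card (SL(2, ℤ) ⧸ pm Γ) + 2
      ≤ 2 * Module.finrank ℂ (CuspForm Γ 2)
        + orbCountPM Γ ModularGroup.S + orbCountPM Γ (ModularGroup.S * ModularGroup.T)
        + orbCountPM Γ ModularGroup.T) :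
    Module.finrank ℂ (parabolicHoms ℂ Γ ℂ) = 2 * Module.finrank ℂ (CuspForm Γ 2) := by
  have := finite_parabolicHoms_gen Γ
  have h1 := two_mul_finrank_cuspForm_le_gen hJ
  have h2 := finrank_parabolicHoms_add_le_gen Γ
  omega

end Bound

end Fermat.Agent.T4.helper71

/-! ## The instance `Γ₁(M)` -/

namespace Fermat.Agent.T4.helper71

open ModularCurve ModularCurve.Period CongruenceSubgroup
open scoped MatrixGroups

variable (M : ℕ) [NeZero M]

/-- The period homomorphism of a weight two cusp form on `Γ₁(M)`. -/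
noncomputable abbrev period1 (f : CuspForm (Gamma1 M) 2) : Additive (Gamma1 M) →+ ℂ :=
  periodGen (Gamma1 M) f

/-- The Eichler-Shimura pair map of level `Γ₁(M)`. -/
noncomputable abbrev periodPair1 :
    (CuspForm (Gamma1 M) 2 × CuspForm (Gamma1 M) 2) →ₗ[ℂ] (Additive (Gamma1 M) →+ ℂ) :=
  periodPairGen (jStable_Gamma1 M)

theorem periodPair1_injective : Function.Injective (periodPair1 M) :=
  periodPairGen_injective _

theorem range_periodPair1_le :
    LinearMap.range (periodPair1 M) ≤ parabolicHoms ℂ (Gamma1 M) ℂ :=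
  range_periodPairGen_le _

theorem finite_cuspForm_Gamma1 : Module.Finite ℂ (CuspForm (Gamma1 M) 2) :=
  finite_cuspForm_gen (jStable_Gamma1 M)

theorem finite_parabolicHoms_Gamma1 : Module.Finite ℂ (parabolicHoms ℂ (Gamma1 M) ℂ) :=
  finite_parabolicHoms_gen _

end Fermat.Agent.T4.helper71
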