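import Fermat.Agent.T4.helper32_X1Defs
import Fermat.Agent.T4.helper79_Hecke1
import Fermat.Agent.T4.helper71_ParabolicPM
import Fermat.Agent.T4.helper1_TateGen
import Fermat.Agent.P3.helper16_KappaB
import Fermat.Agent.P3.helper34_Ev

/-!
# T4 block (I), sub-block I-AN (helper21, sub-coordinator): definitions and Props

The `Γ₁(M)` analogue of the P3 analytic module ([AN], [KAPPA], [FIN], [DESC]).  Deliverables
(inputs of `helper1.genTateAssembly`):

* `Kappa1Statement M p = helper1.GenKappa p (op1 M) (gen1 M)`;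
* `Fin1Statement M p`  = the `p`-torsion of `J₁(M)(ℚ̄)` is finite.

## Objects

* `Idx1 M`   : the index set of the operators: primes `q ∤ M` (`T_q`) and units `d` (`⟨d⟩`);
* `op1 M i`  : `helper32.hecke1 M q` / `helper32.diamond1 M d` on `J1 M`;
* `genLin1 M i`, `gen1 M i` : `helper79.heckeT1Lin` / `diamondLin` on `S₂(Γ₁(M))` and in
  `heckeAlgebra1 M 2`;
* `F1Cx M`, `J1Cx M` : the function field of `X₁(M)` over `ℂ` and its `Pic⁰`;
* `V21 M = S₂ × S₂`, `perZ1 M γ` (the period functional of `γ ∈ Γ₁(M)`, from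
  `helper71.periodPair1`), `perLat1 M` (the period lattice), `LatChar1 M = Hom(perLat1, ℤ)`;
* `latPsi1 M p n ε : Γ₁(M) →* ℂˣ`, `γ ↦ exp(2πi ε(per γ) / p^n)`;
* `hTr1 M i` : the transpose of `genLin1 M i` on the period lattice (defined classically; it is
  the honest transpose as soon as `PerStable1Statement M` holds), `latCharT1 M i = (hTr1 M i)ᵗ`.

## Leaves (all `Prop`s; owners in the task table)

`PerStable1Statement` [PER1], `PerChar1Statement` [PER1], `Faith1Statement` [FAITH1],
`Surj1Statement` [SURJ1], `Desc1Statement` [DESC1], `Transport1Statement` [TRANS-T / TRANS-D],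
`Kappa1Statement` [KAPPA1], `Fin1Statement` [FIN1].
-/

set_option autoImplicit false

noncomputable section

namespace Fermat.Agent.T4.helper21

open CongruenceSubgroup ModularCurve ModularCurve.Period AlgebraicCurve
open scoped MatrixGroups
open Fermat.Agent.P3.helper20 Fermat.Agent.P3.helper34 Fermat.Agent.P3.helper94

/-! ## The operators -/

/-- the index set of the operators: good primes and diamonds -/
abbrev Idx1 (M : ℕ) : Type := {q : Nat.Primes // ¬ (q : ℕ) ∣ M} ⊕ (ZMod M)ˣ

/-- the operators on `J₁(M)(ℚ̄)`: `T_q = b_* a^*` and `⟨d⟩ = (δ_d)_*` -/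
def op1 (M : ℕ) : Idx1 M → helper32.J1 M →+ helper32.J1 M
  | .inl q => (helper32.hecke1 M q.1).toAddMonoidHom
  | .inr d => (helper32.diamond1 M d).toAddMonoidHom

/-- the operators on `S₂(Γ₁(M))` -/
def genLin1 (M : ℕ) [NeZero M] : Idx1 M → Module.End ℂ (CuspForm (Gamma1 M) 2)
  | .inl q => helper79.heckeT1Lin (M := M) 2 q.1.2 q.2
  | .inr d => helper79.diamondLin (M := M) 2 d

/-- the generators of the Hecke algebra `𝕋₁(M)` -/
def gen1 (M : ℕ) [NeZero M] : Idx1 M → helper79.heckeAlgebra1 M 2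
  | .inl q => helper79.heckeAlgebra1.T (M := M) (k := 2) q.1.2 q.2
  | .inr d => helper79.heckeAlgebra1.D (M := M) (k := 2) d

/-! ## The function field over `ℂ` -/

/-- the function field of `X₁(M)` over `ℂ`, inside `ℂ((q))` -/
abbrev F1Cx (M : ℕ) : IntermediateField ℂ (LaurentSeries ℂ) :=
  laurentBaseChange ℂ (helper32.F1Q M)

/-- `Pic⁰` of the function field of `X₁(M)` over `ℂ` -/
abbrev J1Cx (M : ℕ) : Type := Pic0 ℂ (F1Cx M)

/-- an analytic dictionary of `F1Cx M` is *standard* if `ev h` is a function of the Laurent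
series `h` (`helper34.IsEv`). -/
def IsStdDict (M : ℕ) (𝒟 : AnDict (F1Cx M) (Gamma1 M)) : Prop :=
  ∀ h : F1Cx M, IsEv (h : LaurentSeries ℂ) (𝒟.ev h)

/-! ## The period lattice -/

variable (M : ℕ) [NeZero M]

/-- pairs of cusp forms of weight two on `Γ₁(M)` -/
abbrev V21 : Type := CuspForm (Gamma1 M) 2 × CuspForm (Gamma1 M) 2

/-- an operator acting on pairs -/
def pairLin1 (T : Module.End ℂ (CuspForm (Gamma1 M) 2)) : V21 M →ₗ[ℂ] V21 M :=
  LinearMap.prodMap T T

/-- The period functional of `γ`: `x ↦ periodPair1 M x γ`. -/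
def perZ1 : Additive (Gamma1 M) →+ (V21 M →ₗ[ℂ] ℂ) where
  toFun γ :=
    { toFun := fun x => helper71.periodPair1 M x γ
      map_add' := fun x y => by rw [map_add]; rfl
      map_smul' := fun c x => by rw [map_smul]; rfl }
  map_zero' := LinearMap.ext fun x => map_zero (helper71.periodPair1 M x)
  map_add' γ δ := LinearMap.ext fun x => map_add (helper71.periodPair1 M x) γ δ

@[simp]
theorem perZ1_apply (γ : Additive (Gamma1 M)) (x : V21 M) :
    perZ1 M γ x = helper71.periodPair1 M x γ := rfl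

/-- The period lattice: the (additive) group of all period functionals. -/
def perLat1 : AddSubgroup (V21 M →ₗ[ℂ] ℂ) := (perZ1 M).range

theorem mem_perLat1 {lam : V21 M →ₗ[ℂ] ℂ} :
    lam ∈ perLat1 M ↔ ∃ γ : Additive (Gamma1 M), perZ1 M γ = lam := Iff.rfl

theorem perZ1_mem_perLat1 (γ : Additive (Gamma1 M)) : perZ1 M γ ∈ perLat1 M := ⟨γ, rfl⟩

/-- `perZ1` with values in the lattice. -/
def perZ1' : Additive (Gamma1 M) →+ perLat1 M := (perZ1 M).rangeRestrict

@[simp]
theorem coe_perZ1' (γ : Additive (Gamma1 M)) :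
    ((perZ1' M γ : perLat1 M) : V21 M →ₗ[ℂ] ℂ) = perZ1 M γ := rfl

theorem perZ1'_surjective : Function.Surjective (perZ1' M) :=
  (perZ1 M).rangeRestrict_surjective

/-- `Γ₁(M)` is finitely generated. -/
theorem fg_Gamma1 : Group.FG (Gamma1 M) := by
  have := Fermat.Agent.P3.helper16.fg_SL2Z
  exact Subgroup.fg_of_index_ne_zero (Gamma1 M)

instance finite_perLat1 : Module.Finite ℤ (perLat1 M) := by
  have h1 : Group.FG (Gamma1 M) := fg_Gamma1 M
  have h2 : AddGroup.FG (Additive (Gamma1 M)) := AddGroup.fg_iff_mul_fg.mpr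
    (Group.fg_of_surjective (f := (MulEquiv.refl (Gamma1 M)).toMonoidHom)
      (MulEquiv.refl (Gamma1 M)).surjective)
  have h3 : AddGroup.FG (perZ1 M).range := AddGroup.fg_range (perZ1 M)
  exact Module.Finite.iff_addGroup_fg.mpr h3

instance isAddTorsionFree_perLat1 : IsAddTorsionFree (perLat1 M) where
  nsmul_right_injective n hn a b hab := by
    have : IsAddTorsionFree (V21 M →ₗ[ℂ] ℂ) := .of_isTorsionFree ℂ _
    apply Subtype.ext
    have h : n • (a : V21 M →ₗ[ℂ] ℂ) = n • (b : V21 M →ₗ[ℂ] ℂ) := congrArg Subtype.val hab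
    exact nsmul_right_injective hn h

instance free_perLat1 : Module.Free ℤ (perLat1 M) :=
  Module.free_of_finite_type_torsion_free'

/-- Periods of parabolic elements vanish. -/
theorem perZ1_parabolic (γ : Gamma1 M)
    (hγ : ((γ : SL(2, ℤ)) : Matrix (Fin 2) (Fin 2) ℤ).trace ^ 2 = 4) :
    perZ1 M (Additive.ofMul γ) = 0 := by
  refine LinearMap.ext fun x => ?_
  have hx : helper71.periodPair1 M x ∈ parabolicHoms ℂ (Gamma1 M) ℂ :=
    helper71.range_periodPair1_le M ⟨x, rfl⟩
  exact hx γ hγ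

/-- The period lattice separates the points of `V`. -/
theorem perLat1_separates (x : V21 M) (h : ∀ lam ∈ perLat1 M, lam x = 0) : x = 0 := by
  apply helper71.periodPair1_injective M
  rw [map_zero]
  refine AddMonoidHom.ext fun γ => ?_
  exact h _ (perZ1_mem_perLat1 M γ)

/-- The lattice characters: `X = Hom(perLat1 M, ℤ)`. -/
abbrev LatChar1 : Type := perLat1 M →+ ℤ

instance free_latChar1 : Module.Free ℤ (LatChar1 M) :=
  Module.Free.of_equiv (addMonoidHomLequivInt (A := perLat1 M) (B := ℤ) ℤ).symm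

instance finite_latChar1 : Module.Finite ℤ (LatChar1 M) :=
  Module.Finite.equiv (addMonoidHomLequivInt (A := perLat1 M) (B := ℤ) ℤ).symm

/-! ## The characters -/

variable (p : ℕ)

/-- The character `γ ↦ exp(2πi · ε(per γ) / p^n)` of `Γ₁(M)`. -/
def latPsi1 (n : ℕ) (ε : LatChar1 M) : Gamma1 M →* ℂˣ :=
  MonoidHom.toAdditive.symm ((Fermat.Agent.P3.helper16.zetaHom p n).comp (ε.comp (perZ1' M)))

theorem latPsi1_apply (n : ℕ) (ε : LatChar1 M) (γ : Gamma1 M) :
    latPsi1 M p n ε γ =
      Fermat.Agent.P3.helper16.zetaUnit (p ^ n) ^ (ε (perZ1' M (Additive.ofMul γ))) := by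
  rw [← Fermat.Agent.P3.helper16.zetaHom_apply]
  rfl

theorem latPsi1_add (n : ℕ) (ε ε' : LatChar1 M) :
    latPsi1 M p n (ε + ε') = latPsi1 M p n ε * latPsi1 M p n ε' := by
  ext γ
  rw [MonoidHom.mul_apply, latPsi1_apply, latPsi1_apply, latPsi1_apply, AddMonoidHom.add_apply,
    zpow_add, Units.val_mul]

theorem latPsi1_pow_succ (hp : 0 < p) (n : ℕ) (ε : LatChar1 M) :
    latPsi1 M p (n + 1) ε ^ p = latPsi1 M p n ε := by
  ext γ
  rw [MonoidHom.pow_apply, latPsi1_apply, latPsi1_apply, ← zpow_natCast, ← zpow_mul, mul_comm,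
    zpow_mul, zpow_natCast, pow_succ',
    Fermat.Agent.P3.helper16.zetaUnit_mul_pow p (p ^ n) hp.ne']

theorem latPsi1_pow (hp : 0 < p) (n : ℕ) (ε : LatChar1 M) :
    latPsi1 M p n ε ^ (p ^ n) = 1 := by
  ext γ
  rw [MonoidHom.pow_apply, latPsi1_apply, ← zpow_natCast, ← zpow_mul, mul_comm,
    zpow_mul, zpow_natCast,
    Fermat.Agent.P3.helper16.zetaUnit_pow_self _ (pow_pos hp n).ne', one_zpow,
    MonoidHom.one_apply]

theorem latPsi1_eq_one_iff (hp : 0 < p) (n : ℕ) (ε : LatChar1 M) :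
    latPsi1 M p n ε = 1 ↔ ∀ lam : perLat1 M, ((p ^ n : ℕ) : ℤ) ∣ ε lam := by
  constructor
  · intro h lam
    obtain ⟨γ, rfl⟩ := perZ1'_surjective M lam
    have h1 := DFunLike.congr_fun h (Additive.toMul γ)
    rw [latPsi1_apply, MonoidHom.one_apply] at h1
    exact (Fermat.Agent.P3.helper16.zetaUnit_zpow_eq_one_iff _ (pow_pos hp n).ne' _).mp h1
  · intro h
    ext γ
    rw [latPsi1_apply, MonoidHom.one_apply,
      (Fermat.Agent.P3.helper16.zetaUnit_zpow_eq_one_iff _ (pow_pos hp n).ne' _).mpr (h _)]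

/-- the lattice characters are trivial on the parabolic elements -/
theorem latPsi1_parabolic (n : ℕ) (ε : LatChar1 M) (γ : Gamma1 M)
    (hγ : ((γ : SL(2, ℤ)) : Matrix (Fin 2) (Fin 2) ℤ).trace ^ 2 = 4) :
    latPsi1 M p n ε γ = 1 := by
  have h0 : perZ1' M (Additive.ofMul γ) = 0 := Subtype.ext (perZ1_parabolic M γ hγ)
  rw [latPsi1_apply, h0, map_zero, zpow_zero]

/-! ## [PER1] stability of the period lattice and the transposes -/

/-- **[PER1-STABLE]** the period lattice is stable under the transposes of the operators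
`T_q`, `⟨d⟩` acting on pairs of cusp forms. -/
def PerStable1Statement : Prop :=
  ∀ (i : Idx1 M) (lam : V21 M →ₗ[ℂ] ℂ), lam ∈ perLat1 M →
    lam ∘ₗ pairLin1 M (genLin1 M i) ∈ perLat1 M

open Classical in
/-- the transpose of the operator `i` on the period lattice (`0` unless
`PerStable1Statement M`). -/
def hTr1 (i : Idx1 M) : perLat1 M →+ perLat1 M :=
  if h : PerStable1Statement M then
    { toFun := fun lam => ⟨(lam : V21 M →ₗ[ℂ] ℂ) ∘ₗ pairLin1 M (genLin1 M i), h i lam.1 lam.2⟩
      map_zero' := Subtype.ext (by simp)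
      map_add' := fun a b => Subtype.ext (by simp [LinearMap.add_comp]) }
  else 0

theorem coe_hTr1 (h : PerStable1Statement M) (i : Idx1 M) (lam : perLat1 M) :
    ((hTr1 M i lam : perLat1 M) : V21 M →ₗ[ℂ] ℂ) =
      (lam : V21 M →ₗ[ℂ] ℂ) ∘ₗ pairLin1 M (genLin1 M i) := by
  unfold hTr1
  rw [dif_pos h]
  rfl

/-- the operator `i` on the lattice characters: `ε ↦ ε ∘ hTr1 i` -/
def latCharT1 (i : Idx1 M) : LatChar1 M →+ LatChar1 M where
  toFun ε := ε.comp (hTr1 M i)
  map_zero' := AddMonoidHom.zero_comp _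
  map_add' _ _ := AddMonoidHom.add_comp _ _ _

@[simp]
theorem latCharT1_apply (i : Idx1 M) (ε : LatChar1 M) (lam : perLat1 M) :
    latCharT1 M i ε lam = ε (hTr1 M i lam) := rfl

/-! ## The leaves -/

/-- **[FAITH1]** integer relations between the words in the operators on the lattice characters
hold between the words in the generators of `𝕋₁(M)`. -/
def Faith1Statement : Prop :=
  ∀ c : List (Idx1 M) →₀ ℤ,
    (∀ x : LatChar1 M, (c.sum fun w a => a • helper1.genWordEnd (latCharT1 M) w x) = 0) →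
      (c.sum fun w a => a • (w.map (gen1 M)).prod) = 0

/-- **[SURJ1]** every lattice character is the monodromy of a class of `Pic⁰(F_ℂ)`
(twisted Eisenstein quotient `u`, `h = u^(p^n) ∈ F1Cx M`, orders of `h` divisible by `p^n`). -/
def Surj1Statement (𝒟 : AnDict (F1Cx M) (Gamma1 M)) : Prop :=
  ∀ (n : ℕ) (ε : LatChar1 M), ∃ c : J1Cx M, IsMonData 𝒟 (p ^ n) c (latPsi1 M p n ε)

/-- **[DESC1]** the constant field extension `ℚ̄ → ℂ` for `X₁(M)`: the conorm
`con : J₁(M)(ℚ̄) → Pic⁰(F_ℂ)` is injective, hits every torsion class, and is compatible with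
Kummer representatives along `ι = helper17.toC` (coefficientwise embedding). -/
def Desc1Statement : Prop :=
  ∃ (con : helper32.J1 M →+ J1Cx M) (ι : helper32.F1 M → F1Cx M),
    (∀ h : helper32.F1 M, ((ι h : F1Cx M) : LaurentSeries ℂ) =
      Fermat.Agent.S24.helper17.toC (h : LaurentSeries helper32.Kbar)) ∧
    Function.Injective con ∧
    (∀ y : J1Cx M, (∃ m : ℕ, 0 < m ∧ m • y = 0) → ∃ x : helper32.J1 M, con x = y) ∧
    (∀ (m : ℕ) (x : helper32.J1 M) (h : helper32.F1 M),
      IsKummerRep m x h → IsKummerRep m (con x) (ι h))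

/-- **[TRANS]** Kummer transport along the operator `i`: if `x ∈ J₁(M)[m]`, `m = p^n`, has a
Kummer representative `h` whose function (any function of the Laurent series `toC h`) has the
Kummer character `latPsi1 n ε`, then `op1 M i x` has a Kummer representative `h'` whose function
has the Kummer character `latPsi1 n (latCharT1 i ε)`. -/
def Transport1Statement (i : Idx1 M) : Prop :=
  ∀ (n : ℕ) (ε : LatChar1 M) (x : helper32.J1 M) (h : helper32.F1 M) (f : ℂ → ℂ),
    IsKummerRep (p ^ n) x h →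
    IsEv (Fermat.Agent.S24.helper17.toC (h : LaurentSeries helper32.Kbar)) f →
    IsKummerChar (Gamma1 M) (p ^ n) f (latPsi1 M p n ε) →
    ∃ (h' : helper32.F1 M) (f' : ℂ → ℂ),
      IsKummerRep (p ^ n) (op1 M i x) h' ∧
      IsEv (Fermat.Agent.S24.helper17.toC (h' : LaurentSeries helper32.Kbar)) f' ∧
      IsKummerChar (Gamma1 M) (p ^ n) f' (latPsi1 M p n (latCharT1 M i ε))

/-- **[KAPPA1]** the `κ`-package of `J₁(M)`: the input of `helper1.genTateAssembly`. -/
def Kappa1Statement : Prop :=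
  helper1.GenKappa p (op1 M) (gen1 M)

/-- **[FIN1]** the `p`-torsion of `J₁(M)(ℚ̄)` is finite. -/
def Fin1Statement : Prop :=
  Finite (nsmulAddMonoidHom (α := helper32.J1 M) (p ^ 1)).ker

end Fermat.Agent.T4.helper21

end
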