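import Fermat.Agent.T4.helper54_Surj1Wire
import Fermat.Agent.T4.helper44_WpX1

/-!
# T4 block (I), sub-block I-AN, leaf [SURJ1] (helper54): the unconditional statement

`surjChar1 : 7 ≤ M → ∀ 𝒟, IsStdDict M 𝒟 → SurjChar1Statement M 𝒟` - every character
`ψ : Γ₁(M) → μ_m` which is trivial on the elements of trace `± 2` is the monodromy of a class
of `Pic⁰(F_ℂ)`, for every standard analytic dictionary of the function field `F1Cx M` of
`X₁(M)`.  This is the input `hsurj` of `helper21.ian_of_leaves`.

Inputs: `helper44.x1Sys` (the generator system of `X₁(M)`, `7 ≤ M`) and `surjChar1_of_sys`.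
-/

set_option autoImplicit false

noncomputable section

open CongruenceSubgroup
open scoped MatrixGroups

namespace Fermat.Agent.T4.helper54

/-- **[SURJ1]**, unconditional (`7 ≤ M`). -/
theorem surjChar1 (M : ℕ) [NeZero M] (hM : 7 ≤ M)
    (𝒟 : Fermat.Agent.P3.helper20.AnDict (Fermat.Agent.T4.helper21.F1Cx M) (Gamma1 M))
    (hstd : Fermat.Agent.T4.helper21.IsStdDict M 𝒟) :
    Fermat.Agent.T4.helper21.SurjChar1Statement M 𝒟 :=
  surjChar1_of_sys M (by omega) (Fermat.Agent.T4.helper44.x1Sys M hM) 𝒟 hstd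

end Fermat.Agent.T4.helper54
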