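import Mathlib
import Fermat.Agent.T4.helper80_GenDegree
import Fermat.Agent.P3.helper80_LocalDict
import Fermat.Agent.S24.helper75_FFCore2
import Fermat.Agent.S24.helper82_Separating
import Fermat.Agent.S24.helper55_RH
import Fermat.Agent.S24.helper27_FixedPoints

/-!
# T4 (I) / I-FLD [ANDICT], part 3 (helper80): the places ↔ points dictionary, interior points

Generic form of `Fermat.Agent.P3.helper80` (`DictC`), for a family `A : Fam ι` with
`[A.F : ℂ(j)] = [SL(2,ℤ) : A.stab]`.

* `dict_of_chart` : the dictionary for the zeros of `t` from a chart.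
* `dict_interior` : every place `w` of `A.F` with `ord_w(j) ≥ 0` is induced by an interior
  point `τ₀` and a coset `g`: `V_{τ₀} (sigma g f) = exp (- d · ord_w f)`, where `d ∈ {1, 2, 3}`
  is the order of a rotation `h` fixing `τ₀` with `g⁻¹ h g ∈ A.stab`.
-/

set_option autoImplicit false

noncomputable section

open UpperHalfPlane ModularForm Filter Topology CongruenceSubgroup ModularCurve
  IntermediateField AlgebraicCurve WithZero
open scoped MatrixGroups Manifold

namespace Fermat.Agent.T4.helper80.Gen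

open Fermat.Agent.S24 Fermat.Agent.S24.helper24 Fermat.Agent.S24.helper99

variable {ι : Type*} (A : Fam ι)

/-- The degree hypothesis: the field is finite over `ℂ(j)` of degree `[SL(2,ℤ) : stab]`
(`finrank_eq_index`). -/
structure Fam.HasDegree : Prop where
  fin : A.stab.FiniteIndex
  fd : FiniteDimensional ℂ⟮A.xJ⟯ A.F
  deg : Module.finrank ℂ⟮A.xJ⟯ A.F = A.stab.index

theorem hasDegree_of_expGrowth [Finite ι] [A.stab.FiniteIndex] (hexp : A.ExpGrowth) :
    A.HasDegree :=
  ⟨inferInstance, (finiteDimensional_and_finrank_le A hexp).1, finrank_eq_index A hexp⟩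

theorem toPerm_pow_apply' {G X : Type*} [Group G] [MulAction G X] (g : G) (n : ℕ) (y : X) :
    ((MulAction.toPerm g : Equiv.Perm X) ^ n) y = g ^ n • y := by
  induction n generalizing y with
  | zero => simp
  | succ k ih =>
    rw [pow_succ, pow_succ, Equiv.Perm.mul_apply, ih, mul_smul]
    rfl

theorem neg_one_smul_quot (c : SL(2, ℤ) ⧸ A.stab) : (-1 : SL(2, ℤ)) • c = c := by
  induction c using QuotientGroup.induction_on with
  | H g =>
    show ((-1 * g : SL(2, ℤ)) : SL(2, ℤ) ⧸ A.stab) = g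
    rw [QuotientGroup.eq]
    have : (-1 * g)⁻¹ * g = -1 := by
      rw [mul_inv_rev]
      have h1 : (-1 : SL(2, ℤ))⁻¹ = -1 := by decide
      rw [h1, mul_assoc]
      have h2 : (-1 : SL(2, ℤ)) * g = g * (-1) := by
        rw [neg_mul, one_mul, mul_neg, mul_one]
      rw [h2, ← mul_assoc, inv_mul_cancel, one_mul]
    rw [this]
    exact A.neg_one_mem_stab

/-- **Dictionary from a chart.** -/
theorem dict_of_chart (hD : A.HasDegree) (C : Chart A)
    (t : A.F) (ht : Transcendental ℂ t) [FiniteDimensional ℂ⟮t⟯ A.F]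
    (hcard : A.stab.index = Module.finrank ℂ⟮t⟯ A.F)
    (htagree : ∀ g g', C.sigma g t = C.sigma g' t)
    (E : ℕ) (hE : 0 < E) (htE : ∀ g, MeroGerm.V C.z₀ (C.sigma g t) = exp (-(E : ℤ)))
    (g₀ : SL(2, ℤ)) (hg₀ : ∀ c : SL(2, ℤ) ⧸ A.stab, g₀ ^ E • c = c)
    (hrot : ∀ k : ℕ, k ∣ E → 1 < k →
      ∃ φ, C.IsRot (g₀ ^ (E / k)) φ ∧ IsPrimitiveRoot (deriv φ C.z₀) k)
    (w : Place ℂ A.F) (hw : 0 < w.ord t) :
    ∃ (g : SL(2, ℤ)) (d : ℕ), 0 < d ∧ d ∣ E ∧ g⁻¹ * g₀ ^ (E / d) * g ∈ A.stab ∧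
      (d : ℤ) * w.ord t = E ∧
      ∀ f : A.F, f ≠ 0 → MeroGerm.V C.z₀ (C.sigma g f) = exp (-((d : ℤ) * w.ord f)) := by
  classical
  have := hD.fin
  have : Finite (SL(2, ℤ) ⧸ A.stab) := Subgroup.finite_quotient_of_finiteIndex
  let _ : Fintype (SL(2, ℤ) ⧸ A.stab) := Fintype.ofFinite _
  have hpow : ∀ (n : ℕ) (c : SL(2, ℤ) ⧸ A.stab),
      ((MulAction.toPerm g₀ : Equiv.Perm (SL(2, ℤ) ⧸ A.stab)) ^ n) c = g₀ ^ n • c :=
    fun n c => toPerm_pow_apply' g₀ n c
  obtain ⟨i, d, hd, hdE, hfix, hdw, hdict⟩ := P3.helper80.local_dict_of t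
    (helper75.ff_finite_zeros t ht) (helper75.ff_sum_ord_zeros t ht)
    (fun w s hw => helper82.ff_exists_separating t ht w s hw)
    (MeroGerm.V C.z₀) C.sigmaQ C.sigmaQ_injective
    (by rw [← Nat.card_eq_fintype_card]; exact hcard)
    (fun i c hc => by
      unfold Chart.sigmaQ
      rw [C.sigma_algebraMap]
      exact MeroGerm.V_const hc)
    (fun i j c => by
      unfold Chart.sigmaQ
      rw [C.sigma_algebraMap, C.sigma_algebraMap])
    (fun i j => htagree _ _)
    E hE (fun i => htE _)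
    (MulAction.toPerm g₀)
    (by
      ext c
      rw [hpow, hg₀]
      rfl)
    (by
      intro i f
      by_cases hE1 : E = 1
      · have : (MulAction.toPerm g₀ : Equiv.Perm (SL(2, ℤ) ⧸ A.stab)) i = i := by
          have := hg₀ i
          rw [hE1, pow_one] at this
          exact this
        rw [this]
      · obtain ⟨φ, hR, -⟩ := hrot E dvd_rfl (by omega)
        rw [Nat.div_self hE, pow_one] at hR
        have : (MulAction.toPerm g₀ : Equiv.Perm (SL(2, ℤ) ⧸ A.stab)) i = g₀ • i := rfl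
        rw [this, C.sigmaQ_smul g₀ i φ hR, RingHom.comp_apply, V_precomp])
    (by
      intro i k hk hfix f hf
      have hne : C.sigmaQ i f ≠ 0 := C.sigma_ne_zero _ hf
      by_cases hk1 : k = 1
      · obtain ⟨n, hn⟩ := MeroGerm.exists_int_V_eq hne
        exact ⟨n, by rw [hn, hk1]; simp⟩
      · have hk0 : 0 < k := Nat.pos_of_dvd_of_pos hk hE
        obtain ⟨φ, hR, hprim⟩ := hrot k hk (by omega)
        rw [hpow] at hfix
        have h1 := C.sigmaQ_smul (g₀ ^ (E / k)) i φ hR
        rw [hfix] at h1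
        have h2 : precomp φ hR.an hR.fix hR.deriv_ne (C.sigmaQ i f) = C.sigmaQ i f := by
          conv_rhs => rw [h1]
          rfl
        exact exists_V_eq_of_precomp_eq φ hR.an hR.fix hR.deriv_ne hk0 hprim _ hne h2)
    w hw
  induction i using QuotientGroup.induction_on with
  | H g =>
  refine ⟨g, d, hd, hdE, ?_, hdw, fun f hf => ?_⟩
  · rw [hpow] at hfix
    have h1 : (QuotientGroup.mk (g₀ ^ (E / d) * g) : SL(2, ℤ) ⧸ A.stab)
        = QuotientGroup.mk g := hfix
    have h2 := QuotientGroup.eq.mp h1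
    have h3 : g⁻¹ * g₀ ^ (E / d) * g = ((g₀ ^ (E / d) * g)⁻¹ * g)⁻¹ := by group
    rw [h3]
    exact inv_mem h2
  · have := hdict f hf
    rwa [C.sigmaQ_mk] at this

/-! ### Interior points -/

/-- The dictionary over an interior point. -/
theorem dict_interior_of (hD : A.HasDegree) (a : ℂ) (τ₀ : ℍ) (E : ℕ) (hE : 0 < E)
    (hord : meromorphicOrderAt (fun z => jfun (ofComplex z) - a) (τ₀ : ℂ) = (E : ℤ))
    (g₀ : SL(2, ℤ)) (hg₀ : ∀ c : SL(2, ℤ) ⧸ A.stab, g₀ ^ E • c = c)
    (hrot : ∀ k : ℕ, k ∣ E → 1 < k → (g₀ ^ (E / k))⁻¹ • τ₀ = τ₀ ∧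
      IsPrimitiveRoot (deriv (helper48.chartSL (g₀ ^ (E / k))⁻¹) (τ₀ : ℂ)) k)
    (w : Place ℂ A.F) (hw : 0 < w.ord (A.xJ - algebraMap ℂ A.F a)) :
    ∃ (g : SL(2, ℤ)) (d : ℕ), 0 < d ∧ d ∣ E ∧ g⁻¹ * g₀ ^ (E / d) * g ∈ A.stab ∧
      (d : ℤ) * w.ord (A.xJ - algebraMap ℂ A.F a) = E ∧
      ∀ f : A.F, f ≠ 0 →
        MeroGerm.V (τ₀ : ℂ) ((interiorChart A τ₀).sigma g f) = exp (-((d : ℤ) * w.ord f)) := by
  have hadj : ℂ⟮A.xJ - algebraMap ℂ A.F a⟯ = ℂ⟮A.xJ⟯ :=
    helper55.adjoin_sub_algebraMap_eq A.xJ a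
  have : FiniteDimensional ℂ⟮A.xJ - algebraMap ℂ A.F a⟯ A.F := by
    rw [hadj]
    exact hD.fd
  have hcard : A.stab.index
      = Module.finrank ℂ⟮A.xJ - algebraMap ℂ A.F a⟯ A.F := by
    rw [hadj]
    exact hD.deg.symm
  exact dict_of_chart A hD (interiorChart A τ₀)
    (A.xJ - algebraMap ℂ A.F a)
    (helper55.transcendental_sub_algebraMap (xJ_transcendental A) a)
    hcard
    (fun g g' => by rw [sigma_interior_sub, sigma_interior_sub])
    E hE
    (fun g => by
      rw [sigma_interior_sub]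
      exact MeroGerm.V_mk_of_order_eq _ hord)
    g₀ hg₀
    (fun k hk hk1 => ⟨_, isRot_interior A τ₀ _ (hrot k hk hk1).1, (hrot k hk hk1).2⟩)
    w hw

/-- **The dictionary at interior points.**  For every place `w` of `A.F` which is not a pole of
`j` there are a point `τ₀`, a rotation `h ∈ SL(2,ℤ)` of order `d` around `τ₀` (`h⁻¹ τ₀ = τ₀`, and
the derivative of `z ↦ h⁻¹ z` at `τ₀` is a primitive `d`-th root of unity, if `d > 1`; `h = 1` if
`d = 1`), and a coset `g` with `g⁻¹ h g ∈ A.stab`, such that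
`V_{τ₀} (f ∘ g⁻¹) = exp (- d · ord_w f)` for all `f ≠ 0`. -/
theorem dict_interior (hD : A.HasDegree) (w : Place ℂ A.F) (hw : 0 ≤ w.ord A.xJ) :
    ∃ (τ₀ : ℍ) (g h : SL(2, ℤ)) (d : ℕ), 0 < d ∧ g⁻¹ * h * g ∈ A.stab ∧
      (d = 1 → h = 1) ∧
      (1 < d → h⁻¹ • τ₀ = τ₀ ∧ IsPrimitiveRoot (deriv (helper48.chartSL h⁻¹) (τ₀ : ℂ)) d) ∧
      ∀ f : A.F, f ≠ 0 →
        MeroGerm.V (τ₀ : ℂ) ((interiorChart A τ₀).sigma g f) = exp (-((d : ℤ) * w.ord f)) := by
  have := hD.fd
  obtain ⟨a, ha⟩ := helper82.ff_exists_residue A.xJ (xJ_transcendental A) w A.xJ hw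
  have hw' : 0 < w.ord (A.xJ - algebraMap ℂ A.F a) := by
    rcases ha with ha | ha
    · exact absurd ⟨a, ha.symm⟩ (helper55.not_mem_range_of_transcendental (xJ_transcendental A))
    · exact ha
  by_cases h0 : a = 0
  · -- the point `ρ`
    subst h0
    have hord := helper48.meromorphicOrderAt_jan_sub_zero_rho
    obtain ⟨g, d, hd, hdE, hmem, -, hdict⟩ := dict_interior_of A hD 0 helper48.rho 3
      (by norm_num) (by exact_mod_cast hord)
      (ModularGroup.S * ModularGroup.T)
      (fun c => by rw [helper27.ST_cube]; exact neg_one_smul_quot A c)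
      (fun k hk hk1 => by
        have hk3 : k = 3 := by
          have h3 : Nat.Prime 3 := by norm_num
          rcases (Nat.dvd_prime h3).mp hk with h | h
          · omega
          · exact h
        subst hk3
        rw [Nat.div_self (by norm_num), pow_one]
        exact ⟨helper48.STinv_smul_rho, helper48.isPrimitiveRoot_deriv_chartSL_STinv_rho⟩)
      w hw'
    have h3 : Nat.Prime 3 := by norm_num
    rcases (Nat.dvd_prime h3).mp hdE with h | h
    · subst h
      refine ⟨helper48.rho, g, 1, 1, one_pos, by simp, fun _ => rfl, fun h => absurd h (by norm_num),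
        hdict⟩
    · subst h
      rw [Nat.div_self (by norm_num), pow_one] at hmem
      exact ⟨helper48.rho, g, _, 3, by norm_num, hmem, fun h => absurd h (by norm_num),
        fun _ => ⟨helper48.STinv_smul_rho, helper48.isPrimitiveRoot_deriv_chartSL_STinv_rho⟩,
        hdict⟩
  by_cases h1 : a = 1728
  · -- the point `i`
    subst h1
    have hord := helper48.meromorphicOrderAt_jan_sub_1728_I
    obtain ⟨g, d, hd, hdE, hmem, -, hdict⟩ := dict_interior_of A hD 1728 UpperHalfPlane.I 2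
      two_pos (by exact_mod_cast hord)
      ModularGroup.S
      (fun c => by rw [helper27.S_sq]; exact neg_one_smul_quot A c)
      (fun k hk hk1 => by
        have hk2 : k = 2 := by
          have := Nat.le_of_dvd two_pos hk
          omega
        subst hk2
        rw [Nat.div_self two_pos, pow_one]
        exact ⟨helper48.Sinv_smul_I, helper48.isPrimitiveRoot_deriv_chartSL_Sinv_I⟩)
      w hw'
    have h2 : Nat.Prime 2 := Nat.prime_two
    rcases (Nat.dvd_prime h2).mp hdE with h | h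
    · subst h
      refine ⟨UpperHalfPlane.I, g, 1, 1, one_pos, by simp, fun _ => rfl,
        fun h => absurd h (by norm_num), hdict⟩
    · subst h
      rw [Nat.div_self two_pos, pow_one] at hmem
      exact ⟨UpperHalfPlane.I, g, _, 2, two_pos, hmem, fun h => absurd h (by norm_num),
        fun _ => ⟨helper48.Sinv_smul_I, helper48.isPrimitiveRoot_deriv_chartSL_Sinv_I⟩, hdict⟩
  · -- a generic point
    obtain ⟨τ₀, hτ₀⟩ := helper48.jan_surjective a
    have h0' : helper48.jan τ₀ ≠ 0 := by rw [hτ₀]; exact h0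
    have h1' : helper48.jan τ₀ ≠ 1728 := by rw [hτ₀]; exact h1
    have hord := helper48.meromorphicOrderAt_jan_sub τ₀ h0' h1'
    rw [hτ₀] at hord
    obtain ⟨g, d, hd, hdE, hmem, -, hdict⟩ := dict_interior_of A hD a τ₀ 1 one_pos
      (by exact_mod_cast hord) 1
      (fun c => by simp) (fun k hk hk1 => by
        have := Nat.le_of_dvd one_pos hk
        omega)
      w hw'
    have hd1 : d = 1 := Nat.dvd_one.mp hdE
    subst hd1
    exact ⟨τ₀, g, 1, 1, one_pos, by simp, fun _ => rfl, fun h => absurd h (by norm_num), hdict⟩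

end Fermat.Agent.T4.helper80.Gen
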