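import Mathlib
import Fermat.Agent.T4.helper80_GenAnDict
import Fermat.Agent.T4.helper80_GenDict
import Fermat.Agent.P3.helper48_AN1Root

/-!
# T4 (I) / I-FLD [ANDICT], part 7 (helper80): holomorphic invariant functions lie in the field,
and the `root_mem` clause of the analytic dictionary

Generic form of `Fermat.Agent.P3.helper48` (`AN1Core`, `AN1Ratio`, `AN1Root`, `AN1RootMem`), for
a family `A : Fam ι` (finite index set, stabiliser of finite index, exponential growth).

* `mem_of_isQExp` (**Theorem A**): the `q`-expansion of a holomorphic `A.stab`-invariant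
  function, all of whose translates have at most exponential growth, lies in `A.S`.
* `root_glue`, `rootMemStatement` : the `root_mem` clause for every `Γ ≤ A.stab` with
  `A.stab = ± Γ`.
* `anDictFull` : the unconditional analytic dictionary `helper20.AnDict A.F Γ`.
-/

set_option autoImplicit false

noncomputable section

open UpperHalfPlane ModularForm Filter Topology CongruenceSubgroup ModularCurve
  IntermediateField Polynomial
open scoped MatrixGroups Manifold

namespace Fermat.Agent.T4.helper80.Gen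

open Fermat.Agent.S24 Fermat.Agent.S24.helper24 Fermat.Agent.S24.helper99
open Fermat.Agent.P3.helper20 Fermat.Agent.P3.helper34

variable {ι : Type*} (A : Fam ι)

/-! ### A basis over `ℂ[j]` -/

/-- There are `n = [SL(2,ℤ) : stab]` elements of the field which are linearly independent over
`ℂ[j]`. -/
theorem exists_poly_independent (hD : A.HasDegree) :
    ∃ B : Fin A.stab.index → LaurentSeries ℂ,
      (∀ i, B i ∈ A.S) ∧
      ∀ c : Fin A.stab.index → Polynomial ℂ,
        ∑ i, aeval (jqModC ℂ) (c i) * B i = 0 → ∀ i, c i = 0 := by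
  have := hD.fd
  let b := Module.finBasisOfFinrankEq ℂ⟮A.xJ⟯ A.F hD.deg
  refine ⟨fun i => ((b i : A.F) : LaurentSeries ℂ), fun i => (b i).2, fun c hc => ?_⟩
  have hmem : ∀ i, aeval A.xJ (c i) ∈ ℂ⟮A.xJ⟯ := fun i =>
    (Algebra.adjoin_le (S := (ℂ⟮A.xJ⟯).toSubalgebra)
      (Set.singleton_subset_iff.mpr (mem_adjoin_simple_self ℂ A.xJ)))
      (Polynomial.aeval_mem_adjoin_singleton ℂ _)
  have hinj : Function.Injective (A.S.val : A.F → LaurentSeries ℂ) := Subtype.val_injective
  have h1 : ∑ i, (⟨aeval A.xJ (c i), hmem i⟩ : ℂ⟮A.xJ⟯) • b i = 0 := by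
    have hcoe : ∀ y : A.F, (A.S.val y : LaurentSeries ℂ) = y := fun _ => rfl
    apply hinj
    rw [map_sum, map_zero, ← hc]
    refine Finset.sum_congr rfl fun i _ => ?_
    have h2 : (⟨aeval A.xJ (c i), hmem i⟩ : ℂ⟮A.xJ⟯) • b i = aeval A.xJ (c i) * b i := rfl
    rw [h2, map_mul, ← Polynomial.aeval_algHom_apply, hcoe, hcoe, A.coe_xJ]
  have h3 := (Fintype.linearIndependent_iff.mp b.linearIndependent) _ h1
  intro i
  have h4 : aeval A.xJ (c i) = 0 := congrArg Subtype.val (h3 i)
  by_contra hne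
  exact xJ_transcendental A ⟨c i, hne, h4⟩

/-! ### Adding a function to the family -/

/-- The family `A` together with one more function. -/
def Fam.extend (S : LaurentSeries ℂ) (s : ℍ → ℂ) (hS : helper17.IsQExp S s) :
    Fam (Option ι) where
  x := fun o => o.elim S A.x
  X := fun o => o.elim s A.X
  S := IntermediateField.adjoin ℂ (Set.range fun o : Option ι => o.elim S A.x)
  hS := rfl
  hq := by
    rintro (_ | i)
    · exact hS
    · exact A.hq i
  i₀ := some A.i₀
  hj := A.hj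

theorem stab_extend (S : LaurentSeries ℂ) (s : ℍ → ℂ) (hS : helper17.IsQExp S s)
    (hinv : ∀ γ ∈ A.stab, ∀ τ : ℍ, s (γ • τ) = s τ) : (A.extend S s hS).stab = A.stab := by
  ext g
  constructor
  · intro hg i τ
    exact hg (some i) τ
  · intro hg o τ
    rcases o with _ | i
    · exact hinv g hg τ
    · exact hg i τ

theorem le_extend (S : LaurentSeries ℂ) (s : ℍ → ℂ) (hS : helper17.IsQExp S s) :
    A.S ≤ (A.extend S s hS).S := by
  rw [A.hS, IntermediateField.adjoin_le_iff]
  rintro _ ⟨i, rfl⟩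
  exact IntermediateField.subset_adjoin ℂ _ ⟨some i, rfl⟩

open scoped IntermediateField.algebraAdjoinAdjoin in
/-- **Theorem A.** The `q`-expansion of a holomorphic `A.stab`-invariant function on `ℍ` with at
most exponential growth at all cusps lies in the field `A.S`. -/
theorem mem_of_isQExp [Finite ι] (hD : A.HasDegree) (hexp : A.ExpGrowth)
    {s : ℍ → ℂ} {S : LaurentSeries ℂ} (hS : helper17.IsQExp S s)
    (hinv : ∀ γ ∈ A.stab, ∀ τ : ℍ, s (γ • τ) = s τ)
    (hmem : ∀ g : SL(2, ℤ), S24.helper77.precomp g s ∈ S24.helper77.holoExp) : S ∈ A.S := by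
  have := hD.fin
  set A' := A.extend S s hS with hA'
  have hstab : A'.stab = A.stab := stab_extend A S s hS hinv
  have hfin' : A'.stab.FiniteIndex := by rw [hstab]; exact hD.fin
  have hexp' : A'.ExpGrowth := by
    rintro g (_ | i)
    · exact hmem g
    · exact hexp g i
  obtain ⟨hfd, hle⟩ := finiteDimensional_and_finrank_le A' hexp'
  rw [hstab] at hle
  obtain ⟨B, hB1, hB2⟩ := exists_poly_independent A hD
  set x := A'.xJ with hx
  have hxcoe : (x : LaurentSeries ℂ) = jqModC ℂ := A'.coe_xJ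
  have hcoe : ∀ y : A'.F, (A'.S.val y : LaurentSeries ℂ) = y := fun _ => rfl
  let b : Fin A.stab.index → A'.F := fun i => ⟨B i, le_extend A S s hS (hB1 i)⟩
  -- linear independence over `ℂ[x]`, hence over `ℂ(x)`
  have hli : LinearIndependent ℂ⟮x⟯ b := by
    rw [← LinearIndependent.iff_fractionRing (Algebra.adjoin ℂ {x}) ℂ⟮x⟯]
    rw [Fintype.linearIndependent_iff]
    intro g hg i
    have hgc : ∀ i, ∃ c : Polynomial ℂ, aeval x c = (g i : A'.F) := fun i => by
      have h := (g i).2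
      have h' : (g i : A'.F) ∈ (Polynomial.aeval (R := ℂ) x).range :=
        Algebra.adjoin_singleton_eq_range_aeval ℂ x ▸ h
      exact h'
    choose c hc using hgc
    have hc0 : ∀ i, c i = 0 := by
      refine hB2 c ?_
      have h1 := congrArg A'.S.val hg
      rw [map_sum, map_zero] at h1
      rw [← h1]
      refine Finset.sum_congr rfl fun i _ => ?_
      have h2 : g i • b i = aeval x (c i) * b i := by
        rw [hc i]
        rfl
      rw [h2, map_mul, ← Polynomial.aeval_algHom_apply, hcoe, hcoe, hxcoe]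
    apply Subtype.ext
    rw [← hc i, hc0 i, map_zero]
    rfl
  -- the family `b` is a basis
  have hcard : Fintype.card (Fin A.stab.index) = Module.finrank ℂ⟮x⟯ A'.F := by
    apply le_antisymm
    · exact hli.fintype_card_le_finrank
    · rw [Fintype.card_fin]
      exact hle
  have hspan := hli.span_eq_top_of_card_eq_finrank' hcard
  -- elements of `ℂ(x)` lie in `A.S`
  have hxS : (x : LaurentSeries ℂ) ∈ A.S := by
    rw [hxcoe, ← A.x_i₀]
    exact A.x_mem A.i₀
  have hE : ∀ e : ℂ⟮x⟯, (((e : A'.F)) : LaurentSeries ℂ) ∈ A.S := by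
    intro e
    obtain ⟨r, t, hrt⟩ := (mem_adjoin_simple_iff ℂ (e : A'.F)).mp e.2
    rw [hrt, ← hcoe, map_div₀, ← Polynomial.aeval_algHom_apply, ← Polynomial.aeval_algHom_apply,
      hcoe]
    have hpoly : ∀ r : Polynomial ℂ, aeval (x : LaurentSeries ℂ) r ∈ A.S := fun r =>
      (Algebra.adjoin_le (S := A.S.toSubalgebra) (Set.singleton_subset_iff.mpr hxS))
        (Polynomial.aeval_mem_adjoin_singleton ℂ _)
    exact div_mem (hpoly r) (hpoly t)
  have hall : ∀ y ∈ Submodule.span ℂ⟮x⟯ (Set.range b),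
      ((y : A'.F) : LaurentSeries ℂ) ∈ A.S := by
    intro y hy
    induction hy using Submodule.span_induction with
    | mem y hy =>
      obtain ⟨i, rfl⟩ := hy
      exact hB1 i
    | zero => exact zero_mem _
    | add y z _ _ hy hz => exact add_mem hy hz
    | smul e y _ hy => exact mul_mem (hE e) hy
  have hSmem : (A'.gen none) ∈ Submodule.span ℂ⟮x⟯ (Set.range b) := by
    rw [hspan]
    trivial
  exact hall _ hSmem

/-- **Theorem A**, with existence of the `q`-expansion. -/
theorem exists_mem_isQExp [Finite ι] (hD : A.HasDegree) (hexp : A.ExpGrowth) {s : ℍ → ℂ}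
    (hinv : ∀ γ ∈ A.stab, ∀ τ : ℍ, s (γ • τ) = s τ)
    (hmem : ∀ g : SL(2, ℤ), S24.helper77.precomp g s ∈ S24.helper77.holoExp) :
    ∃ S ∈ A.S, helper17.IsQExp S s := by
  have h1 : s ∈ S24.helper77.holoExp := by
    have := hmem 1
    rwa [S24.helper77.precomp_one] at this
  have hT : ModularGroup.T ∈ A.stab := by
    intro i τ
    have hper := (A.hq i).eventually
    obtain ⟨M₀, hM₀⟩ := hper
    obtain ⟨hnice, -⟩ := hM₀ M₀ le_rfl
    have h2 := hnice.periodic (τ : ℂ)
    simp only [Function.comp_apply] at h2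
    have hτ' : 0 < ((τ : ℂ) + 1).im := by simpa using τ.im_pos
    rw [ofComplex_apply, ofComplex_apply_of_im_pos hτ'] at h2
    have e : (⟨(τ : ℂ) + 1, hτ'⟩ : ℍ) = ModularGroup.T • τ := by
      apply UpperHalfPlane.ext
      rw [UpperHalfPlane.modular_T_smul, UpperHalfPlane.coe_vadd]
      simp [add_comm]
    rw [e] at h2
    have hq1 : Function.Periodic.qParam 1 ((ModularGroup.T • τ : ℍ) : ℂ)
        = Function.Periodic.qParam 1 (τ : ℂ) := by
      rw [← e]
      exact helper17.qParam_add_one _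
    rw [hq1] at h2
    exact mul_left_cancel₀ (pow_ne_zero _ (Function.Periodic.qParam_ne_zero _)) h2
  obtain ⟨S, hS⟩ := P3.helper48.exists_isQExp h1 (fun τ => by
    have := hinv _ hT τ
    rwa [UpperHalfPlane.modular_T_smul] at this)
  exact ⟨S, mem_of_isQExp A hD hexp hS hinv hmem, hS⟩

/-! ### Roots -/

/-- The function `P(X_i)` on `ℂ` (junk outside the upper half plane). -/
def evP (P : MvPolynomial ι ℂ) (w : ℂ) : ℂ := A.ev0 P (ofComplex w)

theorem evP_coe (P : MvPolynomial ι ℂ) (τ : ℍ) : evP A P (τ : ℂ) = A.ev0 P τ := by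
  rw [evP, ofComplex_apply]

theorem analyticOnNhd_evP (P : MvPolynomial ι ℂ) :
    AnalyticOnNhd ℂ (evP A P) {z : ℂ | 0 < z.im} :=
  (UpperHalfPlane.mdifferentiable_iff.mp (A.mdiff_ev0 P)).analyticOnNhd
    UpperHalfPlane.isOpen_upperHalfPlaneSet

theorem evP_mul (P Q : MvPolynomial ι ℂ) (w : ℂ) :
    evP A (P * Q) w = evP A P w * evP A Q w := A.ev0_mul P Q _

theorem evP_pow (P : MvPolynomial ι ℂ) (n : ℕ) (w : ℂ) :
    evP A (P ^ n) w = evP A P w ^ n := by
  induction n with
  | zero => simp [evP, Fam.ev0]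
  | succ n ih => rw [pow_succ, pow_succ, evP_mul, ih]

/-- A polynomial in the `X i` which is nonzero as a `q`-series is nonzero on a punctured
neighbourhood of every point of `H`. -/
theorem eventually_evP_ne_zero {Q : MvPolynomial ι ℂ}
    (hQ : MvPolynomial.aeval A.x Q ≠ 0) {z : ℂ} (hz : z ∈ {z : ℂ | 0 < z.im}) :
    ∀ᶠ w in 𝓝[≠] z, evP A Q w ≠ 0 := by
  by_contra hcon
  rw [Filter.not_eventually] at hcon
  have hfreq : ∃ᶠ w in 𝓝[≠] z, evP A Q w = 0 := hcon.mono fun w hw => not_not.mp hw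
  have h0 := (analyticOnNhd_evP A Q).eqOn_zero_of_preconnected_of_frequently_eq_zero
    P3.helper48.isPreconnected_uhp hz hfreq
  apply hQ
  rw [A.bridge]
  intro τ
  have := h0 τ.2
  rwa [evP_coe] at this

theorem evP_moebC {γ : SL(2, ℤ)} (hγ : γ ∈ A.stab)
    (P : MvPolynomial ι ℂ) {w : ℂ} (hw : w ∈ {z : ℂ | 0 < z.im}) :
    evP A P (moebC γ w) = evP A P w := by
  rw [moebC_eq_coe γ hw, evP_coe, A.ev0_smul_of_mem_stab P hγ]
  exact (evP_coe A P ⟨w, hw⟩).symm

theorem isQExp_ev0 (P : MvPolynomial ι ℂ) :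
    helper17.IsQExp (MvPolynomial.aeval A.x P) (A.ev0 P) :=
  helper17.IsQExp.aeval A.hq P

theorem precomp_ev0_mem_holoExp (hexp : A.ExpGrowth) (g : SL(2, ℤ)) (P : MvPolynomial ι ℂ) :
    S24.helper77.precomp g (A.ev0 P) ∈ S24.helper77.holoExp := by
  have e : A.ev0 P = T4.helper77.thetaG A.X P := by
    funext τ
    rw [T4.helper77.thetaG_apply]
    rfl
  rw [e]
  exact T4.helper77.precomp_thetaG_mem_holoExp A.X hexp g P

/-- The element `P(x) / Q(x)` of the field. -/
def ratF (P Q : MvPolynomial ι ℂ) : A.F :=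
  (⟨_, A.aeval_mem P⟩ : A.F) / ⟨_, A.aeval_mem Q⟩

/-- The element `P(x) / Q(x)` is represented by the function `P(X) / Q(X)`. -/
theorem represents_ratF (P Q : MvPolynomial ι ℂ) :
    Represents A (ratF A P Q) (fun w => evP A P w / evP A Q w) :=
  (represents_aeval A P ⟨_, A.aeval_mem P⟩ rfl).div
    (represents_aeval A Q ⟨_, A.aeval_mem Q⟩ rfl)

theorem eqH_evP_ratF (P Q : MvPolynomial ι ℂ) :
    EqH (fun w => evP A P w / evP A Q w) (evC A (ratF A P Q)) :=
  (represents_iff_eqH A).mp (represents_ratF A P Q)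

/-- **Roots of elements of the field.** If `g` is meromorphic on `H`, `Γ`-invariant (where the
stabiliser is `± Γ`), and `g ^ m` (`m ≥ 1`) is on punctured neighbourhoods the quotient
`P(X) / Q(X)` of two polynomials in the generators, then `g` is itself such a quotient. -/
theorem root_glue [Finite ι] (hD : A.HasDegree) (hexp : A.ExpGrowth)
    (Γ : Subgroup SL(2, ℤ)) (hΓ2 : ∀ g ∈ A.stab, g ∈ Γ ∨ -g ∈ Γ)
    {m : ℕ} (hm : 0 < m) (g : ℂ → ℂ)
    (hg : MeromorphicOn g {z : ℂ | 0 < z.im}) (P Q : MvPolynomial ι ℂ)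
    (hQ : MvPolynomial.aeval A.x Q ≠ 0)
    (hpow : EqH (fun w => g w ^ m) (fun w => evP A P w / evP A Q w))
    (hinv : ∀ γ : Γ, EqH (fun w => g (moebC (γ : SL(2, ℤ)) w)) g) :
    ∃ P' Q' : MvPolynomial ι ℂ, MvPolynomial.aeval A.x Q' ≠ 0 ∧
      EqH g (fun w => evP A P' w / evP A Q' w) := by
  -- the function `g Q(X)` and its `m`-th power `P Q^(m-1)`
  set g₁ : ℂ → ℂ := fun w => g w * evP A Q w with hg₁
  have hQan := analyticOnNhd_evP A Q
  have hg₁mero : MeromorphicOn g₁ {z : ℂ | 0 < z.im} :=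
    hg.fun_mul fun z hz => (hQan z hz).meromorphicAt
  set R : MvPolynomial ι ℂ := P * Q ^ (m - 1) with hR
  have hg₁pow : EqH (fun w => g₁ w ^ m) (evP A R) := by
    intro z hz
    filter_upwards [hpow z hz, eventually_evP_ne_zero A hQ hz] with w hw hw0
    simp only [hg₁, hR]
    rw [mul_pow, hw, evP_mul, evP_pow]
    obtain ⟨n, rfl⟩ : ∃ n, m = n + 1 := ⟨m - 1, by omega⟩
    rw [Nat.add_sub_cancel, pow_succ]
    field_simp
  obtain ⟨G, hGan, hg₁G, hGpow⟩ :=
    P3.helper48.exists_analytic_of_pow_eq hm hg₁mero (analyticOnNhd_evP A R) hg₁pow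
  -- invariance of `G` under `Γ ∩ stab`
  have hGinv0 : ∀ γ ∈ Γ, γ ∈ A.stab → ∀ z ∈ {z : ℂ | 0 < z.im}, G (moebC γ z) = G z := by
    intro γ hγ hγs z hz
    have h1 : EqH (fun w => g₁ (moebC γ w)) g₁ := by
      intro z hz
      have hH : {w : ℂ | 0 < w.im} ∈ 𝓝[≠] z :=
        mem_nhdsWithin_of_mem_nhds (UpperHalfPlane.isOpen_upperHalfPlaneSet.mem_nhds hz)
      filter_upwards [hinv ⟨γ, hγ⟩ z hz, hH] with w hw hwH
      simp only [hg₁]
      rw [hw, evP_moebC A hγs Q hwH]
    have h2 : EqH (fun w => G (moebC γ w)) G :=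
      ((hg₁G.comp_moebC γ).symm.trans h1).trans hg₁G
    have ha : AnalyticAt ℂ (fun w => G (moebC γ w)) z :=
      (hGan _ (moebC_im_pos γ hz)).comp (analyticAt_moebC γ hz)
    exact eq_of_meromorphicNFAt_of_eventuallyEq ha.meromorphicNFAt
      (hGan z hz).meromorphicNFAt (h2 z hz)
  -- the function on `ℍ`
  set s : ℍ → ℂ := fun τ => G (τ : ℂ) with hs
  have hsmd : MDiff s := helper17.mdiff_of_complex G hGan.differentiableOn
  have hsinv : ∀ γ ∈ A.stab, ∀ τ : ℍ, s (γ • τ) = s τ := by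
    intro γ hγ τ
    simp only [hs]
    rcases hΓ2 γ hγ with h | h
    · rw [← moebC_coe]
      exact hGinv0 γ h hγ τ τ.2
    · have hneg : (-γ) • τ = γ • τ := ModularGroup.SL_neg_smul γ τ
      have hγs : -γ ∈ A.stab := by
        have : -γ = (-1 : SL(2, ℤ)) * γ := by rw [neg_mul, one_mul]
        rw [this]
        exact A.stab.mul_mem A.neg_one_mem_stab hγ
      rw [← hneg, ← moebC_coe]
      exact hGinv0 (-γ) h hγs τ τ.2
  have hspow : s ^ m = A.ev0 R := by
    funext τ
    rw [Pi.pow_apply]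
    simp only [hs]
    rw [hGpow τ τ.2, evP_coe]
  have hsmem : ∀ δ : SL(2, ℤ), S24.helper77.precomp δ s ∈ S24.helper77.holoExp := by
    intro δ
    refine P3.helper48.mem_holoExp_of_pow_mem hm (P3.helper48.mdiff_precomp hsmd δ) ?_
    rw [← map_pow, hspow]
    exact precomp_ev0_mem_holoExp A hexp δ R
  obtain ⟨S, hSmem, hSq⟩ := exists_mem_isQExp A hD hexp hsinv hsmem
  obtain ⟨P', Q', hQ', hS⟩ := A.exists_poly_repr (⟨S, hSmem⟩ : A.F)
  have hS' : S = MvPolynomial.aeval A.x P' / MvPolynomial.aeval A.x Q' := hS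
  -- `s Q'(X) = P'(X)` as functions on `ℍ`
  have hfun : s * A.ev0 Q' = A.ev0 P' := by
    have h1 : helper17.IsQExp (S * MvPolynomial.aeval A.x Q') (s * A.ev0 Q') :=
      hSq.mul (isQExp_ev0 A Q')
    have h2 : S * MvPolynomial.aeval A.x Q' = MvPolynomial.aeval A.x P' := by
      rw [hS', div_mul_cancel₀ _ hQ']
    rw [h2] at h1
    exact h1.right_unique (isQExp_ev0 A P')
  refine ⟨P', Q' * Q, ?_, ?_⟩
  · rw [map_mul]
    exact mul_ne_zero hQ' hQ
  · intro z hz
    have hH : {w : ℂ | 0 < w.im} ∈ 𝓝[≠] z :=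
      mem_nhdsWithin_of_mem_nhds (UpperHalfPlane.isOpen_upperHalfPlaneSet.mem_nhds hz)
    filter_upwards [hg₁G z hz, eventually_evP_ne_zero A hQ hz,
      eventually_evP_ne_zero A hQ' hz, hH] with w hw hwQ hwQ' hwH
    have h3 : G w * evP A Q' w = evP A P' w := by
      have := congrFun hfun ⟨w, hwH⟩
      rw [Pi.mul_apply] at this
      simp only [hs] at this
      rw [← evP_coe, ← evP_coe] at this
      exact this
    have h4 : g w * evP A Q w = G w := hw
    rw [evP_mul]
    field_simp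
    rw [← h3, ← h4]
    ring

/-- **The `root_mem` clause of the analytic dictionary.** -/
theorem rootMemStatement [Finite ι] (hD : A.HasDegree) (hexp : A.ExpGrowth)
    (Γ : Subgroup SL(2, ℤ)) (hΓ2 : ∀ g ∈ A.stab, g ∈ Γ ∨ -g ∈ Γ) :
    RootMemStatement A Γ := by
  intro m h g hm _ hg hpow hinv
  obtain ⟨P, Q, hQ, hPQ⟩ := A.exists_poly_repr h
  have hh : h = ratF A P Q := Subtype.ext hPQ
  have hpow' : EqH (fun w => g w ^ m) (fun w => evP A P w / evP A Q w) := by
    rw [hh] at hpow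
    exact hpow.trans (eqH_evP_ratF A P Q).symm
  obtain ⟨P', Q', -, hg'⟩ := root_glue A hD hexp Γ hΓ2 hm g hg P Q hQ hpow' hinv
  exact ⟨ratF A P' Q', hg'.trans (eqH_evP_ratF A P' Q')⟩

/-- **The analytic dictionary** (unconditional): for a finite family `A` with stabiliser of
finite index and exponential growth, and a subgroup `Γ` with `A.stab = ± Γ`. -/
def anDictFull [Finite ι] [A.stab.FiniteIndex] (hexp : A.ExpGrowth)
    (Γ : Subgroup SL(2, ℤ)) (hΓ : Γ ≤ A.stab) (hΓ2 : ∀ g ∈ A.stab, g ∈ Γ ∨ -g ∈ Γ) :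
    AnDict A.F Γ :=
  haveI := (finiteDimensional_and_finrank_le A hexp).1
  anDict A Γ hΓ (rootMemStatement A (hasDegree_of_expGrowth A hexp) hexp Γ hΓ2)

@[simp] theorem anDictFull_ev [Finite ι] [A.stab.FiniteIndex] (hexp : A.ExpGrowth)
    (Γ : Subgroup SL(2, ℤ)) (hΓ : Γ ≤ A.stab) (hΓ2 : ∀ g ∈ A.stab, g ∈ Γ ∨ -g ∈ Γ) :
    (anDictFull A hexp Γ hΓ hΓ2).ev = evC A := rfl

end Fermat.Agent.T4.helper80.Gen
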