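import Mathlib
import Fermat.Agent.T4.helper80_GenRoot
import Fermat.Agent.P3.helper34_Ev

/-!
# T4 (I) / I-FLD [ANDICT], part 8 (helper80): the dictionary is standard

`isEv_evC` : for every `h ∈ A.F` the function `evC A h` is a function of the Laurent series `h`
in the sense of `helper34.IsEv` (a quotient of two holomorphic functions with `q`-expansions
`P(x)`, `Q(x)`, `h · Q(x) = P(x)`).  Hence the dictionaries `anDict` / `anDictFull` are
standard (`IsStdDict` of `helper21_AN1Defs`, the compatibility clause of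
`helper24.GenData.AnDictStatement`).
-/

set_option autoImplicit false

noncomputable section

open UpperHalfPlane ModularCurve
open scoped MatrixGroups Manifold

namespace Fermat.Agent.T4.helper80.Gen

open Fermat.Agent.S24
open Fermat.Agent.P3.helper20 Fermat.Agent.P3.helper34

variable {ι : Type*} (A : Fam ι)

/-- **The dictionary is standard.** -/
theorem isEv_evC (h : A.F) : IsEv (h : LaurentSeries ℂ) (evC A h) := by
  obtain ⟨P, Q, hQ, hPQ⟩ := A.exists_poly_repr h
  have hh : h = ratF A P Q := Subtype.ext hPQ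
  refine ⟨MvPolynomial.aeval A.x P, MvPolynomial.aeval A.x Q, A.ev0 P, A.ev0 Q,
    isQExp_ev0 A P, isQExp_ev0 A Q, hQ, ?_, ?_⟩
  · rw [hPQ, div_mul_cancel₀ _ hQ]
  · have := (eqH_evP_ratF A P Q).symm
    rw [← hh] at this
    exact this

/-- Any function representing `h` is a function of the Laurent series `h`. -/
theorem Represents.isEv {h : A.F} {f : ℂ → ℂ} (H : Represents A h f) :
    IsEv (h : LaurentSeries ℂ) f := by
  obtain ⟨S, B, a, b, hS, hB, hB0, hSB, hev⟩ := isEv_evC A h
  refine ⟨S, B, a, b, hS, hB, hB0, hSB, fun z hz => ?_⟩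
  exact (((represents_iff_eqH A).mp H) z hz).trans (hev z hz)

theorem isEv_anDict [FiniteDimensional (IntermediateField.adjoin ℂ {A.xJ}) A.F]
    (Γ : Subgroup SL(2, ℤ)) (hΓ : Γ ≤ A.stab) (hroot : RootMemStatement A Γ) (h : A.F) :
    IsEv (h : LaurentSeries ℂ) ((anDict A Γ hΓ hroot).ev h) :=
  isEv_evC A h

theorem isEv_anDictFull [Finite ι] [A.stab.FiniteIndex] (hexp : A.ExpGrowth)
    (Γ : Subgroup SL(2, ℤ)) (hΓ : Γ ≤ A.stab) (hΓ2 : ∀ g ∈ A.stab, g ∈ Γ ∨ -g ∈ Γ) (h : A.F) :
    IsEv (h : LaurentSeries ℂ) ((anDictFull A hexp Γ hΓ hΓ2).ev h) :=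
  isEv_evC A h

end Fermat.Agent.T4.helper80.Gen
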