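import Mathlib
import Fermat.Agent.T4.helper80_GenDict
import Fermat.Agent.S24.helper24_Cusp

/-!
# T4 (I) / I-FLD [ANDICT], part 6 (helper80): the chart at the cusp and the dictionary for the
poles of `j`

Generic form of `Fermat.Agent.S24.helper24` (`Cusp`) and `Fermat.Agent.P3.helper80` (`DictC`,
cusp part), for a family `A : Fam ι`.

* `exists_cusp_mero` : a holomorphic function on the upper half plane, invariant under `T ^ h`
  and of at most exponential growth at `i∞`, is a meromorphic function of `q_h = exp(2πiτ/h)`.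
* `CuspData A` : a width `h` (with `T ^ h` acting trivially on the cosets of `A.stab`) and the
  functions `H g i` of `q_h`, meromorphic at `0`, with `H g i (q_h τ) = X i (g⁻¹ τ)`;
  `cuspDataOfExpGrowth` : it exists if `A.stab` has finite index and `A.ExpGrowth` holds.
* `cuspChart A D : Chart A`.
* `dict_cusp` : every pole `w` of `j` is induced by the cusp chart and a coset `g`:
  `V_0 (sigma g f) = exp (- d · ord_w f)` with `d ∣ h` and `g⁻¹ T^(h/d) g ∈ A.stab`.
-/

set_option autoImplicit false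

noncomputable section

open UpperHalfPlane ModularForm Filter Topology CongruenceSubgroup ModularCurve
  IntermediateField AlgebraicCurve WithZero
open scoped MatrixGroups Manifold

namespace Fermat.Agent.T4.helper80.Gen

open Fermat.Agent.S24 Fermat.Agent.S24.helper24 Fermat.Agent.S24.helper99

local notation "𝕢" => Function.Periodic.qParam

/-! ### Meromorphy at the cusp -/

theorem coe_T_pow_smul (h : ℕ) (τ : ℍ) :
    ((ModularGroup.T ^ h • τ : ℍ) : ℂ) = (τ : ℂ) + h := by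
  have := ModularGroup.coe_T_zpow_smul_eq (z := τ) (n := (h : ℤ))
  rw [zpow_natCast] at this
  rw [this]
  push_cast
  rfl

theorem qParam_add_nat (h : ℕ) (hh : 0 < h) (z : ℂ) : 𝕢 (h : ℝ) (z + h) = 𝕢 (h : ℝ) z := by
  have hh' : ((h : ℝ) : ℂ) ≠ 0 := by exact_mod_cast hh.ne'
  unfold Function.Periodic.qParam
  have : 2 * (Real.pi : ℂ) * Complex.I * (z + (h : ℂ)) / ((h : ℝ) : ℂ)
      = 2 * Real.pi * Complex.I * z / ((h : ℝ) : ℂ) + 2 * Real.pi * Complex.I := by
    push_cast at hh' ⊢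
    field_simp
  rw [this, Complex.exp_add, Complex.exp_two_pi_mul_I, mul_one]

theorem norm_qParam_pow (h : ℕ) (hh : 0 < h) (K : ℕ) (z : ℂ) :
    ‖𝕢 (h : ℝ) z ^ (K * h)‖ = Real.exp (-(2 * Real.pi * K * z.im)) := by
  have hh' : (h : ℝ) ≠ 0 := by exact_mod_cast hh.ne'
  rw [norm_pow, Function.Periodic.norm_qParam, ← Real.exp_nat_mul]
  congr 1
  push_cast
  field_simp

/-- A holomorphic function on the upper half plane which is invariant under `T ^ h` and has at
most exponential growth at `i∞` is a meromorphic function of `q_h`. -/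
theorem exists_cusp_mero {F : ℍ → ℂ} {h : ℕ} (hh : 0 < h) (hmd : MDiff F)
    (hper : ∀ τ : ℍ, F (ModularGroup.T ^ h • τ) = F τ)
    (hexp : ∃ K : ℕ, F =O[atImInfty] fun τ => Real.exp (2 * Real.pi * K * τ.im)) :
    ∃ H : ℂ → ℂ, MeromorphicAt H 0 ∧ ∀ τ : ℍ, H (𝕢 (h : ℝ) τ) = F τ := by
  obtain ⟨K, hK⟩ := hexp
  have hhR : (0 : ℝ) < (h : ℝ) := by exact_mod_cast hh
  set G : ℍ → ℂ := fun τ => 𝕢 (h : ℝ) τ ^ (K * h) * F τ with hG
  have hGper : Function.Periodic (G ∘ ofComplex) (h : ℝ) := by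
    intro w
    simp only [Function.comp_apply]
    by_cases hw : 0 < w.im
    · have hw' : 0 < (w + ((h : ℝ) : ℂ)).im := by simpa using hw
      rw [ofComplex_apply_of_im_pos hw, ofComplex_apply_of_im_pos hw']
      have e : (⟨w + ((h : ℝ) : ℂ), hw'⟩ : ℍ) = ModularGroup.T ^ h • (⟨w, hw⟩ : ℍ) := by
        apply UpperHalfPlane.ext
        rw [coe_T_pow_smul]
        push_cast
        rfl
      rw [e, hG]
      simp only
      rw [hper, coe_T_pow_smul, qParam_add_nat h hh]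
    · have hw1 : w.im ≤ 0 := not_lt.mp hw
      have hw' : (w + ((h : ℝ) : ℂ)).im ≤ 0 := by simpa using hw1
      rw [ofComplex_apply_eq_of_im_nonpos hw' hw1]
  have hGmd : MDiff G := by
    have h1 : MDiff (fun τ : ℍ => 𝕢 (h : ℝ) τ ^ (K * h)) := by
      apply helper17.mdiff_of_complex (fun z : ℂ => 𝕢 (h : ℝ) z ^ (K * h))
      intro z _
      apply DifferentiableAt.differentiableWithinAt
      apply DifferentiableAt.pow
      unfold Function.Periodic.qParam
      fun_prop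
    exact h1.mul hmd
  have hGbdd : IsBoundedAtImInfty G := by
    rw [isBoundedAtImInfty_iff]
    rw [Asymptotics.isBigO_iff] at hK
    obtain ⟨C, hC⟩ := hK
    rw [Filter.Eventually, atImInfty_mem] at hC
    obtain ⟨A, hA⟩ := hC
    refine ⟨C, A, fun z hz => ?_⟩
    have h1 : ‖F z‖ ≤ C * ‖Real.exp (2 * Real.pi * K * z.im)‖ := hA z hz
    rw [Real.norm_of_nonneg (Real.exp_pos _).le] at h1
    rw [hG]
    simp only
    rw [norm_mul, norm_qParam_pow h hh K]
    have h2 : Real.exp (-(2 * Real.pi * K * (z : ℂ).im)) * Real.exp (2 * Real.pi * K * z.im)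
        = 1 := by
      rw [← Real.exp_add]
      have : -(2 * Real.pi * K * (z : ℂ).im) + 2 * Real.pi * K * z.im = 0 := by
        rw [UpperHalfPlane.coe_im]
        ring
      rw [this, Real.exp_zero]
    calc Real.exp (-(2 * Real.pi * K * (z : ℂ).im)) * ‖F z‖
        ≤ Real.exp (-(2 * Real.pi * K * (z : ℂ).im)) * (C * Real.exp (2 * Real.pi * K * z.im)) :=
          mul_le_mul_of_nonneg_left h1 (Real.exp_pos _).le
      _ = C * (Real.exp (-(2 * Real.pi * K * (z : ℂ).im)) * Real.exp (2 * Real.pi * K * z.im)) := by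
          ring
      _ = C := by rw [h2, mul_one]
  have han : AnalyticAt ℂ (cuspFunction (h : ℝ) G) 0 :=
    analyticAt_cuspFunction_zero hhR hGper hGmd hGbdd
  refine ⟨fun q => cuspFunction (h : ℝ) G q / q ^ (K * h),
    han.meromorphicAt.div (analyticAt_id.pow _).meromorphicAt, fun τ => ?_⟩
  show cuspFunction (h : ℝ) G (𝕢 (h : ℝ) τ) / (𝕢 (h : ℝ) τ) ^ (K * h) = F τ
  rw [eq_cuspFunction τ hhR.ne' hGper, hG]
  simp only
  exact mul_div_cancel_left₀ _ (pow_ne_zero _ (Function.Periodic.qParam_ne_zero _))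

/-! ### Cusp data -/

variable {ι : Type*} (A : Fam ι)

/-- The data of the cusp chart: a width `h` such that `T ^ h` acts trivially on the cosets of
the stabiliser, and the conjugates of the generators as meromorphic functions of `q_h`. -/
structure CuspData where
  /-- the width -/
  h : ℕ
  hpos : 0 < h
  hT : ∀ c : SL(2, ℤ) ⧸ A.stab, ModularGroup.T ^ h • c = c
  /-- the conjugates of the `X i` as functions of `q_h` -/
  H : SL(2, ℤ) → ι → ℂ → ℂ
  H_mero : ∀ g i, MeromorphicAt (H g i) 0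
  H_spec : ∀ g i (τ : ℍ), H g i (𝕢 (h : ℝ) τ) = A.X i (g⁻¹ • τ)

theorem conj_T_pow_mem_stab {h : ℕ} (hT : ∀ c : SL(2, ℤ) ⧸ A.stab, ModularGroup.T ^ h • c = c)
    (g : SL(2, ℤ)) : g⁻¹ * ModularGroup.T ^ h * g ∈ A.stab := by
  have h1 : (QuotientGroup.mk (ModularGroup.T ^ h * g) : SL(2, ℤ) ⧸ A.stab)
      = QuotientGroup.mk g := hT (QuotientGroup.mk g)
  have h2 := QuotientGroup.eq.mp h1
  have h3 : g⁻¹ * ModularGroup.T ^ h * g = ((ModularGroup.T ^ h * g)⁻¹ * g)⁻¹ := by group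
  rw [h3]
  exact inv_mem h2

theorem X_conj_T_pow {h : ℕ} (hT : ∀ c : SL(2, ℤ) ⧸ A.stab, ModularGroup.T ^ h • c = c)
    (g : SL(2, ℤ)) (i : ι) (τ : ℍ) :
    A.X i (g⁻¹ • (ModularGroup.T ^ h • τ)) = A.X i (g⁻¹ • τ) := by
  have hmem := conj_T_pow_mem_stab A hT g
  have := hmem i (g⁻¹ • τ)
  rw [mul_smul, mul_smul, smul_inv_smul] at this
  exact this

theorem exists_width [A.stab.FiniteIndex] :
    ∃ h : ℕ, 0 < h ∧ ∀ c : SL(2, ℤ) ⧸ A.stab, ModularGroup.T ^ h • c = c := by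
  classical
  have : Finite (SL(2, ℤ) ⧸ A.stab) := Subgroup.finite_quotient_of_finiteIndex
  refine ⟨orderOf (MulAction.toPerm ModularGroup.T : Equiv.Perm (SL(2, ℤ) ⧸ A.stab)),
    orderOf_pos _, fun c => ?_⟩
  rw [← toPerm_pow_apply', pow_orderOf_eq_one]
  rfl

theorem exists_cusp_fun [A.stab.FiniteIndex] (hexp : A.ExpGrowth) {h : ℕ} (hh : 0 < h)
    (hT : ∀ c : SL(2, ℤ) ⧸ A.stab, ModularGroup.T ^ h • c = c) (g : SL(2, ℤ)) (i : ι) :
    ∃ H : ℂ → ℂ, MeromorphicAt H 0 ∧ ∀ τ : ℍ, H (𝕢 (h : ℝ) τ) = A.X i (g⁻¹ • τ) := by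
  obtain ⟨hmd, K, hK⟩ := hexp g i
  exact exists_cusp_mero (F := fun τ => A.X i (g⁻¹ • τ)) hh hmd
    (fun τ => X_conj_T_pow A hT g i τ) ⟨K, hK⟩

/-- Cusp data exist if the stabiliser has finite index and the growth condition holds. -/
def cuspDataOfExpGrowth [A.stab.FiniteIndex] (hexp : A.ExpGrowth) : CuspData A where
  h := (exists_width A).choose
  hpos := (exists_width A).choose_spec.1
  hT := (exists_width A).choose_spec.2
  H := fun g i => (exists_cusp_fun A hexp (exists_width A).choose_spec.1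
    (exists_width A).choose_spec.2 g i).choose
  H_mero := fun g i => (exists_cusp_fun A hexp (exists_width A).choose_spec.1
    (exists_width A).choose_spec.2 g i).choose_spec.1
  H_spec := fun g i => (exists_cusp_fun A hexp (exists_width A).choose_spec.1
    (exists_width A).choose_spec.2 g i).choose_spec.2

/-! ### The cusp chart -/

variable {A}

/-- The chart at the cusp `∞`, with local parameter `q_h = exp (2 π i τ / h)`. -/
@[reducible] def cuspChart (D : CuspData A) : Chart A where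
  z₀ := 0
  u := fun τ => 𝕢 (D.h : ℝ) τ
  u_cont := Function.Periodic.continuous_qParam.comp UpperHalfPlane.continuous_coe
  cover := by
    have hN : (0 : ℝ) < (D.h : ℝ) := by exact_mod_cast D.hpos
    have : Metric.ball (0 : ℂ) 1 ∈ 𝓝 (0 : ℂ) := Metric.ball_mem_nhds _ one_pos
    filter_upwards [mem_nhdsWithin_of_mem_nhds this, self_mem_nhdsWithin] with q hq hq0
    have hq1 : ‖q‖ < 1 := by simpa using hq
    exact ⟨⟨Function.Periodic.invQParam D.h q,
      Function.Periodic.im_invQParam_pos_of_norm_lt_one hN hq1 hq0⟩,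
      Function.Periodic.qParam_right_inv hN.ne' hq0⟩
  H := D.H
  H_mero := D.H_mero
  H_spec := D.H_spec

theorem meromorphicAt_Jc_pow' (D : CuspData A) :
    MeromorphicAt (fun q : ℂ => Jc (q ^ D.h)) 0 :=
  have : NeZero D.h := ⟨D.hpos.ne'⟩
  meromorphicAt_Jc_pow D.h

theorem sigma_cusp_xJ (D : CuspData A) (g : SL(2, ℤ)) :
    (cuspChart D).sigma g A.xJ
      = MeroGerm.mk (fun q : ℂ => Jc (q ^ D.h)) (meromorphicAt_Jc_pow' D) := by
  have : NeZero D.h := ⟨D.hpos.ne'⟩
  unfold Fam.xJ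
  rw [(cuspChart D).sigma_gen g A.i₀]
  rw [(cuspChart D).mk_eq_mk_iff_forall _ _ (f := jfun) (g := jfun) helper24.mdiff_jfun
    helper24.mdiff_jfun]
  · intro τ
    rfl
  · intro τ
    show D.H g A.i₀ (𝕢 (D.h : ℝ) τ) = jfun τ
    rw [D.H_spec]
    exact X_i₀_smul A g⁻¹ τ
  · intro τ
    show Jc ((𝕢 (D.h : ℝ) τ) ^ D.h) = jfun τ
    rw [qParam_pow_eq, Jc_qParam]

theorem V_sigma_cusp_inv (D : CuspData A) (g : SL(2, ℤ)) :
    MeroGerm.V 0 ((cuspChart D).sigma g A.xJ⁻¹) = exp (-(D.h : ℤ)) := by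
  have : NeZero D.h := ⟨D.hpos.ne'⟩
  rw [map_inv₀, map_inv₀, sigma_cusp_xJ,
    MeroGerm.V_mk_of_order_eq _ (meromorphicOrderAt_Jc_pow D.h), neg_neg, exp_neg]

theorem isRot_cusp (D : CuspData A) (j : ℕ) :
    (cuspChart D).IsRot (ModularGroup.T ^ j) (fun q => rotC D.h j * q) where
  an := analyticAt_const.mul analyticAt_id
  fix := mul_zero _
  deriv_ne := by
    rw [deriv_rot]
    exact Complex.exp_ne_zero _
  spec := fun τ => by
    show 𝕢 (D.h : ℝ) (((ModularGroup.T ^ j)⁻¹ • τ : ℍ) : ℂ) = rotC D.h j * 𝕢 (D.h : ℝ) (τ : ℂ)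
    have h1 : (ModularGroup.T ^ j)⁻¹ = ModularGroup.T ^ (-(j : ℤ)) := by
      rw [zpow_neg, zpow_natCast]
    rw [h1, ModularGroup.coe_T_zpow_smul_eq]
    unfold Function.Periodic.qParam rotC
    rw [← Complex.exp_add]
    congr 1
    push_cast
    ring

/-- **The dictionary at the cusps.**  For every pole `w` of `j` there are a coset `g` and a
divisor `d` of the width `h` with `g⁻¹ T^(h/d) g ∈ A.stab` such that, in the cusp chart `q_h`,
`V_0 (f ∘ g⁻¹) = exp (- d · ord_w f)` for all `f ≠ 0`. -/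
theorem dict_cusp (hD : A.HasDegree) (D : CuspData A) (w : Place ℂ A.F)
    (hw : w.ord A.xJ < 0) :
    ∃ (g : SL(2, ℤ)) (d : ℕ), 0 < d ∧ d ∣ D.h ∧
      g⁻¹ * ModularGroup.T ^ (D.h / d) * g ∈ A.stab ∧
      ∀ f : A.F, f ≠ 0 →
        MeroGerm.V 0 ((cuspChart D).sigma g f) = exp (-((d : ℤ) * w.ord f)) := by
  have : NeZero D.h := ⟨D.hpos.ne'⟩
  have := hD.fd
  have hadj : ℂ⟮(A.xJ)⁻¹⟯ = ℂ⟮A.xJ⟯ := helper55.adjoin_inv_eq A.xJ
  have hfd' : FiniteDimensional ℂ⟮(A.xJ)⁻¹⟯ A.F := by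
    rw [hadj]
    exact hD.fd
  have hcard : A.stab.index = Module.finrank ℂ⟮(A.xJ)⁻¹⟯ A.F := by
    rw [hadj]
    exact hD.deg.symm
  have hset : {w : Place ℂ A.F | w.ord A.xJ < 0}
      = {w : Place ℂ A.F | 0 < w.ord (A.xJ)⁻¹} := helper75.poles_eq_zeros_inv A.xJ
  have hw' : 0 < w.ord (A.xJ)⁻¹ := by
    have : w ∈ {w : Place ℂ A.F | w.ord A.xJ < 0} := hw
    rw [hset] at this
    exact this
  obtain ⟨g, d, hd, hdN, hmem, -, hdict⟩ := dict_of_chart A hD (cuspChart D)
    (A.xJ)⁻¹ (helper55.transcendental_inv (xJ_transcendental A))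
    hcard
    (fun g g' => by rw [map_inv₀, map_inv₀, sigma_cusp_xJ, sigma_cusp_xJ])
    D.h D.hpos (fun g => V_sigma_cusp_inv D g)
    ModularGroup.T D.hT
    (fun k hk hk1 => ⟨_, isRot_cusp D (D.h / k), isPrimitiveRoot_rotC D.h k hk hk1⟩)
    w hw'
  exact ⟨g, d, hd, hdN, hmem, hdict⟩

end Fermat.Agent.T4.helper80.Gen
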