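import Mathlib
import Fermat.Agent.T4.helper80_GenCusp
import Fermat.Agent.T4.helper80_GenAnDict
import Fermat.Agent.P3.helper80_CuspGerm

/-!
# T4 (I) / I-FLD [G-T1] (helper80): orders of a power at all places

Generic form of `Fermat.Agent.P3.helper80` (`RootOrd`), for a family `A : Fam ι` with cusp data
`D : CuspData A` and a subgroup `Γ` with `A.stab = ± Γ`.

* `chart_identity`: identity principle in a chart;
* `sigma_eq_mk_of_represents`: the germ `C.sigma g h` in terms of a function representing `h`;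
* `dvd_ord_core`: the local computation;
* `dvd_ord_of_root` (**T1**): if the function of `h ∈ A.F` is an `m`-th power `u ^ m` of a
  meromorphic function `u` on the upper half plane with a multiplier `ψ : Γ → ℂˣ` trivial on the
  stabilisers of points and on the elements of trace `± 2`, and `u` is meromorphic at the cusps
  (in the parameter `q_h`, `h = D.h`), then `m ∣ ord_w h` for every place `w` of `A.F`;
* `dvd_ord_of_root'`: the same for multipliers trivial on the elements with `trace² ≤ 4`.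
-/

set_option autoImplicit false

noncomputable section

open UpperHalfPlane ModularForm Filter Topology CongruenceSubgroup ModularCurve
  IntermediateField AlgebraicCurve WithZero
open scoped MatrixGroups Manifold

namespace Fermat.Agent.T4.helper80.Gen

open Fermat.Agent.S24 Fermat.Agent.S24.helper24 Fermat.Agent.S24.helper99
open Fermat.Agent.P3.helper20 Fermat.Agent.P3.helper34

variable {ι : Type*} {A : Fam ι}

/-! ### The identity principle in a chart -/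

/-- **Identity principle in a chart.** -/
theorem chart_identity (C : Chart A) {F G : ℂ → ℂ} (hF : MeromorphicAt F C.z₀)
    (hG : MeromorphicAt G C.z₀) {f₁ f₂ : ℂ → ℂ} (hf : EqH f₁ f₂)
    (hFG : ∀ᶠ q in 𝓝[≠] C.z₀, ∀ τ : ℍ, C.u τ = q → F q = f₁ (τ : ℂ) ∧ G q = f₂ (τ : ℂ)) :
    F =ᶠ[𝓝[≠] C.z₀] G := by
  have hD : MeromorphicAt (F - G) C.z₀ := hF.sub hG
  rcases hD.eventually_eq_zero_or_eventually_ne_zero with h0 | hne
  · filter_upwards [h0] with q hq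
    exact sub_eq_zero.mp hq
  · exfalso
    obtain ⟨U, hUo, ⟨τ₁, hτ₁⟩, hU⟩ := C.exists_open_of_eventually (hne.and hFG)
    have hnhds : ((↑) : ℍ → ℂ) '' U ∈ 𝓝 (τ₁ : ℂ) :=
      (isOpenEmbedding_coe.isOpenMap U hUo).mem_nhds ⟨τ₁, hτ₁, rfl⟩
    have hev := hf (τ₁ : ℂ) τ₁.im_pos
    have hmem : ∀ᶠ z in 𝓝[≠] (τ₁ : ℂ), z ∈ ((↑) : ℍ → ℂ) '' U :=
      mem_nhdsWithin_of_mem_nhds hnhds
    obtain ⟨z, ⟨τ, hτ, rfl⟩, hz⟩ := (hmem.and hev).exists
    obtain ⟨hne', h12⟩ := hU τ hτ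
    obtain ⟨h1, h2⟩ := h12 τ rfl
    apply hne'
    show F (C.u τ) - G (C.u τ) = 0
    rw [h1, h2, hz, sub_self]

/-! ### Germs in a chart and representing functions -/

theorem eqH_mul_ev0 {h : A.F} {f : ℂ → ℂ} (H : Represents A h f)
    (P Q : MvPolynomial ι ℂ) (hQ : MvPolynomial.aeval A.x Q ≠ 0)
    (hPQ : (h : LaurentSeries ℂ) = MvPolynomial.aeval A.x P / MvPolynomial.aeval A.x Q) :
    EqH (fun z => f z * A.ev0 Q (ofComplex z)) (fun z => A.ev0 P (ofComplex z)) := by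
  have hP' : MvPolynomial.aeval A.x P ∈ A.S := A.aeval_mem P
  have hQ' : MvPolynomial.aeval A.x Q ∈ A.S := A.aeval_mem Q
  have e : h * (⟨_, hQ'⟩ : A.F) = ⟨_, hP'⟩ := by
    apply Subtype.ext
    show (h : LaurentSeries ℂ) * MvPolynomial.aeval A.x Q = MvPolynomial.aeval A.x P
    rw [hPQ, div_mul_cancel₀ _ hQ]
  have h1 : Represents A (⟨_, hP'⟩ : A.F) (f * fun z => A.ev0 Q (ofComplex z)) := by
    rw [← e]
    exact H.mul (represents_aeval A Q ⟨_, hQ'⟩ rfl)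
  have h2 := represents_aeval A P (⟨_, hP'⟩ : A.F) rfl
  intro z hz
  exact h1.eventuallyEq h2 ⟨z, hz⟩

/-- **The germ of `h` in a chart**, in terms of a function representing `h`. -/
theorem sigma_eq_mk_of_represents (C : Chart A) (g : SL(2, ℤ)) {h : A.F} {f : ℂ → ℂ}
    (H : Represents A h f) {F : ℂ → ℂ} (hF : MeromorphicAt F C.z₀)
    (hFf : ∀ᶠ q in 𝓝[≠] C.z₀, ∀ τ : ℍ, C.u τ = q → F q = f ((g⁻¹ • τ : ℍ) : ℂ)) :
    C.sigma g h = MeroGerm.mk F hF := by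
  obtain ⟨P, Q, hQ, hPQ⟩ := A.exists_poly_repr h
  have hP' : MvPolynomial.aeval A.x P ∈ A.S := A.aeval_mem P
  have hQ' : MvPolynomial.aeval A.x Q ∈ A.S := A.aeval_mem Q
  have hQ0 : (⟨_, hQ'⟩ : A.F) ≠ 0 := fun h0 => hQ (congrArg Subtype.val h0)
  have e : h = (⟨_, hP'⟩ : A.F) / ⟨_, hQ'⟩ := by
    apply Subtype.ext
    rw [hPQ]
    rfl
  obtain ⟨FP, hFP, h1, h2⟩ := C.Θ_spec g P
  obtain ⟨FQ, hFQ, h3, h4⟩ := C.Θ_spec g Q
  have hsQ : C.sigma g (⟨_, hQ'⟩ : A.F) = MeroGerm.mk FQ hFQ := by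
    rw [C.sigma_of_eq g _ Q rfl, h3]
  have hsP : C.sigma g (⟨_, hP'⟩ : A.F) = MeroGerm.mk FP hFP := by
    rw [C.sigma_of_eq g _ P rfl, h1]
  have hne : MeroGerm.mk FQ hFQ ≠ 0 := by
    rw [← hsQ]
    exact C.sigma_ne_zero g hQ0
  rw [e, map_div₀, hsQ, hsP, div_eq_iff hne, ← MeroGerm.mk_mul]
  apply MeroGerm.mk_eq_mk_iff.mpr
  refine (chart_identity C (hF.mul hFQ) hFP
    ((eqH_mul_ev0 H P Q hQ hPQ).comp_moebC g⁻¹) ?_).symm
  filter_upwards [hFf] with q hq τ hτ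
  have hm : moebC g⁻¹ (τ : ℂ) = ((g⁻¹ • τ : ℍ) : ℂ) := moebC_coe g⁻¹ τ
  refine ⟨?_, ?_⟩
  · show F q * FQ q = _
    rw [hq τ hτ, ← hτ, h4]
    show _ = f (moebC g⁻¹ (τ : ℂ)) * A.ev0 Q (ofComplex (moebC g⁻¹ (τ : ℂ)))
    rw [hm, ofComplex_apply]
    rfl
  · rw [← hτ, h2]
    show _ = A.ev0 P (ofComplex (moebC g⁻¹ (τ : ℂ)))
    rw [hm, ofComplex_apply]
    rfl

/-! ### Rotations -/

theorem moebC_neg (γ : SL(2, ℤ)) {w : ℂ} (hw : 0 < w.im) : moebC (-γ) w = moebC γ w := by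
  rw [moebC_eq_coe (-γ) hw, moebC_eq_coe γ hw, ModularGroup.SL_neg_smul]

/-- A function with multiplier `ψ` on `Γ` is invariant under an element `γ₀` such that `γ₀` or
`-γ₀` lies in `Γ` with trivial multiplier. -/
theorem eqH_of_mult {Γ : Subgroup SL(2, ℤ)} {u : ℂ → ℂ} (ψ : Γ →* ℂˣ) (hmult : HasMultH u ψ)
    (γ₀ : SL(2, ℤ))
    (h : (∃ hm : γ₀ ∈ Γ, ψ ⟨γ₀, hm⟩ = 1) ∨ (∃ hm : -γ₀ ∈ Γ, ψ ⟨-γ₀, hm⟩ = 1)) :
    EqH (fun z => u (moebC γ₀ z)) u := by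
  rcases h with ⟨hm, hψ⟩ | ⟨hm, hψ⟩
  · have h1 := hmult ⟨γ₀, hm⟩
    rw [hψ] at h1
    intro z hz
    filter_upwards [h1 z hz] with y hy
    rw [hy]
    simp
  · have h1 := hmult ⟨-γ₀, hm⟩
    rw [hψ] at h1
    intro z hz
    have hH : {w : ℂ | 0 < w.im} ∈ 𝓝[≠] z :=
      mem_nhdsWithin_of_mem_nhds (UpperHalfPlane.isOpen_upperHalfPlaneSet.mem_nhds hz)
    filter_upwards [h1 z hz, hH] with y hy hyH
    have e : moebC γ₀ y = moebC (-γ₀) y := (moebC_neg γ₀ hyH).symm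
    rw [e]
    show u (moebC (-γ₀) y) = u y
    have hy' : u (moebC (-γ₀) y) = ((1 : ℂˣ) : ℂ) * u y := hy
    rw [hy']
    simp

/-- A germ `W` in a chart which comes from a function `u`, read through the coset `g`, is
invariant under the rotation `φ` attached to `hh`, if `u` is invariant under
`g⁻¹ hh⁻¹ g`. -/
theorem comp_rot_eventuallyEq (C : Chart A) (g hh : SL(2, ℤ)) (φ : ℂ → ℂ) (hR : C.IsRot hh φ)
    {u : ℂ → ℂ} (hinv : EqH (fun z => u (moebC (g⁻¹ * hh⁻¹ * g) z)) u)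
    {W : ℂ → ℂ} (hW : MeromorphicAt W C.z₀)
    (hWu : ∀ᶠ q in 𝓝[≠] C.z₀, ∀ τ : ℍ, C.u τ = q → W q = u ((g⁻¹ • τ : ℍ) : ℂ)) :
    W ∘ φ =ᶠ[𝓝[≠] C.z₀] W := by
  have hWφ : MeromorphicAt (W ∘ φ) C.z₀ :=
    (hR.fix.symm ▸ hW : MeromorphicAt W (φ C.z₀)).comp_analyticAt hR.an
  have htend : Tendsto φ (𝓝[≠] C.z₀) (𝓝[≠] C.z₀) :=
    tendsto_nhdsNE_of_analyticAt hR.an hR.fix hR.deriv_ne
  have hE : EqH (fun z => u (moebC (g⁻¹ * hh⁻¹ * g) (moebC g⁻¹ z)))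
      (fun z => u (moebC g⁻¹ z)) := hinv.comp_moebC g⁻¹
  refine chart_identity C hWφ hW hE ?_
  filter_upwards [hWu, htend.eventually hWu] with q hq hq' τ hτ
  refine ⟨?_, ?_⟩
  · show W (φ q) = _
    have h1 : C.u (hh⁻¹ • τ) = φ q := by rw [hR.spec, hτ]
    rw [hq' (hh⁻¹ • τ) h1, moebC_coe, moebC_coe]
    congr 2
    rw [← mul_smul, ← mul_smul]
    congr 1
    group
  · rw [hq τ hτ, moebC_coe]

/-! ### The local computation -/

/-- **Local computation for T1.** -/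
theorem dvd_ord_core (C : Chart A) (g : SL(2, ℤ)) (w : Place ℂ A.F) (d : ℕ) (hd : 0 < d)
    (hdict : ∀ f : A.F, f ≠ 0 →
      MeroGerm.V C.z₀ (C.sigma g f) = exp (-((d : ℤ) * w.ord f)))
    {u : ℂ → ℂ}
    (hrot : 1 < d → ∃ (hh : SL(2, ℤ)) (φ : ℂ → ℂ), C.IsRot hh φ ∧
      IsPrimitiveRoot (deriv φ C.z₀) d ∧
      EqH (fun z => u (moebC (g⁻¹ * hh⁻¹ * g) z)) u)
    {h : A.F} (hh0 : h ≠ 0) {m : ℕ} (hm : 0 < m) (hrep : Represents A h (fun z => u z ^ m))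
    {W : ℂ → ℂ} (hW : MeromorphicAt W C.z₀)
    (hWu : ∀ᶠ q in 𝓝[≠] C.z₀, ∀ τ : ℍ, C.u τ = q → W q = u ((g⁻¹ • τ : ℍ) : ℂ)) :
    (m : ℤ) ∣ w.ord h := by
  have hgerm : C.sigma g h = MeroGerm.mk (fun q => W q ^ m) (hW.fun_pow m) := by
    refine sigma_eq_mk_of_represents C g hrep _ ?_
    filter_upwards [hWu] with q hq τ hτ
    show W q ^ m = _
    rw [hq τ hτ]
  have hne : MeroGerm.mk (fun q => W q ^ m) (hW.fun_pow m) ≠ 0 := by
    rw [← hgerm]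
    exact C.sigma_ne_zero g hh0
  have htopm : meromorphicOrderAt (fun q => W q ^ m) C.z₀ ≠ ⊤ :=
    fun h => hne (MeroGerm.mk_eq_zero_iff_order.mpr h)
  have hordm : meromorphicOrderAt (fun q => W q ^ m) C.z₀ = m * meromorphicOrderAt W C.z₀ :=
    meromorphicOrderAt_pow (n := m) hW
  have htop : meromorphicOrderAt W C.z₀ ≠ ⊤ := by
    intro h
    apply htopm
    rw [hordm, h]
    have hm0 : m ≠ 0 := hm.ne'
    have : ((m : ℕ) : WithTop ℤ) ≠ 0 := by exact_mod_cast hm0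
    exact WithTop.mul_top this
  obtain ⟨n, hn⟩ := WithTop.ne_top_iff_exists.mp htop
  have hordm' : meromorphicOrderAt (fun q => W q ^ m) C.z₀ = ((m * n : ℤ) : WithTop ℤ) := by
    rw [hordm, ← hn]
    push_cast
    rfl
  have hV := hdict h hh0
  rw [hgerm, MeroGerm.V_mk_of_order_eq _ hordm'] at hV
  have hmn : (m : ℤ) * n = d * w.ord h := by
    have := exp_injective hV
    omega
  by_cases hd1 : d = 1
  · subst hd1
    refine ⟨n, ?_⟩
    rw [hmn]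
    simp
  · obtain ⟨hh, φ, hR, hprim, hinv⟩ := hrot (by omega)
    have hinv' := comp_rot_eventuallyEq C g hh φ hR hinv hW hWu
    obtain ⟨c, hc⟩ := dvd_meromorphicOrderAt_of_comp_eventuallyEq hd
      hR.an.differentiableAt hR.fix hprim hW hn.symm hinv'
    refine ⟨c, ?_⟩
    have hd0 : (d : ℤ) ≠ 0 := by exact_mod_cast hd.ne'
    apply mul_left_cancel₀ hd0
    rw [← hmn, hc]
    ring

/-! ### The theorem T1 -/

/-- An eventual property at `i∞` holds on the preimage of a punctured neighbourhood of `0`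
under `q_h`. -/
theorem eventually_cusp_of_atImInfty {h : ℕ} (hh : 0 < h) {p : ℍ → Prop}
    (hp : ∀ᶠ τ in atImInfty, p τ) :
    ∀ᶠ q in 𝓝[≠] (0 : ℂ), ∀ τ : ℍ, Function.Periodic.qParam (h : ℝ) (τ : ℂ) = q → p τ := by
  obtain ⟨B, hB⟩ := (atImInfty_mem _).mp hp
  have hN : (0 : ℝ) < h := by exact_mod_cast hh
  have hball : Metric.ball (0 : ℂ) (Real.exp (-2 * Real.pi * B / h)) ∈ 𝓝 (0 : ℂ) :=
    Metric.ball_mem_nhds _ (Real.exp_pos _)
  filter_upwards [mem_nhdsWithin_of_mem_nhds hball] with q hq τ hτ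
  apply hB
  have h1 : ‖Function.Periodic.qParam (h : ℝ) (τ : ℂ)‖ < Real.exp (-2 * Real.pi * B / h) := by
    rw [hτ]
    simpa using hq
  exact ((Function.Periodic.norm_qParam_lt_iff hN B (τ : ℂ)).mp h1).le

/-- **T1.**  Let `h ∈ A.F`, `h ≠ 0`, be represented by `u ^ m`, where `u` is meromorphic on the
upper half plane, has a multiplier `ψ : Γ → ℂˣ` (`A.stab = ± Γ`) which is trivial on the
stabilisers of the points of the upper half plane and on the elements of trace `±2`, and such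
that every translate `u ∘ g` is meromorphic at `i∞` in the parameter `q_h`, `h = D.h`.  Then
`m ∣ ord_w h` for all places `w` of `A.F`. -/
theorem dvd_ord_of_root (hD : A.HasDegree) (D : CuspData A)
    (Γ : Subgroup SL(2, ℤ)) (hΓ2 : ∀ g ∈ A.stab, g ∈ Γ ∨ -g ∈ Γ)
    {h : A.F} (hh0 : h ≠ 0) {m : ℕ} (hm : 0 < m) {u : ℂ → ℂ}
    (hu : MeromorphicOn u {z : ℂ | 0 < z.im})
    (hrep : Represents A h (fun z => u z ^ m))
    (ψ : Γ →* ℂˣ) (hmult : HasMultH u ψ)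
    (hψell : ∀ (γ : Γ) (τ : ℍ), (γ : SL(2, ℤ)) • τ = τ → ψ γ = 1)
    (hψpar : ∀ γ : Γ, ((γ : SL(2, ℤ)) : Matrix (Fin 2) (Fin 2) ℤ).trace ^ 2 = 4 → ψ γ = 1)
    (hcusp : ∀ g : SL(2, ℤ), ∃ U : ℂ → ℂ, MeromorphicAt U 0 ∧
      ∀ᶠ τ : ℍ in atImInfty,
        U (Function.Periodic.qParam (D.h : ℝ) (τ : ℂ)) = u ((g • τ : ℍ) : ℂ))
    (w : Place ℂ A.F) : (m : ℤ) ∣ w.ord h := by
  by_cases hw : 0 ≤ w.ord A.xJ
  · -- interior points
    obtain ⟨τ₀, g, hh, d, hd, hmem, -, hrot, hdict⟩ := dict_interior A hD w hw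
    have hmem' : g⁻¹ * hh⁻¹ * g ∈ A.stab := by
      have := inv_mem hmem
      have e : (g⁻¹ * hh * g)⁻¹ = g⁻¹ * hh⁻¹ * g := by group
      rwa [e] at this
    have hgz : (0 : ℝ) < (moebC g⁻¹ (τ₀ : ℂ)).im := moebC_im_pos g⁻¹ τ₀.im_pos
    have hW : MeromorphicAt (fun z => u (moebC g⁻¹ z)) (τ₀ : ℂ) :=
      (hu _ hgz).comp_analyticAt (analyticAt_moebC g⁻¹ τ₀.im_pos)
    refine dvd_ord_core (interiorChart A τ₀) g w d hd hdict (fun hd1 => ?_) hh0 hm hrep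
      (W := fun z => u (moebC g⁻¹ z)) hW ?_
    · obtain ⟨hfix, hprim⟩ := hrot hd1
      refine ⟨hh, helper48.chartSL hh⁻¹, isRot_interior A τ₀ hh hfix, hprim, ?_⟩
      have hfix' : (g⁻¹ * hh⁻¹ * g) • (g⁻¹ • τ₀) = g⁻¹ • τ₀ := by
        rw [← mul_smul, mul_assoc, mul_inv_cancel, mul_one, mul_smul, hfix]
      apply eqH_of_mult ψ hmult
      rcases hΓ2 _ hmem' with hΓ | hΓ
      · exact Or.inl ⟨hΓ, hψell ⟨_, hΓ⟩ (g⁻¹ • τ₀) hfix'⟩
      · refine Or.inr ⟨hΓ, hψell ⟨_, hΓ⟩ (g⁻¹ • τ₀) ?_⟩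
        show (-(g⁻¹ * hh⁻¹ * g)) • (g⁻¹ • τ₀) = g⁻¹ • τ₀
        rw [ModularGroup.SL_neg_smul]
        exact hfix'
    · refine Eventually.of_forall fun q τ hτ => ?_
      have e : (τ : ℂ) = q := hτ
      rw [← e, moebC_coe]
  · -- cusps
    obtain ⟨g, d, hd, hdN, hmem, hdict⟩ := dict_cusp hD D w (not_le.mp hw)
    obtain ⟨U, hU, hUu⟩ := hcusp g⁻¹
    have hmem' : g⁻¹ * (ModularGroup.T ^ (D.h / d))⁻¹ * g ∈ A.stab := by
      have := inv_mem hmem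
      have e : (g⁻¹ * ModularGroup.T ^ (D.h / d) * g)⁻¹
          = g⁻¹ * (ModularGroup.T ^ (D.h / d))⁻¹ * g := by group
      rwa [e] at this
    have hUu' : ∀ᶠ q in 𝓝[≠] (cuspChart D).z₀, ∀ τ : ℍ, (cuspChart D).u τ = q →
        U q = u ((g⁻¹ • τ : ℍ) : ℂ) := by
      filter_upwards [eventually_cusp_of_atImInfty D.hpos hUu] with q hq τ hτ
      have := hq τ hτ
      rwa [hτ] at this
    refine dvd_ord_core (cuspChart D) g w d hd hdict (fun hd1 => ?_) hh0 hm hrep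
      (W := U) hU hUu'
    have : NeZero D.h := ⟨D.hpos.ne'⟩
    refine ⟨ModularGroup.T ^ (D.h / d), fun q => rotC D.h (D.h / d) * q, isRot_cusp D (D.h / d),
      isPrimitiveRoot_rotC D.h d hdN hd1, ?_⟩
    have htr : (((g⁻¹ * (ModularGroup.T ^ (D.h / d))⁻¹ * g : SL(2, ℤ)) :
        Matrix (Fin 2) (Fin 2) ℤ)).trace = 2 := by
      have h1 : g⁻¹ * (ModularGroup.T ^ (D.h / d))⁻¹ * g
          = g⁻¹ * ModularGroup.T ^ (-((D.h / d : ℕ) : ℤ)) * g⁻¹⁻¹ := by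
        rw [inv_inv, zpow_neg, zpow_natCast]
      rw [h1]
      exact trace_conj_T_zpow _ g⁻¹
    apply eqH_of_mult ψ hmult
    rcases hΓ2 _ hmem' with hΓ | hΓ
    · refine Or.inl ⟨hΓ, hψpar ⟨_, hΓ⟩ ?_⟩
      show (((g⁻¹ * (ModularGroup.T ^ (D.h / d))⁻¹ * g : SL(2, ℤ)) :
        Matrix (Fin 2) (Fin 2) ℤ)).trace ^ 2 = 4
      rw [htr]
      norm_num
    · refine Or.inr ⟨hΓ, hψpar ⟨_, hΓ⟩ ?_⟩
      show (((-(g⁻¹ * (ModularGroup.T ^ (D.h / d))⁻¹ * g) : SL(2, ℤ)) :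
        Matrix (Fin 2) (Fin 2) ℤ)).trace ^ 2 = 4
      have hneg : (((-(g⁻¹ * (ModularGroup.T ^ (D.h / d))⁻¹ * g) : SL(2, ℤ)) :
          Matrix (Fin 2) (Fin 2) ℤ)).trace = -2 := by
        rw [Matrix.SpecialLinearGroup.coe_neg, Matrix.trace_neg, htr]
      rw [hneg]
      norm_num

/-- **T1**, for multipliers which are trivial on all elements with `trace² ≤ 4`. -/
theorem dvd_ord_of_root' (hD : A.HasDegree) (D : CuspData A)
    (Γ : Subgroup SL(2, ℤ)) (hΓ2 : ∀ g ∈ A.stab, g ∈ Γ ∨ -g ∈ Γ)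
    {h : A.F} (hh0 : h ≠ 0) {m : ℕ} (hm : 0 < m) {u : ℂ → ℂ}
    (hu : MeromorphicOn u {z : ℂ | 0 < z.im})
    (hrep : Represents A h (fun z => u z ^ m))
    (ψ : Γ →* ℂˣ) (hmult : HasMultH u ψ)
    (hψ : ∀ γ : Γ, (((γ : SL(2, ℤ)) : Matrix (Fin 2) (Fin 2) ℤ)).trace ^ 2 ≤ 4 → ψ γ = 1)
    (hcusp : ∀ g : SL(2, ℤ), ∃ U : ℂ → ℂ, MeromorphicAt U 0 ∧
      ∀ᶠ τ : ℍ in atImInfty,
        U (Function.Periodic.qParam (D.h : ℝ) (τ : ℂ)) = u ((g • τ : ℍ) : ℂ))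
    (w : Place ℂ A.F) : (m : ℤ) ∣ w.ord h :=
  dvd_ord_of_root hD D Γ hΓ2 hh0 hm hu hrep ψ hmult
    (fun γ τ hγ => hψ γ (P3.helper80.trace_sq_le_four_of_smul_eq _ τ hγ))
    (fun γ hγ => hψ γ hγ.le) hcusp w

/-! ### Cusp data of a prescribed width -/

/-- `T ^ W` acts trivially on the cosets of the stabiliser if the stabiliser contains
`Γ(W)`. -/
theorem T_pow_smul_of_Gamma_le (A : Fam ι) {W : ℕ} (hW : CongruenceSubgroup.Gamma W ≤ A.stab)
    (c : SL(2, ℤ) ⧸ A.stab) : ModularGroup.T ^ W • c = c := by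
  induction c using QuotientGroup.induction_on with
  | H g =>
    show ((ModularGroup.T ^ W * g : SL(2, ℤ)) : SL(2, ℤ) ⧸ A.stab) = g
    rw [QuotientGroup.eq]
    apply hW
    have hT : ModularGroup.T ^ W ∈ CongruenceSubgroup.Gamma W := by
      have := CongruenceSubgroup.ModularGroup_T_pow_mem_Gamma (W : ℤ) (W : ℤ) dvd_rfl
      rwa [zpow_natCast] at this
    have hn := CongruenceSubgroup.Gamma_normal W
    have h1 : g⁻¹ * (ModularGroup.T ^ W)⁻¹ * g⁻¹⁻¹ ∈ CongruenceSubgroup.Gamma W :=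
      hn.conj_mem _ (inv_mem hT) g⁻¹
    have e : (ModularGroup.T ^ W * g)⁻¹ * g = g⁻¹ * (ModularGroup.T ^ W)⁻¹ * g⁻¹⁻¹ := by group
    rw [e]
    exact h1

theorem finiteIndex_of_Gamma_le (A : Fam ι) {W : ℕ} (hW0 : 0 < W)
    (hW : CongruenceSubgroup.Gamma W ≤ A.stab) : A.stab.FiniteIndex := by
  have : NeZero W := ⟨hW0.ne'⟩
  exact Subgroup.finiteIndex_of_le hW

/-- Cusp data of a prescribed width `h` (for instance the level, if the stabiliser contains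
`Γ(h)`). -/
def cuspDataOfWidth (A : Fam ι) [A.stab.FiniteIndex] (hexp : A.ExpGrowth) (h : ℕ) (hh : 0 < h)
    (hT : ∀ c : SL(2, ℤ) ⧸ A.stab, ModularGroup.T ^ h • c = c) : CuspData A where
  h := h
  hpos := hh
  hT := hT
  H := fun g i => (exists_cusp_fun A hexp hh hT g i).choose
  H_mero := fun g i => (exists_cusp_fun A hexp hh hT g i).choose_spec.1
  H_spec := fun g i => (exists_cusp_fun A hexp hh hT g i).choose_spec.2

@[simp] theorem cuspDataOfWidth_h (A : Fam ι) [A.stab.FiniteIndex] (hexp : A.ExpGrowth) (h : ℕ)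
    (hh : 0 < h) (hT : ∀ c : SL(2, ℤ) ⧸ A.stab, ModularGroup.T ^ h • c = c) :
    (cuspDataOfWidth A hexp h hh hT).h = h := rfl

end Fermat.Agent.T4.helper80.Gen
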