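import Mathlib
import Fermat.Agent.T4.helper24_FldDefs
import Fermat.Agent.T4.helper24_X1Sys
import Fermat.Agent.T4.helper24_X1Inputs
import Fermat.Agent.T4.helper77_DegSys
import Fermat.Agent.T4.helper80_GenRoot
import Fermat.Agent.T4.helper80_GenEv
import Fermat.Agent.T4.helper80_GenRootOrd

/-!
# T4 (I) / I-FLD [G-DICT], adapter (helper80): the analytic dictionary of a generator system

`helper24.GenData` / `GenData.IsSys` (the interface of I-FLD) is translated into the vocabulary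
`Gen.Fam` of `helper80_Gen*.lean`; the generic dictionary `Gen.anDictFull` then gives

* `andict_of : D.IsSys → D.AnDictStatement D.Γ` for every generator system `D`
  (the third hypothesis of `helper24.wire`);
* `anDict1_of_sys : X1SysStatement M → AnDict1Statement M` (via `helper24.wire`, `x1Field`);
* `anDict1 : AnDict1Statement M`, unconditional (with `helper24.x1Sys`);
* `andict_of_le` : the dictionary for every subgroup `Γ' ≤ D.Γ` with `D.Γ = ± Γ'`.
-/

set_option autoImplicit false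

noncomputable section

open UpperHalfPlane ModularCurve CongruenceSubgroup
open scoped MatrixGroups

namespace Fermat.Agent.T4.helper80.Gen

open Fermat.Agent.S24 Fermat.Agent.T4.helper24 Fermat.Agent.P3.helper20
  Fermat.Agent.P3.helper34

/-- the family of a generator system -/
def famOfSys (D : GenData) (hD : D.IsSys) : Fam D.I where
  x := D.ser ℂ
  X := D.fn
  S := D.field ℂ
  hS := T4.helper77.field_eq_adjoin D
  hq := hD.isQExp
  i₀ := D.j0
  hj := hD.fn_j0

@[simp] theorem famOfSys_S (D : GenData) (hD : D.IsSys) : (famOfSys D hD).S = D.field ℂ := rfl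

@[simp] theorem famOfSys_X (D : GenData) (hD : D.IsSys) : (famOfSys D hD).X = D.fn := rfl

@[simp] theorem famOfSys_x (D : GenData) (hD : D.IsSys) : (famOfSys D hD).x = D.ser ℂ := rfl

theorem stab_famOfSys (D : GenData) (hD : D.IsSys) : (famOfSys D hD).stab = D.Γ := by
  ext g
  constructor
  · intro hg
    exact hD.stab g hg
  · intro hg i τ
    exact hD.inv i g hg τ

theorem expGrowth_famOfSys (D : GenData) (hD : D.IsSys) : (famOfSys D hD).ExpGrowth :=
  hD.growth

theorem finiteIndex_stab_famOfSys (D : GenData) (hD : D.IsSys) :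
    (famOfSys D hD).stab.FiniteIndex := by
  rw [stab_famOfSys]
  exact T4.helper77.finiteIndex_of_isSys D hD

/-- the dictionary of a generator system, for a subgroup `Γ'` with `D.Γ = ± Γ'` -/
def anDictOfSys (D : GenData) (hD : D.IsSys) (Γ' : Subgroup SL(2, ℤ)) (hΓ : Γ' ≤ D.Γ)
    (hΓ2 : ∀ g ∈ D.Γ, g ∈ Γ' ∨ -g ∈ Γ') : AnDict (D.field ℂ) Γ' :=
  haveI := finiteIndex_stab_famOfSys D hD
  anDictFull (famOfSys D hD) (expGrowth_famOfSys D hD) Γ'
    (by rw [stab_famOfSys]; exact hΓ) (by rw [stab_famOfSys]; exact hΓ2)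

theorem anDictOfSys_ev (D : GenData) (hD : D.IsSys) (Γ' : Subgroup SL(2, ℤ)) (hΓ : Γ' ≤ D.Γ)
    (hΓ2 : ∀ g ∈ D.Γ, g ∈ Γ' ∨ -g ∈ Γ') :
    (anDictOfSys D hD Γ' hΓ hΓ2).ev = evC (famOfSys D hD) := rfl

theorem isEv_anDictOfSys (D : GenData) (hD : D.IsSys) (Γ' : Subgroup SL(2, ℤ)) (hΓ : Γ' ≤ D.Γ)
    (hΓ2 : ∀ g ∈ D.Γ, g ∈ Γ' ∨ -g ∈ Γ') (h : D.field ℂ) :
    IsEv (h : LaurentSeries ℂ) ((anDictOfSys D hD Γ' hΓ hΓ2).ev h) :=
  isEv_evC (famOfSys D hD) h

/-- **[G-DICT]** for subgroups `Γ'` with `D.Γ = ± Γ'`. -/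
theorem andict_of_le (D : GenData) (hD : D.IsSys) (Γ' : Subgroup SL(2, ℤ)) (hΓ : Γ' ≤ D.Γ)
    (hΓ2 : ∀ g ∈ D.Γ, g ∈ Γ' ∨ -g ∈ Γ') : D.AnDictStatement Γ' :=
  ⟨anDictOfSys D hD Γ' hΓ hΓ2, isEv_anDictOfSys D hD Γ' hΓ hΓ2⟩

/-- **[G-DICT]** the analytic dictionary of a generator system. -/
theorem andict_of (D : GenData) (hD : D.IsSys) : D.AnDictStatement D.Γ :=
  andict_of_le D hD D.Γ le_rfl (fun _ hg => Or.inl hg)

/-- **[G-EV]** every element of the field has a `Γ`-invariant function. -/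
theorem ev_of (D : GenData) (hD : D.IsSys) : D.EvStatement := by
  intro S hS
  refine ⟨evC (famOfSys D hD) ⟨S, hS⟩, isEv_evC (famOfSys D hD) ⟨S, hS⟩, ?_⟩
  intro γ hγ τ
  exact evC_smul (famOfSys D hD) ⟨S, hS⟩ (by rw [stab_famOfSys]; exact hγ) τ

/-- the dictionary of `X₁(M)` from the generator system of `X₁(M)` -/
theorem anDict1_of_sys (M : ℕ) [NeZero M] (hsys : X1SysStatement M) : AnDict1Statement M :=
  wire M (x1Field M) hsys (fun D hD => andict_of D hD)

/-- the dictionary of `X₁(M)` from the inputs of `helper24_X1Sys` -/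
theorem anDict1_of_inputs (M : ℕ) [NeZero M] (h : 7 ≤ M → X1Inputs M) : AnDict1Statement M :=
  anDict1_of_sys M (fun hM => x1Sys_of M (h hM))

/-- **[ANDICT1]** the analytic dictionary of `X₁(M)`, unconditional. -/
theorem anDict1 (M : ℕ) [NeZero M] : AnDict1Statement M :=
  anDict1_of_sys M (Fermat.Agent.T4.helper24.x1Sys M)

end Fermat.Agent.T4.helper80.Gen

end
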