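import Mathlib
import Fermat.Agent.T4.helper21_AN1Defs
import Fermat.Agent.T4.helper24_FldDefs
import Fermat.Agent.LEF.helper99_DescFinal
import Fermat.Agent.LEF.helper86_Model2
import Fermat.Agent.P3.helper20_Mon

/-!
# T4 block (I), I-AN leaf [DESC1] (helper99): the constant field extension `ℚ̄ → ℂ` for `X₁(M)`

The LEF module (constant field extensions of function fields: conorm, `L(Con D) = K' ⊗ L(D)`,
torsion descent) is generic in the field `F₀ ⊆ ℚ((q))`, so that the P3 proof of `[DESC]` for
`X₀(M)` ports verbatim to an arbitrary `F₀`, in particular to `F₀ = helper32.F1Q M`.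

## Generic statements (any `F₀ : IntermediateField ℚ (LaurentSeries ℚ)`)

* `descG F₀`             : the constant field extension `F₀ ℚ̄ → F₀ ℂ` (`κ = iotaC`,
                           `ι = coeffMap iotaC = helper17.toC`);
* `DescGStatement F₀`    : the package (conorm injective, torsion-surjective, Kummer
                           representatives), `= helper21.Desc1Statement M` for `F₀ = F1Q M` by `rfl`;
* `descG_of_fin`         : `DescGStatement F₀` from a separating element of `F₀ ℚ̄` and the
                           finiteness of the torsion of `Pic⁰(F₀ ℂ)`;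
* `descG_of_dict`        : the same from an analytic dictionary `AnDict (F₀ ℂ) Γ`, `Γ` finitely
                           generated.

## `X₁(M)`

* `desc1_of`       : `Desc1Statement M` from a separating element `x` of `F1 M`
                     (`Transcendental ℚ̄ x`, `[F1 M : ℚ̄(x)] < ∞`) and an analytic dictionary
                     `AnDict (F1Cx M) (Gamma1 M)`;
* `desc1_of_fin`   : the same from the finiteness of the torsion of `J1Cx M`;
* `desc1_of_deg`   : the bridge from the I-FLD deliverables `helper24.X1FieldStatement M` and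
                     `(helper24.x1Data M).DegStatement ℚ̄`;
* `desc1_final`    : `X1FieldStatement M → (x1Data M).DegStatement ℚ̄ → AnDict1Statement M →
                     7 ≤ M → Desc1Statement M`.
-/

set_option autoImplicit false

noncomputable section

open AlgebraicCurve ModularCurve IntermediateField

namespace Fermat.Agent.T4.helper99

open Fermat.Agent.LEF Fermat.Agent.P2.helper74 Fermat.Agent.S24 Fermat.Agent.P3
open Fermat.Agent.P3.helper20 Fermat.Agent.P3.helper94

/-- In characteristic zero a finite extension is separable (stated once, to keep instance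
search cheap). -/
theorem d1_isSeparable {K F : Type*} [Field K] [Field F] [Algebra K F] [CharZero K] (x : F)
    [FiniteDimensional K⟮x⟯ F] : Algebra.IsSeparable K⟮x⟯ F := by
  have : CharZero K⟮x⟯ := charZero_of_injective_algebraMap (algebraMap K K⟮x⟯).injective
  have : Algebra.IsAlgebraic K⟮x⟯ F := Algebra.IsAlgebraic.of_finite _ _
  exact Algebra.IsAlgebraic.isSeparable_of_perfectField

/-! ## The generic constant field extension -/

section Generic

variable (F₀ : IntermediateField ℚ (LaurentSeries ℚ))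

/-- The constant field extension `F₀ ℚ̄ → F₀ ℂ`. -/
def descG : ConstExt (AlgebraicClosure ℚ) (laurentBaseChange (AlgebraicClosure ℚ) F₀) ℂ
    (laurentBaseChange ℂ F₀) :=
  helper44.laurentConstExt Fermat.Agent.LEF.helper99.jC F₀

theorem descG_ι (x : laurentBaseChange (AlgebraicClosure ℚ) F₀) :
    (((descG F₀).ι x : laurentBaseChange ℂ F₀) : LaurentSeries ℂ) =
      Fermat.Agent.S24.helper17.toC (x : LaurentSeries (AlgebraicClosure ℚ)) := rfl

/-- **[DESC]** for the field `F₀`: the conorm `con : Pic⁰(F₀ ℚ̄) → Pic⁰(F₀ ℂ)` is injective, hits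
every torsion class, and is compatible with Kummer representatives along `ι = helper17.toC`. -/
def DescGStatement : Prop :=
  ∃ (con : Pic0 (AlgebraicClosure ℚ) (laurentBaseChange (AlgebraicClosure ℚ) F₀) →+
      Pic0 ℂ (laurentBaseChange ℂ F₀))
    (ι : laurentBaseChange (AlgebraicClosure ℚ) F₀ → laurentBaseChange ℂ F₀),
    (∀ h : laurentBaseChange (AlgebraicClosure ℚ) F₀,
      ((ι h : laurentBaseChange ℂ F₀) : LaurentSeries ℂ) =
        Fermat.Agent.S24.helper17.toC (h : LaurentSeries (AlgebraicClosure ℚ))) ∧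
    Function.Injective con ∧
    (∀ y : Pic0 ℂ (laurentBaseChange ℂ F₀), (∃ m : ℕ, 0 < m ∧ m • y = 0) →
      ∃ x : Pic0 (AlgebraicClosure ℚ) (laurentBaseChange (AlgebraicClosure ℚ) F₀), con x = y) ∧
    (∀ (m : ℕ) (x : Pic0 (AlgebraicClosure ℚ) (laurentBaseChange (AlgebraicClosure ℚ) F₀))
      (h : laurentBaseChange (AlgebraicClosure ℚ) F₀),
      IsKummerRep m x h → IsKummerRep m (con x) (ι h))

variable {F₀}

/-- The `RiemannSetting` of `F₀ ℚ̄`, from a separating element. -/
theorem descG_settingQ (x : laurentBaseChange (AlgebraicClosure ℚ) F₀)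
    (hx : Transcendental (AlgebraicClosure ℚ) x)
    [FiniteDimensional (AlgebraicClosure ℚ)⟮x⟯ (laurentBaseChange (AlgebraicClosure ℚ) F₀)] :
    RiemannSetting (AlgebraicClosure ℚ) (laurentBaseChange (AlgebraicClosure ℚ) F₀) :=
  haveI := d1_isSeparable (K := AlgebraicClosure ℚ) x
  riemannSetting_of_separating (K := AlgebraicClosure ℚ)
    (F := laurentBaseChange (AlgebraicClosure ℚ) F₀) x hx

/-- The `RiemannSetting` of `F₀ ℂ`, from a separating element of `F₀ ℚ̄`. -/
theorem descG_settingC (x : laurentBaseChange (AlgebraicClosure ℚ) F₀)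
    (hx : Transcendental (AlgebraicClosure ℚ) x)
    [FiniteDimensional (AlgebraicClosure ℚ)⟮x⟯ (laurentBaseChange (AlgebraicClosure ℚ) F₀)] :
    RiemannSetting ℂ (laurentBaseChange ℂ F₀) := by
  obtain ⟨h1, h2⟩ := helper86.transcendental_ι (descG F₀) x hx
  have := h2
  have := d1_isSeparable (K := ℂ) ((descG F₀).ι x)
  exact riemannSetting_of_separating (K := ℂ) (F := laurentBaseChange ℂ F₀) ((descG F₀).ι x) h1

/-- Riemann's inequality for `F₀ ℂ`. -/
theorem descG_riemannIneqC (x : laurentBaseChange (AlgebraicClosure ℚ) F₀)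
    (hx : Transcendental (AlgebraicClosure ℚ) x)
    [FiniteDimensional (AlgebraicClosure ℚ)⟮x⟯ (laurentBaseChange (AlgebraicClosure ℚ) F₀)] :
    ∃ g : ℤ, ∀ D : Divisor ℂ (laurentBaseChange ℂ F₀),
      Divisor.degree D + 1 - g ≤ (ell D : ℤ) := by
  obtain ⟨h1, h2⟩ := helper86.transcendental_ι (descG F₀) x hx
  have := h2
  have := d1_isSeparable (K := ℂ) ((descG F₀).ι x)
  obtain ⟨g, hg⟩ := exists_hasRiemannGenus (K := ℂ) (F := laurentBaseChange ℂ F₀)
    ((descG F₀).ι x) h1
  refine ⟨g, fun D => ?_⟩
  have := hg.ineq (descG_settingC x hx) D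
  linarith

/-- The conorm is injective. -/
theorem descG_injective (x : laurentBaseChange (AlgebraicClosure ℚ) F₀)
    (hx : Transcendental (AlgebraicClosure ℚ) x)
    [FiniteDimensional (AlgebraicClosure ℚ)⟮x⟯ (laurentBaseChange (AlgebraicClosure ℚ) F₀)] :
    Function.Injective (descG F₀).conPic0 :=
  Fermat.Agent.LEF.helper99.conPic0_injective (descG F₀) (descG_settingQ x hx)
    (descG_settingC x hx)

/-- **L6**: torsion classes of `Pic⁰(F₀ ℂ)` are conorms as soon as the torsion is finite. -/
theorem descG_torsion_surj (x : laurentBaseChange (AlgebraicClosure ℚ) F₀)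
    (hx : Transcendental (AlgebraicClosure ℚ) x)
    [FiniteDimensional (AlgebraicClosure ℚ)⟮x⟯ (laurentBaseChange (AlgebraicClosure ℚ) F₀)]
    (m : ℕ) (hm : 0 < m)
    (hfin : Finite (nsmulAddMonoidHom (α := Pic0 ℂ (laurentBaseChange ℂ F₀)) m).ker)
    (y : Pic0 ℂ (laurentBaseChange ℂ F₀)) (hy : m • y = 0) :
    ∃ c : Pic0 (AlgebraicClosure ℚ) (laurentBaseChange (AlgebraicClosure ℚ) F₀),
      (descG F₀).conPic0 c = y := by
  refine helper82.exists_conPic0_eq_of_finite (descG F₀) (descG_settingQ x hx)
    (descG_settingC x hx) (descG_riemannIneqC x hx) m hm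
    (Fermat.Agent.LEF.helper99.finite_torsion_of_finite_ker m hfin) y ?_
  rw [Pic0.mem_torsion, natCast_zsmul]
  exact hy

/-- The conorm on Kummer representatives. -/
theorem descG_kummer (x : laurentBaseChange (AlgebraicClosure ℚ) F₀)
    (hx : Transcendental (AlgebraicClosure ℚ) x)
    [FiniteDimensional (AlgebraicClosure ℚ)⟮x⟯ (laurentBaseChange (AlgebraicClosure ℚ) F₀)]
    (m : ℕ) (c : Pic0 (AlgebraicClosure ℚ) (laurentBaseChange (AlgebraicClosure ℚ) F₀))
    (h : laurentBaseChange (AlgebraicClosure ℚ) F₀) (H : IsKummerRep m c h) :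
    IsKummerRep m ((descG F₀).conPic0 c) ((descG F₀).ι h) := by
  obtain ⟨hh, D, rfl, hD⟩ := H
  have hOK : (descG F₀).ConOK :=
    helper7.conOK (descG F₀) (descG_settingQ x hx) (descG_settingC x hx)
  refine ⟨?_, (descG F₀).conDegZero hOK D, (helper7.conPic0_mk (descG F₀) hOK D).symm,
    fun w => ?_⟩
  · rw [Ne, map_eq_zero]
    exact hh
  · have h1 := helper7.con_apply_of_principal (descG F₀) (descG_settingQ x hx) hh
      (D := (m : ℤ) • (D : Divisor (AlgebraicClosure ℚ)
        (laurentBaseChange (AlgebraicClosure ℚ) F₀)))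
      (fun v => by rw [Finsupp.smul_apply, smul_eq_mul, hD v]) w
    rw [map_zsmul, Finsupp.smul_apply, smul_eq_mul] at h1
    exact h1

/-- **[DESC]** for `F₀`, from a separating element of `F₀ ℚ̄` and the finiteness of the torsion
of `Pic⁰(F₀ ℂ)`. -/
theorem descG_of_fin (x : laurentBaseChange (AlgebraicClosure ℚ) F₀)
    (hx : Transcendental (AlgebraicClosure ℚ) x)
    [FiniteDimensional (AlgebraicClosure ℚ)⟮x⟯ (laurentBaseChange (AlgebraicClosure ℚ) F₀)]
    (hfin : ∀ m : ℕ, 0 < m →
      Finite (nsmulAddMonoidHom (α := Pic0 ℂ (laurentBaseChange ℂ F₀)) m).ker) :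
    DescGStatement F₀ := by
  refine ⟨(descG F₀).conPic0, (descG F₀).ι, fun h => descG_ι F₀ h, descG_injective x hx, ?_,
    fun m c h H => descG_kummer x hx m c h H⟩
  rintro y ⟨m, hm, hy⟩
  exact descG_torsion_surj x hx m hm (hfin m hm) y hy

/-- **[DESC]** for `F₀`, from a separating element of `F₀ ℚ̄` and an analytic dictionary of
`F₀ ℂ` for a finitely generated group `Γ`. -/
theorem descG_of_dict (x : laurentBaseChange (AlgebraicClosure ℚ) F₀)
    (hx : Transcendental (AlgebraicClosure ℚ) x)
    [FiniteDimensional (AlgebraicClosure ℚ)⟮x⟯ (laurentBaseChange (AlgebraicClosure ℚ) F₀)]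
    {Γ : Subgroup (Matrix.SpecialLinearGroup (Fin 2) ℤ)} [Group.FG Γ]
    (𝒟 : AnDict (laurentBaseChange ℂ F₀) Γ) : DescGStatement F₀ :=
  descG_of_fin x hx fun _ hm => finite_torsion_of_fg 𝒟 hm

/-- transport along an equality of the fields over `ℚ` -/
theorem descG_of_eq {F₁ : IntermediateField ℚ (LaurentSeries ℚ)} (hF : F₀ = F₁)
    (x : laurentBaseChange (AlgebraicClosure ℚ) F₁)
    (hx : Transcendental (AlgebraicClosure ℚ) x)
    [FiniteDimensional (AlgebraicClosure ℚ)⟮x⟯ (laurentBaseChange (AlgebraicClosure ℚ) F₁)]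
    (hfin : ∀ m : ℕ, 0 < m →
      Finite (nsmulAddMonoidHom (α := Pic0 ℂ (laurentBaseChange ℂ F₀)) m).ker) :
    DescGStatement F₀ := by
  subst hF
  exact descG_of_fin x hx hfin

/-- **[DESC]** for the field of a generator system (helper24 `GenData`) from `[G-DEG]` over
`ℚ̄` and the finiteness of the torsion over `ℂ`. -/
theorem descG_of_deg {F₀ : IntermediateField ℚ (LaurentSeries ℚ)} (D : helper24.GenData)
    (hF : F₀ = D.fieldQ) (hdeg : D.DegStatement (AlgebraicClosure ℚ))
    (hfin : ∀ m : ℕ, 0 < m →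
      Finite (nsmulAddMonoidHom (α := Pic0 ℂ (laurentBaseChange ℂ F₀)) m).ker) :
    DescGStatement F₀ := by
  obtain ⟨hx, hfd, -⟩ := hdeg
  exact @descG_of_eq F₀ D.fieldQ hF (D.xJ (AlgebraicClosure ℚ)) hx hfd hfin

end Generic

/-! ## `X₁(M)` -/

section X1

variable (M : ℕ) [NeZero M]

omit [NeZero M] in
theorem desc1_iff : helper21.Desc1Statement M ↔ DescGStatement (helper32.F1Q M) := Iff.rfl

omit [NeZero M] in
/-- **[DESC1]** from a separating element of `F1 M` and the finiteness of the torsion of
`J1Cx M = Pic⁰(F_ℂ)`. -/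
theorem desc1_of_fin (x : helper32.F1 M) (hx : Transcendental helper32.Kbar x)
    [FiniteDimensional helper32.Kbar⟮x⟯ (helper32.F1 M)]
    (hfin : ∀ m : ℕ, 0 < m → Finite (nsmulAddMonoidHom (α := helper21.J1Cx M) m).ker) :
    helper21.Desc1Statement M :=
  descG_of_fin (F₀ := helper32.F1Q M) x hx hfin

/-- **[DESC1]** from a separating element of `F1 M` and an analytic dictionary of `F1Cx M`. -/
theorem desc1_of (x : helper32.F1 M) (hx : Transcendental helper32.Kbar x)
    [FiniteDimensional helper32.Kbar⟮x⟯ (helper32.F1 M)]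
    (𝒟 : AnDict (helper21.F1Cx M) (CongruenceSubgroup.Gamma1 M)) :
    helper21.Desc1Statement M :=
  haveI : Group.FG (CongruenceSubgroup.Gamma1 M) := helper21.fg_Gamma1 M
  descG_of_dict (F₀ := helper32.F1Q M) x hx 𝒟

/-- **[DESC1]** from the I-FLD deliverables: `X1FieldStatement M` (`= helper24.x1Field M`),
`[G-DEG]` over `ℚ̄` for the generator system of `X₁(M)`, and the finiteness of the torsion of
`J1Cx M`. -/
theorem desc1_of_deg_fin (hF : helper24.X1FieldStatement M)
    (hdeg : (helper24.x1Data M).DegStatement helper32.Kbar)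
    (hfin : ∀ m : ℕ, 0 < m → Finite (nsmulAddMonoidHom (α := helper21.J1Cx M) m).ker) :
    helper21.Desc1Statement M :=
  descG_of_deg (F₀ := helper32.F1Q M) (helper24.x1Data M) hF hdeg hfin

/-- **[DESC1]** from the I-FLD deliverables: `X1FieldStatement M` (`= helper24.x1Field M`),
`[G-DEG]` over `ℚ̄` for the generator system of `X₁(M)`, and an analytic dictionary of
`F1Cx M`. -/
theorem desc1_of_deg (hF : helper24.X1FieldStatement M)
    (hdeg : (helper24.x1Data M).DegStatement helper32.Kbar)
    (𝒟 : AnDict (helper21.F1Cx M) (CongruenceSubgroup.Gamma1 M)) :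
    helper21.Desc1Statement M :=
  haveI : Group.FG (CongruenceSubgroup.Gamma1 M) := helper21.fg_Gamma1 M
  desc1_of_deg_fin M hF hdeg fun _ hm => finite_torsion_of_fg 𝒟 hm

/-- **[DESC1]**, final wiring on the I-FLD interface (`AnDict1Statement M` is stated for
`7 ≤ M`). -/
theorem desc1_final (hF : helper24.X1FieldStatement M)
    (hdeg : (helper24.x1Data M).DegStatement helper32.Kbar)
    (hdict : helper24.AnDict1Statement M) (hM : 7 ≤ M) : helper21.Desc1Statement M := by
  obtain ⟨𝒟, -⟩ := hdict hM
  exact desc1_of_deg M hF hdeg 𝒟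

end X1

end Fermat.Agent.T4.helper99

end
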