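import Fermat.Agent.T4.helper21_NormEv1
import Fermat.Agent.T4.helper79_Hom1Data
import Fermat.Agent.T4.helper14_TransD1Final
import Fermat.Agent.T4.helper80_GenData
import Fermat.Agent.T4.helper54_Surj1Final
import Fermat.Agent.T4.helper99_Desc1
import Fermat.Agent.T4.helper11_F1Fin

/-!
# T4 block (I), I-AN (helper21): THE LEAF `Leaves1.an` OF THE MASTER THEOREM

`an_leaf` : for `7 ≤ M`, the I-AN field `an` of `helper41.Leaves1 M ℓ`,

  `∃ D 𝒟, IsStdDict M 𝒟 ∧ SurjChar1Statement M 𝒟 ∧ Desc1Statement M ∧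
      ∀ i, TransChar1Statement M D i`,

from exactly TWO inputs:

* `hσ : ∀ d, ∃ σ, helper32.IsDiamondAut M d σ`  (existence of the diamond automorphisms, I-FLD);
* `hEs : ∀ q, EsNormC1Statement M q`             (the formal norm identity `es_norm1`, I-ES).

Everything else is on main: the dictionary (`helper80.Gen.anDict1`), [SURJ1]
(`helper54.surjChar1`), [DESC1] (`helper99.desc1_final`), [HECKE1-INPUTS]
(`helper11.hecke1Inputs_of_le`), [TRANS-D] (`helper14.transCharD1_hom1Data`), the lattice side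
(`helper79.hom1Data`).
-/

set_option autoImplicit false
set_option linter.unusedSectionVars false
set_option linter.style.haveILetI false

noncomputable section

namespace Fermat.Agent.T4.helper21

open CongruenceSubgroup ModularCurve ModularCurve.Period AlgebraicCurve
open scoped MatrixGroups
open Fermat.Agent.P3.helper20 Fermat.Agent.P3.helper34 Fermat.Agent.P3.helper94

variable (M : ℕ) [NeZero M]

/-- the index of `helper21.Idx1` attached to an index of `helper79.Gen1` -/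
def qOfGen (p : {p : ℕ // p.Prime ∧ ¬ p ∣ M}) : {q : Nat.Primes // ¬ (q : ℕ) ∣ M} :=
  ⟨⟨p.1, p.2.1⟩, p.2.2⟩

/-- the two coset systems of `T_p` have the same norm products -/
theorem normProd_systemT1_eq (p : {p : ℕ // p.Prime ∧ ¬ p ∣ M}) (f : ℂ → ℂ) :
    haveI : NeZero p.1 := ⟨p.2.1.ne_zero⟩
    normProd (helper1.systemT1 M p.2.1 p.2.2) f = normProd (helper79.systemTq M (qOfGen M p)) f := by
  haveI : NeZero p.1 := ⟨p.2.1.ne_zero⟩
  funext w
  unfold normProd
  refine Finset.prod_congr ?_ fun x _ => rfl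
  ext x
  exact ⟨fun _ => @Finset.mem_univ _ _ x, fun _ => @Finset.mem_univ _ _ x⟩

/-- **[TRANS-T]** for `helper79.hom1Data M`, from [HECKE1-INPUTS] and [NORM1-EV]. -/
theorem transCharT1_hom1Data (p : {p : ℕ // p.Prime ∧ ¬ p ∣ M})
    (hI : haveI : NeZero p.1 := ⟨p.2.1.ne_zero⟩
      helper32.Hecke1Inputs helper32.Kbar M p.1)
    (hEv : NormEv1Statement M (qOfGen M p)) :
    TransChar1Statement M (helper79.hom1Data M) (Sum.inl p) := by
  haveI : NeZero p.1 := ⟨p.2.1.ne_zero⟩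
  refine helper79.transChar1_inl_of M p fun m _ x h f ψ hK hE hC => ?_
  refine ⟨heckeKummer1 M p.1 h, normProd (helper1.systemT1 M p.2.1 p.2.2) f,
    isKummerRep_hecke1 M ⟨p.1, p.2.1⟩ hI hK, ?_,
    hC.normProd (helper1.systemT1 M p.2.1 p.2.2) (helper1.det_repT1_pos M p.2.1 p.2.2)⟩
  rw [normProd_systemT1_eq]
  exact hEv h f hE

/-- **THE I-AN LEAF of the master theorem** (`helper41.Leaves1.an`), `7 ≤ M`. -/
theorem an_leaf (hM : 7 ≤ M)
    (hσ : ∀ d : (ZMod M)ˣ, ∃ σ : helper32.F1 M ≃ₐ[helper32.Kbar] helper32.F1 M,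
      helper32.IsDiamondAut M d σ)
    (hEs : ∀ q : {q : Nat.Primes // ¬ (q : ℕ) ∣ M}, EsNormC1Statement M q) :
    ∃ (D : helper79.Hom1Data M) (𝒟 : AnDict (F1Cx M) (Gamma1 M)),
      IsStdDict M 𝒟 ∧ SurjChar1Statement M 𝒟 ∧ Desc1Statement M ∧
        ∀ i : helper79.Gen1 M, TransChar1Statement M D i := by
  have hdict : helper24.AnDict1Statement M := helper80.Gen.anDict1 M
  obtain ⟨𝒟, hstd⟩ := hdict hM
  have hdesc : Desc1Statement M :=
    helper99.desc1_final M (helper24.x1Field M)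
      (helper77.deg_of (helper24.x1Data M) (helper44.x1Sys M hM)).1 hdict hM
  have hex : ∀ h : helper32.F1 M, ∃ f : ℂ → ℂ,
      IsEv (Fermat.Agent.S24.helper17.toC (h : LaurentSeries helper32.Kbar)) f := by
    obtain ⟨-, ι, hι, -⟩ := hdesc
    intro h
    refine ⟨𝒟.ev (ι h), ?_⟩
    rw [← hι h]
    exact hstd (ι h)
  refine ⟨helper79.hom1Data M, 𝒟, hstd, helper54.surjChar1 M hM 𝒟 hstd, hdesc, ?_⟩
  rintro (p | d)
  · haveI : NeZero p.1 := ⟨p.2.1.ne_zero⟩
    exact transCharT1_hom1Data M p (helper11.hecke1Inputs_of_le M p.1 hM)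
      (normEv1_of M (qOfGen M p) (hEs _)
        (helper14.diamondEvSymm_all M (by omega) hσ _) hex)
  · exact helper14.transCharD1_hom1Data M (by omega) d (hσ d)

/-- **[FIN] + [KAPPA]** of `helper3.eigen1_of_x1Inputs` (convention [A]) for `7 ≤ M`. -/
theorem ian_final (hM : 7 ≤ M) (p : ℕ) (hp : 0 < p)
    (hσ : ∀ d : (ZMod M)ˣ, ∃ σ : helper32.F1 M ≃ₐ[helper32.Kbar] helper32.F1 M,
      helper32.IsDiamondAut M d σ)
    (hEs : ∀ q : {q : Nat.Primes // ¬ (q : ℕ) ∣ M}, EsNormC1Statement M q) :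
    Finite (nsmulAddMonoidHom (α := helper32.J1 M) (p ^ 1)).ker ∧
      helper1.GenKappa p (helper1.op1 M) (helper79.gen1 M 2) := by
  obtain ⟨D, 𝒟, hstd, hsurj, hdesc, htr⟩ := an_leaf M hM hσ hEs
  exact ⟨fin1_of M p hp 𝒟 hdesc, genKappa1_final M p hp D 𝒟 hstd hsurj hdesc htr⟩

end Fermat.Agent.T4.helper21

end
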