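import Fermat.Agent.T4.helper71_NormEv1
import Fermat.Agent.P2.helper93_ESNorm
import Fermat.Agent.T4.helper92_KumWire1Defs

/-!
# T4 block (I), [NORM1-EV] adapters (helper71)

`NormId1Statement M q` (the hypothesis (a) of `normEv1_of`: the formal norm identity over `ℂ`)
from the char-0 norm formula [ES-NORM1] of the I-ES team in its `ℚ̄((q))` form

  `(Norm_{β₁} (α₁ h))(q^ℓ) = ((δ_ℓ^*)⁻¹ h)(q^{ℓ²}) · ∏_{k<ℓ} h(ζ^k q)`

(`twistL` of P2 `helper93_ESNorm`), and the resulting forms of [NORM1-EV].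
-/

set_option autoImplicit false
set_option linter.unusedSectionVars false
set_option linter.style.haveILetI false

open ModularCurve AlgebraicCurve
open Fermat.Agent.S24 Fermat.Agent.S24.helper17
open Fermat.Agent.P2.helper93
open Fermat.Agent.T4.helper79 Fermat.Agent.T4.helper21

noncomputable section

namespace Fermat.Agent.T4.helper71

variable (M : ℕ) [NeZero M]

/-- **[ES-NORM1], `ℚ̄`-form** (deliverable of I-ES): the char-0 norm formula along `β₁` in
`ℚ̄((q))`, for a primitive `ℓ`-th root of unity `ζ ∈ ℚ̄`. -/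
def EsNorm1KbarStatement (q : {q : Nat.Primes // ¬ (q : ℕ) ∣ M}) : Prop :=
  haveI : NeZero (q.1 : ℕ) := ⟨q.1.2.ne_zero⟩
  ∃ ζ : helper32.Kbar, IsPrimitiveRoot ζ (q.1 : ℕ) ∧ ∀ h : helper32.F1 M,
    qExpand helper32.Kbar (q.1 : ℕ)
        ((heckeKummer1 M (q.1 : ℕ) h : helper32.F1 M) : LaurentSeries helper32.Kbar) =
      qExpand helper32.Kbar ((q.1 : ℕ) * (q.1 : ℕ))
          ((((helper32.diamondAut M (primeUnit (M := M) q.1.2 q.2)).symm h :
            helper32.F1 M)) : LaurentSeries helper32.Kbar) *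
        ∏ k ∈ Finset.range (q.1 : ℕ), twistL (ζ ^ k) (h : LaurentSeries helper32.Kbar)

/-- the complex form of the norm identity from the `ℚ̄`-form -/
theorem normId1_of_kbar (q : {q : Nat.Primes // ¬ (q : ℕ) ∣ M})
    (hes : EsNorm1KbarStatement M q) : NormId1Statement M q := by
  haveI : NeZero (q.1 : ℕ) := ⟨q.1.2.ne_zero⟩
  obtain ⟨ζ, hζ, hes⟩ := hes
  refine ⟨(iotaC : helper32.Kbar →+* ℂ) ζ,
    hζ.map_of_injective (iotaC : helper32.Kbar →+* ℂ).injective, fun h => ?_⟩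
  have hq : ∀ (n : ℕ) [NeZero n] (x : LaurentSeries helper32.Kbar),
      toC (qExpand helper32.Kbar n x) = qExpand ℂ n (toC x) :=
    fun n _ x => coeffMap_qExpand _ n x
  have h1 := congrArg toC (hes h)
  rw [map_mul, map_prod, hq, hq] at h1
  simp_rw [toC_twistL, map_pow] at h1
  exact h1

/-- **[NORM1-EV]** from the `ℚ̄`-form of [ES-NORM1]. -/
theorem normEv1_of_kbar (q : {q : Nat.Primes // ¬ (q : ℕ) ∣ M})
    (hes : EsNorm1KbarStatement M q)
    (hD : helper14.DiamondEvSymm M (primeUnit (M := M) q.1.2 q.2))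
    (hev : EvExists1Statement M) :
    NormEv1Statement M q :=
  normEv1_of M q (normId1_of_kbar M q hes) hD hev

/-- **[NORM1-EV]** for all good primes from the `ℚ̄`-form of [ES-NORM1], in the shape of the
argument `hN` of `helper21.ian_of_leaves`. -/
theorem normEv1_all_of_kbar (hM : 7 ≤ M) (hdict : helper24.AnDict1Statement M)
    (hes : ∀ q : {q : Nat.Primes // ¬ (q : ℕ) ∣ M}, EsNorm1KbarStatement M q)
    (hD : ∀ d : (ZMod M)ˣ, helper14.DiamondEvSymm M d) :
    ∀ q : {q : Nat.Primes // ¬ (q : ℕ) ∣ M}, NormEv1Statement M q :=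
  normEv1_all M hM hdict (fun q => normId1_of_kbar M q (hes q)) hD

/-! ### Variants in the vocabulary of the I-ES team -/

/-- `helper92.heckeNorm1` is `helper21.heckeKummer1`. -/
theorem heckeNorm1_eq_heckeKummer1 (ℓ : ℕ) [NeZero ℓ] (h : helper32.F1 M) :
    helper92.heckeNorm1 M ℓ h = heckeKummer1 M ℓ h := rfl

/-- a unit which is `≡ q` is `primeUnit q` -/
theorem eq_primeUnit_of_coe_eq (q : {q : Nat.Primes // ¬ (q : ℕ) ∣ M}) {d : (ZMod M)ˣ}
    (hd : (d : ZMod M) = ((q.1 : ℕ) : ZMod M)) : d = primeUnit (M := M) q.1.2 q.2 :=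
  Units.ext (by rw [hd, coe_primeUnit])

theorem unitOfPrime_eq_primeUnit (q : {q : Nat.Primes // ¬ (q : ℕ) ∣ M}) :
    helper4.unitOfPrime M (q.1 : ℕ) q.1.2 q.2 = primeUnit (M := M) q.1.2 q.2 := rfl

/-- **[ES-NORM1] ⟹ (a)**, for ANY unit `d ≡ q` and the Hecke norm in the form
`helper92.heckeNorm1`. -/
theorem normId1_of_esNorm1 (q : {q : Nat.Primes // ¬ (q : ℕ) ∣ M}) (d : (ZMod M)ˣ)
    (hd : (d : ZMod M) = ((q.1 : ℕ) : ZMod M)) (ζ : helper32.Kbar)
    (hζ : IsPrimitiveRoot ζ (q.1 : ℕ))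
    (hes : haveI : NeZero (q.1 : ℕ) := ⟨q.1.2.ne_zero⟩
      ∀ h : helper32.F1 M,
        qExpand helper32.Kbar (q.1 : ℕ)
            ((helper92.heckeNorm1 M (q.1 : ℕ) h : helper32.F1 M) :
              LaurentSeries helper32.Kbar) =
          qExpand helper32.Kbar ((q.1 : ℕ) * (q.1 : ℕ))
              ((((helper32.diamondAut M d).symm h : helper32.F1 M)) :
                LaurentSeries helper32.Kbar) *
            ∏ k ∈ Finset.range (q.1 : ℕ), twistL (ζ ^ k) (h : LaurentSeries helper32.Kbar)) :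
    NormId1Statement M q := by
  haveI : NeZero (q.1 : ℕ) := ⟨q.1.2.ne_zero⟩
  have e := eq_primeUnit_of_coe_eq M q hd
  subst e
  exact normId1_of_kbar M q ⟨ζ, hζ, hes⟩

end Fermat.Agent.T4.helper71

end
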