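import Fermat.Agent.T4.helper21_AN1Leaf
import Fermat.Agent.T4.helper17_DiamondX1
import Fermat.Agent.T4.helper71_NormId1
import Fermat.Agent.T4.helper41_CoreWire1
import Fermat.Agent.T4.helper92_KumWire1c

/-!
# T4 block (I), I-AN (helper21): the leaf `Leaves1.an` from [ES-NORM1] ALONE

`an_leaf_of_norm` : for `7 ≤ M`, the I-AN field `an` of `helper41.Leaves1 M ℓ` from the single
input `∀ q, EsNormC1Statement M q` (the formal norm identity over `ℂ`); the existence of the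
diamond automorphisms is `helper17.exists_isDiamondAut_x1`.

Adapters: `EsNormC1Statement M q` follows from each of the forms of [ES-NORM1] on main:

* `helper71.NormId1Statement M q`        (`∃ ξ ∈ ℂ, ∀ h`),
* `helper71.EsNorm1KbarStatement M q`    (`∃ ζ ∈ ℚ̄, ∀ h`, unit `primeUnit`),
* `helper41.EsNorm1Statement M q d`      (`∃ ζ ∈ ℚ̄, ∀ h`, `d = unitOfPrime`),
* `helper92.EsNorm1Statement M q d`      (`∀ ζ ∈ ℚ̄, ∀ h`, `d = unitOfPrime`).

`an_leaf_of_esNorm1` / `an_leaf_of_esNorm1'` : the leaf from the I-ES form of [ES-NORM1] at ALL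
primes `q ∤ M` (NB: I-AN needs the norm formula at every prime `q ∤ M`, including `q = p`).
-/

set_option autoImplicit false
set_option linter.unusedSectionVars false
set_option linter.style.haveILetI false
set_option linter.style.longLine false

noncomputable section

namespace Fermat.Agent.T4.helper21

open CongruenceSubgroup ModularCurve ModularCurve.Period AlgebraicCurve
open scoped MatrixGroups
open Fermat.Agent.P3.helper20 Fermat.Agent.P3.helper34 Fermat.Agent.P3.helper94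

variable (M : ℕ) [NeZero M]

/-- the `∀ h ∃ ξ` form from the `∃ ξ ∀ h` form -/
theorem esNormC1_of_normId1 (q : {q : Nat.Primes // ¬ (q : ℕ) ∣ M})
    (h : helper71.NormId1Statement M q) : EsNormC1Statement M q := by
  haveI : NeZero (q.1 : ℕ) := ⟨q.1.2.ne_zero⟩
  obtain ⟨ξ, hξ, H⟩ := h
  exact fun h => ⟨ξ, hξ, H h⟩

/-- from the `ℚ̄`-form (helper71) -/
theorem esNormC1_of_kbar (q : {q : Nat.Primes // ¬ (q : ℕ) ∣ M})
    (h : helper71.EsNorm1KbarStatement M q) : EsNormC1Statement M q :=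
  esNormC1_of_normId1 M q (helper71.normId1_of_kbar M q h)

/-- from the I-ES form (helper41, `∃ ζ`) -/
theorem esNormC1_of_esNorm1 (q : {q : Nat.Primes // ¬ (q : ℕ) ∣ M})
    (h : haveI : NeZero (q.1 : ℕ) := ⟨q.1.2.ne_zero⟩
      helper41.EsNorm1Statement M (q.1 : ℕ) (helper4.unitOfPrime M (q.1 : ℕ) q.1.2 q.2)) :
    EsNormC1Statement M q := by
  haveI : NeZero (q.1 : ℕ) := ⟨q.1.2.ne_zero⟩
  obtain ⟨ζ, hζ, H⟩ := h
  exact esNormC1_of_kbar M q ⟨ζ, hζ, H⟩

/-- from the I-ES form (helper92, `∀ ζ`) -/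
theorem esNormC1_of_esNorm1' (q : {q : Nat.Primes // ¬ (q : ℕ) ∣ M})
    (h : haveI : NeZero (q.1 : ℕ) := ⟨q.1.2.ne_zero⟩
      helper92.EsNorm1Statement M (q.1 : ℕ) (helper4.unitOfPrime M (q.1 : ℕ) q.1.2 q.2)) :
    EsNormC1Statement M q := by
  haveI : NeZero (q.1 : ℕ) := ⟨q.1.2.ne_zero⟩
  haveI : NeZero ((q.1 : ℕ) : helper32.Kbar) := ⟨Nat.cast_ne_zero.mpr q.1.2.ne_zero⟩
  obtain ⟨ζ, hζ⟩ := HasEnoughRootsOfUnity.exists_primitiveRoot helper32.Kbar (q.1 : ℕ)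
  exact esNormC1_of_kbar M q ⟨ζ, hζ, h ζ hζ⟩

/-- **THE I-AN LEAF from [ES-NORM1] over `ℂ` alone**, `7 ≤ M`. -/
theorem an_leaf_of_norm (hM : 7 ≤ M)
    (hEs : ∀ q : {q : Nat.Primes // ¬ (q : ℕ) ∣ M}, EsNormC1Statement M q) :
    ∃ (D : helper79.Hom1Data M) (𝒟 : AnDict (F1Cx M) (Gamma1 M)),
      IsStdDict M 𝒟 ∧ SurjChar1Statement M 𝒟 ∧ Desc1Statement M ∧
        ∀ i : helper79.Gen1 M, TransChar1Statement M D i :=
  an_leaf M hM (fun d => helper17.exists_isDiamondAut_x1 M (by omega) d) hEs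

/-- **THE I-AN LEAF from the I-ES form of [ES-NORM1]** (helper41, `∃ ζ`) at all primes `q ∤ M`. -/
theorem an_leaf_of_esNorm1 (hM : 7 ≤ M)
    (hNorm : ∀ (q : ℕ) [NeZero q] (hq : q.Prime) (hqM : ¬ q ∣ M),
      helper41.EsNorm1Statement M q (helper4.unitOfPrime M q hq hqM)) :
    ∃ (D : helper79.Hom1Data M) (𝒟 : AnDict (F1Cx M) (Gamma1 M)),
      IsStdDict M 𝒟 ∧ SurjChar1Statement M 𝒟 ∧ Desc1Statement M ∧
        ∀ i : helper79.Gen1 M, TransChar1Statement M D i :=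
  an_leaf_of_norm M hM fun q =>
    haveI : NeZero (q.1 : ℕ) := ⟨q.1.2.ne_zero⟩
    esNormC1_of_esNorm1 M q (hNorm (q.1 : ℕ) q.1.2 q.2)

/-- **THE I-AN LEAF from the I-ES form of [ES-NORM1]** (helper92, `∀ ζ`) at all primes `q ∤ M`. -/
theorem an_leaf_of_esNorm1' (hM : 7 ≤ M)
    (hNorm : ∀ (q : ℕ) [NeZero q] (hq : q.Prime) (hqM : ¬ q ∣ M),
      helper92.EsNorm1Statement M q (helper4.unitOfPrime M q hq hqM)) :
    ∃ (D : helper79.Hom1Data M) (𝒟 : AnDict (F1Cx M) (Gamma1 M)),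
      IsStdDict M 𝒟 ∧ SurjChar1Statement M 𝒟 ∧ Desc1Statement M ∧
        ∀ i : helper79.Gen1 M, TransChar1Statement M D i :=
  an_leaf_of_norm M hM fun q =>
    haveI : NeZero (q.1 : ℕ) := ⟨q.1.2.ne_zero⟩
    esNormC1_of_esNorm1' M q (hNorm (q.1 : ℕ) q.1.2 q.2)

/-- **[FIN] + [KAPPA]** (convention [A]) for `7 ≤ M` from [ES-NORM1] over `ℂ` alone. -/
theorem ian_final_of_norm (hM : 7 ≤ M) (p : ℕ) (hp : 0 < p)
    (hEs : ∀ q : {q : Nat.Primes // ¬ (q : ℕ) ∣ M}, EsNormC1Statement M q) :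
    Finite (nsmulAddMonoidHom (α := helper32.J1 M) (p ^ 1)).ker ∧
      helper1.GenKappa p (helper1.op1 M) (helper79.gen1 M 2) :=
  ian_final M hM p hp (fun d => helper17.exists_isDiamondAut_x1 M (by omega) d) hEs

end Fermat.Agent.T4.helper21

end
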