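import Fermat.Agent.T4.helper79_PerSys
import Fermat.Agent.T4.helper1_TateGen

/-!
# T4 (I) [AN-LAT1], assembly (helper79): `helper1.GenKappa` from a period system

* `PerSys.faith_gen` : the FAITH clause of `helper1.GenKappa` for `X = P.LatChar`,
  `Tst = P.Tst`, when the operators of the period system on `V = S × S` are the diagonal actions
  of elements `gen i` of a ring `𝕋` acting faithfully on `S`.
* `PerSys.genKappa_of_anDesc` : `helper1.GenKappa` from the analytic Kummer map
  `κC n : P.LatChar →+ JC` and the descent `con : J →+ JC` (the shape of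
  `P3/helper16_Kappa.kappa_of_an_desc`).
-/

set_option autoImplicit false
set_option linter.style.haveILetI false

noncomputable section

namespace Fermat.Agent.T4.helper79

open Fermat.Agent.T4.helper1 (GenKappa genWordEnd)

theorem genWordEnd_eq_psWordEnd {ι : Type*} {X : Type*} [AddCommGroup X] (T : ι → X →+ X)
    (w : List ι) : genWordEnd T w = psWordEnd T w := by
  induction w with
  | nil => rfl
  | cons i w ih =>
    show (T i).comp (genWordEnd T w) = (T i).comp (psWordEnd T w)
    rw [ih]

namespace PerSys

variable {G : Type} [Group G] {S : Type} [AddCommGroup S] [Module ℂ S] {ι : Type}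
  (P : PerSys G (S × S) ι)

/-- The operators of the period system are the diagonal actions of `τ i : End S`. -/
def IsDiag (τ : ι → Module.End ℂ S) : Prop :=
  ∀ i, P.TV i = LinearMap.prodMap (τ i) (τ i)

variable {P}

theorem IsDiag.wordLin_apply {τ : ι → Module.End ℂ S} (h : P.IsDiag τ) (w : List ι) (x : S × S) :
    P.wordLin w x = ((w.map τ).prod x.1, (w.map τ).prod x.2) := by
  induction w generalizing x with
  | nil => rfl
  | cons i w ih =>
    rw [wordLin_cons, Module.End.mul_apply, ih, h i, List.map_cons, List.prod_cons]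
    rfl

theorem IsDiag.comb_apply {τ : ι → Module.End ℂ S} (h : P.IsDiag τ) (c : List ι →₀ ℤ) (f : S) :
    ((c.sum fun w a => a • P.wordLin w) (f, 0)).1 = (c.sum fun w a => a • (w.map τ).prod) f := by
  simp only [Finsupp.sum, LinearMap.sum_apply, LinearMap.smul_apply, Prod.fst_sum, Prod.smul_fst,
    h.wordLin_apply]

/-- **Faithfulness on `S`**: a combination of words in the `Tst i` which kills the lattice
characters gives a combination of words in the `τ i` which is zero on `S`. -/
theorem IsDiag.faith_end [Group.FG G] {τ : ι → Module.End ℂ S} (h : P.IsDiag τ)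
    (c : List ι →₀ ℤ)
    (hc : ∀ ε : P.LatChar, (c.sum fun w a => a • genWordEnd P.Tst w ε) = 0) :
    (c.sum fun w a => a • (w.map τ).prod) = 0 := by
  have h0 : (c.sum fun w a => a • P.wordLin w) = 0 := by
    refine P.faith c fun ε => ?_
    have := hc ε
    simpa only [genWordEnd_eq_psWordEnd] using this
  refine LinearMap.ext fun f => ?_
  rw [← h.comb_apply c f, h0]
  rfl

/-- **The FAITH clause of `helper1.GenKappa`**: if `𝕋` acts faithfully on `S` through
`φ : 𝕋 →+* End S` and the operators of the period system are the diagonal actions of the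
`φ (gen i)`, then every integral relation between the words in the `Tst i` on the lattice
characters holds between the words in the `gen i`. -/
theorem IsDiag.faith_gen [Group.FG G] {𝕋 : Type*} [Ring 𝕋] (φ : 𝕋 →+* Module.End ℂ S)
    (hφ : Function.Injective φ) (gen : ι → 𝕋) (h : P.IsDiag fun i => φ (gen i))
    (c : List ι →₀ ℤ)
    (hc : ∀ ε : P.LatChar, (c.sum fun w a => a • genWordEnd P.Tst w ε) = 0) :
    (c.sum fun w a => a • (w.map gen).prod) = 0 := by
  apply hφ
  rw [map_zero]
  have h1 := h.faith_end c hc
  have h2 : φ (c.sum fun w a => a • (w.map gen).prod) =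
      c.sum fun w a => a • (w.map fun i => φ (gen i)).prod := by
    simp only [Finsupp.sum, map_sum, map_zsmul, map_list_prod, List.map_map]
    rfl
  rw [h2, h1]

variable (P)

/-- **`helper1.GenKappa` from the analytic Kummer map and the descent** (the shape of
`P3/helper16_Kappa.kappa_of_an_desc`).

* `κC n : P.LatChar →+ JC` : the analytic Kummer map with values in a group `JC` (`Pic⁰` over
  `ℂ`) with operators `opC i`;
* `con : J →+ JC` : the constant field extension, injective, equivariant, surjective on torsion;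
* `hfaith` : the FAITH clause (see `IsDiag.faith_gen`). -/
theorem genKappa_of_anDesc [Group.FG G] (p : ℕ) (hp : 0 < p)
    {J : Type} [AddCommGroup J] (op : ι → J →+ J)
    {𝕋 : Type} [CommRing 𝕋] (gen : ι → 𝕋)
    {JC : Type*} [AddCommGroup JC] (opC : ι → JC →+ JC)
    (κC : ℕ → P.LatChar →+ JC)
    (ha : ∀ (n : ℕ) (ε : P.LatChar), p ^ n • κC n ε = 0)
    (hb : ∀ (n : ℕ) (ε : P.LatChar), κC n ε = 0 → ∀ lam : P.perLat, ((p ^ n : ℕ) : ℤ) ∣ ε lam)
    (hc : ∀ (n : ℕ) (ε : P.LatChar), p • κC (n + 1) ε = κC n ε)
    (hd : ∀ (n : ℕ) (i : ι) (ε : P.LatChar), κC n (P.Tst i ε) = opC i (κC n ε))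
    (con : J →+ JC) (hinj : Function.Injective con)
    (hcon : ∀ (i : ι) (x : J), con (op i x) = opC i (con x))
    (hsurj : ∀ y : JC, (∃ m : ℕ, 0 < m ∧ m • y = 0) → ∃ x : J, con x = y)
    (hfaith : ∀ c : List ι →₀ ℤ,
      (∀ ε : P.LatChar, (c.sum fun w a => a • genWordEnd P.Tst w ε) = 0) →
        (c.sum fun w a => a • (w.map gen).prod) = 0) :
    GenKappa p op gen := by
  have hex : ∀ (n : ℕ) (ε : P.LatChar), ∃ x : J, con x = κC n ε := fun n ε =>
    hsurj _ ⟨p ^ n, pow_pos hp n, ha n ε⟩
  choose f hf using hex
  let κ : ℕ → P.LatChar →+ J := fun n =>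
    { toFun := f n
      map_zero' := hinj (by rw [hf, map_zero, map_zero])
      map_add' := fun a b => hinj (by rw [hf, map_add, map_add, hf, hf]) }
  have hκ : ∀ n ε, con (κ n ε) = κC n ε := fun n ε => hf n ε
  refine ⟨P.LatChar, inferInstance, inferInstance, inferInstance, P.Tst, κ, ?_, ?_, ?_, ?_, hfaith⟩
  · intro n x
    apply hinj
    rw [map_nsmul, hκ, ha, map_zero]
  · intro n x hx
    have h0 : κC n x = 0 := by rw [← hκ, hx, map_zero]
    exact exists_eq_nsmul_of_forall_dvd (p ^ n) x (hb n x h0)
  · intro n x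
    apply hinj
    rw [map_nsmul, hκ, hκ, hc]
  · intro n i x
    apply hinj
    rw [hκ, hcon, hκ]
    exact hd n i x

end PerSys

end Fermat.Agent.T4.helper79

end
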