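import Fermat.Agent.T4.helper21_AN1Defs
import Fermat.Agent.T4.helper79_PerSysKappa

/-!
# T4 (I) [AN-LAT1] in the vocabulary of `helper21_AN1Defs` (helper79)

Deliverables for the I-AN coordinator (helper21, finding #2570), for the objects `perZ1`,
`perLat1`, `LatChar1`, `hTr1`, `latCharT1`, `latPsi1`, `Idx1`, `genLin1`, `gen1` of
`helper21_AN1Defs`:

* `Hom1Compat M i S` : the ONLY input from [AN-HOM1] - the coset system `S` computes the periods
  of the operator `i`: `periodPair1 (pairLin1 (genLin1 i) x) = S.heckeFun (periodPair1 x)`;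
* `perStable1_of` : `helper21.PerStable1Statement M` from `Hom1Compat` for every `i`;
* `faith1_of_perStable : PerStable1Statement M → Faith1Statement M` (VERBATIM, no other input);
* `hTr1_perZ1'` : `hTr1 i (perZ1' γ) = ∑ j, perZ1' (S.step γ j)`;
* `heckeFun_comp_perZ1'` : `S.heckeFun (ε ∘ perZ1') = (ε ∘ hTr1 i) ∘ perZ1'` (any coefficients);
* `latPsi1_heckeChar` : `heckeChar S (latPsi1 n ε) = latPsi1 n (latCharT1 i ε)`.
-/

set_option autoImplicit false
set_option linter.style.haveILetI false

noncomputable section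

namespace Fermat.Agent.T4.helper79

open CongruenceSubgroup ModularCurve ModularCurve.Period
open Fermat.Agent.S16.helper26 (CosetSystem)
open Fermat.Agent.T4.helper21 (Idx1 V21 pairLin1 genLin1 perZ1 perLat1 perZ1' LatChar1 hTr1
  latCharT1 latPsi1 PerStable1Statement Faith1Statement)
open Fermat.Agent.T4.helper1 (genWordEnd)
open scoped MatrixGroups

/-! ### A period system from stability -/

/-- A period system from the stability of the range of `per` under the transposes (the coset
systems are chosen: one-element systems). -/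
def PerSys.ofStable {G : Type} [Group G] {V : Type} [AddCommGroup V] [Module ℂ V] {ι : Type}
    (per : Additive G →+ (V →ₗ[ℂ] ℂ)) (TV : ι → V →ₗ[ℂ] V)
    (sep : ∀ x : V, (∀ γ : Additive G, per γ x = 0) → x = 0)
    (hst : ∀ (i : ι) (lam : V →ₗ[ℂ] ℂ), lam ∈ per.range → lam ∘ₗ TV i ∈ per.range) :
    PerSys G V ι where
  per := per
  TV := TV
  J _ := Unit
  fintypeJ _ := inferInstance
  step i γ _ := Additive.toMul (hst i (per (Additive.ofMul γ)) ⟨_, rfl⟩).choose
  sep := sep
  per_TV i γ x := by
    have h := (hst i (per (Additive.ofMul γ)) ⟨_, rfl⟩).choose_spec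
    rw [Finset.univ_unique, Finset.sum_singleton]
    exact (LinearMap.congr_fun h x).symm

@[simp]
theorem PerSys.ofStable_per {G : Type} [Group G] {V : Type} [AddCommGroup V] [Module ℂ V]
    {ι : Type} (per : Additive G →+ (V →ₗ[ℂ] ℂ)) (TV : ι → V →ₗ[ℂ] V)
    (sep : ∀ x : V, (∀ γ : Additive G, per γ x = 0) → x = 0)
    (hst : ∀ (i : ι) (lam : V →ₗ[ℂ] ℂ), lam ∈ per.range → lam ∘ₗ TV i ∈ per.range) :
    (PerSys.ofStable per TV sep hst).per = per := rfl

@[simp]
theorem PerSys.ofStable_TV {G : Type} [Group G] {V : Type} [AddCommGroup V] [Module ℂ V]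
    {ι : Type} (per : Additive G →+ (V →ₗ[ℂ] ℂ)) (TV : ι → V →ₗ[ℂ] V)
    (sep : ∀ x : V, (∀ γ : Additive G, per γ x = 0) → x = 0)
    (hst : ∀ (i : ι) (lam : V →ₗ[ℂ] ℂ), lam ∈ per.range → lam ∘ₗ TV i ∈ per.range) (i : ι) :
    (PerSys.ofStable per TV sep hst).TV i = TV i := rfl

variable (M : ℕ) [NeZero M]

/-! ### The input from [AN-HOM1] -/

/-- **The input from [AN-HOM1]**: the coset system `S` computes the periods of the operator
`i` (`T_q` or `⟨d⟩`) acting on pairs of cusp forms. -/
def Hom1Compat (i : Idx1 M) {J : Type} [Fintype J] (S : CosetSystem (Gamma1 M) J) : Prop :=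
  ∀ x : V21 M,
    helper71.periodPair1 M (pairLin1 M (genLin1 M i) x) = S.heckeFun (helper71.periodPair1 M x)

variable {M}

theorem Hom1Compat.perZ1_comp {i : Idx1 M} {J : Type} [Fintype J]
    {S : CosetSystem (Gamma1 M) J} (h : Hom1Compat M i S) (γ : Gamma1 M) :
    perZ1 M (Additive.ofMul γ) ∘ₗ pairLin1 M (genLin1 M i) =
      ∑ j : J, perZ1 M (Additive.ofMul (S.step γ j)) := by
  refine LinearMap.ext fun x => ?_
  rw [LinearMap.comp_apply, LinearMap.sum_apply]
  show helper71.periodPair1 M (pairLin1 M (genLin1 M i) x) (Additive.ofMul γ) = _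
  rw [h x]
  rfl

variable (M)

/-- **[PER1-STABLE]** from [AN-HOM1]. -/
theorem perStable1_of
    (h : ∀ i : Idx1 M, ∃ (J : Type) (_ : Fintype J) (S : CosetSystem (Gamma1 M) J),
      Hom1Compat M i S) :
    PerStable1Statement M := by
  classical
  rintro i _ ⟨γ, rfl⟩
  obtain ⟨J, _, S, hS⟩ := h i
  have h1 := hS.perZ1_comp (Additive.toMul γ)
  rw [ofMul_toMul] at h1
  rw [h1]
  exact sum_mem fun j _ => helper21.perZ1_mem_perLat1 M _

/-! ### The period system of `helper21_AN1Defs` -/

/-- The period system on `V21 M` with the operators `genLin1 M i`, from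
`PerStable1Statement M`. -/
def perSysAn (h : PerStable1Statement M) : PerSys (Gamma1 M) (V21 M) (Idx1 M) :=
  PerSys.ofStable (perZ1 M) (fun i => pairLin1 M (genLin1 M i))
    (fun x hx => helper21.perLat1_separates M x (by
      rintro _ ⟨γ, rfl⟩
      exact hx γ)) h

theorem perSysAn_perLat (h : PerStable1Statement M) : (perSysAn M h).perLat = perLat1 M := rfl

theorem perSysAn_per' (h : PerStable1Statement M) : (perSysAn M h).per' = perZ1' M := rfl

theorem perSysAn_hTr (h : PerStable1Statement M) (i : Idx1 M) :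
    ((perSysAn M h).hTr i : perLat1 M →+ perLat1 M) = hTr1 M i := by
  refine AddMonoidHom.ext fun lam => Subtype.ext ?_
  exact (helper21.coe_hTr1 M h i lam).symm

theorem perSysAn_Tst (h : PerStable1Statement M) :
    ((perSysAn M h).Tst : Idx1 M → LatChar1 M →+ LatChar1 M) = latCharT1 M := by
  funext i
  refine AddMonoidHom.ext fun ε => ?_
  exact congrArg (fun T : perLat1 M →+ perLat1 M => ε.comp T) (perSysAn_hTr M h i)

theorem perSysAn_isDiag (h : PerStable1Statement M) : (perSysAn M h).IsDiag (genLin1 M) :=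
  fun _ => rfl

theorem coe_gen1 (i : Idx1 M) :
    ((helper21.gen1 M i : heckeAlgebra1 M 2) : Module.End ℂ (CuspForm (Gamma1 M) 2)) =
      genLin1 M i := by
  rcases i with q | d <;> rfl

/-- **[FAITH1]** from [PER1-STABLE], VERBATIM. -/
theorem faith1_of_perStable (h : PerStable1Statement M) : Faith1Statement M := by
  haveI : Group.FG (Gamma1 M) := helper21.fg_Gamma1 M
  intro c hc
  have hd : (perSysAn M h).IsDiag
      fun i => (heckeAlgebra1 M 2).val.toRingHom (helper21.gen1 M i) := by
    intro i
    have := perSysAn_isDiag M h i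
    rw [this]
    show _ = LinearMap.prodMap
      ((helper21.gen1 M i : heckeAlgebra1 M 2) : Module.End ℂ (CuspForm (Gamma1 M) 2))
      ((helper21.gen1 M i : heckeAlgebra1 M 2) : Module.End ℂ (CuspForm (Gamma1 M) 2))
    rw [coe_gen1]
  refine PerSys.IsDiag.faith_gen (P := perSysAn M h) (heckeAlgebra1 M 2).val.toRingHom
    Subtype.val_injective (helper21.gen1 M) hd c fun ε => ?_
  rw [perSysAn_Tst]
  exact hc ε

/-! ### One Hecke step on the lattice and on the characters -/

variable {M}

/-- One step on the lattice, in terms of the coset system. -/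
theorem hTr1_perZ1' (hst : PerStable1Statement M) {i : Idx1 M} {J : Type} [Fintype J]
    {S : CosetSystem (Gamma1 M) J} (hS : Hom1Compat M i S) (γ : Gamma1 M) :
    hTr1 M i (perZ1' M (Additive.ofMul γ)) = ∑ j : J, perZ1' M (Additive.ofMul (S.step γ j)) := by
  classical
  apply Subtype.ext
  rw [helper21.coe_hTr1 M hst, helper21.coe_perZ1', hS.perZ1_comp γ]
  simp only [AddSubgroup.val_finsetSum, helper21.coe_perZ1']

/-- **Equivariance of the characters `ε ∘ perZ1'`** (any coefficient group): the operator of the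
coset system acts on them through the transpose `hTr1 i`. -/
theorem heckeFun_comp_perZ1' (hst : PerStable1Statement M) {i : Idx1 M} {J : Type} [Fintype J]
    {S : CosetSystem (Gamma1 M) J} (hS : Hom1Compat M i S)
    {A : Type*} [AddCommGroup A] (ε : perLat1 M →+ A) :
    S.heckeFun (ε.comp (perZ1' M)) = (ε.comp (hTr1 M i)).comp (perZ1' M) := by
  refine AddMonoidHom.ext fun γ' => ?_
  set γ : Gamma1 M := Additive.toMul γ' with hγ
  change S.heckeFun (ε.comp (perZ1' M)) (Additive.ofMul γ) =
    ε (hTr1 M i (perZ1' M (Additive.ofMul γ)))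
  rw [hTr1_perZ1' hst hS γ, map_sum, CosetSystem.heckeFun_apply]
  rfl

/-- **The operator on the characters `latPsi1`**, in the shape of
`P3.helper16.latPsi_heckeChar`. -/
theorem latPsi1_heckeChar (hst : PerStable1Statement M) {i : Idx1 M} {J : Type} [Fintype J]
    {S : CosetSystem (Gamma1 M) J} (hS : Hom1Compat M i S) (p n : ℕ) (ε : LatChar1 M) :
    Fermat.Agent.P3.helper34.heckeChar S (latPsi1 M p n ε) =
      latPsi1 M p n (latCharT1 M i ε) := by
  have h1 := heckeFun_comp_perZ1' hst hS ((Fermat.Agent.P3.helper16.zetaHom p n).comp ε)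
  rw [AddMonoidHom.comp_assoc] at h1
  unfold Fermat.Agent.P3.helper34.heckeChar latPsi1
  rw [Equiv.apply_symm_apply, h1]
  rfl

end Fermat.Agent.T4.helper79

end
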