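import Fermat.Agent.T4.helper79_Hom1Per
import Fermat.Agent.T4.helper79_Lat1An

/-!
# T4 (I) [AN-HOM1] + [AN-LAT1], final (helper79): UNCONDITIONAL deliverables

In the vocabulary of `helper21_AN1Defs`:

* `systemTq M q` (`q : {q : Nat.Primes // ¬ q ∣ M}`), `systemD1 M d` : the coset systems of the
  operators `T_q` and `⟨d⟩` on `Γ₁(M)`;
* `hom1Compat_T`, `hom1Compat_D` : `Hom1Compat M i S_i`;
* `perStable1 : helper21.PerStable1Statement M`;
* `faith1 : helper21.Faith1Statement M`;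
* `coe_hTr1_uncond` : `hTr1 M i` is the honest transpose;
* `latPsi1_heckeChar_T`, `latPsi1_heckeChar_D` : the operators on the characters `latPsi1`;
* `heckeFun_comp_perZ1'_T`, `heckeFun_comp_perZ1'_D` : the additive forms, any coefficients.
-/

set_option autoImplicit false
set_option linter.unusedSectionVars false
set_option linter.style.haveILetI false

noncomputable section

open CongruenceSubgroup ModularCurve ModularCurve.Period
open Fermat.Agent.S16.helper26 (CosetSystem)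
open Fermat.Agent.T4.helper21 (Idx1 V21 pairLin1 genLin1 perZ1 perLat1 perZ1' LatChar1 hTr1
  latCharT1 latPsi1 PerStable1Statement Faith1Statement)
open scoped MatrixGroups

namespace Fermat.Agent.T4.helper79

variable (M : ℕ) [NeZero M]

/-- a good prime is prime (instance form) -/
theorem factPrimeIdx (q : {q : Nat.Primes // ¬ (q : ℕ) ∣ M}) : Fact ((q.1 : ℕ)).Prime :=
  ⟨q.1.2⟩

/-- The coset system of `T_q` on `Γ₁(M)`, indexed as in `helper21.Idx1`. -/
def systemTq (q : {q : Nat.Primes // ¬ (q : ℕ) ∣ M}) :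
    haveI := factPrimeIdx M q
    CosetSystem (Gamma1 M) (OnePoint (ZMod (q.1 : ℕ))) :=
  haveI := factPrimeIdx M q
  systemT1 M (q.1 : ℕ) q.2

/-- the index type of `T_q` is finite -/
instance fintypeIdxT (q : {q : Nat.Primes // ¬ (q : ℕ) ∣ M}) :
    Fintype (OnePoint (ZMod (q.1 : ℕ))) :=
  haveI := factPrimeIdx M q
  inferInstance

/-- **[AN-HOM1]** for `T_q`. -/
theorem hom1Compat_T (q : {q : Nat.Primes // ¬ (q : ℕ) ∣ M}) :
    Hom1Compat M (Sum.inl q) (systemTq M q) := by
  haveI := factPrimeIdx M q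
  intro x
  exact periodPair1_heckeT1Lin M (q.1 : ℕ) q.2 x.1 x.2

/-- **[AN-HOM1]** for `⟨d⟩`. -/
theorem hom1Compat_D (d : (ZMod M)ˣ) : Hom1Compat M (Sum.inr d) (systemD1 M d) := by
  intro x
  exact periodPair1_diamondLin M d x.1 x.2

/-- **[PER1-STABLE]**, unconditional. -/
theorem perStable1 : PerStable1Statement M :=
  perStable1_of M fun i => by
    rcases i with q | d
    · exact ⟨_, fintypeIdxT M q, systemTq M q, hom1Compat_T M q⟩
    · exact ⟨Unit, inferInstance, systemD1 M d, hom1Compat_D M d⟩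

/-- **[FAITH1]**, unconditional. -/
theorem faith1 : Faith1Statement M := faith1_of_perStable M (perStable1 M)

/-- `hTr1 M i` is the honest transpose of the operator `i` on the period lattice. -/
theorem coe_hTr1_uncond (i : Idx1 M) (lam : perLat1 M) :
    ((hTr1 M i lam : perLat1 M) : V21 M →ₗ[ℂ] ℂ) =
      (lam : V21 M →ₗ[ℂ] ℂ) ∘ₗ pairLin1 M (genLin1 M i) :=
  helper21.coe_hTr1 M (perStable1 M) i lam

theorem hTr1_apply_apply (i : Idx1 M) (lam : perLat1 M) (x : V21 M) :
    (hTr1 M i lam : V21 M →ₗ[ℂ] ℂ) x = (lam : V21 M →ₗ[ℂ] ℂ) (pairLin1 M (genLin1 M i) x) := by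
  rw [coe_hTr1_uncond]
  rfl

/-- One step of `T_q` on the period lattice. -/
theorem hTr1_perZ1'_T (q : {q : Nat.Primes // ¬ (q : ℕ) ∣ M}) (γ : Gamma1 M) :
    hTr1 M (Sum.inl q) (perZ1' M (Additive.ofMul γ)) =
      ∑ j, perZ1' M (Additive.ofMul ((systemTq M q).step γ j)) :=
  hTr1_perZ1' (perStable1 M) (hom1Compat_T M q) γ

/-- One step of `⟨d⟩` on the period lattice. -/
theorem hTr1_perZ1'_D (d : (ZMod M)ˣ) (γ : Gamma1 M) :
    hTr1 M (Sum.inr d) (perZ1' M (Additive.ofMul γ)) =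
      perZ1' M (Additive.ofMul ((systemD1 M d).step γ ())) := by
  rw [hTr1_perZ1' (perStable1 M) (hom1Compat_D M d) γ, Finset.univ_unique,
    Finset.sum_singleton]

/-- `T_q` on the characters `ε ∘ perZ1'` (any coefficient group). -/
theorem heckeFun_comp_perZ1'_T (q : {q : Nat.Primes // ¬ (q : ℕ) ∣ M})
    {A : Type*} [AddCommGroup A] (ε : perLat1 M →+ A) :
    (systemTq M q).heckeFun (ε.comp (perZ1' M)) =
      (ε.comp (hTr1 M (Sum.inl q))).comp (perZ1' M) :=
  heckeFun_comp_perZ1' (perStable1 M) (hom1Compat_T M q) ε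

/-- `⟨d⟩` on the characters `ε ∘ perZ1'` (any coefficient group). -/
theorem heckeFun_comp_perZ1'_D (d : (ZMod M)ˣ) {A : Type*} [AddCommGroup A]
    (ε : perLat1 M →+ A) :
    (systemD1 M d).heckeFun (ε.comp (perZ1' M)) =
      (ε.comp (hTr1 M (Sum.inr d))).comp (perZ1' M) :=
  heckeFun_comp_perZ1' (perStable1 M) (hom1Compat_D M d) ε

/-- **`T_q` on the characters `latPsi1`**. -/
theorem latPsi1_heckeChar_T (q : {q : Nat.Primes // ¬ (q : ℕ) ∣ M}) (p n : ℕ)
    (ε : LatChar1 M) :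
    Fermat.Agent.P3.helper34.heckeChar (systemTq M q) (latPsi1 M p n ε) =
      latPsi1 M p n (latCharT1 M (Sum.inl q) ε) :=
  latPsi1_heckeChar (perStable1 M) (hom1Compat_T M q) p n ε

/-- **`⟨d⟩` on the characters `latPsi1`**. -/
theorem latPsi1_heckeChar_D (d : (ZMod M)ˣ) (p n : ℕ) (ε : LatChar1 M) :
    Fermat.Agent.P3.helper34.heckeChar (systemD1 M d) (latPsi1 M p n ε) =
      latPsi1 M p n (latCharT1 M (Sum.inr d) ε) :=
  latPsi1_heckeChar (perStable1 M) (hom1Compat_D M d) p n ε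

/-- The diamond character, explicitly: `latPsi1 (⟨d⟩ ε) γ = latPsi1 ε (δ γ δ⁻¹)`. -/
theorem latPsi1_latCharT1_D (d : (ZMod M)ˣ) (p n : ℕ) (ε : LatChar1 M) (γ : Gamma1 M) :
    latPsi1 M p n (latCharT1 M (Sum.inr d) ε) γ =
      latPsi1 M p n ε ((systemD1 M d).step γ ()) := by
  rw [← latPsi1_heckeChar_D, Fermat.Agent.P3.helper34.heckeChar_apply, Finset.univ_unique,
    Finset.prod_singleton]

end Fermat.Agent.T4.helper79

end
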