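import Fermat.Agent.T4.helper21_AN1Final
import Fermat.Agent.T4.helper14_TransD1
import Fermat.Agent.T4.helper79_Lat1Final
import Fermat.Agent.T4.helper24_FldDefs

/-!
# T4 block (I), sub-block I-AN (helper21): Kummer transport along `T_q` and the wiring of I-AN

* `heckeKummer1 M q h = Norm_{β₁} (α₁ h)` : the Hecke operator on Kummer representatives;
* `isKummerRep_hecke1` : (KD5) `hecke1 M q x` is represented by `heckeKummer1 M q h`
  (from `helper32.Hecke1Inputs`);
* `NormEv1Statement M q` **[NORM1-EV]** : the function of `heckeKummer1 M q h` is the norm product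
  of the function of `h` along the coset system `helper79.systemTq M q` of `T_q`;
* `transportT1_of` : `Transport1Statement M p (.inl q)`;
* `kappa1_of_leaves`, `genKappa1_of_leaves`, `fin1_of_leaves` : **the deliverables of I-AN**
  (`GenKappa` on the canonical generators, finiteness of the torsion) from exactly

  1. the analytic dictionary `helper24.AnDict1Statement M` [I-FLD],
  2. `SurjChar1Statement` [SURJ1],
  3. `Desc1Statement` [DESC1],
  4. `helper32.Hecke1Inputs Kbar M q` [I-HECKE1INPUTS],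
  5. `NormEv1Statement M q` [NORM1-EV],
  6. `helper14.DiamondEvSymm M d` [TRANS-D].
-/

set_option autoImplicit false
set_option linter.unusedSectionVars false
set_option linter.style.haveILetI false

noncomputable section

namespace Fermat.Agent.T4.helper21

open CongruenceSubgroup ModularCurve ModularCurve.Period AlgebraicCurve
open scoped MatrixGroups
open Fermat.Agent.P3.helper20 Fermat.Agent.P3.helper34 Fermat.Agent.P3.helper94
open Fermat.Agent.T4.helper1 (GenKappa genWordEnd)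

variable (M : ℕ) [NeZero M]

/-! ## (KD5) for `hecke1` -/

/-- The Hecke operator `T_q = b_* a^*` on Kummer representatives: `h ↦ Norm_{β₁} (α₁ h)`, where
`α₁` is the inclusion `F₁(M) ⊆ F₁(M, q)` and `β₁` is `f(q) ↦ f(q^q)`. -/
def heckeKummer1 (q : ℕ) [NeZero q] (h : helper32.F1 M) : helper32.F1 M :=
  normAlong (helper32.beta1 helper32.Kbar M q) (helper32.alpha1 helper32.Kbar M q h)

theorem heckeKummer1_def (q : ℕ) [NeZero q] (h : helper32.F1 M) :
    heckeKummer1 M q h =
      (letI := algebraAlong (helper32.beta1 helper32.Kbar M q)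
       Algebra.norm (helper32.F1 M) (helper32.alpha1 helper32.Kbar M q h)) := rfl

theorem heckeKummer1_mul (q : ℕ) [NeZero q] (h g : helper32.F1 M) :
    heckeKummer1 M q (h * g) = heckeKummer1 M q h * heckeKummer1 M q g := by
  unfold heckeKummer1
  rw [map_mul, map_mul]

theorem heckeKummer1_one (q : ℕ) [NeZero q] :
    heckeKummer1 M q (1 : helper32.F1 M) = 1 := by
  unfold heckeKummer1
  rw [map_one, map_one]

/-- (KD5) on `J₁(M)`: `hecke1 M q x` is represented by `Norm_{β₁} (α₁ h)`. -/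
theorem isKummerRep_hecke1 (q : Nat.Primes)
    (hI : haveI : NeZero (q : ℕ) := ⟨q.2.ne_zero⟩
      helper32.Hecke1Inputs helper32.Kbar M (q : ℕ))
    {m : ℕ} {x : helper32.J1 M} {h : helper32.F1 M} (H : IsKummerRep m x h) :
    IsKummerRep m (helper32.hecke1 M q x)
      (haveI : NeZero (q : ℕ) := ⟨q.2.ne_zero⟩
       heckeKummer1 M (q : ℕ) h) := by
  haveI : NeZero (q : ℕ) := ⟨q.2.ne_zero⟩
  have e : helper32.hecke1 M q x = helper32.hecke1Along helper32.Kbar M (q : ℕ) x := rfl
  rw [e, helper32.hecke1Along, dif_pos hI]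
  haveI := hI.snd.snd.fst
  exact H.correspondence (helper32.alpha1 helper32.Kbar M (q : ℕ))
    (helper32.beta1 helper32.Kbar M (q : ℕ)) hI.fst hI.snd.fst hI.snd.snd.snd.snd.1
    hI.snd.snd.snd.fst hI.snd.snd.snd.snd.2

/-! ## [NORM1-EV] and the transport along `T_q` -/

/-- **[NORM1-EV]** the norm dictionary for `X₁(M)`: for a prime `q ∤ M` and `h ∈ F₁(M)` with
function `f`, the function of `Norm_{β₁} (α₁ h)` is the norm product of `f` along the coset
system of `T_q`, `w ↦ f (δ_q (q w)) ∏_{j mod q} f ((w + j) / q)`. -/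
def NormEv1Statement (q : {q : Nat.Primes // ¬ (q : ℕ) ∣ M}) : Prop :=
  haveI : NeZero ((q.1 : ℕ)) := ⟨q.1.2.ne_zero⟩
  ∀ (h : helper32.F1 M) (f : ℂ → ℂ),
    IsEv (Fermat.Agent.S24.helper17.toC (h : LaurentSeries helper32.Kbar)) f →
    IsEv (Fermat.Agent.S24.helper17.toC
        ((heckeKummer1 M (q.1 : ℕ) h : helper32.F1 M) : LaurentSeries helper32.Kbar))
      (normProd (helper79.systemTq M q) f)

/-- the determinants of the representatives of `T_q` are positive -/
theorem det_systemTq_pos (q : {q : Nat.Primes // ¬ (q : ℕ) ∣ M})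
    (x : OnePoint (ZMod (q.1 : ℕ))) : 0 < (((helper79.systemTq M q).α x).det : ℝ) :=
  helper79.det_repT1_pos _ _ x

/-- **[AN-TRANS-T]** Kummer transport along `T_q = hecke1 M q`. -/
theorem transportT1_of (p : ℕ) (q : {q : Nat.Primes // ¬ (q : ℕ) ∣ M})
    (hI : haveI : NeZero ((q.1 : ℕ)) := ⟨q.1.2.ne_zero⟩
      helper32.Hecke1Inputs helper32.Kbar M (q.1 : ℕ))
    (hEv : NormEv1Statement M q) :
    Transport1Statement M p (.inl q) := by
  haveI : NeZero ((q.1 : ℕ)) := ⟨q.1.2.ne_zero⟩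
  intro n ε x h f hK hE hC
  refine ⟨heckeKummer1 M (q.1 : ℕ) h, normProd (helper79.systemTq M q) f,
    isKummerRep_hecke1 M q.1 hI hK, hEv h f hE, ?_⟩
  rw [← helper79.latPsi1_heckeChar_T]
  exact hC.normProd (helper79.systemTq M q) (det_systemTq_pos M q)

/-! ## The wiring of I-AN -/

/-- the lattice form of [SURJ1] from the character form -/
theorem surj1_of_surjChar (p : ℕ) (hp : 0 < p) (𝒟 : AnDict (F1Cx M) (Gamma1 M))
    (hsurj : SurjChar1Statement M 𝒟) : Surj1Statement M p 𝒟 := fun n ε =>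
  hsurj (p ^ n) (pow_pos hp n) (latPsi1 M p n ε)
    (fun γ => by
      have h := latPsi1_pow M p hp n ε
      have h1 := DFunLike.congr_fun h γ
      rwa [MonoidHom.pow_apply, MonoidHom.one_apply] at h1)
    (fun γ hγ => latPsi1_parabolic M p n ε γ hγ)

/-- **[KAPPA1] from the leaves**, in the vocabulary of `helper21_AN1Defs`. -/
theorem kappa1_of_leaves (p : ℕ) (hp : 0 < p) (𝒟 : AnDict (F1Cx M) (Gamma1 M))
    (hstd : IsStdDict M 𝒟) (hsurj : SurjChar1Statement M 𝒟) (hdesc : Desc1Statement M)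
    (hI : ∀ q : {q : Nat.Primes // ¬ (q : ℕ) ∣ M},
      haveI : NeZero ((q.1 : ℕ)) := ⟨q.1.2.ne_zero⟩
      helper32.Hecke1Inputs helper32.Kbar M (q.1 : ℕ))
    (hN : ∀ q : {q : Nat.Primes // ¬ (q : ℕ) ∣ M}, NormEv1Statement M q)
    (hD : ∀ d : (ZMod M)ˣ, helper14.DiamondEvSymm M d) :
    Kappa1Statement M p :=
  kappa1_of M p hp 𝒟 hstd (surj1_of_surjChar M p hp 𝒟 hsurj) hdesc
    (fun i => match i with
      | .inl q => transportT1_of M p q (hI q) (hN q)
      | .inr d => helper14.transportD1_of M p d (hD d))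
    (helper79.faith1 M)

/-- **[KAPPA1] from the leaves, canonical form**: the input `hK` of
`helper1.eigen1_of_inputs` / `helper3.eigen1_of_x1Inputs` (convention [A]). -/
theorem genKappa1_of_leaves (p : ℕ) (hp : 0 < p) (𝒟 : AnDict (F1Cx M) (Gamma1 M))
    (hstd : IsStdDict M 𝒟) (hsurj : SurjChar1Statement M 𝒟) (hdesc : Desc1Statement M)
    (hI : ∀ q : {q : Nat.Primes // ¬ (q : ℕ) ∣ M},
      haveI : NeZero ((q.1 : ℕ)) := ⟨q.1.2.ne_zero⟩
      helper32.Hecke1Inputs helper32.Kbar M (q.1 : ℕ))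
    (hN : ∀ q : {q : Nat.Primes // ¬ (q : ℕ) ∣ M}, NormEv1Statement M q)
    (hD : ∀ d : (ZMod M)ˣ, helper14.DiamondEvSymm M d) :
    GenKappa p (helper1.op1 M) (helper79.gen1 M 2) :=
  genKappa_canonical M p (kappa1_of_leaves M p hp 𝒟 hstd hsurj hdesc hI hN hD)

/-- **The deliverables of I-AN at level `M ≥ 7`**: `[KAPPA]` and `[FIN]` of
`helper3.eigen1_of_x1Inputs` from the leaves. -/
theorem ian_of_leaves (hM : 7 ≤ M) (p : ℕ) (hp : 0 < p)
    (hdict : helper24.AnDict1Statement M)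
    (hsurj : ∀ 𝒟 : AnDict (F1Cx M) (Gamma1 M), IsStdDict M 𝒟 → SurjChar1Statement M 𝒟)
    (hdesc : Desc1Statement M)
    (hI : ∀ q : {q : Nat.Primes // ¬ (q : ℕ) ∣ M},
      haveI : NeZero ((q.1 : ℕ)) := ⟨q.1.2.ne_zero⟩
      helper32.Hecke1Inputs helper32.Kbar M (q.1 : ℕ))
    (hN : ∀ q : {q : Nat.Primes // ¬ (q : ℕ) ∣ M}, NormEv1Statement M q)
    (hD : ∀ d : (ZMod M)ˣ, helper14.DiamondEvSymm M d) :
    Finite (nsmulAddMonoidHom (α := helper32.J1 M) (p ^ 1)).ker ∧
      GenKappa p (helper1.op1 M) (helper79.gen1 M 2) := by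
  obtain ⟨𝒟, hstd⟩ := hdict hM
  exact ⟨fin1_of M p hp 𝒟 hdesc,
    genKappa1_of_leaves M p hp 𝒟 hstd (hsurj 𝒟 hstd) hdesc hI hN hD⟩

end Fermat.Agent.T4.helper21

end
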