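import Fermat.Agent.T4.helper21_EisOutFinal

/-!
# T4 block (III): the cross-block CONTRACT EIS (blueprint T4 v0, §2), UNCONDITIONAL (helper21)

In the shape the wiring (R) consumes: a ring homomorphism `r : Zbar →+* k` to a field of
characteristic `ℓ` (an odd prime) instead of a maximal ideal, and the normalisation
`E = 2ℓ · G_χ ≡ 1 mod ker r`.

* `ker_isMaximal_of_charP` : `ker r` is a maximal ideal of `Zbar` containing `ℓ`;
* `EisContractStatement` / `eisContract` : the character `ψ = ω⁻¹` (values `Ψ d ∈ Zbar`,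
  `r (Ψ d) * d = 1` in `k`), `E ∈ M_1(Γ_1(ℓ))` with `E(γτ) = ψ(d_γ)(cτ+d) E(τ)` on `Γ_0(ℓ)`,
  integral `q`-coefficients `e n`, `r (e 0) = 1`, `r (e n) = 0` (`n ≥ 1`);
* `ProdContractStatement` / `prodContract` : moreover for every `f ∈ S_1(Γ_1(N))` with integral
  `q`-coefficients `A n` the product `g = f · E ∈ S_2(Γ_1(Nℓ))` has integral `q`-coefficients
  `B n` with `r (B n) = r (A n)`.
-/

set_option autoImplicit false

universe u

noncomputable section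

namespace Fermat.Agent.T4.helper21

open UpperHalfPlane hiding I
open Complex EisensteinSeries CongruenceSubgroup ModularForm Filter
open scoped MatrixGroups Real Manifold

local notation "Zbar" => integralClosure ℤ ℂ

/-- the kernel of a ring homomorphism from the algebraic integers to a field of characteristic
`ℓ` is a maximal ideal containing `ℓ`. -/
theorem ker_isMaximal_of_charP (ℓ : ℕ) [hℓ : Fact ℓ.Prime] {k : Type u} [Field k] [CharP k ℓ]
    (r : Zbar →+* k) :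
    (RingHom.ker r).IsMaximal ∧ ((ℓ : ℕ) : Zbar) ∈ RingHom.ker r := by
  have hmem : ((ℓ : ℕ) : Zbar) ∈ RingHom.ker r := by
    rw [RingHom.mem_ker, map_natCast]
    exact CharP.cast_eq_zero k ℓ
  refine ⟨?_, hmem⟩
  have hprime : (RingHom.ker r).IsPrime := RingHom.ker_isPrime r
  have : Algebra.IsIntegral ℤ Zbar := inferInstance
  have hcomap_prime : ((RingHom.ker r).comap (algebraMap ℤ Zbar)).IsPrime := inferInstance
  have hne : (RingHom.ker r).comap (algebraMap ℤ Zbar) ≠ ⊥ := by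
    intro h
    have h1 : ((ℓ : ℕ) : ℤ) ∈ (RingHom.ker r).comap (algebraMap ℤ Zbar) := by
      rw [Ideal.mem_comap]
      simp only [eq_intCast, Int.cast_natCast]
      exact hmem
    rw [h, Ideal.mem_bot] at h1
    exact hℓ.out.ne_zero (by exact_mod_cast h1)
  have hmax : ((RingHom.ker r).comap (algebraMap ℤ Zbar)).IsMaximal :=
    IsPrime.to_maximal_ideal hne
  exact Ideal.isMaximal_of_isIntegral_of_isMaximal_comap (R := ℤ) (RingHom.ker r) hmax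

/-- **CONTRACT EIS + product** (blueprint T4 v0 §2 and (R1)). -/
def ProdContractStatement : Prop :=
  ∀ (N ℓ : ℕ) [NeZero N] [Fact ℓ.Prime], 3 ≤ ℓ →
    ∀ (k : Type u) [Field k] [CharP k ℓ] (r : Zbar →+* k)
      (f : CuspForm (Gamma1 N) 1) (A : ℕ → Zbar),
      (∀ n, (A n : ℂ) = ModularFormClass.qCoeff f n) →
      ∃ (ψ : DirichletCharacter ℂ ℓ) (Ψ : ZMod ℓ → Zbar) (E : ModularForm (Gamma1 ℓ) 1)
        (e : ℕ → Zbar) (g : CuspForm (Gamma1 (N * ℓ)) 2) (B : ℕ → Zbar),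
        ψ (-1) = -1 ∧
        (∀ d, (Ψ d : ℂ) = ψ d) ∧
        (∀ d : ℕ, ¬ ℓ ∣ d → r (Ψ (d : ZMod ℓ)) * (d : k) = 1) ∧
        (∀ γ ∈ Gamma0 ℓ, ∀ τ : ℍ,
          E (γ • τ) = ψ (((γ 1 1 : ℤ) : ZMod ℓ)) * denom γ τ * E τ) ∧
        (∀ n, (e n : ℂ) = ModularFormClass.qCoeff E n) ∧
        r (e 0) = 1 ∧ (∀ n, n ≠ 0 → r (e n) = 0) ∧
        (∀ τ : ℍ, g τ = f τ * E τ) ∧
        (∀ n, (B n : ℂ) = ModularFormClass.qCoeff g n) ∧
        (∀ n, r (B n) = r (A n))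

/-- **CONTRACT EIS** (blueprint T4 v0 §2). -/
def EisContractStatement : Prop :=
  ∀ (ℓ : ℕ) [Fact ℓ.Prime], 3 ≤ ℓ →
    ∀ (k : Type u) [Field k] [CharP k ℓ] (r : Zbar →+* k),
      ∃ (ψ : DirichletCharacter ℂ ℓ) (Ψ : ZMod ℓ → Zbar) (E : ModularForm (Gamma1 ℓ) 1)
        (e : ℕ → Zbar),
        ψ (-1) = -1 ∧
        (∀ d, (Ψ d : ℂ) = ψ d) ∧
        (∀ d : ℕ, ¬ ℓ ∣ d → r (Ψ (d : ZMod ℓ)) * (d : k) = 1) ∧
        (∀ γ ∈ Gamma0 ℓ, ∀ τ : ℍ,
          E (γ • τ) = ψ (((γ 1 1 : ℤ) : ZMod ℓ)) * denom γ τ * E τ) ∧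
        (∀ n, (e n : ℂ) = ModularFormClass.qCoeff E n) ∧
        r (e 0) = 1 ∧ (∀ n, n ≠ 0 → r (e n) = 0)

/-- the common construction. -/
theorem eis_prod_aux (N ℓ : ℕ) [NeZero N] [hℓF : Fact ℓ.Prime] (h3 : 3 ≤ ℓ)
    (k : Type u) [Field k] [CharP k ℓ] (r : Zbar →+* k)
    (f : CuspForm (Gamma1 N) 1) (A : ℕ → Zbar)
    (hA : ∀ n, (A n : ℂ) = ModularFormClass.qCoeff f n) :
    ∃ (ψ : DirichletCharacter ℂ ℓ) (Ψ : ZMod ℓ → Zbar) (E : ModularForm (Gamma1 ℓ) 1)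
      (e : ℕ → Zbar) (g : CuspForm (Gamma1 (N * ℓ)) 2) (B : ℕ → Zbar),
      ψ (-1) = -1 ∧
      (∀ d, (Ψ d : ℂ) = ψ d) ∧
      (∀ d : ℕ, ¬ ℓ ∣ d → r (Ψ (d : ZMod ℓ)) * (d : k) = 1) ∧
      (∀ γ ∈ Gamma0 ℓ, ∀ τ : ℍ,
        E (γ • τ) = ψ (((γ 1 1 : ℤ) : ZMod ℓ)) * denom γ τ * E τ) ∧
      (∀ n, (e n : ℂ) = ModularFormClass.qCoeff E n) ∧
      r (e 0) = 1 ∧ (∀ n, n ≠ 0 → r (e n) = 0) ∧
      (∀ τ : ℍ, g τ = f τ * E τ) ∧
      (∀ n, (B n : ℂ) = ModularFormClass.qCoeff g n) ∧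
      (∀ n, r (B n) = r (A n)) := by
  have : NeZero ℓ := ⟨hℓF.out.ne_zero⟩
  have hℓ0 : ℓ ≠ 0 := hℓF.out.ne_zero
  obtain ⟨hmax, hℓP⟩ := ker_isMaximal_of_charP ℓ r
  obtain ⟨χ, X, u, hodd, hX, hXk, hu, hu1⟩ := congStatement ℓ h3 (RingHom.ker r) hmax hℓP
  obtain ⟨G, hlaw, hsum⟩ := eisStatement ℓ χ hodd
  -- `E = 2ℓ G`
  let E : ModularForm (Gamma1 ℓ) 1 := (2 * (ℓ : ℂ)) • G
  have hE : ∀ τ : ℍ, E τ = (2 * (ℓ : ℂ)) * G τ := by
    intro τ
    show ((2 * (ℓ : ℂ)) • G) τ = _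
    rw [smul_apply, smul_eq_mul]
  let e : ℕ → Zbar := fun n => - Fermat.Agent.T4.helper4.outCoeff ℓ X u n
  have hecoe : ∀ n, ((e n : Zbar) : ℂ) = 2 * (ℓ : ℂ) * eisCoeff ℓ χ n := by
    intro n
    show ((- Fermat.Agent.T4.helper4.outCoeff ℓ X u n : Zbar) : ℂ) = _
    push_cast
    rw [Fermat.Agent.T4.helper4.outCoeff_coe ℓ hℓ0 χ X u hX hu n]
    ring
  have hEsum : ∀ τ : ℍ, HasSum (fun n : ℕ => ((e n : Zbar) : ℂ) * qPow τ n) (E τ) := by
    intro τ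
    rw [hE τ]
    have h1 := (hsum τ).mul_left (2 * (ℓ : ℂ))
    have h2 : (fun n : ℕ => ((e n : Zbar) : ℂ) * qPow τ n) =
        fun n : ℕ => 2 * (ℓ : ℂ) * (eisCoeff ℓ χ n * qPow τ n) := by
      funext n
      rw [hecoe n]
      ring
    rw [h2]
    exact h1
  have hEq : ∀ n, ((e n : Zbar) : ℂ) = ModularFormClass.qCoeff E n := fun n =>
    (qCoeffStatement ℓ E (fun n => ((e n : Zbar) : ℂ)) hEsum n).symm
  have he0 : r (e 0) = 1 := by
    have h0 : e 0 = -u := by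
      show - Fermat.Agent.T4.helper4.outCoeff ℓ X u 0 = -u
      simp [Fermat.Agent.T4.helper4.outCoeff]
    have h1 : r (u + 1) = 0 := (RingHom.mem_ker).mp hu1
    rw [map_add, map_one] at h1
    rw [h0, map_neg]
    linear_combination -h1
  have hen : ∀ n, n ≠ 0 → r (e n) = 0 := by
    intro n hn
    have h1 : r (Fermat.Agent.T4.helper4.outCoeff ℓ X u n) = 0 :=
      (RingHom.mem_ker).mp (Fermat.Agent.T4.helper4.outCoeff_mem ℓ X u (RingHom.ker r) hℓP hn)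
    show r (- Fermat.Agent.T4.helper4.outCoeff ℓ X u n) = 0
    rw [map_neg, h1, neg_zero]
  -- the product
  obtain ⟨g, hg⟩ := mulStatement' N ℓ f E
  let B : ℕ → Zbar := fun n =>
    ∑ p ∈ Finset.HasAntidiagonal.antidiagonal n, A p.1 * e p.2
  have hBq : ∀ n, ((B n : Zbar) : ℂ) = ModularFormClass.qCoeff g n := by
    intro n
    have hg' : ∀ τ : ℍ, g τ = (1 : ℂ) * (f τ * E τ) := fun τ => by rw [hg τ, one_mul]
    rw [prodStatement N ℓ f E g 1 hg' n, one_mul]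
    show ((∑ p ∈ Finset.HasAntidiagonal.antidiagonal n, A p.1 * e p.2 : Zbar) : ℂ) = _
    push_cast
    refine Finset.sum_congr rfl fun p _ => ?_
    rw [hA p.1, hEq p.2]
  have hBr : ∀ n, r (B n) = r (A n) := by
    intro n
    show r (∑ p ∈ Finset.HasAntidiagonal.antidiagonal n, A p.1 * e p.2) = _
    have hmem : (n, 0) ∈ Finset.HasAntidiagonal.antidiagonal n := by simp
    rw [map_sum, ← Finset.add_sum_erase _ _ hmem]
    have hrest : ∑ p ∈ (Finset.HasAntidiagonal.antidiagonal n).erase (n, 0),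
        r (A p.1 * e p.2) = 0 := by
      refine Finset.sum_eq_zero fun p hp => ?_
      have hp' := Finset.mem_erase.mp hp
      have hp2 : p.2 ≠ 0 := by
        intro h2
        apply hp'.1
        have hs := Finset.HasAntidiagonal.mem_antidiagonal.mp hp'.2
        ext
        · simp only; omega
        · simpa using h2
      rw [map_mul, hen p.2 hp2, mul_zero]
    rw [hrest, add_zero, map_mul, he0, mul_one]
  refine ⟨χ, X, E, e, g, B, hodd, hX, ?_, ?_, hEq, he0, hen, hg, hBq, hBr⟩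
  · intro d hd
    have h1 : r (X (d : ZMod ℓ) * (d : Zbar) - 1) = 0 := (RingHom.mem_ker).mp (hXk d hd)
    rw [map_sub, map_mul, map_one, map_natCast] at h1
    linear_combination h1
  · intro γ hγ τ
    rw [hE, hE, hlaw γ hγ τ]
    ring

theorem prodContract : ProdContractStatement.{u} := by
  intro N ℓ _ hℓF h3 k _ _ r f A hA
  exact eis_prod_aux N ℓ h3 k r f A hA

theorem eisContract : EisContractStatement.{u} := by
  intro ℓ hℓF h3 k _ _ r
  obtain ⟨ψ, Ψ, E, e, g, B, h1, h2, h3', h4, h5, h6, h7, -, -, -⟩ :=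
    eis_prod_aux 1 ℓ h3 k r 0 (fun _ => 0) (by
      intro n
      have h0 : ∀ τ : ℍ, HasSum (fun n : ℕ => (0 : ℂ) * qPow τ n)
          ((0 : CuspForm (Gamma1 1) 1) τ) := by
        intro τ
        simp only [zero_mul]
        exact hasSum_zero
      rw [Fermat.Agent.T4.helper92.qCoeff_of_hasSum 1 1 (0 : CuspForm (Gamma1 1) 1)
        (fun _ => (0 : ℂ)) h0 n]
      rfl)
  exact ⟨ψ, Ψ, E, e, h1, h2, h3', h4, h5, h6, h7⟩

end Fermat.Agent.T4.helper21
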