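import Mathlib
import Fermat.Agent.T4.helper21_EisDefs

/-!
# T4 block (III), leaf [EIS-GAUSS] (helper2)

`gauss_of : QExpStatement → GaussStatement`: the character sum
`eisPre ℓ χ = ∑_k χ⁻¹(k) divVal ℓ (0, k)` has the `q`-expansion `c · ∑ eisCoeff n qⁿ` with
`c = -4πi τ(χ⁻¹) ≠ 0`, `τ(χ⁻¹) = ∑_k χ⁻¹(k) ζ^k` the Gauss sum.
-/

set_option autoImplicit false
set_option linter.style.haveILetI false

noncomputable section

namespace Fermat.Agent.T4.helper2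

open Complex Filter Finset
open scoped Real

open Fermat.Agent.T4.helper21

/-- `zetaPow ℓ m` is the value of the standard additive character at `m`. -/
lemma zetaPow_eq_stdAddChar (ℓ : ℕ) [NeZero ℓ] (m : ℤ) :
    zetaPow ℓ m = ZMod.stdAddChar (N := ℓ) (m : ZMod ℓ) := by
  rw [ZMod.stdAddChar_coe, zetaPow]

/-- a sum over `range ℓ` of a function of the residue class is the sum over `ZMod ℓ`. -/
lemma sum_range_eq_sum_zmod (ℓ : ℕ) [NeZero ℓ] (F : ZMod ℓ → ℂ) :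
    ∑ k ∈ range ℓ, F (k : ZMod ℓ) = ∑ x : ZMod ℓ, F x := by
  refine Finset.sum_bij' (fun k _ => (k : ZMod ℓ)) (fun x _ => x.val) ?_ ?_ ?_ ?_ ?_
  · intro k _; exact Finset.mem_univ _
  · intro x _; exact Finset.mem_range.mpr (ZMod.val_lt x)
  · intro k hk; exact ZMod.val_cast_of_lt (Finset.mem_range.mp hk)
  · intro x _; exact ZMod.natCast_zmod_val x
  · intro k _; rfl

section gauss

variable (ℓ : ℕ) [Fact ℓ.Prime] (χ : DirichletCharacter ℂ ℓ)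

/-- the Gauss sum `τ(χ⁻¹)`. -/
def tauInv : ℂ := gaussSum χ⁻¹ (ZMod.stdAddChar (N := ℓ))

lemma inv_ne_one_of_odd (hχ : χ (-1) = -1) : χ⁻¹ ≠ 1 := by
  intro h
  have h1 : χ = 1 := by
    have := congrArg (fun ψ => ψ⁻¹) h
    simpa using this
  rw [h1] at hχ
  have h2 : (1 : DirichletCharacter ℂ ℓ) (-1) = 1 := by
    have hu : IsUnit (-1 : ZMod ℓ) := isUnit_one.neg
    exact MulChar.one_apply hu
  rw [h2] at hχ
  norm_num at hχ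

lemma tauInv_ne_zero (hχ : χ (-1) = -1) : tauInv ℓ χ ≠ 0 := by
  haveI : NeZero ℓ := ⟨(Fact.out : ℓ.Prime).ne_zero⟩
  refine gaussSum_ne_zero_of_nontrivial ?_ (inv_ne_one_of_odd ℓ χ hχ)
    (ZMod.isPrimitive_stdAddChar ℓ)
  rw [ZMod.card]
  exact Nat.cast_ne_zero.mpr (Fact.out : ℓ.Prime).ne_zero

/-- `∑_x χ⁻¹(x) ψ(r x) = χ(r) τ(χ⁻¹)` for every `r` (also `r = 0`). -/
lemma sum_inv_mul_shift (hχ : χ (-1) = -1) (r : ZMod ℓ) :
    ∑ x : ZMod ℓ, χ⁻¹ x * ZMod.stdAddChar (N := ℓ) (r * x) = χ r * tauInv ℓ χ := by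
  by_cases hr : IsUnit r
  · obtain ⟨u, rfl⟩ := hr
    have h := gaussSum_mulShift_eq χ⁻¹ (ZMod.stdAddChar (N := ℓ)) u
    rw [inv_inv] at h
    rw [tauInv, ← h, gaussSum]
    refine Finset.sum_congr rfl fun x _ => ?_
    rw [AddChar.mulShift_apply]
  · have hr0 : r = 0 := by
      by_contra h0
      exact hr (IsUnit.mk0 r h0)
    subst hr0
    rw [MulChar.map_nonunit χ hr, zero_mul]
    have : ∀ x : ZMod ℓ, χ⁻¹ x * ZMod.stdAddChar (N := ℓ) (0 * x) = χ⁻¹ x := by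
      intro x
      rw [zero_mul, AddChar.map_zero_eq_one, mul_one]
    rw [Finset.sum_congr rfl fun x _ => this x]
    exact MulChar.sum_eq_zero_of_ne_one (inv_ne_one_of_odd ℓ χ hχ)

/-- the finite identity for the coefficients of `qⁿ`, `n ≥ 1`. -/
lemma sum_inv_mul_zetaPow_sub (hχ : χ (-1) = -1) (r : ℕ) :
    ∑ k ∈ range ℓ, χ⁻¹ (k : ZMod ℓ) *
        (zetaPow ℓ (-((r : ℤ) * (k : ℤ))) - zetaPow ℓ ((r : ℤ) * (k : ℤ))) =
      -2 * χ (r : ZMod ℓ) * tauInv ℓ χ := by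
  haveI : NeZero ℓ := ⟨(Fact.out : ℓ.Prime).ne_zero⟩
  have h1 : ∀ k : ℕ, χ⁻¹ (k : ZMod ℓ) *
        (zetaPow ℓ (-((r : ℤ) * (k : ℤ))) - zetaPow ℓ ((r : ℤ) * (k : ℤ))) =
      χ⁻¹ (k : ZMod ℓ) * ZMod.stdAddChar (N := ℓ) ((-(r : ZMod ℓ)) * (k : ZMod ℓ)) -
        χ⁻¹ (k : ZMod ℓ) * ZMod.stdAddChar (N := ℓ) ((r : ZMod ℓ) * (k : ZMod ℓ)) := by
    intro k
    rw [zetaPow_eq_stdAddChar, zetaPow_eq_stdAddChar, mul_sub]
    push_cast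
    ring_nf
  rw [Finset.sum_congr rfl fun k _ => h1 k, Finset.sum_sub_distrib,
    sum_range_eq_sum_zmod ℓ (fun x => χ⁻¹ x * ZMod.stdAddChar (N := ℓ) ((-(r : ZMod ℓ)) * x)),
    sum_range_eq_sum_zmod ℓ (fun x => χ⁻¹ x * ZMod.stdAddChar (N := ℓ) ((r : ZMod ℓ) * x)),
    sum_inv_mul_shift ℓ χ hχ, sum_inv_mul_shift ℓ χ hχ]
  have h2 : χ (-(r : ZMod ℓ)) = -χ (r : ZMod ℓ) := by
    rw [show (-(r : ZMod ℓ)) = (-1) * (r : ZMod ℓ) by ring, map_mul, hχ]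
    ring
  rw [h2]
  ring

end gauss

/-- `(w - 1) ∑_{j<n} j w^j + ∑_{j<n} w^j = (n - 1) w^n + 1`. -/
lemma geom_id_sum (w : ℂ) (n : ℕ) :
    (w - 1) * ∑ j ∈ range n, (j : ℂ) * w ^ j + ∑ j ∈ range n, w ^ j =
      ((n : ℂ) - 1) * w ^ n + 1 := by
  induction n with
  | zero => simp
  | succ n ih =>
    rw [Finset.sum_range_succ, Finset.sum_range_succ, mul_add, pow_succ]
    have : (w - 1) * ∑ j ∈ range n, (j : ℂ) * w ^ j + (w - 1) * ((n : ℂ) * w ^ n) +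
        (∑ j ∈ range n, w ^ j + w ^ n) =
        ((w - 1) * ∑ j ∈ range n, (j : ℂ) * w ^ j + ∑ j ∈ range n, w ^ j) +
          ((w - 1) * ((n : ℂ) * w ^ n) + w ^ n) := by ring
    rw [this, ih]
    push_cast
    ring

/-- for an `n`-th root of unity `w ≠ 1`: `(w - 1) ∑_{j<n} j w^j = n`. -/
lemma sub_one_mul_sum_id (w : ℂ) (n : ℕ) (hw : w ^ n = 1) (hw1 : w ≠ 1) :
    (w - 1) * ∑ j ∈ range n, (j : ℂ) * w ^ j = (n : ℂ) := by
  have h := geom_id_sum w n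
  have hg : ∑ j ∈ range n, w ^ j = 0 := by
    have := geom_sum_eq hw1 n
    rw [this, hw, sub_self, zero_div]
  rw [hg, hw, add_zero, mul_one] at h
  rw [h]
  ring

section const

variable (ℓ : ℕ) [Fact ℓ.Prime] (χ : DirichletCharacter ℂ ℓ)

/-- `cot(π k/ℓ) = i (1 + (2/ℓ) ∑_{j<ℓ} j ζ^{jk})` for `0 < k < ℓ`. -/
lemma cot_eq_sum (k : ℕ) (hk0 : k ≠ 0) (hk : k < ℓ) :
    cot (π * (((k : ℤ) : ℂ)) / (ℓ : ℂ)) =
      I * (1 + 2 / (ℓ : ℂ) * ∑ j ∈ range ℓ, (j : ℂ) *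
        ZMod.stdAddChar (N := ℓ) ((j : ZMod ℓ) * (k : ZMod ℓ))) := by
  haveI : NeZero ℓ := ⟨(Fact.out : ℓ.Prime).ne_zero⟩
  have hℓ0 : (ℓ : ℂ) ≠ 0 := Nat.cast_ne_zero.mpr (Fact.out : ℓ.Prime).ne_zero
  set w : ℂ := ZMod.stdAddChar (N := ℓ) (k : ZMod ℓ) with hw
  have hwexp : Complex.exp (2 * I * (π * (((k : ℤ) : ℂ)) / (ℓ : ℂ))) = w := by
    rw [hw, show ((k : ℕ) : ZMod ℓ) = (((k : ℤ)) : ZMod ℓ) by push_cast; rfl,
      ZMod.stdAddChar_coe]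
    congr 1
    ring
  have hwpow : ∀ j : ℕ, ZMod.stdAddChar (N := ℓ) ((j : ZMod ℓ) * (k : ZMod ℓ)) = w ^ j := by
    intro j
    rw [hw, ← AddChar.map_nsmul_eq_pow, nsmul_eq_mul]
  have hwℓ : w ^ ℓ = 1 := by
    rw [← hwpow ℓ, ZMod.natCast_self, zero_mul, AddChar.map_zero_eq_one]
  have hw1 : w ≠ 1 := by
    intro h
    rw [hw, ← (ZMod.stdAddChar (N := ℓ)).map_zero_eq_one] at h
    have h0 := ZMod.injective_stdAddChar h
    rw [ZMod.natCast_eq_zero_iff] at h0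
    exact hk0 (Nat.eq_zero_of_dvd_of_lt h0 hk)
  have hsum := sub_one_mul_sum_id w ℓ hwℓ hw1
  have hw1' : w - 1 ≠ 0 := sub_ne_zero.mpr hw1
  have hw1'' : 1 - w ≠ 0 := sub_ne_zero.mpr (Ne.symm hw1)
  rw [Complex.cot_eq_exp_ratio, hwexp, Finset.sum_congr rfl fun j _ => by rw [hwpow j]]
  have hS : ∑ j ∈ range ℓ, (j : ℂ) * w ^ j = (ℓ : ℂ) / (w - 1) := by
    rw [eq_div_iff hw1', mul_comm]
    exact hsum
  rw [hS]
  have hI : I ≠ 0 := I_ne_zero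
  field_simp
  ring_nf
  rw [I_sq]
  ring

/-- the constant term: `∑_k χ⁻¹(k) π cot(πk/ℓ) = c · eisCoeff 0`. -/
lemma sum_inv_mul_cot (hχ : χ (-1) = -1) :
    ∑ k ∈ range ℓ, χ⁻¹ (k : ZMod ℓ) * (π * cot (π * (((k : ℤ) : ℂ)) / (ℓ : ℂ))) =
      -4 * π * I * tauInv ℓ χ * eisCoeff ℓ χ 0 := by
  haveI : NeZero ℓ := ⟨(Fact.out : ℓ.Prime).ne_zero⟩
  have hℓ0 : (ℓ : ℂ) ≠ 0 := Nat.cast_ne_zero.mpr (Fact.out : ℓ.Prime).ne_zero
  have hterm : ∀ k ∈ range ℓ,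
      χ⁻¹ (k : ZMod ℓ) * (π * cot (π * (((k : ℤ) : ℂ)) / (ℓ : ℂ))) =
        π * I * χ⁻¹ (k : ZMod ℓ) + 2 * π * I / (ℓ : ℂ) * ∑ j ∈ range ℓ, (j : ℂ) *
          (χ⁻¹ (k : ZMod ℓ) * ZMod.stdAddChar (N := ℓ) ((j : ZMod ℓ) * (k : ZMod ℓ))) := by
    intro k hk
    by_cases hk0 : k = 0
    · subst hk0
      have h0 : χ⁻¹ ((0 : ℕ) : ZMod ℓ) = 0 := by
        rw [Nat.cast_zero]
        exact MulChar.map_nonunit _ not_isUnit_zero
      simp only [h0, zero_mul, mul_zero, Finset.sum_const_zero, add_zero]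
    · have hsw : ∑ j ∈ range ℓ, (j : ℂ) *
          (χ⁻¹ (k : ZMod ℓ) * ZMod.stdAddChar (N := ℓ) ((j : ZMod ℓ) * (k : ZMod ℓ))) =
          χ⁻¹ (k : ZMod ℓ) * ∑ j ∈ range ℓ, (j : ℂ) *
            ZMod.stdAddChar (N := ℓ) ((j : ZMod ℓ) * (k : ZMod ℓ)) := by
        rw [Finset.mul_sum]
        refine Finset.sum_congr rfl fun j _ => ?_
        ring
      rw [cot_eq_sum ℓ k hk0 (Finset.mem_range.mp hk), hsw]
      ring
  rw [Finset.sum_congr rfl hterm, Finset.sum_add_distrib, ← Finset.mul_sum, ← Finset.mul_sum,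
    Finset.sum_comm]
  have h1 : ∑ k ∈ range ℓ, χ⁻¹ (k : ZMod ℓ) = 0 := by
    rw [sum_range_eq_sum_zmod ℓ (fun x => χ⁻¹ x)]
    exact MulChar.sum_eq_zero_of_ne_one (inv_ne_one_of_odd ℓ χ hχ)
  have h2 : ∀ j ∈ range ℓ, ∑ k ∈ range ℓ, (j : ℂ) *
      (χ⁻¹ (k : ZMod ℓ) * ZMod.stdAddChar (N := ℓ) ((j : ZMod ℓ) * (k : ZMod ℓ))) =
      (j : ℂ) * χ (j : ZMod ℓ) * tauInv ℓ χ := by
    intro j _
    rw [← Finset.mul_sum,
      sum_range_eq_sum_zmod ℓ (fun x => χ⁻¹ x * ZMod.stdAddChar (N := ℓ) ((j : ZMod ℓ) * x)),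
      sum_inv_mul_shift ℓ χ hχ]
    ring
  rw [h1, Finset.sum_congr rfl h2, ← Finset.sum_mul, eisCoeff, if_pos rfl]
  field_simp
  ring

end const

/-- **[EIS-GAUSS]** `eisPre ℓ χ = c ∑ eisCoeff n qⁿ` with `c = -4πi τ(χ⁻¹) ≠ 0`. -/
theorem gauss_of (h : QExpStatement) : GaussStatement := by
  intro ℓ _ χ hχ
  have hℓ : ℓ.Prime := Fact.out
  haveI : NeZero ℓ := ⟨hℓ.ne_zero⟩
  refine ⟨-4 * π * I * tauInv ℓ χ, ?_, fun τ => ?_⟩
  · have := tauInv_ne_zero ℓ χ hχ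
    have hπ : (π : ℂ) ≠ 0 := by exact_mod_cast Real.pi_ne_zero
    simp [this, hπ, I_ne_zero]
  · -- the termwise expansions
    have hk : ∀ k ∈ range ℓ,
        HasSum (fun n : ℕ => χ⁻¹ (k : ZMod ℓ) * (2 * π * I *
          (∑ r ∈ (n + 1).divisors, (zetaPow ℓ (-((r : ℤ) * (k : ℤ))) -
            zetaPow ℓ ((r : ℤ) * (k : ℤ)))) * qPow τ (n + 1)))
          (χ⁻¹ (k : ZMod ℓ) * (divVal ℓ ![0, (k : ℤ)] τ -
            π * cot (π * (((k : ℤ) : ℂ)) / (ℓ : ℂ)))) := by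
      intro k hk
      by_cases hk0 : k = 0
      · subst hk0
        have h0 : χ⁻¹ ((0 : ℕ) : ZMod ℓ) = 0 := by
          rw [Nat.cast_zero]
          exact MulChar.map_nonunit _ not_isUnit_zero
        simp only [h0, zero_mul]
        exact hasSum_zero
      · have hnd : ¬ (ℓ : ℤ) ∣ (k : ℤ) := by
          rw [Int.natCast_dvd_natCast]
          intro hd
          exact hk0 (Nat.eq_zero_of_dvd_of_lt hd (Finset.mem_range.mp hk))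
        exact (h ℓ (k : ℤ) hℓ.pos hnd τ).mul_left _
    have hS := hasSum_sum hk
    -- rewrite the sum of the limits
    have hlim : ∑ k ∈ range ℓ, χ⁻¹ (k : ZMod ℓ) * (divVal ℓ ![0, (k : ℤ)] τ -
          π * cot (π * (((k : ℤ) : ℂ)) / (ℓ : ℂ))) =
        eisPre ℓ χ τ - ∑ i ∈ range 1, (-4 * π * I * tauInv ℓ χ) * eisCoeff ℓ χ i * qPow τ i := by
      rw [Finset.sum_congr rfl fun k _ => mul_sub _ _ _, Finset.sum_sub_distrib,
        sum_inv_mul_cot ℓ χ hχ, Finset.sum_range_one, eisPre, qPow]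
      simp
    -- rewrite the summands
    have hfun : (fun n : ℕ => ∑ k ∈ range ℓ, χ⁻¹ (k : ZMod ℓ) * (2 * π * I *
          (∑ r ∈ (n + 1).divisors, (zetaPow ℓ (-((r : ℤ) * (k : ℤ))) -
            zetaPow ℓ ((r : ℤ) * (k : ℤ)))) * qPow τ (n + 1))) =
        fun n : ℕ => (-4 * π * I * tauInv ℓ χ) * eisCoeff ℓ χ (n + 1) * qPow τ (n + 1) := by
      funext n
      have h1 : ∀ k ∈ range ℓ, χ⁻¹ (k : ZMod ℓ) * (2 * π * I *
          (∑ r ∈ (n + 1).divisors, (zetaPow ℓ (-((r : ℤ) * (k : ℤ))) -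
            zetaPow ℓ ((r : ℤ) * (k : ℤ)))) * qPow τ (n + 1)) =
          2 * π * I * qPow τ (n + 1) * ∑ r ∈ (n + 1).divisors, χ⁻¹ (k : ZMod ℓ) *
            (zetaPow ℓ (-((r : ℤ) * (k : ℤ))) - zetaPow ℓ ((r : ℤ) * (k : ℤ))) := by
        intro k _
        have hsw : ∑ r ∈ (n + 1).divisors, χ⁻¹ (k : ZMod ℓ) *
            (zetaPow ℓ (-((r : ℤ) * (k : ℤ))) - zetaPow ℓ ((r : ℤ) * (k : ℤ))) =
            χ⁻¹ (k : ZMod ℓ) * ∑ r ∈ (n + 1).divisors,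
              (zetaPow ℓ (-((r : ℤ) * (k : ℤ))) - zetaPow ℓ ((r : ℤ) * (k : ℤ))) :=
          (Finset.mul_sum _ _ _).symm
        rw [hsw]
        ring
      rw [Finset.sum_congr rfl h1, ← Finset.mul_sum, Finset.sum_comm,
        Finset.sum_congr rfl fun r _ => sum_inv_mul_zetaPow_sub ℓ χ hχ r, eisCoeff,
        if_neg (Nat.succ_ne_zero n), ← Finset.sum_mul, ← Finset.mul_sum]
      ring
    rw [hlim, hfun] at hS
    exact (hasSum_nat_add_iff' 1).mp hS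

end Fermat.Agent.T4.helper2
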