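import Mathlib
import Fermat.Agent.T4.helper21_EisDefs

/-!
# T4 block (III), leaf [EIS-SUM] (helper53)

`sumStatement : Fermat.Agent.T4.helper21.SumStatement`: the series defining the Weierstrass zeta
function converges absolutely off the lattice.

For `ω = lat τ v` with `2 ‖z‖ ≤ ‖ω‖` one has `‖z - ω‖ ≥ ‖ω‖ / 2`, so the summand
`z² / (ω² (z - ω))` is bounded by `2 ‖z‖² ‖ω‖⁻³`, and `∑ ‖ω‖⁻³` converges (Mathlib:
`EisensteinSeries.summable_norm_eisSummand`).  The finitely many remaining `v` lie in a bounded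
subset of `ℤ²` (Mathlib: `EisensteinSeries.r_mul_max_le`).
-/

set_option autoImplicit false

noncomputable section

namespace Fermat.Agent.T4.helper53

open UpperHalfPlane hiding I
open Complex EisensteinSeries Filter
open Fermat.Agent.T4.helper21

/-- the norm of the Eisenstein summand of weight `3` is `‖ω‖⁻³`. -/
lemma norm_eisSummand_three (τ : ℍ) (v : Fin 2 → ℤ) :
    ‖eisSummand 3 v τ‖ = (‖lat (τ : ℂ) v‖ ^ 3)⁻¹ := by
  unfold eisSummand lat
  rw [zpow_neg, norm_inv, norm_zpow]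
  norm_cast

/-- the bound on the summand far from the origin. -/
lemma norm_zetaTerm_le (τ : ℍ) (z : ℂ) (v : Fin 2 → ℤ) (hv : v ≠ 0)
    (hω : 2 * ‖z‖ ≤ ‖lat (τ : ℂ) v‖) (hω0 : 0 < ‖lat (τ : ℂ) v‖) :
    ‖zetaTerm z τ v‖ ≤ 2 * ‖z‖ ^ 2 * ‖eisSummand 3 v τ‖ := by
  rw [norm_eisSummand_three]
  unfold zetaTerm
  rw [if_neg hv, norm_div, norm_mul, norm_pow, norm_pow]
  set w : ℝ := ‖lat (τ : ℂ) v‖ with hw
  have h1 : w / 2 ≤ ‖z - lat (τ : ℂ) v‖ := by
    have h2 : ‖lat (τ : ℂ) v‖ - ‖z‖ ≤ ‖z - lat (τ : ℂ) v‖ := by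
      have := norm_sub_norm_le (lat (τ : ℂ) v) z
      rwa [norm_sub_rev] at this
    have hz : 0 ≤ ‖z‖ := norm_nonneg z
    linarith
  have hw2 : 0 < w / 2 := by positivity
  have hd : 0 < w ^ 2 * ‖z - lat (τ : ℂ) v‖ := by
    have : 0 < ‖z - lat (τ : ℂ) v‖ := lt_of_lt_of_le hw2 h1
    positivity
  rw [div_le_iff₀ hd]
  have hz2 : 0 ≤ ‖z‖ ^ 2 := by positivity
  have hw3 : (0 : ℝ) < w ^ 3 := by positivity
  have e : 2 * ‖z‖ ^ 2 * (w ^ 3)⁻¹ * (w ^ 2 * (w / 2)) = ‖z‖ ^ 2 := by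
    field_simp
  calc ‖z‖ ^ 2 = 2 * ‖z‖ ^ 2 * (w ^ 3)⁻¹ * (w ^ 2 * (w / 2)) := e.symm
    _ ≤ 2 * ‖z‖ ^ 2 * (w ^ 3)⁻¹ * (w ^ 2 * ‖z - lat (τ : ℂ) v‖) := by
        apply mul_le_mul_of_nonneg_left _ (by positivity)
        exact mul_le_mul_of_nonneg_left h1 (by positivity)

/-- only finitely many lattice points are close to the origin. -/
lemma finite_small (τ : ℍ) (R : ℝ) : {v : Fin 2 → ℤ | ‖lat (τ : ℂ) v‖ < R}.Finite := by
  have hr := r_pos τ
  have hsub : {v : Fin 2 → ℤ | ‖lat (τ : ℂ) v‖ < R} ⊆ Metric.closedBall 0 (R / r τ) ∪ {0} := by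
    intro v hv
    by_cases h0 : v = 0
    · exact Or.inr h0
    · left
      rw [Metric.mem_closedBall, dist_zero_right]
      have h1 := r_mul_max_le τ h0
      have hv' : ‖(v 0 : ℂ) * (τ : ℂ) + (v 1 : ℂ)‖ < R := hv
      rw [le_div_iff₀ hr]
      linarith
  refine Set.Finite.subset ?_ hsub
  exact ((isCompact_closedBall (0 : Fin 2 → ℤ) (R / r τ)).finite_of_discrete).union
    (Set.finite_singleton 0)

/-- **[EIS-SUM]**: absolute convergence of the Weierstrass zeta series off the lattice. -/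
theorem sumStatement : SumStatement := by
  intro τ z _
  have hs : Summable fun v : Fin 2 → ℤ => 2 * ‖z‖ ^ 2 * ‖eisSummand 3 v τ‖ :=
    (summable_norm_eisSummand (le_refl 3) τ).mul_left _
  refine Summable.of_norm_bounded_eventually hs ?_
  have hfin : ({v : Fin 2 → ℤ | ‖lat (τ : ℂ) v‖ < 2 * ‖z‖ + 1} ∪ {0}).Finite :=
    (finite_small τ _).union (Set.finite_singleton 0)
  refine hfin.subset ?_
  intro v hv
  simp only [Set.mem_compl_iff, Set.mem_ofPred_eq, not_le, norm_norm] at hv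
  by_contra hcon
  simp only [Set.mem_union, Set.mem_ofPred_eq, Set.mem_singleton_iff, not_or, not_lt] at hcon
  obtain ⟨h1, h0⟩ := hcon
  have hz : 0 ≤ ‖z‖ := norm_nonneg z
  exact absurd (norm_zetaTerm_le τ z v h0 (by linarith) (by linarith)) (not_le.mpr hv)

end Fermat.Agent.T4.helper53
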