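import Fermat.Agent.T4.helper30_EisRow
import Fermat.Agent.T4.helper53_EisSum

/-!
# T4 block (III), leaf [EIS-ROW] (helper30): `rowStatement : RowStatement`, unconditional

`helper30.row_of_sum` applied to `helper53.sumStatement`.
-/

set_option autoImplicit false

namespace Fermat.Agent.T4.helper30

/-- **[EIS-ROW]** verbatim and unconditional. -/
theorem rowStatement : Fermat.Agent.T4.helper21.RowStatement :=
  row_of_sum Fermat.Agent.T4.helper53.sumStatement

end Fermat.Agent.T4.helper30
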