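import Mathlib
import Fermat.Agent.T4.helper21_EisDefs

/-!
# T4 block (III), leaf [EIS-PER] (helper37, task 970)

`per_of (h : QPStatement) : PerStatement` : the division value `divVal ℓ a` depends on `a` modulo
`ℓ` only.  Pure algebra from the quasi-periods: iterating `QPStatement` gives

`wZeta (z + m τ + n) τ = wZeta z τ + (m τ + n) G₂ τ - 2πi m`   (`m, n ∈ ℤ`, `z` off the lattice),

and in `divVal ℓ (a + ℓ e)` the corrections `-(e₀ τ + e₁) G₂` and `+ 2πi e₀` cancel exactly.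
-/

set_option autoImplicit false

noncomputable section

namespace Fermat.Agent.T4.helper37

open UpperHalfPlane hiding I
open Complex EisensteinSeries
open scoped Real
open Fermat.Agent.T4.helper21

/-- `z` is not a point of the lattice `ℤ τ + ℤ`. -/
def OffLat (τ : ℂ) (z : ℂ) : Prop := ∀ v : Fin 2 → ℤ, z ≠ lat τ v

theorem lat_add (τ : ℂ) (v w : Fin 2 → ℤ) : lat τ (v + w) = lat τ v + lat τ w := by
  simp only [lat, Pi.add_apply, Int.cast_add]
  ring

theorem lat_sub (τ : ℂ) (v w : Fin 2 → ℤ) : lat τ (v - w) = lat τ v - lat τ w := by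
  simp only [lat, Pi.sub_apply, Int.cast_sub]
  ring

theorem lat_smul (τ : ℂ) (c : ℤ) (v : Fin 2 → ℤ) : lat τ (c • v) = (c : ℂ) * lat τ v := by
  simp only [lat, Pi.smul_apply, smul_eq_mul, Int.cast_mul]
  ring

theorem lat_mk (τ : ℂ) (m n : ℤ) : lat τ ![m, n] = (m : ℂ) * τ + (n : ℂ) := by
  simp [lat]

theorem OffLat.add_lat {τ z : ℂ} (hz : OffLat τ z) (w : Fin 2 → ℤ) : OffLat τ (z + lat τ w) := by
  intro v hv
  apply hz (v - w)
  rw [lat_sub]
  linear_combination hv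

theorem OffLat.add_int {τ z : ℂ} (hz : OffLat τ z) (n : ℤ) : OffLat τ (z + (n : ℂ)) := by
  have h := hz.add_lat ![0, n]
  rw [lat_mk] at h
  simpa using h

theorem OffLat.add_int_mul {τ z : ℂ} (hz : OffLat τ z) (m : ℤ) :
    OffLat τ (z + (m : ℂ) * τ) := by
  have h := hz.add_lat ![m, 0]
  rw [lat_mk] at h
  simpa using h

/-- iterating the first quasi-period. -/
theorem wZeta_add_int (h : QPStatement) (τ : ℍ) (n : ℤ) :
    ∀ z : ℂ, OffLat τ z → wZeta (z + (n : ℂ)) τ = wZeta z τ + (n : ℂ) * G2 τ := by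
  induction n using Int.induction_on with
  | zero =>
    intro z _
    simp
  | succ k ih =>
    intro z hz
    have h1 := (h τ (z + ((k : ℤ) : ℂ)) (hz.add_int k)).1
    have e : z + (((k : ℤ) + 1 : ℤ) : ℂ) = z + ((k : ℤ) : ℂ) + 1 := by
      push_cast
      ring
    rw [e, h1, ih z hz]
    push_cast
    ring
  | pred k ih =>
    intro z hz
    have hz' : OffLat τ (z + ((-(k : ℤ) - 1 : ℤ) : ℂ)) := hz.add_int _
    have h1 := (h τ _ hz').1
    have e : z + ((-(k : ℤ) - 1 : ℤ) : ℂ) + 1 = z + ((-(k : ℤ) : ℤ) : ℂ) := by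
      push_cast
      ring
    rw [e, ih z hz] at h1
    have : wZeta (z + ((-(k : ℤ) - 1 : ℤ) : ℂ)) τ
        = wZeta z τ + ((-(k : ℤ) : ℤ) : ℂ) * G2 τ - G2 τ := by
      linear_combination -h1
    rw [this]
    push_cast
    ring

/-- iterating the second quasi-period. -/
theorem wZeta_add_int_mul (h : QPStatement) (τ : ℍ) (m : ℤ) :
    ∀ z : ℂ, OffLat τ z →
      wZeta (z + (m : ℂ) * τ) τ = wZeta z τ + (m : ℂ) * ((τ : ℂ) * G2 τ - 2 * π * I) := by
  induction m using Int.induction_on with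
  | zero =>
    intro z _
    simp
  | succ k ih =>
    intro z hz
    have h1 := (h τ (z + ((k : ℤ) : ℂ) * τ) (hz.add_int_mul k)).2
    have e : z + (((k : ℤ) + 1 : ℤ) : ℂ) * τ = z + ((k : ℤ) : ℂ) * τ + τ := by
      push_cast
      ring
    rw [e, h1, ih z hz]
    push_cast
    ring
  | pred k ih =>
    intro z hz
    have hz' : OffLat τ (z + ((-(k : ℤ) - 1 : ℤ) : ℂ) * τ) := hz.add_int_mul _
    have h1 := (h τ _ hz').2
    have e : z + ((-(k : ℤ) - 1 : ℤ) : ℂ) * τ + τ = z + ((-(k : ℤ) : ℤ) : ℂ) * τ := by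
      push_cast
      ring
    rw [e, ih z hz] at h1
    have : wZeta (z + ((-(k : ℤ) - 1 : ℤ) : ℂ) * τ) τ
        = wZeta z τ + ((-(k : ℤ) : ℤ) : ℂ) * ((τ : ℂ) * G2 τ - 2 * π * I)
          - ((τ : ℂ) * G2 τ - 2 * π * I) := by
      linear_combination -h1
    rw [this]
    push_cast
    ring

/-- the quasi-periodicity of the Weierstrass zeta function for a general lattice vector. -/
theorem wZeta_add_lat (h : QPStatement) (τ : ℍ) (z : ℂ) (hz : OffLat τ z) (e : Fin 2 → ℤ) :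
    wZeta (z + lat τ e) τ = wZeta z τ + lat τ e * G2 τ - 2 * π * I * (e 0 : ℂ) := by
  have e1 : z + lat τ e = z + ((e 0 : ℤ) : ℂ) * τ + ((e 1 : ℤ) : ℂ) := by
    simp only [lat]
    ring
  rw [e1, wZeta_add_int h τ (e 1) _ (hz.add_int_mul (e 0)), wZeta_add_int_mul h τ (e 0) z hz]
  simp only [lat]
  ring

/-- a division point with `a` not divisible by `ℓ` is not a lattice point. -/
theorem offLat_divPt {ℓ : ℕ} (hℓ : 0 < ℓ) {a : Fin 2 → ℤ} (ha : NotDiv ℓ a) (τ : ℍ) :
    OffLat τ (divPt ℓ a τ) := by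
  intro v hv
  apply ha
  have hℓ0 : (ℓ : ℂ) ≠ 0 := by exact_mod_cast hℓ.ne'
  have h1 : lat τ a = (ℓ : ℂ) * lat τ v := by
    rw [divPt, div_eq_iff hℓ0] at hv
    rw [hv]
    ring
  -- compare imaginary parts, then real parts
  have h2 : (((a 0 - (ℓ : ℤ) * v 0 : ℤ) : ℂ)) * (τ : ℂ) + ((a 1 - (ℓ : ℤ) * v 1 : ℤ) : ℂ) = 0 := by
    simp only [lat] at h1
    push_cast
    linear_combination h1
  have him := congrArg Complex.im h2
  have hre := congrArg Complex.re h2
  simp only [Complex.add_im, Complex.mul_im, Complex.intCast_re, Complex.intCast_im, zero_mul,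
    add_zero, Complex.zero_im, Complex.add_re, Complex.mul_re, Complex.zero_re, sub_zero] at him hre
  have hτ : (τ : ℂ).im ≠ 0 := τ.im_pos.ne'
  have h0 : ((a 0 - (ℓ : ℤ) * v 0 : ℤ) : ℝ) = 0 := by
    rcases mul_eq_zero.1 him with h | h
    · exact h
    · exact absurd h hτ
  rw [h0, zero_mul, zero_add] at hre
  have h0' : a 0 - (ℓ : ℤ) * v 0 = 0 := by exact_mod_cast h0
  have h1' : a 1 - (ℓ : ℤ) * v 1 = 0 := by exact_mod_cast hre
  intro i
  fin_cases i
  · exact ⟨v 0, by simpa using (sub_eq_zero.1 h0')⟩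
  · exact ⟨v 1, by simpa using (sub_eq_zero.1 h1')⟩

/-- **[EIS-PER]** the division value depends on `a` modulo `ℓ` only. -/
theorem per_of (h : QPStatement) : PerStatement := by
  intro ℓ a e hℓ ha τ
  have hℓ0 : (ℓ : ℂ) ≠ 0 := by exact_mod_cast hℓ.ne'
  have hz := offLat_divPt hℓ ha τ
  have hpt : divPt ℓ (a + (ℓ : ℤ) • e) τ = divPt ℓ a τ + lat τ e := by
    rw [divPt, divPt, lat_add, lat_smul]
    field_simp
    push_cast
    ring
  have h0 : (((a + (ℓ : ℤ) • e) 0 : ℤ) : ℂ) = (a 0 : ℂ) + (ℓ : ℂ) * (e 0 : ℂ) := by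
    simp
  rw [divVal, divVal, hpt, wZeta_add_lat h τ _ hz e, h0]
  field_simp
  ring

end Fermat.Agent.T4.helper37

end
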