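import Fermat.Agent.T4.helper21_EisDefs

/-!
# T4 block (III), leaf [EIS-HOLO] (helper50): the division values are holomorphic

`divVal ℓ a τ = wZeta (z_a) τ - z_a G₂ τ + 2πi a₀/ℓ` with `z_a = (a₀ τ + a₁)/ℓ` is holomorphic on
the upper half plane when `a` is not divisible by `ℓ`.

Proof: the series `∑_v zetaTerm z_a τ v` is a series of holomorphic functions of `τ` which is
dominated, on the open set `{B < im τ, ‖τ‖ < R}`, by the summable series `C ‖v‖⁻³`: for `v ≠ 0`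
the term is `z_a² / (ω_v² (z_a - ω_v))` with `|ω_v| ≥ r ‖v‖` and
`|z_a - ω_v| = |lat τ (a - ℓ v)| / ℓ ≥ r ‖a - ℓ v‖ / ℓ ≥ r ‖v‖ / (ℓ (‖a‖ + 1))`.
`G₂` is holomorphic by Mathlib (`E2_mdifferentiable`).  Neither the row summation nor the
periodicity are needed: `holo : HoloStatement` is unconditional.
-/

set_option autoImplicit false
set_option linter.style.longLine false
set_option linter.unusedVariables false
set_option linter.unusedSectionVars false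

noncomputable section

namespace Fermat.Agent.T4.helper50

open UpperHalfPlane hiding I
open Complex EisensteinSeries ModularForm Filter
open scoped Real Manifold
open Fermat.Agent.T4.helper21

/-! ## Elementary facts on lattice points -/

/-- a nonzero lattice point of `ℤ τ + ℤ`, `τ ∈ ℍ`, is bounded below by `r τ ‖v‖`. -/
lemma holo_lat_lower (τ : ℍ) {v : Fin 2 → ℤ} (hv : v ≠ 0) : r τ * ‖v‖ ≤ ‖lat (τ : ℂ) v‖ := by
  simpa [lat] using r_mul_max_le τ hv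

lemma holo_lat_ne_zero (τ : ℍ) {v : Fin 2 → ℤ} (hv : v ≠ 0) : lat (τ : ℂ) v ≠ 0 := by
  intro h
  have h1 := holo_lat_lower τ hv
  rw [h, norm_zero] at h1
  have h2 : 0 < r τ * ‖v‖ := mul_pos (r_pos τ) (norm_pos_iff.mpr hv)
  linarith

lemma holo_ne_zero_of_notDiv {ℓ : ℕ} {a : Fin 2 → ℤ} (ha : NotDiv ℓ a) (v : Fin 2 → ℤ) :
    a - (ℓ : ℤ) • v ≠ 0 := by
  intro h
  apply ha
  intro i
  have hi : a i = (ℓ : ℤ) * v i := by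
    have := congrFun h i
    simp only [Pi.sub_apply, Pi.smul_apply, smul_eq_mul, Pi.zero_apply] at this
    linarith
  exact ⟨v i, hi⟩

lemma holo_a_ne_zero {ℓ : ℕ} {a : Fin 2 → ℤ} (ha : NotDiv ℓ a) : a ≠ 0 := by
  simpa using holo_ne_zero_of_notDiv ha 0

/-- `z_a - ω_v = lat τ (a - ℓ v) / ℓ`. -/
lemma holo_divPt_sub_lat {ℓ : ℕ} (hℓ : 0 < ℓ) (a v : Fin 2 → ℤ) (z : ℂ) :
    divPt ℓ a z - lat z v = lat z (a - (ℓ : ℤ) • v) / (ℓ : ℂ) := by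
  have hℓ' : (ℓ : ℂ) ≠ 0 := Nat.cast_ne_zero.mpr hℓ.ne'
  simp only [divPt, lat, Pi.sub_apply, Pi.smul_apply, smul_eq_mul, Int.cast_sub, Int.cast_mul,
    Int.cast_natCast]
  field_simp
  ring

/-- one-norm of an integer vector is at least one if it is not zero. -/
lemma holo_one_le_norm {w : Fin 2 → ℤ} (hw : w ≠ 0) : (1 : ℝ) ≤ ‖w‖ := by
  rw [norm_eq_max_natAbs]
  have h : (max (w 0).natAbs (w 1).natAbs) ≠ 0 := by
    intro h0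
    apply hw
    have h1 : (w 0).natAbs = 0 := Nat.le_zero.mp (h0 ▸ le_max_left _ _)
    have h2 : (w 1).natAbs = 0 := Nat.le_zero.mp (h0 ▸ le_max_right _ _)
    funext i
    fin_cases i
    · simpa using h1
    · simpa using h2
  exact_mod_cast Nat.one_le_iff_ne_zero.mpr h

/-- `‖v‖ ≤ (‖a‖ + 1) ‖a - ℓ v‖` when `a` is not divisible by `ℓ`. -/
lemma holo_norm_le {ℓ : ℕ} (hℓ : 0 < ℓ) {a : Fin 2 → ℤ} (ha : NotDiv ℓ a) (v : Fin 2 → ℤ) :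
    ‖v‖ ≤ (‖a‖ + 1) * ‖a - (ℓ : ℤ) • v‖ := by
  have h1 : (1 : ℝ) ≤ ‖a - (ℓ : ℤ) • v‖ := holo_one_le_norm (holo_ne_zero_of_notDiv ha v)
  have h2 : ‖v‖ ≤ ‖(ℓ : ℤ) • v‖ := by
    rw [pi_norm_le_iff_of_nonneg (norm_nonneg _)]
    intro i
    refine le_trans ?_ (norm_le_pi_norm ((ℓ : ℤ) • v) i)
    simp only [Pi.smul_apply, smul_eq_mul, norm_mul]
    have hl : (1 : ℝ) ≤ ‖(ℓ : ℤ)‖ := by
      rw [Int.norm_eq_abs]
      have : (1 : ℤ) ≤ |(ℓ : ℤ)| := by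
        rw [abs_of_nonneg (by positivity)]
        exact_mod_cast hℓ
      exact_mod_cast this
    nlinarith [norm_nonneg (v i)]
  have h3 : ‖(ℓ : ℤ) • v‖ ≤ ‖a‖ + ‖a - (ℓ : ℤ) • v‖ := by
    have : (ℓ : ℤ) • v = a - (a - (ℓ : ℤ) • v) := by abel
    calc ‖(ℓ : ℤ) • v‖ = ‖a - (a - (ℓ : ℤ) • v)‖ := by rw [← this]
      _ ≤ ‖a‖ + ‖a - (ℓ : ℤ) • v‖ := norm_sub_le _ _
  nlinarith [norm_nonneg a, norm_nonneg v]

/-! ## Nonvanishing of the denominators, holomorphy of the terms -/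

lemma holo_divPt_differentiable (ℓ : ℕ) (a : Fin 2 → ℤ) : Differentiable ℂ (divPt ℓ a) := by
  unfold divPt lat
  fun_prop

lemma holo_lat_differentiable (v : Fin 2 → ℤ) : Differentiable ℂ (fun z : ℂ => lat z v) := by
  unfold lat
  fun_prop

lemma holo_natCast_ne_zero {ℓ : ℕ} (hℓ : 0 < ℓ) : (ℓ : ℂ) ≠ 0 := Nat.cast_ne_zero.mpr hℓ.ne'

lemma holo_divPt_ne_zero {ℓ : ℕ} (hℓ : 0 < ℓ) {a : Fin 2 → ℤ} (ha : NotDiv ℓ a) (τ : ℍ) :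
    divPt ℓ a (τ : ℂ) ≠ 0 :=
  div_ne_zero (holo_lat_ne_zero τ (holo_a_ne_zero ha)) (holo_natCast_ne_zero hℓ)

lemma holo_divPt_sub_lat_ne_zero {ℓ : ℕ} (hℓ : 0 < ℓ) {a : Fin 2 → ℤ} (ha : NotDiv ℓ a) (τ : ℍ)
    (v : Fin 2 → ℤ) : divPt ℓ a (τ : ℂ) - lat (τ : ℂ) v ≠ 0 := by
  rw [holo_divPt_sub_lat hℓ]
  exact div_ne_zero (holo_lat_ne_zero τ (holo_ne_zero_of_notDiv ha v)) (holo_natCast_ne_zero hℓ)

/-- the terms of the series are holomorphic on the upper half plane. -/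
lemma holo_term_differentiableOn {ℓ : ℕ} (hℓ : 0 < ℓ) {a : Fin 2 → ℤ} (ha : NotDiv ℓ a)
    (v : Fin 2 → ℤ) :
    DifferentiableOn ℂ (fun z : ℂ => zetaTerm (divPt ℓ a z) z v) {z : ℂ | 0 < z.im} := by
  by_cases hv : v = 0
  · simp only [zetaTerm, if_pos hv]
    exact (holo_divPt_differentiable ℓ a).differentiableOn.inv
      (fun z hz => holo_divPt_ne_zero hℓ ha ⟨z, hz⟩)
  · simp only [zetaTerm, if_neg hv]
    refine DifferentiableOn.div ((holo_divPt_differentiable ℓ a).differentiableOn.pow 2)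
      ((((holo_lat_differentiable v).differentiableOn).pow 2).mul
        ((holo_divPt_differentiable ℓ a).differentiableOn.sub
          (holo_lat_differentiable v).differentiableOn)) ?_
    intro z hz
    exact mul_ne_zero (pow_ne_zero 2 (holo_lat_ne_zero ⟨z, hz⟩ hv))
      (holo_divPt_sub_lat_ne_zero hℓ ha ⟨z, hz⟩ v)

/-! ## The bounds -/

/-- the bound for the terms with `v ≠ 0`. -/
lemma holo_term_bound {ℓ : ℕ} (hℓ : 0 < ℓ) {a : Fin 2 → ℤ} (ha : NotDiv ℓ a) (τ : ℍ)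
    {v : Fin 2 → ℤ} (hv : v ≠ 0) :
    ‖zetaTerm (divPt ℓ a (τ : ℂ)) (τ : ℂ) v‖ ≤
      ‖divPt ℓ a (τ : ℂ)‖ ^ 2 * ((ℓ : ℝ) * (‖a‖ + 1)) * ((r τ)⁻¹ ^ 3 * (‖v‖ ^ 3)⁻¹) := by
  have hr : 0 < r τ := r_pos τ
  have hvn : 0 < ‖v‖ := norm_pos_iff.mpr hv
  have hℓR : (0 : ℝ) < ℓ := by exact_mod_cast hℓ
  have ha0 : 0 ≤ ‖a‖ := norm_nonneg a
  have hw := holo_ne_zero_of_notDiv ha v
  have h1 : r τ * ‖v‖ ≤ ‖lat (τ : ℂ) v‖ := holo_lat_lower τ hv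
  have h2 : r τ * ‖a - (ℓ : ℤ) • v‖ ≤ ‖lat (τ : ℂ) (a - (ℓ : ℤ) • v)‖ := holo_lat_lower τ hw
  have h3 : ‖v‖ ≤ (‖a‖ + 1) * ‖a - (ℓ : ℤ) • v‖ := holo_norm_le hℓ ha v
  have h4 : ‖divPt ℓ a (τ : ℂ) - lat (τ : ℂ) v‖ = ‖lat (τ : ℂ) (a - (ℓ : ℤ) • v)‖ / ℓ := by
    rw [holo_divPt_sub_lat hℓ, norm_div, Complex.norm_natCast]
  have h5 : r τ * ‖v‖ / ((ℓ : ℝ) * (‖a‖ + 1)) ≤ ‖divPt ℓ a (τ : ℂ) - lat (τ : ℂ) v‖ := by
    rw [h4, div_le_div_iff₀ (by positivity) hℓR]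
    calc r τ * ‖v‖ * ℓ ≤ r τ * ((‖a‖ + 1) * ‖a - (ℓ : ℤ) • v‖) * ℓ := by gcongr
      _ = (r τ * ‖a - (ℓ : ℤ) • v‖) * ((ℓ : ℝ) * (‖a‖ + 1)) := by ring
      _ ≤ ‖lat (τ : ℂ) (a - (ℓ : ℤ) • v)‖ * ((ℓ : ℝ) * (‖a‖ + 1)) := by gcongr
  have h6 : (r τ * ‖v‖) ^ 2 * (r τ * ‖v‖ / ((ℓ : ℝ) * (‖a‖ + 1))) ≤
      ‖lat (τ : ℂ) v‖ ^ 2 * ‖divPt ℓ a (τ : ℂ) - lat (τ : ℂ) v‖ := by
    gcongr
  have h7 : 0 < (r τ * ‖v‖) ^ 2 * (r τ * ‖v‖ / ((ℓ : ℝ) * (‖a‖ + 1))) := by positivity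
  simp only [zetaTerm, if_neg hv, norm_div, norm_mul, norm_pow]
  calc ‖divPt ℓ a (τ : ℂ)‖ ^ 2 / (‖lat (τ : ℂ) v‖ ^ 2 * ‖divPt ℓ a (τ : ℂ) - lat (τ : ℂ) v‖)
      ≤ ‖divPt ℓ a (τ : ℂ)‖ ^ 2 / ((r τ * ‖v‖) ^ 2 * (r τ * ‖v‖ / ((ℓ : ℝ) * (‖a‖ + 1)))) :=
        div_le_div_of_nonneg_left (by positivity) h7 h6
    _ = ‖divPt ℓ a (τ : ℂ)‖ ^ 2 * ((ℓ : ℝ) * (‖a‖ + 1)) * ((r τ)⁻¹ ^ 3 * (‖v‖ ^ 3)⁻¹) := by
        field_simp

/-- the bound for the term `v = 0`. -/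
lemma holo_term_zero_bound {ℓ : ℕ} (hℓ : 0 < ℓ) {a : Fin 2 → ℤ} (ha : NotDiv ℓ a) (τ : ℍ) :
    ‖zetaTerm (divPt ℓ a (τ : ℂ)) (τ : ℂ) 0‖ ≤ (ℓ : ℝ) * (r τ)⁻¹ := by
  have hr : 0 < r τ := r_pos τ
  have hℓR : (0 : ℝ) < ℓ := by exact_mod_cast hℓ
  have h1 : r τ * ‖a‖ ≤ ‖lat (τ : ℂ) a‖ := holo_lat_lower τ (holo_a_ne_zero ha)
  have h2 : (1 : ℝ) ≤ ‖a‖ := holo_one_le_norm (holo_a_ne_zero ha)
  have h3 : r τ ≤ ‖lat (τ : ℂ) a‖ := le_trans (by nlinarith) h1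
  simp only [zetaTerm, if_true, divPt, norm_div, Complex.norm_natCast, inv_div]
  rw [div_eq_mul_inv]
  gcongr

/-- the size of the division point. -/
lemma holo_divPt_bound {ℓ : ℕ} (hℓ : 0 < ℓ) (a : Fin 2 → ℤ) (z : ℂ) :
    ‖divPt ℓ a z‖ ≤ ‖a‖ * (‖z‖ + 1) := by
  have hℓR : (1 : ℝ) ≤ ℓ := by exact_mod_cast hℓ
  have h0 : ‖((a 0 : ℤ) : ℂ)‖ ≤ ‖a‖ := by
    rw [Complex.norm_intCast, ← Int.norm_eq_abs]
    exact norm_le_pi_norm a 0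
  have h1 : ‖((a 1 : ℤ) : ℂ)‖ ≤ ‖a‖ := by
    rw [Complex.norm_intCast, ← Int.norm_eq_abs]
    exact norm_le_pi_norm a 1
  have h2 : ‖lat z a‖ ≤ ‖a‖ * (‖z‖ + 1) := by
    unfold lat
    calc ‖(a 0 : ℂ) * z + (a 1 : ℂ)‖ ≤ ‖(a 0 : ℂ) * z‖ + ‖(a 1 : ℂ)‖ := norm_add_le _ _
      _ = ‖(a 0 : ℂ)‖ * ‖z‖ + ‖(a 1 : ℂ)‖ := by rw [norm_mul]
      _ ≤ ‖a‖ * ‖z‖ + ‖a‖ := by gcongr
      _ = ‖a‖ * (‖z‖ + 1) := by ring
  unfold divPt
  rw [norm_div, Complex.norm_natCast]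
  calc ‖lat z a‖ / (ℓ : ℝ) ≤ ‖lat z a‖ / 1 := by gcongr
    _ = ‖lat z a‖ := div_one _
    _ ≤ _ := h2

/-! ## The series is holomorphic -/

/-- the dominating series on the region `verticalStrip A B`, `‖z‖ ≤ A`. -/
def holoBound (ℓ : ℕ) (a : Fin 2 → ℤ) (A ρ : ℝ) (v : Fin 2 → ℤ) : ℝ :=
  (‖a‖ * (A + 1)) ^ 2 * ((ℓ : ℝ) * (‖a‖ + 1)) * (ρ⁻¹ ^ 3 * ‖v‖ ^ (-3 : ℝ)) +
    (if v = 0 then (ℓ : ℝ) * ρ⁻¹ else 0)

lemma holoBound_summable (ℓ : ℕ) (a : Fin 2 → ℤ) (A ρ : ℝ) : Summable (holoBound ℓ a A ρ) := by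
  unfold holoBound
  refine Summable.add ?_ ?_
  · exact ((summable_one_div_norm_rpow (k := 3) (by norm_num)).mul_left _).mul_left _
  · exact (hasSum_ite_eq (0 : Fin 2 → ℤ) ((ℓ : ℝ) * ρ⁻¹)).summable

lemma holo_term_le_holoBound {ℓ : ℕ} (hℓ : 0 < ℓ) {a : Fin 2 → ℤ} (ha : NotDiv ℓ a)
    {A B : ℝ} (hB : 0 < B) (τ : ℍ) (hτ : τ ∈ verticalStrip A B) (hτA : ‖(τ : ℂ)‖ ≤ A)
    (v : Fin 2 → ℤ) :
    ‖zetaTerm (divPt ℓ a (τ : ℂ)) (τ : ℂ) v‖ ≤ holoBound ℓ a A (r ⟨⟨A, B⟩, hB⟩) v := by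
  have hρ : 0 < r ⟨⟨A, B⟩, hB⟩ := r_pos _
  have hρτ : r ⟨⟨A, B⟩, hB⟩ ≤ r τ := r_lower_bound_on_verticalStrip τ hB hτ
  have hinv : (r τ)⁻¹ ≤ (r ⟨⟨A, B⟩, hB⟩)⁻¹ := inv_anti₀ hρ hρτ
  have hrτ : 0 < r τ := r_pos τ
  have hℓR : (0 : ℝ) < ℓ := by exact_mod_cast hℓ
  have hA : 0 ≤ A := le_trans (norm_nonneg _) hτA
  unfold holoBound
  by_cases hv : v = 0
  · subst hv
    rw [if_pos rfl]
    have h0 : 0 ≤ (‖a‖ * (A + 1)) ^ 2 * ((ℓ : ℝ) * (‖a‖ + 1)) *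
        ((r ⟨⟨A, B⟩, hB⟩)⁻¹ ^ 3 * ‖(0 : Fin 2 → ℤ)‖ ^ (-3 : ℝ)) := by positivity
    have h1 := holo_term_zero_bound hℓ ha τ
    have h2 : (ℓ : ℝ) * (r τ)⁻¹ ≤ (ℓ : ℝ) * (r ⟨⟨A, B⟩, hB⟩)⁻¹ := by gcongr
    linarith
  · rw [if_neg hv, add_zero]
    have hvn : 0 < ‖v‖ := norm_pos_iff.mpr hv
    have h1 := holo_term_bound hℓ ha τ hv
    have h2 : ‖divPt ℓ a (τ : ℂ)‖ ≤ ‖a‖ * (A + 1) :=
      (holo_divPt_bound hℓ a τ).trans (by gcongr)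
    have h3 : (‖v‖ ^ 3)⁻¹ = ‖v‖ ^ (-3 : ℝ) := by
      rw [Real.rpow_neg (norm_nonneg v)]
      norm_cast
    rw [← h3]
    refine h1.trans ?_
    gcongr

/-- the zeta series at the division point is holomorphic in `τ`. -/
lemma holo_wZeta_differentiableAt {ℓ : ℕ} (hℓ : 0 < ℓ) {a : Fin 2 → ℤ} (ha : NotDiv ℓ a)
    (τ : ℍ) : DifferentiableAt ℂ (fun z : ℂ => wZeta (divPt ℓ a z) z) (τ : ℂ) := by
  have hB : 0 < τ.im / 2 := by have := τ.im_pos; positivity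
  set B : ℝ := τ.im / 2 with hBdef
  set A : ℝ := ‖(τ : ℂ)‖ + 1 with hAdef
  set U : Set ℂ := {z : ℂ | B < z.im} ∩ Metric.ball 0 A with hUdef
  have hUopen : IsOpen U := (isOpen_lt continuous_const Complex.continuous_im).inter Metric.isOpen_ball
  have hτU : (τ : ℂ) ∈ U := by
    refine ⟨?_, ?_⟩
    · show B < (τ : ℂ).im
      have := τ.im_pos
      rw [hBdef, UpperHalfPlane.coe_im]
      linarith
    · rw [Metric.mem_ball, dist_zero_right, hAdef]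
      linarith
  have hUsub : ∀ z ∈ U, 0 < z.im := fun z hz => lt_trans hB hz.1
  have key : DifferentiableOn ℂ (fun z : ℂ => ∑' v : Fin 2 → ℤ, zetaTerm (divPt ℓ a z) z v) U := by
    refine differentiableOn_tsum_of_summable_norm
      (holoBound_summable ℓ a A (r ⟨⟨A, B⟩, hB⟩))
      (fun v => (holo_term_differentiableOn hℓ ha v).mono hUsub) hUopen ?_
    intro v z hz
    have hzim : 0 < z.im := hUsub z hz
    have hzA : ‖z‖ < A := by simpa [Metric.mem_ball, dist_zero_right] using hz.2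
    have hmem : (⟨z, hzim⟩ : ℍ) ∈ verticalStrip A B := by
      refine ⟨?_, ?_⟩
      · exact le_trans (Complex.abs_re_le_norm z) hzA.le
      · exact hz.1.le
    exact holo_term_le_holoBound hℓ ha hB ⟨z, hzim⟩ hmem hzA.le v
  exact key.differentiableAt (hUopen.mem_nhds hτU)

/-! ## `G₂` is holomorphic -/

lemma holo_G2_differentiableOn : DifferentiableOn ℂ (G2 ∘ ofComplex) {z : ℂ | 0 < z.im} := by
  have h := UpperHalfPlane.mdifferentiable_iff.mp E2_mdifferentiable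
  have hz2 : riemannZeta 2 ≠ 0 := riemannZeta_ne_zero_of_one_lt_re (by simp)
  refine (h.const_mul (2 * riemannZeta 2)).congr (fun z hz => ?_)
  simp only [Function.comp_apply, E2, Pi.smul_apply, smul_eq_mul]
  field_simp

/-! ## The statement -/

/-- **[EIS-HOLO]**, unconditionally. -/
theorem holo : HoloStatement := by
  intro ℓ a hℓ ha
  rw [UpperHalfPlane.mdifferentiable_iff]
  intro z hz
  have h1 : DifferentiableAt ℂ (fun z : ℂ => wZeta (divPt ℓ a z) z) z :=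
    holo_wZeta_differentiableAt hℓ ha ⟨z, hz⟩
  have h2 : DifferentiableAt ℂ (G2 ∘ ofComplex) z :=
    (holo_G2_differentiableOn z hz).differentiableAt (isOpen_upperHalfPlaneSet.mem_nhds hz)
  have h3 : DifferentiableAt ℂ (fun z : ℂ => wZeta (divPt ℓ a z) z -
      divPt ℓ a z * (G2 ∘ ofComplex) z + 2 * π * I * (a 0 : ℂ) / (ℓ : ℂ)) z :=
    (h1.sub ((holo_divPt_differentiable ℓ a).differentiableAt.mul h2)).add_const _
  refine h3.differentiableWithinAt.congr (fun w hw => ?_) ?_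
  · simp only [Function.comp_apply, divVal, ofComplex_apply_of_im_pos hw, UpperHalfPlane.coe_mk]
  · simp only [Function.comp_apply, divVal, ofComplex_apply_of_im_pos hz, UpperHalfPlane.coe_mk]

/-- **[EIS-HOLO]** in the conditional form of the task row. -/
theorem holo_of (_h : RowStatement) (_h' : PerStatement) : HoloStatement := holo

end Fermat.Agent.T4.helper50
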