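import Mathlib
import Fermat.Agent.T4.helper21_EisDefs

/-!
# T4 block (III), leaf [EIS-QEXP] (helper61): the `q`-expansion of the division values at `k/ℓ`

`qexp_of : RowStatement → QExpStatement`.

With `z = k/ℓ` real, `w = exp(2πi z)`, `q = exp(2πi τ)`:
`π cot(π(z - mτ)) + π cot(π(z + mτ)) = 2πi ∑_{r ≥ 1} q^(m r) (w^(-r) - w^r)` for `m ≥ 1`
(`pi_mul_cot_pi_q_exp` at `z + mτ` and `mτ - z`), and the double series over `(m, r)` is
rearranged by `N = m r` (`sigmaAntidiagonalEquivProd`, `summable_prod_mul_pow`).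
-/

set_option autoImplicit false

noncomputable section

namespace Fermat.Agent.T4.helper61

open UpperHalfPlane hiding I
open Complex EisensteinSeries Filter
open scoped Real
open Fermat.Agent.T4.helper21

/-- `cot` is odd. -/
lemma qexp_cot_neg (x : ℂ) : cot (-x) = - cot x := by
  rw [Complex.cot_eq_cos_div_sin, Complex.cot_eq_cos_div_sin, Complex.cos_neg, Complex.sin_neg,
    div_neg]

/-- geometric form of the cotangent in the upper half plane. -/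
lemma qexp_cot_hasSum (x : ℍ) :
    HasSum (fun b : ℕ => 2 * π * I * cexp (2 * π * I * x) ^ (b + 1))
      (-(π * I) - π * cot (π * x)) := by
  have he : ‖cexp (2 * π * I * x)‖ < 1 := UpperHalfPlane.norm_exp_two_pi_I_lt_one x
  have hne : 1 - cexp (2 * π * I * x) ≠ 0 := by
    intro h
    have h1 : cexp (2 * π * I * x) = 1 := (sub_eq_zero.mp h).symm
    rw [h1] at he
    simp at he
  have h1 := (hasSum_geometric_of_norm_lt_one he).mul_left (2 * π * I * cexp (2 * π * I * x))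
  have h2 : π * cot (π * x) = π * I - 2 * π * I * (1 - cexp (2 * π * I * x))⁻¹ := by
    rw [pi_mul_cot_pi_q_exp, tsum_geometric_of_norm_lt_one he]
  have hf : (fun b : ℕ => 2 * π * I * cexp (2 * π * I * x) ^ (b + 1))
      = fun i : ℕ => 2 * π * I * cexp (2 * π * I * x) * cexp (2 * π * I * x) ^ i := by
    funext b
    rw [pow_succ]
    ring
  have hv : -(π * I) - π * cot (π * x)
      = 2 * π * I * cexp (2 * π * I * x) * (1 - cexp (2 * π * I * x))⁻¹ := by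
    rw [h2]
    have hu : (1 - cexp (2 * π * I * x)) * (1 - cexp (2 * π * I * x))⁻¹ = 1 :=
      mul_inv_cancel₀ hne
    linear_combination (2 * π * I) * hu
  rw [hf, hv]
  exact h1

/-- the general term of the double series. -/
def qexpTerm (q w : ℂ) (a b : ℕ) : ℂ := 2 * π * I * ((w⁻¹ * q ^ a) ^ b - (w * q ^ a) ^ b)

lemma qexpTerm_eq (q w : ℂ) (a b : ℕ) :
    qexpTerm q w a b = 2 * π * I * (w⁻¹ ^ b - w ^ b) * q ^ (a * b) := by
  unfold qexpTerm
  rw [mul_pow, mul_pow, ← pow_mul]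
  ring

/-- absolute summability of the double series. -/
lemma qexp_summable (q w : ℂ) (hq : ‖q‖ < 1) (hw : ‖w‖ = 1) :
    Summable fun c : ℕ+ × ℕ+ => qexpTerm q w c.1 c.2 := by
  have h0 := summable_prod_mul_pow (𝕜 := ℝ) 0 (r := ‖q‖) (by simpa using hq)
  refine Summable.of_norm_bounded (g := fun c : ℕ+ × ℕ+ =>
    (4 * π) * (((c.2 : ℕ) : ℝ) ^ 0 * ‖q‖ ^ ((c.1 : ℕ) * (c.2 : ℕ)))) (h0.mul_left _) ?_
  intro c
  rw [qexpTerm_eq, norm_mul, norm_mul, norm_pow, pow_zero, one_mul]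
  have h1 : ‖(2 * π * I : ℂ)‖ = 2 * π := by
    rw [norm_mul, norm_mul, Complex.norm_I, mul_one]
    simp [abs_of_pos Real.pi_pos]
  have h2 : ‖w⁻¹ ^ (c.2 : ℕ) - w ^ (c.2 : ℕ)‖ ≤ 2 := by
    refine (norm_sub_le _ _).trans ?_
    rw [norm_pow, norm_pow, norm_inv, hw]
    norm_num
  rw [h1]
  have h3 : (0 : ℝ) ≤ ‖q‖ ^ ((c.1 : ℕ) * (c.2 : ℕ)) := by positivity
  have h4 : (0 : ℝ) ≤ 2 * π := by positivity
  calc 2 * π * ‖w⁻¹ ^ (c.2 : ℕ) - w ^ (c.2 : ℕ)‖ * ‖q‖ ^ ((c.1 : ℕ) * (c.2 : ℕ))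
      ≤ 2 * π * 2 * ‖q‖ ^ ((c.1 : ℕ) * (c.2 : ℕ)) := by gcongr
    _ = 4 * π * ‖q‖ ^ ((c.1 : ℕ) * (c.2 : ℕ)) := by ring

/-- rearrangement of the double series by `N = a b`. -/
lemma qexp_hasSum_divisors (q w : ℂ) (T : ℂ)
    (hT : HasSum (fun c : ℕ+ × ℕ+ => qexpTerm q w c.1 c.2) T) :
    HasSum (fun n : ℕ => 2 * π * I * (∑ r ∈ (n + 1).divisors, (w⁻¹ ^ r - w ^ r)) * q ^ (n + 1))
      T := by
  have h1 := (sigmaAntidiagonalEquivProd.hasSum_iff).mpr hT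
  have h2 : HasSum (fun n : ℕ+ =>
      2 * π * I * (∑ r ∈ (n : ℕ).divisors, (w⁻¹ ^ r - w ^ r)) * q ^ (n : ℕ)) T := by
    refine h1.sigma (fun n => ?_)
    have h3 : (2 * π * I * (∑ r ∈ (n : ℕ).divisors, (w⁻¹ ^ r - w ^ r)) * q ^ (n : ℕ) : ℂ)
        = ∑ c : (n : ℕ).divisorsAntidiagonal, qexpTerm q w c.1.1 c.1.2 := by
      rw [Finset.sum_coe_sort (n : ℕ).divisorsAntidiagonal
        (fun c : ℕ × ℕ => qexpTerm q w c.1 c.2),
        Nat.sum_divisorsAntidiagonal' (fun a b => qexpTerm q w a b), Finset.mul_sum,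
        Finset.sum_mul]
      refine Finset.sum_congr rfl fun i hi => ?_
      rw [qexpTerm_eq, Nat.div_mul_cancel (Nat.dvd_of_mem_divisors hi)]
    rw [h3]
    exact hasSum_fintype _
  exact (hasSum_pnat_iff_hasSum_succ (f := fun n : ℕ =>
    2 * π * I * (∑ r ∈ n.divisors, (w⁻¹ ^ r - w ^ r)) * q ^ n)).mp h2

/-- one row of the double series: the two cotangents at `z ∓ a τ`. -/
lemma qexp_row_hasSum (τ : ℍ) (z : ℝ) (a : ℕ) (ha : 0 < a) :
    HasSum (fun b : ℕ => qexpTerm (cexp (2 * π * I * τ)) (cexp (2 * π * I * z)) a (b + 1))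
      (π * cot (π * ((z : ℂ) - (a : ℂ) * τ)) + π * cot (π * ((z : ℂ) + (a : ℂ) * τ))) := by
  have hapos : (0 : ℝ) < a := by exact_mod_cast ha
  have him1 : 0 < ((z : ℂ) + (a : ℂ) * τ).im := by
    simp only [add_im, ofReal_im, mul_im, natCast_re, natCast_im, zero_mul, add_zero, zero_add]
    exact mul_pos hapos τ.im_pos
  have him2 : 0 < ((a : ℂ) * τ - (z : ℂ)).im := by
    simp only [sub_im, ofReal_im, mul_im, natCast_re, natCast_im, zero_mul, add_zero, sub_zero]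
    exact mul_pos hapos τ.im_pos
  have h1 := qexp_cot_hasSum ⟨(z : ℂ) + (a : ℂ) * τ, him1⟩
  have h2 := qexp_cot_hasSum ⟨(a : ℂ) * τ - (z : ℂ), him2⟩
  have e1 : cexp (2 * π * I * ((z : ℂ) + (a : ℂ) * τ))
      = cexp (2 * π * I * z) * cexp (2 * π * I * τ) ^ a := by
    rw [← Complex.exp_nat_mul, ← Complex.exp_add]
    congr 1
    ring
  have e2 : cexp (2 * π * I * ((a : ℂ) * τ - (z : ℂ)))
      = (cexp (2 * π * I * z))⁻¹ * cexp (2 * π * I * τ) ^ a := by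
    rw [← Complex.exp_nat_mul, ← Complex.exp_neg, ← Complex.exp_add]
    congr 1
    ring
  have e3 : cot (π * ((z : ℂ) - (a : ℂ) * τ)) = - cot (π * ((a : ℂ) * τ - (z : ℂ))) := by
    rw [← qexp_cot_neg]
    congr 1
    ring
  simp only [e1] at h1
  simp only [e2] at h2
  have h3 := h2.sub h1
  have hf : (fun b : ℕ => qexpTerm (cexp (2 * π * I * τ)) (cexp (2 * π * I * z)) a (b + 1))
      = fun b : ℕ =>
        2 * π * I * ((cexp (2 * π * I * z))⁻¹ * cexp (2 * π * I * τ) ^ a) ^ (b + 1) -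
          2 * π * I * (cexp (2 * π * I * z) * cexp (2 * π * I * τ) ^ a) ^ (b + 1) := by
    funext b
    unfold qexpTerm
    ring
  have hv : π * cot (π * ((z : ℂ) - (a : ℂ) * τ)) + π * cot (π * ((z : ℂ) + (a : ℂ) * τ))
      = -(π * I) - π * cot (π * ((a : ℂ) * τ - (z : ℂ))) -
        (-(π * I) - π * cot (π * ((z : ℂ) + (a : ℂ) * τ))) := by
    rw [e3]
    ring
  rw [hf, hv]
  exact h3

/-- `k/ℓ` is not a lattice point when `ℓ ∤ k`. -/
lemma qexp_not_lat (ℓ : ℕ) (k : ℤ) (hℓ : 0 < ℓ) (hk : ¬ (ℓ : ℤ) ∣ k) (τ : ℍ)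
    (v : Fin 2 → ℤ) : (k : ℂ) / (ℓ : ℂ) ≠ lat τ v := by
  intro h
  have hℓ0 : (ℓ : ℂ) ≠ 0 := by exact_mod_cast hℓ.ne'
  have h1 : (k : ℂ) = ((v 0 : ℂ) * τ + (v 1 : ℂ)) * (ℓ : ℂ) := by
    rw [div_eq_iff hℓ0] at h
    exact h
  have him := congrArg Complex.im h1
  simp only [intCast_im, mul_im, add_im, add_re, mul_re, intCast_re, natCast_re, natCast_im,
    mul_zero, zero_mul, sub_zero, add_zero, zero_add, UpperHalfPlane.coe_im] at him
  have hv0 : (v 0 : ℝ) = 0 := by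
    have hℓr : (ℓ : ℝ) ≠ 0 := by exact_mod_cast hℓ.ne'
    have := τ.im_pos.ne'
    rcases mul_eq_zero.mp him.symm with h' | h'
    · rcases mul_eq_zero.mp h' with h'' | h''
      · exact h''
      · exact absurd h'' this
    · exact absurd h' hℓr
  have hv0' : (v 0 : ℂ) = 0 := by exact_mod_cast hv0
  rw [hv0', zero_mul, zero_add] at h1
  apply hk
  refine ⟨v 1, ?_⟩
  have : ((k : ℤ) : ℂ) = (((ℓ : ℤ) * v 1 : ℤ) : ℂ) := by
    rw [h1]
    push_cast
    ring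
  exact_mod_cast this

/-- **[EIS-QEXP]** the `q`-expansion of the division value at `z = k/ℓ`, from the row summation. -/
theorem qexp_of (h : RowStatement) : QExpStatement := by
  intro ℓ k hℓ hk τ
  have hℓ0 : (ℓ : ℂ) ≠ 0 := by exact_mod_cast hℓ.ne'
  obtain ⟨-, hrow⟩ := h τ ((k : ℂ) / (ℓ : ℂ)) (qexp_not_lat ℓ k hℓ hk τ)
  -- the value of the sum
  have hdiv : divVal ℓ ![0, k] τ - π * cot (π * (k : ℂ) / (ℓ : ℂ)) =
      ∑' m : ℕ, (π * cot (π * ((k : ℂ) / (ℓ : ℂ) - (m + 1 : ℂ) * τ)) +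
        π * cot (π * ((k : ℂ) / (ℓ : ℂ) + (m + 1 : ℂ) * τ))) := by
    have hpt : divPt ℓ ![0, k] τ = (k : ℂ) / (ℓ : ℂ) := by
      simp [divPt, lat]
    have hc : (π : ℂ) * (k : ℂ) / (ℓ : ℂ) = π * ((k : ℂ) / (ℓ : ℂ)) := mul_div_assoc _ _ _
    unfold divVal
    rw [hpt, hrow, hc]
    simp only [Matrix.cons_val_zero, Int.cast_zero, mul_zero, zero_div, add_zero]
    ring
  rw [hdiv]
  -- the double series
  set q : ℂ := cexp (2 * π * I * τ) with hqdef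
  set zr : ℝ := (k : ℝ) / (ℓ : ℝ) with hzr
  have hzc : ((zr : ℝ) : ℂ) = (k : ℂ) / (ℓ : ℂ) := by
    rw [hzr]
    push_cast
    rfl
  set w : ℂ := cexp (2 * π * I * (zr : ℂ)) with hwdef
  have hq : ‖q‖ < 1 := UpperHalfPlane.norm_exp_two_pi_I_lt_one τ
  have hw : ‖w‖ = 1 := by
    rw [hwdef, Complex.norm_exp]
    simp
  have hG := (qexp_summable q w hq hw).hasSum
  have hrows : HasSum (fun m : ℕ => π * cot (π * ((k : ℂ) / (ℓ : ℂ) - (m + 1 : ℂ) * τ)) +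
        π * cot (π * ((k : ℂ) / (ℓ : ℂ) + (m + 1 : ℂ) * τ)))
      (∑' c : ℕ+ × ℕ+, qexpTerm q w c.1 c.2) := by
    have h1 := hG.prod_fiberwise (g := fun a : ℕ+ =>
      π * cot (π * ((zr : ℂ) - ((a : ℕ) : ℂ) * τ)) + π * cot (π * ((zr : ℂ) + ((a : ℕ) : ℂ) * τ)))
      (fun a => (hasSum_pnat_iff_hasSum_succ (f := fun b : ℕ => qexpTerm q w a b)).mpr
        (qexp_row_hasSum τ zr a a.pos))
    have h2 := (hasSum_pnat_iff_hasSum_succ (f := fun a : ℕ =>
      π * cot (π * ((zr : ℂ) - (a : ℂ) * τ)) + π * cot (π * ((zr : ℂ) + (a : ℂ) * τ)))).mp h1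
    convert h2 using 1
    funext m
    rw [hzc]
    push_cast
    rfl
  rw [hrows.tsum_eq]
  have h3 := qexp_hasSum_divisors q w _ hG
  convert h3 using 1
  funext n
  have hqp : qPow τ (n + 1) = q ^ (n + 1) := by
    rw [hqdef, ← Complex.exp_nat_mul]
    unfold qPow
    congr 1
    ring
  have hz1 : ∀ r : ℕ, zetaPow ℓ ((r : ℤ) * k) = w ^ r := by
    intro r
    rw [hwdef, ← Complex.exp_nat_mul, hzc]
    unfold zetaPow
    congr 1
    push_cast
    ring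
  have hz2 : ∀ r : ℕ, zetaPow ℓ (-((r : ℤ) * k)) = w⁻¹ ^ r := by
    intro r
    rw [hwdef, ← Complex.exp_neg, ← Complex.exp_nat_mul, hzc]
    unfold zetaPow
    congr 1
    push_cast
    ring
  rw [hqp]
  congr 2
  refine Finset.sum_congr rfl fun r _ => ?_
  rw [hz1, hz2]

end Fermat.Agent.T4.helper61
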