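import Mathlib
import Fermat.Agent.T4.helper21_EisDefs

/-!
# T4 block (III), leaf [EIS-BDD] (helper68, row 972)

`bdd_of : RowStatement → PerStatement → BddStatement`: the weight-one division values
`divVal ℓ a` are bounded at `i∞`.

By `PerStatement` we may assume `0 ≤ a₀ < ℓ`; by `RowStatement`
`divVal ℓ a τ = π cot(π z) + ∑_{m ≥ 1} (π cot(π(z - mτ)) + π cot(π(z + mτ))) + 2πi a₀/ℓ`,
`z = (a₀ τ + a₁)/ℓ`, `0 ≤ Im z ≤ (1 - 1/ℓ) Im τ`, and for `Im τ ≥ 1` every term is bounded by a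
geometric series: `π cot(π w) ± π i = ∓ 2π i u/(1 - u)`, `u = exp(± 2π i w)`.
-/

set_option autoImplicit false
set_option linter.unusedSectionVars false
set_option linter.style.haveILetI false

noncomputable section

namespace Fermat.Agent.T4.helper68

open UpperHalfPlane hiding I
open Complex EisensteinSeries Filter
open scoped Real
open Fermat.Agent.T4.helper21

/-! ## The cotangent away from the real axis -/

lemma pi_cot_add (w : ℂ) (hu : cexp (2 * π * I * w) ≠ 1) :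
    π * cot (π * w) + π * I =
      -(2 * π * I) * (cexp (2 * π * I * w) / (1 - cexp (2 * π * I * w))) := by
  rw [Complex.cot_pi_eq_exp_ratio]
  have h1 : (1 - cexp (2 * π * I * w)) ≠ 0 := sub_ne_zero.mpr (Ne.symm hu)
  have hI : (I : ℂ) ≠ 0 := I_ne_zero
  have hI2 : (I : ℂ) * I = -1 := I_mul_I
  have e : (cexp (2 * π * I * w) + 1) / (I * (1 - cexp (2 * π * I * w))) =
      -I * ((cexp (2 * π * I * w) + 1) / (1 - cexp (2 * π * I * w))) := by
    rw [div_eq_iff (mul_ne_zero hI h1)]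
    have e0 : -I * ((cexp (2 * π * I * w) + 1) / (1 - cexp (2 * π * I * w))) *
        (I * (1 - cexp (2 * π * I * w))) =
        -(I * I) * ((cexp (2 * π * I * w) + 1) / (1 - cexp (2 * π * I * w)) *
          (1 - cexp (2 * π * I * w))) := by ring
    rw [e0, hI2, div_mul_cancel₀ _ h1]
    ring
  rw [e]
  have e2 : (cexp (2 * π * I * w) + 1) / (1 - cexp (2 * π * I * w)) =
      1 + 2 * (cexp (2 * π * I * w) / (1 - cexp (2 * π * I * w))) := by
    field_simp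
    ring
  rw [e2]
  ring

lemma norm_exp_two_pi_I_mul (w : ℂ) : ‖cexp (2 * π * I * w)‖ = Real.exp (-(2 * π * w.im)) := by
  rw [Complex.norm_exp]
  congr 1
  have : (2 * (π : ℂ) * I * w).re = -(2 * π * w.im) := by
    simp [Complex.mul_re, Complex.mul_im]
  exact this

/-- the constant `2π / (1 - e^{-2πδ})` -/
def cotK (δ : ℝ) : ℝ := 2 * π / (1 - Real.exp (-(2 * π * δ)))

lemma exp_neg_lt_one {δ : ℝ} (hδ : 0 < δ) : Real.exp (-(2 * π * δ)) < 1 := by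
  rw [Real.exp_lt_one_iff]
  have := Real.pi_pos
  nlinarith

lemma cotK_pos {δ : ℝ} (hδ : 0 < δ) : 0 < cotK δ := by
  unfold cotK
  have h := exp_neg_lt_one hδ
  have := Real.pi_pos
  apply div_pos
  · linarith
  · linarith

/-- upper half plane: `π cot(π w) + π i` is exponentially small -/
lemma norm_pi_cot_add_le (w : ℂ) {δ : ℝ} (hδ : 0 < δ) (hw : δ ≤ w.im) :
    ‖π * cot (π * w) + π * I‖ ≤ cotK δ * Real.exp (-(2 * π * w.im)) := by
  have hpi := Real.pi_pos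
  have hnu := norm_exp_two_pi_I_mul w
  have hle : Real.exp (-(2 * π * w.im)) ≤ Real.exp (-(2 * π * δ)) := by
    apply Real.exp_le_exp.mpr
    nlinarith
  have hlt := exp_neg_lt_one hδ
  have hu1 : cexp (2 * π * I * w) ≠ 1 := by
    intro h
    rw [h, norm_one] at hnu
    linarith
  rw [pi_cot_add w hu1, norm_mul, norm_div, norm_neg, hnu]
  have h2 : ‖(2 * (π : ℂ) * I)‖ = 2 * π := by
    simp [abs_of_pos hpi]
  rw [h2]
  have h3 : 1 - Real.exp (-(2 * π * δ)) ≤ ‖1 - cexp (2 * π * I * w)‖ := by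
    have h4 : ‖(1 : ℂ)‖ - ‖cexp (2 * π * I * w)‖ ≤ ‖1 - cexp (2 * π * I * w)‖ :=
      norm_sub_norm_le _ _
    rw [norm_one, hnu] at h4
    linarith
  have h5 : 0 < 1 - Real.exp (-(2 * π * δ)) := by linarith
  have h6 : 0 < ‖1 - cexp (2 * π * I * w)‖ := lt_of_lt_of_le h5 h3
  unfold cotK
  have e : 2 * π / (1 - Real.exp (-(2 * π * δ))) * Real.exp (-(2 * π * w.im)) =
      2 * π * (Real.exp (-(2 * π * w.im)) / (1 - Real.exp (-(2 * π * δ)))) := by
    field_simp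
  rw [e]
  apply mul_le_mul_of_nonneg_left _ (by linarith)
  exact div_le_div_of_nonneg_left (Real.exp_pos _).le h5 h3

/-- lower half plane: `π cot(π w) - π i` is exponentially small -/
lemma norm_pi_cot_sub_le (w : ℂ) {δ : ℝ} (hδ : 0 < δ) (hw : w.im ≤ -δ) :
    ‖π * cot (π * w) - π * I‖ ≤ cotK δ * Real.exp (2 * π * w.im) := by
  have h := norm_pi_cot_add_le (-w) hδ (by rw [neg_im]; linarith)
  have e1 : (π : ℂ) * cot (π * -w) + π * I = -(π * cot (π * w) - π * I) := by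
    rw [mul_neg, Complex.cot_eq_cos_div_sin, Complex.cot_eq_cos_div_sin, Complex.cos_neg,
      Complex.sin_neg, div_neg]
    ring
  rw [e1, norm_neg] at h
  simpa using h

/-! ## Division points -/

lemma divPt_im (ℓ : ℕ) (a : Fin 2 → ℤ) (τ : ℍ) :
    (divPt ℓ a (τ : ℂ)).im = (a 0 : ℝ) * τ.im / (ℓ : ℝ) := by
  unfold divPt lat
  rw [Complex.div_natCast_im]
  simp [Complex.add_im, Complex.mul_im]

lemma divPt_ne_lat {ℓ : ℕ} {a : Fin 2 → ℤ} (hℓ : 0 < ℓ) (ha : NotDiv ℓ a) (τ : ℍ)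
    (v : Fin 2 → ℤ) : divPt ℓ a (τ : ℂ) ≠ lat (τ : ℂ) v := by
  intro h
  apply ha
  have hℓc : ((ℓ : ℕ) : ℂ) ≠ 0 := by exact_mod_cast hℓ.ne'
  unfold divPt lat at h
  rw [div_eq_iff hℓc] at h
  have him := congrArg Complex.im h
  have hre := congrArg Complex.re h
  have hτ : 0 < (τ : ℂ).im := τ.2
  simp only [Complex.add_im, Complex.mul_im, Complex.add_re, Complex.mul_re, Complex.intCast_re,
    Complex.intCast_im, Complex.natCast_re, Complex.natCast_im, zero_mul, add_zero, mul_zero,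
    sub_zero] at him hre
  have h0 : (a 0 : ℝ) = (v 0 : ℝ) * (ℓ : ℝ) := by
    have h1 : ((a 0 : ℝ) - (v 0 : ℝ) * (ℓ : ℝ)) * (τ : ℂ).im = 0 := by linarith
    rcases mul_eq_zero.1 h1 with h2 | h2
    · linarith
    · exact absurd h2 hτ.ne'
  have h1 : (a 1 : ℝ) = (v 1 : ℝ) * (ℓ : ℝ) := by
    rw [h0] at hre
    linarith
  intro i
  fin_cases i
  · refine ⟨v 0, ?_⟩
    have : (a 0 : ℝ) = (((ℓ : ℤ) * v 0 : ℤ) : ℝ) := by
      rw [h0]; push_cast; ring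
    exact_mod_cast this
  · refine ⟨v 1, ?_⟩
    have : (a 1 : ℝ) = (((ℓ : ℤ) * v 1 : ℤ) : ℝ) := by
      rw [h1]; push_cast; ring
    exact_mod_cast this

/-! ## The bound -/

/-- boundedness for `0 ≤ a₀ < ℓ` -/
theorem bdd_core (hR : RowStatement) (ℓ : ℕ) (a : Fin 2 → ℤ) (hℓ : 0 < ℓ) (ha : NotDiv ℓ a)
    (h0 : 0 ≤ a 0) (h1 : a 0 < (ℓ : ℤ)) : IsBoundedAtImInfty (divVal ℓ a) := by
  rw [UpperHalfPlane.isBoundedAtImInfty_iff]
  have hpi := Real.pi_pos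
  have hℓr : (0 : ℝ) < (ℓ : ℝ) := by exact_mod_cast hℓ
  set δ : ℝ := 1 / (ℓ : ℝ) with hδdef
  have hδ : 0 < δ := by positivity
  have hδ1 : δ ≤ 1 := by
    rw [hδdef, div_le_one hℓr]
    exact_mod_cast hℓ
  have hK := cotK_pos hδ
  set r : ℝ := Real.exp (-(2 * π)) with hrdef
  have hr0 : 0 ≤ r := (Real.exp_pos _).le
  have hr1 : r < 1 := by
    rw [hrdef, Real.exp_lt_one_iff]
    linarith
  refine ⟨‖(π : ℂ) * cot (π * ((a 1 : ℂ) / (ℓ : ℂ)))‖ + (π + cotK δ) + 2 * cotK δ * (1 - r)⁻¹ +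
    ‖2 * (π : ℂ) * I * (a 0 : ℂ) / (ℓ : ℂ)‖, 1, ?_⟩
  intro τ hτ
  have hz := divPt_ne_lat hℓ ha τ
  obtain ⟨-, hrow⟩ := hR τ (divPt ℓ a (τ : ℂ)) hz
  have hzim := divPt_im ℓ a τ
  have ha0r : (0 : ℝ) ≤ (a 0 : ℝ) := by exact_mod_cast h0
  have ha1r : (a 0 : ℝ) ≤ (ℓ : ℝ) - 1 := by
    have : a 0 ≤ (ℓ : ℤ) - 1 := by omega
    exact_mod_cast this
  have hτ0 : (0 : ℝ) < τ.im := by linarith
  have hzim0 : 0 ≤ (divPt ℓ a (τ : ℂ)).im := by
    rw [hzim]
    positivity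
  have hzim1 : (divPt ℓ a (τ : ℂ)).im ≤ (1 - δ) * τ.im := by
    rw [hzim, hδdef, div_le_iff₀ hℓr]
    have e : (1 - 1 / (ℓ : ℝ)) * τ.im * (ℓ : ℝ) = ((ℓ : ℝ) - 1) * τ.im := by
      field_simp
    rw [e]
    exact mul_le_mul_of_nonneg_right ha1r hτ0.le
  -- the value
  have hval : divVal ℓ a τ = π * cot (π * divPt ℓ a (τ : ℂ)) +
      (∑' m : ℕ, (π * cot (π * (divPt ℓ a (τ : ℂ) - (m + 1 : ℂ) * τ)) +
        π * cot (π * (divPt ℓ a (τ : ℂ) + (m + 1 : ℂ) * τ)))) +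
      2 * π * I * (a 0 : ℂ) / (ℓ : ℂ) := by
    unfold divVal
    rw [hrow]
    ring
  -- the first term
  have hfirst : ‖(π : ℂ) * cot (π * divPt ℓ a (τ : ℂ))‖ ≤
      ‖(π : ℂ) * cot (π * ((a 1 : ℂ) / (ℓ : ℂ)))‖ + (π + cotK δ) := by
    rcases eq_or_lt_of_le h0 with h00 | h00
    · have e : divPt ℓ a (τ : ℂ) = (a 1 : ℂ) / (ℓ : ℂ) := by
        unfold divPt lat
        rw [← h00]
        simp
      rw [e]
      linarith [hK]
    · have ha0' : (1 : ℝ) ≤ (a 0 : ℝ) := by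
        have : (1 : ℤ) ≤ a 0 := by omega
        exact_mod_cast this
      have hw : δ ≤ (divPt ℓ a (τ : ℂ)).im := by
        rw [hzim, hδdef]
        apply div_le_div_of_nonneg_right _ hℓr.le
        nlinarith
      have h2 := norm_pi_cot_add_le (divPt ℓ a (τ : ℂ)) hδ hw
      have h3 : Real.exp (-(2 * π * (divPt ℓ a (τ : ℂ)).im)) ≤ 1 := by
        rw [Real.exp_le_one_iff]
        have : 0 ≤ 2 * π * (divPt ℓ a (τ : ℂ)).im := by positivity
        linarith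
      have h4 : ‖(π : ℂ) * cot (π * divPt ℓ a (τ : ℂ))‖ ≤
          ‖(π : ℂ) * cot (π * divPt ℓ a (τ : ℂ)) + π * I‖ + ‖(π : ℂ) * I‖ := by
        have := norm_sub_le ((π : ℂ) * cot (π * divPt ℓ a (τ : ℂ)) + π * I) ((π : ℂ) * I)
        simpa using this
      have h5 : ‖(π : ℂ) * I‖ = π := by simp [abs_of_pos hpi]
      have h6 : cotK δ * Real.exp (-(2 * π * (divPt ℓ a (τ : ℂ)).im)) ≤ cotK δ :=
        mul_le_of_le_one_right hK.le h3
      have h7 : 0 ≤ ‖(π : ℂ) * cot (π * ((a 1 : ℂ) / (ℓ : ℂ)))‖ := norm_nonneg _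
      linarith
  -- the series
  have hterm : ∀ m : ℕ, ‖(π : ℂ) * cot (π * (divPt ℓ a (τ : ℂ) - (m + 1 : ℂ) * τ)) +
      π * cot (π * (divPt ℓ a (τ : ℂ) + (m + 1 : ℂ) * τ))‖ ≤ 2 * cotK δ * r ^ m := by
    intro m
    have hm0 : (0 : ℝ) ≤ (m : ℝ) := Nat.cast_nonneg m
    have hrm : r ^ m = Real.exp (-(2 * π * (m : ℝ))) := by
      rw [hrdef, ← Real.exp_nat_mul]
      congr 1
      ring
    have himp : (divPt ℓ a (τ : ℂ) + (m + 1 : ℂ) * τ).im =
        (divPt ℓ a (τ : ℂ)).im + ((m : ℝ) + 1) * τ.im := by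
      simp [Complex.add_im, Complex.mul_im]
    have himm : (divPt ℓ a (τ : ℂ) - (m + 1 : ℂ) * τ).im =
        (divPt ℓ a (τ : ℂ)).im - ((m : ℝ) + 1) * τ.im := by
      simp [Complex.sub_im, Complex.mul_im]
    have hp1 : (m : ℝ) + 1 ≤ (divPt ℓ a (τ : ℂ) + (m + 1 : ℂ) * τ).im := by
      rw [himp]
      nlinarith
    have hm1 : (divPt ℓ a (τ : ℂ) - (m + 1 : ℂ) * τ).im ≤ -((m : ℝ) + δ) := by
      rw [himm]
      nlinarith
    have hp := norm_pi_cot_add_le (divPt ℓ a (τ : ℂ) + (m + 1 : ℂ) * τ) hδ (by linarith)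
    have hmn := norm_pi_cot_sub_le (divPt ℓ a (τ : ℂ) - (m + 1 : ℂ) * τ) hδ (by linarith)
    have hp2 : Real.exp (-(2 * π * (divPt ℓ a (τ : ℂ) + (m + 1 : ℂ) * τ).im)) ≤ r ^ m := by
      rw [hrm]
      apply Real.exp_le_exp.mpr
      nlinarith
    have hm2 : Real.exp (2 * π * (divPt ℓ a (τ : ℂ) - (m + 1 : ℂ) * τ).im) ≤ r ^ m := by
      rw [hrm]
      apply Real.exp_le_exp.mpr
      nlinarith
    have e : (π : ℂ) * cot (π * (divPt ℓ a (τ : ℂ) - (m + 1 : ℂ) * τ)) +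
        π * cot (π * (divPt ℓ a (τ : ℂ) + (m + 1 : ℂ) * τ)) =
        ((π : ℂ) * cot (π * (divPt ℓ a (τ : ℂ) - (m + 1 : ℂ) * τ)) - π * I) +
          ((π : ℂ) * cot (π * (divPt ℓ a (τ : ℂ) + (m + 1 : ℂ) * τ)) + π * I) := by ring
    rw [e]
    refine (norm_add_le _ _).trans ?_
    have h8 := mul_le_mul_of_nonneg_left hp2 hK.le
    have h9 := mul_le_mul_of_nonneg_left hm2 hK.le
    linarith
  have hgeo : HasSum (fun m : ℕ => 2 * cotK δ * r ^ m) (2 * cotK δ * (1 - r)⁻¹) :=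
    (hasSum_geometric_of_lt_one hr0 hr1).mul_left _
  have hser := tsum_of_norm_bounded hgeo hterm
  rw [hval]
  refine (norm_add_le _ _).trans ?_
  refine add_le_add ?_ le_rfl
  refine (norm_add_le _ _).trans ?_
  exact add_le_add hfirst hser

/-- **[EIS-BDD]** the division values are bounded at `i∞`. -/
theorem bdd_of (hR : RowStatement) (hP : PerStatement) : BddStatement := by
  intro ℓ a hℓ ha
  -- reduce `a₀` modulo `ℓ`
  set e : Fin 2 → ℤ := ![-(a 0 / (ℓ : ℤ)), 0] with he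
  have hℓz : (0 : ℤ) < (ℓ : ℤ) := by exact_mod_cast hℓ
  have h0 : (a + (ℓ : ℤ) • e) 0 = a 0 % (ℓ : ℤ) := by
    simp only [Pi.add_apply, Pi.smul_apply, he, Matrix.cons_val_zero, smul_eq_mul]
    have := Int.emod_add_mul_ediv (a 0) (ℓ : ℤ)
    linarith
  have h1 : (a + (ℓ : ℤ) • e) 1 = a 1 := by
    simp [he]
  have ha' : NotDiv ℓ (a + (ℓ : ℤ) • e) := by
    intro h
    apply ha
    intro i
    have hi := h i
    simp only [Pi.add_apply, Pi.smul_apply, smul_eq_mul] at hi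
    exact (Int.dvd_add_left (Dvd.intro _ rfl)).1 hi
  have hb := bdd_core hR ℓ (a + (ℓ : ℤ) • e) hℓ ha'
    (by rw [h0]; exact Int.emod_nonneg _ hℓz.ne') (by rw [h0]; exact Int.emod_lt_of_pos _ hℓz)
  have heq : divVal ℓ (a + (ℓ : ℤ) • e) = divVal ℓ a := funext fun τ => hP ℓ a e hℓ ha τ
  rw [heq] at hb
  exact hb

end Fermat.Agent.T4.helper68
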