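import Fermat.Agent.T4.helper21_EisDefs

/-!
# T4 block (III), leaf [EIS-MUL] (helper93): products of forms of coprime-or-not levels

* `gamma1_mul_le_left`, `gamma1_mul_le_right` : `Γ₁(N ℓ) ≤ Γ₁(N)`, `Γ₁(N ℓ) ≤ Γ₁(ℓ)`;
* `restrictCuspForm`, `restrictModularForm` : restriction of a cusp / modular form to a smaller
  subgroup of `GL₂(ℝ)`;
* `mulCuspModular` : the product `f · G` of a cusp form of weight `k₁` on `Γ₁(N)` and a modular
  form of weight `k₂` on `Γ₁(ℓ)` as a cusp form of weight `k` (`k₁ + k₂ = k`) on `Γ₁(N ℓ)`;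
* `mulStatement : helper21.MulStatement` (verbatim).
-/

set_option autoImplicit false

open UpperHalfPlane hiding I
open CongruenceSubgroup ModularForm
open scoped MatrixGroups

noncomputable section

namespace Fermat.Agent.T4.helper93

/-- reduction of a congruence `x ≡ y mod a` to a divisor of the modulus -/
theorem intCast_zmod_eq_of_dvd {a b : ℕ} (hab : b ∣ a) {x y : ℤ}
    (h : (x : ZMod a) = (y : ZMod a)) : (x : ZMod b) = (y : ZMod b) := by
  rw [ZMod.intCast_eq_intCast_iff_dvd_sub] at h ⊢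
  exact dvd_trans (Int.natCast_dvd_natCast.mpr hab) h

/-- `Γ₁(a) ≤ Γ₁(b)` for `b ∣ a`. -/
theorem gamma1_le_of_dvd {a b : ℕ} (hab : b ∣ a) : Gamma1 a ≤ Gamma1 b := by
  intro A hA
  rw [Gamma1_mem] at hA ⊢
  obtain ⟨h1, h2, h3⟩ := hA
  refine ⟨?_, ?_, ?_⟩
  · have := intCast_zmod_eq_of_dvd hab (x := A.1 0 0) (y := 1) (by simpa using h1)
    simpa using this
  · have := intCast_zmod_eq_of_dvd hab (x := A.1 1 1) (y := 1) (by simpa using h2)
    simpa using this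
  · have := intCast_zmod_eq_of_dvd hab (x := A.1 1 0) (y := 0) (by simpa using h3)
    simpa using this

theorem gamma1_mul_le_left (N ℓ : ℕ) : Gamma1 (N * ℓ) ≤ Gamma1 N :=
  gamma1_le_of_dvd (dvd_mul_right N ℓ)

theorem gamma1_mul_le_right (N ℓ : ℕ) : Gamma1 (N * ℓ) ≤ Gamma1 ℓ :=
  gamma1_le_of_dvd (dvd_mul_left ℓ N)

/-- the images in `GL₂(ℝ)` -/
theorem gamma1GL_le_of_dvd {a b : ℕ} (hab : b ∣ a) :
    ((Gamma1 a : Subgroup SL(2, ℤ)) : Subgroup (GL (Fin 2) ℝ)) ≤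
      ((Gamma1 b : Subgroup SL(2, ℤ)) : Subgroup (GL (Fin 2) ℝ)) :=
  Subgroup.map_mono (gamma1_le_of_dvd hab)

/-- restriction of a cusp form to a smaller subgroup -/
def restrictCuspForm {Γ Γ' : Subgroup (GL (Fin 2) ℝ)} (h : Γ' ≤ Γ) {k : ℤ} (f : CuspForm Γ k) :
    CuspForm Γ' k where
  toFun := (f : ℍ → ℂ)
  slash_action_eq' A hA := f.slash_action_eq' A (h hA)
  holo' := f.holo'
  zero_at_cusps' hc := f.zero_at_cusps' (hc.mono h)

@[simp]
theorem restrictCuspForm_apply {Γ Γ' : Subgroup (GL (Fin 2) ℝ)} (h : Γ' ≤ Γ) {k : ℤ}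
    (f : CuspForm Γ k) (τ : ℍ) : restrictCuspForm h f τ = f τ := rfl

/-- restriction of a modular form to a smaller subgroup -/
def restrictModularForm {Γ Γ' : Subgroup (GL (Fin 2) ℝ)} (h : Γ' ≤ Γ) {k : ℤ}
    (f : ModularForm Γ k) : ModularForm Γ' k where
  toFun := (f : ℍ → ℂ)
  slash_action_eq' A hA := f.slash_action_eq' A (h hA)
  holo' := f.holo'
  bdd_at_cusps' hc := f.bdd_at_cusps' (hc.mono h)

@[simp]
theorem restrictModularForm_apply {Γ Γ' : Subgroup (GL (Fin 2) ℝ)} (h : Γ' ≤ Γ) {k : ℤ}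
    (f : ModularForm Γ k) (τ : ℍ) : restrictModularForm h f τ = f τ := rfl

/-- the product of a cusp form on `Γ₁(N)` and a modular form on `Γ₁(ℓ)` as a cusp form on
`Γ₁(N ℓ)` -/
def mulCuspModular (N ℓ : ℕ) {k₁ k₂ k : ℤ} (hk : k₁ + k₂ = k) (f : CuspForm (Gamma1 N) k₁)
    (G : ModularForm (Gamma1 ℓ) k₂) : CuspForm (Gamma1 (N * ℓ)) k :=
  CuspForm.mcast hk
    ((restrictCuspForm (gamma1GL_le_of_dvd (dvd_mul_right N ℓ)) f).mulModularForm
      (restrictModularForm (gamma1GL_le_of_dvd (dvd_mul_left ℓ N)) G))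

theorem mulCuspModular_apply (N ℓ : ℕ) {k₁ k₂ k : ℤ} (hk : k₁ + k₂ = k)
    (f : CuspForm (Gamma1 N) k₁) (G : ModularForm (Gamma1 ℓ) k₂) (τ : ℍ) :
    mulCuspModular N ℓ hk f G τ = f τ * G τ := rfl

/-- the product of two modular forms on `Γ₁(N)`, `Γ₁(ℓ)` as a modular form on `Γ₁(N ℓ)` -/
def mulModularModular (N ℓ : ℕ) {k₁ k₂ k : ℤ} (hk : k₁ + k₂ = k) (f : ModularForm (Gamma1 N) k₁)
    (G : ModularForm (Gamma1 ℓ) k₂) : ModularForm (Gamma1 (N * ℓ)) k :=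
  ModularForm.mcast hk
    ((restrictModularForm (gamma1GL_le_of_dvd (dvd_mul_right N ℓ)) f).mul
      (restrictModularForm (gamma1GL_le_of_dvd (dvd_mul_left ℓ N)) G))

theorem mulModularModular_apply (N ℓ : ℕ) {k₁ k₂ k : ℤ} (hk : k₁ + k₂ = k)
    (f : ModularForm (Gamma1 N) k₁) (G : ModularForm (Gamma1 ℓ) k₂) (τ : ℍ) :
    mulModularModular N ℓ hk f G τ = f τ * G τ := rfl

/-- **[EIS-MUL]** (verbatim `helper21.MulStatement`). -/
theorem mulStatement : Fermat.Agent.T4.helper21.MulStatement := by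
  intro N ℓ _ _ f G
  exact ⟨mulCuspModular N ℓ (by norm_num) f G, fun τ => mulCuspModular_apply N ℓ _ f G τ⟩

end Fermat.Agent.T4.helper93
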