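import Fermat.Agent.T4.helper21_EisLaw
import Fermat.Agent.T4.helper30_EisRowFinal
import Fermat.Agent.T4.helper12_EisQP
import Fermat.Agent.T4.helper37_EisPer
import Fermat.Agent.T4.helper61_EisQExp
import Fermat.Agent.T4.helper50_EisHolo
import Fermat.Agent.T4.helper68_EisBdd
import Fermat.Agent.T4.helper2_EisGauss
import Fermat.Agent.T4.helper17_EisMF
import Fermat.Agent.T4.helper93_EisMul

/-!
# T4 block (III): the weight-one Eisenstein series — final wiring (helper21)

`eisStatement : EisStatement` — for every prime `ℓ` and every odd Dirichlet character `χ` mod `ℓ`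
there is `G : ModularForm (Γ₁(ℓ)) 1` with `G(γτ) = χ(d)(cτ+d) G(τ)` on `Γ₀(ℓ)` and
`G τ = -B_{1,χ}/2 + ∑_{n ≥ 1} (∑_{d ∣ n} χ d) qⁿ`.  UNCONDITIONAL.

Leaves: SUM helper53, ROW helper30, QP helper12, PER helper37, QEXP helper61, HOLO helper50,
BDD helper68, GAUSS helper2, MF helper17, MUL helper93, SL2 + LAW helper21.
-/

set_option autoImplicit false

namespace Fermat.Agent.T4.helper21

theorem rowStatement' : RowStatement := Fermat.Agent.T4.helper30.rowStatement

theorem qpStatement : QPStatement := Fermat.Agent.T4.helper12.qp_of rowStatement'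

theorem perStatement : PerStatement := Fermat.Agent.T4.helper37.per_of qpStatement

theorem qexpStatement : QExpStatement := Fermat.Agent.T4.helper61.qexp_of rowStatement'

theorem holoStatement : HoloStatement :=
  Fermat.Agent.T4.helper50.holo_of rowStatement' perStatement

theorem bddStatement : BddStatement :=
  Fermat.Agent.T4.helper68.bdd_of rowStatement' perStatement

theorem gaussStatement : GaussStatement := Fermat.Agent.T4.helper2.gauss_of qexpStatement

/-- **[EIS-MF]** the weight-one Eisenstein series `G_χ` on `Γ₁(ℓ)`, unconditional. -/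
theorem eisStatement : EisStatement :=
  Fermat.Agent.T4.helper17.eis_of lawStatement perStatement holoStatement bddStatement
    gaussStatement

theorem mulStatement' : MulStatement := Fermat.Agent.T4.helper93.mulStatement

end Fermat.Agent.T4.helper21
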