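import Fermat.Agent.T4.helper21_EisDefs

/-!
# T4 block (III): [EIS-SL2] and [EIS-LAW] (helper21)

* `sl2Statement : SL2Statement` — `ζ(z/(cτ+d); γτ) = (cτ+d) ζ(z; τ)` by reindexing the lattice sum
  (unconditional: `Equiv.tsum_eq` and `tsum_mul_left` need no summability).
* `lawStatement : LawStatement` — `divVal ℓ a (γ τ) = (cτ+d) divVal ℓ (a γ) τ` from `sl2Statement`
  and Mathlib's `EisensteinSeries.G2_slash_action`.
-/

set_option autoImplicit false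

noncomputable section

namespace Fermat.Agent.T4.helper21

open UpperHalfPlane hiding I
open Complex EisensteinSeries CongruenceSubgroup ModularForm Filter
open scoped MatrixGroups Real Manifold

/-- right multiplication by `γ` on row vectors, as a permutation of `ℤ²`. -/
def vecMulEquiv (γ : SL(2, ℤ)) : (Fin 2 → ℤ) ≃ (Fin 2 → ℤ) where
  toFun v := Matrix.vecMul v (γ : Matrix (Fin 2) (Fin 2) ℤ)
  invFun v := Matrix.vecMul v ((γ⁻¹ : SL(2, ℤ)) : Matrix (Fin 2) (Fin 2) ℤ)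
  left_inv v := by
    show Matrix.vecMul (Matrix.vecMul v (γ : Matrix (Fin 2) (Fin 2) ℤ))
      ((γ⁻¹ : SL(2, ℤ)) : Matrix (Fin 2) (Fin 2) ℤ) = v
    rw [Matrix.vecMul_vecMul, ← Matrix.SpecialLinearGroup.coe_mul, mul_inv_cancel,
      Matrix.SpecialLinearGroup.coe_one, Matrix.vecMul_one]
  right_inv v := by
    show Matrix.vecMul (Matrix.vecMul v ((γ⁻¹ : SL(2, ℤ)) : Matrix (Fin 2) (Fin 2) ℤ))
      (γ : Matrix (Fin 2) (Fin 2) ℤ) = v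
    rw [Matrix.vecMul_vecMul, ← Matrix.SpecialLinearGroup.coe_mul, inv_mul_cancel,
      Matrix.SpecialLinearGroup.coe_one, Matrix.vecMul_one]

theorem vecMulEquiv_apply (γ : SL(2, ℤ)) (v : Fin 2 → ℤ) :
    vecMulEquiv γ v = Matrix.vecMul v (γ : Matrix (Fin 2) (Fin 2) ℤ) := rfl

theorem vecMul_zero_apply (γ : SL(2, ℤ)) (v : Fin 2 → ℤ) :
    Matrix.vecMul v (γ : Matrix (Fin 2) (Fin 2) ℤ) 0 = v 0 * γ 0 0 + v 1 * γ 1 0 := by
  simp [Matrix.vecMul, dotProduct, Fin.sum_univ_two]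

theorem vecMul_one_apply (γ : SL(2, ℤ)) (v : Fin 2 → ℤ) :
    Matrix.vecMul v (γ : Matrix (Fin 2) (Fin 2) ℤ) 1 = v 0 * γ 0 1 + v 1 * γ 1 1 := by
  simp [Matrix.vecMul, dotProduct, Fin.sum_univ_two]

theorem vecMulEquiv_eq_zero_iff (γ : SL(2, ℤ)) (v : Fin 2 → ℤ) :
    vecMulEquiv γ v = 0 ↔ v = 0 := by
  constructor
  · intro h
    have := congrArg (vecMulEquiv γ).symm h
    rw [Equiv.symm_apply_apply] at this
    rw [this]
    show Matrix.vecMul 0 ((γ⁻¹ : SL(2, ℤ)) : Matrix (Fin 2) (Fin 2) ℤ) = 0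
    exact Matrix.zero_vecMul _
  · rintro rfl
    show Matrix.vecMul 0 (γ : Matrix (Fin 2) (Fin 2) ℤ) = 0
    exact Matrix.zero_vecMul _

theorem num_eq (γ : SL(2, ℤ)) (τ : ℍ) :
    num γ τ = ((γ 0 0 : ℤ) : ℂ) * τ + ((γ 0 1 : ℤ) : ℂ) := by
  simp [num]

theorem denom_eq (γ : SL(2, ℤ)) (τ : ℍ) :
    denom γ τ = ((γ 1 0 : ℤ) : ℂ) * τ + ((γ 1 1 : ℤ) : ℂ) := by
  simp [denom]

theorem denom_ne_zero' (γ : SL(2, ℤ)) (τ : ℍ) : denom γ τ ≠ 0 :=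
  denom_ne_zero _ τ

theorem coe_smul_eq (γ : SL(2, ℤ)) (τ : ℍ) :
    ((γ • τ : ℍ) : ℂ) = num γ τ / denom γ τ := by
  rw [coe_specialLinearGroup_apply, num_eq, denom_eq]
  simp

/-- `lat (γ τ) v = lat τ (v γ) / (cτ + d)`. -/
theorem lat_smul (γ : SL(2, ℤ)) (τ : ℍ) (v : Fin 2 → ℤ) :
    lat ((γ • τ : ℍ) : ℂ) v = lat τ (vecMulEquiv γ v) / denom γ τ := by
  have hD := denom_ne_zero' γ τ
  rw [coe_smul_eq, lat, lat, vecMulEquiv_apply, vecMul_zero_apply, vecMul_one_apply, num_eq]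
  rw [eq_div_iff hD, add_mul, mul_assoc, div_mul_cancel₀ _ hD, denom_eq]
  push_cast
  ring

theorem zetaTerm_smul (γ : SL(2, ℤ)) (τ : ℍ) (z : ℂ) (v : Fin 2 → ℤ) :
    zetaTerm (z / denom γ τ) ((γ • τ : ℍ) : ℂ) v =
      denom γ τ * zetaTerm z τ (vecMulEquiv γ v) := by
  have hD := denom_ne_zero' γ τ
  unfold zetaTerm
  by_cases hv : v = 0
  · have hv' : vecMulEquiv γ v = 0 := (vecMulEquiv_eq_zero_iff γ v).2 hv
    rw [if_pos hv, if_pos hv', inv_div, div_eq_mul_inv]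
  · have hv' : ¬ vecMulEquiv γ v = 0 := fun h => hv ((vecMulEquiv_eq_zero_iff γ v).1 h)
    rw [if_neg hv, if_neg hv', lat_smul]
    set L := lat τ (vecMulEquiv γ v)
    set D := denom γ τ
    have h1 : (L / D) ^ 2 * (z / D - L / D) = (L ^ 2 * (z - L)) / D ^ 3 := by
      field_simp
    have h2 : (z / D) ^ 2 = z ^ 2 / D ^ 2 := div_pow z D 2
    rw [h1, h2, div_div_div_eq]
    have h3 : z ^ 2 * D ^ 3 = D ^ 2 * (D * z ^ 2) := by ring
    rw [h3, mul_div_mul_left _ _ (pow_ne_zero 2 hD), mul_div_assoc]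

/-- **[EIS-SL2]** -/
theorem sl2Statement : SL2Statement := by
  intro γ τ z
  unfold wZeta
  have h : (fun v => zetaTerm (z / denom γ τ) ((γ • τ : ℍ) : ℂ) v) =
      fun v => denom γ τ * zetaTerm z τ (vecMulEquiv γ v) :=
    funext (zetaTerm_smul γ τ z)
  rw [h, tsum_mul_left]
  congr 1
  exact (vecMulEquiv γ).tsum_eq (zetaTerm z τ)

theorem divPt_smul (ℓ : ℕ) (a : Fin 2 → ℤ) (γ : SL(2, ℤ)) (τ : ℍ) :
    divPt ℓ a ((γ • τ : ℍ) : ℂ) =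
      divPt ℓ (Matrix.vecMul a (γ : Matrix (Fin 2) (Fin 2) ℤ)) τ / denom γ τ := by
  unfold divPt
  rw [lat_smul, vecMulEquiv_apply, div_right_comm]

theorem G2_smul (γ : SL(2, ℤ)) (τ : ℍ) :
    G2 (γ • τ) = denom γ τ ^ 2 * G2 τ - 2 * π * I * ((γ 1 0 : ℤ) : ℂ) * denom γ τ := by
  have hD := denom_ne_zero' γ τ
  have h := congrFun (G2_slash_action γ) τ
  rw [SL_slash_apply] at h
  simp only [Pi.sub_apply, D2] at h
  have h' : G2 (γ • τ) = (G2 τ - 2 * π * I * ((γ 1 0 : ℤ) : ℂ) / denom γ τ) * denom γ τ ^ 2 := by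
    rw [← h, zpow_neg, mul_assoc]
    have : (denom γ τ ^ (2 : ℤ))⁻¹ * denom γ τ ^ 2 = 1 := by
      rw [zpow_ofNat]
      exact inv_mul_cancel₀ (pow_ne_zero 2 hD)
    rw [this, mul_one]
  rw [h']
  field_simp

/-- **[EIS-LAW]** -/
theorem lawStatement : LawStatement := by
  intro ℓ a γ τ
  have hD := denom_ne_zero' γ τ
  unfold divVal
  rw [divPt_smul, sl2Statement γ τ, G2_smul]
  set b := Matrix.vecMul a (γ : Matrix (Fin 2) (Fin 2) ℤ) with hb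
  set D := denom γ τ with hDdef
  have key : ((γ 1 0 : ℤ) : ℂ) * lat τ b + (a 0 : ℂ) = D * (b 0 : ℂ) := by
    have hdet : γ 0 0 * γ 1 1 - γ 0 1 * γ 1 0 = 1 := by
      have := γ.det_coe
      rw [Matrix.det_fin_two] at this
      exact this
    have hdetC : ((γ 0 0 : ℤ) : ℂ) * ((γ 1 1 : ℤ) : ℂ) - ((γ 0 1 : ℤ) : ℂ) * ((γ 1 0 : ℤ) : ℂ) = 1 := by
      exact_mod_cast congrArg (fun x : ℤ => (x : ℂ)) hdet
    rw [hDdef, denom_eq, lat, hb, vecMul_zero_apply, vecMul_one_apply]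
    push_cast
    linear_combination (-(a 0 : ℂ)) * hdetC
  have key2 : ((γ 1 0 : ℤ) : ℂ) * divPt ℓ b τ + (a 0 : ℂ) / (ℓ : ℂ) = D * ((b 0 : ℂ) / (ℓ : ℂ)) := by
    unfold divPt
    rw [← mul_div_assoc, ← add_div, key, mul_div_assoc]
  have e1 : divPt ℓ b τ / D * (D ^ 2 * G2 τ - 2 * π * I * ((γ 1 0 : ℤ) : ℂ) * D) =
      D * (divPt ℓ b τ * G2 τ) - 2 * π * I * (((γ 1 0 : ℤ) : ℂ) * divPt ℓ b τ) := by
    field_simp
  rw [e1]
  have e2 : 2 * π * I * (a 0 : ℂ) / (ℓ : ℂ) = 2 * π * I * ((a 0 : ℂ) / (ℓ : ℂ)) := by ring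
  have e3 : 2 * π * I * (b 0 : ℂ) / (ℓ : ℂ) = 2 * π * I * ((b 0 : ℂ) / (ℓ : ℂ)) := by ring
  rw [e2, e3]
  linear_combination (2 * π * I) * key2

end Fermat.Agent.T4.helper21
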