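import Fermat.Agent.T4.helper21_EisContract

/-!
# T4 block (III): CONTRACT EIS at level `c N ℓ` (helper21)

`prodContractLevel` : the statement of `prodContract` with the product `g = f · E` as a cusp form
of weight two on `Γ₁(c · N · ℓ)` for an arbitrary auxiliary factor `c ≥ 1` (the wiring (R1) of the
blueprint uses `c ∈ {4, 9}`), for `f ∈ S₁(Γ₁(N))`.

* `qCoeff_restrictCuspForm` : the Prelude `q`-coefficients do not change under restriction of the
  level.
-/

set_option autoImplicit false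

universe u

noncomputable section

namespace Fermat.Agent.T4.helper21

open UpperHalfPlane hiding I
open Complex EisensteinSeries CongruenceSubgroup ModularForm Filter
open scoped MatrixGroups Real Manifold

local notation "Zbar" => integralClosure ℤ ℂ

/-- the Prelude `q`-coefficients do not change under restriction to a smaller subgroup. -/
theorem qCoeff_restrictCuspForm {Γ Γ' : Subgroup (GL (Fin 2) ℝ)} (h : Γ' ≤ Γ) {k : ℤ}
    (f : CuspForm Γ k) (n : ℕ) :
    ModularFormClass.qCoeff (Fermat.Agent.T4.helper93.restrictCuspForm h f) n =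
      ModularFormClass.qCoeff f n := rfl

/-- **CONTRACT EIS + product at level `c N ℓ`**. -/
def ProdContractLevelStatement : Prop :=
  ∀ (c N ℓ : ℕ) [NeZero c] [NeZero N] [Fact ℓ.Prime], 3 ≤ ℓ →
    ∀ (k : Type u) [Field k] [CharP k ℓ] (r : Zbar →+* k)
      (f : CuspForm (Gamma1 N) 1) (A : ℕ → Zbar),
      (∀ n, (A n : ℂ) = ModularFormClass.qCoeff f n) →
      ∃ (ψ : DirichletCharacter ℂ ℓ) (Ψ : ZMod ℓ → Zbar) (E : ModularForm (Gamma1 ℓ) 1)
        (e : ℕ → Zbar) (g : CuspForm (Gamma1 (c * N * ℓ)) 2) (B : ℕ → Zbar),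
        ψ (-1) = -1 ∧
        (∀ d, (Ψ d : ℂ) = ψ d) ∧
        (∀ d : ℕ, ¬ ℓ ∣ d → r (Ψ (d : ZMod ℓ)) * (d : k) = 1) ∧
        (∀ γ ∈ Gamma0 ℓ, ∀ τ : ℍ,
          E (γ • τ) = ψ (((γ 1 1 : ℤ) : ZMod ℓ)) * denom γ τ * E τ) ∧
        (∀ n, (e n : ℂ) = ModularFormClass.qCoeff E n) ∧
        r (e 0) = 1 ∧ (∀ n, n ≠ 0 → r (e n) = 0) ∧
        (∀ τ : ℍ, g τ = f τ * E τ) ∧
        (∀ n, (B n : ℂ) = ModularFormClass.qCoeff g n) ∧
        (∀ n, r (B n) = r (A n))

theorem prodContractLevel : ProdContractLevelStatement.{u} := by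
  intro c N ℓ hc hN hℓF h3 k _ _ r f A hA
  have hcN : NeZero (c * N) := ⟨Nat.mul_ne_zero hc.out hN.out⟩
  let f' : CuspForm (Gamma1 (c * N)) 1 :=
    Fermat.Agent.T4.helper93.restrictCuspForm
      (Fermat.Agent.T4.helper93.gamma1GL_le_of_dvd (dvd_mul_left N c)) f
  have hf' : ∀ τ : ℍ, f' τ = f τ := fun τ =>
    Fermat.Agent.T4.helper93.restrictCuspForm_apply _ f τ
  have hA' : ∀ n, (A n : ℂ) = ModularFormClass.qCoeff f' n := fun n => by
    rw [hA n]
    exact (qCoeff_restrictCuspForm _ f n).symm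
  obtain ⟨ψ, Ψ, E, e, g, B, h1, h2, h3', h4, h5, h6, h7, h8, h9, h10⟩ :=
    prodContract (c * N) ℓ h3 k r f' A hA'
  exact ⟨ψ, Ψ, E, e, g, B, h1, h2, h3', h4, h5, h6, h7, fun τ => by rw [h8 τ, hf' τ], h9, h10⟩

end Fermat.Agent.T4.helper21
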