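import Fermat.Agent.T4.helper21_EisDefs
import Fermat.Prelude.Def_FLTPrelim_Modularity

/-!
# T4 block (III): the consumer corollary (helper21) — Props only

`OutStatement`: for a maximal ideal `P ∣ ℓ` of the algebraic integers and a weight-one cusp form
`f` on `Γ₁(N)` with integral `q`-coefficients `A n` there are an odd character `χ` mod `ℓ`
(`χ(k) k ≡ 1 mod P`), the Eisenstein series `G = G_χ` and the weight-two cusp form
`h = -2ℓ · f · G` on `Γ₁(Nℓ)` with INTEGRAL `q`-coefficients `B n`, `B n + A n ∈ P`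
(i.e. `h ≡ -f mod P`, since `-2ℓ G_χ = u - 2ℓ ∑ σ_χ(n) qⁿ`, `u ≡ -1 mod P`).

Leaves:
* `QCoeffStatement` [EIS-QCOEFF] : the Prelude `qCoeff` of a weight-one form on `Γ₁(ℓ)` is read
  off any pointwise `HasSum` expansion;
* `ProdStatement` [EIS-PROD] : Cauchy product of `qCoeff`s;
* `OutStatement` [EIS-OUT] : assembly from `EisStatement`, `MulStatement`, `CongStatement`.
-/

set_option autoImplicit false

noncomputable section

namespace Fermat.Agent.T4.helper21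

open UpperHalfPlane hiding I
open Complex EisensteinSeries CongruenceSubgroup ModularForm Filter
open scoped MatrixGroups Real Manifold

/-- **[EIS-QCOEFF]** the Prelude `q`-coefficients of a modular form of weight one on `Γ₁(ℓ)` are
determined by a pointwise expansion `G τ = ∑ c n qⁿ`. -/
def QCoeffStatement : Prop :=
  ∀ (ℓ : ℕ) [NeZero ℓ] (G : ModularForm (Gamma1 ℓ) 1) (c : ℕ → ℂ),
    (∀ τ : ℍ, HasSum (fun n : ℕ => c n * qPow τ n) (G τ)) →
    ∀ n : ℕ, ModularFormClass.qCoeff G n = c n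

/-- **[EIS-PROD]** the `q`-coefficients of a pointwise product are the Cauchy product. -/
def ProdStatement : Prop :=
  ∀ (N ℓ : ℕ) [NeZero N] [NeZero ℓ] (f : CuspForm (Gamma1 N) 1) (G : ModularForm (Gamma1 ℓ) 1)
    (h : CuspForm (Gamma1 (N * ℓ)) 2) (c : ℂ), (∀ τ : ℍ, h τ = c * (f τ * G τ)) →
    ∀ n : ℕ, ModularFormClass.qCoeff h n =
      c * ∑ p ∈ Finset.HasAntidiagonal.antidiagonal n,
        ModularFormClass.qCoeff f p.1 * ModularFormClass.qCoeff G p.2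

/-- **[EIS-OUT]** the consumer corollary of block (III). -/
def OutStatement : Prop :=
  ∀ (N ℓ : ℕ) [NeZero N] [Fact ℓ.Prime], 3 ≤ ℓ →
    ∀ P : Ideal (integralClosure ℤ ℂ), P.IsMaximal → ((ℓ : ℕ) : integralClosure ℤ ℂ) ∈ P →
    ∀ (f : CuspForm (Gamma1 N) 1) (A : ℕ → integralClosure ℤ ℂ),
      (∀ n, (A n : ℂ) = ModularFormClass.qCoeff f n) →
      ∃ (χ : DirichletCharacter ℂ ℓ) (G : ModularForm (Gamma1 ℓ) 1)
        (h : CuspForm (Gamma1 (N * ℓ)) 2) (B : ℕ → integralClosure ℤ ℂ),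
        χ (-1) = -1 ∧
        (∀ k : ℕ, ¬ ℓ ∣ k → ∃ X : integralClosure ℤ ℂ,
          (X : ℂ) = χ (k : ZMod ℓ) ∧ X * (k : integralClosure ℤ ℂ) - 1 ∈ P) ∧
        (∀ γ ∈ Gamma0 ℓ, ∀ τ : ℍ,
          G (γ • τ) = χ (((γ 1 1 : ℤ) : ZMod ℓ)) * denom γ τ * G τ) ∧
        (∀ τ : ℍ, HasSum (fun n : ℕ => eisCoeff ℓ χ n * qPow τ n) (G τ)) ∧
        (∀ τ : ℍ, h τ = (-2 * (ℓ : ℂ)) * (f τ * G τ)) ∧
        (∀ n, (B n : ℂ) = ModularFormClass.qCoeff h n) ∧
        (∀ n, B n + A n ∈ P)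

end Fermat.Agent.T4.helper21
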