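import Mathlib
import Fermat.Agent.T4.helper21_EisDefs

/-!
# T4 block (III), leaf [EIS-CONG] (helper41)

For a maximal ideal `P` of the ring of algebraic integers over an odd prime `ℓ` the inverse
Teichmüller character `χ = ω⁻¹ mod P` is odd, has integral values with `χ(k) k ≡ 1 mod P` for
`k` prime to `ℓ`, and `u = ∑_{k<ℓ} k χ(k) ≡ ℓ - 1 ≡ -1 mod P`.

Main result: `Fermat.Agent.T4.helper41.cong : helper21.CongStatement`.
-/

set_option autoImplicit false

noncomputable section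

namespace Fermat.Agent.T4.helper41

open Finset

/-- A primitive `(n+1)`-st root of unity stays primitive modulo a prime ideal not containing
`n + 1`. -/
theorem primRoot_mk {R : Type*} [CommRing R] [IsDomain R] (P : Ideal R) [P.IsPrime]
    {n : ℕ} {ζ : R} (hζ : IsPrimitiveRoot ζ (n + 1)) (hn : ((n + 1 : ℕ) : R) ∉ P) :
    IsPrimitiveRoot (Ideal.Quotient.mk P ζ) (n + 1) := by
  have hprod := hζ.prod_one_sub_pow_eq_order
  have hprod' : ∏ k ∈ range n, (1 - (Ideal.Quotient.mk P ζ) ^ (k + 1)) =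
      ((n + 1 : ℕ) : R ⧸ P) := by
    have := congrArg (Ideal.Quotient.mk P) hprod
    simpa [map_prod] using this
  have hne : ((n + 1 : ℕ) : R ⧸ P) ≠ 0 := by
    intro h
    apply hn
    rw [← Ideal.Quotient.eq_zero_iff_mem]
    simpa using h
  refine IsPrimitiveRoot.mk_of_lt _ (Nat.succ_pos n) ?_ ?_
  · rw [← map_pow, hζ.pow_eq_one, map_one]
  · intro l hl0 hln h1
    apply hne
    rw [← hprod']
    apply Finset.prod_eq_zero (i := l - 1)
    · simp only [mem_range]; omega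
    · rw [Nat.sub_add_cancel hl0, h1, sub_self]

/-- **[EIS-CONG]**. -/
theorem cong : helper21.CongStatement := by
  intro ℓ hℓ h3 P hP hℓP
  have := hP
  have hprime : ℓ.Prime := hℓ.out
  have hℓ0 : ((ℓ : ℕ) : (integralClosure ℤ ℂ) ⧸ P) = 0 := by
    have : Ideal.Quotient.mk P ((ℓ : ℕ) : integralClosure ℤ ℂ) = 0 :=
      Ideal.Quotient.eq_zero_iff_mem.mpr hℓP
    simpa using this
  have : CharP ((integralClosure ℤ ℂ) ⧸ P) ℓ := (CharP.charP_iff_prime_eq_zero hprime).2 hℓ0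
  obtain ⟨n, hn⟩ : ∃ n, ℓ = n + 2 := ⟨ℓ - 2, by omega⟩
  have hn1' : n + 1 = ℓ - 1 := by omega
  -- a primitive `(ℓ-1)`-st root of unity
  have hζ : IsPrimitiveRoot (Complex.exp (2 * Real.pi * Complex.I / ((n + 1 : ℕ) : ℂ))) (n + 1) :=
    Complex.isPrimitiveRoot_exp (n + 1) (Nat.succ_ne_zero n)
  generalize Complex.exp (2 * Real.pi * Complex.I / ((n + 1 : ℕ) : ℂ)) = ζ at hζ
  have hζint : IsIntegral ℤ ζ := hζ.isIntegral (Nat.succ_pos n)
  obtain ⟨ζR, hζR0⟩ : ∃ ζR : integralClosure ℤ ℂ, (ζR : ℂ) = ζ := ⟨⟨ζ, hζint⟩, rfl⟩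
  have hζR : IsPrimitiveRoot ζR (n + 1) := by
    have h1 : IsPrimitiveRoot ((integralClosure ℤ ℂ).val ζR) (n + 1) := by
      simpa [hζR0] using hζ
    exact IsPrimitiveRoot.of_map_of_injective (f := (integralClosure ℤ ℂ).val) h1
      Subtype.coe_injective
  have hn1 : ((n + 1 : ℕ) : integralClosure ℤ ℂ) ∉ P := by
    intro h
    have h1 : (1 : integralClosure ℤ ℂ) ∈ P := by
      have h2 := P.sub_mem hℓP h
      have h3 : ((ℓ : ℕ) : integralClosure ℤ ℂ) - ((n + 1 : ℕ) : integralClosure ℤ ℂ) = 1 := by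
        rw [hn]; push_cast; ring
      rwa [h3] at h2
    exact hP.ne_top ((Ideal.eq_top_iff_one P).2 h1)
  have hζκ : IsPrimitiveRoot (Ideal.Quotient.mk P ζR) (n + 1) := primRoot_mk P hζR hn1
  -- a generator of `(ZMod ℓ)ˣ`
  obtain ⟨g, hg⟩ := IsCyclic.exists_monoid_generator (α := (ZMod ℓ)ˣ)
  have hgz : ∀ x, x ∈ Subgroup.zpowers g := fun x => (mem_powers_iff_mem_zpowers).1 (hg x)
  obtain ⟨c, hc⟩ : ∃ c : ZMod ℓ →+* (integralClosure ℤ ℂ) ⧸ P, True :=
    ⟨ZMod.castHom (dvd_refl ℓ) _, trivial⟩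
  have hgpow : (c (g : ZMod ℓ)) ^ (n + 1) = 1 := by
    have h1 := ZMod.units_pow_card_sub_one_eq_one ℓ g
    have h' : ((g : ZMod ℓ)) ^ (ℓ - 1) = 1 := by
      rw [← Units.val_pow_eq_pow_val, h1, Units.val_one]
    rw [← map_pow, hn1', h', map_one]
  obtain ⟨i, hi, hi'⟩ := hζκ.eq_pow_of_pow_eq_one hgpow
  -- the value `θ = ω(g)⁻¹`
  obtain ⟨θR, hθdef⟩ : ∃ θR : integralClosure ℤ ℂ, θR = ζR ^ (i * n) := ⟨_, rfl⟩
  have hθη : θR * ζR ^ i = 1 := by
    rw [hθdef, ← pow_add, ← Nat.mul_succ, mul_comm, pow_mul, hζR.pow_eq_one, one_pow]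
  have hθpow : θR ^ (n + 1) = 1 := by
    rw [hθdef, ← pow_mul, mul_comm (i * n), pow_mul, hζR.pow_eq_one, one_pow]
  have hθηC : (θR : ℂ) * ((ζR ^ i : integralClosure ℤ ℂ) : ℂ) = 1 := by
    exact_mod_cast congrArg Subtype.val hθη
  obtain ⟨θu, hθu0⟩ : ∃ θu : ℂˣ, (θu : ℂ) = (θR : ℂ) :=
    ⟨Units.mkOfMulEqOne _ _ hθηC, rfl⟩
  have hθu : θu ∈ rootsOfUnity (Fintype.card (ZMod ℓ)ˣ) ℂ := by
    rw [ZMod.card_units, mem_rootsOfUnity, ← hn1']
    ext
    rw [Units.val_pow_eq_pow_val, hθu0, Units.val_one]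
    exact_mod_cast congrArg Subtype.val hθpow
  obtain ⟨χ, hχg⟩ : ∃ χ : DirichletCharacter ℂ ℓ, χ (g : ZMod ℓ) = (θR : ℂ) :=
    ⟨MulChar.ofRootOfUnity hθu hgz, by rw [MulChar.ofRootOfUnity_spec hθu hgz, hθu0]⟩
  have hχint : ∀ k : ZMod ℓ, IsIntegral ℤ (χ k) := by
    intro k
    by_cases hk : IsUnit k
    · apply IsIntegral.of_pow (n := n + 1) (Nat.succ_pos n)
      have h1 : χ k ^ (n + 1) = 1 := by
        obtain ⟨a, rfl⟩ := hk
        rw [← map_pow, ← Units.val_pow_eq_pow_val, hn1', ZMod.units_pow_card_sub_one_eq_one,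
          Units.val_one, map_one]
      rw [h1]; exact isIntegral_one
    · rw [χ.map_nonunit hk]; exact isIntegral_zero
  obtain ⟨X, hX⟩ : ∃ X : ZMod ℓ → integralClosure ℤ ℂ, ∀ k, (X k : ℂ) = χ k :=
    ⟨fun k => ⟨χ k, hχint k⟩, fun k => rfl⟩
  -- the key congruence on units
  have hkey : ∀ a : (ZMod ℓ)ˣ, Ideal.Quotient.mk P (X (a : ZMod ℓ)) * c (a : ZMod ℓ) = 1 := by
    intro a
    obtain ⟨m, rfl⟩ := hg a
    have hXm : X ((g ^ m : (ZMod ℓ)ˣ) : ZMod ℓ) = θR ^ m := by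
      apply Subtype.ext
      rw [hX, Units.val_pow_eq_pow_val, map_pow, hχg]
      push_cast
      rfl
    rw [hXm, Units.val_pow_eq_pow_val, map_pow, map_pow, ← mul_pow, ← hi', ← map_pow, ← map_mul,
      hθη, map_one, one_pow]
  have hcong : ∀ k : ℕ, ¬ ℓ ∣ k →
      Ideal.Quotient.mk P (X (k : ZMod ℓ)) * ((k : ℕ) : (integralClosure ℤ ℂ) ⧸ P) = 1 := by
    intro k hk
    have hu : IsUnit (k : ZMod ℓ) := by
      rw [ZMod.isUnit_iff_coprime]
      exact ((Nat.Prime.coprime_iff_not_dvd hprime).2 hk).symm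
    obtain ⟨a, ha⟩ := hu
    rw [← map_natCast c k, ← ha]
    exact hkey a
  have hodd : χ (-1) = -1 := by
    have hsq : χ (-1) * χ (-1) = 1 := by rw [← map_mul]; simp
    rcases mul_self_eq_one_iff.mp hsq with h | h
    · exfalso
      have h1 := hkey (-1)
      have hX1 : X ((-1 : (ZMod ℓ)ˣ) : ZMod ℓ) = 1 := by
        apply Subtype.ext
        rw [hX]
        simpa using h
      rw [hX1] at h1
      simp only [map_one, Units.val_neg, Units.val_one, map_neg, one_mul] at h1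
      have h2 : ((2 : ℕ) : (integralClosure ℤ ℂ) ⧸ P) = 0 := by
        have : (1 : (integralClosure ℤ ℂ) ⧸ P) + 1 = 0 := by
          nth_rewrite 1 [← h1]; ring
        push_cast
        rw [← this]; ring
      have h4 := (CharP.cast_eq_zero_iff ((integralClosure ℤ ℂ) ⧸ P) ℓ 2).1 h2
      have := Nat.le_of_dvd (by norm_num) h4
      omega
    · exact h
  refine ⟨χ, X, ∑ k ∈ range ℓ, (k : integralClosure ℤ ℂ) * X (k : ZMod ℓ), hodd, hX, ?_, ?_, ?_⟩
  · intro k hk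
    rw [← Ideal.Quotient.eq_zero_iff_mem, map_sub, map_mul, map_natCast, map_one, hcong k hk,
      sub_self]
  · push_cast
    exact Finset.sum_congr rfl fun k _ => by rw [hX]
  · rw [← Ideal.Quotient.eq_zero_iff_mem, map_add, map_sum, map_one]
    have hterm : ∀ k ∈ range (n + 1),
        Ideal.Quotient.mk P (((k + 1 : ℕ) : integralClosure ℤ ℂ) * X ((k + 1 : ℕ) : ZMod ℓ)) = 1 := by
      intro k hk
      have hk' : ¬ ℓ ∣ k + 1 := by
        intro hd
        have := Nat.le_of_dvd (Nat.succ_pos k) hd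
        rw [mem_range] at hk
        omega
      rw [map_mul, map_natCast, mul_comm]
      exact hcong (k + 1) hk'
    have hsum : ∀ f : ℕ → (integralClosure ℤ ℂ) ⧸ P,
        ∑ k ∈ range ℓ, f k = ∑ k ∈ range (n + 1), f (k + 1) + f 0 := by
      intro f
      rw [hn, Finset.sum_range_succ']
    rw [hsum, Finset.sum_congr rfl hterm]
    simp only [sum_const, card_range, nsmul_eq_mul, mul_one, Nat.cast_zero, zero_mul, map_zero,
      add_zero]
    rw [hn] at hℓ0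
    rw [← hℓ0]
    push_cast
    ring

end Fermat.Agent.T4.helper41
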