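import Fermat.Agent.T4.helper21_EisOutDefs

/-!
# T4 block (III), leaf [EIS-OUT] (helper4): the consumer corollary

`out_of : EisStatement → MulStatement → CongStatement → QCoeffStatement → ProdStatement →
OutStatement` — pure bookkeeping:

* `χ, X, u` from `CongStatement` (`χ = ω⁻¹` relative to `P`, `u = ∑_{k<ℓ} k χ(k) ≡ -1`);
* `G = G_χ` from `EisStatement`; `h₀ = f · G` from `MulStatement`; `h := (-2ℓ) • h₀`;
* `B n := ∑_{i + j = n} A i · g j` with `g 0 = u`, `g j = -2ℓ ∑_{d ∣ j} X d` (`j ≥ 1`);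
* `B n + A n = (u + 1) A n + ∑_{j ≥ 1} A (n - j) g j ∈ P`.
-/

set_option autoImplicit false

noncomputable section

namespace Fermat.Agent.T4.helper4

open UpperHalfPlane hiding I
open Complex EisensteinSeries CongruenceSubgroup ModularForm Filter
open scoped MatrixGroups Real Manifold
open Fermat.Agent.T4.helper21

local notation "Zbar" => integralClosure ℤ ℂ

/-- the integral coefficients of `-2ℓ G_χ`: `u` and `-2ℓ ∑_{d ∣ j} X d`. -/
def outCoeff (ℓ : ℕ) (X : ZMod ℓ → Zbar) (u : Zbar) (j : ℕ) : Zbar :=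
  if j = 0 then u else -2 * (ℓ : Zbar) * ∑ d ∈ j.divisors, X (d : ZMod ℓ)

lemma outCoeff_coe (ℓ : ℕ) (hℓ : ℓ ≠ 0) (χ : DirichletCharacter ℂ ℓ) (X : ZMod ℓ → Zbar)
    (u : Zbar) (hX : ∀ k, (X k : ℂ) = χ k)
    (hu : (u : ℂ) = ∑ k ∈ Finset.range ℓ, (k : ℂ) * χ (k : ZMod ℓ)) (j : ℕ) :
    ((outCoeff ℓ X u j : Zbar) : ℂ) = -2 * (ℓ : ℂ) * eisCoeff ℓ χ j := by
  have hℓ' : (ℓ : ℂ) ≠ 0 := Nat.cast_ne_zero.mpr hℓ
  unfold outCoeff eisCoeff
  by_cases hj : j = 0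
  · simp only [hj, if_true]
    rw [hu]
    field_simp
  · simp only [hj, if_false]
    have h2 : (((2 : Zbar)) : ℂ) = 2 := rfl
    push_cast
    simp only [hX, h2]

lemma outCoeff_mem (ℓ : ℕ) (X : ZMod ℓ → Zbar) (u : Zbar) (P : Ideal Zbar)
    (hℓP : ((ℓ : ℕ) : Zbar) ∈ P) {j : ℕ} (hj : j ≠ 0) : outCoeff ℓ X u j ∈ P := by
  unfold outCoeff
  simp only [hj, if_false]
  have : -2 * (ℓ : Zbar) * ∑ d ∈ j.divisors, X (d : ZMod ℓ) =
      (-2 * ∑ d ∈ j.divisors, X (d : ZMod ℓ)) * (ℓ : Zbar) := by ring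
  rw [this]
  exact P.mul_mem_left _ hℓP

/-- **[EIS-OUT]** the consumer corollary of block (III), from the leaves. -/
theorem out_of (hE : EisStatement) (hM : MulStatement) (hC : CongStatement)
    (hQ : QCoeffStatement) (hPr : ProdStatement) : OutStatement := by
  intro N ℓ _ hℓF h3 P hP hℓP f A hA
  have : NeZero ℓ := ⟨hℓF.out.ne_zero⟩
  have hℓ0 : ℓ ≠ 0 := hℓF.out.ne_zero
  obtain ⟨χ, X, u, hodd, hX, hXk, hu, hu1⟩ := hC ℓ h3 P hP hℓP
  obtain ⟨G, hlaw, hsum⟩ := hE ℓ χ hodd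
  obtain ⟨h0, hh0⟩ := hM N ℓ f G
  have hGq : ∀ n, ModularFormClass.qCoeff G n = eisCoeff ℓ χ n := hQ ℓ G (eisCoeff ℓ χ) hsum
  let h : CuspForm (Gamma1 (N * ℓ)) 2 := (-2 * (ℓ : ℂ)) • h0
  have hh : ∀ τ : ℍ, h τ = (-2 * (ℓ : ℂ)) * (f τ * G τ) := by
    intro τ
    show ((-2 * (ℓ : ℂ)) • h0) τ = _
    rw [smul_apply, hh0 τ, smul_eq_mul]
  let B : ℕ → Zbar := fun n =>
    ∑ p ∈ Finset.HasAntidiagonal.antidiagonal n, A p.1 * outCoeff ℓ X u p.2
  refine ⟨χ, G, h, B, hodd, ?_, hlaw, hsum, hh, ?_, ?_⟩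
  · intro k hk
    exact ⟨X (k : ZMod ℓ), hX _, hXk k hk⟩
  · intro n
    rw [hPr N ℓ f G h (-2 * (ℓ : ℂ)) hh n]
    show ((∑ p ∈ Finset.HasAntidiagonal.antidiagonal n, A p.1 * outCoeff ℓ X u p.2 : Zbar) : ℂ) = _
    push_cast
    rw [Finset.mul_sum]
    refine Finset.sum_congr rfl fun p _ => ?_
    rw [outCoeff_coe ℓ hℓ0 χ X u hX hu p.2, hA p.1, hGq p.2]
    ring
  · intro n
    show (∑ p ∈ Finset.HasAntidiagonal.antidiagonal n, A p.1 * outCoeff ℓ X u p.2) + A n ∈ P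
    have hmem : (n, 0) ∈ Finset.HasAntidiagonal.antidiagonal n := by
      simp
    rw [← Finset.add_sum_erase _ _ hmem]
    have h0 : outCoeff ℓ X u 0 = u := by simp [outCoeff]
    have e : A (n, 0).1 * outCoeff ℓ X u (n, 0).2 +
        ∑ p ∈ (Finset.HasAntidiagonal.antidiagonal n).erase (n, 0), A p.1 * outCoeff ℓ X u p.2 +
          A n =
        A n * (u + 1) +
          ∑ p ∈ (Finset.HasAntidiagonal.antidiagonal n).erase (n, 0),
            A p.1 * outCoeff ℓ X u p.2 := by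
      simp only [h0]; ring
    rw [e]
    refine P.add_mem (P.mul_mem_left _ hu1) (P.sum_mem fun p hp => ?_)
    have hp' := Finset.mem_erase.mp hp
    have hp2 : p.2 ≠ 0 := by
      intro h2
      apply hp'.1
      have hs := Finset.HasAntidiagonal.mem_antidiagonal.mp hp'.2
      ext
      · simp only; omega
      · simpa using h2
    exact P.mul_mem_left _ (outCoeff_mem ℓ X u P hℓP hp2)

end Fermat.Agent.T4.helper4
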