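import Fermat.Agent.T4.helper92_EisQCoeff

/-!
# T4 block (III), leaf [EIS-PROD] (helper92)

`prod : helper21.ProdStatement` — the Prelude `q`-coefficients of `h = c · f · G`
(`f ∈ S₁(Γ₁(N))`, `G ∈ M₁(Γ₁(ℓ))`, `h ∈ S₂(Γ₁(Nℓ))`) are `c` times the Cauchy product.
-/

set_option autoImplicit false

noncomputable section

namespace Fermat.Agent.T4.helper92

open UpperHalfPlane hiding I
open Complex CongruenceSubgroup ModularForm
open scoped MatrixGroups Real Manifold

/-- General Cauchy-product statement for `qCoeff`s: any two forms on `Γ₁(N)`, `Γ₁(M)` (any weights,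
any `ModularFormClass`), and any function `h` with `h = c · f · G` pointwise. -/
theorem qCoeff_of_eq_mul {F F' : Type*} [FunLike F ℍ ℂ] [FunLike F' ℍ ℂ] (N M : ℕ) (k k' : ℤ)
    [ModularFormClass F (Gamma1 N : Subgroup (GL (Fin 2) ℝ)) k]
    [ModularFormClass F' (Gamma1 M : Subgroup (GL (Fin 2) ℝ)) k']
    (f : F) (G : F') (h : ℍ → ℂ) (c : ℂ) (hh : ∀ τ : ℍ, h τ = c * (f τ * G τ)) (n : ℕ) :
    ModularFormClass.qCoeff h n =
      c * ∑ p ∈ Finset.HasAntidiagonal.antidiagonal n,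
        ModularFormClass.qCoeff f p.1 * ModularFormClass.qCoeff G p.2 := by
  have hf : AnalyticAt ℂ (cuspFunction 1 (f : ℍ → ℂ)) 0 :=
    ModularFormClass.analyticAt_cuspFunction_zero f one_pos (one_mem_strictPeriods_Gamma1' N)
  have hG : AnalyticAt ℂ (cuspFunction 1 (G : ℍ → ℂ)) 0 :=
    ModularFormClass.analyticAt_cuspFunction_zero G one_pos (one_mem_strictPeriods_Gamma1' M)
  have hfG : AnalyticAt ℂ (cuspFunction 1 ((f : ℍ → ℂ) * (G : ℍ → ℂ))) 0 := by
    rw [UpperHalfPlane.cuspFunction_mul hf.continuousAt hG.continuousAt]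
    exact hf.mul hG
  have hfun : h = c • ((f : ℍ → ℂ) * (G : ℍ → ℂ)) := by
    funext τ
    simp [hh τ]
  unfold ModularFormClass.qCoeff
  rw [hfun, UpperHalfPlane.qExpansion_smul hfG, UpperHalfPlane.qExpansion_mul hf hG]
  simp [PowerSeries.coeff_mul]

/-- **[EIS-PROD]** -/
theorem prod : helper21.ProdStatement := by
  intro N ℓ _ _ f G h c hh n
  exact qCoeff_of_eq_mul N ℓ 1 1 f G h c hh n

end Fermat.Agent.T4.helper92
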