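import Fermat.Agent.T4.helper21_EisFinal
import Fermat.Agent.T4.helper41_EisCong
import Fermat.Agent.T4.helper92_EisProd
import Fermat.Agent.T4.helper4_EisOut

/-!
# T4 block (III): the consumer statement `OutStatement`, UNCONDITIONAL (helper21, wiring)

`outStatement : OutStatement` — for every level `N`, every prime `ℓ ≥ 3`, every prime `P` of
`Zbar` over `ℓ` and every `f ∈ S_1(Γ_1(N))` with integral `q`-coefficients `A n` there are an odd
Dirichlet character `χ` mod `ℓ` (the inverse Teichmüller character relative to `P`), the
weight-one Eisenstein series `G = G_χ ∈ M_1(Γ_1(ℓ))` and `h = -2ℓ · f · G ∈ S_2(Γ_1(Nℓ))` with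
integral `q`-coefficients `B n` such that `B n + A n ∈ P` for all `n`.

Leaves: `eisStatement` (helper21_EisFinal), `mulStatement'` (helper93), `cong` (helper41),
`qCoeff`, `prod` (helper92), `out_of` (helper4).
-/

set_option autoImplicit false

namespace Fermat.Agent.T4.helper21

theorem congStatement : CongStatement := Fermat.Agent.T4.helper41.cong

theorem qCoeffStatement : QCoeffStatement := Fermat.Agent.T4.helper92.qCoeff

theorem prodStatement : ProdStatement := Fermat.Agent.T4.helper92.prod

/-- **Block (III) consumer statement, unconditional.** -/
theorem outStatement : OutStatement :=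
  Fermat.Agent.T4.helper4.out_of eisStatement mulStatement' congStatement qCoeffStatement
    prodStatement

end Fermat.Agent.T4.helper21
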