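import Fermat.Agent.T4.helper21_AN1Trans
import Fermat.Agent.P3.helper34_EvNorm

/-!
# T4 block (I), I-AN [NORM1-EV] (helper21): the norm dictionary for `X₁(M)`

Port of P3 `helper34_EvNorm` with TWO series (the diamond twist sits in the factor at `∞`).

* `prodH2`, `isTExp_prodH2`, `prodH2_identity` : the two-series norm product on `ℍ`;
* `isEv_normProd2_of_identity` : if `T(q^ℓ) = S₂(q^{ℓ²}) ∏_k S(ξ^k q)` in `ℂ((q))`, `f` is the
  function of `S` and `f₂` the function of `S₂`, then `w ↦ f₂ (ℓ w) ∏_j f ((w + j) / ℓ)` is the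
  function of `T`;
* `normProd_systemTq` : the norm product along `helper79.systemTq M q` is
  `w ↦ f (δ_q (q w)) ∏_j f ((w + j) / q)`;
* `EsNormC1Statement M q` : the formal norm identity over `ℂ` for `Norm_{β₁} (α₁ h)`
  (deliverable of I-ES, `es_norm1`);
* `normEv1_of : EsNormC1Statement M q → DiamondEvSymm M d_q → (functions exist) →
  NormEv1Statement M q`.
-/

set_option autoImplicit false
set_option linter.unusedSectionVars false
set_option linter.style.haveILetI false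

open Filter Topology Set UpperHalfPlane ModularCurve AlgebraicCurve
open scoped MatrixGroups Manifold
open Fermat.Agent.S24 Fermat.Agent.S24.helper17 Fermat.Agent.S24.helper37
open Fermat.Agent.P2.helper93 Fermat.Agent.S16.helper26
open Fermat.Agent.P3.helper34

noncomputable section

namespace Fermat.Agent.T4.helper21

/-! ### The two-series norm product on `ℍ` -/

section TExp

variable {ℓ : ℕ} [NeZero ℓ]

/-- The two-series norm product of functions on `ℍ`. -/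
def prodH2 (ℓ : ℕ) [NeZero ℓ] (a₂ a : ℍ → ℂ) (τ : ℍ) : ℂ :=
  a₂ (mulH ℓ τ) * ∏ k ∈ Finset.range ℓ, a (divH ℓ ((k : ℝ) +ᵥ τ))

theorem isTExp_prod_divH {A : LaurentSeries ℂ} {a : ℍ → ℂ} (h : IsQExp A a) (n : ℕ) :
    IsTExp ℓ (∏ k ∈ Finset.range n, rotL (zetaR ℓ 1 ^ k) A)
      (fun τ => ∏ k ∈ Finset.range n, a (divH ℓ ((k : ℝ) +ᵥ τ))) := by
  induction n with
  | zero =>
    simp only [Finset.range_zero, Finset.prod_empty]
    exact IsTExp.one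
  | succ n ih =>
    simp only [Finset.prod_range_succ]
    have h1 := isTExp_comp_divH_vadd (ℓ := ℓ) h (n : ℝ)
    rw [zetaR_natCast] at h1
    exact ih.mul h1

theorem isTExp_prodH2 {A₂ A : LaurentSeries ℂ} {a₂ a : ℍ → ℂ} (h₂ : IsQExp A₂ a₂)
    (h : IsQExp A a) :
    IsTExp ℓ (qExpand ℂ (ℓ * ℓ) A₂ * ∏ k ∈ Finset.range ℓ, rotL (zetaR ℓ 1 ^ k) A)
      (prodH2 ℓ a₂ a) :=
  (isTExp_comp_mulH h₂).mul (isTExp_prod_divH h ℓ)

/-- The function identity behind the norm formula, two-series form. -/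
theorem prodH2_identity {ξ : ℂ} (hξ : IsPrimitiveRoot ξ ℓ)
    {S S₂ T A B A₂ B₂ A' B' : LaurentSeries ℂ} {a b a₂ b₂ a' b' : ℍ → ℂ}
    (hA : IsQExp A a) (hB : IsQExp B b) (hA₂ : IsQExp A₂ a₂) (hB₂ : IsQExp B₂ b₂)
    (hA' : IsQExp A' a') (hB' : IsQExp B' b')
    (hS : S * B = A) (hS₂ : S₂ * B₂ = A₂) (hT : T * B' = A')
    (hST : qExpand ℂ ℓ T = qExpand ℂ (ℓ * ℓ) S₂ * ∏ k ∈ Finset.range ℓ, rotL (ξ ^ k) S) :
    a' * prodH2 ℓ b₂ b = b' * prodH2 ℓ a₂ a := by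
  have hz : zetaR ℓ 1 ≠ 0 := zetaR_ne_zero ℓ 1
  rw [prod_pow_primitiveRoot hξ (isPrimitiveRoot_zetaR_one (ℓ := ℓ)) (fun c => rotL c S)] at hST
  have h1 : IsTExp ℓ (qExpand ℂ ℓ A' *
      (qExpand ℂ (ℓ * ℓ) B₂ * ∏ k ∈ Finset.range ℓ, rotL (zetaR ℓ 1 ^ k) B))
      (a' * prodH2 ℓ b₂ b) :=
    (isTExp_of_isQExp hA' ℓ).mul (isTExp_prodH2 hB₂ hB)
  have h2 : IsTExp ℓ (qExpand ℂ ℓ B' *
      (qExpand ℂ (ℓ * ℓ) A₂ * ∏ k ∈ Finset.range ℓ, rotL (zetaR ℓ 1 ^ k) A))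
      (b' * prodH2 ℓ a₂ a) :=
    (isTExp_of_isQExp hB' ℓ).mul (isTExp_prodH2 hA₂ hA)
  have e : qExpand ℂ ℓ A' *
      (qExpand ℂ (ℓ * ℓ) B₂ * ∏ k ∈ Finset.range ℓ, rotL (zetaR ℓ 1 ^ k) B) =
      qExpand ℂ ℓ B' *
      (qExpand ℂ (ℓ * ℓ) A₂ * ∏ k ∈ Finset.range ℓ, rotL (zetaR ℓ 1 ^ k) A) := by
    have e1 : ∏ k ∈ Finset.range ℓ, rotL (zetaR ℓ 1 ^ k) A =
        (∏ k ∈ Finset.range ℓ, rotL (zetaR ℓ 1 ^ k) S) *
          ∏ k ∈ Finset.range ℓ, rotL (zetaR ℓ 1 ^ k) B := by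
      rw [← Finset.prod_mul_distrib]
      refine Finset.prod_congr rfl fun k _ => ?_
      rw [← hS, rotL_mul (pow_ne_zero k hz)]
    rw [e1, ← hT, ← hS₂, map_mul, map_mul, hST]
    ring
  rw [e] at h1
  exact h1.fun_unique h2

end TExp

/-! ### Passing to functions on `ℂ` -/

section Norm

variable {ℓ : ℕ} [NeZero ℓ]

/-- the two-function norm product on `ℂ` -/
def normProd2 (ℓ : ℕ) (f₂ f : ℂ → ℂ) (w : ℂ) : ℂ :=
  f₂ ((ℓ : ℂ) * w) * ∏ k ∈ Finset.range ℓ, f ((w + (k : ℂ)) / (ℓ : ℂ))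

theorem normProd2_comp_ofComplex (c₂ c : ℍ → ℂ) {w : ℂ} (hw : 0 < w.im) :
    normProd2 ℓ (fun v => c₂ (ofComplex v)) (fun v => c (ofComplex v)) w =
      prodH2 ℓ c₂ c (ofComplex w) := by
  rw [normProd2, prodH2, ofComplex_natCast_mul hw]
  congr 1
  refine Finset.prod_congr rfl fun k _ => ?_
  rw [ofComplex_add_div hw k]

theorem im_natCast_mul_pos {w : ℂ} (hw : 0 < w.im) : 0 < ((ℓ : ℂ) * w).im := by
  rw [Complex.mul_im]
  simp only [Complex.natCast_re, Complex.natCast_im, zero_mul, add_zero]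
  exact mul_pos (natCast_pos_real ℓ) hw

theorem im_add_div_pos {w : ℂ} (hw : 0 < w.im) (k : ℕ) : 0 < ((w + (k : ℂ)) / (ℓ : ℂ)).im := by
  rw [Complex.div_natCast_im]
  simp only [Complex.add_im, Complex.natCast_im, add_zero]
  exact div_pos hw (natCast_pos_real ℓ)

theorem tendsto_natCast_mul_nhdsNE (z : ℂ) :
    Tendsto (fun w : ℂ => (ℓ : ℂ) * w) (𝓝[≠] z) (𝓝[≠] ((ℓ : ℂ) * z)) := by
  have hℓ : (ℓ : ℂ) ≠ 0 := Nat.cast_ne_zero.mpr (NeZero.ne ℓ)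
  rw [tendsto_nhdsWithin_iff]
  refine ⟨((continuous_const.mul continuous_id).tendsto z).mono_left nhdsWithin_le_nhds, ?_⟩
  filter_upwards [self_mem_nhdsWithin] with w hw
  intro h
  exact hw (mul_left_cancel₀ hℓ h)

theorem tendsto_add_div_nhdsNE (z : ℂ) (k : ℕ) :
    Tendsto (fun w : ℂ => (w + (k : ℂ)) / (ℓ : ℂ)) (𝓝[≠] z) (𝓝[≠] ((z + (k : ℂ)) / (ℓ : ℂ))) := by
  have hℓ : (ℓ : ℂ) ≠ 0 := Nat.cast_ne_zero.mpr (NeZero.ne ℓ)
  rw [tendsto_nhdsWithin_iff]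
  refine ⟨(((continuous_id.add continuous_const).div_const _).tendsto z).mono_left
    nhdsWithin_le_nhds, ?_⟩
  filter_upwards [self_mem_nhdsWithin] with w hw
  intro h
  apply hw
  have h1 : (w + (k : ℂ)) / (ℓ : ℂ) = (z + (k : ℂ)) / (ℓ : ℂ) := h
  rw [div_left_inj' hℓ] at h1
  exact add_right_cancel h1

/-- compatibility of the two-function norm product with eventual equality -/
theorem normProd2_congr {f₂ f₂' f f' : ℂ → ℂ}
    (h₂ : ∀ z ∈ {z : ℂ | 0 < z.im}, f₂ =ᶠ[𝓝[≠] z] f₂')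
    (h : ∀ z ∈ {z : ℂ | 0 < z.im}, f =ᶠ[𝓝[≠] z] f') {z : ℂ} (hz : 0 < z.im) :
    normProd2 ℓ f₂ f =ᶠ[𝓝[≠] z] normProd2 ℓ f₂' f' := by
  have h1 : ∀ᶠ w in 𝓝[≠] z, f₂ ((ℓ : ℂ) * w) = f₂' ((ℓ : ℂ) * w) :=
    (tendsto_natCast_mul_nhdsNE (ℓ := ℓ) z).eventually (h₂ _ (im_natCast_mul_pos hz))
  have h3 : ∀ᶠ w in 𝓝[≠] z, ∀ k ∈ Finset.range ℓ,
      f ((w + (k : ℂ)) / (ℓ : ℂ)) = f' ((w + (k : ℂ)) / (ℓ : ℂ)) := by
    rw [Filter.eventually_all_finset]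
    intro k _
    exact (tendsto_add_div_nhdsNE (ℓ := ℓ) z k).eventually (h _ (im_add_div_pos hz k))
  filter_upwards [h1, h3] with w hw1 hw3
  rw [normProd2, normProd2, hw1]
  congr 1
  exact Finset.prod_congr rfl hw3

theorem normProd2_div (g₂ g₂' g g' : ℂ → ℂ) (w : ℂ) :
    normProd2 ℓ (fun v => g₂ v / g₂' v) (fun v => g v / g' v) w =
      normProd2 ℓ g₂ g w / normProd2 ℓ g₂' g' w := by
  simp only [normProd2]
  rw [Finset.prod_div_distrib, div_mul_div_comm]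

/-- a product of nonzero holomorphic functions is eventually nonzero -/
theorem eventually_normProd2_ne_zero {b₂ b : ℍ → ℂ} (hb₂ : MDiff b₂) (hb : MDiff b)
    (h₂ : b₂ ≠ 0) (h : b ≠ 0) {z : ℂ} (hz : 0 < z.im) :
    ∀ᶠ w in 𝓝[≠] z,
      normProd2 ℓ (fun v => b₂ (ofComplex v)) (fun v => b (ofComplex v)) w ≠ 0 := by
  have h1 : ∀ᶠ w in 𝓝[≠] z, b₂ (ofComplex ((ℓ : ℂ) * w)) ≠ 0 :=
    (tendsto_natCast_mul_nhdsNE (ℓ := ℓ) z).eventually
      (eventually_comp_ofComplex_ne_zero hb₂ h₂ (im_natCast_mul_pos hz))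
  have h3 : ∀ᶠ w in 𝓝[≠] z, ∀ k ∈ Finset.range ℓ,
      b (ofComplex ((w + (k : ℂ)) / (ℓ : ℂ))) ≠ 0 := by
    rw [Filter.eventually_all_finset]
    intro k _
    exact (tendsto_add_div_nhdsNE (ℓ := ℓ) z k).eventually
      (eventually_comp_ofComplex_ne_zero hb h (im_add_div_pos hz k))
  filter_upwards [h1, h3] with w hw1 hw3
  rw [normProd2]
  exact mul_ne_zero hw1 (Finset.prod_ne_zero_iff.2 hw3)

/-- **Core of the norm dictionary, two-series form**: if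
`T(q^ℓ) = S₂(q^{ℓ²}) ∏_k S(ξ^k q)` in `ℂ((q))`, `f` is the function of `S` and `f₂` the function
of `S₂`, then `w ↦ f₂ (ℓ w) ∏_k f ((w + k) / ℓ)` is the function of `T`. -/
theorem isEv_normProd2_of_identity {ξ : ℂ} (hξ : IsPrimitiveRoot ξ ℓ)
    {S S₂ T : LaurentSeries ℂ} {f f₂ g : ℂ → ℂ} (hS : IsEv S f) (hS₂ : IsEv S₂ f₂)
    (hT : IsEv T g)
    (hST : qExpand ℂ ℓ T = qExpand ℂ (ℓ * ℓ) S₂ * ∏ k ∈ Finset.range ℓ, rotL (ξ ^ k) S) :
    IsEv T (normProd2 ℓ f₂ f) := by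
  refine hT.congr fun z hz => ?_
  obtain ⟨A, B, a, b, hA, hB, hB0, hSB, hf⟩ := hS
  obtain ⟨A₂, B₂, a₂, b₂, hA₂, hB₂, hB0₂, hSB₂, hf₂⟩ := hS₂
  obtain ⟨A', B', a', b', hA', hB', hB0', hTB, hg⟩ := hT
  have hid := prodH2_identity hξ hA hB hA₂ hB₂ hA' hB' hSB hSB₂ hTB hST
  have hb0 : b ≠ 0 := fun h0 => hB0 (hB.eq_zero_iff.2 h0)
  have hb0₂ : b₂ ≠ 0 := fun h0 => hB0₂ (hB₂.eq_zero_iff.2 h0)
  have hb0' : b' ≠ 0 := fun h0 => hB0' (hB'.eq_zero_iff.2 h0)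
  have hH : ∀ᶠ w in 𝓝[≠] z, 0 < w.im :=
    mem_nhdsWithin_of_mem_nhds (UpperHalfPlane.isOpen_upperHalfPlaneSet.mem_nhds hz)
  filter_upwards [hg z hz, normProd2_congr (ℓ := ℓ) hf₂ hf hz, hH,
    eventually_comp_ofComplex_ne_zero hB'.mdiff hb0' hz,
    eventually_normProd2_ne_zero (ℓ := ℓ) hB₂.mdiff hB.mdiff hb0₂ hb0 hz] with w hw1 hw2 hwH hw3 hw4
  rw [hw1, hw2, normProd2_div, normProd2_comp_ofComplex a₂ a hwH]
  rw [normProd2_comp_ofComplex b₂ b hwH] at hw4 ⊢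
  rw [div_eq_div_iff hw3 hw4]
  have := congrFun hid (ofComplex w)
  simp only [Pi.mul_apply] at this
  rw [this]
  ring

end Norm

/-! ### The norm product along the coset system of `T_q` on `Γ₁(M)` -/

section System

open CongruenceSubgroup

variable (M : ℕ) [NeZero M]

/-- the unit `q mod M` -/
def unitQ (q : {q : Nat.Primes // ¬ (q : ℕ) ∣ M}) : (ZMod M)ˣ := helper79.primeUnit q.1.2 q.2

theorem coe_unitQ (q : {q : Nat.Primes // ¬ (q : ℕ) ∣ M}) :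
    ((unitQ M q : (ZMod M)ˣ) : ZMod M) = ((q.1 : ℕ) : ZMod M) :=
  helper79.coe_primeUnit _ _

/-- **the norm product along the coset system of `T_q`**:
`w ↦ f (δ_q (q w)) ∏_k f ((w + k) / q)`, `δ_q = diamondRep (q mod M)`. -/
theorem normProd_systemTq (q : {q : Nat.Primes // ¬ (q : ℕ) ∣ M}) (f : ℂ → ℂ) {w : ℂ}
    (hw : 0 < w.im) :
    haveI : NeZero ((q.1 : ℕ)) := ⟨q.1.2.ne_zero⟩
    normProd (helper79.systemTq M q) f w =
      normProd2 (q.1 : ℕ) (fun v => f (moebC (helper79.diamondRep (unitQ M q)) v)) f w := by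
  haveI : NeZero ((q.1 : ℕ)) := ⟨q.1.2.ne_zero⟩
  haveI : Fact ((q.1 : ℕ)).Prime := ⟨q.1.2⟩
  have hq0 : (q.1 : ℕ) ≠ 0 := q.1.2.ne_zero
  have e1 : normProd (helper79.systemTq M q) f w =
      ∏ x : Option (ZMod (q.1 : ℕ)), f (moebG ((helper79.systemTq M q).α x) w) := rfl
  rw [e1, Fintype.prod_option, normProd2]
  congr 1
  · -- the factor at `∞`
    have e2 : (helper79.systemTq M q).α none =
        Matrix.SpecialLinearGroup.mapGL ℝ (helper79.diamondRep (unitQ M q)) *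
          ModularForm.heckeDiagMatrix (q.1 : ℕ) := rfl
    rw [e2, moebG_mul (det_mapGL_pos _) (ModularForm.det_heckeDiagMatrix_pos _) hw,
      moebG_heckeDiagMatrix hq0, moebG_mapGL _ (im_natCast_mul_pos hw)]
  · -- the factors at `j`
    rw [← prod_zmod_eq_prod_range (q.1 : ℕ)
      (fun k => f ((w + (k : ℂ)) / ((q.1 : ℕ) : ℂ)))]
    refine Finset.prod_congr rfl fun j _ => ?_
    have e3 : (helper79.systemTq M q).α (some j) =
        Matrix.SpecialLinearGroup.mapGL ℝ (1 : SL(2, ℤ)) *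
          ModularForm.heckeMatrix (q.1 : ℕ) j.val := rfl
    rw [e3, map_one, one_mul, moebG_heckeMatrix hq0]

end System

/-! ### [NORM1-EV] from the formal norm identity -/

section Final

open CongruenceSubgroup

variable (M : ℕ) [NeZero M]

/-- **[ES-NORM1] over `ℂ`** (deliverable of I-ES, `es_norm1`): the formal norm identity
`N_{β₁}(α₁ h)(q^ℓ) = (⟨ℓ⟩⁻¹-twist of h)(q^{ℓ²}) ∏_k h(ξ^k q)` in `ℂ((q))`. -/
def EsNormC1Statement (q : {q : Nat.Primes // ¬ (q : ℕ) ∣ M}) : Prop :=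
  haveI : NeZero ((q.1 : ℕ)) := ⟨q.1.2.ne_zero⟩
  ∀ h : helper32.F1 M, ∃ ξ : ℂ, IsPrimitiveRoot ξ (q.1 : ℕ) ∧
    qExpand ℂ (q.1 : ℕ) (toC ((heckeKummer1 M (q.1 : ℕ) h : helper32.F1 M) :
        LaurentSeries helper32.Kbar)) =
      qExpand ℂ ((q.1 : ℕ) * (q.1 : ℕ))
          (toC (((helper32.diamondAut M (unitQ M q)).symm h : helper32.F1 M) :
            LaurentSeries helper32.Kbar)) *
        ∏ k ∈ Finset.range (q.1 : ℕ),
          rotL (ξ ^ k) (toC (h : LaurentSeries helper32.Kbar))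

/-- **[NORM1-EV]** from the formal norm identity, the analytic meaning of the diamond and the
existence of functions. -/
theorem normEv1_of (q : {q : Nat.Primes // ¬ (q : ℕ) ∣ M}) (hN : EsNormC1Statement M q)
    (hD : helper14.DiamondEvSymm M (unitQ M q))
    (hex : ∀ h : helper32.F1 M, ∃ f : ℂ → ℂ,
      IsEv (toC (h : LaurentSeries helper32.Kbar)) f) :
    NormEv1Statement M q := by
  haveI : NeZero ((q.1 : ℕ)) := ⟨q.1.2.ne_zero⟩
  intro h f hf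
  obtain ⟨g, hg⟩ := hex (heckeKummer1 M (q.1 : ℕ) h)
  obtain ⟨ξ, hξ, hST⟩ := hN h
  have hf₂ := hD h f hf
  have key := isEv_normProd2_of_identity hξ hf hf₂ hg hST
  refine key.congr fun z hz => ?_
  filter_upwards [mem_nhdsWithin_of_mem_nhds
    (UpperHalfPlane.isOpen_upperHalfPlaneSet.mem_nhds hz)] with w hw
  exact (normProd_systemTq M q f hw).symm

end Final

end Fermat.Agent.T4.helper21

end
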