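import Mathlib
import Fermat.Agent.S24.helper77_Hermite
import Fermat.Agent.S24.helper77_SymmFun

/-!
# T4 block (I), I-FLD-X1P (helper21): growth of the translates of `τ ↦ F (d τ)`

If all `SL(2, ℤ)`-translates of `F : ℍ → ℂ` are holomorphic of exponential growth at `i∞`
(`helper77.holoExp`), then so are all translates of `τ ↦ F (d τ)` (Hermite reduction,
`helper77.exists_hermite`).

* `exists_companion` : for `γ ∈ SL(2, ℤ)` with `p ∣ γ 1 0` the companion matrix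
  `γ' = [a, p b; c / p, e]` with `p (γ τ) = γ' (p τ)`;
* `precomp_comp_scaleH_mem_holoExp` : the growth statement.
-/

set_option autoImplicit false

noncomputable section

open UpperHalfPlane ModularForm ModularFormClass MatrixGroups Filter Asymptotics
open scoped Topology Manifold

namespace Fermat.Agent.T4.helper21

open Fermat.Agent.S24 Fermat.Agent.S24.helper77

/-- The companion matrix `[a, p b; c / p, e]` of `γ = [a, b; c, e]` with `p ∣ c`. -/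
theorem exists_companion (p : ℕ) [NeZero p] (γ : SL(2, ℤ)) (hc : (p : ℤ) ∣ γ 1 0) :
    ∃ γ' : SL(2, ℤ), γ' 0 0 = γ 0 0 ∧ γ' 1 1 = γ 1 1 ∧ γ' 0 1 = p * γ 0 1 ∧
      (p : ℤ) * γ' 1 0 = γ 1 0 ∧ ∀ τ : ℍ, scaleH p (γ • τ) = γ' • scaleH p τ := by
  obtain ⟨c', hc'⟩ := hc
  have hdet : γ 0 0 * γ 1 1 - γ 0 1 * γ 1 0 = 1 := by
    have := γ.det_coe
    rwa [Matrix.det_fin_two] at this
  let γ' : SL(2, ℤ) := ⟨!![γ 0 0, p * γ 0 1; c', γ 1 1], by
    rw [Matrix.det_fin_two_of]; rw [hc'] at hdet; linear_combination hdet⟩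
  have e00 : (γ' 0 0 : ℤ) = γ 0 0 := rfl
  have e01 : (γ' 0 1 : ℤ) = p * γ 0 1 := rfl
  have e10 : (γ' 1 0 : ℤ) = c' := rfl
  have e11 : (γ' 1 1 : ℤ) = γ 1 1 := rfl
  refine ⟨γ', e00, e11, e01, by rw [e10, hc'], fun τ => ?_⟩
  apply UpperHalfPlane.ext
  rw [coe_scaleH, coe_SL_smul, coe_SL_smul, coe_scaleH]
  have h1 := SL_denom_ne_zero γ τ
  have h2 := SL_denom_ne_zero γ' (scaleH p τ)
  rw [coe_scaleH] at h2
  rw [e10, e11] at h2
  rw [e00, e01, e10, e11]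
  have hc'' : ((γ 1 0 : ℤ) : ℂ) = p * c' := by rw [hc']; push_cast; ring
  rw [hc''] at h1 ⊢
  have h3 : (c' : ℂ) * (p * (τ : ℂ)) + (γ 1 1 : ℤ) = p * c' * τ + (γ 1 1 : ℤ) := by ring
  rw [h3] at h2 ⊢
  push_cast
  field_simp

/-- explicit form of an exponential bound at `i∞` -/
theorem exists_bound_of_isBigO {G : ℍ → ℂ} {M : ℕ}
    (h : G =O[atImInfty] fun τ => Real.exp (2 * Real.pi * M * τ.im)) :
    ∃ C A : ℝ, 0 ≤ C ∧ 0 ≤ A ∧
      ∀ w : ℍ, A ≤ w.im → ‖G w‖ ≤ C * Real.exp (2 * Real.pi * M * w.im) := by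
  obtain ⟨C, hC0, hC⟩ := h.exists_nonneg
  rw [IsBigOWith, Filter.Eventually, atImInfty_mem] at hC
  obtain ⟨A, hA⟩ := hC
  refine ⟨C, max A 0, hC0, le_max_right _ _, fun w hw => ?_⟩
  have := hA w ((le_max_left _ _).trans hw)
  simpa [Real.norm_of_nonneg (Real.exp_pos _).le] using this

/-- **Growth of the translates of `τ ↦ F (d τ)`**. -/
theorem precomp_comp_scaleH_mem_holoExp {F : ℍ → ℂ}
    (hF : ∀ g : SL(2, ℤ), precomp g F ∈ holoExp) (d : ℕ) [NeZero d] (g : SL(2, ℤ)) :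
    precomp g (fun τ => F (scaleH d τ)) ∈ holoExp := by
  obtain ⟨σ, α, δ, β, hα, hδ, hαδ, hW⟩ := exists_hermite d g⁻¹
  obtain ⟨hmd, Mx, hM⟩ := hF σ
  have hfun : precomp g (fun τ => F (scaleH d τ)) =
      fun τ => precomp σ F (σ • scaleH d (g⁻¹ • τ)) := by
    funext τ
    rw [precomp_apply, precomp_apply, inv_smul_smul]
  rw [hfun]
  refine ⟨hmd.comp ((mdifferentiable_SL_smul σ).comp
    ((mdifferentiable_scaleH d).comp (mdifferentiable_SL_smul g⁻¹))), Mx * d, ?_⟩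
  obtain ⟨C, A, hC, hA, hbd⟩ := exists_bound_of_isBigO hM
  have hd : (0 : ℝ) < d := by exact_mod_cast Nat.pos_of_ne_zero (NeZero.ne d)
  have hαR : (1 : ℝ) ≤ α := by exact_mod_cast hα
  have hδR : (1 : ℝ) ≤ δ := by exact_mod_cast hδ
  have hαδR : (α : ℝ) * δ = d := by exact_mod_cast hαδ
  refine IsBigO.of_bound C ?_
  rw [Filter.Eventually, atImInfty_mem]
  refine ⟨d * A, fun τ hτ => ?_⟩
  show ‖precomp σ F (σ • scaleH d (g⁻¹ • τ))‖ ≤
    C * ‖Real.exp (2 * Real.pi * ((Mx * d : ℕ) : ℝ) * τ.im)‖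
  have him : (σ • scaleH d (g⁻¹ • τ)).im = α * τ.im / δ := by
    have h1 : (σ • scaleH d (g⁻¹ • τ)).im = ((σ • scaleH d (g⁻¹ • τ) : ℍ) : ℂ).im := rfl
    rw [h1, hW τ]
    have h2 : ((α : ℂ) * τ + β) / δ =
        (((α : ℝ) : ℂ) * τ + ((β : ℝ) : ℂ)) * (((δ : ℝ)⁻¹ : ℝ) : ℂ) := by
      push_cast; rw [div_eq_mul_inv]
    rw [h2, Complex.im_mul_ofReal, Complex.add_im, Complex.ofReal_im, add_zero,
      Complex.im_ofReal_mul, div_eq_mul_inv]
    rfl
  have hτpos := τ.im_pos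
  have hlow : A ≤ (σ • scaleH d (g⁻¹ • τ)).im := by
    rw [him, le_div_iff₀ (by linarith)]
    calc A * δ ≤ A * d := by
          apply mul_le_mul_of_nonneg_left _ hA
          rw [← hαδR]; nlinarith
      _ = d * A := mul_comm _ _
      _ ≤ τ.im := hτ
      _ ≤ α * τ.im := by nlinarith
  have hup : (σ • scaleH d (g⁻¹ • τ)).im ≤ d * τ.im := by
    rw [him, div_le_iff₀ (by linarith)]
    have : (α : ℝ) ≤ d := by rw [← hαδR]; nlinarith
    nlinarith [mul_pos hd hτpos]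
  rw [Real.norm_of_nonneg (Real.exp_pos _).le]
  refine (hbd _ hlow).trans ?_
  apply mul_le_mul_of_nonneg_left _ hC
  apply Real.exp_le_exp.mpr
  have h2π : 0 < 2 * Real.pi := by positivity
  have hMx : (0 : ℝ) ≤ Mx := Nat.cast_nonneg _
  push_cast
  have h3 : 2 * Real.pi * Mx * (σ • scaleH d (g⁻¹ • τ)).im ≤ 2 * Real.pi * Mx * (d * τ.im) :=
    mul_le_mul_of_nonneg_left hup (by positivity)
  linarith

end Fermat.Agent.T4.helper21

end
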