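import Fermat.Agent.T4.helper24_X1Sys
import Fermat.Agent.T4.helper21_X1pGrowth

/-!
# T4 block (I), I-FLD-X1P (helper21): the LEVEL FIELD `F1p M p` as a generator system

The function field of the curve of triples `(E, P, C)` (`helper32.F1Qp M p`, generated by
`j(q^d)`, `d ∣ M p`, the `s_a(q)` and the `s_a(q^p)`) is the field of a generator system in the
sense of `helper24.GenData`, with `Γ = ±Γ₁(M) ∩ Γ₀(p)`.  Hence all the generic boxes of I-FLD
(G-DEG, G-CUSP, G-ANDICT) apply to the level field.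

* `PG1p M p` : the group `±Γ₁(M) ∩ Γ₀(p)`;
* `x1pData M p : helper24.GenData`;
* `x1pField : helper32.F1Qp M p = (x1pData M p).fieldQ`;
* `x1pSys_of : helper24.X1Inputs M → p.Prime → ¬ p ∣ M → (x1pData M p).IsSys`.
-/

set_option autoImplicit false
set_option linter.unusedSectionVars false
set_option linter.style.haveILetI false

noncomputable section

open UpperHalfPlane ModularCurve IntermediateField CongruenceSubgroup
open scoped MatrixGroups

namespace Fermat.Agent.T4.helper21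

open Fermat.Agent.S24 Fermat.Agent.T4.helper32 Fermat.Agent.T4.helper24

/-! ### The group -/

/-- `±Γ₁(M) ∩ Γ₀(p)` -/
def PG1p (M p : ℕ) : Subgroup SL(2, ℤ) := PG1 M ⊓ Gamma0 p

theorem mem_PG1p_iff (M p : ℕ) (g : SL(2, ℤ)) : g ∈ PG1p M p ↔ g ∈ PG1 M ∧ g ∈ Gamma0 p :=
  Iff.rfl

theorem dvd_of_mem_Gamma0 {N : ℕ} {g : SL(2, ℤ)} (hg : g ∈ Gamma0 N) : (N : ℤ) ∣ g 1 0 := by
  rw [Gamma0_mem] at hg
  exact (ZMod.intCast_zmod_eq_zero_iff_dvd _ _).mp hg

theorem mem_Gamma0_of_dvd {N : ℕ} {g : SL(2, ℤ)} (hg : (N : ℤ) ∣ g 1 0) : g ∈ Gamma0 N := by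
  rw [Gamma0_mem]
  exact (ZMod.intCast_zmod_eq_zero_iff_dvd _ _).mpr hg

theorem Gamma0_le_of_dvd {N N' : ℕ} (h : N ∣ N') : Gamma0 N' ≤ Gamma0 N := fun _ hg =>
  mem_Gamma0_of_dvd ((Int.natCast_dvd_natCast.mpr h).trans (dvd_of_mem_Gamma0 hg))

theorem mem_Gamma0_mul {M p : ℕ} (hMp : Nat.Coprime M p) {g : SL(2, ℤ)} (hM : g ∈ Gamma0 M)
    (hp : g ∈ Gamma0 p) : g ∈ Gamma0 (M * p) := by
  apply mem_Gamma0_of_dvd
  have h := IsCoprime.mul_dvd (Nat.isCoprime_iff_coprime.mpr hMp) (dvd_of_mem_Gamma0 hM)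
    (dvd_of_mem_Gamma0 hp)
  exact_mod_cast h

theorem PG1p_le_Gamma0 {M p : ℕ} (hMp : Nat.Coprime M p) : PG1p M p ≤ Gamma0 (M * p) :=
  fun _ hg => mem_Gamma0_mul hMp (PG1_le_Gamma0 M hg.1) hg.2

theorem Gamma_le_of_dvd {N N' : ℕ} (h : N ∣ N') : Gamma N' ≤ Gamma N := by
  intro g hg
  rw [Gamma_mem] at hg ⊢
  have key : ∀ x : ℤ, ∀ c : ℤ, ((x : ℤ) : ZMod N') = (c : ZMod N') →
      ((x : ℤ) : ZMod N) = (c : ZMod N) := by
    intro x c hx
    have h1 : ((x - c : ℤ) : ZMod N') = 0 := by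
      push_cast
      rw [hx, sub_self]
    have h2 : (N' : ℤ) ∣ x - c := (ZMod.intCast_zmod_eq_zero_iff_dvd _ _).mp h1
    have h3 : (N : ℤ) ∣ x - c := (Int.natCast_dvd_natCast.mpr h).trans h2
    have h4 : ((x - c : ℤ) : ZMod N) = 0 := (ZMod.intCast_zmod_eq_zero_iff_dvd _ _).mpr h3
    push_cast at h4
    exact sub_eq_zero.mp h4
  refine ⟨?_, ?_, ?_, ?_⟩
  · simpa using key _ 1 (by simpa using hg.1)
  · simpa using key _ 0 (by simpa using hg.2.1)
  · simpa using key _ 0 (by simpa using hg.2.2.1)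
  · simpa using key _ 1 (by simpa using hg.2.2.2)

theorem Gamma_le_Gamma0' (N : ℕ) : Gamma N ≤ Gamma0 N := by
  intro g hg
  rw [Gamma_mem] at hg
  rw [Gamma0_mem]
  exact hg.2.2.1

theorem Gamma_le_PG1p (M p : ℕ) : Gamma (M * p) ≤ PG1p M p := fun _ hg =>
  ⟨Gamma_le_PG1 M (Gamma_le_of_dvd (dvd_mul_right M p) hg),
    Gamma0_le_of_dvd (dvd_mul_left p M) (Gamma_le_Gamma0' _ hg)⟩

/-! ### The generator system -/

/-- the analytic function `τ ↦ s_a(p τ)` -/
def sFnP (M p : ℕ) [NeZero p] (a : ZMod M) (τ : ℍ) : ℂ := sFn M a (scaleH p τ)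

/-- the index type of the generators of `F1Qp M p` -/
abbrev Idx1p (M p : ℕ) : Type :=
  {d : ℕ // d ∈ (M * p).divisors} ⊕ ({a : ZMod M // a ≠ 0} ⊕ {a : ZMod M // a ≠ 0})

/-- **the generator system of the level field** -/
def x1pData (M p : ℕ) [NeZero M] [NeZero p] : GenData where
  I := Idx1p M p
  instFintype := inferInstance
  instDecEq := inferInstance
  Γ := PG1p M p
  serQ := Sum.elim (fun d => JdTQ d.1)
    (Sum.elim (fun a => sSer ℚ M a.1) (fun a => qExpand ℚ p (sSer ℚ M a.1)))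
  fn := Sum.elim (fun d => jfunDT d.1)
    (Sum.elim (fun a => sFn M a.1) (fun a => sFnP M p a.1))
  j0 := Sum.inl ⟨1, Nat.mem_divisors.mpr
    ⟨one_dvd _, Nat.mul_ne_zero (NeZero.ne M) (NeZero.ne p)⟩⟩

variable (M p : ℕ) [NeZero M] [NeZero p]

/-- **[X1P-FIELD]** `F1Qp M p` is the field generated by the generators of `x1pData M p`. -/
theorem x1pField : F1Qp M p = (x1pData M p).fieldQ := by
  show F1Qp M p = IntermediateField.adjoin ℚ (Set.range (x1pData M p).serQ)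
  unfold F1Qp
  congr 1
  ext x
  have hMp : M * p ≠ 0 := Nat.mul_ne_zero (NeZero.ne M) (NeZero.ne p)
  constructor
  · rintro ((⟨d, hne, hd, rfl⟩ | ⟨a, ha, rfl⟩) | ⟨y, ⟨a, ha, rfl⟩, rfl⟩)
    · haveI := hne
      refine ⟨Sum.inl ⟨d, Nat.mem_divisors.mpr ⟨hd, hMp⟩⟩, ?_⟩
      show JdTQ d = _
      rw [JdTQ, dif_neg (NeZero.ne d)]
    · exact ⟨Sum.inr (Sum.inl ⟨a, ha⟩), rfl⟩
    · exact ⟨Sum.inr (Sum.inr ⟨a, ha⟩), rfl⟩
  · rintro ⟨(d | a | a), rfl⟩
    · left
      left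
      have hd0 : d.1 ≠ 0 := fun h => by
        have := (Nat.mem_divisors.1 d.2).1
        rw [h] at this
        exact hMp (Nat.eq_zero_of_zero_dvd this)
      refine ⟨d.1, ⟨hd0⟩, (Nat.mem_divisors.1 d.2).1, ?_⟩
      show JdTQ d.1 = _
      rw [JdTQ, dif_neg hd0]
    · left
      right
      exact ⟨a.1, a.2, rfl⟩
    · right
      exact ⟨sSer ℚ M a.1, ⟨a.1, a.2, rfl⟩, rfl⟩

/-- the level field over a `ℚ`-algebra `K` -/
theorem x1pField_baseChange (K : Type*) [Field K] [Algebra ℚ K] :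
    laurentBaseChange K (F1Qp M p) = (x1pData M p).field K := by
  unfold GenData.field
  rw [x1pField]

theorem divisor_ne_zero (d : {d : ℕ // d ∈ (M * p).divisors}) : d.1 ≠ 0 := fun h => by
  have := (Nat.mem_divisors.1 d.2).1
  rw [h] at this
  exact Nat.mul_ne_zero (NeZero.ne M) (NeZero.ne p) (Nat.eq_zero_of_zero_dvd this)

/-- invariance of `s_a(p τ)` under `Γ₁(M) ∩ Γ₀(p)` -/
theorem sFnP_smul_of_mem (h : X1Inputs M) (hMp : Nat.Coprime M p) (a : ZMod M) (ha : a ≠ 0)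
    {γ : SL(2, ℤ)} (hγ : γ ∈ Gamma1 M) (hγp : γ ∈ Gamma0 p) (τ : ℍ) :
    sFnP M p a (γ • τ) = sFnP M p a τ := by
  obtain ⟨γ', e00, e11, -, e10, hγ'⟩ := exists_companion p γ (dvd_of_mem_Gamma0 hγp)
  have hγ1 := (Gamma1_mem M γ).mp hγ
  have hmem : γ' ∈ Gamma1 M := by
    rw [Gamma1_mem]
    refine ⟨by rw [e00]; exact hγ1.1, by rw [e11]; exact hγ1.2.1, ?_⟩
    have h1 : ((p : ZMod M)) * ((γ' 1 0 : ℤ) : ZMod M) = 0 := by
      have := congrArg (fun x : ℤ => (x : ZMod M)) e10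
      simp only [Int.cast_mul, Int.cast_natCast] at this
      rw [this]
      exact hγ1.2.2
    have hu : IsUnit (p : ZMod M) := (ZMod.isUnit_iff_coprime p M).mpr hMp.symm
    exact (hu.mul_right_eq_zero).mp h1
  show sFn M a (scaleH p (γ • τ)) = sFn M a (scaleH p τ)
  rw [hγ']
  exact h.inv a ha γ' hmem _

/-- **[X1P-SYS]** the generator system of the level field, from the analytic inputs on the
functions `s_a`. -/
theorem x1pSys_of (h : X1Inputs M) (hMp : Nat.Coprime M p) : (x1pData M p).IsSys where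
  serQ_j0 := by
    show JdTQ 1 = jq
    rw [JdTQ, dif_neg one_ne_zero]
    exact qExpand_one_apply jq
  fn_j0 := by
    funext τ
    exact helper77.jfunDT_one τ
  isQExp := by
    rintro (d | a | a)
    · show helper17.IsQExp (coeffEmb ℂ (JdTQ d.1)) (jfunDT d.1)
      rw [coeffEmb_JdTQ]
      exact helper17.isQExp_jfunDT d.1
    · exact h.qexp a.1 a.2
    · show helper17.IsQExp (coeffEmb ℂ (qExpand ℚ p (sSer ℚ M a.1))) (sFnP M p a.1)
      rw [coeffEmb_qExpand]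
      exact (h.qexp a.1 a.2).comp_scale p
  inv := by
    rintro (d | a | a) γ hγ τ
    · show jfunDT d.1 (γ • τ) = jfunDT d.1 τ
      haveI : NeZero d.1 := ⟨divisor_ne_zero M p d⟩
      rw [helper77.jfunDT_of_ne_zero]
      exact helper77.jfunD_smul_of_mem_Gamma0 (Nat.mem_divisors.1 d.2).1
        (PG1p_le_Gamma0 hMp hγ) τ
    · show sFn M a.1 (γ • τ) = sFn M a.1 τ
      rcases (mem_PG1_iff M γ).1 hγ.1 with hγ' | hγ'
      · exact h.inv a.1 a.2 γ hγ' τ
      · have e : (-γ) • τ = γ • τ := ModularGroup.SL_neg_smul γ τ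
        rw [← e]
        exact h.inv a.1 a.2 (-γ) hγ' τ
    · show sFnP M p a.1 (γ • τ) = sFnP M p a.1 τ
      rcases (mem_PG1_iff M γ).1 hγ.1 with hγ' | hγ'
      · exact sFnP_smul_of_mem M p h hMp a.1 a.2 hγ' hγ.2 τ
      · have e : (-γ) • τ = γ • τ := ModularGroup.SL_neg_smul γ τ
        rw [← e]
        refine sFnP_smul_of_mem M p h hMp a.1 a.2 hγ' ?_ τ
        have := Subgroup.mul_mem _ (neg_one_mem_Gamma0 p) hγ.2
        rwa [neg_one_mul] at this
  stab := by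
    intro g hg
    haveI : NeZero (M * p) := ⟨Nat.mul_ne_zero (NeZero.ne M) (NeZero.ne p)⟩
    have hMpd : M * p ∈ (M * p).divisors :=
      Nat.mem_divisors.mpr ⟨dvd_rfl, NeZero.ne (M * p)⟩
    have h0 : g ∈ Gamma0 (M * p) := by
      have key := helper24.inv_mul_mem_Gamma0_of_jfunDg_eq (M * p) g⁻¹ 1 (fun τ => by
        have := hg (Sum.inl ⟨M * p, hMpd⟩) τ
        simp only [jfunDg, inv_inv, inv_one, one_smul]
        have e : jfunDT (M * p) = jfunD (M * p) := helper77.jfunDT_of_ne_zero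
        have h1 : jfunDT (M * p) (g • τ) = jfunDT (M * p) τ := this
        rw [e] at h1
        exact h1)
      simpa using key
    exact ⟨h.full g (Gamma0_le_of_dvd (dvd_mul_right M p) h0)
      fun a ha τ => hg (Sum.inr (Sum.inl ⟨a, ha⟩)) τ, Gamma0_le_of_dvd (dvd_mul_left p M) h0⟩
  level := ⟨M * p, Nat.pos_of_ne_zero (Nat.mul_ne_zero (NeZero.ne M) (NeZero.ne p)),
    Gamma_le_PG1p M p⟩
  growth := by
    rintro g (d | a | a)
    · exact helper77.precomp_jfam_mem_holoExp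
        (fun i : {d : ℕ // d ∈ (M * p).divisors} => i.1) (divisor_ne_zero M p) g d
    · exact h.growth g a.1 a.2
    · exact precomp_comp_scaleH_mem_holoExp (fun g' => h.growth g' a.1 a.2) p g

end Fermat.Agent.T4.helper21

end
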