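import Fermat.Agent.T4.helper21_X1pData
import Fermat.Agent.S24.helper37_IndexGamma0

/-!
# T4 block (I), I-FLD-X1P (helper21): the index of `±Γ₁(M) ∩ Γ₀(p)`

* `relIndex_eq_index_of_forall` : `K.relIndex H = K.index` if `H K = G`;
* `exists_Gamma1_mul_mem_Gamma0` : `Γ₁(M) Γ₀(p) = SL(2, ℤ)` for `p` prime to `M`;
* `index_PG1p` : `[SL(2, ℤ) : ±Γ₁(M) ∩ Γ₀(p)] = (p + 1) [SL(2, ℤ) : ±Γ₁(M)]`;
* `card_X_x1pData` : the same for the coset spaces of the generator systems.
-/

set_option autoImplicit false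
set_option linter.unusedSectionVars false
set_option linter.style.haveILetI false

noncomputable section

open UpperHalfPlane ModularCurve IntermediateField CongruenceSubgroup
open scoped MatrixGroups

namespace Fermat.Agent.T4.helper21

open Fermat.Agent.S24 Fermat.Agent.T4.helper32 Fermat.Agent.T4.helper24

/-- `K.relIndex H = K.index` if every coset of `K` meets `H`. -/
theorem relIndex_eq_index_of_forall {G : Type*} [Group G] (H K : Subgroup G)
    (h : ∀ g : G, ∃ x ∈ H, x⁻¹ * g ∈ K) : K.relIndex H = K.index := by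
  rw [Subgroup.relIndex, Subgroup.index, Subgroup.index]
  let φ : H ⧸ K.subgroupOf H → G ⧸ K :=
    Quotient.map' (fun x : H => (x : G)) (fun a b hab => by
      rw [QuotientGroup.leftRel_apply] at hab ⊢
      exact hab)
  have hinj : Function.Injective φ := by
    intro a b
    induction a using Quotient.inductionOn' with | _ a => ?_
    induction b using Quotient.inductionOn' with | _ b => ?_
    intro hab
    have h1 : (QuotientGroup.mk (a : G) : G ⧸ K) = QuotientGroup.mk (b : G) := hab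
    rw [QuotientGroup.eq] at h1
    exact Quotient.sound' (by
      rw [QuotientGroup.leftRel_apply]
      exact h1)
  have hsurj : Function.Surjective φ := by
    intro y
    induction y using Quotient.inductionOn' with | _ g => ?_
    obtain ⟨x, hx, hxg⟩ := h g
    refine ⟨QuotientGroup.mk ⟨x, hx⟩, ?_⟩
    show (QuotientGroup.mk (x : G) : G ⧸ K) = QuotientGroup.mk g
    rw [QuotientGroup.eq]
    exact hxg
  exact Nat.card_congr (Equiv.ofBijective φ ⟨hinj, hsurj⟩)

/-- `Γ₁(M) Γ₀(p) = SL(2, ℤ)` for a prime `p ∤ M`. -/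
theorem exists_Gamma1_mul_mem_Gamma0 (M : ℕ) {p : ℕ} (hp : p.Prime) (hpM : ¬ p ∣ M)
    (g : SL(2, ℤ)) : ∃ x ∈ Gamma1 M, x⁻¹ * g ∈ Gamma0 p := by
  have hcop : IsCoprime (p : ℤ) (M : ℤ) :=
    Nat.isCoprime_iff_coprime.mpr ((Nat.Prime.coprime_iff_not_dvd hp).mpr hpM)
  have hpZ : Prime (p : ℤ) := Nat.prime_iff_prime_int.mp hp
  have hdet : g 0 0 * g 1 1 - g 0 1 * g 1 0 = 1 := by
    have := g.det_coe
    rwa [Matrix.det_fin_two] at this
  have hentry : ∀ x : SL(2, ℤ), (x⁻¹ * g) 1 0 = -(x 1 0) * g 0 0 + x 0 0 * g 1 0 := by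
    intro x
    rw [Matrix.SpecialLinearGroup.coe_mul, Matrix.SpecialLinearGroup.coe_inv,
      Matrix.adjugate_fin_two, Matrix.mul_apply, Fin.sum_univ_two]
    simp
  by_cases ha : (p : ℤ) ∣ g 0 0
  · -- `p ∣ a`: take `x = [1 - M v, -v; M, 1]` with `p u + M v = 1`
    obtain ⟨u, v, huv⟩ := hcop
    let x : SL(2, ℤ) := ⟨!![1 - M * v, -v; M, 1], by
      rw [Matrix.det_fin_two_of]; ring⟩
    have e00 : (x 0 0 : ℤ) = 1 - M * v := rfl
    have e10 : (x 1 0 : ℤ) = M := rfl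
    have e11 : (x 1 1 : ℤ) = 1 := rfl
    refine ⟨x, ?_, ?_⟩
    · rw [Gamma1_mem, e00, e10, e11]
      refine ⟨?_, ?_, ?_⟩
      · push_cast
        simp
      · simp
      · simp
    · apply mem_Gamma0_of_dvd
      rw [hentry, e00, e10]
      obtain ⟨a', ha'⟩ := ha
      refine ⟨-(M : ℤ) * a' + u * g 1 0, ?_⟩
      rw [ha']
      linear_combination (-(g 1 0)) * huv
  · -- `p ∤ a`: take `x = [1, 0; M t, 1]` with `M t a ≡ c mod p`
    have hcop2 : IsCoprime (p : ℤ) ((M : ℤ) * g 0 0) :=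
      IsCoprime.mul_right hcop ((Prime.coprime_iff_not_dvd hpZ).mpr ha)
    obtain ⟨u, v, huv⟩ := hcop2
    -- `u p + v (M a) = 1`, so `t = v c`
    let x : SL(2, ℤ) := ⟨!![1, 0; M * (v * g 1 0), 1], by
      rw [Matrix.det_fin_two_of]; ring⟩
    have e00 : (x 0 0 : ℤ) = 1 := rfl
    have e10 : (x 1 0 : ℤ) = M * (v * g 1 0) := rfl
    have e11 : (x 1 1 : ℤ) = 1 := rfl
    refine ⟨x, ?_, ?_⟩
    · rw [Gamma1_mem, e00, e10, e11]
      refine ⟨?_, ?_, ?_⟩
      · simp
      · simp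
      · push_cast
        simp
    · apply mem_Gamma0_of_dvd
      rw [hentry, e00, e10]
      refine ⟨u * g 1 0, ?_⟩
      linear_combination (-(g 1 0)) * huv

/-- `[±Γ₁(M) : ±Γ₁(M) ∩ Γ₀(p)] = [SL(2, ℤ) : Γ₀(p)]`. -/
theorem relIndex_Gamma0_PG1 (M : ℕ) {p : ℕ} (hp : p.Prime) (hpM : ¬ p ∣ M) :
    (Gamma0 p).relIndex (PG1 M) = (Gamma0 p).index :=
  relIndex_eq_index_of_forall _ _ fun g => by
    obtain ⟨x, hx, hxg⟩ := exists_Gamma1_mul_mem_Gamma0 M hp hpM g
    exact ⟨x, Gamma1_le_PG1 M hx, hxg⟩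

theorem dedekindPsi_prime {p : ℕ} (hp : p.Prime) : dedekindPsi p = p + 1 := by
  have h := helper37.dedekindPsi_mul_prime_of_not_dvd hp one_ne_zero
    (fun h => hp.one_lt.ne' (Nat.dvd_one.mp h))
  rw [one_mul, dedekindPsi_one, mul_one] at h
  exact h

/-- **the index of `±Γ₁(M) ∩ Γ₀(p)`** -/
theorem index_PG1p (M : ℕ) {p : ℕ} (hp : p.Prime) (hpM : ¬ p ∣ M) :
    (PG1p M p).index = (p + 1) * (PG1 M).index := by
  have h1 : (PG1p M p).relIndex (PG1 M) * (PG1 M).index = (PG1p M p).index :=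
    Subgroup.relIndex_mul_index inf_le_left
  have h2 : (PG1p M p).relIndex (PG1 M) = (Gamma0 p).relIndex (PG1 M) :=
    Subgroup.inf_relIndex_left (PG1 M) (Gamma0 p)
  rw [← h1, h2, relIndex_Gamma0_PG1 M hp hpM, helper37.index_Gamma0 p hp.ne_zero,
    dedekindPsi_prime hp]

/-- **the number of cosets of the level field** -/
theorem card_X_x1pData (M : ℕ) [NeZero M] {p : ℕ} [NeZero p] (hp : p.Prime) (hpM : ¬ p ∣ M) :
    Nat.card (x1pData M p).X = (p + 1) * Nat.card (x1Data M).X :=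
  index_PG1p M hp hpM

end Fermat.Agent.T4.helper21

end
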