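import Mathlib
import Fermat.Agent.T4.helper4_IgusaDefs

/-!
# T4 block (I), [IGUSA1] route A, leaf [IG-MEM-J] (helper24, parallel prover)

`memJ : zetaC M ∈ S → MemJStatement M S` - the functions `j(d τ)`, `d ∣ M`, are `S`-integral
modular functions of level `Γ(M)` (elements of `helper32.Conj1.BS (Gamma M) M S`), for every
subring `S ⊆ ℂ` containing `ζ_M`.  Wiring of `S28.helper63.jfunD_translate`.

Also `jD M S hζ d hd : BS (Gamma M) M S` (the element), `coe_jD`, and `trB_jD_of_mem`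
(invariance under `Γ₀(d)`).
-/

set_option autoImplicit false
set_option linter.unusedSectionVars false
set_option linter.style.haveILetI false

noncomputable section

namespace Fermat.Agent.T4.helper24

open UpperHalfPlane CongruenceSubgroup
open Fermat.Agent.S28 Fermat.Agent.S24
open Fermat.Agent.T4.helper32.Conj1 Fermat.Agent.T4.helper4.Ig
open scoped MatrixGroups

variable (M : ℕ) [NeZero M] (S : Subring ℂ)

/-- `j(d τ) ∈ GA (Γ(M)) M` for `d ∣ M` -/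
theorem jfunD_mem_GA (d : ℕ) [NeZero d] (hd : d ∣ M) : jfunD d ∈ GA (Gamma M) M :=
  GAlg_le (Gamma M) M (fun γ hγ => by
      rw [Gamma_mem] at hγ
      rw [Gamma0_mem]
      exact hγ.2.2.1)
    (Fermat.Agent.S28.jfunD_mem M d hd)

/-- `j(d τ)` as an element of `GA (Γ(M)) M` -/
def jDA (d : ℕ) [NeZero d] (hd : d ∣ M) : GA (Gamma M) M := ⟨jfunD d, jfunD_mem_GA M d hd⟩

theorem jDA_mem_BS (hζ : zetaC M ∈ S) (d : ℕ) [NeZero d] (hd : d ∣ M) :
    jDA M d hd ∈ BS (Gamma M) M S := by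
  rw [mem_BS_iff]
  intro γ n
  obtain ⟨-, s, hs, hmem⟩ := helper63.jfunD_translate M d hd γ
  have h : EA (Gamma M) M γ (jDA M d hd) = s := EA_eq (Gamma M) M γ (jDA M d hd) hs
  rw [h]
  exact hmem S hζ n

/-- `j(d τ)` as an element of `BS (Γ(M)) M S` -/
def jD (hζ : zetaC M ∈ S) (d : ℕ) [NeZero d] (hd : d ∣ M) : BS (Gamma M) M S :=
  ⟨jDA M d hd, jDA_mem_BS M S hζ d hd⟩

theorem coe_jD (hζ : zetaC M ∈ S) (d : ℕ) [NeZero d] (hd : d ∣ M) :
    (((jD M S hζ d hd : BS (Gamma M) M S) : GA (Gamma M) M) : ℍ → ℂ) = jfunD d := rfl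

theorem coe_jD_eq_jfunDT (hζ : zetaC M ∈ S) (d : ℕ) [NeZero d] (hd : d ∣ M) :
    (((jD M S hζ d hd : BS (Gamma M) M S) : GA (Gamma M) M) : ℍ → ℂ) = jfunDT d := by
  rw [coe_jD]
  funext τ
  simp [jfunDT, NeZero.ne d]

/-- `j(d τ)` is fixed by `Γ₀(M)` -/
theorem trB_jD_of_mem (hζ : zetaC M ∈ S) (d : ℕ) [NeZero d] (hd : d ∣ M) {γ : SL(2, ℤ)}
    (hγ : γ ∈ Gamma0 M) : trB (Gamma M) M S γ (jD M S hζ d hd) = jD M S hζ d hd := by
  apply Subtype.ext
  apply Subtype.ext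
  funext τ
  show jfunD d (γ • τ) = jfunD d τ
  exact Fermat.Agent.S24.helper24.jfunD_smul_of_mem_Gamma0 M d hd γ hγ τ

/-- the expansions of `j(d τ)` -/
theorem exists_EA_jD (hζ : zetaC M ∈ S) (d : ℕ) [NeZero d] (hd : d ∣ M) (γ : SL(2, ℤ)) :
    ∃ (a D : ℕ) (b : ℤ), 0 < a ∧ 0 < D ∧ a * D = d ∧ a = Nat.gcd d (γ 1 0).natAbs ∧
      EA (Gamma M) M γ (jD M S hζ d hd : GA (Gamma M) M) =
        Fermat.Agent.S28.affL (Fermat.Agent.S23.helper74.xi D b) (M / D * a)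
          (ModularCurve.jqModC ℂ) := by
  obtain ⟨a, D, b, ha, hD, haD, hgcd, h⟩ := helper63.hasExp_jfunD_smul M d hd γ
  exact ⟨a, D, b, ha, hD, haD, hgcd, EA_eq (Gamma M) M γ _ h⟩

/-- **[IG-MEM-J]** -/
theorem memJ (hζ : zetaC M ∈ S) : MemJStatement M S := by
  intro d hd
  haveI : NeZero d := ⟨fun h => NeZero.ne M (by rw [h] at hd; exact Nat.eq_zero_of_zero_dvd hd)⟩
  exact ⟨jD M S hζ d hd, coe_jD_eq_jfunDT M S hζ d hd⟩

end Fermat.Agent.T4.helper24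

end
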