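import Mathlib
import Fermat.Agent.S23.helper87_GaloisDescent

/-!
# T4 block (V): extension of embeddings of algebraic fields to automorphisms of `ℂ` (helper25)

* `exists_ringEquiv_extending_algClosure` : every automorphism of the algebraic closure of `ℚ`
  in `ℂ` extends to a ring automorphism of `ℂ`;
* `exists_ringEquiv_of_embeddings` : for two embeddings `ι`, `τ` of a field `K` into `ℂ` and a
  set `S ⊆ K` of elements with algebraic image there is a ring automorphism `σ` of `ℂ` with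
  `σ (ι s) = τ s` for all `s ∈ S`.
-/

set_option autoImplicit false

namespace Fermat.Agent.T4.helper25

/-- Every automorphism of the algebraic closure of `ℚ` in `ℂ` extends to `ℂ`. -/
theorem exists_ringEquiv_extending_algClosure
    (f : algebraicClosure ℚ ℂ ≃ₐ[ℚ] algebraicClosure ℚ ℂ) :
    ∃ σ : ℂ ≃+* ℂ, ∀ x : algebraicClosure ℚ ℂ, σ (x : ℂ) = (f x : ℂ) := by
  obtain ⟨ι, v, hv⟩ := exists_isTranscendenceBasis' (algebraicClosure ℚ ℂ) ℂ
  obtain ⟨σ, hσ⟩ := Fermat.Agent.S23.helper87.exists_ringEquiv_extending v hv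
    (MvPolynomial.mapEquiv ι f.toRingEquiv)
  refine ⟨σ, fun x => ?_⟩
  have h := hσ (MvPolynomial.C x)
  simp only [MvPolynomial.mapEquiv_apply, MvPolynomial.map_C, MvPolynomial.aeval_C] at h
  exact h

/-- Two embeddings of a field into `ℂ` differ, on any set of elements with algebraic image,
by a ring automorphism of `ℂ`. -/
theorem exists_ringEquiv_of_embeddings {K : Type*} [Field K] (ι τ : K →+* ℂ) (S : Set K)
    (hS : ∀ s ∈ S, IsAlgebraic ℚ (ι s)) :
    ∃ σ : ℂ ≃+* ℂ, ∀ s ∈ S, σ (ι s) = τ s := by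
  classical
  have hchar : CharZero K := RingHom.charZero ι
  let ιA : K →ₐ[ℚ] ℂ := ι.toRatAlgHom
  let τA : K →ₐ[ℚ] ℂ := τ.toRatAlgHom
  have hιA : ∀ x : K, ιA x = ι x := fun _ => rfl
  have hτA : ∀ x : K, τA x = τ x := fun _ => rfl
  have halg : Algebra.IsAlgebraic ℚ (IntermediateField.adjoin ℚ S) :=
    IntermediateField.isAlgebraic_adjoin (fun s hs =>
      (isAlgebraic_iff_isIntegral.1 ((isAlgebraic_algHom_iff ιA ιA.injective).1 (hS s hs))))
  have hmem : ∀ (g : K →ₐ[ℚ] ℂ) (x : IntermediateField.adjoin ℚ S),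
      g (x : K) ∈ algebraicClosure ℚ ℂ := by
    intro g x
    rw [mem_algebraicClosure_iff]
    have hx : IsAlgebraic ℚ (x : K) :=
      (isAlgebraic_algHom_iff (IntermediateField.adjoin ℚ S).val
        (IntermediateField.adjoin ℚ S).val.injective).2 (halg.isAlgebraic x)
    exact hx.algHom g
  let ι₀ : IntermediateField.adjoin ℚ S →ₐ[ℚ] algebraicClosure ℚ ℂ :=
    (ιA.comp (IntermediateField.adjoin ℚ S).val).codRestrict
      (algebraicClosure ℚ ℂ).toSubalgebra (hmem ιA)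
  let τ₀ : IntermediateField.adjoin ℚ S →ₐ[ℚ] algebraicClosure ℚ ℂ :=
    (τA.comp (IntermediateField.adjoin ℚ S).val).codRestrict
      (algebraicClosure ℚ ℂ).toSubalgebra (hmem τA)
  have hι₀ : ∀ x : IntermediateField.adjoin ℚ S, ((ι₀ x : algebraicClosure ℚ ℂ) : ℂ) = ι x :=
    fun _ => rfl
  have hτ₀ : ∀ x : IntermediateField.adjoin ℚ S, ((τ₀ x : algebraicClosure ℚ ℂ) : ℂ) = τ x :=
    fun _ => rfl
  let _ : Algebra (IntermediateField.adjoin ℚ S) (algebraicClosure ℚ ℂ) := ι₀.toRingHom.toAlgebra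
  have htower : IsScalarTower ℚ (IntermediateField.adjoin ℚ S) (algebraicClosure ℚ ℂ) :=
    IsScalarTower.of_algebraMap_eq (fun q => (ι₀.commutes q).symm)
  have hcl : IsAlgClosure ℚ (algebraicClosure ℚ ℂ) := algebraicClosure.isAlgClosure ℚ ℂ
  have hnormal : Normal ℚ (algebraicClosure ℚ ℂ) := IsAlgClosure.normal ℚ _
  let f₀ : algebraicClosure ℚ ℂ →ₐ[ℚ] algebraicClosure ℚ ℂ :=
    τ₀.liftNormal (algebraicClosure ℚ ℂ)
  have hf₀ : ∀ x : IntermediateField.adjoin ℚ S, f₀ (ι₀ x) = τ₀ x := fun x =>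
    τ₀.liftNormal_commutes (algebraicClosure ℚ ℂ) x
  have halgE : Algebra.IsAlgebraic ℚ (algebraicClosure ℚ ℂ) := hcl.isAlgebraic
  let f : algebraicClosure ℚ ℂ ≃ₐ[ℚ] algebraicClosure ℚ ℂ :=
    AlgEquiv.ofBijective f₀ (Algebra.IsAlgebraic.algHom_bijective f₀)
  obtain ⟨σ, hσ⟩ := exists_ringEquiv_extending_algClosure f
  refine ⟨σ, fun s hs => ?_⟩
  have h1 := hσ (ι₀ ⟨s, IntermediateField.subset_adjoin ℚ S hs⟩)
  rw [hι₀] at h1
  rw [h1]
  have h2 : f (ι₀ ⟨s, IntermediateField.subset_adjoin ℚ S hs⟩) =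
      τ₀ ⟨s, IntermediateField.subset_adjoin ℚ S hs⟩ := hf₀ _
  rw [h2, hτ₀]

end Fermat.Agent.T4.helper25
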