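import Mathlib
import Fermat.Agent.T4.helper80_EndgameDefs
import Fermat.Agent.T4.helper39_Rankin

/-!
# T4 (IV) [IV-RANKIN] (helper59, row 989): `rankinForm : helper80.RankinFormStatement`

Bridge from `helper39.rankin_bound` (finite sums over sets of primes not dividing `N`) to the
`tsum` / indicator shape `helper80.RankinBound` consumed by the Deligne-Serre endgame.

* `rankinBound_of_finset` : the abstract bridge (any sequence `b`);
* `rankinForm` : `helper80.RankinFormStatement` (verbatim).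
-/

set_option autoImplicit false

open CongruenceSubgroup

namespace Fermat.Agent.T4.helper59

open Fermat.Agent.T4.helper80

theorem rankinTerm_nonneg (N : ℕ) (b : ℕ → ℂ) (s : ℝ) (p : ℕ) : 0 ≤ rankinTerm N b s p := by
  unfold rankinTerm
  refine Set.indicator_nonneg (fun q _ => ?_) p
  positivity

theorem rankinTerm_of_mem (N : ℕ) (b : ℕ → ℂ) (s : ℝ) {p : ℕ} (hp : p.Prime ∧ ¬ p ∣ N) :
    rankinTerm N b s p = ‖b p‖ ^ 2 / (p : ℝ) ^ s := by
  unfold rankinTerm
  rw [Set.indicator_of_mem (show p ∈ {p : ℕ | p.Prime ∧ ¬ p ∣ N} from hp),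
    Real.rpow_neg (Nat.cast_nonneg p), div_eq_mul_inv]

theorem rankinTerm_of_not_mem (N : ℕ) (b : ℕ → ℂ) (s : ℝ) {p : ℕ}
    (hp : ¬ (p.Prime ∧ ¬ p ∣ N)) : rankinTerm N b s p = 0 := by
  unfold rankinTerm
  exact Set.indicator_of_notMem (show p ∉ {p : ℕ | p.Prime ∧ ¬ p ∣ N} from hp) _

/-- finite sums of Rankin terms are sums over finite sets of primes not dividing `N`. -/
theorem sum_rankinTerm_eq (N : ℕ) (b : ℕ → ℂ) (s : ℝ) (T : Finset ℕ) :
    ∑ p ∈ T, rankinTerm N b s p =
      ∑ p ∈ T.filter (fun p => p.Prime ∧ ¬ p ∣ N), ‖b p‖ ^ 2 / (p : ℝ) ^ s := by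
  classical
  rw [Finset.sum_filter]
  refine Finset.sum_congr rfl fun p _ => ?_
  by_cases hp : p.Prime ∧ ¬ p ∣ N
  · rw [if_pos hp, rankinTerm_of_mem N b s hp]
  · rw [if_neg hp, rankinTerm_of_not_mem N b s hp]

/-- **Bridge**: a uniform bound for all finite sums over primes not dividing `N`
gives `helper80.RankinBound`. -/
theorem rankinBound_of_finset (N : ℕ) (b : ℕ → ℂ)
    (h : ∃ C : ℝ, ∀ s : ℝ, 1 < s → s ≤ 2 → ∀ P : Finset ℕ, (∀ p ∈ P, p.Prime ∧ ¬ p ∣ N) →
      ∑ p ∈ P, ‖b p‖ ^ 2 / (p : ℝ) ^ s ≤ Real.log (1 / (s - 1)) + C) :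
    RankinBound N b := by
  classical
  obtain ⟨C, hC⟩ := h
  refine ⟨C, fun s hs hs2 => ?_⟩
  have hfin : ∀ T : Finset ℕ, ∑ p ∈ T, rankinTerm N b s p ≤ Real.log (1 / (s - 1)) + C := by
    intro T
    rw [sum_rankinTerm_eq]
    exact hC s hs hs2.le _ fun p hp => (Finset.mem_filter.mp hp).2
  have hsum : Summable (rankinTerm N b s) :=
    summable_of_sum_le (rankinTerm_nonneg N b s) hfin
  exact ⟨hsum, hsum.tsum_le_of_sum_le hfin⟩

/-- **[IV-RANKIN]** the Rankin bound for a weight one form with the Hecke relations of the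
frozen statement S48, in the shape of the endgame interface. -/
theorem rankinForm : RankinFormStatement := by
  intro N hN ε f hf₁ hT
  have : NeZero N := hN
  exact rankinBound_of_finset N _ (Fermat.Agent.T4.helper39.rankin_bound N ε f hf₁ hT)

end Fermat.Agent.T4.helper59
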