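import Mathlib
import Fermat.Agent.T4.helper25_ConjExt
import Fermat.Agent.T4.helper32_ResDefs
import Fermat.Agent.T4.helper89_ConjDefs
import Fermat.Agent.T4.helper78_VAlgS48
import Fermat.Agent.T4.helper79_Neben
import Fermat.Agent.T4.helper59_RankinForm

/-!
# T4 block (V): wiring of the conjugate forms (helper25, row 1052)

* `conj_of : helper89.ConjHomStatement → helper89.SpanStatement → helper32.ConjStatement`
  (nebentypus from `helper79.neben_SL`, algebraicity of the eigenvalues from
  `helper78.s48_integrality`, extension of embeddings to automorphisms of `ℂ`);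
* `rankin_of : helper32.ConjStatement → helper89.SpanStatement →` (hypotheses of the frozen
  statement S48) `→ helper80.RankinStatement N (qCoeff f)` (number field of
  `helper78.s48_integrality`, Rankin bound `helper59.rankinForm` for every conjugate).
-/

set_option autoImplicit false

open CongruenceSubgroup UpperHalfPlane
open scoped MatrixGroups ModularForm

namespace Fermat.Agent.T4.helper25

open Fermat.Agent.T4

/-- The form of the frozen statement S48 has nebentypus `ε`, in the shape of `helper89`. -/
theorem hasNeben_of_hT (N : ℕ) [NeZero N] (ε : DirichletCharacter ℂ N)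
    (f : CuspForm (Gamma1 N) 1)
    (hT : helper32.InPacket N ε (fun p => ModularFormClass.qCoeff f p) f) :
    helper89.HasNeben N 1 ε ⇑f :=
  fun γ hγ => helper79.neben_SL N ε f hT γ hγ

/-- **[V-CONJ]**, wiring: conjugate eigen-systems are eigen-systems of weight-one forms. -/
theorem conj_of (hC : helper89.ConjHomStatement) (hSp : helper89.SpanStatement) :
    helper32.ConjStatement := by
  intro N hN ε f hf₁ hP K _ ι α e hα he τ
  have hneb : helper89.HasNeben N 1 ε ⇑f := hasNeben_of_hT N ε f hP
  have hfg := hSp N ε f hneb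
  obtain ⟨hint, -, -⟩ := helper78.s48_integrality N ε f hf₁ hP hfg
  -- the automorphism
  obtain ⟨σ, hσ⟩ := exists_ringEquiv_of_embeddings ι τ
    ({x : K | ∃ p : ℕ, p.Prime ∧ ¬ p ∣ N ∧ x = α p} ∪ Set.range e) (by
      rintro s (⟨p, hp, hpN, rfl⟩ | ⟨a, rfl⟩)
      · rw [hα p hp hpN]
        exact (IsIntegral.tower_top (A := ℚ)
          (hint p hp.pos ((Nat.Prime.coprime_iff_not_dvd hp).2 hpN))).isAlgebraic
      · rw [he a]
        exact (IsIntegral.tower_top (A := ℚ) (helper78.isIntegral_dirichlet ε a)).isAlgebraic)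
  obtain ⟨g, -, hgq⟩ := hC N ε f hneb (σ : ℂ →+* ℂ)
  have hσα : ∀ p : ℕ, p.Prime → ¬ p ∣ N → σ (ModularFormClass.qCoeff f p) = τ (α p) := by
    intro p hp hpN
    rw [← hα p hp hpN]
    exact hσ _ (Or.inl ⟨p, hp, hpN, rfl⟩)
  have hσe : ∀ a : ZMod N, σ (ε a) = τ (e a) := by
    intro a
    rw [← he a]
    exact hσ _ (Or.inr ⟨a, rfl⟩)
  refine ⟨ε.ringHomComp (σ : ℂ →+* ℂ), g, fun a => ?_, ?_, fun p hp hpN => ?_, ?_⟩
  · rw [MulChar.ringHomComp_apply]
    exact hσe a
  · rw [hgq 1]
    show σ (ModularFormClass.qCoeff f 1) = 1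
    rw [hf₁, map_one]
  · rw [hgq p]
    exact hσα p hp hpN
  · intro p hp hpN n
    have h := congrArg σ (hP p hp hpN n)
    simp only [hgq, MulChar.ringHomComp_apply]
    show σ (ModularFormClass.qCoeff f (p * n)) +
        σ (ε (p : ZMod N)) * (if p ∣ n then σ (ModularFormClass.qCoeff f (n / p)) else 0) =
      σ (ModularFormClass.qCoeff f p) * σ (ModularFormClass.qCoeff f n)
    rw [map_add, map_mul, map_mul] at h
    rw [← h]
    split_ifs <;> simp

/-- The Rankin bound only depends on the values at the primes not dividing `N`. -/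
theorem rankinBound_congr (N : ℕ) (b b' : ℕ → ℂ)
    (h : ∀ p : ℕ, p.Prime → ¬ p ∣ N → b p = b' p) (hb : helper80.RankinBound N b) :
    helper80.RankinBound N b' := by
  have heq : ∀ s : ℝ, helper80.rankinTerm N b s = helper80.rankinTerm N b' s := by
    intro s
    funext p
    unfold helper80.rankinTerm
    by_cases hp : p ∈ {p : ℕ | p.Prime ∧ ¬ p ∣ N}
    · rw [Set.indicator_of_mem hp, Set.indicator_of_mem hp, h p hp.1 hp.2]
    · rw [Set.indicator_of_notMem hp, Set.indicator_of_notMem hp]
  obtain ⟨C, hC⟩ := hb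
  refine ⟨C, fun s hs hs2 => ?_⟩
  rw [← heq s]
  exact hC s hs hs2

/-- **Rankin for all conjugates**: the input `RankinStatement` of the endgame from the
conjugate forms. -/
theorem rankin_of (hConj : helper32.ConjStatement) (hSp : helper89.SpanStatement)
    (N : ℕ) [NeZero N] (ε : DirichletCharacter ℂ N) (f : CuspForm (Gamma1 N) 1)
    (hf₁ : ModularFormClass.qCoeff f 1 = 1)
    (hT : ∀ p : ℕ, p.Prime → ¬ p ∣ N → ∀ n : ℕ,
        ModularFormClass.qCoeff f (p * n) +
            ε (p : ZMod N) * (if p ∣ n then ModularFormClass.qCoeff f (n / p) else 0) =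
          ModularFormClass.qCoeff f p * ModularFormClass.qCoeff f n) :
    helper80.RankinStatement N (fun p : ℕ => ModularFormClass.qCoeff f p) := by
  classical
  have hneb : helper89.HasNeben N 1 ε ⇑f := hasNeben_of_hT N ε f hT
  have hfg := hSp N ε f hneb
  obtain ⟨hint, -, hfd⟩ := helper78.s48_integrality N ε f hf₁ hT hfg
  have hnf : NumberField (IntermediateField.adjoin ℚ
      (helper78.heckeGens N (ModularFormClass.qCoeff f) (Set.range ε))) :=
    { to_charZero := inferInstance, to_finiteDimensional := hfd }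
  have hmemα : ∀ p : ℕ, p.Prime → ¬ p ∣ N → ModularFormClass.qCoeff f p ∈
      IntermediateField.adjoin ℚ
        (helper78.heckeGens N (ModularFormClass.qCoeff f) (Set.range ε)) :=
    fun p hp hpN => IntermediateField.subset_adjoin ℚ _ (Or.inr ⟨p, hp, hpN, rfl⟩)
  have hmemε : ∀ a : ZMod N, ε a ∈ IntermediateField.adjoin ℚ
      (helper78.heckeGens N (ModularFormClass.qCoeff f) (Set.range ε)) :=
    fun a => IntermediateField.subset_adjoin ℚ _ (Or.inl ⟨a, rfl⟩)
  -- the eigenvalues as elements of the field
  let α' : ℕ → IntermediateField.adjoin ℚ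
      (helper78.heckeGens N (ModularFormClass.qCoeff f) (Set.range ε)) := fun p =>
    if h : p.Prime ∧ ¬ p ∣ N then ⟨ModularFormClass.qCoeff f p, hmemα p h.1 h.2⟩ else 0
  have hα'val : ∀ p : ℕ, p.Prime → ¬ p ∣ N → ((α' p : IntermediateField.adjoin ℚ
      (helper78.heckeGens N (ModularFormClass.qCoeff f) (Set.range ε))) : ℂ) =
      ModularFormClass.qCoeff f p := by
    intro p hp hpN
    have h1 : α' p = ⟨ModularFormClass.qCoeff f p, hmemα p hp hpN⟩ := dif_pos ⟨hp, hpN⟩
    rw [h1]
  have hα'int : ∀ p : ℕ, IsIntegral ℤ (α' p) := by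
    intro p
    by_cases h : p.Prime ∧ ¬ p ∣ N
    · have h1 : IsIntegral ℤ (algebraMap (IntermediateField.adjoin ℚ
          (helper78.heckeGens N (ModularFormClass.qCoeff f) (Set.range ε))) ℂ (α' p)) := by
        have h2 := hα'val p h.1 h.2
        have h3 : algebraMap (IntermediateField.adjoin ℚ
          (helper78.heckeGens N (ModularFormClass.qCoeff f) (Set.range ε))) ℂ (α' p) =
            ModularFormClass.qCoeff f p := h2
        rw [h3]
        exact hint p h.1.pos ((Nat.Prime.coprime_iff_not_dvd h.1).2 h.2)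
      exact (isIntegral_algebraMap_iff (algebraMap (IntermediateField.adjoin ℚ
          (helper78.heckeGens N (ModularFormClass.qCoeff f) (Set.range ε))) ℂ).injective).1 h1
    · have : α' p = 0 := dif_neg h
      rw [this]
      exact isIntegral_zero
  refine ⟨IntermediateField.adjoin ℚ
      (helper78.heckeGens N (ModularFormClass.qCoeff f) (Set.range ε)), inferInstance, hnf,
    algebraMap _ ℂ,
    fun p => IsIntegralClosure.mk' (NumberField.RingOfIntegers _) (α' p) (hα'int p), ?_, ?_⟩
  · intro p hp hpN
    have h1 : ((IsIntegralClosure.mk' (NumberField.RingOfIntegers (IntermediateField.adjoin ℚ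
        (helper78.heckeGens N (ModularFormClass.qCoeff f) (Set.range ε)))) (α' p) (hα'int p) :
        NumberField.RingOfIntegers _) : IntermediateField.adjoin ℚ
        (helper78.heckeGens N (ModularFormClass.qCoeff f) (Set.range ε))) = α' p :=
      IsIntegralClosure.algebraMap_mk' _ _ _
    rw [h1]
    exact hα'val p hp hpN
  · intro τ
    obtain ⟨ε', f', -, hf'₁, hf'α, hf'P⟩ := hConj N inferInstance ε f hf₁ hT
      (IntermediateField.adjoin ℚ
        (helper78.heckeGens N (ModularFormClass.qCoeff f) (Set.range ε))) inferInstance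
      (algebraMap _ ℂ) α' (fun a => ⟨ε a, hmemε a⟩) (fun p hp hpN => hα'val p hp hpN)
      (fun a => rfl) τ
    have hR : helper80.RankinBound N (fun p : ℕ => ModularFormClass.qCoeff f' p) :=
      helper59.rankinForm N inferInstance ε' f' hf'₁ hf'P
    refine rankinBound_congr N _ _ (fun p hp hpN => ?_) hR
    have h1 : ((IsIntegralClosure.mk' (NumberField.RingOfIntegers (IntermediateField.adjoin ℚ
        (helper78.heckeGens N (ModularFormClass.qCoeff f) (Set.range ε)))) (α' p) (hα'int p) :
        NumberField.RingOfIntegers _) : IntermediateField.adjoin ℚ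
        (helper78.heckeGens N (ModularFormClass.qCoeff f) (Set.range ε))) = α' p :=
      IsIntegralClosure.algebraMap_mk' _ _ _
    show ModularFormClass.qCoeff f' p = τ _
    rw [h1]
    exact hf'α p hp hpN

end Fermat.Agent.T4.helper25
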