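import Mathlib

/-!
# T4 block (IV), leaf [IV-INDEP]: algebraic preliminaries (helper25)

Mathlib only.

* `exists_bound_of_isIntegral` : a nonzero algebraic integer lies in the maximal ideal of a
  valuation subring of `ℂ` only for finitely many residue characteristics;
* `exists_bound_finset` : the same for a finite set of algebraic integers;
* `eq_of_sub_mem_nonunits`, `mem_of_frequently_sub_mem_nonunits` : the two consequences used in
  the independence-of-`l` argument;
* `trace_mem_sumsY`, `det_mem_rootsD` : trace and determinant of a `2 × 2` complex matrix of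
  finite order;
* `trace_pow_eq_of_trace_det_eq` : equal trace and determinant pass to powers;
* `eq_one_of_pow_eq_one_of_trace_det` : a matrix of finite order with trace `2` and
  determinant `1` is the identity.
-/

set_option autoImplicit false

namespace Fermat.Agent.T4.helper25

open Polynomial

/-! ## Valuation subrings of `ℂ` and algebraic integers -/

/-- Algebraic integers lie in every valuation subring. -/
theorem mem_of_isIntegral (V : ValuationSubring ℂ) {x : ℂ} (hx : IsIntegral ℤ x) : x ∈ V := by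
  have h1 : IsIntegral V x := hx.tower_top
  obtain ⟨y, hy⟩ := (IsIntegrallyClosed.isIntegral_iff (R := V) (K := ℂ)).1 h1
  rw [← hy]
  exact y.2

theorem mul_mem_nonunits (V : ValuationSubring ℂ) {x y : ℂ} (hx : x ∈ V.nonunits)
    (hy : y ∈ V) : x * y ∈ V.nonunits := by
  rw [ValuationSubring.mem_nonunits_iff] at hx ⊢
  rw [map_mul]
  have hy' : V.valuation y ≤ 1 := (V.valuation_le_one_iff y).2 hy
  calc V.valuation x * V.valuation y ≤ V.valuation x * 1 := by gcongr
    _ = V.valuation x := mul_one _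
    _ < 1 := hx

theorem add_mem_nonunits (V : ValuationSubring ℂ) {x y : ℂ} (hx : x ∈ V.nonunits)
    (hy : y ∈ V.nonunits) : x + y ∈ V.nonunits := by
  rw [ValuationSubring.mem_nonunits_iff] at hx hy ⊢
  exact lt_of_le_of_lt (V.valuation.map_add x y) (max_lt hx hy)

theorem neg_mem_nonunits (V : ValuationSubring ℂ) {x : ℂ} (hx : x ∈ V.nonunits) :
    -x ∈ V.nonunits := by
  rw [ValuationSubring.mem_nonunits_iff] at hx ⊢
  rwa [Valuation.map_neg]

theorem one_not_mem_nonunits (V : ValuationSubring ℂ) : (1 : ℂ) ∉ V.nonunits := by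
  rw [ValuationSubring.mem_nonunits_iff, map_one]
  exact lt_irrefl _

theorem zero_mem_nonunits (V : ValuationSubring ℂ) : (0 : ℂ) ∈ V.nonunits := by
  rw [ValuationSubring.mem_nonunits_iff, map_zero]
  exact zero_lt_one

theorem mem_of_mem_nonunits (V : ValuationSubring ℂ) {x : ℂ} (hx : x ∈ V.nonunits) : x ∈ V := by
  rw [ValuationSubring.mem_nonunits_iff] at hx
  exact (V.valuation_le_one_iff x).1 hx.le

/-- The value of an integer polynomial at an element of `V` lies in `V`. -/
theorem aeval_mem (V : ValuationSubring ℂ) {x : ℂ} (hx : x ∈ V) (q : ℤ[X]) :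
    aeval x q ∈ V := by
  induction q using Polynomial.induction_on' with
  | add p q hp hq => rw [map_add]; exact add_mem hp hq
  | monomial n c =>
    rw [aeval_monomial]
    exact mul_mem (by simp) (pow_mem hx n)

/-- A nonzero algebraic integer divides a nonzero integer in the ring of algebraic integers
(in the form needed below). -/
theorem exists_int_eq_mul {x : ℂ} (hx : IsIntegral ℤ x) (h0 : x ≠ 0) :
    ∃ (c : ℤ) (q : ℤ[X]), c ≠ 0 ∧ (c : ℂ) = x * aeval x q := by
  obtain ⟨p, hpm, hp⟩ := hx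
  have hp0 : p ≠ 0 := hpm.ne_zero
  have hp' : aeval x p = 0 := by
    rw [← hp]; rfl
  -- induction on the degree
  suffices H : ∀ n : ℕ, ∀ p : ℤ[X], p.natDegree ≤ n → p ≠ 0 → aeval x p = 0 →
      ∃ (c : ℤ) (q : ℤ[X]), c ≠ 0 ∧ (c : ℂ) = x * aeval x q from
    H p.natDegree p le_rfl hp0 hp'
  intro n
  induction n with
  | zero =>
    intro p hdeg hp0 hp
    exfalso
    rw [Nat.le_zero, natDegree_eq_zero] at hdeg
    obtain ⟨c, rfl⟩ := hdeg
    rw [aeval_C] at hp
    have hc : c = 0 := by simpa using hp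
    exact hp0 (by rw [hc, map_zero])
  | succ n ih =>
    intro p hdeg hp0 hp
    by_cases hc : p.coeff 0 = 0
    · -- `p = X * divX p`
      have hpX : p = divX p * X := by
        have := divX_mul_X_add p
        rw [hc, map_zero, add_zero] at this
        exact this.symm
      have hd0 : divX p ≠ 0 := by
        intro h
        rw [h, zero_mul] at hpX
        exact hp0 hpX
      have hd : aeval x (divX p) = 0 := by
        rw [hpX, map_mul, aeval_X] at hp
        exact (mul_eq_zero.1 hp).resolve_right h0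
      refine ih (divX p) ?_ hd0 hd
      rw [natDegree_divX_eq_natDegree_tsub_one]
      omega
    · refine ⟨p.coeff 0, -divX p, hc, ?_⟩
      have h1 := congrArg (aeval x) (divX_mul_X_add p)
      rw [hp, map_add, map_mul, aeval_X, aeval_C] at h1
      rw [map_neg, mul_neg]
      have h2 : ((algebraMap ℤ ℂ) (p.coeff 0)) = ((p.coeff 0 : ℤ) : ℂ) := rfl
      rw [h2] at h1
      linear_combination h1

/-- **(L1)** A nonzero algebraic integer lies in the maximal ideal of a valuation subring of `ℂ`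
only for finitely many residue characteristics. -/
theorem exists_bound_of_isIntegral {x : ℂ} (hx : IsIntegral ℤ x) (h0 : x ≠ 0) :
    ∃ c : ℕ, ∀ l : ℕ, l.Prime → ∀ V : ValuationSubring ℂ, (l : ℂ) ∈ V.nonunits →
      x ∈ V.nonunits → l ≤ c := by
  obtain ⟨c, q, hc0, hcq⟩ := exists_int_eq_mul hx h0
  refine ⟨c.natAbs, fun l hl V hlV hxV => ?_⟩
  have hcV : (c : ℂ) ∈ V.nonunits := by
    rw [hcq]
    exact mul_mem_nonunits V hxV (aeval_mem V (mem_of_mem_nonunits V hxV) q)
  have hdvd : (l : ℤ) ∣ c := by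
    by_contra hnd
    have hcop : IsCoprime (l : ℤ) c :=
      (Nat.prime_iff_prime_int.1 hl).coprime_iff_not_dvd.2 hnd
    obtain ⟨u, v, huv⟩ := hcop
    have h1 : (u : ℂ) * (l : ℂ) + (v : ℂ) * (c : ℂ) = 1 := by
      have := congrArg (fun z : ℤ => (z : ℂ)) huv
      simpa using this
    have h2 : (u : ℂ) * (l : ℂ) + (v : ℂ) * (c : ℂ) ∈ V.nonunits := by
      refine add_mem_nonunits V ?_ ?_
      · rw [mul_comm]; exact mul_mem_nonunits V hlV (intCast_mem V u)
      · rw [mul_comm]; exact mul_mem_nonunits V hcV (intCast_mem V v)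
    rw [h1] at h2
    exact one_not_mem_nonunits V h2
  have h3 : l ∣ c.natAbs := Int.natCast_dvd.1 hdvd
  exact Nat.le_of_dvd (Int.natAbs_pos.2 hc0) h3

/-- **(L2)** The finite-set version of `exists_bound_of_isIntegral`. -/
theorem exists_bound_finset (Z : Finset ℂ) (hZ : ∀ z ∈ Z, IsIntegral ℤ z) :
    ∃ c : ℕ, ∀ z ∈ Z, z ≠ 0 → ∀ l : ℕ, l.Prime → ∀ V : ValuationSubring ℂ,
      (l : ℂ) ∈ V.nonunits → z ∈ V.nonunits → l ≤ c := by
  classical
  induction Z using Finset.induction_on with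
  | empty => exact ⟨0, fun z hz => absurd hz (Finset.notMem_empty z)⟩
  | insert w Z hw ih =>
    obtain ⟨c, hc⟩ := ih (fun z hz => hZ z (Finset.mem_insert_of_mem hz))
    by_cases hw0 : w = 0
    · refine ⟨c, fun z hz hz0 => ?_⟩
      rcases Finset.mem_insert.1 hz with rfl | hz'
      · exact absurd hw0 hz0
      · exact hc z hz' hz0
    · obtain ⟨c', hc'⟩ := exists_bound_of_isIntegral (hZ w (Finset.mem_insert_self w Z)) hw0
      refine ⟨max c c', fun z hz hz0 l hl V hlV hzV => ?_⟩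
      rcases Finset.mem_insert.1 hz with rfl | hz'
      · exact le_trans (hc' l hl V hlV hzV) (le_max_right _ _)
      · exact le_trans (hc z hz' hz0 l hl V hlV hzV) (le_max_left _ _)

/-- For a finite set `S` of algebraic integers and all large residue characteristics, two
elements of `S` congruent modulo the maximal ideal are equal. -/
theorem exists_bound_eq_of_sub_mem (S : Finset ℂ) (hS : ∀ s ∈ S, IsIntegral ℤ s) :
    ∃ c : ℕ, ∀ l : ℕ, l.Prime → c < l → ∀ V : ValuationSubring ℂ, (l : ℂ) ∈ V.nonunits →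
      ∀ s ∈ S, ∀ x ∈ S, s - x ∈ V.nonunits → s = x := by
  classical
  obtain ⟨c, hc⟩ := exists_bound_finset ((S ×ˢ S).image (fun z : ℂ × ℂ => z.1 - z.2)) (by
    intro z hz
    obtain ⟨⟨u, v⟩, huv, rfl⟩ := Finset.mem_image.1 hz
    rw [Finset.mem_product] at huv
    exact (hS u huv.1).sub (hS v huv.2))
  refine ⟨c, fun l hl hcl V hlV s hs x hx hsx => ?_⟩
  by_contra hne
  have hmem : s - x ∈ (S ×ˢ S).image (fun z : ℂ × ℂ => z.1 - z.2) :=
    Finset.mem_image.2 ⟨(s, x), Finset.mem_product.2 ⟨hs, hx⟩, rfl⟩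
  have := hc (s - x) hmem (sub_ne_zero.2 hne) l hl V hlV hsx
  omega

/-- If an algebraic integer `x` is congruent to elements of a finite set `S` of algebraic
integers for arbitrarily large residue characteristics, then `x ∈ S`. -/
theorem mem_of_frequently_sub_mem (S : Finset ℂ) (hS : ∀ s ∈ S, IsIntegral ℤ s) {x : ℂ}
    (hx : IsIntegral ℤ x)
    (h : ∀ B : ℕ, ∃ l : ℕ, B ≤ l ∧ l.Prime ∧ ∃ V : ValuationSubring ℂ, (l : ℂ) ∈ V.nonunits ∧
      ∃ s ∈ S, s - x ∈ V.nonunits) : x ∈ S := by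
  classical
  obtain ⟨c, hc⟩ := exists_bound_finset (S.image (fun s : ℂ => s - x)) (by
    intro z hz
    obtain ⟨s, hs, rfl⟩ := Finset.mem_image.1 hz
    exact (hS s hs).sub hx)
  obtain ⟨l, hBl, hl, V, hlV, s, hs, hsx⟩ := h (c + 1)
  by_contra hxS
  have hne : s - x ≠ 0 := by
    intro h0
    rw [sub_eq_zero] at h0
    exact hxS (h0 ▸ hs)
  have := hc (s - x) (Finset.mem_image.2 ⟨s, hs, rfl⟩) hne l hl V hlV hsx
  omega

/-! ## Roots of unity -/

/-- The `m`-th roots of unity in `ℂ`. -/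
noncomputable def rootsD (m : ℕ) : Finset ℂ := nthRootsFinset m (1 : ℂ)

/-- The sums of two `m`-th roots of unity in `ℂ`. -/
noncomputable def sumsY (m : ℕ) : Finset ℂ :=
  ((rootsD m) ×ˢ (rootsD m)).image (fun z : ℂ × ℂ => z.1 + z.2)

theorem mem_rootsD {m : ℕ} (hm : 0 < m) {z : ℂ} : z ∈ rootsD m ↔ z ^ m = 1 :=
  mem_nthRootsFinset hm 1

theorem mem_sumsY {m : ℕ} (hm : 0 < m) {z : ℂ} :
    z ∈ sumsY m ↔ ∃ u v : ℂ, u ^ m = 1 ∧ v ^ m = 1 ∧ z = u + v := by
  classical
  unfold sumsY
  rw [Finset.mem_image]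
  constructor
  · rintro ⟨⟨u, v⟩, huv, rfl⟩
    rw [Finset.mem_product] at huv
    exact ⟨u, v, (mem_rootsD hm).1 huv.1, (mem_rootsD hm).1 huv.2, rfl⟩
  · rintro ⟨u, v, hu, hv, rfl⟩
    exact ⟨(u, v), Finset.mem_product.2 ⟨(mem_rootsD hm).2 hu, (mem_rootsD hm).2 hv⟩, rfl⟩

theorem isIntegral_of_pow_eq_one {m : ℕ} (hm : 0 < m) {z : ℂ} (hz : z ^ m = 1) :
    IsIntegral ℤ z :=
  IsIntegral.of_pow hm (by rw [hz]; exact isIntegral_one)

theorem isIntegral_of_mem_rootsD {m : ℕ} (hm : 0 < m) {z : ℂ} (hz : z ∈ rootsD m) :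
    IsIntegral ℤ z :=
  isIntegral_of_pow_eq_one hm ((mem_rootsD hm).1 hz)

theorem isIntegral_of_mem_sumsY {m : ℕ} (hm : 0 < m) {z : ℂ} (hz : z ∈ sumsY m) :
    IsIntegral ℤ z := by
  obtain ⟨u, v, hu, hv, rfl⟩ := (mem_sumsY hm).1 hz
  exact (isIntegral_of_pow_eq_one hm hu).add (isIntegral_of_pow_eq_one hm hv)

/-! ## `2 × 2` matrices -/

section Matrix

variable {R : Type*} [CommRing R]

/-- Cayley-Hamilton for `2 × 2` matrices. -/
theorem sq_eq_trace_det (M : Matrix (Fin 2) (Fin 2) R) :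
    M ^ 2 = M.trace • M - M.det • (1 : Matrix (Fin 2) (Fin 2) R) := by
  ext i j
  fin_cases i <;> fin_cases j <;>
    simp [pow_two, Matrix.mul_apply, Fin.sum_univ_two, Matrix.trace_fin_two,
      Matrix.det_fin_two] <;> ring

theorem pow_add_two_eq (M : Matrix (Fin 2) (Fin 2) R) (j : ℕ) :
    M ^ (j + 2) = M.trace • M ^ (j + 1) - M.det • M ^ j := by
  rw [pow_add, sq_eq_trace_det, mul_sub, Matrix.mul_smul, Matrix.mul_smul, mul_one, ← pow_succ]

/-- Equal trace and determinant pass to powers. -/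
theorem trace_pow_eq_of_trace_det_eq (M₁ M₂ : Matrix (Fin 2) (Fin 2) R)
    (ht : M₁.trace = M₂.trace) (hd : M₁.det = M₂.det) (j : ℕ) :
    (M₁ ^ j).trace = (M₂ ^ j).trace := by
  suffices H : (M₁ ^ j).trace = (M₂ ^ j).trace ∧ (M₁ ^ (j + 1)).trace = (M₂ ^ (j + 1)).trace from
    H.1
  induction j with
  | zero => exact ⟨by simp, by simpa using ht⟩
  | succ j ih =>
    refine ⟨ih.2, ?_⟩
    rw [pow_add_two_eq, pow_add_two_eq, Matrix.trace_sub, Matrix.trace_sub, Matrix.trace_smul,
      Matrix.trace_smul, Matrix.trace_smul, Matrix.trace_smul, ih.1, ih.2, ht, hd]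

theorem det_pow_eq_of_det_eq (M₁ M₂ : Matrix (Fin 2) (Fin 2) R)
    (hd : M₁.det = M₂.det) (j : ℕ) : (M₁ ^ j).det = (M₂ ^ j).det := by
  rw [Matrix.det_pow, Matrix.det_pow, hd]

end Matrix

/-- An eigenvalue of a matrix of finite order is a root of unity. -/
theorem pow_eq_one_of_isRoot_charpoly (M : Matrix (Fin 2) (Fin 2) ℂ) {m : ℕ}
    (hM : M ^ m = 1) {z : ℂ} (hz : z ^ 2 - M.trace * z + M.det = 0) : z ^ m = 1 := by
  have hdet : (Matrix.scalar (Fin 2) z - M).det = 0 := by
    rw [Matrix.det_fin_two]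
    simp only [Matrix.sub_apply, Matrix.scalar_apply, Matrix.diagonal_apply_eq,
      Matrix.diagonal_apply_ne _ (show (0 : Fin 2) ≠ 1 by decide),
      Matrix.diagonal_apply_ne _ (show (1 : Fin 2) ≠ 0 by decide)]
    rw [Matrix.trace_fin_two, Matrix.det_fin_two] at hz
    linear_combination hz
  obtain ⟨v, hv0, hv⟩ := Matrix.exists_mulVec_eq_zero_iff.2 hdet
  have hMv : M.mulVec v = z • v := by
    rw [Matrix.sub_mulVec] at hv
    have h1 : (Matrix.scalar (Fin 2) z).mulVec v = z • v := by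
      ext i
      simp [Matrix.mulVec, dotProduct, Matrix.scalar_apply, Matrix.diagonal_apply]
    rw [h1] at hv
    exact (sub_eq_zero.1 hv).symm
  have hpow : ∀ j : ℕ, (M ^ j).mulVec v = z ^ j • v := by
    intro j
    induction j with
    | zero => simp
    | succ j ih =>
      rw [pow_succ, ← Matrix.mulVec_mulVec, hMv, Matrix.mulVec_smul, ih, smul_smul, pow_succ,
        mul_comm]
  have h2 := hpow m
  rw [hM, Matrix.one_mulVec] at h2
  by_contra hne
  apply hv0
  have h3 : (z ^ m - 1) • v = 0 := by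
    rw [sub_smul, one_smul, ← h2, sub_self]
  rcases smul_eq_zero.1 h3 with h4 | h4
  · exact absurd (sub_eq_zero.1 h4) hne
  · exact h4

/-- The trace of a `2 × 2` complex matrix of order dividing `m` is a sum of two `m`-th roots
of unity. -/
theorem trace_mem_sumsY (M : Matrix (Fin 2) (Fin 2) ℂ) {m : ℕ} (hm : 0 < m)
    (hM : M ^ m = 1) : M.trace ∈ sumsY m := by
  obtain ⟨z, hz⟩ : ∃ z : ℂ, z ^ 2 - M.trace * z + M.det = 0 := by
    obtain ⟨z, hz⟩ := IsAlgClosed.exists_root
      (X ^ 2 - C M.trace * X + C M.det : ℂ[X]) (by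
        have hdeg : (X ^ 2 - C M.trace * X + C M.det : ℂ[X]).degree = 2 := by
          compute_degree!
        rw [hdeg]; norm_num)
    refine ⟨z, ?_⟩
    simpa [IsRoot] using hz
  have hz' : (M.trace - z) ^ 2 - M.trace * (M.trace - z) + M.det = 0 := by
    linear_combination hz
  exact (mem_sumsY hm).2 ⟨z, M.trace - z, pow_eq_one_of_isRoot_charpoly M hM hz,
    pow_eq_one_of_isRoot_charpoly M hM hz', by ring⟩

/-- The determinant of a complex matrix of order dividing `m` is an `m`-th root of unity. -/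
theorem det_mem_rootsD (M : Matrix (Fin 2) (Fin 2) ℂ) {m : ℕ} (hm : 0 < m)
    (hM : M ^ m = 1) : M.det ∈ rootsD m := by
  rw [mem_rootsD hm, ← Matrix.det_pow, hM, Matrix.det_one]

/-- A complex `2 × 2` matrix of finite order with trace `2` and determinant `1` is the
identity. -/
theorem eq_one_of_pow_eq_one_of_trace_det (M : Matrix (Fin 2) (Fin 2) ℂ) {m : ℕ} (hm : 0 < m)
    (hM : M ^ m = 1) (ht : M.trace = 2) (hd : M.det = 1) : M = 1 := by
  have hsq : M ^ 2 = (2 : ℂ) • M - 1 := by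
    rw [sq_eq_trace_det, ht, hd, one_smul]
  have hpow : ∀ j : ℕ, M ^ j = (j : ℂ) • M - ((j : ℂ) - 1) • (1 : Matrix (Fin 2) (Fin 2) ℂ) := by
    intro j
    induction j with
    | zero => simp
    | succ j ih =>
      rw [pow_succ, ih, sub_mul, Matrix.smul_mul, Matrix.smul_mul, one_mul, ← pow_two, hsq]
      push_cast
      module
  have h1 : (m : ℂ) • M - ((m : ℂ) - 1) • (1 : Matrix (Fin 2) (Fin 2) ℂ) = 1 := by
    rw [← hpow m, hM]
  have h2 : (m : ℂ) • (M - 1) = 0 := by
    calc (m : ℂ) • (M - 1)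
        = ((m : ℂ) • M - ((m : ℂ) - 1) • (1 : Matrix (Fin 2) (Fin 2) ℂ)) - 1 := by module
      _ = 0 := by rw [h1, sub_self]
  rcases smul_eq_zero.1 h2 with h3 | h3
  · exact absurd (Nat.cast_eq_zero.1 h3) hm.ne'
  · exact sub_eq_zero.1 h3

end Fermat.Agent.T4.helper25
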