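import Mathlib
import Fermat.Agent.T4.helper80_EndgameDefs
import Fermat.Agent.T4.helper25_IndepAlg
import Fermat.Agent.Cheb.helper40_ChebFinal

/-!
# T4 block (IV), leaf [IV-INDEP]: independence of `l` (helper25)

`indepStatement : helper80.IndepStatement`, verbatim and unconditional.

Route.  `m := A !`; every congruent lift `r` of order at most `A` has `r σ ^ m = 1`, so its
traces are sums of two `m`-th roots of unity and its determinants are `m`-th roots of unity.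
* `exists_bound_exact`: for all large `l`, every congruent lift at `l` has EXACT trace and
  determinant `a p`, `e p` at every Frobenius element off `N l`;
* `trace_det_eq_of_exact`: two lifts at large `l₁ ≠ l₂` have the same trace and determinant on
  all of `GQ` (weak Chebotarev on the compositum of the two levels);
* at `p = l₁`: inertia acts through elements of finite order with trace `2` and determinant
  `1`, hence trivially; the Frobenius data come from the lift at `l₂`.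
-/

set_option autoImplicit false

namespace Fermat.Agent.T4.helper25

open Fermat.Agent.T4.helper80

/-- A finite-level homomorphism has finite range. -/
theorem finite_range_of_finiteLevel {M : Type} [Group M] (r : GQ →* M)
    (hr : GaloisFactorsThroughFiniteLevel r) : Finite r.range := by
  classical
  obtain ⟨L, hL, h⟩ := hr
  have : FiniteDimensional ℚ L := hL
  let res : GQ → (L →ₐ[ℚ] AlgebraicClosure ℚ) := fun σ =>
    (σ : AlgebraicClosure ℚ →ₐ[ℚ] AlgebraicClosure ℚ).comp L.val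
  have hres : ∀ σ τ : GQ, res σ = res τ → r σ = r τ := by
    intro σ τ hστ
    have h1 : r (σ⁻¹ * τ) = 1 := h _ (fun x hx => by
      have h2 : σ x = τ x := DFunLike.congr_fun hστ ⟨x, hx⟩
      rw [AlgEquiv.mul_apply, ← h2]
      exact σ.symm_apply_apply x)
    rw [map_mul, map_inv, inv_mul_eq_one] at h1
    exact h1
  let g : (L →ₐ[ℚ] AlgebraicClosure ℚ) → M := fun φ =>
    if hφ : ∃ σ : GQ, res σ = φ then r hφ.choose else 1
  have hsub : (r.range : Set M) ⊆ Set.range g := by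
    rintro _ ⟨σ, rfl⟩
    refine ⟨res σ, ?_⟩
    have hex : ∃ τ : GQ, res τ = res σ := ⟨σ, rfl⟩
    show (if hφ : ∃ τ : GQ, res τ = res σ then r hφ.choose else 1) = r σ
    rw [dif_pos hex]
    exact hres _ _ hex.choose_spec
  exact ((Set.finite_range g).subset hsub).to_subtype

/-- Every element of the image of a finite-level homomorphism of order at most `A` is killed
by `A !`. -/
theorem pow_factorial_eq_one {M : Type} [Group M] (r : GQ →* M)
    (hr : GaloisFactorsThroughFiniteLevel r) {A : ℕ} (hA : Nat.card r.range ≤ A) (σ : GQ) :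
    r σ ^ A.factorial = 1 := by
  have := finite_range_of_finiteLevel r hr
  have hpos : 0 < Nat.card r.range := Nat.card_pos
  obtain ⟨k, hk⟩ : Nat.card r.range ∣ A.factorial := Nat.dvd_factorial hpos hA
  have h1 : (⟨r σ, σ, rfl⟩ : r.range) ^ Nat.card r.range = 1 := pow_card_eq_one'
  have h2 : (⟨r σ, σ, rfl⟩ : r.range) ^ A.factorial = 1 := by
    rw [hk, pow_mul, h1, one_pow]
  have h3 := congrArg Subtype.val h2
  simpa using h3

/-- Matrix form of `pow_factorial_eq_one`. -/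
theorem matrix_pow_factorial_eq_one (r : GQ →* GL (Fin 2) ℂ)
    (hr : GaloisFactorsThroughFiniteLevel r) {A : ℕ} (hA : Nat.card r.range ≤ A) (σ : GQ) :
    ((r σ : GL (Fin 2) ℂ) : Matrix (Fin 2) (Fin 2) ℂ) ^ A.factorial = 1 := by
  have h := pow_factorial_eq_one r hr hA σ
  have h2 := congrArg (fun u : GL (Fin 2) ℂ => (u : Matrix (Fin 2) (Fin 2) ℂ)) h
  simpa using h2

/-- **Exactness**: for all large `l`, every congruent lift at `l` has exact trace and
determinant at every Frobenius element away from `N l`. -/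
theorem exists_bound_exact (N : ℕ) (a e : ℕ → ℂ) (A : ℕ)
    (ha : ∀ p : ℕ, p.Prime → ¬ p ∣ N → IsIntegral ℤ (a p))
    (he : ∀ p : ℕ, p.Prime → ¬ p ∣ N → IsIntegral ℤ (e p))
    (hfam : ∀ B : ℕ, ∃ l : ℕ, B ≤ l ∧ l.Prime ∧
      ∃ (V : ValuationSubring ℂ) (r : GQ →* GL (Fin 2) ℂ), IsCongruentLift N a e A l V r) :
    ∃ c : ℕ, ∀ l : ℕ, l.Prime → c < l →
      ∀ (V : ValuationSubring ℂ) (r : GQ →* GL (Fin 2) ℂ), IsCongruentLift N a e A l V r →
      ∀ p : ℕ, p.Prime → ¬ p ∣ N * l →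
      ∀ B : ValuationSubring (AlgebraicClosure ℚ), B.LiesOverPrime p →
      ∀ σ : GQ, B.IsFrobeniusAt σ p →
        ((r σ : GL (Fin 2) ℂ) : Matrix (Fin 2) (Fin 2) ℂ).trace = a p ∧
        ((r σ : GL (Fin 2) ℂ) : Matrix (Fin 2) (Fin 2) ℂ).det = e p := by
  have hm : 0 < A.factorial := Nat.factorial_pos A
  obtain ⟨c₁, hc₁⟩ := exists_bound_eq_of_sub_mem (sumsY A.factorial)
    (fun s hs => isIntegral_of_mem_sumsY hm hs)
  obtain ⟨c₂, hc₂⟩ := exists_bound_eq_of_sub_mem (rootsD A.factorial)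
    (fun s hs => isIntegral_of_mem_rootsD hm hs)
  refine ⟨max c₁ c₂, ?_⟩
  intro l hl hcl V r hlift p hp hpNl B hB σ hσ
  have hpN : ¬ p ∣ N := fun h => hpNl (Dvd.dvd.mul_right h l)
  -- the family gives lifts at arbitrarily large `l' ≠ p`
  have hfam' : ∀ B₀ : ℕ, ∃ l' : ℕ, B₀ ≤ l' ∧ l'.Prime ∧
      ∃ (V' : ValuationSubring ℂ) (r' : GQ →* GL (Fin 2) ℂ), (l' : ℂ) ∈ V'.nonunits ∧
        ((r' σ : GL (Fin 2) ℂ) : Matrix (Fin 2) (Fin 2) ℂ) ^ A.factorial = 1 ∧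
        ((r' σ : GL (Fin 2) ℂ) : Matrix (Fin 2) (Fin 2) ℂ).trace - a p ∈ V'.nonunits ∧
        ((r' σ : GL (Fin 2) ℂ) : Matrix (Fin 2) (Fin 2) ℂ).det - e p ∈ V'.nonunits := by
    intro B₀
    obtain ⟨l', hl'B, hl'p, V', r', hl'V, hfin', hcard', hloc'⟩ := hfam (max B₀ (p + 1))
    have hpl' : ¬ p ∣ N * l' := by
      intro h
      rcases (Nat.Prime.dvd_mul hp).1 h with h1 | h1
      · exact hpN h1
      · have h2 : p = l' := (Nat.prime_dvd_prime_iff_eq hp hl'p).1 h1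
        have h3 : p + 1 ≤ l' := le_trans (le_max_right _ _) hl'B
        omega
    have h4 := (hloc' p hp hpl' B hB).2 σ hσ
    exact ⟨l', le_trans (le_max_left _ _) hl'B, hl'p, V', r', hl'V,
      matrix_pow_factorial_eq_one r' hfin' hcard' σ, h4.1, h4.2⟩
  have haY : a p ∈ sumsY A.factorial :=
    mem_of_frequently_sub_mem (sumsY A.factorial) (fun s hs => isIntegral_of_mem_sumsY hm hs)
      (ha p hp hpN) (fun B₀ => by
        obtain ⟨l', hl'B, hl'p, V', r', hl'V, hpow', ht', -⟩ := hfam' B₀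
        exact ⟨l', hl'B, hl'p, V', hl'V, _, trace_mem_sumsY _ hm hpow', ht'⟩)
  have heD : e p ∈ rootsD A.factorial :=
    mem_of_frequently_sub_mem (rootsD A.factorial) (fun s hs => isIntegral_of_mem_rootsD hm hs)
      (he p hp hpN) (fun B₀ => by
        obtain ⟨l', hl'B, hl'p, V', r', hl'V, hpow', -, hd'⟩ := hfam' B₀
        exact ⟨l', hl'B, hl'p, V', hl'V, _, det_mem_rootsD _ hm hpow', hd'⟩)
  obtain ⟨hlV, hfin, hcard, hloc⟩ := hlift
  have h := (hloc p hp hpNl B hB).2 σ hσ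
  have hpow := matrix_pow_factorial_eq_one r hfin hcard σ
  exact ⟨hc₁ l hl (lt_of_le_of_lt (le_max_left _ _) hcl) V hlV _ (trace_mem_sumsY _ hm hpow)
      _ haY h.1,
    hc₂ l hl (lt_of_le_of_lt (le_max_right _ _) hcl) V hlV _ (det_mem_rootsD _ hm hpow)
      _ heD h.2⟩

/-- Two finite-level representations with the same trace and determinant at all Frobenius
elements away from a nonzero integer `D` have the same trace and determinant everywhere. -/
theorem trace_det_eq_of_frob (D : ℕ) (hD : D ≠ 0) (r₁ r₂ : GQ →* GL (Fin 2) ℂ)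
    (h₁ : GaloisFactorsThroughFiniteLevel r₁) (h₂ : GaloisFactorsThroughFiniteLevel r₂)
    (hfrob : ∀ p : ℕ, p.Prime → ¬ p ∣ D →
      ∀ B : ValuationSubring (AlgebraicClosure ℚ), B.LiesOverPrime p →
      ∀ σ : GQ, B.IsFrobeniusAt σ p →
        ((r₁ σ : GL (Fin 2) ℂ) : Matrix (Fin 2) (Fin 2) ℂ).trace =
          ((r₂ σ : GL (Fin 2) ℂ) : Matrix (Fin 2) (Fin 2) ℂ).trace ∧
        ((r₁ σ : GL (Fin 2) ℂ) : Matrix (Fin 2) (Fin 2) ℂ).det =
          ((r₂ σ : GL (Fin 2) ℂ) : Matrix (Fin 2) (Fin 2) ℂ).det)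
    (g : GQ) :
    ((r₁ g : GL (Fin 2) ℂ) : Matrix (Fin 2) (Fin 2) ℂ).trace =
        ((r₂ g : GL (Fin 2) ℂ) : Matrix (Fin 2) (Fin 2) ℂ).trace ∧
      ((r₁ g : GL (Fin 2) ℂ) : Matrix (Fin 2) (Fin 2) ℂ).det =
        ((r₂ g : GL (Fin 2) ℂ) : Matrix (Fin 2) (Fin 2) ℂ).det := by
  obtain ⟨L₁, hL₁, hk₁⟩ := h₁
  obtain ⟨L₂, hL₂, hk₂⟩ := h₂
  have : FiniteDimensional ℚ L₁ := hL₁
  have : FiniteDimensional ℚ L₂ := hL₂
  have : FiniteDimensional ℚ (L₁ ⊔ L₂ : IntermediateField ℚ (AlgebraicClosure ℚ)) :=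
    IntermediateField.finiteDimensional_sup L₁ L₂
  obtain ⟨ℓ, B, φ, hℓ, hℓS, hB, hφ, -, ⟨j, hj⟩, -⟩ :=
    Fermat.Agent.Cheb.helper40.chebW_finite_uncond (L₁ ⊔ L₂) g D.primeFactors
  have hℓD : ¬ ℓ ∣ D := fun h => hℓS (Nat.mem_primeFactors.2 ⟨hℓ, h, hD⟩)
  have hfix : ∀ (r : GQ →* GL (Fin 2) ℂ) (L : IntermediateField ℚ (AlgebraicClosure ℚ)),
      L ≤ L₁ ⊔ L₂ → (∀ σ : GQ, (∀ x ∈ L, σ x = x) → r σ = 1) → r g = r φ ^ j := by
    intro r L hLle hk
    have h1 : r ((φ ^ j)⁻¹ * g) = 1 := hk _ (fun x hx => by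
      have h2 : (φ ^ j) x = g x := hj x (hLle hx)
      rw [AlgEquiv.mul_apply, ← h2]
      exact (φ ^ j).symm_apply_apply x)
    rw [map_mul, map_inv, inv_mul_eq_one, map_pow] at h1
    exact h1.symm
  have e₁ : r₁ g = r₁ φ ^ j := hfix r₁ L₁ le_sup_left hk₁
  have e₂ : r₂ g = r₂ φ ^ j := hfix r₂ L₂ le_sup_right hk₂
  obtain ⟨ht, hd⟩ := hfrob ℓ hℓ hℓD B hB φ hφ
  rw [e₁, e₂, Units.val_pow_eq_pow_val, Units.val_pow_eq_pow_val]
  exact ⟨trace_pow_eq_of_trace_det_eq _ _ ht hd j, det_pow_eq_of_det_eq _ _ hd j⟩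

/-- **[IV-INDEP]** independence of `l`. -/
theorem indepStatement : IndepStatement := by
  intro N a e hN ha he A hfam
  obtain ⟨c, hc⟩ := exists_bound_exact N a e A ha he hfam
  obtain ⟨l₁, hl₁c, hl₁, V₁, r₁, hlift₁⟩ := hfam (c + 1)
  obtain ⟨l₂, hl₂c, hl₂, V₂, r₂, hlift₂⟩ := hfam (l₁ + 1)
  have hne : l₁ ≠ l₂ := by omega
  have hx₁ := hc l₁ hl₁ (by omega) V₁ r₁ hlift₁
  have hx₂ := hc l₂ hl₂ (by omega) V₂ r₂ hlift₂
  obtain ⟨-, hfin₁, hcard₁, hloc₁⟩ := hlift₁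
  obtain ⟨-, hfin₂, hcard₂, hloc₂⟩ := hlift₂
  have hD : N * l₁ * l₂ ≠ 0 :=
    Nat.mul_ne_zero (Nat.mul_ne_zero hN hl₁.ne_zero) hl₂.ne_zero
  have key := trace_det_eq_of_frob (N * l₁ * l₂) hD r₁ r₂ hfin₁ hfin₂ (by
    intro p hp hpD B hB σ hσ
    have hp₁ : ¬ p ∣ N * l₁ := fun h => hpD (Dvd.dvd.mul_right h l₂)
    have hp₂ : ¬ p ∣ N * l₂ := fun h => hpD (by
      have : N * l₁ * l₂ = N * l₂ * l₁ := by ring
      rw [this]
      exact Dvd.dvd.mul_right h l₁)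
    obtain ⟨t₁, d₁⟩ := hx₁ p hp hp₁ B hB σ hσ
    obtain ⟨t₂, d₂⟩ := hx₂ p hp hp₂ B hB σ hσ
    exact ⟨t₁.trans t₂.symm, d₁.trans d₂.symm⟩)
  refine ⟨r₁, hfin₁, fun p hp hpN B hB => ?_⟩
  by_cases hpl : p = l₁
  · -- the prime `l₁` itself: use the lift at `l₂`
    have hp₂ : ¬ p ∣ N * l₂ := by
      intro h
      rcases (Nat.Prime.dvd_mul hp).1 h with h1 | h1
      · exact hpN h1
      · exact hne (hpl ▸ (Nat.prime_dvd_prime_iff_eq hp hl₂).1 h1)
    refine ⟨fun τ hτ => ?_, fun σ hσ => ?_⟩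
    · have h2 : r₂ τ = 1 := (hloc₂ p hp hp₂ B hB).1 τ hτ
      obtain ⟨kt, kd⟩ := key τ
      rw [h2] at kt kd
      have hM := eq_one_of_pow_eq_one_of_trace_det
        ((r₁ τ : GL (Fin 2) ℂ) : Matrix (Fin 2) (Fin 2) ℂ) (Nat.factorial_pos A)
        (matrix_pow_factorial_eq_one r₁ hfin₁ hcard₁ τ)
        (by rw [kt]; simp)
        (by rw [kd]; simp)
      exact Units.ext hM
    · obtain ⟨kt, kd⟩ := key σ
      obtain ⟨t₂, d₂⟩ := hx₂ p hp hp₂ B hB σ hσ
      exact ⟨kt.trans t₂, kd.trans d₂⟩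
  · have hp₁ : ¬ p ∣ N * l₁ := by
      intro h
      rcases (Nat.Prime.dvd_mul hp).1 h with h1 | h1
      · exact hpN h1
      · exact hpl ((Nat.prime_dvd_prime_iff_eq hp hl₁).1 h1)
    exact ⟨(hloc₁ p hp hp₁ B hB).1, fun σ hσ => hx₁ p hp hp₁ B hB σ hσ⟩

end Fermat.Agent.T4.helper25
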