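import Mathlib
import Fermat.Prelude.Def_AlgebraicCurve_Correspondence

/-!
# T4 block (I), leaf (L4) [SWAP-ABS] of ES-KRON (helper25)

Mathlib + the Prelude vocabulary `algebraAlong` / `FiniteAlong` / `finrankAlong` only.

For fields `F`, `E`, `E'`, ring homomorphisms `b : F → E`, `a : F → E'` and `w : E → E'` with
`w ∘ b = a`: if `E'` is finite over `a(F)` then `E` is finite over `b(F)` and
`[E : b(F)] ≤ [E' : a(F)]` (`w` is an injective `F`-linear map from `E` along `b` to `E'`
along `a`).

* `finite_and_finrank_le_of_swap` : ring-homomorphism form, two targets;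
* `finrankAlong_le_of_swap'`      : `algebraAlong` form, two targets;
* `finrankAlong_le_of_swap`       : `algebraAlong` form, `E' = E` (the shape of (L4)).
-/

set_option autoImplicit false
set_option linter.style.haveILetI false

namespace Fermat.Agent.T4.helper25

open AlgebraicCurve

/-- **[SWAP-ABS]**, ring-homomorphism form. -/
theorem finite_and_finrank_le_of_swap {F E E' : Type*} [Field F] [Field E] [Field E']
    (a : F →+* E') (b : F →+* E) (w : E →+* E') (hw : ∀ f : F, w (b f) = a f)
    (hfin : @Module.Finite F E' _ _ a.toAlgebra.toModule) :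
    @Module.Finite F E _ _ b.toAlgebra.toModule ∧
      @Module.finrank F E _ _ b.toAlgebra.toModule ≤
        @Module.finrank F E' _ _ a.toAlgebra.toModule := by
  letI algE : Algebra F E := b.toAlgebra
  letI algE' : Algebra F E' := a.toAlgebra
  haveI : Module.Finite F E' := hfin
  let wl : E →ₗ[F] E' :=
    { toFun := w
      map_add' := map_add w
      map_smul' := by
        intro f x
        show w (b f * x) = a f * w x
        rw [map_mul, hw] }
  have hinj : Function.Injective wl := w.injective
  exact ⟨Module.Finite.of_injective wl hinj, LinearMap.finrank_le_finrank_of_injective hinj⟩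

/-- **[SWAP-ABS]**, `algebraAlong` form with two targets. -/
theorem finrankAlong_le_of_swap' {K F E E' : Type*} [Field K] [Field F] [Field E] [Field E']
    [Algebra K F] [Algebra K E] [Algebra K E'] (a : F →ₐ[K] E') (b : F →ₐ[K] E)
    (w : E →+* E') (hw : ∀ f : F, w (b f) = a f) (hfin : FiniteAlong K a) :
    FiniteAlong K b ∧ finrankAlong K b ≤ finrankAlong K a :=
  finite_and_finrank_le_of_swap a.toRingHom b.toRingHom w hw hfin

/-- **[SWAP-ABS]** (L4): `a b : F →ₐ[K] E`, `w : E →+* E` with `w ∘ b = a`, `E` finite along
`a`: then `E` is finite along `b` and `finrank along b ≤ finrank along a`. -/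
theorem finrankAlong_le_of_swap {K F E : Type*} [Field K] [Field F] [Field E]
    [Algebra K F] [Algebra K E] (a b : F →ₐ[K] E)
    (w : E →+* E) (hw : ∀ f : F, w (b f) = a f) (hfin : FiniteAlong K a) :
    FiniteAlong K b ∧ finrankAlong K b ≤ finrankAlong K a :=
  finrankAlong_le_of_swap' a b w hw hfin

/-- If moreover `w' ∘ a = b` for some `w'`, the two degrees are equal. -/
theorem finrankAlong_eq_of_swap {K F E : Type*} [Field K] [Field F] [Field E]
    [Algebra K F] [Algebra K E] (a b : F →ₐ[K] E)
    (w w' : E →+* E) (hw : ∀ f : F, w (b f) = a f) (hw' : ∀ f : F, w' (a f) = b f)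
    (hfin : FiniteAlong K a) :
    FiniteAlong K b ∧ finrankAlong K b = finrankAlong K a := by
  obtain ⟨h1, h2⟩ := finrankAlong_le_of_swap a b w hw hfin
  obtain ⟨-, h3⟩ := finrankAlong_le_of_swap b a w' hw' h1
  exact ⟨h1, le_antisymm h2 h3⟩

end Fermat.Agent.T4.helper25
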