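import Fermat.Agent.T4.helper4_EisOut
import Fermat.Agent.T4.helper21_EisFinal
import Fermat.Agent.T4.helper41_EisCong

/-!
# T4 block (III): the consumer contracts, UNCONDITIONAL (helper4)

* `qcoeffStatement : QCoeffStatement`, `prodStatement : ProdStatement` (Mathlib
  `qExpansion_coeff_unique`, `qExpansion_mul`);
* `outStatement : OutStatement` (maximal-ideal form of helper21);
* `ker_isMaximal` : the kernel of a residue map `r : ℤ̄ → k` (`k` a field of positive
  characteristic) is a maximal ideal;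
* `eisContract : EisContract` — contract EIS of BLUEPRINT T4 v0 in residue-map form:
  `E ∈ M₁(Γ₁(ℓ))` with nebentypus `ψ`, `r(ψ(d)) d = 1`, integral `q`-coefficients `e n`,
  `r (e 0) = 1`, `r (e n) = 0` for `n ≥ 1`;
* `outContract : OutContract` — the product form: `h = f · E ∈ S₂(Γ₁(Nℓ))` with integral
  `q`-coefficients `B n`, `r (B n) = r (A n)`.
-/

set_option autoImplicit false

noncomputable section

namespace Fermat.Agent.T4.helper4

open UpperHalfPlane hiding I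
open Complex EisensteinSeries CongruenceSubgroup ModularForm Filter
open scoped MatrixGroups Real Manifold
open Fermat.Agent.T4.helper21

local notation "Zbar" => integralClosure ℤ ℂ

lemma qParam_one_pow (τ : ℍ) (n : ℕ) : Function.Periodic.qParam 1 (τ : ℂ) ^ n = qPow τ n := by
  unfold Function.Periodic.qParam qPow
  rw [← Complex.exp_nat_mul]
  congr 1
  push_cast
  ring

lemma one_mem_strictPeriods_Gamma1 (M : ℕ) :
    (1 : ℝ) ∈ (Subgroup.map (Matrix.SpecialLinearGroup.mapGL ℝ) (Gamma1 M)).strictPeriods := by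
  rw [strictPeriods_Gamma1]
  exact AddSubgroup.mem_zmultiples 1

/-- **[EIS-QCOEFF]** -/
theorem qcoeffStatement : QCoeffStatement := by
  intro ℓ _ G c hc n
  have h := ModularFormClass.qExpansion_coeff_unique (h := 1) (c := c) one_pos
    (one_mem_strictPeriods_Gamma1 ℓ) (f := G)
    (fun τ => by simpa [qParam_one_pow, smul_eq_mul] using hc τ) n
  exact h.symm

/-- **[EIS-PROD]** -/
theorem prodStatement : ProdStatement := by
  intro N ℓ _ _ f G h c hh n
  have hf := ModularFormClass.analyticAt_cuspFunction_zero f one_pos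
    (one_mem_strictPeriods_Gamma1 N)
  have hG := ModularFormClass.analyticAt_cuspFunction_zero G one_pos
    (one_mem_strictPeriods_Gamma1 ℓ)
  have hfun : (h : ℍ → ℂ) = c • ((f : ℍ → ℂ) * (G : ℍ → ℂ)) := by
    funext τ
    simp [hh τ]
  have hfG : AnalyticAt ℂ (cuspFunction 1 ((f : ℍ → ℂ) * (G : ℍ → ℂ))) 0 := by
    rw [cuspFunction_mul hf.continuousAt hG.continuousAt]
    exact hf.mul hG
  unfold ModularFormClass.qCoeff
  rw [hfun, qExpansion_smul hfG, qExpansion_mul hf hG]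
  simp only [PowerSeries.coeff_smul, smul_eq_mul, PowerSeries.coeff_mul]

/-- **[EIS-OUT]** unconditional. -/
theorem outStatement : OutStatement :=
  out_of eisStatement mulStatement' Fermat.Agent.T4.helper41.cong qcoeffStatement prodStatement

/-- The kernel of a ring homomorphism from `ℤ̄` to a field of characteristic `ℓ` prime is a
maximal ideal. -/
lemma ker_isMaximal (ℓ : ℕ) [hℓ : Fact ℓ.Prime] (k : Type) [Field k] [CharP k ℓ]
    (r : Zbar →+* k) : (RingHom.ker r).IsMaximal := by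
  have hprime : (RingHom.ker r).IsPrime := RingHom.ker_isPrime r
  have hℓmem : ((ℓ : ℕ) : Zbar) ∈ RingHom.ker r := by
    rw [RingHom.mem_ker, map_natCast]
    exact CharP.cast_eq_zero k ℓ
  have hcomap_prime : ((RingHom.ker r).comap (algebraMap ℤ Zbar)).IsPrime :=
    Ideal.comap_isPrime _ _
  have hne : (RingHom.ker r).comap (algebraMap ℤ Zbar) ≠ ⊥ := by
    intro h
    have : ((ℓ : ℕ) : ℤ) ∈ (RingHom.ker r).comap (algebraMap ℤ Zbar) := by
      rw [Ideal.mem_comap]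
      simpa using hℓmem
    rw [h, Ideal.mem_bot] at this
    exact hℓ.out.ne_zero (by exact_mod_cast this)
  have hmax : ((RingHom.ker r).comap (algebraMap ℤ Zbar)).IsMaximal :=
    hcomap_prime.isMaximal hne
  exact Ideal.isMaximal_of_isIntegral_of_isMaximal_comap (R := ℤ) (RingHom.ker r) hmax

/-- **Contract EIS** (BLUEPRINT T4 v0), residue-map form. -/
def EisContract : Prop :=
  ∀ (ℓ : ℕ) [Fact ℓ.Prime], 3 ≤ ℓ → ∀ (k : Type) [Field k] [CharP k ℓ] (r : Zbar →+* k),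
    ∃ (ψ : DirichletCharacter ℂ ℓ) (X : ZMod ℓ → Zbar) (E : ModularForm (Gamma1 ℓ) 1)
      (e : ℕ → Zbar),
      ψ (-1) = -1 ∧ (∀ a : ZMod ℓ, (X a : ℂ) = ψ a) ∧
      (∀ d : ℕ, ¬ ℓ ∣ d → r (X (d : ZMod ℓ)) * (d : k) = 1) ∧
      (∀ γ ∈ Gamma0 ℓ, ∀ τ : ℍ,
        E (γ • τ) = ψ (((γ 1 1 : ℤ) : ZMod ℓ)) * denom γ τ * E τ) ∧
      (∀ τ : ℍ, HasSum (fun n : ℕ => (e n : ℂ) * qPow τ n) (E τ)) ∧
      (∀ n, (e n : ℂ) = ModularFormClass.qCoeff E n) ∧
      r (e 0) = 1 ∧ ∀ n : ℕ, n ≠ 0 → r (e n) = 0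

theorem eisContract : EisContract := by
  intro ℓ hℓF h3 k _ _ r
  have hℓ0 : ℓ ≠ 0 := hℓF.out.ne_zero
  have : NeZero ℓ := ⟨hℓ0⟩
  have hmax := ker_isMaximal ℓ k r
  have hℓmem : ((ℓ : ℕ) : Zbar) ∈ RingHom.ker r := by
    rw [RingHom.mem_ker, map_natCast]
    exact CharP.cast_eq_zero k ℓ
  obtain ⟨χ, X, u, hodd, hX, hXk, hu, hu1⟩ :=
    Fermat.Agent.T4.helper41.cong ℓ h3 (RingHom.ker r) hmax hℓmem
  obtain ⟨G, hlaw, hsum⟩ := eisStatement ℓ χ hodd
  let E : ModularForm (Gamma1 ℓ) 1 := (2 * (ℓ : ℂ)) • G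
  have hE : ∀ τ : ℍ, E τ = 2 * (ℓ : ℂ) * G τ := by
    intro τ
    show ((2 * (ℓ : ℂ)) • G) τ = _
    rw [smul_apply, smul_eq_mul]
  let e : ℕ → Zbar := fun n => - outCoeff ℓ X u n
  have he : ∀ n, (e n : ℂ) = 2 * (ℓ : ℂ) * eisCoeff ℓ χ n := by
    intro n
    show ((- outCoeff ℓ X u n : Zbar) : ℂ) = _
    push_cast
    rw [outCoeff_coe ℓ hℓ0 χ X u hX hu n]
    ring
  have hsumE : ∀ τ : ℍ, HasSum (fun n : ℕ => (e n : ℂ) * qPow τ n) (E τ) := by
    intro τ
    rw [hE τ]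
    have h1 := (hsum τ).mul_left (2 * (ℓ : ℂ))
    have h2 : (fun n : ℕ => (e n : ℂ) * qPow τ n) =
        fun n : ℕ => 2 * (ℓ : ℂ) * (eisCoeff ℓ χ n * qPow τ n) := by
      funext n
      rw [he n]
      ring
    rw [h2]
    exact h1
  have hu1' : r u = -1 := by
    have : r (u + 1) = 0 := (RingHom.mem_ker).mp hu1
    rw [map_add, map_one] at this
    exact eq_neg_of_add_eq_zero_left this
  refine ⟨χ, X, E, e, hodd, hX, ?_, ?_, hsumE, ?_, ?_, ?_⟩
  · intro d hd
    have := (RingHom.mem_ker).mp (hXk d hd)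
    rw [map_sub, map_mul, map_natCast, map_one] at this
    exact sub_eq_zero.mp this
  · intro γ hγ τ
    rw [hE, hE, hlaw γ hγ τ]
    ring
  · intro n
    exact (qcoeffStatement ℓ E (fun n => (e n : ℂ)) hsumE n).symm
  · show r (- outCoeff ℓ X u 0) = 1
    have h0 : outCoeff ℓ X u 0 = u := by simp [outCoeff]
    rw [h0, map_neg, hu1', neg_neg]
  · intro n hn
    show r (- outCoeff ℓ X u n) = 0
    rw [map_neg, neg_eq_zero]
    exact (RingHom.mem_ker).mp (outCoeff_mem ℓ X u (RingHom.ker r) hℓmem hn)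

/-- **Contract OUT**, residue-map form: the weight-two cusp form `h = f · E` on `Γ₁(Nℓ)`
with integral `q`-coefficients congruent to those of `f`. -/
def OutContract : Prop :=
  ∀ (N ℓ : ℕ) [NeZero N] [Fact ℓ.Prime], 3 ≤ ℓ →
    ∀ (k : Type) [Field k] [CharP k ℓ] (r : Zbar →+* k)
      (f : CuspForm (Gamma1 N) 1) (A : ℕ → Zbar),
      (∀ n, (A n : ℂ) = ModularFormClass.qCoeff f n) →
      ∃ (ψ : DirichletCharacter ℂ ℓ) (X : ZMod ℓ → Zbar) (E : ModularForm (Gamma1 ℓ) 1)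
        (h : CuspForm (Gamma1 (N * ℓ)) 2) (B : ℕ → Zbar),
        ψ (-1) = -1 ∧ (∀ a : ZMod ℓ, (X a : ℂ) = ψ a) ∧
        (∀ d : ℕ, ¬ ℓ ∣ d → r (X (d : ZMod ℓ)) * (d : k) = 1) ∧
        (∀ γ ∈ Gamma0 ℓ, ∀ τ : ℍ,
          E (γ • τ) = ψ (((γ 1 1 : ℤ) : ZMod ℓ)) * denom γ τ * E τ) ∧
        (∀ τ : ℍ, h τ = f τ * E τ) ∧
        (∀ n, (B n : ℂ) = ModularFormClass.qCoeff h n) ∧
        ∀ n, r (B n) = r (A n)

theorem outContract : OutContract := by
  intro N ℓ _ hℓF h3 k _ _ r f A hA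
  have : NeZero ℓ := ⟨hℓF.out.ne_zero⟩
  obtain ⟨ψ, X, E, e, hodd, hX, hXk, hlaw, hsumE, heq, he0, hen⟩ := eisContract ℓ h3 k r
  obtain ⟨h, hh⟩ := mulStatement' N ℓ f E
  let B : ℕ → Zbar := fun n =>
    ∑ p ∈ Finset.HasAntidiagonal.antidiagonal n, A p.1 * e p.2
  refine ⟨ψ, X, E, h, B, hodd, hX, hXk, hlaw, hh, ?_, ?_⟩
  · intro n
    have := prodStatement N ℓ f E h 1 (fun τ => by rw [hh τ, one_mul]) n
    rw [this, one_mul]
    show ((∑ p ∈ Finset.HasAntidiagonal.antidiagonal n, A p.1 * e p.2 : Zbar) : ℂ) = _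
    push_cast
    refine Finset.sum_congr rfl fun p _ => ?_
    rw [hA p.1, heq p.2]
  · intro n
    show r (∑ p ∈ Finset.HasAntidiagonal.antidiagonal n, A p.1 * e p.2) = r (A n)
    have hmem : (n, 0) ∈ Finset.HasAntidiagonal.antidiagonal n := by simp
    rw [map_sum, ← Finset.add_sum_erase _ _ hmem]
    have hz : ∑ p ∈ (Finset.HasAntidiagonal.antidiagonal n).erase (n, 0), r (A p.1 * e p.2)
        = 0 := by
      refine Finset.sum_eq_zero fun p hp => ?_
      have hp' := Finset.mem_erase.mp hp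
      have hp2 : p.2 ≠ 0 := by
        intro h2
        apply hp'.1
        have hs := Finset.HasAntidiagonal.mem_antidiagonal.mp hp'.2
        ext
        · simp only; omega
        · simpa using h2
      rw [map_mul, hen p.2 hp2, mul_zero]
    rw [hz, add_zero, map_mul, he0, mul_one]

end Fermat.Agent.T4.helper4
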