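import Fermat.Agent.T4.helper26_ResMod
import Fermat.Agent.T4.helper4_EisContract
import Fermat.Agent.T4.helper93_EisMul

/-!
# T4 (R) wiring: `res1_of : Eigen1Statement → PrimStatement → Res1Statement c` (helper26)

The residual representations of the form of frozen S48 with auxiliary level `c` (`4 ∣ c` or
`9 ∣ c`), from the deliverable `helper32.Eigen1Statement` of block (I) and the deliverable
`helper32.PrimStatement` of block (V); block (III) enters through `helper4.outContract` (on main,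
unconditional).

Steps (BLUEPRINT T4 v0, §3):
* (R1) `g = h · E ∈ S₂(Γ₁(c N ℓ))`, `h` the primitive form of the packet (restricted to
  `Γ₁(c N)`), `E ≡ 1` the Eisenstein series of weight one and level `ℓ`; nebentypus
  `χ = ε ψ` modulo `c N ℓ`;
* (R2) the formal Hecke relations of `g` modulo `r`: eigenvalues `r(a_p)`,
  `p · r(χ(p)) = r(ε(p))` because `r(ψ(p)) p = 1`;
* (R3) = `Eigen1Statement`;
* (R4) = `helper26.hasResidualMod_of_esAt`.
-/

set_option autoImplicit false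

noncomputable section

open CongruenceSubgroup UpperHalfPlane ModularForm
open scoped MatrixGroups

namespace Fermat.Agent.T4.helper26

open Fermat.Agent.T4.helper80 (Zbar)

/-! ## Characters modulo a multiple -/

section Chars

variable {N ℓ M : ℕ} (ε : DirichletCharacter ℂ N) (ψ : DirichletCharacter ℂ ℓ)

/-- The product of two Dirichlet characters, at the level `M` (a common multiple). -/
def chiProd (hN : N ∣ M) (hℓ : ℓ ∣ M) : DirichletCharacter ℂ M :=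
  DirichletCharacter.changeLevel hN ε * DirichletCharacter.changeLevel hℓ ψ

theorem chiProd_intCast (hN : N ∣ M) (hℓ : ℓ ∣ M) {a : ℤ} (ha : IsCoprime a (M : ℤ)) :
    chiProd ε ψ hN hℓ (a : ZMod M) = ε (a : ZMod N) * ψ (a : ZMod ℓ) := by
  rw [chiProd, MulChar.mul_apply, DirichletCharacter.changeLevel_eq_cast_of_dvd' ε hN ha,
    DirichletCharacter.changeLevel_eq_cast_of_dvd' ψ hℓ ha]

theorem chiProd_natCast (hN : N ∣ M) (hℓ : ℓ ∣ M) {p : ℕ} (hp : Nat.Coprime p M) :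
    chiProd ε ψ hN hℓ (p : ZMod M) = ε (p : ZMod N) * ψ (p : ZMod ℓ) := by
  have h := chiProd_intCast ε ψ hN hℓ (a := (p : ℤ)) (Nat.isCoprime_iff_coprime.2 hp)
  simpa using h

theorem isCoprime_lowerRight {γ : SL(2, ℤ)} (hγ : γ ∈ Gamma0 M) :
    IsCoprime (γ 1 1 : ℤ) (M : ℤ) := by
  rw [Gamma0_mem] at hγ
  obtain ⟨t, ht⟩ := (ZMod.intCast_zmod_eq_zero_iff_dvd _ _).1 hγ
  have hdet : γ 0 0 * γ 1 1 - γ 0 1 * γ 1 0 = 1 := by
    have := γ.det_coe
    rw [Matrix.det_fin_two] at this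
    exact this
  refine ⟨γ 0 0, - (γ 0 1 * t), ?_⟩
  rw [ht] at hdet
  linear_combination hdet

theorem gamma0_le_of_dvd {a b : ℕ} (hab : b ∣ a) : Gamma0 a ≤ Gamma0 b := by
  intro A hA
  rw [Gamma0_mem] at hA ⊢
  have := helper93.intCast_zmod_eq_of_dvd hab (x := A 1 0) (y := 0) (by simpa using hA)
  simpa using this

end Chars

/-! ## The nebentypus of the product -/

section Neben

theorem hasNeben_mul {N ℓ M : ℕ} (ε : DirichletCharacter ℂ N) (ψ : DirichletCharacter ℂ ℓ)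
    (hN : N ∣ M) (hℓ : ℓ ∣ M) (h : ℍ → ℂ) (E : ℍ → ℂ) (g : ℍ → ℂ)
    (hh : helper32.HasNeben N 1 ε h)
    (hE : ∀ γ ∈ Gamma0 ℓ, ∀ τ : ℍ,
      E (γ • τ) = ψ (((γ 1 1 : ℤ) : ZMod ℓ)) * denom γ τ * E τ)
    (hg : ∀ τ : ℍ, g τ = h τ * E τ) :
    helper32.HasNeben M 2 (chiProd ε ψ hN hℓ) g := by
  intro γ hγ τ
  rw [hg, hg, hh γ (gamma0_le_of_dvd hN hγ) τ, hE γ (gamma0_le_of_dvd hℓ hγ) τ,
    chiProd_intCast ε ψ hN hℓ (isCoprime_lowerRight hγ), ModularGroup.denom_apply]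
  ring

theorem hasNeben_odd {N : ℕ} {ε : DirichletCharacter ℂ N} {h : ℍ → ℂ}
    (hh : helper32.HasNeben N 1 ε h) {τ : ℍ} (hτ : h τ ≠ 0) : ε (-1) = -1 := by
  have hmem : (-1 : SL(2, ℤ)) ∈ Gamma0 N := by
    rw [Gamma0_mem]
    simp
  have h1 := hh (-1) hmem τ
  rw [ModularGroup.SL_neg_smul, one_smul] at h1
  have e : (((-1 : SL(2, ℤ)) 1 1 : ℤ) : ZMod N) = -1 := by simp
  have e0 : (((-1 : SL(2, ℤ)) 1 0 : ℤ) : ℂ) = 0 := by simp
  have e1 : (((-1 : SL(2, ℤ)) 1 1 : ℤ) : ℂ) = -1 := by simp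
  rw [e, e0, e1] at h1
  have h3 : (ε (-1) + 1) * h τ = 0 := by
    linear_combination h1
  rcases mul_eq_zero.mp h3 with h4 | h4
  · exact eq_neg_of_add_eq_zero_left h4
  · exact absurd h4 hτ

theorem exists_ne_zero_of_qCoeff_ne_zero {h : ℍ → ℂ} {n : ℕ}
    (hn : ModularFormClass.qCoeff h n ≠ 0) : ∃ τ : ℍ, h τ ≠ 0 := by
  by_contra hcon
  have h0 : h = 0 := funext fun τ => by_contra fun hτ => hcon ⟨τ, hτ⟩
  apply hn
  rw [h0]
  unfold ModularFormClass.qCoeff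
  rw [qExpansion_zero]
  simp

end Neben

/-! ## The wiring -/

section Main

/-- The eigenvalues of the form as algebraic integers (zero where they are not integral). -/
def aInt (a : ℕ → ℂ) (p : ℕ) : Zbar :=
  letI := Classical.propDecidable (IsIntegral ℤ (a p))
  if h : IsIntegral ℤ (a p) then ⟨a p, h⟩ else 0

theorem coe_aInt (a : ℕ → ℂ) {p : ℕ} (h : IsIntegral ℤ (a p)) : ((aInt a p : Zbar) : ℂ) = a p := by
  unfold aInt
  rw [dif_pos h]

theorem natCast_mul_chiProd {N ℓ M : ℕ} [NeZero N] [NeZero ℓ] [NeZero M]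
    (ε : DirichletCharacter ℂ N) (ψ : DirichletCharacter ℂ ℓ) (hN : N ∣ M) (hℓ : ℓ ∣ M)
    {k : Type} [Field k] (r : Zbar →+* k)
    (hψ : ∀ d : ℕ, ¬ ℓ ∣ d → r (epsZ ψ (d : ZMod ℓ)) * (d : k) = 1)
    {p : ℕ} (hp : p.Prime) (hpM : ¬ p ∣ M) (hpℓ : ¬ ℓ ∣ p) :
    (p : k) * r (epsZ (chiProd ε ψ hN hℓ) (p : ZMod M)) = r (epsZ ε (p : ZMod N)) := by
  have hcop : Nat.Coprime p M := (Nat.Prime.coprime_iff_not_dvd hp).2 hpM
  have hχ : epsZ (chiProd ε ψ hN hℓ) (p : ZMod M) =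
      epsZ ε (p : ZMod N) * epsZ ψ (p : ZMod ℓ) := by
    apply Subtype.ext
    push_cast
    rw [coe_epsZ, coe_epsZ, coe_epsZ, chiProd_natCast ε ψ hN hℓ hcop]
  rw [hχ, map_mul]
  have := hψ p hpℓ
  calc (p : k) * (r (epsZ ε (p : ZMod N)) * r (epsZ ψ (p : ZMod ℓ)))
      = r (epsZ ε (p : ZMod N)) * (r (epsZ ψ (p : ZMod ℓ)) * (p : k)) := by ring
    _ = r (epsZ ε (p : ZMod N)) := by rw [this, mul_one]

/-- The formal Hecke relation modulo `r`, from the relation of the packet. -/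
theorem formalEigenAt_of_inPacket {N ℓ M : ℕ} [NeZero N] [NeZero ℓ] [NeZero M]
    (ε : DirichletCharacter ℂ N) (ψ : DirichletCharacter ℂ ℓ) (hN : N ∣ M) (hℓ : ℓ ∣ M)
    {k : Type} [Field k] (r : Zbar →+* k) (a : ℕ → ℂ) (h : ℍ → ℂ)
    (hpack : helper32.InPacket N ε a h) (A B : ℕ → Zbar)
    (hA : ∀ n, (A n : ℂ) = ModularFormClass.qCoeff h n)
    (hAB : ∀ n, r (B n) = r (A n))
    (hψ : ∀ d : ℕ, ¬ ℓ ∣ d → r (epsZ ψ (d : ZMod ℓ)) * (d : k) = 1)
    {p : ℕ} (hp : p.Prime) (hpM : ¬ p ∣ M) (hpℓ : ¬ ℓ ∣ p) (hint : IsIntegral ℤ (a p)) :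
    helper32.FormalEigenAt (fun n => r (B n)) p (r (aInt a p))
      ((p : k) * r (epsZ (chiProd ε ψ hN hℓ) (p : ZMod M))) := by
  have hpN : ¬ p ∣ N := fun hdvd => hpM (hdvd.trans hN)
  have he := natCast_mul_chiProd ε ψ hN hℓ r hψ hp hpM hpℓ
  intro n
  show r (B (p * n)) + _ * (if p ∣ n then r (B (n / p)) else 0) = r (aInt a p) * r (B n)
  rw [he, hAB, hAB n]
  have hrel : A (p * n) + epsZ ε (p : ZMod N) * (if p ∣ n then A (n / p) else 0) =
      aInt a p * A n := by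
    apply Subtype.ext
    have h1 := hpack p hp hpN n
    push_cast
    rw [coe_aInt a hint, hA, hA n, coe_epsZ, ← h1]
    congr 2
    split_ifs
    · exact hA _
    · rfl
  have h2 := congrArg r hrel
  rw [map_add, map_mul, map_mul] at h2
  rw [← h2]
  congr 2
  split_ifs
  · rw [hAB]
  · rw [map_zero]

/-- **[T4-R-WIRE]** the residual representations with the auxiliary level `c` (`4 ∣ c` or
`9 ∣ c`) from the deliverables of the blocks (I) and (V). -/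
theorem res1_of (c : ℕ) (hc0 : c ≠ 0) (hc : 4 ∣ c ∨ 9 ∣ c) (hE : helper32.Eigen1Statement)
    (hP : helper32.PrimStatement) : helper32.Res1Statement c := by
  intro N hNZ ε f hf1 hpack ℓ hℓ hℓ2 _ k iF iC iA φ
  have : Fact ℓ.Prime := ⟨hℓ⟩
  have : NeZero ℓ := ⟨hℓ.ne_zero⟩
  have : NeZero (c * N) := ⟨mul_ne_zero hc0 (NeZero.ne N)⟩
  have hMZ : NeZero (c * N * ℓ) := ⟨mul_ne_zero (mul_ne_zero hc0 (NeZero.ne N)) hℓ.ne_zero⟩
  have h3 : 3 ≤ ℓ := by
    have := hℓ.two_le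
    omega
  have h2k : (2 : k) ≠ 0 := by
    intro h2
    have h2' : ((2 : ℕ) : k) = 0 := by exact_mod_cast h2
    have hdvd := (CharP.cast_eq_zero_iff k ℓ 2).1 h2'
    exact hℓ2 ((Nat.prime_dvd_prime_iff_eq hℓ Nat.prime_two).1 hdvd)
  have hN : N ∣ c * N * ℓ := (dvd_mul_left N c).mul_right ℓ
  have hℓM : ℓ ∣ c * N * ℓ := dvd_mul_left ℓ (c * N)
  have hcM : 4 ∣ c * N * ℓ ∨ 9 ∣ c * N * ℓ :=
    hc.imp (fun h => h.trans ((dvd_mul_right c N).mul_right ℓ))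
      (fun h => h.trans ((dvd_mul_right c N).mul_right ℓ))
  -- block (V): the primitive form of the packet
  obtain ⟨hint, hprim⟩ := hP N hNZ ε f hf1 hpack
  obtain ⟨h₁, A, hA, ⟨n₀, hn₀⟩, hneb, hpack₁⟩ :=
    hprim (RingHom.ker φ) (helper4.ker_isMaximal ℓ k φ)
  have hφn₀ : φ (A n₀) ≠ 0 := fun h => hn₀ ((RingHom.mem_ker).2 h)
  have hq₀ : ModularFormClass.qCoeff h₁ n₀ ≠ 0 := by
    rw [← hA n₀]
    intro h0
    apply hφn₀
    have : A n₀ = 0 := Subtype.ext (by simpa using h0)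
    rw [this, map_zero]
  obtain ⟨τ₀, hτ₀⟩ := exists_ne_zero_of_qCoeff_ne_zero hq₀
  have hodd : ε (-1) = -1 := hasNeben_odd hneb hτ₀
  -- block (III): the product with the Eisenstein series
  obtain ⟨ψ, X, E, g, B, -, hX, hXk, hlaw, hg, hB, hrB⟩ :=
    helper4.outContract (c * N) ℓ h3 k φ
      (helper93.restrictCuspForm (helper93.gamma1GL_le_of_dvd (dvd_mul_left N c)) h₁) A hA
  have hXψ : ∀ u : ZMod ℓ, X u = epsZ ψ u := fun u => Subtype.ext (hX u)
  have hψk : ∀ d : ℕ, ¬ ℓ ∣ d → φ (epsZ ψ (d : ZMod ℓ)) * (d : k) = 1 := by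
    intro d hd
    rw [← hXψ]
    exact hXk d hd
  have hnebg : helper32.HasNeben (c * N * ℓ) 2 (chiProd ε ψ hN hℓM) g :=
    hasNeben_mul ε ψ hN hℓM h₁ E g hneb hlaw hg
  have hprime : ∀ p : ℕ, p.Prime → ¬ p ∣ c * N * ℓ → ¬ ℓ ∣ p := by
    intro p hp hpM hℓp
    apply hpM
    rw [← (Nat.prime_dvd_prime_iff_eq hℓ hp).1 hℓp]
    exact hℓM
  -- block (I)
  obtain ⟨V, _, _, _, _, ρ, hfin, hes⟩ :=
    hE (c * N * ℓ) hMZ hcM ℓ hℓ hℓ2 k iF iC iA φ g (chiProd ε ψ hN hℓM)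
      (fun u => epsZ (chiProd ε ψ hN hℓM) u) B
      (fun p => φ (aInt (fun p => ModularFormClass.qCoeff f p) p))
      (fun u => rfl) hB ⟨n₀, by rw [hrB]; exact hφn₀⟩ hnebg
      (fun p hp hpM => formalEigenAt_of_inPacket ε ψ hN hℓM φ
        (fun p => ModularFormClass.qCoeff f p) h₁ hpack₁ A B hA hrB hψk hp hpM
        (hprime p hp hpM) (hint p hp (fun hdvd => hpM (hdvd.trans hN))))
  -- (R4)
  refine hasResidualMod_of_esAt ε φ hodd (fun p => ModularFormClass.qCoeff f p)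
    (aInt (fun p => ModularFormClass.qCoeff f p)) (c * N * ℓ) (NeZero.ne _) hN
    (fun p hp hpM => coe_aInt _ (hint p hp (fun hdvd => hpM (hdvd.trans hN)))) h2k ρ hfin
    (fun p hp hpM => ?_)
  have hpMℓ : ¬ p ∣ c * N * ℓ * ℓ := by
    intro hdvd
    rcases (Nat.Prime.dvd_mul hp).1 hdvd with h1 | h1
    · exact hpM h1
    · exact hpM (h1.trans hℓM)
  have h := hes p hp hpMℓ
  rw [natCast_mul_chiProd ε ψ hN hℓM φ hψk hp hpM (hprime p hp hpM)] at h
  exact h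

/-- The auxiliary level `4`. -/
theorem res1_four (hE : helper32.Eigen1Statement) (hP : helper32.PrimStatement) :
    helper32.Res1Statement 4 :=
  res1_of 4 (by norm_num) (Or.inl dvd_rfl) hE hP

/-- The auxiliary level `9`. -/
theorem res1_nine (hE : helper32.Eigen1Statement) (hP : helper32.PrimStatement) :
    helper32.Res1Statement 9 :=
  res1_of 9 (by norm_num) (Or.inr dvd_rfl) hE hP

end Main

end Fermat.Agent.T4.helper26
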