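import Fermat.Agent.T4.helper26_ResWire
import Fermat.Agent.T4.helper32_ResDefs

/-!
# T4 (R) wiring, step (R4) in MODULE form (helper26)

`helper32.HasResidualMod` (a `ResidualGaloisRep` with the characteristic polynomials of the
Frobenius lifts and trivial inertia) from a nonzero finite-dimensional module `V` satisfying the
Eichler-Shimura relations `helper32.EsAt` for the system `(φ(a_p), φ(ε(p)))`, `ε` an odd
Dirichlet character modulo `N`, at the primes `p ∤ Bad` (`N ∣ Bad`).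

Same proof as `helper26.exists_rep_of_quadModule` (on main), without the passage to matrices.
-/

set_option autoImplicit false

noncomputable section

namespace Fermat.Agent.T4.helper26

open Fermat.Agent.P3 Polynomial

section ModuleForm

variable {N : ℕ} [NeZero N] (ε : DirichletCharacter ℂ N)
variable {k : Type} [Field k] (φ : helper80.Zbar →+* k)
variable {V : Type} [AddCommGroup V] [Module k V]

/-- **(R4), module form.**  A nonzero finite-dimensional quadratic Frobenius module for the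
system `(a_p, ε(p))` (`ε` odd, `2 ≠ 0` in `k`), unramified outside `Bad` (`N ∣ Bad`), yields a
`ResidualGaloisRep` unramified outside `Bad` with
`charpoly (Frob_p) = X² - φ(a_p) X + φ(ε(p))`. -/
theorem exists_residualMod_of_quadModule (hodd : ε (-1) = -1) (a : ℕ → ℂ) (Bad : ℕ)
    (hBad : Bad ≠ 0) (hN : N ∣ Bad) (h2 : (2 : k) ≠ 0) [Module.Finite k V] [Nontrivial V]
    (r : GQ →* Module.End k V) (hr : GaloisFactorsThroughFiniteLevel r)
    (hunr : ∀ p : ℕ, p.Prime → ¬ p ∣ Bad → ∀ A : ValuationSubring Qbar, A.LiesOverPrime p →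
      ∀ σ ∈ A.inertiaSubgroupIn ℚ, r σ = 1)
    (hfrob : ∀ p : ℕ, p.Prime → ¬ p ∣ Bad → ∃ x : helper80.Zbar, (x : ℂ) = a p ∧
      ∀ A : ValuationSubring Qbar, A.LiesOverPrime p → ∀ σ : GQ, A.IsFrobeniusAt σ p →
        r σ * r σ - φ x • r σ + φ (epsZ ε (p : ZMod N)) • (1 : Module.End k V) = 0) :
    ∃ ρ : ResidualGaloisRep k, ∀ p : ℕ, p.Prime → ¬ p ∣ Bad →
      ∃ x y : helper80.Zbar, (x : ℂ) = a p ∧ (y : ℂ) = ε (p : ZMod N) ∧
        ∀ A : ValuationSubring Qbar, A.LiesOverPrime p →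
          (∀ σ ∈ A.inertiaSubgroupIn ℚ, ρ.ρ σ = 1) ∧
          ∀ σ : GQ, A.IsFrobeniusAt σ p →
            LinearMap.charpoly (ρ.ρ σ) = X ^ 2 - C (φ x) * X + C (φ y) := by
  classical
  let xk : ℕ → k := fun p =>
    if h : p.Prime ∧ ¬ p ∣ Bad then φ (Classical.choose (hfrob p h.1 h.2)) else 0
  have hxk : ∀ (p : ℕ) (hp : p.Prime) (hpB : ¬ p ∣ Bad),
      xk p = φ (Classical.choose (hfrob p hp hpB)) := fun p hp hpB => dif_pos ⟨hp, hpB⟩
  have hfrob' : ∀ p : ℕ, p.Prime → ¬ p ∣ Bad → ∀ A : ValuationSubring Qbar,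
      A.LiesOverPrime p → ∀ σ : GQ, A.IsFrobeniusAt σ p →
        r σ * r σ - xk p • r σ + φ (epsZ ε (p : ZMod N)) • (1 : Module.End k V) = 0 := by
    intro p hp hpB A hA σ hσ
    rw [hxk p hp hpB]
    exact (Classical.choose_spec (hfrob p hp hpB)).2 A hA σ hσ
  have hq := exists_quadratic ε φ Bad hBad hN r hr xk hfrob'
  choose t ht using hq
  obtain ⟨ρ, hchar, htriv⟩ := helper22.exists_residualGaloisRep_of_quadratic k V h2 r hr t
    (epsGal ε φ) (epsGal_factorsThroughFiniteLevel ε φ) ht complexConjugation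
    complexConjugation_mul_self (epsGal_complexConjugation ε φ hodd)
  refine ⟨ρ, fun p hp hpB => ?_⟩
  have hpN : Nat.Coprime N p := by
    rw [Nat.coprime_comm]
    exact (Nat.Prime.coprime_iff_not_dvd hp).2 (fun h => hpB (h.trans hN))
  refine ⟨Classical.choose (hfrob p hp hpB), epsZ ε (p : ZMod N),
    (Classical.choose_spec (hfrob p hp hpB)).1, rfl, fun A hA => ⟨fun σ hσ => ?_, fun σ hσ => ?_⟩⟩
  · exact htriv σ (hunr p hp hpB A hA σ hσ) (epsGal_inertia ε φ hpN A hA σ hσ)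
  · have hd : epsGal ε φ σ = φ (epsZ ε (p : ZMod N)) := epsGal_frobenius ε φ hpN A hA σ hσ
    have h1 := ht σ
    have h3 := hfrob' p hp hpB A hA σ hσ
    rw [hd] at h1
    have h4 : (xk p - t σ) • r σ = 0 := by
      have : (xk p - t σ) • r σ =
          (r σ * r σ - t σ • r σ + φ (epsZ ε (p : ZMod N)) • (1 : Module.End k V)) -
            (r σ * r σ - xk p • r σ + φ (epsZ ε (p : ZMod N)) • (1 : Module.End k V)) := by
        rw [sub_smul]; abel
      rw [this, h1, h3, sub_zero]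
    have hinv : r σ * r σ⁻¹ = 1 := by rw [← map_mul, mul_inv_cancel, map_one]
    have h5 : xk p = t σ := sub_eq_zero.1 (smul_unit_eq_zero hinv h4)
    rw [hchar σ, ← h5, hxk p hp hpB, hd]

/-- **`res_of_es`**: `helper32.HasResidualMod` from a module with the Eichler-Shimura relations
`helper32.EsAt` at the primes `p ∤ D` for the system `(φ(aZ p), φ(ε(p)))`. -/
theorem hasResidualMod_of_esAt (hodd : ε (-1) = -1) (a : ℕ → ℂ) (aZ : ℕ → helper80.Zbar)
    (D : ℕ) (hD : D ≠ 0) (hN : N ∣ D) (haZ : ∀ p : ℕ, p.Prime → ¬ p ∣ D → (aZ p : ℂ) = a p)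
    (h2 : (2 : k) ≠ 0) [Module.Finite k V] [Nontrivial V]
    (r : GQ →* Module.End k V) (hr : GaloisFactorsThroughFiniteLevel r)
    (hes : ∀ p : ℕ, p.Prime → ¬ p ∣ D →
      helper32.EsAt r p (φ (aZ p)) (φ (epsZ ε (p : ZMod N)))) :
    helper32.HasResidualMod D a (fun p : ℕ => ε (p : ZMod N)) φ :=
  exists_residualMod_of_quadModule ε φ hodd a D hD hN h2 r hr
    (fun p hp hpD A hA => (hes p hp hpD A hA).1)
    (fun p hp hpD => ⟨aZ p, haZ p hp hpD, fun A hA => (hes p hp hpD A hA).2⟩)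

end ModuleForm

end Fermat.Agent.T4.helper26
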