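import Fermat.Agent.P3.helper26_Cyclo
import Fermat.Agent.P3.helper65_Pseudo
import Fermat.Agent.P3.helper40_Cheb
import Fermat.Agent.P3.helper22_QuadraticRep
import Fermat.Agent.T4.helper80_EndgameDefs
import Fermat.Agent.T4.helper99_DSDefs

/-!
# T4 block (I), consumer wiring [RES-WIRE] (helper26)

The residual representations asked for by block (IV) (`helper80.HasResidual`,
`helper99.IsResidualFor`) follow from a **quadratic Frobenius module**:

a nonzero finite-dimensional `k`-vector space `V` (`2 ≠ 0` in `k`) with an action `r` of `G_ℚ`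
through a finite quotient, trivial on the inertia groups at the primes `p ∤ N l`, on which every
Frobenius lift at `p ∤ N l` satisfies `X² - φ(a_p) X + φ(ε(p)) = 0`, `ε` an ODD Dirichlet
character modulo `N`.

No geometry enters: the determinant is the Galois character `d = φ ∘ ε ∘ χ_N`
(`χ_N` = the cyclotomic character modulo `N`, `chiN`), the quadratic relation spreads from the
Frobenius lifts to all of `G_ℚ` by weak Chebotarev (`helper40.chebStatement`) and
`helper65.exists_quad_pow`, and `helper22.exists_residualGaloisRep_of_quadratic` produces the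
two-dimensional representation.

So block (I) only has to deliver `V` (e.g. an eigenspace in `J_H[l] ⊗ k`): unramified outside
`N l`, Eichler-Shimura relation `F² - T_p F + p ⟨p⟩ = 0`, and non-vanishing.

Main results: `chiN`, `chiN_inertia`, `chiN_frobenius`, `chiN_complexConjugation`,
`epsGal`, `hasResidual_of_quadModule`, `isResidualFor_of_quadModule`.
-/

set_option autoImplicit false

noncomputable section

namespace Fermat.Agent.T4.helper26

open Fermat.Agent.P3 Polynomial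

/-! ## The cyclotomic character modulo `N` -/

section ChiN

variable (N : ℕ) [NeZero N]

theorem natCard_rootsOfUnity_Qbar : Nat.card (rootsOfUnity N Qbar) = N :=
  HasEnoughRootsOfUnity.natCard_rootsOfUnity Qbar N

/-- The cyclotomic character of `G_ℚ` modulo `N`. -/
def chiN : GQ →* (ZMod N)ˣ :=
  (modularCyclotomicCharacter Qbar (natCard_rootsOfUnity_Qbar N)).comp
    (MulSemiringAction.toRingAut GQ Qbar)

theorem chiN_val (g : GQ) (a : ℕ) (h : ∀ ζ : Qbar, ζ ^ N = 1 → g ζ = ζ ^ a) :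
    ((chiN N g : (ZMod N)ˣ) : ZMod N) = (a : ZMod N) := by
  symm
  change (a : ZMod N) = ((modularCyclotomicCharacter Qbar (natCard_rootsOfUnity_Qbar N)
    (MulSemiringAction.toRingAut GQ Qbar g) : (ZMod N)ˣ) : ZMod N)
  apply modularCyclotomicCharacter.unique
  intro t ht
  have ht1 : (t : Qbar) ^ N = 1 := by
    have := (mem_rootsOfUnity _ _).1 ht
    rw [← Units.val_pow_eq_pow_val, this, Units.val_one]
  have h2 : MulSemiringAction.toRingAut GQ Qbar g (t : Qbar) = g (t : Qbar) := rfl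
  rw [h2, h (t : Qbar) ht1, ZMod.val_natCast]
  exact pow_eq_pow_mod a ht1

theorem chiN_eq_one (g : GQ) (h : ∀ ζ : Qbar, ζ ^ N = 1 → g ζ = ζ) : chiN N g = 1 := by
  apply Units.ext
  rw [chiN_val N g 1 (fun ζ hζ => by rw [h ζ hζ, pow_one]), Nat.cast_one, Units.val_one]

theorem chiN_inertia {p : ℕ} (hpN : Nat.Coprime N p) (A : ValuationSubring Qbar)
    (hA : A.LiesOverPrime p) (σ : GQ) (hσ : σ ∈ A.inertiaSubgroupIn ℚ) : chiN N σ = 1 := by
  obtain ⟨-, hval⟩ := (Fermat.Agent.S14.helper91.mem_inertiaSubgroupIn_iff_valuation A σ).1 hσ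
  apply chiN_eq_one
  intro ζ hζ
  have hN0 : N ≠ 0 := NeZero.ne N
  have hζA : ζ ∈ A := Fermat.Agent.P3.helper26.mem_of_pow_eq_one A hN0 hζ
  have hζ0 : ζ ≠ 0 := by
    rintro rfl
    rw [zero_pow hN0] at hζ
    exact zero_ne_one hζ
  have hvζ : A.valuation ζ = 1 := helper65.valuation_eq_one_of_pow_eq_one A hN0 hζ
  have hu : (σ ζ * ζ⁻¹) ^ N = 1 := by
    rw [mul_pow, inv_pow, ← map_pow, hζ, map_one, inv_one, mul_one]
  have h2 : A.valuation (σ ζ * ζ⁻¹ - 1) < 1 := by
    have h3 : σ ζ * ζ⁻¹ - 1 = (σ ζ - ζ) * ζ⁻¹ := by field_simp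
    rw [h3, map_mul, map_inv₀, hvζ, inv_one, mul_one]
    exact hval ζ hζA
  have h4 := helper65.eq_one_of_valuation_sub_lt_one A hA hpN hu h2
  field_simp at h4
  exact h4

theorem chiN_frobenius {p : ℕ} (hpN : Nat.Coprime N p) (A : ValuationSubring Qbar)
    (hA : A.LiesOverPrime p) (σ : GQ) (hσ : A.IsFrobeniusAt σ p) :
    ((chiN N σ : (ZMod N)ˣ) : ZMod N) = (p : ZMod N) :=
  chiN_val N σ p (fun ζ hζ => helper65.frob_rootOfUnity A hA hpN hσ ζ hζ)

theorem chiN_complexConjugation :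
    ((chiN N complexConjugation : (ZMod N)ˣ) : ZMod N) = -1 := by
  have hN0 : N ≠ 0 := NeZero.ne N
  rw [chiN_val N complexConjugation (N - 1)]
  · have h1 : ((N - 1 : ℕ) : ZMod N) + 1 = 0 := by
      rw [← Nat.cast_one (R := ZMod N), ← Nat.cast_add,
        Nat.sub_add_cancel (Nat.pos_of_ne_zero hN0), ZMod.natCast_self]
    exact eq_neg_of_add_eq_zero_left h1
  · intro ζ hζ
    rw [Fermat.Agent.P3.helper26.complexConjugation_apply_of_pow_eq_one hN0 hζ]
    have hζ0 : ζ ≠ 0 := by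
      rintro rfl
      rw [zero_pow hN0] at hζ
      exact zero_ne_one hζ
    apply inv_eq_of_mul_eq_one_right
    rw [← pow_succ', Nat.sub_add_cancel (Nat.pos_of_ne_zero hN0), hζ]

/-- The field of `N`-th roots of unity as a finite level for `chiN`. -/
theorem chiN_factorsThroughFiniteLevel : GaloisFactorsThroughFiniteLevel (chiN N) := by
  have hN0 : N ≠ 0 := NeZero.ne N
  set S : Set Qbar := {ζ : Qbar | ζ ^ N = 1} with hS
  have hfin : S.Finite := by
    apply Set.Finite.subset (Polynomial.nthRootsFinset N (1 : Qbar)).finite_toSet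
    intro ζ hζ
    rw [Finset.mem_coe, Polynomial.mem_nthRootsFinset (Nat.pos_of_ne_zero hN0)]
    exact hζ
  have : Finite S := hfin
  have hint : ∀ x ∈ S, IsIntegral ℚ x := fun x hx => by
    apply IsIntegral.of_pow (Nat.pos_of_ne_zero hN0)
    rw [show x ^ N = 1 from hx]
    exact isIntegral_one
  refine ⟨IntermediateField.adjoin ℚ S, IntermediateField.finiteDimensional_adjoin hint,
    fun σ hσ => ?_⟩
  apply chiN_eq_one
  intro ζ hζ
  exact hσ ζ (IntermediateField.subset_adjoin ℚ S hζ)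

end ChiN

/-! ## The Galois character of a Dirichlet character, with values in `k` -/

section Eps

variable {N : ℕ} [NeZero N] (ε : DirichletCharacter ℂ N)

theorem isIntegral_eps (u : ZMod N) : IsIntegral ℤ (ε u) := by
  by_cases hu : IsUnit u
  · obtain ⟨v, rfl⟩ := hu
    have hcard : 0 < Fintype.card (ZMod N)ˣ := Fintype.card_pos
    have h1 : ε (v : ZMod N) ^ Fintype.card (ZMod N)ˣ = 1 := by
      rw [← map_pow, ← Units.val_pow_eq_pow_val, pow_card_eq_one, Units.val_one, map_one]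
    apply IsIntegral.of_pow hcard
    rw [h1]
    exact isIntegral_one
  · rw [MulChar.map_nonunit ε hu]
    exact isIntegral_zero

/-- The value `ε(u)` as an algebraic integer. -/
def epsZ (u : ZMod N) : helper80.Zbar := ⟨ε u, isIntegral_eps ε u⟩

@[simp] theorem coe_epsZ (u : ZMod N) : ((epsZ ε u : helper80.Zbar) : ℂ) = ε u := rfl

theorem epsZ_mul (u v : ZMod N) : epsZ ε (u * v) = epsZ ε u * epsZ ε v :=
  Subtype.ext (by simp)

theorem epsZ_one : epsZ ε 1 = 1 := Subtype.ext (by simp)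

variable {k : Type} [Field k] (φ : helper80.Zbar →+* k)

/-- The Galois character `φ ∘ ε ∘ χ_N` with values in `k`. -/
def epsGal : GQ →* k where
  toFun σ := φ (epsZ ε ((chiN N σ : (ZMod N)ˣ) : ZMod N))
  map_one' := by rw [map_one, Units.val_one, epsZ_one, map_one]
  map_mul' σ τ := by rw [map_mul, Units.val_mul, epsZ_mul, map_mul]

theorem epsGal_apply (σ : GQ) :
    epsGal ε φ σ = φ (epsZ ε ((chiN N σ : (ZMod N)ˣ) : ZMod N)) := rfl

theorem epsGal_factorsThroughFiniteLevel : GaloisFactorsThroughFiniteLevel (epsGal ε φ) := by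
  obtain ⟨L, hL, h⟩ := chiN_factorsThroughFiniteLevel N
  refine ⟨L, hL, fun σ hσ => ?_⟩
  rw [epsGal_apply, h σ hσ, Units.val_one, epsZ_one, map_one]

theorem epsGal_inertia {p : ℕ} (hpN : Nat.Coprime N p) (A : ValuationSubring Qbar)
    (hA : A.LiesOverPrime p) (σ : GQ) (hσ : σ ∈ A.inertiaSubgroupIn ℚ) : epsGal ε φ σ = 1 := by
  rw [epsGal_apply, chiN_inertia N hpN A hA σ hσ, Units.val_one, epsZ_one, map_one]

theorem epsGal_frobenius {p : ℕ} (hpN : Nat.Coprime N p) (A : ValuationSubring Qbar)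
    (hA : A.LiesOverPrime p) (σ : GQ) (hσ : A.IsFrobeniusAt σ p) :
    epsGal ε φ σ = φ (epsZ ε (p : ZMod N)) := by
  rw [epsGal_apply, chiN_frobenius N hpN A hA σ hσ]

theorem epsGal_complexConjugation (hodd : ε (-1) = -1) :
    epsGal ε φ complexConjugation = -1 := by
  rw [epsGal_apply, chiN_complexConjugation]
  have h : epsZ ε (-1 : ZMod N) = -1 := Subtype.ext (by simpa using hodd)
  rw [h, map_neg, map_one]

end Eps

/-! ## Spreading the quadratic relation from the Frobenius lifts to `G_ℚ` -/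

section Spread

variable {N : ℕ} [NeZero N] (ε : DirichletCharacter ℂ N)
variable {k : Type} [Field k] (φ : helper80.Zbar →+* k)
variable {V : Type} [AddCommGroup V] [Module k V]

/-- **(R4), spread**: if the Frobenius lifts at the primes `p ∤ Bad` satisfy
`X² - x_p X + φ(ε(p))` on `V`, then every `σ ∈ G_ℚ` satisfies `X² - t X + d(σ)` for some `t`,
`d = epsGal ε φ`. -/
theorem exists_quadratic (Bad : ℕ) (hBad : Bad ≠ 0) (hN : N ∣ Bad)
    (r : GQ →* Module.End k V) (hr : GaloisFactorsThroughFiniteLevel r) (x : ℕ → k)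
    (hfrob : ∀ p : ℕ, p.Prime → ¬ p ∣ Bad → ∀ A : ValuationSubring Qbar, A.LiesOverPrime p →
      ∀ σ : GQ, A.IsFrobeniusAt σ p →
        r σ * r σ - x p • r σ + φ (epsZ ε (p : ZMod N)) • (1 : Module.End k V) = 0)
    (σ : GQ) :
    ∃ t : k, r σ * r σ - t • r σ + epsGal ε φ σ • (1 : Module.End k V) = 0 := by
  obtain ⟨L₁, hL₁, h₁⟩ := hr
  obtain ⟨L₂, hL₂, h₂⟩ := epsGal_factorsThroughFiniteLevel ε φ
  have hfd : FiniteDimensional ℚ (L₁ ⊔ L₂ : IntermediateField ℚ Qbar) :=
    IntermediateField.finiteDimensional_sup L₁ L₂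
  obtain ⟨p, hp, hpBad, A, hA, τ, hτ, j, hj⟩ :=
    helper40.chebStatement (L₁ ⊔ L₂) hfd σ Bad.primeFactors
  have hpB : ¬ p ∣ Bad := fun h => hpBad (Nat.mem_primeFactors.2 ⟨hp, h, hBad⟩)
  have hpN : Nat.Coprime N p := by
    rw [Nat.coprime_comm]
    exact (Nat.Prime.coprime_iff_not_dvd hp).2 (fun h => hpB (h.trans hN))
  have hfix : ∀ y ∈ (L₁ ⊔ L₂ : IntermediateField ℚ Qbar), (σ⁻¹ * τ ^ j) y = y := by
    intro y hy
    rw [AlgEquiv.mul_apply, hj y hy]
    exact σ.symm_apply_apply y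
  have hr1 : r (σ⁻¹ * τ ^ j) = 1 :=
    h₁ _ (fun y hy => hfix y ((le_sup_left : L₁ ≤ L₁ ⊔ L₂) hy))
  have hd1 : epsGal ε φ (σ⁻¹ * τ ^ j) = 1 :=
    h₂ _ (fun y hy => hfix y ((le_sup_right : L₂ ≤ L₁ ⊔ L₂) hy))
  have hrσ : r σ = r τ ^ j := by
    have h3 : r σ * r (σ⁻¹ * τ ^ j) = r (τ ^ j) := by rw [← map_mul, mul_inv_cancel_left]
    rw [hr1, mul_one] at h3
    rw [h3, map_pow]
  have hdσ : epsGal ε φ σ = epsGal ε φ τ ^ j := by
    have h3 : epsGal ε φ σ * epsGal ε φ (σ⁻¹ * τ ^ j) = epsGal ε φ (τ ^ j) := by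
      rw [← map_mul, mul_inv_cancel_left]
    rw [hd1, mul_one] at h3
    rw [h3, map_pow]
  obtain ⟨t, ht⟩ := helper65.exists_quad_pow (r τ) (x p) (φ (epsZ ε (p : ZMod N)))
    (hfrob p hp hpB A hA τ hτ) j
  refine ⟨t, ?_⟩
  rw [hrσ, hdσ, epsGal_frobenius ε φ hpN A hA τ hτ]
  exact ht

end Spread

/-! ## From `ResidualGaloisRep` to matrices -/

section Matrix

variable {k : Type} [Field k]

theorem quad_coeffs {a b c d : k}
    (h : (X : k[X]) ^ 2 - C a * X + C b = X ^ 2 - C c * X + C d) : a = c ∧ b = d := by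
  have h1 := congrArg (fun P : k[X] => P.coeff 1) h
  have h0 := congrArg (fun P : k[X] => P.coeff 0) h
  simp only [coeff_add, coeff_sub, coeff_X_pow, coeff_C_mul, coeff_X_one, coeff_C,
    coeff_X_zero] at h1 h0
  norm_num at h1 h0
  exact ⟨h1, h0⟩

/-- The matrix form of a residual representation (in a basis of its space). -/
def toGL (ρ : ResidualGaloisRep k) : GQ →* GL (Fin 2) k :=
  ((MonoidHomClass.toMonoidHom
    (LinearMap.toMatrixAlgEquiv (Module.finBasisOfFinrankEq k ρ.V ρ.finrank_eq))).comp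
      ρ.ρ).toHomUnits

theorem coe_toGL (ρ : ResidualGaloisRep k) (σ : GQ) :
    ((toGL ρ σ : GL (Fin 2) k) : Matrix (Fin 2) (Fin 2) k) =
      LinearMap.toMatrix (Module.finBasisOfFinrankEq k ρ.V ρ.finrank_eq)
        (Module.finBasisOfFinrankEq k ρ.V ρ.finrank_eq) (ρ.ρ σ) := rfl

theorem toGL_eq_one (ρ : ResidualGaloisRep k) {σ : GQ} (h : ρ.ρ σ = 1) : toGL ρ σ = 1 := by
  apply Units.ext
  rw [coe_toGL, h, Units.val_one]
  exact LinearMap.toMatrix_one _

theorem toGL_factorsThroughFiniteLevel (ρ : ResidualGaloisRep k) :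
    GaloisFactorsThroughFiniteLevel (toGL ρ) := by
  obtain ⟨L, hL, h⟩ := ρ.factorsThroughFiniteLevel
  exact ⟨L, hL, fun σ hσ => toGL_eq_one ρ (h σ hσ)⟩

theorem trace_det_toGL (ρ : ResidualGaloisRep k) {σ : GQ} {t d : k}
    (h : LinearMap.charpoly (ρ.ρ σ) = X ^ 2 - C t * X + C d) :
    ((toGL ρ σ : GL (Fin 2) k) : Matrix (Fin 2) (Fin 2) k).trace = t ∧
      ((toGL ρ σ : GL (Fin 2) k) : Matrix (Fin 2) (Fin 2) k).det = d := by
  rw [coe_toGL]
  have h1 := LinearMap.charpoly_toMatrix (ρ.ρ σ)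
    (Module.finBasisOfFinrankEq k ρ.V ρ.finrank_eq)
  rw [h, Matrix.charpoly_fin_two] at h1
  exact quad_coeffs h1

end Matrix

/-! ## The wiring -/

section Main

variable {N : ℕ} [NeZero N] (ε : DirichletCharacter ℂ N)
variable {k : Type} [Field k] (φ : helper80.Zbar →+* k)
variable {V : Type} [AddCommGroup V] [Module k V]

theorem smul_unit_eq_zero [Nontrivial V] {c : k} {f g : Module.End k V} (hfg : f * g = 1)
    (h : c • f = 0) : c = 0 := by
  have h1 : c • (1 : Module.End k V) = 0 := by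
    rw [← hfg, ← smul_mul_assoc, h, zero_mul]
  rcases smul_eq_zero.1 h1 with h2 | h2
  · exact h2
  · exact absurd h2 one_ne_zero

/-- **[RES-WIRE] = (R4) of BLUEPRINT T4 v0.**  A nonzero finite-dimensional quadratic Frobenius
module for the system `(a_p, ε(p))` (`ε` odd, `2 ≠ 0` in `k`), unramified outside `Bad`
(`N ∣ Bad`), yields a two-dimensional representation of `G_ℚ` over `k` through a finite
quotient, unramified outside `Bad`, with `tr Frob_p = φ(a_p)` and `det Frob_p = φ(ε(p))`. -/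
theorem exists_rep_of_quadModule (hodd : ε (-1) = -1) (a : ℕ → ℂ) (Bad : ℕ) (hBad : Bad ≠ 0)
    (hN : N ∣ Bad) (h2 : (2 : k) ≠ 0) [Module.Finite k V] [Nontrivial V]
    (r : GQ →* Module.End k V) (hr : GaloisFactorsThroughFiniteLevel r)
    (hunr : ∀ p : ℕ, p.Prime → ¬ p ∣ Bad → ∀ A : ValuationSubring Qbar, A.LiesOverPrime p →
      ∀ σ ∈ A.inertiaSubgroupIn ℚ, r σ = 1)
    (hfrob : ∀ p : ℕ, p.Prime → ¬ p ∣ Bad → ∃ x : helper80.Zbar, (x : ℂ) = a p ∧
      ∀ A : ValuationSubring Qbar, A.LiesOverPrime p → ∀ σ : GQ, A.IsFrobeniusAt σ p →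
        r σ * r σ - φ x • r σ + φ (epsZ ε (p : ZMod N)) • (1 : Module.End k V) = 0) :
    ∃ ρ : GQ →* GL (Fin 2) k, GaloisFactorsThroughFiniteLevel ρ ∧
      ∀ p : ℕ, p.Prime → ¬ p ∣ Bad → ∃ x y : helper80.Zbar, (x : ℂ) = a p ∧
        (y : ℂ) = ε (p : ZMod N) ∧ helper80.FrobData ρ p (φ x) (φ y) := by
  classical
  -- the Frobenius traces as a function of `p`
  let xk : ℕ → k := fun p =>
    if h : p.Prime ∧ ¬ p ∣ Bad then φ (Classical.choose (hfrob p h.1 h.2)) else 0
  have hxk : ∀ (p : ℕ) (hp : p.Prime) (hpB : ¬ p ∣ Bad),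
      xk p = φ (Classical.choose (hfrob p hp hpB)) := fun p hp hpB => dif_pos ⟨hp, hpB⟩
  have hfrob' : ∀ p : ℕ, p.Prime → ¬ p ∣ Bad → ∀ A : ValuationSubring Qbar,
      A.LiesOverPrime p → ∀ σ : GQ, A.IsFrobeniusAt σ p →
        r σ * r σ - xk p • r σ + φ (epsZ ε (p : ZMod N)) • (1 : Module.End k V) = 0 := by
    intro p hp hpB A hA σ hσ
    rw [hxk p hp hpB]
    exact (Classical.choose_spec (hfrob p hp hpB)).2 A hA σ hσ
  have hq := exists_quadratic ε φ Bad hBad hN r hr xk hfrob'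
  choose t ht using hq
  obtain ⟨ρ, hchar, htriv⟩ := helper22.exists_residualGaloisRep_of_quadratic k V h2 r hr t
    (epsGal ε φ) (epsGal_factorsThroughFiniteLevel ε φ) ht complexConjugation
    complexConjugation_mul_self (epsGal_complexConjugation ε φ hodd)
  refine ⟨toGL ρ, toGL_factorsThroughFiniteLevel ρ, fun p hp hpB => ?_⟩
  have hpN : Nat.Coprime N p := by
    rw [Nat.coprime_comm]
    exact (Nat.Prime.coprime_iff_not_dvd hp).2 (fun h => hpB (h.trans hN))
  refine ⟨Classical.choose (hfrob p hp hpB), epsZ ε (p : ZMod N),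
    (Classical.choose_spec (hfrob p hp hpB)).1, rfl, fun A hA => ⟨fun σ hσ => ?_, fun σ hσ => ?_⟩⟩
  · exact toGL_eq_one ρ (htriv σ (hunr p hp hpB A hA σ hσ) (epsGal_inertia ε φ hpN A hA σ hσ))
  · have hd : epsGal ε φ σ = φ (epsZ ε (p : ZMod N)) := epsGal_frobenius ε φ hpN A hA σ hσ
    have h1 := ht σ
    have h3 := hfrob' p hp hpB A hA σ hσ
    rw [hd] at h1
    have h4 : (xk p - t σ) • r σ = 0 := by
      have : (xk p - t σ) • r σ =
          (r σ * r σ - t σ • r σ + φ (epsZ ε (p : ZMod N)) • (1 : Module.End k V)) -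
            (r σ * r σ - xk p • r σ + φ (epsZ ε (p : ZMod N)) • (1 : Module.End k V)) := by
        rw [sub_smul]; abel
      rw [this, h1, h3, sub_zero]
    have hinv : r σ * r σ⁻¹ = 1 := by rw [← map_mul, mul_inv_cancel, map_one]
    have h5 : xk p = t σ := sub_eq_zero.1 (smul_unit_eq_zero hinv h4)
    have h6 := trace_det_toGL ρ (hchar σ)
    rw [← h5, hxk p hp hpB, hd] at h6
    exact h6

/-- `helper80.HasResidual` from a quadratic Frobenius module of level `N' * l`, `N ∣ N'`. -/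
theorem hasResidual_of_quadModule (hodd : ε (-1) = -1) (a : ℕ → ℂ) (N' l : ℕ) (hN' : N' ≠ 0)
    (hl : l ≠ 0) (hN : N ∣ N') (h2 : (2 : k) ≠ 0) [Module.Finite k V] [Nontrivial V]
    (r : GQ →* Module.End k V) (hr : GaloisFactorsThroughFiniteLevel r)
    (hunr : ∀ p : ℕ, p.Prime → ¬ p ∣ N' * l → ∀ A : ValuationSubring Qbar, A.LiesOverPrime p →
      ∀ σ ∈ A.inertiaSubgroupIn ℚ, r σ = 1)
    (hfrob : ∀ p : ℕ, p.Prime → ¬ p ∣ N' * l → ∃ x : helper80.Zbar, (x : ℂ) = a p ∧
      ∀ A : ValuationSubring Qbar, A.LiesOverPrime p → ∀ σ : GQ, A.IsFrobeniusAt σ p →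
        r σ * r σ - φ x • r σ + φ (epsZ ε (p : ZMod N)) • (1 : Module.End k V) = 0) :
    helper80.HasResidual N' a (fun p : ℕ => ε (p : ZMod N)) l φ :=
  exists_rep_of_quadModule ε φ hodd a (N' * l) (mul_ne_zero hN' hl) (hN.mul_right l) h2 r hr
    hunr hfrob

/-- `helper99.IsResidualFor` from a quadratic Frobenius module of level `N * l`. -/
theorem isResidualFor_of_quadModule (hodd : ε (-1) = -1) (f : CuspForm (CongruenceSubgroup.Gamma1 N) 1)
    (l : ℕ) (hl : l.Prime) (h2 : (2 : k) ≠ 0) [Module.Finite k V] [Nontrivial V]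
    (r : GQ →* Module.End k V) (hr : GaloisFactorsThroughFiniteLevel r)
    (hunr : ∀ p : ℕ, p.Prime → ¬ p ∣ N * l → ∀ A : ValuationSubring Qbar, A.LiesOverPrime p →
      ∀ σ ∈ A.inertiaSubgroupIn ℚ, r σ = 1)
    (hfrob : ∀ p : ℕ, p.Prime → ¬ p ∣ N * l → ∃ x : helper80.Zbar,
      (x : ℂ) = ModularFormClass.qCoeff f p ∧
      ∀ A : ValuationSubring Qbar, A.LiesOverPrime p → ∀ σ : GQ, A.IsFrobeniusAt σ p →
        r σ * r σ - φ x • r σ + φ (epsZ ε (p : ZMod N)) • (1 : Module.End k V) = 0) :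
    ∃ ρ : GQ →* GL (Fin 2) k, helper99.IsResidualFor N ε f l φ ρ := by
  obtain ⟨ρ, hρ, h⟩ := exists_rep_of_quadModule ε φ hodd
    (fun p => ModularFormClass.qCoeff f p) (N * l) (mul_ne_zero (NeZero.ne N) hl.ne_zero)
    (dvd_mul_right N l) h2 r hr hunr hfrob
  refine ⟨ρ, hρ, fun p hp hpN hpl A hA => ?_⟩
  have hpB : ¬ p ∣ N * l := by
    intro hdvd
    rcases (Nat.Prime.dvd_mul hp).1 hdvd with h1 | h1
    · exact hpN h1
    · exact hpl ((Nat.prime_dvd_prime_iff_eq hp hl).1 h1)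
  obtain ⟨x, y, hx, hy, hF⟩ := h p hp hpB
  exact ⟨(hF A hA).1, fun σ hσ => ⟨x, y, hx, hy, (hF A hA).2 σ hσ⟩⟩

end Main

end Fermat.Agent.T4.helper26
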