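import Mathlib
import Fermat.Agent.T4.helper80_EndgameDefs

/-!
# T4 block (IV), leaf [IV-VAL] (helper80)

Valuation subrings of an algebraically closed field: the residue field is algebraically
closed; above every prime number there is a valuation subring of `ℂ`.
-/

set_option autoImplicit false

namespace Fermat.Agent.T4.helper80

open Polynomial IsLocalRing

/-- The residue field of a valuation subring of an algebraically closed field is
algebraically closed. -/
theorem isAlgClosed_residueField {K : Type*} [Field K] [IsAlgClosed K]
    (V : ValuationSubring K) : IsAlgClosed (ResidueField V) := by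
  refine IsAlgClosed.of_exists_root _ ?_
  intro p hp hirr
  have hsurj : Function.Surjective (residue V) := residue_surjective
  have hlift : p ∈ Polynomial.lifts (residue V) :=
    (Polynomial.mem_lifts p).2 (Polynomial.map_surjective _ hsurj p)
  obtain ⟨P, hPmap, hPdeg, hPmonic⟩ := Polynomial.lifts_and_degree_eq_and_monic hlift hp
  have hdeg : (P.map (algebraMap V K)).degree ≠ 0 := by
    rw [Polynomial.degree_map_eq_of_injective (FaithfulSMul.algebraMap_injective V K), hPdeg]
    exact (Polynomial.degree_pos_of_irreducible hirr).ne'
  obtain ⟨z, hz⟩ := IsAlgClosed.exists_root (P.map (algebraMap V K)) hdeg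
  have hzint : IsIntegral V z := by
    refine ⟨P, hPmonic, ?_⟩
    rw [← Polynomial.eval_map]
    exact hz
  obtain ⟨y, hy⟩ := (IsIntegrallyClosed.isIntegral_iff (R := V) (K := K)).1 hzint
  refine ⟨residue V y, ?_⟩
  have h1 : Polynomial.eval y P = 0 := by
    have h2 : algebraMap V K (Polynomial.eval y P) = 0 := by
      have h3 := hz
      rw [Polynomial.IsRoot.def, ← hy, Polynomial.eval_map_algebraMap,
        Polynomial.aeval_algebraMap_apply] at h3
      rw [← h3, Polynomial.coe_aeval_eq_eval]
    exact (FaithfulSMul.algebraMap_injective V K) (by rw [h2, map_zero])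
  rw [← hPmap, Polynomial.eval_map, Polynomial.eval₂_hom, h1, map_zero]

/-- The residue characteristic of a valuation subring in which the prime `l` is not a
unit is `l`. -/
theorem charP_residueField {K : Type*} [Field K] (V : ValuationSubring K) (l : ℕ)
    (hl : l.Prime) (hV : (l : K) ∈ V.nonunits) : CharP (ResidueField V) l := by
  have h0 : ((l : ℕ) : ResidueField V) = 0 := by
    have hmem : ((l : ℕ) : V) ∈ maximalIdeal V := by
      rw [mem_maximalIdeal, mem_nonunits_iff]
      intro hu
      have h1 : (l : K) ∈ V.nonunits := hV
      rw [ValuationSubring.mem_nonunits_iff_exists_mem_maximalIdeal] at h1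
      obtain ⟨ha, hmem⟩ := h1
      rw [mem_maximalIdeal, mem_nonunits_iff] at hmem
      apply hmem
      have : (⟨(l : K), ha⟩ : V) = ((l : ℕ) : V) := by
        apply Subtype.ext
        simp
      rw [this]
      exact hu
    have := (residue_eq_zero_iff (R := V) ((l : ℕ) : V)).2 hmem
    simpa using this
  obtain ⟨q, hq⟩ := CharP.exists (ResidueField V)
  have hdvd : q ∣ l := (CharP.cast_eq_zero_iff (ResidueField V) q l).1 h0
  rcases (Nat.dvd_prime hl).1 hdvd with h1 | h1
  · exfalso
    subst h1
    exact CharP.char_ne_one (ResidueField V) 1 rfl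
  · subst h1
    exact hq

/-- Above every prime number there is a valuation subring of a field of characteristic
zero. -/
theorem exists_valuationSubring_over {K : Type*} [Field K] [CharZero K] (l : ℕ)
    (hl : l.Prime) : ∃ V : ValuationSubring K, (l : K) ∈ V.nonunits := by
  let A : Subring K := (Int.castRingHom K).range
  let x : A := ⟨(l : K), ⟨(l : ℤ), by simp⟩⟩
  have hI : Ideal.span {x} ≠ ⊤ := by
    intro htop
    rw [Ideal.span_singleton_eq_top] at htop
    obtain ⟨⟨y, n, hn⟩, hy⟩ := htop.exists_right_inv
    have h1 : (l : K) * y = 1 := congrArg Subtype.val hy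
    rw [← hn] at h1
    have h2 : ((l : ℤ) * n : ℤ) = 1 := by
      have : (((l : ℤ) * n : ℤ) : K) = ((1 : ℤ) : K) := by
        push_cast
        simpa using h1
      exact_mod_cast this
    have h3 : IsUnit (l : ℤ) := IsUnit.of_mul_eq_one _ h2
    have h4 := Int.isUnit_iff.1 h3
    have h5 : 2 ≤ l := hl.two_le
    omega
  obtain ⟨V, -, hV⟩ := Ideal.image_subset_nonunits_valuationSubring (Ideal.span {x}) hI
  refine ⟨V, hV ⟨x, ?_, rfl⟩⟩
  exact Ideal.subset_span (Set.mem_singleton x)

/-- **[IV-VAL]** -/
theorem valStatement : ValStatement := by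
  intro l hl
  obtain ⟨V, hV⟩ := exists_valuationSubring_over (K := ℂ) l hl
  exact ⟨V, hV, isAlgClosed_residueField V, charP_residueField V l hl hV⟩

end Fermat.Agent.T4.helper80
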