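import Mathlib
import Fermat.Agent.T4.helper80_EndgameDefs
import Fermat.Agent.T4.helper80_Val

/-!
# T4 block (IV): the core assembly of the endgame (helper80)

`endgame_core` : the conclusion of S48 for an abstract system `(a, e)` from

* `ImgInput N a e`  : residual representations for infinitely many `l`, each with a set `F`
  which is large in every quotient and carries at most `M` characteristic polynomials
  (`M` independent of `l`);
* `IrrInput N a`    : irreducibility of every finite-level complex representation with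
  Frobenius traces `a p`;
* the leaves `BoundStatement`, `LiftStatement`, `ValStatement`, `IndepStatement`.

The two inputs are route-independent: `ImgInput` can come from the Chebotarev density theorem
(`FinStatement` + `DensWireStatement`) or from the division density theorem.
-/

set_option autoImplicit false

namespace Fermat.Agent.T4.helper80

open IsLocalRing

/-! ## Small general lemmas -/

/-- Fixing subgroups of finite extensions of `ℚ` have finite index in `GQ`. -/
theorem finiteIndex_fixingSubgroup_of_finite (E : IntermediateField ℚ (AlgebraicClosure ℚ))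
    (hE : FiniteDimensional ℚ E) : E.fixingSubgroup.FiniteIndex := by
  have hA : Algebra.IsAlgebraic ℚ (AlgebraicClosure ℚ) := AlgebraicClosure.isAlgebraic ℚ
  have hC : IsAlgClosure ℚ (AlgebraicClosure ℚ) := ⟨inferInstance, hA⟩
  have hNo : Normal ℚ (AlgebraicClosure ℚ) := IsAlgClosure.normal ℚ (AlgebraicClosure ℚ)
  have hG : IsGalois ℚ (AlgebraicClosure ℚ) := ⟨⟩
  have hE' : @FiniteDimensional ℚ E _ _ E.module' := hE
  refine ⟨?_⟩
  rw [← IntermediateField.finrank_eq_fixingSubgroup_index]
  exact (@Module.finrank_pos ℚ E _ _ E.module' _ _ _ _).ne'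

/-- A finite-level homomorphism has finite-index kernel. -/
theorem finiteIndex_ker_of_finiteLevel {M : Type} [Group M] (ρ : GQ →* M)
    (h : GaloisFactorsThroughFiniteLevel ρ) : ρ.ker.FiniteIndex := by
  obtain ⟨L, hL, h1⟩ := h
  have hfi := finiteIndex_fixingSubgroup_of_finite L hL
  have hle : L.fixingSubgroup ≤ ρ.ker := by
    intro σ hσ
    rw [MonoidHom.mem_ker]
    apply h1 σ
    intro x hx
    exact (IntermediateField.mem_fixingSubgroup_iff L σ).1 hσ x hx
  exact Subgroup.finiteIndex_of_le hle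

/-- A finite-level homomorphism has finite range. -/
theorem finite_range_of_finiteLevel {M : Type} [Group M] (ρ : GQ →* M)
    (h : GaloisFactorsThroughFiniteLevel ρ) : Finite ρ.range := by
  have hfi := finiteIndex_ker_of_finiteLevel ρ h
  have : Finite (GQ ⧸ ρ.ker) := Subgroup.finite_quotient_of_finiteIndex
  exact Finite.of_equiv _ (QuotientGroup.quotientKerEquivRange ρ).toEquiv

/-- Finite level passes along an inclusion of kernels. -/
theorem finiteLevel_of_ker_le {M M' : Type} [Group M] [Group M'] (ρ : GQ →* M) (r : GQ →* M')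
    (hker : ρ.ker ≤ r.ker) (h : GaloisFactorsThroughFiniteLevel ρ) :
    GaloisFactorsThroughFiniteLevel r := by
  obtain ⟨L, hL, h1⟩ := h
  exact ⟨L, hL, fun σ hσ => MonoidHom.mem_ker.1 (hker (MonoidHom.mem_ker.2 (h1 σ hσ)))⟩

/-- If `ker f ≤ ker g` and `f` has finite range, so has `g`, of at most the same order. -/
theorem card_range_le_of_ker_le {Γ G H : Type*} [Group Γ] [Group G] [Group H] (f : Γ →* G)
    (g : Γ →* H) (hker : f.ker ≤ g.ker) [Finite f.range] :
    Finite g.range ∧ Nat.card g.range ≤ Nat.card f.range := by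
  classical
  let F : f.range → g.range := fun y => ⟨g y.2.choose, ⟨_, rfl⟩⟩
  have hF : Function.Surjective F := by
    rintro ⟨_, γ, rfl⟩
    refine ⟨⟨f γ, ⟨γ, rfl⟩⟩, ?_⟩
    apply Subtype.ext
    show g (Exists.choose (⟨γ, rfl⟩ : ∃ x, f x = f γ)) = g γ
    have hch : f (Exists.choose (⟨γ, rfl⟩ : ∃ x, f x = f γ)) = f γ :=
      Exists.choose_spec (⟨γ, rfl⟩ : ∃ x, f x = f γ)
    have hmem : (Exists.choose (⟨γ, rfl⟩ : ∃ x, f x = f γ))⁻¹ * γ ∈ f.ker := by
      rw [MonoidHom.mem_ker, map_mul, map_inv, hch, inv_mul_cancel]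
    have h2 := hker hmem
    rw [MonoidHom.mem_ker, map_mul, map_inv, inv_mul_eq_one] at h2
    exact h2
  have hfin : Finite g.range := Finite.of_surjective F hF
  exact ⟨hfin, Nat.card_le_card_of_surjective F hF⟩

/-- Algebraic integers of `ℂ` lie in every valuation subring. -/
theorem mem_valuationSubring_of_isIntegral (V : ValuationSubring ℂ) {x : ℂ}
    (hx : IsIntegral ℤ x) : x ∈ V := by
  have h1 : IsIntegral V x := hx.tower_top
  obtain ⟨y, hy⟩ := (IsIntegrallyClosed.isIntegral_iff (R := V) (K := ℂ)).1 h1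
  rw [← hy]
  exact y.2

/-- The inclusion of the algebraic integers into a valuation subring of `ℂ`. -/
noncomputable def zbarToV (V : ValuationSubring ℂ) : Zbar →+* V where
  toFun x := ⟨(x : ℂ), mem_valuationSubring_of_isIntegral V x.2⟩
  map_one' := Subtype.ext rfl
  map_mul' _ _ := Subtype.ext rfl
  map_zero' := Subtype.ext rfl
  map_add' _ _ := Subtype.ext rfl

@[simp] theorem zbarToV_coe (V : ValuationSubring ℂ) (x : Zbar) :
    ((zbarToV V x : V) : ℂ) = (x : ℂ) := rfl

/-- The residue map of the algebraic integers attached to a valuation subring of `ℂ`. -/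
noncomputable def zbarResidue (V : ValuationSubring ℂ) : Zbar →+* ResidueField V :=
  (residue V).comp (zbarToV V)

/-- Elements of `V` with the same residue differ by a nonunit. -/
theorem sub_mem_nonunits_of_residue_eq (V : ValuationSubring ℂ) (t u : V)
    (h : residue V t = residue V u) : (t : ℂ) - (u : ℂ) ∈ V.nonunits := by
  rw [ValuationSubring.mem_nonunits_iff_exists_mem_maximalIdeal]
  refine ⟨(t - u).2, ?_⟩
  have h1 : residue V (t - u) = 0 := by rw [map_sub, h, sub_self]
  exact (residue_eq_zero_iff (R := V) (t - u)).1 h1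

/-! ## The two route-independent inputs -/

/-- Residual representations for infinitely many `l` together with a set which is large in
every quotient and carries at most `M` characteristic polynomials. -/
def ImgInput (N : ℕ) (a e : ℕ → ℂ) : Prop :=
  ∃ M : ℕ, ∀ B : ℕ, ∃ l : ℕ, B ≤ l ∧ l.Prime ∧
    ∀ (k : Type) (_ : Field k) (_ : CharP k l) (_ : IsAlgClosed k) (φ : Zbar →+* k),
      ∃ ρ : GQ →* GL (Fin 2) k, GaloisFactorsThroughFiniteLevel ρ ∧
        (∀ p : ℕ, p.Prime → ¬ p ∣ N * l →
          ∃ x y : Zbar, (x : ℂ) = a p ∧ (y : ℂ) = e p ∧ FrobData ρ p (φ x) (φ y)) ∧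
        ∃ F : Set GQ, LargeIn ρ F ∧ FewCharpolys ρ F M

/-- Irreducibility of every finite-level complex representation with Frobenius traces `a p`. -/
def IrrInput (N : ℕ) (a : ℕ → ℂ) : Prop :=
  ∀ ρ : GQ →* GL (Fin 2) ℂ, GaloisFactorsThroughFiniteLevel ρ →
    (∀ p : ℕ, p.Prime → ¬ p ∣ N →
      ∀ A : ValuationSubring (AlgebraicClosure ℚ), A.LiesOverPrime p →
        ∀ σ : GQ, A.IsFrobeniusAt σ p →
          ((ρ σ : GL (Fin 2) ℂ) : Matrix (Fin 2) (Fin 2) ℂ).trace = a p) →
    (Deformation.matrixRepresentation ρ).IsIrreducible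

/-! ## The core assembly -/

/-- **Core of the endgame.** -/
theorem endgame_core (hBound : BoundStatement) (hLift : LiftStatement) (hVal : ValStatement)
    (hIndep : IndepStatement) (N : ℕ) (hN : N ≠ 0) (a e : ℕ → ℂ)
    (hinta : ∀ p : ℕ, p.Prime → ¬ p ∣ N → IsIntegral ℤ (a p))
    (hinte : ∀ p : ℕ, p.Prime → ¬ p ∣ N → IsIntegral ℤ (e p))
    (hImg : ImgInput N a e) (hIrr : IrrInput N a) : Conclusion N a e := by
  obtain ⟨M, hImg⟩ := hImg
  obtain ⟨A, hA⟩ := hBound M
  have hlifts : ∀ B : ℕ, ∃ l : ℕ, B ≤ l ∧ l.Prime ∧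
      ∃ (V : ValuationSubring ℂ) (r : GQ →* GL (Fin 2) ℂ), IsCongruentLift N a e A l V r := by
    intro B
    obtain ⟨l, hlB, hl, hres⟩ := hImg (max B (A + 1))
    refine ⟨l, le_trans (le_max_left _ _) hlB, hl, ?_⟩
    have hAl : A < l := lt_of_lt_of_le (Nat.lt_succ_self A) (le_trans (le_max_right _ _) hlB)
    obtain ⟨V, hV, hAC, hCh⟩ := hVal l hl
    obtain ⟨ρb, hlev, hfrob, F, hLarge, hFew⟩ :=
      hres (ResidueField V) inferInstance hCh hAC (zbarResidue V)
    have hfin : Finite ρb.range := finite_range_of_finiteLevel ρb hlev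
    obtain ⟨ρ', hker, htd, hcard, hndvd⟩ :=
      hA (ResidueField V) inferInstance l hl hCh hAl GQ inferInstance ρb hfin F hLarge hFew
    obtain ⟨hfin', -⟩ := card_range_le_of_ker_le ρb ρ' hker
    have hne : ((Nat.card ρ'.range : ℕ) : ResidueField V) ≠ 0 := by
      intro h0
      exact hndvd ((CharP.cast_eq_zero_iff (ResidueField V) l _).1 h0)
    obtain ⟨r, hkr, hr⟩ := hLift V GQ inferInstance ρ' hfin' hne
    refine ⟨V, r, hV, ?_, ?_, ?_⟩
    · exact finiteLevel_of_ker_le ρb r (le_trans hker hkr) hlev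
    · exact le_trans (card_range_le_of_ker_le ρ' r hkr).2 hcard
    · intro p hp hpN B' hB'
      obtain ⟨x, y, hx, hy, hFD⟩ := hfrob p hp hpN
      obtain ⟨hin, hfr⟩ := hFD B' hB'
      refine ⟨fun σ hσ => ?_, fun σ hσ => ?_⟩
      · exact MonoidHom.mem_ker.1 (hkr (hker (MonoidHom.mem_ker.2 (hin σ hσ))))
      · obtain ⟨htr, hdet⟩ := hfr σ hσ
        obtain ⟨t, d, ht, hd, hrt, hrd⟩ := hr σ
        constructor
        · rw [← ht, ← hx, ← zbarToV_coe V x]
          apply sub_mem_nonunits_of_residue_eq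
          rw [hrt, (htd σ).1, htr]
          rfl
        · rw [← hd, ← hy, ← zbarToV_coe V y]
          apply sub_mem_nonunits_of_residue_eq
          rw [hrd, (htd σ).2, hdet]
          rfl
  obtain ⟨ρ, hlev, hρ⟩ := hIndep N a e hN hinta hinte A hlifts
  refine ⟨ρ, hlev, ?_, ?_⟩
  · exact hIrr ρ hlev (fun p hp hpN A' hA' σ hσ => (((hρ p hp hpN) A' hA').2 σ hσ).1)
  · intro p hp hpN A' hA'
    exact (hρ p hp hpN) A' hA'

end Fermat.Agent.T4.helper80
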