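import Mathlib
import Fermat.Agent.T4.helper2_DivDefs
import Fermat.Agent.T4.helper80_EndgameCore

/-!
# T4 (IV), DIV branch: [DIV-ASM] the endgame from the division density theorem (helper2)

`endgameDivOfLeaves : EndgameDivOfLeaves`.  The route-independent core `helper80.endgame_core`
is fed with

* `ImgInput` : the torsion set `torsSet ρ A₀` (eigenvalues in `μ_{A₀}`) of every residual
  representation, which is large in every quotient and carries at most `A₀ ^ 2` characteristic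
  polynomials (`TorsionStatement` + `DivWireStatement`);
* `IrrInput` : `IrrDivStatement`.
-/

set_option autoImplicit false

namespace Fermat.Agent.T4.helper2

open Fermat.Agent.T4.helper80

/-- `RankinStatement` gives the integrality of the `a p`. -/
theorem div_isIntegral_of_rankin (N : ℕ) (a : ℕ → ℂ) (h : RankinStatement N a) :
    ∀ p : ℕ, p.Prime → ¬ p ∣ N → IsIntegral ℤ (a p) := by
  obtain ⟨K, _, _, ι, α, hα, -⟩ := h
  intro p hp hpN
  rw [← hα p hp hpN]
  exact (NumberField.RingOfIntegers.isIntegral_coe (α p)).map ι.toIntAlgHom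

/-- The values of a Dirichlet character at the primes `p ∤ N` are roots of unity of bounded
order. -/
theorem div_char_pow_eq_one (N : ℕ) [NeZero N] (ε : DirichletCharacter ℂ N) :
    ∃ m : ℕ, 0 < m ∧ ∀ p : ℕ, p.Prime → ¬ p ∣ N → (ε (p : ZMod N)) ^ m = 1 := by
  classical
  have : Fintype (ZMod N) := ZMod.fintype N
  refine ⟨Fintype.card (ZMod N)ˣ, Fintype.card_pos, fun p hp hpN => ?_⟩
  have hcop : Nat.Coprime p N := (Nat.Prime.coprime_iff_not_dvd hp).2 hpN
  obtain ⟨u, hu⟩ := (ZMod.isUnit_iff_coprime p N).2 hcop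
  rw [← hu, ← map_pow, ← Units.val_pow_eq_pow_val, pow_card_eq_one, Units.val_one, map_one]

/-- **`ImgInput` from the division density theorem.** -/
theorem imgInput_of_div {N : ℕ} {a e : ℕ → ℂ} (hTors : ∀ η : ℝ, 0 < η → ∃ (A₀ : ℕ) (X : Set ℕ), 0 < A₀ ∧
      UpperDensityLE X η ∧ ∀ p : ℕ, p.Prime → ¬ p ∣ N → p ∉ X → IsTorsionPair A₀ (a p) (e p))
    (hWire : ∀ (A₀ : ℕ) (X : Set ℕ), N ≠ 0 → 0 < A₀ → UpperDensityLE X (1 / 48) →
      (∀ p : ℕ, p.Prime → ¬ p ∣ N → p ∉ X → IsTorsionPair A₀ (a p) (e p)) →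
      ∀ (l : ℕ) (k : Type) (_ : Field k) (φ : Zbar →+* k) (ρ : GQ →* GL (Fin 2) k),
        l.Prime → GaloisFactorsThroughFiniteLevel ρ →
        (∀ p : ℕ, p.Prime → ¬ p ∣ N * l →
          ∃ x y : Zbar, (x : ℂ) = a p ∧ (y : ℂ) = e p ∧ FrobData ρ p (φ x) (φ y)) →
        LargeIn ρ (torsSet ρ A₀) ∧ FewCharpolys ρ (torsSet ρ A₀) (A₀ ^ 2))
    (hN : N ≠ 0) (hRes : ResAllStatement N a e) : ImgInput N a e := by
  obtain ⟨A₀, X, hA₀, hX, hpair⟩ := hTors (1 / 48) (by norm_num)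
  obtain ⟨l₀, hl₀⟩ := hRes
  refine ⟨A₀ ^ 2, fun B => ?_⟩
  obtain ⟨l, hlB, hl⟩ := Nat.exists_infinite_primes (max B l₀)
  refine ⟨l, le_trans (le_max_left _ _) hlB, hl, fun k i1 i2 i3 φ => ?_⟩
  obtain ⟨ρ, hlev, hfr⟩ := hl₀ l (le_trans (le_max_right _ _) hlB) hl k i1 i2 i3 φ
  obtain ⟨hLarge, hFew⟩ := hWire A₀ X hN hA₀ hX hpair l k i1 φ ρ hl hlev hfr
  exact ⟨ρ, hlev, hfr, torsSet ρ A₀, hLarge, hFew⟩

/-- **[DIV-ASM]** the endgame of the DIV branch from its leaves. -/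
theorem endgameDivOfLeaves : EndgameDivOfLeaves := by
  intro hFin hCount hKum hZero hTors hWire hBound hLift hVal hIndep hIrr N hNZ ε a hDL hDU hR
    hRes
  have hN : N ≠ 0 := NeZero.ne N
  have : NeZero N := hNZ
  obtain ⟨m, hm, hεm⟩ := div_char_pow_eq_one N ε
  have hinte : ∀ p : ℕ, p.Prime → ¬ p ∣ N → IsIntegral ℤ (ε (p : ZMod N)) := by
    intro p hp hpN
    refine ⟨Polynomial.X ^ m - Polynomial.C 1, Polynomial.monic_X_pow_sub_C 1 hm.ne', ?_⟩
    rw [Polynomial.eval₂_sub, Polynomial.eval₂_pow, Polynomial.eval₂_X, Polynomial.eval₂_C,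
      hεm p hp hpN, map_one, sub_self]
  have hZero' := hZero hDU hKum hCount
  have hTors' := hTors hFin hZero' N a (fun p : ℕ => ε (p : ZMod N)) hN hR hRes ⟨m, hm, hεm⟩
  have hImg : ImgInput N a (fun p : ℕ => ε (p : ZMod N)) :=
    imgInput_of_div hTors' (fun A₀ X hN' hA₀ hX hpair =>
      hWire hDL N a (fun p : ℕ => ε (p : ZMod N)) A₀ X hN' hA₀ hX hpair) hN hRes
  have hIrrIn : IrrInput N a := fun ρ hlev htr => hIrr hDL N a ρ hN hR hlev htr
  exact endgame_core hBound hLift hVal hIndep N hN a _ (div_isIntegral_of_rankin N a hR) hinte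
    hImg hIrrIn

end Fermat.Agent.T4.helper2
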