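import Mathlib
import Fermat.Prelude.Def_FLTPrelim_Ramification

/-!
# T4 (IV), DIV branch: the leaves of [DIV-KUMMER] (helper2)

`KummerPrimeStatement` (see `helper2_DivDefs`) is split into four independent leaves, all stated
in `ℚ̄ = AlgebraicClosure ℚ`:

* `KumRootBoundStatement` [KUM-ROOTB]  (Northcott): a non-torsion algebraic integer `β ≠ 0` is an
  `r`-th power in `ℚ(β)` for finitely many primes `r` only;
* `KumGalStatement` [KUM-GAL]  (Kummer independence): for every finite set `T` of large primes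
  there is `g ∈ Gal(ℚ̄/ℚ)` fixing `β` and the `∏ T`-th roots of unity and moving every `r`-th
  root of `β`, `r ∈ T`;
* `KumResStatement` [KUM-RES]  (weak Chebotarev + Frobenius congruence): at a suitable place the
  order of the residue class of `β` is divisible by every `r ∈ T`;
* `KumTotStatement` [KUM-TOT]  (divergence of `∑ 1/p`): a finite set `T` of large primes such that
  `φ(n) ≤ ε n` for every `n` divisible by all `r ∈ T`.

Assembly: `helper2_KummerPrime.lean`.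
-/

set_option autoImplicit false

open scoped IntermediateField

namespace Fermat.Agent.T4.helper2

/-- **[KUM-ROOTB]** a nonzero algebraic integer which is not a root of unity is an `r`-th power
in `ℚ(β)` for finitely many primes `r` only. -/
def KumRootBoundStatement : Prop :=
  ∀ β : AlgebraicClosure ℚ, IsIntegral ℤ β → β ≠ 0 → (∀ n : ℕ, 0 < n → β ^ n ≠ 1) →
    ∃ r₁ : ℕ, ∀ r : ℕ, r.Prime → r₁ < r →
      ∀ γ : AlgebraicClosure ℚ, γ ∈ ℚ⟮β⟯ → γ ^ r ≠ β

/-- **[KUM-GAL]** Kummer independence. -/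
def KumGalStatement : Prop :=
  ∀ β : AlgebraicClosure ℚ, IsIntegral ℤ β → β ≠ 0 → (∀ n : ℕ, 0 < n → β ^ n ≠ 1) →
    ∃ r₀ : ℕ, ∀ T : Finset ℕ, (∀ r ∈ T, r.Prime ∧ r₀ < r) →
      ∃ g : AlgebraicClosure ℚ ≃ₐ[ℚ] AlgebraicClosure ℚ, g β = β ∧
        (∀ ω : AlgebraicClosure ℚ, ω ^ (∏ r ∈ T, r) = 1 → g ω = ω) ∧
        ∀ r ∈ T, ∀ y : AlgebraicClosure ℚ, y ^ r = β → g y ≠ y

/-- **[KUM-RES]** from a Galois element as in `KumGalStatement` to a place at which the order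
of the residue class of `β` is divisible by every `r ∈ T`. -/
def KumResStatement : Prop :=
  ∀ (β : AlgebraicClosure ℚ) (T : Finset ℕ), IsIntegral ℤ β → IsIntegral ℤ β⁻¹ → β ≠ 0 →
    (∀ r ∈ T, r.Prime) →
    (∃ g : AlgebraicClosure ℚ ≃ₐ[ℚ] AlgebraicClosure ℚ, g β = β ∧
        (∀ ω : AlgebraicClosure ℚ, ω ^ (∏ r ∈ T, r) = 1 → g ω = ω) ∧
        ∀ r ∈ T, ∀ y : AlgebraicClosure ℚ, y ^ r = β → g y ≠ y) →
    ∀ l₀ : ℕ, ∃ l : ℕ, l₀ ≤ l ∧ l.Prime ∧
      ∃ (A : ValuationSubring (AlgebraicClosure ℚ)) (b : A), A.LiesOverPrime l ∧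
        (b : AlgebraicClosure ℚ) = β ∧ 0 < orderOf (IsLocalRing.residue A b) ∧
        ∀ r ∈ T, r ∣ orderOf (IsLocalRing.residue A b)

/-- **[KUM-TOT]** a finite set `T` of primes `> r₀` such that `φ(n) ≤ ε n` as soon as all
`r ∈ T` divide `n`. -/
def KumTotStatement : Prop :=
  ∀ ε : ℝ, 0 < ε → ∀ r₀ : ℕ, ∃ T : Finset ℕ, (∀ r ∈ T, r.Prime ∧ r₀ < r) ∧
    ∀ n : ℕ, 0 < n → (∀ r ∈ T, r ∣ n) → (n.totient : ℝ) ≤ ε * (n : ℝ)

end Fermat.Agent.T4.helper2
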