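import Mathlib
import Fermat.Agent.T4.helper2_KummerDefs

/-!
# T4 (IV), DIV branch: [KUM-GAL] Kummer independence (helper2)

`kumGal : KumRootBoundStatement → KumGalStatement`.

For a nonzero `β ∈ ℚ̄` which is not an `r`-th power in `K₀ = ℚ(β)` (`r` prime,
`r ≥ [K₀ : ℚ] + 2`), no `r`-th root `z` of `β` lies in an abelian extension of `K₀`
(`kum_no_root`): otherwise `K₀(z) / K₀` would be normal of degree `r`, hence would contain a
primitive `r`-th root of unity, of degree `≤ r - 1` over `K₀`, hence lying in `K₀`, of degree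
`r - 1` over `ℚ`.  The Galois element is then produced from the Kummer characters
`σ ↦ σ(y₀)/y₀`, `y₀ ^ M = β`, on the group fixing `ℚ(β, μ_M)`.
-/

set_option autoImplicit false

open scoped IntermediateField
open Polynomial

namespace Fermat.Agent.T4.helper2

/-- `ℚ̄ / ℚ` is Galois. -/
theorem kum_isGalois : IsGalois ℚ (AlgebraicClosure ℚ) := by
  have h1 : Algebra.IsAlgebraic ℚ (AlgebraicClosure ℚ) := AlgebraicClosure.isAlgebraic ℚ
  have h2 : IsAlgClosure ℚ (AlgebraicClosure ℚ) :=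
    (isAlgClosure_iff (k := ℚ) (AlgebraicClosure ℚ)).mpr ⟨inferInstance, inferInstance⟩
  have h3 : Normal ℚ (AlgebraicClosure ℚ) := IsAlgClosure.normal ℚ _
  exact ⟨⟩

/-- Galois correspondence, element form: what is fixed by every automorphism fixing `S`
lies in `ℚ(S)`. -/
theorem kum_mem_adjoin_of_fixed (S : Set (AlgebraicClosure ℚ)) (w : AlgebraicClosure ℚ)
    (h : ∀ σ : AlgebraicClosure ℚ ≃ₐ[ℚ] AlgebraicClosure ℚ, (∀ s ∈ S, σ s = s) → σ w = w) :
    w ∈ IntermediateField.adjoin ℚ S := by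
  have := kum_isGalois
  rw [← InfiniteGalois.fixedField_fixingSubgroup (IntermediateField.adjoin ℚ S),
    IntermediateField.mem_fixedField_iff]
  intro σ hσ
  refine h σ fun s hs => ?_
  exact (IntermediateField.mem_fixingSubgroup_iff _ _).mp hσ s
    (IntermediateField.subset_adjoin ℚ S hs)

/-- Two automorphisms commuting on `S` commute on `ℚ(S)`. -/
theorem kum_comm_adjoin (σ τ : AlgebraicClosure ℚ ≃ₐ[ℚ] AlgebraicClosure ℚ)
    (S : Set (AlgebraicClosure ℚ)) (h : ∀ s ∈ S, σ (τ s) = τ (σ s)) :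
    ∀ x ∈ IntermediateField.adjoin ℚ S, σ (τ x) = τ (σ x) := by
  intro x hx
  induction hx using IntermediateField.adjoin_induction with
  | mem x hx => exact h x hx
  | algebraMap x => simp
  | add x y _ _ hx hy => simp [hx, hy]
  | inv x _ hx => simp [hx]
  | mul x y _ _ hx hy => simp [hx, hy]

/-- Automorphisms commute on roots of unity. -/
theorem kum_comm_rootsOfUnity (σ τ : AlgebraicClosure ℚ ≃ₐ[ℚ] AlgebraicClosure ℚ)
    (M : ℕ) (hM : 0 < M) (ω : AlgebraicClosure ℚ) (hω : ω ^ M = 1) :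
    σ (τ ω) = τ (σ ω) := by
  have : NeZero M := ⟨hM.ne'⟩
  obtain ⟨ζ, hζ⟩ := HasEnoughRootsOfUnity.exists_primitiveRoot (AlgebraicClosure ℚ) M
  obtain ⟨i, -, rfl⟩ := hζ.eq_pow_of_pow_eq_one hω
  obtain ⟨a, -, ha⟩ := hζ.eq_pow_of_pow_eq_one
    (show (σ ζ) ^ M = 1 by rw [← map_pow, hζ.pow_eq_one, map_one])
  obtain ⟨b, -, hb⟩ := hζ.eq_pow_of_pow_eq_one
    (show (τ ζ) ^ M = 1 by rw [← map_pow, hζ.pow_eq_one, map_one])
  simp only [map_pow, ← ha, ← hb]
  ring

/-- Every element of `ℚ̄` is integral over `ℚ`. -/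
theorem kum_isIntegral_rat (x : AlgebraicClosure ℚ) : IsIntegral ℚ x := by
  have h1 : Algebra.IsAlgebraic ℚ (AlgebraicClosure ℚ) := AlgebraicClosure.isAlgebraic ℚ
  exact (Algebra.IsAlgebraic.isAlgebraic x).isIntegral

/-- Every element of `ℚ̄` is integral over every intermediate field. -/
theorem kum_isIntegral (K : IntermediateField ℚ (AlgebraicClosure ℚ)) (x : AlgebraicClosure ℚ) :
    IsIntegral K x :=
  (kum_isIntegral_rat x).tower_top

/-- **No abelian `r`-th root.**  If `β ≠ 0` is not an `r`-th power in `K₀ = ℚ(β)`, `r` a prime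
`≥ [K₀ : ℚ] + 2`, then no `r`-th root of `β` lies in an abelian extension of `K₀`. -/
theorem kum_no_root (β : AlgebraicClosure ℚ) (hβ : β ≠ 0) (r : ℕ) (hr : r.Prime)
    (hdeg : Module.finrank ℚ ℚ⟮β⟯ + 2 ≤ r)
    (hpow : ∀ γ : AlgebraicClosure ℚ, γ ∈ ℚ⟮β⟯ → γ ^ r ≠ β)
    (z : AlgebraicClosure ℚ) (hz : z ^ r = β)
    (hcomm : ∀ σ τ : AlgebraicClosure ℚ ≃ₐ[ℚ] AlgebraicClosure ℚ, σ β = β → τ β = β →
      σ (τ z) = τ (σ z)) : False := by
  have hz0 : z ≠ 0 := by
    rintro rfl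
    rw [zero_pow hr.ne_zero] at hz
    exact hβ hz.symm
  have hzK : z ∉ ℚ⟮β⟯ := fun h => hpow z h hz
  obtain ⟨τ, hτβ, hτz⟩ :
      ∃ τ : AlgebraicClosure ℚ ≃ₐ[ℚ] AlgebraicClosure ℚ, τ β = β ∧ τ z ≠ z := by
    by_contra hcon
    push Not at hcon
    exact hzK (kum_mem_adjoin_of_fixed {β} z fun σ hσ => hcon σ (hσ β rfl))
  set ω := τ z / z with hω
  have hω1 : ω ≠ 1 := by
    intro h
    rw [hω, div_eq_one_iff_eq hz0] at h
    exact hτz h
  have hωr : ω ^ r = 1 := by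
    rw [hω, div_pow, ← map_pow, hz, hτβ, div_self hβ]
  have hωmem : ω ∈ IntermediateField.adjoin ℚ ({β, z} : Set (AlgebraicClosure ℚ)) := by
    refine kum_mem_adjoin_of_fixed _ ω fun σ hσ => ?_
    have h1 : σ β = β := hσ β (by simp)
    have h2 : σ z = z := hσ z (by simp)
    rw [hω, map_div₀, hcomm σ τ h1 hτβ, h2]
  have hprim : IsPrimitiveRoot ω r := by
    have : Fact r.Prime := ⟨hr⟩
    exact IsPrimitiveRoot.iff_orderOf.mpr (orderOf_eq_prime hωr hω1)
  -- degrees over `K₀`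
  let K0 : IntermediateField ℚ (AlgebraicClosure ℚ) := ℚ⟮β⟯
  let β₀ : K0 := ⟨β, IntermediateField.mem_adjoin_simple_self ℚ β⟩
  have hirr : Irreducible (X ^ r - C β₀ : K0[X]) :=
    X_pow_sub_C_irreducible_of_prime hr fun b hb =>
      hpow b b.2 (by have := congrArg Subtype.val hb; simpa using this)
  have hmin : minpoly K0 z = X ^ r - C β₀ := by
    symm
    refine minpoly.eq_of_irreducible_of_monic hirr ?_ (monic_X_pow_sub_C β₀ hr.ne_zero)
    rw [map_sub, map_pow, aeval_X, aeval_C, hz]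
    exact sub_self _
  have hfin : Module.finrank K0 K0⟮z⟯ = r := by
    rw [IntermediateField.adjoin.finrank (kum_isIntegral K0 z), hmin, natDegree_X_pow_sub_C]
  have hωE : ω ∈ K0⟮z⟯ := by
    have hle : IntermediateField.adjoin ℚ ({β, z} : Set (AlgebraicClosure ℚ)) ≤
        (K0⟮z⟯).restrictScalars ℚ := by
      rw [IntermediateField.adjoin_le_iff]
      rintro x (rfl | rfl)
      · exact (K0⟮z⟯).algebraMap_mem β₀
      · exact IntermediateField.mem_adjoin_simple_self K0 x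
    exact hle hωmem
  have hdvd : (minpoly K0 ω).natDegree ∣ r := by
    have h1 := minpoly.degree_dvd (K := K0) (L := K0⟮z⟯) (x := ⟨ω, hωE⟩)
      (IntermediateField.isIntegral_iff.mpr (kum_isIntegral K0 ω))
    rwa [IntermediateField.minpoly_eq, hfin] at h1
  have hle : (minpoly K0 ω).natDegree ≤ r - 1 := by
    have h1 : minpoly K0 ω ∣ cyclotomic r K0 := by
      refine minpoly.dvd K0 ω ?_
      rw [aeval_def, eval₂_eq_eval_map, map_cyclotomic]
      exact hprim.isRoot_cyclotomic hr.pos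
    have h2 := natDegree_le_of_dvd h1 (cyclotomic_ne_zero r K0)
    rwa [natDegree_cyclotomic, Nat.totient_prime hr] at h2
  have hone : (minpoly K0 ω).natDegree = 1 := by
    rcases (Nat.dvd_prime hr).mp hdvd with h | h
    · exact h
    · have := hr.two_le
      omega
  obtain ⟨w₀, hw₀⟩ := minpoly.natDegree_eq_one_iff.mp hone
  have hfd : FiniteDimensional ℚ K0 :=
    IntermediateField.adjoin.finiteDimensional (kum_isIntegral_rat β)
  have h3 : (minpoly ℚ ω).natDegree ≤ Module.finrank ℚ K0 := by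
    have h4 : (minpoly ℚ ((w₀ : K0) : AlgebraicClosure ℚ)).natDegree ≤ Module.finrank ℚ K0 := by
      rw [← IntermediateField.minpoly_eq]
      exact minpoly.natDegree_le w₀
    rwa [show ((w₀ : K0) : AlgebraicClosure ℚ) = ω from hw₀] at h4
  have h5 : (minpoly ℚ ω).natDegree = r - 1 := by
    have : NeZero ((r : ℕ) : ℚ) := ⟨by exact_mod_cast hr.ne_zero⟩
    rw [← hprim.minpoly_eq_cyclotomic_of_irreducible (cyclotomic.irreducible_rat hr.pos),
      natDegree_cyclotomic, Nat.totient_prime hr]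
  have h6 : Module.finrank ℚ K0 + 2 ≤ r := hdeg
  omega

/-- `σ` fixes `β` and the `M`-th roots of unity. -/
def KumFix (β : AlgebraicClosure ℚ) (M : ℕ)
    (σ : AlgebraicClosure ℚ ≃ₐ[ℚ] AlgebraicClosure ℚ) : Prop :=
  σ β = β ∧ ∀ ω : AlgebraicClosure ℚ, ω ^ M = 1 → σ ω = ω

theorem KumFix.one (β : AlgebraicClosure ℚ) (M : ℕ) : KumFix β M 1 :=
  ⟨rfl, fun _ _ => rfl⟩

theorem KumFix.mul {β : AlgebraicClosure ℚ} {M : ℕ}
    {σ τ : AlgebraicClosure ℚ ≃ₐ[ℚ] AlgebraicClosure ℚ} (hσ : KumFix β M σ)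
    (hτ : KumFix β M τ) : KumFix β M (σ * τ) := by
  refine ⟨?_, fun ω hω => ?_⟩
  · rw [AlgEquiv.mul_apply, hτ.1, hσ.1]
  · rw [AlgEquiv.mul_apply, hτ.2 ω hω, hσ.2 ω hω]

theorem KumFix.pow {β : AlgebraicClosure ℚ} {M : ℕ}
    {σ : AlgebraicClosure ℚ ≃ₐ[ℚ] AlgebraicClosure ℚ} (hσ : KumFix β M σ) (n : ℕ) :
    KumFix β M (σ ^ n) := by
  induction n with
  | zero => rw [pow_zero]; exact KumFix.one β M
  | succ n ih => rw [pow_succ]; exact ih.mul hσ

/-- The Kummer character `σ ↦ σ(y₀)/y₀` takes values in the `M`-th roots of unity. -/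
theorem kum_char_pow_eq_one {β y₀ : AlgebraicClosure ℚ} {M : ℕ} (hy : y₀ ^ M = β) (hβ : β ≠ 0)
    {σ : AlgebraicClosure ℚ ≃ₐ[ℚ] AlgebraicClosure ℚ} (hσ : σ β = β) :
    (σ y₀ / y₀) ^ M = 1 := by
  rw [div_pow, ← map_pow, hy, hσ, div_self hβ]

/-- The Kummer character is multiplicative on the automorphisms fixing `ℚ(β, μ_M)`. -/
theorem kum_char_mul {β y₀ : AlgebraicClosure ℚ} {M : ℕ} (hy : y₀ ^ M = β) (hβ : β ≠ 0)
    (hy0 : y₀ ≠ 0) {σ τ : AlgebraicClosure ℚ ≃ₐ[ℚ] AlgebraicClosure ℚ} (hσ : KumFix β M σ)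
    (hτ : KumFix β M τ) : (σ * τ) y₀ / y₀ = (σ y₀ / y₀) * (τ y₀ / y₀) := by
  have h1 : σ (τ y₀ / y₀) = τ y₀ / y₀ := hσ.2 _ (kum_char_pow_eq_one hy hβ hτ.1)
  have h2 : τ y₀ = (τ y₀ / y₀) * y₀ := by field_simp
  have h3 : σ (τ y₀) = (τ y₀ / y₀) * σ y₀ := by
    conv_lhs => rw [h2]
    rw [map_mul, h1]
  rw [AlgEquiv.mul_apply, h3]
  field_simp

theorem kum_char_pow {β y₀ : AlgebraicClosure ℚ} {M : ℕ} (hy : y₀ ^ M = β) (hβ : β ≠ 0)
    (hy0 : y₀ ≠ 0) {τ : AlgebraicClosure ℚ ≃ₐ[ℚ] AlgebraicClosure ℚ} (hτ : KumFix β M τ)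
    (n : ℕ) : (τ ^ n) y₀ / y₀ = (τ y₀ / y₀) ^ n := by
  induction n with
  | zero => simp [hy0]
  | succ n ih => rw [pow_succ, kum_char_mul hy hβ hy0 (hτ.pow n) hτ, ih, pow_succ]

/-- **[KUM-GAL]** Kummer independence, from the bound on the primes `r` with `β ∈ ℚ(β)^r`. -/
theorem kumGal : KumRootBoundStatement → KumGalStatement := by
  classical
  intro hRB β hint hβ htors
  obtain ⟨r₁, hr₁⟩ := hRB β hint hβ htors
  refine ⟨max (Module.finrank ℚ ℚ⟮β⟯ + 1) r₁, fun T hT => ?_⟩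
  have hTp : ∀ r ∈ T, r.Prime := fun r hr => (hT r hr).1
  set M := ∏ r ∈ T, r with hM
  have hMpos : 0 < M := Finset.prod_pos fun r hr => (hTp r hr).pos
  obtain ⟨y₀, hy₀⟩ := IsAlgClosed.exists_pow_nat_eq β hMpos
  have hy0 : y₀ ≠ 0 := by
    rintro rfl
    rw [zero_pow hMpos.ne'] at hy₀
    exact hβ hy₀.symm
  let m : ℕ → ℕ := fun r => ∏ s ∈ T.erase r, s
  have hm : ∀ r ∈ T, r * m r = M := fun r hr => Finset.mul_prod_erase T (fun s => s) hr
  have hndvd : ∀ r ∈ T, ¬ r ∣ m r := by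
    intro r hr hdvd
    obtain ⟨s, hs, hrs⟩ := (Prime.dvd_finsetProd_iff (hTp r hr).prime _).mp hdvd
    have hsT : s ∈ T := Finset.mem_of_mem_erase hs
    have : r = s := (Nat.prime_dvd_prime_iff_eq (hTp r hr) (hTp s hsT)).mp hrs
    exact (Finset.ne_of_mem_erase hs) this.symm
  -- for each `r` an automorphism with a character of order divisible by `r`
  have hiv : ∀ r ∈ T, ∃ τ : AlgebraicClosure ℚ ≃ₐ[ℚ] AlgebraicClosure ℚ,
      KumFix β M τ ∧ (τ y₀ / y₀) ^ m r ≠ 1 := by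
    intro r hr
    by_contra hcon
    push Not at hcon
    have hzr : (y₀ ^ m r) ^ r = β := by rw [← pow_mul, mul_comm, hm r hr, hy₀]
    have hzF : y₀ ^ m r ∈ IntermediateField.adjoin ℚ
        ({β} ∪ {ω : AlgebraicClosure ℚ | ω ^ M = 1}) := by
      refine kum_mem_adjoin_of_fixed _ _ fun σ hσ => ?_
      have hfix : KumFix β M σ := ⟨hσ β (Or.inl rfl), fun ω hω => hσ ω (Or.inr hω)⟩
      have h1 := hcon σ hfix
      have h2 : σ y₀ = (σ y₀ / y₀) * y₀ := by field_simp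
      rw [map_pow, h2, mul_pow, h1, one_mul]
    refine kum_no_root β hβ r (hTp r hr) ?_ ?_ _ hzr ?_
    · have h1 := (hT r hr).2
      have h2 := le_max_left (Module.finrank ℚ ℚ⟮β⟯ + 1) r₁
      omega
    · exact hr₁ r (hTp r hr) (lt_of_le_of_lt (le_max_right _ _) (hT r hr).2)
    · intro σ τ hσ hτ
      refine kum_comm_adjoin σ τ _ ?_ _ hzF
      rintro s (hs | hs)
      · rw [Set.mem_singleton_iff] at hs
        rw [hs, hτ, hσ, hτ]
      · exact kum_comm_rootsOfUnity σ τ M hMpos s hs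
  -- one automorphism for all `r`
  have hv : ∀ T' : Finset ℕ, T' ⊆ T → ∃ g : AlgebraicClosure ℚ ≃ₐ[ℚ] AlgebraicClosure ℚ,
      KumFix β M g ∧ ∀ r ∈ T', (g y₀ / y₀) ^ m r ≠ 1 := by
    intro T'
    induction T' using Finset.induction_on with
    | empty => exact fun _ => ⟨1, KumFix.one β M, by simp⟩
    | insert r' T'' hr' ih =>
      intro hsub
      obtain ⟨g, hg, hgr⟩ := ih fun x hx => hsub (Finset.mem_insert_of_mem hx)
      have hr'T : r' ∈ T := hsub (Finset.mem_insert_self _ _)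
      by_cases hc : (g y₀ / y₀) ^ m r' = 1
      · obtain ⟨τ, hτ, hτr⟩ := hiv r' hr'T
        have hτM : (τ y₀ / y₀) ^ M = 1 := kum_char_pow_eq_one hy₀ hβ hτ.1
        refine ⟨g * τ ^ m r', hg.mul (hτ.pow _), fun r hr => ?_⟩
        rw [kum_char_mul hy₀ hβ hy0 hg (hτ.pow _), kum_char_pow hy₀ hβ hy0 hτ, mul_pow]
        rcases Finset.mem_insert.mp hr with rfl | hr
        · rw [hc, one_mul]
          intro h1
          have h2 : ((τ y₀ / y₀) ^ m r) ^ r = 1 := by
            rw [← pow_mul, mul_comm, hm r hr'T, hτM]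
          have h3 := pow_gcd_eq_one.mpr ⟨h1, h2⟩
          have h4 : (m r).gcd r = 1 :=
            (((hTp r hr'T).coprime_iff_not_dvd).mpr (hndvd r hr'T)).symm
          rw [h4, pow_one] at h3
          exact hτr h3
        · have hrT : r ∈ T := hsub (Finset.mem_insert_of_mem hr)
          have hne : r ≠ r' := fun h => hr' (h ▸ hr)
          have hdvd : r ∣ m r' :=
            Finset.dvd_prod_of_mem (fun s => s) (Finset.mem_erase.mpr ⟨hne, hrT⟩)
          obtain ⟨q, hq⟩ := hdvd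
          have h1 : ((τ y₀ / y₀) ^ m r') ^ m r = 1 := by
            rw [← pow_mul, hq, show r * q * m r = M * q by rw [← hm r hrT]; ring, pow_mul,
              hτM, one_pow]
          rw [h1, mul_one]
          exact hgr r hr
      · refine ⟨g, hg, fun r hr => ?_⟩
        rcases Finset.mem_insert.mp hr with rfl | hr
        · exact hc
        · exact hgr r hr
  obtain ⟨g, hg, hgr⟩ := hv T (Finset.Subset.refl T)
  refine ⟨g, hg.1, hg.2, fun r hr y hy hgy => ?_⟩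
  have hzr : (y₀ ^ m r) ^ r = β := by rw [← pow_mul, mul_comm, hm r hr, hy₀]
  have hz0 : y₀ ^ m r ≠ 0 := pow_ne_zero _ hy0
  have hy0' : y ≠ 0 := by
    rintro rfl
    rw [zero_pow (hTp r hr).ne_zero] at hy
    exact hβ hy.symm
  have hωM : (y / y₀ ^ m r) ^ M = 1 := by
    rw [← hm r hr, pow_mul, div_pow, hy, hzr, div_self hβ, one_pow]
  have h1 : g (y / y₀ ^ m r) = y / y₀ ^ m r := hg.2 _ hωM
  have h2 : g y₀ = (g y₀ / y₀) * y₀ := by field_simp
  rw [map_div₀, hgy, map_pow, h2, mul_pow] at h1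
  apply hgr r hr
  have h3 : y / ((g y₀ / y₀) ^ m r * y₀ ^ m r) * (y₀ ^ m r) = y / y₀ ^ m r * (y₀ ^ m r) := by
    rw [h1]
  have hc0 : (g y₀ / y₀) ^ m r ≠ 0 := by
    intro h0
    have := kum_char_pow_eq_one hy₀ hβ hg.1
    rw [← hm r hr, mul_comm, pow_mul, h0, zero_pow (hTp r hr).ne_zero] at this
    exact zero_ne_one this
  field_simp at h3
  exact h3.symm ▸ rfl

end Fermat.Agent.T4.helper2
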