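import Mathlib
import Fermat.Agent.T4.helper2_KummerDefs

/-!
# T4 (IV), DIV branch, leaf [KUM-ROOTB] (helper35)

`kumRootBound : Fermat.Agent.T4.helper2.KumRootBoundStatement`.

`K₀ = ℚ(β)` is a number field; an `r`-th root `γ ∈ K₀` of `β` is an algebraic integer all of
whose conjugates have absolute value at most `B = 1 + ∑_φ ‖φ β‖`; there are finitely many such
`γ` (Northcott), and each of them is an `r`-th root of `β` for at most one `r > 0`, because `β`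
is not a root of unity.
-/

set_option autoImplicit false
set_option linter.style.haveILetI false

open scoped IntermediateField

namespace Fermat.Agent.T4.helper35

/-- In a field, an element `γ` is an `r`-th root of a non-torsion `β` for at most one `r`. -/
theorem kum_exponent_unique {K : Type*} [Field K] {β γ : K} (hβ0 : β ≠ 0)
    (htors : ∀ n : ℕ, 0 < n → β ^ n ≠ 1) {r s : ℕ} (hr : γ ^ r = β) (hs : γ ^ s = β) :
    r = s := by
  have key : ∀ a b : ℕ, a < b → γ ^ a = β → γ ^ b = β → False := by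
    intro a b hab ha hb
    have hγ0 : γ ≠ 0 := by
      rintro rfl
      rcases Nat.eq_zero_or_pos b with hb0 | hb0
      · omega
      · rw [zero_pow hb0.ne'] at hb
        exact hβ0 hb.symm
    have h1 : γ ^ (b - a) = 1 := by
      have h2 : γ ^ a * γ ^ (b - a) = γ ^ a * 1 := by
        rw [← pow_add, mul_one, Nat.add_sub_cancel' hab.le, ha, hb]
      exact mul_left_cancel₀ (pow_ne_zero _ hγ0) h2
    apply htors (b - a) (by omega)
    rw [← hb, ← pow_mul, mul_comm, pow_mul, h1, one_pow]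
  rcases lt_trichotomy r s with h | h | h
  · exact (key r s h hr hs).elim
  · exact h
  · exact (key s r h hs hr).elim

/-- **[KUM-ROOTB]** -/
theorem kumRootBound : Fermat.Agent.T4.helper2.KumRootBoundStatement := by
  intro β hβ hβ0 htors
  have hβQ : IsIntegral ℚ β := hβ.tower_top
  haveI hfd : FiniteDimensional ℚ ℚ⟮β⟯ := IntermediateField.adjoin.finiteDimensional hβQ
  haveI : NumberField ℚ⟮β⟯ := { to_charZero := inferInstance, to_finiteDimensional := hfd }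
  -- `β` as an element of `K₀`
  obtain ⟨β', hβ'⟩ : ∃ β' : ℚ⟮β⟯, (β' : AlgebraicClosure ℚ) = β :=
    ⟨⟨β, IntermediateField.mem_adjoin_simple_self ℚ β⟩, rfl⟩
  have hβ'0 : β' ≠ 0 := by
    rintro rfl
    exact hβ0 (by rw [← hβ']; rfl)
  have htors' : ∀ n : ℕ, 0 < n → β' ^ n ≠ 1 := by
    intro n hn h
    apply htors n hn
    rw [← hβ', ← IntermediateField.coe_pow, h, IntermediateField.coe_one]
  have hβ'int : IsIntegral ℤ β' := by
    have hinj : Function.Injective (algebraMap ℚ⟮β⟯ (AlgebraicClosure ℚ)) :=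
      (algebraMap ℚ⟮β⟯ (AlgebraicClosure ℚ)).injective
    refine (isIntegral_algebraMap_iff hinj).1 ?_
    show IsIntegral ℤ (β' : AlgebraicClosure ℚ)
    rw [hβ']
    exact hβ
  -- the bound
  obtain ⟨B, hB⟩ : ∃ B : ℝ, B = 1 + ∑ φ : ℚ⟮β⟯ →+* ℂ, ‖φ β'‖ := ⟨_, rfl⟩
  have hB1 : 1 ≤ B := by
    rw [hB]
    have : 0 ≤ ∑ φ : ℚ⟮β⟯ →+* ℂ, ‖φ β'‖ := Finset.sum_nonneg (fun _ _ => norm_nonneg _)
    linarith
  have hBφ : ∀ φ : ℚ⟮β⟯ →+* ℂ, ‖φ β'‖ ≤ B := by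
    intro φ
    rw [hB]
    have : ‖φ β'‖ ≤ ∑ ψ : ℚ⟮β⟯ →+* ℂ, ‖ψ β'‖ :=
      Finset.single_le_sum (f := fun ψ : ℚ⟮β⟯ →+* ℂ => ‖ψ β'‖)
        (fun _ _ => norm_nonneg _) (Finset.mem_univ φ)
    linarith
  -- Northcott
  have hS : {x : ℚ⟮β⟯ | IsIntegral ℤ x ∧ ∀ φ : ℚ⟮β⟯ →+* ℂ, ‖φ x‖ ≤ B}.Finite :=
    NumberField.Embeddings.finite_of_norm_le ℚ⟮β⟯ ℂ B
  -- roots of `β` lie in the Northcott set
  have hroot : ∀ (r : ℕ) (γ : ℚ⟮β⟯), 0 < r → γ ^ r = β' →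
      γ ∈ {x : ℚ⟮β⟯ | IsIntegral ℤ x ∧ ∀ φ : ℚ⟮β⟯ →+* ℂ, ‖φ x‖ ≤ B} := by
    intro r γ hr hγ
    refine ⟨IsIntegral.of_pow hr (by rw [hγ]; exact hβ'int), fun φ => ?_⟩
    by_contra hlt
    have hlt' : B < ‖φ γ‖ := lt_of_not_ge hlt
    have h1 : 1 ≤ ‖φ γ‖ := hB1.trans hlt'.le
    have h2 : ‖φ γ‖ ≤ ‖φ γ‖ ^ r := le_self_pow₀ h1 hr.ne'
    have h3 : ‖φ γ‖ ^ r = ‖φ β'‖ := by rw [← norm_pow, ← map_pow, hγ]
    have h4 := hBφ φ
    linarith
  -- the bad exponents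
  have hR : {r : ℕ | 0 < r ∧ ∃ γ : ℚ⟮β⟯, γ ^ r = β'}.Finite := by
    have hsub : {r : ℕ | 0 < r ∧ ∃ γ : ℚ⟮β⟯, γ ^ r = β'} ⊆
        ⋃ γ ∈ {x : ℚ⟮β⟯ | IsIntegral ℤ x ∧ ∀ φ : ℚ⟮β⟯ →+* ℂ, ‖φ x‖ ≤ B},
          {r : ℕ | γ ^ r = β'} := by
      rintro r ⟨hr, γ, hγ⟩
      exact Set.mem_biUnion (hroot r γ hr hγ) hγ
    refine (Set.Finite.biUnion hS (fun γ _ => ?_)).subset hsub
    refine Set.Subsingleton.finite ?_
    intro r hr s hs
    exact kum_exponent_unique hβ'0 htors' hr hs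
  obtain ⟨r₁, hr₁⟩ := hR.bddAbove
  refine ⟨r₁, fun r hrp hlt γ hγ hpow => ?_⟩
  have hmem : r ∈ {r : ℕ | 0 < r ∧ ∃ γ : ℚ⟮β⟯, γ ^ r = β'} := by
    refine ⟨hrp.pos, ⟨γ, hγ⟩, ?_⟩
    apply Subtype.ext
    rw [IntermediateField.coe_pow, hβ']
    exact hpow
  have := hr₁ hmem
  omega

end Fermat.Agent.T4.helper35
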