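import Mathlib
import Fermat.Agent.T4.helper2_KummerDefs

/-!
# T4 (IV), DIV branch, leaf [KUM-TOT] (helper50)

`kumTot : helper2.KumTotStatement` : for every `ε > 0` and every bound `r₀` there is a finite set
`T` of primes `> r₀` such that `φ(n) ≤ ε n` for every `n > 0` divisible by all `r ∈ T`.

Proof: the sum of the reciprocals of the primes diverges (Mathlib), so there is a finite set `T`
of primes `> r₀` with `∑_{r ∈ T} 1/r ≥ log (1/ε)`; then
`φ(n)/n = ∏_{p ∣ n} (1 - 1/p) ≤ ∏_{r ∈ T} (1 - 1/r) ≤ exp (-∑_{r ∈ T} 1/r) ≤ ε`.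
-/

set_option autoImplicit false

namespace Fermat.Agent.T4.helper50

open Finset

/-- finite sets of primes `> r₀` have unbounded sums of reciprocals. -/
lemma kumTot_sum (r₀ : ℕ) (C : ℝ) :
    ∃ T : Finset ℕ, (∀ r ∈ T, r.Prime ∧ r₀ < r) ∧ C ≤ ∑ r ∈ T, (1 : ℝ) / r := by
  classical
  by_contra hcon
  push Not at hcon
  -- the tail is summable
  have hg : Summable (Set.indicator {p : ℕ | p.Prime ∧ r₀ < p} (fun n : ℕ => (1 : ℝ) / n)) := by
    refine summable_of_sum_le (c := C) (fun n => Set.indicator_nonneg (fun p _ => by positivity) _)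
      (fun u => ?_)
    have h1 : ∑ x ∈ u, Set.indicator {p : ℕ | p.Prime ∧ r₀ < p} (fun n : ℕ => (1 : ℝ) / n) x =
        ∑ x ∈ u.filter (fun p => p.Prime ∧ r₀ < p), (1 : ℝ) / x := by
      rw [Finset.sum_filter]
      refine Finset.sum_congr rfl (fun x _ => ?_)
      by_cases hx : x.Prime ∧ r₀ < x
      · rw [Set.indicator_of_mem (by exact hx), if_pos hx]
      · rw [Set.indicator_of_notMem (by exact hx), if_neg hx]
    rw [h1]
    exact (hcon _ (fun r hr => (Finset.mem_filter.mp hr).2)).le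
  -- the head is finitely supported
  have hh : Summable (Set.indicator {p : ℕ | p.Prime ∧ p ≤ r₀} (fun n : ℕ => (1 : ℝ) / n)) := by
    refine summable_of_ne_finset_zero (s := Finset.range (r₀ + 1)) (fun b hb => ?_)
    rw [Set.indicator_of_notMem]
    intro hb'
    exact hb (Finset.mem_range.mpr (Nat.lt_succ_of_le hb'.2))
  refine not_summable_one_div_on_primes ?_
  have heq : Set.indicator {p : ℕ | p.Prime} (fun n : ℕ => (1 : ℝ) / n) =
      fun n => Set.indicator {p : ℕ | p.Prime ∧ r₀ < p} (fun n : ℕ => (1 : ℝ) / n) n +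
        Set.indicator {p : ℕ | p.Prime ∧ p ≤ r₀} (fun n : ℕ => (1 : ℝ) / n) n := by
    funext n
    by_cases hp : n.Prime
    · by_cases hn : r₀ < n
      · rw [Set.indicator_of_mem (by exact hp), Set.indicator_of_mem (by exact ⟨hp, hn⟩),
          Set.indicator_of_notMem (by exact fun h => absurd h.2 (not_le.mpr hn)), add_zero]
      · rw [Set.indicator_of_mem (by exact hp),
          Set.indicator_of_notMem (by exact fun h => hn h.2),
          Set.indicator_of_mem (by exact ⟨hp, not_lt.mp hn⟩), zero_add]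
    · rw [Set.indicator_of_notMem (by exact hp),
        Set.indicator_of_notMem (by exact fun h => hp h.1),
        Set.indicator_of_notMem (by exact fun h => hp h.1), add_zero]
  rw [heq]
  exact hg.add hh

/-- **[KUM-TOT]**. -/
theorem kumTot : Fermat.Agent.T4.helper2.KumTotStatement := by
  intro ε hε r₀
  obtain ⟨T, hT, hsum⟩ := kumTot_sum r₀ (-Real.log ε)
  refine ⟨T, hT, fun n hn hdvd => ?_⟩
  have hsub : T ⊆ n.primeFactors := by
    intro r hr
    exact Nat.mem_primeFactors.mpr ⟨(hT r hr).1, hdvd r hr, hn.ne'⟩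
  have hphi : (n.totient : ℝ) = n * ∏ p ∈ n.primeFactors, (1 - (p : ℝ)⁻¹) := by
    have h := Nat.totient_eq_mul_prod_factors n
    have h' : (((n.totient : ℚ)) : ℝ) = ((n * ∏ p ∈ n.primeFactors, (1 - (p : ℚ)⁻¹) : ℚ) : ℝ) :=
      congrArg _ h
    push_cast at h'
    exact h'
  have hfac0 : ∀ p ∈ n.primeFactors, (0 : ℝ) ≤ 1 - (p : ℝ)⁻¹ := by
    intro p hp
    have hp1 : (1 : ℝ) ≤ p := by exact_mod_cast (Nat.prime_of_mem_primeFactors hp).one_lt.le
    have : (p : ℝ)⁻¹ ≤ 1 := inv_le_one_of_one_le₀ hp1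
    linarith
  have hfac1 : ∀ p ∈ n.primeFactors, p ∉ T → 1 - (p : ℝ)⁻¹ ≤ 1 := by
    intro p _ _
    have : (0 : ℝ) ≤ (p : ℝ)⁻¹ := by positivity
    linarith
  have h1 : ∏ p ∈ n.primeFactors, (1 - (p : ℝ)⁻¹) ≤ ∏ p ∈ T, (1 - (p : ℝ)⁻¹) :=
    Finset.prod_le_prod_of_subset_of_le_one hsub hfac0 hfac1
  have h2 : ∏ p ∈ T, (1 - (p : ℝ)⁻¹) ≤ ∏ p ∈ T, Real.exp (-((1 : ℝ) / p)) := by
    refine Finset.prod_le_prod (fun p hp => hfac0 p (hsub hp)) (fun p _ => ?_)
    have := Real.add_one_le_exp (-((1 : ℝ) / p))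
    rw [one_div] at this ⊢
    linarith
  have h3 : ∏ p ∈ T, Real.exp (-((1 : ℝ) / p)) = Real.exp (-∑ p ∈ T, (1 : ℝ) / p) := by
    rw [← Real.exp_sum, Finset.sum_neg_distrib]
  have h4 : Real.exp (-∑ p ∈ T, (1 : ℝ) / p) ≤ ε := by
    calc Real.exp (-∑ p ∈ T, (1 : ℝ) / p) ≤ Real.exp (Real.log ε) :=
          Real.exp_le_exp.mpr (by linarith)
      _ = ε := Real.exp_log hε
  have h5 : ∏ p ∈ n.primeFactors, (1 - (p : ℝ)⁻¹) ≤ ε := by
    calc _ ≤ _ := h1
      _ ≤ _ := h2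
      _ = _ := h3
      _ ≤ ε := h4
  rw [hphi, mul_comm ε]
  exact mul_le_mul_of_nonneg_left h5 (Nat.cast_nonneg n)

end Fermat.Agent.T4.helper50
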