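import Mathlib
import Fermat.Agent.T4.helper2_KummerDefs
import Fermat.Agent.Cheb.helper40_ChebFinal

/-!
# T4 block (IV), DIV branch, leaf [KUM-RES] (helper93, row 1084)

From a Galois element `g` fixing `β` and the `∏ T`-th roots of unity and moving every `r`-th
root of `β` (`r ∈ T`) to a place `A` over a large prime `l` at which the order of the residue
class of `β` is divisible by every `r ∈ T`: weak Chebotarev (on main) + Frobenius congruence.

* `kr_mem_of_isIntegral` : algebraic integers lie in every valuation subring;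
* `kr_residue_frob` : the Frobenius congruence in the residue field;
* `kumRes : helper2.KumResStatement` (verbatim).
-/

set_option autoImplicit false
set_option linter.unusedSectionVars false
set_option linter.unusedVariables false
set_option linter.style.haveILetI false

noncomputable section

namespace Fermat.Agent.T4.helper93

open Fermat.Agent.T4.helper2

section Val

variable {L : Type*} [Field L] (A : ValuationSubring L)

/-- algebraic integers lie in every valuation subring -/
theorem kr_mem_of_isIntegral {x : L} (hx : IsIntegral ℤ x) : x ∈ A := by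
  have h1 : IsIntegral A x := hx.tower_top
  obtain ⟨y, hy⟩ := IsIntegrallyClosed.isIntegral_iff.mp h1
  rw [← hy]
  exact y.2

variable {A}

theorem kr_natCast_mem_maximalIdeal {ℓ : ℕ} (hA : A.LiesOverPrime ℓ) :
    ((ℓ : ℕ) : ↥A) ∈ IsLocalRing.maximalIdeal ↥A := by
  rw [IsLocalRing.mem_maximalIdeal, mem_nonunits_iff]
  intro hu
  have h1 : (ℓ : L) ∈ A.nonunits := hA
  rw [ValuationSubring.mem_nonunits_iff_exists_mem_maximalIdeal] at h1
  obtain ⟨ha, hmem⟩ := h1
  rw [IsLocalRing.mem_maximalIdeal, mem_nonunits_iff] at hmem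
  apply hmem
  have e : (⟨(ℓ : L), ha⟩ : ↥A) = ((ℓ : ℕ) : ↥A) := Subtype.ext (by simp)
  rw [e]
  exact hu

theorem kr_charP_residue {ℓ : ℕ} (hℓ : ℓ.Prime) (hA : A.LiesOverPrime ℓ) :
    CharP (IsLocalRing.ResidueField A) ℓ := by
  have h0 : ((ℓ : ℕ) : IsLocalRing.ResidueField A) = 0 := by
    rw [← map_natCast (IsLocalRing.residue A)]
    exact (IsLocalRing.residue_eq_zero_iff _).mpr (kr_natCast_mem_maximalIdeal hA)
  obtain ⟨p, hp⟩ := CharP.exists (IsLocalRing.ResidueField A)
  have hdvd : p ∣ ℓ := (CharP.cast_eq_zero_iff _ p ℓ).mp h0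
  rcases (Nat.dvd_prime hℓ).mp hdvd with h1 | h1
  · exact absurd h1 (CharP.char_ne_one (IsLocalRing.ResidueField A) p)
  · subst h1
    exact hp

/-- the Frobenius congruence in the residue field -/
theorem kr_residue_frob {K : Type*} [Field K] [Algebra K L] {σ : L ≃ₐ[K] L} {q : ℕ}
    (h : A.IsFrobeniusAt σ q) (x : A) (hσx : σ (x : L) ∈ A) :
    IsLocalRing.residue A ⟨σ (x : L), hσx⟩ = IsLocalRing.residue A x ^ q := by
  have h1 := h.smul_residue_eq (IsLocalRing.residue A x)
  rw [← IsLocalRing.ResidueField.residue_smul] at h1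
  rw [← h1]
  rfl

end Val

/-- powers of an automorphism fix what the automorphism fixes -/
theorem kr_pow_apply_of_fixed {K L : Type*} [Field K] [Field L] [Algebra K L] (g : L ≃ₐ[K] L)
    {x : L} (hx : g x = x) (k : ℕ) : (g ^ k) x = x := by
  induction k with
  | zero => simp
  | succ k ih => rw [pow_succ, AlgEquiv.mul_apply, hx, ih]

/-- **[KUM-RES]** (verbatim `helper2.KumResStatement`). -/
theorem kumRes : KumResStatement := by
  classical
  rintro β T hβ hβinv hβ0 hT ⟨g, hgβ, hgω, hgy⟩ l₀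
  set M : ℕ := ∏ r ∈ T, r with hM
  have hMpos : 0 < M := Finset.prod_pos fun r hr => (hT r hr).pos
  -- the generators of the level
  set G : Finset (AlgebraicClosure ℚ) :=
    insert β (Polynomial.nthRootsFinset M (1 : AlgebraicClosure ℚ) ∪
      T.biUnion fun r => Polynomial.nthRootsFinset r β) with hG
  set L : IntermediateField ℚ (AlgebraicClosure ℚ) :=
    IntermediateField.adjoin ℚ (G : Set (AlgebraicClosure ℚ)) with hL
  haveI : FiniteDimensional ℚ L :=
    IntermediateField.finiteDimensional_adjoin fun x _ =>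
      ((AlgebraicClosure.isAlgebraic ℚ).isAlgebraic x).isIntegral
  have hβL : β ∈ L := IntermediateField.subset_adjoin ℚ _ (by simp [hG])
  have hωL : ∀ ω : AlgebraicClosure ℚ, ω ^ M = 1 → ω ∈ L := fun ω hω =>
    IntermediateField.subset_adjoin ℚ _ (by
      rw [hG, Finset.coe_insert, Finset.coe_union]
      exact Or.inr (Or.inl ((Polynomial.mem_nthRootsFinset hMpos 1).mpr hω)))
  have hyL : ∀ r ∈ T, ∀ y : AlgebraicClosure ℚ, y ^ r = β → y ∈ L := fun r hr y hy =>
    IntermediateField.subset_adjoin ℚ _ (by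
      rw [hG, Finset.coe_insert, Finset.coe_union]
      refine Or.inr (Or.inr ?_)
      rw [Finset.mem_coe, Finset.mem_biUnion]
      exact ⟨r, hr, (Polynomial.mem_nthRootsFinset (hT r hr).pos β).mpr hy⟩)
  -- weak Chebotarev
  obtain ⟨l, A, φ, hl, hlS, hA, hF, -, ⟨j, hj⟩, ⟨k, hk⟩⟩ :=
    Fermat.Agent.Cheb.helper40.chebW_finite_uncond L g (Finset.range (l₀ + M + 1))
  have hlM : l₀ + M + 1 ≤ l := by
    rw [Finset.mem_range, not_lt] at hlS
    exact hlS
  haveI hchar : CharP (IsLocalRing.ResidueField A) l := kr_charP_residue hl hA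
  have hφfix : ∀ x ∈ L, g x = x → φ x = x := fun x hx hgx =>
    (hk x hx).symm.trans (kr_pow_apply_of_fixed g hgx k)
  have hφβ : φ β = β := hφfix β hβL hgβ
  -- `β` is a unit of `A`
  have hβA : β ∈ A := kr_mem_of_isIntegral A hβ
  have hβinvA : β⁻¹ ∈ A := kr_mem_of_isIntegral A hβinv
  set b : A := ⟨β, hβA⟩ with hb
  have hbunit : IsLocalRing.residue A b ≠ 0 := by
    intro h0
    have h1 : b * ⟨β⁻¹, hβinvA⟩ = 1 := Subtype.ext (mul_inv_cancel₀ hβ0)
    have h2 := congrArg (IsLocalRing.residue A) h1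
    rw [map_mul, h0, zero_mul, map_one] at h2
    exact zero_ne_one h2
  have hl1 : 0 < l - 1 := by have := hl.two_le; omega
  have hbpow : IsLocalRing.residue A b ^ (l - 1) = 1 := by
    have h1 := kr_residue_frob hF b (by rw [hφβ]; exact hβA)
    have h2 : (⟨φ (b : AlgebraicClosure ℚ), by rw [hφβ]; exact hβA⟩ : A) = b :=
      Subtype.ext hφβ
    rw [h2] at h1
    have h3 : IsLocalRing.residue A b ^ (l - 1) * IsLocalRing.residue A b =
        1 * IsLocalRing.residue A b := by
      rw [← pow_succ, Nat.sub_add_cancel hl.one_le, one_mul]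
      exact h1.symm
    exact mul_right_cancel₀ hbunit h3
  refine ⟨l, by omega, hl, A, b, hA, rfl, ?_, ?_⟩
  · exact orderOf_pos_iff.mpr (isOfFinOrder_iff_pow_eq_one.mpr ⟨l - 1, hl1, hbpow⟩)
  · intro r hr
    have hrp : r.Prime := hT r hr
    haveI : Fact r.Prime := ⟨hrp⟩
    have hrM : r ∣ M := Finset.dvd_prod_of_mem _ hr
    have hrl : r < l := by
      have := Nat.le_of_dvd hMpos hrM
      omega
    -- a root `y` and the root of unity `ζ = φ y / y`
    obtain ⟨y, hy⟩ := IsAlgClosed.exists_pow_nat_eq β hrp.pos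
    have hy0 : y ≠ 0 := by
      rintro rfl
      rw [zero_pow hrp.ne_zero] at hy
      exact hβ0 hy.symm
    have hyL' : y ∈ L := hyL r hr y hy
    have hφy : φ y ≠ y := by
      intro h
      apply hgy r hr y hy
      rw [← hj y hyL']
      exact kr_pow_apply_of_fixed φ h j
    set ζ : AlgebraicClosure ℚ := φ y / y with hζ
    have hζr : ζ ^ r = 1 := by
      rw [hζ, div_pow, ← map_pow, hy, hφβ, div_self hβ0]
    have hζ1 : ζ ≠ 1 := by
      intro h
      apply hφy
      rw [hζ, div_eq_one_iff_eq hy0] at h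
      exact h
    have hζM : ζ ^ M = 1 := by
      obtain ⟨c, hc⟩ := hrM
      rw [hc, pow_mul, hζr, one_pow]
    have hφζ : φ ζ = ζ := hφfix ζ (hωL ζ hζM) (hgω ζ hζM)
    -- integrality
    have hyA : y ∈ A := kr_mem_of_isIntegral A (IsIntegral.of_pow hrp.pos (by rw [hy]; exact hβ))
    have hyinvA : y⁻¹ ∈ A :=
      kr_mem_of_isIntegral A (IsIntegral.of_pow hrp.pos (by rw [inv_pow, hy]; exact hβinv))
    have hζA : ζ ∈ A :=
      kr_mem_of_isIntegral A (IsIntegral.of_pow hrp.pos (by rw [hζr]; exact isIntegral_one))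
    have hφyA : φ y ∈ A := by
      have : φ y = ζ * y := by rw [hζ, div_mul_cancel₀ _ hy0]
      rw [this]
      exact A.mul_mem _ _ hζA hyA
    set yb : IsLocalRing.ResidueField A := IsLocalRing.residue A ⟨y, hyA⟩ with hyb
    set zb : IsLocalRing.ResidueField A := IsLocalRing.residue A ⟨ζ, hζA⟩ with hzb
    have hyb0 : yb ≠ 0 := by
      intro h0
      have h1 : (⟨y, hyA⟩ : A) * ⟨y⁻¹, hyinvA⟩ = 1 := Subtype.ext (mul_inv_cancel₀ hy0)
      have h2 := congrArg (IsLocalRing.residue A) h1
      rw [map_mul, ← hyb, h0, zero_mul, map_one] at h2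
      exact zero_ne_one h2
    have hzbr : zb ^ r = 1 := by
      rw [hzb, ← map_pow]
      have : (⟨ζ, hζA⟩ : A) ^ r = 1 := Subtype.ext (by simpa using hζr)
      rw [this, map_one]
    have hzb0 : zb ≠ 0 := by
      intro h0
      rw [h0, zero_pow hrp.ne_zero] at hzbr
      exact zero_ne_one hzbr
    -- `ȳ ^ (l - 1) = ζ̄`
    have hyfrob : yb ^ (l - 1) = zb := by
      have h1 := kr_residue_frob hF ⟨y, hyA⟩ hφyA
      have h2 : (⟨φ y, hφyA⟩ : A) = ⟨ζ, hζA⟩ * ⟨y, hyA⟩ :=
        Subtype.ext (by simp [hζ, div_mul_cancel₀ _ hy0])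
      rw [h2, map_mul, ← hyb, ← hzb] at h1
      have h3 : yb ^ (l - 1) * yb = zb * yb := by
        rw [← pow_succ, Nat.sub_add_cancel hl.one_le]
        exact h1.symm
      exact mul_right_cancel₀ hyb0 h3
    -- `ζ̄ ^ (l - 1) = 1`
    have hzfrob : zb ^ (l - 1) = 1 := by
      have h1 := kr_residue_frob hF ⟨ζ, hζA⟩ (by rw [hφζ]; exact hζA)
      have h2 : (⟨φ ((⟨ζ, hζA⟩ : A) : AlgebraicClosure ℚ), by rw [hφζ]; exact hζA⟩ : A) =
          ⟨ζ, hζA⟩ := Subtype.ext hφζ
      rw [h2, ← hzb] at h1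
      have h3 : zb ^ (l - 1) * zb = 1 * zb := by
        rw [← pow_succ, Nat.sub_add_cancel hl.one_le, one_mul]
        exact h1.symm
      exact mul_right_cancel₀ hzb0 h3
    -- `ζ̄ ≠ 1`
    have hzb1 : zb ≠ 1 := by
      intro h1
      have hgeom : ∑ i ∈ Finset.range r, ζ ^ i = 0 := by
        have h2 := mul_geom_sum ζ r
        rw [hζr, sub_self] at h2
        rcases mul_eq_zero.mp h2 with h3 | h3
        · exact absurd (sub_eq_zero.mp h3) hζ1
        · exact h3
      have hgeomA : ∑ i ∈ Finset.range r, (⟨ζ, hζA⟩ : A) ^ i = 0 :=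
        Subtype.ext (by simpa using hgeom)
      have h4 := congrArg (IsLocalRing.residue A) hgeomA
      rw [map_sum, map_zero] at h4
      simp only [map_pow, ← hzb, h1, one_pow, Finset.sum_const, Finset.card_range,
        nsmul_eq_mul, mul_one] at h4
      have h5 : l ∣ r := (CharP.cast_eq_zero_iff (IsLocalRing.ResidueField A) l r).mp h4
      have := Nat.le_of_dvd hrp.pos h5
      omega
    have hord : orderOf zb = r := orderOf_eq_prime hzbr hzb1
    have hrl1 : r ∣ l - 1 := by
      rw [← hord]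
      exact orderOf_dvd_of_pow_eq_one hzfrob
    obtain ⟨c, hc⟩ := hrl1
    -- `b̄ = ȳ ^ r`
    have hby : IsLocalRing.residue A b = yb ^ r := by
      rw [hyb, ← map_pow]
      congr 1
      exact Subtype.ext (by simpa using hy.symm)
    by_contra hrn
    have hcop : Nat.Coprime (orderOf (IsLocalRing.residue A b)) r :=
      ((Nat.Prime.coprime_iff_not_dvd hrp).mpr hrn).symm
    have hdvd : orderOf (IsLocalRing.residue A b) ∣ c * r := by
      rw [mul_comm, ← hc]
      exact orderOf_dvd_of_pow_eq_one hbpow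
    have hdvd' : orderOf (IsLocalRing.residue A b) ∣ c := hcop.dvd_of_dvd_mul_right hdvd
    have h6 : IsLocalRing.residue A b ^ c = 1 := orderOf_dvd_iff_pow_eq_one.mp hdvd'
    rw [hby, ← pow_mul, ← hc, hyfrob] at h6
    exact hzb1 h6

end Fermat.Agent.T4.helper93
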