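import Mathlib
import Fermat.Agent.T4.helper2_DivDefs
import Fermat.Agent.T4.helper2_KummerGal
import Fermat.Agent.T4.helper35_KumRootB
import Fermat.Agent.T4.helper50_KumTot
import Fermat.Agent.T4.helper93_KumRes

/-!
# T4 (IV), DIV branch: [DIV-KUMMER] `kummerPrime : KummerPrimeStatement` (helper2)

Assembly of the four leaves `kumRootBound` (helper35), `kumGal` (helper2), `kumRes` (helper93),
`kumTot` (helper50), and transfer from `ℚ̄ = AlgebraicClosure ℚ` to the algebraic integers of `ℂ`
along an embedding `ℚ̄ → ℂ`.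
-/

set_option autoImplicit false
set_option linter.style.haveILetI false

open Polynomial

namespace Fermat.Agent.T4.helper2

open Fermat.Agent.T4.helper80

/-- Every algebraic integer of `ℂ` is the image of an algebraic integer of `ℚ̄`. -/
theorem kum_exists_preimage (ι : AlgebraicClosure ℚ →+* ℂ) (x : ℂ) (hx : IsIntegral ℤ x) :
    ∃ y : AlgebraicClosure ℚ, IsIntegral ℤ y ∧ ι y = x := by
  letI : Algebra (AlgebraicClosure ℚ) ℂ := ι.toAlgebra
  have h1 : IsIntegral (AlgebraicClosure ℚ) x := hx.tower_top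
  have h2 : (minpoly (AlgebraicClosure ℚ) x).natDegree = 1 :=
    natDegree_eq_of_degree_eq_some
      (IsAlgClosed.degree_eq_one_of_irreducible _ (minpoly.irreducible h1))
  obtain ⟨y, hy⟩ := minpoly.natDegree_eq_one_iff.mp h2
  refine ⟨y, ?_, hy⟩
  have h3 : IsIntegral ℤ (algebraMap (AlgebraicClosure ℚ) ℂ y) := hy ▸ hx
  exact (isIntegral_algebraMap_iff (algebraMap (AlgebraicClosure ℚ) ℂ).injective).mp h3

/-- The algebraic integers of `ℂ` map to every valuation subring of `ℚ̄`, compatibly with an
embedding `ℚ̄ → ℂ`. -/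
theorem kum_exists_ringHom (A : ValuationSubring (AlgebraicClosure ℚ))
    (ι : AlgebraicClosure ℚ →+* ℂ) :
    ∃ ψ : Zbar →+* A, ∀ x : Zbar, ι ((ψ x : A) : AlgebraicClosure ℚ) = (x : ℂ) := by
  have hex : ∀ x : Zbar, ∃ y : A, ι (y : AlgebraicClosure ℚ) = (x : ℂ) := by
    intro x
    obtain ⟨y, hy, hyx⟩ := kum_exists_preimage ι x x.2
    exact ⟨⟨y, Fermat.Agent.T4.helper93.kr_mem_of_isIntegral A hy⟩, hyx⟩
  choose f hf using hex
  have hinj : Function.Injective ι := ι.injective
  refine ⟨{ toFun := f, map_one' := ?_, map_mul' := ?_, map_zero' := ?_, map_add' := ?_ }, hf⟩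
  · apply Subtype.ext
    apply hinj
    rw [hf]
    simp
  · intro x y
    apply Subtype.ext
    apply hinj
    rw [hf]
    simp [hf]
  · apply Subtype.ext
    apply hinj
    rw [hf]
    simp
  · intro x y
    apply Subtype.ext
    apply hinj
    rw [hf]
    simp [hf]

/-- **[DIV-KUMMER]** for a unit of the algebraic integers which is not a root of unity there
are residue maps of arbitrarily large residue characteristic along which its order `n` has
`φ(n) ≤ ε n`. -/
theorem kummerPrime : KummerPrimeStatement := by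
  intro α hα htors ε hε l₀
  have halg : Algebra.IsAlgebraic ℚ (AlgebraicClosure ℚ) := AlgebraicClosure.isAlgebraic ℚ
  let ι : AlgebraicClosure ℚ →+* ℂ := (IsAlgClosed.lift : AlgebraicClosure ℚ →ₐ[ℚ] ℂ).toRingHom
  have hinj : Function.Injective ι := ι.injective
  obtain ⟨α', hα'⟩ := hα.exists_right_inv
  obtain ⟨β, hβint, hβα⟩ := kum_exists_preimage ι α α.2
  obtain ⟨β', hβ'int, hβ'α⟩ := kum_exists_preimage ι α' α'.2
  have hββ' : β * β' = 1 := by
    apply hinj
    rw [map_mul, hβα, hβ'α, map_one]
    exact_mod_cast congrArg Subtype.val hα'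
  have hβ0 : β ≠ 0 := left_ne_zero_of_mul_eq_one hββ'
  have hβinv : IsIntegral ℤ β⁻¹ := by
    rw [← eq_inv_of_mul_eq_one_right hββ']
    exact hβ'int
  have hβtors : ∀ n : ℕ, 0 < n → β ^ n ≠ 1 := by
    intro n hn h
    apply htors n hn
    apply Subtype.ext
    have := congrArg ι h
    rw [map_pow, hβα, map_one] at this
    exact_mod_cast this
  obtain ⟨r₀, hr₀⟩ := kumGal Fermat.Agent.T4.helper35.kumRootBound β hβint hβ0 hβtors
  obtain ⟨T, hT, hTtot⟩ := Fermat.Agent.T4.helper50.kumTot ε hε r₀
  obtain ⟨l, hl₀, hl, A, b, hA, hbβ, hord, hdiv⟩ :=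
    Fermat.Agent.T4.helper93.kumRes β T hβint hβinv hβ0 (fun r hr => (hT r hr).1) (hr₀ T hT) l₀
  obtain ⟨ψ, hψ⟩ := kum_exists_ringHom A ι
  have hψα : ψ α = b := by
    apply Subtype.ext
    apply hinj
    rw [hψ, hbβ, hβα]
  have hchar : CharP (IsLocalRing.ResidueField A) l :=
    Fermat.Agent.T4.helper93.kr_charP_residue hl hA
  have hchar' : CharP (AlgebraicClosure (IsLocalRing.ResidueField A)) l :=
    charP_of_injective_algebraMap
      (algebraMap (IsLocalRing.ResidueField A)
        (AlgebraicClosure (IsLocalRing.ResidueField A))).injective l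
  let φ : Zbar →+* AlgebraicClosure (IsLocalRing.ResidueField A) :=
    (algebraMap (IsLocalRing.ResidueField A)
      (AlgebraicClosure (IsLocalRing.ResidueField A))).comp ((IsLocalRing.residue A).comp ψ)
  have hφα : orderOf (φ α) = orderOf (IsLocalRing.residue A b) := by
    have h1 : φ α = algebraMap (IsLocalRing.ResidueField A)
        (AlgebraicClosure (IsLocalRing.ResidueField A)) (IsLocalRing.residue A b) := by
      show algebraMap _ _ (IsLocalRing.residue A (ψ α)) = _
      rw [hψα]
    rw [h1]
    exact orderOf_injective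
      (algebraMap (IsLocalRing.ResidueField A)
        (AlgebraicClosure (IsLocalRing.ResidueField A))).toMonoidHom
      (algebraMap (IsLocalRing.ResidueField A)
        (AlgebraicClosure (IsLocalRing.ResidueField A))).injective _
  refine ⟨l, hl₀, hl, AlgebraicClosure (IsLocalRing.ResidueField A), inferInstance, hchar',
    inferInstance, φ, ?_, ?_⟩
  · rw [hφα]
    exact hord
  · rw [hφα]
    exact hTtot _ hord hdiv

end Fermat.Agent.T4.helper2
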