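import Mathlib
import Fermat.Agent.T4.helper2_DivDefs
import Fermat.Agent.T4.helper10_DensityAPI

/-!
# T4 block (IV), DIV branch, leaf [DIV-TORS] (helper30)

`torsion : Fermat.Agent.T4.helper2.TorsionStatement`.

Off a set of primes of upper density `≤ η` the `a p` take values in a finite set `Y`
(`FinStatement`), and the `e p` are `m`-th roots of unity.  For each of the finitely many pairs
`(a₀, e₀)` the roots `α, β` of `X² - a₀ X + e₀` are algebraic integers (as soon as the class of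
`(a₀, e₀)` is not empty); either `α` is a root of unity, and then so is `β`, or the class has
upper density zero by the hypothesis.  The exceptional set is the union of the thin set with
the finitely many classes of density zero.
-/

set_option autoImplicit false

namespace Fermat.Agent.T4.helper30

open Fermat.Agent.T4.helper80 Fermat.Agent.T4.helper2 Fermat.Agent.T4.helper10

/-- A finite union of sets of upper density zero has upper density zero. -/
lemma divTors_density_biUnion {ι : Type} (S : Finset ι) (F : ι → Set ℕ)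
    (h : ∀ q ∈ S, UpperDensityLE (F q) 0) : UpperDensityLE (⋃ q ∈ S, F q) 0 := by
  classical
  induction S using Finset.induction_on with
  | empty =>
    have : (⋃ q ∈ (∅ : Finset ι), F q) = (∅ : Set ℕ) := by simp
    rw [this]
    exact upperDensityLE_of_finite Set.finite_empty
  | insert q S _ ih =>
    rw [Finset.set_biUnion_insert]
    have h1 : UpperDensityLE (F q) 0 := h q (Finset.mem_insert_self q S)
    have h2 : UpperDensityLE (⋃ x ∈ S, F x) 0 :=
      ih fun x hx => h x (Finset.mem_insert_of_mem hx)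
    simpa using upperDensityLE_union h1 h2

/-- Enlarging the exponent of a torsion pair. -/
lemma divTors_pair_of_dvd {A B : ℕ} (hAB : A ∣ B) {a e : ℂ} (h : IsTorsionPair A a e) :
    IsTorsionPair B a e := by
  obtain ⟨ζ, ζ', h1, h2, h3, h4⟩ := h
  obtain ⟨c, rfl⟩ := hAB
  exact ⟨ζ, ζ', by rw [pow_mul, h1, one_pow], by rw [pow_mul, h2, one_pow], h3, h4⟩

/-- A common exponent for finitely many torsion pairs. -/
lemma divTors_common_exponent (S : Finset (ℂ × ℂ))
    (h : ∀ q ∈ S, ∃ A : ℕ, 0 < A ∧ IsTorsionPair A q.1 q.2) :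
    ∃ A₀ : ℕ, 0 < A₀ ∧ ∀ q ∈ S, IsTorsionPair A₀ q.1 q.2 := by
  classical
  induction S using Finset.induction_on with
  | empty => exact ⟨1, one_pos, fun q hq => absurd hq (Finset.notMem_empty q)⟩
  | insert q S _ ih =>
    obtain ⟨A, hA, hAq⟩ := h q (Finset.mem_insert_self q S)
    obtain ⟨B, hB, hBS⟩ := ih fun x hx => h x (Finset.mem_insert_of_mem hx)
    refine ⟨A * B, Nat.mul_pos hA hB, fun x hx => ?_⟩
    rcases Finset.mem_insert.mp hx with rfl | hx
    · exact divTors_pair_of_dvd (Dvd.intro _ rfl) hAq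
    · exact divTors_pair_of_dvd (Dvd.intro_left _ rfl) (hBS x hx)

/-- The roots of a monic quadratic with algebraic integer coefficients are algebraic
integers. -/
lemma divTors_isIntegral_root {a₀ e₀ x : ℂ} (ha : IsIntegral ℤ a₀) (he : IsIntegral ℤ e₀)
    (hx : x ^ 2 - a₀ * x + e₀ = 0) : IsIntegral ℤ x := by
  let a' : integralClosure ℤ ℂ := ⟨a₀, ha⟩
  let e' : integralClosure ℤ ℂ := ⟨e₀, he⟩
  refine isIntegral_trans (A := integralClosure ℤ ℂ) x ?_
  refine ⟨Polynomial.X ^ 2 - Polynomial.C a' * Polynomial.X + Polynomial.C e', ?_, ?_⟩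
  · monicity!
  · have h1 : algebraMap (integralClosure ℤ ℂ) ℂ a' = a₀ := rfl
    have h2 : algebraMap (integralClosure ℤ ℂ) ℂ e' = e₀ := rfl
    simp only [Polynomial.eval₂_add, Polynomial.eval₂_sub, Polynomial.eval₂_mul,
      Polynomial.eval₂_pow, Polynomial.eval₂_X, Polynomial.eval₂_C, h1, h2]
    exact hx

/-- The dichotomy for one class: either both roots of `X² - a₀ X + e₀` are roots of unity, or
the class of `(a₀, e₀)` has upper density zero. -/
lemma divTors_class_dichotomy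
    (hZero : ∀ (N : ℕ) (a e : ℕ → ℂ), N ≠ 0 → ResAllStatement N a e →
      ∀ α β : Zbar, (∃ m : ℕ, 0 < m ∧ (α * β) ^ m = 1) → (∀ n : ℕ, 0 < n → α ^ n ≠ 1) →
        UpperDensityLE (classSet N a e ((α : ℂ) + (β : ℂ)) ((α : ℂ) * (β : ℂ))) 0)
    {N : ℕ} {a e : ℕ → ℂ} (hN : N ≠ 0) (hR : RankinStatement N a)
    (hRes : ResAllStatement N a e) {m : ℕ} (hm : 0 < m)
    (hem : ∀ p : ℕ, p.Prime → ¬ p ∣ N → e p ^ m = 1) (a₀ e₀ : ℂ) :
    (∃ A : ℕ, 0 < A ∧ IsTorsionPair A a₀ e₀) ∨ UpperDensityLE (classSet N a e a₀ e₀) 0 := by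
  by_cases hne : (classSet N a e a₀ e₀).Nonempty
  · obtain ⟨p, hp, hpN, hap, hep⟩ := hne
    have ha₀ : IsIntegral ℤ a₀ := by
      obtain ⟨K, _, _, ι, α, hα, -⟩ := hR
      rw [← hap, ← hα p hp hpN]
      exact map_isIntegral_int ι (NumberField.RingOfIntegers.isIntegral_coe (α p))
    have he₀m : e₀ ^ m = 1 := by rw [← hep]; exact hem p hp hpN
    have he₀ : IsIntegral ℤ e₀ := IsIntegral.of_pow hm (by rw [he₀m]; exact isIntegral_one)
    obtain ⟨s, hs⟩ := IsAlgClosed.exists_eq_mul_self (a₀ ^ 2 - 4 * e₀)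
    obtain ⟨x, hx⟩ : ∃ x : ℂ, x = (a₀ + s) / 2 := ⟨_, rfl⟩
    obtain ⟨y, hy⟩ : ∃ y : ℂ, y = (a₀ - s) / 2 := ⟨_, rfl⟩
    have hxy : x + y = a₀ := by rw [hx, hy]; ring
    have hxy' : x * y = e₀ := by rw [hx, hy]; linear_combination (1 / 4 : ℂ) * hs
    have hxi : IsIntegral ℤ x :=
      divTors_isIntegral_root ha₀ he₀ (by linear_combination x * hxy - hxy')
    have hyi : IsIntegral ℤ y :=
      divTors_isIntegral_root ha₀ he₀ (by linear_combination y * hxy - hxy')
    by_cases ht : ∃ n : ℕ, 0 < n ∧ x ^ n = 1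
    · left
      obtain ⟨n, hn, hxn⟩ := ht
      refine ⟨n * m, Nat.mul_pos hn hm, x, y, ?_, ?_, hxy.symm, hxy'.symm⟩
      · rw [pow_mul, hxn, one_pow]
      · have h1 : (x * y) ^ (n * m) = 1 := by rw [hxy', mul_comm n m, pow_mul, he₀m, one_pow]
        rw [mul_pow, pow_mul x, hxn, one_pow, one_mul] at h1
        exact h1
    · right
      have hxm : x ∈ integralClosure ℤ ℂ := hxi
      have hym : y ∈ integralClosure ℤ ℂ := hyi
      have h1 : ((⟨x, hxm⟩ : Zbar) * ⟨y, hym⟩) ^ m = 1 := by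
        apply Subtype.ext
        change (x * y) ^ m = 1
        rw [hxy', he₀m]
      have h2 : ∀ n : ℕ, 0 < n → (⟨x, hxm⟩ : Zbar) ^ n ≠ 1 := by
        intro n hn h
        apply ht
        refine ⟨n, hn, ?_⟩
        have := congrArg Subtype.val h
        exact this
      have h3 := hZero N a e hN hRes ⟨x, hxm⟩ ⟨y, hym⟩ ⟨m, hm, h1⟩ h2
      have h4 : ((⟨x, hxm⟩ : Zbar) : ℂ) + ((⟨y, hym⟩ : Zbar) : ℂ) = a₀ := hxy
      have h5 : ((⟨x, hxm⟩ : Zbar) : ℂ) * ((⟨y, hym⟩ : Zbar) : ℂ) = e₀ := hxy'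
      rw [h4, h5] at h3
      exact h3
  · right
    rw [Set.not_nonempty_iff_eq_empty.mp hne]
    exact upperDensityLE_of_finite Set.finite_empty

/-- **[DIV-TORS]** off a set of primes of arbitrarily small upper density the roots of
`X² - a p X + e p` are `A₀`-th roots of unity. -/
theorem torsion : TorsionStatement := by
  intro hFin hZero N a e hN hR hRes hroot η hη
  obtain ⟨m, hm, hem⟩ := hroot
  obtain ⟨Y, X1, hX1, hY⟩ := hFin N a hR η hη
  classical
  obtain ⟨P, hP⟩ : ∃ P : Finset (ℂ × ℂ), P = Y ×ˢ Polynomial.nthRootsFinset m (1 : ℂ) :=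
    ⟨_, rfl⟩
  obtain ⟨T, hT⟩ : ∃ T : Finset (ℂ × ℂ),
      T = P.filter fun q => ∃ A : ℕ, 0 < A ∧ IsTorsionPair A q.1 q.2 := ⟨_, rfl⟩
  obtain ⟨Bd, hBd⟩ : ∃ Bd : Finset (ℂ × ℂ),
      Bd = P.filter fun q => ¬ ∃ A : ℕ, 0 < A ∧ IsTorsionPair A q.1 q.2 := ⟨_, rfl⟩
  obtain ⟨A₀, hA₀, hA₀T⟩ := divTors_common_exponent T
    (fun q hq => by rw [hT] at hq; exact (Finset.mem_filter.mp hq).2)
  have hBdd : UpperDensityLE (⋃ q ∈ Bd, classSet N a e q.1 q.2) 0 :=
    divTors_density_biUnion Bd _ fun q hq => by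
      rw [hBd] at hq
      exact (divTors_class_dichotomy hZero hN hR hRes hm hem q.1 q.2).resolve_left
        (Finset.mem_filter.mp hq).2
  refine ⟨A₀, X1 ∪ ⋃ q ∈ Bd, classSet N a e q.1 q.2, hA₀, ?_, ?_⟩
  · simpa using upperDensityLE_union hX1 hBdd
  · intro p hp hpN hpX
    have hpX1 : p ∉ X1 := fun h => hpX (Or.inl h)
    have hmemP : (a p, e p) ∈ P := by
      rw [hP]
      exact Finset.mem_product.mpr
        ⟨hY p hp hpN hpX1, (Polynomial.mem_nthRootsFinset hm 1).mpr (hem p hp hpN)⟩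
    by_cases hTp : ∃ A : ℕ, 0 < A ∧ IsTorsionPair A (a p) (e p)
    · exact hA₀T (a p, e p) (by rw [hT]; exact Finset.mem_filter.mpr ⟨hmemP, hTp⟩)
    · exfalso
      apply hpX
      right
      simp only [Set.mem_iUnion]
      exact ⟨(a p, e p), by rw [hBd]; exact Finset.mem_filter.mpr ⟨hmemP, hTp⟩,
        hp, hpN, rfl, rfl⟩

end Fermat.Agent.T4.helper30
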