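import Mathlib
import Fermat.Agent.T4.helper80_EndgameDefs

/-!
# T4 block (IV), leaf [IV-UNIP] (helper35)

`unip : Fermat.Agent.T4.helper80.UnipStatement`.

`u = 1 + n` with `n ≠ 0`, `n ^ 2 = 0`; `v := n e ≠ 0` spans `ker n`; `Bv := unipStab v` is the
stabiliser of the line `k v` in `GL 2 k`.
* `unip_count_off`: `(h, i) ↦ (h u ^ i, (trace h, det h))` is injective on
  `(H \ Bv) × Fin l`, so `|H \ Bv| l ≤ |G| |T|`;
* `unip_count_stab`: `(b, none) ↦ b`, `(b, some i) ↦ u ^ i g₀ b` is injective on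
  `(G ⊓ Bv) × Option (Fin l)`, so `|G ⊓ Bv| (l + 1) ≤ |G|`.
-/

set_option autoImplicit false

namespace Fermat.Agent.T4.helper35

open Matrix

variable {k : Type} [Field k]

/-- The `2 × 2` identity `X Y X = tr (X Y) X - det X adj Y`. -/
theorem unip_mul_mul_self (X Y : Matrix (Fin 2) (Fin 2) k) :
    X * Y * X = (X * Y).trace • X - X.det • Y.adjugate := by
  ext i j
  fin_cases i <;> fin_cases j <;>
    simp [Matrix.mul_apply, Fin.sum_univ_two, Matrix.det_fin_two, Matrix.adjugate_fin_two,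
      Matrix.trace_fin_two] <;> ring

theorem unip_det_eq_zero {n : Matrix (Fin 2) (Fin 2) k} (hn : n ^ 2 = 0) : n.det = 0 := by
  have h := congrArg Matrix.det hn
  rw [Matrix.det_pow, Matrix.det_zero] at h
  exact (pow_eq_zero_iff two_ne_zero).1 h

theorem unip_sandwich {n : Matrix (Fin 2) (Fin 2) k} (hn : n ^ 2 = 0)
    (g : Matrix (Fin 2) (Fin 2) k) : n * g * n = (g * n).trace • n := by
  rw [unip_mul_mul_self, unip_det_eq_zero hn, zero_smul, sub_zero, Matrix.trace_mul_comm]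

/-- The kernel of a nonzero `2 × 2` matrix killing a nonzero vector `v` is the line `k v`. -/
theorem unip_ker {n : Matrix (Fin 2) (Fin 2) k} (hn0 : n ≠ 0) {v w : Fin 2 → k} (hv0 : v ≠ 0)
    (hv : n *ᵥ v = 0) (hw : n *ᵥ w = 0) : ∃ c : k, w = c • v := by
  have hv0' : n 0 0 * v 0 + n 0 1 * v 1 = 0 := by
    have := congrFun hv 0
    simpa [Matrix.mulVec, dotProduct, Fin.sum_univ_two] using this
  have hv1' : n 1 0 * v 0 + n 1 1 * v 1 = 0 := by
    have := congrFun hv 1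
    simpa [Matrix.mulVec, dotProduct, Fin.sum_univ_two] using this
  have hw0' : n 0 0 * w 0 + n 0 1 * w 1 = 0 := by
    have := congrFun hw 0
    simpa [Matrix.mulVec, dotProduct, Fin.sum_univ_two] using this
  have hw1' : n 1 0 * w 0 + n 1 1 * w 1 = 0 := by
    have := congrFun hw 1
    simpa [Matrix.mulVec, dotProduct, Fin.sum_univ_two] using this
  have hd : ∀ i j : Fin 2, n i j * (v 0 * w 1 - v 1 * w 0) = 0 := by
    intro i j
    fin_cases i <;> fin_cases j
    · show n 0 0 * (v 0 * w 1 - v 1 * w 0) = 0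
      linear_combination w 1 * hv0' - v 1 * hw0'
    · show n 0 1 * (v 0 * w 1 - v 1 * w 0) = 0
      linear_combination v 0 * hw0' - w 0 * hv0'
    · show n 1 0 * (v 0 * w 1 - v 1 * w 0) = 0
      linear_combination w 1 * hv1' - v 1 * hw1'
    · show n 1 1 * (v 0 * w 1 - v 1 * w 0) = 0
      linear_combination v 0 * hw1' - w 0 * hv1'
  have hd0 : v 0 * w 1 - v 1 * w 0 = 0 := by
    by_contra hne
    apply hn0
    ext i j
    have := hd i j
    rcases mul_eq_zero.1 this with h | h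
    · simpa using h
    · exact absurd h hne
  obtain ⟨i, hi⟩ : ∃ i, v i ≠ 0 := by
    by_contra hall
    apply hv0
    ext i
    by_contra hi
    exact hall ⟨i, hi⟩
  fin_cases i
  · have hv00 : v 0 ≠ 0 := hi
    refine ⟨w 0 / v 0, ?_⟩
    ext j
    fin_cases j
    · show w 0 = (w 0 / v 0) * v 0
      field_simp
    · show w 1 = (w 0 / v 0) * v 1
      field_simp
      linear_combination hd0
  · have hv10 : v 1 ≠ 0 := hi
    refine ⟨w 1 / v 1, ?_⟩
    ext j
    fin_cases j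
    · show w 0 = (w 1 / v 1) * v 0
      field_simp
      linear_combination -hd0
    · show w 1 = (w 1 / v 1) * v 1
      field_simp

theorem unip_pow {u n : Matrix (Fin 2) (Fin 2) k} (hu : u = 1 + n) (hn : n ^ 2 = 0) (i : ℕ) :
    u ^ i = 1 + (i : k) • n := by
  induction i with
  | zero => simp
  | succ i ih =>
    have hnn : n * n = 0 := by rw [← pow_two]; exact hn
    rw [pow_succ, ih, hu, mul_add, mul_one, add_mul, one_mul, Matrix.smul_mul, hnn, smul_zero,
      add_zero, Nat.cast_succ, add_smul, one_smul]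
    abel

/-- The stabiliser in `GL 2 k` of the line spanned by a nonzero vector. -/
def unipStab (v : Fin 2 → k) (hv : v ≠ 0) : Subgroup (GL (Fin 2) k) where
  carrier := {g | ∃ c : k, (g : Matrix (Fin 2) (Fin 2) k) *ᵥ v = c • v}
  mul_mem' := by
    rintro a b ⟨ca, ha⟩ ⟨cb, hb⟩
    refine ⟨cb * ca, ?_⟩
    rw [Units.val_mul, ← Matrix.mulVec_mulVec, hb, Matrix.mulVec_smul, ha, smul_smul]
  one_mem' := ⟨1, by simp⟩
  inv_mem' := by
    rintro a ⟨c, ha⟩
    have key : ((a⁻¹ : GL (Fin 2) k) : Matrix (Fin 2) (Fin 2) k) *ᵥ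
        ((a : Matrix (Fin 2) (Fin 2) k) *ᵥ v) = v := by
      rw [Matrix.mulVec_mulVec, ← Units.val_mul, inv_mul_cancel, Units.val_one,
        Matrix.one_mulVec]
    have hc : c ≠ 0 := by
      rintro rfl
      apply hv
      rw [← key, ha, zero_smul, Matrix.mulVec_zero]
    refine ⟨c⁻¹, ?_⟩
    rw [ha, Matrix.mulVec_smul] at key
    calc ((a⁻¹ : GL (Fin 2) k) : Matrix (Fin 2) (Fin 2) k) *ᵥ v
        = c⁻¹ • (c • (((a⁻¹ : GL (Fin 2) k) : Matrix (Fin 2) (Fin 2) k) *ᵥ v)) := by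
          rw [smul_smul, inv_mul_cancel₀ hc, one_smul]
      _ = c⁻¹ • v := by rw [key]

theorem unip_mem_stab {v : Fin 2 → k} {hv : v ≠ 0} {g : GL (Fin 2) k} :
    g ∈ unipStab v hv ↔ ∃ c : k, (g : Matrix (Fin 2) (Fin 2) k) *ᵥ v = c • v := Iff.rfl


/-- Trace of `g * u ^ i` for the unipotent `u = 1 + n`. -/
theorem unip_trace_mul_pow {u n : Matrix (Fin 2) (Fin 2) k} (hu : u = 1 + n) (hn : n ^ 2 = 0)
    (g : Matrix (Fin 2) (Fin 2) k) (i : ℕ) :
    (g * u ^ i).trace = g.trace + (i : k) * (g * n).trace := by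
  rw [unip_pow hu hn, mul_add, mul_one, Matrix.mul_smul, Matrix.trace_add, Matrix.trace_smul,
    smul_eq_mul]

/-- Elements of `H` outside `B`: each coset of the powers of `u` contains at most `|T|` of
them. -/
theorem unip_count_off (l : ℕ) [CharP k l] (G : Subgroup (GL (Fin 2) k)) [Finite G]
    (H : Set (GL (Fin 2) k)) (hHG : H ⊆ (G : Set (GL (Fin 2) k))) (T : Finset (k × k))
    (hT : ∀ h ∈ H, ((h : Matrix (Fin 2) (Fin 2) k).trace,
      (h : Matrix (Fin 2) (Fin 2) k).det) ∈ T)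
    (u : GL (Fin 2) k) (huG : u ∈ G) (n : Matrix (Fin 2) (Fin 2) k)
    (hun : (u : Matrix (Fin 2) (Fin 2) k) = 1 + n) (hn2 : n ^ 2 = 0)
    (B : Set (GL (Fin 2) k))
    (hB : ∀ g : GL (Fin 2) k, g ∉ B → ((g : Matrix (Fin 2) (Fin 2) k) * n).trace ≠ 0) :
    Nat.card ↥(H \ B) * l ≤ Nat.card G * T.card := by
  -- the auxiliary claim
  have aux : ∀ h h' : GL (Fin 2) k, h' ∉ B → ∀ i j : ℕ, i ≤ j → j < l →
      h * u ^ i = h' * u ^ j →
      (h : Matrix (Fin 2) (Fin 2) k).trace = (h' : Matrix (Fin 2) (Fin 2) k).trace →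
      h = h' ∧ i = j := by
    intro h h' hh' i j hij hjl e1 e2
    have hj : j = (j - i) + i := by omega
    have e3 : h = h' * u ^ (j - i) := by
      have : h * u ^ i = (h' * u ^ (j - i)) * u ^ i := by
        rw [mul_assoc, ← pow_add, ← hj]; exact e1
      exact mul_right_cancel this
    have e4 : (h : Matrix (Fin 2) (Fin 2) k).trace =
        (h' : Matrix (Fin 2) (Fin 2) k).trace +
          ((j - i : ℕ) : k) * ((h' : Matrix (Fin 2) (Fin 2) k) * n).trace := by
      rw [e3, Units.val_mul, Units.val_pow_eq_pow_val, unip_trace_mul_pow hun hn2]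
    have e5 : ((j - i : ℕ) : k) = 0 := by
      have : ((j - i : ℕ) : k) * ((h' : Matrix (Fin 2) (Fin 2) k) * n).trace = 0 := by
        rw [e2] at e4
        linear_combination -e4
      rcases mul_eq_zero.1 this with h0 | h0
      · exact h0
      · exact absurd h0 (hB h' hh')
    have e6 : l ∣ j - i := (CharP.cast_eq_zero_iff k l _).1 e5
    have e7 : j - i = 0 := Nat.eq_zero_of_dvd_of_lt e6 (by omega)
    refine ⟨?_, by omega⟩
    rw [e3, e7, pow_zero, mul_one]
  -- the injection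
  let φ : ↥(H \ B) × Fin l → ↥G × ↥T := fun x =>
    (⟨x.1.1 * u ^ (x.2 : ℕ), G.mul_mem (hHG x.1.2.1) (G.pow_mem huG _)⟩,
      ⟨((x.1.1 : Matrix (Fin 2) (Fin 2) k).trace, (x.1.1 : Matrix (Fin 2) (Fin 2) k).det),
        hT x.1.1 x.1.2.1⟩)
  have hφ : Function.Injective φ := by
    rintro ⟨⟨h, hh⟩, ⟨i, hi⟩⟩ ⟨⟨h', hh'⟩, ⟨j, hj⟩⟩ hxy
    have e1 : h * u ^ i = h' * u ^ j := congrArg (fun z => (z.1 : GL (Fin 2) k)) hxy
    have e2 : (h : Matrix (Fin 2) (Fin 2) k).trace = (h' : Matrix (Fin 2) (Fin 2) k).trace :=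
      congrArg (fun z => (z.2 : k × k).1) hxy
    rcases le_total i j with hij | hij
    · obtain ⟨r1, r2⟩ := aux h h' hh'.2 i j hij hj e1 e2
      subst r1; subst r2; rfl
    · obtain ⟨r1, r2⟩ := aux h' h hh.2 j i hij hi e1.symm e2.symm
      subst r1; subst r2; rfl
  have hcard := Nat.card_le_card_of_injective φ hφ
  rw [Nat.card_prod, Nat.card_prod, Nat.card_fin, Nat.card_eq_finsetCard] at hcard
  exact hcard

/-- The stabiliser of the line `k v` in `G` has index at least `l + 1`. -/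
theorem unip_count_stab (l : ℕ) [CharP k l] (G : Subgroup (GL (Fin 2) k)) [Finite G]
    (u : GL (Fin 2) k) (huG : u ∈ G) (n : Matrix (Fin 2) (Fin 2) k)
    (hun : (u : Matrix (Fin 2) (Fin 2) k) = 1 + n) (hn2 : n ^ 2 = 0) (hn0 : n ≠ 0)
    (v : Fin 2 → k) (hv0 : v ≠ 0) (hnv : n *ᵥ v = 0)
    (g₀ : GL (Fin 2) k) (hg₀G : g₀ ∈ G) (hg₀ : g₀ ∉ unipStab v hv0) :
    Nat.card ↥(G ⊓ unipStab v hv0) * (l + 1) ≤ Nat.card G := by
  have hnn : n * n = 0 := by rw [← pow_two]; exact hn2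
  have huB : u ∈ unipStab v hv0 := by
    refine ⟨1, ?_⟩
    rw [hun, Matrix.add_mulVec, Matrix.one_mulVec, hnv, add_zero, one_smul]
  -- the auxiliary claim
  have aux : ∀ b b' : GL (Fin 2) k, b ∈ unipStab v hv0 → b' ∈ unipStab v hv0 →
      ∀ i j : ℕ, i ≤ j → j < l → u ^ i * g₀ * b = u ^ j * g₀ * b' → b = b' ∧ i = j := by
    intro b b' hb hb' i j hij hjl e1
    have hj : j = i + (j - i) := by omega
    have e3 : g₀ * b = u ^ (j - i) * g₀ * b' := by
      have : u ^ i * (g₀ * b) = u ^ i * (u ^ (j - i) * g₀ * b') := by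
        rw [← mul_assoc, ← mul_assoc, ← mul_assoc, ← pow_add, ← hj]; exact e1
      exact mul_left_cancel this
    by_cases hm : j - i = 0
    · rw [hm, pow_zero, one_mul] at e3
      exact ⟨mul_left_cancel e3, by omega⟩
    · exfalso
      have hmk : ((j - i : ℕ) : k) ≠ 0 := by
        intro h0
        have : l ∣ j - i := (CharP.cast_eq_zero_iff k l _).1 h0
        exact hm (Nat.eq_zero_of_dvd_of_lt this (by omega))
      -- `β := b * b'⁻¹` stabilises the line
      have hβ : b * b'⁻¹ ∈ unipStab v hv0 :=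
        (unipStab v hv0).mul_mem hb ((unipStab v hv0).inv_mem hb')
      obtain ⟨c, hc⟩ := hβ
      have e4 : u ^ (j - i) * g₀ = g₀ * (b * b'⁻¹) := by
        rw [← mul_assoc, e3, mul_inv_cancel_right]
      have e5 := congrArg (fun z : GL (Fin 2) k => (z : Matrix (Fin 2) (Fin 2) k) *ᵥ v) e4
      simp only [Units.val_mul, Units.val_pow_eq_pow_val] at e5
      rw [← Matrix.mulVec_mulVec, ← Matrix.mulVec_mulVec, ← Units.val_mul, hc,
        Matrix.mulVec_smul, unip_pow hun hn2, Matrix.add_mulVec, Matrix.one_mulVec,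
        Matrix.smul_mulVec] at e5
      -- `e5 : w + m • n w = c • w`
      have e6 := congrArg (fun z : Fin 2 → k => n *ᵥ z) e5
      simp only [Matrix.mulVec_add, Matrix.mulVec_smul] at e6
      have hnnw : n *ᵥ (n *ᵥ ((g₀ : Matrix (Fin 2) (Fin 2) k) *ᵥ v)) = 0 := by
        rw [Matrix.mulVec_mulVec, hnn, Matrix.zero_mulVec]
      rw [hnnw, smul_zero, add_zero] at e6
      have hnw : n *ᵥ ((g₀ : Matrix (Fin 2) (Fin 2) k) *ᵥ v) = 0 := by
        by_cases hc1 : c = 1
        · rw [hc1, one_smul] at e5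
          have : ((j - i : ℕ) : k) • (n *ᵥ ((g₀ : Matrix (Fin 2) (Fin 2) k) *ᵥ v)) = 0 :=
            add_left_cancel (e5.trans (add_zero _).symm)
          rcases smul_eq_zero.1 this with h0 | h0
          · exact absurd h0 hmk
          · exact h0
        · have : (1 - c) • (n *ᵥ ((g₀ : Matrix (Fin 2) (Fin 2) k) *ᵥ v)) = 0 := by
            rw [sub_smul, one_smul, ← e6, sub_self]
          rcases smul_eq_zero.1 this with h0 | h0
          · exact absurd (sub_eq_zero.1 h0).symm hc1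
          · exact h0
      obtain ⟨c', hc'⟩ := unip_ker hn0 hv0 hnv hnw
      exact hg₀ ⟨c', hc'⟩
  -- the injection
  let ψ : ↥(G ⊓ unipStab v hv0) × Option (Fin l) → ↥G := fun x =>
    match x.2 with
    | none => ⟨x.1.1, (Subgroup.mem_inf.1 x.1.2).1⟩
    | some i => ⟨u ^ (i : ℕ) * g₀ * x.1.1,
        G.mul_mem (G.mul_mem (G.pow_mem huG _) hg₀G) (Subgroup.mem_inf.1 x.1.2).1⟩
  have hψ : Function.Injective ψ := by
    rintro ⟨⟨b, hb⟩, _ | ⟨i, hi⟩⟩ ⟨⟨b', hb'⟩, _ | ⟨j, hj⟩⟩ hxy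
    · have e1 : b = b' := congrArg (fun z : ↥G => (z : GL (Fin 2) k)) hxy
      subst e1; rfl
    · exfalso
      have e1 : b = u ^ j * g₀ * b' := congrArg (fun z : ↥G => (z : GL (Fin 2) k)) hxy
      apply hg₀
      have : g₀ = (u ^ j)⁻¹ * b * b'⁻¹ := by
        rw [e1]; group
      rw [this]
      exact (unipStab v hv0).mul_mem ((unipStab v hv0).mul_mem
        ((unipStab v hv0).inv_mem ((unipStab v hv0).pow_mem huB _)) (Subgroup.mem_inf.1 hb).2)
        ((unipStab v hv0).inv_mem (Subgroup.mem_inf.1 hb').2)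
    · exfalso
      have e1 : u ^ i * g₀ * b = b' := congrArg (fun z : ↥G => (z : GL (Fin 2) k)) hxy
      apply hg₀
      have : g₀ = (u ^ i)⁻¹ * b' * b⁻¹ := by
        rw [← e1]; group
      rw [this]
      exact (unipStab v hv0).mul_mem ((unipStab v hv0).mul_mem
        ((unipStab v hv0).inv_mem ((unipStab v hv0).pow_mem huB _)) (Subgroup.mem_inf.1 hb').2)
        ((unipStab v hv0).inv_mem (Subgroup.mem_inf.1 hb).2)
    · have e1 : u ^ i * g₀ * b = u ^ j * g₀ * b' := congrArg (fun z : ↥G => (z : GL (Fin 2) k)) hxy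
      rcases le_total i j with hij | hij
      · obtain ⟨r1, r2⟩ := aux b b' (Subgroup.mem_inf.1 hb).2 (Subgroup.mem_inf.1 hb').2 i j
          hij hj e1
        subst r1; subst r2; rfl
      · obtain ⟨r1, r2⟩ := aux b' b (Subgroup.mem_inf.1 hb').2 (Subgroup.mem_inf.1 hb).2 j i
          hij hi e1.symm
        subst r1; subst r2; rfl
  have hcard := Nat.card_le_card_of_injective ψ hψ
  rw [Nat.card_prod, Finite.card_option, Nat.card_fin] at hcard
  exact hcard

/-- **[IV-UNIP]** -/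
theorem unip : Fermat.Agent.T4.helper80.UnipStatement := by
  intro k _ l hl _ G _ M H hHG hT hline hu
  obtain ⟨T, hTM, hT⟩ := hT
  obtain ⟨u, huG, hu1, hun2⟩ := hu
  -- the nilpotent `n = u - 1`
  obtain ⟨n, hn⟩ : ∃ n : Matrix (Fin 2) (Fin 2) k, n = (u : Matrix (Fin 2) (Fin 2) k) - 1 :=
    ⟨_, rfl⟩
  rw [← hn] at hun2
  have hun : (u : Matrix (Fin 2) (Fin 2) k) = 1 + n := by rw [hn]; abel
  have hn0 : n ≠ 0 := by
    intro h0
    apply hu1
    apply Units.ext
    rw [hun, h0, add_zero, Units.val_one]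
  have hnn : n * n = 0 := by rw [← pow_two]; exact hun2
  -- the vector spanning the line
  obtain ⟨e, he⟩ : ∃ e : Fin 2 → k, n *ᵥ e ≠ 0 := by
    by_contra hall
    apply hn0
    ext i j
    have h1 : n *ᵥ (Pi.single j 1) = 0 := by
      by_contra h
      exact hall ⟨_, h⟩
    have h2 := congrFun h1 i
    simpa [Matrix.mulVec_single_one] using h2
  obtain ⟨v, hv⟩ : ∃ v : Fin 2 → k, v = n *ᵥ e := ⟨_, rfl⟩
  rw [← hv] at he
  have hnv : n *ᵥ v = 0 := by rw [hv, Matrix.mulVec_mulVec, hnn, Matrix.zero_mulVec]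
  -- elements outside the stabiliser
  have hB : ∀ g : GL (Fin 2) k, g ∉ ((unipStab v he : Subgroup (GL (Fin 2) k)) :
      Set (GL (Fin 2) k)) → ((g : Matrix (Fin 2) (Fin 2) k) * n).trace ≠ 0 := by
    intro g hg htr
    apply hg
    have h1 : n * (g : Matrix (Fin 2) (Fin 2) k) * n = 0 := by
      rw [unip_sandwich hun2, htr, zero_smul]
    have h2 : n *ᵥ ((g : Matrix (Fin 2) (Fin 2) k) *ᵥ v) = 0 := by
      rw [hv, Matrix.mulVec_mulVec, Matrix.mulVec_mulVec, h1, Matrix.zero_mulVec]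
    obtain ⟨c, hc⟩ := unip_ker hn0 he hnv h2
    exact ⟨c, hc⟩
  -- an element of `G` moving the line
  obtain ⟨g₀, hg₀G, hg₀⟩ : ∃ g₀ ∈ G, g₀ ∉ unipStab v he := by
    by_contra hall
    apply hline
    refine ⟨v, he, fun g hg => ?_⟩
    by_contra h
    exact hall ⟨g, hg, h⟩
  have c1 := unip_count_off l G H hHG T hT u huG n hun hun2
    ((unipStab v he : Subgroup (GL (Fin 2) k)) : Set (GL (Fin 2) k)) hB
  have c2 := unip_count_stab l G u huG n hun hun2 hn0 v he hnv g₀ hg₀G hg₀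
  -- cardinalities
  have hGfin : (G : Set (GL (Fin 2) k)).Finite := Set.finite_coe_iff.1 ‹Finite ↥G›
  have hfin2 : ((G ⊓ unipStab v he : Subgroup (GL (Fin 2) k)) : Set (GL (Fin 2) k)).Finite :=
    hGfin.subset (fun x hx => (Subgroup.mem_inf.1 hx).1)
  have hsplit : H.ncard ≤
      ((G ⊓ unipStab v he : Subgroup (GL (Fin 2) k)) : Set (GL (Fin 2) k)).ncard +
        (H \ ((unipStab v he : Subgroup (GL (Fin 2) k)) : Set (GL (Fin 2) k))).ncard := by
    have h1 : H ⊆ ((G ⊓ unipStab v he : Subgroup (GL (Fin 2) k)) : Set (GL (Fin 2) k)) ∪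
        (H \ ((unipStab v he : Subgroup (GL (Fin 2) k)) : Set (GL (Fin 2) k))) := by
      intro x hx
      by_cases hxB : x ∈ unipStab v he
      · exact Or.inl (Subgroup.mem_inf.2 ⟨hHG hx, hxB⟩)
      · exact Or.inr ⟨hx, hxB⟩
    have hfin3 : (((G ⊓ unipStab v he : Subgroup (GL (Fin 2) k)) : Set (GL (Fin 2) k)) ∪
        (H \ ((unipStab v he : Subgroup (GL (Fin 2) k)) : Set (GL (Fin 2) k)))).Finite :=
      hfin2.union ((hGfin.subset hHG).subset Set.sdiff_subset)
    exact (Set.ncard_le_ncard h1 hfin3).trans (Set.ncard_union_le _ _)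
  have hH : Nat.card H = H.ncard := Nat.card_coe_set_eq H
  have ha : Nat.card ↥(G ⊓ unipStab v he) =
      ((G ⊓ unipStab v he : Subgroup (GL (Fin 2) k)) : Set (GL (Fin 2) k)).ncard := rfl
  have hb : Nat.card ↥(H \ ((unipStab v he : Subgroup (GL (Fin 2) k)) : Set (GL (Fin 2) k))) =
      (H \ ((unipStab v he : Subgroup (GL (Fin 2) k)) : Set (GL (Fin 2) k))).ncard := rfl
  rw [← ha, ← hb, ← hH] at hsplit
  -- real arithmetic
  have hl0 : (0 : ℝ) < (l : ℝ) := by exact_mod_cast hl.pos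
  have hl1 : (0 : ℝ) < (l : ℝ) + 1 := by positivity
  have r1 : (Nat.card ↥(G ⊓ unipStab v he) : ℝ) ≤ (Nat.card G : ℝ) / ((l : ℝ) + 1) := by
    rw [le_div_iff₀ hl1]
    exact_mod_cast c2
  have r2 : (Nat.card ↥(H \ ((unipStab v he : Subgroup (GL (Fin 2) k)) :
      Set (GL (Fin 2) k))) : ℝ) ≤ (Nat.card G : ℝ) * (M : ℝ) / (l : ℝ) := by
    rw [le_div_iff₀ hl0]
    have : Nat.card ↥(H \ ((unipStab v he : Subgroup (GL (Fin 2) k)) :
        Set (GL (Fin 2) k))) * l ≤ Nat.card G * M :=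
      c1.trans (Nat.mul_le_mul_left _ hTM)
    exact_mod_cast this
  have r3 : (Nat.card H : ℝ) ≤ (Nat.card ↥(G ⊓ unipStab v he) : ℝ) +
      (Nat.card ↥(H \ ((unipStab v he : Subgroup (GL (Fin 2) k)) :
        Set (GL (Fin 2) k))) : ℝ) := by
    exact_mod_cast hsplit
  calc (Nat.card H : ℝ) ≤ (Nat.card G : ℝ) / ((l : ℝ) + 1) +
        (Nat.card G : ℝ) * (M : ℝ) / (l : ℝ) := r3.trans (add_le_add r1 r2)
    _ = (Nat.card G : ℝ) * (1 / ((l : ℝ) + 1) + (M : ℝ) / (l : ℝ)) := by ring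

end Fermat.Agent.T4.helper35
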