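import Mathlib

/-!
# T4 [CHEB-DIV] (helper40), part 4: divisions of a finite group (Mathlib only)

The *division* of `g` in a finite group `G` is the set of all `x` such that `⟨x⟩` is conjugate to
`⟨g⟩`.

* `DivStable C` : `C` is stable under conjugation and under `x ↦ x ^ j`, `j` prime to `|G|`;
* `DivStable.mem_of_mem_divisionOf` : such a `C` is a union of divisions;
* `divisionOf_eq_of_mem` : divisions are equal or disjoint;
* `card_divisionOf_mul_le` : `|Div g| * |N_G(⟨g⟩)| ≤ φ(ord g) * |G|`;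
* `card_preimage_mul` : for a surjective homomorphism `f : G₀ → G` of finite groups,
  `|f⁻¹ C| * |G| = |C| * |G₀|`.
-/

set_option autoImplicit false
set_option linter.unusedSectionVars false
set_option linter.unusedVariables false
set_option linter.style.haveILetI false

namespace Fermat.Agent.T4.helper40

variable {G : Type*} [Group G]

/-- conjugation by `τ` as a monoid homomorphism -/
def cj (τ : G) : G →* G := (MulAut.conj τ).toMonoidHom

@[simp] lemma cj_apply (τ x : G) : cj τ x = τ * x * τ⁻¹ := rfl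

lemma map_cj_map_cj (H : Subgroup G) (σ τ : G) :
    (H.map (cj τ)).map (cj σ) = H.map (cj (σ * τ)) := by
  rw [Subgroup.map_map]
  congr 1
  ext x
  simp only [MonoidHom.comp_apply, cj_apply, mul_inv_rev]
  group

lemma map_cj_one (H : Subgroup G) : H.map (cj (1 : G)) = H := by
  ext x
  simp [Subgroup.mem_map]

lemma zpowers_cj (τ g : G) :
    Subgroup.zpowers (τ * g * τ⁻¹) = (Subgroup.zpowers g).map (cj τ) := by
  rw [MonoidHom.map_zpowers]
  rfl

lemma map_cj_eq_of_mem_normalizer {H : Subgroup G} {ν : G}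
    (hν : ν ∈ Subgroup.normalizer (H : Set G)) : H.map (cj ν) = H := by
  ext y
  rw [Subgroup.mem_map]
  constructor
  · rintro ⟨h, hh, rfl⟩
    exact (Subgroup.mem_normalizer_iff.mp hν h).mp hh
  · intro hy
    refine ⟨ν⁻¹ * y * ν, ?_, ?_⟩
    · rw [Subgroup.mem_normalizer_iff.mp hν]
      have : ν * (ν⁻¹ * y * ν) * ν⁻¹ = y := by group
      rw [this]
      exact hy
    · simp only [cj_apply]
      group

/-- `C` is stable under conjugation and under prime-to-`|G|` powers. -/
def DivStable (C : Set G) : Prop :=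
  (∀ g h : G, h ∈ C → g * h * g⁻¹ ∈ C) ∧
    ∀ (h : G) (j : ℕ), h ∈ C → Nat.Coprime j (Nat.card G) → h ^ j ∈ C

/-- an inverse modulo `N` which is prime to `N` -/
lemma exists_coprime_mul_modEq_one {j N : ℕ} (hN : 0 < N) (hj : Nat.Coprime j N) :
    ∃ i : ℕ, Nat.Coprime i N ∧ i * j ≡ 1 [MOD N] := by
  haveI : NeZero N := ⟨hN.ne'⟩
  refine ⟨((ZMod.unitOfCoprime j hj)⁻¹ : (ZMod N)ˣ).val.val, ZMod.val_coe_unit_coprime _, ?_⟩
  rw [← ZMod.natCast_eq_natCast_iff]
  push_cast
  rw [ZMod.natCast_zmod_val, ← ZMod.coe_unitOfCoprime j hj]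
  simp

/-- lifting a residue prime to `n` to a residue prime to `N`, `n ∣ N` -/
lemma exists_coprime_modEq {k n N : ℕ} (hN : 0 < N) (hn : n ∣ N) (hk : Nat.Coprime k n) :
    ∃ j : ℕ, Nat.Coprime j N ∧ j ≡ k [MOD n] := by
  haveI : NeZero N := ⟨hN.ne'⟩
  obtain ⟨v, hv⟩ := ZMod.unitsMap_surjective hn (ZMod.unitOfCoprime k hk)
  refine ⟨(v : ZMod N).val, ZMod.val_coe_unit_coprime v, ?_⟩
  rw [← ZMod.natCast_eq_natCast_iff, ZMod.natCast_val, ← ZMod.unitsMap_val hn v, hv,
    ZMod.coe_unitOfCoprime]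

lemma DivStable.compl [Finite G] {C : Set G} (hC : DivStable C) : DivStable Cᶜ := by
  refine ⟨fun g h hh hc => hh ?_, fun h j hh hj hc => hh ?_⟩
  · have := hC.1 g⁻¹ _ hc
    have e : g⁻¹ * (g * h * g⁻¹) * g⁻¹⁻¹ = h := by group
    rwa [e] at this
  · -- `h` is a power of `h ^ j`
    have hn : 0 < Nat.card G := Nat.card_pos
    obtain ⟨i, hi, hij⟩ := exists_coprime_mul_modEq_one hn hj
    have h1 := hC.2 (h ^ j) i hc hi
    have h2 : (h ^ j) ^ i = h := by
      rw [← pow_mul, mul_comm]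
      conv_rhs => rw [← pow_one h]
      rw [pow_eq_pow_iff_modEq]
      exact hij.of_dvd (orderOf_dvd_natCard h)
    rwa [h2] at h1

/-- a `DivStable` set contains all generators of `⟨g⟩`, `g ∈ C` -/
lemma DivStable.mem_of_zpowers_eq [Finite G] {C : Set G} (hC : DivStable C) {g x : G}
    (hg : g ∈ C) (h : Subgroup.zpowers x = Subgroup.zpowers g) : x ∈ C := by
  have hx : x ∈ Subgroup.zpowers g := h ▸ Subgroup.mem_zpowers x
  rw [← mem_powers_iff_mem_zpowers] at hx
  obtain ⟨k, rfl⟩ := hx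
  have hord : orderOf (g ^ k) = orderOf g := by
    rw [← Nat.card_zpowers, ← Nat.card_zpowers g, h]
  have hn : 0 < orderOf g := orderOf_pos g
  have hcop : Nat.Coprime k (orderOf g) := by
    rw [orderOf_pow] at hord
    have h1 : orderOf g / (orderOf g).gcd k * (orderOf g).gcd k = orderOf g :=
      Nat.div_mul_cancel (Nat.gcd_dvd_left _ _)
    rw [hord] at h1
    have h2 : (orderOf g).gcd k = 1 := by
      have := Nat.eq_of_mul_eq_mul_left hn (h1.trans (mul_one _).symm)
      exact this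
    rw [Nat.coprime_comm]
    exact h2
  obtain ⟨j, hj, hjk⟩ := exists_coprime_modEq Nat.card_pos (orderOf_dvd_natCard g) hcop
  have h3 : g ^ j = g ^ k := pow_eq_pow_iff_modEq.mpr hjk
  show g ^ k ∈ C
  rw [← h3]
  exact hC.2 g j hg hj

/-- The division of `g`. -/
def divisionOf (g : G) : Set G :=
  {x | ∃ τ : G, Subgroup.zpowers x = (Subgroup.zpowers g).map (cj τ)}

lemma mem_divisionOf_self (g : G) : g ∈ divisionOf g :=
  ⟨1, (map_cj_one _).symm⟩

lemma mem_divisionOf_symm {g x : G} (h : x ∈ divisionOf g) : g ∈ divisionOf x := by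
  obtain ⟨τ, hτ⟩ := h
  refine ⟨τ⁻¹, ?_⟩
  rw [hτ, map_cj_map_cj, inv_mul_cancel, map_cj_one]

lemma mem_divisionOf_trans {g x y : G} (h : x ∈ divisionOf g) (h' : y ∈ divisionOf x) :
    y ∈ divisionOf g := by
  obtain ⟨τ, hτ⟩ := h
  obtain ⟨σ, hσ⟩ := h'
  refine ⟨σ * τ, ?_⟩
  rw [hσ, hτ, map_cj_map_cj]

lemma divisionOf_eq_of_mem {g x : G} (h : x ∈ divisionOf g) : divisionOf x = divisionOf g := by
  ext y
  exact ⟨fun hy => mem_divisionOf_trans h hy,
    fun hy => mem_divisionOf_trans (mem_divisionOf_symm h) hy⟩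

/-- a `DivStable` set is a union of divisions -/
lemma DivStable.mem_of_mem_divisionOf [Finite G] {C : Set G} (hC : DivStable C) {g x : G}
    (hg : g ∈ C) (h : x ∈ divisionOf g) : x ∈ C := by
  obtain ⟨τ, hτ⟩ := h
  rw [← zpowers_cj] at hτ
  exact hC.mem_of_zpowers_eq (hC.1 τ g hg) hτ

/-! ### The size of a division -/

/-- the generators of `⟨g⟩` -/
def gensOf (g : G) : Set G := {h | Subgroup.zpowers h = Subgroup.zpowers g}

lemma card_gensOf_le [Finite G] (g : G) : Nat.card (gensOf g) ≤ Nat.totient (orderOf g) := by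
  classical
  haveI : Fintype (Subgroup.zpowers g) := Fintype.ofFinite _
  have hcyc : IsCyclic (Subgroup.zpowers g) := inferInstance
  have hcard : Fintype.card (Subgroup.zpowers g) = orderOf g := by
    rw [← Nat.card_eq_fintype_card, Nat.card_zpowers]
  have h1 := IsCyclic.card_orderOf_eq_totient (α := Subgroup.zpowers g) (d := orderOf g)
    (by rw [hcard])
  rw [← h1, ← Fintype.card_subtype, ← Nat.card_eq_fintype_card]
  refine Nat.card_le_card_of_injective
    (fun h : gensOf g => (⟨⟨h.1, h.2 ▸ Subgroup.mem_zpowers h.1⟩, ?_⟩ :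
      {a : Subgroup.zpowers g // orderOf a = orderOf g})) ?_
  · rw [Subgroup.orderOf_mk, ← Nat.card_zpowers, h.2, Nat.card_zpowers]
  · intro a b hab
    apply Subtype.ext
    have := congrArg (fun t : {a : Subgroup.zpowers g // orderOf a = orderOf g} =>
      ((t : Subgroup.zpowers g) : G)) hab
    exact this

/-- **The size of a division**: `|Div g| * |N_G(⟨g⟩)| ≤ φ(ord g) * |G|`. -/
theorem card_divisionOf_mul_le [Finite G] (g : G) :
    Nat.card (divisionOf g) * Nat.card (Subgroup.normalizer (Subgroup.zpowers g : Set G)) ≤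
      Nat.totient (orderOf g) * Nat.card G := by
  classical
  have hex : ∀ x : divisionOf g, ∃ τ : G,
      Subgroup.zpowers (x : G) = (Subgroup.zpowers g).map (cj τ) := fun x => x.2
  choose τ hτ using hex
  -- the element `h_x = τ⁻¹ x τ`
  have hgen : ∀ x : divisionOf g, (τ x)⁻¹ * (x : G) * (τ x) ∈ gensOf g := by
    intro x
    show Subgroup.zpowers ((τ x)⁻¹ * (x : G) * (τ x)) = Subgroup.zpowers g
    have e : (τ x)⁻¹ * (x : G) * (τ x) = (τ x)⁻¹ * (x : G) * (τ x)⁻¹⁻¹ := by group
    rw [e, zpowers_cj, hτ, map_cj_map_cj, inv_mul_cancel, map_cj_one]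
  have hgen' : ∀ (x : divisionOf g) (ν : Subgroup.normalizer (Subgroup.zpowers g : Set G)),
      (ν : G)⁻¹ * ((τ x)⁻¹ * (x : G) * (τ x)) * (ν : G) ∈ gensOf g := by
    intro x ν
    show Subgroup.zpowers ((ν : G)⁻¹ * ((τ x)⁻¹ * (x : G) * (τ x)) * (ν : G)) = Subgroup.zpowers g
    have e : (ν : G)⁻¹ * ((τ x)⁻¹ * (x : G) * (τ x)) * (ν : G) =
        (ν : G)⁻¹ * ((τ x)⁻¹ * (x : G) * (τ x)) * (ν : G)⁻¹⁻¹ := by group
    rw [e, zpowers_cj, hgen x]
    exact map_cj_eq_of_mem_normalizer (inv_mem ν.2)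
  have hinj : Function.Injective
      (fun p : divisionOf g × Subgroup.normalizer (Subgroup.zpowers g : Set G) =>
        ((τ p.1 * (p.2 : G), ⟨_, hgen' p.1 p.2⟩) : G × gensOf g)) := by
    rintro ⟨x, ν⟩ ⟨y, μ⟩ hxy
    have h1 : τ x * (ν : G) = τ y * (μ : G) := congrArg (fun t : G × gensOf g => t.1) hxy
    have h2 : (ν : G)⁻¹ * ((τ x)⁻¹ * (x : G) * (τ x)) * (ν : G) =
        (μ : G)⁻¹ * ((τ y)⁻¹ * (y : G) * (τ y)) * (μ : G) :=
      congrArg (fun t : G × gensOf g => (t.2 : G)) hxy
    have h3 : (x : G) = y := by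
      have e1 : (x : G) = (τ x * (ν : G)) * ((ν : G)⁻¹ * ((τ x)⁻¹ * (x : G) * (τ x)) * (ν : G)) *
          (τ x * (ν : G))⁻¹ := by group
      have e2 : (y : G) = (τ y * (μ : G)) * ((μ : G)⁻¹ * ((τ y)⁻¹ * (y : G) * (τ y)) * (μ : G)) *
          (τ y * (μ : G))⁻¹ := by group
      rw [e1, e2, h1, h2]
    have h4 : x = y := Subtype.ext h3
    subst h4
    have h5 : (ν : G) = μ := mul_left_cancel h1
    have h6 : ν = μ := Subtype.ext h5
    rw [h6]
  have h7 := Nat.card_le_card_of_injective _ hinj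
  rw [Nat.card_prod, Nat.card_prod] at h7
  calc _ ≤ Nat.card G * Nat.card (gensOf g) := h7
    _ ≤ Nat.card G * Nat.totient (orderOf g) := Nat.mul_le_mul_left _ (card_gensOf_le g)
    _ = _ := mul_comm _ _

/-! ### Preimages under a surjective homomorphism -/

/-- For a surjective homomorphism `f : G₀ → G` of finite groups,
`|f⁻¹ C| * |G| = |C| * |G₀|`. -/
theorem card_preimage_mul {G₀ : Type*} [Group G₀] [Finite G₀] [Finite G] (f : G₀ →* G)
    (hf : Function.Surjective f) (C : Set G) :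
    Nat.card (f ⁻¹' C) * Nat.card G = Nat.card C * Nat.card G₀ := by
  classical
  -- `G₀ ≃ G × ker f` compatibly with `f`
  choose sec hsec using hf
  let e : G₀ ≃ G × f.ker :=
    { toFun := fun x => (f x, ⟨(sec (f x))⁻¹ * x, by
        rw [MonoidHom.mem_ker, map_mul, map_inv, hsec, inv_mul_cancel]⟩)
      invFun := fun p => sec p.1 * (p.2 : G₀)
      left_inv := fun x => by simp
      right_inv := fun p => by
        have h1 : f (sec p.1 * (p.2 : G₀)) = p.1 := by
          rw [map_mul, hsec, MonoidHom.mem_ker.mp p.2.2, mul_one]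
        apply Prod.ext
        · exact h1
        · apply Subtype.ext
          simp only [h1]
          group }
  have hG₀ : Nat.card G₀ = Nat.card G * Nat.card f.ker := by
    rw [Nat.card_congr e, Nat.card_prod]
  let e' : (f ⁻¹' C) ≃ C × f.ker :=
    { toFun := fun x => (⟨f x.1, x.2⟩, (e x.1).2)
      invFun := fun p => ⟨e.symm (p.1.1, p.2), by
        show f (e.symm (p.1.1, p.2)) ∈ C
        have : f (e.symm (p.1.1, p.2)) = p.1.1 := by
          have := congrArg Prod.fst (e.apply_symm_apply (p.1.1, p.2))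
          exact this
        rw [this]
        exact p.1.2⟩
      left_inv := fun x => by
        apply Subtype.ext
        show e.symm (f x.1, (e x.1).2) = x.1
        exact e.symm_apply_apply x.1
      right_inv := fun p => by
        have h := e.apply_symm_apply (p.1.1, p.2)
        apply Prod.ext
        · apply Subtype.ext
          exact congrArg Prod.fst h
        · show (e (e.symm (p.1.1, p.2))).2 = p.2
          rw [h] }
  have hC : Nat.card (f ⁻¹' C) = Nat.card C * Nat.card f.ker := by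
    rw [Nat.card_congr e', Nat.card_prod]
  rw [hC, hG₀]
  ring

end Fermat.Agent.T4.helper40
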