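import Mathlib
import Fermat.Agent.Cheb.helper40_ChebCyclic

/-!
# T4 [CHEB-DIV] (helper40), part 1: the cyclic lower bound

Let `K/E` be a cyclic extension of number fields, `n = [K:E]`.  The primes `𝔭` of `E` of absolute
degree one, outside a finite exceptional set, whose Frobenius generates `Gal(K/E)` have prime sum
at least `∏_{r ∣ n} (1 - 1/r) * log (1/(s-1)) - B` on `(1, 2]`:

* `exists_lower_generators`.

This is the quantitative content of the proof of
`Fermat.Agent.Cheb.helper40.exists_prime_frobAt_generates` (inclusion-exclusion over the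
subextensions of `K/E`).
-/

set_option autoImplicit false
set_option linter.unusedSectionVars false
set_option linter.unusedVariables false
set_option linter.style.haveILetI false

open NumberField Ideal IsDedekindDomain Filter Topology
open scoped Pointwise Classical

namespace Fermat.Agent.T4.helper40

open Fermat.Agent.S14 Fermat.Agent.Cheb.helper40

variable {E K : Type*} [Field E] [NumberField E] [Field K] [NumberField K] [Algebra E K]
  [IsGalois E K]

/-- **Lower bound for the primes whose Frobenius generates a cyclic Galois group.** -/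
theorem exists_lower_generators (g : Gal(K/E))
    (hg : ∀ σ : Gal(K/E), σ ∈ Subgroup.zpowers g)
    (Exc : Set (HeightOneSpectrum (𝓞 E))) (hExc : Exc.Finite) :
    ∃ (T : Set (HeightOneSpectrum (𝓞 E))) (B : ℝ),
      (∀ 𝔭 ∈ T, 𝔭 ∉ Exc ∧ (absNorm 𝔭.asIdeal).Prime ∧
        ∀ σ : Gal(K/E), σ ∈ Subgroup.zpowers (frobAt E K 𝔭.asIdeal)) ∧
      ∀ s : ℝ, 1 < s → s ≤ 2 →
        sieveConst (Nat.card Gal(K/E)) * Real.log (1 / (s - 1)) - B ≤
          ∑' 𝔭, T.indicator (pt E s) 𝔭 := by
  have hm0 : Nat.card Gal(K/E) ≠ 0 := Nat.card_pos.ne'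
  haveI hnormal : ∀ H : Subgroup Gal(K/E), H.Normal := normal_of_generator g hg
  -- discrete logarithms of the Frobenius elements
  choose k hk using fun 𝔭 : HeightOneSpectrum (𝓞 E) =>
    exists_pow_eq_of_generator g hg (frobAt E K 𝔭.asIdeal)
  -- the squarefree divisors
  have hdv : ∀ t ∈ (Nat.card Gal(K/E)).primeFactors.powerset,
      (∏ r ∈ t, r) ∣ Nat.card Gal(K/E) := by
    intro t ht
    have ht' := Finset.mem_powerset.mp ht
    exact Finset.prod_primes_dvd _
      (fun r hr => (Nat.prime_of_mem_primeFactors (ht' hr)).prime)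
      (fun r hr => Nat.dvd_of_mem_primeFactors (ht' hr))
  -- the bad primes
  have hBadfin : (Exc ∪ ⋃ t ∈ (Nat.card Gal(K/E)).primeFactors.powerset,
      helper52.ramSet E (IntermediateField.fixedField
        (Subgroup.zpowers (g ^ (∏ r ∈ t, r))))).Finite :=
    hExc.union (Set.Finite.biUnion (Finset.finite_toSet _) fun t _ => helper52.ramSet_finite E _)
  obtain ⟨Bad, hBaddef⟩ : ∃ Bad : Set (HeightOneSpectrum (𝓞 E)),
      Bad = Exc ∪ ⋃ t ∈ (Nat.card Gal(K/E)).primeFactors.powerset,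
        helper52.ramSet E (IntermediateField.fixedField
          (Subgroup.zpowers (g ^ (∏ r ∈ t, r)))) := ⟨_, rfl⟩
  rw [← hBaddef] at hBadfin
  -- the dictionary
  have hdict : ∀ t ∈ (Nat.card Gal(K/E)).primeFactors.powerset, ∀ 𝔭 ∈ goodSet E Bad,
      (𝔭 ∈ helper34.splitSet E (IntermediateField.fixedField
        (Subgroup.zpowers (g ^ (∏ r ∈ t, r)))) ↔ (∏ r ∈ t, r) ∣ k 𝔭) := by
    intro t ht 𝔭 h𝔭
    obtain ⟨P, hPprime, hP0, hP, hfrob⟩ :=
      helper12.exists_isArithFrobAt_frobAt E K 𝔭.asIdeal 𝔭.ne_bot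
    haveI := hPprime
    have hram : 𝔭 ∉ helper52.ramSet E (IntermediateField.fixedField
        (Subgroup.zpowers (g ^ (∏ r ∈ t, r)))) := by
      intro h
      apply h𝔭.2
      rw [hBaddef]
      exact Or.inr (Set.mem_biUnion ht h)
    rw [mem_splitSet_iff_mem_fixingSubgroup _ 𝔭 hram P hP0 hP _ hfrob,
      IntermediateField.fixingSubgroup_fixedField, ← hk 𝔭]
    exact pow_mem_zpowers_pow_iff g hg (hdv t ht) (k 𝔭)
  -- the analytic bounds
  choose B hB using fun t : Finset ℕ => exists_bound_good_split (E := E)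
    (IntermediateField.fixedField (Subgroup.zpowers (g ^ (∏ r ∈ t, r)))) Bad hBadfin
  -- the target set
  obtain ⟨T, hT⟩ : ∃ T : Set (HeightOneSpectrum (𝓞 E)),
      T = {𝔭 | 𝔭 ∈ goodSet E Bad ∧ Nat.Coprime (k 𝔭) (Nat.card Gal(K/E))} := ⟨_, rfl⟩
  have hind : ∀ (s : ℝ) (𝔭 : HeightOneSpectrum (𝓞 E)), T.indicator (pt E s) 𝔭 =
      ∑ t ∈ (Nat.card Gal(K/E)).primeFactors.powerset, (-1 : ℝ) ^ t.card *
        (goodSet E Bad ∩ helper34.splitSet E (IntermediateField.fixedField
          (Subgroup.zpowers (g ^ (∏ r ∈ t, r))))).indicator (pt E s) 𝔭 := by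
    intro s 𝔭
    by_cases h𝔭 : 𝔭 ∈ goodSet E Bad
    · have h1 : T.indicator (pt E s) 𝔭 =
          pt E s 𝔭 * (if Nat.Coprime (k 𝔭) (Nat.card Gal(K/E)) then (1 : ℝ) else 0) := by
        by_cases hc : Nat.Coprime (k 𝔭) (Nat.card Gal(K/E))
        · have : 𝔭 ∈ T := by rw [hT]; exact ⟨h𝔭, hc⟩
          rw [Set.indicator_of_mem this, if_pos hc, mul_one]
        · have : 𝔭 ∉ T := by rw [hT]; exact fun h => hc h.2
          rw [Set.indicator_of_notMem this, if_neg hc, mul_zero]
      rw [h1, coprime_indicator (k 𝔭) _ hm0, Finset.mul_sum]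
      refine Finset.sum_congr rfl fun t ht => ?_
      by_cases hd : (∏ r ∈ t, r) ∣ k 𝔭
      · have : 𝔭 ∈ goodSet E Bad ∩ helper34.splitSet E (IntermediateField.fixedField
            (Subgroup.zpowers (g ^ (∏ r ∈ t, r)))) := ⟨h𝔭, (hdict t ht 𝔭 h𝔭).mpr hd⟩
        rw [Set.indicator_of_mem this, if_pos hd]
        ring
      · have : 𝔭 ∉ goodSet E Bad ∩ helper34.splitSet E (IntermediateField.fixedField
            (Subgroup.zpowers (g ^ (∏ r ∈ t, r)))) := fun h => hd ((hdict t ht 𝔭 h𝔭).mp h.2)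
        rw [Set.indicator_of_notMem this, if_neg hd]
        ring
    · have h1 : 𝔭 ∉ T := by rw [hT]; exact fun h => h𝔭 h.1
      rw [Set.indicator_of_notMem h1]
      symm
      apply Finset.sum_eq_zero
      intro t _
      have : 𝔭 ∉ goodSet E Bad ∩ helper34.splitSet E (IntermediateField.fixedField
          (Subgroup.zpowers (g ^ (∏ r ∈ t, r)))) := fun h => h𝔭 h.1
      rw [Set.indicator_of_notMem this, mul_zero]
  have htsum : ∀ s : ℝ, 1 < s → ∑' 𝔭, T.indicator (pt E s) 𝔭 =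
      ∑ t ∈ (Nat.card Gal(K/E)).primeFactors.powerset, (-1 : ℝ) ^ t.card *
        ∑' 𝔭, (goodSet E Bad ∩ helper34.splitSet E (IntermediateField.fixedField
          (Subgroup.zpowers (g ^ (∏ r ∈ t, r))))).indicator (pt E s) 𝔭 := by
    intro s hs
    rw [tsum_congr (hind s), Summable.tsum_finsetSum]
    · refine Finset.sum_congr rfl fun t _ => ?_
      rw [tsum_mul_left]
    · intro t _
      exact (summable_indicator_pt E _ hs).mul_left _
  -- the lower bound
  have hlow : ∀ s : ℝ, 1 < s → s ≤ 2 →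
      sieveConst (Nat.card Gal(K/E)) * Real.log (1 / (s - 1)) -
        ∑ t ∈ (Nat.card Gal(K/E)).primeFactors.powerset, |B t| ≤
      ∑' 𝔭, T.indicator (pt E s) 𝔭 := by
    intro s hs hs2
    rw [htsum s hs, sieveConst_eq_sum, Finset.sum_mul, ← Finset.sum_sub_distrib]
    refine Finset.sum_le_sum fun t ht => ?_
    have hd := finrank_fixedField_zpowers_pow g hg (hdv t ht)
    have h1 := hB t s hs hs2
    rw [hd] at h1
    have hdpos : (1 : ℝ) ≤ ((∏ r ∈ t, r : ℕ) : ℝ) := by
      have : 0 < ∏ r ∈ t, r := Nat.pos_of_ne_zero (fun h0 => by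
        have := hdv t ht
        rw [h0, zero_dvd_iff] at this
        exact hm0 this)
      exact_mod_cast this
    have hd0 : (0 : ℝ) < ((∏ r ∈ t, r : ℕ) : ℝ) := by linarith
    -- divide by `d`
    have h2 : |∑' 𝔭, (goodSet E Bad ∩ helper34.splitSet E (IntermediateField.fixedField
          (Subgroup.zpowers (g ^ (∏ r ∈ t, r))))).indicator (pt E s) 𝔭 -
        1 / ((∏ r ∈ t, r : ℕ) : ℝ) * Real.log (1 / (s - 1))| ≤ |B t| := by
      have h3 : ∑' 𝔭, (goodSet E Bad ∩ helper34.splitSet E (IntermediateField.fixedField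
            (Subgroup.zpowers (g ^ (∏ r ∈ t, r))))).indicator (pt E s) 𝔭 -
          1 / ((∏ r ∈ t, r : ℕ) : ℝ) * Real.log (1 / (s - 1)) =
          (((∏ r ∈ t, r : ℕ) : ℝ) * ∑' 𝔭, (goodSet E Bad ∩ helper34.splitSet E
            (IntermediateField.fixedField
            (Subgroup.zpowers (g ^ (∏ r ∈ t, r))))).indicator (pt E s) 𝔭 -
            Real.log (1 / (s - 1))) / ((∏ r ∈ t, r : ℕ) : ℝ) := by
        field_simp
      rw [h3, abs_div, abs_of_pos hd0]
      calc _ ≤ |B t| / ((∏ r ∈ t, r : ℕ) : ℝ) := by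
            apply div_le_div_of_nonneg_right _ hd0.le
            exact h1.trans (le_abs_self _)
        _ ≤ |B t| := div_le_self (abs_nonneg _) hdpos
    have h4 : |(-1 : ℝ) ^ t.card| = 1 := by
      rw [abs_pow, abs_neg, abs_one, one_pow]
    have h5 : |(-1 : ℝ) ^ t.card * (∑' 𝔭, (goodSet E Bad ∩ helper34.splitSet E
          (IntermediateField.fixedField
          (Subgroup.zpowers (g ^ (∏ r ∈ t, r))))).indicator (pt E s) 𝔭 -
        1 / ((∏ r ∈ t, r : ℕ) : ℝ) * Real.log (1 / (s - 1)))| ≤ |B t| := by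
      rw [abs_mul, h4, one_mul]
      exact h2
    have h6 := (abs_le.mp h5).1
    linarith
  refine ⟨T, ∑ t ∈ (Nat.card Gal(K/E)).primeFactors.powerset, |B t|, ?_, hlow⟩
  intro 𝔭 h𝔭
  rw [hT] at h𝔭
  refine ⟨?_, h𝔭.1.1, ?_⟩
  · intro h
    apply h𝔭.1.2
    rw [hBaddef]
    exact Or.inl h
  · intro σ
    rw [← hk 𝔭]
    exact mem_zpowers_pow_of_coprime g hg h𝔭.2 σ

end Fermat.Agent.T4.helper40
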