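import Mathlib

/-!
# T4 [CHEB-DIV] (helper40), part 2: Frobenius elements at unramified primes of a Galois number
field, conjugacy and the Deuring count

`K / ℚ` a finite Galois extension, `G = Gal(K/ℚ)`.

* `IsFrobNF K ℓ P φ` : `P` is a prime of `𝓞 K` over `ℓ` with trivial inertia group and `φ` is an
  arithmetic Frobenius at `P`;
* `IsFrobNF.unique`, `IsFrobNF.conj`, `IsFrobNF.exists_conj` : the Frobenius elements over an
  unramified prime `ℓ` form one conjugacy class;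
* `card_frobPrimes_mul_le` : **Deuring count**: the number of primes `P` over `ℓ` whose Frobenius
  generates a given cyclic subgroup `H` is at most `[N_G(H) : H]`.
-/

set_option autoImplicit false
set_option linter.unusedSectionVars false
set_option linter.unusedVariables false
set_option linter.style.haveILetI false

open NumberField
open scoped Pointwise

namespace Fermat.Agent.T4.helper40

variable (K : Type*) [Field K] [NumberField K] [IsGalois ℚ K]

/-- Frobenius data at an unramified prime, number field form. -/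
structure IsFrobNF (ℓ : ℕ) (P : Ideal (𝓞 K)) (φ : Gal(K/ℚ)) : Prop where
  prime : P.IsPrime
  mem : (ℓ : 𝓞 K) ∈ P
  unram : ∀ τ : Gal(K/ℚ), (∀ x : 𝓞 K, τ • x - x ∈ P) → τ = 1
  frob : ∀ x : 𝓞 K, φ • x - x ^ ℓ ∈ P

variable {K}

namespace IsFrobNF

variable {ℓ : ℕ} {P P' : Ideal (𝓞 K)} {φ φ' : Gal(K/ℚ)}

/-- a Frobenius element stabilises its prime -/
theorem smul_eq (h : IsFrobNF K ℓ P φ) (hℓ : ℓ ≠ 0) : φ • P = P := by
  apply smul_eq_of_smul_le
  intro y hy
  rw [Ideal.mem_pointwise_smul_iff_inv_smul_mem] at hy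
  have h1 := h.frob (φ⁻¹ • y)
  rw [smul_inv_smul] at h1
  have h2 : (φ⁻¹ • y) ^ ℓ ∈ P := Ideal.pow_mem_of_mem P hy ℓ (Nat.pos_of_ne_zero hℓ)
  have h3 := P.add_mem h1 h2
  rwa [sub_add_cancel] at h3

/-- powers of a Frobenius element stabilise its prime -/
theorem smul_eq_of_mem_zpowers (h : IsFrobNF K ℓ P φ) (hℓ : ℓ ≠ 0) {σ : Gal(K/ℚ)}
    (hσ : σ ∈ Subgroup.zpowers φ) : σ • P = P := by
  have h1 : Subgroup.zpowers φ ≤ MulAction.stabilizer Gal(K/ℚ) P := by
    rw [Subgroup.zpowers_le]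
    exact h.smul_eq hℓ
  exact h1 hσ

/-- uniqueness of the Frobenius element at an unramified prime -/
theorem unique (h : IsFrobNF K ℓ P φ) (h' : IsFrobNF K ℓ P φ') (hℓ : ℓ ≠ 0) : φ = φ' := by
  have h1 : φ⁻¹ * φ' = 1 := by
    apply h.unram
    intro x
    have h2 : φ' • x - φ • x ∈ P := by
      have := P.sub_mem (h'.frob x) (h.frob x)
      simpa using this
    have h3 : φ⁻¹ • (φ' • x - φ • x) ∈ φ⁻¹ • P := Ideal.smul_mem_pointwise_smul _ _ _ h2
    have h4 : φ⁻¹ • P = P := by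
      conv_lhs => rw [← h.smul_eq hℓ]
      rw [inv_smul_smul]
    rw [h4, smul_sub, inv_smul_smul, ← mul_smul] at h3
    exact h3
  have := congrArg (fun t => φ * t) h1
  simpa using this.symm

/-- conjugation of Frobenius data -/
theorem conj (h : IsFrobNF K ℓ P φ) (τ : Gal(K/ℚ)) : IsFrobNF K ℓ (τ • P) (τ * φ * τ⁻¹) where
  prime := by
    haveI := h.prime
    exact Ideal.IsPrime.smul τ
  mem := by
    have h1 := Ideal.smul_mem_pointwise_smul τ _ P h.mem
    have h2 : τ • ((ℓ : ℕ) : 𝓞 K) = ((ℓ : ℕ) : 𝓞 K) :=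
      map_natCast (MulSemiringAction.toRingHom Gal(K/ℚ) (𝓞 K) τ) ℓ
    rwa [h2] at h1
  unram := by
    intro σ hσ
    have h1 : τ⁻¹ * σ * τ = 1 := by
      apply h.unram
      intro y
      have h2 := hσ (τ • y)
      rw [Ideal.mem_pointwise_smul_iff_inv_smul_mem, smul_sub, inv_smul_smul, ← mul_smul,
        ← mul_smul] at h2
      exact h2
    have h3 : σ = τ * (τ⁻¹ * σ * τ) * τ⁻¹ := by group
    rw [h3, h1, mul_one, mul_inv_cancel]
  frob := by
    intro x
    have h1 := h.frob (τ⁻¹ • x)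
    have h2 := Ideal.smul_mem_pointwise_smul τ _ P h1
    rw [smul_sub, smul_pow', smul_inv_smul, ← mul_smul, ← mul_smul] at h2
    exact h2

/-- the primes over `ℓ` -/
theorem under_eq (h : IsFrobNF K ℓ P φ) (hℓ : ℓ.Prime) :
    P.under ℤ = Ideal.span {(ℓ : ℤ)} := by
  haveI := h.prime
  have hmax : (Ideal.span {(ℓ : ℤ)}).IsMaximal :=
    PrincipalIdealRing.isMaximal_of_irreducible
      (Nat.prime_iff_prime_int.mp hℓ).irreducible
  have hle : Ideal.span {(ℓ : ℤ)} ≤ P.under ℤ := by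
    rw [Ideal.span_singleton_le_iff_mem, Ideal.under_def, Ideal.mem_comap]
    have := h.mem
    simpa using this
  have hne : P.under ℤ ≠ ⊤ := (Ideal.IsPrime.under ℤ P).ne_top
  exact (hmax.eq_of_le hne hle).symm

/-- **Conjugacy** of the Frobenius data over an unramified prime. -/
theorem exists_conj (h : IsFrobNF K ℓ P φ) (h' : IsFrobNF K ℓ P' φ') (hℓ : ℓ.Prime) :
    ∃ τ : Gal(K/ℚ), P' = τ • P ∧ φ' = τ * φ * τ⁻¹ := by
  haveI := h.prime
  haveI := h'.prime
  obtain ⟨τ, hτ⟩ := Algebra.IsInvariant.exists_smul_of_under_eq ℤ (𝓞 K) Gal(K/ℚ) P P'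
    ((h.under_eq hℓ).trans (h'.under_eq hℓ).symm)
  refine ⟨τ, hτ, ?_⟩
  have h1 := h.conj τ
  rw [← hτ] at h1
  exact h'.unique h1 hℓ.ne_zero

end IsFrobNF

/-! ### The Deuring count -/

/-- conjugation of a cyclic subgroup -/
theorem zpowers_conj {G : Type*} [Group G] (τ φ : G) :
    Subgroup.zpowers (τ * φ * τ⁻¹) = (Subgroup.zpowers φ).map (MulAut.conj τ).toMonoidHom := by
  rw [MonoidHom.map_zpowers]
  rfl

theorem mem_normalizer_of_zpowers_conj_eq {G : Type*} [Group G] {τ φ : G}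
    (h : Subgroup.zpowers (τ * φ * τ⁻¹) = Subgroup.zpowers φ) :
    τ ∈ Subgroup.normalizer (Subgroup.zpowers φ : Set G) := by
  rw [Subgroup.mem_normalizer_iff]
  intro x
  constructor
  · intro hx
    obtain ⟨k, rfl⟩ := Subgroup.mem_zpowers_iff.mp hx
    rw [← h]
    refine Subgroup.mem_zpowers_iff.mpr ⟨k, ?_⟩
    rw [conj_zpow]
  · intro hx
    rw [← h] at hx
    obtain ⟨k, hk⟩ := Subgroup.mem_zpowers_iff.mp hx
    rw [conj_zpow] at hk
    refine Subgroup.mem_zpowers_iff.mpr ⟨k, ?_⟩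
    have h1 : τ⁻¹ * (τ * φ ^ k * τ⁻¹) * τ = τ⁻¹ * (τ * x * τ⁻¹) * τ := by rw [hk]
    have h2 : τ⁻¹ * (τ * φ ^ k * τ⁻¹) * τ = φ ^ k := by group
    have h3 : τ⁻¹ * (τ * x * τ⁻¹) * τ = x := by group
    rw [h2, h3] at h1
    exact h1

/-- The primes over `ℓ` whose Frobenius generates `H`. -/
def frobPrimes (K : Type*) [Field K] [NumberField K] [IsGalois ℚ K] (ℓ : ℕ)
    (H : Subgroup Gal(K/ℚ)) : Set (Ideal (𝓞 K)) :=
  {P | ∃ φ : Gal(K/ℚ), IsFrobNF K ℓ P φ ∧ Subgroup.zpowers φ = H}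

/-- The injection behind the Deuring count. -/
theorem exists_injective_frobPrimes {ℓ : ℕ} (hℓ : ℓ.Prime) (H : Subgroup Gal(K/ℚ)) :
    ∃ f : frobPrimes K ℓ H × H → Subgroup.normalizer (H : Set Gal(K/ℚ)),
      Function.Injective f := by
  classical
  by_cases hne : (frobPrimes K ℓ H).Nonempty
  swap
  · refine ⟨fun x => (hne ⟨x.1.1, x.1.2⟩).elim, fun x => (hne ⟨x.1.1, x.1.2⟩).elim⟩
  obtain ⟨P₀, φ₀, h₀, hH⟩ := hne
  -- conjugators
  have hex : ∀ P : frobPrimes K ℓ H, ∃ τ : Gal(K/ℚ), (P : Ideal (𝓞 K)) = τ • P₀ ∧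
      τ ∈ Subgroup.normalizer (H : Set Gal(K/ℚ)) := by
    rintro ⟨P, φ, hP, hφ⟩
    obtain ⟨τ, hτ, hτφ⟩ := h₀.exists_conj hP hℓ
    refine ⟨τ, hτ, ?_⟩
    rw [← hH]
    apply mem_normalizer_of_zpowers_conj_eq
    rw [← hτφ, hφ, hH]
  choose τ hτP hτN using hex
  have hHle : H ≤ Subgroup.normalizer (H : Set Gal(K/ℚ)) := Subgroup.le_normalizer
  have hstab : ∀ h : H, (h : Gal(K/ℚ)) • P₀ = P₀ := by
    intro h
    apply h₀.smul_eq_of_mem_zpowers hℓ.ne_zero
    rw [hH]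
    exact h.2
  -- the injection
  refine ⟨fun x : frobPrimes K ℓ H × H =>
      (⟨τ x.1 * (x.2 : Gal(K/ℚ)),
        (Subgroup.normalizer (H : Set Gal(K/ℚ))).mul_mem (hτN x.1) (hHle x.2.2)⟩ :
        Subgroup.normalizer (H : Set Gal(K/ℚ))), ?_⟩
  rintro ⟨P, h⟩ ⟨Q, h'⟩ hPQ
  have h1 : τ P * (h : Gal(K/ℚ)) = τ Q * (h' : Gal(K/ℚ)) := congrArg Subtype.val hPQ
  have h2 : (P : Ideal (𝓞 K)) = Q := by
    rw [hτP P, hτP Q]
    conv_lhs => rw [← hstab h]
    conv_rhs => rw [← hstab h']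
    rw [← mul_smul, ← mul_smul, h1]
  have h3 : P = Q := Subtype.ext h2
  subst h3
  have h4 : (h : Gal(K/ℚ)) = h' := mul_left_cancel h1
  have h5 : h = h' := Subtype.ext h4
  rw [h5]

theorem finite_frobPrimes {ℓ : ℕ} (hℓ : ℓ.Prime) (H : Subgroup Gal(K/ℚ)) :
    (frobPrimes K ℓ H).Finite := by
  obtain ⟨f, hf⟩ := exists_injective_frobPrimes hℓ H
  haveI : Finite (frobPrimes K ℓ H × H) := Finite.of_injective f hf
  haveI : Finite (frobPrimes K ℓ H) := Finite.prod_left H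
  exact Set.toFinite _

/-- **Deuring count**: at most `[N_G(H) : H]` primes over `ℓ` have a Frobenius generating `H`. -/
theorem card_frobPrimes_mul_le {ℓ : ℕ} (hℓ : ℓ.Prime) (H : Subgroup Gal(K/ℚ)) :
    Nat.card (frobPrimes K ℓ H) * Nat.card H ≤
      Nat.card (Subgroup.normalizer (H : Set Gal(K/ℚ))) := by
  obtain ⟨f, hf⟩ := exists_injective_frobPrimes hℓ H
  have := Nat.card_le_card_of_injective f hf
  rwa [Nat.card_prod] at this

end Fermat.Agent.T4.helper40
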