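import Mathlib
import Fermat.Agent.Cheb.helper40_ChebWeak
import Fermat.Agent.T4.helper40_DivCyclic
import Fermat.Agent.T4.helper40_DivFrob

/-!
# T4 [CHEB-DIV] (helper40), part 3: the prime mass of a division, number field form

`K / ℚ` finite Galois, `g ∈ G = Gal(K/ℚ)`, `H = ⟨g⟩`, `n = |H|`.  The rational primes `ℓ`,
unramified in `K`, having a Frobenius element which generates `H` satisfy

`∏_{r ∣ n} (1 - 1/r) * log (1/(s-1)) - B ≤ (|N_G(H)| / n) * ∑_ℓ ℓ^(-s)`   on `(1, 2]`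

(`exists_lower_frobSetNF`).
-/

set_option autoImplicit false
set_option linter.unusedSectionVars false
set_option linter.unusedVariables false
set_option linter.style.haveILetI false

open NumberField Ideal IsDedekindDomain
open scoped Pointwise Classical

namespace Fermat.Agent.T4.helper40

open Fermat.Agent.S14 Fermat.Agent.Cheb.helper40

/-! ### An abstract fibre-counting inequality -/

theorem summable_indicator_nat_rpow (D : Set ℕ) {s : ℝ} (hs : 1 < s) :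
    Summable (D.indicator fun ℓ : ℕ => (ℓ : ℝ) ^ (-s)) :=
  (Real.summable_nat_rpow.mpr (by linarith)).indicator D

theorem indicator_nat_rpow_nonneg (D : Set ℕ) (s : ℝ) (ℓ : ℕ) :
    0 ≤ D.indicator (fun ℓ : ℕ => (ℓ : ℝ) ^ (-s)) ℓ :=
  Set.indicator_nonneg (fun _ _ => Real.rpow_nonneg (Nat.cast_nonneg _) _) ℓ

/-- If the fibres of `N : T → D` have at most `c` elements, then
`∑_{i ∈ T} N(i)^(-s) ≤ c * ∑_{ℓ ∈ D} ℓ^(-s)`. -/
theorem tsum_indicator_le_of_fibers {ι : Type*} (T : Set ι) (N : ι → ℕ) (D : Set ℕ) (c : ℝ)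
    (hc : 0 ≤ c) {s : ℝ} (hs : 1 < s) (hD : ∀ i ∈ T, N i ∈ D)
    (hfib : ∀ (ℓ : ℕ) (u : Finset ι), (∀ i ∈ u, i ∈ T ∧ N i = ℓ) → (u.card : ℝ) ≤ c) :
    ∑' i, T.indicator (fun i => (N i : ℝ) ^ (-s)) i ≤
      c * ∑' ℓ : ℕ, D.indicator (fun ℓ : ℕ => (ℓ : ℝ) ^ (-s)) ℓ := by
  refine Real.tsum_le_of_sum_le
    (fun i => Set.indicator_nonneg (fun _ _ => Real.rpow_nonneg (Nat.cast_nonneg _) _) i)
    fun u => ?_
  rw [Finset.sum_indicator_eq_sum_filter]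
  rw [Finset.sum_comp (fun ℓ : ℕ => (ℓ : ℝ) ^ (-s)) N]
  have h1 : ∀ ℓ ∈ (u.filter (fun i => i ∈ T)).image N,
      ((u.filter (fun i => i ∈ T)).filter (fun i => N i = ℓ)).card • ((ℓ : ℝ) ^ (-s)) ≤
        c * D.indicator (fun ℓ : ℕ => (ℓ : ℝ) ^ (-s)) ℓ := by
    intro ℓ hℓ
    obtain ⟨i, hi, rfl⟩ := Finset.mem_image.mp hℓ
    have hiT : i ∈ T := (Finset.mem_filter.mp hi).2
    rw [Set.indicator_of_mem (hD i hiT), nsmul_eq_mul]
    apply mul_le_mul_of_nonneg_right _ (Real.rpow_nonneg (Nat.cast_nonneg _) _)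
    apply hfib (N i)
    intro j hj
    obtain ⟨hj1, hj2⟩ := Finset.mem_filter.mp hj
    exact ⟨(Finset.mem_filter.mp hj1).2, hj2⟩
  calc _ ≤ ∑ ℓ ∈ (u.filter (fun i => i ∈ T)).image N,
        c * D.indicator (fun ℓ : ℕ => (ℓ : ℝ) ^ (-s)) ℓ := Finset.sum_le_sum h1
    _ = c * ∑ ℓ ∈ (u.filter (fun i => i ∈ T)).image N,
        D.indicator (fun ℓ : ℕ => (ℓ : ℝ) ^ (-s)) ℓ := by rw [Finset.mul_sum]
    _ ≤ c * ∑' ℓ : ℕ, D.indicator (fun ℓ : ℕ => (ℓ : ℝ) ^ (-s)) ℓ := by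
        apply mul_le_mul_of_nonneg_left _ hc
        exact (summable_indicator_nat_rpow D hs).sum_le_tsum _
          (fun ℓ _ => indicator_nat_rpow_nonneg D s ℓ)

/-! ### The primes of the fixed field of `g` -/

section main

variable {K : Type*} [Field K] [NumberField K] [IsGalois ℚ K]

/-- The rational primes, unramified in `K`, with a Frobenius element generating `H`. -/
def frobSetNF (K : Type*) [Field K] [NumberField K] [IsGalois ℚ K] (H : Subgroup Gal(K/ℚ)) :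
    Set ℕ :=
  {ℓ | ℓ.Prime ∧ (frobPrimes K ℓ H).Nonempty}

/-- The primes of degree one of the fixed field `E` of `g` whose Frobenius generates
`Gal(K/E) = ⟨g⟩`, with their Frobenius data over `ℚ` and the lower bound for their prime sum. -/
theorem exists_T (g : Gal(K/ℚ)) (E : IntermediateField ℚ K)
    (hE : E = IntermediateField.fixedField (Subgroup.zpowers g)) :
    ∃ (T : Set (HeightOneSpectrum (𝓞 E))) (B : ℝ),
      (∀ 𝔭 ∈ T, (absNorm 𝔭.asIdeal).Prime ∧ ∃ (P : Ideal (𝓞 K)) (φ : Gal(K/ℚ)),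
          IsFrobNF K (absNorm 𝔭.asIdeal) P φ ∧ Subgroup.zpowers φ = Subgroup.zpowers g ∧
          P.under (𝓞 E) = 𝔭.asIdeal) ∧
      ∀ s : ℝ, 1 < s → s ≤ 2 →
        sieveConst (orderOf g) * Real.log (1 / (s - 1)) - B ≤
          ∑' 𝔭, T.indicator (pt E s) 𝔭 := by
  have hfix : E.fixingSubgroup = Subgroup.zpowers g := by
    rw [hE]
    exact IntermediateField.fixingSubgroup_fixedField _
  have hgmem : g ∈ E.fixingSubgroup := by
    rw [hfix]
    exact Subgroup.mem_zpowers g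
  -- the generator of `Gal(K/E)`
  have hg' : ∀ σ : Gal(K/E), σ ∈ Subgroup.zpowers
      (IntermediateField.fixingSubgroupEquiv E ⟨g, hgmem⟩) := by
    intro σ
    obtain ⟨⟨τ, hτ⟩, rfl⟩ := (IntermediateField.fixingSubgroupEquiv E).surjective σ
    have hτ' : τ ∈ Subgroup.zpowers g := by
      rw [← hfix]
      exact hτ
    obtain ⟨z, hz⟩ := Subgroup.mem_zpowers_iff.mp hτ'
    refine Subgroup.mem_zpowers_iff.mpr ⟨z, ?_⟩
    rw [← map_zpow]
    congr 1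
    exact Subtype.ext hz
  have hcard : Nat.card Gal(K/E) = orderOf g := by
    rw [← Nat.card_congr (IntermediateField.fixingSubgroupEquiv E).toEquiv, hfix,
      Nat.card_zpowers]
  -- the exceptional set
  have hExc2 : ((fun P : HeightOneSpectrum (𝓞 K) => P.under (𝓞 E)) '' inertSet K).Finite :=
    (finite_inertSet K).image _
  obtain ⟨T, B, hT, hlow⟩ := exists_lower_generators
    (IntermediateField.fixingSubgroupEquiv E ⟨g, hgmem⟩) hg' _ hExc2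
  rw [hcard] at hlow
  refine ⟨T, B, fun 𝔭 h𝔭 => ?_, hlow⟩
  obtain ⟨h𝔭Exc, h𝔭prime, hgen⟩ := hT 𝔭 h𝔭
  obtain ⟨P, hPprime, hP0, hP, hfrob⟩ :=
    helper12.exists_isArithFrobAt_frobAt E K 𝔭.asIdeal 𝔭.ne_bot
  haveI := hPprime
  refine ⟨h𝔭prime, P,
    ((IntermediateField.fixingSubgroupEquiv E).symm (frobAt E K 𝔭.asIdeal) : Gal(K/ℚ)),
    ⟨hPprime, ?_, ?_, ?_⟩, ?_, hP⟩
  · have h1 : ((absNorm 𝔭.asIdeal : ℕ) : 𝓞 E) ∈ 𝔭.asIdeal := Ideal.absNorm_mem 𝔭.asIdeal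
    have h2 : ((absNorm 𝔭.asIdeal : ℕ) : 𝓞 E) ∈ P.under (𝓞 E) := hP ▸ h1
    rw [Ideal.under_def, Ideal.mem_comap, map_natCast] at h2
    exact h2
  · intro τ hτ
    by_contra hτ1
    apply h𝔭Exc
    refine ⟨⟨P, hPprime, hP0⟩, ⟨τ, hτ1, hτ⟩, ?_⟩
    exact HeightOneSpectrum.ext hP
  · intro x
    have h1 := hfrob x
    have h2 : Nat.card (𝓞 E ⧸ P.under (𝓞 E)) = absNorm 𝔭.asIdeal := by
      rw [hP, Ideal.absNorm_apply, Submodule.cardQuot_apply]
    change frobAt E K 𝔭.asIdeal • x - x ^ Nat.card (𝓞 E ⧸ P.under (𝓞 E)) ∈ P at h1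
    rw [h2] at h1
    exact h1
  · apply le_antisymm
    · rw [Subgroup.zpowers_le, ← hfix]
      exact ((IntermediateField.fixingSubgroupEquiv E).symm (frobAt E K 𝔭.asIdeal)).2
    · rw [Subgroup.zpowers_le]
      obtain ⟨z, hz⟩ := Subgroup.mem_zpowers_iff.mp
        (hgen (IntermediateField.fixingSubgroupEquiv E ⟨g, hgmem⟩))
      refine Subgroup.mem_zpowers_iff.mpr ⟨z, ?_⟩
      have h1 := congrArg (IntermediateField.fixingSubgroupEquiv E).symm hz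
      rw [map_zpow, MulEquiv.symm_apply_apply] at h1
      have h2 := congrArg (fun x : E.fixingSubgroup => (x : Gal(K/ℚ))) h1
      simpa using h2

/-- **Lower bound for the prime mass of a division**, number field form. -/
theorem exists_lower_frobSetNF (g : Gal(K/ℚ)) :
    ∃ B : ℝ, ∀ s : ℝ, 1 < s → s ≤ 2 →
      sieveConst (orderOf g) * Real.log (1 / (s - 1)) - B ≤
        ((Nat.card (Subgroup.normalizer (Subgroup.zpowers g : Set Gal(K/ℚ))) : ℝ) /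
            (orderOf g : ℝ)) *
          ∑' ℓ : ℕ, (frobSetNF K (Subgroup.zpowers g)).indicator
            (fun ℓ : ℕ => (ℓ : ℝ) ^ (-s)) ℓ := by
  obtain ⟨E, hE⟩ : ∃ E : IntermediateField ℚ K,
      E = IntermediateField.fixedField (Subgroup.zpowers g) := ⟨_, rfl⟩
  obtain ⟨T, B, hT, hlow⟩ := exists_T g E hE
  have hn0 : 0 < orderOf g := orderOf_pos g
  have hn0' : (0 : ℝ) < (orderOf g : ℝ) := by exact_mod_cast hn0
  refine ⟨B, fun s hs hs2 => (hlow s hs hs2).trans ?_⟩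
  choose! hprime P φ hP hφ hPunder using hT
  have key := tsum_indicator_le_of_fibers T (fun 𝔭 : HeightOneSpectrum (𝓞 E) =>
    absNorm 𝔭.asIdeal) (frobSetNF K (Subgroup.zpowers g))
    ((Nat.card (Subgroup.normalizer (Subgroup.zpowers g : Set Gal(K/ℚ))) : ℝ) /
      (orderOf g : ℝ)) (by positivity) hs
    (fun 𝔭 h𝔭 => ⟨hprime 𝔭 h𝔭, ⟨P 𝔭, φ 𝔭, hP 𝔭 h𝔭, hφ 𝔭 h𝔭⟩⟩) ?_
  · exact key
  intro ℓ u hu
  rcases u.eq_empty_or_nonempty with rfl | ⟨𝔭₀, h𝔭₀⟩
  · simp only [Finset.card_empty, Nat.cast_zero]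
    positivity
  have hℓ : ℓ.Prime := by
    rw [← (hu 𝔭₀ h𝔭₀).2]
    exact hprime 𝔭₀ (hu 𝔭₀ h𝔭₀).1
  have hfin := finite_frobPrimes hℓ (Subgroup.zpowers g)
  have hcard : u.card ≤ hfin.toFinset.card := by
    apply Finset.card_le_card_of_injOn (fun 𝔭 => P 𝔭)
    · intro 𝔭 h𝔭
      rw [Finset.mem_coe] at h𝔭
      rw [Finset.mem_coe, Set.Finite.mem_toFinset]
      refine ⟨φ 𝔭, ?_, hφ 𝔭 (hu 𝔭 h𝔭).1⟩
      have := hP 𝔭 (hu 𝔭 h𝔭).1
      rw [(hu 𝔭 h𝔭).2] at this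
      exact this
    · intro 𝔭 h𝔭 𝔮 h𝔮 hPQ
      rw [Finset.mem_coe] at h𝔭 h𝔮
      apply HeightOneSpectrum.ext
      rw [← hPunder 𝔭 (hu 𝔭 h𝔭).1, ← hPunder 𝔮 (hu 𝔮 h𝔮).1]
      exact congrArg (fun Q : Ideal (𝓞 K) => Q.under (𝓞 E)) hPQ
  have h1 := card_frobPrimes_mul_le hℓ (Subgroup.zpowers g)
  rw [Nat.card_zpowers, Nat.card_coe_set_eq, Set.ncard_eq_toFinset_card _ hfin] at h1
  have h2 : u.card * orderOf g ≤
      Nat.card (Subgroup.normalizer (Subgroup.zpowers g : Set Gal(K/ℚ))) :=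
    (Nat.mul_le_mul_right _ hcard).trans h1
  rw [le_div_iff₀ hn0']
  exact_mod_cast h2

end main

end Fermat.Agent.T4.helper40
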