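import Mathlib
import Fermat.Agent.T4.helper40_DivMass
import Fermat.Agent.T4.helper40_DivGroup
import Fermat.Agent.T4.helper10_PrimeSums

/-!
# T4 [CHEB-DIV] (helper40), part 5: the Frobenius division density theorem, number field form

`K / ℚ` finite Galois, `G = Gal(K/ℚ)`, `C ⊆ G` stable under conjugation and under prime-to-`|G|`
powers.  The set `frobSetC K C` of rational primes `ℓ`, unramified in `K`, whose Frobenius class
lies in `C` satisfies

`| ∑_{ℓ ∈ frobSetC K C} ℓ^(-s) - (|C| / |G|) log (1/(s-1)) | ≤ B`   on `(1, 2]`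

(`nfDivLower`, `nfDivUpper`).
-/

set_option autoImplicit false
set_option linter.unusedSectionVars false
set_option linter.unusedVariables false
set_option linter.style.haveILetI false

open NumberField
open scoped Pointwise Classical

namespace Fermat.Agent.T4.helper40

open Fermat.Agent.Cheb.helper40

variable {K : Type*} [Field K] [NumberField K] [IsGalois ℚ K]

/-- The Dirichlet mass of a set of natural numbers. -/
noncomputable def natMass (D : Set ℕ) (s : ℝ) : ℝ :=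
  ∑' ℓ : ℕ, D.indicator (fun ℓ : ℕ => (ℓ : ℝ) ^ (-s)) ℓ

/-- The rational primes, unramified in `K`, with a Frobenius element in `C`. -/
def frobSetC (K : Type*) [Field K] [NumberField K] [IsGalois ℚ K] (C : Set Gal(K/ℚ)) : Set ℕ :=
  {ℓ | ℓ.Prime ∧ ∃ (P : Ideal (𝓞 K)) (φ : Gal(K/ℚ)), IsFrobNF K ℓ P φ ∧ φ ∈ C}

theorem totient_eq_mul_sieveConst (n : ℕ) : (Nat.totient n : ℝ) = n * sieveConst n := by
  have h := Nat.totient_eq_mul_prod_factors n
  have h' : ((Nat.totient n : ℚ) : ℝ) = ((n * ∏ p ∈ n.primeFactors, (1 - (p : ℚ)⁻¹) : ℚ) : ℝ) := by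
    rw [h]
  rw [sieveConst]
  push_cast at h'
  rw [h']
  congr 1
  refine Finset.prod_congr rfl fun r _ => ?_
  rw [one_div]

theorem log_nonneg_of_le_two {s : ℝ} (hs : 1 < s) (hs2 : s ≤ 2) :
    0 ≤ Real.log (1 / (s - 1)) := by
  apply Real.log_nonneg
  rw [le_div_iff₀ (by linarith)]
  linarith

/-- the lower bound for one division, with the constant `|Div g| / |G|` -/
theorem exists_lower_division (g : Gal(K/ℚ)) :
    ∃ B : ℝ, ∀ s : ℝ, 1 < s → s ≤ 2 →
      (Nat.card (divisionOf g) : ℝ) / (Nat.card Gal(K/ℚ) : ℝ) * Real.log (1 / (s - 1)) - B ≤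
        natMass (frobSetNF K (Subgroup.zpowers g)) s := by
  obtain ⟨B₀, hB₀⟩ := exists_lower_frobSetNF g
  have hn : (0 : ℝ) < (orderOf g : ℝ) := by exact_mod_cast orderOf_pos g
  have hN : (0 : ℝ) <
      (Nat.card (Subgroup.normalizer (Subgroup.zpowers g : Set Gal(K/ℚ))) : ℝ) := by
    exact_mod_cast Nat.card_pos
  have hG : (0 : ℝ) < (Nat.card Gal(K/ℚ) : ℝ) := by exact_mod_cast Nat.card_pos
  have hcount : (Nat.card (divisionOf g) : ℝ) *
      (Nat.card (Subgroup.normalizer (Subgroup.zpowers g : Set Gal(K/ℚ))) : ℝ) ≤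
      (orderOf g : ℝ) * sieveConst (orderOf g) * (Nat.card Gal(K/ℚ) : ℝ) := by
    rw [← totient_eq_mul_sieveConst]
    exact_mod_cast card_divisionOf_mul_le g
  refine ⟨(orderOf g : ℝ) /
    (Nat.card (Subgroup.normalizer (Subgroup.zpowers g : Set Gal(K/ℚ))) : ℝ) * |B₀|,
    fun s hs hs2 => ?_⟩
  have hL := log_nonneg_of_le_two hs hs2
  have h1 := hB₀ s hs hs2
  have h2 : (Nat.card (divisionOf g) : ℝ) / (Nat.card Gal(K/ℚ) : ℝ) ≤
      (orderOf g : ℝ) /
        (Nat.card (Subgroup.normalizer (Subgroup.zpowers g : Set Gal(K/ℚ))) : ℝ) *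
        sieveConst (orderOf g) := by
    rw [div_le_iff₀ hG, div_mul_eq_mul_div, div_mul_eq_mul_div, le_div_iff₀ hN]
    linarith
  have h3 : (orderOf g : ℝ) /
      (Nat.card (Subgroup.normalizer (Subgroup.zpowers g : Set Gal(K/ℚ))) : ℝ) *
      (sieveConst (orderOf g) * Real.log (1 / (s - 1)) - B₀) ≤
      natMass (frobSetNF K (Subgroup.zpowers g)) s := by
    have h4 := mul_le_mul_of_nonneg_left h1 (div_nonneg hn.le hN.le)
    have h5 : (orderOf g : ℝ) /
        (Nat.card (Subgroup.normalizer (Subgroup.zpowers g : Set Gal(K/ℚ))) : ℝ) *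
        ((Nat.card (Subgroup.normalizer (Subgroup.zpowers g : Set Gal(K/ℚ))) : ℝ) /
          (orderOf g : ℝ) * natMass (frobSetNF K (Subgroup.zpowers g)) s) =
        natMass (frobSetNF K (Subgroup.zpowers g)) s := by
      field_simp
    rw [natMass]
    rw [natMass] at h5
    linarith
  have h6 := mul_le_mul_of_nonneg_right h2 hL
  have h7 : (orderOf g : ℝ) /
      (Nat.card (Subgroup.normalizer (Subgroup.zpowers g : Set Gal(K/ℚ))) : ℝ) * B₀ ≤
      (orderOf g : ℝ) /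
      (Nat.card (Subgroup.normalizer (Subgroup.zpowers g : Set Gal(K/ℚ))) : ℝ) * |B₀| :=
    mul_le_mul_of_nonneg_left (le_abs_self _) (div_nonneg hn.le hN.le)
  have h8 : (orderOf g : ℝ) /
      (Nat.card (Subgroup.normalizer (Subgroup.zpowers g : Set Gal(K/ℚ))) : ℝ) *
      (sieveConst (orderOf g) * Real.log (1 / (s - 1)) - B₀) =
      (orderOf g : ℝ) /
      (Nat.card (Subgroup.normalizer (Subgroup.zpowers g : Set Gal(K/ℚ))) : ℝ) *
        sieveConst (orderOf g) * Real.log (1 / (s - 1)) -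
      (orderOf g : ℝ) /
      (Nat.card (Subgroup.normalizer (Subgroup.zpowers g : Set Gal(K/ℚ))) : ℝ) * B₀ := by
    ring
  linarith

theorem summable_natMass (D : Set ℕ) {s : ℝ} (hs : 1 < s) :
    Summable (D.indicator fun ℓ : ℕ => (ℓ : ℝ) ^ (-s)) :=
  summable_indicator_nat_rpow D hs

theorem natMass_mono {D D' : Set ℕ} (h : D ⊆ D') {s : ℝ} (hs : 1 < s) :
    natMass D s ≤ natMass D' s := by
  unfold natMass
  refine (summable_natMass D hs).tsum_le_tsum (fun ℓ => ?_) (summable_natMass D' hs)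
  exact Set.indicator_le_indicator_of_subset h
    (fun _ => Real.rpow_nonneg (Nat.cast_nonneg _) _) ℓ

theorem card_divisionOf_pos (g : Gal(K/ℚ)) : 0 < Nat.card (divisionOf g) := by
  haveI : Nonempty (divisionOf g) := ⟨⟨g, mem_divisionOf_self g⟩⟩
  exact Nat.card_pos

/-- **The pointwise inequality**: every unramified prime has its Frobenius elements in one
division. -/
theorem sum_indicator_division_le [Fintype Gal(K/ℚ)] (C : Set Gal(K/ℚ)) (hC : DivStable C)
    (s : ℝ) (ℓ : ℕ) :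
    ∑ g ∈ Finset.univ.filter (fun g : Gal(K/ℚ) => g ∈ C),
        (1 / (Nat.card (divisionOf g) : ℝ)) *
          (frobSetNF K (Subgroup.zpowers g)).indicator (fun ℓ : ℕ => (ℓ : ℝ) ^ (-s)) ℓ ≤
      (frobSetC K C).indicator (fun ℓ : ℕ => (ℓ : ℝ) ^ (-s)) ℓ := by
  have hf0 : (0 : ℝ) ≤ (ℓ : ℝ) ^ (-s) := Real.rpow_nonneg (Nat.cast_nonneg _) _
  by_cases hex : ∃ g₀ ∈ C, ℓ ∈ frobSetNF K (Subgroup.zpowers g₀)
  swap
  · push Not at hex
    rw [Finset.sum_eq_zero]
    · exact Set.indicator_nonneg (fun _ _ => Real.rpow_nonneg (Nat.cast_nonneg _) _) ℓ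
    · intro g hg
      rw [Set.indicator_of_notMem (hex g (Finset.mem_filter.mp hg).2), mul_zero]
  obtain ⟨g₀, hg₀, hℓ, P₀, φ₀, hF₀, hφ₀⟩ := hex
  have hφ₀C : φ₀ ∈ C := hC.mem_of_zpowers_eq hg₀ hφ₀
  have hmem : ℓ ∈ frobSetC K C := ⟨hℓ, P₀, φ₀, hF₀, hφ₀C⟩
  rw [Set.indicator_of_mem hmem]
  have hd0 : (0 : ℝ) < (Nat.card (divisionOf g₀) : ℝ) := by
    exact_mod_cast card_divisionOf_pos g₀
  have hterm : ∀ g ∈ Finset.univ.filter (fun g : Gal(K/ℚ) => g ∈ C),
      (1 / (Nat.card (divisionOf g) : ℝ)) *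
          (frobSetNF K (Subgroup.zpowers g)).indicator (fun ℓ : ℕ => (ℓ : ℝ) ^ (-s)) ℓ ≤
        if g ∈ divisionOf g₀ then (1 / (Nat.card (divisionOf g₀) : ℝ)) * (ℓ : ℝ) ^ (-s)
        else 0 := by
    intro g _
    by_cases hg : ℓ ∈ frobSetNF K (Subgroup.zpowers g)
    · obtain ⟨-, P, φ, hF, hφ⟩ := hg
      obtain ⟨τ, -, hτ⟩ := hF₀.exists_conj hF hℓ
      have hgdiv : g ∈ divisionOf g₀ := by
        refine ⟨τ, ?_⟩
        rw [← hφ, hτ, zpowers_cj, hφ₀]
      rw [if_pos hgdiv, divisionOf_eq_of_mem hgdiv,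
        Set.indicator_of_mem (show ℓ ∈ frobSetNF K (Subgroup.zpowers g) from
          ⟨hℓ, P, φ, hF, hφ⟩)]
    · rw [Set.indicator_of_notMem hg, mul_zero]
      split_ifs
      · positivity
      · exact le_rfl
  calc _ ≤ ∑ g ∈ Finset.univ.filter (fun g : Gal(K/ℚ) => g ∈ C),
        (if g ∈ divisionOf g₀ then (1 / (Nat.card (divisionOf g₀) : ℝ)) * (ℓ : ℝ) ^ (-s)
        else 0) := Finset.sum_le_sum hterm
    _ ≤ ∑ g : Gal(K/ℚ),
        (if g ∈ divisionOf g₀ then (1 / (Nat.card (divisionOf g₀) : ℝ)) * (ℓ : ℝ) ^ (-s)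
        else 0) := by
        apply Finset.sum_le_sum_of_subset_of_nonneg (Finset.filter_subset _ _)
        intro g _ _
        split_ifs
        · positivity
        · exact le_rfl
    _ = (ℓ : ℝ) ^ (-s) := by
        rw [← Finset.sum_filter, Finset.sum_const, nsmul_eq_mul]
        have hcard : Nat.card (divisionOf g₀) =
            (Finset.univ.filter (fun g : Gal(K/ℚ) => g ∈ divisionOf g₀)).card :=
          Nat.subtype_card _ (fun x => by simp)
        rw [← hcard]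
        field_simp

/-- **Frobenius division density, lower bound**, number field form. -/
theorem nfDivLower (C : Set Gal(K/ℚ)) (hC : DivStable C) :
    ∃ B : ℝ, ∀ s : ℝ, 1 < s → s ≤ 2 →
      (Nat.card C : ℝ) / (Nat.card Gal(K/ℚ) : ℝ) * Real.log (1 / (s - 1)) - B ≤
        natMass (frobSetC K C) s := by
  haveI : Fintype Gal(K/ℚ) := Fintype.ofFinite _
  choose B hB using fun g : Gal(K/ℚ) => exists_lower_division (K := K) g
  refine ⟨∑ g ∈ Finset.univ.filter (fun g : Gal(K/ℚ) => g ∈ C),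
    B g / (Nat.card (divisionOf g) : ℝ), fun s hs hs2 => ?_⟩
  have hG : (0 : ℝ) < (Nat.card Gal(K/ℚ) : ℝ) := by exact_mod_cast Nat.card_pos
  -- the sum of the lower bounds
  have h1 : ∑ g ∈ Finset.univ.filter (fun g : Gal(K/ℚ) => g ∈ C),
      (1 / (Nat.card (divisionOf g) : ℝ)) *
        ((Nat.card (divisionOf g) : ℝ) / (Nat.card Gal(K/ℚ) : ℝ) * Real.log (1 / (s - 1)) -
          B g) ≤
      ∑ g ∈ Finset.univ.filter (fun g : Gal(K/ℚ) => g ∈ C),
        (1 / (Nat.card (divisionOf g) : ℝ)) * natMass (frobSetNF K (Subgroup.zpowers g)) s := by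
    refine Finset.sum_le_sum fun g _ => ?_
    apply mul_le_mul_of_nonneg_left (hB g s hs hs2)
    positivity
  have h2 : ∑ g ∈ Finset.univ.filter (fun g : Gal(K/ℚ) => g ∈ C),
      (1 / (Nat.card (divisionOf g) : ℝ)) *
        ((Nat.card (divisionOf g) : ℝ) / (Nat.card Gal(K/ℚ) : ℝ) * Real.log (1 / (s - 1)) -
          B g) =
      (Nat.card C : ℝ) / (Nat.card Gal(K/ℚ) : ℝ) * Real.log (1 / (s - 1)) -
        ∑ g ∈ Finset.univ.filter (fun g : Gal(K/ℚ) => g ∈ C),
          B g / (Nat.card (divisionOf g) : ℝ) := by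
    have hcard : Nat.card C = (Finset.univ.filter (fun g : Gal(K/ℚ) => g ∈ C)).card :=
      Nat.subtype_card _ (fun x => by simp)
    have h3 : ∀ g ∈ Finset.univ.filter (fun g : Gal(K/ℚ) => g ∈ C),
        (1 / (Nat.card (divisionOf g) : ℝ)) *
        ((Nat.card (divisionOf g) : ℝ) / (Nat.card Gal(K/ℚ) : ℝ) * Real.log (1 / (s - 1)) -
          B g) =
        Real.log (1 / (s - 1)) / (Nat.card Gal(K/ℚ) : ℝ) -
          B g / (Nat.card (divisionOf g) : ℝ) := by
      intro g _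
      have hd0 : (0 : ℝ) < (Nat.card (divisionOf g) : ℝ) := by
        exact_mod_cast card_divisionOf_pos g
      field_simp
    rw [Finset.sum_congr rfl h3, Finset.sum_sub_distrib, Finset.sum_const, nsmul_eq_mul,
      ← hcard]
    ring
  -- the pointwise inequality, summed
  have h4 : ∑ g ∈ Finset.univ.filter (fun g : Gal(K/ℚ) => g ∈ C),
      (1 / (Nat.card (divisionOf g) : ℝ)) * natMass (frobSetNF K (Subgroup.zpowers g)) s ≤
      natMass (frobSetC K C) s := by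
    unfold natMass
    have h5 : ∑ g ∈ Finset.univ.filter (fun g : Gal(K/ℚ) => g ∈ C),
        (1 / (Nat.card (divisionOf g) : ℝ)) *
          ∑' ℓ : ℕ, (frobSetNF K (Subgroup.zpowers g)).indicator
            (fun ℓ : ℕ => (ℓ : ℝ) ^ (-s)) ℓ =
        ∑' ℓ : ℕ, ∑ g ∈ Finset.univ.filter (fun g : Gal(K/ℚ) => g ∈ C),
          (1 / (Nat.card (divisionOf g) : ℝ)) *
            (frobSetNF K (Subgroup.zpowers g)).indicator (fun ℓ : ℕ => (ℓ : ℝ) ^ (-s)) ℓ := by
      rw [Summable.tsum_finsetSum]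
      · refine Finset.sum_congr rfl fun g _ => ?_
        rw [tsum_mul_left]
      · intro g _
        exact (summable_natMass _ hs).mul_left _
    rw [h5]
    refine Summable.tsum_le_tsum (fun ℓ => sum_indicator_division_le C hC s ℓ) ?_
      (summable_natMass _ hs)
    exact summable_sum fun g _ => (summable_natMass _ hs).mul_left _
  linarith

/-- the Dirichlet mass of the set of all primes -/
theorem natMass_primes_eq (s : ℝ) :
    natMass {ℓ : ℕ | ℓ.Prime} s = ∑' p : Nat.Primes, ((p : ℕ) : ℝ) ^ (-s) :=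
  (tsum_subtype {ℓ : ℕ | ℓ.Prime} (fun ℓ : ℕ => (ℓ : ℝ) ^ (-s))).symm

theorem exists_natMass_primes_le :
    ∃ B : ℝ, ∀ s : ℝ, 1 < s → s ≤ 2 →
      natMass {ℓ : ℕ | ℓ.Prime} s ≤ Real.log (1 / (s - 1)) + B := by
  obtain ⟨B, hB⟩ := Fermat.Agent.T4.helper10.primeZeta_bound
  refine ⟨B, fun s hs hs2 => ?_⟩
  have h := hB s ⟨hs, hs2⟩
  rw [natMass_primes_eq]
  have := (abs_le.mp h).2
  linarith

/-- the Frobenius sets of `C` and of its complement are disjoint sets of primes -/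
theorem indicator_frobSetC_add_compl_le (C : Set Gal(K/ℚ)) (hC : DivStable C) (s : ℝ) (ℓ : ℕ) :
    (frobSetC K C).indicator (fun ℓ : ℕ => (ℓ : ℝ) ^ (-s)) ℓ +
        (frobSetC K Cᶜ).indicator (fun ℓ : ℕ => (ℓ : ℝ) ^ (-s)) ℓ ≤
      ({ℓ : ℕ | ℓ.Prime} : Set ℕ).indicator (fun ℓ : ℕ => (ℓ : ℝ) ^ (-s)) ℓ := by
  have hf0 : (0 : ℝ) ≤ (ℓ : ℝ) ^ (-s) := Real.rpow_nonneg (Nat.cast_nonneg _) _
  by_cases h1 : ℓ ∈ frobSetC K C
  · have hp : ℓ ∈ ({ℓ : ℕ | ℓ.Prime} : Set ℕ) := h1.1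
    have h2 : ℓ ∉ frobSetC K Cᶜ := by
      rintro ⟨-, P', φ', hF', hφ'⟩
      obtain ⟨hℓ, P, φ, hF, hφ⟩ := h1
      obtain ⟨τ, -, hτ⟩ := hF.exists_conj hF' hℓ
      apply hφ'
      rw [hτ]
      exact hC.1 τ φ hφ
    rw [Set.indicator_of_mem h1, Set.indicator_of_notMem h2, Set.indicator_of_mem hp, add_zero]
  · rw [Set.indicator_of_notMem h1, zero_add]
    by_cases h2 : ℓ ∈ frobSetC K Cᶜ
    · have hp : ℓ ∈ ({ℓ : ℕ | ℓ.Prime} : Set ℕ) := h2.1
      rw [Set.indicator_of_mem h2, Set.indicator_of_mem hp]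
    · rw [Set.indicator_of_notMem h2]
      exact Set.indicator_nonneg (fun _ _ => Real.rpow_nonneg (Nat.cast_nonneg _) _) ℓ

/-- **Frobenius division density, upper bound**, number field form. -/
theorem nfDivUpper (C : Set Gal(K/ℚ)) (hC : DivStable C) :
    ∃ B : ℝ, ∀ s : ℝ, 1 < s → s ≤ 2 →
      natMass (frobSetC K C) s ≤
        (Nat.card C : ℝ) / (Nat.card Gal(K/ℚ) : ℝ) * Real.log (1 / (s - 1)) + B := by
  obtain ⟨B₁, hB₁⟩ := nfDivLower (K := K) Cᶜ hC.compl
  obtain ⟨B₀, hB₀⟩ := exists_natMass_primes_le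
  refine ⟨B₀ + B₁, fun s hs hs2 => ?_⟩
  have hG : (0 : ℝ) < (Nat.card Gal(K/ℚ) : ℝ) := by exact_mod_cast Nat.card_pos
  have h1 := hB₁ s hs hs2
  have h0 := hB₀ s hs hs2
  have hsum : natMass (frobSetC K C) s + natMass (frobSetC K Cᶜ) s ≤
      natMass {ℓ : ℕ | ℓ.Prime} s := by
    unfold natMass
    rw [← (summable_natMass _ hs).tsum_add (summable_natMass _ hs)]
    exact Summable.tsum_le_tsum (fun ℓ => indicator_frobSetC_add_compl_le C hC s ℓ)
      ((summable_natMass _ hs).add (summable_natMass _ hs)) (summable_natMass _ hs)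
  have hcard : (Nat.card (Cᶜ : Set Gal(K/ℚ)) : ℝ) =
      (Nat.card Gal(K/ℚ) : ℝ) - (Nat.card C : ℝ) := by
    have := Set.ncard_add_ncard_compl C
    rw [← Nat.card_coe_set_eq, ← Nat.card_coe_set_eq] at this
    have h' : ((Nat.card C + Nat.card (Cᶜ : Set Gal(K/ℚ)) : ℕ) : ℝ) =
        (Nat.card Gal(K/ℚ) : ℝ) := by rw [this]
    push_cast at h'
    linarith
  rw [hcard, sub_div, div_self hG.ne'] at h1
  linarith

end Fermat.Agent.T4.helper40
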