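import Mathlib
import Fermat.Agent.T4.helper40_DivNF
import Fermat.Agent.Cheb.helper91_ChebW

/-!
# T4 [CHEB-DIV] (helper40), part 6: dictionary between the number field form and the places of
`ℚ̄`

`L` a number field, Galois over `ℚ`, with a map to `ℚ̄`; `C₀ ⊆ Gal(L/ℚ)`.

* `exists_frobenius_of_mem_frobSetC` : a prime in `frobSetC L C₀` has a place `A` of `ℚ̄` over it
  and a Frobenius element `σ` at `A` whose restriction to `L` lies in `C₀`;
* `mem_frobSetC_of_frobenius` : conversely, off the finite set `badPrimes L` of primes which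
  ramify in `L`.
-/

set_option autoImplicit false
set_option linter.unusedSectionVars false
set_option linter.unusedVariables false
set_option linter.style.haveILetI false

open NumberField IsDedekindDomain
open scoped Pointwise

namespace Fermat.Agent.T4.helper40

open Fermat.Agent.S54.helper91 Fermat.Agent.S14.helper91 Fermat.Agent.Cheb.helper40

section dict

variable (L : Type) [Field L] [NumberField L] [Algebra L Qbar] [IsGalois ℚ L]

/-- The rational primes which ramify in `L`. -/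
def badPrimes : Set ℕ :=
  {ℓ | ℓ.Prime ∧ ∃ P ∈ inertSet L, (ℓ : 𝓞 L) ∈ P.asIdeal}

theorem badPrimes_finite : (badPrimes L).Finite := by
  classical
  -- each prime of `L` contains at most one prime number
  have huniq : ∀ P : HeightOneSpectrum (𝓞 L), ∀ ℓ ℓ' : ℕ, ℓ.Prime → ℓ'.Prime →
      (ℓ : 𝓞 L) ∈ P.asIdeal → (ℓ' : 𝓞 L) ∈ P.asIdeal → ℓ = ℓ' := by
    intro P ℓ ℓ' hℓ hℓ' h h'
    by_contra hne
    have hcop : Nat.Coprime ℓ ℓ' := (Nat.coprime_primes hℓ hℓ').mpr hne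
    have h1 : ((1 : ℤ) : 𝓞 L) ∈ P.asIdeal := by
      have hb := Nat.gcd_eq_gcd_ab ℓ ℓ'
      rw [hcop.gcd_eq_one] at hb
      have e : ((1 : ℤ) : 𝓞 L) = (ℓ : 𝓞 L) * ((Nat.gcdA ℓ ℓ' : ℤ) : 𝓞 L) +
          (ℓ' : 𝓞 L) * ((Nat.gcdB ℓ ℓ' : ℤ) : 𝓞 L) := by
        have := congrArg (fun z : ℤ => (z : 𝓞 L)) hb
        simp only [Nat.cast_one] at this
        rw [this]
        push_cast
        ring
      rw [e]
      exact P.asIdeal.add_mem (P.asIdeal.mul_mem_right _ h) (P.asIdeal.mul_mem_right _ h')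
    rw [Int.cast_one] at h1
    exact P.isPrime.ne_top ((Ideal.eq_top_iff_one _).mpr h1)
  have hfin := finite_inertSet L
  refine Set.Finite.subset (hfin.biUnion (t := fun P => {ℓ : ℕ | ℓ.Prime ∧ (ℓ : 𝓞 L) ∈ P.asIdeal})
    fun P _ => ?_) ?_
  · apply Set.Subsingleton.finite
    intro ℓ hℓ ℓ' hℓ'
    exact huniq P ℓ ℓ' hℓ.1 hℓ'.1 hℓ.2 hℓ'.2
  · rintro ℓ ⟨hℓ, P, hP, hmem⟩
    exact Set.mem_biUnion hP ⟨hℓ, hmem⟩

variable {L}

/-- From the number field form to places of `ℚ̄`. -/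
theorem exists_frobenius_of_mem_frobSetC {C₀ : Set Gal(L/ℚ)} {ℓ : ℕ}
    (h : ℓ ∈ frobSetC L C₀) :
    ℓ.Prime ∧ ∃ (A : ValuationSubring Qbar) (σ : GQ), A.LiesOverPrime ℓ ∧
      A.IsFrobeniusAt σ ℓ ∧ AlgEquiv.restrictNormalHom L σ ∈ C₀ := by
  obtain ⟨hℓ, P, φ₀, hF, hφ₀⟩ := h
  refine ⟨hℓ, ?_⟩
  haveI := hF.prime
  have hP0 : P ≠ ⊥ := by
    rintro rfl
    have h1 := hF.mem
    rw [Ideal.mem_bot] at h1
    have : (ℓ : 𝓞 L) ≠ 0 := Nat.cast_ne_zero.mpr hℓ.ne_zero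
    exact this h1
  haveI : P.IsMaximal := Ring.DimensionLEOne.maximalOfPrime hP0 hF.prime
  obtain ⟨A, hA⟩ := exists_primeOf_eq L P
  have hAℓ : A.LiesOverPrime ℓ := liesOverPrime_of_natCast_mem L A (by rw [hA]; exact hF.mem)
  obtain ⟨σ, hσ⟩ := exists_isFrobeniusAt_of_liesOver A hℓ hAℓ
  obtain ⟨-, hσF⟩ := restrict_frobenius L A hσ
  rw [hA] at hσF
  have hF' : IsFrobNF L ℓ P (AlgEquiv.restrictNormalHom L σ) :=
    ⟨hF.prime, hF.mem, hF.unram, hσF⟩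
  refine ⟨A, σ, hAℓ, hσ, ?_⟩
  rw [← hF.unique hF' hℓ.ne_zero]
  exact hφ₀

/-- From places of `ℚ̄` to the number field form, off the ramified primes. -/
theorem mem_frobSetC_of_frobenius {C₀ : Set Gal(L/ℚ)} {ℓ : ℕ} (hℓ : ℓ.Prime)
    (hbad : ℓ ∉ badPrimes L) {A : ValuationSubring Qbar} {σ : GQ} (hA : A.LiesOverPrime ℓ)
    (hσ : A.IsFrobeniusAt σ ℓ) (hC : AlgEquiv.restrictNormalHom L σ ∈ C₀) :
    ℓ ∈ frobSetC L C₀ := by
  have hmem : (ℓ : 𝓞 L) ∈ primeOf L A := natCast_mem_primeOf L A hA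
  have hP0 : primeOf L A ≠ ⊥ := by
    intro h0
    rw [h0, Ideal.mem_bot] at hmem
    have : (ℓ : 𝓞 L) ≠ 0 := Nat.cast_ne_zero.mpr hℓ.ne_zero
    exact this hmem
  obtain ⟨-, hσF⟩ := restrict_frobenius L A hσ
  refine ⟨hℓ, primeOf L A, AlgEquiv.restrictNormalHom L σ,
    ⟨primeOf_isPrime L A, hmem, fun τ hτ => ?_, hσF⟩, hC⟩
  by_contra hτ1
  apply hbad
  exact ⟨hℓ, ⟨primeOf L A, primeOf_isPrime L A, hP0⟩, ⟨τ, hτ1, hτ⟩, hmem⟩

end dict

end Fermat.Agent.T4.helper40
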