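import Mathlib
import Fermat.Agent.T4.helper40_DivDict
import Fermat.Agent.T4.helper80_EndgameDefs

/-!
# T4 [CHEB-DIV] (helper40), part 7: the Frobenius division density theorem for `Gal(ℚ̄/ℚ)`

In the vocabulary of `Fermat.Agent.T4.helper80_EndgameDefs` (`GQ`, `frobSet`, `primeMass`,
`LowerDensityGE`, `UpperDensityLE`).  Let `ρ : GQ →* G` be a surjective homomorphism to a finite
group which factors through a finite level, and let `C ⊆ G` be stable under conjugation and under
`x ↦ x ^ j` for `j` prime to `|G|` (`DivStable C`).  Then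

* `divLower_bound` : `(|C| / |G|) log (1/(s-1)) - B ≤ primeMass (frobSet ρ C) s` on `(1, 2]`;
* `divUpper_bound` : `primeMass (frobSet ρ C \ Bad) s ≤ (|C| / |G|) log (1/(s-1)) + B` on `(1, 2]`
  for a finite set `Bad` of primes;
* `divStatement` : `LowerDensityGE (frobSet ρ C) (|C| / |G|)`;
* `divUpperStatement` : `∃ Bad : Finset ℕ, UpperDensityLE (frobSet ρ C \ Bad) (|C| / |G|)`.

No L-functions beyond the simple pole of the Dedekind zeta functions (S14) are used.
-/

set_option autoImplicit false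
set_option linter.unusedSectionVars false
set_option linter.unusedVariables false
set_option linter.style.haveILetI false

open NumberField
open scoped Pointwise

namespace Fermat.Agent.T4.helper40

open Fermat.Agent.S54.helper91 Fermat.Agent.S14.helper91

/-! ### Finite levels -/

/-- A homomorphism factoring through a finite level factors through the Galois group of a finite
normal subextension of `ℚ̄ / ℚ`. -/
theorem exists_normal_level {G : Type} [Group G] (ρ : GQ →* G)
    (hρ : GaloisFactorsThroughFiniteLevel ρ) :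
    ∃ (L' : IntermediateField ℚ Qbar) (_ : FiniteDimensional ℚ L') (_ : Normal ℚ L'),
      ∀ σ : GQ, AlgEquiv.restrictNormalHom L' σ = 1 → ρ σ = 1 := by
  obtain ⟨L, hfin, hL⟩ := hρ
  haveI := hfin
  haveI := normal_Qbar
  haveI := isAlgebraic_Qbar
  refine ⟨IntermediateField.normalClosure ℚ L Qbar,
    normalClosure.is_finiteDimensional ℚ L Qbar, normalClosure.normal ℚ L Qbar, ?_⟩
  intro σ hσ
  apply hL
  intro x hx
  have hle : L ≤ IntermediateField.normalClosure ℚ L Qbar :=
    IntermediateField.le_normalClosure L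
  haveI : Normal ℚ (IntermediateField.normalClosure ℚ L Qbar) :=
    normalClosure.normal ℚ L Qbar
  have h2 := restrictNormalHom_coe (IntermediateField.normalClosure ℚ L Qbar) σ ⟨x, hle hx⟩
  rw [hσ] at h2
  exact h2.symm

/-- The induced homomorphism on the Galois group of the level. -/
theorem exists_factor {G : Type} [Group G] (ρ : GQ →* G) (L' : IntermediateField ℚ Qbar)
    [Normal ℚ L'] (h : ∀ σ : GQ, AlgEquiv.restrictNormalHom L' σ = 1 → ρ σ = 1) :
    ∃ ρ' : Gal(L'/ℚ) →* G, ∀ σ : GQ, ρ' (AlgEquiv.restrictNormalHom L' σ) = ρ σ := by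
  haveI := normal_Qbar
  have hsurj : Function.Surjective (AlgEquiv.restrictNormalHom (F := ℚ) (K₁ := Qbar) L') :=
    AlgEquiv.restrictNormalHom_surjective Qbar
  have hker : (AlgEquiv.restrictNormalHom (F := ℚ) (K₁ := Qbar) L').ker ≤ ρ.ker := by
    intro σ hσ
    rw [MonoidHom.mem_ker] at hσ ⊢
    exact h σ hσ
  refine ⟨(AlgEquiv.restrictNormalHom (F := ℚ) (K₁ := Qbar) L').liftOfSurjective hsurj
    ⟨ρ, hker⟩, fun σ => ?_⟩
  exact MonoidHom.liftOfRightInverse_comp_apply _ _ _ ⟨ρ, hker⟩ σ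

/-! ### Densities from `O(1)` bounds -/

theorem primeMass_eq_natMass (X : Set ℕ) (s : ℝ) :
    helper80.primeMass X s = natMass {p : ℕ | p.Prime ∧ p ∈ X} s := rfl

theorem log_gt_of_lt {s δ c : ℝ} (hs : 1 < s) (hδ : s < 1 + Real.exp (-c)) :
    c < Real.log (1 / (s - 1)) := by
  have h1 : 0 < s - 1 := by linarith
  have h2 : s - 1 < Real.exp (-c) := by linarith
  have h3 : Real.log (s - 1) < -c := by
    have := Real.log_lt_log h1 h2
    rwa [Real.log_exp] at this
  rw [one_div, Real.log_inv]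
  linarith

theorem lowerDensityGE_of_bound {X : Set ℕ} {η B : ℝ}
    (h : ∀ s : ℝ, 1 < s → s ≤ 2 → η * Real.log (1 / (s - 1)) - B ≤ helper80.primeMass X s) :
    helper80.LowerDensityGE X η := by
  intro ε hε
  refine ⟨min 1 (Real.exp (-(|B| / ε))), lt_min one_pos (Real.exp_pos _), fun s hs hsδ => ?_⟩
  have hs2 : s ≤ 2 := by
    have := min_le_left (1 : ℝ) (Real.exp (-(|B| / ε)))
    linarith
  have hsδ' : s < 1 + Real.exp (-(|B| / ε)) := by
    have := min_le_right (1 : ℝ) (Real.exp (-(|B| / ε)))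
    linarith
  have hL := log_gt_of_lt (δ := 0) hs hsδ'
  have h1 : |B| < ε * Real.log (1 / (s - 1)) := by
    rw [div_lt_iff₀ hε] at hL
    linarith
  have h2 := h s hs hs2
  have h3 := le_abs_self B
  have e : (η - ε) * Real.log (1 / (s - 1)) =
      η * Real.log (1 / (s - 1)) - ε * Real.log (1 / (s - 1)) := by ring
  rw [e]
  linarith

theorem upperDensityLE_of_bound {X : Set ℕ} {η B : ℝ}
    (h : ∀ s : ℝ, 1 < s → s ≤ 2 → helper80.primeMass X s ≤ η * Real.log (1 / (s - 1)) + B) :
    helper80.UpperDensityLE X η := by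
  intro ε hε
  refine ⟨min 1 (Real.exp (-(|B| / ε))), lt_min one_pos (Real.exp_pos _), fun s hs hsδ => ?_⟩
  have hs2 : s ≤ 2 := by
    have := min_le_left (1 : ℝ) (Real.exp (-(|B| / ε)))
    linarith
  have hsδ' : s < 1 + Real.exp (-(|B| / ε)) := by
    have := min_le_right (1 : ℝ) (Real.exp (-(|B| / ε)))
    linarith
  have hL := log_gt_of_lt (δ := 0) hs hsδ'
  have h1 : |B| < ε * Real.log (1 / (s - 1)) := by
    rw [div_lt_iff₀ hε] at hL
    linarith
  have h2 := h s hs hs2
  have h3 := le_abs_self B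
  have e : (η + ε) * Real.log (1 / (s - 1)) =
      η * Real.log (1 / (s - 1)) + ε * Real.log (1 / (s - 1)) := by ring
  rw [e]
  linarith

/-! ### The theorem -/

section main

variable {G : Type} [Group G] [Finite G]

/-- the common set-up: a number field level, the induced surjection and the preimage of `C` -/
theorem exists_level_data (ρ : GQ →* G) (hρ : GaloisFactorsThroughFiniteLevel ρ)
    (hsurj : Function.Surjective ρ) (C : Set G) (hC : DivStable C) :
    ∃ (L' : IntermediateField ℚ Qbar) (_ : FiniteDimensional ℚ L') (_ : Normal ℚ L')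
      (_ : NumberField L') (_ : IsGalois ℚ L') (C₀ : Set Gal(L'/ℚ)),
      DivStable C₀ ∧
      (Nat.card C₀ : ℝ) / (Nat.card Gal(L'/ℚ) : ℝ) = (Nat.card C : ℝ) / (Nat.card G : ℝ) ∧
      ∀ σ : GQ, AlgEquiv.restrictNormalHom L' σ ∈ C₀ ↔ ρ σ ∈ C := by
  obtain ⟨L', hfin, hnorm, hL'⟩ := exists_normal_level ρ hρ
  haveI := hfin
  haveI := hnorm
  haveI hNF : NumberField L' := ⟨⟩
  haveI hGal : IsGalois ℚ L' := ⟨⟩
  obtain ⟨ρ', hρ'⟩ := exists_factor ρ L' hL'
  have hsurj' : Function.Surjective ρ' := by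
    intro g
    obtain ⟨σ, rfl⟩ := hsurj g
    exact ⟨AlgEquiv.restrictNormalHom L' σ, hρ' σ⟩
  refine ⟨L', hfin, hnorm, hNF, hGal, ρ' ⁻¹' C, ⟨?_, ?_⟩, ?_, fun σ => ?_⟩
  · intro g h hh
    show ρ' (g * h * g⁻¹) ∈ C
    rw [map_mul, map_mul, map_inv]
    exact hC.1 _ _ hh
  · intro h j hh hj
    show ρ' (h ^ j) ∈ C
    rw [map_pow]
    apply hC.2 _ _ hh
    exact Nat.Coprime.coprime_dvd_right (Subgroup.card_dvd_of_surjective ρ' hsurj') hj
  · have h1 := card_preimage_mul ρ' hsurj' C
    have hG : (0 : ℝ) < (Nat.card G : ℝ) := by exact_mod_cast Nat.card_pos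
    have hG₀ : (0 : ℝ) < (Nat.card Gal(L'/ℚ) : ℝ) := by exact_mod_cast Nat.card_pos
    rw [div_eq_div_iff hG₀.ne' hG.ne']
    exact_mod_cast h1
  · show ρ' (AlgEquiv.restrictNormalHom L' σ) ∈ C ↔ ρ σ ∈ C
    rw [hρ']

/-- **Frobenius division density, lower bound.** -/
theorem divLower_bound (ρ : GQ →* G) (hρ : GaloisFactorsThroughFiniteLevel ρ)
    (hsurj : Function.Surjective ρ) (C : Set G) (hC : DivStable C) :
    ∃ B : ℝ, ∀ s : ℝ, 1 < s → s ≤ 2 →
      (Nat.card C : ℝ) / (Nat.card G : ℝ) * Real.log (1 / (s - 1)) - B ≤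
        helper80.primeMass (helper80.frobSet ρ C) s := by
  obtain ⟨L', hfin, hnorm, hNF, hGal, C₀, hC₀, hcard, hiff⟩ :=
    exists_level_data ρ hρ hsurj C hC
  haveI := hfin
  haveI := hnorm
  haveI := hNF
  haveI := hGal
  obtain ⟨B, hB⟩ := nfDivLower (K := L') C₀ hC₀
  refine ⟨B, fun s hs hs2 => ?_⟩
  have h1 := hB s hs hs2
  rw [hcard] at h1
  refine h1.trans ?_
  rw [primeMass_eq_natMass]
  apply natMass_mono _ hs
  intro ℓ hℓ
  obtain ⟨hp, A, σ, hA, hσ, hmem⟩ := exists_frobenius_of_mem_frobSetC hℓ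
  exact ⟨hp, A, σ, hA, hσ, (hiff σ).mp hmem⟩

/-- **Frobenius division density, upper bound** (off a finite set of primes). -/
theorem divUpper_bound (ρ : GQ →* G) (hρ : GaloisFactorsThroughFiniteLevel ρ)
    (hsurj : Function.Surjective ρ) (C : Set G) (hC : DivStable C) :
    ∃ (Bad : Finset ℕ) (B : ℝ), ∀ s : ℝ, 1 < s → s ≤ 2 →
      helper80.primeMass (helper80.frobSet ρ C \ (Bad : Set ℕ)) s ≤
        (Nat.card C : ℝ) / (Nat.card G : ℝ) * Real.log (1 / (s - 1)) + B := by
  obtain ⟨L', hfin, hnorm, hNF, hGal, C₀, hC₀, hcard, hiff⟩ :=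
    exists_level_data ρ hρ hsurj C hC
  haveI := hfin
  haveI := hnorm
  haveI := hNF
  haveI := hGal
  obtain ⟨B, hB⟩ := nfDivUpper (K := L') C₀ hC₀
  refine ⟨(badPrimes_finite L').toFinset, B, fun s hs hs2 => ?_⟩
  have h1 := hB s hs hs2
  rw [hcard] at h1
  refine le_trans ?_ h1
  rw [primeMass_eq_natMass]
  apply natMass_mono _ hs
  rintro ℓ ⟨hp, ⟨A, σ, hA, hσ, hmem⟩, hbad⟩
  have hbad' : ℓ ∉ badPrimes L' := by
    intro h
    apply hbad
    rw [Finset.mem_coe, Set.Finite.mem_toFinset]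
    exact h
  exact mem_frobSetC_of_frobenius hp hbad' hA hσ ((hiff σ).mpr hmem)

end main

/-- The Frobenius division density theorem, lower density form (the shape of
`helper80.DensStatement`, for `DivStable` sets). -/
def DivStatement : Prop :=
  ∀ (G : Type) (_ : Group G) (_ : Finite G) (ρ : helper80.GQ →* G),
    GaloisFactorsThroughFiniteLevel ρ → Function.Surjective ρ →
    ∀ C : Set G, DivStable C →
      helper80.LowerDensityGE (helper80.frobSet ρ C) ((Nat.card C : ℝ) / (Nat.card G : ℝ))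

/-- The Frobenius division density theorem, upper density form. -/
def DivUpperStatement : Prop :=
  ∀ (G : Type) (_ : Group G) (_ : Finite G) (ρ : helper80.GQ →* G),
    GaloisFactorsThroughFiniteLevel ρ → Function.Surjective ρ →
    ∀ C : Set G, DivStable C →
      ∃ Bad : Finset ℕ, helper80.UpperDensityLE (helper80.frobSet ρ C \ (Bad : Set ℕ))
        ((Nat.card C : ℝ) / (Nat.card G : ℝ))

theorem divStatement : DivStatement := by
  intro G _ _ ρ hρ hsurj C hC
  obtain ⟨B, hB⟩ := divLower_bound ρ hρ hsurj C hC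
  exact lowerDensityGE_of_bound hB

theorem divUpperStatement : DivUpperStatement := by
  intro G _ _ ρ hρ hsurj C hC
  obtain ⟨Bad, B, hB⟩ := divUpper_bound ρ hρ hsurj C hC
  exact ⟨Bad, upperDensityLE_of_bound hB⟩

end Fermat.Agent.T4.helper40
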