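import Fermat.Agent.T4.helper64_IrrAlg

/-!
# T4 block (IV), DIV branch, leaf [DIV-IRR], embeddings (helper64)

* `exists_hom_pow` : for `e` prime to `m` there is a ring homomorphism from the algebraic
  numbers of `ℂ` to `ℂ` raising every `m`-th root of unity to the power `e`;
* `exists_embedding_pow` : for a field `K` algebraic over `ℚ` and `ι : K →+* ℂ` there is
  `τ : K →+* ℂ` with `τ x = ξ₁ ^ e + ξ₂ ^ e` whenever `ι x = ξ₁ + ξ₂`, `ξᵢ ^ m = 1`;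
* `two_mul_card_le_sum_sq_add` : `2 |G| ≤ ∑ ‖A g + B g‖ ^ 2` for characters `A, B` of a finite
  group;
* `exists_trace_eq_add` : the two characters of a finite subgroup of `GL 2 ℂ` stabilising a
  line.
-/

set_option autoImplicit false

open Polynomial

namespace Fermat.Agent.T4.helper64

theorem isAlgebraic_of_pow_eq_one {ξ : ℂ} {m : ℕ} (hm : m ≠ 0) (h : ξ ^ m = 1) :
    IsAlgebraic ℚ ξ := by
  refine ⟨X ^ m - C 1, X_pow_sub_C_ne_zero (Nat.pos_of_ne_zero hm) 1, ?_⟩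
  simp [h]

theorem exists_hom_pow (m e : ℕ) (hm : m ≠ 0) (he : e.Coprime m) :
    ∃ θ : (algebraicClosure ℚ ℂ) →+* ℂ, ∀ ξ : algebraicClosure ℚ ℂ, (ξ : ℂ) ^ m = 1 →
      θ ξ = (ξ : ℂ) ^ e := by
  have : NeZero m := ⟨hm⟩
  obtain ⟨ζ, hζ⟩ : ∃ ζ : ℂ, IsPrimitiveRoot ζ m := ⟨_, Complex.isPrimitiveRoot_exp m hm⟩
  have hζalg : ζ ∈ algebraicClosure ℚ ℂ :=
    mem_algebraicClosure_iff.mpr (isAlgebraic_of_pow_eq_one hm hζ.pow_eq_one)
  have hK : ∀ s : algebraicClosure ℚ ℂ, IsIntegral ℚ s ∧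
      ((minpoly ℚ s).map (algebraMap ℚ ℂ)).Splits := by
    intro s
    refine ⟨?_, IsAlgClosed.splits _⟩
    rw [← isAlgebraic_iff_isIntegral]
    have h0 : IsAlgebraic ℚ (s : ℂ) := mem_algebraicClosure_iff.mp s.2
    exact (isAlgebraic_algHom_iff
      (RingHom.toRatAlgHom (algebraicClosure ℚ ℂ).toSubfield.subtype)
      Subtype.val_injective).mp h0
  have hmin : minpoly ℚ (⟨ζ, hζalg⟩ : algebraicClosure ℚ ℂ) = cyclotomic m ℚ := by
    rw [cyclotomic_eq_minpoly_rat hζ (Nat.pos_of_ne_zero hm)]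
    exact (IntermediateField.minpoly_eq (⟨ζ, hζalg⟩ : algebraicClosure ℚ ℂ))
  have hroot : aeval (ζ ^ e) (minpoly ℚ (⟨ζ, hζalg⟩ : algebraicClosure ℚ ℂ)) = 0 := by
    rw [hmin, aeval_def, eval₂_eq_eval_map, map_cyclotomic]
    exact (hζ.pow_of_coprime e he).isRoot_cyclotomic (Nat.pos_of_ne_zero hm)
  obtain ⟨φ, hφ⟩ := IntermediateField.exists_algHom_of_splits_of_aeval hK hroot
  refine ⟨φ.toRingHom, fun ξ hξ => ?_⟩
  obtain ⟨i, -, hi⟩ := hζ.eq_pow_of_pow_eq_one hξ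
  have h1 : ξ = (⟨ζ, hζalg⟩ : algebraicClosure ℚ ℂ) ^ i := by
    apply Subtype.ext
    rw [← hi]
    rfl
  show φ ξ = (ξ : ℂ) ^ e
  rw [h1, map_pow, hφ]
  simp only [SubmonoidClass.coe_pow]
  rw [← pow_mul, ← pow_mul, mul_comm]

theorem exists_embedding_pow (m e : ℕ) (hm : m ≠ 0) (he : e.Coprime m)
    (K : Type) [Field K] [NumberField K] (ι : K →+* ℂ) :
    ∃ τ : K →+* ℂ, ∀ (x : K) (ξ₁ ξ₂ : ℂ), ξ₁ ^ m = 1 → ξ₂ ^ m = 1 → ι x = ξ₁ + ξ₂ →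
      τ x = ξ₁ ^ e + ξ₂ ^ e := by
  obtain ⟨θ, hθ⟩ := exists_hom_pow m e hm he
  have hmem : ∀ x : K, ι.toRatAlgHom x ∈ (algebraicClosure ℚ ℂ).toSubalgebra := by
    intro x
    have hx : IsAlgebraic ℚ x := Algebra.IsAlgebraic.isAlgebraic x
    exact mem_algebraicClosure_iff.mpr (hx.algHom ι.toRatAlgHom)
  obtain ⟨ιE, hιE⟩ : ∃ ιE : K →ₐ[ℚ] (algebraicClosure ℚ ℂ).toSubalgebra,
      ιE = ι.toRatAlgHom.codRestrict _ hmem := ⟨_, rfl⟩
  refine ⟨θ.comp ιE.toRingHom, fun x ξ₁ ξ₂ h₁ h₂ hx => ?_⟩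
  have ha₁ : ξ₁ ∈ algebraicClosure ℚ ℂ :=
    mem_algebraicClosure_iff.mpr (isAlgebraic_of_pow_eq_one hm h₁)
  have ha₂ : ξ₂ ∈ algebraicClosure ℚ ℂ :=
    mem_algebraicClosure_iff.mpr (isAlgebraic_of_pow_eq_one hm h₂)
  have h1 : (ιE x : algebraicClosure ℚ ℂ)
      = (⟨ξ₁, ha₁⟩ : algebraicClosure ℚ ℂ) + (⟨ξ₂, ha₂⟩ : algebraicClosure ℚ ℂ) := by
    apply Subtype.ext
    rw [hιE]
    exact hx
  show θ (ιE x) = ξ₁ ^ e + ξ₂ ^ e
  rw [h1, map_add, hθ _ h₁, hθ _ h₂]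

section Group

variable (G : Type) [Group G] [Fintype G]

theorem norm_hom_eq_one' (f : G →* ℂ) (g : G) : ‖f g‖ = 1 := by
  have h1 : f g ^ Fintype.card G = 1 := by
    rw [← map_pow, pow_card_eq_one, map_one]
  exact Complex.norm_eq_one_of_pow_eq_one h1 Fintype.card_ne_zero

theorem hom_pow_card (f : G →* ℂ) (g : G) : f g ^ Fintype.card G = 1 := by
  rw [← map_pow, pow_card_eq_one, map_one]

/-- Orthogonality, as an inequality: the mean of `‖A + B‖ ^ 2` is at least `2`. -/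
theorem two_mul_card_le_sum_sq_add (A B : G →* ℂ) :
    2 * (Fintype.card G : ℝ) ≤ ∑ g : G, ‖A g + B g‖ ^ 2 := by
  obtain ⟨ψ, hψ⟩ : ∃ ψ : G →* ℂ,
      ψ = A * ((starRingEnd ℂ : ℂ →+* ℂ) : ℂ →* ℂ).comp B := ⟨_, rfl⟩
  have key : ∀ g : G, ‖A g + B g‖ ^ 2 = 2 + 2 * (ψ g).re := by
    intro g
    have hψg : ψ g = A g * (starRingEnd ℂ) (B g) := by
      rw [hψ]
      rfl
    rw [← Complex.normSq_eq_norm_sq, Complex.normSq_add, Complex.normSq_eq_norm_sq,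
      Complex.normSq_eq_norm_sq, norm_hom_eq_one' G A g, norm_hom_eq_one' G B g, ← hψg]
    ring
  have hre : 0 ≤ (∑ g : G, ψ g).re := by
    by_cases hf : ψ = 1
    · rw [hf]
      simp
    · rw [sum_hom_units_eq_zero ψ hf]
      simp
  calc 2 * (Fintype.card G : ℝ) ≤ 2 * (Fintype.card G : ℝ) + 2 * (∑ g : G, ψ g).re := by
        linarith
    _ = ∑ g : G, (2 + 2 * (ψ g).re) := by
        rw [Finset.sum_add_distrib, Complex.re_sum, ← Finset.mul_sum]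
        simp
        ring
    _ = ∑ g : G, ‖A g + B g‖ ^ 2 := by
        refine Finset.sum_congr rfl (fun g _ => (key g).symm)

end Group

/-- The two characters of a finite subgroup of `GL 2 ℂ` stabilising a line. -/
theorem exists_trace_eq_add (G : Subgroup (GL (Fin 2) ℂ)) [Fintype G]
    (v : Fin 2 → ℂ) (hv : v ≠ 0)
    (h : ∀ g ∈ G, ∃ c : ℂ, (g : Matrix (Fin 2) (Fin 2) ℂ).mulVec v = c • v) :
    ∃ A B : G →* ℂ, ∀ g : G,
      ((g : GL (Fin 2) ℂ) : Matrix (Fin 2) (Fin 2) ℂ).trace = A g + B g := by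
  obtain ⟨i, hi⟩ : ∃ i, v i ≠ 0 := by
    by_contra hcon
    rw [not_exists] at hcon
    exact hv (funext fun i => not_not.mp (hcon i))
  refine ⟨lamHom G v i hi h,
    detHom G * ((starRingEnd ℂ : ℂ →+* ℂ) : ℂ →* ℂ).comp (lamHom G v i hi h), fun g => ?_⟩
  obtain ⟨c, hc⟩ := h g g.2
  have hLg : lamHom G v i hi h g = c := lamAt_eq hi hc
  have hrel := eigen_mul_trace_sub hv hc
  have hnL : ‖lamHom G v i hi h g‖ = 1 := norm_hom_eq_one G _ g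
  have hLL : c * (starRingEnd ℂ) c = 1 := by
    rw [← hLg, Complex.mul_conj, Complex.normSq_eq_norm_sq, hnL]
    simp
  have hB : (detHom G * ((starRingEnd ℂ : ℂ →+* ℂ) : ℂ →* ℂ).comp (lamHom G v i hi h)) g
      = ((g : GL (Fin 2) ℂ) : Matrix (Fin 2) (Fin 2) ℂ).det * (starRingEnd ℂ) c := by
    rw [← hLg]
    rfl
  rw [hB, hLg, ← hrel]
  linear_combination (-(((g : GL (Fin 2) ℂ) : Matrix (Fin 2) (Fin 2) ℂ).trace - c)) * hLL

end Fermat.Agent.T4.helper64
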