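import Fermat.Agent.T4.helper64_Irr
import Fermat.Agent.T4.helper64_DivIrrEmb

/-!
# T4 block (IV), DIV branch, leaf [DIV-IRR], the division-invariant weight (helper64)

For two characters `A`, `B` of a finite group `G` of order `m`:
`divWeight A B g = (1/φ(m)) ∑_{u ∈ (ZMod m)ˣ} ‖A(g) ^ u + B(g) ^ u‖ ^ 2` is invariant under
conjugation and under the powers prime to `m`, and has mean at least `2`.
Also: the Rankin bound for an average of finitely many systems, and means over level sets.
-/

set_option autoImplicit false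
set_option linter.unusedSectionVars false

namespace Fermat.Agent.T4.helper64

open Fermat.Agent.T4.helper80

/-- The mean of a function over a finite type, computed on its level sets. -/
theorem sum_levelSets {G : Type} [Fintype G] (F : G → ℝ) :
    ∑ w ∈ Finset.univ.image F, w * ((Nat.card {g : G | F g = w} : ℝ) / (Nat.card G : ℝ))
      = (∑ g : G, F g) / (Fintype.card G : ℝ) := by
  classical
  have hcardw : ∀ w : ℝ, (Nat.card {g : G | F g = w} : ℝ)
      = ((Finset.univ.filter (fun g : G => F g = w)).card : ℝ) := by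
    intro w
    congr 1
    rw [Nat.card_eq_fintype_card]
    exact Fintype.card_subtype _
  have hsum : ∑ w ∈ Finset.univ.image F, w * ((Finset.univ.filter
      (fun g : G => F g = w)).card : ℝ) = ∑ g : G, F g := by
    rw [← Finset.sum_fiberwise_of_maps_to (s := Finset.univ) (t := Finset.univ.image F)
      (g := F) (fun g _ => Finset.mem_image_of_mem F (Finset.mem_univ g)) F]
    refine Finset.sum_congr rfl (fun w _ => ?_)
    rw [Finset.sum_congr rfl (fun g hg => (Finset.mem_filter.mp hg).2), Finset.sum_const,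
      nsmul_eq_mul, mul_comm]
  rw [Nat.card_eq_fintype_card]
  rw [Finset.sum_congr rfl (fun w _ => by rw [hcardw w, ← mul_div_assoc]),
    ← Finset.sum_div, hsum]

/-- The Rankin bound for an average of finitely many systems. -/
theorem rankinBound_avg (N : ℕ) {U : Type} [Fintype U] [Nonempty U] (b : U → ℕ → ℂ)
    (hb : ∀ u, RankinBound N (b u)) (a' : ℕ → ℂ)
    (ha' : ∀ p, ‖a' p‖ ^ 2 = (1 / (Fintype.card U : ℝ)) * ∑ u, ‖b u p‖ ^ 2) :
    RankinBound N a' := by
  classical
  obtain ⟨φ, hφ⟩ : ∃ φ : ℝ, φ = (Fintype.card U : ℝ) := ⟨_, rfl⟩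
  have hφ0 : 0 < φ := by
    rw [hφ]
    exact_mod_cast Fintype.card_pos
  rw [← hφ] at ha'
  choose C hC' using hb
  refine ⟨(1 / φ) * ∑ u, C u, fun s hs1 hs2 => ?_⟩
  have hfun : rankinTerm N a' s = fun p => (1 / φ) * ∑ u : U, rankinTerm N (b u) s p := by
    funext p
    unfold rankinTerm
    by_cases hp : p ∈ {p : ℕ | p.Prime ∧ ¬ p ∣ N}
    · rw [Set.indicator_of_mem hp, ha' p]
      rw [Finset.sum_congr rfl (fun u _ => Set.indicator_of_mem hp _)]
      rw [← Finset.sum_mul, mul_assoc]
    · rw [Set.indicator_of_notMem hp]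
      rw [Finset.sum_congr rfl (fun u _ => Set.indicator_of_notMem hp _)]
      simp
  have hsummable : ∀ u ∈ (Finset.univ : Finset U), Summable (rankinTerm N (b u) s) :=
    fun u _ => (hC' u s hs1 hs2).1
  refine ⟨?_, ?_⟩
  · rw [hfun]
    exact (summable_sum hsummable).mul_left _
  · rw [hfun, tsum_mul_left, Summable.tsum_finsetSum hsummable]
    have h1 : ∑ u : U, ∑' p : ℕ, rankinTerm N (b u) s p
        ≤ ∑ u : U, (Real.log (1 / (s - 1)) + C u) :=
      Finset.sum_le_sum fun u _ => (hC' u s hs1 hs2).2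
    rw [Finset.sum_add_distrib, Finset.sum_const, Finset.card_univ, nsmul_eq_mul,
      ← hφ] at h1
    have h2 := mul_le_mul_of_nonneg_left h1 (by positivity : (0 : ℝ) ≤ 1 / φ)
    rw [mul_add, ← mul_assoc, one_div, inv_mul_cancel₀ hφ0.ne', one_mul] at h2
    rw [one_div]
    exact h2

section Weight

variable {G : Type} [Group G] [Fintype G] [NeZero (Fintype.card G)]

/-- One term of the weight. -/
noncomputable def divTerm (A B : G →* ℂ) (g : G) (u : (ZMod (Fintype.card G))ˣ) : ℝ :=
  ‖A g ^ (u : ZMod (Fintype.card G)).val + B g ^ (u : ZMod (Fintype.card G)).val‖ ^ 2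

/-- The division-invariant weight. -/
noncomputable def divWeight (A B : G →* ℂ) (g : G) : ℝ :=
  (1 / (Fintype.card (ZMod (Fintype.card G))ˣ : ℝ)) *
    ∑ u : (ZMod (Fintype.card G))ˣ, divTerm A B g u

theorem divTerm_nonneg (A B : G →* ℂ) (g : G) (u : (ZMod (Fintype.card G))ˣ) :
    0 ≤ divTerm A B g u := sq_nonneg _

theorem divWeight_nonneg (A B : G →* ℂ) (g : G) : 0 ≤ divWeight A B g :=
  mul_nonneg (by positivity) (Finset.sum_nonneg fun u _ => divTerm_nonneg A B g u)

theorem hom_conj_eq (A : G →* ℂ) (g h : G) : A (g * h * g⁻¹) = A h := by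
  rw [map_mul, map_mul, mul_comm (A g), mul_assoc, ← map_mul, mul_inv_cancel, map_one, mul_one]

theorem divWeight_conj (A B : G →* ℂ) (g h : G) :
    divWeight A B (g * h * g⁻¹) = divWeight A B h := by
  unfold divWeight divTerm
  rw [hom_conj_eq, hom_conj_eq]

/-- Exponents modulo the order of the group. -/
theorem hom_pow_unit_mul (A : G →* ℂ) (h : G) (j : ℕ) (hj : j.Coprime (Fintype.card G))
    (u : (ZMod (Fintype.card G))ˣ) :
    A (h ^ j) ^ (u : ZMod (Fintype.card G)).val
      = A h ^ ((ZMod.unitOfCoprime j hj * u : (ZMod (Fintype.card G))ˣ) :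
          ZMod (Fintype.card G)).val := by
  have h1 : A h ^ Fintype.card G = 1 := hom_pow_card G A h
  have h2 : (((ZMod.unitOfCoprime j hj * u : (ZMod (Fintype.card G))ˣ) :
      ZMod (Fintype.card G))).val
      = (j % Fintype.card G * (u : ZMod (Fintype.card G)).val) % Fintype.card G := by
    rw [Units.val_mul, ZMod.val_mul, ZMod.coe_unitOfCoprime, ZMod.val_natCast]
  rw [map_pow, ← pow_mul, pow_eq_pow_mod (j * _) h1, h2, pow_eq_pow_mod (_ % _) h1,
    Nat.mod_mod]
  congr 1
  exact (Nat.ModEq.mul_right _ (Nat.mod_modEq j (Fintype.card G))).symm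

theorem divTerm_pow (A B : G →* ℂ) (h : G) (j : ℕ) (hj : j.Coprime (Fintype.card G))
    (u : (ZMod (Fintype.card G))ˣ) :
    divTerm A B (h ^ j) u = divTerm A B h (ZMod.unitOfCoprime j hj * u) := by
  unfold divTerm
  rw [hom_pow_unit_mul A h j hj u, hom_pow_unit_mul B h j hj u]

theorem divWeight_pow (A B : G →* ℂ) (h : G) (j : ℕ) (hj : j.Coprime (Fintype.card G)) :
    divWeight A B (h ^ j) = divWeight A B h := by
  unfold divWeight
  congr 1
  rw [Finset.sum_congr rfl (fun u _ => divTerm_pow A B h j hj u)]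
  exact Equiv.sum_comp (Equiv.mulLeft (ZMod.unitOfCoprime j hj)) (divTerm A B h)

theorem two_mul_card_le_sum_divTerm (A B : G →* ℂ) (u : (ZMod (Fintype.card G))ˣ) :
    2 * (Fintype.card G : ℝ) ≤ ∑ g : G, divTerm A B g u :=
  two_mul_card_le_sum_sq_add G
    ((powMonoidHom (u : ZMod (Fintype.card G)).val).comp A)
    ((powMonoidHom (u : ZMod (Fintype.card G)).val).comp B)

theorem two_mul_card_le_sum_divWeight (A B : G →* ℂ) :
    2 * (Fintype.card G : ℝ) ≤ ∑ g : G, divWeight A B g := by
  obtain ⟨φ, hφ⟩ : ∃ φ : ℝ, φ = (Fintype.card (ZMod (Fintype.card G))ˣ : ℝ) := ⟨_, rfl⟩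
  have hφ0 : 0 < φ := by
    rw [hφ]
    exact_mod_cast Fintype.card_pos
  have h1 : ∑ g : G, divWeight A B g
      = (1 / φ) * ∑ u : (ZMod (Fintype.card G))ˣ, ∑ g : G, divTerm A B g u := by
    unfold divWeight
    rw [← hφ, ← Finset.mul_sum, Finset.sum_comm]
  have h3 : ∑ _u : (ZMod (Fintype.card G))ˣ, 2 * (Fintype.card G : ℝ)
      ≤ ∑ u : (ZMod (Fintype.card G))ˣ, ∑ g : G, divTerm A B g u :=
    Finset.sum_le_sum fun u _ => two_mul_card_le_sum_divTerm A B u
  rw [Finset.sum_const, Finset.card_univ, nsmul_eq_mul, ← hφ] at h3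
  rw [h1]
  have h4 := mul_le_mul_of_nonneg_left h3 (by positivity : (0 : ℝ) ≤ 1 / φ)
  rw [← mul_assoc, one_div, inv_mul_cancel₀ hφ0.ne', one_mul] at h4
  rw [one_div]
  exact h4

end Weight

end Fermat.Agent.T4.helper64
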