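import Fermat.Agent.T4.helper2_DivDefs
import Fermat.Agent.T4.helper64_DivIrrWeight

/-!
# T4 block (IV), DIV branch, leaf [DIV-IRR] (helper64)

`irrDiv : helper2.IrrDivStatement`, verbatim: a finite-level complex representation whose
Frobenius traces are the `a p` of a system satisfying the Rankin bound for all conjugates is
irreducible, given only the DIVISION density theorem (lower bound).

If `ρ` stabilised a line, `tr = A + B` on the image `G` (`|G| = m`) for two characters `A`, `B`.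
For every unit `u` of `ZMod m` there is an embedding `τ_u` of the coefficient field with
`τ_u (α p) = A(g) ^ u + B(g) ^ u` (`g` a Frobenius at `p`).  The function
`divWeight A B g = (1/φ(m)) ∑_u ‖A(g) ^ u + B(g) ^ u‖ ^ 2` is invariant under conjugation and
under the powers prime to `m`, has mean `≥ 2`, and its value at a Frobenius at `p` is
`(1/φ(m)) ∑_u ‖τ_u (α p)‖ ^ 2`, whose Rankin sum is `≤ log (1 / (s - 1)) + C`.
Contradiction as in `rankin_contra`.
-/

set_option autoImplicit false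

namespace Fermat.Agent.T4.helper64

open Fermat.Agent.T4.helper80 Fermat.Agent.T4.helper2

/-- **The core of [DIV-IRR]**. -/
theorem irrDiv_core (hDiv : DivLowerStatement) (N : ℕ) (hN : N ≠ 0)
    (G : Type) [Group G] [Fintype G] (r : GQ →* G)
    (hr : GaloisFactorsThroughFiniteLevel r) (hsurj : Function.Surjective r)
    (A B : G →* ℂ)
    (K : Type) [Field K] [NumberField K] (ι : K →+* ℂ) (α : ℕ → NumberField.RingOfIntegers K)
    (hR : ∀ τ : K →+* ℂ, RankinBound N (fun p : ℕ => τ (α p : K)))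
    (htr : ∀ p : ℕ, p.Prime → ¬ p ∣ N →
      ∀ A' : ValuationSubring (AlgebraicClosure ℚ), A'.LiesOverPrime p →
        ∀ σ : GQ, A'.IsFrobeniusAt σ p → ι (α p : K) = A (r σ) + B (r σ)) : False := by
  classical
  have hm : Fintype.card G ≠ 0 := Fintype.card_ne_zero
  have hne : NeZero (Fintype.card G) := ⟨hm⟩
  -- the embeddings
  have hτ : ∀ u : (ZMod (Fintype.card G))ˣ, ∃ τ : K →+* ℂ, ∀ (x : K) (ξ₁ ξ₂ : ℂ),
      ξ₁ ^ Fintype.card G = 1 → ξ₂ ^ Fintype.card G = 1 → ι x = ξ₁ + ξ₂ →
      τ x = ξ₁ ^ (u : ZMod (Fintype.card G)).val + ξ₂ ^ (u : ZMod (Fintype.card G)).val :=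
    fun u => exists_embedding_pow (Fintype.card G) _ hm (ZMod.val_coe_unit_coprime u) K ι
  choose τ hτ' using hτ
  obtain ⟨c, hc⟩ : ∃ c : ℕ → ℝ, c = fun p =>
      (1 / (Fintype.card (ZMod (Fintype.card G))ˣ : ℝ)) *
        ∑ u : (ZMod (Fintype.card G))ˣ, ‖τ u (α p : K)‖ ^ 2 := ⟨_, rfl⟩
  have hcp : ∀ p, c p = (1 / (Fintype.card (ZMod (Fintype.card G))ˣ : ℝ)) *
        ∑ u : (ZMod (Fintype.card G))ˣ, ‖τ u (α p : K)‖ ^ 2 := by
    intro p
    rw [hc]
  have hc0 : ∀ p, 0 ≤ c p := by
    intro p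
    rw [hcp]
    exact mul_nonneg (by positivity) (Finset.sum_nonneg fun u _ => sq_nonneg _)
  obtain ⟨a', ha'⟩ : ∃ a' : ℕ → ℂ, a' = fun p => ((Real.sqrt (c p) : ℝ) : ℂ) := ⟨_, rfl⟩
  have hna' : ∀ p, ‖a' p‖ ^ 2 = c p := by
    intro p
    rw [ha', Complex.norm_real, Real.norm_eq_abs, sq_abs, Real.sq_sqrt (hc0 p)]
  have hRankin : RankinBound N a' :=
    rankinBound_avg N (fun u p => τ u (α p : K)) (fun u => hR (τ u)) a'
      (fun p => by rw [hna' p, hcp p])
  refine rankin_contra N hN a' hRankin (Finset.univ.image (divWeight A B))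
    (fun w => frobSet r {g : G | divWeight A B g = w})
    (fun w => (Nat.card {g : G | divWeight A B g = w} : ℝ) / (Nat.card G : ℝ)) ?_ ?_ ?_ ?_
  · intro w hw
    obtain ⟨g, -, rfl⟩ := Finset.mem_image.mp hw
    exact divWeight_nonneg A B g
  · rintro w - p hp hpN ⟨A', σ, hA', hσ, hmem⟩
    have h1 : divWeight A B (r σ) = w := hmem
    rw [hna' p, ← h1, hcp]
    unfold divWeight divTerm
    congr 1
    refine Finset.sum_congr rfl (fun u _ => ?_)
    rw [hτ' u (α p : K) (A (r σ)) (B (r σ)) (hom_pow_card G A _) (hom_pow_card G B _)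
      (htr p hp hpN A' hA' σ hσ)]
  · intro w _
    refine hDiv G inferInstance inferInstance r hr hsurj _ ?_ ?_
    · intro g h hh
      have h1 : divWeight A B h = w := hh
      show divWeight A B (g * h * g⁻¹) = w
      rw [← h1, divWeight_conj]
    · intro h j hh hj
      have h1 : divWeight A B h = w := hh
      rw [Nat.card_eq_fintype_card] at hj
      show divWeight A B (h ^ j) = w
      rw [← h1, divWeight_pow A B h j hj]
  · rw [sum_levelSets (divWeight A B)]
    have hcard0 : (0 : ℝ) < (Fintype.card G : ℝ) := by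
      exact_mod_cast Fintype.card_pos
    rw [le_div_iff₀ hcard0]
    exact two_mul_card_le_sum_divWeight A B

/-- **[DIV-IRR]** (verbatim `helper2.IrrDivStatement`). -/
theorem irrDiv : IrrDivStatement := by
  classical
  intro hDiv N a ρ hN hRankin hfin htr
  have hfinite : Finite ρ.range := finite_range_of_finiteLevel ρ hfin
  let _ : Fintype ρ.range := Fintype.ofFinite _
  refine { exists_pair_ne := ⟨⊥, ⊤, ?_⟩, eq_bot_or_eq_top := fun W => ?_ }
  · intro h
    have h1 : (⊥ : Submodule ℂ (Fin 2 → ℂ)) = ⊤ := congrArg Subrepresentation.toSubmodule h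
    exact bot_ne_top h1
  · by_contra hW
    rw [not_or] at hW
    obtain ⟨v, hv, hline⟩ := exists_stable_line ρ W hW.1 hW.2
    obtain ⟨A, B, hAB⟩ := exists_trace_eq_add ρ.range v hv (by
      rintro g ⟨γ, rfl⟩
      exact hline γ)
    obtain ⟨K, hK1, hK2, ι, α, hια, hRB⟩ := hRankin
    refine irrDiv_core hDiv N hN ρ.range ρ.rangeRestrict ?_ ρ.rangeRestrict_surjective A B
      K ι α hRB ?_
    · obtain ⟨L, hL, hfix⟩ := hfin
      exact ⟨L, hL, fun σ hσ => Subtype.ext (hfix σ hσ)⟩
    · intro p hp hpN A' hA' σ hσ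
      rw [hια p hp hpN, ← htr p hp hpN A' hA' σ hσ, ← hAB]
      rfl

end Fermat.Agent.T4.helper64
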