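import Mathlib

/-!
# T4 block (IV), leaf [IV-CLASS], arithmetic part (helper80)

The Diophantine core of the class equation on the projective line: if
`∑ (1 - 1 / e ω) = 2 - 2 / n` with all `e ω ≥ 2`, then some `e ω` is at least `n / 12`.
-/

set_option autoImplicit false

namespace Fermat.Agent.T4.helper80

/-- Two terms: `1 / y + 1 / z = 1 / 2 + 2 / n` with `y ∈ {2, 3}` forces `n ≤ 12 z`. -/
theorem classArith_two (y z n : ℕ) (hy2 : 2 ≤ y) (hy3 : y ≤ 3) (hz : 2 ≤ z) (hn : 2 ≤ n)
    (h : (1 : ℚ) / y + 1 / z = 1 / 2 + 2 / n) (hzn : 12 * z < n) : False := by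
  have hzq : (2 : ℚ) ≤ z := by exact_mod_cast hz
  have hnq : (2 : ℚ) ≤ n := by exact_mod_cast hn
  have hznq : (12 : ℚ) * z < n := by exact_mod_cast hzn
  have hz0 : (z : ℚ) ≠ 0 := by positivity
  have hn0 : (n : ℚ) ≠ 0 := by positivity
  interval_cases y
  · -- y = 2
    have h1 : (1 : ℚ) / z = 2 / n := by
      have := h
      push_cast at this
      linarith
    rw [div_eq_div_iff hz0 hn0] at h1
    nlinarith
  · -- y = 3
    have h1 : (1 : ℚ) / z = 1 / 6 + 2 / n := by
      have := h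
      push_cast at this
      linarith
    have h2 : (6 : ℚ) * n = z * n + 12 * z := by
      field_simp at h1
      linarith
    rcases Nat.lt_or_ge z 6 with h6 | h6
    · have h7 : (z : ℚ) ≤ 5 := by
        have : z ≤ 5 := by omega
        exact_mod_cast this
      nlinarith
    · have h7 : (6 : ℚ) ≤ z := by exact_mod_cast h6
      nlinarith

/-- Three terms, the first equal to `2`. -/
theorem classArith_three_aux (y z n : ℕ) (hy : 2 ≤ y) (hz : 2 ≤ z) (hn : 2 ≤ n)
    (h : (1 : ℚ) / 2 + 1 / y + 1 / z = 1 + 2 / n) (hyn : 12 * y < n) (hzn : 12 * z < n) :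
    False := by
  have hyq : (2 : ℚ) ≤ y := by exact_mod_cast hy
  have hzq : (2 : ℚ) ≤ z := by exact_mod_cast hz
  have hnq : (2 : ℚ) ≤ n := by exact_mod_cast hn
  have h' : (1 : ℚ) / y + 1 / z = 1 / 2 + 2 / n := by linarith
  by_cases hy3 : y ≤ 3
  · exact classArith_two y z n hy hy3 hz hn h' hzn
  · by_cases hz3 : z ≤ 3
    · exact classArith_two z y n hz hz3 hy hn (by rw [add_comm]; exact h') hyn
    · have hy4 : (4 : ℚ) ≤ y := by
        have : 4 ≤ y := by omega
        exact_mod_cast this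
      have hz4 : (4 : ℚ) ≤ z := by
        have : 4 ≤ z := by omega
        exact_mod_cast this
      have h1 : (1 : ℚ) / y ≤ 1 / 4 := by
        apply one_div_le_one_div_of_le (by norm_num) hy4
      have h2 : (1 : ℚ) / z ≤ 1 / 4 := by
        apply one_div_le_one_div_of_le (by norm_num) hz4
      have h3 : (0 : ℚ) < 2 / n := by positivity
      linarith

/-- Three terms. -/
theorem classArith_three (x y z n : ℕ) (hx : 2 ≤ x) (hy : 2 ≤ y) (hz : 2 ≤ z) (hn : 2 ≤ n)
    (h : (1 : ℚ) / x + 1 / y + 1 / z = 1 + 2 / n) (hxn : 12 * x < n) (hyn : 12 * y < n)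
    (hzn : 12 * z < n) : False := by
  have hnq : (2 : ℚ) ≤ n := by exact_mod_cast hn
  have h3 : (0 : ℚ) < 2 / n := by positivity
  by_cases hx2 : x = 2
  · subst hx2
    exact classArith_three_aux y z n hy hz hn (by push_cast at h ⊢; linarith) hyn hzn
  by_cases hy2 : y = 2
  · subst hy2
    exact classArith_three_aux x z n hx hz hn (by push_cast at h ⊢; linarith) hxn hzn
  by_cases hz2 : z = 2
  · subst hz2
    exact classArith_three_aux x y n hx hy hn (by push_cast at h ⊢; linarith) hxn hyn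
  have hx3 : (3 : ℚ) ≤ x := by
    have : 3 ≤ x := by omega
    exact_mod_cast this
  have hy3 : (3 : ℚ) ≤ y := by
    have : 3 ≤ y := by omega
    exact_mod_cast this
  have hz3 : (3 : ℚ) ≤ z := by
    have : 3 ≤ z := by omega
    exact_mod_cast this
  have h1 : (1 : ℚ) / x ≤ 1 / 3 := one_div_le_one_div_of_le (by norm_num) hx3
  have h2 : (1 : ℚ) / y ≤ 1 / 3 := one_div_le_one_div_of_le (by norm_num) hy3
  have h4 : (1 : ℚ) / z ≤ 1 / 3 := one_div_le_one_div_of_le (by norm_num) hz3
  linarith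

/-- **The arithmetic of the class equation.** -/
theorem classArith {Ω : Type*} [Fintype Ω] (n : ℕ) (e : Ω → ℕ) (hn : 2 ≤ n)
    (he : ∀ ω, 2 ≤ e ω)
    (hsum : ∑ ω, (1 - (1 : ℚ) / e ω) = 2 - 2 / n) : ∃ ω, n ≤ 12 * e ω := by
  classical
  by_contra hcon
  have hcon : ∀ ω, 12 * e ω < n := fun ω => by
    by_contra h
    exact hcon ⟨ω, not_lt.1 h⟩
  have hnq : (2 : ℚ) ≤ n := by exact_mod_cast hn
  have hn0 : (0 : ℚ) < n := by linarith
  have h2n : (0 : ℚ) < 2 / n := by positivity
  have hlow : ∀ ω, (1 : ℚ) / 2 ≤ 1 - 1 / e ω := by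
    intro ω
    have h1 : (2 : ℚ) ≤ e ω := by exact_mod_cast he ω
    have h2 : (1 : ℚ) / e ω ≤ 1 / 2 := one_div_le_one_div_of_le (by norm_num) h1
    linarith
  have hupp : ∀ ω, 1 - (1 : ℚ) / e ω < 1 - 12 / n := by
    intro ω
    have h1 : (2 : ℚ) ≤ e ω := by exact_mod_cast he ω
    have h2 : (12 : ℚ) * e ω < n := by exact_mod_cast hcon ω
    have h3 : (0 : ℚ) < e ω := by linarith
    have h4 : (12 : ℚ) / n < 1 / e ω := by
      rw [div_lt_div_iff₀ hn0 h3]
      linarith
    linarith
  -- the number of terms is at most three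
  have hcard_le : Fintype.card Ω ≤ 3 := by
    by_contra hc
    have hc : 4 ≤ Fintype.card Ω := by omega
    have h1 : ∑ _ω : Ω, (1 : ℚ) / 2 ≤ ∑ ω, (1 - (1 : ℚ) / e ω) :=
      Finset.sum_le_sum (fun ω _ => hlow ω)
    rw [Finset.sum_const, Finset.card_univ, nsmul_eq_mul] at h1
    have h2 : (4 : ℚ) ≤ Fintype.card Ω := by exact_mod_cast hc
    rw [hsum] at h1
    linarith
  -- and at least three
  have hcard_ge : 3 ≤ Fintype.card Ω := by
    by_contra hc
    have hc : Fintype.card Ω < 3 := by omega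
    rcases Nat.eq_zero_or_pos (Fintype.card Ω) with h0 | hpos
    · have : IsEmpty Ω := Fintype.card_eq_zero_iff.1 h0
      rw [Finset.univ_eq_empty, Finset.sum_empty] at hsum
      have h1 : (2 : ℚ) / n ≤ 1 := by
        rw [div_le_one hn0]
        exact hnq
      linarith
    · have hne : (Finset.univ : Finset Ω).Nonempty := by
        rw [Finset.univ_nonempty_iff]
        exact Fintype.card_pos_iff.1 hpos
      have h1 : ∑ ω, (1 - (1 : ℚ) / e ω) < ∑ _ω : Ω, (1 - (12 : ℚ) / n) :=
        Finset.sum_lt_sum_of_nonempty hne (fun ω _ => hupp ω)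
      rw [Finset.sum_const, Finset.card_univ, nsmul_eq_mul, hsum] at h1
      have h2 : (Fintype.card Ω : ℚ) ≤ 2 := by
        have : Fintype.card Ω ≤ 2 := by omega
        exact_mod_cast this
      have h3 : (1 : ℚ) ≤ Fintype.card Ω := by exact_mod_cast hpos
      have h4 : (0 : ℚ) < 12 / n := by positivity
      have h5 : (12 : ℚ) / n = 6 * (2 / n) := by ring
      nlinarith
  have hcard : Fintype.card Ω = 3 := le_antisymm hcard_le hcard_ge
  rw [← Finset.card_univ, Finset.card_eq_three] at hcard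
  obtain ⟨a, b, c, hab, hac, hbc, huniv⟩ := hcard
  rw [huniv, Finset.sum_insert (by simp [hab, hac]), Finset.sum_insert (by simp [hbc]),
    Finset.sum_singleton] at hsum
  exact classArith_three (e a) (e b) (e c) n (he a) (he b) (he c) hn (by linarith)
    (hcon a) (hcon b) (hcon c)

end Fermat.Agent.T4.helper80
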