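import Mathlib
import Fermat.Agent.T4.helper80_ClassArith

/-!
# T4 block (IV), leaf [IV-CLASS], the class equation (helper80)

A finite group `G` acting on a set `X`, with a normal subgroup `Z` acting trivially, such
that every element outside `Z` has exactly two fixed points: some point stabiliser has index
at most `12` in `G`.
-/

set_option autoImplicit false

namespace Fermat.Agent.T4.helper80

open MulAction

/-- **The class equation on the projective line**, abstract form. -/
theorem classAction {G X : Type*} [Group G] [Finite G] [MulAction G X] (Z : Subgroup G)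
    (hZn : ∀ g h : G, g ∈ Z → h * g * h⁻¹ ∈ Z)
    (hZ : ∀ g ∈ Z, ∀ x : X, g • x = x)
    (h2 : ∀ g : G, g ∉ Z → (fixedBy X g).ncard = 2)
    (hne : ∃ g : G, g ∉ Z) :
    ∃ x : X, Nat.card G ≤ 12 * Nat.card (stabilizer G x) := by
  classical
  have : Fintype G := Fintype.ofFinite G
  -- the points with a fixing element outside `Z`
  let Y : SubMulAction G X :=
    { carrier := {x | ∃ g : G, g ∉ Z ∧ g • x = x}
      smul_mem' := by
        rintro h x ⟨g, hg, hgx⟩
        refine ⟨h * g * h⁻¹, fun hmem => hg ?_, ?_⟩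
        · have := hZn _ h⁻¹ hmem
          simpa [mul_assoc] using this
        · rw [mul_smul, mul_smul, inv_smul_smul, hgx] }
  have hYmem : ∀ x : X, x ∈ Y ↔ ∃ g : G, g ∉ Z ∧ g • x = x := fun x => Iff.rfl
  have hYfin : (Y : Set X).Finite := by
    have hsub : (Y : Set X) ⊆ ⋃ g ∈ {g : G | g ∉ Z}, fixedBy X g := by
      rintro x ⟨g, hg, hgx⟩
      simp only [Set.mem_iUnion]
      exact ⟨g, hg, hgx⟩
    refine Set.Finite.subset (Set.Finite.biUnion (Set.toFinite _) ?_) hsub
    intro g hg
    exact Set.finite_of_ncard_ne_zero (by rw [h2 g hg]; norm_num)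
  have : Finite Y := hYfin
  have : Fintype Y := Fintype.ofFinite Y
  have : Fintype (Quotient (orbitRel G Y)) := Fintype.ofFinite _
  -- Burnside
  have hB := sum_card_fixedBy_eq_card_orbits_mul_card_group G Y
  -- fixed points of the elements of `Z` and of the others
  have hfixZ : ∀ g : G, g ∈ Z → Fintype.card (fixedBy Y g) = Fintype.card Y := by
    intro g hg
    apply Fintype.card_of_bijective (f := fun y : fixedBy Y g => (y : Y))
    refine ⟨Subtype.coe_injective, fun y => ⟨⟨y, ?_⟩, rfl⟩⟩
    rw [mem_fixedBy]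
    apply Subtype.ext
    rw [SubMulAction.val_smul]
    exact hZ g hg _
  have hfixN : ∀ g : G, g ∉ Z → Fintype.card (fixedBy Y g) = 2 := by
    intro g hg
    rw [← h2 g hg, ← Nat.card_eq_fintype_card, ← Nat.card_coe_set_eq]
    apply Nat.card_congr
    refine Equiv.ofBijective (fun y => ⟨((y : Y) : X), ?_⟩) ⟨?_, ?_⟩
    · have hy := y.2
      rw [mem_fixedBy] at hy ⊢
      have := congrArg (fun t : Y => (t : X)) hy
      simpa using this
    · intro y y' hyy'
      apply Subtype.ext
      apply Subtype.ext
      exact congrArg (fun t : fixedBy X g => (t : X)) hyy'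
    · rintro ⟨x, hx⟩
      have hxY : x ∈ Y := ⟨g, hg, hx⟩
      refine ⟨⟨⟨x, hxY⟩, ?_⟩, rfl⟩
      rw [mem_fixedBy]
      apply Subtype.ext
      rw [SubMulAction.val_smul]
      exact hx
  -- the numbers
  set N : ℕ := Fintype.card G with hN
  set z : ℕ := Nat.card Z with hz
  have hzpos : 0 < z := Nat.card_pos
  have hzN : z ∣ N := by
    rw [hN, ← Nat.card_eq_fintype_card]
    exact Subgroup.card_subgroup_dvd_card Z
  have hzltN : z < N := by
    rcases lt_or_ge z N with h | h
    · exact h
    · exfalso
      obtain ⟨g, hg⟩ := hne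
      have hle : N ≤ z := h
      have heq : Z = ⊤ := by
        apply Subgroup.eq_top_of_card_eq
        apply le_antisymm
        · exact Subgroup.card_le_card_group Z
        · rw [Nat.card_eq_fintype_card]
          exact hle
      exact hg (heq ▸ Subgroup.mem_top g)
  have hsumfix : ∑ g : G, Fintype.card (fixedBy Y g) = z * Fintype.card Y + 2 * (N - z) := by
    have hsplit : ∑ g : G, Fintype.card (fixedBy Y g) =
        ∑ g : G, if g ∈ Z then Fintype.card Y else 2 := by
      apply Finset.sum_congr rfl
      intro g _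
      by_cases hg : g ∈ Z
      · rw [if_pos hg, hfixZ g hg]
      · rw [if_neg hg, hfixN g hg]
    rw [hsplit, Finset.sum_ite, Finset.sum_const, Finset.sum_const, smul_eq_mul, smul_eq_mul]
    have hc1 : (Finset.univ.filter (fun g : G => g ∈ Z)).card = z := by
      rw [hz, Nat.card_eq_fintype_card, Fintype.card_subtype]
    have hc2 : (Finset.univ.filter (fun g : G => ¬ g ∈ Z)).card = N - z := by
      have h3 := Finset.card_filter_add_card_filter_not (s := (Finset.univ : Finset G))
        (fun g : G => g ∈ Z)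
      rw [hc1, Finset.card_univ] at h3
      omega
    rw [hc1, hc2, mul_comm (N - z) 2]
  -- stabilisers
  let s : Quotient (orbitRel G Y) → ℕ := fun ω => Nat.card (stabilizer G (Quotient.out ω))
  have hZle : ∀ y : Y, Z ≤ stabilizer G y := by
    intro y g hg
    rw [mem_stabilizer_iff]
    apply Subtype.ext
    rw [SubMulAction.val_smul]
    exact hZ g hg _
  have hs_dvd : ∀ ω, z ∣ s ω := fun ω => Subgroup.card_dvd_of_le (hZle _)
  have hs_ne : ∀ ω, s ω ≠ z := by
    intro ω heq
    obtain ⟨g, hg, hgx⟩ := (Quotient.out ω).2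
    have hmem : g ∈ stabilizer G (Quotient.out ω) := by
      rw [mem_stabilizer_iff]
      apply Subtype.ext
      rw [SubMulAction.val_smul]
      exact hgx
    have hEq : Z = stabilizer G (Quotient.out ω) :=
      Subgroup.eq_of_le_of_card_ge (hZle _) (le_of_eq heq)
    exact hg (hEq ▸ hmem)
  have hs_pos : ∀ ω, 0 < s ω := fun ω => Nat.card_pos
  have hs_orbit : ∀ ω : Quotient (orbitRel G Y),
      Nat.card (orbit G (Quotient.out ω)) * s ω = N := by
    intro ω
    have i1 : Fintype (orbit G (Quotient.out ω)) := Fintype.ofFinite _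
    have i2 : Fintype (stabilizer G (Quotient.out ω)) := Fintype.ofFinite _
    have h := card_orbit_mul_card_stabilizer_eq_card_group G (Quotient.out ω)
    rw [← Nat.card_eq_fintype_card, ← Nat.card_eq_fintype_card] at h
    rw [hN]
    exact h
  have hcardY : Fintype.card Y = ∑ ω : Quotient (orbitRel G Y),
      Nat.card (orbit G (Quotient.out ω)) := by
    have : ∀ ω : Quotient (orbitRel G Y), Fintype (orbit G (Quotient.out ω)) :=
      fun ω => Fintype.ofFinite _
    rw [Fintype.card_congr (selfEquivSigmaOrbits G Y), Fintype.card_sigma]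
    apply Finset.sum_congr rfl
    intro ω _
    rw [Nat.card_eq_fintype_card]
  -- the quantities `e ω` and `n`
  obtain ⟨n, hn⟩ := hzN
  have hn2 : 2 ≤ n := by
    rcases Nat.lt_or_ge n 2 with h | h
    · exfalso
      interval_cases n
      · omega
      · omega
    · exact h
  have he : ∀ ω, ∃ e : ℕ, s ω = z * e ∧ 2 ≤ e := by
    intro ω
    obtain ⟨e, he⟩ := hs_dvd ω
    refine ⟨e, he, ?_⟩
    rcases Nat.lt_or_ge e 2 with h | h
    · exfalso
      interval_cases e
      · have := hs_pos ω
        omega
      · exact hs_ne ω (by rw [he, mul_one])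
    · exact h
  choose e he1 he2 using he
  -- the equation in the rationals
  have hzq : (0 : ℚ) < z := by exact_mod_cast hzpos
  have hnq : (0 : ℚ) < n := by
    have : 0 < n := by omega
    exact_mod_cast this
  have hNq : (N : ℚ) = z * n := by exact_mod_cast hn
  have horb : ∀ ω, (Nat.card (orbit G (Quotient.out ω)) : ℚ) = n / e ω := by
    intro ω
    have h1 := hs_orbit ω
    rw [he1 ω, hn] at h1
    have heq : (0 : ℚ) < e ω := by
      have : 0 < e ω := lt_of_lt_of_le (by norm_num) (he2 ω)
      exact_mod_cast this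
    have h2 : (Nat.card (orbit G (Quotient.out ω)) : ℚ) * (z * e ω) = z * n := by
      exact_mod_cast h1
    rw [eq_div_iff heq.ne']
    have h3 : (z : ℚ) * ((Nat.card (orbit G (Quotient.out ω)) : ℚ) * e ω) = z * n := by
      rw [← h2]
      ring
    exact mul_left_cancel₀ hzq.ne' h3
  have hmain : ∑ ω, (1 - (1 : ℚ) / e ω) = 2 - 2 / n := by
    have hB' : ((∑ g : G, Fintype.card (fixedBy Y g) : ℕ) : ℚ) =
        (Fintype.card (Quotient (orbitRel G Y)) : ℚ) * N := by
      rw [hB]
      push_cast
      ring
    rw [hsumfix, hcardY] at hB'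
    have hsub : ((N - z : ℕ) : ℚ) = (N : ℚ) - z := by
      rw [Nat.cast_sub hzltN.le]
    push_cast at hB'
    rw [hsub, hNq] at hB'
    have hsum1 : ∑ ω : Quotient (orbitRel G Y), (Nat.card (orbit G (Quotient.out ω)) : ℚ) =
        n * ∑ ω, (1 : ℚ) / e ω := by
      rw [Finset.mul_sum]
      apply Finset.sum_congr rfl
      intro ω _
      rw [horb ω]
      ring
    rw [hsum1] at hB'
    rw [Finset.sum_sub_distrib, Finset.sum_const, Finset.card_univ, nsmul_eq_mul, mul_one]
    have h4 : (z : ℚ) * n * (∑ ω, (1 : ℚ) / e ω + 2 - 2 / n) =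
        z * n * (Fintype.card (Quotient (orbitRel G Y)) : ℚ) := by
      have : (z : ℚ) * n * (∑ ω, (1 : ℚ) / e ω + 2 - 2 / n) =
          z * (n * ∑ ω, (1 : ℚ) / e ω) + 2 * (z * n - z) := by
        field_simp
        ring
      rw [this, hB']
      ring
    have h5 := mul_left_cancel₀ (mul_pos hzq hnq).ne' h4
    linarith
  obtain ⟨ω, hω⟩ := classArith n e hn2 he2 hmain
  refine ⟨((Quotient.out ω : Y) : X), ?_⟩
  rw [← SubMulAction.stabilizer_of_subMul, Nat.card_eq_fintype_card (α := G), ← hN, hn]
  show z * n ≤ 12 * s ω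
  rw [he1 ω]
  calc z * n ≤ z * (12 * e ω) := Nat.mul_le_mul_left z hω
    _ = 12 * (z * e ω) := by ring

end Fermat.Agent.T4.helper80
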