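import Mathlib

/-!
# T4 block (IV), leaf [IV-CLASS], linear algebra (helper80)

`2 × 2` matrices of finite order prime to the characteristic over an algebraically closed
field: a non-scalar one has exactly two fixed lines; two of them with a common fixed line and
a commutator of finite order commute.
-/

set_option autoImplicit false

open scoped LinearAlgebra.Projectivization Matrix

namespace Fermat.Agent.T4.helper80

variable {K : Type*} [Field K]

/-- Cayley-Hamilton for `2 × 2` matrices. -/
theorem cayley_two (A : Matrix (Fin 2) (Fin 2) K) :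
    A * A - A.trace • A + A.det • (1 : Matrix (Fin 2) (Fin 2) K) = 0 := by
  ext i j
  fin_cases i <;> fin_cases j <;>
    simp [Matrix.mul_apply, Fin.sum_univ_two, Matrix.det_fin_two, Matrix.trace_fin_two] <;> ring

/-- The characteristic polynomial of a `2 × 2` matrix, evaluated. -/
theorem det_sub_scalar_two (A : Matrix (Fin 2) (Fin 2) K) (c : K) :
    (A - c • (1 : Matrix (Fin 2) (Fin 2) K)).det = c ^ 2 - A.trace * c + A.det := by
  simp [Matrix.det_fin_two, Matrix.trace_fin_two]
  ring

/-- Powers of `c + ν` with `ν ^ 2 = 0`. -/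
theorem pow_scalar_add_nilp (c : K) (ν : Matrix (Fin 2) (Fin 2) K) (hν : ν * ν = 0) (m : ℕ) :
    (c • (1 : Matrix (Fin 2) (Fin 2) K) + ν) ^ (m + 1) =
      c ^ (m + 1) • (1 : Matrix (Fin 2) (Fin 2) K) + ((m + 1 : ℕ) * c ^ m) • ν := by
  induction m with
  | zero => simp
  | succ m ih =>
    rw [pow_succ, ih]
    have e1 : c ^ (m + 1 + 1) = c ^ (m + 1) * c := pow_succ _ _
    have e2 : ((m + 1 + 1 : ℕ) : K) * c ^ (m + 1) =
        c ^ (m + 1) + ((m + 1 : ℕ) : K) * c ^ m * c := by
      push_cast
      ring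
    rw [e1, e2]
    simp only [add_mul, mul_add, Matrix.smul_mul, Matrix.mul_smul, one_mul, mul_one, hν,
      smul_zero, add_zero, smul_smul, add_smul]
    rw [mul_comm c (c ^ (m + 1)), mul_comm c (((m + 1 : ℕ) : K) * c ^ m)]
    abel

/-- **(M1)** a `2 × 2` matrix of finite order prime to the characteristic whose
characteristic polynomial has a double root is scalar. -/
theorem scalar_of_disc_eq_zero [IsAlgClosed K] (A : Matrix (Fin 2) (Fin 2) K) (m : ℕ)
    (hm : (m : K) ≠ 0) (hA : A ^ m = 1) (hdisc : A.trace ^ 2 = 4 * A.det) :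
    ∃ c : K, A = c • (1 : Matrix (Fin 2) (Fin 2) K) := by
  -- a root of the characteristic polynomial
  obtain ⟨c, hc⟩ : ∃ c : K, c ^ 2 - A.trace * c + A.det = 0 := by
    have hdeg : (Polynomial.C (1 : K) * Polynomial.X ^ 2 + Polynomial.C (-A.trace) *
        Polynomial.X + Polynomial.C A.det : Polynomial K).degree ≠ 0 := by
      rw [Polynomial.degree_quadratic one_ne_zero]
      norm_num
    obtain ⟨c, hc⟩ := IsAlgClosed.exists_root _ hdeg
    refine ⟨c, ?_⟩
    have h1 := hc
    simp only [Polynomial.IsRoot.def, Polynomial.eval_add, Polynomial.eval_mul,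
      Polynomial.eval_C, Polynomial.eval_pow, Polynomial.eval_X] at h1
    linear_combination h1
  have htr : A.trace = 2 * c := by
    have h1 : (A.trace - 2 * c) ^ 2 = 0 := by
      have : (A.trace - 2 * c) ^ 2 = A.trace ^ 2 - 4 * A.det + 4 * (c ^ 2 - A.trace * c + A.det) := by
        ring
      rw [this, hc, hdisc]
      ring
    have h2 := pow_eq_zero_iff (n := 2) (by norm_num) |>.1 h1
    linear_combination h2
  have hdet : A.det = c ^ 2 := by
    rw [htr] at hc
    linear_combination hc
  have hm0 : m ≠ 0 := by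
    rintro rfl
    simp at hm
  obtain ⟨m', rfl⟩ := Nat.exists_eq_succ_of_ne_zero hm0
  have hc0 : c ≠ 0 := by
    intro h0
    have hd0 : A.det = 0 := by rw [hdet, h0]; ring
    have h1 : (A ^ (m' + 1)).det = 1 := by rw [hA, Matrix.det_one]
    rw [Matrix.det_pow, hd0, zero_pow (Nat.succ_ne_zero m')] at h1
    exact zero_ne_one h1
  set ν : Matrix (Fin 2) (Fin 2) K := A - c • 1 with hν
  have hνsq : ν * ν = 0 := by
    have h1 := cayley_two A
    rw [htr, hdet] at h1
    have : ν * ν = A * A - (2 * c) • A + c ^ 2 • (1 : Matrix (Fin 2) (Fin 2) K) := by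
      rw [hν]
      simp only [sub_mul, mul_sub, Matrix.smul_mul, Matrix.mul_smul, one_mul, mul_one,
        smul_smul]
      rw [two_mul, add_smul, pow_two]
      abel
    rw [this, h1]
  have hAeq : A = c • 1 + ν := by rw [hν]; abel
  have hpow := pow_scalar_add_nilp c ν hνsq m'
  rw [← hAeq, hA] at hpow
  -- hence `ν` is scalar
  have hcoef : ((m' + 1 : ℕ) : K) * c ^ m' ≠ 0 := mul_ne_zero hm (pow_ne_zero _ hc0)
  have hνs : ν = (((m' + 1 : ℕ) : K) * c ^ m')⁻¹ • ((1 - c ^ (m' + 1)) •
      (1 : Matrix (Fin 2) (Fin 2) K)) := by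
    have h2 : (((m' + 1 : ℕ) : K) * c ^ m') • ν =
        (1 - c ^ (m' + 1)) • (1 : Matrix (Fin 2) (Fin 2) K) := by
      rw [sub_smul, one_smul]
      rw [eq_sub_iff_add_eq, add_comm]
      exact hpow.symm
    rw [← h2, smul_smul, inv_mul_cancel₀ hcoef, one_smul]
  refine ⟨c + (((m' + 1 : ℕ) : K) * c ^ m')⁻¹ * (1 - c ^ (m' + 1)), ?_⟩
  rw [hAeq, add_smul, ← smul_smul]
  rw [← hνs]

/-- Two vectors of `K²` with vanishing determinant, the second nonzero, are proportional. -/
theorem exists_smul_of_det_eq_zero (v w : Fin 2 → K) (hw : w ≠ 0)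
    (h : v 0 * w 1 - v 1 * w 0 = 0) : ∃ μ : K, v = μ • w := by
  by_cases h0 : w 0 = 0
  · have h1 : w 1 ≠ 0 := by
      intro h1
      apply hw
      ext i
      fin_cases i
      · exact h0
      · exact h1
    refine ⟨v 1 / w 1, ?_⟩
    ext i
    fin_cases i
    · simp only [Fin.zero_eta, Pi.smul_apply, smul_eq_mul, h0, mul_zero]
      rw [h0, mul_zero, sub_zero] at h
      rcases mul_eq_zero.1 h with h2 | h2
      · exact h2
      · exact absurd h2 h1
    · simp only [Fin.mk_one, Pi.smul_apply, smul_eq_mul]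
      field_simp
  · refine ⟨v 0 / w 0, ?_⟩
    ext i
    fin_cases i
    · simp only [Fin.zero_eta, Pi.smul_apply, smul_eq_mul]
      field_simp
    · simp only [Fin.mk_one, Pi.smul_apply, smul_eq_mul]
      field_simp
      linear_combination -h

/-- A matrix which multiplies two non-proportional vectors by `c` is the scalar `c`. -/
theorem eq_scalar_of_two_eigenvectors (A : Matrix (Fin 2) (Fin 2) K) (c : K)
    (v w : Fin 2 → K) (hv : A *ᵥ v = c • v) (hw : A *ᵥ w = c • w)
    (hdet : v 0 * w 1 - v 1 * w 0 ≠ 0) : A = c • (1 : Matrix (Fin 2) (Fin 2) K) := by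
  have hv0 := congrFun hv 0
  have hv1 := congrFun hv 1
  have hw0 := congrFun hw 0
  have hw1 := congrFun hw 1
  simp only [Matrix.mulVec, dotProduct, Fin.sum_univ_two, Pi.smul_apply, smul_eq_mul]
    at hv0 hv1 hw0 hw1
  ext i j
  fin_cases i <;> fin_cases j
  · simp only [Fin.zero_eta, Matrix.smul_apply, Matrix.one_apply_eq, smul_eq_mul, mul_one]
    apply mul_right_cancel₀ hdet
    linear_combination w 1 * hv0 - v 1 * hw0
  · simp only [Fin.zero_eta, Fin.mk_one, Matrix.smul_apply, smul_eq_mul]
    rw [Matrix.one_apply_ne (by decide), mul_zero]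
    apply mul_right_cancel₀ hdet
    linear_combination -w 0 * hv0 + v 0 * hw0
  · simp only [Fin.zero_eta, Fin.mk_one, Matrix.smul_apply, smul_eq_mul]
    rw [Matrix.one_apply_ne (by decide), mul_zero]
    apply mul_right_cancel₀ hdet
    linear_combination w 1 * hv1 - v 1 * hw1
  · simp only [Fin.mk_one, Matrix.smul_apply, Matrix.one_apply_eq, smul_eq_mul, mul_one]
    apply mul_right_cancel₀ hdet
    linear_combination -w 0 * hv1 + v 0 * hw1

end Fermat.Agent.T4.helper80
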