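import Mathlib
import Fermat.Agent.T4.helper80_ClassLin

/-!
# T4 block (IV), leaf [IV-CLASS], fixed lines (helper80)

Elements of `GL 2 K` (`K` algebraically closed) of finite order prime to the characteristic,
acting on the projective line `ℙ K (Fin 2 → K)`:
* `ncard_fixed_eq_two` : a non-scalar one has exactly two fixed points;
* `commute_of_common_fixed` : two of them with a common fixed point commute as soon as their
  commutator has finite order prime to the characteristic.
-/

set_option autoImplicit false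

open scoped LinearAlgebra.Projectivization Matrix

namespace Fermat.Agent.T4.helper80

variable {K : Type*} [Field K]

/-- The characteristic polynomial of a `2 × 2` matrix has a root. -/
theorem exists_root_charpoly_two [IsAlgClosed K] (A : Matrix (Fin 2) (Fin 2) K) :
    ∃ c : K, c ^ 2 - A.trace * c + A.det = 0 := by
  have hdeg : (Polynomial.C (1 : K) * Polynomial.X ^ 2 + Polynomial.C (-A.trace) *
      Polynomial.X + Polynomial.C A.det : Polynomial K).degree ≠ 0 := by
    rw [Polynomial.degree_quadratic one_ne_zero]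
    norm_num
  obtain ⟨c, hc⟩ := IsAlgClosed.exists_root _ hdeg
  refine ⟨c, ?_⟩
  have h1 := hc
  simp only [Polynomial.IsRoot.def, Polynomial.eval_add, Polynomial.eval_mul,
    Polynomial.eval_C, Polynomial.eval_pow, Polynomial.eval_X] at h1
  linear_combination h1

/-- An eigenvector for a root of the characteristic polynomial. -/
theorem exists_eigenvector_two (A : Matrix (Fin 2) (Fin 2) K) (c : K)
    (hc : c ^ 2 - A.trace * c + A.det = 0) : ∃ v : Fin 2 → K, v ≠ 0 ∧ A *ᵥ v = c • v := by
  have hdet : (A - c • (1 : Matrix (Fin 2) (Fin 2) K)).det = 0 := by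
    rw [det_sub_scalar_two, hc]
  obtain ⟨v, hv, hAv⟩ := Matrix.exists_mulVec_eq_zero_iff.2 hdet
  refine ⟨v, hv, ?_⟩
  rw [Matrix.sub_mulVec, Matrix.smul_mulVec, Matrix.one_mulVec, sub_eq_zero] at hAv
  exact hAv

/-- An eigenvalue is a root of the characteristic polynomial. -/
theorem root_of_eigenvector_two (A : Matrix (Fin 2) (Fin 2) K) (c : K) (v : Fin 2 → K)
    (hv : v ≠ 0) (hAv : A *ᵥ v = c • v) : c ^ 2 - A.trace * c + A.det = 0 := by
  rw [← det_sub_scalar_two]
  apply Matrix.exists_mulVec_eq_zero_iff.1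
  refine ⟨v, hv, ?_⟩
  rw [Matrix.sub_mulVec, Matrix.smul_mulVec, Matrix.one_mulVec, hAv, sub_self]

/-- Fixed points of an element of `GL 2 K` on the projective line are eigenlines. -/
theorem smul_mk_eq_iff (g : GL (Fin 2) K) (v : Fin 2 → K) (hv : v ≠ 0) :
    g • Projectivization.mk K v hv = Projectivization.mk K v hv ↔
      ∃ c : K, c ≠ 0 ∧ (g : Matrix (Fin 2) (Fin 2) K) *ᵥ v = c • v := by
  rw [Projectivization.smul_mk, Projectivization.mk_eq_mk_iff]
  constructor
  · rintro ⟨a, ha⟩
    refine ⟨(a : K), Units.ne_zero _, ?_⟩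
    have h1 : (g : Matrix (Fin 2) (Fin 2) K) *ᵥ v = g • v := rfl
    rw [h1, ← ha, Units.smul_def]
  · rintro ⟨c, hc, hgv⟩
    refine ⟨Units.mk0 c hc, ?_⟩
    have h1 : g • v = (g : Matrix (Fin 2) (Fin 2) K) *ᵥ v := rfl
    rw [h1, hgv, Units.smul_def, Units.val_mk0]

/-- **(M2)** a non-scalar element of `GL 2 K` of finite order prime to the characteristic has
exactly two fixed points on the projective line. -/
theorem ncard_fixed_eq_two [IsAlgClosed K] (g : GL (Fin 2) K) (m : ℕ) (hm : (m : K) ≠ 0)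
    (hgm : g ^ m = 1)
    (hns : ¬ ∃ c : K, (g : Matrix (Fin 2) (Fin 2) K) = c • (1 : Matrix (Fin 2) (Fin 2) K)) :
    {x : ℙ K (Fin 2 → K) | g • x = x}.ncard = 2 := by
  set A : Matrix (Fin 2) (Fin 2) K := (g : Matrix (Fin 2) (Fin 2) K) with hA
  have hAm : A ^ m = 1 := by
    have := congrArg (fun h : GL (Fin 2) K => (h : Matrix (Fin 2) (Fin 2) K)) hgm
    simpa using this
  have hdisc : A.trace ^ 2 ≠ 4 * A.det := fun h =>
    hns (scalar_of_disc_eq_zero A m hm hAm h)
  have hdetA : A.det ≠ 0 := by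
    have h1 : IsUnit A.det := (Matrix.isUnit_iff_isUnit_det A).1 ⟨g, rfl⟩
    exact h1.ne_zero
  obtain ⟨c₁, hc₁⟩ := exists_root_charpoly_two A
  set c₂ : K := A.trace - c₁ with hc₂def
  have hc₂ : c₂ ^ 2 - A.trace * c₂ + A.det = 0 := by
    rw [hc₂def]
    linear_combination hc₁
  have hprod : c₁ * c₂ = A.det := by
    rw [hc₂def]
    linear_combination -hc₁
  have hne : c₁ ≠ c₂ := by
    intro h
    apply hdisc
    have h2 : A.trace = 2 * c₁ := by
      rw [hc₂def] at h
      linear_combination -h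
    rw [h2] at hc₁ ⊢
    linear_combination -4 * hc₁
  have hc₁0 : c₁ ≠ 0 := fun h => hdetA (by rw [← hprod, h, zero_mul])
  have hc₂0 : c₂ ≠ 0 := fun h => hdetA (by rw [← hprod, h, mul_zero])
  obtain ⟨v₁, hv₁, hAv₁⟩ := exists_eigenvector_two A c₁ hc₁
  obtain ⟨v₂, hv₂, hAv₂⟩ := exists_eigenvector_two A c₂ hc₂
  have hx₁ : g • Projectivization.mk K v₁ hv₁ = Projectivization.mk K v₁ hv₁ :=
    (smul_mk_eq_iff g v₁ hv₁).2 ⟨c₁, hc₁0, hAv₁⟩
  have hx₂ : g • Projectivization.mk K v₂ hv₂ = Projectivization.mk K v₂ hv₂ :=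
    (smul_mk_eq_iff g v₂ hv₂).2 ⟨c₂, hc₂0, hAv₂⟩
  -- a fixed vector with eigenvalue `c` is proportional to any other one
  have hprop : ∀ (c : K) (v w : Fin 2 → K) (hv : v ≠ 0) (hw : w ≠ 0), A *ᵥ v = c • v →
      A *ᵥ w = c • w → Projectivization.mk K v hv = Projectivization.mk K w hw := by
    intro c v w hv hw hAv hAw
    by_cases hdet : v 0 * w 1 - v 1 * w 0 = 0
    · obtain ⟨μ, hμ⟩ := exists_smul_of_det_eq_zero v w hw hdet
      have hμ0 : μ ≠ 0 := by
        rintro rfl
        rw [zero_smul] at hμ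
        exact hv hμ
      rw [Projectivization.mk_eq_mk_iff]
      exact ⟨Units.mk0 μ hμ0, by rw [Units.smul_def, Units.val_mk0, hμ]⟩
    · exact absurd ⟨c, eq_scalar_of_two_eigenvectors A c v w hAv hAw hdet⟩ hns
  have hx12 : Projectivization.mk K v₁ hv₁ ≠ Projectivization.mk K v₂ hv₂ := by
    intro h
    rw [Projectivization.mk_eq_mk_iff] at h
    obtain ⟨a, ha⟩ := h
    have h1 : A *ᵥ v₁ = c₂ • v₁ := by
      rw [← ha, Units.smul_def, Matrix.mulVec_smul, hAv₂, smul_comm]
    have h2 : (c₁ - c₂) • v₁ = 0 := by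
      rw [sub_smul, ← hAv₁, ← h1, sub_self]
    rcases smul_eq_zero.1 h2 with h3 | h3
    · exact hne (sub_eq_zero.1 h3)
    · exact hv₁ h3
  have hset : {x : ℙ K (Fin 2 → K) | g • x = x} =
      {Projectivization.mk K v₁ hv₁, Projectivization.mk K v₂ hv₂} := by
    ext x
    simp only [Set.mem_ofPred_eq, Set.mem_insert_iff, Set.mem_singleton_iff]
    constructor
    · intro hx
      induction x using Projectivization.ind with
      | h v hv =>
        obtain ⟨c, hc0, hAv⟩ := (smul_mk_eq_iff g v hv).1 hx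
        have hroot := root_of_eigenvector_two A c v hv hAv
        have hfac : (c - c₁) * (c - c₂) = 0 := by
          rw [hc₂def]
          linear_combination hroot - hc₁
        rcases mul_eq_zero.1 hfac with h | h
        · left
          have hcc : c = c₁ := sub_eq_zero.1 h
          rw [hcc] at hAv
          exact hprop c₁ v v₁ hv hv₁ hAv hAv₁
        · right
          have hcc : c = c₂ := sub_eq_zero.1 h
          rw [hcc] at hAv
          exact hprop c₂ v v₂ hv hv₂ hAv hAv₂
    · rintro (rfl | rfl)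
      · exact hx₁
      · exact hx₂
  rw [hset, Set.ncard_pair hx12]

/-- **(M3)** two elements of `GL 2 K` with a common fixed point on the projective line, whose
commutator has finite order prime to the characteristic, commute. -/
theorem commute_of_common_fixed [IsAlgClosed K] (g h : GL (Fin 2) K) (m : ℕ)
    (hm : (m : K) ≠ 0) (hcm : (g * h * g⁻¹ * h⁻¹) ^ m = 1) (x : ℙ K (Fin 2 → K))
    (hgx : g • x = x) (hhx : h • x = x) : g * h = h * g := by
  induction x using Projectivization.ind with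
  | h v hv =>
    obtain ⟨a, ha0, hga⟩ := (smul_mk_eq_iff g v hv).1 hgx
    obtain ⟨b, hb0, hhb⟩ := (smul_mk_eq_iff h v hv).1 hhx
    -- inverses
    have hinv : ∀ (k : GL (Fin 2) K) (c : K), c ≠ 0 →
        (k : Matrix (Fin 2) (Fin 2) K) *ᵥ v = c • v →
        ((k⁻¹ : GL (Fin 2) K) : Matrix (Fin 2) (Fin 2) K) *ᵥ v = c⁻¹ • v := by
      intro k c hc hk
      have h1 : ((k⁻¹ : GL (Fin 2) K) : Matrix (Fin 2) (Fin 2) K) *ᵥ
          ((k : Matrix (Fin 2) (Fin 2) K) *ᵥ v) = v := by
        rw [Matrix.mulVec_mulVec, ← Units.val_mul, inv_mul_cancel, Units.val_one,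
          Matrix.one_mulVec]
      rw [hk, Matrix.mulVec_smul] at h1
      calc ((k⁻¹ : GL (Fin 2) K) : Matrix (Fin 2) (Fin 2) K) *ᵥ v
          = c⁻¹ • (c • (((k⁻¹ : GL (Fin 2) K) : Matrix (Fin 2) (Fin 2) K) *ᵥ v)) := by
            rw [smul_smul, inv_mul_cancel₀ hc, one_smul]
        _ = c⁻¹ • v := by rw [h1]
    set C : GL (Fin 2) K := g * h * g⁻¹ * h⁻¹ with hC
    have hCv : (C : Matrix (Fin 2) (Fin 2) K) *ᵥ v = v := by
      have e1 : (C : Matrix (Fin 2) (Fin 2) K) *ᵥ v =
          (g : Matrix (Fin 2) (Fin 2) K) *ᵥ ((h : Matrix (Fin 2) (Fin 2) K) *ᵥ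
            (((g⁻¹ : GL (Fin 2) K) : Matrix (Fin 2) (Fin 2) K) *ᵥ
              (((h⁻¹ : GL (Fin 2) K) : Matrix (Fin 2) (Fin 2) K) *ᵥ v))) := by
        rw [hC]
        simp only [Units.val_mul, Matrix.mulVec_mulVec, Matrix.mul_assoc]
      rw [e1]
      simp only [Matrix.mulVec_smul, hinv h b hb0 hhb, hinv g a ha0 hga, hhb, hga, smul_smul]
      convert one_smul K v using 2
      field_simp
    have hCdet : (C : Matrix (Fin 2) (Fin 2) K).det = 1 := by
      rw [hC]
      simp only [Units.val_mul, Matrix.det_mul]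
      have h1 : ((g⁻¹ : GL (Fin 2) K) : Matrix (Fin 2) (Fin 2) K).det *
          (g : Matrix (Fin 2) (Fin 2) K).det = 1 := by
        rw [← Matrix.det_mul, ← Units.val_mul, inv_mul_cancel, Units.val_one, Matrix.det_one]
      have h2 : ((h⁻¹ : GL (Fin 2) K) : Matrix (Fin 2) (Fin 2) K).det *
          (h : Matrix (Fin 2) (Fin 2) K).det = 1 := by
        rw [← Matrix.det_mul, ← Units.val_mul, inv_mul_cancel, Units.val_one, Matrix.det_one]
      linear_combination (h : Matrix (Fin 2) (Fin 2) K).det *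
        ((h⁻¹ : GL (Fin 2) K) : Matrix (Fin 2) (Fin 2) K).det * h1 + h2
    have hroot := root_of_eigenvector_two (C : Matrix (Fin 2) (Fin 2) K) 1 v hv
      (by rw [hCv, one_smul])
    rw [hCdet] at hroot
    have htr : (C : Matrix (Fin 2) (Fin 2) K).trace = 2 := by linear_combination -hroot
    have hCm : (C : Matrix (Fin 2) (Fin 2) K) ^ m = 1 := by
      have := congrArg (fun k : GL (Fin 2) K => (k : Matrix (Fin 2) (Fin 2) K)) hcm
      simpa using this
    obtain ⟨c, hc⟩ := scalar_of_disc_eq_zero (C : Matrix (Fin 2) (Fin 2) K) m hm hCm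
      (by rw [htr, hCdet]; norm_num)
    have hc1 : c = 1 := by
      rw [hc, Matrix.smul_mulVec, Matrix.one_mulVec] at hCv
      have h3 : (c - 1) • v = 0 := by rw [sub_smul, hCv, one_smul, sub_self]
      rcases smul_eq_zero.1 h3 with h4 | h4
      · exact sub_eq_zero.1 h4
      · exact absurd h4 hv
    have hC1 : C = 1 := by
      apply Units.ext
      rw [hc, hc1, one_smul, Units.val_one]
    rw [hC] at hC1
    have h5 : g * h * g⁻¹ = h := by
      have := congrArg (fun k => k * h) hC1
      simpa using this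
    have h6 := congrArg (fun k => k * g) h5
    simpa using h6

end Fermat.Agent.T4.helper80
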