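import Mathlib
import Fermat.Agent.T4.helper80_EndgameDefs
import Fermat.Agent.T4.helper80_ClassAction
import Fermat.Agent.T4.helper80_ClassProj

/-!
# T4 block (IV), leaf [IV-CLASS] (helper80)

`classStatement : ClassStatement` : a finite subgroup of `GL 2 k` of order prime to the
characteristic has an abelian subgroup of index at most `12`.
-/

set_option autoImplicit false

open scoped LinearAlgebra.Projectivization Matrix

namespace Fermat.Agent.T4.helper80

open MulAction

/-- Base change of `GL n` along an injective ring homomorphism is injective. -/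
theorem glMap_injective {k K : Type*} [Field k] [Field K] (f : k →+* K) :
    Function.Injective (Matrix.GeneralLinearGroup.map (n := Fin 2) f) := by
  intro g h hgh
  apply Units.ext
  ext i j
  have h1 := congrArg (fun x : GL (Fin 2) K => (x : Matrix (Fin 2) (Fin 2) K) i j) hgh
  simp only [Matrix.GeneralLinearGroup.map_apply] at h1
  exact f.injective h1

/-- The core of [IV-CLASS], for a finite group mapping injectively to `GL 2 K`, `K`
algebraically closed. -/
theorem class_core {K : Type*} [Field K] [IsAlgClosed K] {Γ : Type*} [Group Γ] [Finite Γ]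
    (φ : Γ →* GL (Fin 2) K) (hφ : Function.Injective φ) (hm : ((Nat.card Γ : ℕ) : K) ≠ 0) :
    ∃ C : Subgroup Γ, (∀ x ∈ C, ∀ y ∈ C, x * y = y * x) ∧ Nat.card Γ ≤ 12 * Nat.card C := by
  classical
  set m : ℕ := Nat.card Γ with hmdef
  have hpow : ∀ g : Γ, (φ g) ^ m = 1 := fun g => by
    rw [← map_pow, hmdef, pow_card_eq_one', map_one]
  let act : MulAction Γ (ℙ K (Fin 2 → K)) := MulAction.compHom _ φ
  have hact : ∀ (g : Γ) (x : ℙ K (Fin 2 → K)), g • x = φ g • x := fun _ _ => rfl
  -- the scalar subgroup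
  let Z : Subgroup Γ :=
    { carrier := {g | ∃ c : K, ((φ g : GL (Fin 2) K) : Matrix (Fin 2) (Fin 2) K) =
        c • (1 : Matrix (Fin 2) (Fin 2) K)}
      one_mem' := ⟨1, by simp⟩
      mul_mem' := by
        rintro a b ⟨c, hc⟩ ⟨d, hd⟩
        refine ⟨c * d, ?_⟩
        rw [map_mul, Units.val_mul, hc, hd]
        simp [smul_smul, mul_comm]
      inv_mem' := by
        rintro a ⟨c, hc⟩
        have hc0 : c ≠ 0 := by
          rintro rfl
          have h1 : ((φ a : GL (Fin 2) K) : Matrix (Fin 2) (Fin 2) K).det = 0 := by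
            rw [hc]; simp
          have h2 : IsUnit ((φ a : GL (Fin 2) K) : Matrix (Fin 2) (Fin 2) K).det :=
            (Matrix.isUnit_iff_isUnit_det _).1 ⟨φ a, rfl⟩
          exact h2.ne_zero h1
        refine ⟨c⁻¹, ?_⟩
        rw [map_inv]
        have h3 : ((φ a : GL (Fin 2) K) : Matrix (Fin 2) (Fin 2) K) *
            (c⁻¹ • (1 : Matrix (Fin 2) (Fin 2) K)) = 1 := by
          rw [hc]
          simp [smul_smul, hc0]
        calc (((φ a)⁻¹ : GL (Fin 2) K) : Matrix (Fin 2) (Fin 2) K)
            = (((φ a)⁻¹ : GL (Fin 2) K) : Matrix (Fin 2) (Fin 2) K) *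
                (((φ a : GL (Fin 2) K) : Matrix (Fin 2) (Fin 2) K) *
                  (c⁻¹ • (1 : Matrix (Fin 2) (Fin 2) K))) := by rw [h3, mul_one]
          _ = c⁻¹ • (1 : Matrix (Fin 2) (Fin 2) K) := by
            rw [← mul_assoc, ← Units.val_mul, inv_mul_cancel, Units.val_one, one_mul] }
  have hZmem : ∀ g : Γ, g ∈ Z ↔ ∃ c : K, ((φ g : GL (Fin 2) K) : Matrix (Fin 2) (Fin 2) K) =
      c • (1 : Matrix (Fin 2) (Fin 2) K) := fun g => Iff.rfl
  by_cases hne : ∃ g : Γ, g ∉ Z
  · -- the class equation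
    have hZn : ∀ g h : Γ, g ∈ Z → h * g * h⁻¹ ∈ Z := by
      rintro g h ⟨c, hc⟩
      refine ⟨c, ?_⟩
      rw [map_mul, map_mul, Units.val_mul, Units.val_mul, hc, map_inv]
      rw [Matrix.mul_smul, mul_one, Matrix.smul_mul, ← Units.val_mul, mul_inv_cancel,
        Units.val_one]
    have hZfix : ∀ g ∈ Z, ∀ x : ℙ K (Fin 2 → K), g • x = x := by
      rintro g ⟨c, hc⟩ x
      rw [hact]
      induction x using Projectivization.ind with
      | h v hv =>
        have hc0 : c ≠ 0 := by
          rintro rfl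
          have h1 : ((φ g : GL (Fin 2) K) : Matrix (Fin 2) (Fin 2) K).det = 0 := by
            rw [hc]; simp
          have h2 : IsUnit ((φ g : GL (Fin 2) K) : Matrix (Fin 2) (Fin 2) K).det :=
            (Matrix.isUnit_iff_isUnit_det _).1 ⟨φ g, rfl⟩
          exact h2.ne_zero h1
        apply (smul_mk_eq_iff (φ g) v hv).2
        refine ⟨c, hc0, ?_⟩
        rw [hc, Matrix.smul_mulVec, Matrix.one_mulVec]
    have h2 : ∀ g : Γ, g ∉ Z → (fixedBy (ℙ K (Fin 2 → K)) g).ncard = 2 := by
      intro g hg
      have := ncard_fixed_eq_two (φ g) m hm (hpow g) hg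
      exact this
    obtain ⟨x, hx⟩ := classAction (G := Γ) (X := ℙ K (Fin 2 → K)) Z hZn hZfix h2 hne
    refine ⟨stabilizer Γ x, ?_, hx⟩
    intro a ha b hb
    rw [mem_stabilizer_iff, hact] at ha hb
    apply hφ
    rw [map_mul, map_mul]
    apply commute_of_common_fixed (φ a) (φ b) m hm ?_ x ha hb
    have := hpow (a * b * a⁻¹ * b⁻¹)
    rw [map_mul, map_mul, map_mul, map_inv, map_inv] at this
    exact this
  · -- everything is scalar
    have hall : ∀ g : Γ, g ∈ Z := fun g => by
      by_contra h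
      exact hne ⟨g, h⟩
    refine ⟨⊤, ?_, ?_⟩
    · intro a _ b _
      obtain ⟨c, hc⟩ := hall a
      obtain ⟨d, hd⟩ := hall b
      apply hφ
      apply Units.ext
      rw [map_mul, map_mul, Units.val_mul, Units.val_mul, hc, hd]
      simp [smul_smul, mul_comm]
    · rw [Subgroup.card_top]
      omega

/-- **[IV-CLASS]** -/
theorem classStatement : ClassStatement := by
  intro k _ G _ hG
  classical
  let K := AlgebraicClosure k
  let φ : G →* GL (Fin 2) K :=
    (Matrix.GeneralLinearGroup.map (n := Fin 2) (algebraMap k K)).comp G.subtype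
  have hφ : Function.Injective φ :=
    (glMap_injective (algebraMap k K)).comp Subtype.coe_injective
  have hm : ((Nat.card G : ℕ) : K) ≠ 0 := by
    intro h0
    apply hG
    apply (algebraMap k K).injective
    rw [map_natCast, h0, map_zero]
  obtain ⟨C, hC, hcard⟩ := class_core φ hφ hm
  refine ⟨C.map G.subtype, Subgroup.map_subtype_le C, ?_, ?_⟩
  · rintro _ ⟨a, ha, rfl⟩ _ ⟨b, hb, rfl⟩
    rw [← map_mul, ← map_mul, hC a ha b hb]
  · rw [Subgroup.card_map_of_injective Subtype.coe_injective]
    exact hcard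

end Fermat.Agent.T4.helper80
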