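import Mathlib
import Fermat.Agent.T4.helper80_EndgameDefs

/-!
# T4 block (IV), leaf [IV-DENSWIRE] (helper75)

Chebotarev in the lower-density form implies: the Frobenius elements at the primes outside a
set of upper Dirichlet density `≤ 1/48` fill at least a `23/24` portion (in fact `47/48`) of
the image of every finite-level representation.
-/

set_option autoImplicit false
set_option linter.unusedSectionVars false
set_option linter.unusedVariables false
set_option linter.style.haveILetI false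

open scoped Pointwise

noncomputable section

namespace Fermat.Agent.T4.helper75

open Fermat.Agent.T4.helper80

/-! ### Conjugates of Frobenius elements -/

section Conj

variable {K : Type*} {L : Type*} [Field K] [Field L] [Algebra K L]

lemma dw_apply_mem_smul_iff (A : ValuationSubring L) (τ : L ≃ₐ[K] L) (b : L) :
    τ b ∈ τ • A ↔ b ∈ A := by
  constructor
  · rintro ⟨c, hc, hcb⟩
    have : c = b := τ.injective hcb
    exact this ▸ hc
  · intro hb
    exact ⟨b, hb, rfl⟩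

lemma dw_apply_mem_nonunits_smul_iff (A : ValuationSubring L) (τ : L ≃ₐ[K] L) (b : L) :
    τ b ∈ (τ • A).nonunits ↔ b ∈ A.nonunits := by
  by_cases hb0 : b = 0
  · subst hb0
    rw [map_zero]
    exact ⟨fun _ => A.nonunits.zero_mem, fun _ => (τ • A).nonunits.zero_mem⟩
  have hτb0 : τ b ≠ 0 := (map_ne_zero_iff _ τ.injective).mpr hb0
  have key : ∀ (B : ValuationSubring L) (x : L), x ≠ 0 → (x ∈ B.nonunits ↔ x ∈ B ∧ x⁻¹ ∉ B) := by
    intro B x hx
    rw [ValuationSubring.mem_nonunits_iff, ← ValuationSubring.valuation_le_one_iff,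
      ← ValuationSubring.valuation_le_one_iff, map_inv₀]
    constructor
    · intro h
      refine ⟨h.le, fun h2 => ?_⟩
      have h3 : B.valuation x ≠ 0 := (Valuation.ne_zero_iff _).mpr hx
      have : (1 : _) ≤ B.valuation x := by
        rwa [inv_le_one₀ (zero_lt_iff.mpr h3)] at h2
      exact absurd h (not_lt.mpr this)
    · rintro ⟨h1, h2⟩
      have h3 : B.valuation x ≠ 0 := (Valuation.ne_zero_iff _).mpr hx
      rw [inv_le_one₀ (zero_lt_iff.mpr h3), not_le] at h2
      exact h2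
  rw [key _ _ hτb0, key _ _ hb0, ← map_inv₀, dw_apply_mem_smul_iff, dw_apply_mem_smul_iff]

/-- Frobenius elements in elementary terms. -/
lemma dw_isFrobeniusAt_iff (A : ValuationSubring L) (φ : L ≃ₐ[K] L) (ℓ : ℕ) :
    A.IsFrobeniusAt φ ℓ ↔
      φ ∈ A.decompositionSubgroup K ∧ ∀ a ∈ A, φ a - a ^ ℓ ∈ A.nonunits := by
  constructor
  · intro h
    refine ⟨h.mem_decompositionSubgroup, fun a ha => ?_⟩
    have h1 := h.smul_residue_eq (IsLocalRing.residue A ⟨a, ha⟩)
    rw [← IsLocalRing.ResidueField.residue_smul, ← map_pow, ← sub_eq_zero, ← map_sub,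
      IsLocalRing.residue_eq_zero_iff, A.valuation_lt_one_iff] at h1
    rw [ValuationSubring.mem_nonunits_iff]
    exact h1
  · rintro ⟨hφ, h⟩
    refine ⟨hφ, fun xbar => ?_⟩
    obtain ⟨a, rfl⟩ := IsLocalRing.residue_surjective xbar
    rw [← IsLocalRing.ResidueField.residue_smul, ← map_pow, ← sub_eq_zero, ← map_sub,
      IsLocalRing.residue_eq_zero_iff, A.valuation_lt_one_iff]
    have := h a.1 a.2
    rw [ValuationSubring.mem_nonunits_iff] at this
    exact this

/-- Conjugation of Frobenius elements. -/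
lemma dw_isFrobeniusAt_conj {A : ValuationSubring L} {φ : L ≃ₐ[K] L} {ℓ : ℕ}
    (h : A.IsFrobeniusAt φ ℓ) (τ : L ≃ₐ[K] L) :
    (τ • A).IsFrobeniusAt (τ * φ * τ⁻¹) ℓ := by
  rw [dw_isFrobeniusAt_iff] at h ⊢
  obtain ⟨hd, hi⟩ := h
  refine ⟨?_, fun a ha => ?_⟩
  · rw [MulAction.mem_stabilizer_iff] at hd ⊢
    rw [mul_smul, mul_smul, inv_smul_smul, hd]
  · obtain ⟨b, rfl⟩ : ∃ b, a = τ b := ⟨τ⁻¹ a, by simp⟩
    rw [dw_apply_mem_smul_iff] at ha
    have h1 : (τ * φ * τ⁻¹) (τ b) - (τ b) ^ ℓ = τ (φ b - b ^ ℓ) := by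
      simp [AlgEquiv.mul_apply]
    rw [h1, dw_apply_mem_nonunits_smul_iff]
    exact hi b ha

lemma dw_liesOverPrime_smul {A : ValuationSubring L} {p : ℕ} (h : A.LiesOverPrime p)
    (τ : L ≃ₐ[K] L) : (τ • A).LiesOverPrime p := by
  unfold ValuationSubring.LiesOverPrime at h ⊢
  have : (p : L) = τ (p : L) := (map_natCast τ p).symm
  rw [this, dw_apply_mem_nonunits_smul_iff]
  exact h

end Conj

/-! ### The Frobenius elements off `X` are stable under conjugation -/

lemma frobElts_conj (X : Set ℕ) {σ : GQ} (hσ : σ ∈ frobElts X) (τ : GQ) :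
    τ * σ * τ⁻¹ ∈ frobElts X := by
  obtain ⟨p, A, hp, hpX, hA, hF⟩ := hσ
  exact ⟨p, τ • A, hp, hpX, dw_liesOverPrime_smul hA τ, dw_isFrobeniusAt_conj hF τ⟩

/-! ### Finite level implies finite image -/

lemma finite_range_of_finiteLevel {M : Type} [Group M] (ψ : GQ →* M)
    (h : GaloisFactorsThroughFiniteLevel ψ) : Finite ψ.range := by
  classical
  obtain ⟨L, hL, hψ⟩ := h
  haveI := hL
  -- restriction to `L`
  let r : GQ → (L →ₐ[ℚ] AlgebraicClosure ℚ) := fun σ => (σ : AlgebraicClosure ℚ →ₐ[ℚ]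
    AlgebraicClosure ℚ).comp L.val
  have key : ∀ σ τ : GQ, r σ = r τ → ψ σ = ψ τ := by
    intro σ τ hr
    have h1 : ψ (τ⁻¹ * σ) = 1 := by
      apply hψ
      intro x hx
      have h2 : σ x = τ x := congrArg (fun f => f ⟨x, hx⟩) hr
      rw [AlgEquiv.mul_apply, h2]
      exact τ.symm_apply_apply x
    rw [map_mul, map_inv, inv_mul_eq_one] at h1
    exact h1.symm
  have hsub : (ψ.range : Set M) ⊆ Set.range
      (fun x : (L →ₐ[ℚ] AlgebraicClosure ℚ) => if h : ∃ σ, r σ = x then ψ h.choose else 1) := by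
    rintro _ ⟨τ, rfl⟩
    have hex : ∃ σ, r σ = r τ := ⟨τ, rfl⟩
    refine ⟨r τ, ?_⟩
    simp only [dif_pos hex]
    exact key _ _ hex.choose_spec
  exact (Set.Finite.subset (Set.finite_range _) hsub).to_subtype

/-! ### Dirichlet masses -/

lemma summable_primeTerm (X : Set ℕ) {s : ℝ} (hs : 1 < s) :
    Summable (Set.indicator {p : ℕ | p.Prime ∧ p ∈ X} (fun p : ℕ => (p : ℝ) ^ (-s))) :=
  (Real.summable_nat_rpow.mpr (by linarith)).indicator _

lemma primeMass_mono {X Y : Set ℕ} (h : ∀ p : ℕ, p.Prime → p ∈ X → p ∈ Y) {s : ℝ}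
    (hs : 1 < s) : primeMass X s ≤ primeMass Y s := by
  unfold primeMass
  refine (summable_primeTerm X hs).tsum_le_tsum (fun p => ?_) (summable_primeTerm Y hs)
  apply Set.indicator_le_indicator_of_subset
  · rintro q ⟨hq, hqX⟩
    exact ⟨hq, h q hq hqX⟩
  · intro q
    exact Real.rpow_nonneg (Nat.cast_nonneg q) _

/-- a set of lower density `≥ η` inside a set of upper density `≤ η'`: `η ≤ η'` -/
lemma density_le {X Y : Set ℕ} (h : ∀ p : ℕ, p.Prime → p ∈ X → p ∈ Y) {η η' : ℝ}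
    (hX : LowerDensityGE X η) (hY : UpperDensityLE Y η') : η ≤ η' := by
  by_contra hlt
  rw [not_le] at hlt
  set ε : ℝ := (η - η') / 4 with hε
  have hεpos : 0 < ε := by rw [hε]; linarith
  obtain ⟨δ₁, hδ₁, h1⟩ := hX ε hεpos
  obtain ⟨δ₂, hδ₂, h2⟩ := hY ε hεpos
  set d : ℝ := min (min δ₁ δ₂) 1 / 2 with hd
  have hdpos : 0 < d := by
    rw [hd]
    have : 0 < min (min δ₁ δ₂) 1 := lt_min (lt_min hδ₁ hδ₂) one_pos
    linarith
  have hd1 : d < δ₁ := by
    rw [hd]
    have h3 : min (min δ₁ δ₂) 1 ≤ δ₁ := (min_le_left _ _).trans (min_le_left _ _)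
    have : 0 < min (min δ₁ δ₂) 1 := lt_min (lt_min hδ₁ hδ₂) one_pos
    linarith
  have hd2 : d < δ₂ := by
    rw [hd]
    have h3 : min (min δ₁ δ₂) 1 ≤ δ₂ := (min_le_left _ _).trans (min_le_right _ _)
    have : 0 < min (min δ₁ δ₂) 1 := lt_min (lt_min hδ₁ hδ₂) one_pos
    linarith
  have hd3 : d < 1 := by
    rw [hd]
    have h3 : min (min δ₁ δ₂) 1 ≤ 1 := min_le_right _ _
    have : 0 < min (min δ₁ δ₂) 1 := lt_min (lt_min hδ₁ hδ₂) one_pos
    linarith
  have hs : (1 : ℝ) < 1 + d := by linarith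
  have e1 := h1 (1 + d) hs (by linarith)
  have e2 := h2 (1 + d) hs (by linarith)
  have e3 := primeMass_mono h hs
  have hlog : 0 < Real.log (1 / (1 + d - 1)) := by
    rw [add_sub_cancel_left]
    apply Real.log_pos
    rw [lt_div_iff₀ hdpos]
    linarith
  have e4 : (η - ε) * Real.log (1 / (1 + d - 1)) ≤ (η' + ε) * Real.log (1 / (1 + d - 1)) :=
    e1.trans (e3.trans e2)
  have e5 : η - ε ≤ η' + ε := le_of_mul_le_mul_right e4 hlog
  rw [hε] at e5
  linarith

/-! ### The leaf -/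

/-- **[IV-DENSWIRE]** -/
theorem densWire : DensWireStatement := by
  classical
  intro hD X hX k _ ρ hρ ψ hker
  -- `ψ` has finite level
  have hψ : GaloisFactorsThroughFiniteLevel ψ := by
    obtain ⟨L, hL, h⟩ := hρ
    exact ⟨L, hL, fun σ hσ => hker (h σ hσ)⟩
  haveI hfin : Finite ψ.range := finite_range_of_finiteLevel ψ hψ
  have hψ' : GaloisFactorsThroughFiniteLevel ψ.rangeRestrict := by
    obtain ⟨L, hL, h⟩ := hψ
    exact ⟨L, hL, fun σ hσ => Subtype.ext (h σ hσ)⟩
  -- the complement of the Frobenius classes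
  set H : Set (GL (Fin 2) k) := ψ '' frobElts X with hH
  set C : Set ψ.range := {g | (g : GL (Fin 2) k) ∉ H} with hC
  have hconj : ∀ g h : ψ.range, h ∈ C → g * h * g⁻¹ ∈ C := by
    intro g h hh hgh
    apply hh
    obtain ⟨σ, hσ, hσe⟩ := hgh
    obtain ⟨τ, hτ⟩ := g.2
    refine ⟨τ⁻¹ * σ * τ⁻¹⁻¹, frobElts_conj X hσ τ⁻¹, ?_⟩
    rw [inv_inv, map_mul, map_mul, map_inv, hσe, hτ]
    simp only [Subgroup.coe_mul, Subgroup.coe_inv]
    group
  have hdens := hD ψ.range inferInstance hfin ψ.rangeRestrict hψ'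
    ψ.rangeRestrict_surjective C hconj
  -- the Frobenius set of `C` is contained in `X`
  have hsub : ∀ p : ℕ, p.Prime → p ∈ frobSet ψ.rangeRestrict C → p ∈ X := by
    intro p hp hpC
    obtain ⟨A, σ, hA, hF, hσC⟩ := hpC
    by_contra hpX
    exact hσC ⟨σ, ⟨p, A, hp, hpX, hA, hF⟩, rfl⟩
  have hle := density_le hsub hdens hX
  -- counting
  have hGpos : 0 < Nat.card ψ.range := Nat.card_pos
  have h48 : 48 * Nat.card C ≤ Nat.card ψ.range := by
    have hG' : (0 : ℝ) < (Nat.card ψ.range : ℝ) := by exact_mod_cast hGpos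
    rw [div_le_iff₀ hG'] at hle
    have : (48 : ℝ) * (Nat.card C : ℝ) ≤ (Nat.card ψ.range : ℝ) := by linarith
    exact_mod_cast this
  have hsplit : Nat.card ψ.range = Nat.card H + Nat.card C := by
    have e1 : Nat.card H = Nat.card {g : ψ.range // (g : GL (Fin 2) k) ∈ H} := by
      apply Nat.card_congr
      refine ⟨fun x => ⟨⟨x.1, ?_⟩, x.2⟩, fun y => ⟨y.1.1, y.2⟩, fun x => rfl, fun y => rfl⟩
      obtain ⟨σ, -, hσ⟩ := x.2
      exact ⟨σ, hσ⟩
    have e2 : Nat.card C = Nat.card {g : ψ.range // ¬ (g : GL (Fin 2) k) ∈ H} := rfl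
    rw [e1, e2]
    haveI : Fintype ψ.range := Fintype.ofFinite _
    rw [Nat.card_eq_fintype_card, Nat.card_eq_fintype_card, Nat.card_eq_fintype_card,
      Fintype.card_subtype_compl, ]
    have := Fintype.card_subtype_le (fun g : ψ.range => (g : GL (Fin 2) k) ∈ H)
    omega
  show 23 * Nat.card ψ.range ≤ 24 * Nat.card (ψ '' frobElts X)
  rw [← hH]
  omega

end Fermat.Agent.T4.helper75
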