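import Fermat.Agent.T4.helper2_DivDefs
import Fermat.Agent.T4.helper75_DensWire

/-!
# T4 block (IV), DIV branch, leaf [DIV-WIRE] (helper93, row 1026)

If the roots of `X² - a_p X + e_p` are `A₀`-th roots of unity for all primes `p ∤ N` outside a
set `X` of upper Dirichlet density `≤ 1/48`, then for every residual representation `ρ` of the
system (level `N l`) the set `torsSet ρ A₀` of the elements of `G_ℚ` whose image has both
eigenvalues in `μ_{A₀}` is large (`≥ 47/48`) in every quotient of `ρ`, and carries at most `A₀²`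
pairs `(trace, det)`.

* `trace_pow_of_trace_det`, `det_pow_of_det` : the power-trace formula for `2 × 2` matrices;
* `torsSet_pow`, `torsSet_conj` : `torsSet` is stable under all powers and under conjugation;
* `upperDensityLE_union_finset` : a finite set of primes does not change the upper density;
* `fewCharpolys_torsSet` : at most `A₀²` characteristic polynomials on `torsSet ρ A₀`;
* `divWire : helper2.DivWireStatement` (verbatim).
-/

set_option autoImplicit false
set_option linter.unusedSectionVars false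
set_option linter.unusedVariables false
set_option linter.style.haveILetI false

noncomputable section

namespace Fermat.Agent.T4.helper93

open Fermat.Agent.T4.helper80 Fermat.Agent.T4.helper2 Fermat.Agent.T4.helper75

/-! ### The power-trace formula -/

section PowerTrace

variable {R : Type*} [CommRing R]

/-- Cayley–Hamilton for `2 × 2` matrices. -/
theorem dvw_sq_eq (M : Matrix (Fin 2) (Fin 2) R) :
    M ^ 2 = M.trace • M - M.det • (1 : Matrix (Fin 2) (Fin 2) R) := by
  ext i j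
  fin_cases i <;> fin_cases j <;>
    simp [pow_two, Matrix.mul_apply, Fin.sum_univ_two, Matrix.trace_fin_two,
      Matrix.det_fin_two] <;> ring

theorem dvw_trace_pow_succ_succ (M : Matrix (Fin 2) (Fin 2) R) (m : ℕ) :
    (M ^ (m + 2)).trace = M.trace * (M ^ (m + 1)).trace - M.det * (M ^ m).trace := by
  have h : M ^ (m + 2) = M.trace • M ^ (m + 1) - M.det • M ^ m := by
    rw [pow_add, dvw_sq_eq, mul_sub, Matrix.mul_smul, Matrix.mul_smul, mul_one, ← pow_succ]
  rw [h, Matrix.trace_sub, Matrix.trace_smul, Matrix.trace_smul, smul_eq_mul, smul_eq_mul]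

/-- **Power-trace formula**: if `M` has trace `s + t` and determinant `s t`, then `M ^ m` has
trace `s ^ m + t ^ m`. -/
theorem trace_pow_of_trace_det (M : Matrix (Fin 2) (Fin 2) R) (s t : R)
    (htr : M.trace = s + t) (hdet : M.det = s * t) (m : ℕ) :
    (M ^ m).trace = s ^ m + t ^ m := by
  induction m using Nat.strong_induction_on with
  | _ m ih =>
    match m, ih with
    | 0, _ => simp; norm_num
    | 1, _ => simpa using htr
    | (m + 2), ih =>
      rw [dvw_trace_pow_succ_succ, ih (m + 1) (by omega), ih m (by omega), htr, hdet]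
      ring

theorem det_pow_of_det (M : Matrix (Fin 2) (Fin 2) R) (s t : R) (hdet : M.det = s * t)
    (m : ℕ) : (M ^ m).det = s ^ m * t ^ m := by
  rw [Matrix.det_pow, hdet, mul_pow]

end PowerTrace

/-! ### `torsSet` is stable under powers and conjugation -/

section Tors

variable {Γ k : Type} [Group Γ] [Field k] (ρ : Γ →* GL (Fin 2) k) (A : ℕ)

theorem torsSet_pow {γ : Γ} (hγ : γ ∈ torsSet ρ A) (m : ℕ) : γ ^ m ∈ torsSet ρ A := by
  obtain ⟨s, t, hs, ht, htr, hdet⟩ := hγ
  refine ⟨s ^ m, t ^ m, ?_, ?_, ?_, ?_⟩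
  · rw [← pow_mul, mul_comm, pow_mul, hs, one_pow]
  · rw [← pow_mul, mul_comm, pow_mul, ht, one_pow]
  · rw [map_pow, Units.val_pow_eq_pow_val]
    exact trace_pow_of_trace_det _ s t htr hdet m
  · rw [map_pow, Units.val_pow_eq_pow_val]
    exact det_pow_of_det _ s t hdet m

theorem torsSet_conj {γ : Γ} (hγ : γ ∈ torsSet ρ A) (τ : Γ) : τ * γ * τ⁻¹ ∈ torsSet ρ A := by
  obtain ⟨s, t, hs, ht, htr, hdet⟩ := hγ
  refine ⟨s, t, hs, ht, ?_, ?_⟩
  · rw [map_mul, map_mul, map_inv, ← htr]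
    exact Matrix.trace_units_conj (ρ τ) _
  · rw [map_mul, map_mul, map_inv, ← hdet]
    exact Matrix.det_units_conj (ρ τ) _

end Tors

/-! ### Powers prime to the group order -/

theorem exists_pow_pow_eq_self {G : Type*} [Group G] [Finite G] (h : G) {j : ℕ}
    (hj : Nat.Coprime j (Nat.card G)) : ∃ j' : ℕ, (h ^ j) ^ j' = h := by
  rcases Nat.lt_or_ge 1 (Nat.card G) with h1 | h1
  · obtain ⟨m, -, hm⟩ := Nat.exists_mul_mod_eq_one_of_coprime hj h1
    refine ⟨m, ?_⟩
    rw [← pow_mul, ← pow_mod_natCard, hm, pow_one]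
  · have hc : Nat.card G = 1 := le_antisymm h1 Nat.card_pos
    haveI : Subsingleton G := (Nat.card_eq_one_iff_unique.mp hc).1
    exact ⟨1, Subsingleton.elim _ _⟩

/-! ### Finite sets of primes have density zero -/

theorem primeMass_union_finset_le (X : Set ℕ) (B : Finset ℕ) {s : ℝ} (hs : 1 < s) :
    primeMass (X ∪ (B : Set ℕ)) s ≤ primeMass X s + (B.card : ℝ) := by
  classical
  unfold primeMass
  have hB : Summable (Set.indicator (B : Set ℕ) (fun _ : ℕ => (1 : ℝ))) :=
    summable_of_ne_finset_zero (s := B)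
      (fun p hp => Set.indicator_of_notMem (by simpa using hp) _)
  have hsum : ∑' p : ℕ, Set.indicator (B : Set ℕ) (fun _ : ℕ => (1 : ℝ)) p = (B.card : ℝ) := by
    rw [tsum_eq_sum (s := B)]
    · rw [Finset.sum_congr rfl (fun p hp => Set.indicator_of_mem (Finset.mem_coe.mpr hp) _)]
      simp
    · intro p hp
      exact Set.indicator_of_notMem (by simpa using hp) _
  rw [← hsum, ← (summable_primeTerm X hs).tsum_add hB]
  refine (summable_primeTerm _ hs).tsum_le_tsum (fun p => ?_) ((summable_primeTerm X hs).add hB)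
  have hnn : 0 ≤ Set.indicator {p : ℕ | p.Prime ∧ p ∈ X} (fun p : ℕ => (p : ℝ) ^ (-s)) p :=
    Set.indicator_nonneg (fun q _ => Real.rpow_nonneg (Nat.cast_nonneg q) _) p
  have hnn' : 0 ≤ Set.indicator (B : Set ℕ) (fun _ : ℕ => (1 : ℝ)) p :=
    Set.indicator_nonneg (fun q _ => zero_le_one) p
  by_cases hp : p.Prime ∧ p ∈ X ∪ (B : Set ℕ)
  · rw [Set.indicator_of_mem (show p ∈ {p : ℕ | p.Prime ∧ p ∈ X ∪ (B : Set ℕ)} from hp)]
    rcases hp.2 with hX | hBp
    · rw [Set.indicator_of_mem (show p ∈ {p : ℕ | p.Prime ∧ p ∈ X} from ⟨hp.1, hX⟩)]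
      linarith
    · rw [Set.indicator_of_mem (show p ∈ (B : Set ℕ) from hBp)]
      have h1 : (p : ℝ) ^ (-s) ≤ 1 := by
        apply Real.rpow_le_one_of_one_le_of_nonpos
        · exact_mod_cast hp.1.one_lt.le
        · linarith
      linarith
  · rw [Set.indicator_of_notMem (show p ∉ {p : ℕ | p.Prime ∧ p ∈ X ∪ (B : Set ℕ)} from hp)]
    linarith

/-- a finite set of primes does not change the upper density -/
theorem upperDensityLE_union_finset {X : Set ℕ} {η : ℝ} (hX : UpperDensityLE X η)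
    (B : Finset ℕ) : UpperDensityLE (X ∪ (B : Set ℕ)) η := by
  intro ε hε
  obtain ⟨δ, hδ, h⟩ := hX (ε / 2) (by linarith)
  set c : ℝ := 2 * (B.card : ℝ) / ε with hc
  refine ⟨min δ (Real.exp (-c)), lt_min hδ (Real.exp_pos _), fun s hs1 hs2 => ?_⟩
  have hsδ : s < 1 + δ := lt_of_lt_of_le hs2 (by linarith [min_le_left δ (Real.exp (-c))])
  have hse : s - 1 < Real.exp (-c) := by linarith [min_le_right δ (Real.exp (-c))]
  have h1 := h s hs1 hsδ
  have h2 := primeMass_union_finset_le X B hs1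
  have hpos : 0 < s - 1 := by linarith
  have hlog : c ≤ Real.log (1 / (s - 1)) := by
    rw [one_div, Real.log_inv, le_neg]
    calc Real.log (s - 1) ≤ Real.log (Real.exp (-c)) := Real.log_le_log hpos hse.le
      _ = -c := Real.log_exp _
  have h3 : (B.card : ℝ) ≤ ε / 2 * Real.log (1 / (s - 1)) := by
    have : (B.card : ℝ) = ε / 2 * c := by rw [hc]; field_simp
    rw [this]
    exact mul_le_mul_of_nonneg_left hlog (by linarith)
  calc primeMass (X ∪ (B : Set ℕ)) s ≤ primeMass X s + (B.card : ℝ) := h2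
    _ ≤ (η + ε / 2) * Real.log (1 / (s - 1)) + ε / 2 * Real.log (1 / (s - 1)) := by linarith
    _ = (η + ε) * Real.log (1 / (s - 1)) := by ring

/-! ### Roots of unity along a residue map -/

theorem exists_residue_torsionPair {k : Type} [Field k] (φ : Zbar →+* k) {A₀ : ℕ} (hA : 0 < A₀)
    {a e : ℂ} (h : IsTorsionPair A₀ a e) {x y : Zbar} (hx : (x : ℂ) = a) (hy : (y : ℂ) = e) :
    ∃ s t : k, s ^ A₀ = 1 ∧ t ^ A₀ = 1 ∧ φ x = s + t ∧ φ y = s * t := by
  obtain ⟨ζ, ζ', hζ, hζ', ha, he⟩ := h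
  have hint : ∀ z : ℂ, z ^ A₀ = 1 → IsIntegral ℤ z := fun z hz =>
    IsIntegral.of_pow hA (by rw [hz]; exact isIntegral_one)
  set z : Zbar := ⟨ζ, hint ζ hζ⟩ with hz
  set z' : Zbar := ⟨ζ', hint ζ' hζ'⟩ with hz'
  have hxz : x = z + z' := Subtype.ext (by rw [hx, ha]; rfl)
  have hyz : y = z * z' := Subtype.ext (by rw [hy, he]; rfl)
  have hz1 : z ^ A₀ = 1 := Subtype.ext (by simpa using hζ)
  have hz1' : z' ^ A₀ = 1 := Subtype.ext (by simpa using hζ')
  refine ⟨φ z, φ z', ?_, ?_, ?_, ?_⟩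
  · rw [← map_pow, hz1, map_one]
  · rw [← map_pow, hz1', map_one]
  · rw [hxz, map_add]
  · rw [hyz, map_mul]

/-! ### Few characteristic polynomials -/

theorem fewCharpolys_torsSet {Γ k : Type} [Group Γ] [Field k] (ρ : Γ →* GL (Fin 2) k) {A₀ : ℕ}
    (hA : 0 < A₀) : FewCharpolys ρ (torsSet ρ A₀) (A₀ ^ 2) := by
  classical
  set U : Finset k := Polynomial.nthRootsFinset A₀ (1 : k) with hU
  have hUcard : U.card ≤ A₀ := by
    rw [hU, Polynomial.nthRootsFinset_def]
    exact (Multiset.toFinset_card_le _).trans (Polynomial.card_nthRoots A₀ 1)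
  refine ⟨(U ×ˢ U).image (fun st : k × k => (st.1 + st.2, st.1 * st.2)), ?_, ?_⟩
  · refine Finset.card_image_le.trans ?_
    rw [Finset.card_product, pow_two]
    exact Nat.mul_le_mul hUcard hUcard
  · rintro γ ⟨s, t, hs, ht, htr, hdet⟩
    rw [Finset.mem_image]
    refine ⟨(s, t), ?_, ?_⟩
    · rw [Finset.mem_product]
      exact ⟨(Polynomial.mem_nthRootsFinset hA 1).mpr hs,
        (Polynomial.mem_nthRootsFinset hA 1).mpr ht⟩
    · rw [htr, hdet]

/-! ### The leaf -/

/-- **[DIV-WIRE]** (verbatim `helper2.DivWireStatement`). -/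
theorem divWire : DivWireStatement := by
  classical
  intro hD N a e A₀ X hN hA hX hT l k _ φ ρ hl hρ hF
  refine ⟨?_, fewCharpolys_torsSet ρ hA⟩
  intro ψ hker
  -- `ψ` has finite level
  have hψ : GaloisFactorsThroughFiniteLevel ψ := by
    obtain ⟨L, hL, h⟩ := hρ
    exact ⟨L, hL, fun σ hσ => hker (h σ hσ)⟩
  haveI hfin : Finite ψ.range := finite_range_of_finiteLevel ψ hψ
  have hψ' : GaloisFactorsThroughFiniteLevel ψ.rangeRestrict := by
    obtain ⟨L, hL, h⟩ := hψ
    exact ⟨L, hL, fun σ hσ => Subtype.ext (h σ hσ)⟩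
  -- the complement of the torsion classes
  set H : Set (GL (Fin 2) k) := ψ '' torsSet ρ A₀ with hH
  set C : Set ψ.range := {g | (g : GL (Fin 2) k) ∉ H} with hC
  have hconj : ∀ g h : ψ.range, h ∈ C → g * h * g⁻¹ ∈ C := by
    intro g h hh hgh
    apply hh
    obtain ⟨σ, hσ, hσe⟩ := hgh
    obtain ⟨τ, hτ⟩ := g.2
    refine ⟨τ⁻¹ * σ * τ⁻¹⁻¹, torsSet_conj ρ A₀ hσ τ⁻¹, ?_⟩
    rw [inv_inv, map_mul, map_mul, map_inv, hσe, hτ]
    simp only [Subgroup.coe_mul, Subgroup.coe_inv]
    group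
  have hpow : ∀ (h : ψ.range) (j : ℕ), h ∈ C → Nat.Coprime j (Nat.card ψ.range) →
      h ^ j ∈ C := by
    intro h j hh hj hhj
    apply hh
    obtain ⟨σ, hσ, hσe⟩ := hhj
    obtain ⟨j', hj'⟩ := exists_pow_pow_eq_self h hj
    refine ⟨σ ^ j', torsSet_pow ρ A₀ hσ j', ?_⟩
    have h1 : (((h ^ j) ^ j' : ψ.range) : GL (Fin 2) k) = (h : GL (Fin 2) k) :=
      congrArg Subtype.val hj'
    rw [map_pow, hσe, ← h1]
    simp only [Subgroup.coe_pow]
  have hdens := hD ψ.range inferInstance hfin ψ.rangeRestrict hψ'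
    ψ.rangeRestrict_surjective C hconj hpow
  -- the Frobenius set of `C` is contained in `X` and the divisors of `N l`
  have hNl : N * l ≠ 0 := Nat.mul_ne_zero hN hl.ne_zero
  have hsub : ∀ p : ℕ, p.Prime → p ∈ frobSet ψ.rangeRestrict C →
      p ∈ X ∪ (((N * l).divisors : Finset ℕ) : Set ℕ) := by
    intro p hp hpC
    obtain ⟨B, σ, hB, hFr, hσC⟩ := hpC
    by_contra hpX
    rw [Set.mem_union, not_or] at hpX
    obtain ⟨hpX, hpd⟩ := hpX
    have hpNl : ¬ p ∣ N * l := fun hdvd => hpd (by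
      rw [Finset.mem_coe, Nat.mem_divisors]; exact ⟨hdvd, hNl⟩)
    have hpN : ¬ p ∣ N := fun hdvd => hpNl (dvd_mul_of_dvd_left hdvd l)
    obtain ⟨x, y, hx, hy, hFD⟩ := hF p hp hpNl
    obtain ⟨htr, hdet⟩ := (hFD B hB).2 σ hFr
    obtain ⟨s, t, hs, ht, hxs, hys⟩ := exists_residue_torsionPair φ hA (hT p hp hpN hpX) hx hy
    exact hσC ⟨σ, ⟨s, t, hs, ht, htr.trans hxs, hdet.trans hys⟩, rfl⟩
  have hle := density_le hsub hdens (upperDensityLE_union_finset hX _)
  -- counting
  have hGpos : 0 < Nat.card ψ.range := Nat.card_pos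
  have h48 : 48 * Nat.card C ≤ Nat.card ψ.range := by
    have hG' : (0 : ℝ) < (Nat.card ψ.range : ℝ) := by exact_mod_cast hGpos
    rw [div_le_iff₀ hG'] at hle
    have : (48 : ℝ) * (Nat.card C : ℝ) ≤ (Nat.card ψ.range : ℝ) := by linarith
    exact_mod_cast this
  have hsplit : Nat.card ψ.range = Nat.card H + Nat.card C := by
    have e1 : Nat.card H = Nat.card {g : ψ.range // (g : GL (Fin 2) k) ∈ H} := by
      apply Nat.card_congr
      refine ⟨fun x => ⟨⟨x.1, ?_⟩, x.2⟩, fun y => ⟨y.1.1, y.2⟩, fun x => rfl, fun y => rfl⟩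
      obtain ⟨σ, -, hσ⟩ := x.2
      exact ⟨σ, hσ⟩
    have e2 : Nat.card C = Nat.card {g : ψ.range // ¬ (g : GL (Fin 2) k) ∈ H} := rfl
    rw [e1, e2]
    haveI : Fintype ψ.range := Fintype.ofFinite _
    rw [Nat.card_eq_fintype_card, Nat.card_eq_fintype_card, Nat.card_eq_fintype_card,
      Fintype.card_subtype_compl]
    have := Fintype.card_subtype_le (fun g : ψ.range => (g : GL (Fin 2) k) ∈ H)
    omega
  show 23 * Nat.card ψ.range ≤ 24 * Nat.card (ψ '' torsSet ρ A₀)
  rw [← hH]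
  omega

end Fermat.Agent.T4.helper93
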