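import Mathlib
import Fermat.Agent.T4.helper2_DivDefs
import Fermat.Agent.T4.helper10_DensityAPI
import Fermat.Agent.T4.helper80_EndgameCore
import Fermat.Agent.S54.helper91_Frobenius

/-!
# T4 / S48, block (IV), DIV branch, leaf [DIV-ZERO] (helper94)

`zeroDens : Fermat.Agent.T4.helper2.ZeroDensStatement`: a class `X² - a₀ X + e₀ = (X - α)(X - β)`
with `α β` a root of unity and `α` not a root of unity has upper Dirichlet density zero.

Proof (recipe of helper2): given `ε`, [DIV-KUMMER] gives a residue map `φ` of large residue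
characteristic `l` with `φ(ord φα) ≤ (ε/4) ord φα` and `φ α ≠ φ β`; `ρ` = the residual
representation along `φ`, `G = ρ.range`; `D = {g ∈ G : ∃ j prime to |G|, tr g = φα^j + φβ^j,
det g = (φα φβ)^j}` is stable under conjugation and under the powers prime to `|G|`; the class
minus `{l}` lies in `frobSet ρ' D`; [DIV-COUNT] gives `|D| / |G| ≤ 4 φ(n)/n ≤ ε`.
-/

set_option autoImplicit false
set_option linter.unusedSectionVars false
set_option linter.style.haveILetI false
set_option linter.unusedVariables false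
set_option linter.unusedSimpArgs false

namespace Fermat.Agent.T4.helper94.DivZero

open Fermat.Agent.T4.helper80 Fermat.Agent.T4.helper2 Fermat.Agent.T4.helper10

/-! ## `2 × 2` matrices: the power-trace formula -/

section Matrix2

variable {R : Type*} [CommRing R]

/-- Cayley-Hamilton for `2 × 2` matrices -/
lemma mat_sq (M : Matrix (Fin 2) (Fin 2) R) :
    M * M = M.trace • M - M.det • (1 : Matrix (Fin 2) (Fin 2) R) := by
  ext i j
  fin_cases i <;> fin_cases j <;>
    simp [Matrix.mul_apply, Fin.sum_univ_two, Matrix.trace_fin_two, Matrix.det_fin_two] <;> ring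

/-- the power-trace formula: if `tr M = A + B` and `det M = A B` then `tr Mⁿ = Aⁿ + Bⁿ` -/
lemma trace_pow_eq (M : Matrix (Fin 2) (Fin 2) R) (A B : R) (ht : M.trace = A + B)
    (hd : M.det = A * B) : ∀ n : ℕ, (M ^ n).trace = A ^ n + B ^ n := by
  have key : ∀ n : ℕ, (M ^ n).trace = A ^ n + B ^ n ∧
      (M ^ (n + 1)).trace = A ^ (n + 1) + B ^ (n + 1) := by
    intro n
    induction n with
    | zero =>
      refine ⟨?_, ?_⟩
      · rw [pow_zero, pow_zero, pow_zero, Matrix.trace_fin_two]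
        simp
        try norm_num
      · rw [zero_add, pow_one, pow_one, pow_one, ht]
    | succ n ih =>
      refine ⟨ih.2, ?_⟩
      have h1 : M ^ (n + 1 + 1) = M.trace • M ^ (n + 1) - M.det • M ^ n := by
        rw [pow_succ, pow_succ, mul_assoc, mat_sq, mul_sub, Matrix.mul_smul, Matrix.mul_smul,
          mul_one, ← pow_succ]
      rw [h1, Matrix.trace_sub, Matrix.trace_smul, Matrix.trace_smul, ih.1, ih.2, ht, hd]
      simp only [smul_eq_mul]
      ring
  exact fun n => (key n).1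

end Matrix2

/-! ## The division set -/

section DSet

variable {k : Type} [Field k]

/-- `D = {g ∈ G : ∃ j prime to |G|, tr g = a^j + b^j, det g = (a b)^j}` -/
def dSet (G : Subgroup (GL (Fin 2) k)) (a b : k) : Set G :=
  {g | ∃ j : ℕ, Nat.Coprime j (Nat.card G) ∧
    ((g : GL (Fin 2) k) : Matrix (Fin 2) (Fin 2) k).trace = a ^ j + b ^ j ∧
    ((g : GL (Fin 2) k) : Matrix (Fin 2) (Fin 2) k).det = (a * b) ^ j}

lemma trace_conj (g h : GL (Fin 2) k) :
    ((g * h * g⁻¹ : GL (Fin 2) k) : Matrix (Fin 2) (Fin 2) k).trace =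
      (h : Matrix (Fin 2) (Fin 2) k).trace := by
  rw [Units.val_mul, Units.val_mul, Matrix.trace_mul_cycle, ← Units.val_mul, inv_mul_cancel,
    Units.val_one, one_mul]

lemma det_conj (g h : GL (Fin 2) k) :
    ((g * h * g⁻¹ : GL (Fin 2) k) : Matrix (Fin 2) (Fin 2) k).det =
      (h : Matrix (Fin 2) (Fin 2) k).det := by
  have h1 : ((g : Matrix (Fin 2) (Fin 2) k)).det * ((g⁻¹ : GL (Fin 2) k) :
      Matrix (Fin 2) (Fin 2) k).det = 1 := by
    rw [← Matrix.det_mul, ← Units.val_mul, mul_inv_cancel, Units.val_one, Matrix.det_one]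
  rw [Units.val_mul, Units.val_mul, Matrix.det_mul, Matrix.det_mul]
  linear_combination (h : Matrix (Fin 2) (Fin 2) k).det * h1

lemma dSet_conj (G : Subgroup (GL (Fin 2) k)) (a b : k) (g h : G) (hh : h ∈ dSet G a b) :
    g * h * g⁻¹ ∈ dSet G a b := by
  obtain ⟨j, hj, ht, hd⟩ := hh
  refine ⟨j, hj, ?_, ?_⟩
  · rw [Subgroup.coe_mul, Subgroup.coe_mul, Subgroup.coe_inv, trace_conj]
    exact ht
  · rw [Subgroup.coe_mul, Subgroup.coe_mul, Subgroup.coe_inv, det_conj]
    exact hd

lemma dSet_pow (G : Subgroup (GL (Fin 2) k)) (a b : k) (h : G) (i : ℕ) (hh : h ∈ dSet G a b)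
    (hi : Nat.Coprime i (Nat.card G)) : h ^ i ∈ dSet G a b := by
  obtain ⟨j, hj, ht, hd⟩ := hh
  refine ⟨j * i, Nat.Coprime.mul_left hj hi, ?_, ?_⟩
  · rw [Subgroup.coe_pow, Units.val_pow_eq_pow_val,
      trace_pow_eq _ (a ^ j) (b ^ j) ht (by rw [hd, mul_pow]), ← pow_mul, ← pow_mul]
  · rw [Subgroup.coe_pow, Units.val_pow_eq_pow_val, Matrix.det_pow, hd, ← pow_mul]

end DSet

/-! ## Residue maps are injective on a given nonzero element for large `l` -/

lemma exists_bound_map_ne_zero (x : Zbar) (hx : x ≠ 0) :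
    ∃ B : ℕ, ∀ (l : ℕ) (k : Type) (_ : Field k) (_ : CharP k l) (φ : Zbar →+* k),
      B < l → φ x ≠ 0 := by
  have hint : IsIntegral ℤ x := by
    have h1 : IsIntegral ℤ (x : ℂ) := x.2
    exact (isIntegral_algebraMap_iff (A := Zbar) (B := ℂ) Subtype.val_injective).1 h1
  have hc0 : (minpoly ℤ x).coeff 0 ≠ 0 := by
    intro h0
    obtain ⟨Q, hQ⟩ := Polynomial.X_dvd_iff.2 h0
    have hmon : (minpoly ℤ x).Monic := minpoly.monic hint
    have hQmon : Q.Monic := by
      have h1 := hmon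
      rw [hQ] at h1
      exact Polynomial.Monic.of_mul_monic_left Polynomial.monic_X h1
    have hQx : Polynomial.aeval x Q = 0 := by
      have h1 := minpoly.aeval ℤ x
      rw [hQ, map_mul, Polynomial.aeval_X] at h1
      exact (mul_eq_zero.1 h1).resolve_left hx
    have hdeg := Polynomial.natDegree_le_natDegree (minpoly.min ℤ x hQmon hQx)
    have h2 : (minpoly ℤ x).natDegree = Q.natDegree + 1 := by
      rw [hQ, Polynomial.natDegree_X_mul hQmon.ne_zero]
    omega
  refine ⟨((minpoly ℤ x).coeff 0).natAbs, ?_⟩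
  intro l k _ _ φ hl hφ
  have h1 : Polynomial.eval₂ (Int.castRingHom Zbar) x (minpoly ℤ x) = 0 := by
    have := minpoly.aeval ℤ x
    rwa [Polynomial.aeval_def, show algebraMap ℤ Zbar = Int.castRingHom Zbar from rfl] at this
  have h2 := congrArg φ h1
  rw [Polynomial.hom_eval₂, map_zero, hφ, Polynomial.eval₂_at_zero] at h2
  have h3 : (((minpoly ℤ x).coeff 0 : ℤ) : k) = 0 := by
    simpa using h2
  have h4 : (l : ℤ) ∣ (minpoly ℤ x).coeff 0 := (CharP.intCast_eq_zero_iff k l _).1 h3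
  have h5 : l ∣ ((minpoly ℤ x).coeff 0).natAbs := by
    have := Int.natAbs_dvd_natAbs.2 h4
    simpa using this
  have h6 : 0 < ((minpoly ℤ x).coeff 0).natAbs := Int.natAbs_pos.2 hc0
  have := Nat.le_of_dvd h6 h5
  omega

/-! ## The statement -/

/-- **[DIV-ZERO]** -/
theorem zeroDens : ZeroDensStatement := by
  intro hU hK hC N a e hN hRes α β hαβ hα
  obtain ⟨m, hm, hm1⟩ := hαβ
  -- `α` is a unit, `α ≠ β`
  have hαu : IsUnit α := by
    obtain ⟨m', rfl⟩ : ∃ m', m = m' + 1 := ⟨m - 1, by omega⟩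
    apply IsUnit.of_mul_eq_one (β * (α * β) ^ m')
    rw [← hm1, pow_succ]
    ring
  have hne : α - β ≠ 0 := by
    intro h0
    have h1 : α = β := sub_eq_zero.1 h0
    apply hα (2 * m) (by omega)
    rw [← hm1, ← h1, ← pow_two, ← pow_mul]
  obtain ⟨B, hB⟩ := exists_bound_map_ne_zero (α - β) hne
  obtain ⟨l₀, hl₀⟩ := hRes
  -- it suffices to bound the density by every `ε > 0`
  suffices h : ∀ ε : ℝ, 0 < ε →
      UpperDensityLE (classSet N a e ((α : ℂ) + (β : ℂ)) ((α : ℂ) * (β : ℂ))) ε by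
    intro ε hε
    obtain ⟨δ, hδ, h'⟩ := h (ε / 2) (by linarith) (ε / 2) (by linarith)
    refine ⟨δ, hδ, fun s h1 h2 => ?_⟩
    have h3 := h' s h1 h2
    rw [add_halves] at h3
    rwa [zero_add]
  intro ε hε
  obtain ⟨l, hl, hlp, k, instF, instC, instA, φ, hord, htot⟩ :=
    hK α hαu hα (ε / 4) (by linarith) (max l₀ (B + 1))
  have hl1 : l₀ ≤ l := le_trans (le_max_left _ _) hl
  have hl2 : B < l := lt_of_lt_of_le (Nat.lt_succ_self B) (le_trans (le_max_right _ _) hl)
  have hab : φ α ≠ φ β := by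
    intro h
    apply hB l k instF instC φ hl2
    rw [map_sub, h, sub_self]
  obtain ⟨ρ, hρ, hfrob⟩ := hl₀ l hl1 hlp k instF instC instA φ
  -- the finite image
  haveI hfin : Finite ρ.range := finite_range_of_finiteLevel ρ hρ
  have hρ' : GaloisFactorsThroughFiniteLevel ρ.rangeRestrict := by
    apply finiteLevel_of_ker_le ρ ρ.rangeRestrict _ hρ
    intro σ hσ
    rw [MonoidHom.mem_ker] at hσ ⊢
    exact Subtype.ext hσ
  have hsurj : Function.Surjective ρ.rangeRestrict := ρ.rangeRestrict_surjective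
  -- the primes of the class outside `l` are Frobenius primes of `D`
  have hsub : ∀ p ∈ classSet N a e ((α : ℂ) + (β : ℂ)) ((α : ℂ) * (β : ℂ)), p ≠ l →
      ∃ σ : GQ, (∃ A : ValuationSubring (AlgebraicClosure ℚ), A.LiesOverPrime p ∧
        A.IsFrobeniusAt σ p) ∧
        ((ρ σ : GL (Fin 2) k) : Matrix (Fin 2) (Fin 2) k).trace = φ α + φ β ∧
        ((ρ σ : GL (Fin 2) k) : Matrix (Fin 2) (Fin 2) k).det = φ α * φ β := by
    rintro p ⟨hp, hpN, hap, hep⟩ hpl
    have hpNl : ¬ p ∣ N * l := by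
      intro hdvd
      rcases (Nat.Prime.dvd_mul hp).1 hdvd with h | h
      · exact hpN h
      · exact hpl ((Nat.prime_dvd_prime_iff_eq hp hlp).1 h)
    obtain ⟨x, y, hx, hy, hF⟩ := hfrob p hp hpNl
    have hx' : x = α + β := by
      apply Subtype.ext
      rw [hx, hap]
      rfl
    have hy' : y = α * β := by
      apply Subtype.ext
      rw [hy, hep]
      rfl
    obtain ⟨A, hA⟩ := Fermat.Agent.S54.helper91.exists_valuationSubring_liesOver hp
    obtain ⟨σ, hσ⟩ := Fermat.Agent.S54.helper91.exists_isFrobeniusAt_of_liesOver A hp hA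
    have h1 := (hF A hA).2 σ hσ
    rw [hx', hy', map_add, map_mul] at h1
    exact ⟨σ, ⟨A, hA, hσ⟩, h1.1, h1.2⟩
  by_cases hex : ∃ p ∈ classSet N a e ((α : ℂ) + (β : ℂ)) ((α : ℂ) * (β : ℂ)), p ≠ l
  · -- the main case
    obtain ⟨p₀, hp₀, hp₀l⟩ := hex
    obtain ⟨σ₀, -, hσ₀t, hσ₀d⟩ := hsub p₀ hp₀ hp₀l
    obtain ⟨Bad, hBad⟩ := hU ρ.range inferInstance hfin ρ.rangeRestrict hρ' hsurj
      (dSet ρ.range (φ α) (φ β)) (dSet_conj ρ.range (φ α) (φ β))
      (fun h j hh hj => dSet_pow ρ.range (φ α) (φ β) h j hh hj)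
    -- the count
    have hcount := hC k instF ρ.range hfin (φ α) (φ β) hab
      ⟨ρ σ₀, ⟨σ₀, rfl⟩, hσ₀t, hσ₀d⟩
      (Subtype.val '' dSet ρ.range (φ α) (φ β))
      (by rintro _ ⟨g, -, rfl⟩; exact g.2)
      (by rintro _ ⟨g, hg, rfl⟩; exact hg)
    have hcard : Nat.card (Subtype.val '' dSet ρ.range (φ α) (φ β) : Set (GL (Fin 2) k)) =
        Nat.card (dSet ρ.range (φ α) (φ β)) :=
      Nat.card_image_of_injective Subtype.val_injective _
    rw [hcard] at hcount
    have hGpos : (0 : ℝ) < (Nat.card ρ.range : ℝ) := by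
      exact_mod_cast Nat.card_pos
    have hnpos : (0 : ℝ) < (orderOf (φ α) : ℝ) := by exact_mod_cast hord
    have hdens : (Nat.card (dSet ρ.range (φ α) (φ β)) : ℝ) / (Nat.card ρ.range : ℝ) ≤ ε := by
      rw [div_le_iff₀ hGpos]
      have h1 : (Nat.card (dSet ρ.range (φ α) (φ β)) : ℝ) * (orderOf (φ α) : ℝ) ≤
          (ε * (Nat.card ρ.range : ℝ)) * (orderOf (φ α) : ℝ) := by
        calc (Nat.card (dSet ρ.range (φ α) (φ β)) : ℝ) * (orderOf (φ α) : ℝ)
            ≤ 4 * ((orderOf (φ α)).totient : ℝ) * (Nat.card ρ.range : ℝ) := hcount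
          _ ≤ 4 * (ε / 4 * (orderOf (φ α) : ℝ)) * (Nat.card ρ.range : ℝ) := by
              apply mul_le_mul_of_nonneg_right _ hGpos.le
              exact mul_le_mul_of_nonneg_left htot (by norm_num)
          _ = (ε * (Nat.card ρ.range : ℝ)) * (orderOf (φ α) : ℝ) := by ring
      exact le_of_mul_le_mul_right h1 hnpos
    have h1 : UpperDensityLE (frobSet ρ.rangeRestrict (dSet ρ.range (φ α) (φ β)) \
        (Bad : Set ℕ)) ε := upperDensityLE_mono hBad hdens
    have hfinite : ((Bad : Set ℕ) ∪ {l}).Finite := (Finset.finite_toSet Bad).union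
      (Set.finite_singleton l)
    have h2 := upperDensityLE_union_finite h1 hfinite
    refine upperDensityLE_mono_set h2 ?_
    intro p hp
    by_cases hpB : p ∈ (Bad : Set ℕ)
    · exact Or.inr (Or.inl hpB)
    by_cases hpl : p = l
    · exact Or.inr (Or.inr hpl)
    · refine Or.inl ⟨?_, hpB⟩
      obtain ⟨σ, ⟨A, hA, hσ⟩, ht, hd⟩ := hsub p hp hpl
      refine ⟨A, σ, hA, hσ, 1, Nat.coprime_one_left _, ?_, ?_⟩
      · rw [pow_one, pow_one]; exact ht
      · rw [pow_one]; exact hd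
  · -- the class is contained in `{l}`
    have hfinite : ({l} : Set ℕ).Finite := Set.finite_singleton l
    have h0 : UpperDensityLE ({l} : Set ℕ) 0 := upperDensityLE_of_finite hfinite
    refine upperDensityLE_mono_set (upperDensityLE_mono h0 hε.le) ?_
    intro p hp
    by_contra hpl
    exact hex ⟨p, hp, hpl⟩

end Fermat.Agent.T4.helper94.DivZero
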