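import Mathlib
import Fermat.Agent.T4.helper2_DivAsm
import Fermat.Agent.T4.helper2_KummerPrime
import Fermat.Agent.T4.helper12_DivCount
import Fermat.Agent.T4.helper94_DivZero
import Fermat.Agent.T4.helper30_DivTors
import Fermat.Agent.T4.helper93_DivWire
import Fermat.Agent.T4.helper64_DivIrr
import Fermat.Agent.T4.helper40_DivFinal
import Fermat.Agent.T4.helper11_Fin
import Fermat.Agent.T4.helper18_Bound
import Fermat.Agent.T4.helper35_Unip
import Fermat.Agent.T4.helper80_Class
import Fermat.Agent.T4.helper80_Val
import Fermat.Agent.T4.helper3_Lift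
import Fermat.Agent.T4.helper25_Indep

/-!
# T4 (IV), DIV branch: the endgame of Deligne-Serre, UNCONDITIONAL (helper2)

All the leaves of the DIV branch and the Frobenius division density theorem (helper40) are on
main, so block (IV) needs NO input from block (II) (Chebotarev density):

* `divLower : DivLowerStatement`, `divUpper : DivUpperStatement` (helper40, restated);
* `endgameDiv : EndgameDivStatement`;
* `endgameDiv_conclusion` : `RankinStatement N a → ResAllStatement N a ε → Conclusion N a ε`;
* `s48_of_formsAll` : the frozen S48 shape from `FormsAllStatement` alone.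
-/

set_option autoImplicit false

open CongruenceSubgroup

namespace Fermat.Agent.T4.helper2

open Fermat.Agent.T4.helper80

/-- The Frobenius division density theorem, lower bound (helper40). -/
theorem divLower : DivLowerStatement := by
  intro G i1 i2 ρ hρ hsurj C hconj hpow
  exact Fermat.Agent.T4.helper40.divStatement G i1 i2 ρ hρ hsurj C ⟨hconj, hpow⟩

/-- The Frobenius division density theorem, upper bound (helper40). -/
theorem divUpper : DivUpperStatement := by
  intro G i1 i2 ρ hρ hsurj C hconj hpow
  exact Fermat.Agent.T4.helper40.divUpperStatement G i1 i2 ρ hρ hsurj C ⟨hconj, hpow⟩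

/-- **Block (IV), DIV branch, assembled and unconditional.** -/
theorem endgameDiv : EndgameDivStatement :=
  endgameDivOfLeaves Fermat.Agent.T4.helper11.fin Fermat.Agent.T4.helper12.count kummerPrime
    Fermat.Agent.T4.helper94.DivZero.zeroDens Fermat.Agent.T4.helper30.torsion
    Fermat.Agent.T4.helper93.divWire
    (Fermat.Agent.T4.helper18.bound_of Fermat.Agent.T4.helper35.unip classStatement)
    Fermat.Agent.T4.helper3.lift valStatement Fermat.Agent.T4.helper25.indepStatement
    Fermat.Agent.T4.helper64.irrDiv

/-- The endgame without any density hypothesis: Rankin for all conjugates and residual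
representations for all large `l` give the complex representation. -/
theorem endgameDiv_conclusion (N : ℕ) [NeZero N] (ε : DirichletCharacter ℂ N) (a : ℕ → ℂ)
    (hR : RankinStatement N a) (hRes : ResAllStatement N a (fun p : ℕ => ε (p : ZMod N))) :
    Conclusion N a (fun p : ℕ => ε (p : ZMod N)) :=
  endgameDiv N inferInstance ε a divLower divUpper hR hRes

/-- **The frozen S48 shape** from the forms-side inputs alone. -/
theorem s48_of_formsAll (hF : FormsAllStatement)
    (N : ℕ) [NeZero N] (ε : DirichletCharacter ℂ N) (f : CuspForm (Gamma1 N) 1)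
    (hf₁ : ModularFormClass.qCoeff f 1 = 1)
    (hT : ∀ p : ℕ, p.Prime → ¬ p ∣ N → ∀ n : ℕ,
        ModularFormClass.qCoeff f (p * n) +
            ε (p : ZMod N) * (if p ∣ n then ModularFormClass.qCoeff f (n / p) else 0) =
          ModularFormClass.qCoeff f p * ModularFormClass.qCoeff f n) :
    ∃ ρ : GQ →* GL (Fin 2) ℂ, GaloisFactorsThroughFiniteLevel ρ ∧
      (Deformation.matrixRepresentation ρ).IsIrreducible ∧
      ∀ p : ℕ, p.Prime → ¬ p ∣ N →
        ∀ A : ValuationSubring (AlgebraicClosure ℚ), A.LiesOverPrime p →
          (∀ σ ∈ A.inertiaSubgroupIn ℚ, ρ σ = 1) ∧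
          ∀ σ : GQ, A.IsFrobeniusAt σ p →
            ((ρ σ : GL (Fin 2) ℂ) : Matrix (Fin 2) (Fin 2) ℂ).trace =
                ModularFormClass.qCoeff f p ∧
            ((ρ σ : GL (Fin 2) ℂ) : Matrix (Fin 2) (Fin 2) ℂ).det = ε (p : ZMod N) :=
  s48_of_div endgameDiv divLower divUpper hF N ε f hf₁ hT

end Fermat.Agent.T4.helper2
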