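import Mathlib

/-!
# T4 / [R-GLUE], part 1 (helper42): two by two matrix algebra (Mathlib only)

* `trace_det_pow_congr` : trace and determinant of `M ^ j` only depend on trace and determinant
  of `M`.
* `eq_one_of_trace_mul_eq` : a homomorphism `R : G →* M₂(k)` without invariant line and an element
  `s` with `charpoly (R s) = (X - 1)²` and `tr (R (s g)) = tr (R g)` for all `g`: `R s = 1`.
* `diagOf` : the semisimplification of a homomorphism `R : G →* M₂(k)` with an invariant line,
  as a diagonal homomorphism with the same traces and determinants.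
-/

set_option autoImplicit false

open Matrix

namespace Fermat.Agent.T4.helper42

variable {k : Type*} [Field k]

/-! ### Cayley-Hamilton and powers -/

theorem cayley_two (M : Matrix (Fin 2) (Fin 2) k) :
    M * M = M.trace • M - M.det • (1 : Matrix (Fin 2) (Fin 2) k) := by
  ext i j
  fin_cases i <;> fin_cases j <;>
    simp [Matrix.mul_apply, Fin.sum_univ_two, Matrix.trace_fin_two, Matrix.det_fin_two] <;> ring

theorem trace_pow_succ_succ (M : Matrix (Fin 2) (Fin 2) k) (j : ℕ) :
    (M ^ (j + 2)).trace = M.trace * (M ^ (j + 1)).trace - M.det * (M ^ j).trace := by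
  have h : M ^ (j + 2) = M.trace • M ^ (j + 1) - M.det • M ^ j := by
    rw [pow_add, pow_two, cayley_two, mul_sub, Matrix.mul_smul, Matrix.mul_smul, mul_one,
      ← pow_succ]
  rw [h, Matrix.trace_sub, Matrix.trace_smul, Matrix.trace_smul, smul_eq_mul, smul_eq_mul]

/-- Trace and determinant of a power only depend on trace and determinant. -/
theorem trace_det_pow_congr {M M' : Matrix (Fin 2) (Fin 2) k} (ht : M.trace = M'.trace)
    (hd : M.det = M'.det) (j : ℕ) :
    (M ^ j).trace = (M' ^ j).trace ∧ (M ^ j).det = (M' ^ j).det := by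
  refine ⟨?_, by rw [Matrix.det_pow, Matrix.det_pow, hd]⟩
  induction j using Nat.strong_induction_on with
  | _ j ih =>
    match j with
    | 0 => simp
    | 1 => simpa using ht
    | (j + 2) =>
      rw [trace_pow_succ_succ, trace_pow_succ_succ, ih (j + 1) (by omega), ih j (by omega), ht, hd]

/-- The characteristic polynomial of a two by two matrix determines trace and determinant. -/
theorem trace_det_of_charpoly {M : Matrix (Fin 2) (Fin 2) k} {x y : k}
    (h : M.charpoly = Polynomial.X ^ 2 - Polynomial.C x * Polynomial.X + Polynomial.C y) :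
    M.trace = x ∧ M.det = y := by
  rw [Matrix.charpoly_fin_two] at h
  have h1 := congrArg (fun P : Polynomial k => P.coeff 1) h
  have h0 := congrArg (fun P : Polynomial k => P.coeff 0) h
  simp at h1 h0
  exact ⟨h1, h0⟩

/-! ### Invariant lines -/

/-- `v` spans a line invariant under `R`. -/
def IsInvLine {G : Type*} [Monoid G] (R : G →* Matrix (Fin 2) (Fin 2) k) (v : Fin 2 → k) : Prop :=
  v ≠ 0 ∧ ∀ g : G, ∃ c : k, (R g).mulVec v = c • v

theorem exists_smul_of_cross_eq_zero {v u : Fin 2 → k} (hv : v ≠ 0)
    (h : v 0 * u 1 - v 1 * u 0 = 0) : ∃ c : k, u = c • v := by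
  by_cases h0 : v 0 = 0
  · have h1 : v 1 ≠ 0 := by
      intro h1
      apply hv
      funext i
      fin_cases i
      · exact h0
      · exact h1
    refine ⟨u 1 / v 1, ?_⟩
    have hu0 : u 0 = 0 := by
      rw [h0, zero_mul, zero_sub, neg_eq_zero] at h
      rcases mul_eq_zero.1 h with h | h
      · exact absurd h h1
      · exact h
    funext i
    fin_cases i
    · simp [hu0, h0]
    · simp [h1]
  · refine ⟨u 0 / v 0, ?_⟩
    funext i
    fin_cases i
    · simp [h0]
    · simp only [Fin.mk_one, Pi.smul_apply, smul_eq_mul]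
      field_simp
      linear_combination h

/-- The key computation: for a nilpotent `T = !![a, b; c, -a]` (`a² + b c = 0`) and a matrix `X`
with `tr (T X) = 0`, the columns of `T` span a line invariant under `X`. -/
theorem cross_col_zero {a b c : k} (hn : a * a + b * c = 0) (X : Matrix (Fin 2) (Fin 2) k)
    (hX : a * X 0 0 + b * X 1 0 + c * X 0 1 - a * X 1 1 = 0) :
    (![a, c] : Fin 2 → k) 0 * (X.mulVec ![a, c]) 1 - (![a, c] : Fin 2 → k) 1 * (X.mulVec ![a, c]) 0
        = 0 ∧
      (![b, -a] : Fin 2 → k) 0 * (X.mulVec ![b, -a]) 1 -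
        (![b, -a] : Fin 2 → k) 1 * (X.mulVec ![b, -a]) 0 = 0 := by
  constructor
  · simp only [Matrix.mulVec, dotProduct, Fin.sum_univ_two, Matrix.cons_val_zero,
      Matrix.cons_val_one]
    linear_combination (-c) * hX + X 1 0 * hn
  · simp only [Matrix.mulVec, dotProduct, Fin.sum_univ_two, Matrix.cons_val_zero,
      Matrix.cons_val_one]
    linear_combination b * hX - X 0 1 * hn

/-- A homomorphism to two by two matrices without invariant line: an element `s` with
`tr (R s) = 2`, `det (R s) = 1` and `tr (R (s g)) = tr (R g)` for all `g` is in the kernel. -/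
theorem eq_one_of_trace_mul_eq {G : Type*} [Monoid G] (R : G →* Matrix (Fin 2) (Fin 2) k)
    (hirr : ¬ ∃ v, IsInvLine R v) (s : G) (ht : (R s).trace = 2) (hd : (R s).det = 1)
    (h : ∀ g : G, (R (s * g)).trace = (R g).trace) : R s = 1 := by
  by_contra hne
  set a : k := R s 0 0 - 1 with ha
  set b : k := R s 0 1 with hb
  set c : k := R s 1 0 with hc
  have hd' : R s 1 1 - 1 = -a := by
    rw [Matrix.trace_fin_two] at ht
    rw [ha]
    linear_combination ht
  have hn : a * a + b * c = 0 := by
    rw [Matrix.det_fin_two] at hd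
    have e11 : R s 1 1 = 1 - a := by linear_combination hd'
    have e00 : R s 0 0 = 1 + a := by rw [ha]; ring
    rw [e11, e00] at hd
    rw [hb, hc]
    linear_combination -hd
  have hX : ∀ g : G, a * R g 0 0 + b * R g 1 0 + c * R g 0 1 - a * R g 1 1 = 0 := by
    intro g
    have h1 := h g
    rw [map_mul, Matrix.trace_fin_two, Matrix.trace_fin_two] at h1
    simp only [Matrix.mul_apply, Fin.sum_univ_two] at h1
    have e11 : R s 1 1 = 1 - a := by linear_combination hd'
    have e00 : R s 0 0 = 1 + a := by rw [ha]; ring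
    rw [e11, e00] at h1
    rw [hb, hc]
    linear_combination h1
  by_cases hac : (![a, c] : Fin 2 → k) = 0
  · have ha0 : a = 0 := by simpa using congrFun hac 0
    have hc0 : c = 0 := by simpa using congrFun hac 1
    have hb0 : b ≠ 0 := by
      intro hb0
      apply hne
      have e11 : R s 1 1 = 1 := by linear_combination hd' - ha0
      have e00 : R s 0 0 = 1 := by
        have : R s 0 0 - 1 = 0 := ha0
        linear_combination this
      ext i j
      fin_cases i <;> fin_cases j
      · simpa using e00
      · simpa using (hb ▸ hb0 : R s 0 1 = 0)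
      · simpa using (hc ▸ hc0 : R s 1 0 = 0)
      · simpa using e11
    apply hirr
    refine ⟨![b, -a], ?_, fun g => ?_⟩
    · intro h0
      exact hb0 (by simpa using congrFun h0 0)
    · obtain ⟨cc, hcc⟩ := exists_smul_of_cross_eq_zero (v := ![b, -a])
        (u := (R g).mulVec ![b, -a]) (by
          intro h0
          exact hb0 (by simpa using congrFun h0 0)) (cross_col_zero hn (R g) (hX g)).2
      exact ⟨cc, hcc⟩
  · apply hirr
    refine ⟨![a, c], hac, fun g => ?_⟩
    obtain ⟨cc, hcc⟩ := exists_smul_of_cross_eq_zero (v := ![a, c])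
      (u := (R g).mulVec ![a, c]) hac (cross_col_zero hn (R g) (hX g)).1
    exact ⟨cc, hcc⟩

/-! ### The semisimplification in the reducible case -/

theorem smul_right_cancel_of_ne_zero {v : Fin 2 → k} (hv : v ≠ 0) {c c' : k}
    (h : c • v = c' • v) : c = c' := by
  by_contra hne
  apply hv
  have h1 : (c - c') • v = 0 := by rw [sub_smul, h, sub_self]
  rcases smul_eq_zero.1 h1 with h2 | h2
  · exact absurd (sub_eq_zero.1 h2) hne
  · exact h2

/-- An eigenvalue is a root of `X² - tr X + det`. -/
theorem eig_quadratic {M : Matrix (Fin 2) (Fin 2) k} {v : Fin 2 → k} (hv : v ≠ 0) {c : k}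
    (h : M.mulVec v = c • v) : c * c - M.trace * c + M.det = 0 := by
  have h0 := congrFun h 0
  have h1 := congrFun h 1
  simp only [Matrix.mulVec, dotProduct, Fin.sum_univ_two, Pi.smul_apply, smul_eq_mul] at h0 h1
  rw [Matrix.trace_fin_two, Matrix.det_fin_two]
  by_cases hv0 : v 0 = 0
  · have hv1 : v 1 ≠ 0 := by
      intro hv1
      apply hv
      funext i
      fin_cases i
      · exact hv0
      · exact hv1
    rw [hv0] at h0 h1
    have e1 : M 0 1 = 0 := by
      have : M 0 1 * v 1 = 0 := by linear_combination h0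
      rcases mul_eq_zero.1 this with h | h
      · exact h
      · exact absurd h hv1
    have e2 : M 1 1 = c := by
      have : (M 1 1 - c) * v 1 = 0 := by linear_combination h1
      rcases mul_eq_zero.1 this with h | h
      · exact sub_eq_zero.1 h
      · exact absurd h hv1
    rw [e1, e2]
    ring
  · apply mul_left_cancel₀ hv0
    linear_combination (M 1 1 - c) * h0 - M 0 1 * h1

/-- The eigenvalue of `R g` on an invariant line. -/
noncomputable def eigOf {G : Type*} [Monoid G] (R : G →* Matrix (Fin 2) (Fin 2) k)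
    {v : Fin 2 → k} (hv : IsInvLine R v) (g : G) : k :=
  Classical.choose (hv.2 g)

theorem eigOf_spec {G : Type*} [Monoid G] (R : G →* Matrix (Fin 2) (Fin 2) k)
    {v : Fin 2 → k} (hv : IsInvLine R v) (g : G) : (R g).mulVec v = eigOf R hv g • v :=
  Classical.choose_spec (hv.2 g)

theorem eigOf_one {G : Type*} [Monoid G] (R : G →* Matrix (Fin 2) (Fin 2) k)
    {v : Fin 2 → k} (hv : IsInvLine R v) : eigOf R hv 1 = 1 := by
  have h := eigOf_spec R hv 1
  rw [map_one, Matrix.one_mulVec] at h
  exact (smul_right_cancel_of_ne_zero hv.1 (by rw [one_smul]; exact h)).symm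

theorem eigOf_mul {G : Type*} [Monoid G] (R : G →* Matrix (Fin 2) (Fin 2) k)
    {v : Fin 2 → k} (hv : IsInvLine R v) (g h : G) :
    eigOf R hv (g * h) = eigOf R hv g * eigOf R hv h := by
  have h1 := eigOf_spec R hv (g * h)
  rw [map_mul, ← Matrix.mulVec_mulVec, eigOf_spec R hv h, Matrix.mulVec_smul, eigOf_spec R hv g,
    smul_smul] at h1
  rw [mul_comm]
  exact (smul_right_cancel_of_ne_zero hv.1 h1).symm

theorem eigOf_ne_zero {G : Type*} [Group G] (R : G →* Matrix (Fin 2) (Fin 2) k)
    {v : Fin 2 → k} (hv : IsInvLine R v) (g : G) : eigOf R hv g ≠ 0 := by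
  intro h0
  have h1 := eigOf_mul R hv g g⁻¹
  rw [mul_inv_cancel, eigOf_one, h0, zero_mul] at h1
  exact one_ne_zero h1

/-- The diagonal homomorphism attached to an invariant line. -/
noncomputable def diagOf {G : Type*} [Group G] (R : G →* Matrix (Fin 2) (Fin 2) k)
    {v : Fin 2 → k} (hv : IsInvLine R v) : G →* Matrix (Fin 2) (Fin 2) k where
  toFun g := Matrix.diagonal ![eigOf R hv g, (R g).det * (eigOf R hv g)⁻¹]
  map_one' := by
    rw [eigOf_one, map_one, Matrix.det_one, inv_one, mul_one]
    ext i j
    fin_cases i <;> fin_cases j <;> simp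
  map_mul' g h := by
    rw [Matrix.diagonal_mul_diagonal, eigOf_mul, map_mul, Matrix.det_mul, mul_inv]
    congr 1
    funext i
    fin_cases i
    · simp
    · simp
      ring

theorem diagOf_apply {G : Type*} [Group G] (R : G →* Matrix (Fin 2) (Fin 2) k)
    {v : Fin 2 → k} (hv : IsInvLine R v) (g : G) :
    diagOf R hv g = Matrix.diagonal ![eigOf R hv g, (R g).det * (eigOf R hv g)⁻¹] := rfl

theorem diagOf_trace {G : Type*} [Group G] (R : G →* Matrix (Fin 2) (Fin 2) k)
    {v : Fin 2 → k} (hv : IsInvLine R v) (g : G) : (diagOf R hv g).trace = (R g).trace := by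
  have hq := eig_quadratic hv.1 (eigOf_spec R hv g)
  have hc := eigOf_ne_zero R hv g
  rw [diagOf_apply, Matrix.trace_fin_two]
  simp only [Matrix.diagonal_apply_eq, Matrix.cons_val_zero, Matrix.cons_val_one]
  field_simp
  linear_combination hq

theorem diagOf_det {G : Type*} [Group G] (R : G →* Matrix (Fin 2) (Fin 2) k)
    {v : Fin 2 → k} (hv : IsInvLine R v) (g : G) : (diagOf R hv g).det = (R g).det := by
  have hc := eigOf_ne_zero R hv g
  rw [diagOf_apply, Matrix.det_diagonal, Fin.prod_univ_two]
  simp only [Matrix.cons_val_zero, Matrix.cons_val_one]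
  field_simp

/-- A diagonal matrix with trace `2` and determinant `1` is the identity. -/
theorem diagOf_eq_one {G : Type*} [Group G] (R : G →* Matrix (Fin 2) (Fin 2) k)
    {v : Fin 2 → k} (hv : IsInvLine R v) (g : G) (ht : (R g).trace = 2) (hd : (R g).det = 1) :
    diagOf R hv g = 1 := by
  have hq := eig_quadratic hv.1 (eigOf_spec R hv g)
  rw [ht, hd] at hq
  have h1 : eigOf R hv g = 1 := by
    have : (eigOf R hv g - 1) * (eigOf R hv g - 1) = 0 := by linear_combination hq
    rcases mul_eq_zero.1 this with h | h <;> exact sub_eq_zero.1 h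
  rw [diagOf_apply, h1, hd]
  ext i j
  fin_cases i <;> fin_cases j <;> simp

end Fermat.Agent.T4.helper42
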