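import Mathlib
import Fermat.Agent.T4.helper32_ResDefs
import Fermat.Agent.T4.helper42_GlueAlg
import Fermat.Agent.Cheb.helper40_ChebFinal

/-!
# T4 / [R-GLUE] (helper42): gluing the residual representations of auxiliary levels `4` and `9`

`glue : Res1Statement 4 → Res1Statement 9 → ∀ N ε f, (hypotheses of S48) → ResStatement N a ε`.

For a large prime `ℓ` the two residual representations `ρ₄` (unramified outside `4 N ℓ`) and `ρ₉`
(unramified outside `9 N ℓ`) have the same characteristic polynomials at the Frobenius lifts at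
all `p ∤ 36 N ℓ`, hence at ALL elements of `G_ℚ` (weak Chebotarev on main: every `g` is, on a
given finite level, a power of a Frobenius lift; trace and determinant of a power of a two by two
matrix only depend on trace and determinant).  If `ρ₄` has no invariant line, then `ρ₄` itself is
unramified at `2` (an inertia element `s` at `2` has `tr ρ₄(s g) = tr ρ₄(g)` for all `g` and
`charpoly ρ₄(s) = (X - 1)²`; if `ρ₄(s) ≠ 1`, the image of `ρ₄(s) - 1` would be an invariant
line); otherwise the diagonal part of `ρ₄` does the job.  No hypothesis on the field `k`.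
-/

set_option autoImplicit false
set_option linter.style.haveILetI false

open CongruenceSubgroup UpperHalfPlane
open scoped MatrixGroups

namespace Fermat.Agent.T4.helper42

open Fermat.Agent.T4.helper80 (GQ Zbar)
open Fermat.Agent.T4.helper32

variable {k : Type} [Field k]

/-- A residual representation in matrix form (not necessarily invertible values are asked: the
source is a group), unramified outside `D`. -/
def IsMatRes (D : ℕ) (a e : ℕ → ℂ) (φ : Zbar →+* k) (R : GQ →* Matrix (Fin 2) (Fin 2) k) : Prop :=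
  GaloisFactorsThroughFiniteLevel R ∧
    ∀ p : ℕ, p.Prime → ¬ p ∣ D → ∃ x y : Zbar, (x : ℂ) = a p ∧ (y : ℂ) = e p ∧
      ∀ A : ValuationSubring (AlgebraicClosure ℚ), A.LiesOverPrime p →
        (∀ σ ∈ A.inertiaSubgroupIn ℚ, R σ = 1) ∧
        ∀ σ : GQ, A.IsFrobeniusAt σ p → (R σ).trace = φ x ∧ (R σ).det = φ y

/-- From the module form to the matrix form. -/
theorem exists_isMatRes {D : ℕ} {a e : ℕ → ℂ} {φ : Zbar →+* k} (h : HasResidualMod D a e φ) :
    ∃ R : GQ →* Matrix (Fin 2) (Fin 2) k, IsMatRes D a e φ R := by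
  obtain ⟨ρ, hρ⟩ := h
  let b : Module.Basis (Fin 2) k ρ.V := Module.finBasisOfFinrankEq k ρ.V ρ.finrank_eq
  let E : Module.End k ρ.V →* Matrix (Fin 2) (Fin 2) k :=
    (LinearMap.toMatrixAlgEquiv b).toRingEquiv.toMulEquiv.toMonoidHom
  have hE : ∀ f : Module.End k ρ.V, E f = LinearMap.toMatrix b b f := fun f => rfl
  refine ⟨E.comp ρ.ρ, ?_, ?_⟩
  · obtain ⟨L, hL, h1⟩ := ρ.factorsThroughFiniteLevel
    refine ⟨L, hL, fun σ hσ => ?_⟩
    rw [MonoidHom.comp_apply, h1 σ hσ, map_one]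
  · intro p hp hpD
    obtain ⟨x, y, hx, hy, hA⟩ := hρ p hp hpD
    refine ⟨x, y, hx, hy, fun A hAp => ?_⟩
    obtain ⟨hI, hF⟩ := hA A hAp
    refine ⟨fun σ hσ => ?_, fun σ hσ => ?_⟩
    · rw [MonoidHom.comp_apply, hI σ hσ, map_one]
    · have hc := hF σ hσ
      rw [← LinearMap.charpoly_toMatrix (ρ.ρ σ) b] at hc
      rw [MonoidHom.comp_apply, hE]
      exact trace_det_of_charpoly hc

/-- Two residual representations in matrix form for the same system have the same traces and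
determinants everywhere (weak Chebotarev). -/
theorem trace_det_eq_of_isMatRes {D D' : ℕ} (hD : D ≠ 0) (hD' : D' ≠ 0) {a e : ℕ → ℂ}
    {φ : Zbar →+* k} {R R' : GQ →* Matrix (Fin 2) (Fin 2) k} (h : IsMatRes D a e φ R)
    (h' : IsMatRes D' a e φ R') (g : GQ) :
    (R g).trace = (R' g).trace ∧ (R g).det = (R' g).det := by
  obtain ⟨⟨L, hLfin, hL⟩, hR⟩ := h
  obtain ⟨⟨L', hLfin', hL'⟩, hR'⟩ := h'
  haveI : FiniteDimensional ℚ L := hLfin
  haveI : FiniteDimensional ℚ L' := hLfin'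
  haveI : FiniteDimensional ℚ (L ⊔ L' : IntermediateField ℚ (AlgebraicClosure ℚ)) :=
    IntermediateField.finiteDimensional_sup L L'
  obtain ⟨p, A, ψ, hp, hpS, hA, hψ, -, ⟨j, hj⟩, -⟩ :=
    Fermat.Agent.Cheb.helper40.chebW_finite_uncond (L ⊔ L') g (Finset.range (D * D' + 1))
  have hpgt : D * D' < p := by
    by_contra hlt
    exact hpS (Finset.mem_range.2 (by omega))
  have hDpos : 0 < D := Nat.pos_of_ne_zero hD
  have hD'pos : 0 < D' := Nat.pos_of_ne_zero hD'
  have hpD : ¬ p ∣ D := by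
    intro hdvd
    have h1 := Nat.le_of_dvd hDpos hdvd
    have h2 : D ≤ D * D' := Nat.le_mul_of_pos_right D hD'pos
    omega
  have hpD' : ¬ p ∣ D' := by
    intro hdvd
    have h1 := Nat.le_of_dvd hD'pos hdvd
    have h2 : D' ≤ D * D' := Nat.le_mul_of_pos_left D' hDpos
    omega
  -- `g` and `ψ ^ j` agree on the joint level
  have hτ : ∀ x ∈ (L ⊔ L' : IntermediateField ℚ (AlgebraicClosure ℚ)),
      (g⁻¹ * ψ ^ j) x = x := by
    intro x hx
    rw [AlgEquiv.mul_apply, hj x hx]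
    exact g.symm_apply_apply x
  have e1 : R g = R ψ ^ j := by
    have h1 : R (g⁻¹ * ψ ^ j) = 1 := hL _ fun x hx => hτ x (le_sup_left (a := L) (b := L') hx)
    have h2 : g * (g⁻¹ * ψ ^ j) = ψ ^ j := by rw [mul_inv_cancel_left]
    rw [← map_pow, ← h2, map_mul, h1, mul_one]
  have e2 : R' g = R' ψ ^ j := by
    have h1 : R' (g⁻¹ * ψ ^ j) = 1 := hL' _ fun x hx => hτ x (le_sup_right (a := L) (b := L') hx)
    have h2 : g * (g⁻¹ * ψ ^ j) = ψ ^ j := by rw [mul_inv_cancel_left]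
    rw [← map_pow, ← h2, map_mul, h1, mul_one]
  obtain ⟨x, y, hx, hy, hxy⟩ := hR p hp hpD
  obtain ⟨x', y', hx', hy', hxy'⟩ := hR' p hp hpD'
  have exx : x = x' := Subtype.ext (hx.trans hx'.symm)
  have eyy : y = y' := Subtype.ext (hy.trans hy'.symm)
  obtain ⟨t1, d1⟩ := (hxy A hA).2 ψ hψ
  obtain ⟨t2, d2⟩ := (hxy' A hA).2 ψ hψ
  rw [e1, e2]
  exact trace_det_pow_congr (by rw [t1, t2, exx]) (by rw [d1, d2, eyy]) j

/-- From the matrix form at level `N ℓ` to `helper80.HasResidual`. -/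
theorem hasResidual_of_isMatRes {N l : ℕ} {a e : ℕ → ℂ} {φ : Zbar →+* k}
    {R : GQ →* Matrix (Fin 2) (Fin 2) k} (h : IsMatRes (N * l) a e φ R) :
    Fermat.Agent.T4.helper80.HasResidual N a e l φ := by
  obtain ⟨⟨L, hLfin, hL⟩, hR⟩ := h
  refine ⟨R.toHomUnits, ⟨L, hLfin, fun σ hσ => Units.ext ?_⟩, fun p hp hpD => ?_⟩
  · rw [MonoidHom.coe_toHomUnits, hL σ hσ, Units.val_one]
  · obtain ⟨x, y, hx, hy, hxy⟩ := hR p hp hpD
    refine ⟨x, y, hx, hy, fun A hA => ⟨fun σ hσ => Units.ext ?_, fun σ hσ => ?_⟩⟩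
    · rw [MonoidHom.coe_toHomUnits, (hxy A hA).1 σ hσ, Units.val_one]
    · have h1 := (hxy A hA).2 σ hσ
      exact h1

/-- **The gluing**, matrix form: residual representations with auxiliary levels `4` and `9`
give a residual representation unramified outside `N ℓ`. -/
theorem exists_isMatRes_glue {N l : ℕ} (hN : N ≠ 0) (hl : l.Prime) {a e : ℕ → ℂ}
    {φ : Zbar →+* k} {R₄ R₉ : GQ →* Matrix (Fin 2) (Fin 2) k}
    (h4 : IsMatRes (4 * N * l) a e φ R₄) (h9 : IsMatRes (9 * N * l) a e φ R₉) :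
    ∃ R : GQ →* Matrix (Fin 2) (Fin 2) k, IsMatRes (N * l) a e φ R := by
  have hl0 : l ≠ 0 := hl.ne_zero
  have hcp := trace_det_eq_of_isMatRes (D := 4 * N * l) (D' := 9 * N * l)
    (by positivity) (by positivity) h4 h9
  -- the weak data of `R₄` at the primes not dividing `N l`
  have key : ∀ p : ℕ, p.Prime → ¬ p ∣ N * l → ∃ x y : Zbar, (x : ℂ) = a p ∧ (y : ℂ) = e p ∧
      ∀ A : ValuationSubring (AlgebraicClosure ℚ), A.LiesOverPrime p →
        (∀ σ ∈ A.inertiaSubgroupIn ℚ, (R₄ σ).trace = 2 ∧ (R₄ σ).det = 1 ∧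
          ∀ g : GQ, (R₄ (σ * g)).trace = (R₄ g).trace) ∧
        ∀ σ : GQ, A.IsFrobeniusAt σ p → (R₄ σ).trace = φ x ∧ (R₄ σ).det = φ y := by
    intro p hp hpD
    by_cases hp4 : p ∣ 4 * N * l
    · -- then `p = 2` and `p ∤ 9 N l`
      have hp4' : p ∣ 4 := by
        rw [mul_assoc] at hp4
        rcases (Nat.Prime.dvd_mul hp).1 hp4 with h | h
        · exact h
        · exact absurd h hpD
      have hp2 : p = 2 := by
        have h22 : p ∣ 2 ^ 2 := by simpa using hp4'
        exact (Nat.prime_dvd_prime_iff_eq hp Nat.prime_two).1 (hp.dvd_of_dvd_pow h22)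
      have hp9 : ¬ p ∣ 9 * N * l := by
        intro h
        rw [mul_assoc] at h
        rcases (Nat.Prime.dvd_mul hp).1 h with h | h
        · rw [hp2] at h
          omega
        · exact hpD h
      obtain ⟨x, y, hx, hy, hxy⟩ := h9.2 p hp hp9
      refine ⟨x, y, hx, hy, fun A hA => ⟨fun σ hσ => ?_, fun σ hσ => ?_⟩⟩
      · have h1 : R₉ σ = 1 := (hxy A hA).1 σ hσ
        refine ⟨?_, ?_, fun g => ?_⟩
        · rw [(hcp σ).1, h1, Matrix.trace_one]
          simp
        · rw [(hcp σ).2, h1, Matrix.det_one]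
        · rw [(hcp (σ * g)).1, (hcp g).1, map_mul, h1, one_mul]
      · obtain ⟨t, d⟩ := (hxy A hA).2 σ hσ
        exact ⟨by rw [(hcp σ).1, t], by rw [(hcp σ).2, d]⟩
    · obtain ⟨x, y, hx, hy, hxy⟩ := h4.2 p hp hp4
      refine ⟨x, y, hx, hy, fun A hA => ⟨fun σ hσ => ?_, (hxy A hA).2⟩⟩
      have h1 : R₄ σ = 1 := (hxy A hA).1 σ hσ
      refine ⟨?_, ?_, fun g => ?_⟩
      · rw [h1, Matrix.trace_one]
        simp
      · rw [h1, Matrix.det_one]
      · rw [map_mul, h1, one_mul]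
  obtain ⟨L, hLfin, hL⟩ := h4.1
  by_cases hinv : ∃ v, IsInvLine R₄ v
  · -- the reducible case: the diagonal part
    obtain ⟨v, hv⟩ := hinv
    refine ⟨diagOf R₄ hv, ⟨L, hLfin, fun σ hσ => ?_⟩, fun p hp hpD => ?_⟩
    · have h1 : R₄ σ = 1 := hL σ hσ
      exact diagOf_eq_one R₄ hv σ (by rw [h1, Matrix.trace_one]; simp)
        (by rw [h1, Matrix.det_one])
    · obtain ⟨x, y, hx, hy, hxy⟩ := key p hp hpD
      refine ⟨x, y, hx, hy, fun A hA => ⟨fun σ hσ => ?_, fun σ hσ => ?_⟩⟩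
      · obtain ⟨t, d, -⟩ := (hxy A hA).1 σ hσ
        exact diagOf_eq_one R₄ hv σ t d
      · obtain ⟨t, d⟩ := (hxy A hA).2 σ hσ
        exact ⟨by rw [diagOf_trace, t], by rw [diagOf_det, d]⟩
  · -- the irreducible case: `R₄` itself
    refine ⟨R₄, ⟨L, hLfin, hL⟩, fun p hp hpD => ?_⟩
    obtain ⟨x, y, hx, hy, hxy⟩ := key p hp hpD
    refine ⟨x, y, hx, hy, fun A hA => ⟨fun σ hσ => ?_, (hxy A hA).2⟩⟩
    obtain ⟨t, d, hg⟩ := (hxy A hA).1 σ hσ
    exact eq_one_of_trace_mul_eq R₄ hinv σ t d hg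

/-- **The gluing**: from the module forms at the auxiliary levels `4` and `9`. -/
theorem hasResidual_of_mod {N l : ℕ} (hN : N ≠ 0) (hl : l.Prime) {a e : ℕ → ℂ}
    {φ : Zbar →+* k} (h4 : HasResidualMod (4 * N * l) a e φ)
    (h9 : HasResidualMod (9 * N * l) a e φ) :
    Fermat.Agent.T4.helper80.HasResidual N a e l φ := by
  obtain ⟨R₄, hR₄⟩ := exists_isMatRes h4
  obtain ⟨R₉, hR₉⟩ := exists_isMatRes h9
  obtain ⟨R, hR⟩ := exists_isMatRes_glue hN hl hR₄ hR₉
  exact hasResidual_of_isMatRes hR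

/-- **[R-GLUE]** the residual representations of `ResStatement` from those of the two auxiliary
levels. -/
theorem glue (h4 : Res1Statement 4) (h9 : Res1Statement 9)
    (N : ℕ) [NeZero N] (ε : DirichletCharacter ℂ N) (f : CuspForm (Gamma1 N) 1)
    (h1 : ModularFormClass.qCoeff f 1 = 1)
    (hT : InPacket N ε (fun p => ModularFormClass.qCoeff f p) f) :
    Fermat.Agent.T4.helper80.ResStatement N (fun p : ℕ => ModularFormClass.qCoeff f p)
      (fun p : ℕ => ε (p : ZMod N)) := by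
  intro B
  have hN : N ≠ 0 := NeZero.ne N
  obtain ⟨l, hlB, hlp⟩ := Nat.exists_infinite_primes (max B (max 4 (N + 1)))
  have hB : B ≤ l := le_trans (le_max_left _ _) hlB
  have h4l : 4 ≤ l := le_trans (le_trans (le_max_left _ _) (le_max_right _ _)) hlB
  have hNl : N + 1 ≤ l := le_trans (le_trans (le_max_right _ _) (le_max_right _ _)) hlB
  have hlN : ¬ l ∣ N := fun h => by
    have := Nat.le_of_dvd (Nat.pos_of_ne_zero hN) h
    omega
  have hl2 : l ≠ 2 := by omega
  have hl4 : ¬ l ∣ 4 * N := by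
    intro h
    rcases (Nat.Prime.dvd_mul hlp).1 h with h | h
    · have := Nat.le_of_dvd (by norm_num) h
      have h22 : l ∣ 2 ^ 2 := by simpa using h
      have := (Nat.prime_dvd_prime_iff_eq hlp Nat.prime_two).1 (hlp.dvd_of_dvd_pow h22)
      omega
    · exact hlN h
  have hl9 : ¬ l ∣ 9 * N := by
    intro h
    rcases (Nat.Prime.dvd_mul hlp).1 h with h | h
    · have h33 : l ∣ 3 ^ 2 := by simpa using h
      have := (Nat.prime_dvd_prime_iff_eq hlp Nat.prime_three).1 (hlp.dvd_of_dvd_pow h33)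
      omega
    · exact hlN h
  refine ⟨l, hB, hlp, fun k hk hc ha φ => ?_⟩
  exact hasResidual_of_mod hN hlp (h4 N inferInstance ε f h1 hT l hlp hl2 hl4 k hk hc ha φ)
    (h9 N inferInstance ε f h1 hT l hlp hl2 hl9 k hk hc ha φ)

/-- **[R-GLUE]** with the hypotheses of the frozen statement S48 written out (the shape of
`helper80.FormsStatement`). -/
theorem glue' (h4 : Res1Statement 4) (h9 : Res1Statement 9)
    (N : ℕ) [NeZero N] (ε : DirichletCharacter ℂ N) (f : CuspForm (Gamma1 N) 1)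
    (h1 : ModularFormClass.qCoeff f 1 = 1)
    (hT : ∀ p : ℕ, p.Prime → ¬ p ∣ N → ∀ n : ℕ,
      ModularFormClass.qCoeff f (p * n) +
          ε (p : ZMod N) * (if p ∣ n then ModularFormClass.qCoeff f (n / p) else 0) =
        ModularFormClass.qCoeff f p * ModularFormClass.qCoeff f n) :
    Fermat.Agent.T4.helper80.ResStatement N (fun p : ℕ => ModularFormClass.qCoeff f p)
      (fun p : ℕ => ε (p : ZMod N)) :=
  glue h4 h9 N ε f h1 hT

end Fermat.Agent.T4.helper42
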