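import Mathlib

/-!
# T4 / S48, block (V), leaf [V-DIV] (helper51): division of holomorphic functions on `ℍ`

If `K ^ m = P * H ^ m` with `K`, `P`, `H` holomorphic on the upper half plane and `0 < m`, then
`K = φ * H` with `φ` holomorphic (`divCore`; the hypothesis `H ≠ 0` is not needed).

`φ` is the normal form (`toMeromorphicNFOn`) of the meromorphic function `K / H` on the upper
half plane: its order is non-negative everywhere because `(K / H) ^ m` agrees with `P` on a
punctured neighbourhood of every point where `H` is not locally zero, and `K / H` is locally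
zero elsewhere.

Mathlib only.  The verbatim statement `helper89.DivStatement` is in `helper51_DivInst.lean`.
-/

set_option autoImplicit false

open UpperHalfPlane Filter Topology
open scoped Manifold

noncomputable section

namespace Fermat.Agent.T4.helper51

/-- the open upper half plane as a subset of `ℂ` -/
def uhs : Set ℂ := {z : ℂ | 0 < z.im}

theorem isOpen_uhs : IsOpen uhs := isOpen_upperHalfPlaneSet

/-- a holomorphic function on `ℍ` is analytic at the points of the upper half plane -/
theorem analyticAt_comp_ofComplex {f : ℍ → ℂ} (hf : MDiff f) {z : ℂ} (hz : z ∈ uhs) :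
    AnalyticAt ℂ (f ∘ ofComplex) z :=
  (UpperHalfPlane.mdifferentiable_iff.1 hf).analyticAt (isOpen_uhs.mem_nhds hz)

/-- `0 ≤ m * o` with `0 < m` forces `0 ≤ o` in `WithTop ℤ` -/
theorem withTop_nonneg_of_nat_mul {m : ℕ} (hm : 0 < m) {o : WithTop ℤ}
    (h : 0 ≤ (m : WithTop ℤ) * o) : 0 ≤ o := by
  induction o using WithTop.recTopCoe with
  | top => exact le_top
  | coe a =>
    have h5 : ((m : WithTop ℤ)) * ((a : ℤ) : WithTop ℤ) = (((m : ℤ) * a : ℤ) : WithTop ℤ) := by
      push_cast
      rfl
    rw [h5] at h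
    have h7 : (0 : ℤ) ≤ (m : ℤ) * a := by exact_mod_cast h
    have h8 : (0 : ℤ) ≤ a := by
      by_contra hneg
      push Not at hneg
      have : (m : ℤ) * a < 0 := mul_neg_of_pos_of_neg (by exact_mod_cast hm) hneg
      omega
    exact_mod_cast h8

/-- **Division, function level**: if `k ^ m = p * h ^ m` on an open set `U` on which `k`, `p`,
`h` are analytic and `0 < m`, then the normal form `φ` of `k / h` on `U` is analytic on `U` and
`k = φ * h` on `U`. -/
theorem div_core_fun {U : Set ℂ} (hU : IsOpen U) {k p h : ℂ → ℂ} {m : ℕ} (hm : 0 < m)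
    (hk : ∀ z ∈ U, AnalyticAt ℂ k z) (hp : ∀ z ∈ U, AnalyticAt ℂ p z)
    (hh : ∀ z ∈ U, AnalyticAt ℂ h z) (hrel : ∀ z ∈ U, k z ^ m = p z * h z ^ m) :
    (∀ z ∈ U, AnalyticAt ℂ (toMeromorphicNFOn (k / h) U) z) ∧
      ∀ z ∈ U, k z = toMeromorphicNFOn (k / h) U z * h z := by
  have hmer : MeromorphicOn (k / h) U := fun z hz =>
    (hk z hz).meromorphicAt.div (hh z hz).meromorphicAt
  -- pointwise: `(k / h) * h = k` on `U`
  have hpt : ∀ z ∈ U, (k / h) z * h z = k z := by
    intro z hz
    by_cases h0 : h z = 0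
    · have hk0 : k z = 0 := by
        have := hrel z hz
        rw [h0, zero_pow hm.ne', mul_zero] at this
        exact pow_eq_zero_iff hm.ne' |>.1 this
      simp [h0, hk0]
    · simp [Pi.div_apply, div_mul_cancel₀ _ h0]
  -- the order of `k / h` is non-negative
  have hord : ∀ z ∈ U, 0 ≤ meromorphicOrderAt (k / h) z := by
    intro z hz
    by_cases htop : meromorphicOrderAt h z = ⊤
    · -- `h` is locally zero, hence so is `k / h`
      have h1 : ∀ᶠ w in 𝓝[≠] z, h w = 0 := meromorphicOrderAt_eq_top_iff.1 htop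
      have h2 : (k / h) =ᶠ[𝓝[≠] z] (fun _ => (0 : ℂ)) := by
        filter_upwards [h1] with w hw
        simp [Pi.div_apply, hw]
      have h3 : meromorphicOrderAt (k / h) z = ⊤ := by
        rw [meromorphicOrderAt_eq_top_iff]
        exact h2
      rw [h3]
      exact le_top
    · have h1 : ∀ᶠ w in 𝓝[≠] z, h w ≠ 0 :=
        (meromorphicOrderAt_ne_top_iff_eventually_ne_zero (hh z hz).meromorphicAt).1 htop
      have hUn : ∀ᶠ w in 𝓝[≠] z, w ∈ U :=
        (hU.mem_nhds hz : U ∈ 𝓝 z) |> fun h => Filter.Eventually.filter_mono nhdsWithin_le_nhds h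
      have h2 : (k / h) ^ m =ᶠ[𝓝[≠] z] p := by
        filter_upwards [h1, hUn] with w hw hwU
        have := hrel w hwU
        simp only [Pi.pow_apply, Pi.div_apply, div_pow]
        rw [this, mul_div_assoc, div_self (pow_ne_zero m hw), mul_one]
      have h3 : meromorphicOrderAt ((k / h) ^ m) z = meromorphicOrderAt p z :=
        meromorphicOrderAt_congr h2
      rw [meromorphicOrderAt_pow (hmer z hz)] at h3
      have h4 : 0 ≤ meromorphicOrderAt p z := (hp z hz).meromorphicOrderAt_nonneg
      rw [← h3] at h4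
      -- `0 ≤ m * o` with `0 < m` in `WithTop ℤ`
      exact withTop_nonneg_of_nat_mul hm h4
  have han : ∀ z ∈ U, AnalyticAt ℂ (toMeromorphicNFOn (k / h) U) z := by
    intro z hz
    have hNF : MeromorphicNFAt (toMeromorphicNFOn (k / h) U) z :=
      meromorphicNFOn_toMeromorphicNFOn (k / h) U hz
    rw [← hNF.meromorphicOrderAt_nonneg_iff_analyticAt,
      meromorphicOrderAt_toMeromorphicNFOn hmer hz]
    exact hord z hz
  refine ⟨han, ?_⟩
  intro z hz
  -- both sides are continuous at `z` and agree on a punctured neighbourhood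
  have hUn : ∀ᶠ w in 𝓝[≠] z, w ∈ U :=
    Filter.Eventually.filter_mono nhdsWithin_le_nhds (hU.mem_nhds hz)
  have hev : ∀ᶠ w in 𝓝[≠] z, k w = toMeromorphicNFOn (k / h) U w * h w := by
    filter_upwards [hmer.toMeromorphicNFOn_eq_self_on_nhdsNE hz, hUn] with w hw hwU
    rw [hw, hpt w hwU]
  have hc1 : ContinuousAt k z := (hk z hz).continuousAt
  have hc2 : ContinuousAt (fun w => toMeromorphicNFOn (k / h) U w * h w) z :=
    ((han z hz).continuousAt).mul (hh z hz).continuousAt
  have ht1 : Tendsto k (𝓝[≠] z) (𝓝 (k z)) := hc1.tendsto.mono_left nhdsWithin_le_nhds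
  have ht2 : Tendsto (fun w => toMeromorphicNFOn (k / h) U w * h w) (𝓝[≠] z)
      (𝓝 (toMeromorphicNFOn (k / h) U z * h z)) := hc2.tendsto.mono_left nhdsWithin_le_nhds
  exact tendsto_nhds_unique (ht1.congr' hev) ht2

/-- **[V-DIV]**, without the hypothesis `H ≠ 0`. -/
theorem divCore (K P H : ℍ → ℂ) (m : ℕ) (hm : 0 < m) (hK : MDiff K) (hP : MDiff P)
    (hH : MDiff H) (hrel : K ^ m = P * H ^ m) : ∃ φ : ℍ → ℂ, MDiff φ ∧ K = φ * H := by
  set k : ℂ → ℂ := K ∘ ofComplex with hkdef
  set p : ℂ → ℂ := P ∘ ofComplex with hpdef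
  set h : ℂ → ℂ := H ∘ ofComplex with hhdef
  have hrel' : ∀ z ∈ uhs, k z ^ m = p z * h z ^ m := by
    intro z _
    have := congrFun hrel (ofComplex z)
    simpa [hkdef, hpdef, hhdef] using this
  obtain ⟨han, heq⟩ := div_core_fun isOpen_uhs hm
    (fun z hz => analyticAt_comp_ofComplex hK hz) (fun z hz => analyticAt_comp_ofComplex hP hz)
    (fun z hz => analyticAt_comp_ofComplex hH hz) hrel'
  refine ⟨fun τ => toMeromorphicNFOn (k / h) uhs (τ : ℂ), ?_, ?_⟩
  · rw [UpperHalfPlane.mdifferentiable_iff]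
    intro z hz
    have hz' : z ∈ uhs := hz
    have h1 : DifferentiableAt ℂ (toMeromorphicNFOn (k / h) uhs) z := (han z hz').differentiableAt
    refine (h1.differentiableWithinAt).congr (fun w hw => ?_) ?_
    · simp only [Function.comp_apply]
      rw [ofComplex_apply_of_im_pos hw]
    · simp only [Function.comp_apply]
      rw [ofComplex_apply_of_im_pos hz]
  · funext τ
    have := heq (τ : ℂ) τ.im_pos
    simpa [hkdef, hhdef, ofComplex_apply] using this

end Fermat.Agent.T4.helper51

end
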