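import Fermat.Agent.T4.helper89_ConjDefs
import Fermat.Agent.T4.helper51_Div

/-!
# T4 / S48, block (V), leaf [V-DIV] (helper51): `helper89.DivStatement`

The verbatim Prop `Fermat.Agent.T4.helper89.DivStatement`, from `helper51.divCore`.
-/

set_option autoImplicit false

namespace Fermat.Agent.T4.helper51

/-- **[V-DIV]**: division of holomorphic functions on the upper half plane. -/
theorem divStatement_holds : Fermat.Agent.T4.helper89.DivStatement :=
  fun K P H m hm hK hP hH _ hrel => divCore K P H m hm hK hP hH hrel

end Fermat.Agent.T4.helper51
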