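import Mathlib
import Fermat.Agent.T4.helper89_ConjDefs

/-!
# T4 / S48, block (V), leaf [V-E3] (helper60)

`e3 : helper89.E3Statement` — for every odd Dirichlet character `χ` mod `N` the series
`(-2πi)⁻³ ∑_{(c,d)} χ(c) (c τ + d)⁻³` is a modular form of weight three on `Γ₁(N)` with
nebentypus `χ` and `q`-expansion `∑_{n ≥ 1} (∑_{c ∣ n} χ(c) (n/c)²) qⁿ`.

Construction: `h = (-2πi)⁻³ L(3, χ) ∑_a χ(a₀) E_a` with the Mathlib Eisenstein series `E_a` of
level `Γ(N)` (sums over coprime pairs congruent to `a`); holomorphy and boundedness at the cusps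
come from Mathlib, the nebentypus from `eisensteinSeries_slash_apply`, the `q`-expansion from the
Lipschitz formula `EisensteinSeries.qExpansion_identity_pnat`.
-/

set_option autoImplicit false

noncomputable section

namespace Fermat.Agent.T4.helper60

open UpperHalfPlane hiding I
open Complex CongruenceSubgroup ModularForm EisensteinSeries Matrix
open scoped MatrixGroups Real Manifold Nat

variable {N : ℕ} (χ : DirichletCharacter ℂ N)

/-! ### The combination and its nebentypus -/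

/-- The character combination of the Mathlib Eisenstein series of weight three. -/
def e3Comb [NeZero N] (z : ℍ) : ℂ := ∑ a : Fin 2 → ZMod N, χ (a 0) * eisensteinSeries a 3 z

lemma e3Comb_eq_sum [NeZero N] :
    e3Comb χ = ∑ a : Fin 2 → ZMod N, χ (a 0) • eisensteinSeries a 3 := by
  funext z
  simp [e3Comb, Finset.sum_apply]

/-- The reduction of `γ` modulo `N`, as a matrix. -/
def e3Red (N : ℕ) (γ : SL(2, ℤ)) : Matrix (Fin 2) (Fin 2) (ZMod N) :=
  ((SpecialLinearGroup.map (Int.castRingHom (ZMod N)) γ : SL(2, ZMod N)) :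
    Matrix (Fin 2) (Fin 2) (ZMod N))

lemma e3Red_mul (γ δ : SL(2, ℤ)) : e3Red N (γ * δ) = e3Red N γ * e3Red N δ := by
  unfold e3Red
  rw [map_mul]
  rfl

lemma e3Red_one : e3Red N 1 = 1 := by
  unfold e3Red
  rw [map_one]
  rfl

lemma e3Red_apply (γ : SL(2, ℤ)) (i j : Fin 2) : e3Red N γ i j = ((γ i j : ℤ) : ZMod N) := by
  simp [e3Red]

/-- Right multiplication by the reduction of `γ` as a permutation of `(ℤ/N)²`. -/
def e3Perm (γ : SL(2, ℤ)) : (Fin 2 → ZMod N) ≃ (Fin 2 → ZMod N) where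
  toFun a := a ᵥ* e3Red N γ
  invFun a := a ᵥ* e3Red N γ⁻¹
  left_inv a := by
    dsimp only
    rw [vecMul_vecMul, ← e3Red_mul, mul_inv_cancel, e3Red_one, vecMul_one]
  right_inv a := by
    dsimp only
    rw [vecMul_vecMul, ← e3Red_mul, inv_mul_cancel, e3Red_one, vecMul_one]

lemma e3Perm_apply (γ : SL(2, ℤ)) (a : Fin 2 → ZMod N) :
    e3Perm γ a = a ᵥ* e3Red N γ := rfl

lemma e3Perm_symm_apply_zero (γ : SL(2, ℤ)) (hγ : γ ∈ Gamma0 N) (b : Fin 2 → ZMod N) :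
    (e3Perm γ).symm b 0 = b 0 * ((γ 1 1 : ℤ) : ZMod N) := by
  have h10 : ((γ 1 0 : ℤ) : ZMod N) = 0 := Gamma0_mem.1 hγ
  have h00 : e3Red N γ⁻¹ 0 0 = ((γ 1 1 : ℤ) : ZMod N) := by
    rw [e3Red_apply, SpecialLinearGroup.SL2_inv_expl]
    rfl
  have h10' : e3Red N γ⁻¹ 1 0 = 0 := by
    rw [e3Red_apply, SpecialLinearGroup.SL2_inv_expl]
    show ((-(γ 1 0 : ℤ) : ℤ) : ZMod N) = 0
    rw [Int.cast_neg, h10, neg_zero]
  show (b ᵥ* e3Red N γ⁻¹) 0 = _
  simp only [vecMul, dotProduct, Fin.sum_univ_two, h00, h10', mul_zero, add_zero]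

/-- **Nebentypus** of the combination. -/
lemma e3Comb_slash [NeZero N] (γ : SL(2, ℤ)) (hγ : γ ∈ Gamma0 N) :
    e3Comb χ ∣[(3 : ℤ)] γ = χ ((γ 1 1 : ℤ) : ZMod N) • e3Comb χ := by
  rw [e3Comb_eq_sum, SlashAction.sum_slash, Finset.smul_sum]
  simp_rw [SL_smul_slash, eisensteinSeries_slash_apply]
  rw [← Equiv.sum_comp (e3Perm γ)
    (fun b => χ ((γ 1 1 : ℤ) : ZMod N) • χ (b 0) • eisensteinSeries b 3)]
  refine Finset.sum_congr rfl fun a _ => ?_
  have h := e3Perm_symm_apply_zero γ hγ (e3Perm γ a)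
  rw [Equiv.symm_apply_apply] at h
  rw [smul_smul, ← map_mul, mul_comm, ← h]
  rfl

/-! ### The modular form -/

/-- The combination as a modular form of level `Γ(N)`. -/
def e3Full [NeZero N] (c : ℂ) : ModularForm (Gamma N) 3 :=
  c • ∑ a : Fin 2 → ZMod N, χ (a 0) • eisensteinSeriesMF (k := 3) (le_refl 3) a

lemma e3Full_coe [NeZero N] (c : ℂ) : ⇑(e3Full χ c) = c • e3Comb χ := by
  have h : ⇑(∑ a : Fin 2 → ZMod N, χ (a 0) • eisensteinSeriesMF (k := 3) (le_refl 3) a) =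
      ∑ a : Fin 2 → ZMod N, ⇑(χ (a 0) • eisensteinSeriesMF (k := 3) (le_refl 3) a) :=
    map_sum (FunLike.coeAddMonoidHom (ModularForm (Gamma N) 3) ℍ ℂ) _ _
  rw [e3Full, FunLike.coe_smul, h, e3Comb_eq_sum]
  congr 1

/-- The weight-three Eisenstein series with nebentypus, as a modular form on `Γ₁(N)`. -/
def e3MF [NeZero N] (c : ℂ) : ModularForm (Gamma1 N) 3 where
  toFun := e3Full χ c
  slash_action_eq' A hA := by
    obtain ⟨γ, hγ, rfl⟩ := hA
    have h0 : γ ∈ Gamma0 N := Gamma1_in_Gamma0 N hγ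
    have h11 : ((γ 1 1 : ℤ) : ZMod N) = 1 := ((Gamma1_mem N γ).1 hγ).2.1
    have h := e3Comb_slash χ γ h0
    rw [h11, map_one, one_smul] at h
    rw [e3Full_coe]
    have h2 : (c • e3Comb χ) ∣[(3 : ℤ)] γ = c • e3Comb χ := by
      rw [SL_smul_slash, h]
    rw [ModularForm.SL_slash] at h2
    exact h2
  holo' := (e3Full χ c).holo'
  bdd_at_cusps' {c'} hc := by
    apply (e3Full χ c).bdd_at_cusps'
    rw [Subgroup.IsArithmetic.isCusp_iff_isCusp_SL2Z] at hc ⊢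
    exact hc

lemma e3MF_apply [NeZero N] (c : ℂ) (z : ℍ) : e3MF χ c z = c * e3Comb χ z := by
  show e3Full χ c z = _
  rw [e3Full_coe]
  rfl

lemma e3MF_neben [NeZero N] (c : ℂ) : helper89.HasNeben N 3 χ ⇑(e3MF χ c) := by
  intro γ hγ
  have hcoe : ⇑(e3MF χ c) = c • e3Comb χ := by
    funext z
    rw [e3MF_apply]
    rfl
  rw [hcoe, SL_smul_slash, e3Comb_slash χ γ hγ, smul_comm]

/-! ### Lambert series with a bounded weight -/

lemma e3_summable_pnat_prod (f : ℕ → ℂ) (hf : ∀ n, ‖f n‖ ≤ 1) (k : ℕ) {r : ℂ} (hr : ‖r‖ < 1) :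
    Summable fun c : ℕ+ × ℕ+ => f c.1 * ((c.2 : ℕ) : ℂ) ^ k * r ^ (c.1 * c.2 : ℕ) := by
  have h := (summable_prod_mul_pow (𝕜 := ℂ) k hr).norm
  refine Summable.of_norm_bounded h fun c => ?_
  rw [mul_assoc, norm_mul]
  calc ‖f c.1‖ * ‖((c.2 : ℕ) : ℂ) ^ k * r ^ (c.1 * c.2 : ℕ)‖
      ≤ 1 * ‖((c.2 : ℕ) : ℂ) ^ k * r ^ (c.1 * c.2 : ℕ)‖ := by
        gcongr
        exact hf _
    _ = _ := one_mul _

lemma e3_sigma_fiber (f : ℕ → ℂ) (k : ℕ) (r : ℂ) (n : ℕ+) :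
    ∑' c : ↥((n : ℕ).divisorsAntidiagonal),
      f ↑(sigmaAntidiagonalEquivProd ⟨n, c⟩).1 *
        (((sigmaAntidiagonalEquivProd ⟨n, c⟩).2 : ℕ) : ℂ) ^ k *
        r ^ ((sigmaAntidiagonalEquivProd ⟨n, c⟩).1 * (sigmaAntidiagonalEquivProd ⟨n, c⟩).2 : ℕ) =
      (∑ d ∈ (n : ℕ).divisors, f d * ((n / d : ℕ) : ℂ) ^ k) * r ^ (n : ℕ) := by
  rw [tsum_fintype, Finset.sum_mul]
  simp only [sigmaAntidiagonalEquivProd, divisorsAntidiagonalFactors,
    PNat.mk_coe, Equiv.coe_fn_mk, Finset.univ_eq_attach]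
  rw [(n : ℕ).divisorsAntidiagonal.sum_attach
    (fun x : ℕ × ℕ => f x.1 * ((x.2 : ℕ) : ℂ) ^ k * r ^ (x.1 * x.2)),
    Nat.sum_divisorsAntidiagonal (fun x y => f x * ((y : ℕ) : ℂ) ^ k * r ^ (x * y))]
  refine Finset.sum_congr rfl fun i hi => ?_
  rw [Nat.mul_div_cancel' (Nat.dvd_of_mem_divisors hi)]

/-- Weighted version of `tsum_prod_pow_eq_tsum_sigma`, with summability. -/
lemma e3_tsum_prod (f : ℕ → ℂ) (hf : ∀ n, ‖f n‖ ≤ 1) (k : ℕ) {r : ℂ} (hr : ‖r‖ < 1) :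
    (Summable fun e : ℕ+ => (∑ d ∈ (e : ℕ).divisors, f d * ((e / d : ℕ) : ℂ) ^ k) * r ^ (e : ℕ)) ∧
    ∑' d : ℕ+, ∑' c : ℕ+, f d * ((c : ℕ) : ℂ) ^ k * r ^ (d * c : ℕ) =
      ∑' e : ℕ+, (∑ d ∈ (e : ℕ).divisors, f d * ((e / d : ℕ) : ℂ) ^ k) * r ^ (e : ℕ) := by
  have hs := e3_summable_pnat_prod f hf k hr
  have hs' : Summable fun c : (n : ℕ+) × ↥((n : ℕ).divisorsAntidiagonal) =>
      f ↑(sigmaAntidiagonalEquivProd c).1 * (((sigmaAntidiagonalEquivProd c).2 : ℕ) : ℂ) ^ k *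
        r ^ ((sigmaAntidiagonalEquivProd c).1 * (sigmaAntidiagonalEquivProd c).2 : ℕ) :=
    (sigmaAntidiagonalEquivProd.summable_iff).2 hs
  constructor
  · refine hs'.sigma.congr fun n => ?_
    exact e3_sigma_fiber f k r n
  · rw [← hs.tsum_prod
      (f := fun c : ℕ+ × ℕ+ => f c.1 * ((c.2 : ℕ) : ℂ) ^ k * r ^ (c.1 * c.2 : ℕ))]
    rw [← sigmaAntidiagonalEquivProd.tsum_eq]
    rw [Summable.tsum_sigma hs']
    exact tsum_congr fun n => e3_sigma_fiber f k r n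

/-! ### The `q`-expansion of the sum over all pairs -/

lemma e3_chi_zero (hχ : χ (-1) = -1) : χ 0 = 0 := by
  refine MulChar.map_nonunit χ fun hu => ?_
  have h01 : (0 : ZMod N) = 1 := isUnit_zero_iff.1 hu
  have h1 : (-1 : ZMod N) = 1 := by
    calc (-1 : ZMod N) = -1 * 1 := by ring
      _ = -1 * 0 := by rw [h01]
      _ = 0 := by ring
      _ = 1 := h01
  rw [h1, map_one] at hχ
  have : (2 : ℂ) = 0 := by linear_combination hχ
  norm_num at this

lemma e3_norm_le (a : ZMod N) : ‖χ a‖ ≤ 1 := DirichletCharacter.norm_le_one χ a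

lemma e3_summable (z : ℍ) :
    Summable fun v : Fin 2 → ℤ => χ ((v 0 : ℤ) : ZMod N) * eisSummand 3 v z := by
  refine Summable.of_norm_bounded (summable_norm_eisSummand (le_refl 3) z) fun v => ?_
  rw [norm_mul]
  calc ‖χ ((v 0 : ℤ) : ZMod N)‖ * ‖eisSummand 3 v z‖ ≤ 1 * ‖eisSummand 3 v z‖ := by
        gcongr
        exact e3_norm_le χ _
    _ = _ := one_mul _

lemma e3_summable_int_prod (z : ℍ) :
    Summable fun x : ℤ × ℤ => χ ((x.1 : ℤ) : ZMod N) * eisSummand 3 ![x.1, x.2] z := by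
  refine (finTwoArrowEquiv ℤ).summable_iff.mp <| (e3_summable χ z).congr (fun v ↦ ?_)
  simp [show ![v 0, v 1] = v from List.ofFn_inj.mp rfl]

/-- The inner sum for a positive first entry (Lipschitz formula). -/
lemma e3_inner (c : ℕ+) (z : ℍ) :
    ∑' d : ℤ, eisSummand 3 ![(c : ℤ), d] z =
      ((-2 * π * I) ^ 3 / 2) *
        ∑' n : ℕ+, ((n : ℕ) : ℂ) ^ 2 * cexp (2 * π * I * z) ^ (c * n : ℕ) := by
  have H := qExpansion_identity_pnat (k := 2) (by norm_num) ⟨c * z, by simpa using z.2⟩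
  have h2 : ((2 ! : ℕ) : ℂ) = 2 := by norm_num [Nat.factorial]
  rw [h2] at H
  have e1 : ∀ d : ℤ, eisSummand 3 ![(c : ℤ), d] z = 1 / (((c : ℂ) * z) + d) ^ (2 + 1) := by
    intro d
    simp only [eisSummand, cons_val_zero, cons_val_one, Int.cast_natCast, one_div]
    rw [_root_.zpow_neg]
    norm_cast
  simp only [e1]
  have H' : ∑' n : ℤ, 1 / ((c : ℂ) * z + n) ^ (2 + 1) = _ := H
  rw [H']
  congr 1
  refine tsum_congr fun n => ?_
  congr 1
  rw [← Complex.exp_nat_mul, ← Complex.exp_nat_mul]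
  congr 1
  push_cast
  ring

lemma e3_tsum_eq_q (hχ : χ (-1) = -1) (z : ℍ) :
    (Summable fun n : ℕ+ => helper89.eis3Coeff χ n * cexp (2 * π * I * z) ^ (n : ℕ)) ∧
    ∑' v : Fin 2 → ℤ, χ ((v 0 : ℤ) : ZMod N) * eisSummand 3 v z =
      (-2 * π * I) ^ 3 *
        ∑' n : ℕ+, helper89.eis3Coeff χ n * cexp (2 * π * I * z) ^ (n : ℕ) := by
  have hr : ‖cexp (2 * π * I * z)‖ < 1 := norm_exp_two_pi_I_lt_one z
  have hcoef : ∀ e : ℕ+, (∑ d ∈ (e : ℕ).divisors, χ (d : ZMod N) * ((e / d : ℕ) : ℂ) ^ 2) =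
      helper89.eis3Coeff χ e := fun e => rfl
  obtain ⟨hS, hT⟩ := e3_tsum_prod (fun n => χ (n : ZMod N)) (fun n => e3_norm_le χ _) 2 hr
  simp only [hcoef] at hS hT
  refine ⟨hS, ?_⟩
  have hsum := e3_summable_int_prod χ z
  have hfib : ∀ c : ℤ, Summable fun d : ℤ => χ ((c : ℤ) : ZMod N) * eisSummand 3 ![c, d] z :=
    fun c => hsum.prod_factor c
  rw [← (finTwoArrowEquiv ℤ).symm.tsum_eq]
  simp only [finTwoArrowEquiv_symm_apply, cons_val_zero]
  rw [hsum.tsum_prod, tsum_int_eq_zero_add_two_mul_tsum_pnat (fun n => ?h₁) hsum.prod]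
  case h₁ =>
    dsimp only
    rw [← tsum_comp_neg]
    refine tsum_congr fun d => ?_
    have hneg : χ (((-n : ℤ) : ℤ) : ZMod N) = - χ ((n : ℤ) : ZMod N) := by
      rw [Int.cast_neg, ← neg_one_mul, map_mul, hχ, neg_one_mul]
    rw [hneg]
    have hs : eisSummand 3 ![-n, -d] z = - eisSummand 3 ![n, d] z := by
      simp only [eisSummand, cons_val_zero, cons_val_one, Int.cast_neg]
      rw [show (-(n : ℂ) * (z : ℂ) + -(d : ℂ)) = -1 * ((n : ℂ) * z + d) by ring, mul_zpow]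
      have : ((-1 : ℂ)) ^ (-3 : ℤ) = -1 := by
        rw [_root_.zpow_neg, show (3 : ℤ) = ((3 : ℕ) : ℤ) by rfl, zpow_natCast]
        norm_num
      rw [this, neg_one_mul]
    rw [hs]
    ring
  have h0 : ∑' d : ℤ, χ (((0 : ℤ) : ℤ) : ZMod N) * eisSummand 3 ![0, d] z = 0 := by
    simp [e3_chi_zero χ hχ]
  rw [h0, zero_add]
  have hc : ∀ c : ℕ+,
      ∑' d : ℤ, χ ((((c : ℕ) : ℤ) : ℤ) : ZMod N) * eisSummand 3 ![((c : ℕ) : ℤ), d] z
      = ((-2 * π * I) ^ 3 / 2) * ∑' n : ℕ+, χ ((c : ℕ) : ZMod N) * ((n : ℕ) : ℂ) ^ 2 *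
          cexp (2 * π * I * z) ^ (c * n : ℕ) := by
    intro c
    rw [tsum_mul_left, e3_inner c z, ← tsum_mul_left, ← tsum_mul_left, ← tsum_mul_left]
    refine tsum_congr fun n => ?_
    rw [Int.cast_natCast]
    ring
  simp only [hc]
  rw [tsum_mul_left, nsmul_eq_mul, hT]
  push_cast
  ring

/-! ### The sum over all pairs in terms of the Mathlib Eisenstein series -/

/-- The sum over the coprime pairs, with the character. -/
def e3Prim (z : ℍ) : ℂ :=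
  ∑' w : gammaSet 1 1 0, χ ((w.1 0 : ℤ) : ZMod N) * eisSummand 3 w z

/-- The value `L(3, χ)`. -/
def e3L : ℂ := ∑' r : ℕ, χ (r : ZMod N) * ((r : ℂ) ^ 3)⁻¹

lemma e3_fiber (r : ℕ) (z : ℍ) :
    ∑' v : gammaSet 1 r 0, χ ((v.1 0 : ℤ) : ZMod N) * eisSummand 3 v z =
      χ (r : ZMod N) * ((r : ℂ) ^ 3)⁻¹ * e3Prim χ z := by
  rcases eq_or_ne r 0 with rfl | hr
  · have h0 : ∀ v : gammaSet 1 0 0, χ ((v.1 0 : ℤ) : ZMod N) * eisSummand 3 v z = 0 := by
      intro v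
      have hv := v.2.2
      simp only [Int.gcd_eq_zero_iff] at hv
      simp [eisSummand, hv.1, hv.2]
    simp [h0]
  · have : NeZero r := ⟨hr⟩
    have hv : ∀ v : gammaSet 1 r 0, χ ((v.1 0 : ℤ) : ZMod N) * eisSummand 3 v z =
        χ (r : ZMod N) * ((r : ℂ) ^ 3)⁻¹ *
          (χ ((((gammaSetDivGcdEquiv r) v).1 0 : ℤ) : ZMod N) *
            eisSummand 3 ((gammaSetDivGcdEquiv r) v) z) := by
      intro v
      have h1 := eisSummand_of_gammaSet_eq_divIntMap 3 z v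
      have h2 : v.1 0 = (r : ℤ) * (divIntMap r v.1) 0 := by
        have := congrFun (gammaSet_eq_gcd_mul_divIntMap v.2) 0
        simpa using this
      rw [gammaSetDivGcdEquiv_eq, h1]
      conv_lhs => rw [h2]
      rw [Int.cast_mul, Int.cast_natCast, map_mul]
      have h3 : ((r : ℂ) ^ (3 : ℤ))⁻¹ = ((r : ℂ) ^ 3)⁻¹ := by norm_cast
      rw [h3]
      ring
    simp only [hv]
    rw [tsum_mul_left]
    congr 1
    exact (gammaSetDivGcdEquiv r).tsum_eq
      (fun w : gammaSet 1 1 0 => χ ((w.1 0 : ℤ) : ZMod N) * eisSummand 3 w z)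

lemma e3_tsum_eq_L_mul_prim (z : ℍ) :
    ∑' v : Fin 2 → ℤ, χ ((v 0 : ℤ) : ZMod N) * eisSummand 3 v z = e3L χ * e3Prim χ z := by
  have hs := e3_summable χ z
  set F : (Fin 2 → ℤ) → ℂ := fun v => χ ((v 0 : ℤ) : ZMod N) * eisSummand 3 v z with hF
  have h1 : ∑' v : Fin 2 → ℤ, F v = ∑' c : (Σ r : ℕ, gammaSet 1 r 0), F c.2.1 := by
    rw [← gammaSetDivGcdSigmaEquiv.symm.tsum_eq F]
    refine tsum_congr fun c => ?_
    rw [gammaSetDivGcdSigmaEquiv_symm_eq]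
  have hs' : Summable fun c : (Σ r : ℕ, gammaSet 1 r 0) => F c.2.1 := by
    have := gammaSetDivGcdSigmaEquiv.symm.summable_iff.2 hs
    refine this.congr fun c => ?_
    simp only [Function.comp_apply]
    rw [gammaSetDivGcdSigmaEquiv_symm_eq]
  rw [h1, Summable.tsum_sigma hs']
  have h2 : ∀ r : ℕ, ∑' v : gammaSet 1 r 0, F v.1 =
      χ (r : ZMod N) * ((r : ℂ) ^ 3)⁻¹ * e3Prim χ z := fun r => e3_fiber χ r z
  rw [e3L, ← tsum_mul_right]
  exact tsum_congr h2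

lemma e3Prim_eq_comb [NeZero N] (z : ℍ) : e3Prim χ z = e3Comb χ z := by
  have hE : Summable fun v : Fin 2 → ℤ => eisSummand 3 v z :=
    (summable_norm_eisSummand (le_refl 3) z).of_norm
  unfold e3Prim e3Comb eisensteinSeries
  rw [tsum_subtype (gammaSet 1 1 0)
    (fun v : Fin 2 → ℤ => χ ((v 0 : ℤ) : ZMod N) * eisSummand 3 v z)]
  simp_rw [tsum_subtype (gammaSet N 1 _) (fun v : Fin 2 → ℤ => eisSummand 3 v z),
    ← tsum_mul_left]
  rw [← Summable.tsum_finsetSum]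
  · refine tsum_congr fun v => ?_
    rw [Finset.sum_eq_single (fun i => ((v i : ℤ) : ZMod N))]
    · by_cases hv : v ∈ gammaSet 1 1 0
      · have hv' : v ∈ gammaSet N 1 (fun i => ((v i : ℤ) : ZMod N)) := ⟨rfl, hv.2⟩
        rw [Set.indicator_of_mem hv, Set.indicator_of_mem hv']
      · have hv' : v ∉ gammaSet N 1 (fun i => ((v i : ℤ) : ZMod N)) := fun h =>
          hv ⟨Subsingleton.elim _ _, h.2⟩
        rw [Set.indicator_of_notMem hv, Set.indicator_of_notMem hv', mul_zero]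
    · intro a _ ha
      have hv' : v ∉ gammaSet N 1 a := fun h => ha h.1.symm
      rw [Set.indicator_of_notMem hv', mul_zero]
    · intro h
      exact absurd (Finset.mem_univ _) h
  · intro a _
    exact (hE.indicator _).mul_left _

/-! ### The statement -/

/-- The normalising constant `(-2πi)⁻³ L(3, χ)`. -/
def e3Const : ℂ := ((-2 * π * I) ^ 3)⁻¹ * e3L χ

lemma e3_two_pi_ne : ((-2 * π * I) ^ 3 : ℂ) ≠ 0 := by
  refine pow_ne_zero _ ?_
  simp [Real.pi_ne_zero, I_ne_zero]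

/-- Pointwise value of the Eisenstein series as a sum over the positive integers. -/
lemma e3MF_eq_tsum [NeZero N] (hχ : χ (-1) = -1) (z : ℍ) :
    e3MF χ (e3Const χ) z =
      ∑' n : ℕ+, helper89.eis3Coeff χ n * cexp (2 * π * I * z) ^ (n : ℕ) := by
  rw [e3MF_apply, e3Const, mul_assoc, ← e3Prim_eq_comb, ← e3_tsum_eq_L_mul_prim,
    (e3_tsum_eq_q χ hχ z).2, ← mul_assoc, inv_mul_cancel₀ e3_two_pi_ne, one_mul]

lemma e3_coeff_zero : helper89.eis3Coeff χ 0 = 0 := by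
  simp [helper89.eis3Coeff]

/-- The pointwise `q`-expansion. -/
lemma e3MF_hasSum [NeZero N] (hχ : χ (-1) = -1) (z : ℍ) :
    HasSum (fun m : ℕ => helper89.eis3Coeff χ m • Function.Periodic.qParam (1 : ℝ) (z : ℂ) ^ m)
      (e3MF χ (e3Const χ) z) := by
  have hq : Function.Periodic.qParam (1 : ℝ) (z : ℂ) = cexp (2 * π * I * z) := by
    simp [Function.Periodic.qParam]
  rw [hq, e3MF_eq_tsum χ hχ z]
  have hS := (e3_tsum_eq_q χ hχ z).1
  have hS' : Summable fun n : ℕ => helper89.eis3Coeff χ (n + 1) * cexp (2 * π * I * z) ^ (n + 1) :=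
    (summable_pnat_iff_summable_succ
      (f := fun n : ℕ => helper89.eis3Coeff χ n * cexp (2 * π * I * z) ^ n)).1 hS
  rw [tsum_pnat_eq_tsum_succ
    (f := fun n : ℕ => helper89.eis3Coeff χ n * cexp (2 * π * I * z) ^ n)]
  rw [← hasSum_nat_add_iff' 1]
  simp only [smul_eq_mul, Finset.range_one, Finset.sum_singleton, e3_coeff_zero, zero_mul,
    sub_zero]
  exact hS'.hasSum

/-- **[V-E3]** the weight-three Eisenstein series with nebentypus. -/
theorem e3 : helper89.E3Statement := by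
  intro N _ χ hχ
  refine ⟨e3MF χ (e3Const χ), e3MF_neben χ _, fun n => ?_⟩
  have hΓ : (1 : ℝ) ∈ ((Gamma1 N : Subgroup (GL (Fin 2) ℝ))).strictPeriods := by
    rw [CongruenceSubgroup.strictPeriods_Gamma1]
    exact AddSubgroup.mem_zmultiples 1
  exact (ModularFormClass.qExpansion_coeff_unique one_pos hΓ (e3MF_hasSum χ hχ) n).symm

end Fermat.Agent.T4.helper60
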