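import Fermat.Agent.T4.helper89_ConjSpan
import Fermat.Agent.T4.helper60_E3
import Fermat.Agent.T4.helper51_DivInst

/-!
# T4 / S48, block (V): `ConjHomStatement` and `SpanStatement`, unconditional (helper89)

Inputs: `helper60.e3 : E3Statement` (weight-3 Eisenstein series with odd character),
`helper51` (`DivStatement`), S23 on main (σ-conjugation and integral structure on `Γ₀(N)` in
every weight), `helper79.neben` is NOT needed here (the nebentypus is a hypothesis).
-/

set_option autoImplicit false

namespace Fermat.Agent.T4.helper89

/-- **[V-CONJ-HOM]**, unconditional: the weight-one cusp forms on `Γ₁(N)` with a nebentypus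
are stable under every ring homomorphism of `ℂ` applied to the `q`-coefficients. -/
theorem conjHom : ConjHomStatement :=
  conjHom_of Fermat.Agent.T4.helper60.e3 Fermat.Agent.T4.helper51.divStatement_holds

/-- **[V-SPAN]**, unconditional: the `q`-coefficients of a weight-one cusp form on `Γ₁(N)` with
a nebentypus lie in one finitely generated subgroup of `ℂ`. -/
theorem span : SpanStatement :=
  span_of Fermat.Agent.T4.helper60.e3

end Fermat.Agent.T4.helper89
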