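import Mathlib
import Fermat.Agent.S23.SigmaConj
import Fermat.Agent.S23.helper68_BDApply

/-!
# T4 block (V), leaf [V-S23G1], part 1 (helper57): the Lagrange conjugation lemma with a
*separating* form

`Fermat.Agent.S23.exists_conj_of_etaQuotient` needs a modular form `g` on the group `𝒢` all of
whose other `SL₂(ℤ)`-conjugates vanish at `i∞`.  For `𝒢 = Γ₁(N)`, `N ≥ 3`, no such form exists
(the coset of `-1` gives `± g`).  Here we prove the same statements under the weaker hypothesis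
that the limit of `g` at `i∞` *differs* from the limits of all its other conjugates, and that the
coefficientwise `σ`-conjugate of the `q`-expansion of `g` is the `q`-expansion of some modular form
`g'` on `𝒢`.

* `lagDen_coeff_zero_eq_prod` : the constant coefficient of the Lagrange denominator;
* `exists_conj_of_separating` : `σ`-conjugation of cusp forms;
* `bounded_denominators_of_separating` : bounded denominators.
-/

set_option autoImplicit false

open UpperHalfPlane ModularForm SlashInvariantForm Finset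
open scoped MatrixGroups ModularForm Manifold Pointwise

namespace Fermat.Agent.T4.helper57

open Fermat.Agent.S23 Fermat.Agent.S23.helper87 Fermat.Agent.S23.helper68

section

variable {𝒢 : Subgroup (GL (Fin 2) ℝ)} [𝒢.IsArithmetic] {k w : ℤ}

local notation "𝒬" => 𝒮ℒ ⧸ 𝒢.subgroupOf 𝒮ℒ

/-- The constant coefficient of the Lagrange denominator is the product of the differences of the
limits at `i∞`. -/
theorem lagDen_coeff_zero_eq_prod (h1 : (1 : ℝ) ∈ 𝒢.strictPeriods) (g : ModularForm 𝒢 w)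
    (c : 𝒬 → ℂ) (hc : ∀ q : 𝒬, Filter.Tendsto (quotientFunc g q) atImInfty (nhds (c q))) :
    (lagDen (conjIndex 𝒢) (qExpansion 1 g) (fun j => qExpansion 1 (esymmForm g j))).coeff 0
      = ∏ q ∈ (univ : Finset 𝒬).erase ⟦1⟧, (c ⟦1⟧ - c q) := by
  have hg : IsNice (⇑g) := IsNice.of_modularForm h1 g
  have hD : qExpansion 1 (lagDen (conjIndex 𝒢) (⇑g) (esymmFun g)) =
      lagDen (conjIndex 𝒢) (qExpansion 1 g) (fun j => qExpansion 1 (esymmForm g j)) :=
    qExpansion_lagDen hg (isNice_esymmFun g)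
  rw [← hD]
  refine IsNice.qExpansion_coeff_zero_eq_of_tendsto
    (isNice_lagDen (μ := conjIndex 𝒢) hg (isNice_esymmFun g)) ?_
  rw [lagDen_fun_eq]
  have hgt : Filter.Tendsto (⇑g) atImInfty (nhds (c ⟦1⟧)) := by
    have := hc ⟦1⟧
    rwa [quotientFunc_one] at this
  have key : Filter.Tendsto (fun z => ∏ q ∈ (univ : Finset 𝒬).erase ⟦1⟧,
      (g z - quotientFunc g q z)) atImInfty
      (nhds (∏ q ∈ (univ : Finset 𝒬).erase ⟦1⟧, (c ⟦1⟧ - c q))) :=
    tendsto_finsetProd _ fun q _ => hgt.sub (hc q)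
  convert key using 1
  funext z
  simp [Finset.prod_apply]

theorem lagDen_coeff_zero_ne_zero (h1 : (1 : ℝ) ∈ 𝒢.strictPeriods) (g : ModularForm 𝒢 w)
    (c : 𝒬 → ℂ) (hc : ∀ q : 𝒬, Filter.Tendsto (quotientFunc g q) atImInfty (nhds (c q)))
    (hsep : ∀ q : 𝒬, q ≠ ⟦1⟧ → c q ≠ c ⟦1⟧) :
    (lagDen (conjIndex 𝒢) (qExpansion 1 g) (fun j => qExpansion 1 (esymmForm g j))).coeff 0
      ≠ 0 := by
  rw [lagDen_coeff_zero_eq_prod h1 g c hc]
  refine Finset.prod_ne_zero_iff.mpr fun q hq => ?_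
  exact sub_ne_zero.mpr (Ne.symm (hsep q (Finset.mem_erase.mp hq).1))

variable [𝒢.HasDetOne]

/-- **σ-conjugation of cusp forms**, given a form `g` whose Lagrange denominator has a nonzero
constant term and a form `g'` whose `q`-expansion is the `σ`-conjugate of that of `g`. -/
theorem exists_conj_of_lagDen (h1 : (1 : ℝ) ∈ 𝒢.strictPeriods) (h𝒢 : 𝒢 ≤ 𝒮ℒ)
    (σ : ℂ →+* ℂ) (g g' : ModularForm 𝒢 w)
    (hgσ : qExpansion 1 g' = PowerSeries.map σ (qExpansion 1 g))
    (hQ3 : (lagDen (conjIndex 𝒢) (qExpansion 1 g)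
      (fun j => qExpansion 1 (esymmForm g j))).coeff 0 ≠ 0)
    (f : CuspForm 𝒢 k) :
    ∃ G : CuspForm 𝒢 k, qExpansion 1 G = PowerSeries.map σ (qExpansion 1 f) := by
  classical
  set μ := conjIndex 𝒢 with hμ
  set fM : ModularForm 𝒢 k := CuspForm.toModularFormₗ f with hfM
  -- the level one forms and their conjugates
  choose A' hA' using fun j : ℕ =>
    helper16.exists_conj_levelOne_map σ (k * j) (esymmForm fM j)
  choose B' hB' using fun j : ℕ =>
    helper16.exists_conj_levelOne_map σ (w * j) (esymmForm g j)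
  choose T' hT' using fun n : ℕ =>
    helper16.exists_conj_levelOne_map σ (k + n * w) (traceMulPow fM g n)
  -- q-expansion data
  set φ : PowerSeries ℂ →+* PowerSeries ℂ := PowerSeries.map σ with hφ
  set D₀ := lagDen μ (qExpansion 1 g) (fun j => qExpansion 1 (esymmForm g j)) with hD₀
  have hQ1 : monicRel μ (fun j => qExpansion 1 (esymmForm fM j)) (qExpansion 1 f) = 0 :=
    qExpansion_monicRel_eq_zero h1 fM
  have hQ2 : D₀ * qExpansion 1 f = lagNum μ (qExpansion 1 g)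
      (fun j => qExpansion 1 (esymmForm g j)) (fun n => qExpansion 1 (traceMulPow fM g n)) :=
    qExpansion_lagDen_mul h1 fM g
  -- niceness
  have hgN : IsNice (⇑g') := IsNice.of_modularForm h1 g'
  have hA'N : ∀ j, IsNice (⇑(A' j)) := fun j => IsNice.of_levelOne _
  have hB'N : ∀ j, IsNice (⇑(B' j)) := fun j => IsNice.of_levelOne _
  have hT'N : ∀ n, IsNice (⇑(T' n)) := fun n => IsNice.of_levelOne _
  -- the functions D', P'
  set D' : ℍ → ℂ := lagDen μ (⇑g') (fun j => ⇑(B' j)) with hD'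
  set P' : ℍ → ℂ := lagNum μ (⇑g') (fun j => ⇑(B' j)) (fun n => ⇑(T' n)) with hP'
  have hD'N : IsNice D' := isNice_lagDen hgN hB'N
  have hP'N : IsNice P' := isNice_lagNum hgN hB'N hT'N
  have hD'q : qExpansion 1 D' = φ D₀ := by
    rw [hD', qExpansion_lagDen hgN hB'N, hD₀, map_lagDen, hgσ]
    congr 1
    funext j
    exact hB' j
  have hP'q : qExpansion 1 P' = φ D₀ * φ (qExpansion 1 f) := by
    rw [hP', qExpansion_lagNum hgN hB'N hT'N, ← map_mul, hQ2, map_lagNum, hgσ]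
    congr 1
    · funext j; exact hB' j
    · funext n; exact hT' n
  -- modularity of D', P'
  have hgMF : IsMF 𝒢 w (⇑g') := IsMF.coe g'
  have hB'MF : ∀ j : ℕ, IsMF 𝒢 (w * (j : ℤ)) (⇑(B' j)) := fun j => (IsMF.coe (B' j)).mono h𝒢
  have hT'MF : ∀ n : ℕ, IsMF 𝒢 (k + (n : ℤ) * w) (⇑(T' n)) :=
    fun n => (IsMF.coe (T' n)).mono h𝒢
  obtain ⟨Dm, hDm⟩ := isMF_lagDen (μ := μ) hgMF hB'MF
  obtain ⟨Pm, hPm⟩ :=
    (isMF_lagNum (μ := μ) (k := k) hgMF hB'MF hT'MF).congr_weight (add_comm _ _)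
  have hD0coeff : (qExpansion 1 D').coeff 0 ≠ 0 := by
    rw [hD'q, hφ, PowerSeries.coeff_map]
    exact fun h0 => hQ3 ((map_eq_zero σ).mp h0)
  have hDm0 : Dm ≠ 0 := by
    intro h0
    have h2 : D' = 0 := by
      rw [hD', ← hDm, h0]
      rfl
    rw [h2, UpperHalfPlane.qExpansion_zero] at hD0coeff
    simp at hD0coeff
  -- the coefficients of the monic relation
  let c : Fin μ → ℍ → ℂ := fun i => (-1 : ℍ → ℂ) ^ (μ - (i : ℕ)) * ⇑(A' (μ - (i : ℕ)))
  let wt : Fin μ → ℤ := fun i => k * ((μ - (i : ℕ) : ℕ) : ℤ)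
  have hcMF : ∀ i, IsMF 𝒮ℒ (wt i) (c i) := fun i =>
    IsMF.mul' (IsMF.neg_one_pow _) (IsMF.coe (A' _)) (zero_add _)
  have hc : ∀ i, MDiff (c i) := fun i => (hcMF i).mdiff
  have hw : ∀ i : Fin μ, wt i + (i : ℕ) * k = μ * k := by
    intro i
    have h2 : ((μ - (i : ℕ) : ℕ) : ℤ) = (μ : ℤ) - ((i : ℕ) : ℤ) := by
      have := i.2
      omega
    simp only [wt]
    rw [h2]
    ring
  have hcs : ∀ i, ∀ γ : SL(2, ℤ), c i ∣[wt i] γ = c i := fun i γ =>
    (hcMF i).slash_eq ⟨γ, rfl⟩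
  have hA'0 : ∀ j, 0 < j → (qExpansion 1 (A' j)).coeff 0 = 0 := by
    intro j hj
    rw [hA' j, PowerSeries.coeff_map, qExpansion_esymmForm_coeff_zero f hj, map_zero]
  have hc0 : ∀ i, IsZeroAtImInfty (c i) := by
    intro i
    have hj : 0 < μ - (i : ℕ) := by
      have := i.2
      omega
    have ht := (hA'N (μ - (i : ℕ))).tendsto_coeff_zero
    rw [hA'0 _ hj] at ht
    have hz : IsZeroAtImInfty (⇑(A' (μ - (i : ℕ)))) := ht
    have hb : IsBoundedAtImInfty ((-1 : ℍ → ℂ) ^ (μ - (i : ℕ))) := (IsNice.one.neg.pow _).bdd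
    have := hz.mul_boundedAtFilter hb
    rwa [mul_comm] at this
  -- the relation
  have hA'zero : (⇑(A' 0) : ℍ → ℂ) = 1 := by
    apply IsNice.eq_of_qExpansion_eq (hA'N 0) IsNice.one
    rw [hA' 0, qExpansion_esymmForm_zero, UpperHalfPlane.qExpansion_one, map_one]
  have hrelfun : monicRelHom μ (fun j => ⇑(A' j)) D' P' = 0 := by
    apply IsNice.eq_of_qExpansion_eq (isNice_monicRelHom hD'N hP'N hA'N) IsNice.zero
    rw [qExpansion_monicRelHom hD'N hP'N hA'N, UpperHalfPlane.qExpansion_zero, hD'q, hP'q]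
    have h3 : (fun j => qExpansion 1 (A' j)) = fun j => φ (qExpansion 1 (esymmForm fM j)) :=
      funext hA'
    rw [h3, ← map_mul, ← map_monicRelHom, monicRelHom_eq_zero rfl hQ1, map_zero]
  have hrel : ∀ z, Pm z ^ μ + ∑ i : Fin μ, c i z * Dm z ^ (μ - (i : ℕ)) * Pm z ^ (i : ℕ)
      = 0 := by
    intro z
    have h := congrFun hrelfun z
    rw [monicRelHom_eq_fin μ _ hA'zero] at h
    have hDm' : (⇑Dm : ℍ → ℂ) = D' := hDm
    have hPm' : (⇑Pm : ℍ → ℂ) = P' := hPm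
    rw [← hDm', ← hPm'] at h
    simpa [c] using h
  have hX : qExpansion 1 Dm * φ (qExpansion 1 f) = qExpansion 1 Pm := by
    have hDm' : (⇑Dm : ℍ → ℂ) = D' := hDm
    have hPm' : (⇑Pm : ℍ → ℂ) = P' := hPm
    rw [hDm', hPm', hD'q, hP'q]
  obtain ⟨G, -, hG⟩ := helper42.exists_cuspForm_qExpansion_eq one_pos h1 Pm Dm hDm0 c wt hc hw
    hcs hc0 hrel _ hX
  exact ⟨G, hG⟩

/-- **σ-conjugation of cusp forms**, given a separating form `g` and a form `g'` whose
`q`-expansion is the `σ`-conjugate of that of `g`. -/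
theorem exists_conj_of_separating (h1 : (1 : ℝ) ∈ 𝒢.strictPeriods) (h𝒢 : 𝒢 ≤ 𝒮ℒ)
    (σ : ℂ →+* ℂ) (g g' : ModularForm 𝒢 w)
    (hgσ : qExpansion 1 g' = PowerSeries.map σ (qExpansion 1 g))
    (c : 𝒬 → ℂ) (hc : ∀ q : 𝒬, Filter.Tendsto (quotientFunc g q) atImInfty (nhds (c q)))
    (hsep : ∀ q : 𝒬, q ≠ ⟦1⟧ → c q ≠ c ⟦1⟧)
    (f : CuspForm 𝒢 k) :
    ∃ G : CuspForm 𝒢 k, qExpansion 1 G = PowerSeries.map σ (qExpansion 1 f) :=
  exists_conj_of_lagDen h1 h𝒢 σ g g' hgσ (lagDen_coeff_zero_ne_zero h1 g c hc hsep) f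

/-- **Bounded denominators**, given a form `g` with `q`-expansion in `intAlg` whose Lagrange
denominator has nonzero constant term. -/
theorem bounded_denominators_of_lagDen (h1 : (1 : ℝ) ∈ 𝒢.strictPeriods)
    (g : ModularForm 𝒢 w) (hgA : qExpansion 1 g ∈ intAlg)
    (hQ3 : (lagDen (conjIndex 𝒢) (qExpansion 1 g)
      (fun j => qExpansion 1 (esymmForm g j))).coeff 0 ≠ 0)
    (f : CuspForm 𝒢 k)
    (hf : ∀ n, ∃ r : ℚ, (qExpansion 1 f).coeff n = (r : ℂ)) :
    ∃ M : ℤ, M ≠ 0 ∧ ∀ n, ∃ a : ℤ, (M : ℂ) * (qExpansion 1 f).coeff n = (a : ℂ) := by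
  classical
  set μ := conjIndex 𝒢 with hμ
  set fM : ModularForm 𝒢 k := CuspForm.toModularFormₗ f with hfM
  set D₀ := lagDen μ (qExpansion 1 g) (fun j => qExpansion 1 (esymmForm g j)) with hD₀
  have hQ1 : monicRel μ (fun j => qExpansion 1 (esymmForm fM j)) (qExpansion 1 f) = 0 :=
    qExpansion_monicRel_eq_zero h1 fM
  have hQ2 : D₀ * qExpansion 1 f = lagNum μ (qExpansion 1 g)
      (fun j => qExpansion 1 (esymmForm g j)) (fun n => qExpansion 1 (traceMulPow fM g n)) :=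
    qExpansion_lagDen_mul h1 fM g
  have hbA : ∀ j, qExpansion 1 (esymmForm g j) ∈ intAlg.toSubring :=
    fun j => levelOne_qExpansion_mem_intAlg _ _
  have htA : ∀ n, qExpansion 1 (traceMulPow fM g n) ∈ intAlg.toSubring :=
    fun n => levelOne_qExpansion_mem_intAlg _ _
  have haA : ∀ j, qExpansion 1 (esymmForm fM j) ∈ intAlg :=
    fun j => levelOne_qExpansion_mem_intAlg _ _
  have hD : D₀ ∈ intAlg := lagDen_mem intAlg.toSubring hgA hbA
  have hD0 : D₀ ≠ 0 := by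
    intro h0
    rw [h0] at hQ3
    simp at hQ3
  have hDx : D₀ * qExpansion 1 f ∈ intAlg := by
    rw [hQ2]
    exact lagNum_mem intAlg.toSubring hgA hbA htA
  have hroot : qExpansion 1 f ^ μ + ∑ i ∈ Finset.range μ,
      ((-1) ^ (μ - i) * qExpansion 1 (esymmForm fM (μ - i))) * qExpansion 1 f ^ i = 0 := by
    rw [← monicRel_eq_fin μ (fun j => qExpansion 1 (esymmForm fM j))
      (qExpansion_esymmForm_zero fM)]
    exact hQ1
  exact bd_of_intAlg (qExpansion 1 f) hf D₀ hD hD0 hDx μ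
    (fun i => (-1) ^ (μ - i) * qExpansion 1 (esymmForm fM (μ - i)))
    (fun i _ => intAlg.mul_mem (intAlg.pow_mem (intAlg.neg_mem intAlg.one_mem) _) (haA _))
    hroot

end

end Fermat.Agent.T4.helper57
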