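import Mathlib
import Fermat.Agent.T4.helper21_EisFinal

/-!
# T4 block (V), leaf [V-S23G1], part 2 (helper57): the separating form on `Γ₁(N)`

`sepMF N b = (2πi)⁻¹ · divVal N (0, b)` is a modular form of weight one on `Γ₁(N)` (block (III),
helper21: weight-one division values of the Weierstrass zeta function).

* `sepFun_slash`, `sepFun_slash_of_mem_Gamma0` : its `SL₂(ℤ)`-conjugates;
* `sepFun_hasSum`, `sepCoeff` : its `q`-expansion
  `(ζ^b + 1)/(2 (ζ^b - 1)) + ∑_{n ≥ 1} (∑_{r ∣ n} (ζ^{-rb} - ζ^{rb})) qⁿ`, `ζ = exp(2πi/N)`;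
* `exists_sepCoeff_conj` : `σ (sepCoeff N 1 n) = sepCoeff N d n` for a suitable `d`;
* `sepCoeff_zero_ne_zero`, `dvd_of_sepCoeff_zero_eq` : separation of the constant terms.
-/

set_option autoImplicit false

noncomputable section

namespace Fermat.Agent.T4.helper57

open UpperHalfPlane hiding I
open Complex EisensteinSeries CongruenceSubgroup ModularForm Filter
open scoped MatrixGroups Real Manifold
open Fermat.Agent.T4.helper21

variable (N : ℕ)

/-! ### Elementary facts -/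

theorem sep_vecMul (b : ℤ) (γ : SL(2, ℤ)) :
    Matrix.vecMul ![0, b] (γ : Matrix (Fin 2) (Fin 2) ℤ) = ![b * γ 1 0, b * γ 1 1] := by
  funext i
  fin_cases i <;> simp [Matrix.vecMul, dotProduct, Fin.sum_univ_two]

theorem sep_det (γ : SL(2, ℤ)) : γ 0 0 * γ 1 1 - γ 0 1 * γ 1 0 = 1 := by
  have := γ.det_coe
  rwa [Matrix.det_fin_two] at this

theorem sep_notDiv {b : ℤ} (hb : ¬ (N : ℤ) ∣ b) : NotDiv N ![0, b] := by
  intro h
  exact hb (by simpa using h 1)

theorem sep_notDiv_vecMul {b : ℤ} (hb : ¬ (N : ℤ) ∣ b) (γ : SL(2, ℤ)) :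
    NotDiv N (Matrix.vecMul ![0, b] (γ : Matrix (Fin 2) (Fin 2) ℤ)) := by
  intro h
  rw [sep_vecMul] at h
  have h0 : (N : ℤ) ∣ b * γ 1 0 := by simpa using h 0
  have h1 : (N : ℤ) ∣ b * γ 1 1 := by simpa using h 1
  apply hb
  have e : b = (b * γ 1 1) * γ 0 0 - (b * γ 1 0) * γ 0 1 := by
    have := sep_det γ
    linear_combination (-b) * this
  rw [e]
  exact dvd_sub (Dvd.dvd.mul_right h1 _) (Dvd.dvd.mul_right h0 _)

/-- the division value depends on `a` modulo `N` only. -/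
theorem divVal_congr (hN : 0 < N) {a a' : Fin 2 → ℤ} (ha : NotDiv N a)
    (h : ∀ i, (N : ℤ) ∣ a' i - a i) : divVal N a' = divVal N a := by
  choose e he using h
  have : a' = a + (N : ℤ) • e := by
    funext i
    have := he i
    simp only [Pi.add_apply, Pi.smul_apply, smul_eq_mul]
    linarith
  rw [this]
  funext τ
  exact perStatement N a e hN ha τ

/-! ### The function and its conjugates -/

/-- the normalised division value `(2πi)⁻¹ divVal N (0, b)`. -/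
def sepFun (b : ℤ) (τ : ℍ) : ℂ := (2 * π * I)⁻¹ * divVal N ![0, b] τ

theorem sepFun_slash (b : ℤ) (γ : SL(2, ℤ)) :
    (sepFun N b) ∣[(1 : ℤ)] γ = fun τ =>
      (2 * π * I)⁻¹ * divVal N (Matrix.vecMul ![0, b] (γ : Matrix (Fin 2) (Fin 2) ℤ)) τ := by
  funext τ
  rw [SL_slash_apply]
  unfold sepFun
  rw [lawStatement N ![0, b] γ τ]
  have hD : denom γ τ ≠ 0 := denom_ne_zero _ τ
  rw [zpow_neg_one]
  field_simp

theorem sepFun_slash_of_mem_Gamma0 (hN : 0 < N) {b : ℤ} (hb : ¬ (N : ℤ) ∣ b) {γ : SL(2, ℤ)}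
    (hγ : γ ∈ Gamma0 N) : (sepFun N b) ∣[(1 : ℤ)] γ = sepFun N (b * γ 1 1) := by
  rw [sepFun_slash]
  funext τ
  unfold sepFun
  congr 1
  have hc : ((γ 1 0 : ℤ) : ZMod N) = 0 := (Gamma0_mem).mp hγ
  have hc' : (N : ℤ) ∣ γ 1 0 := (ZMod.intCast_zmod_eq_zero_iff_dvd _ N).mp hc
  have hnd : NotDiv N ![0, b * γ 1 1] := by
    intro h
    have h1 : (N : ℤ) ∣ b * γ 1 1 := by simpa using h 1
    have h0 : (N : ℤ) ∣ b * γ 1 0 := Dvd.dvd.mul_left hc' b
    apply hb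
    have e : b = (b * γ 1 1) * γ 0 0 - (b * γ 1 0) * γ 0 1 := by
      have := sep_det γ
      linear_combination (-b) * this
    rw [e]
    exact dvd_sub (Dvd.dvd.mul_right h1 _) (Dvd.dvd.mul_right h0 _)
  have := divVal_congr N hN (a := ![0, b * γ 1 1])
    (a' := Matrix.vecMul ![0, b] (γ : Matrix (Fin 2) (Fin 2) ℤ)) hnd (by
      intro i
      rw [sep_vecMul]
      fin_cases i
      · simpa using Dvd.dvd.mul_left hc' b
      · simp)
  exact congrFun this τ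

theorem sepFun_slash_of_mem_Gamma1 (hN : 0 < N) {b : ℤ} (hb : ¬ (N : ℤ) ∣ b) {γ : SL(2, ℤ)}
    (hγ : γ ∈ Gamma1 N) : (sepFun N b) ∣[(1 : ℤ)] γ = sepFun N b := by
  rw [sepFun_slash]
  funext τ
  unfold sepFun
  congr 1
  obtain ⟨-, hd, hc⟩ := (Gamma1_mem N γ).mp hγ
  have hc' : (N : ℤ) ∣ γ 1 0 := (ZMod.intCast_zmod_eq_zero_iff_dvd _ N).mp hc
  have hd' : (N : ℤ) ∣ γ 1 1 - 1 := by
    have : ((γ 1 1 - 1 : ℤ) : ZMod N) = 0 := by
      push_cast
      rw [hd, sub_self]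
    exact (ZMod.intCast_zmod_eq_zero_iff_dvd _ N).mp this
  have := divVal_congr N hN (a := ![0, b])
    (a' := Matrix.vecMul ![0, b] (γ : Matrix (Fin 2) (Fin 2) ℤ)) (sep_notDiv N hb) (by
      intro i
      rw [sep_vecMul]
      fin_cases i
      · simpa using Dvd.dvd.mul_left hc' b
      · have e : b * γ 1 1 - b = b * (γ 1 1 - 1) := by ring
        simpa [e] using Dvd.dvd.mul_left hd' b)
  exact congrFun this τ

theorem sepFun_mdiff (hN : 0 < N) {b : ℤ} (hb : ¬ (N : ℤ) ∣ b) : MDiff (sepFun N b) := by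
  have h : sepFun N b = (fun _ : ℍ => (2 * π * I)⁻¹) * divVal N ![0, b] := rfl
  rw [h]
  exact mdifferentiable_const.mul (holoStatement N ![0, b] hN (sep_notDiv N hb))

theorem sepFun_slash_bdd (hN : 0 < N) {b : ℤ} (hb : ¬ (N : ℤ) ∣ b) (γ : SL(2, ℤ)) :
    IsBoundedAtImInfty ((sepFun N b) ∣[(1 : ℤ)] γ) := by
  rw [sepFun_slash]
  have h : (fun τ : ℍ => (2 * π * I)⁻¹ *
      divVal N (Matrix.vecMul ![0, b] (γ : Matrix (Fin 2) (Fin 2) ℤ)) τ) =
      (Function.const ℍ ((2 * π * I)⁻¹)) *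
        divVal N (Matrix.vecMul ![0, b] (γ : Matrix (Fin 2) (Fin 2) ℤ)) := rfl
  rw [h]
  exact BoundedAtFilter.mul (const_boundedAtFilter _ _)
    (bddStatement N _ hN (sep_notDiv_vecMul N hb γ))

/-! ### The modular form -/

/-- the slash-invariant form `sepFun N b` on `Γ₁(N)`. -/
def sepSIF (hN : 0 < N) (b : ℤ) (hb : ¬ (N : ℤ) ∣ b) : SlashInvariantForm (Gamma1 N) 1 where
  toFun := sepFun N b
  slash_action_eq' := by
    intro g hg
    obtain ⟨γ, hγ, rfl⟩ := Subgroup.mem_map.mp hg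
    exact sepFun_slash_of_mem_Gamma1 N hN hb hγ

/-- the modular form `sepFun N b` of weight one on `Γ₁(N)`. -/
def sepMF (hN : 0 < N) (b : ℤ) (hb : ¬ (N : ℤ) ∣ b) : ModularForm (Gamma1 N) 1 where
  toSlashInvariantForm := sepSIF N hN b hb
  holo' := sepFun_mdiff N hN hb
  bdd_at_cusps' := by
    intro c hc
    haveI : NeZero N := ⟨hN.ne'⟩
    have hc' : IsCusp c (Matrix.SpecialLinearGroup.mapGL ℝ).range :=
      (Subgroup.IsArithmetic.isCusp_iff_isCusp_SL2Z _).mp hc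
    rw [OnePoint.isBoundedAt_iff_forall_SL2Z hc']
    intro γ _
    exact sepFun_slash_bdd N hN hb γ

@[simp] theorem coe_sepMF (hN : 0 < N) (b : ℤ) (hb : ¬ (N : ℤ) ∣ b) :
    ⇑(sepMF N hN b hb) = sepFun N b := rfl

end Fermat.Agent.T4.helper57
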