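import Mathlib
import Fermat.Agent.T4.helper57_SepForm
import Fermat.Agent.S23.helper87_QRing

/-!
# T4 block (V), leaf [V-S23G1], part 3 (helper57): the `q`-expansion of the separating form

`qExpansion 1 (sepMF N b) = ∑ sepCoeff N b n qⁿ` with
`sepCoeff N b 0 = (ζ^b + 1)/(2 (ζ^b - 1))`, `sepCoeff N b n = ∑_{r ∣ n} (ζ^{-rb} - ζ^{rb})`,
`ζ = exp(2πi/N)`; the action of ring endomorphisms of `ℂ` on these coefficients; separation of
the constant terms.
-/

set_option autoImplicit false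

noncomputable section

namespace Fermat.Agent.T4.helper57

open UpperHalfPlane hiding I
open Complex EisensteinSeries CongruenceSubgroup ModularForm Filter
open scoped MatrixGroups Real Manifold
open Fermat.Agent.T4.helper21 Fermat.Agent.S23.helper87

local notation "𝕢" => Function.Periodic.qParam

variable (N : ℕ)

theorem one_mem_strictPeriods_Gamma1' :
    (1 : ℝ) ∈ (Gamma1 N : Subgroup (GL (Fin 2) ℝ)).strictPeriods := by
  rw [strictPeriods_Gamma1]
  exact AddSubgroup.mem_zmultiples 1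

/-- the `q`-expansion coefficients of `sepFun N b`. -/
def sepCoeff (b : ℤ) (n : ℕ) : ℂ :=
  if n = 0 then (2 * π * I)⁻¹ * (π * cot (π * (b : ℂ) / (N : ℂ)))
  else ∑ r ∈ n.divisors, (zetaPow N (-((r : ℤ) * b)) - zetaPow N ((r : ℤ) * b))

theorem qPow_eq_qParam_pow (τ : ℂ) (n : ℕ) : qPow τ n = 𝕢 1 τ ^ n := by
  unfold qPow Function.Periodic.qParam
  rw [← Complex.exp_nat_mul]
  congr 1
  simp
  ring

theorem two_pi_I_ne_zero' : (2 * π * I : ℂ) ≠ 0 := by
  have := Real.pi_ne_zero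
  simp [this, I_ne_zero]

theorem sepFun_hasSum (hN : 0 < N) {b : ℤ} (hb : ¬ (N : ℤ) ∣ b) (τ : ℍ) :
    HasSum (fun n : ℕ => sepCoeff N b n • 𝕢 1 (τ : ℂ) ^ n) (sepFun N b τ) := by
  have h := (qexpStatement N b hN hb τ).mul_left ((2 * π * I)⁻¹)
  rw [← hasSum_nat_add_iff' 1]
  have e0 : ∑ i ∈ Finset.range 1, sepCoeff N b i • 𝕢 1 (τ : ℂ) ^ i =
      (2 * π * I)⁻¹ * (π * cot (π * (b : ℂ) / (N : ℂ))) := by
    simp [sepCoeff]
  rw [e0]
  have e1 : sepFun N b τ - (2 * π * I)⁻¹ * (π * cot (π * (b : ℂ) / (N : ℂ))) =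
      (2 * π * I)⁻¹ * (divVal N ![0, b] τ - π * cot (π * (b : ℂ) / (N : ℂ))) := by
    unfold sepFun
    ring
  rw [e1]
  have key : (fun n : ℕ => sepCoeff N b (n + 1) • 𝕢 1 (τ : ℂ) ^ (n + 1)) =
      fun i : ℕ => (2 * π * I)⁻¹ * ((2 * π * I *
        ∑ r ∈ (i + 1).divisors, (zetaPow N (-((r : ℤ) * b)) - zetaPow N ((r : ℤ) * b))) *
          qPow (τ : ℂ) (i + 1)) := by
    funext n
    have hn : n + 1 ≠ 0 := Nat.succ_ne_zero n
    simp only [sepCoeff, hn, if_false, smul_eq_mul]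
    rw [← qPow_eq_qParam_pow]
    have := two_pi_I_ne_zero'
    field_simp
  rw [key]
  exact h

theorem qExpansion_sepMF (hN : 0 < N) (b : ℤ) (hb : ¬ (N : ℤ) ∣ b) :
    qExpansion 1 (sepMF N hN b hb) = PowerSeries.mk (sepCoeff N b) := by
  ext n
  rw [PowerSeries.coeff_mk]
  have hnice : IsNice (⇑(sepMF N hN b hb)) :=
    IsNice.of_modularForm (one_mem_strictPeriods_Gamma1' N) _
  exact (UpperHalfPlane.qExpansion_coeff_unique (sepMF N hN b hb) one_pos hnice.analyticAt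
    (fun τ => sepFun_hasSum N hN hb τ) n).symm

/-! ### The roots of unity -/

theorem zetaPow_eq_zpow (hN : 0 < N) (m : ℤ) : zetaPow N m = zetaPow N 1 ^ m := by
  unfold zetaPow
  rw [← Complex.exp_int_mul]
  congr 1
  push_cast
  ring

theorem zetaPow_one_isPrimitiveRoot (hN : 0 < N) : IsPrimitiveRoot (zetaPow N 1) N := by
  have h := Complex.isPrimitiveRoot_exp N hN.ne'
  have e : zetaPow N 1 = cexp (2 * π * I / N) := by
    unfold zetaPow
    congr 1
    push_cast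
    ring
  rw [e]
  exact h

theorem zetaPow_eq_one_iff (hN : 0 < N) (m : ℤ) : zetaPow N m = 1 ↔ (N : ℤ) ∣ m := by
  rw [zetaPow_eq_zpow N hN]
  exact (zetaPow_one_isPrimitiveRoot N hN).zpow_eq_one_iff_dvd m

theorem zetaPow_add (hN : 0 < N) (m n : ℤ) : zetaPow N (m + n) = zetaPow N m * zetaPow N n := by
  have hz : zetaPow N 1 ≠ 0 := (zetaPow_one_isPrimitiveRoot N hN).ne_zero hN.ne'
  rw [zetaPow_eq_zpow N hN, zetaPow_eq_zpow N hN m, zetaPow_eq_zpow N hN n, zpow_add₀ hz]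

theorem zetaPow_eq_iff (hN : 0 < N) (m n : ℤ) : zetaPow N m = zetaPow N n ↔ (N : ℤ) ∣ m - n := by
  have hz : zetaPow N 1 ≠ 0 := (zetaPow_one_isPrimitiveRoot N hN).ne_zero hN.ne'
  have hn0 : zetaPow N n ≠ 0 := by
    rw [zetaPow_eq_zpow N hN]
    exact zpow_ne_zero _ hz
  rw [← zetaPow_eq_one_iff N hN, show m - n = m + (-n) by ring, zetaPow_add N hN]
  have hinv : zetaPow N n * zetaPow N (-n) = 1 := by
    rw [← zetaPow_add N hN]
    simp [zetaPow]
  constructor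
  · intro h
    rw [h, hinv]
  · intro h
    have : zetaPow N m * (zetaPow N (-n) * zetaPow N n) = zetaPow N n := by
      rw [← mul_assoc, h, one_mul]
    rwa [mul_comm (zetaPow N (-n)), hinv, mul_one] at this

/-- the constant term in algebraic form. -/
theorem sepCoeff_zero (hN : 0 < N) {b : ℤ} (hb : ¬ (N : ℤ) ∣ b) :
    sepCoeff N b 0 = (zetaPow N b + 1) / (2 * (zetaPow N b - 1)) := by
  have hu : zetaPow N b ≠ 1 := fun h => hb ((zetaPow_eq_one_iff N hN b).mp h)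
  have hu' : zetaPow N b - 1 ≠ 0 := sub_ne_zero.mpr hu
  have hu'' : 1 - zetaPow N b ≠ 0 := sub_ne_zero.mpr (Ne.symm hu)
  have hpi : (π : ℂ) ≠ 0 := by exact_mod_cast Real.pi_ne_zero
  simp only [sepCoeff, if_true]
  have e : (π : ℂ) * (b : ℂ) / (N : ℂ) = π * ((b : ℂ) / (N : ℂ)) := by ring
  rw [e, Complex.cot_pi_eq_exp_ratio]
  have e2 : cexp (2 * π * I * ((b : ℂ) / (N : ℂ))) = zetaPow N b := by
    unfold zetaPow
    congr 1
    ring
  rw [e2]
  have hI : (I : ℂ) ≠ 0 := I_ne_zero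
  field_simp
  have hI2 : (I : ℂ) ^ 2 = -1 := I_sq
  linear_combination ((zetaPow N b + 1) * (zetaPow N b - 1)) * hI2

theorem sepCoeff_pos {n : ℕ} (hn : n ≠ 0) (b : ℤ) :
    sepCoeff N b n =
      ∑ r ∈ n.divisors, (zetaPow N (-((r : ℤ) * b)) - zetaPow N ((r : ℤ) * b)) := by
  simp [sepCoeff, hn]

/-- Ring endomorphisms of `ℂ` permute the separating forms. -/
theorem exists_sepCoeff_conj (hN : 2 ≤ N) (σ : ℂ →+* ℂ) :
    ∃ d : ℤ, ¬ (N : ℤ) ∣ d ∧ ∀ n, σ (sepCoeff N 1 n) = sepCoeff N d n := by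
  have hN0 : 0 < N := by omega
  haveI : NeZero N := ⟨hN0.ne'⟩
  have hprim := zetaPow_one_isPrimitiveRoot N hN0
  have hpow : (σ (zetaPow N 1)) ^ N = 1 := by
    rw [← map_pow, hprim.pow_eq_one, map_one]
  obtain ⟨i, -, hi⟩ := hprim.eq_pow_of_pow_eq_one hpow
  have hσ : ∀ m : ℤ, σ (zetaPow N m) = zetaPow N ((i : ℤ) * m) := by
    intro m
    rw [zetaPow_eq_zpow N hN0 m, map_zpow₀, ← hi, zetaPow_eq_zpow N hN0 ((i : ℤ) * m),
      zpow_mul, zpow_natCast]
  have hd : ¬ (N : ℤ) ∣ (i : ℤ) := by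
    intro hdvd
    have h1 : zetaPow N (i : ℤ) = 1 := (zetaPow_eq_one_iff N hN0 _).mpr hdvd
    have h2 : σ (zetaPow N 1) = 1 := by
      rw [hσ 1, mul_one, h1]
    have h3 : zetaPow N 1 = 1 := by
      have := σ.injective (h2.trans (map_one σ).symm)
      exact this
    have h4 := (zetaPow_eq_one_iff N hN0 1).mp h3
    have h5 : (N : ℤ) ≤ 1 := Int.le_of_dvd one_pos h4
    omega
  have h1 : ¬ (N : ℤ) ∣ (1 : ℤ) := by
    intro h4
    have h5 : (N : ℤ) ≤ 1 := Int.le_of_dvd one_pos h4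
    omega
  refine ⟨i, hd, fun n => ?_⟩
  rcases Nat.eq_zero_or_pos n with rfl | hn
  · rw [sepCoeff_zero N hN0 h1, sepCoeff_zero N hN0 hd, map_div₀, map_add, map_mul, map_sub,
      map_one, hσ 1, mul_one, map_ofNat]
  · rw [sepCoeff_pos N hn.ne', sepCoeff_pos N hn.ne', map_sum]
    refine Finset.sum_congr rfl fun r _ => ?_
    rw [map_sub, hσ, hσ]
    congr 2 <;> ring

/-! ### Separation of the constant terms -/

theorem sepCoeff_zero_ne_zero (hN : 3 ≤ N) : sepCoeff N 1 0 ≠ 0 := by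
  have hN0 : 0 < N := by omega
  have h1 : ¬ (N : ℤ) ∣ (1 : ℤ) := by
    intro h4
    have h5 : (N : ℤ) ≤ 1 := Int.le_of_dvd one_pos h4
    omega
  rw [sepCoeff_zero N hN0 h1]
  have hu : zetaPow N 1 ≠ 1 := fun h => h1 ((zetaPow_eq_one_iff N hN0 1).mp h)
  have hu' : zetaPow N 1 - 1 ≠ 0 := sub_ne_zero.mpr hu
  intro h0
  rw [div_eq_zero_iff] at h0
  rcases h0 with h0 | h0
  · -- ζ = -1, so ζ² = 1 and N ∣ 2
    have h2 : zetaPow N 2 = 1 := by
      have e : zetaPow N 2 = zetaPow N 1 * zetaPow N 1 := by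
        rw [← zetaPow_add N hN0]
        norm_num
      rw [e]
      have : zetaPow N 1 = -1 := by linear_combination h0
      rw [this]
      ring
    have h3 := (zetaPow_eq_one_iff N hN0 2).mp h2
    have h5 : (N : ℤ) ≤ 2 := Int.le_of_dvd (by norm_num) h3
    omega
  · exact hu' (by simpa using h0)

theorem dvd_of_sepCoeff_zero_eq (hN : 2 ≤ N) {d : ℤ} (hd : ¬ (N : ℤ) ∣ d)
    (h : sepCoeff N d 0 = sepCoeff N 1 0) : (N : ℤ) ∣ d - 1 := by
  have hN0 : 0 < N := by omega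
  have h1 : ¬ (N : ℤ) ∣ (1 : ℤ) := by
    intro h4
    have h5 : (N : ℤ) ≤ 1 := Int.le_of_dvd one_pos h4
    omega
  rw [sepCoeff_zero N hN0 h1, sepCoeff_zero N hN0 hd] at h
  have hu : zetaPow N 1 - 1 ≠ 0 :=
    sub_ne_zero.mpr fun h => h1 ((zetaPow_eq_one_iff N hN0 1).mp h)
  have hv : zetaPow N d - 1 ≠ 0 :=
    sub_ne_zero.mpr fun h => hd ((zetaPow_eq_one_iff N hN0 d).mp h)
  rw [div_eq_div_iff (mul_ne_zero two_ne_zero hv) (mul_ne_zero two_ne_zero hu)] at h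
  have huv : zetaPow N d = zetaPow N 1 := by linear_combination (-1 / 4 : ℂ) * h
  exact (zetaPow_eq_iff N hN0 d 1).mp huv

end Fermat.Agent.T4.helper57
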