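import Mathlib
import Fermat.Agent.T4.helper57_ConjGen
import Fermat.Agent.T4.helper57_SepQExp
import Fermat.Agent.S23.EtaQuotient

/-!
# T4 block (V), leaf [V-S23G1], part 4 (helper57): `σ`-conjugation of cusp forms on `Γ₁(N)`

For `N ≥ 3`, every weight `k` and every ring endomorphism `σ` of `ℂ`, the coefficientwise
`σ`-conjugate of the `q`-expansion of a cusp form on `Γ₁(N)` is again the `q`-expansion of a cusp
form on `Γ₁(N)` (same level, same weight): `exists_conj_Gamma1`.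

The separating form is `g = g₀ · sepMF N 1`, `g₀` the eta quotient of S23 (restricted to
`Γ₁(N)`), `sepMF N 1` the weight-one division value of block (III).
-/

set_option autoImplicit false

open UpperHalfPlane ModularForm SlashInvariantForm Finset CongruenceSubgroup
open scoped MatrixGroups ModularForm Manifold Pointwise

namespace Fermat.Agent.T4.helper57

open Fermat.Agent.S23 Fermat.Agent.S23.helper87 Fermat.Agent.S23.helper68

theorem gamma1_le_gamma0_GL (N : ℕ) :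
    (Gamma1 N : Subgroup (GL (Fin 2) ℝ)) ≤ (Gamma0 N : Subgroup (GL (Fin 2) ℝ)) :=
  Subgroup.map_mono (Gamma1_in_Gamma0 N)

/-- the eta quotient of S23, restricted to `Γ₁(N)`. -/
theorem exists_eta_Gamma1 (N : ℕ) [NeZero N] :
    ∃ (w : ℤ) (g₀ : ModularForm (Gamma1 N : Subgroup (GL (Fin 2) ℝ)) w),
      (∀ n, ∃ a : ℤ, (qExpansion 1 g₀).coeff n = (a : ℂ)) ∧
      (qExpansion 1 g₀).coeff 0 = 1 ∧
      (∀ h : SL(2, ℤ), h ∉ Gamma0 N → IsZeroAtImInfty (⇑g₀ ∣[w] h)) ∧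
      (∀ h : SL(2, ℤ), h ∈ Gamma0 N → ⇑g₀ ∣[w] h = ⇑g₀) := by
  obtain ⟨w, g, hint, h0, hz⟩ := exists_etaQuotient_weak N
  obtain ⟨g₀, hg₀⟩ := (IsMF.coe g).mono (gamma1_le_gamma0_GL N)
  refine ⟨w, g₀, ?_, ?_, ?_, ?_⟩
  · rw [hg₀]; exact hint
  · rw [hg₀]; exact h0
  · rw [hg₀]; exact hz
  · intro h hh
    rw [hg₀]
    exact g.slash_action_eq' _ (Subgroup.mem_map_of_mem _ hh)

section

variable (N : ℕ)

local notation "𝒢₁" => (Gamma1 N : Subgroup (GL (Fin 2) ℝ))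

theorem h𝒢₁ : 𝒢₁ ≤ 𝒮ℒ := Subgroup.map_le_range _ _

/-- an element of `Γ₀(N)` with lower right entry `≡ 1` lies in `Γ₁(N)`. -/
theorem mem_Gamma1_of_mem_Gamma0 {h : SL(2, ℤ)} (hh : h ∈ Gamma0 N)
    (hd : (N : ℤ) ∣ h 1 1 - 1) : h ∈ Gamma1 N := by
  rw [Gamma1_mem]
  have hc : ((h 1 0 : ℤ) : ZMod N) = 0 := Gamma0_mem.mp hh
  have hd' : ((h 1 1 : ℤ) : ZMod N) = 1 := by
    have := (ZMod.intCast_zmod_eq_zero_iff_dvd _ N).mpr hd
    push_cast at this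
    exact sub_eq_zero.mp this
  refine ⟨?_, hd', hc⟩
  have hdet := sep_det h
  have : ((h 0 0 * h 1 1 - h 0 1 * h 1 0 : ℤ) : ZMod N) = 1 := by
    rw [hdet]; simp
  push_cast at this
  rw [hc, hd'] at this
  simpa using this

theorem not_dvd_of_mem_Gamma0 (hN : 2 ≤ N) {h : SL(2, ℤ)} (hh : h ∈ Gamma0 N) :
    ¬ (N : ℤ) ∣ h 1 1 := by
  intro hd
  have hc : (N : ℤ) ∣ h 1 0 := (ZMod.intCast_zmod_eq_zero_iff_dvd _ N).mp (Gamma0_mem.mp hh)
  have hdet := sep_det h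
  have h1 : (N : ℤ) ∣ 1 := by
    rw [← hdet]
    exact dvd_sub (Dvd.dvd.mul_left hd _) (Dvd.dvd.mul_left hc _)
  have h5 : (N : ℤ) ≤ 1 := Int.le_of_dvd one_pos h1
  omega

theorem not_dvd_one (hN : 2 ≤ N) : ¬ (N : ℤ) ∣ (1 : ℤ) := by
  intro h4
  have h5 : (N : ℤ) ≤ 1 := Int.le_of_dvd one_pos h4
  omega

variable [NeZero N]

theorem tendsto_sepFun (hN : 0 < N) {b : ℤ} (hb : ¬ (N : ℤ) ∣ b) :
    Filter.Tendsto (sepFun N b) atImInfty (nhds (sepCoeff N b 0)) := by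
  have hnice : IsNice (⇑(sepMF N hN b hb)) :=
    IsNice.of_modularForm (one_mem_strictPeriods_Gamma1' N) _
  have := hnice.tendsto_coeff_zero
  rw [qExpansion_sepMF, PowerSeries.coeff_mk] at this
  exact this

/-- the limits at `i∞` of the conjugates of the separating form `g₀ · sepMF N 1`. -/
theorem exists_limit_slash (hN : 3 ≤ N) {w : ℤ} (g₀ : ModularForm 𝒢₁ w)
    (h0 : (qExpansion 1 g₀).coeff 0 = 1)
    (hz : ∀ h : SL(2, ℤ), h ∉ Gamma0 N → IsZeroAtImInfty (⇑g₀ ∣[w] h))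
    (hinv : ∀ h : SL(2, ℤ), h ∈ Gamma0 N → ⇑g₀ ∣[w] h = ⇑g₀)
    (h : SL(2, ℤ)) :
    ∃ c : ℂ, Filter.Tendsto ((⇑g₀ * sepFun N 1) ∣[w + 1] h) atImInfty (nhds c) ∧
      (c = sepCoeff N 1 0 → h ∈ Gamma1 N) := by
  have hN0 : 0 < N := by omega
  have hN2 : 2 ≤ N := by omega
  have hmul : (⇑g₀ * sepFun N 1) ∣[w + 1] h = (⇑g₀ ∣[w] h) * (sepFun N 1 ∣[(1 : ℤ)] h) :=
    ModularForm.mul_slash_SL2 w 1 h _ _
  rw [hmul]
  by_cases hh : h ∈ Gamma0 N
  · refine ⟨sepCoeff N (h 1 1) 0, ?_, ?_⟩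
    · rw [hinv h hh, sepFun_slash_of_mem_Gamma0 N hN0 (not_dvd_one N hN2) hh, one_mul]
      have hg : Filter.Tendsto (⇑g₀) atImInfty (nhds 1) := by
        have := (IsNice.of_modularForm (one_mem_strictPeriods_Gamma1' N) g₀).tendsto_coeff_zero
        rwa [h0] at this
      have hs := tendsto_sepFun N hN0 (not_dvd_of_mem_Gamma0 N hN2 hh)
      have := hg.mul hs
      rwa [one_mul] at this
    · intro hc
      exact mem_Gamma1_of_mem_Gamma0 N hh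
        (dvd_of_sepCoeff_zero_eq N hN2 (not_dvd_of_mem_Gamma0 N hN2 hh) hc)
  · refine ⟨0, ?_, ?_⟩
    · have h1 : IsZeroAtImInfty (⇑g₀ ∣[w] h) := hz h hh
      have h2 : IsBoundedAtImInfty (sepFun N 1 ∣[(1 : ℤ)] h) :=
        sepFun_slash_bdd N hN0 (not_dvd_one N hN2) h
      exact h1.mul_boundedAtFilter h2
    · intro hc
      exact absurd hc.symm (sepCoeff_zero_ne_zero N hN)

local notation "𝒬₁" => 𝒮ℒ ⧸ Subgroup.subgroupOf (Gamma1 N : Subgroup (GL (Fin 2) ℝ)) 𝒮ℒ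

theorem exists_limit_quotientFunc (hN : 3 ≤ N) {w : ℤ} (g₀ : ModularForm 𝒢₁ w)
    (h0 : (qExpansion 1 g₀).coeff 0 = 1)
    (hz : ∀ h : SL(2, ℤ), h ∉ Gamma0 N → IsZeroAtImInfty (⇑g₀ ∣[w] h))
    (hinv : ∀ h : SL(2, ℤ), h ∈ Gamma0 N → ⇑g₀ ∣[w] h = ⇑g₀)
    (q : 𝒬₁) :
    ∃ c : ℂ, Filter.Tendsto
        (quotientFunc (g₀.mul (sepMF N (by omega) 1 (not_dvd_one N (by omega)))) q)
        atImInfty (nhds c) ∧
      (c = sepCoeff N 1 0 → q = ⟦1⟧) := by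
  induction q using Quotient.inductionOn with
  | h r =>
    obtain ⟨r, γ, rfl⟩ := r
    obtain ⟨c, hc, hc'⟩ := exists_limit_slash N hN g₀ h0 hz hinv γ⁻¹
    refine ⟨c, ?_, ?_⟩
    · rw [quotientFunc_mk]
      rw [SL_slash, map_inv] at hc
      exact hc
    · intro hcc
      have hmem := hc' hcc
      rw [Quotient.eq_iff_equiv]
      change QuotientGroup.leftRel _ _ _
      rw [QuotientGroup.leftRel_apply, Subgroup.mem_subgroupOf]
      refine Subgroup.mem_map.mpr ⟨γ⁻¹, hmem, ?_⟩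
      simp

theorem map_mk_sepCoeff (hN : 2 ≤ N) (σ : ℂ →+* ℂ) :
    ∃ d : ℤ, ¬ (N : ℤ) ∣ d ∧
      PowerSeries.map σ (PowerSeries.mk (sepCoeff N 1)) = PowerSeries.mk (sepCoeff N d) := by
  obtain ⟨d, hd, h⟩ := exists_sepCoeff_conj N hN σ
  refine ⟨d, hd, ?_⟩
  ext n
  rw [PowerSeries.coeff_map, PowerSeries.coeff_mk, PowerSeries.coeff_mk, h]

/-- **σ-conjugation of cusp forms on `Γ₁(N)`**, `N ≥ 3`, `q`-expansion form. -/
theorem exists_conj_Gamma1_qExpansion (hN : 3 ≤ N) (k : ℤ) (σ : ℂ →+* ℂ)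
    (f : CuspForm 𝒢₁ k) :
    ∃ G : CuspForm 𝒢₁ k, qExpansion 1 G = PowerSeries.map σ (qExpansion 1 f) := by
  classical
  have hN0 : 0 < N := by omega
  have hN2 : 2 ≤ N := by omega
  have h1 := one_mem_strictPeriods_Gamma1' N
  obtain ⟨w, g₀, hint, h0, hz, hinv⟩ := exists_eta_Gamma1 N
  obtain ⟨d, hd, hσ⟩ := map_mk_sepCoeff N hN2 σ
  set s₁ := sepMF N hN0 1 (not_dvd_one N hN2) with hs₁
  set s₂ := sepMF N hN0 d hd with hs₂
  have hq₁ : qExpansion 1 (g₀.mul s₁) = qExpansion 1 g₀ * PowerSeries.mk (sepCoeff N 1) := by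
    rw [ModularForm.coe_mul, IsNice.qExpansion_mul (IsNice.of_modularForm h1 g₀)
      (IsNice.of_modularForm h1 s₁), hs₁, qExpansion_sepMF]
  have hq₂ : qExpansion 1 (g₀.mul s₂) = qExpansion 1 g₀ * PowerSeries.mk (sepCoeff N d) := by
    rw [ModularForm.coe_mul, IsNice.qExpansion_mul (IsNice.of_modularForm h1 g₀)
      (IsNice.of_modularForm h1 s₂), hs₂, qExpansion_sepMF]
  have hgσ : qExpansion 1 (g₀.mul s₂) = PowerSeries.map σ (qExpansion 1 (g₀.mul s₁)) := by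
    rw [hq₁, hq₂, map_mul, hσ, map_qExpansion_of_int σ hint]
  choose c hc hc' using exists_limit_quotientFunc N hN g₀ h0 hz hinv
  have hc1 : c ⟦1⟧ = sepCoeff N 1 0 := by
    have ht := hc ⟦1⟧
    rw [quotientFunc_one] at ht
    have hg : Filter.Tendsto (⇑g₀) atImInfty (nhds 1) := by
      have := (IsNice.of_modularForm h1 g₀).tendsto_coeff_zero
      rwa [h0] at this
    have hs := tendsto_sepFun N hN0 (not_dvd_one N hN2)
    have hprod := hg.mul hs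
    rw [one_mul] at hprod
    exact tendsto_nhds_unique ht hprod
  exact exists_conj_of_separating h1 (h𝒢₁ N) σ (g₀.mul s₁) (g₀.mul s₂) hgσ c hc
    (fun q hq hcq => hq (hc' q (hcq.trans hc1))) f

/-- **σ-conjugation of cusp forms on `Γ₁(N)`**, `N ≥ 3`, all weights, same level: Prelude
`qCoeff` form. -/
theorem exists_conj_Gamma1 (hN : 3 ≤ N) (k : ℤ) (σ : ℂ →+* ℂ) (f : CuspForm 𝒢₁ k) :
    ∃ G : CuspForm 𝒢₁ k,
      ∀ n, ModularFormClass.qCoeff ⇑G n = σ (ModularFormClass.qCoeff ⇑f n) := by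
  obtain ⟨G, hG⟩ := exists_conj_Gamma1_qExpansion N hN k σ f
  refine ⟨G, fun n => ?_⟩
  unfold ModularFormClass.qCoeff
  rw [hG, PowerSeries.coeff_map]

end

end Fermat.Agent.T4.helper57
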