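import Mathlib
import Fermat.Agent.T4.helper57_ConjGen

/-!
# T4 block (V), leaf [V-S23G1], part 5 (helper57): finite-dimensionality from the Lagrange
identity

Generic in the level group `𝒢`: if some modular form `g` on `𝒢` has a Lagrange denominator
with nonzero constant term, then `CuspForm 𝒢 k` is finite-dimensional for every `k`: the map
`f ↦ D₀ · qExp f` is linear, injective, and takes values in the finite-dimensional space
`∑_n lagCoef_n · qExp (M_{k + n w}(SL₂(ℤ)))`.
-/

set_option autoImplicit false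

open UpperHalfPlane ModularForm SlashInvariantForm Finset
open scoped MatrixGroups ModularForm Manifold Pointwise

namespace Fermat.Agent.T4.helper57

open Fermat.Agent.S23 Fermat.Agent.S23.helper87 Fermat.Agent.S23.helper68

noncomputable section

/-- the `q`-expansion as a linear map on level one forms. -/
def lvlQ (W : ℤ) : ModularForm 𝒮ℒ W →ₗ[ℂ] PowerSeries ℂ where
  toFun F := qExpansion 1 F
  map_add' F G := by
    rw [ModularForm.coe_add]
    exact IsNice.qExpansion_add (IsNice.of_levelOne F) (IsNice.of_levelOne G)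
  map_smul' c F := by
    rw [ModularForm.coe_smul]
    exact IsNice.qExpansion_smul c (IsNice.of_levelOne F)

variable {𝒢 : Subgroup (GL (Fin 2) ℝ)} [𝒢.IsArithmetic] [𝒢.HasDetOne] {k w : ℤ}

/-- the `q`-expansion as a linear map on cusp forms. -/
def cuspQ (h1 : (1 : ℝ) ∈ 𝒢.strictPeriods) (k : ℤ) : CuspForm 𝒢 k →ₗ[ℂ] PowerSeries ℂ where
  toFun f := qExpansion 1 f
  map_add' f g := by
    rw [CuspForm.coe_add]
    exact IsNice.qExpansion_add (IsNice.of_modularForm h1 f) (IsNice.of_modularForm h1 g)
  map_smul' c f := by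
    rw [CuspForm.coe_smul]
    exact IsNice.qExpansion_smul c (IsNice.of_modularForm h1 f)

@[simp] theorem cuspQ_apply (h1 : (1 : ℝ) ∈ 𝒢.strictPeriods) (f : CuspForm 𝒢 k) :
    cuspQ h1 k f = qExpansion 1 f := rfl

theorem cuspQ_injective (h1 : (1 : ℝ) ∈ 𝒢.strictPeriods) (k : ℤ) :
    Function.Injective (cuspQ (𝒢 := 𝒢) h1 k) := by
  intro f g hfg
  have h := IsNice.eq_of_qExpansion_eq (IsNice.of_modularForm h1 f)
    (IsNice.of_modularForm h1 g) hfg
  exact DFunLike.coe_injective h

/-- **Finite-dimensionality** of the space of cusp forms, given a form `g` whose Lagrange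
denominator has nonzero constant term. -/
theorem finiteDimensional_of_lagDen (h1 : (1 : ℝ) ∈ 𝒢.strictPeriods)
    (g : ModularForm 𝒢 w)
    (hQ3 : (lagDen (conjIndex 𝒢) (qExpansion 1 g)
      (fun j => qExpansion 1 (esymmForm g j))).coeff 0 ≠ 0) (k : ℤ) :
    FiniteDimensional ℂ (CuspForm 𝒢 k) := by
  classical
  set μ := conjIndex 𝒢 with hμ
  set D₀ := lagDen μ (qExpansion 1 g) (fun j => qExpansion 1 (esymmForm g j)) with hD₀
  have hD0 : D₀ ≠ 0 := by
    intro h0
    rw [h0] at hQ3
    simp at hQ3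
  let W₀ : Submodule ℂ (PowerSeries ℂ) := ⨆ n : Fin μ,
    Submodule.map (LinearMap.mulLeft ℂ
      (lagCoef μ (qExpansion 1 g) (fun j => qExpansion 1 (esymmForm g j)) n))
      (LinearMap.range (lvlQ (k + (n : ℕ) * w)))
  haveI : FiniteDimensional ℂ W₀ := Submodule.finiteDimensional_iSup _
  let Φ : CuspForm 𝒢 k →ₗ[ℂ] PowerSeries ℂ := (LinearMap.mulLeft ℂ D₀).comp (cuspQ h1 k)
  have hΦ : ∀ f, Φ f ∈ W₀ := by
    intro f
    have hQ2 : D₀ * qExpansion 1 f = lagNum μ (qExpansion 1 g)
        (fun j => qExpansion 1 (esymmForm g j))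
        (fun n => qExpansion 1 (traceMulPow (CuspForm.toModularFormₗ f) g n)) :=
      qExpansion_lagDen_mul h1 (CuspForm.toModularFormₗ f) g
    change D₀ * qExpansion 1 f ∈ W₀
    rw [hQ2]
    unfold lagNum
    refine Submodule.sum_mem _ fun n hn => ?_
    have hn' : n < μ := Finset.mem_range.mp hn
    refine Submodule.mem_iSup_of_mem (⟨n, hn'⟩ : Fin μ) ?_
    exact Submodule.mem_map_of_mem
      ⟨traceMulPow (CuspForm.toModularFormₗ f) g n, rfl⟩
  have hinj : Function.Injective Φ := by
    intro f g' hfg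
    apply cuspQ_injective h1 k
    have : D₀ * cuspQ h1 k f = D₀ * cuspQ h1 k g' := hfg
    exact mul_left_cancel₀ hD0 this
  exact FiniteDimensional.of_injective (Φ.codRestrict W₀ hΦ)
    (fun f g' h => hinj (by
      have := congrArg Subtype.val h
      simpa using this))

end

end Fermat.Agent.T4.helper57
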