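import Mathlib
import Fermat.Agent.T4.helper57_ConjG1
import Fermat.Agent.T4.helper57_FinG1
import Fermat.Agent.S23.helper87_GaloisDescent

/-!
# T4 block (V), leaf [V-S23G1], part 6 (helper57): integral structure on `S_k(Γ₁(N))`

For `N ≥ 3` and every weight `k`:

* `finiteDimensional_cuspForm_Gamma1` : `CuspForm (Gamma1 N) k` is finite-dimensional;
* `bounded_denominators_Gamma1` : a cusp form with rational `q`-coefficients has an integer
  multiple with integral `q`-coefficients;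
* `span_int_Gamma1` : the forms with integral `q`-coefficients span `CuspForm (Gamma1 N) k`;
* `exists_int_combination_Gamma1` : every cusp form is a finite complex combination of integer
  sequences (the input `coeffsInFG_of_span` of helper78).
-/

set_option autoImplicit false

open UpperHalfPlane ModularForm SlashInvariantForm Finset CongruenceSubgroup
open scoped MatrixGroups ModularForm Manifold Pointwise

namespace Fermat.Agent.T4.helper57

open Fermat.Agent.S23 Fermat.Agent.S23.helper87 Fermat.Agent.S23.helper68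
open Fermat.Agent.T4.helper21

noncomputable section

/-! ### The `q`-expansion of the separating form lies in `intAlg` -/

/-- the series `∑_{n ≥ 1} #{r ∣ n : r ≡ j mod N} qⁿ`. -/
def divCount (N j : ℕ) : PowerSeries ℤ :=
  PowerSeries.mk fun n => if n = 0 then 0 else ((n.divisors.filter (fun r => r % N = j)).card : ℤ)

theorem zetaPow_mod (N : ℕ) (hN : 0 < N) (r : ℕ) (b : ℤ) :
    zetaPow N ((r : ℤ) * b) = zetaPow N (((r % N : ℕ) : ℤ) * b) := by
  rw [zetaPow_eq_iff N hN]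
  have h : (r : ℤ) = ((r % N : ℕ) : ℤ) + (N : ℤ) * ((r / N : ℕ) : ℤ) := by
    have := Nat.mod_add_div r N
    exact_mod_cast this.symm
  refine ⟨((r / N : ℕ) : ℤ) * b, ?_⟩
  rw [← sub_mul]
  have : (r : ℤ) - ((r % N : ℕ) : ℤ) = (N : ℤ) * ((r / N : ℕ) : ℤ) := by linarith
  rw [this]
  ring

theorem zetaPow_neg_mod (N : ℕ) (hN : 0 < N) (r : ℕ) (b : ℤ) :
    zetaPow N (-((r : ℤ) * b)) = zetaPow N (-(((r % N : ℕ) : ℤ) * b)) := by
  have h1 := zetaPow_mod N hN r (-b)
  have e1 : (r : ℤ) * -b = -((r : ℤ) * b) := by ring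
  have e2 : ((r % N : ℕ) : ℤ) * -b = -(((r % N : ℕ) : ℤ) * b) := by ring
  rw [e1, e2] at h1
  exact h1

theorem sum_divisors_fiberwise (N : ℕ) (hN : 0 < N) (n : ℕ) (F : ℕ → ℂ) :
    ∑ r ∈ n.divisors, F (r % N) =
      ∑ j ∈ Finset.range N, F j * ((n.divisors.filter (fun r => r % N = j)).card : ℂ) := by
  classical
  rw [← Finset.sum_fiberwise_of_maps_to (s := n.divisors) (t := Finset.range N)
    (g := fun r => r % N) (fun r _ => Finset.mem_range.mpr (Nat.mod_lt r hN))]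
  refine Finset.sum_congr rfl fun j _ => ?_
  rw [Finset.sum_congr rfl (fun r hr => by rw [(Finset.mem_filter.mp hr).2]),
    Finset.sum_const, nsmul_eq_mul, mul_comm]

theorem mk_sepCoeff_eq (N : ℕ) (hN : 0 < N) (b : ℤ) :
    PowerSeries.mk (sepCoeff N b) = PowerSeries.C (sepCoeff N b 0) +
      ∑ j ∈ Finset.range N, (zetaPow N (-((j : ℤ) * b)) - zetaPow N ((j : ℤ) * b)) •
        zc (divCount N j) := by
  ext n
  rw [PowerSeries.coeff_mk, map_add, map_sum]
  rcases Nat.eq_zero_or_pos n with rfl | hn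
  · simp [divCount]
  · have hn0 : n ≠ 0 := hn.ne'
    rw [PowerSeries.coeff_C, if_neg hn0, zero_add, sepCoeff_pos N hn0]
    have e : ∀ r ∈ n.divisors, (zetaPow N (-((r : ℤ) * b)) - zetaPow N ((r : ℤ) * b)) =
        (fun j : ℕ => zetaPow N (-((j : ℤ) * b)) - zetaPow N ((j : ℤ) * b)) (r % N) := by
      intro r _
      simp only
      rw [zetaPow_mod N hN r b, zetaPow_neg_mod N hN r b]
    rw [Finset.sum_congr rfl e, sum_divisors_fiberwise N hN n
      (fun j : ℕ => zetaPow N (-((j : ℤ) * b)) - zetaPow N ((j : ℤ) * b))]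
    refine Finset.sum_congr rfl fun j _ => ?_
    rw [PowerSeries.coeff_smul, PowerSeries.coeff_map, divCount, PowerSeries.coeff_mk,
      if_neg hn0]
    simp

theorem mk_sepCoeff_mem_intAlg (N : ℕ) (hN : 0 < N) (b : ℤ) :
    PowerSeries.mk (sepCoeff N b) ∈ intAlg := by
  rw [mk_sepCoeff_eq N hN b]
  refine Subalgebra.add_mem _ ?_ ?_
  · have : (PowerSeries.C (sepCoeff N b 0) : PowerSeries ℂ) =
        algebraMap ℂ (PowerSeries ℂ) (sepCoeff N b 0) := rfl
    rw [this]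
    exact Subalgebra.algebraMap_mem _ _
  · exact sum_smul_zc_mem_intAlg _ _ _

/-! ### The separating form on `Γ₁(N)` -/

section

variable (N : ℕ) [NeZero N]

local notation "𝒢₁" => (Gamma1 N : Subgroup (GL (Fin 2) ℝ))

/-- the separating form on `Γ₁(N)`, `N ≥ 3`: its `q`-expansion is in `intAlg` and its Lagrange
denominator has a nonzero constant term. -/
theorem exists_sep_Gamma1 (hN : 3 ≤ N) :
    ∃ (w : ℤ) (g : ModularForm 𝒢₁ w), qExpansion 1 g ∈ intAlg ∧
      (lagDen (conjIndex 𝒢₁) (qExpansion 1 g)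
        (fun j => qExpansion 1 (esymmForm g j))).coeff 0 ≠ 0 := by
  classical
  have hN0 : 0 < N := by omega
  have hN2 : 2 ≤ N := by omega
  have h1 := one_mem_strictPeriods_Gamma1' N
  obtain ⟨w, g₀, hint, h0, hz, hinv⟩ := exists_eta_Gamma1 N
  set s₁ := sepMF N hN0 1 (not_dvd_one N hN2) with hs₁
  have hq₁ : qExpansion 1 (g₀.mul s₁) = qExpansion 1 g₀ * PowerSeries.mk (sepCoeff N 1) := by
    rw [ModularForm.coe_mul, IsNice.qExpansion_mul (IsNice.of_modularForm h1 g₀)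
      (IsNice.of_modularForm h1 s₁), hs₁, qExpansion_sepMF]
  choose c hc hc' using exists_limit_quotientFunc N hN g₀ h0 hz hinv
  have hc1 : c ⟦1⟧ = sepCoeff N 1 0 := by
    have ht := hc ⟦1⟧
    rw [quotientFunc_one] at ht
    have hg : Filter.Tendsto (⇑g₀) atImInfty (nhds 1) := by
      have := (IsNice.of_modularForm h1 g₀).tendsto_coeff_zero
      rwa [h0] at this
    have hs := tendsto_sepFun N hN0 (not_dvd_one N hN2)
    have hprod := hg.mul hs
    rw [one_mul] at hprod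
    exact tendsto_nhds_unique ht hprod
  refine ⟨w + 1, g₀.mul s₁, ?_, ?_⟩
  · rw [hq₁]
    exact Subalgebra.mul_mem _ (mem_intAlg_of_int hint) (mk_sepCoeff_mem_intAlg N hN0 1)
  · exact lagDen_coeff_zero_ne_zero h1 (g₀.mul s₁) c hc
      (fun q hq hcq => hq (hc' q (hcq.trans hc1)))

/-- `S_k(Γ₁(N))` is finite-dimensional (`N ≥ 3`). -/
theorem finiteDimensional_cuspForm_Gamma1 (hN : 3 ≤ N) (k : ℤ) :
    FiniteDimensional ℂ (CuspForm 𝒢₁ k) := by
  obtain ⟨w, g, -, hQ3⟩ := exists_sep_Gamma1 N hN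
  exact finiteDimensional_of_lagDen (one_mem_strictPeriods_Gamma1' N) g hQ3 k

/-- **Bounded denominators** on `Γ₁(N)` (`N ≥ 3`). -/
theorem bounded_denominators_Gamma1 (hN : 3 ≤ N) (k : ℤ) (f : CuspForm 𝒢₁ k)
    (hf : ∀ n, ∃ r : ℚ, ModularFormClass.qCoeff ⇑f n = (r : ℂ)) :
    ∃ M : ℤ, M ≠ 0 ∧ ∀ n, ∃ a : ℤ, (M : ℂ) * ModularFormClass.qCoeff ⇑f n = (a : ℂ) := by
  obtain ⟨w, g, hgA, hQ3⟩ := exists_sep_Gamma1 N hN
  exact bounded_denominators_of_lagDen (one_mem_strictPeriods_Gamma1' N) g hgA hQ3 f hf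

/-- the `q`-coefficient map, as a linear map. -/
def qCoeffLin1 (k : ℤ) : CuspForm 𝒢₁ k →ₗ[ℂ] (ℕ → ℂ) where
  toFun f n := ModularFormClass.qCoeff ⇑f n
  map_add' f g := by
    funext n
    have h := (cuspQ (one_mem_strictPeriods_Gamma1' N) k).map_add f g
    rw [cuspQ_apply, cuspQ_apply, cuspQ_apply] at h
    show (qExpansion 1 ⇑(f + g)).coeff n = (qExpansion 1 ⇑f).coeff n + (qExpansion 1 ⇑g).coeff n
    rw [h, map_add]
  map_smul' c f := by
    funext n
    have h := (cuspQ (one_mem_strictPeriods_Gamma1' N) k).map_smul c f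
    rw [cuspQ_apply, cuspQ_apply] at h
    show (qExpansion 1 ⇑(c • f)).coeff n = c • (qExpansion 1 ⇑f).coeff n
    rw [h, PowerSeries.coeff_smul, smul_eq_mul]

@[simp] theorem qCoeffLin1_apply (k : ℤ) (f : CuspForm 𝒢₁ k) (n : ℕ) :
    qCoeffLin1 N k f n = ModularFormClass.qCoeff ⇑f n := rfl

theorem qCoeffLin1_injective (k : ℤ) : Function.Injective (qCoeffLin1 N k) := by
  intro f g hfg
  apply cuspQ_injective (one_mem_strictPeriods_Gamma1' N) k
  ext n
  exact congrFun hfg n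

/-- the forms with rational `q`-coefficients span `S_k(Γ₁(N))` (`N ≥ 3`). -/
theorem span_rat_Gamma1 (hN : 3 ≤ N) (k : ℤ) :
    Submodule.span ℂ {f : CuspForm 𝒢₁ k |
      ∀ n, ∃ r : ℚ, ModularFormClass.qCoeff ⇑f n = (r : ℂ)} = ⊤ := by
  haveI := finiteDimensional_cuspForm_Gamma1 N hN k
  set Φ := qCoeffLin1 N k with hΦ
  have hinj := qCoeffLin1_injective N k
  let V : Submodule ℂ (ℕ → ℂ) := LinearMap.range Φ
  have hVstab : ∀ σ : ℂ ≃+* ℂ, ∀ v ∈ V, (fun n => σ (v n)) ∈ V := by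
    rintro σ _ ⟨f, rfl⟩
    obtain ⟨g, hg⟩ := exists_conj_Gamma1 N hN k σ.toRingHom f
    exact ⟨g, funext fun n => hg n⟩
  have hspan := span_rat_points_eq V hVstab
  rw [eq_top_iff]
  intro f _
  have hf : Φ f ∈ V := ⟨f, rfl⟩
  rw [← hspan] at hf
  have hsub : {v | v ∈ V ∧ ∀ n, ∃ r : ℚ, v n = (r : ℂ)} ⊆
      Φ '' {f : CuspForm 𝒢₁ k | ∀ n, ∃ r : ℚ, ModularFormClass.qCoeff ⇑f n = (r : ℂ)} := by
    rintro _ ⟨⟨g, rfl⟩, hr⟩
    exact ⟨g, hr, rfl⟩
  have hf' := Submodule.span_mono hsub hf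
  rw [← Submodule.map_span] at hf'
  obtain ⟨g, hg, hgf⟩ := hf'
  rw [← hinj hgf]
  exact hg

/-- **Integral structure**: the forms with integral `q`-coefficients span `S_k(Γ₁(N))`
(`N ≥ 3`). -/
theorem span_int_Gamma1 (hN : 3 ≤ N) (k : ℤ) :
    Submodule.span ℂ {f : CuspForm 𝒢₁ k |
      ∀ n, ∃ a : ℤ, ModularFormClass.qCoeff ⇑f n = (a : ℂ)} = ⊤ := by
  rw [eq_top_iff, ← span_rat_Gamma1 N hN k]
  apply Submodule.span_le.mpr
  intro f hf
  obtain ⟨M, hM, hMf⟩ := bounded_denominators_Gamma1 N hN k f hf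
  have hM' : (M : ℂ) ≠ 0 := by exact_mod_cast hM
  have h1 : (M : ℂ) • f ∈ {f : CuspForm 𝒢₁ k |
      ∀ n, ∃ a : ℤ, ModularFormClass.qCoeff ⇑f n = (a : ℂ)} := by
    intro n
    obtain ⟨a, ha⟩ := hMf n
    refine ⟨a, ?_⟩
    have := congrFun ((qCoeffLin1 N k).map_smul (M : ℂ) f) n
    simp only [qCoeffLin1_apply, Pi.smul_apply, smul_eq_mul] at this
    rw [this, ha]
  have h2 : f = (M : ℂ)⁻¹ • ((M : ℂ) • f) := by
    rw [smul_smul, inv_mul_cancel₀ hM', one_smul]
  rw [h2]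
  exact Submodule.smul_mem _ _ (Submodule.subset_span h1)

/-- Every cusp form on `Γ₁(N)` (`N ≥ 3`) is a finite complex combination of integer sequences. -/
theorem exists_int_combination_Gamma1 (hN : 3 ≤ N) (k : ℤ) (f : CuspForm 𝒢₁ k) :
    ∃ (r : ℕ) (b : Fin r → ℕ → ℤ) (c : Fin r → ℂ),
      ∀ n, ModularFormClass.qCoeff ⇑f n = ∑ i, c i * (b i n : ℂ) := by
  have hf : f ∈ Submodule.span ℂ {f : CuspForm 𝒢₁ k |
      ∀ n, ∃ a : ℤ, ModularFormClass.qCoeff ⇑f n = (a : ℂ)} := by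
    rw [span_int_Gamma1 N hN k]; trivial
  obtain ⟨r, c, g, hg⟩ := (Submodule.mem_span_set').1 hf
  choose b hb using fun i => (g i).2
  refine ⟨r, b, c, fun n => ?_⟩
  have h1 : qCoeffLin1 N k f n = ∑ i, c i * ModularFormClass.qCoeff ⇑(g i : CuspForm 𝒢₁ k) n := by
    rw [← hg, map_sum]
    simp [Finset.sum_apply]
  rw [← qCoeffLin1_apply, h1]
  exact Finset.sum_congr rfl fun i _ => by rw [hb i n]

end

end

end Fermat.Agent.T4.helper57
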