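import Mathlib
import Fermat.Agent.T4.helper78_VAlg

/-!
# T4 / S48, block (V), leaf [V-PRIM] (helper78): an algebraic, almost integral member of the
eigen-packet

Abstract form (Mathlib only).  Let `b i : ℕ → ℤ` be finitely many integer sequences and let
`a = ∑ c i * b i` (complex coefficients `c i`) be normalised (`a 1 = 1`) and satisfy the formal
Hecke relations `HeckeRel N e a` for a "character" `e` with values in a finite set of algebraic
integers.  Then there are ALGEBRAIC coefficients `c' i` such that `a' = ∑ c' i * b i` is again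
normalised, satisfies the same Hecke relations and has the same eigenvalues `a' p = a p` at the
primes `p ∤ N`; moreover a positive integer `D` makes all `D * c' i` (hence all `D * a' n`)
algebraic integers.

Proof: the Hecke relations with the eigenvalues `a p` frozen are a linear system in the
coordinates, with coefficients in the field of algebraic numbers (`[V-ALG]`); a linear system
over a subfield that has a solution with `a 1 ≠ 0` over the big field has one over the subfield.
-/

set_option autoImplicit false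

namespace Fermat.Agent.T4.helper78

open scoped BigOperators

section descent

variable {A K : Type*} [Field A] [Field K] [Algebra A K]
variable {ι κ : Type*} [Fintype ι]

/-- **Descent of solvability of a linear system**: if a (possibly infinite) homogeneous linear
system with coefficients in a field `A` has a solution `x` over an extension `K` on which the
`A`-linear form `l` does not vanish, then it has such a solution over `A`. -/
theorem exists_solution_descent (r : κ → ι → A) (l : ι → A) (x : ι → K)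
    (hx : ∀ k, ∑ i, algebraMap A K (r k i) * x i = 0)
    (hl : ∑ i, algebraMap A K (l i) * x i ≠ 0) :
    ∃ y : ι → A, (∀ k, ∑ i, r k i * y i = 0) ∧ ∑ i, l i * y i ≠ 0 := by
  classical
  by_contra hcon
  have hcon : ∀ y : ι → A, (∀ k, ∑ i, r k i * y i = 0) → ∑ i, l i * y i = 0 := by
    intro y hy
    by_contra hne
    exact hcon ⟨y, hy, hne⟩
  set W : Submodule A (ι → A) := Submodule.span A (Set.range r) with hW
  have hlW : l ∈ W := by
    by_contra hlW
    obtain ⟨f, hfl, hfW⟩ := Submodule.exists_dual_map_eq_bot_of_notMem hlW inferInstance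
    set y : ι → A := fun i => f (fun j => if i = j then 1 else 0) with hy
    have hfy : ∀ v : ι → A, f v = ∑ i, v i * y i := by
      intro v
      rw [LinearMap.pi_apply_eq_sum_univ f v]
      simp [hy, smul_eq_mul]
    have h0 : ∀ k, ∑ i, r k i * y i = 0 := by
      intro k
      rw [← hfy]
      have : f (r k) ∈ W.map f := Submodule.mem_map_of_mem (Submodule.subset_span ⟨k, rfl⟩)
      rw [hfW] at this
      exact (Submodule.mem_bot A).1 this
    exact hfl (by rw [hfy]; exact hcon y h0)
  have hall : ∀ v ∈ W, ∑ i, algebraMap A K (v i) * x i = 0 := by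
    intro v hv
    refine Submodule.span_induction ?_ ?_ ?_ ?_ hv
    · rintro _ ⟨k, rfl⟩
      exact hx k
    · simp
    · intro u w _ _ hu hw
      simp only [Pi.add_apply, map_add, add_mul, Finset.sum_add_distrib, hu, hw, add_zero]
    · intro c u _ hu
      simp only [Pi.smul_apply, smul_eq_mul, map_mul, mul_assoc, ← Finset.mul_sum, hu, mul_zero]
  exact hl (hall l hlW)

end descent

section packet

variable {N : ℕ} {e : ℕ → ℂ} {S : Set ℂ} {ι : Type*} [Fintype ι]

/-- the linear form of the Hecke relation at `(p, n)` with frozen eigenvalue `t`, evaluated on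
the integer sequence `β` -/
noncomputable def relRow (e : ℕ → ℂ) (t : ℂ) (β : ℕ → ℤ) (p n : ℕ) : ℂ :=
  (β (p * n) : ℂ) + e p * (if p ∣ n then (β (n / p) : ℂ) else 0) - t * (β n : ℂ)

lemma relRow_sum (b : ι → ℕ → ℤ) (c : ι → ℂ) (t : ℂ) (p n : ℕ) :
    ∑ i, relRow e t (b i) p n * c i =
      (∑ i, c i * (b i (p * n) : ℂ)) +
        e p * (if p ∣ n then ∑ i, c i * (b i (n / p) : ℂ) else 0) -
        t * ∑ i, c i * (b i n : ℂ) := by
  unfold relRow
  by_cases hpn : p ∣ n
  · simp only [hpn, if_true, Finset.mul_sum, ← Finset.sum_add_distrib, ← Finset.sum_sub_distrib]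
    refine Finset.sum_congr rfl fun i _ => ?_
    ring
  · simp only [hpn, if_false, mul_zero, add_zero, Finset.mul_sum, ← Finset.sum_sub_distrib]
    refine Finset.sum_congr rfl fun i _ => ?_
    ring

lemma isIntegral_natCast_complex (m : ℕ) : IsIntegral ℤ ((m : ℕ) : ℂ) := by
  simpa using isIntegral_algebraMap (R := ℤ) (A := ℂ) (x := (m : ℤ))

lemma isAlgebraic_of_isIntegral_int {x : ℂ} (hx : IsIntegral ℤ x) : IsAlgebraic ℚ x :=
  (IsFractionRing.isAlgebraic_iff ℤ ℚ ℂ).1 hx.isAlgebraic

/-- **[V-PRIM], abstract form.** -/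
theorem exists_algebraic_eigen (b : ι → ℕ → ℤ) (c : ι → ℂ) (a : ℕ → ℂ)
    (hab : ∀ n, a n = ∑ i, c i * (b i n : ℂ))
    (h1 : a 1 = 1) (hT : HeckeRel N e a) (hS : S.Finite) (hSint : ∀ x ∈ S, IsIntegral ℤ x)
    (he : ∀ p : ℕ, p.Prime → ¬ p ∣ N → e p ∈ S) :
    ∃ (c' : ι → ℂ) (D : ℕ), 0 < D ∧ (∀ i, IsAlgebraic ℚ (c' i)) ∧
      (∀ i, IsIntegral ℤ ((D : ℂ) * c' i)) ∧
      (∑ i, c' i * (b i 1 : ℂ)) = 1 ∧
      HeckeRel N e (fun n => ∑ i, c' i * (b i n : ℂ)) ∧
      ∀ p : ℕ, p.Prime → ¬ p ∣ N → (∑ i, c' i * (b i p : ℂ)) = a p := by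
  classical
  -- integrality of the eigenvalues
  have hΛ : CoeffsInFG a := coeffsInFG_of_span b c a hab
  obtain ⟨Λ, hΛfg, hΛmem⟩ := hΛ
  have haint : ∀ p : ℕ, p.Prime → ¬ p ∣ N → IsIntegral ℤ (a p) := fun p hp hpN =>
    isIntegral_of_heckeRel h1 hT hS hSint he Λ hΛfg hΛmem (eigen_mem_heckeRing hp hpN)
  -- the field of algebraic numbers
  set A : IntermediateField ℚ ℂ := algebraicClosure ℚ ℂ with hA
  have hmemA : ∀ x : ℂ, IsAlgebraic ℚ x → x ∈ A := fun x hx =>
    mem_algebraicClosure_iff.2 hx
  have hAalg : ∀ x : A, IsAlgebraic ℚ (x : ℂ) := fun x => mem_algebraicClosure_iff.1 x.2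
  -- the rows of the system: indexed by all pairs, zero at the bad pairs
  set row : ℕ × ℕ → ι → ℂ := fun pn i =>
    if pn.1.Prime ∧ ¬ pn.1 ∣ N then relRow e (a pn.1) (b i) pn.1 pn.2 else 0 with hrow
  have hrowA : ∀ pn i, row pn i ∈ A := by
    intro pn i
    simp only [hrow]
    split_ifs with h
    · unfold relRow
      have hint : ∀ z : ℤ, (z : ℂ) ∈ A := fun z => by
        have : (z : ℂ) = algebraMap ℚ ℂ (z : ℚ) := by simp
        rw [this]; exact A.algebraMap_mem _
      have hep : e pn.1 ∈ A :=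
        hmemA _ (isAlgebraic_of_isIntegral_int (hSint _ (he _ h.1 h.2)))
      have hap : a pn.1 ∈ A := hmemA _ (isAlgebraic_of_isIntegral_int (haint _ h.1 h.2))
      refine A.sub_mem (A.add_mem (hint _) (A.mul_mem hep ?_)) (A.mul_mem hap (hint _))
      split_ifs
      · exact hint _
      · exact A.zero_mem
    · exact A.zero_mem
  set r : ℕ × ℕ → ι → A := fun pn i => ⟨row pn i, hrowA pn i⟩ with hr
  set l : ι → A := fun i => ⟨(b i 1 : ℂ), by
    have : ((b i 1 : ℤ) : ℂ) = algebraMap ℚ ℂ ((b i 1 : ℤ) : ℚ) := by simp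
    rw [this]; exact A.algebraMap_mem _⟩ with hl
  -- `c` is a complex solution
  have hxsol : ∀ k, ∑ i, algebraMap A ℂ (r k i) * c i = 0 := by
    rintro ⟨p, n⟩
    have hcoe : ∀ i, algebraMap A ℂ (r (p, n) i) = row (p, n) i := fun i => rfl
    simp only [hcoe, hrow]
    by_cases h : p.Prime ∧ ¬ p ∣ N
    · simp only [h, not_false_eq_true, and_self, if_true]
      rw [relRow_sum]
      simp only [← hab]
      have := hT p h.1 h.2 n
      linear_combination this
    · simp [h]
  have hlne : ∑ i, algebraMap A ℂ (l i) * c i ≠ 0 := by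
    have hcoe : ∀ i, algebraMap A ℂ (l i) = (b i 1 : ℂ) := fun i => rfl
    simp only [hcoe]
    have : ∑ i, (b i 1 : ℂ) * c i = a 1 := by
      rw [hab]; exact Finset.sum_congr rfl fun i _ => mul_comm _ _
    rw [this, h1]
    exact one_ne_zero
  obtain ⟨y, hy0, hyl⟩ := exists_solution_descent r l c hxsol hlne
  -- normalise
  set s : A := ∑ i, l i * y i with hs
  set c' : ι → ℂ := fun i => ((y i / s : A) : ℂ) with hc'
  have hc'alg : ∀ i, IsAlgebraic ℚ (c' i) := fun i => hAalg _
  have hnorm : (∑ i, c' i * (b i 1 : ℂ)) = 1 := by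
    have h2 : (∑ i, l i * (y i / s)) = 1 := by
      simp only [mul_div_assoc', ← Finset.sum_div]
      exact div_self hyl
    have h3 := congrArg (algebraMap A ℂ) h2
    simp only [map_sum, map_mul, map_one] at h3
    rw [← h3]
    exact Finset.sum_congr rfl fun i _ => mul_comm _ _
  have hrel : ∀ p : ℕ, p.Prime → ¬ p ∣ N → ∀ n : ℕ,
      (∑ i, c' i * (b i (p * n) : ℂ)) +
        e p * (if p ∣ n then ∑ i, c' i * (b i (n / p) : ℂ) else 0) =
        a p * ∑ i, c' i * (b i n : ℂ) := by
    intro p hp hpN n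
    have h2 : (∑ i, r (p, n) i * (y i / s)) = 0 := by
      simp only [mul_div_assoc', ← Finset.sum_div, hy0 (p, n), zero_div]
    have h3 := congrArg (algebraMap A ℂ) h2
    simp only [map_sum, map_mul, map_zero] at h3
    have hcoe : ∀ i, algebraMap A ℂ (r (p, n) i) = relRow e (a p) (b i) p n := by
      intro i
      change row (p, n) i = _
      simp only [hrow, hp, hpN, not_false_eq_true, and_self, if_true]
    simp only [hcoe] at h3
    have h4 : ∑ i, relRow e (a p) (b i) p n * c' i = 0 := h3
    rw [relRow_sum] at h4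
    linear_combination h4
  have heig : ∀ p : ℕ, p.Prime → ¬ p ∣ N → (∑ i, c' i * (b i p : ℂ)) = a p := by
    intro p hp hpN
    have := hrel p hp hpN 1
    have hp1 : ¬ p ∣ 1 := by
      rw [Nat.dvd_one]; exact hp.one_lt.ne'
    simp only [mul_one, hp1, if_false, mul_zero, add_zero, hnorm] at this
    exact this
  -- clear denominators
  have hden : ∀ i, ∃ d : ℕ, 0 < d ∧ IsIntegral ℤ ((d : ℂ) * c' i) := by
    intro i
    have halgZ : IsAlgebraic ℤ (c' i) := (IsFractionRing.isAlgebraic_iff ℤ ℚ ℂ).2 (hc'alg i)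
    obtain ⟨z, hz0, hz⟩ := halgZ.exists_integral_multiple
    refine ⟨z.natAbs, Int.natAbs_pos.2 hz0, ?_⟩
    have hz' : IsIntegral ℤ ((z : ℂ) * c' i) := by
      simpa [zsmul_eq_mul] using hz
    rcases Int.natAbs_eq z with h | h
    · have : ((z.natAbs : ℕ) : ℂ) = (z : ℂ) := by
        conv_rhs => rw [h]
        simp
      rw [this]; exact hz'
    · have : ((z.natAbs : ℕ) : ℂ) = -(z : ℂ) := by
        conv_rhs => rw [h]
        simp
      rw [this, neg_mul]; exact hz'.neg
  choose d hdpos hdint using hden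
  refine ⟨c', ∏ i, d i, Finset.prod_pos fun i _ => hdpos i, hc'alg, fun i => ?_, hnorm, ?_, heig⟩
  · have hsplit : ((∏ j, d j : ℕ) : ℂ) * c' i =
        ((∏ j ∈ Finset.univ.erase i, d j : ℕ) : ℂ) * ((d i : ℂ) * c' i) := by
      rw [← Finset.mul_prod_erase Finset.univ d (Finset.mem_univ i)]
      push_cast
      ring
    rw [hsplit]
    exact (isIntegral_natCast_complex _).mul (hdint i)
  · intro p hp hpN n
    have := hrel p hp hpN n
    simp only [heig p hp hpN]
    exact this

/-- all values of the new sequence are algebraic, and `D` clears all denominators. -/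
theorem isIntegral_mul_sum (b : ι → ℕ → ℤ) (c' : ι → ℂ) (D : ℕ)
    (hD : ∀ i, IsIntegral ℤ ((D : ℂ) * c' i)) (n : ℕ) :
    IsIntegral ℤ ((D : ℂ) * ∑ i, c' i * (b i n : ℂ)) := by
  rw [Finset.mul_sum]
  refine IsIntegral.sum _ fun i _ => ?_
  rw [← mul_assoc]
  exact (hD i).mul (by simpa using isIntegral_algebraMap (R := ℤ) (A := ℂ) (x := b i n))

end packet

end Fermat.Agent.T4.helper78
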