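import Mathlib
import Fermat.Agent.T4.helper78_VPrim
import Fermat.Agent.T4.helper78_VAlgS48
import Fermat.Agent.T4.helper79_NebenIter

/-!
# T4 / S48, block (V), leaf [V-PRIM] (helper78): form level

`IntSpanStatement` (output (B) of the CONJ routes): every cusp form of weight one on `Γ₁(N)` is a
complex linear combination of finitely many cusp forms of the same level with INTEGER
`q`-coefficients.

`PrimStatement`: for the form `f` of the frozen S48 there is a cusp form `f'` of the same level
with `a₁ = 1`, the same Hecke relations and the same eigenvalues `a_p` (`p ∤ N`), all of whose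
`q`-coefficients are algebraic, and a positive integer `D` such that all `D * a_n(f')` are
algebraic integers.  (So `h := D • f'` is integral with `a₁(h) = D`: its reduction at any prime
not dividing `D` is nonzero.)

`prim_of_intSpan : IntSpanStatement → PrimStatement`.
-/

set_option autoImplicit false

open CongruenceSubgroup UpperHalfPlane
open scoped MatrixGroups ModularForm

namespace Fermat.Agent.T4.helper78

open ModularFormClass

/-- **(B)**: integer spanning families for `S₁(Γ₁(N))`. -/
def IntSpanStatement : Prop :=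
  ∀ (N : ℕ) [NeZero N] (f : CuspForm (Gamma1 N) 1),
    ∃ (m : ℕ) (G : Fin m → CuspForm (Gamma1 N) 1) (b : Fin m → ℕ → ℤ) (c : Fin m → ℂ),
      (∀ i n, ModularFormClass.qCoeff (G i) n = (b i n : ℂ)) ∧ f = ∑ i, c i • G i

/-- **[V-PRIM]**: an algebraic, almost integral member of the eigen-packet of `f`. -/
def PrimStatement : Prop :=
  ∀ (N : ℕ) [NeZero N] (ε : DirichletCharacter ℂ N) (f : CuspForm (Gamma1 N) 1),
    ModularFormClass.qCoeff f 1 = 1 →
    (∀ p : ℕ, p.Prime → ¬ p ∣ N → ∀ n : ℕ,
        ModularFormClass.qCoeff f (p * n) +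
            ε (p : ZMod N) * (if p ∣ n then ModularFormClass.qCoeff f (n / p) else 0) =
          ModularFormClass.qCoeff f p * ModularFormClass.qCoeff f n) →
    ∃ (f' : CuspForm (Gamma1 N) 1) (D : ℕ), 0 < D ∧
      ModularFormClass.qCoeff f' 1 = 1 ∧
      (∀ p : ℕ, p.Prime → ¬ p ∣ N → ∀ n : ℕ,
        ModularFormClass.qCoeff f' (p * n) +
            ε (p : ZMod N) * (if p ∣ n then ModularFormClass.qCoeff f' (n / p) else 0) =
          ModularFormClass.qCoeff f' p * ModularFormClass.qCoeff f' n) ∧
      (∀ p : ℕ, p.Prime → ¬ p ∣ N →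
        ModularFormClass.qCoeff f' p = ModularFormClass.qCoeff f p) ∧
      (∀ n : ℕ, IsAlgebraic ℚ (ModularFormClass.qCoeff f' n)) ∧
      (∀ n : ℕ, IsIntegral ℤ ((D : ℂ) * ModularFormClass.qCoeff f' n))

/-- the `q`-coefficients of a finite linear combination of cusp forms -/
theorem qCoeff_sum_smul {N : ℕ} [NeZero N] {k : ℤ} {m : ℕ} (G : Fin m → CuspForm (Gamma1 N) k)
    (c : Fin m → ℂ) (n : ℕ) :
    ModularFormClass.qCoeff (⇑(∑ i, c i • G i)) n =
      ∑ i, c i * ModularFormClass.qCoeff (G i) n := by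
  classical
  have key : ∀ s : Finset (Fin m),
      ModularFormClass.qCoeff (⇑(∑ i ∈ s, c i • G i)) n =
        ∑ i ∈ s, c i * ModularFormClass.qCoeff (G i) n := by
    intro s
    induction s using Finset.induction_on with
    | empty =>
      simp only [Finset.sum_empty]
      have h0 : (⇑(0 : CuspForm (Gamma1 N) k) : ℍ → ℂ) = (0 : ℂ) • ⇑(0 : CuspForm (Gamma1 N) k) := by
        simp
      rw [h0, helper79.qCoeff_smul (helper79.nice_coe _)]
      simp
    | insert i s hi ih =>
      rw [Finset.sum_insert hi, Finset.sum_insert hi, ← ih]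
      have h1 : (⇑(c i • G i + ∑ j ∈ s, c j • G j) : ℍ → ℂ) =
          c i • ⇑(G i) + ⇑(∑ j ∈ s, c j • G j) := by
        ext τ; simp
      rw [h1, helper79.qCoeff_add ((helper79.nice_coe (G i)).smul _) (helper79.nice_coe _),
        helper79.qCoeff_smul (helper79.nice_coe (G i))]
  exact key Finset.univ

/-- `CoeffsInFG` (the hypothesis of `s48_integrality`) from an integer spanning family. -/
theorem coeffsInFG_of_intSpan (hB : IntSpanStatement) (N : ℕ) [NeZero N]
    (f : CuspForm (Gamma1 N) 1) : CoeffsInFG (ModularFormClass.qCoeff f) := by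
  obtain ⟨m, G, b, c, hGb, hf⟩ := hB N f
  refine coeffsInFG_of_span b c _ fun n => ?_
  conv_lhs => rw [hf]
  rw [qCoeff_sum_smul]
  exact Finset.sum_congr rfl fun i _ => by rw [hGb]

/-- **[V-INT]** from an integer spanning family: the eigenvalues `a_n` (`n` prime to `N`) of the
form of the frozen S48 are algebraic integers. -/
theorem isIntegral_qCoeff_of_intSpan (hB : IntSpanStatement) (N : ℕ) [NeZero N]
    (ε : DirichletCharacter ℂ N) (f : CuspForm (Gamma1 N) 1)
    (hf₁ : ModularFormClass.qCoeff f 1 = 1)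
    (hT : ∀ p : ℕ, p.Prime → ¬ p ∣ N → ∀ n : ℕ,
        ModularFormClass.qCoeff f (p * n) +
            ε (p : ZMod N) * (if p ∣ n then ModularFormClass.qCoeff f (n / p) else 0) =
          ModularFormClass.qCoeff f p * ModularFormClass.qCoeff f n)
    (n : ℕ) (hn0 : 0 < n) (hn : n.Coprime N) :
    IsIntegral ℤ (ModularFormClass.qCoeff f n) :=
  (s48_integrality N ε f hf₁ hT (coeffsInFG_of_intSpan hB N f)).1 n hn0 hn

/-- **[V-PRIM]** from an integer spanning family. -/
theorem prim_of_intSpan (hB : IntSpanStatement) : PrimStatement := by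
  intro N _ ε f hf₁ hT
  obtain ⟨m, G, b, c, hGb, hf⟩ := hB N f
  set a : ℕ → ℂ := fun n => ModularFormClass.qCoeff f n with ha
  have hab : ∀ n, a n = ∑ i, c i * (b i n : ℂ) := by
    intro n
    simp only [ha]
    conv_lhs => rw [hf]
    rw [qCoeff_sum_smul]
    exact Finset.sum_congr rfl fun i _ => by rw [hGb]
  obtain ⟨c', D, hD, hc'alg, hc'int, hnorm, hrel, heig⟩ :=
    exists_algebraic_eigen (N := N) (e := fun p => ε (p : ZMod N))
      (S := Set.range fun x : ZMod N => ε x) b c a hab hf₁ (heckeRel_of_hT N ε a hT)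
      (Set.finite_range _) (by rintro _ ⟨x, rfl⟩; exact isIntegral_dirichlet ε x)
      (fun p _ _ => ⟨(p : ZMod N), rfl⟩)
  have hq : ∀ n, ModularFormClass.qCoeff (⇑(∑ i, c' i • G i)) n = ∑ i, c' i * (b i n : ℂ) := by
    intro n
    rw [qCoeff_sum_smul]
    exact Finset.sum_congr rfl fun i _ => by rw [hGb]
  refine ⟨∑ i, c' i • G i, D, hD, ?_, ?_, ?_, ?_, ?_⟩
  · rw [hq]; exact hnorm
  · intro p hp hpN n
    have := hrel p hp hpN n
    simp only [hq]
    exact this
  · intro p hp hpN
    rw [hq]; exact heig p hp hpN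
  · intro n
    rw [hq]
    have hA : ∀ i, c' i * (b i n : ℂ) ∈ algebraicClosure ℚ ℂ := fun i =>
      (algebraicClosure ℚ ℂ).mul_mem (mem_algebraicClosure_iff.2 (hc'alg i))
        (by
          have : ((b i n : ℤ) : ℂ) = algebraMap ℚ ℂ ((b i n : ℤ) : ℚ) := by simp
          rw [this]; exact (algebraicClosure ℚ ℂ).algebraMap_mem _)
    exact mem_algebraicClosure_iff.1 ((algebraicClosure ℚ ℂ).sum_mem fun i _ => hA i)
  · intro n
    rw [hq]
    exact isIntegral_mul_sum b c' D hc'int n

end Fermat.Agent.T4.helper78
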