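import Mathlib
import Fermat.Agent.T4.helper78_VPrimForm
import Fermat.Agent.T4.helper79_Neben
import Fermat.Agent.T4.helper32_ResDefs

/-!
# T4 / S48, block (V), leaf [V-PRIM] in the vocabulary of the architect (helper94)

`prim_of_intSpan : helper78.IntSpanStatement → helper32.PrimStatement`.

* `exists_scale_finset` : primitive scaling of a finite set of algebraic numbers at a maximal
  ideal `P` of the ring `Zbar` of all algebraic integers (number field generated by the set, the
  prime below `P`, localisation of a Dedekind domain at a nonzero prime is a valuation ring);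
* `exists_scale` : the same for a sequence of algebraic numbers lying in a finitely generated
  subgroup of `ℂ`;
* `hasNeben_of_slash` : the slash form of the nebentypus law gives the explicit form
  `helper32.HasNeben`;
* `prim_of_intSpan` : the statement, with `h = c • f'`, `f'` the algebraic normalised member of
  the eigen-packet of `helper78.prim_of_intSpan` and `c` the primitive scaling at `P`.
-/

set_option autoImplicit false
set_option linter.unusedSectionVars false
set_option linter.style.haveILetI false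
set_option linter.unusedVariables false
set_option linter.unusedSimpArgs false

open CongruenceSubgroup UpperHalfPlane
open scoped MatrixGroups ModularForm

namespace Fermat.Agent.T4.helper94.VPrim

open Fermat.Agent.T4.helper80 (Zbar)

open NumberField in
/-- **Primitive scaling of a finite set of algebraic numbers** at a maximal ideal `P` of the
algebraic integers: there is a scalar `c` such that all `c * x` (`x ∈ T`) are algebraic integers,
and one of them is not in `P`.  (The localisation of a ring of integers at a nonzero prime is a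
valuation ring.) -/
theorem exists_scale_finset (P : Ideal Zbar) (hP : P.IsMaximal) (T : Finset ℂ)
    (hT : ∀ x ∈ T, IsAlgebraic ℚ x) (hne : ∃ x ∈ T, x ≠ 0) :
    ∃ (c : ℂ) (B : ℂ → Zbar), (∀ x ∈ T, ((B x : Zbar) : ℂ) = c * x) ∧ ∃ x ∈ T, B x ∉ P := by
  classical
  let L : IntermediateField ℚ ℂ := IntermediateField.adjoin ℚ (T : Set ℂ)
  haveI hfd : FiniteDimensional ℚ L :=
    IntermediateField.finiteDimensional_adjoin (fun x hx => (hT x hx).isIntegral)
  haveI : NumberField L := ⟨⟩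
  -- the map `𝓞 L → Zbar`
  let φ : 𝓞 L →+* Zbar := ((algebraMap L ℂ).comp (algebraMap (𝓞 L) L)).codRestrict Zbar
    (fun x => (NumberField.RingOfIntegers.isIntegral_coe x).algebraMap)
  have hφ : ∀ x : 𝓞 L, ((φ x : Zbar) : ℂ) = ((x : L) : ℂ) := fun x => rfl
  -- the prime below `P`
  let 𝔭 : Ideal (𝓞 L) := P.comap φ
  haveI h𝔭p : 𝔭.IsPrime := Ideal.comap_isPrime φ P
  have h𝔭 : 𝔭 ≠ ⊥ := by
    haveI := hP
    have hmax : (Ideal.comap (algebraMap ℤ Zbar) P).IsMaximal :=
      Ideal.isMaximal_comap_of_isIntegral_of_isMaximal P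
    have hnb := Ring.ne_bot_of_isMaximal_of_not_isField hmax Int.not_isField
    obtain ⟨m, hm, hm0⟩ := Submodule.exists_mem_ne_zero_of_ne_bot hnb
    intro hbot
    have hmem : (m : 𝓞 L) ∈ 𝔭 := by
      show φ (m : 𝓞 L) ∈ P
      rw [map_intCast]
      simpa using hm
    rw [hbot, Ideal.mem_bot] at hmem
    exact hm0 (by exact_mod_cast hmem)
  let v : IsDedekindDomain.HeightOneSpectrum (𝓞 L) := ⟨𝔭, h𝔭p, h𝔭⟩
  have hTL : ∀ x ∈ T, x ∈ L := fun x hx => IntermediateField.subset_adjoin ℚ _ hx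
  obtain ⟨x₁, hx₁T, hx₁⟩ := hne
  let w : ℂ → _ := fun x => if hx : x ∈ L then v.valuation L ⟨x, hx⟩ else 0
  obtain ⟨x₀, hx₀T, hmax⟩ := T.exists_max_image w ⟨x₁, hx₁T⟩
  have hw : ∀ x (hx : x ∈ T), w x = v.valuation L ⟨x, hTL x hx⟩ := fun x hx => dif_pos (hTL x hx)
  have hx₀ : x₀ ≠ 0 := by
    intro h0
    have h1 := hmax x₁ hx₁T
    rw [hw x₁ hx₁T, hw x₀ hx₀T] at h1
    have h2 : (⟨x₀, hTL x₀ hx₀T⟩ : L) = 0 := Subtype.ext h0
    rw [h2, map_zero, le_zero_iff, map_eq_zero] at h1
    exact hx₁ (congrArg Subtype.val h1)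
  have hx₀L : (⟨x₀, hTL x₀ hx₀T⟩ : L) ≠ 0 := fun h => hx₀ (congrArg Subtype.val h)
  have key : ∀ x ∈ T, ∃ (n : 𝓞 L) (d : 𝔭.primeCompl),
      (x / x₀) * (((d : 𝓞 L) : L) : ℂ) = ((n : L) : ℂ) := by
    intro x hx
    have hle : v.valuation L ((⟨x, hTL x hx⟩ : L) / ⟨x₀, hTL x₀ hx₀T⟩) ≤ 1 := by
      rw [map_div₀]
      have h1 := hmax x hx
      rw [hw x hx, hw x₀ hx₀T] at h1
      exact div_le_one_of_le₀ h1 zero_le
    obtain ⟨n, d, hnd⟩ := v.exists_primeCompl_mul_eq_of_integer _ hle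
    refine ⟨n, d, ?_⟩
    have := congrArg (algebraMap L ℂ) hnd
    simpa using this
  choose! n d hnd using key
  let s : 𝓞 L := ∏ x ∈ T, (d x : 𝓞 L)
  have hs : s ∈ 𝔭.primeCompl := Submonoid.prod_mem _ (fun x hx => (d x).2)
  have hB : ∀ x ∈ T, ((φ ((∏ y ∈ T.erase x, (d y : 𝓞 L)) * n x) : Zbar) : ℂ) =
      ((s : L) : ℂ) / x₀ * x := by
    intro x hx
    rw [hφ]
    have h1 : s = (d x : 𝓞 L) * ∏ y ∈ T.erase x, (d y : 𝓞 L) :=
      (Finset.mul_prod_erase T _ hx).symm
    have h2 := hnd x hx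
    rw [h1]
    push_cast
    rw [← h2]
    field_simp
  refine ⟨((s : L) : ℂ) / x₀,
    fun x => if hx : x ∈ T then φ ((∏ y ∈ T.erase x, (d y : 𝓞 L)) * n x) else 0, ?_,
    x₀, hx₀T, ?_⟩
  · intro x hx
    simp only [dif_pos hx]
    exact hB x hx
  · simp only [dif_pos hx₀T]
    have h3 : φ ((∏ y ∈ T.erase x₀, (d y : 𝓞 L)) * n x₀) = φ s := by
      apply Subtype.ext
      rw [hB x₀ hx₀T, hφ]
      field_simp
    rw [h3]
    exact hs

/-- **Primitive scaling of a sequence** of algebraic numbers lying in a finitely generated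
subgroup of `ℂ`, at a maximal ideal `P` of the algebraic integers. -/
theorem exists_scale (P : Ideal Zbar) (hP : P.IsMaximal) (a : ℕ → ℂ)
    (hfg : helper78.CoeffsInFG a) (halg : ∀ n, IsAlgebraic ℚ (a n)) (h1 : ∃ n, a n ≠ 0) :
    ∃ (c : ℂ) (A : ℕ → Zbar), (∀ n, ((A n : Zbar) : ℂ) = c * a n) ∧ ∃ n, A n ∉ P := by
  classical
  obtain ⟨Λ, hΛ, haΛ⟩ := hfg
  have hM : (Submodule.span ℤ (Set.range a)).FG := by
    haveI := isNoetherian_of_fg_of_noetherian Λ hΛ
    have hle : Submodule.span ℤ (Set.range a) ≤ Λ :=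
      Submodule.span_le.2 (by rintro _ ⟨n, rfl⟩; exact haΛ n)
    exact (isNoetherian_submodule.1 this) _ hle
  obtain ⟨T, hTa, hspan⟩ := (Submodule.fg_span_iff_fg_span_finset_subset _).1 hM
  have hmem : ∀ n, a n ∈ Submodule.span ℤ (T : Set ℂ) := fun n =>
    hspan ▸ Submodule.subset_span ⟨n, rfl⟩
  have hTalg : ∀ x ∈ T, IsAlgebraic ℚ x := by
    intro x hx
    obtain ⟨n, rfl⟩ := hTa hx
    exact halg n
  have hTne : ∃ x ∈ T, x ≠ 0 := by
    by_contra hcon
    have hcon' : ∀ x ∈ T, x = 0 := fun x hx => by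
      by_contra h
      exact hcon ⟨x, hx, h⟩
    obtain ⟨n, hn⟩ := h1
    have hz : Submodule.span ℤ (T : Set ℂ) ≤ ⊥ :=
      Submodule.span_le.2 (fun x hx => by simpa using hcon' x hx)
    exact hn (by simpa using hz (hmem n))
  obtain ⟨c, B, hB, x, hxT, hxP⟩ := exists_scale_finset P hP T hTalg hTne
  have hint : ∀ n, IsIntegral ℤ (c * a n) := by
    intro n
    refine Submodule.span_induction (p := fun y _ => IsIntegral ℤ (c * y)) ?_ ?_ ?_ ?_ (hmem n)
    · intro y hy
      rw [← hB y hy]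
      exact (B y).2
    · simp only [mul_zero]
      exact isIntegral_zero
    · intro y z _ _ hy hz
      rw [mul_add]
      exact hy.add hz
    · intro m y _ hy
      rw [mul_smul_comm]
      exact hy.smul m
  refine ⟨c, fun n => ⟨c * a n, hint n⟩, fun n => rfl, ?_⟩
  obtain ⟨n, rfl⟩ := hTa hxT
  refine ⟨n, ?_⟩
  have h2 : (⟨c * a n, hint n⟩ : Zbar) = B (a n) := Subtype.ext (hB _ hxT).symm
  show (⟨c * a n, hint n⟩ : Zbar) ∉ P
  rw [h2]
  exact hxP

/-- The slash form of the nebentypus law in weight one gives the explicit form. -/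
theorem hasNeben_of_slash {N : ℕ} (ε : DirichletCharacter ℂ N) (g : ℍ → ℂ)
    (h : ∀ γ : SL(2, ℤ), γ ∈ Gamma0 N → g ∣[(1 : ℤ)] γ = ε ((γ 1 1 : ℤ) : ZMod N) • g) :
    helper32.HasNeben N 1 ε g := by
  intro γ hγ τ
  have h2 := congrFun (h γ hγ) τ
  rw [ModularForm.SL_slash_apply] at h2
  have hd : denom (Matrix.SpecialLinearGroup.toGL
      ((Matrix.SpecialLinearGroup.map (Int.castRingHom ℝ)) γ)) (τ : ℂ) =
      ((γ 1 0 : ℤ) : ℂ) * (τ : ℂ) + ((γ 1 1 : ℤ) : ℂ) := by
    simp [denom]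
  have hne : denom (Matrix.SpecialLinearGroup.toGL
      ((Matrix.SpecialLinearGroup.map (Int.castRingHom ℝ)) γ)) (τ : ℂ) ≠ 0 :=
    denom_ne_zero _ τ
  rw [hd] at h2 hne
  simp only [Pi.smul_apply, smul_eq_mul, zpow_neg, zpow_one] at h2
  rw [pow_one]
  field_simp at h2
  linear_combination h2

/-- **[V-PRIM]** (statement of the architect) from an integer spanning family. -/
theorem prim_of_intSpan (hB : helper78.IntSpanStatement) : helper32.PrimStatement := by
  intro N hN ε f hf₁ hT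
  haveI := hN
  refine ⟨fun p hp hpN => helper78.isIntegral_qCoeff_of_intSpan hB N ε f hf₁ hT p hp.pos
    ((Nat.Prime.coprime_iff_not_dvd hp).2 hpN), ?_⟩
  intro P hP
  obtain ⟨f', D, hD, hf'₁, hT', heq, halg, hint⟩ := helper78.prim_of_intSpan hB N ε f hf₁ hT
  have hfg := helper78.coeffsInFG_of_intSpan hB N f'
  obtain ⟨c, A, hA, n, hn⟩ := exists_scale P hP (fun n => ModularFormClass.qCoeff f' n) hfg halg
    ⟨1, by simp [hf'₁]⟩
  have hq : ∀ n, ModularFormClass.qCoeff (⇑(c • f')) n = c * ModularFormClass.qCoeff f' n := by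
    intro n
    have h0 : (⇑(c • f') : ℍ → ℂ) = c • ⇑f' := by
      ext τ; simp
    rw [h0, helper79.qCoeff_smul (helper79.nice_coe _)]
  refine ⟨c • f', A, fun n => by rw [hA, hq], ⟨n, hn⟩, ?_, ?_⟩
  · apply hasNeben_of_slash
    intro γ hγ
    have h0 : (⇑(c • f') : ℍ → ℂ) = c • ⇑f' := by
      ext τ; simp
    rw [h0, ModularForm.SL_smul_slash, helper79.neben_SL N ε f' hT' γ hγ, smul_comm]
  · intro p hp hpN n
    simp only [hq]
    have h3 := hT' p hp hpN n
    rw [heq p hp hpN] at h3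
    split_ifs at h3 ⊢ with hdvd
    · linear_combination c * h3
    · linear_combination c * h3

end Fermat.Agent.T4.helper94.VPrim
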