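import Mathlib
import Fermat.Agent.T4.helper94_VPrim
import Fermat.Agent.T4.helper57_IntG1

/-!
# T4 / S48, block (V), leaf [V-PRIM], UNCONDITIONAL (helper94)

* `cuspForm_Gamma1_eq_zero` : for `N ≤ 2` the cusp forms of weight one on `Γ₁(N)` vanish
  (`-1 ∈ Γ₁(N)`);
* `intSpan : helper78.IntSpanStatement` from `helper57.span_int_Gamma1` (`N ≥ 3`);
* `prim : helper32.PrimStatement`.
-/

set_option autoImplicit false
set_option linter.unusedSectionVars false
set_option linter.style.haveILetI false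
set_option linter.unusedVariables false
set_option linter.unusedSimpArgs false

open CongruenceSubgroup UpperHalfPlane
open scoped MatrixGroups ModularForm

namespace Fermat.Agent.T4.helper94.VPrim

theorem neg_one_mem_Gamma1 {N : ℕ} (hN0 : N ≠ 0) (hN : N ≤ 2) : (-1 : SL(2, ℤ)) ∈ Gamma1 N := by
  rw [Gamma1_mem]
  have h12 : N = 1 ∨ N = 2 := by omega
  rcases h12 with rfl | rfl
  · exact ⟨Subsingleton.elim _ _, Subsingleton.elim _ _, Subsingleton.elim _ _⟩
  · refine ⟨?_, ?_, ?_⟩ <;> simp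

theorem slash_neg_one_wt_one (f : ℍ → ℂ) : f ∣[(1 : ℤ)] (-1 : SL(2, ℤ)) = -f := by
  ext τ
  rw [ModularForm.SL_slash_apply, ModularGroup.SL_neg_smul, one_smul]
  have h1 : denom ((-1 : SL(2, ℤ)) : GL (Fin 2) ℝ) (τ : ℂ) = -1 := by
    simp [denom]
  rw [h1]
  simp

/-- For `N ≤ 2` there are no nonzero cusp forms of weight one on `Γ₁(N)`. -/
theorem cuspForm_Gamma1_eq_zero {N : ℕ} (hN0 : N ≠ 0) (hN : N ≤ 2) (f : CuspForm (Gamma1 N) 1) :
    f = 0 := by
  have h1 : (⇑f : ℍ → ℂ) ∣[(1 : ℤ)] (-1 : SL(2, ℤ)) = ⇑f :=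
    (helper79.isCF_coe f).inv (-1) (neg_one_mem_Gamma1 hN0 hN)
  rw [slash_neg_one_wt_one] at h1
  apply DFunLike.coe_injective
  funext τ
  have h2 := congrFun h1 τ
  simp only [Pi.neg_apply] at h2
  have h3 : (2 : ℂ) * f τ = 0 := by linear_combination -h2
  simpa using h3

/-- **(B)**, unconditional: integer spanning families for `S₁(Γ₁(N))`. -/
theorem intSpan : helper78.IntSpanStatement := by
  intro N _ f
  by_cases hN : 3 ≤ N
  · have hf : f ∈ Submodule.span ℂ {f : CuspForm (Gamma1 N) 1 |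
        ∀ n, ∃ a : ℤ, ModularFormClass.qCoeff ⇑f n = (a : ℂ)} := by
      rw [helper57.span_int_Gamma1 N hN 1]; trivial
    obtain ⟨m, c, g, hg⟩ := (Submodule.mem_span_set').1 hf
    choose b hb using fun i => (g i).2
    exact ⟨m, fun i => (g i : CuspForm (Gamma1 N) 1), b, c, fun i n => hb i n, hg.symm⟩
  · have h0 := cuspForm_Gamma1_eq_zero (NeZero.ne N) (by omega) f
    exact ⟨0, Fin.elim0, Fin.elim0, Fin.elim0, fun i => i.elim0, by simpa using h0⟩

/-- **[V-PRIM]**, statement of the architect, unconditional. -/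
theorem prim : helper32.PrimStatement := prim_of_intSpan intSpan

end Fermat.Agent.T4.helper94.VPrim
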