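import Fermat.Agent.T4.helper32_ResWire
import Fermat.Agent.T4.helper42_Glue
import Fermat.Agent.T4.helper15_ConjWire
import Fermat.Agent.T4.helper89_ConjFinal
import Fermat.Agent.T4.helper94_VPrimFinal
import Fermat.Agent.T4.helper2_DivFinal

/-!
# T4 (S48): the frozen statement from block (I) ALONE (helper2)

With the DIV branch of block (IV) (`helper2_DivFinal`: no Chebotarev density, only the Frobenius
division density theorem of helper40, on main) the frozen statement S48 follows from the single
`Prop` `helper32.Eigen1Statement` (block (I), the `X₁(M)` stack):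

* `resAll_of_res1`     : `Res1Statement 4 → Res1Statement 9 → ResAllStatement` (the gluing of
  helper42 works for EVERY prime `l ≥ max 4 (N + 1)`);
* `formsAll_of_eigen1` : `Eigen1Statement → FormsAllStatement`;
* `s48_of_eigen1`      : `Eigen1Statement →` the frozen S48 shape.
-/

set_option autoImplicit false

open CongruenceSubgroup
open scoped MatrixGroups

namespace Fermat.Agent.T4.helper2

open Fermat.Agent.T4.helper80 (GQ Zbar)
open Fermat.Agent.T4 Fermat.Agent.T4.helper32

/-- **[R-GLUE], all `l`**: the residual representations of `ResAllStatement` from those of the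
two auxiliary levels. -/
theorem resAll_of_res1 (h4 : Res1Statement 4) (h9 : Res1Statement 9)
    (N : ℕ) [NeZero N] (ε : DirichletCharacter ℂ N) (f : CuspForm (Gamma1 N) 1)
    (h1 : ModularFormClass.qCoeff f 1 = 1)
    (hT : InPacket N ε (fun p => ModularFormClass.qCoeff f p) f) :
    ResAllStatement N (fun p : ℕ => ModularFormClass.qCoeff f p)
      (fun p : ℕ => ε (p : ZMod N)) := by
  have hN : N ≠ 0 := NeZero.ne N
  refine ⟨max 4 (N + 1), fun l hlB hlp k hk hc ha φ => ?_⟩
  have h4l : 4 ≤ l := le_trans (le_max_left _ _) hlB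
  have hNl : N + 1 ≤ l := le_trans (le_max_right _ _) hlB
  have hlN : ¬ l ∣ N := fun h => by
    have := Nat.le_of_dvd (Nat.pos_of_ne_zero hN) h
    omega
  have hl2 : l ≠ 2 := by omega
  have hl4 : ¬ l ∣ 4 * N := by
    intro h
    rcases (Nat.Prime.dvd_mul hlp).1 h with h | h
    · have h22 : l ∣ 2 ^ 2 := by simpa using h
      have := (Nat.prime_dvd_prime_iff_eq hlp Nat.prime_two).1 (hlp.dvd_of_dvd_pow h22)
      omega
    · exact hlN h
  have hl9 : ¬ l ∣ 9 * N := by
    intro h
    rcases (Nat.Prime.dvd_mul hlp).1 h with h | h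
    · have h33 : l ∣ 3 ^ 2 := by simpa using h
      have := (Nat.prime_dvd_prime_iff_eq hlp Nat.prime_three).1 (hlp.dvd_of_dvd_pow h33)
      omega
    · exact hlN h
  exact helper42.hasResidual_of_mod hN hlp
    (h4 N inferInstance ε f h1 hT l hlp hl2 hl4 k hk hc ha φ)
    (h9 N inferInstance ε f h1 hT l hlp hl2 hl9 k hk hc ha φ)

/-- The forms side of S48, strong form, from block (I). -/
theorem formsAll_of_eigen1 (hE : Eigen1Statement) : FormsAllStatement :=
  fun N hN ε f hf1 hT =>
    haveI : NeZero N := hN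
    ⟨helper15.rankinStatement_of_span (helper15.conj_of helper89.conjHom helper89.span)
        helper89.span N ε f hf1 hT,
      resAll_of_res1 (res1_four hE helper94.VPrim.prim) (res1_nine hE helper94.VPrim.prim)
        N ε f hf1 hT⟩

/-- **The frozen S48 shape from block (I) alone** (no density hypothesis). -/
theorem s48_of_eigen1 (hE : Eigen1Statement)
    (N : ℕ) [NeZero N] (ε : DirichletCharacter ℂ N) (f : CuspForm (Gamma1 N) 1)
    (hf₁ : ModularFormClass.qCoeff f 1 = 1)
    (hT : ∀ p : ℕ, p.Prime → ¬ p ∣ N → ∀ n : ℕ,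
        ModularFormClass.qCoeff f (p * n) +
            ε (p : ZMod N) * (if p ∣ n then ModularFormClass.qCoeff f (n / p) else 0) =
          ModularFormClass.qCoeff f p * ModularFormClass.qCoeff f n) :
    ∃ ρ : GQ →* GL (Fin 2) ℂ, GaloisFactorsThroughFiniteLevel ρ ∧
      (Deformation.matrixRepresentation ρ).IsIrreducible ∧
      ∀ p : ℕ, p.Prime → ¬ p ∣ N →
        ∀ A : ValuationSubring (AlgebraicClosure ℚ), A.LiesOverPrime p →
          (∀ σ ∈ A.inertiaSubgroupIn ℚ, ρ σ = 1) ∧
          ∀ σ : GQ, A.IsFrobeniusAt σ p →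
            ((ρ σ : GL (Fin 2) ℂ) : Matrix (Fin 2) (Fin 2) ℂ).trace =
                ModularFormClass.qCoeff f p ∧
            ((ρ σ : GL (Fin 2) ℂ) : Matrix (Fin 2) (Fin 2) ℂ).det = ε (p : ZMod N) :=
  s48_of_formsAll (formsAll_of_eigen1 hE) N ε f hf₁ hT

end Fermat.Agent.T4.helper2
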