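import Fermat.Agent.T4.helper32_ResWireL
import Fermat.Agent.T4.helper2_S48Div

/-!
# T4 (S48): the frozen statement from the LIGHT contract of block (I) alone (helper2)

`s48_of_eigen1L : helper32.Eigen1StatementL →` the frozen S48 shape, with NO density hypothesis
(DIV branch of block (IV)).
-/

set_option autoImplicit false

open CongruenceSubgroup
open scoped MatrixGroups

namespace Fermat.Agent.T4.helper2

open Fermat.Agent.T4.helper80 (GQ Zbar)
open Fermat.Agent.T4 Fermat.Agent.T4.helper32

/-- The forms side of S48, strong form, from the light contract of block (I). -/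
theorem formsAll_of_eigen1L (hE : Eigen1StatementL) : FormsAllStatement :=
  fun N hN ε f hf1 hT =>
    haveI : NeZero N := hN
    ⟨helper15.rankinStatement_of_span (helper15.conj_of helper89.conjHom helper89.span)
        helper89.span N ε f hf1 hT,
      resAll_of_res1 (res1_four_L hE helper94.VPrim.prim) (res1_nine_L hE helper94.VPrim.prim)
        N ε f hf1 hT⟩

/-- **The frozen S48 shape from the light contract of block (I) alone.** -/
theorem s48_of_eigen1L (hE : Eigen1StatementL)
    (N : ℕ) [NeZero N] (ε : DirichletCharacter ℂ N) (f : CuspForm (Gamma1 N) 1)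
    (hf₁ : ModularFormClass.qCoeff f 1 = 1)
    (hT : ∀ p : ℕ, p.Prime → ¬ p ∣ N → ∀ n : ℕ,
        ModularFormClass.qCoeff f (p * n) +
            ε (p : ZMod N) * (if p ∣ n then ModularFormClass.qCoeff f (n / p) else 0) =
          ModularFormClass.qCoeff f p * ModularFormClass.qCoeff f n) :
    ∃ ρ : GQ →* GL (Fin 2) ℂ, GaloisFactorsThroughFiniteLevel ρ ∧
      (Deformation.matrixRepresentation ρ).IsIrreducible ∧
      ∀ p : ℕ, p.Prime → ¬ p ∣ N →
        ∀ A : ValuationSubring (AlgebraicClosure ℚ), A.LiesOverPrime p →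
          (∀ σ ∈ A.inertiaSubgroupIn ℚ, ρ σ = 1) ∧
          ∀ σ : GQ, A.IsFrobeniusAt σ p →
            ((ρ σ : GL (Fin 2) ℂ) : Matrix (Fin 2) (Fin 2) ℂ).trace =
                ModularFormClass.qCoeff f p ∧
            ((ρ σ : GL (Fin 2) ℂ) : Matrix (Fin 2) (Fin 2) ℂ).det = ε (p : ZMod N) :=
  s48_of_formsAll (formsAll_of_eigen1L hE) N ε f hf₁ hT

end Fermat.Agent.T4.helper2
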