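import Fermat.Agent.T4.helper21_EisDefs

/-!
# T4 block (III), leaf [EIS-ROW] (helper30, second prover): row summation of the zeta series

`row_of_sum : SumStatement → RowStatement` and `sumStatement : SumStatement`, hence
`rowStatement : RowStatement` (verbatim, `helper21_EisDefs`).

Route: Fubini for the absolutely convergent lattice sum; every row is evaluated by the Mathlib
cotangent series (`cot_series_rep'`) after pairing `n` with `-n`; the symmetric partial sums of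
the rows are compared with the symmetric partial sums defining `G2`; the cotangent tail is
summable by the explicit exponential bound `‖cot(πx) ± i‖ ≤ 4 e^{-2π |Im x|}`.
-/

set_option autoImplicit false

noncomputable section

namespace Fermat.Agent.T4.helper30

open UpperHalfPlane hiding I
open Complex EisensteinSeries Filter Finset
open scoped Real Topology
open Fermat.Agent.T4.helper21

/-! ## Elementary facts -/

lemma lat_mk (τ : ℂ) (m n : ℤ) : lat τ ![m, n] = (m : ℂ) * τ + (n : ℂ) := by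
  simp [lat]

lemma mk_ne_zero_iff (m n : ℤ) : (![m, n] : Fin 2 → ℤ) ≠ 0 ↔ m ≠ 0 ∨ n ≠ 0 := by
  constructor
  · intro h
    by_contra hc
    simp only [not_or, not_not] at hc
    apply h
    ext i
    fin_cases i <;> simp [hc.1, hc.2]
  · rintro h he
    have h0 := congrFun he 0
    have h1 := congrFun he 1
    simp at h0 h1
    rcases h with h | h
    · exact h h0
    · exact h h1

lemma int_mul_mem_integerComplement (τ : ℍ) {m : ℤ} (hm : m ≠ 0) :
    (m : ℂ) * (τ : ℂ) ∈ Complex.integerComplement := by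
  rintro ⟨n, hn⟩
  have h := congrArg Complex.im hn
  simp only [Complex.intCast_im, Complex.mul_im, Complex.intCast_re, zero_mul, add_zero] at h
  have him : (0 : ℝ) < (τ : ℂ).im := τ.2
  have hm' : (m : ℝ) ≠ 0 := by exact_mod_cast hm
  have := mul_ne_zero hm' him.ne'
  exact this h.symm

lemma sub_mem_integerComplement {z : ℂ} {τ : ℍ} (hz : ∀ v : Fin 2 → ℤ, z ≠ lat τ v) (m : ℤ) :
    z - (m : ℂ) * (τ : ℂ) ∈ Complex.integerComplement := by
  rintro ⟨n, hn⟩
  apply hz ![m, n]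
  rw [lat_mk]
  linear_combination -hn

lemma cot_neg' (x : ℂ) : Complex.cot (-x) = -Complex.cot x := by
  simp [Complex.cot_eq_cos_div_sin, div_neg]

/-- pairing `n` with `-n` in a summable family over `ℤ`. -/
lemma tsum_int_pair {f : ℤ → ℂ} (hf : Summable f) :
    HasSum (fun n : ℕ => f ((n : ℤ) + 1) + f (-((n : ℤ) + 1))) (∑' n, f n - f 0) := by
  have h1 : Summable fun n : ℕ => f ((n : ℤ) + 1) :=
    hf.comp_injective (fun a b h => by simpa using h)
  have h2 : Summable fun n : ℕ => f (-((n : ℤ) + 1)) :=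
    hf.comp_injective (fun a b h => by simpa using h)
  have h3 := tsum_of_add_one_of_neg_add_one h1 h2
  have h4 := h1.hasSum.add h2.hasSum
  convert h4 using 1
  rw [h3]
  ring

/-- the Mathlib cotangent series as a `HasSum`. -/
lemma hasSum_cot {x : ℂ} (hx : x ∈ Complex.integerComplement) :
    HasSum (fun n : ℕ => 1 / (x - ((n : ℂ) + 1)) + 1 / (x + ((n : ℂ) + 1)))
      (π * Complex.cot (π * x) - 1 / x) := by
  have h := (summable_cotTerm hx).hasSum
  rw [show (∑' n, cotTerm x n) = π * Complex.cot (π * x) - 1 / x from by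
    rw [cot_series_rep' hx]] at h
  exact h

/-! ## The rows -/

lemma zetaTerm_of_ne {z τ : ℂ} {v : Fin 2 → ℤ} (hv : v ≠ 0) (hω : lat τ v ≠ 0)
    (hz : z ≠ lat τ v) :
    zetaTerm z τ v = 1 / (z - lat τ v) + 1 / lat τ v + z / lat τ v ^ 2 := by
  have h1 : z - lat τ v ≠ 0 := sub_ne_zero.mpr hz
  rw [zetaTerm, if_neg hv]
  field_simp
  ring

lemma eisSummand_two (m n : ℤ) (τ : ℍ) :
    eisSummand 2 ![m, n] τ = 1 / ((m : ℂ) * (τ : ℂ) + (n : ℂ)) ^ 2 := by
  simp [eisSummand, zpow_neg]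

/-- the cotangent part of the `m`-th row. -/
def cotPart (z : ℂ) (τ : ℍ) (m : ℤ) : ℂ :=
  π * Complex.cot (π * (z - (m : ℂ) * (τ : ℂ))) +
    (if m = 0 then 0 else π * Complex.cot (π * ((m : ℂ) * (τ : ℂ))))

/-- the value of the `m`-th row. -/
def rowVal (z : ℂ) (τ : ℍ) (m : ℤ) : ℂ := cotPart z τ m + z * e2Summand m τ

lemma lat_int_ne_zero (τ : ℍ) {m : ℤ} (hm : m ≠ 0) (k : ℤ) :
    (m : ℂ) * (τ : ℂ) + (k : ℂ) ≠ 0 := by
  intro h
  apply int_mul_mem_integerComplement τ hm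
  exact ⟨-k, by push_cast; linear_combination -h⟩

theorem tsum_row {z : ℂ} {τ : ℍ} (hz : ∀ v : Fin 2 → ℤ, z ≠ lat τ v) (m : ℤ)
    (hS : Summable fun n : ℤ => zetaTerm z τ ![m, n]) :
    ∑' n : ℤ, zetaTerm z τ ![m, n] = rowVal z τ m := by
  have hg : Summable fun n : ℤ => eisSummand 2 ![m, n] τ := e2Summand_summable m τ
  have pf := tsum_int_pair hS
  have pg := tsum_int_pair hg
  have hw := sub_mem_integerComplement hz m
  have cw := hasSum_cot hw
  by_cases hm : m = 0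
  · subst hm
    simp only [Int.cast_zero, zero_mul, sub_zero] at hw cw
    have key : ∀ n : ℕ, zetaTerm z τ ![0, (n : ℤ) + 1] + zetaTerm z τ ![0, -((n : ℤ) + 1)] =
        (1 / (z - ((n : ℂ) + 1)) + 1 / (z + ((n : ℂ) + 1)))
          + z * (eisSummand 2 ![0, (n : ℤ) + 1] τ + eisSummand 2 ![0, -((n : ℤ) + 1)] τ) := by
      intro n
      have hn : ((n : ℂ) + 1) ≠ 0 := by exact_mod_cast Nat.succ_ne_zero n
      have h1 : lat (τ : ℂ) ![0, (n : ℤ) + 1] = (n : ℂ) + 1 := by rw [lat_mk]; push_cast; ring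
      have h2 : lat (τ : ℂ) ![0, -((n : ℤ) + 1)] = -((n : ℂ) + 1) := by
        rw [lat_mk]; push_cast; ring
      have z1 : z - ((n : ℂ) + 1) ≠ 0 := by
        rw [← h1]; exact sub_ne_zero.mpr (hz _)
      have z2 : z + ((n : ℂ) + 1) ≠ 0 := by
        have := sub_ne_zero.mpr (hz ![0, -((n : ℤ) + 1)])
        rwa [h2, sub_neg_eq_add] at this
      rw [zetaTerm_of_ne ((mk_ne_zero_iff _ _).mpr (Or.inr (by omega))) (by rw [h1]; exact hn)
          (hz _),
        zetaTerm_of_ne ((mk_ne_zero_iff _ _).mpr (Or.inr (by omega)))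
          (by rw [h2]; exact neg_ne_zero.mpr hn) (hz _),
        h1, h2, eisSummand_two, eisSummand_two]
      push_cast
      rw [zero_mul, zero_add, zero_add, sub_neg_eq_add, neg_sq]
      field_simp
      ring
    have hsum := cw.add (pg.mul_left z)
    have hfun : (fun n : ℕ => zetaTerm z τ ![0, (n : ℤ) + 1] + zetaTerm z τ ![0, -((n : ℤ) + 1)]) =
        fun n : ℕ => (1 / (z - ((n : ℂ) + 1)) + 1 / (z + ((n : ℂ) + 1)))
          + z * (eisSummand 2 ![0, (n : ℤ) + 1] τ + eisSummand 2 ![0, -((n : ℤ) + 1)] τ) :=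
      funext key
    rw [hfun] at pf
    have huniq := pf.unique hsum
    have hf0 : zetaTerm z τ ![0, 0] = 1 / z := by
      have : (![0, 0] : Fin 2 → ℤ) = 0 := by ext i; fin_cases i <;> rfl
      rw [zetaTerm, if_pos this, one_div]
    have hg0 : eisSummand 2 ![0, 0] τ = 0 := by simp [eisSummand_two]
    rw [hf0, hg0] at huniq
    have hE : (∑' n : ℤ, eisSummand 2 ![0, n] τ) = e2Summand 0 τ := rfl
    rw [hE] at huniq
    rw [rowVal, cotPart, if_pos rfl]
    simp only [Int.cast_zero, zero_mul, sub_zero, add_zero]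
    linear_combination huniq
  · have hu := int_mul_mem_integerComplement τ hm
    have cu := hasSum_cot hu
    have key : ∀ n : ℕ, zetaTerm z τ ![m, (n : ℤ) + 1] + zetaTerm z τ ![m, -((n : ℤ) + 1)] =
        (1 / (z - (m : ℂ) * (τ : ℂ) - ((n : ℂ) + 1)) + 1 / (z - (m : ℂ) * (τ : ℂ) + ((n : ℂ) + 1)))
          + (1 / ((m : ℂ) * (τ : ℂ) - ((n : ℂ) + 1)) + 1 / ((m : ℂ) * (τ : ℂ) + ((n : ℂ) + 1)))
          + z * (eisSummand 2 ![m, (n : ℤ) + 1] τ + eisSummand 2 ![m, -((n : ℤ) + 1)] τ) := by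
      intro n
      have h1 : lat (τ : ℂ) ![m, (n : ℤ) + 1] = (m : ℂ) * τ + ((n : ℂ) + 1) := by
        rw [lat_mk]; push_cast; ring
      have h2 : lat (τ : ℂ) ![m, -((n : ℤ) + 1)] = (m : ℂ) * τ - ((n : ℂ) + 1) := by
        rw [lat_mk]; push_cast; ring
      have e1 : (m : ℂ) * τ + ((n : ℂ) + 1) ≠ 0 := by
        have := lat_int_ne_zero τ hm ((n : ℤ) + 1)
        push_cast at this
        exact this
      have e2 : (m : ℂ) * τ - ((n : ℂ) + 1) ≠ 0 := by
        have := lat_int_ne_zero τ hm (-((n : ℤ) + 1))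
        push_cast at this
        rwa [← sub_eq_add_neg] at this
      have z1 : z - ((m : ℂ) * τ + ((n : ℂ) + 1)) ≠ 0 := by
        rw [← h1]; exact sub_ne_zero.mpr (hz _)
      have z2 : z - ((m : ℂ) * τ - ((n : ℂ) + 1)) ≠ 0 := by
        rw [← h2]; exact sub_ne_zero.mpr (hz _)
      rw [zetaTerm_of_ne ((mk_ne_zero_iff _ _).mpr (Or.inl hm)) (by rw [h1]; exact e1) (hz _),
        zetaTerm_of_ne ((mk_ne_zero_iff _ _).mpr (Or.inl hm)) (by rw [h2]; exact e2) (hz _),
        h1, h2, eisSummand_two, eisSummand_two]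
      have z1' : z - (m : ℂ) * τ - ((n : ℂ) + 1) ≠ 0 := by
        intro h; apply z1; linear_combination h
      have z2' : z - (m : ℂ) * τ + ((n : ℂ) + 1) ≠ 0 := by
        intro h; apply z2; linear_combination h
      push_cast
      rw [show (m : ℂ) * (τ : ℂ) + -((n : ℂ) + 1) = (m : ℂ) * τ - ((n : ℂ) + 1) from by ring]
      field_simp
      ring
    have hsum := (cw.add cu).add (pg.mul_left z)
    have hfun : (fun n : ℕ => zetaTerm z τ ![m, (n : ℤ) + 1] + zetaTerm z τ ![m, -((n : ℤ) + 1)]) =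
        fun n : ℕ => (1 / (z - (m : ℂ) * (τ : ℂ) - ((n : ℂ) + 1)) +
            1 / (z - (m : ℂ) * (τ : ℂ) + ((n : ℂ) + 1)))
          + (1 / ((m : ℂ) * (τ : ℂ) - ((n : ℂ) + 1)) + 1 / ((m : ℂ) * (τ : ℂ) + ((n : ℂ) + 1)))
          + z * (eisSummand 2 ![m, (n : ℤ) + 1] τ + eisSummand 2 ![m, -((n : ℤ) + 1)] τ) :=
      funext key
    rw [hfun] at pf
    have huniq := pf.unique hsum
    have hl0 : lat (τ : ℂ) ![m, 0] = (m : ℂ) * τ := by rw [lat_mk]; push_cast; ring
    have e0 : (m : ℂ) * (τ : ℂ) ≠ 0 := by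
      have := lat_int_ne_zero τ hm 0
      simpa using this
    have z0 : z - (m : ℂ) * (τ : ℂ) ≠ 0 := by
      rw [← hl0]; exact sub_ne_zero.mpr (hz _)
    have hf0 : zetaTerm z τ ![m, 0] =
        1 / (z - (m : ℂ) * τ) + 1 / ((m : ℂ) * τ) + z / ((m : ℂ) * τ) ^ 2 := by
      rw [zetaTerm_of_ne ((mk_ne_zero_iff _ _).mpr (Or.inl hm)) (by rw [hl0]; exact e0) (hz _),
        hl0]
    have hg0 : eisSummand 2 ![m, 0] τ = 1 / ((m : ℂ) * τ) ^ 2 := by
      rw [eisSummand_two]; push_cast; rw [add_zero]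
    rw [hf0, hg0] at huniq
    have hE : (∑' n : ℤ, eisSummand 2 ![m, n] τ) = e2Summand m τ := rfl
    rw [hE] at huniq
    rw [rowVal, cotPart, if_neg hm]
    have hz2 : z / ((m : ℂ) * τ) ^ 2 = z * (1 / ((m : ℂ) * τ) ^ 2) := by ring
    rw [hz2] at huniq
    linear_combination huniq

/-! ## Symmetric partial sums of the cotangent parts -/

/-- the `m`-th cotangent pair of the row formula (verbatim the summand of `RowStatement`). -/
def cotPair (z : ℂ) (τ : ℍ) (m : ℕ) : ℂ :=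
  π * Complex.cot (π * (z - ((m : ℂ) + 1) * (τ : ℂ))) +
    π * Complex.cot (π * (z + ((m : ℂ) + 1) * (τ : ℂ)))

lemma Icc_succ_eq (N : ℕ) :
    Icc (-((N : ℤ) + 1)) ((N : ℤ) + 1) =
      insert ((N : ℤ) + 1) (insert (-((N : ℤ) + 1)) (Icc (-(N : ℤ)) (N : ℤ))) := by
  ext x
  simp only [mem_Icc, mem_insert]
  omega

lemma cotPart_pair (z : ℂ) (τ : ℍ) (N : ℕ) :
    cotPart z τ ((N : ℤ) + 1) + cotPart z τ (-((N : ℤ) + 1)) = cotPair z τ N := by
  have h1 : ((N : ℤ) + 1) ≠ 0 := by omega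
  have h2 : -((N : ℤ) + 1) ≠ 0 := by omega
  rw [cotPart, cotPart, if_neg h1, if_neg h2, cotPair]
  push_cast
  rw [show (π : ℂ) * (-((N : ℂ) + 1) * (τ : ℂ)) = -((π : ℂ) * (((N : ℂ) + 1) * (τ : ℂ))) from by
    ring, cot_neg',
    show z - -((N : ℂ) + 1) * (τ : ℂ) = z + ((N : ℂ) + 1) * (τ : ℂ) from by ring]
  ring

theorem sum_cotPart (z : ℂ) (τ : ℍ) (N : ℕ) :
    ∑ m ∈ Icc (-(N : ℤ)) (N : ℤ), cotPart z τ m =
      π * Complex.cot (π * z) + ∑ m ∈ range N, cotPair z τ m := by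
  induction N with
  | zero =>
    simp [cotPart]
  | succ N ih =>
    have e : ((N + 1 : ℕ) : ℤ) = (N : ℤ) + 1 := by push_cast; ring
    rw [e, Icc_succ_eq, sum_insert, sum_insert, ih, sum_range_succ, ← cotPart_pair]
    · ring
    · simp only [mem_Icc, not_and, not_le]; omega
    · simp only [mem_insert, mem_Icc, not_or, not_and, not_le]
      constructor
      · omega
      · omega

/-! ## The cotangent tail is summable -/

/-- `‖cot(πx) + i‖ ≤ 4 ‖e^{2πix}‖` as soon as `‖e^{2πix}‖ ≤ 1/2`. -/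
lemma norm_cot_add_I_le {x : ℂ} (hx : ‖cexp (2 * π * I * x)‖ ≤ 1 / 2) :
    ‖Complex.cot (π * x) + I‖ ≤ 4 * ‖cexp (2 * π * I * x)‖ := by
  set E := cexp (2 * π * I * x) with hE
  have h1 : (1 : ℝ) / 2 ≤ ‖1 - E‖ := by
    have := norm_sub_norm_le (1 : ℂ) E
    rw [norm_one] at this
    linarith
  have hne : 1 - E ≠ 0 := by
    intro h
    rw [h, norm_zero] at h1
    norm_num at h1
  have hcot : Complex.cot (π * x) + I = 2 * E / (I * (1 - E)) := by
    rw [Complex.cot_pi_eq_exp_ratio, ← hE]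
    have hI : (I : ℂ) ≠ 0 := I_ne_zero
    field_simp
    have : (I : ℂ) ^ 2 = -1 := I_sq
    linear_combination (1 - E) * this
  rw [hcot, norm_div, norm_mul, norm_mul, Complex.norm_I, one_mul, Complex.norm_ofNat]
  rw [div_le_iff₀ (by linarith)]
  have hE0 : 0 ≤ ‖E‖ := norm_nonneg _
  nlinarith

/-- `‖cot(πx) - i‖ ≤ 4 ‖e^{-2πix}‖` as soon as `‖e^{-2πix}‖ ≤ 1/2`. -/
lemma norm_cot_sub_I_le {x : ℂ} (hx : ‖cexp (2 * π * I * (-x))‖ ≤ 1 / 2) :
    ‖Complex.cot (π * x) - I‖ ≤ 4 * ‖cexp (2 * π * I * (-x))‖ := by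
  have h := norm_cot_add_I_le hx
  rw [show (π : ℂ) * (-x) = -((π : ℂ) * x) from by ring, cot_neg'] at h
  rw [show Complex.cot (π * x) - I = -(-Complex.cot (π * x) + I) from by ring, norm_neg]
  exact h

lemma exp_add_mul (z : ℂ) (τ : ℂ) (m : ℕ) :
    cexp (2 * π * I * (z + ((m : ℂ) + 1) * τ)) =
      cexp (2 * π * I * z) * cexp (2 * π * I * τ) ^ (m + 1) := by
  rw [← Complex.exp_nat_mul, ← Complex.exp_add]
  congr 1
  push_cast
  ring

theorem summable_cotPair (z : ℂ) (τ : ℍ) : Summable (cotPair z τ) := by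
  set r : ℝ := ‖cexp (2 * π * I * (τ : ℂ))‖ with hr
  have hr0 : 0 ≤ r := norm_nonneg _
  have hr1 : r < 1 := UpperHalfPlane.norm_exp_two_pi_I_lt_one τ
  set a : ℝ := ‖cexp (2 * π * I * z)‖ with ha
  set b : ℝ := ‖cexp (2 * π * I * (-z))‖ with hb
  have ha0 : 0 ≤ a := norm_nonneg _
  have hb0 : 0 ≤ b := norm_nonneg _
  have hpow : Tendsto (fun m : ℕ => r ^ (m + 1)) atTop (𝓝 0) :=
    (tendsto_pow_atTop_nhds_zero_of_lt_one hr0 hr1).comp (tendsto_add_atTop_nat 1)
  have hA : ∀ᶠ m : ℕ in atTop, a * r ^ (m + 1) ≤ 1 / 2 := by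
    have : Tendsto (fun m : ℕ => a * r ^ (m + 1)) atTop (𝓝 (a * 0)) := hpow.const_mul a
    rw [mul_zero] at this
    exact this.eventually_le_const (by norm_num)
  have hB : ∀ᶠ m : ℕ in atTop, b * r ^ (m + 1) ≤ 1 / 2 := by
    have : Tendsto (fun m : ℕ => b * r ^ (m + 1)) atTop (𝓝 (b * 0)) := hpow.const_mul b
    rw [mul_zero] at this
    exact this.eventually_le_const (by norm_num)
  have hg : Summable fun m : ℕ => π * (4 * (a + b)) * r ^ (m + 1) := by
    have := (summable_geometric_of_lt_one hr0 hr1).mul_left (π * (4 * (a + b)) * r)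
    refine this.congr fun m => ?_
    rw [pow_succ]
    ring
  refine Summable.of_norm_bounded_eventually hg ?_
  rw [Nat.cofinite_eq_atTop]
  filter_upwards [hA, hB] with m hmA hmB
  have e1 : ‖cexp (2 * π * I * (z + ((m : ℂ) + 1) * (τ : ℂ)))‖ = a * r ^ (m + 1) := by
    rw [exp_add_mul, norm_mul, norm_pow]
  have e2 : ‖cexp (2 * π * I * (-(z - ((m : ℂ) + 1) * (τ : ℂ))))‖ = b * r ^ (m + 1) := by
    rw [show -(z - ((m : ℂ) + 1) * (τ : ℂ)) = -z + ((m : ℂ) + 1) * (τ : ℂ) from by ring,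
      exp_add_mul, norm_mul, norm_pow]
  have b1 := norm_cot_add_I_le (x := z + ((m : ℂ) + 1) * (τ : ℂ)) (by rw [e1]; exact hmA)
  have b2 := norm_cot_sub_I_le (x := z - ((m : ℂ) + 1) * (τ : ℂ)) (by rw [e2]; exact hmB)
  rw [e1] at b1
  rw [e2] at b2
  have hsplit : cotPair z τ m =
      π * ((Complex.cot (π * (z - ((m : ℂ) + 1) * (τ : ℂ))) - I) +
        (Complex.cot (π * (z + ((m : ℂ) + 1) * (τ : ℂ))) + I)) := by
    rw [cotPair]; ring
  rw [hsplit, norm_mul, Complex.norm_real, Real.norm_eq_abs, abs_of_pos Real.pi_pos]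
  have hπ : 0 < π := Real.pi_pos
  calc π * ‖(Complex.cot (π * (z - ((m : ℂ) + 1) * (τ : ℂ))) - I) +
        (Complex.cot (π * (z + ((m : ℂ) + 1) * (τ : ℂ))) + I)‖
      ≤ π * (4 * (b * r ^ (m + 1)) + 4 * (a * r ^ (m + 1))) := by
        apply mul_le_mul_of_nonneg_left _ hπ.le
        exact (norm_add_le _ _).trans (add_le_add b2 b1)
    _ = π * (4 * (a + b)) * r ^ (m + 1) := by ring

/-! ## Assembly -/

lemma hasSum_G2 (τ : ℍ) : HasSum (fun m : ℤ => e2Summand m τ) (G2 τ)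
    (SummationFilter.symmetricIcc ℤ) := by
  rw [G2_eq_tsum_cexp]
  exact hasSum_e2Summand_symmetricIcc τ

/-- **[EIS-ROW]** from the absolute convergence of the zeta series. -/
theorem row_of_sum (hS : SumStatement) : RowStatement := by
  intro τ z hz
  have hc : Summable (cotPair z τ) := summable_cotPair z τ
  refine ⟨hc, ?_⟩
  have hsum : Summable (fun v : Fin 2 → ℤ => zetaTerm z τ v) := (hS τ z hz).of_norm
  have hF : Summable (fun p : ℤ × ℤ => zetaTerm z τ ![p.1, p.2]) := by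
    have := ((finTwoArrowEquiv ℤ).symm.summable_iff (f := fun v => zetaTerm z τ v)).mpr hsum
    exact this
  have h1 : wZeta z τ = ∑' p : ℤ × ℤ, zetaTerm z τ ![p.1, p.2] := by
    rw [wZeta, ← (finTwoArrowEquiv ℤ).symm.tsum_eq]
    rfl
  have h3 : ∀ m : ℤ, ∑' n : ℤ, zetaTerm z τ ![m, n] = rowVal z τ m :=
    fun m => tsum_row hz m (hF.prod_factor m)
  have hrow : Summable (rowVal z τ) := by
    have := hF.prod
    exact this.congr h3
  have hW : HasSum (rowVal z τ) (wZeta z τ) := by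
    rw [h1, hF.tsum_prod]
    have : (fun m : ℤ => ∑' n : ℤ, zetaTerm z τ ![m, n]) = rowVal z τ := funext h3
    rw [this]
    exact hrow.hasSum
  have t1 : Tendsto (fun N : ℕ => ∑ m ∈ Icc (-(N : ℤ)) (N : ℤ), rowVal z τ m) atTop
      (𝓝 (wZeta z τ)) := by
    have hW' : HasSum (rowVal z τ) (wZeta z τ) (SummationFilter.symmetricIcc ℤ) :=
      Tendsto.mono_left hW SummationFilter.le_atTop
    exact SummationFilter.hasSum_symmetricIcc_iff.mp hW'
  have t2 : Tendsto (fun N : ℕ => ∑ m ∈ Icc (-(N : ℤ)) (N : ℤ), e2Summand m τ) atTop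
      (𝓝 (G2 τ)) := SummationFilter.hasSum_symmetricIcc_iff.mp (hasSum_G2 τ)
  have t3 : Tendsto (fun N : ℕ => ∑ m ∈ range N, cotPair z τ m) atTop
      (𝓝 (∑' m, cotPair z τ m)) := hc.hasSum.tendsto_sum_nat
  have t4 : Tendsto (fun N : ℕ => ∑ m ∈ Icc (-(N : ℤ)) (N : ℤ), rowVal z τ m) atTop
      (𝓝 (z * G2 τ + π * Complex.cot (π * z) + ∑' m, cotPair z τ m)) := by
    have := ((t2.const_mul z).add_const (π * Complex.cot (π * z))).add t3
    refine this.congr fun N => ?_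
    simp only [rowVal, sum_add_distrib, ← mul_sum]
    rw [sum_cotPart]
    ring
  exact tendsto_nhds_unique t1 t4

end Fermat.Agent.T4.helper30
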