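import Fermat.Agent.T4.helper32_ResWire
import Fermat.Agent.T4.helper42_Glue
import Fermat.Agent.T4.helper15_ConjWire
import Fermat.Agent.T4.helper89_ConjFinal
import Fermat.Agent.T4.helper94_VPrimFinal
import Fermat.Agent.T4.helper2_DivFinal

/-!
# T4 / S48: the frozen statement from block (I) ALONE, through the DIV endgame (helper30)

`helper2_DivFinal` proves the frozen S48 shape from `helper2.FormsAllStatement`
(`RankinStatement` + `ResAllStatement`: residual representations for ALL primes `l ≥ l₀`), with
no density hypothesis.  Here the forms side is discharged from `helper32.Eigen1Statement`: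

* `glueAll : Res1Statement 4 → Res1Statement 9 → … → helper2.ResAllStatement N a ε`
  (the gluing `helper42.hasResidual_of_mod` at every prime `l ≥ max 5 (N + 1)`);
* `formsAll_of_eigen1 : Eigen1Statement → helper2.FormsAllStatement`;
* `s48_of_eigen1_div : Eigen1Statement →` the frozen S48 shape.

So block (II) (Chebotarev density) is not needed for S48: the only open input is block (I).
-/

set_option autoImplicit false

open CongruenceSubgroup
open scoped MatrixGroups

namespace Fermat.Agent.T4.helper30

open Fermat.Agent.T4.helper80 (GQ Zbar)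
open Fermat.Agent.T4

/-- **[R-GLUE], all primes**: the residual representations of `helper2.ResAllStatement` from
those of the two auxiliary levels. -/
theorem glueAll (h4 : helper32.Res1Statement 4) (h9 : helper32.Res1Statement 9)
    (N : ℕ) [NeZero N] (ε : DirichletCharacter ℂ N) (f : CuspForm (Gamma1 N) 1)
    (h1 : ModularFormClass.qCoeff f 1 = 1)
    (hT : helper32.InPacket N ε (fun p => ModularFormClass.qCoeff f p) f) :
    helper2.ResAllStatement N (fun p : ℕ => ModularFormClass.qCoeff f p)
      (fun p : ℕ => ε (p : ZMod N)) := by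
  have hN : N ≠ 0 := NeZero.ne N
  refine ⟨max 5 (N + 1), fun l hl hlp k hk hc ha φ => ?_⟩
  have h5l : 5 ≤ l := le_trans (le_max_left _ _) hl
  have hNl : N + 1 ≤ l := le_trans (le_max_right _ _) hl
  have hlN : ¬ l ∣ N := fun h => by
    have := Nat.le_of_dvd (Nat.pos_of_ne_zero hN) h
    omega
  have hl2 : l ≠ 2 := by omega
  have hl4 : ¬ l ∣ 4 * N := by
    intro h
    rcases (Nat.Prime.dvd_mul hlp).1 h with h | h
    · have h22 : l ∣ 2 ^ 2 := by simpa using h
      have := (Nat.prime_dvd_prime_iff_eq hlp Nat.prime_two).1 (hlp.dvd_of_dvd_pow h22)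
      omega
    · exact hlN h
  have hl9 : ¬ l ∣ 9 * N := by
    intro h
    rcases (Nat.Prime.dvd_mul hlp).1 h with h | h
    · have h33 : l ∣ 3 ^ 2 := by simpa using h
      have := (Nat.prime_dvd_prime_iff_eq hlp Nat.prime_three).1 (hlp.dvd_of_dvd_pow h33)
      omega
    · exact hlN h
  exact helper42.hasResidual_of_mod hN hlp
    (h4 N inferInstance ε f h1 hT l hlp hl2 hl4 k hk hc ha φ)
    (h9 N inferInstance ε f h1 hT l hlp hl2 hl9 k hk hc ha φ)

/-- The forms side of the DIV endgame from block (I). -/
theorem formsAll_of_eigen1 (hE : helper32.Eigen1Statement) : helper2.FormsAllStatement := by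
  intro N hN ε f hf1 hT
  have : NeZero N := hN
  have hConj : helper32.ConjStatement := helper15.conj_of helper89.conjHom helper89.span
  have hPrim : helper32.PrimStatement := helper94.VPrim.prim
  exact ⟨helper15.rankinStatement_of_span hConj helper89.span N ε f hf1 hT,
    glueAll (helper32.res1_four hE hPrim) (helper32.res1_nine hE hPrim) N ε f hf1 hT⟩

/-- **The frozen S48 shape** from block (I) alone (no density hypothesis). -/
theorem s48_of_eigen1_div (hE : helper32.Eigen1Statement)
    (N : ℕ) [NeZero N] (ε : DirichletCharacter ℂ N) (f : CuspForm (Gamma1 N) 1)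
    (hf₁ : ModularFormClass.qCoeff f 1 = 1)
    (hT : ∀ p : ℕ, p.Prime → ¬ p ∣ N → ∀ n : ℕ,
        ModularFormClass.qCoeff f (p * n) +
            ε (p : ZMod N) * (if p ∣ n then ModularFormClass.qCoeff f (n / p) else 0) =
          ModularFormClass.qCoeff f p * ModularFormClass.qCoeff f n) :
    ∃ ρ : GQ →* GL (Fin 2) ℂ, GaloisFactorsThroughFiniteLevel ρ ∧
      (Deformation.matrixRepresentation ρ).IsIrreducible ∧
      ∀ p : ℕ, p.Prime → ¬ p ∣ N →
        ∀ A : ValuationSubring (AlgebraicClosure ℚ), A.LiesOverPrime p →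
          (∀ σ ∈ A.inertiaSubgroupIn ℚ, ρ σ = 1) ∧
          ∀ σ : GQ, A.IsFrobeniusAt σ p →
            ((ρ σ : GL (Fin 2) ℂ) : Matrix (Fin 2) (Fin 2) ℂ).trace =
                ModularFormClass.qCoeff f p ∧
            ((ρ σ : GL (Fin 2) ℂ) : Matrix (Fin 2) (Fin 2) ℂ).det = ε (p : ZMod N) :=
  helper2.s48_of_formsAll (formsAll_of_eigen1 hE) N ε f hf₁ hT

end Fermat.Agent.T4.helper30
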