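import Fermat.Agent.T4.helper32_ResWire

/-!
# T4 (S48), wiring (R), LIGHT contract for block (I) (helper32)

`Eigen1StatementL` = `Eigen1Statement` restricted to the levels that actually occur in the
wiring: `M = c N ℓ`, so `ℓ ∣ M` (hence `T_ℓ` is NOT among the operators `T_p`, `p ∤ M`) and
`12 ≤ M` (no small levels `M = 4, 8, 9`).

* `eigen1L_of : Eigen1Statement → Eigen1StatementL`;
* `res1_of_L : Eigen1StatementL → PrimStatement → Res1Statement c` (`c = 4, 9`).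
-/

set_option autoImplicit false

open CongruenceSubgroup UpperHalfPlane
open scoped MatrixGroups

noncomputable section

namespace Fermat.Agent.T4.helper32

open Fermat.Agent.T4.helper80 (GQ Zbar)
open Fermat.Agent.T4 Polynomial

/-- **[EIGEN1-L]** the deliverable of block (I), only at the levels used by the wiring:
`ℓ ∣ M` and `12 ≤ M`. -/
def Eigen1StatementL : Prop :=
  ∀ (M : ℕ) (_ : NeZero M), (4 ∣ M ∨ 9 ∣ M) → ∀ ℓ : ℕ, ℓ.Prime → ℓ ≠ 2 → ℓ ∣ M → 12 ≤ M →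
  ∀ (k : Type) (_ : Field k) (_ : CharP k ℓ) (_ : IsAlgClosed k) (r : Zbar →+* k)
    (g : CuspForm (Gamma1 M) 2) (χ : DirichletCharacter ℂ M) (x : ZMod M → Zbar)
    (c : ℕ → Zbar) (b : ℕ → k),
    (∀ a : ZMod M, ((x a : Zbar) : ℂ) = χ a) →
    (∀ n : ℕ, ((c n : Zbar) : ℂ) = ModularFormClass.qCoeff g n) →
    (∃ n : ℕ, r (c n) ≠ 0) →
    HasNeben M 2 χ g →
    (∀ p : ℕ, p.Prime → ¬ p ∣ M →
      FormalEigenAt (fun n => r (c n)) p (b p) ((p : k) * r (x (p : ZMod M)))) →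
    ∃ (V : Type) (_ : AddCommGroup V) (_ : Module k V) (_ : Module.Finite k V)
      (_ : Nontrivial V) (ρ : GQ →* Module.End k V),
      GaloisFactorsThroughFiniteLevel ρ ∧
      ∀ p : ℕ, p.Prime → ¬ p ∣ M * ℓ → EsAt ρ p (b p) ((p : k) * r (x (p : ZMod M)))

theorem eigen1L_of (h : Eigen1Statement) : Eigen1StatementL :=
  fun M hM h49 ℓ hℓ hℓ2 _ _ => h M hM h49 ℓ hℓ hℓ2

/-- **[R-WIRE], light form**: `Res1Statement c` from `Eigen1StatementL` and `PrimStatement`. -/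
theorem res1_of_L (c : ℕ) (hc0 : c ≠ 0) (hc : 4 ∣ c ∨ 9 ∣ c) (hc4 : 4 ≤ c) (hE : Eigen1StatementL)
    (hP : PrimStatement) : Res1Statement c := by
  intro N hNZ ε f hf1 hT ℓ hℓ hℓ2 _ k hk hchar hac φ
  classical
  have : NeZero N := hNZ
  have : Fact ℓ.Prime := ⟨hℓ⟩
  have : NeZero c := ⟨hc0⟩
  have h3 : 3 ≤ ℓ := by
    have h2 := hℓ.two_le
    omega
  obtain ⟨hmax, -⟩ := helper21.ker_isMaximal_of_charP ℓ φ
  obtain ⟨hint, hprim⟩ := hP N hNZ ε f hf1 hT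
  obtain ⟨h, A, hA, ⟨n₀, hn₀⟩, hneb, hpack⟩ := hprim (RingHom.ker φ) hmax
  obtain ⟨ψ, Ψ, E, e, g, B, -, hΨ, hΨk, hElaw, -, -, -, hg, hB, hBA⟩ :=
    helper21.prodContractLevel c N ℓ h3 k φ h A hA
  have hNM : N ∣ c * N * ℓ := ⟨c * ℓ, by ring⟩
  have hℓM : ℓ ∣ c * N * ℓ := dvd_mul_left ℓ (c * N)
  have hM0 : c * N * ℓ ≠ 0 := Nat.mul_ne_zero (Nat.mul_ne_zero hc0 (NeZero.ne N)) hℓ.ne_zero
  have hMZ : NeZero (c * N * ℓ) := ⟨hM0⟩
  have h12 : 12 ≤ c * N * ℓ := by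
    have hN1 : 1 ≤ N := Nat.one_le_iff_ne_zero.2 (NeZero.ne N)
    calc 12 = 4 * 1 * 3 := by norm_num
      _ ≤ c * N * ℓ := Nat.mul_le_mul (Nat.mul_le_mul hc4 hN1) h3
  have h49 : 4 ∣ c * N * ℓ ∨ 9 ∣ c * N * ℓ :=
    hc.imp (fun h => (h.mul_right N).mul_right ℓ) (fun h => (h.mul_right N).mul_right ℓ)
  -- the eigenvalues as algebraic integers
  let aZ : ℕ → Zbar := fun p =>
    if hp : p.Prime ∧ ¬ p ∣ N then ⟨ModularFormClass.qCoeff f p, hint p hp.1 hp.2⟩ else 0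
  have haZ : ∀ p : ℕ, p.Prime → ¬ p ∣ N → ((aZ p : Zbar) : ℂ) = ModularFormClass.qCoeff f p := by
    intro p hp hpN
    simp only [aZ]
    rw [dif_pos ⟨hp, hpN⟩]
  have hn₀' : φ (B n₀) ≠ 0 := by
    rw [hBA]
    exact fun h0 => hn₀ (RingHom.mem_ker.2 h0)
  have hnebg : HasNeben (c * N * ℓ) 2 (prodChar hNM hℓM ε ψ) g :=
    hasNeben_mul hNM hℓM ε ψ h E g hneb hElaw hg
  -- the determinant: `p · φ(χ(p)) = φ(ε(p))`
  have hdet : ∀ p : ℕ, p.Prime → ¬ p ∣ c * N * ℓ →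
      (p : k) * φ (helper26.epsZ (prodChar hNM hℓM ε ψ) (p : ZMod (c * N * ℓ))) =
        φ (helper26.epsZ ε (p : ZMod N)) := by
    intro p hp hpM
    have hcop : IsCoprime ((p : ℕ) : ℤ) ((c * N * ℓ : ℕ) : ℤ) :=
      Nat.isCoprime_iff_coprime.2 ((Nat.Prime.coprime_iff_not_dvd hp).2 hpM)
    have hpℓ : ¬ ℓ ∣ p := by
      intro hdvd
      have : ℓ = p := (Nat.prime_dvd_prime_iff_eq hℓ hp).1 hdvd
      exact hpM (this ▸ hℓM)
    have hx : helper26.epsZ (prodChar hNM hℓM ε ψ) (p : ZMod (c * N * ℓ)) =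
        helper26.epsZ ε (p : ZMod N) * Ψ (p : ZMod ℓ) := by
      apply Subtype.ext
      have h1 := prodChar_intCast hNM hℓM ε ψ hcop
      simp only [Int.cast_natCast] at h1
      rw [MulMemClass.coe_mul, helper26.coe_epsZ, helper26.coe_epsZ, hΨ]
      exact h1
    rw [hx, map_mul, mul_comm (p : k), mul_assoc, hΨk p hpℓ, mul_one]
  -- the formal eigenvector
  have hformal : ∀ p : ℕ, p.Prime → ¬ p ∣ c * N * ℓ →
      FormalEigenAt (fun n => φ (B n)) p (φ (aZ p))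
        ((p : k) * φ (helper26.epsZ (prodChar hNM hℓM ε ψ) (p : ZMod (c * N * ℓ)))) := by
    intro p hp hpM n
    have hpN : ¬ p ∣ N := fun hd => hpM (hd.trans hNM)
    rw [hdet p hp hpM]
    have key : A (p * n) + helper26.epsZ ε (p : ZMod N) * (if p ∣ n then A (n / p) else 0) =
        aZ p * A n := by
      apply Subtype.ext
      have h1 := hpack p hp hpN n
      by_cases hpn : p ∣ n
      · rw [if_pos hpn] at h1 ⊢
        push_cast
        rw [hA, hA, hA, haZ p hp hpN, helper26.coe_epsZ]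
        exact h1
      · rw [if_neg hpn] at h1 ⊢
        push_cast
        rw [hA, hA, haZ p hp hpN, helper26.coe_epsZ]
        exact h1
    have h2 := congrArg φ key
    rw [map_add, map_mul, map_mul] at h2
    simp only [hBA]
    by_cases hpn : p ∣ n
    · rw [if_pos hpn] at h2 ⊢
      exact h2
    · rw [if_neg hpn] at h2 ⊢
      rw [map_zero] at h2
      exact h2
  obtain ⟨V, _, _, _, _, ρ, hρ, hes⟩ :=
    hE (c * N * ℓ) hMZ h49 ℓ hℓ hℓ2 hℓM h12 k hk hchar hac φ g (prodChar hNM hℓM ε ψ)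
      (helper26.epsZ (prodChar hNM hℓM ε ψ)) B (fun p => φ (aZ p))
      (fun a => rfl) hB ⟨n₀, hn₀'⟩ hnebg hformal
  have hodd : ε (-1) = -1 := by
    refine odd_of_hasNeben ε h hneb n₀ ?_
    rw [← hA]
    intro h0
    apply hn₀
    have : A n₀ = 0 := Subtype.ext (by simpa using h0)
    rw [this]
    exact Ideal.zero_mem _
  have h2k : (2 : k) ≠ 0 := by
    intro h0
    have h1 : ((2 : ℕ) : k) = 0 := by exact_mod_cast h0
    rw [CharP.cast_eq_zero_iff k ℓ] at h1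
    have := (Nat.prime_dvd_prime_iff_eq hℓ Nat.prime_two).1 h1
    exact hℓ2 this
  have hpMℓ : ∀ p : ℕ, p.Prime → ¬ p ∣ c * N * ℓ → ¬ p ∣ c * N * ℓ * ℓ := by
    intro p hp hpM hd
    rcases (Nat.Prime.dvd_mul hp).1 hd with h1 | h1
    · exact hpM h1
    · exact hpM (h1.trans hℓM)
  refine hasResidualMod_of_quadModule ε φ hodd _ (c * N * ℓ) hM0 hNM h2k ρ hρ
    (fun p hp hpM A hA σ hσ => ((hes p hp (hpMℓ p hp hpM)) A hA).1 σ hσ)
    (fun p hp hpM => ⟨aZ p, haZ p hp (fun hd => hpM (hd.trans hNM)), fun A hA σ hσ => ?_⟩)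
  have h1 := ((hes p hp (hpMℓ p hp hpM)) A hA).2 σ hσ
  rw [hdet p hp hpM] at h1
  exact h1

/-- `Res1Statement 4` from the light contract. -/
theorem res1_four_L (hE : Eigen1StatementL) (hP : PrimStatement) : Res1Statement 4 :=
  res1_of_L 4 (by norm_num) (Or.inl dvd_rfl) le_rfl hE hP

/-- `Res1Statement 9` from the light contract. -/
theorem res1_nine_L (hE : Eigen1StatementL) (hP : PrimStatement) : Res1Statement 9 :=
  res1_of_L 9 (by norm_num) (Or.inr dvd_rfl) (by norm_num) hE hP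

end Fermat.Agent.T4.helper32
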