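import Fermat.Agent.T4.helper30_S48Div
import Fermat.Agent.T4.helper32_ResWireL

/-!
# T4 / S48: the frozen statement from the LIGHT contract of block (I) alone, through the DIV
# endgame (helper30)

`helper32.Eigen1StatementL` only asks for the levels `M` with `ℓ ∣ M` and `12 ≤ M`
(`helper32_ResWireL`).

* `formsAll_of_eigen1L : Eigen1StatementL → helper2.FormsAllStatement`;
* `s48_of_eigen1L_div : Eigen1StatementL →` the frozen S48 shape (no density hypothesis).
-/

set_option autoImplicit false

open CongruenceSubgroup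
open scoped MatrixGroups

namespace Fermat.Agent.T4.helper30

open Fermat.Agent.T4.helper80 (GQ Zbar)
open Fermat.Agent.T4

/-- The forms side of the DIV endgame from the light contract of block (I). -/
theorem formsAll_of_eigen1L (hE : helper32.Eigen1StatementL) : helper2.FormsAllStatement := by
  intro N hN ε f hf1 hT
  have : NeZero N := hN
  have hConj : helper32.ConjStatement := helper15.conj_of helper89.conjHom helper89.span
  have hPrim : helper32.PrimStatement := helper94.VPrim.prim
  exact ⟨helper15.rankinStatement_of_span hConj helper89.span N ε f hf1 hT,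
    glueAll (helper32.res1_four_L hE hPrim) (helper32.res1_nine_L hE hPrim) N ε f hf1 hT⟩

/-- **The frozen S48 shape** from the light contract of block (I) alone (no density
hypothesis). -/
theorem s48_of_eigen1L_div (hE : helper32.Eigen1StatementL)
    (N : ℕ) [NeZero N] (ε : DirichletCharacter ℂ N) (f : CuspForm (Gamma1 N) 1)
    (hf₁ : ModularFormClass.qCoeff f 1 = 1)
    (hT : ∀ p : ℕ, p.Prime → ¬ p ∣ N → ∀ n : ℕ,
        ModularFormClass.qCoeff f (p * n) +
            ε (p : ZMod N) * (if p ∣ n then ModularFormClass.qCoeff f (n / p) else 0) =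
          ModularFormClass.qCoeff f p * ModularFormClass.qCoeff f n) :
    ∃ ρ : GQ →* GL (Fin 2) ℂ, GaloisFactorsThroughFiniteLevel ρ ∧
      (Deformation.matrixRepresentation ρ).IsIrreducible ∧
      ∀ p : ℕ, p.Prime → ¬ p ∣ N →
        ∀ A : ValuationSubring (AlgebraicClosure ℚ), A.LiesOverPrime p →
          (∀ σ ∈ A.inertiaSubgroupIn ℚ, ρ σ = 1) ∧
          ∀ σ : GQ, A.IsFrobeniusAt σ p →
            ((ρ σ : GL (Fin 2) ℂ) : Matrix (Fin 2) (Fin 2) ℂ).trace =
                ModularFormClass.qCoeff f p ∧
            ((ρ σ : GL (Fin 2) ℂ) : Matrix (Fin 2) (Fin 2) ℂ).det = ε (p : ZMod N) :=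
  helper2.s48_of_formsAll (formsAll_of_eigen1L hE) N ε f hf₁ hT

end Fermat.Agent.T4.helper30
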