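import Fermat.Agent.T4.helper31_ChebLTwist

/-!
# T4 (II) [T4-CHEB-EULERLOG]: `eulerLog : helper62.EulerLogStatement` (helper31)

`logL K χ s = ∑_v -log (1 - χ(N v) N(v)^(-s))` is continuous on `(1, 2]`, its exponential is
`helper62.Ltw K χ s`, and it differs from the twisted prime sum `helper62.primeTw K χ s` by at most
`∑_v N(v)^(-2)`.
-/

set_option autoImplicit false
set_option linter.unusedSectionVars false

open NumberField Module Filter Topology IsDedekindDomain
open scoped nonZeroDivisors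

namespace Fermat.Agent.T4.helper31

open Fermat.Agent.S14

variable (K : Type*) [Field K] [NumberField K] {m : ℕ} [NeZero m] (χ : DirichletCharacter ℂ m)

/-- The local term `χ(N v) N(v)^(-s)`. -/
noncomputable def xt (s : ℝ) (v : HeightOneSpectrum (𝓞 K)) : ℂ :=
  helper62.chiN K χ v * ((helper40.pterm K s v : ℝ) : ℂ)

/-- The local logarithm `-log (1 - χ(N v) N(v)^(-s))`. -/
noncomputable def lgt (s : ℝ) (v : HeightOneSpectrum (𝓞 K)) : ℂ :=
  -Complex.log (1 - xt K χ s v)

/-- The logarithm of the Euler product. -/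
noncomputable def logL (s : ℝ) : ℂ := ∑' v : HeightOneSpectrum (𝓞 K), lgt K χ s v

theorem norm_xt_le (s : ℝ) (v : HeightOneSpectrum (𝓞 K)) :
    ‖xt K χ s v‖ ≤ helper40.pterm K s v := by
  unfold xt helper62.chiN
  rw [norm_mul, Complex.norm_real, Real.norm_of_nonneg (helper40.pterm_pos K s v).le]
  calc ‖χ ((Ideal.absNorm v.asIdeal : ℕ) : ZMod m)‖ * helper40.pterm K s v
      ≤ 1 * helper40.pterm K s v :=
        mul_le_mul_of_nonneg_right (DirichletCharacter.norm_le_one χ _)
          (helper40.pterm_pos K s v).le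
    _ = helper40.pterm K s v := one_mul _

theorem norm_xt_le_half {s : ℝ} (hs : 1 ≤ s) (v : HeightOneSpectrum (𝓞 K)) :
    ‖xt K χ s v‖ ≤ 1 / 2 :=
  (norm_xt_le K χ s v).trans (helper40.pterm_le_half K hs v)

theorem summable_xt {s : ℝ} (hs : 1 < s) : Summable (xt K χ s) :=
  Summable.of_norm_bounded (helper40.summable_pterm K hs) (norm_xt_le K χ s)

theorem primeTw_eq (s : ℝ) : helper62.primeTw K χ s = ∑' v, xt K χ s v := rfl

theorem norm_lgt_le {s : ℝ} (hs : 1 ≤ s) (v : HeightOneSpectrum (𝓞 K)) :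
    ‖lgt K χ s v‖ ≤ 3 / 2 * helper40.pterm K s v := by
  unfold lgt
  rw [norm_neg, sub_eq_add_neg]
  have h1 : ‖-xt K χ s v‖ ≤ 1 / 2 := by rw [norm_neg]; exact norm_xt_le_half K χ hs v
  refine (Complex.norm_log_one_add_half_le_self h1).trans ?_
  rw [norm_neg]
  exact mul_le_mul_of_nonneg_left (norm_xt_le K χ s v) (by norm_num)

theorem norm_lgt_sub_le {s : ℝ} (hs : 1 ≤ s) (v : HeightOneSpectrum (𝓞 K)) :
    ‖lgt K χ s v - xt K χ s v‖ ≤ helper40.pterm K s v ^ 2 := by
  unfold lgt
  have h1 : ‖-xt K χ s v‖ ≤ 1 / 2 := by rw [norm_neg]; exact norm_xt_le_half K χ hs v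
  have h2 : ‖-xt K χ s v‖ < 1 := lt_of_le_of_lt h1 (by norm_num)
  have h3 := Complex.norm_log_one_add_sub_self_le h2
  have h4 : -Complex.log (1 - xt K χ s v) - xt K χ s v =
      -(Complex.log (1 + -xt K χ s v) - -xt K χ s v) := by
    rw [← sub_eq_add_neg]
    ring
  rw [h4, norm_neg]
  refine h3.trans ?_
  rw [norm_neg] at h1 ⊢
  have h5 : (1 - ‖xt K χ s v‖)⁻¹ ≤ 2 := by
    rw [inv_le_comm₀ (by linarith) two_pos]
    linarith
  have h6 : ‖xt K χ s v‖ ^ 2 * (1 - ‖xt K χ s v‖)⁻¹ / 2 ≤ ‖xt K χ s v‖ ^ 2 := by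
    have h7 : 0 ≤ ‖xt K χ s v‖ ^ 2 := by positivity
    nlinarith
  refine h6.trans ?_
  exact pow_le_pow_left₀ (norm_nonneg _) (norm_xt_le K χ s v) 2

theorem summable_lgt {s : ℝ} (hs : 1 < s) : Summable (lgt K χ s) :=
  Summable.of_norm_bounded ((helper40.summable_pterm K hs).mul_left (3 / 2))
    (norm_lgt_le K χ hs.le)

theorem one_sub_xt_ne_zero {s : ℝ} (hs : 1 ≤ s) (v : HeightOneSpectrum (𝓞 K)) :
    1 - xt K χ s v ≠ 0 := by
  intro h
  have h1 : xt K χ s v = 1 := (sub_eq_zero.mp h).symm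
  have h2 := norm_xt_le_half K χ hs v
  rw [h1, norm_one] at h2
  norm_num at h2

/-- The exponential of `logL` is the twisted zeta function. -/
theorem exp_logL {s : ℝ} (hs : 1 < s) : Complex.exp (logL K χ s) = helper62.Ltw K χ s := by
  have h1 : HasSum (lgt K χ s) (logL K χ s) := (summable_lgt K χ hs).hasSum
  have h2 := h1.cexp
  have h3 : (Complex.exp ∘ lgt K χ s) = fun v : HeightOneSpectrum (𝓞 K) =>
      (1 - helper62.chiN K χ v * ((helper40.pterm K s v : ℝ) : ℂ))⁻¹ := by
    funext v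
    simp only [Function.comp_apply]
    unfold lgt
    rw [Complex.exp_neg, Complex.exp_log (one_sub_xt_ne_zero K χ hs.le v)]
    rfl
  rw [h3] at h2
  exact h2.unique (Ltw_hasProd K χ hs)

theorem continuous_xt (v : HeightOneSpectrum (𝓞 K)) : Continuous fun s : ℝ => xt K χ s v := by
  unfold xt helper40.pterm
  refine continuous_const.mul (Complex.continuous_ofReal.comp ?_)
  have hpos : (0 : ℝ) < (Ideal.absNorm v.asIdeal : ℝ) := by
    have := helper40.two_le_absNorm K v
    exact_mod_cast (by omega : 0 < Ideal.absNorm v.asIdeal)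
  exact (Real.continuous_const_rpow hpos.ne').comp continuous_neg

theorem continuousOn_lgt (v : HeightOneSpectrum (𝓞 K)) :
    ContinuousOn (fun s : ℝ => lgt K χ s v) (Set.Ici 1) := by
  unfold lgt
  refine ContinuousOn.neg (ContinuousOn.clog ?_ ?_)
  · exact (continuous_const.sub (continuous_xt K χ v)).continuousOn
  · intro s hs
    rw [sub_eq_add_neg]
    apply Complex.mem_slitPlane_of_norm_lt_one
    rw [norm_neg]
    exact lt_of_le_of_lt (norm_xt_le_half K χ hs v) (by norm_num)

/-- `logL` is continuous on `(1, ∞)`. -/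
theorem continuousOn_logL : ContinuousOn (logL K χ) (Set.Ioi 1) := by
  intro s₀ hs₀
  have hs₀' : (1 : ℝ) < s₀ := hs₀
  set δ : ℝ := (s₀ - 1) / 2 with hδ
  have hδ0 : 0 < δ := by rw [hδ]; linarith
  have hT : ContinuousOn (logL K χ) (Set.Ici (1 + δ)) := by
    unfold logL
    refine continuousOn_tsum (u := fun v => 3 / 2 * helper40.pterm K (1 + δ) v)
      (fun v => ?_) ((helper40.summable_pterm K (by linarith)).mul_left _) (fun v s hs => ?_)
    · exact (continuousOn_lgt K χ v).mono (fun s hs => by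
        have : (1 + δ) ≤ s := hs
        show (1 : ℝ) ≤ s
        linarith)
    · have hs' : (1 + δ) ≤ s := hs
      refine (norm_lgt_le K χ (by linarith) v).trans ?_
      exact mul_le_mul_of_nonneg_left (helper40.pterm_le_pterm K hs' v) (by norm_num)
  have h1 : ContinuousWithinAt (logL K χ) (Set.Ici (1 + δ)) s₀ :=
    hT s₀ (by show 1 + δ ≤ s₀; rw [hδ]; linarith)
  refine h1.mono_of_mem_nhdsWithin ?_
  rw [mem_nhdsWithin_iff_exists_mem_nhds_inter]
  refine ⟨Set.Ioi (1 + δ), Ioi_mem_nhds (by rw [hδ]; linarith), ?_⟩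
  intro s hs
  have h2 : 1 + δ < s := hs.1
  exact le_of_lt h2

/-- The remainder `logL - primeTw`. -/
noncomputable def remR (s : ℝ) : ℂ := logL K χ s - helper62.primeTw K χ s

theorem norm_remR_le {s : ℝ} (hs : 1 < s) :
    ‖remR K χ s‖ ≤ ∑' v : HeightOneSpectrum (𝓞 K), helper40.pterm K 2 v := by
  unfold remR logL
  rw [primeTw_eq, ← (summable_lgt K χ hs).tsum_sub (summable_xt K χ hs)]
  have hsum2 : Summable (helper40.pterm K 2) := helper40.summable_pterm K (by norm_num)
  refine tsum_of_norm_bounded hsum2.hasSum fun v => ?_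
  refine (norm_lgt_sub_le K χ hs.le v).trans ?_
  rw [helper40.pterm_sq]
  exact helper40.pterm_le_pterm K (by linarith) v

/-- The logarithm of the Euler product, any universe. -/
theorem eulerLog_univ :
    ∃ (R : ℝ → ℂ) (C : ℝ), (∀ s : ℝ, 1 < s → s ≤ 2 → ‖R s‖ ≤ C) ∧
      ContinuousOn (fun s => helper62.primeTw K χ s + R s) (Set.Ioc 1 2) ∧
      ∀ s : ℝ, 1 < s → s ≤ 2 → helper62.Ltw K χ s =
        Complex.exp (helper62.primeTw K χ s + R s) := by
  refine ⟨remR K χ, ∑' v : HeightOneSpectrum (𝓞 K), helper40.pterm K 2 v,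
    fun s hs _ => norm_remR_le K χ hs, ?_, fun s hs _ => ?_⟩
  · have h : (fun s => helper62.primeTw K χ s + remR K χ s) = logL K χ := by
      funext s
      unfold remR
      ring
    rw [h]
    exact (continuousOn_logL K χ).mono Set.Ioc_subset_Ioi_self
  · have h : helper62.primeTw K χ s + remR K χ s = logL K χ s := by
      unfold remR
      ring
    rw [h, exp_logL K χ hs]

/-- **[T4-CHEB-EULERLOG]**, verbatim. -/
theorem eulerLog : helper62.EulerLogStatement :=
  fun F _ _ _ _ χ => eulerLog_univ F χ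

end Fermat.Agent.T4.helper31
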