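import Mathlib
import Fermat.Agent.S14.Defs
import Fermat.Agent.S14.helper34_Defs
import Fermat.Agent.S14.helper40_PrimeSums
import Fermat.Agent.S14.helper52_PrimeDensity

/-!
# T4 block (II): Chebotarev DENSITY theorem - shared definitions and statements (helper62)

Vocabulary of the S14 / Cheb clusters on main: primes of a number field `E` are
`HeightOneSpectrum (𝓞 E)`, Frobenius elements are `Fermat.Agent.S14.frobAt E M 𝔭.asIdeal`,
ramified primes are `helper52.ramSet E M`, the prime summand is `helper40.pterm E s 𝔭`.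

## Definitions
* `psum E S s`            : `∑_{𝔭 ∈ S} N𝔭^(-s)`.
* `HasLogDensity E S c`   : `psum E S s = c * log (1/(s-1)) + O(1)` on `(1, 2]`.
* `HasLogDensityGE E S c` : `psum E S s ≥ c * log (1/(s-1)) - O(1)` on `(1, 2]`.
* `HasDDensity E S c`     : Dirichlet density, limit form.
* `chiN E χ 𝔮`            : `χ (N𝔮)` for a Dirichlet character `χ` mod `m`.
* `Ltw E χ s`, `primeTw E χ s` : `∑_I χ(N I) N(I)^(-s)` and `∑_𝔮 χ(N𝔮) N𝔮^(-s)` (real `s`).
* `frobSet E M C`         : unramified primes with Frobenius in `C`.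
* `IsEvenCycloType F Ω`   : a faithful character of `Gal(Ω/F)` is an even Dirichlet character of
  the norm of the prime.

## Statements (one `Prop` per leaf; the leaves are proved in their own files)
analytic chain : `LTwistStatement`, `EulerLogStatement`, `NonvanishStatement`,
  `LogBoundStatement`, `AbelianDensityStatement`;
algebraic chain : `CycChebStatement`, `DeuringStatement`, `CrossStatement`, `RestrictStatement`;
result : `ChebDensityNF`.
-/

set_option autoImplicit false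
set_option linter.unusedSectionVars false
set_option linter.unusedVariables false
set_option linter.style.longLine false

open NumberField Ideal IsDedekindDomain Filter Topology
open scoped Classical

namespace Fermat.Agent.T4.helper62

open Fermat.Agent.S14

section defs

variable (E : Type*) [Field E] [NumberField E]

/-- The prime sum `∑_{𝔭 ∈ S} N𝔭^(-s)` over a set `S` of primes of `E`. -/
noncomputable def psum (S : Set (HeightOneSpectrum (𝓞 E))) (s : ℝ) : ℝ :=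
  ∑' 𝔭, S.indicator (helper40.pterm E s) 𝔭

/-- Strong logarithmic density: `psum E S s = c * log (1/(s-1)) + O(1)` on `(1, 2]`. -/
def HasLogDensity (S : Set (HeightOneSpectrum (𝓞 E))) (c : ℝ) : Prop :=
  ∃ B : ℝ, ∀ s : ℝ, 1 < s → s ≤ 2 → |psum E S s - c * Real.log (1 / (s - 1))| ≤ B

/-- Lower bound form: `c * log (1/(s-1)) ≤ psum E S s + O(1)` on `(1, 2]`. -/
def HasLogDensityGE (S : Set (HeightOneSpectrum (𝓞 E))) (c : ℝ) : Prop :=
  ∃ B : ℝ, ∀ s : ℝ, 1 < s → s ≤ 2 → c * Real.log (1 / (s - 1)) ≤ psum E S s + B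

/-- Dirichlet density `c`, limit form. -/
def HasDDensity (S : Set (HeightOneSpectrum (𝓞 E))) (c : ℝ) : Prop :=
  Tendsto (fun s : ℝ => psum E S s / Real.log (1 / (s - 1))) (𝓝[>] 1) (𝓝 c)

/-- The value `χ (N𝔮)` of a Dirichlet character on the norm of a prime. -/
noncomputable def chiN {m : ℕ} (χ : DirichletCharacter ℂ m) (𝔮 : HeightOneSpectrum (𝓞 E)) : ℂ :=
  χ ((absNorm 𝔮.asIdeal : ℕ) : ZMod m)

/-- The twisted Dedekind zeta function `∑_I χ(N I) N(I)^(-s)`, real variable `s`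
(sum over ALL ideals of `𝓞 E`; the zero ideal contributes `0` for `s ≠ 0`). -/
noncomputable def Ltw {m : ℕ} (χ : DirichletCharacter ℂ m) (s : ℝ) : ℂ :=
  ∑' I : Ideal (𝓞 E), χ ((absNorm I : ℕ) : ZMod m) * (((absNorm I : ℝ) ^ (-s) : ℝ) : ℂ)

/-- The twisted prime sum `∑_𝔮 χ(N𝔮) N𝔮^(-s)`. -/
noncomputable def primeTw {m : ℕ} (χ : DirichletCharacter ℂ m) (s : ℝ) : ℂ :=
  ∑' 𝔮 : HeightOneSpectrum (𝓞 E), chiN E χ 𝔮 * ((helper40.pterm E s 𝔮 : ℝ) : ℂ)

/-- The unramified primes of `E` whose Frobenius in `Gal(M/E)` lies in `C`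
(meaningful for conjugation-stable `C`). -/
def frobSet (M : Type*) [Field M] [NumberField M] [Algebra E M] [IsGalois E M]
    (C : Set Gal(M/E)) : Set (HeightOneSpectrum (𝓞 E)) :=
  {𝔭 | 𝔭 ∉ helper52.ramSet E M ∧ frobAt E M 𝔭.asIdeal ∈ C}

/-- `Ω/F` is of EVEN CYCLOTOMIC TYPE: some faithful character `ι` of `Gal(Ω/F)` is computed, at
almost all primes, by an even Dirichlet character of the absolute norm of the prime. -/
def IsEvenCycloType (Ω : Type*) [Field Ω] [NumberField Ω] [Algebra E Ω] [IsGalois E Ω] : Prop :=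
  ∃ (m : ℕ) (_ : NeZero m) (χ : DirichletCharacter ℂ m) (ι : Gal(Ω/E) →* ℂˣ)
    (Bad : Set (HeightOneSpectrum (𝓞 E))),
    χ.Even ∧ Function.Injective ι ∧ Bad.Finite ∧
      ∀ 𝔮 : HeightOneSpectrum (𝓞 E), 𝔮 ∉ Bad → (ι (frobAt E Ω 𝔮.asIdeal) : ℂ) = chiN E χ 𝔮

end defs

/-! ## The analytic chain -/

/-- [T4-CHEB-LTWIST] (helper31): the twisted zeta function of an EVEN character which is
nontrivial on the norm of some prime has a finite limit at `1+`. -/
def LTwistStatement : Prop :=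
  ∀ (F : Type) [Field F] [NumberField F] (m : ℕ) [NeZero m] (χ : DirichletCharacter ℂ m),
    χ.Even → (∃ 𝔮 : HeightOneSpectrum (𝓞 F), chiN F χ 𝔮 ≠ 0 ∧ chiN F χ 𝔮 ≠ 1) →
    ∃ l : ℂ, Tendsto (Ltw F χ) (𝓝[>] 1) (𝓝 l)

/-- [T4-CHEB-EULERLOG]: `Ltw = exp (primeTw + R)` on `(1, 2]` with `R` bounded and
`primeTw + R` continuous (logarithm of the Euler product). -/
def EulerLogStatement : Prop :=
  ∀ (F : Type) [Field F] [NumberField F] (m : ℕ) [NeZero m] (χ : DirichletCharacter ℂ m),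
    ∃ (R : ℝ → ℂ) (C : ℝ), (∀ s : ℝ, 1 < s → s ≤ 2 → ‖R s‖ ≤ C) ∧
      ContinuousOn (fun s => primeTw F χ s + R s) (Set.Ioc 1 2) ∧
      ∀ s : ℝ, 1 < s → s ≤ 2 → Ltw F χ s = Complex.exp (primeTw F χ s + R s)

/-- The hypotheses "`χ ∘ N` has exact order `d` on the primes outside `Bad`, and the primes with
`χ (N𝔮) = 1` have lower density at least `1/d`". -/
def NormOrder (F : Type) [Field F] [NumberField F] {m : ℕ} (χ : DirichletCharacter ℂ m)
    (d : ℕ) (Bad : Set (HeightOneSpectrum (𝓞 F))) : Prop :=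
  0 < d ∧ Bad.Finite ∧ (∀ 𝔮 : HeightOneSpectrum (𝓞 F), 𝔮 ∉ Bad → chiN F χ 𝔮 ^ d = 1) ∧
    (∃ 𝔮 : HeightOneSpectrum (𝓞 F), 𝔮 ∉ Bad ∧ IsPrimitiveRoot (chiN F χ 𝔮) d) ∧
    HasLogDensityGE F {𝔮 | 𝔮 ∉ Bad ∧ chiN F χ 𝔮 = 1} (1 / (d : ℝ))

/-- [T4-CHEB-NONVANISH]: `L(1, χ^j) ≠ 0` for `0 < j < d`. -/
def NonvanishStatement : Prop :=
  ∀ (F : Type) [Field F] [NumberField F] (m : ℕ) [NeZero m] (χ : DirichletCharacter ℂ m)
    (d : ℕ) (Bad : Set (HeightOneSpectrum (𝓞 F))), χ.Even → NormOrder F χ d Bad →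
    ∀ (j : ℕ), 0 < j → j < d → ∀ l : ℂ, Tendsto (Ltw F (χ ^ j)) (𝓝[>] 1) (𝓝 l) → l ≠ 0

/-- [T4-CHEB-LOGBOUND]: if `Ltw` has a NONZERO limit at `1+`, the twisted prime sum is bounded
on `(1, 2]`. -/
def LogBoundStatement : Prop :=
  ∀ (F : Type) [Field F] [NumberField F] (m : ℕ) [NeZero m] (χ : DirichletCharacter ℂ m)
    (l : ℂ), Tendsto (Ltw F χ) (𝓝[>] 1) (𝓝 l) → l ≠ 0 →
    ∃ B : ℝ, ∀ s : ℝ, 1 < s → s ≤ 2 → ‖primeTw F χ s‖ ≤ B

/-- [T4-CHEB-AD] (abelian density, one-character form): under `NormOrder`, every value `z` with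
`z ^ d = 1` is taken by `χ ∘ N` on a set of primes of density `1/d`. -/
def AbelianDensityStatement : Prop :=
  ∀ (F : Type) [Field F] [NumberField F] (m : ℕ) [NeZero m] (χ : DirichletCharacter ℂ m)
    (d : ℕ) (Bad : Set (HeightOneSpectrum (𝓞 F))), χ.Even → NormOrder F χ d Bad →
    ∀ z : ℂ, z ^ d = 1 → HasLogDensity F {𝔮 | 𝔮 ∉ Bad ∧ chiN F χ 𝔮 = z} (1 / (d : ℝ))

/-! ## The algebraic chain -/

/-- [T4-CHEB-CYC]: Chebotarev for extensions of even cyclotomic type. -/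
def CycChebStatement : Prop :=
  ∀ (F Ω : Type) [Field F] [NumberField F] [Field Ω] [NumberField Ω] [Algebra F Ω]
    [IsGalois F Ω], IsEvenCycloType F Ω →
    ∀ g : Gal(Ω/F), HasLogDensity F (frobSet F Ω {g}) (1 / (Nat.card Gal(Ω/F) : ℝ))

/-- [T4-CHEB-DEURING]: Deuring's reduction over `ℚ`, lower-bound form.  `F` is the fixed field of
`⟨a⟩`, and `a'` is `a` seen in `Gal(Ω/F)`. -/
def DeuringStatement : Prop :=
  ∀ (Ω : Type) [Field Ω] [NumberField Ω] [IsGalois ℚ Ω] (a : Gal(Ω/ℚ))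
    (a' : Gal(Ω/(IntermediateField.fixedField (Subgroup.zpowers a)))),
    (∀ x : Ω, a' x = a x) →
    HasLogDensityGE (IntermediateField.fixedField (Subgroup.zpowers a))
      (frobSet (IntermediateField.fixedField (Subgroup.zpowers a)) Ω {a'})
      (1 / (orderOf a : ℝ)) →
    HasLogDensityGE ℚ (frobSet ℚ Ω {b | IsConj a b})
      ((Nat.card {b : Gal(Ω/ℚ) // IsConj a b} : ℝ) / (Nat.card Gal(Ω/ℚ) : ℝ))

/-- [T4-CHEB-CROSS]: the crossing fields.  For `L/ℚ` Galois, `σ ∈ Gal(L/ℚ)` and `ε > 0` there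
are a Galois number field `Ω ⊇ L` and a finite set `Y` of pairwise non-conjugate elements of
`Gal(Ω/ℚ)` restricting to `σ`, each generating a subgroup over whose fixed field `Ω` is of even
cyclotomic type, and carrying the proportion `≥ 1 - ε` of the class of `σ`. -/
def CrossStatement : Prop :=
  ∀ (L : Type) [Field L] [NumberField L] [IsGalois ℚ L] (σ : Gal(L/ℚ)) (ε : ℝ), 0 < ε →
    ∃ (Ω : Type) (_ : Field Ω) (_ : NumberField Ω) (_ : Algebra L Ω) (_ : IsGalois ℚ Ω)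
      (Y : Finset Gal(Ω/ℚ)),
      (∀ a ∈ Y, AlgEquiv.restrictNormalHom L a = σ) ∧
      (∀ a ∈ Y, ∀ b ∈ Y, IsConj a b → a = b) ∧
      (∀ a ∈ Y, IsEvenCycloType (IntermediateField.fixedField (Subgroup.zpowers a)) Ω) ∧
      (1 - ε) * ((Nat.card {τ : Gal(L/ℚ) // IsConj σ τ} : ℝ) / (Nat.card Gal(L/ℚ) : ℝ)) ≤
        ∑ a ∈ Y, (Nat.card {b : Gal(Ω/ℚ) // IsConj a b} : ℝ) / (Nat.card Gal(Ω/ℚ) : ℝ)

/-- [T4-CHEB-RESTRICT]: Frobenius elements restrict to Frobenius elements, up to conjugacy. -/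
def RestrictStatement : Prop :=
  ∀ (L Ω : Type) [Field L] [NumberField L] [IsGalois ℚ L] [Field Ω] [NumberField Ω]
    [Algebra L Ω] [IsGalois ℚ Ω] (𝔭 : HeightOneSpectrum (𝓞 ℚ)),
    𝔭 ∉ helper52.ramSet ℚ Ω →
    𝔭 ∉ helper52.ramSet ℚ L ∧
      IsConj (AlgEquiv.restrictNormalHom L (frobAt ℚ Ω 𝔭.asIdeal)) (frobAt ℚ L 𝔭.asIdeal)

/-! ## The result -/

/-- **Chebotarev density theorem** over `ℚ`, number field form, lower bounds with bounded error:
for a conjugation-stable subset `C` of `Gal(L/ℚ)` and `ε > 0`,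
`psum (Frob ∈ C) ≥ (|C| / |G| - ε) log (1/(s-1)) - O(1)` on `(1, 2]`.
(This is the form produced by the crossing argument and consumed by the `Gal(ℚ̄/ℚ)` forms; applied
to `C` and to its complement it gives the limit form `ChebDensityNFLimit`.) -/
def ChebDensityNF : Prop :=
  ∀ (L : Type) [Field L] [NumberField L] [IsGalois ℚ L] (C : Set Gal(L/ℚ)),
    (∀ g h : Gal(L/ℚ), h ∈ C → g * h * g⁻¹ ∈ C) → ∀ ε : ℝ, 0 < ε →
    HasLogDensityGE ℚ (frobSet ℚ L C) ((Nat.card C : ℝ) / (Nat.card Gal(L/ℚ) : ℝ) - ε)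

/-- The limit form (Dirichlet density `|C| / |G|`); optional corollary. -/
def ChebDensityNFLimit : Prop :=
  ∀ (L : Type) [Field L] [NumberField L] [IsGalois ℚ L] (C : Set Gal(L/ℚ)),
    (∀ g h : Gal(L/ℚ), h ∈ C → g * h * g⁻¹ ∈ C) →
    HasDDensity ℚ (frobSet ℚ L C) ((Nat.card C : ℝ) / (Nat.card Gal(L/ℚ) : ℝ))

end Fermat.Agent.T4.helper62
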