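import Fermat.Agent.T4.helper31_LTEuler
import Fermat.Agent.T4.helper62_ChebDefs

/-!
# T4 (II) [T4-CHEB-LTWIST]: `lTwist : helper62.LTwistStatement` (helper31)

The statement of `helper62_ChebDefs` verbatim, from `normL_tendsto`; plus the dictionary between
`helper62.Ltw` (sum over all ideals) and `normL` (sum over the nonzero ideals), and the Euler
product of `helper62.Ltw`.
-/

set_option autoImplicit false
set_option linter.unusedSectionVars false

open NumberField Module Filter Topology IsDedekindDomain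
open scoped nonZeroDivisors

namespace Fermat.Agent.T4.helper31

open Fermat.Agent.S14

variable (K : Type*) [Field K] [NumberField K] {m : ℕ} [NeZero m] (χ : DirichletCharacter ℂ m)

/-- `helper62.Ltw` is `normL` (for `s ≠ 0`). -/
theorem Ltw_eq_normL {s : ℝ} (hs : s ≠ 0) : helper62.Ltw K χ s = normL K χ s := by
  unfold helper62.Ltw normL
  symm
  refine tsum_subtype_eq_of_support_subset
    (f := fun I : Ideal (𝓞 K) => χ ((Ideal.absNorm I : ℕ) : ZMod m) *
      (((Ideal.absNorm I : ℝ) ^ (-s) : ℝ) : ℂ)) (s := ((Ideal (𝓞 K))⁰ : Set (Ideal (𝓞 K)))) ?_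
  intro I hI
  rw [Function.mem_support] at hI
  refine mem_nonZeroDivisors_of_ne_zero ?_
  rintro rfl
  apply hI
  have h0 : Ideal.absNorm (0 : Ideal (𝓞 K)) = 0 := by
    rw [Ideal.zero_eq_bot, Ideal.absNorm_bot]
  rw [h0]
  have h1 : (((0 : ℕ) : ℝ)) ^ (-s) = 0 := by
    rw [Nat.cast_zero, Real.zero_rpow (neg_ne_zero.mpr hs)]
  rw [h1, Complex.ofReal_zero, mul_zero]

theorem chiN_eq (𝔮 : HeightOneSpectrum (𝓞 K)) :
    helper62.chiN K χ 𝔮 = idChar K χ (helper40.primeNZD 𝔮 : Ideal (𝓞 K)) := rfl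

/-- `Ltw` has a finite limit at `1+` (any universe). -/
theorem Ltw_tendsto (hχ : χ.Even)
    (h : ∃ 𝔮 : HeightOneSpectrum (𝓞 K), helper62.chiN K χ 𝔮 ≠ 0 ∧ helper62.chiN K χ 𝔮 ≠ 1) :
    ∃ l : ℂ, Tendsto (helper62.Ltw K χ) (𝓝[>] 1) (𝓝 l) := by
  obtain ⟨𝔮, h0, h1⟩ := h
  obtain ⟨l, hl⟩ := normL_tendsto K χ hχ (helper40.primeNZD 𝔮) h0 h1
  refine ⟨l, hl.congr' ?_⟩
  filter_upwards [self_mem_nhdsWithin] with s hs
  have hs1 : (1 : ℝ) < s := hs
  exact (Ltw_eq_normL K χ (by linarith)).symm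

/-- **[T4-CHEB-LTWIST]**, verbatim. -/
theorem lTwist : helper62.LTwistStatement :=
  fun F _ _ _ _ χ hχ h => Ltw_tendsto F χ hχ h

/-- The Euler product of `helper62.Ltw`. -/
theorem Ltw_hasProd {s : ℝ} (hs : 1 < s) :
    HasProd (fun v : HeightOneSpectrum (𝓞 K) =>
      (1 - helper62.chiN K χ v * ((helper40.pterm K s v : ℝ) : ℂ))⁻¹) (helper62.Ltw K χ s) := by
  rw [Ltw_eq_normL K χ (by linarith)]
  exact normL_hasProd K χ hs

theorem Ltw_ne_zero {s : ℝ} (hs : 1 < s) : helper62.Ltw K χ s ≠ 0 := by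
  rw [Ltw_eq_normL K χ (by linarith)]
  exact normL_ne_zero K χ hs

end Fermat.Agent.T4.helper31
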