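import Fermat.Agent.T4.helper31_ChebEulerLog

/-!
# T4 (II) [T4-CHEB-LOGBOUND]: `logBound : helper62.LogBoundStatement` (helper31)

* `bounded_of_exp_tendsto` (continuous logarithm): if `u` is continuous on `(1, 2]` and `exp ∘ u`
  has a NONZERO limit at `1+`, then `u` is bounded on `(1, 2]`.
* `logBound` : if `Ltw` has a nonzero limit at `1+`, the twisted prime sum `primeTw` is bounded on
  `(1, 2]`.
-/

set_option autoImplicit false
set_option linter.unusedSectionVars false

open NumberField Module Filter Topology IsDedekindDomain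
open scoped nonZeroDivisors

namespace Fermat.Agent.T4.helper31

open Fermat.Agent.S14

/-- A continuous function on an interval with values in `2πiℤ`, vanishing at one point,
vanishes identically. -/
theorem eq_zero_of_exp_eq_one {I : Set ℝ} (hI : I.OrdConnected) {g : ℝ → ℂ}
    (hg : ContinuousOn g I) (hexp : ∀ s ∈ I, Complex.exp (g s) = 1) {s₀ : ℝ} (hs₀ : s₀ ∈ I)
    (h0 : g s₀ = 0) : ∀ s ∈ I, g s = 0 := by
  intro s₁ hs₁
  -- the real function `Im g / (2π)` is integer valued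
  set f : ℝ → ℝ := fun s => (g s).im / (2 * Real.pi) with hf
  have hpi : (0 : ℝ) < 2 * Real.pi := by positivity
  have hint : ∀ s ∈ I, ∃ n : ℤ, g s = n * (2 * Real.pi * Complex.I) := fun s hs =>
    Complex.exp_eq_one_iff.mp (hexp s hs)
  have hfint : ∀ s ∈ I, ∃ n : ℤ, f s = n := by
    intro s hs
    obtain ⟨n, hn⟩ := hint s hs
    refine ⟨n, ?_⟩
    rw [hf]
    simp only
    rw [hn]
    have : ((n : ℂ) * (2 * Real.pi * Complex.I)).im = n * (2 * Real.pi) := by
      simp [Complex.mul_im]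
    rw [this]
    field_simp
  have hfc : ContinuousOn f I :=
    (Complex.continuous_im.comp_continuousOn hg).div_const _
  have hf0 : f s₀ = 0 := by rw [hf]; simp [h0]
  -- `f s₁ = 0`
  have hf1 : f s₁ = 0 := by
    by_contra hne
    have hsub : Set.uIcc s₀ s₁ ⊆ I := hI.uIcc_subset hs₀ hs₁
    have hivt := intermediate_value_uIcc (hfc.mono hsub)
    obtain ⟨n, hn⟩ := hfint s₁ hs₁
    have hn0 : n ≠ 0 := by
      rintro rfl
      apply hne
      rw [hn, Int.cast_zero]
    -- the value `f s₁ / (2 n)` ... choose `y = 1/2 * sign`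
    have hy : ∃ y : ℝ, y ∈ Set.uIcc (f s₀) (f s₁) ∧ ∀ k : ℤ, y ≠ k := by
      rw [hf0, hn]
      rcases lt_or_gt_of_ne hn0 with hneg | hpos
      · refine ⟨-(1 / 2), ?_, ?_⟩
        · rw [Set.mem_uIcc]
          right
          have : (n : ℝ) ≤ -1 := by exact_mod_cast (by omega : n ≤ -1)
          constructor <;> linarith
        · intro k hk
          have h2 : (2 : ℝ) * k = -1 := by linarith
          have h3 : (2 : ℤ) * k = -1 := by exact_mod_cast h2
          omega
      · refine ⟨1 / 2, ?_, ?_⟩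
        · rw [Set.mem_uIcc]
          left
          have : (1 : ℝ) ≤ n := by exact_mod_cast (by omega : 1 ≤ n)
          constructor <;> linarith
        · intro k hk
          have h2 : (2 : ℝ) * k = 1 := by linarith
          have h3 : (2 : ℤ) * k = 1 := by exact_mod_cast h2
          omega
    obtain ⟨y, hy1, hy2⟩ := hy
    obtain ⟨t, ht, hty⟩ := hivt hy1
    obtain ⟨k, hk⟩ := hfint t (hsub ht)
    exact hy2 k (hty ▸ hk)
  obtain ⟨n, hn⟩ := hint s₁ hs₁
  have hn0 : n = 0 := by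
    have h1 : f s₁ = n := by
      rw [hf]
      simp only
      rw [hn]
      have : ((n : ℂ) * (2 * Real.pi * Complex.I)).im = n * (2 * Real.pi) := by
        simp [Complex.mul_im]
      rw [this]
      field_simp
    rw [hf1] at h1
    exact_mod_cast h1.symm
  rw [hn, hn0, Int.cast_zero, zero_mul]

/-- **Continuous logarithm.** If `u` is continuous on `(1, 2]` and `exp (u s)` tends to a nonzero
limit when `s → 1+`, then `u` is bounded on `(1, 2]`. -/
theorem bounded_of_exp_tendsto {u : ℝ → ℂ} (hu : ContinuousOn u (Set.Ioc 1 2)) {l : ℂ}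
    (hl : l ≠ 0) (h : Tendsto (fun s => Complex.exp (u s)) (𝓝[>] 1) (𝓝 l)) :
    ∃ B : ℝ, ∀ s : ℝ, 1 < s → s ≤ 2 → ‖u s‖ ≤ B := by
  -- near `1`, `exp u / l` is close to `1`
  have h1 : Tendsto (fun s => Complex.exp (u s) / l - 1) (𝓝[>] 1) (𝓝 0) := by
    have := (h.div_const l).sub_const 1
    rwa [div_self hl, sub_self] at this
  have h2 : ∀ᶠ s in 𝓝[>] (1 : ℝ), ‖Complex.exp (u s) / l - 1‖ < 1 / 2 := by
    have := h1.norm
    rw [norm_zero] at this
    exact this.eventually (gt_mem_nhds (by norm_num))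
  obtain ⟨δ', hδ', hδ'2⟩ : ∃ δ' : ℝ, 1 < δ' ∧ ∀ s, 1 < s → s < δ' →
      ‖Complex.exp (u s) / l - 1‖ < 1 / 2 := by
    rw [eventually_nhdsWithin_iff, Metric.eventually_nhds_iff] at h2
    obtain ⟨ε, hε, hε2⟩ := h2
    refine ⟨1 + ε, by linarith, fun s hs1 hs2 => hε2 ?_ hs1⟩
    rw [Real.dist_eq, abs_of_pos (by linarith)]
    linarith
  set δ : ℝ := min δ' 2 with hδ
  have hδ1 : 1 < δ := lt_min hδ' (by norm_num)
  have hδ2 : δ ≤ 2 := min_le_right _ _
  have hclose : ∀ s, 1 < s → s < δ → ‖Complex.exp (u s) / l - 1‖ < 1 / 2 := fun s hs1 hs2 =>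
    hδ'2 s hs1 (lt_of_lt_of_le hs2 (min_le_left _ _))
  -- the interval `I = (1, δ)`
  set I : Set ℝ := Set.Ioo 1 δ with hI
  have hIsub : I ⊆ Set.Ioc 1 2 := fun s hs => ⟨hs.1, (hs.2.trans_le hδ2).le⟩
  set w : ℝ → ℂ := fun s => Complex.exp (u s) / l with hw
  have hwslit : ∀ s ∈ I, w s ∈ Complex.slitPlane := by
    intro s hs
    have h3 : w s = 1 + (w s - 1) := by ring
    rw [h3]
    exact Complex.mem_slitPlane_of_norm_lt_one
      (lt_trans (hclose s hs.1 hs.2) (by norm_num))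
  have hwc : ContinuousOn w I :=
    ((Complex.continuous_exp.comp_continuousOn hu).div_const l).mono hIsub
  have hlogc : ContinuousOn (fun s => Complex.log (w s)) I := hwc.clog hwslit
  have hw0 : ∀ s ∈ I, w s ≠ 0 := fun s hs => Complex.slitPlane_ne_zero (hwslit s hs)
  -- a base point
  set s₀ : ℝ := (1 + δ) / 2 with hs₀
  have hs₀I : s₀ ∈ I := ⟨by rw [hs₀]; linarith, by rw [hs₀]; linarith⟩
  set v : ℝ → ℂ := fun s => u s - Complex.log (w s) with hv
  have hvexp : ∀ s ∈ I, Complex.exp (v s) = l := by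
    intro s hs
    rw [hv]
    simp only
    rw [Complex.exp_sub, Complex.exp_log (hw0 s hs), hw]
    simp only
    field_simp
  have hvc : ContinuousOn v I := (hu.mono hIsub).sub hlogc
  have hconst : ∀ s ∈ I, v s - v s₀ = 0 := by
    refine eq_zero_of_exp_eq_one (I := I) Set.ordConnected_Ioo
      (hvc.sub continuousOn_const) (fun s hs => ?_) hs₀I (sub_self _)
    rw [Complex.exp_sub, hvexp s hs, hvexp s₀ hs₀I, div_self hl]
  -- bound on `I`
  have hbI : ∀ s ∈ I, ‖u s‖ ≤ ‖v s₀‖ + 3 / 4 := by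
    intro s hs
    have h3 : u s = v s₀ + Complex.log (w s) := by
      have := hconst s hs
      rw [hv] at this ⊢
      simp only at this ⊢
      linear_combination this
    rw [h3]
    refine (norm_add_le _ _).trans (add_le_add le_rfl ?_)
    have h4 : w s = 1 + (w s - 1) := by ring
    rw [h4]
    have h5 : ‖w s - 1‖ ≤ 1 / 2 := (hclose s hs.1 hs.2).le
    refine (Complex.norm_log_one_add_half_le_self h5).trans ?_
    linarith
  -- bound on `[s₀, 2]`
  have hcomp : IsCompact (Set.Icc s₀ 2) := isCompact_Icc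
  have hsub2 : Set.Icc s₀ 2 ⊆ Set.Ioc 1 2 := fun s hs => ⟨lt_of_lt_of_le hs₀I.1 hs.1, hs.2⟩
  obtain ⟨B₂, hB₂⟩ := hcomp.exists_bound_of_continuousOn (hu.mono hsub2)
  refine ⟨max (‖v s₀‖ + 3 / 4) B₂, fun s hs1 hs2 => ?_⟩
  by_cases hs : s < s₀
  · exact (hbI s ⟨hs1, hs.trans hs₀I.2⟩).trans (le_max_left _ _)
  · exact (hB₂ s ⟨not_lt.mp hs, hs2⟩).trans (le_max_right _ _)

variable (K : Type*) [Field K] [NumberField K] {m : ℕ} [NeZero m] (χ : DirichletCharacter ℂ m)

/-- `logL` is bounded on `(1, 2]` as soon as `Ltw` has a nonzero limit at `1+`. -/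
theorem logL_bounded {l : ℂ} (hlim : Tendsto (helper62.Ltw K χ) (𝓝[>] 1) (𝓝 l)) (hl : l ≠ 0) :
    ∃ B : ℝ, ∀ s : ℝ, 1 < s → s ≤ 2 → ‖logL K χ s‖ ≤ B := by
  refine bounded_of_exp_tendsto ((continuousOn_logL K χ).mono Set.Ioc_subset_Ioi_self) hl ?_
  refine hlim.congr' ?_
  filter_upwards [self_mem_nhdsWithin] with s hs
  exact (exp_logL K χ hs).symm

/-- The twisted prime sum is bounded on `(1, 2]` as soon as `Ltw` has a nonzero limit at `1+`
(any universe). -/
theorem primeTw_bounded {l : ℂ} (hlim : Tendsto (helper62.Ltw K χ) (𝓝[>] 1) (𝓝 l))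
    (hl : l ≠ 0) : ∃ B : ℝ, ∀ s : ℝ, 1 < s → s ≤ 2 → ‖helper62.primeTw K χ s‖ ≤ B := by
  obtain ⟨B, hB⟩ := logL_bounded K χ hlim hl
  refine ⟨B + ∑' v : HeightOneSpectrum (𝓞 K), helper40.pterm K 2 v, fun s hs1 hs2 => ?_⟩
  have h1 : helper62.primeTw K χ s = logL K χ s - remR K χ s := by
    unfold remR
    ring
  rw [h1]
  exact (norm_sub_le _ _).trans (add_le_add (hB s hs1 hs2) (norm_remR_le K χ hs1))

/-- **[T4-CHEB-LOGBOUND]**, verbatim. -/
theorem logBound : helper62.LogBoundStatement :=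
  fun F _ _ _ _ χ _ hlim hl => primeTw_bounded F χ hlim hl

end Fermat.Agent.T4.helper31
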