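import Fermat.Agent.T4.helper31_LTOrbit

/-!
# T4 (II), leaf LTWIST, part 3: the norm character on elements and ideals (helper31)

For a Dirichlet character `χ` modulo `m` and a number field `K`:
* `elChar K χ a = χ (N a)` for `a : 𝓞 K` (`N` the norm to `ℤ`), periodic modulo `m 𝓞 K`
  (`elChar_add_mul`), multiplicative;
* `idChar K χ I = χ (N I)` for an ideal `I`; for even `χ`, `idChar (span {a}) = elChar a`;
* `gsum K χ = ∑_{x ∈ 𝓞 K / m} χ (N x)`; `gsum_eq_zero` : it vanishes as soon as `χ (N β) ∉ {0, 1}`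
  for some `β`.
-/

set_option autoImplicit false
set_option linter.unusedSectionVars false

open NumberField Module Filter Topology
open scoped nonZeroDivisors

namespace Fermat.Agent.T4.helper31

variable (K : Type*) [Field K] [NumberField K] {m : ℕ} [NeZero m] (χ : DirichletCharacter ℂ m)

/-- `χ ∘ N` on the elements of `𝓞 K`. -/
noncomputable def elChar (a : 𝓞 K) : ℂ := χ (((Algebra.norm ℤ a : ℤ) : ZMod m))

/-- `χ ∘ N` on the ideals of `𝓞 K`. -/
noncomputable def idChar (I : Ideal (𝓞 K)) : ℂ := χ (((Ideal.absNorm I : ℕ) : ZMod m))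

theorem elChar_one : elChar K χ 1 = 1 := by
  unfold elChar
  rw [map_one, Int.cast_one, map_one]

theorem elChar_mul (a b : 𝓞 K) : elChar K χ (a * b) = elChar K χ a * elChar K χ b := by
  unfold elChar
  rw [map_mul, Int.cast_mul, map_mul]

theorem idChar_mul (I J : Ideal (𝓞 K)) : idChar K χ (I * J) = idChar K χ I * idChar K χ J := by
  unfold idChar
  rw [map_mul, Nat.cast_mul, map_mul]

theorem idChar_top : idChar K χ ⊤ = 1 := by
  unfold idChar
  rw [Ideal.absNorm_top, Nat.cast_one, map_one]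

theorem norm_idChar_le (I : Ideal (𝓞 K)) : ‖idChar K χ I‖ ≤ 1 :=
  DirichletCharacter.norm_le_one χ _

theorem norm_elChar_le (a : 𝓞 K) : ‖elChar K χ a‖ ≤ 1 :=
  DirichletCharacter.norm_le_one χ _

theorem idChar_span (hχ : χ.Even) (a : 𝓞 K) : idChar K χ (Ideal.span {a}) = elChar K χ a := by
  unfold idChar elChar
  rw [Ideal.absNorm_span_singleton]
  rcases Int.natAbs_eq (Algebra.norm ℤ a) with h | h
  · have : (((Algebra.norm ℤ a).natAbs : ℕ) : ZMod m) = ((Algebra.norm ℤ a : ℤ) : ZMod m) := by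
      conv_rhs => rw [h]
      rw [Int.cast_natCast]
    rw [this]
  · have : ((Algebra.norm ℤ a : ℤ) : ZMod m) = -(((Algebra.norm ℤ a).natAbs : ℕ) : ZMod m) := by
      conv_lhs => rw [h]
      rw [Int.cast_neg, Int.cast_natCast]
    rw [this, hχ.eval_neg]

/-- Periodicity of `χ ∘ N` modulo `m`. -/
theorem norm_add_mul_cast (a c : 𝓞 K) :
    ((Algebra.norm ℤ (a + (m : 𝓞 K) * c) : ℤ) : ZMod m) = ((Algebra.norm ℤ a : ℤ) : ZMod m) := by
  classical
  have hb := RingOfIntegers.basis K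
  rw [Algebra.norm_eq_matrix_det hb, Algebra.norm_eq_matrix_det hb]
  show (Int.castRingHom (ZMod m)) _ = (Int.castRingHom (ZMod m)) _
  rw [RingHom.map_det, RingHom.map_det]
  congr 1
  rw [map_add, map_mul, map_natCast, map_add, map_mul, map_natCast]
  have h0 : ((m : ℕ) : Matrix (Free.ChooseBasisIndex ℤ (𝓞 K)) (Free.ChooseBasisIndex ℤ (𝓞 K))
      (ZMod m)) = 0 := by
    have h1 := Nat.cast_smul_eq_nsmul (ZMod m) m
      (1 : Matrix (Free.ChooseBasisIndex ℤ (𝓞 K)) (Free.ChooseBasisIndex ℤ (𝓞 K)) (ZMod m))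
    rw [nsmul_eq_mul, mul_one] at h1
    rw [← h1, ZMod.natCast_self, zero_smul]
  rw [h0, zero_mul, add_zero]

theorem elChar_add_mul (a c : 𝓞 K) : elChar K χ (a + (m : 𝓞 K) * c) = elChar K χ a := by
  unfold elChar
  rw [norm_add_mul_cast]

/-- The ideal `m 𝓞 K`. -/
noncomputable def mId (m : ℕ) : Ideal (𝓞 K) := Ideal.span {(m : 𝓞 K)}

theorem mId_ne_bot : mId K m ≠ ⊥ := by
  unfold mId
  rw [Ne, Ideal.span_singleton_eq_bot]
  exact_mod_cast NeZero.ne m

theorem mem_mId_iff (a : 𝓞 K) : a ∈ mId K m ↔ ∃ c, a = (m : 𝓞 K) * c := by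
  unfold mId
  rw [Ideal.mem_span_singleton']
  constructor
  · rintro ⟨c, rfl⟩
    exact ⟨c, mul_comm _ _⟩
  · rintro ⟨c, rfl⟩
    exact ⟨c, mul_comm _ _⟩

theorem elChar_eq_of_sub_mem {a b : 𝓞 K} (h : a - b ∈ mId K m) : elChar K χ a = elChar K χ b := by
  obtain ⟨c, hc⟩ := (mem_mId_iff K _).mp h
  have : a = b + (m : 𝓞 K) * c := by rw [← hc]; ring
  rw [this, elChar_add_mul]

instance finite_quot_mId : Finite (𝓞 K ⧸ mId K m) :=
  Ideal.finiteQuotientOfFreeOfNeBot _ (mId_ne_bot K)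

/-- `χ ∘ N` on the quotient `𝓞 K / m`. -/
noncomputable def elCharQ (x : 𝓞 K ⧸ mId K m) : ℂ := elChar K χ (Quotient.out x)

theorem elCharQ_mk (a : 𝓞 K) : elCharQ K χ (Ideal.Quotient.mk (mId K m) a) = elChar K χ a := by
  unfold elCharQ
  apply elChar_eq_of_sub_mem
  rw [← Ideal.Quotient.eq]
  exact Ideal.Quotient.mk_out _

theorem elCharQ_mul (x y : 𝓞 K ⧸ mId K m) :
    elCharQ K χ (x * y) = elCharQ K χ x * elCharQ K χ y := by
  obtain ⟨a, rfl⟩ := Ideal.Quotient.mk_surjective x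
  obtain ⟨b, rfl⟩ := Ideal.Quotient.mk_surjective y
  rw [← map_mul, elCharQ_mk, elCharQ_mk, elCharQ_mk, elChar_mul]

/-- The character sum `∑_{x ∈ 𝓞 K / m} χ (N x)`. -/
noncomputable def gsum : ℂ := ∑ᶠ x : 𝓞 K ⧸ mId K m, elCharQ K χ x

/-- If `χ (N β) ≠ 0` then `β` is a unit modulo `m`. -/
theorem isUnit_mk_of_elChar_ne_zero {β : 𝓞 K} (h : elChar K χ β ≠ 0) :
    IsUnit (Ideal.Quotient.mk (mId K m) β) := by
  -- the norm is a unit modulo `m`
  have h1 : IsUnit (((Algebra.norm ℤ β : ℤ) : ZMod m)) := by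
    by_contra hcon
    exact h (MulChar.map_nonunit χ hcon)
  -- `β` divides its absolute norm
  have h2 : ((Ideal.absNorm (Ideal.span {β}) : ℕ) : 𝓞 K) ∈ Ideal.span {β} := Ideal.absNorm_mem _
  rw [Ideal.absNorm_span_singleton, Ideal.mem_span_singleton'] at h2
  obtain ⟨c, hc⟩ := h2
  -- Bezout
  have h3 : Nat.Coprime (Algebra.norm ℤ β).natAbs m := by
    rw [← ZMod.isUnit_iff_coprime]
    rcases Int.natAbs_eq (Algebra.norm ℤ β) with h | h
    · have : (((Algebra.norm ℤ β).natAbs : ℕ) : ZMod m) = ((Algebra.norm ℤ β : ℤ) : ZMod m) := by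
        conv_rhs => rw [h]
        rw [Int.cast_natCast]
      rw [this]; exact h1
    · have : (((Algebra.norm ℤ β).natAbs : ℕ) : ZMod m) = -((Algebra.norm ℤ β : ℤ) : ZMod m) := by
        conv_rhs => rw [h]
        rw [Int.cast_neg, Int.cast_natCast, neg_neg]
      rw [this]; exact h1.neg
  have h4 := Nat.Coprime.isCoprime h3
  obtain ⟨u, v, huv⟩ := h4
  -- in the quotient
  have h5 : (Ideal.Quotient.mk (mId K m) ((m : ℕ) : 𝓞 K)) = 0 := by
    rw [Ideal.Quotient.eq_zero_iff_mem]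
    exact Ideal.subset_span rfl
  have h6 : (Ideal.Quotient.mk (mId K m)) ((u : 𝓞 K) * (c * β) + (v : 𝓞 K) * ((m : ℕ) : 𝓞 K)) =
      1 := by
    rw [hc]
    have : ((u : 𝓞 K) * (((Algebra.norm ℤ β).natAbs : ℕ) : 𝓞 K) + (v : 𝓞 K) * ((m : ℕ) : 𝓞 K)) =
        (((u * ((Algebra.norm ℤ β).natAbs : ℤ) + v * (m : ℤ) : ℤ)) : 𝓞 K) := by
      rw [Int.cast_add, Int.cast_mul, Int.cast_mul, Int.cast_natCast, Int.cast_natCast]
    rw [this, huv, Int.cast_one, map_one]
  rw [map_add, map_mul, map_mul, map_mul, h5, mul_zero, add_zero] at h6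
  refine IsUnit.of_mul_eq_one (Ideal.Quotient.mk (mId K m) (u : 𝓞 K) *
    Ideal.Quotient.mk (mId K m) c) ?_
  rw [← h6]
  ring

/-- **Case A**: if `χ (N β) ∉ {0, 1}` for some `β`, the character sum vanishes. -/
theorem gsum_eq_zero {β : 𝓞 K} (h0 : elChar K χ β ≠ 0) (h1 : elChar K χ β ≠ 1) :
    gsum K χ = 0 := by
  classical
  letI := Fintype.ofFinite (𝓞 K ⧸ mId K m)
  obtain ⟨u, hu⟩ := isUnit_mk_of_elChar_ne_zero K χ h0
  have h2 : gsum K χ = ∑ x : 𝓞 K ⧸ mId K m, elCharQ K χ x := by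
    unfold gsum
    rw [finsum_eq_sum_of_fintype]
  have h3 : ∑ x : 𝓞 K ⧸ mId K m, elCharQ K χ x =
      ∑ x : 𝓞 K ⧸ mId K m, elCharQ K χ ((u : 𝓞 K ⧸ mId K m) * x) :=
    (Fintype.sum_equiv (Units.mulLeft u) _ _ fun x => rfl).symm
  have h4 : ∑ x : 𝓞 K ⧸ mId K m, elCharQ K χ ((u : 𝓞 K ⧸ mId K m) * x) =
      elChar K χ β * ∑ x : 𝓞 K ⧸ mId K m, elCharQ K χ x := by
    rw [Finset.mul_sum]
    refine Finset.sum_congr rfl fun x _ => ?_
    rw [elCharQ_mul, hu, elCharQ_mk]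
  rw [h2]
  rw [h4] at h3
  have h5 : (1 - elChar K χ β) * ∑ x : 𝓞 K ⧸ mId K m, elCharQ K χ x = 0 := by
    linear_combination h3
  rcases mul_eq_zero.mp h5 with h | h
  · exact absurd (sub_eq_zero.mp h).symm h1
  · exact h

end Fermat.Agent.T4.helper31
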