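import Fermat.Agent.T4.helper31_LTChar

/-!
# T4 (II), leaf LTWIST, part 4: ideals prime to `m` (helper31)

* `sup_mId_eq_top`, `inf_mId_eq_mul`, `exists_rep` : structure of an ideal `J` with `N(J)` prime
  to `m`;
* `exists_coprime_rep` : every ideal class contains an ideal with norm prime to `m`;
* `tsum_elChar_eq` : `∑_{a ∈ J} χ(N a) F s a = gsum * latSum s / N(m J) + copErr s`, with `copErr`
  continuous on `[1, 2]`;
* `idChar_eq_of_class`, `sum_inv_idChar_eq_zero` : the case where `χ ∘ N` only takes the values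
  `0, 1` on elements (`χ ∘ N` is then a class group character).
-/

set_option autoImplicit false
set_option linter.unusedSectionVars false

open NumberField Module Filter Topology
open scoped nonZeroDivisors

namespace Fermat.Agent.T4.helper31

open Fermat.Agent.S14 Fermat.Agent.S14.helper34

variable (K : Type*) [Field K] [NumberField K] {m : ℕ} [NeZero m] (χ : DirichletCharacter ℂ m)

section coprime

variable {K}
variable {J : Ideal (𝓞 K)}

theorem sup_mId_eq_top (h : (Ideal.absNorm J).Coprime m) : J ⊔ mId K m = ⊤ := by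
  rw [Ideal.eq_top_iff_one]
  obtain ⟨u, v, huv⟩ := (Nat.Coprime.cast (R := 𝓞 K) h)
  rw [← huv]
  refine Submodule.add_mem_sup ?_ ?_
  · exact Ideal.mul_mem_left _ _ (Ideal.absNorm_mem J)
  · exact Ideal.mul_mem_left _ _ (Ideal.subset_span rfl)

theorem inf_mId_eq_mul (h : (Ideal.absNorm J).Coprime m) : J ⊓ mId K m = mId K m * J := by
  rw [← Ideal.mul_eq_inf_of_isCoprime (Ideal.isCoprime_iff_sup_eq.mpr (sup_mId_eq_top h)),
    mul_comm]

theorem exists_rep (h : (Ideal.absNorm J).Coprime m) (x : 𝓞 K ⧸ mId K m) :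
    ∃ r : 𝓞 K, r ∈ J ∧ Ideal.Quotient.mk (mId K m) r = x := by
  obtain ⟨y, rfl⟩ := Ideal.Quotient.mk_surjective x
  have h1 := sup_mId_eq_top (m := m) h
  have h2 : (1 : 𝓞 K) ∈ J ⊔ mId K m := by rw [h1]; trivial
  obtain ⟨j, hj, μ, hμ, hjμ⟩ := Submodule.mem_sup.mp h2
  refine ⟨y * j, Ideal.mul_mem_left _ _ hj, ?_⟩
  rw [Ideal.Quotient.eq]
  have : y * j - y = -(y * μ) := by
    have : j = 1 - μ := by rw [← hjμ]; ring
    rw [this]; ring
  rw [this]
  exact neg_mem (Ideal.mul_mem_left _ _ hμ)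

/-- A representative in `J` of a class modulo `m`. -/
noncomputable def rep (h : (Ideal.absNorm J).Coprime m) (x : 𝓞 K ⧸ mId K m) : 𝓞 K :=
  (exists_rep h x).choose

theorem rep_mem (h : (Ideal.absNorm J).Coprime m) (x : 𝓞 K ⧸ mId K m) : rep h x ∈ J :=
  (exists_rep h x).choose_spec.1

theorem mk_rep (h : (Ideal.absNorm J).Coprime m) (x : 𝓞 K ⧸ mId K m) :
    Ideal.Quotient.mk (mId K m) (rep h x) = x :=
  (exists_rep h x).choose_spec.2

theorem mul_le_mId : mId K m * J ≤ mId K m := Ideal.mul_le_left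

theorem mul_le_self : mId K m * J ≤ J := Ideal.mul_le_right

/-- The decomposition of `J` into cosets of `m J`, indexed by `𝓞 K / m`. -/
noncomputable def copMap (h : (Ideal.absNorm J).Coprime m)
    (p : (𝓞 K ⧸ mId K m) × (mId K m * J).toAddSubgroup) : J :=
  ⟨rep h p.1 + (p.2 : 𝓞 K), J.add_mem (rep_mem h p.1) (mul_le_self p.2.2)⟩

theorem copMap_coe (h : (Ideal.absNorm J).Coprime m)
    (p : (𝓞 K ⧸ mId K m) × (mId K m * J).toAddSubgroup) :
    ((copMap h p : J) : 𝓞 K) = rep h p.1 + (p.2 : 𝓞 K) := rfl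

theorem copMap_bijective (h : (Ideal.absNorm J).Coprime m) :
    Function.Bijective (copMap (J := J) h) := by
  constructor
  · rintro ⟨x, a⟩ ⟨y, b⟩ hxy
    have h1 : rep h x + (a : 𝓞 K) = rep h y + (b : 𝓞 K) := congrArg Subtype.val hxy
    have ha : Ideal.Quotient.mk (mId K m) (a : 𝓞 K) = 0 :=
      Ideal.Quotient.eq_zero_iff_mem.mpr (mul_le_mId a.2)
    have hb : Ideal.Quotient.mk (mId K m) (b : 𝓞 K) = 0 :=
      Ideal.Quotient.eq_zero_iff_mem.mpr (mul_le_mId b.2)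
    have h2 := congrArg (Ideal.Quotient.mk (mId K m)) h1
    rw [map_add, map_add, mk_rep, mk_rep, ha, hb, add_zero, add_zero] at h2
    subst h2
    have h3 : (a : 𝓞 K) = b := add_left_cancel h1
    rw [Subtype.ext h3]
  · rintro ⟨a, ha⟩
    set x := Ideal.Quotient.mk (mId K m) a with hx
    have h1 : a - rep h x ∈ J := J.sub_mem ha (rep_mem h x)
    have h2 : a - rep h x ∈ mId K m := by
      rw [← Ideal.Quotient.eq, mk_rep]
    have h3 : a - rep h x ∈ mId K m * J := by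
      rw [← inf_mId_eq_mul h]
      exact ⟨h1, h2⟩
    refine ⟨(x, ⟨a - rep h x, h3⟩), ?_⟩
    apply Subtype.ext
    rw [copMap_coe]
    simp

/-- The decomposition of `J` into cosets of `m J`, as an equivalence. -/
noncomputable def copEquiv (h : (Ideal.absNorm J).Coprime m) :
    (𝓞 K ⧸ mId K m) × (mId K m * J).toAddSubgroup ≃ J :=
  Equiv.ofBijective (copMap h) (copMap_bijective h)

end coprime

section sums

theorem mId_mul_ne_bot {J : Ideal (𝓞 K)} (hJ : J ≠ ⊥) : mId K m * J ≠ ⊥ :=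
  mul_ne_zero (mId_ne_bot K) hJ

/-- The error term in `tsum_elChar_eq`. -/
noncomputable def copErr {J : Ideal (𝓞 K)} (h : (Ideal.absNorm J).Coprime m) (s : ℝ) : ℂ :=
  ∑ᶠ x : 𝓞 K ⧸ mId K m, elCharQ K χ x *
    ((cosetErr K (mId K m * J).toAddSubgroup (rep h x) s -
      idealErr K (mId K m * J) s / (Ideal.absNorm (mId K m * J) : ℝ) : ℝ) : ℂ)

theorem continuousOn_copErr {J : Ideal (𝓞 K)} (hJ : J ≠ ⊥) (h : (Ideal.absNorm J).Coprime m) :
    ContinuousOn (copErr K χ h) (Set.Icc 1 2) := by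
  letI := Fintype.ofFinite (𝓞 K ⧸ mId K m)
  have h1 : copErr K χ h = fun s => ∑ x : 𝓞 K ⧸ mId K m, elCharQ K χ x *
      ((cosetErr K (mId K m * J).toAddSubgroup (rep h x) s -
        idealErr K (mId K m * J) s / (Ideal.absNorm (mId K m * J) : ℝ) : ℝ) : ℂ) := by
    funext s
    unfold copErr
    rw [finsum_eq_sum_of_fintype]
  rw [h1]
  refine continuousOn_finsetSum _ fun x _ => ContinuousOn.mul continuousOn_const ?_
  refine Complex.continuous_ofReal.comp_continuousOn ?_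
  exact (continuousOn_cosetErr K _ _).sub
    ((continuousOn_idealErr K _ (mId_mul_ne_bot K hJ)).div_const _)

/-- **The twisted lattice sum over an ideal prime to `m`.** -/
theorem tsum_elChar_eq {J : Ideal (𝓞 K)} (hJ : J ≠ ⊥) (h : (Ideal.absNorm J).Coprime m)
    {s : ℝ} (hs : 1 < s) :
    ∑' a : J, elChar K χ (a : 𝓞 K) * ((F K s (a : 𝓞 K) : ℝ) : ℂ) =
      gsum K χ * ((latSum K s / (Ideal.absNorm (mId K m * J) : ℝ) : ℝ) : ℂ) +
        copErr K χ h s := by
  classical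
  letI := Fintype.ofFinite (𝓞 K ⧸ mId K m)
  -- summability
  have hsum : Summable fun a : J => elChar K χ (a : 𝓞 K) * ((F K s (a : 𝓞 K) : ℝ) : ℂ) := by
    have h0 : Summable fun a : J => F K s (a : 𝓞 K) :=
      (summable_F K hs).comp_injective (i := fun a : J => (a : 𝓞 K)) Subtype.val_injective
    refine Summable.of_norm_bounded h0 fun a => ?_
    rw [norm_mul, Complex.norm_real, Real.norm_eq_abs, abs_of_nonneg (F_nonneg K s _)]
    calc ‖elChar K χ (a : 𝓞 K)‖ * F K s (a : 𝓞 K) ≤ 1 * F K s (a : 𝓞 K) :=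
          mul_le_mul_of_nonneg_right (norm_elChar_le K χ _) (F_nonneg K s _)
      _ = F K s (a : 𝓞 K) := one_mul _
  have hsum' : Summable fun p : (𝓞 K ⧸ mId K m) × (mId K m * J).toAddSubgroup =>
      elChar K χ ((copEquiv h p : J) : 𝓞 K) * ((F K s ((copEquiv h p : J) : 𝓞 K) : ℝ) : ℂ) :=
    (copEquiv h).summable_iff.mpr hsum
  rw [← (copEquiv h).tsum_eq (fun a : J => elChar K χ (a : 𝓞 K) * ((F K s (a : 𝓞 K) : ℝ) : ℂ)),
    Summable.tsum_prod hsum', tsum_fintype]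
  -- each coset
  have hx : ∀ x : 𝓞 K ⧸ mId K m,
      ∑' c : (mId K m * J).toAddSubgroup,
        elChar K χ ((copEquiv h (x, c) : J) : 𝓞 K) *
          ((F K s ((copEquiv h (x, c) : J) : 𝓞 K) : ℝ) : ℂ) =
      elCharQ K χ x * ((latSum K s / (Ideal.absNorm (mId K m * J) : ℝ) : ℝ) : ℂ) +
        elCharQ K χ x *
          ((cosetErr K (mId K m * J).toAddSubgroup (rep h x) s -
            idealErr K (mId K m * J) s / (Ideal.absNorm (mId K m * J) : ℝ) : ℝ) : ℂ) := by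
    intro x
    have h1 : ∀ c : (mId K m * J).toAddSubgroup,
        elChar K χ ((copEquiv h (x, c) : J) : 𝓞 K) *
          ((F K s ((copEquiv h (x, c) : J) : 𝓞 K) : ℝ) : ℂ) =
        elCharQ K χ x * ((F K s (rep h x + (c : 𝓞 K)) : ℝ) : ℂ) := by
      intro c
      have h2 : ((copEquiv h (x, c) : J) : 𝓞 K) = rep h x + (c : 𝓞 K) := rfl
      rw [h2]
      congr 1
      rw [← elCharQ_mk, map_add, mk_rep,
        Ideal.Quotient.eq_zero_iff_mem.mpr (mul_le_mId c.2), add_zero]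
    rw [tsum_congr h1, tsum_mul_left, ← mul_add, ← Complex.ofReal_add]
    congr 2
    have h3 := tsum_coset_eq_latSum K (mId K m * J) (mId_mul_ne_bot K hJ) (rep h x) hs
    rw [← h3, Complex.ofReal_tsum]
  rw [Finset.sum_congr rfl (fun x _ => hx x), Finset.sum_add_distrib, ← Finset.sum_mul]
  unfold gsum copErr
  rw [finsum_eq_sum_of_fintype, finsum_eq_sum_of_fintype]

end sums

section reps

theorem idChar_ne_zero_iff {J : Ideal (𝓞 K)} :
    idChar K χ J ≠ 0 ↔ (Ideal.absNorm J).Coprime m := by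
  unfold idChar
  rw [MulChar.apply_ne_zero_iff, ZMod.isUnit_iff_coprime]

/-- An ideal comaximal with `m` has norm prime to `m`. -/
theorem coprime_absNorm_of_sup_eq_top {I : Ideal (𝓞 K)} (hI : I ≠ ⊥) (h : I ⊔ mId K m = ⊤) :
    (Ideal.absNorm I).Coprime m := by
  apply Nat.coprime_of_dvd
  intro p hp hpI hpm
  haveI : Fact p.Prime := ⟨hp⟩
  haveI : Finite (𝓞 K ⧸ I) := Ideal.finiteQuotientOfFreeOfNeBot _ hI
  letI := Fintype.ofFinite (𝓞 K ⧸ I)
  have hcard : p ∣ Fintype.card (𝓞 K ⧸ I) := by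
    rw [← Nat.card_eq_fintype_card]
    rw [Ideal.absNorm_apply, Submodule.cardQuot_apply] at hpI
    exact hpI
  obtain ⟨x, hx⟩ := exists_prime_addOrderOf_dvd_card p hcard
  have h1 : (m : ℕ) • x = 0 := by
    obtain ⟨k, hk⟩ := hpm
    rw [hk, mul_nsmul, ← hx, addOrderOf_nsmul_eq_zero, nsmul_zero]
  have h2 : (1 : 𝓞 K) ∈ I ⊔ mId K m := by rw [h]; trivial
  obtain ⟨i, hi, μ, hμ, hiμ⟩ := Submodule.mem_sup.mp h2
  obtain ⟨c, hc⟩ := (mem_mId_iff K μ).mp hμ
  have h3 : (Ideal.Quotient.mk I) ((m : ℕ) : 𝓞 K) * (Ideal.Quotient.mk I) c = 1 := by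
    rw [← map_mul, ← hc, ← map_one (Ideal.Quotient.mk I), Ideal.Quotient.eq]
    have : μ - 1 = -i := by rw [← hiμ]; ring
    rw [this]
    exact neg_mem hi
  have h4 : x = 0 := by
    have h5 : (Ideal.Quotient.mk I) ((m : ℕ) : 𝓞 K) * x = 0 := by
      rw [map_natCast, ← nsmul_eq_mul]
      exact h1
    calc x = ((Ideal.Quotient.mk I) ((m : ℕ) : 𝓞 K) * (Ideal.Quotient.mk I) c) * x := by
          rw [h3, one_mul]
      _ = (Ideal.Quotient.mk I) c * ((Ideal.Quotient.mk I) ((m : ℕ) : 𝓞 K) * x) := by ring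
      _ = 0 := by rw [h5, mul_zero]
  rw [h4, addOrderOf_zero] at hx
  exact hp.one_lt.ne hx

/-- **Every ideal class contains an ideal of norm prime to `m`.** -/
theorem exists_coprime_rep (C : ClassGroup (𝓞 K)) (m : ℕ) [NeZero m] :
    ∃ J : (Ideal (𝓞 K))⁰, ClassGroup.mk0 J = C ∧
      (Ideal.absNorm (J : Ideal (𝓞 K))).Coprime m := by
  obtain ⟨J₀, hJ₀⟩ := ClassGroup.mk0_surjective C⁻¹
  have hJ₀0 : (J₀ : Ideal (𝓞 K)) ≠ ⊥ := coe_ne_bot K J₀
  have hle : mId K m * (J₀ : Ideal (𝓞 K)) ≤ J₀ := mul_le_self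
  have hne : mId K m * (J₀ : Ideal (𝓞 K)) ≠ 0 := mId_mul_ne_bot K hJ₀0
  obtain ⟨a, ha⟩ := IsDedekindDomain.exists_sup_span_eq hle hne
  have haJ : Ideal.span {a} ≤ (J₀ : Ideal (𝓞 K)) := by
    rw [← ha]
    exact le_sup_right
  obtain ⟨I', hI'⟩ := Ideal.dvd_iff_le.mpr haJ
  have h1 : (J₀ : Ideal (𝓞 K)) * (mId K m ⊔ I') = J₀ := by
    rw [Ideal.mul_sup, ← hI', mul_comm, ha]
  have h2 : mId K m ⊔ I' = ⊤ := by
    have : (J₀ : Ideal (𝓞 K)) * (mId K m ⊔ I') = J₀ * ⊤ := by rw [h1, Ideal.mul_top]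
    exact mul_left_cancel₀ hJ₀0 this
  by_cases hI'0 : I' = ⊥
  · subst hI'0
    rw [sup_bot_eq] at h2
    obtain ⟨J, hJ⟩ := ClassGroup.mk0_surjective C
    refine ⟨J, hJ, coprime_absNorm_of_sup_eq_top K (coe_ne_bot K J) ?_⟩
    rw [h2, sup_top_eq]
  · refine ⟨⟨I', mem_nonZeroDivisors_of_ne_zero hI'0⟩, ?_, ?_⟩
    · have hspan0 : Ideal.span {a} ≠ 0 := by
        rw [hI']
        exact mul_ne_zero hJ₀0 hI'0
      have h3 : ClassGroup.mk0 (⟨Ideal.span {a}, mem_nonZeroDivisors_of_ne_zero hspan0⟩ :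
          (Ideal (𝓞 K))⁰) = 1 :=
        (ClassGroup.mk0_eq_one_iff _).mpr ⟨⟨a, rfl⟩⟩
      have h4 : (⟨Ideal.span {a}, mem_nonZeroDivisors_of_ne_zero hspan0⟩ : (Ideal (𝓞 K))⁰) =
          J₀ * ⟨I', mem_nonZeroDivisors_of_ne_zero hI'0⟩ := Subtype.ext hI'
      rw [h4, map_mul, hJ₀] at h3
      exact (inv_mul_eq_one.mp h3).symm
    · refine coprime_absNorm_of_sup_eq_top K hI'0 ?_
      rw [sup_comm]
      exact h2

/-- A representative of the inverse class, of norm prime to `m`. -/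
noncomputable def copRep (m : ℕ) [NeZero m] (C : ClassGroup (𝓞 K)) : (Ideal (𝓞 K))⁰ :=
  (exists_coprime_rep K C⁻¹ m).choose

theorem mk0_copRep (C : ClassGroup (𝓞 K)) : ClassGroup.mk0 (copRep K m C) = C⁻¹ :=
  (exists_coprime_rep K C⁻¹ m).choose_spec.1

theorem coprime_copRep (C : ClassGroup (𝓞 K)) :
    (Ideal.absNorm (copRep K m C : Ideal (𝓞 K))).Coprime m :=
  (exists_coprime_rep K C⁻¹ m).choose_spec.2

theorem idChar_copRep_ne_zero (C : ClassGroup (𝓞 K)) :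
    idChar K χ (copRep K m C : Ideal (𝓞 K)) ≠ 0 :=
  (idChar_ne_zero_iff K χ).mpr (coprime_copRep K C)

end reps

section caseB

/-- **Case B**: if `χ ∘ N` takes only the values `0, 1` on elements, it is a class function on the
ideals prime to `m`. -/
theorem idChar_eq_of_class (hχ : χ.Even)
    (hB : ∀ β : 𝓞 K, elChar K χ β = 0 ∨ elChar K χ β = 1) {I I' : (Ideal (𝓞 K))⁰}
    (h : ClassGroup.mk0 I = ClassGroup.mk0 I') (hI : idChar K χ (I : Ideal (𝓞 K)) ≠ 0)
    (hI' : idChar K χ (I' : Ideal (𝓞 K)) ≠ 0) :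
    idChar K χ (I : Ideal (𝓞 K)) = idChar K χ (I' : Ideal (𝓞 K)) := by
  set J := copRep K m (ClassGroup.mk0 I) with hJdef
  have hJ : ClassGroup.mk0 J = (ClassGroup.mk0 I)⁻¹ := mk0_copRep K _
  have hJ0 : idChar K χ (J : Ideal (𝓞 K)) ≠ 0 := idChar_copRep_ne_zero K χ _
  have key : ∀ I₁ : (Ideal (𝓞 K))⁰, ClassGroup.mk0 I₁ = ClassGroup.mk0 I →
      idChar K χ (I₁ : Ideal (𝓞 K)) ≠ 0 →
      idChar K χ (I₁ : Ideal (𝓞 K)) * idChar K χ (J : Ideal (𝓞 K)) = 1 := by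
    intro I₁ h1 h2
    have h3 : ClassGroup.mk0 (I₁ * J) = 1 := by rw [map_mul, h1, hJ, mul_inv_cancel]
    have h4 : ((I₁ * J : (Ideal (𝓞 K))⁰) : Ideal (𝓞 K)).IsPrincipal :=
      (ClassGroup.mk0_eq_one_iff (I₁ * J).2).mp h3
    obtain ⟨α, hα⟩ := h4
    have h5 : ((I₁ : Ideal (𝓞 K)) * (J : Ideal (𝓞 K))) = Ideal.span {α} := hα
    have h6 : idChar K χ (I₁ : Ideal (𝓞 K)) * idChar K χ (J : Ideal (𝓞 K)) = elChar K χ α := by
      rw [← idChar_mul, h5, idChar_span K χ hχ]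
    rcases hB α with h7 | h7
    · rw [h7] at h6
      exact absurd h6 (mul_ne_zero h2 hJ0)
    · rw [h6, h7]
  have k1 := key I rfl hI
  have k2 := key I' h.symm hI'
  have : (idChar K χ (I : Ideal (𝓞 K)) - idChar K χ (I' : Ideal (𝓞 K))) *
      idChar K χ (J : Ideal (𝓞 K)) = 0 := by
    linear_combination k1 - k2
  rcases mul_eq_zero.mp this with h8 | h8
  · exact sub_eq_zero.mp h8
  · exact absurd h8 hJ0

/-- **Case B**: the sum of the inverse values of `χ ∘ N` over coprime representatives of the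
classes vanishes. -/
theorem sum_inv_idChar_eq_zero (hχ : χ.Even)
    (hB : ∀ β : 𝓞 K, elChar K χ β = 0 ∨ elChar K χ β = 1) (I₀ : (Ideal (𝓞 K))⁰)
    (h0 : idChar K χ (I₀ : Ideal (𝓞 K)) ≠ 0) (h1 : idChar K χ (I₀ : Ideal (𝓞 K)) ≠ 1) :
    ∑ C : ClassGroup (𝓞 K), (idChar K χ (copRep K m C : Ideal (𝓞 K)))⁻¹ = 0 := by
  set c := idChar K χ (I₀ : Ideal (𝓞 K)) with hc
  set C₀ := ClassGroup.mk0 I₀ with hC₀
  have h2 : ∑ C : ClassGroup (𝓞 K), (idChar K χ (copRep K m C : Ideal (𝓞 K)))⁻¹ =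
      ∑ C : ClassGroup (𝓞 K), (idChar K χ (copRep K m (C * C₀) : Ideal (𝓞 K)))⁻¹ :=
    (Fintype.sum_equiv (Equiv.mulRight C₀) _ _ fun C => rfl).symm
  have h3 : ∀ C : ClassGroup (𝓞 K), (idChar K χ (copRep K m (C * C₀) : Ideal (𝓞 K)))⁻¹ =
      c * (idChar K χ (copRep K m C : Ideal (𝓞 K)))⁻¹ := by
    intro C
    have ha := idChar_copRep_ne_zero K χ (m := m) C
    have hb := idChar_copRep_ne_zero K χ (m := m) (C * C₀)
    have h4 : idChar K χ (copRep K m C : Ideal (𝓞 K)) =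
        idChar K χ ((copRep K m (C * C₀) * I₀ : (Ideal (𝓞 K))⁰) : Ideal (𝓞 K)) := by
      refine idChar_eq_of_class K χ hχ hB ?_ ha ?_
      · rw [map_mul, mk0_copRep, mk0_copRep, ← hC₀, mul_inv_rev, mul_comm C₀⁻¹,
          inv_mul_cancel_right]
      · rw [Submonoid.coe_mul, idChar_mul]
        exact mul_ne_zero hb h0
    rw [Submonoid.coe_mul, idChar_mul] at h4
    rw [h4, ← hc]
    field_simp
  rw [Finset.sum_congr rfl (fun C _ => h3 C), ← Finset.mul_sum] at h2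
  have h5 : (1 - c) * ∑ C : ClassGroup (𝓞 K),
      (idChar K χ (copRep K m C : Ideal (𝓞 K)))⁻¹ = 0 := by
    linear_combination h2
  rcases mul_eq_zero.mp h5 with h | h
  · exact absurd (sub_eq_zero.mp h).symm h1
  · exact h

end caseB

end Fermat.Agent.T4.helper31
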