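import Fermat.Agent.S14.helper34_AN0Final
import Fermat.Agent.S14.helper52_ZetaIdeal

/-!
# T4 (II), leaf LTWIST, part 1: coset sums of the smoothed lattice sum (helper31)

Built on the tent-weight machinery of S14 (`helper34`): `F K s a = weight (a) * |N a| ^ (-s)`.

* `latSum K s = ∑' a : 𝓞 K, F K s a`;
* `cosetErr K Λ r s = ∑' h : Λ, (F K s (r + h) - F K s h)` is continuous on `[1, 2]`
  (`continuousOn_cosetErr`), and `tsum_coset_eq` : the sum over the coset `r + Λ` is the sum over
  `Λ` plus `cosetErr`;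
* `latSum_eq` : `latSum K s = N(J) * ∑' h : J, F K s h + idealErr K J s` with `idealErr` continuous
  on `[1, 2]`.
-/

set_option autoImplicit false
set_option linter.unusedSectionVars false

open NumberField NumberField.mixedEmbedding Module Filter Topology
open scoped nonZeroDivisors

namespace Fermat.Agent.T4.helper31

open Fermat.Agent.S14 Fermat.Agent.S14.helper34

variable (K : Type*) [Field K] [NumberField K]

/-- The smoothed lattice sum over `𝓞 K`. -/
noncomputable def latSum (s : ℝ) : ℝ := ∑' a : 𝓞 K, F K s a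

theorem latSum_nonneg (s : ℝ) : 0 ≤ latSum K s := tsum_nonneg fun a => F_nonneg K s a

theorem continuousOn_F (a : 𝓞 K) : ContinuousOn (fun s : ℝ => F K s a) (Set.Icc 1 2) := by
  have h : (fun s : ℝ => F K s a) =
      fun s : ℝ => weight K (ι K a) * (mixedEmbedding.norm (ι K a)) ^ (-s) := by
    funext s
    rfl
  rw [h]
  refine ContinuousOn.mul continuousOn_const ?_
  intro s hs
  have hs0 : -s ≠ 0 := by
    have := hs.1
    intro h0
    linarith
  have h1 : ContinuousAt (fun t : ℝ => (mixedEmbedding.norm (ι K a)) ^ t) (-s) :=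
    Real.continuousAt_const_rpow' hs0
  have h2 : ContinuousAt (fun t : ℝ => (mixedEmbedding.norm (ι K a)) ^ (-t)) s :=
    ContinuousAt.comp (f := fun t : ℝ => -t) (g := fun t : ℝ => (mixedEmbedding.norm (ι K a)) ^ t)
      h1 continuous_neg.continuousAt
  exact h2.continuousWithinAt

/-- The difference between the sums of `F` over the coset `r + Λ` and over `Λ`. -/
noncomputable def cosetErr (Λ : AddSubgroup (𝓞 K)) (r : 𝓞 K) (s : ℝ) : ℝ :=
  ∑' h : Λ, (F K s (r + h) - F K s h)

theorem summable_bnd_sub (Λ : AddSubgroup (𝓞 K)) (r : 𝓞 K) :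
    Summable fun h : Λ => bnd K r h :=
  (summable_bnd K r).comp_injective (i := fun h : Λ => (h : 𝓞 K)) Subtype.val_injective

theorem continuousOn_cosetErr (Λ : AddSubgroup (𝓞 K)) (r : 𝓞 K) :
    ContinuousOn (cosetErr K Λ r) (Set.Icc 1 2) := by
  unfold cosetErr
  refine continuousOn_tsum (u := fun h : Λ => bnd K r h) (fun h => ?_) (summable_bnd_sub K Λ r)
    (fun h s hs => ?_)
  · exact (continuousOn_F K (r + h)).sub (continuousOn_F K h)
  · rw [Real.norm_eq_abs]
    exact abs_F_sub_le_bnd K r h hs.1 hs.2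

theorem summable_F_sub (Λ : AddSubgroup (𝓞 K)) {s : ℝ} (hs : 1 < s) :
    Summable fun h : Λ => F K s h :=
  (summable_F K hs).comp_injective (i := fun h : Λ => (h : 𝓞 K)) Subtype.val_injective

theorem summable_F_coset (Λ : AddSubgroup (𝓞 K)) (r : 𝓞 K) {s : ℝ} (hs : 1 < s) :
    Summable fun h : Λ => F K s (r + h) := by
  have h0 : Summable (F K s ∘ (Equiv.addLeft r)) := (Equiv.addLeft r).summable_iff.mpr
    (summable_F K hs)
  have h1 : Summable fun a : 𝓞 K => F K s (r + a) := by
    refine h0.congr fun a => ?_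
    simp only [Function.comp_apply, Equiv.coe_addLeft]
  exact h1.comp_injective (i := fun h : Λ => (h : 𝓞 K)) Subtype.val_injective

theorem tsum_coset_eq (Λ : AddSubgroup (𝓞 K)) (r : 𝓞 K) {s : ℝ} (hs : 1 < s) :
    ∑' h : Λ, F K s (r + h) = ∑' h : Λ, F K s h + cosetErr K Λ r s := by
  unfold cosetErr
  rw [(summable_F_coset K Λ r hs).tsum_sub (summable_F_sub K Λ hs)]
  ring

/-- The sum of the coset errors over the cosets of an ideal. -/
noncomputable def idealErr (J : Ideal (𝓞 K)) (s : ℝ) : ℝ :=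
  ∑ᶠ q : 𝓞 K ⧸ J.toAddSubgroup, cosetErr K J.toAddSubgroup (Quotient.out q) s

theorem continuousOn_idealErr (J : Ideal (𝓞 K)) (hJ : J ≠ ⊥) :
    ContinuousOn (idealErr K J) (Set.Icc 1 2) := by
  haveI := finite_quot K hJ
  letI := Fintype.ofFinite (𝓞 K ⧸ J.toAddSubgroup)
  have h : idealErr K J = fun s => ∑ q : 𝓞 K ⧸ J.toAddSubgroup,
      cosetErr K J.toAddSubgroup (Quotient.out q) s := by
    funext s
    unfold idealErr
    rw [finsum_eq_sum_of_fintype]
  rw [h]
  exact continuousOn_finsetSum _ fun q _ => continuousOn_cosetErr K _ _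

/-- The lattice sum over `𝓞 K` in terms of the lattice sum over a nonzero ideal. -/
theorem latSum_eq (J : Ideal (𝓞 K)) (hJ : J ≠ ⊥) {s : ℝ} (hs : 1 < s) :
    latSum K s = (Ideal.absNorm J : ℝ) * ∑' h : J.toAddSubgroup, F K s h + idealErr K J s := by
  haveI := finite_quot K hJ
  letI := Fintype.ofFinite (𝓞 K ⧸ J.toAddSubgroup)
  have h1 := tsum_eq_sum_cosets J.toAddSubgroup (summable_F K hs)
  unfold latSum idealErr
  rw [h1, finsum_eq_sum_of_fintype]
  have h2 : ∀ q : 𝓞 K ⧸ J.toAddSubgroup,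
      ∑' h : J.toAddSubgroup, F K s (Quotient.out q + (h : 𝓞 K)) =
        ∑' h : J.toAddSubgroup, F K s h + cosetErr K J.toAddSubgroup (Quotient.out q) s :=
    fun q => tsum_coset_eq K _ _ hs
  rw [Finset.sum_congr rfl (fun q _ => h2 q), Finset.sum_add_distrib, Finset.sum_const,
    Finset.card_univ, nsmul_eq_mul, ← Nat.card_eq_fintype_card, natCard_quot]

/-- The lattice sum over a nonzero ideal in terms of the lattice sum over `𝓞 K`. -/
theorem tsum_ideal_eq_latSum (J : Ideal (𝓞 K)) (hJ : J ≠ ⊥) {s : ℝ} (hs : 1 < s) :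
    ∑' h : J.toAddSubgroup, F K s h = (latSum K s - idealErr K J s) / (Ideal.absNorm J : ℝ) := by
  have hN : (Ideal.absNorm J : ℝ) ≠ 0 := by
    exact_mod_cast fun h => hJ (Ideal.absNorm_eq_zero_iff.mp h)
  rw [latSum_eq K J hJ hs]
  field_simp
  ring

/-- The sum over a coset of a nonzero ideal in terms of the lattice sum over `𝓞 K`. -/
theorem tsum_coset_eq_latSum (J : Ideal (𝓞 K)) (hJ : J ≠ ⊥) (r : 𝓞 K) {s : ℝ} (hs : 1 < s) :
    ∑' h : J.toAddSubgroup, F K s (r + h) =
      latSum K s / (Ideal.absNorm J : ℝ) +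
        (cosetErr K J.toAddSubgroup r s - idealErr K J s / (Ideal.absNorm J : ℝ)) := by
  rw [tsum_coset_eq K _ r hs, tsum_ideal_eq_latSum K J hJ hs]
  ring

end Fermat.Agent.T4.helper31
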