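import Fermat.Agent.T4.helper31_LTwist

/-!
# T4 (II), leaf LTWIST: the Euler product of `normL` (helper31)

* `normL_ne_zero`, `normL_hasProd`, `normL_eq_tprod` : for `s > 1`,
  `normL K χ s = ∏' v, (1 - χ(N v) N(v)^(-s))⁻¹ ≠ 0` over the nonzero primes `v` of `𝓞 K`;
* `normL_eq_tprod_coprime` : the same product over the primes of norm prime to `m`
  (the other factors are `1`);
* `normL_tprod_tendsto` : the Euler products have a finite limit at `1+`.
-/

set_option autoImplicit false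
set_option linter.unusedSectionVars false

open NumberField Module Filter Topology IsDedekindDomain
open scoped nonZeroDivisors

namespace Fermat.Agent.T4.helper31

open Fermat.Agent.S14

variable (K : Type*) [Field K] [NumberField K] {m : ℕ} [NeZero m] (χ : DirichletCharacter ℂ m)

/-- The local term `χ(N v) N(v)^(-s)` at a prime `v`. -/
noncomputable def locTerm (s : ℝ) (v : HeightOneSpectrum (𝓞 K)) : ℂ :=
  χ (((Ideal.absNorm v.asIdeal : ℕ) : ZMod m)) *
    (((Ideal.absNorm v.asIdeal : ℝ) ^ (-s) : ℝ) : ℂ)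

theorem twist_primeNZD (s : ℝ) (v : HeightOneSpectrum (𝓞 K)) :
    twist K χ s (helper40.primeNZD v) = locTerm K χ s v := rfl

theorem normL_ne_zero {s : ℝ} (hs : 1 < s) : normL K χ s ≠ 0 :=
  helper40.tsum_ne_zero_of_mul (twist_one K χ s) (twist_mul K χ s) (summable_norm_twist K χ hs)

/-- **Euler product** of the twisted `L`-series. -/
theorem normL_hasProd {s : ℝ} (hs : 1 < s) :
    HasProd (fun v : HeightOneSpectrum (𝓞 K) => (1 - locTerm K χ s v)⁻¹) (normL K χ s) := by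
  have h1 := helper40.tendsto_prod_one_sub (twist_one K χ s) (twist_mul K χ s)
    (summable_norm_twist K χ hs)
  have h2 : HasProd (fun v : HeightOneSpectrum (𝓞 K) => 1 - locTerm K χ s v)
      (normL K χ s)⁻¹ := by
    rw [HasProd, SummationFilter.unconditional]
    exact h1
  have h3 := h2.inv₀ (inv_ne_zero (normL_ne_zero K χ hs))
  rwa [inv_inv] at h3

theorem normL_eq_tprod {s : ℝ} (hs : 1 < s) :
    normL K χ s = ∏' v : HeightOneSpectrum (𝓞 K), (1 - locTerm K χ s v)⁻¹ :=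
  (normL_hasProd K χ hs).tprod_eq.symm

theorem locTerm_eq_zero {s : ℝ} {v : HeightOneSpectrum (𝓞 K)}
    (h : ¬ (Ideal.absNorm v.asIdeal).Coprime m) : locTerm K χ s v = 0 := by
  unfold locTerm
  rw [MulChar.map_nonunit χ (by rwa [ZMod.isUnit_iff_coprime]), zero_mul]

/-- The Euler product over the primes of norm prime to `m`. -/
theorem normL_hasProd_coprime {s : ℝ} (hs : 1 < s) :
    HasProd (fun v : {v : HeightOneSpectrum (𝓞 K) // (Ideal.absNorm v.asIdeal).Coprime m} =>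
      (1 - locTerm K χ s (v : HeightOneSpectrum (𝓞 K)))⁻¹) (normL K χ s) := by
  have h := normL_hasProd K χ hs
  refine (hasProd_subtype_iff_of_mulSupport_subset
    (s := {v : HeightOneSpectrum (𝓞 K) | (Ideal.absNorm v.asIdeal).Coprime m}) ?_).mpr h
  intro v hv
  rw [Function.mem_mulSupport] at hv
  by_contra hcon
  apply hv
  rw [locTerm_eq_zero K χ hcon, sub_zero, inv_one]

theorem normL_eq_tprod_coprime {s : ℝ} (hs : 1 < s) :
    normL K χ s =
      ∏' v : {v : HeightOneSpectrum (𝓞 K) // (Ideal.absNorm v.asIdeal).Coprime m},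
        (1 - locTerm K χ s (v : HeightOneSpectrum (𝓞 K)))⁻¹ :=
  (normL_hasProd_coprime K χ hs).tprod_eq.symm

/-- **The Euler products of `L_K(s, χ ∘ N)` have a finite limit at `1+`.** -/
theorem normL_tprod_tendsto (hχ : χ.Even) (v₀ : HeightOneSpectrum (𝓞 K))
    (h0 : χ (((Ideal.absNorm v₀.asIdeal : ℕ) : ZMod m)) ≠ 0)
    (h1 : χ (((Ideal.absNorm v₀.asIdeal : ℕ) : ZMod m)) ≠ 1) :
    ∃ ℓ : ℂ, Tendsto (fun s : ℝ =>
      ∏' v : {v : HeightOneSpectrum (𝓞 K) // (Ideal.absNorm v.asIdeal).Coprime m},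
        (1 - locTerm K χ s (v : HeightOneSpectrum (𝓞 K)))⁻¹) (𝓝[>] 1) (𝓝 ℓ) := by
  obtain ⟨ℓ, hℓ⟩ := normL_tendsto K χ hχ (helper40.primeNZD v₀) h0 h1
  refine ⟨ℓ, hℓ.congr' ?_⟩
  filter_upwards [self_mem_nhdsWithin] with s hs
  exact normL_eq_tprod_coprime K χ hs

theorem normL_tprod_tendsto' (hχ : χ.Even) (v₀ : HeightOneSpectrum (𝓞 K))
    (h0 : χ (((Ideal.absNorm v₀.asIdeal : ℕ) : ZMod m)) ≠ 0)
    (h1 : χ (((Ideal.absNorm v₀.asIdeal : ℕ) : ZMod m)) ≠ 1) :
    ∃ ℓ : ℂ, Tendsto (fun s : ℝ =>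
      ∏' v : HeightOneSpectrum (𝓞 K), (1 - locTerm K χ s v)⁻¹) (𝓝[>] 1) (𝓝 ℓ) := by
  obtain ⟨ℓ, hℓ⟩ := normL_tendsto K χ hχ (helper40.primeNZD v₀) h0 h1
  refine ⟨ℓ, hℓ.congr' ?_⟩
  filter_upwards [self_mem_nhdsWithin] with s hs
  exact normL_eq_tprod K χ hs

end Fermat.Agent.T4.helper31
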