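import Fermat.Agent.T4.helper31_LTCore
import Fermat.Agent.S14.helper40_PrimeSums

/-!
# T4 (II), leaf LTWIST, part 2: weighted orbit sums and the residue of the lattice sum (helper31)

* `idealOf hJ a` : for `J` in the class `C⁻¹` and `a ∈ J`, `a ≠ 0`, the ideal `I` of the class `C`
  with `I * J = (a)` (`idealOf_mul`);
* `classSum_eq` : for a bounded function `c` on the ideals of the class `C`,
  `w * ∑_{I ∈ C} c I * N(I)^(-s) = N(J)^s * ∑_{a ∈ J, a ≠ 0} c (idealOf a) * G s a`;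
* `tsum_eq_sum_classes` : decomposition of a sum over all nonzero ideals into classes;
* `tendsto_sub_one_mul_latSum` : `(s - 1) * latSum K s` has a finite limit at `1+`.
-/

set_option autoImplicit false
set_option linter.unusedSectionVars false

open NumberField NumberField.mixedEmbedding NumberField.Units Module Filter Topology
open scoped nonZeroDivisors

namespace Fermat.Agent.T4.helper31

open Fermat.Agent.S14 Fermat.Agent.S14.helper34 Fermat.Agent.S14.helper78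

section orbit

variable {K : Type*} [Field K] [NumberField K]
variable {C : ClassGroup (𝓞 K)} {J : (Ideal (𝓞 K))⁰}

/-- The ideal `I` of the class `C` with `I * J = (a)`. -/
noncomputable def idealOf (hJ : ClassGroup.mk0 J = C⁻¹)
    (a : {a : ↥(J : Ideal (𝓞 K)) // a ≠ 0}) :
    {I : (Ideal (𝓞 K))⁰ // ClassGroup.mk0 I = C} :=
  ((orbitEquiv hJ).symm a).1

theorem idealOf_orbitEquiv (hJ : ClassGroup.mk0 J = C⁻¹)
    (p : {I : (Ideal (𝓞 K))⁰ // ClassGroup.mk0 I = C} × (𝓞 K)ˣ) :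
    idealOf hJ (orbitEquiv hJ p) = p.1 := by
  unfold idealOf
  rw [Equiv.symm_apply_apply]

theorem idealOf_mul (hJ : ClassGroup.mk0 J = C⁻¹)
    (a : {a : ↥(J : Ideal (𝓞 K)) // a ≠ 0}) :
    (((idealOf hJ a).1 : (Ideal (𝓞 K))⁰) : Ideal (𝓞 K)) * (J : Ideal (𝓞 K)) =
      Ideal.span {((a : ↥(J : Ideal (𝓞 K))) : 𝓞 K)} := by
  obtain ⟨p, rfl⟩ := (orbitEquiv hJ).surjective a
  rw [idealOf_orbitEquiv, ← span_gen hJ p.1]
  have h2 : (((orbitEquiv hJ p : {a : ↥(J : Ideal (𝓞 K)) // a ≠ 0}) :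
      ↥(J : Ideal (𝓞 K))) : 𝓞 K) = (p.2 : 𝓞 K) * gen hJ p.1 := rfl
  rw [h2, Ideal.span_singleton_eq_span_singleton]
  exact ⟨p.2, by rw [mul_comm]⟩

/-- The weighted orbit-sum identity, `HasSum` form. -/
theorem hasSum_class_weighted (hJ : ClassGroup.mk0 J = C⁻¹) {s : ℝ} (hs : 1 < s)
    (c : {I : (Ideal (𝓞 K))⁰ // ClassGroup.mk0 I = C} → ℂ) (B : ℝ) (hc : ∀ I, ‖c I‖ ≤ B) :
    HasSum (fun I : {I : (Ideal (𝓞 K))⁰ // ClassGroup.mk0 I = C} =>
      c I * (((torsionOrder K : ℝ) *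
        ((Ideal.absNorm (I.1 : Ideal (𝓞 K)) : ℝ) * (Ideal.absNorm (J : Ideal (𝓞 K)) : ℝ)) ^ (-s) :
          ℝ) : ℂ))
      (∑' a : {a : ↥(J : Ideal (𝓞 K)) // a ≠ 0},
        c (idealOf hJ a) *
          ((G K s (mixedEmbedding K ((((a : ↥(J : Ideal (𝓞 K))) : 𝓞 K)) : K)) : ℝ) : ℂ)) := by
  have hsum := summable_G_ideal K (J : Ideal (𝓞 K)) hs
  have h0 := summable_orbit hJ s hsum
  -- the summand on pairs
  set T : {I : (Ideal (𝓞 K))⁰ // ClassGroup.mk0 I = C} × (𝓞 K)ˣ → ℂ := fun p =>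
    c p.1 * ((weight K (p.2 • mixedEmbedding K ((gen hJ p.1 : 𝓞 K) : K)) *
      ((Ideal.absNorm (p.1.1 : Ideal (𝓞 K)) : ℝ) *
        (Ideal.absNorm (J : Ideal (𝓞 K)) : ℝ)) ^ (-s) : ℝ) : ℂ) with hT
  have h1 : Summable T := by
    refine Summable.of_norm_bounded (h0.mul_left B) fun p => ?_
    rw [hT]
    simp only
    rw [norm_mul, Complex.norm_real, Real.norm_eq_abs]
    have hnn : 0 ≤ weight K (p.2 • mixedEmbedding K ((gen hJ p.1 : 𝓞 K) : K)) *
        ((Ideal.absNorm (p.1.1 : Ideal (𝓞 K)) : ℝ) *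
          (Ideal.absNorm (J : Ideal (𝓞 K)) : ℝ)) ^ (-s) :=
      mul_nonneg (helper34.weight_nonneg K _) (Real.rpow_nonneg (by positivity) _)
    rw [abs_of_nonneg hnn]
    exact mul_le_mul_of_nonneg_right (hc p.1) hnn
  have h2 : ∑' p, T p = ∑' a : {a : ↥(J : Ideal (𝓞 K)) // a ≠ 0},
      c (idealOf hJ a) *
        ((G K s (mixedEmbedding K ((((a : ↥(J : Ideal (𝓞 K))) : 𝓞 K)) : K)) : ℝ) : ℂ) := by
    rw [← (orbitEquiv hJ).tsum_eq]
    refine tsum_congr fun p => ?_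
    rw [idealOf_orbitEquiv, hT]
    simp only
    have := G_orbitMap hJ s p
    rw [show orbitEquiv hJ p = orbitMap hJ p from rfl, this]
  rw [← h2]
  refine h1.hasSum.prod_fiberwise fun I => ?_
  have h3 := hasSum_fibre hJ s I
  have h4 := (Complex.hasSum_ofReal.mpr h3).mul_left (c I)
  exact h4

/-- The weighted orbit-sum identity. -/
theorem classSum_eq (hJ : ClassGroup.mk0 J = C⁻¹) {s : ℝ} (hs : 1 < s)
    (c : {I : (Ideal (𝓞 K))⁰ // ClassGroup.mk0 I = C} → ℂ) (B : ℝ) (hc : ∀ I, ‖c I‖ ≤ B) :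
    ((torsionOrder K : ℝ) : ℂ) * ∑' I : {I : (Ideal (𝓞 K))⁰ // ClassGroup.mk0 I = C},
        c I * (((Ideal.absNorm (I.1 : Ideal (𝓞 K)) : ℝ) ^ (-s) : ℝ) : ℂ) =
      (((Ideal.absNorm (J : Ideal (𝓞 K)) : ℝ) ^ s : ℝ) : ℂ) *
        ∑' a : {a : ↥(J : Ideal (𝓞 K)) // a ≠ 0},
          c (idealOf hJ a) *
            ((G K s (mixedEmbedding K ((((a : ↥(J : Ideal (𝓞 K))) : 𝓞 K)) : K)) : ℝ) : ℂ) := by
  have h := (hasSum_class_weighted hJ hs c B hc).tsum_eq
  rw [← h, ← tsum_mul_left, ← tsum_mul_left]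
  refine tsum_congr fun I => ?_
  have hJpos : (0 : ℝ) < (Ideal.absNorm (J : Ideal (𝓞 K)) : ℝ) :=
    Nat.cast_pos.mpr (Ideal.absNorm_pos_of_nonZeroDivisors J)
  have hI0 : (0 : ℝ) ≤ (Ideal.absNorm (I.1 : Ideal (𝓞 K)) : ℝ) := Nat.cast_nonneg _
  rw [Real.mul_rpow hI0 hJpos.le]
  have hpow : (Ideal.absNorm (J : Ideal (𝓞 K)) : ℝ) ^ s *
      (Ideal.absNorm (J : Ideal (𝓞 K)) : ℝ) ^ (-s) = 1 := by
    rw [← Real.rpow_add hJpos, add_neg_cancel, Real.rpow_zero]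
  have hpow' : ((((Ideal.absNorm (J : Ideal (𝓞 K)) : ℝ) ^ s : ℝ) : ℂ)) *
      ((((Ideal.absNorm (J : Ideal (𝓞 K)) : ℝ) ^ (-s) : ℝ) : ℂ)) = 1 := by
    rw [← Complex.ofReal_mul, hpow, Complex.ofReal_one]
  push_cast
  linear_combination (-(((torsionOrder K : ℕ) : ℂ) * c I *
    ((((Ideal.absNorm (I.1 : Ideal (𝓞 K)) : ℝ) ^ (-s) : ℝ)) : ℂ))) * hpow'

end orbit

section classes

variable (K : Type*) [Field K] [NumberField K]

/-- Continuity on `[1, 2]` gives the limit at `1+`. -/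
theorem tendsto_nhdsGT_of_continuousOn {E : Type*} [TopologicalSpace E] {f : ℝ → E}
    (hf : ContinuousOn f (Set.Icc 1 2)) : Tendsto f (𝓝[>] 1) (𝓝 (f 1)) := by
  have h1 : ContinuousWithinAt f (Set.Icc 1 2) 1 := hf 1 ⟨le_rfl, one_le_two⟩
  have h2 : Set.Icc (1 : ℝ) 2 ∈ 𝓝[>] (1 : ℝ) :=
    mem_of_superset (Ioc_mem_nhdsGT (show (1 : ℝ) < 2 by norm_num)) Set.Ioc_subset_Icc_self
  have h3 : 𝓝[>] (1 : ℝ) ≤ 𝓝[Set.Icc 1 2] (1 : ℝ) :=
    le_inf nhdsWithin_le_nhds (le_principal_iff.mpr h2)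
  exact h1.mono_left h3

theorem summable_weighted {s : ℝ} (hs : 1 < s) (c : (Ideal (𝓞 K))⁰ → ℂ) (B : ℝ)
    (hc : ∀ I, ‖c I‖ ≤ B) :
    Summable fun I : (Ideal (𝓞 K))⁰ =>
      c I * (((Ideal.absNorm (I : Ideal (𝓞 K)) : ℝ) ^ (-s) : ℝ) : ℂ) := by
  refine Summable.of_norm_bounded ((helper40.summable_absNorm_rpow K hs).mul_left B) fun I => ?_
  rw [norm_mul, Complex.norm_real, Real.norm_eq_abs]
  have hnn : 0 ≤ (Ideal.absNorm (I : Ideal (𝓞 K)) : ℝ) ^ (-s) :=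
    Real.rpow_nonneg (Nat.cast_nonneg _) _
  rw [abs_of_nonneg hnn]
  exact mul_le_mul_of_nonneg_right (hc I) hnn

/-- Decomposition of a sum over the nonzero ideals into ideal classes. -/
theorem tsum_eq_sum_classes {s : ℝ} (hs : 1 < s) (c : (Ideal (𝓞 K))⁰ → ℂ) (B : ℝ)
    (hc : ∀ I, ‖c I‖ ≤ B) :
    ∑' I : (Ideal (𝓞 K))⁰, c I * (((Ideal.absNorm (I : Ideal (𝓞 K)) : ℝ) ^ (-s) : ℝ) : ℂ) =
      ∑ C : ClassGroup (𝓞 K), ∑' I : {I : (Ideal (𝓞 K))⁰ // ClassGroup.mk0 I = C},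
        c I.1 * (((Ideal.absNorm (I.1 : Ideal (𝓞 K)) : ℝ) ^ (-s) : ℝ) : ℂ) := by
  have h1 := (summable_weighted K hs c B hc).hasSum.tsum_fiberwise
    (ClassGroup.mk0 : (Ideal (𝓞 K))⁰ → ClassGroup (𝓞 K))
  have h2 := h1.unique (hasSum_fintype _)
  rw [h2]
  rfl

/-- The real zeta function as a sum of partial zeta functions. -/
theorem zetaR_eq_sum_partialZeta {s : ℝ} (hs : 1 < s) :
    helper40.zetaR K s = ∑ C : ClassGroup (𝓞 K), partialZeta K C s := by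
  have h1 := (helper40.summable_absNorm_rpow K hs).hasSum.tsum_fiberwise
    (ClassGroup.mk0 : (Ideal (𝓞 K))⁰ → ClassGroup (𝓞 K))
  have h2 := h1.unique (hasSum_fintype _)
  unfold helper40.zetaR
  rw [h2]
  rfl

/-- A representative of the inverse class. -/
noncomputable def invRep (C : ClassGroup (𝓞 K)) : (Ideal (𝓞 K))⁰ :=
  (ClassGroup.mk0_surjective C⁻¹).choose

theorem mk0_invRep (C : ClassGroup (𝓞 K)) : ClassGroup.mk0 (invRep K C) = C⁻¹ :=
  (ClassGroup.mk0_surjective C⁻¹).choose_spec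

theorem coe_ne_bot (J : (Ideal (𝓞 K))⁰) : (J : Ideal (𝓞 K)) ≠ ⊥ := nonZeroDivisors.coe_ne_zero J

theorem absNorm_pos_real (J : (Ideal (𝓞 K))⁰) : (0 : ℝ) < (Ideal.absNorm (J : Ideal (𝓞 K)) : ℝ) :=
  Nat.cast_pos.mpr (Ideal.absNorm_pos_of_nonZeroDivisors J)

/-- The partial zeta function in terms of the lattice sum over `𝓞 K`. -/
theorem torsionOrder_mul_partialZeta_eq (C : ClassGroup (𝓞 K)) (J : (Ideal (𝓞 K))⁰)
    (hJ : ClassGroup.mk0 J = C⁻¹) {s : ℝ} (hs : 1 < s) :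
    (torsionOrder K : ℝ) * partialZeta K C s =
      (Ideal.absNorm (J : Ideal (𝓞 K)) : ℝ) ^ (s - 1) *
        (latSum K s - idealErr K (J : Ideal (𝓞 K)) s) := by
  have h1 := orbitSumIdentity K C J hJ s hs (summable_G_ideal K _ hs)
  rw [tsum_ideal_eq, tsum_ideal_eq_latSum K _ (coe_ne_bot K J) hs] at h1
  rw [h1]
  have hJpos := absNorm_pos_real K J
  rw [Real.rpow_sub_one hJpos.ne']
  field_simp

/-- The sum `∑_C N(J_C)^(s-1)`. -/
noncomputable def repSum (s : ℝ) : ℝ :=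
  ∑ C : ClassGroup (𝓞 K), (Ideal.absNorm (invRep K C : Ideal (𝓞 K)) : ℝ) ^ (s - 1)

/-- The sum `∑_C N(J_C)^(s-1) * idealErr J_C s`. -/
noncomputable def repErr (s : ℝ) : ℝ :=
  ∑ C : ClassGroup (𝓞 K), (Ideal.absNorm (invRep K C : Ideal (𝓞 K)) : ℝ) ^ (s - 1) *
    idealErr K (invRep K C : Ideal (𝓞 K)) s

theorem continuous_rpow_sub_one (J : (Ideal (𝓞 K))⁰) :
    Continuous fun s : ℝ => (Ideal.absNorm (J : Ideal (𝓞 K)) : ℝ) ^ (s - 1) := by
  have hJpos := absNorm_pos_real K J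
  exact Real.continuous_const_rpow hJpos.ne' |>.comp (continuous_id.sub continuous_const)

theorem continuous_repSum : Continuous (repSum K) :=
  continuous_finsetSum _ fun _ _ => continuous_rpow_sub_one K _

theorem continuousOn_repErr : ContinuousOn (repErr K) (Set.Icc 1 2) :=
  continuousOn_finsetSum _ fun _ _ =>
    (continuous_rpow_sub_one K _).continuousOn.mul (continuousOn_idealErr K _ (coe_ne_bot K _))

theorem repSum_pos (s : ℝ) : 0 < repSum K s := by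
  unfold repSum
  refine Finset.sum_pos (fun C _ => Real.rpow_pos_of_pos (absNorm_pos_real K _) _) ?_
  exact ⟨1, Finset.mem_univ _⟩

theorem repSum_one : repSum K 1 = Fintype.card (ClassGroup (𝓞 K)) := by
  unfold repSum
  simp

theorem torsionOrder_mul_zetaR {s : ℝ} (hs : 1 < s) :
    (torsionOrder K : ℝ) * helper40.zetaR K s = repSum K s * latSum K s - repErr K s := by
  rw [zetaR_eq_sum_partialZeta K hs, Finset.mul_sum]
  unfold repSum repErr
  rw [Finset.sum_mul, ← Finset.sum_sub_distrib]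
  refine Finset.sum_congr rfl fun C _ => ?_
  rw [torsionOrder_mul_partialZeta_eq K C (invRep K C) (mk0_invRep K C) hs]
  ring

theorem latSum_eq_zetaR {s : ℝ} (hs : 1 < s) :
    latSum K s = ((torsionOrder K : ℝ) * helper40.zetaR K s + repErr K s) / repSum K s := by
  have h := torsionOrder_mul_zetaR K hs
  have hp := repSum_pos K s
  field_simp
  linarith

/-- The limit of `(s - 1) * latSum K s` at `1+`. -/
noncomputable def latRes : ℝ :=
  (torsionOrder K : ℝ) * dedekindZeta_residue K / Fintype.card (ClassGroup (𝓞 K))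

/-- **Residue of the smoothed lattice sum.** -/
theorem tendsto_sub_one_mul_latSum :
    Tendsto (fun s : ℝ => (s - 1) * latSum K s) (𝓝[>] 1) (𝓝 (latRes K)) := by
  have h1 := helper40.tendsto_sub_one_mul_zetaR K
  have h2 : Tendsto (repErr K) (𝓝[>] 1) (𝓝 (repErr K 1)) :=
    tendsto_nhdsGT_of_continuousOn (continuousOn_repErr K)
  have h3 : Tendsto (repSum K) (𝓝[>] 1) (𝓝 (repSum K 1)) :=
    ((continuous_repSum K).tendsto 1).mono_left nhdsWithin_le_nhds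
  have h4 : Tendsto (fun s : ℝ => s - 1) (𝓝[>] 1) (𝓝 0) := by
    have : Tendsto (fun s : ℝ => s - 1) (𝓝 1) (𝓝 (1 - 1)) :=
      (continuous_id.sub continuous_const).tendsto 1
    rw [sub_self] at this
    exact this.mono_left nhdsWithin_le_nhds
  have h5 : Tendsto (fun s : ℝ => ((torsionOrder K : ℝ) * ((s - 1) * helper40.zetaR K s) +
      (s - 1) * repErr K s) / repSum K s) (𝓝[>] 1)
      (𝓝 (((torsionOrder K : ℝ) * dedekindZeta_residue K + 0 * repErr K 1) / repSum K 1)) :=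
    ((h1.const_mul _).add (h4.mul h2)).div h3 (repSum_pos K 1).ne'
  have h6 : ((torsionOrder K : ℝ) * dedekindZeta_residue K + 0 * repErr K 1) / repSum K 1 =
      latRes K := by
    rw [repSum_one, latRes]
    ring
  rw [h6] at h5
  refine h5.congr' ?_
  filter_upwards [self_mem_nhdsWithin] with s hs
  rw [latSum_eq_zetaR K hs]
  have hp := repSum_pos K s
  field_simp

end classes

end Fermat.Agent.T4.helper31
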