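import Fermat.Agent.T4.helper31_LTCop

/-!
# T4 (II), leaf LTWIST: the twisted Dedekind `L`-series `L_K(s, χ ∘ N)` has a limit at `1+`
(helper31)

For a number field `K`, an EVEN Dirichlet character `χ` modulo `m` and
`normL K χ s = ∑_I χ(N I) N(I)^(-s)` (sum over the nonzero ideals of `𝓞 K`, real `s > 1`):

* `torsionOrder_mul_normL` : `w * normL K χ s = (gsum / N(m)) * mainCoef s * latSum s + errSum s`
  on `(1, 2]`, with `errSum` continuous on `[1, 2]`;
* `normL_tendsto` : if `χ(N I₀) ∉ {0, 1}` for some ideal `I₀`, then `normL K χ` has a finite limit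
  at `1+`.

No lattice point counting: everything comes from the translation estimate for the tent weight
(`S14.helper34.abs_F_sub_le_bnd`) and the class number formula of Mathlib.
-/

set_option autoImplicit false
set_option linter.unusedSectionVars false

open NumberField NumberField.Units Module Filter Topology
open scoped nonZeroDivisors

namespace Fermat.Agent.T4.helper31

open Fermat.Agent.S14 Fermat.Agent.S14.helper34

variable (K : Type*) [Field K] [NumberField K] {m : ℕ} [NeZero m] (χ : DirichletCharacter ℂ m)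

/-- The twisted `L`-series `∑_I χ(N I) N(I)^(-s)` over the nonzero ideals, real variable. -/
noncomputable def normL (s : ℝ) : ℂ :=
  ∑' I : (Ideal (𝓞 K))⁰, idChar K χ (I : Ideal (𝓞 K)) *
    (((Ideal.absNorm (I : Ideal (𝓞 K)) : ℝ) ^ (-s) : ℝ) : ℂ)

/-- The part of the twisted `L`-series belonging to the ideal class `C`. -/
noncomputable def classL (C : ClassGroup (𝓞 K)) (s : ℝ) : ℂ :=
  ∑' I : {I : (Ideal (𝓞 K))⁰ // ClassGroup.mk0 I = C}, idChar K χ (I.1 : Ideal (𝓞 K)) *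
    (((Ideal.absNorm (I.1 : Ideal (𝓞 K)) : ℝ) ^ (-s) : ℝ) : ℂ)

theorem normL_eq_sum_classL {s : ℝ} (hs : 1 < s) :
    normL K χ s = ∑ C : ClassGroup (𝓞 K), classL K χ C s :=
  tsum_eq_sum_classes K hs (fun I => idChar K χ (I : Ideal (𝓞 K))) 1
    (fun _ => norm_idChar_le K χ _)

/-- The value of `χ ∘ N` on the ideal attached to an element of `J`. -/
theorem idChar_idealOf (hχ : χ.Even) {C : ClassGroup (𝓞 K)} {J : (Ideal (𝓞 K))⁰}
    (hJ : ClassGroup.mk0 J = C⁻¹) (hJ0 : idChar K χ (J : Ideal (𝓞 K)) ≠ 0)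
    (a : {a : ↥(J : Ideal (𝓞 K)) // a ≠ 0}) :
    idChar K χ ((idealOf hJ a).1 : Ideal (𝓞 K)) =
      (idChar K χ (J : Ideal (𝓞 K)))⁻¹ * elChar K χ ((a : ↥(J : Ideal (𝓞 K))) : 𝓞 K) := by
  have h1 := idealOf_mul hJ a
  have h2 : idChar K χ ((idealOf hJ a).1 : Ideal (𝓞 K)) * idChar K χ (J : Ideal (𝓞 K)) =
      elChar K χ ((a : ↥(J : Ideal (𝓞 K))) : 𝓞 K) := by
    rw [← idChar_mul, h1, idChar_span K χ hχ]
  rw [← h2]
  field_simp

/-- Adding the zero element does not change the sum. -/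
theorem tsum_ne_zero_elChar (J : Ideal (𝓞 K)) {s : ℝ} (hs : s ≠ 0) :
    ∑' a : {a : J // a ≠ 0}, elChar K χ ((a : J) : 𝓞 K) *
        ((G K s (mixedEmbedding K ((((a : J) : 𝓞 K)) : K)) : ℝ) : ℂ) =
      ∑' a : J, elChar K χ (a : 𝓞 K) * ((F K s (a : 𝓞 K) : ℝ) : ℂ) := by
  refine tsum_subtype_eq_of_support_subset
    (f := fun a : J => elChar K χ (a : 𝓞 K) * ((F K s (a : 𝓞 K) : ℝ) : ℂ))
    (s := {a | a ≠ 0}) ?_
  intro a ha
  rw [Function.mem_support] at ha
  intro h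
  apply ha
  rw [h]
  have : F K s ((0 : J) : 𝓞 K) = 0 := by
    have := helper34.G_zero K hs
    rw [F_def, show ι K ((0 : J) : 𝓞 K) = 0 from ι_zero K]
    exact this
  rw [this, Complex.ofReal_zero, mul_zero]

/-- **The class part of the twisted `L`-series as a lattice sum.** -/
theorem torsionOrder_mul_classL (hχ : χ.Even) (C : ClassGroup (𝓞 K)) {s : ℝ} (hs : 1 < s) :
    ((torsionOrder K : ℝ) : ℂ) * classL K χ C s =
      (((Ideal.absNorm (copRep K m C : Ideal (𝓞 K)) : ℝ) ^ s : ℝ) : ℂ) *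
        ((idChar K χ (copRep K m C : Ideal (𝓞 K)))⁻¹ *
          (gsum K χ * ((latSum K s /
              (Ideal.absNorm (mId K m * (copRep K m C : Ideal (𝓞 K))) : ℝ) : ℝ) : ℂ) +
            copErr K χ (coprime_copRep K (m := m) C) s)) := by
  have hJ := mk0_copRep K (m := m) C
  have hJ0 := idChar_copRep_ne_zero K χ (m := m) C
  have h1 := classSum_eq hJ hs (fun I => idChar K χ (I.1 : Ideal (𝓞 K))) 1
    (fun I => norm_idChar_le K χ _)
  unfold classL
  rw [h1]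
  congr 1
  rw [tsum_congr (fun a => by rw [idChar_idealOf K χ hχ hJ hJ0 a, mul_assoc]), tsum_mul_left]
  congr 1
  rw [tsum_ne_zero_elChar K χ _ (by linarith : s ≠ 0)]
  exact tsum_elChar_eq K χ (coe_ne_bot K _) (coprime_copRep K C) hs

/-- The coefficient of the lattice sum: `∑_C χ(N J_C)⁻¹ N(J_C)^(s-1)`. -/
noncomputable def mainCoef (s : ℝ) : ℂ :=
  ∑ C : ClassGroup (𝓞 K), (idChar K χ (copRep K m C : Ideal (𝓞 K)))⁻¹ *
    (((Ideal.absNorm (copRep K m C : Ideal (𝓞 K)) : ℝ) ^ (s - 1) : ℝ) : ℂ)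

/-- The continuous error term. -/
noncomputable def errSum (s : ℝ) : ℂ :=
  ∑ C : ClassGroup (𝓞 K), (((Ideal.absNorm (copRep K m C : Ideal (𝓞 K)) : ℝ) ^ s : ℝ) : ℂ) *
    ((idChar K χ (copRep K m C : Ideal (𝓞 K)))⁻¹ * copErr K χ (coprime_copRep K (m := m) C) s)

theorem continuousOn_errSum : ContinuousOn (errSum K χ) (Set.Icc 1 2) := by
  refine continuousOn_finsetSum _ fun C _ => ContinuousOn.mul ?_
    (ContinuousOn.mul continuousOn_const (continuousOn_copErr K χ (coe_ne_bot K _) _))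
  refine Complex.continuous_ofReal.comp_continuousOn ?_
  exact (Real.continuous_const_rpow (absNorm_pos_real K _).ne').continuousOn

/-- **The twisted `L`-series as a multiple of the lattice sum plus a continuous function.** -/
theorem torsionOrder_mul_normL (hχ : χ.Even) {s : ℝ} (hs : 1 < s) :
    ((torsionOrder K : ℝ) : ℂ) * normL K χ s =
      gsum K χ / ((Ideal.absNorm (mId K m) : ℝ) : ℂ) * mainCoef K χ s * ((latSum K s : ℝ) : ℂ) +
        errSum K χ s := by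
  rw [normL_eq_sum_classL K χ hs, Finset.mul_sum]
  unfold mainCoef errSum
  rw [Finset.mul_sum, Finset.sum_mul, ← Finset.sum_add_distrib]
  refine Finset.sum_congr rfl fun C _ => ?_
  rw [torsionOrder_mul_classL K χ hχ C hs]
  have hJpos := absNorm_pos_real K (copRep K m C)
  have hMpos : (0 : ℝ) < (Ideal.absNorm (mId K m) : ℝ) := by
    have : Ideal.absNorm (mId K m) ≠ 0 := fun h => mId_ne_bot K (Ideal.absNorm_eq_zero_iff.mp h)
    exact_mod_cast Nat.pos_of_ne_zero this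
  have h1 : (Ideal.absNorm (copRep K m C : Ideal (𝓞 K)) : ℝ) ^ s =
      (Ideal.absNorm (copRep K m C : Ideal (𝓞 K)) : ℝ) ^ (s - 1) *
        (Ideal.absNorm (copRep K m C : Ideal (𝓞 K)) : ℝ) := by
    rw [← Real.rpow_add_one hJpos.ne']
    congr 1
    ring
  have h2 : ((Ideal.absNorm (mId K m * (copRep K m C : Ideal (𝓞 K))) : ℕ) : ℝ) =
      (Ideal.absNorm (mId K m) : ℝ) * (Ideal.absNorm (copRep K m C : Ideal (𝓞 K)) : ℝ) := by
    rw [map_mul, Nat.cast_mul]
  rw [h2]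
  have hJc : ((Ideal.absNorm (copRep K m C : Ideal (𝓞 K)) : ℝ) : ℂ) ≠ 0 := by
    exact_mod_cast hJpos.ne'
  have hMc : ((Ideal.absNorm (mId K m) : ℝ) : ℂ) ≠ 0 := by
    exact_mod_cast hMpos.ne'
  have hJ0 := idChar_copRep_ne_zero K χ (m := m) C
  have hJc' : ((Ideal.absNorm (copRep K m C : Ideal (𝓞 K)) : ℕ) : ℂ) ≠ 0 := by
    exact_mod_cast hJpos.ne'
  have hMc' : ((Ideal.absNorm (mId K m) : ℕ) : ℂ) ≠ 0 := by
    exact_mod_cast hMpos.ne'
  rw [mul_add, mul_add]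
  congr 1
  rw [h1]
  push_cast
  field_simp

/-- The difference quotient of `s ↦ N^(s-1)` at `1`. -/
theorem tendsto_rpow_slope {N : ℝ} (hN : 0 < N) :
    Tendsto (fun s : ℝ => (N ^ (s - 1) - 1) / (s - 1)) (𝓝[>] 1) (𝓝 (Real.log N)) := by
  have h1 : HasDerivAt (fun s : ℝ => N ^ (s - 1)) (Real.log N) 1 := by
    have h3 : HasDerivAt (fun s : ℝ => s - 1) 1 1 := (hasDerivAt_id 1).sub_const 1
    have h4 := HasDerivAt.const_rpow hN h3
    simpa using h4
  have h5 := hasDerivAt_iff_tendsto_slope.mp h1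
  have h6 : Tendsto (slope (fun s : ℝ => N ^ (s - 1)) 1) (𝓝[>] 1) (𝓝 (Real.log N)) :=
    h5.mono_left (nhdsWithin_mono 1 fun x hx => ne_of_gt hx)
  refine h6.congr fun s => ?_
  rw [slope_def_field]
  simp

/-- `(N^(s-1) - 1) * latSum s` has a limit at `1+`. -/
theorem tendsto_rpow_sub_one_mul_latSum {N : ℝ} (hN : 0 < N) :
    Tendsto (fun s : ℝ => (N ^ (s - 1) - 1) * latSum K s) (𝓝[>] 1)
      (𝓝 (Real.log N * latRes K)) := by
  have h1 := (tendsto_rpow_slope hN).mul (tendsto_sub_one_mul_latSum K)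
  refine h1.congr' ?_
  filter_upwards [self_mem_nhdsWithin] with s hs
  have : s - 1 ≠ 0 := sub_ne_zero.mpr (ne_of_gt hs)
  field_simp

/-- **Main theorem of the leaf LTWIST.** For an even Dirichlet character `χ` modulo `m` such that
`χ(N I₀) ∉ {0, 1}` for some ideal `I₀` of `𝓞 K`, the twisted `L`-series
`normL K χ s = ∑_I χ(N I) N(I)^(-s)` has a finite limit when `s → 1+`. -/
theorem normL_tendsto (hχ : χ.Even) (I₀ : (Ideal (𝓞 K))⁰)
    (h0 : idChar K χ (I₀ : Ideal (𝓞 K)) ≠ 0) (h1 : idChar K χ (I₀ : Ideal (𝓞 K)) ≠ 1) :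
    ∃ ℓ : ℂ, Tendsto (normL K χ) (𝓝[>] 1) (𝓝 ℓ) := by
  have hw : ((torsionOrder K : ℝ) : ℂ) ≠ 0 := by
    exact_mod_cast (torsionOrder_ne_zero K)
  have hE : Tendsto (errSum K χ) (𝓝[>] 1) (𝓝 (errSum K χ 1)) :=
    tendsto_nhdsGT_of_continuousOn (continuousOn_errSum K χ)
  -- it suffices to find the limit of `w * normL`
  suffices h : ∃ ℓ : ℂ, Tendsto (fun s : ℝ => ((torsionOrder K : ℝ) : ℂ) * normL K χ s)
      (𝓝[>] 1) (𝓝 ℓ) by
    obtain ⟨ℓ, hℓ⟩ := h
    refine ⟨((torsionOrder K : ℝ) : ℂ)⁻¹ * ℓ, ?_⟩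
    refine (hℓ.const_mul (((torsionOrder K : ℝ) : ℂ)⁻¹)).congr fun s => ?_
    rw [← mul_assoc, inv_mul_cancel₀ hw, one_mul]
  by_cases hg : gsum K χ = 0
  · -- Case A
    refine ⟨errSum K χ 1, hE.congr' ?_⟩
    filter_upwards [self_mem_nhdsWithin] with s hs
    rw [torsionOrder_mul_normL K χ hχ hs, hg, zero_div, zero_mul, zero_mul, zero_add]
  · -- Case B
    have hB : ∀ β : 𝓞 K, elChar K χ β = 0 ∨ elChar K χ β = 1 := by
      intro β
      by_contra hcon
      rw [not_or] at hcon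
      exact hg (gsum_eq_zero K χ hcon.1 hcon.2)
    have hsum := sum_inv_idChar_eq_zero K χ hχ hB I₀ h0 h1
    -- the main term
    have hmain : ∀ s : ℝ, mainCoef K χ s * ((latSum K s : ℝ) : ℂ) =
        ∑ C : ClassGroup (𝓞 K), (idChar K χ (copRep K m C : Ideal (𝓞 K)))⁻¹ *
          ((((Ideal.absNorm (copRep K m C : Ideal (𝓞 K)) : ℝ) ^ (s - 1) - 1) * latSum K s : ℝ) :
            ℂ) := by
      intro s
      have h2 : ∑ C : ClassGroup (𝓞 K), (idChar K χ (copRep K m C : Ideal (𝓞 K)))⁻¹ *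
          ((((Ideal.absNorm (copRep K m C : Ideal (𝓞 K)) : ℝ) ^ (s - 1) - 1) * latSum K s : ℝ) :
            ℂ) = mainCoef K χ s * ((latSum K s : ℝ) : ℂ) -
          (∑ C : ClassGroup (𝓞 K), (idChar K χ (copRep K m C : Ideal (𝓞 K)))⁻¹) *
            ((latSum K s : ℝ) : ℂ) := by
        unfold mainCoef
        rw [Finset.sum_mul, Finset.sum_mul, ← Finset.sum_sub_distrib]
        refine Finset.sum_congr rfl fun C _ => ?_
        push_cast
        ring
      rw [h2, hsum, zero_mul, sub_zero]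
    have hlim : Tendsto (fun s : ℝ => mainCoef K χ s * ((latSum K s : ℝ) : ℂ)) (𝓝[>] 1)
        (𝓝 (∑ C : ClassGroup (𝓞 K), (idChar K χ (copRep K m C : Ideal (𝓞 K)))⁻¹ *
          ((Real.log (Ideal.absNorm (copRep K m C : Ideal (𝓞 K)) : ℝ) * latRes K : ℝ) : ℂ))) := by
      have : (fun s : ℝ => mainCoef K χ s * ((latSum K s : ℝ) : ℂ)) = fun s : ℝ =>
          ∑ C : ClassGroup (𝓞 K), (idChar K χ (copRep K m C : Ideal (𝓞 K)))⁻¹ *
            ((((Ideal.absNorm (copRep K m C : Ideal (𝓞 K)) : ℝ) ^ (s - 1) - 1) * latSum K s : ℝ) :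
              ℂ) := funext hmain
      rw [this]
      refine tendsto_finsetSum _ fun C _ => Tendsto.const_mul _ ?_
      exact (Complex.continuous_ofReal.tendsto _).comp
        (tendsto_rpow_sub_one_mul_latSum K (absNorm_pos_real K _))
    refine ⟨_, ((hlim.const_mul (gsum K χ / ((Ideal.absNorm (mId K m) : ℝ) : ℂ))).add hE).congr'
      ?_⟩
    filter_upwards [self_mem_nhdsWithin] with s hs
    rw [torsionOrder_mul_normL K χ hχ hs]
    ring

/-! ### The summand as a completely multiplicative function (for Euler products) -/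

/-- The summand of `normL`: `I ↦ χ(N I) N(I)^(-s)`, a completely multiplicative function on the
nonzero ideals. -/
noncomputable def twist (s : ℝ) (I : (Ideal (𝓞 K))⁰) : ℂ :=
  idChar K χ (I : Ideal (𝓞 K)) * helper40.normFun K s I

theorem normL_eq_tsum_twist (s : ℝ) : normL K χ s = ∑' I, twist K χ s I := rfl

theorem twist_one (s : ℝ) : twist K χ s 1 = 1 := by
  unfold twist
  rw [helper40.normFun_one, mul_one]
  have : ((1 : (Ideal (𝓞 K))⁰) : Ideal (𝓞 K)) = ⊤ := Ideal.one_eq_top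
  rw [this, idChar_top]

theorem twist_mul (s : ℝ) (I J : (Ideal (𝓞 K))⁰) :
    twist K χ s (I * J) = twist K χ s I * twist K χ s J := by
  unfold twist
  rw [helper40.normFun_mul, Submonoid.coe_mul, idChar_mul]
  ring

theorem norm_twist_le (s : ℝ) (I : (Ideal (𝓞 K))⁰) :
    ‖twist K χ s I‖ ≤ (Ideal.absNorm (I : Ideal (𝓞 K)) : ℝ) ^ (-s) := by
  unfold twist
  rw [norm_mul, helper40.norm_normFun]
  calc ‖idChar K χ (I : Ideal (𝓞 K))‖ * (Ideal.absNorm (I : Ideal (𝓞 K)) : ℝ) ^ (-s)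
      ≤ 1 * (Ideal.absNorm (I : Ideal (𝓞 K)) : ℝ) ^ (-s) :=
        mul_le_mul_of_nonneg_right (norm_idChar_le K χ _)
          (Real.rpow_nonneg (Nat.cast_nonneg _) _)
    _ = (Ideal.absNorm (I : Ideal (𝓞 K)) : ℝ) ^ (-s) := one_mul _

theorem summable_norm_twist {s : ℝ} (hs : 1 < s) : Summable fun I => ‖twist K χ s I‖ :=
  Summable.of_nonneg_of_le (fun _ => norm_nonneg _) (fun I => norm_twist_le K χ s I)
    (helper40.summable_absNorm_rpow K hs)

/-- `normL` is bounded near `1+` (consequence of `normL_tendsto`). -/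
theorem normL_eventually_bounded (hχ : χ.Even) (I₀ : (Ideal (𝓞 K))⁰)
    (h0 : idChar K χ (I₀ : Ideal (𝓞 K)) ≠ 0) (h1 : idChar K χ (I₀ : Ideal (𝓞 K)) ≠ 1) :
    ∃ B : ℝ, ∀ᶠ s in 𝓝[>] (1 : ℝ), ‖normL K χ s‖ ≤ B := by
  obtain ⟨ℓ, hℓ⟩ := normL_tendsto K χ hχ I₀ h0 h1
  refine ⟨‖ℓ‖ + 1, ?_⟩
  have h2 : Tendsto (fun s => ‖normL K χ s‖) (𝓝[>] 1) (𝓝 ‖ℓ‖) := hℓ.norm
  exact h2.eventually (eventually_le_nhds (lt_add_one _))

end Fermat.Agent.T4.helper31
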