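import Mathlib
import Fermat.Agent.T4.helper4_IgusaDefs
import Fermat.Agent.T4.helper65_IgKer
import Fermat.Agent.T4.helper65_Interp
import Fermat.Agent.P2.helper94_ESFormal
import Fermat.Agent.P2.helper81_ValBase

/-!
# T4 block (I), IGUSA1 / CUSP1, leaf [IG-THETA] (helper32): the conjugate family

For `θ_B ∈ B = BS (Gamma M) M S` the expansions at the identity of the conjugates `c • θ_B`,
`c ∈ I = G / Stab θ_B` (`G = SL₂(ℤ) / Γ(M)` acting by `helper4.Ig.actG`), form a family
`thetaS : I → S((t))` with

* (b1) `∏_c (Y - thetaS c) = (orbit polynomial of θ_B).map (ES 1)`, hence `= Φ(J_M, Y)` for every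
  lift `Φ ∈ S[X][Y]` of the orbit polynomial (`J_M = j(t^M)`);
* (b2) `thetaS (π c) = rot ζ (thetaS c)`, `π` = left multiplication by the class of `T⁻¹`;
* (b3) `thetaS [1] = ES 1 θ_B`.

The `A`-form (for `S = subringC A`, `A` a valuation subring of `ℚ̄`) is the input
(b1)-(b3) of `helper18.cosetExp_of_conj`.
-/

set_option autoImplicit false
set_option linter.unusedSectionVars false
set_option linter.style.haveILetI false
set_option linter.unusedVariables false

noncomputable section

namespace Fermat.Agent.T4.helper32.Conj1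

open UpperHalfPlane CongruenceSubgroup ModularCurve Polynomial
open Fermat.Agent.T4.helper4.Ig
open Fermat.Agent.S28
open scoped MatrixGroups

/-! ### Generalities on `rot` and `coeffMap` -/

section RotGen

variable {R R' : Type*} [CommRing R] [CommRing R']

theorem coeffMap_rot (f : R →+* R') (u : Rˣ) (x : LaurentSeries R) :
    coeffMap f (Fermat.Agent.P2.helper94.rot u x) =
      Fermat.Agent.P2.helper94.rot (Units.map (f : R →* R') u) (coeffMap f x) := by
  apply HahnSeries.ext
  funext n
  rw [coeffMap_coeff, Fermat.Agent.P2.helper94.rot_coeff, Fermat.Agent.P2.helper94.rot_coeff,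
    coeffMap_coeff, map_mul, ← map_zpow]
  rfl

end RotGen

variable (M : ℕ) [NeZero M] (S : Subring ℂ)

/-! ### The rotation by `T` in `rot`-form -/

theorem ES_mul_T (hζ : zetaC M ∈ S) (γ : SL(2, ℤ)) (f : BS (Gamma M) M S) :
    ES (Gamma M) M S (γ * ModularGroup.T) f =
      Fermat.Agent.P2.helper94.rot (zetaU M S hζ) (ES (Gamma M) M S γ f) := by
  apply HahnSeries.ext
  funext n
  rw [Fermat.Agent.P2.helper94.rot_coeff]
  exact ES_mul_T_coeff (Gamma M) M S hζ γ f n

theorem zetaU_pow_self (hζ : zetaC M ∈ S) : zetaU M S hζ ^ M = 1 := by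
  apply Units.ext
  apply Subtype.ext
  rw [Units.val_pow_eq_pow_val, Units.val_one, Subring.coe_pow, Subring.coe_one]
  exact zetaC_pow_self M

/-! ### The family -/

section Family

attribute [local instance] Fermat.Agent.T4.helper4.Ig.actG

/-- the index set of the conjugates of `θ` -/
abbrev ThI (θ : BS (Gamma M) M S) : Type :=
  GM M ⧸ MulAction.stabilizer (GM M) θ

instance thI_finite (θ : BS (Gamma M) M S) : Finite (ThI M S θ) :=
  inferInstanceAs (Finite (GM M ⧸ MulAction.stabilizer (GM M) θ))

/-- the base point -/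
def thI0 (θ : BS (Gamma M) M S) : ThI M S θ := QuotientGroup.mk (1 : GM M)

/-- the class of `T` in `GM M` -/
def tG : GM M := QuotientGroup.mk ModularGroup.T

/-- the permutation of the conjugates induced by `T⁻¹` -/
def thPi (θ : BS (Gamma M) M S) : Equiv.Perm (ThI M S θ) :=
  MulAction.toPerm ((tG M)⁻¹ : GM M)

/-- the conjugate family: expansions at the identity of the conjugates of `θ` -/
def thetaS (θ : BS (Gamma M) M S) (c : ThI M S θ) : LaurentSeries S :=
  ES (Gamma M) M S 1 (MulAction.ofQuotientStabilizer (GM M) θ c)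

theorem thetaS_mk (θ : BS (Gamma M) M S) (g : SL(2, ℤ)) :
    thetaS M S θ (QuotientGroup.mk (QuotientGroup.mk g : GM M)) =
      ES (Gamma M) M S g⁻¹ θ := by
  rw [thetaS, MulAction.ofQuotientStabilizer_mk]
  show ES (Gamma M) M S 1 (trB (Gamma M) M S g⁻¹ θ) = _
  rw [ES_trB, mul_one]

/-- **(b3)** -/
theorem thetaS_thI0 (θ : BS (Gamma M) M S) :
    thetaS M S θ (thI0 M S θ) = ES (Gamma M) M S 1 θ := by
  rw [thetaS, thI0, MulAction.ofQuotientStabilizer_mk, one_smul]

/-- **(b2)** -/
theorem thetaS_thPi (hζ : zetaC M ∈ S) (θ : BS (Gamma M) M S) (c : ThI M S θ) :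
    thetaS M S θ (thPi M S θ c) =
      Fermat.Agent.P2.helper94.rot (zetaU M S hζ) (thetaS M S θ c) := by
  induction c using QuotientGroup.induction_on with
  | H g₀ =>
    induction g₀ using QuotientGroup.induction_on with
    | H g =>
      have h1 : thPi M S θ (QuotientGroup.mk (QuotientGroup.mk g : GM M)) =
          QuotientGroup.mk (QuotientGroup.mk (ModularGroup.T⁻¹ * g) : GM M) := rfl
      rw [h1, thetaS_mk, thetaS_mk, mul_inv_rev, inv_inv, ES_mul_T M S hζ]

/-- **(b1)**, orbit polynomial form -/
theorem prod_thetaS [Fintype (GM M)] (θ : BS (Gamma M) M S) [Fintype (ThI M S θ)] :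
    ∏ c : ThI M S θ, (X - C (thetaS M S θ c)) =
      (prodXSubSMul (GM M) (BS (Gamma M) M S) θ).map (ES (Gamma M) M S 1) := by
  rw [helper65.prodXSubSMul_eq_prod (GM M) θ, Polynomial.map_prod]
  refine Finset.prod_congr rfl (fun c _ => ?_)
  rw [Polynomial.map_sub, Polynomial.map_X, Polynomial.map_C]
  rfl

/-- `ES 1 ∘ polyB` is the evaluation at `J_M = j(t^M)` -/
theorem ES_one_comp_polyB :
    (ES (Gamma M) M S 1).comp (polyB (Gamma M) M S) =
      ((aeval (qExpand S M (jqModC S)) : Polynomial S →ₐ[S] LaurentSeries S) :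
        Polynomial S →+* LaurentSeries S) := by
  apply Polynomial.ringHom_ext
  · intro c
    simp only [polyB, RingHom.comp_apply, Polynomial.coe_eval₂RingHom, Polynomial.eval₂_C,
      RingHom.coe_coe, Polynomial.aeval_C]
    rw [helper65.IgKer.ES_constB, helper93.algebraMap_laurent_eq_C]
  · simp only [polyB, RingHom.comp_apply, Polynomial.coe_eval₂RingHom, Polynomial.eval₂_X,
      RingHom.coe_coe, Polynomial.aeval_X]
    rw [helper65.IgKer.ES_jB]

/-- **(b1)** for a lift `Φ₀ ∈ S[X][Y]` of the orbit polynomial -/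
theorem prod_thetaS_of_lift [Fintype (GM M)] (θ : BS (Gamma M) M S) [Fintype (ThI M S θ)]
    (Φ₀ : Polynomial (Polynomial S))
    (h : Φ₀.map (polyB (Gamma M) M S) = prodXSubSMul (GM M) (BS (Gamma M) M S) θ) :
    ∏ c : ThI M S θ, (X - C (thetaS M S θ c)) =
      Φ₀.map ((aeval (qExpand S M (jqModC S)) : Polynomial S →ₐ[S] LaurentSeries S) :
        Polynomial S →+* LaurentSeries S) := by
  rw [prod_thetaS, ← h, Polynomial.map_map, ES_one_comp_polyB]

/-! ### Orders of the rotation factors -/

theorem orderOf_zetaU (hζ : zetaC M ∈ S) : orderOf (zetaU M S hζ) = M := by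
  have hprim : IsPrimitiveRoot (zetaC M) M := by
    unfold zetaC
    exact Complex.isPrimitiveRoot_exp M (NeZero.ne M)
  have hinj : Function.Injective
      ((S.subtype : S →* ℂ).comp (Units.coeHom S)) := by
    intro a b hab
    exact Units.ext (Subtype.ext hab)
  rw [← orderOf_injective _ hinj (zetaU M S hζ)]
  exact hprim.eq_orderOf.symm

theorem orderOf_map_zetaU (hζ : zetaC M ∈ S) {k : Type} [Field k] (r : S →+* k)
    (hM : r (M : S) ≠ 0) : orderOf (Units.map (r : S →* k) (zetaU M S hζ)) = M := by
  have hprim : IsPrimitiveRoot (zetaC M) M := by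
    unfold zetaC
    exact Complex.isPrimitiveRoot_exp M (NeZero.ne M)
  rw [orderOf_eq_iff (Nat.pos_of_ne_zero (NeZero.ne M))]
  refine ⟨?_, fun m hm hm0 h => ?_⟩
  · rw [← map_pow, zetaU_pow_self, map_one]
  · have h1 : ((zetaU M S hζ : Sˣ) : S) ^ m ≠ 1 := by
      intro h1
      have h2 : zetaC M ^ m = 1 := by
        have := congrArg Subtype.val h1
        rw [Subring.coe_pow, Subring.coe_one] at this
        exact this
      have := Nat.le_of_dvd hm0 ((hprim.pow_eq_one_iff_dvd m).mp h2)
      omega
    have h3 := helper93.map_ne_map_of_pow_eq_one r M hM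
      (ω := ((zetaU M S hζ : Sˣ) : S) ^ m) (ω' := 1)
      (by
        rw [← pow_mul, mul_comm, pow_mul, ← Units.val_pow_eq_pow_val, zetaU_pow_self,
          Units.val_one, one_pow])
      (one_pow M) h1
    apply h3
    rw [map_one, map_pow]
    have := congrArg Units.val h
    rwa [Units.val_pow_eq_pow_val, Units.val_one] at this

end Family

/-! ### The `A`-form -/

section AForm

open Fermat.Agent.P2.helper81

attribute [local instance] Fermat.Agent.T4.helper4.Ig.actG

variable (A : ValuationSubring (AlgebraicClosure ℚ))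

theorem zetaC_mem_subC : zetaC M ∈ subringC A := zetaC_mem_subringC A M

/-- `ζ_M` as a unit of `A` -/
def zetaA : Aˣ :=
  Units.map (((equivC A).symm : subringC A ≃+* A) : subringC A →* A)
    (zetaU M (subringC A) (zetaC_mem_subC M A))

/-- the conjugate family over `A` -/
def thetaA (θB : BS (Gamma M) M (subringC A)) (c : ThI M (subringC A) θB) : LaurentSeries A :=
  coeffMap ((equivC A).symm : subringC A →+* A) (thetaS M (subringC A) θB c)

theorem coeffMap_equivC_symm_equivC (x : LaurentSeries A) :
    coeffMap ((equivC A).symm : subringC A →+* A)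
      (coeffMap ((equivC A : A ≃+* subringC A) : A →+* subringC A) x) = x := by
  apply HahnSeries.ext
  funext n
  rw [coeffMap_coeff, coeffMap_coeff]
  exact (equivC A).symm_apply_apply _

/-- **(b3)**, `A`-form -/
theorem thetaA_thI0 (θB : BS (Gamma M) M (subringC A)) (θ : LaurentSeries A)
    (h2 : ES (Gamma M) M (subringC A) 1 θB =
      qExpand (subringC A) M (coeffMap ((equivC A : A ≃+* subringC A) : A →+* subringC A) θ)) :
    thetaA M A θB (thI0 M (subringC A) θB) = qExpand A M θ := by
  rw [thetaA, thetaS_thI0, h2, Fermat.Agent.S28.helper81.coeffMap_qExpand,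
    coeffMap_equivC_symm_equivC]

/-- **(b2)**, `A`-form -/
theorem thetaA_thPi (θB : BS (Gamma M) M (subringC A)) (c : ThI M (subringC A) θB) :
    thetaA M A θB (thPi M (subringC A) θB c) =
      Fermat.Agent.P2.helper94.rot (zetaA M A) (thetaA M A θB c) := by
  rw [thetaA, thetaS_thPi M (subringC A) (zetaC_mem_subC M A), coeffMap_rot]
  rfl

/-- **(b1)**, `A`-form -/
theorem prod_thetaA [Fintype (GM M)] (θB : BS (Gamma M) M (subringC A))
    [Fintype (ThI M (subringC A) θB)] (Φ : Polynomial (Polynomial A))
    (h1 : (Φ.map (Polynomial.mapRingHom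
        ((equivC A : A ≃+* subringC A) : A →+* subringC A))).map
          (polyB (Gamma M) M (subringC A)) =
        prodXSubSMul (GM M) (BS (Gamma M) M (subringC A)) θB) :
    ∏ c : ThI M (subringC A) θB, (X - C (thetaA M A θB c)) =
      Φ.map ((aeval (qExpand A M (jqModC A)) : Polynomial A →ₐ[A] LaurentSeries A) :
        Polynomial A →+* LaurentSeries A) := by
  have h := prod_thetaS_of_lift M (subringC A) θB _ h1
  have h' := congrArg (Polynomial.map (coeffMap ((equivC A).symm : subringC A →+* A))) h
  rw [Polynomial.map_prod, Polynomial.map_map, Polynomial.map_map] at h'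
  have e1 : ∀ c : ThI M (subringC A) θB,
      Polynomial.map (coeffMap ((equivC A).symm : subringC A →+* A))
        (X - C (thetaS M (subringC A) θB c)) = X - C (thetaA M A θB c) := by
    intro c
    rw [Polynomial.map_sub, Polynomial.map_X, Polynomial.map_C]
    rfl
  rw [Finset.prod_congr rfl (fun c _ => e1 c)] at h'
  rw [h']
  congr 1
  apply Polynomial.ringHom_ext
  · intro a
    simp only [RingHom.comp_apply, Polynomial.coe_mapRingHom, Polynomial.map_C,
      RingHom.coe_coe, Polynomial.aeval_C]
    rw [helper93.algebraMap_laurent_eq_C, helper93.coeffMap_C', helper93.algebraMap_laurent_eq_C]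
    congr 1
    exact (equivC A).symm_apply_apply a
  · simp only [RingHom.comp_apply, Polynomial.coe_mapRingHom, Polynomial.map_X,
      RingHom.coe_coe, Polynomial.aeval_X]
    rw [Fermat.Agent.S28.helper81.coeffMap_qExpand, Fermat.Agent.S28.helper81.coeffMap_jqModC]

theorem orderOf_zetaA : orderOf (zetaA M A) = M := by
  rw [zetaA]
  have hinj : Function.Injective
      ((Units.map (((equivC A).symm : subringC A ≃+* A) : subringC A →* A))) := by
    intro a b hab
    apply Units.ext
    have := congrArg Units.val hab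
    exact (equivC A).symm.injective this
  rw [orderOf_injective _ hinj]
  exact orderOf_zetaU M (subringC A) (zetaC_mem_subC M A)

theorem orderOf_residue_zetaA {ℓ : ℕ} [Fact ℓ.Prime] (hA : A.LiesOverPrime ℓ) (hℓM : ¬ ℓ ∣ M) :
    orderOf (Units.map ((IsLocalRing.residue A : A →+* kA A) : A →* kA A) (zetaA M A)) = M := by
  have h := orderOf_map_zetaU M (subringC A) (zetaC_mem_subC M A) (rhoC A) (by
    rw [map_natCast]
    exact natCast_residueField_ne_zero A hA M hℓM)
  exact h

/-- the conjugates are pairwise distinct -/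
theorem thetaA_injective (θB : BS (Gamma M) M (subringC A)) :
    Function.Injective (thetaA M A θB) := by
  intro c c' h
  have h1 : thetaS M (subringC A) θB c = thetaS M (subringC A) θB c' := by
    apply helper93.coeffMap_injective' ((equivC A).symm : subringC A →+* A)
      (equivC A).symm.injective
    exact h
  exact MulAction.injective_ofQuotientStabilizer (GM M) θB
    (ES_one_injective (Gamma M) M (subringC A) h1)

/-- the reduction of the conjugate family is the family of the reduced expansions -/
theorem red_thetaA (θB : BS (Gamma M) M (subringC A)) (c : ThI M (subringC A) θB) :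
    coeffMap (IsLocalRing.residue A) (thetaA M A θB c) =
      EB (Gamma M) M (subringC A) (rhoC A) 1
        (MulAction.ofQuotientStabilizer (GM M) θB c) := by
  rw [thetaA, coeffMap_coeffMap]
  rfl

theorem red_thetaA_mk (θB : BS (Gamma M) M (subringC A)) (g : SL(2, ℤ)) :
    coeffMap (IsLocalRing.residue A)
        (thetaA M A θB (QuotientGroup.mk (QuotientGroup.mk g : GM M))) =
      EB (Gamma M) M (subringC A) (rhoC A) g⁻¹ θB := by
  rw [red_thetaA, MulAction.ofQuotientStabilizer_mk]
  show EB (Gamma M) M (subringC A) (rhoC A) 1 (trB (Gamma M) M (subringC A) g⁻¹ θB) = _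
  rw [EB_trB, mul_one]

/-- the complex expansion behind the conjugate family -/
theorem toC_thetaA_mk (θB : BS (Gamma M) M (subringC A)) (g : SL(2, ℤ)) :
    coeffMap (subringC A).subtype
        (coeffMap ((equivC A : A ≃+* subringC A) : A →+* subringC A)
          (thetaA M A θB (QuotientGroup.mk (QuotientGroup.mk g : GM M)))) =
      EA (Gamma M) M g⁻¹ (θB : GA (Gamma M) M) := by
  have e : coeffMap ((equivC A : A ≃+* subringC A) : A →+* subringC A)
      (thetaA M A θB (QuotientGroup.mk (QuotientGroup.mk g : GM M))) =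
      thetaS M (subringC A) θB (QuotientGroup.mk (QuotientGroup.mk g : GM M)) := by
    rw [thetaA]
    apply HahnSeries.ext
    funext n
    rw [coeffMap_coeff, coeffMap_coeff]
    exact (equivC A).apply_symm_apply _
  rw [e, thetaS_mk, coeffMap_ES]

/-- **[IG-THETA]** the conjugate family of a primitive element, packaged: the inputs (b1)-(b3)
of `helper18.cosetExp_of_conj`. -/
theorem exists_thetaFam {ℓ : ℕ} [Fact ℓ.Prime] (hA : A.LiesOverPrime ℓ) (hℓM : ¬ ℓ ∣ M)
    [Fintype (GM M)] (θB : BS (Gamma M) M (subringC A)) (Φ : Polynomial (Polynomial A))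
    (θ : LaurentSeries A)
    (h1 : (Φ.map (Polynomial.mapRingHom
        ((equivC A : A ≃+* subringC A) : A →+* subringC A))).map
          (polyB (Gamma M) M (subringC A)) =
        prodXSubSMul (GM M) (BS (Gamma M) M (subringC A)) θB)
    (h2 : ES (Gamma M) M (subringC A) 1 θB =
      qExpand (subringC A) M (coeffMap ((equivC A : A ≃+* subringC A) : A →+* subringC A) θ)) :
    ∃ (I : Type) (_ : Fintype I) (π : Equiv.Perm I) (i₀ : I) (Θ : I → LaurentSeries A)
      (ζ : Aˣ),
      orderOf ζ = M ∧
      orderOf (Units.map ((IsLocalRing.residue A : A →+* kA A) : A →* kA A) ζ) = M ∧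
      (∏ i : I, (X - C (Θ i)) =
        Φ.map ((aeval (qExpand A M (jqModC A)) : Polynomial A →ₐ[A] LaurentSeries A) :
          Polynomial A →+* LaurentSeries A)) ∧
      (∀ i, Θ (π i) = Fermat.Agent.P2.helper94.rot ζ (Θ i)) ∧
      Θ i₀ = qExpand A M θ ∧ Function.Injective Θ := by
  letI : Fintype (ThI M (subringC A) θB) := Fintype.ofFinite _
  exact ⟨ThI M (subringC A) θB, inferInstance, thPi M (subringC A) θB, thI0 M (subringC A) θB,
    thetaA M A θB, zetaA M A, orderOf_zetaA M A, orderOf_residue_zetaA M A hA hℓM,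
    prod_thetaA M A θB Φ h1, thetaA_thPi M A θB, thetaA_thI0 M A θB θ h2,
    thetaA_injective M A θB⟩

end AForm

end Fermat.Agent.T4.helper32.Conj1
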