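import Mathlib
import Fermat.Agent.T4.helper32_IgTheta
import Fermat.Agent.T4.helper4_IgusaInst3
import Fermat.Agent.T4.helper65_IgKerFinal
import Fermat.Agent.T4.helper18_CosetConj

/-!
# T4 block (I), CUSP1, leaf [IG-THETA], instance (helper32)

For a package `Q : helper4.Ig.PrimPack1 A M` (the primitive element `θ_B ∈ B_S` of IGUSA1) the
conjugate family `thetaA M A Q.θB` is an integral conjugate package
`helper18.ConjPackA A Q.θA Q.ΦA M π i₀` (`I = G / Stab θ_B`, `π` = the class of `T⁻¹`):

* `map_polyB_eq_prodXSubSMul` : `Q.Φ(j, Y) = ∏_{c} (Y - c • θ_B)` in `B_S[Y]`;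
* `red_thetaA_injective` : the reduced conjugates are pairwise distinct (kernel stability +
  separation);
* `conjPackA` : the package.
-/

set_option autoImplicit false
set_option linter.unusedSectionVars false
set_option linter.style.haveILetI false
set_option linter.unusedVariables false

noncomputable section

namespace Fermat.Agent.T4.helper32.Conj1

open UpperHalfPlane CongruenceSubgroup ModularCurve Polynomial
open Fermat.Agent.T4.helper4.Ig
open Fermat.Agent.P2.helper81 (subringC equivC rhoC)
open Fermat.Agent.S28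
open Fermat.Agent.T4.helper24 (PG1)
open scoped MatrixGroups

attribute [local instance] Fermat.Agent.T4.helper4.Ig.actG

variable (M : ℕ) [NeZero M]

/-! ### `B_S` is a domain -/

theorem isDomain_BS (S : Subring ℂ) : IsDomain (BS (Gamma M) M S) := by
  let f : BS (Gamma M) M S →+* LaurentSeries ℂ :=
    ((EA (Gamma M) M 1 : GA (Gamma M) M →ₐ[ℂ] LaurentSeries ℂ) :
      GA (Gamma M) M →+* LaurentSeries ℂ).comp (BS (Gamma M) M S).subtype
  have hf : Function.Injective f := by
    intro a b h
    exact Subtype.ext (EA_one_injective (Gamma M) M h)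
  exact hf.isDomain f

variable {M} (A : ValuationSubring (AlgebraicClosure ℚ))

/-! ### The stabiliser of the primitive element -/

section Stab

variable {A} (Q : PrimPack1 A M)

theorem mk_smul_thetaB (g : SL(2, ℤ)) :
    ((QuotientGroup.mk g : GM M) • Q.θB) = trB (Gamma M) M (subringC A) g⁻¹ Q.θB := rfl

theorem mk_mem_stabilizer_thetaB (g : SL(2, ℤ)) :
    (QuotientGroup.mk g : GM M) ∈ MulAction.stabilizer (GM M) Q.θB ↔ g ∈ PG1 M := by
  rw [MulAction.mem_stabilizer_iff, mk_smul_thetaB]
  constructor
  · intro h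
    have h1 : EB (Gamma M) M (subringC A) (rhoC A) g⁻¹ Q.θB =
        EB (Gamma M) M (subringC A) (rhoC A) 1 Q.θB := by
      rw [← mul_one g⁻¹, ← EB_trB, h]
    simpa using (PG1 M).inv_mem (Q.sep g⁻¹ h1)
  · intro h
    exact Q.fix g⁻¹ ((PG1 M).inv_mem h)

theorem stabilizer_thetaB :
    MulAction.stabilizer (GM M) Q.θB = (PG1 M).map (QuotientGroup.mk' (Gamma M)) := by
  ext x
  induction x using QuotientGroup.induction_on with
  | H g =>
    rw [mk_mem_stabilizer_thetaB, Subgroup.mem_map]
    constructor
    · intro h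
      exact ⟨g, h, rfl⟩
    · rintro ⟨δ, hδ, hδg⟩
      have h1 : δ⁻¹ * g ∈ Gamma M := QuotientGroup.eq.mp hδg
      have h2 : g = δ * (δ⁻¹ * g) := by rw [mul_inv_cancel_left]
      rw [h2]
      exact (PG1 M).mul_mem hδ (Gamma_le_PG1 h1)

theorem card_thI : Nat.card (ThI M (subringC A) Q.θB) = (PG1 M).index := by
  show (MulAction.stabilizer (GM M) Q.θB).index = _
  rw [stabilizer_thetaB]
  apply Subgroup.index_map_eq
  · exact QuotientGroup.mk'_surjective _
  · rw [QuotientGroup.ker_mk']
    exact Gamma_le_PG1

/-! ### The orbit polynomial -/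

theorem eval₂_polyB_smul (g : GM M) (Ψ : Polynomial (Polynomial (subringC A)))
    (y : BS (Gamma M) M (subringC A)) :
    Ψ.eval₂ (polyB (Gamma M) M (subringC A)) (g • y) =
      g • Ψ.eval₂ (polyB (Gamma M) M (subringC A)) y := by
  have h1 := Polynomial.hom_eval₂ Ψ (polyB (Gamma M) M (subringC A))
    (MulSemiringAction.toRingHom (GM M) (BS (Gamma M) M (subringC A)) g) y
  have h2 : (MulSemiringAction.toRingHom (GM M) (BS (Gamma M) M (subringC A)) g).comp
      (polyB (Gamma M) M (subringC A)) = polyB (Gamma M) M (subringC A) := by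
    refine RingHom.ext (fun P => ?_)
    induction g using QuotientGroup.induction_on with
    | H γ => exact trB_polyB (Gamma M) M (subringC A) γ⁻¹ P
  rw [h2] at h1
  exact h1.symm

/-- **the equation of `θ_B` is its orbit polynomial** -/
theorem map_polyB_eq_prodXSubSMul [Fintype (GM M)] :
    Q.Φ.map (polyB (Gamma M) M (subringC A)) =
      prodXSubSMul (GM M) (BS (Gamma M) M (subringC A)) Q.θB := by
  classical
  haveI := isDomain_BS M (subringC A)
  letI : Fintype (ThI M (subringC A) Q.θB) := Fintype.ofFinite _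
  set P := Q.Φ.map (polyB (Gamma M) M (subringC A)) with hP
  have hPm : P.Monic := Q.monic.map _
  have hPdeg : P.natDegree = (PG1 M).index := by
    rw [hP, Q.monic.natDegree_map, Q.natDegree_eq]
  set f : ThI M (subringC A) Q.θB → BS (Gamma M) M (subringC A) :=
    MulAction.ofQuotientStabilizer (GM M) Q.θB with hf
  have hfinj : Function.Injective f := MulAction.injective_ofQuotientStabilizer (GM M) Q.θB
  have hroot : ∀ c, P.eval (f c) = 0 := by
    intro c
    induction c using QuotientGroup.induction_on with
    | H g =>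
      rw [hP, Polynomial.eval_map, hf, MulAction.ofQuotientStabilizer_mk, eval₂_polyB_smul,
        Q.root, smul_zero]
  have hR : prodXSubSMul (GM M) (BS (Gamma M) M (subringC A)) Q.θB =
      ((Finset.univ.image f).val.map (fun a => X - C a)).prod := by
    rw [helper65.prodXSubSMul_eq_prod (GM M) Q.θB, ← Finset.prod_eq_multiset_prod,
      Finset.prod_image (fun a _ b _ h => hfinj h)]
  have hle : (Finset.univ.image f).val ≤ P.roots := by
    rw [Multiset.le_iff_subset (Finset.nodup _)]
    intro a ha
    rw [Finset.mem_val, Finset.mem_image] at ha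
    obtain ⟨c, -, rfl⟩ := ha
    rw [Polynomial.mem_roots hPm.ne_zero]
    exact hroot c
  have hdvd : prodXSubSMul (GM M) (BS (Gamma M) M (subringC A)) Q.θB ∣ P := by
    rw [hR]
    exact (Multiset.prod_dvd_prod_of_le (Multiset.map_le_map hle)).trans
      (Polynomial.prod_multiset_X_sub_C_dvd P)
  have hdeg : P.natDegree ≤
      (prodXSubSMul (GM M) (BS (Gamma M) M (subringC A)) Q.θB).natDegree := by
    rw [helper65.natDegree_prodXSubSMul, hPdeg]
    exact (card_thI Q).symm.le
  exact Polynomial.eq_of_monic_of_dvd_of_natDegree_le (prodXSubSMul.monic _ _ _) hPm hdvd hdeg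

/-! ### The reduced conjugates are pairwise distinct -/

theorem red_thetaA_injective {ℓ : ℕ} [Fact ℓ.Prime] (hA : A.LiesOverPrime ℓ) (hℓM : ¬ ℓ ∣ M) :
    Function.Injective fun c : ThI M (subringC A) Q.θB =>
      coeffMap (IsLocalRing.residue A) (thetaA M A Q.θB c) := by
  have hζ : zetaC M ∈ subringC A := Fermat.Agent.P2.helper81.zetaC_mem_subringC A M
  have hN : ((M : ℕ) : ℂ)⁻¹ ∈ subringC A :=
    Fermat.Agent.P2.helper81.natCast_inv_mem_subringC A hA M hℓM
  have hr := Fermat.Agent.P2.helper81.rhoC_surjective A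
  intro c c' h
  induction c using QuotientGroup.induction_on with
  | H g₀ =>
    induction c' using QuotientGroup.induction_on with
    | H h₀ =>
      induction g₀ using QuotientGroup.induction_on with
      | H g =>
        induction h₀ using QuotientGroup.induction_on with
        | H h' =>
          have h1 : EB (Gamma M) M (subringC A) (rhoC A) 1
              (trB (Gamma M) M (subringC A) g⁻¹ Q.θB) =
              EB (Gamma M) M (subringC A) (rhoC A) 1
                (trB (Gamma M) M (subringC A) h'⁻¹ Q.θB) := by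
            have := h
            simp only [red_thetaA_mk] at this
            rw [EB_trB, EB_trB, mul_one, mul_one]
            exact this
          have h2 := helper65.IgKer.EB_congr_of_surj M (subringC A) (rhoC A) hζ hN hr g h1
          rw [EB_trB, EB_trB, inv_mul_cancel] at h2
          have h3 : h'⁻¹ * g ∈ PG1 M := Q.sep _ h2.symm
          apply QuotientGroup.eq.mpr
          have h4 : ((QuotientGroup.mk g : GM M))⁻¹ * (QuotientGroup.mk h' : GM M) =
              (QuotientGroup.mk (g⁻¹ * h') : GM M) := rfl
          rw [h4, mk_mem_stabilizer_thetaB Q]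
          have h5 := (PG1 M).inv_mem h3
          rwa [mul_inv_rev, inv_inv] at h5

/-! ### The package -/

theorem map_ΦA_equivC :
    Q.ΦA.map (Polynomial.mapRingHom ((equivC A : A ≃+* subringC A) : A →+* subringC A)) =
      Q.Φ := by
  rw [PrimPack1.ΦA, Polynomial.map_map]
  have h : (Polynomial.mapRingHom ((equivC A : A ≃+* subringC A) : A →+* subringC A)).comp
      (Polynomial.mapRingHom (equivC A).symm.toRingHom) = RingHom.id _ := by
    refine RingHom.ext (fun P => ?_)
    simp only [RingHom.comp_apply, Polynomial.coe_mapRingHom, Polynomial.map_map, RingHom.id_apply]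
    have h2 : ((equivC A : A ≃+* subringC A) : A →+* subringC A).comp
        (equivC A).symm.toRingHom = RingHom.id _ := by
      refine RingHom.ext (fun x => ?_)
      exact (equivC A).apply_symm_apply x
    rw [h2, Polynomial.map_id]
  rw [h, Polynomial.map_id]

/-- **[IG-THETA]** the integral conjugate package of the primitive element of IGUSA1
(input of `helper18.ConjPackA.cosetK` / `cosetB`). -/
def conjPackA {ℓ : ℕ} [Fact ℓ.Prime] (hA : A.LiesOverPrime ℓ) (hℓM : ¬ ℓ ∣ M)
    [Fintype (ThI M (subringC A) Q.θB)] :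
    Fermat.Agent.T4.helper18.ConjPackA A Q.θA Q.ΦA M (thPi M (subringC A) Q.θB)
      (thI0 M (subringC A) Q.θB) where
  Θ := thetaA M A Q.θB
  injb := red_thetaA_injective Q hA hℓM
  ζ := zetaA M A
  hζ := orderOf_zetaA M A
  hζb := orderOf_residue_zetaA M A hA hℓM
  prod := by
    letI : Fintype (GM M) := Fintype.ofFinite _
    apply prod_thetaA M A Q.θB Q.ΦA
    rw [map_ΦA_equivC]
    exact map_polyB_eq_prodXSubSMul Q
  rot := thetaA_thPi M A Q.θB
  base := thetaA_thI0 M A Q.θB Q.θA Q.rep.ES_eq

/-- the conjugates of the package are the expansions at the cosets -/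
theorem conjPackA_Θ {ℓ : ℕ} [Fact ℓ.Prime] (hA : A.LiesOverPrime ℓ) (hℓM : ¬ ℓ ∣ M)
    [Fintype (ThI M (subringC A) Q.θB)] :
    (conjPackA Q hA hℓM).Θ = thetaA M A Q.θB := rfl

/-- the index set has `[SL₂(ℤ) : ±Γ₁(M)]` elements -/
theorem card_thI' [Fintype (ThI M (subringC A) Q.θB)] :
    Fintype.card (ThI M (subringC A) Q.θB) = (PG1 M).index := by
  rw [← Nat.card_eq_fintype_card]
  exact card_thI Q

end Stab

end Fermat.Agent.T4.helper32.Conj1
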