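import Mathlib
import Fermat.Agent.T4.helper32_IgThetaP
import Fermat.Agent.T4.helper4_IgusaFinal
import Fermat.Agent.T4.helper18_CosetCompat

/-!
# T4 block (I), I-RED: CUSP1 for `X₁(M)`, UNCONDITIONAL (helper32)

Assembly of

* `helper4.Ig.primPack1` (IGUSA1: the primitive element `θ_B ∈ B_S` and its equation),
* `helper32.Conj1.conjPackA` (the integral conjugate package of `θ_B`),
* `helper18.cusp1_of_conj` (coset expansions on both fibres + compatibility with reduction).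

Result, for every valuation subring `A` of `ℚ̄` over a prime `ℓ ∤ M`, `7 ≤ M`:
`CuspRegStatement`, `CuspBarStatement`, `RegRedStatement`, `IntegralityStatement` for
`(F1 M, F1b A M)`.
-/

set_option autoImplicit false
set_option linter.unusedSectionVars false
set_option linter.style.haveILetI false
set_option linter.unusedVariables false

noncomputable section

namespace Fermat.Agent.T4.helper32.Conj1

open ModularCurve Polynomial
open Fermat.Agent.T4.helper4.Ig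
open Fermat.Agent.T4.helper32
open Fermat.Agent.P2.helper81 (subringC equivC rhoC)

variable {M : ℕ} [NeZero M] {A : ValuationSubring (AlgebraicClosure ℚ)}

/-- the data of `PrimStatement` realised by a package of IGUSA1 -/
def primDataOf (Q : PrimPack1 A M) :
    Fermat.Agent.T4.helper31.PrimData A (F1 M) (Fermat.Agent.T4.helper4.F1b A M) where
  θ := Q.θA
  Φ := Q.ΦA
  monic := Q.monic_ΦA
  root := Q.root_ΦA
  hE := Q.f1_eq
  hEb := Q.f1b_eq
  irrK := irreducible_map_subtype A Q.ΦA Q.monic_ΦA Q.irr_ΦA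
  irrk := Q.irr_ΦA
  sep := by
    have h := Q.red_DA_ne_zero
    rw [Q.red_DA_eq] at h
    exact h

/-- **CUSP1 from a package of IGUSA1** -/
theorem cusp1_of_primPack1 (Q : PrimPack1 A M) {ℓ : ℕ} [Fact ℓ.Prime]
    (hA : A.LiesOverPrime ℓ) (hℓM : ¬ ℓ ∣ M)
    (hj : jqModC (AlgebraicClosure ℚ) ∈ F1 M)
    (hjb : jqModC (Fermat.Agent.P2.helper81.kA A) ∈ Fermat.Agent.T4.helper4.F1b A M) :
    Fermat.Agent.T4.helper4.CuspRegStatement A (F1 M) (Fermat.Agent.T4.helper4.F1b A M) hjb ∧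
      Fermat.Agent.T4.helper4.CuspBarStatement A (F1 M) (Fermat.Agent.T4.helper4.F1b A M)
        hj hjb ∧
      Fermat.Agent.T4.helper4.RegRedStatement A (F1 M) (Fermat.Agent.T4.helper4.F1b A M) ∧
      Fermat.Agent.T4.helper4.IntegralityStatement A (F1 M)
        (Fermat.Agent.T4.helper4.F1b A M) := by
  letI : Fintype (ThI M (subringC A) Q.θB) := Fintype.ofFinite _
  exact Fermat.Agent.T4.helper18.cusp1_of_conj (primDataOf Q) (conjPackA Q hA hℓM) hj hjb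
    (Fact.out : ℓ.Prime) hA

/-- **CUSP1 for `X₁(M)`, unconditional**: `CuspReg`, `CuspBar`, `RegRed`, `Integrality` for
`(F1 M, F1b A M)` at every valuation subring `A` of `ℚ̄` over a prime `ℓ ∤ M` (`7 ≤ M`). -/
theorem cusp1 (hM : 7 ≤ M) {ℓ : ℕ} [Fact ℓ.Prime] (hA : A.LiesOverPrime ℓ) (hℓM : ¬ ℓ ∣ M)
    (hj : jqModC (AlgebraicClosure ℚ) ∈ F1 M)
    (hjb : jqModC (Fermat.Agent.P2.helper81.kA A) ∈ Fermat.Agent.T4.helper4.F1b A M) :
    Fermat.Agent.T4.helper4.CuspRegStatement A (F1 M) (Fermat.Agent.T4.helper4.F1b A M) hjb ∧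
      Fermat.Agent.T4.helper4.CuspBarStatement A (F1 M) (Fermat.Agent.T4.helper4.F1b A M)
        hj hjb ∧
      Fermat.Agent.T4.helper4.RegRedStatement A (F1 M) (Fermat.Agent.T4.helper4.F1b A M) ∧
      Fermat.Agent.T4.helper4.IntegralityStatement A (F1 M)
        (Fermat.Agent.T4.helper4.F1b A M) := by
  obtain ⟨Q⟩ := primPack1 A hA hℓM hM
  exact cusp1_of_primPack1 Q hA hℓM hj hjb

theorem cuspReg1 (hM : 7 ≤ M) {ℓ : ℕ} [Fact ℓ.Prime] (hA : A.LiesOverPrime ℓ) (hℓM : ¬ ℓ ∣ M)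
    (hj : jqModC (AlgebraicClosure ℚ) ∈ F1 M)
    (hjb : jqModC (Fermat.Agent.P2.helper81.kA A) ∈ Fermat.Agent.T4.helper4.F1b A M) :
    Fermat.Agent.T4.helper4.CuspRegStatement A (F1 M) (Fermat.Agent.T4.helper4.F1b A M) hjb :=
  (cusp1 hM hA hℓM hj hjb).1

theorem cuspBar1 (hM : 7 ≤ M) {ℓ : ℕ} [Fact ℓ.Prime] (hA : A.LiesOverPrime ℓ) (hℓM : ¬ ℓ ∣ M)
    (hj : jqModC (AlgebraicClosure ℚ) ∈ F1 M)
    (hjb : jqModC (Fermat.Agent.P2.helper81.kA A) ∈ Fermat.Agent.T4.helper4.F1b A M) :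
    Fermat.Agent.T4.helper4.CuspBarStatement A (F1 M) (Fermat.Agent.T4.helper4.F1b A M)
      hj hjb :=
  (cusp1 hM hA hℓM hj hjb).2.1

theorem regRed1 (hM : 7 ≤ M) {ℓ : ℕ} [Fact ℓ.Prime] (hA : A.LiesOverPrime ℓ) (hℓM : ¬ ℓ ∣ M)
    (hj : jqModC (AlgebraicClosure ℚ) ∈ F1 M)
    (hjb : jqModC (Fermat.Agent.P2.helper81.kA A) ∈ Fermat.Agent.T4.helper4.F1b A M) :
    Fermat.Agent.T4.helper4.RegRedStatement A (F1 M) (Fermat.Agent.T4.helper4.F1b A M) :=
  (cusp1 hM hA hℓM hj hjb).2.2.1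

theorem integrality1 (hM : 7 ≤ M) {ℓ : ℕ} [Fact ℓ.Prime] (hA : A.LiesOverPrime ℓ)
    (hℓM : ¬ ℓ ∣ M)
    (hj : jqModC (AlgebraicClosure ℚ) ∈ F1 M)
    (hjb : jqModC (Fermat.Agent.P2.helper81.kA A) ∈ Fermat.Agent.T4.helper4.F1b A M) :
    Fermat.Agent.T4.helper4.IntegralityStatement A (F1 M) (Fermat.Agent.T4.helper4.F1b A M) :=
  (cusp1 hM hA hℓM hj hjb).2.2.2

end Fermat.Agent.T4.helper32.Conj1
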