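import Mathlib.LinearAlgebra.Matrix.Charpoly.Coeff
import Mathlib.LinearAlgebra.Matrix.NonsingularInverse
import Mathlib.RingTheory.LocalRing.ResidueField.Basic
import Mathlib.RingTheory.Coprime.Lemmas
import Mathlib.Data.Matrix.PEquiv
import Mathlib.Tactic

/-!
# T4 block (IV), leaf [IV-LIFT] (helper3), part 1: lifting representations over a local ring in
which monic polynomials split

`R` is a local ring with residue field `κ` such that every monic polynomial over `R` is a
product of linear factors (for example a valuation ring with algebraically closed fraction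
field).  `G` is a finite group whose order is invertible in `κ`.

* `exists_idem_lift` : an idempotent matrix over `κ` with a lift `e₀` over `R` has an idempotent
  lift which is a polynomial in `e₀` (Cayley-Hamilton + splitting of the characteristic
  polynomial into the coprime factors of the roots in `𝔪` and of the unit roots).
* `exists_lift_of_split` : every `ρ : G →* Matrix ι ι κ` is the reduction of some
  `r : G →* Matrix ι ι R` (any dimension).

Pure matrix calculus on `κ ^ (G × ι)`: with `s[(h,i), j] = |G|⁻¹ ρ(h⁻¹)[i,j]` and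
`π[j, (h,i)] = ρ(h)[j,i]` one has `π s = 1`, `L_g s = s ρ(g)` for the translation matrices `L_g`,
and `s π` is an idempotent commuting with the `L_g`, with a lift commuting with the `L_g`.
-/

set_option autoImplicit false
set_option linter.unusedSectionVars false

open Polynomial Matrix

namespace Fermat.Agent.T4.helper3

section Poly

/-- evaluation of a polynomial at an idempotent -/
theorem aeval_idem {K A : Type*} [CommRing K] [Ring A] [Algebra K A] {x : A} (hx : x * x = x)
    (g : K[X]) : aeval x g = (g.eval 0) • (1 - x) + (g.eval 1) • x := by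
  have hpow : ∀ n : ℕ, x ^ (n + 1) = x := by
    intro n
    induction n with
    | zero => rw [zero_add, pow_one]
    | succ n ih => rw [pow_succ, ih, hx]
  induction g using Polynomial.induction_on' with
  | add p q hp hq =>
    rw [map_add, hp, hq, eval_add, eval_add, add_smul, add_smul]
    abel
  | monomial n a =>
    rw [aeval_monomial, eval_monomial, eval_monomial, one_pow, mul_one]
    cases n with
    | zero =>
      rw [pow_zero, pow_zero, mul_one, mul_one, Algebra.algebraMap_eq_smul_one, smul_sub,
        sub_add_cancel]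
    | succ n =>
      rw [hpow, zero_pow (Nat.succ_ne_zero n), mul_zero, zero_smul, zero_add,
        Algebra.algebraMap_eq_smul_one, smul_mul_assoc, one_mul]

/-- a product is coprime to `x` if all factors are -/
theorem isCoprime_multiset_prod_left {R : Type*} [CommRing R] {s : Multiset R} {x : R}
    (h : ∀ a ∈ s, IsCoprime a x) : IsCoprime s.prod x := by
  induction s using Multiset.induction_on with
  | empty => simpa using isCoprime_one_left
  | cons a s ih =>
    rw [Multiset.prod_cons]
    exact IsCoprime.mul_left (h a (Multiset.mem_cons_self a s))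
      (ih fun b hb => h b (Multiset.mem_cons_of_mem hb))

theorem isCoprime_multiset_prod {R : Type*} [CommRing R] {s t : Multiset R}
    (h : ∀ a ∈ s, ∀ b ∈ t, IsCoprime a b) : IsCoprime s.prod t.prod :=
  isCoprime_multiset_prod_left fun a ha =>
    (isCoprime_multiset_prod_left fun b hb => (h a ha b hb).symm).symm

/-- polynomials in `x` commute with everything commuting with `x` -/
theorem commute_aeval {K A : Type*} [CommRing K] [Ring A] [Algebra K A] {x y : A}
    (h : Commute y x) (g : K[X]) : Commute y (aeval x g) := by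
  induction g using Polynomial.induction_on' with
  | add p q hp hq => rw [map_add]; exact hp.add_right hq
  | monomial n a =>
    rw [aeval_monomial]
    exact (Algebra.commute_algebraMap_right a y).mul_right (h.pow_right n)

/-- `aeval` at a matrix and entrywise ring homomorphisms -/
theorem map_aeval_matrix {R S n : Type*} [CommRing R] [CommRing S] [Fintype n] [DecidableEq n]
    (φ : R →+* S) (M : Matrix n n R) (g : R[X]) :
    (aeval M g).map φ = aeval (M.map φ) (g.map φ) := by
  induction g using Polynomial.induction_on' with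
  | add p q hp hq =>
    rw [map_add, Polynomial.map_add, map_add, ← hp, ← hq, Matrix.map_add]
    · intro a b; exact map_add φ a b
  | monomial k a =>
    rw [aeval_monomial, Polynomial.map_monomial, aeval_monomial]
    have h1 : ∀ N : Matrix n n R, N.map φ = RingHom.mapMatrix φ N := fun N => rfl
    rw [h1, map_mul, map_pow, ← h1, ← h1]
    congr 1
    ext i j
    simp [Matrix.algebraMap_matrix_apply, apply_ite φ]

end Poly

section Idem

variable {R : Type*} [CommRing R] [IsLocalRing R]
variable {n : Type*} [Fintype n] [DecidableEq n]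

local notation "κ" => IsLocalRing.ResidueField R
local notation "res" => IsLocalRing.residue R

/-- **Lifting idempotents** of matrix algebras over a local ring in which monic polynomials split:
a lift `e₀` of an idempotent matrix over the residue field can be corrected, by a polynomial
in `e₀`, to an idempotent lift. -/
theorem exists_idem_lift
    (hsplit : ∀ P : R[X], P.Monic → ∃ M : Multiset R, P = (M.map fun a => X - C a).prod)
    (e₀ : Matrix n n R) (hidem : e₀.map res * e₀.map res = e₀.map res) :
    ∃ q : R[X], aeval e₀ q * aeval e₀ q = aeval e₀ q ∧ (aeval e₀ q).map res = e₀.map res := by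
  classical
  set ebar : Matrix n n κ := e₀.map res with hebar
  obtain ⟨M, hM⟩ := hsplit e₀.charpoly (Matrix.charpoly_monic e₀)
  set M0 : Multiset R := M.filter (fun a => a ∈ IsLocalRing.maximalIdeal R) with hM0
  set M1 : Multiset R := M.filter (fun a => ¬ a ∈ IsLocalRing.maximalIdeal R) with hM1
  set P0 : R[X] := (M0.map fun a => X - C a).prod with hP0
  set P1 : R[X] := (M1.map fun a => X - C a).prod with hP1
  have hP : e₀.charpoly = P0 * P1 := by
    rw [hM, hP0, hP1, ← Multiset.prod_add, ← Multiset.map_add, hM0, hM1,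
      Multiset.filter_add_not]
  -- coprimality
  have hcop : IsCoprime P0 P1 := by
    refine isCoprime_multiset_prod ?_
    intro x hx y hy
    obtain ⟨a, ha, rfl⟩ := Multiset.mem_map.mp hx
    obtain ⟨b, hb, rfl⟩ := Multiset.mem_map.mp hy
    have ha' : a ∈ IsLocalRing.maximalIdeal R := (Multiset.mem_filter.mp ha).2
    have hb' : ¬ b ∈ IsLocalRing.maximalIdeal R := (Multiset.mem_filter.mp hb).2
    have hu : IsUnit (b - a) := by
      by_contra h
      have h1 : b - a ∈ IsLocalRing.maximalIdeal R := (IsLocalRing.mem_maximalIdeal _).mpr h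
      have := (IsLocalRing.maximalIdeal R).add_mem h1 ha'
      rw [sub_add_cancel] at this
      exact hb' this
    obtain ⟨w, hw⟩ := hu.exists_left_inv
    refine ⟨C w, - C w, ?_⟩
    have : C w * (X - C a) + - C w * (X - C b) = C (w * (b - a)) := by
      rw [map_mul, map_sub]; ring
    rw [this, hw, map_one]
  obtain ⟨u, v, huv⟩ := hcop
  refine ⟨u * P0, ?_, ?_⟩
  · -- idempotent
    have h1 : aeval e₀ (u * P0) + aeval e₀ (v * P1) = 1 := by
      rw [← map_add, huv, map_one]
    have h2 : aeval e₀ (u * P0) * aeval e₀ (v * P1) = 0 := by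
      rw [← map_mul]
      have : u * P0 * (v * P1) = u * v * e₀.charpoly := by rw [hP]; ring
      rw [this, map_mul, Matrix.aeval_self_charpoly, mul_zero]
    have h3 : aeval e₀ (v * P1) = 1 - aeval e₀ (u * P0) := eq_sub_of_add_eq' h1
    rw [h3, mul_sub, mul_one, sub_eq_zero] at h2
    exact h2.symm
  · -- reduction
    rw [map_aeval_matrix, aeval_idem hidem]
    -- Cayley-Hamilton over the residue field
    have hCH : aeval ebar ((P0 * P1).map res) = 0 := by
      rw [← hP, ← Matrix.charpoly_map]
      exact Matrix.aeval_self_charpoly _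
    rw [aeval_idem hidem] at hCH
    have hbar0 : ebar * (1 - ebar) = 0 := by rw [mul_sub, mul_one, hidem, sub_self]
    have hbar1 : (1 - ebar) * (1 - ebar) = 1 - ebar := by
      rw [mul_sub, mul_one, sub_mul, one_mul, hidem, sub_self, sub_zero]
    have hbar2 : (1 - ebar) * ebar = 0 := by rw [sub_mul, one_mul, hidem, sub_self]
    -- the two consequences
    have hA : (((P0 * P1).map res).eval 1) • ebar = 0 := by
      have := congrArg (fun N => N * ebar) hCH
      simp only [add_mul, smul_mul_assoc, hbar2, smul_zero, zero_add, hidem, zero_mul] at this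
      exact this
    have hB : (((P0 * P1).map res).eval 0) • (1 - ebar) = 0 := by
      have := congrArg (fun N => N * (1 - ebar)) hCH
      simp only [add_mul, smul_mul_assoc, hbar1, hbar0, smul_zero, add_zero, zero_mul] at this
      exact this
    -- values of the factors
    have hP0one : (P0.map res).eval 1 = 1 := by
      rw [hP0, Polynomial.map_multiset_prod, Polynomial.eval_multiset_prod, Multiset.map_map,
        Multiset.map_map]
      refine Multiset.prod_eq_one fun x hx => ?_
      obtain ⟨a, ha, rfl⟩ := Multiset.mem_map.mp hx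
      have ha' : a ∈ IsLocalRing.maximalIdeal R := (Multiset.mem_filter.mp ha).2
      have : res a = 0 := (IsLocalRing.residue_eq_zero_iff a).mpr ha'
      simp [this]
    have hP1zero : (P1.map res).eval 0 ≠ 0 := by
      rw [hP1, Polynomial.map_multiset_prod, Polynomial.eval_multiset_prod, Multiset.map_map,
        Multiset.map_map]
      refine Multiset.prod_ne_zero ?_
      intro h0
      obtain ⟨b, hb, hb0⟩ := Multiset.mem_map.mp h0
      have hb' : ¬ b ∈ IsLocalRing.maximalIdeal R := (Multiset.mem_filter.mp hb).2
      apply hb'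
      rw [← IsLocalRing.residue_eq_zero_iff]
      simpa using hb0
    have hA' : ((P1.map res).eval 1) • ebar = 0 := by
      rw [Polynomial.map_mul, eval_mul, hP0one, one_mul] at hA
      exact hA
    have hB' : ((P0.map res).eval 0) • (1 - ebar) = 0 := by
      rw [Polynomial.map_mul, eval_mul, mul_comm, mul_smul] at hB
      have := congrArg (fun N => ((P1.map res).eval 0)⁻¹ • N) hB
      simp only [smul_zero] at this
      rwa [smul_smul, inv_mul_cancel₀ hP1zero, one_smul] at this
    have huv' : (u.map res) * (P0.map res) + (v.map res) * (P1.map res) = 1 := by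
      rw [← Polynomial.map_mul, ← Polynomial.map_mul, ← Polynomial.map_add, huv,
        Polynomial.map_one]
    have h1 : ((u * P0).map res).eval 1 = 1 - (v.map res).eval 1 * (P1.map res).eval 1 := by
      have := congrArg (Polynomial.eval 1) huv'
      simp only [eval_add, eval_mul, eval_one] at this
      rw [Polynomial.map_mul, eval_mul]
      linear_combination this
    rw [h1, Polynomial.map_mul, eval_mul, mul_smul, hB', smul_zero, zero_add, sub_smul, one_smul,
      mul_smul, hA', smul_zero, sub_zero]

end Idem

section Group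

variable {R : Type*} [CommRing R] [IsLocalRing R]
variable {G : Type*} [Group G] [Fintype G] [DecidableEq G]
variable {ι : Type*} [Fintype ι] [DecidableEq ι]

local notation "κ" => IsLocalRing.ResidueField R
local notation "res" => IsLocalRing.residue R

/-- translation by `g⁻¹` on the first coordinate -/
def shiftEquiv (g : G) : G × ι ≃ G × ι := (Equiv.mulLeft g⁻¹).prodCongr (Equiv.refl ι)

@[simp]
theorem shiftEquiv_apply (g h : G) (i : ι) : shiftEquiv g (h, i) = (g⁻¹ * h, i) := rfl

@[simp]
theorem shiftEquiv_symm_apply (g h : G) (i : ι) :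
    (shiftEquiv (ι := ι) g).symm (h, i) = (g * h, i) := by
  rw [Equiv.symm_apply_eq, shiftEquiv_apply, inv_mul_cancel_left]

/-- the translation matrices -/
def shiftMat (A : Type*) [CommRing A] (g : G) : Matrix (G × ι) (G × ι) A :=
  (shiftEquiv g).toPEquiv.toMatrix

theorem shiftMat_one (A : Type*) [CommRing A] : shiftMat (ι := ι) A (1 : G) = 1 := by
  have : shiftEquiv (ι := ι) (1 : G) = Equiv.refl _ := by
    ext ⟨h, i⟩ <;> simp
  rw [shiftMat, this, Equiv.toPEquiv_refl, PEquiv.toMatrix_refl]

theorem shiftMat_mul (A : Type*) [CommRing A] (g h : G) :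
    shiftMat (ι := ι) A (g * h) = shiftMat A g * shiftMat A h := by
  have : shiftEquiv (ι := ι) (g * h) = (shiftEquiv g).trans (shiftEquiv h) := by
    ext ⟨k, i⟩ <;> simp [mul_assoc]
  rw [shiftMat, this, Equiv.toPEquiv_trans, PEquiv.toMatrix_trans]
  rfl

theorem shiftMat_mul_apply {A : Type*} [CommRing A] {m : Type*} (g : G)
    (M : Matrix (G × ι) m A) (h : G) (i : ι) (y : m) :
    ((shiftMat (ι := ι) A g * M : Matrix (G × ι) m A)) (h, i) y = M (g⁻¹ * h, i) y := by
  unfold shiftMat
  rw [PEquiv.toMatrix_toPEquiv_mul]
  rfl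

theorem mul_shiftMat_apply {A : Type*} [CommRing A] {m : Type*} [Fintype m] (g : G)
    (M : Matrix m (G × ι) A) (x : m) (h : G) (i : ι) :
    ((M * shiftMat (ι := ι) A g : Matrix m (G × ι) A)) x (h, i) = M x (g * h, i) := by
  unfold shiftMat
  rw [PEquiv.mul_toMatrix_toPEquiv, Matrix.submatrix_apply, shiftEquiv_symm_apply]
  rfl

theorem shiftMat_map {A B : Type*} [CommRing A] [CommRing B] (φ : A →+* B) (g : G) :
    (shiftMat (ι := ι) A g).map φ = shiftMat B g := by
  ext x y
  simp only [shiftMat, Matrix.map_apply, PEquiv.toMatrix_apply]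
  split_ifs <;> simp

/-- a matrix over a local ring whose reduction is `1` is invertible -/
theorem exists_inv_of_map_eq_one {m : Type*} [Fintype m] [DecidableEq m] (U : Matrix m m R)
    (hU : U.map res = 1) : ∃ U' : Matrix m m R, U' * U = 1 ∧ U * U' = 1 ∧ U'.map res = 1 := by
  have hdet : IsUnit U.det := by
    rw [← IsLocalRing.residue_ne_zero_iff_isUnit]
    have : res U.det = (U.map res).det := by
      rw [RingHom.map_det]; rfl
    rw [this, hU, Matrix.det_one]
    exact one_ne_zero
  have h1 : U⁻¹ * U = 1 := Matrix.nonsing_inv_mul U hdet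
  have h2 : U * U⁻¹ = 1 := Matrix.mul_nonsing_inv U hdet
  refine ⟨U⁻¹, h1, h2, ?_⟩
  have h3 : (U⁻¹ * U).map res = (1 : Matrix m m R).map res := by rw [h1]
  rw [Matrix.map_mul, hU, mul_one] at h3
  rw [h3]
  ext i j
  simp [Matrix.one_apply, apply_ite]

/-- **Lifting representations of finite groups of invertible order** over a local ring in which
monic polynomials split (matrix form). -/
theorem exists_lift_of_split
    (hsplit : ∀ P : R[X], P.Monic → ∃ M : Multiset R, P = (M.map fun a => X - C a).prod)
    (ρ : G →* Matrix ι ι κ) (hcard : ((Fintype.card G : ℕ) : κ) ≠ 0) :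
    ∃ r : G →* Matrix ι ι R, ∀ g : G, (r g).map res = ρ g := by
  classical
  -- the inverse of `|G|`
  have hunit : IsUnit ((Fintype.card G : ℕ) : R) := by
    rw [← IsLocalRing.residue_ne_zero_iff_isUnit, map_natCast]
    exact hcard
  obtain ⟨c, hc⟩ := hunit.exists_left_inv
  have hcbar : res c * ((Fintype.card G : ℕ) : κ) = 1 := by
    have := congrArg res hc
    rwa [map_mul, map_natCast, map_one] at this
  -- a section of the residue map
  have hsurj : Function.Surjective res := IsLocalRing.residue_surjective
  let lam : κ → R := fun y => (hsurj y).choose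
  have hlam : ∀ y : κ, res (lam y) = y := fun y => (hsurj y).choose_spec
  -- the matrices over the residue field
  let sbar : Matrix (G × ι) ι κ := fun x j => res c * ρ x.1⁻¹ x.2 j
  let pibar : Matrix ι (G × ι) κ := fun j x => ρ x.1 j x.2
  have hps : pibar * sbar = 1 := by
    ext j j'
    rw [Matrix.mul_apply, Fintype.sum_prod_type]
    have h1 : ∀ h : G, ∑ i : ι, pibar j (h, i) * sbar (h, i) j' =
        res c * (1 : Matrix ι ι κ) j j' := by
      intro h
      have : (1 : Matrix ι ι κ) = ρ h * ρ h⁻¹ := by
        rw [← map_mul, mul_inv_cancel, map_one]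
      rw [this, Matrix.mul_apply, Finset.mul_sum]
      refine Finset.sum_congr rfl fun i _ => ?_
      show ρ h j i * (res c * ρ h⁻¹ i j') = res c * (ρ h j i * ρ h⁻¹ i j')
      ring
    rw [Finset.sum_congr rfl fun h _ => h1 h, Finset.sum_const, Finset.card_univ, nsmul_eq_mul,
      ← mul_assoc, mul_comm _ (res c), hcbar, one_mul]
  have hLs : ∀ g : G, shiftMat κ g * sbar = sbar * ρ g := by
    intro g
    ext ⟨h, i⟩ j
    rw [shiftMat_mul_apply, Matrix.mul_apply]
    show res c * ρ (g⁻¹ * h)⁻¹ i j = ∑ k, res c * ρ h⁻¹ i k * ρ g k j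
    rw [_root_.mul_inv_rev, inv_inv, map_mul, Matrix.mul_apply, Finset.mul_sum]
    exact Finset.sum_congr rfl fun k _ => by ring
  -- lifts
  let S : Matrix (G × ι) ι R := fun x j => lam (sbar x j)
  let Pi : Matrix ι (G × ι) R := fun j x => lam (pibar j x)
  let e₀ : Matrix (G × ι) (G × ι) R := fun x y => lam (res c * ρ (x.1⁻¹ * y.1) x.2 y.2)
  have hS : S.map res = sbar := by
    ext x j; exact hlam _
  have hPi : Pi.map res = pibar := by
    ext j x; exact hlam _
  have he₀ : e₀.map res = sbar * pibar := by
    ext ⟨h, i⟩ ⟨h', i'⟩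
    rw [Matrix.map_apply, Matrix.mul_apply]
    show res (lam (res c * ρ (h⁻¹ * h') i i')) = ∑ k, res c * ρ h⁻¹ i k * ρ h' k i'
    rw [hlam, map_mul, Matrix.mul_apply, Finset.mul_sum]
    exact Finset.sum_congr rfl fun k _ => by ring
  have hidem : e₀.map res * e₀.map res = e₀.map res := by
    rw [he₀, Matrix.mul_assoc, ← Matrix.mul_assoc pibar, hps, Matrix.one_mul]
  have hcomm₀ : ∀ g : G, Commute (shiftMat (ι := ι) R g) e₀ := by
    intro g
    show shiftMat R g * e₀ = e₀ * shiftMat R g
    ext ⟨h, i⟩ ⟨h', i'⟩
    rw [shiftMat_mul_apply, mul_shiftMat_apply]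
    show lam (res c * ρ ((g⁻¹ * h)⁻¹ * h') i i') = lam (res c * ρ (h⁻¹ * (g * h')) i i')
    rw [_root_.mul_inv_rev, inv_inv, mul_assoc]
  -- the idempotent
  obtain ⟨q, hq1, hq2⟩ := exists_idem_lift hsplit e₀ hidem
  set e : Matrix (G × ι) (G × ι) R := aeval e₀ q with he
  have hcomm : ∀ g : G, shiftMat (ι := ι) R g * e = e * shiftMat R g := fun g =>
    commute_aeval (hcomm₀ g) q
  have hebar : e.map res = sbar * pibar := by rw [hq2, he₀]
  -- the rank factorisation
  have hfac : ∃ (i0 : Matrix (G × ι) ι R) (p : Matrix ι (G × ι) R), p * i0 = 1 ∧ i0 * p = e ∧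
      i0.map res = sbar ∧ p.map res = pibar := by
    set i0 : Matrix (G × ι) ι R := e * S with hi0
    set p0 : Matrix ι (G × ι) R := Pi * e with hp0
    have hi0bar : i0.map res = sbar := by
      rw [hi0, Matrix.map_mul, hebar, hS, Matrix.mul_assoc, hps, Matrix.mul_one]
    have hp0bar : p0.map res = pibar := by
      rw [hp0, Matrix.map_mul, hebar, hPi, ← Matrix.mul_assoc, hps, Matrix.one_mul]
    have hU : (p0 * i0).map res = 1 := by
      rw [Matrix.map_mul, hi0bar, hp0bar, hps]
    obtain ⟨U', hU1, hU2, hU3⟩ := exists_inv_of_map_eq_one (p0 * i0) hU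
    have hpi : U' * p0 * i0 = 1 := by rw [Matrix.mul_assoc, hU1]
    have hpbar : (U' * p0).map res = pibar := by
      rw [Matrix.map_mul, hU3, hp0bar, Matrix.one_mul]
    have hei0 : e * i0 = i0 := by rw [hi0, ← Matrix.mul_assoc, hq1]
    have hp0e : p0 * e = p0 := by rw [hp0, Matrix.mul_assoc, hq1]
    have hpe : U' * p0 * e = U' * p0 := by rw [Matrix.mul_assoc, hp0e]
    refine ⟨i0, U' * p0, hpi, ?_, hi0bar, hpbar⟩
    generalize U' * p0 = p at hpi hpbar hpe
    -- `i0 * p = e`
    have hxx : (e - i0 * p) * (e - i0 * p) = e - i0 * p := by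
      have h1 : e * (i0 * p) = i0 * p := by rw [← Matrix.mul_assoc, hei0]
      have h2 : i0 * p * e = i0 * p := by rw [Matrix.mul_assoc, hpe]
      have h3 : i0 * p * (i0 * p) = i0 * p := by
        rw [Matrix.mul_assoc, ← Matrix.mul_assoc p, hpi, Matrix.one_mul]
      rw [sub_mul, mul_sub, mul_sub, hq1, h1, h2, h3]
      abel
    have hxbar : (1 - (e - i0 * p)).map res = 1 := by
      have h1 : (e - i0 * p).map res = 0 := by
        rw [Matrix.map_sub (f := res) (fun a b => map_sub res a b), Matrix.map_mul, hebar,
          hi0bar, hpbar, sub_self]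
      rw [Matrix.map_sub (f := res) (fun a b => map_sub res a b), h1, sub_zero]
      ext a b
      simp [Matrix.one_apply, apply_ite]
    obtain ⟨Y, -, hY, -⟩ := exists_inv_of_map_eq_one (1 - (e - i0 * p)) hxbar
    have hx0 : e - i0 * p = 0 := by
      have h1 : (e - i0 * p) * (1 - (e - i0 * p)) = 0 := by
        rw [mul_sub, mul_one, hxx, sub_self]
      calc e - i0 * p = (e - i0 * p) * ((1 - (e - i0 * p)) * Y) := by rw [hY, mul_one]
        _ = (e - i0 * p) * (1 - (e - i0 * p)) * Y := (Matrix.mul_assoc _ _ _).symm
        _ = 0 := by rw [h1, Matrix.zero_mul]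
    rw [sub_eq_zero] at hx0
    exact hx0.symm
  obtain ⟨i0, p, hpi, hip, hi0bar, hpbar⟩ := hfac
  have hei0 : e * i0 = i0 := by rw [← hip, Matrix.mul_assoc, hpi, Matrix.mul_one]
  -- the representation
  let rfun : G → Matrix ι ι R := fun g => p * (shiftMat (ι := ι) R g * i0)
  have hr1 : rfun 1 = 1 := by
    show p * (shiftMat (ι := ι) R 1 * i0) = 1
    rw [shiftMat_one, Matrix.one_mul, hpi]
  have hrmul : ∀ g h : G, rfun (g * h) = rfun g * rfun h := by
    intro g h
    show p * (shiftMat (ι := ι) R (g * h) * i0) =
      p * (shiftMat (ι := ι) R g * i0) * (p * (shiftMat (ι := ι) R h * i0))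
    have h1 : i0 * (p * (shiftMat (ι := ι) R h * i0)) = shiftMat (ι := ι) R h * i0 := by
      rw [← Matrix.mul_assoc, hip, ← Matrix.mul_assoc, ← hcomm h, Matrix.mul_assoc, hei0]
    rw [Matrix.mul_assoc p, Matrix.mul_assoc (shiftMat (ι := ι) R g), h1, shiftMat_mul,
      Matrix.mul_assoc]
  refine ⟨{ toFun := rfun, map_one' := hr1, map_mul' := hrmul }, fun g => ?_⟩
  show (p * (shiftMat (ι := ι) R g * i0)).map res = ρ g
  rw [Matrix.map_mul, Matrix.map_mul, hpbar, hi0bar, shiftMat_map, hLs, ← Matrix.mul_assoc, hps,
    Matrix.one_mul]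

end Group

end Fermat.Agent.T4.helper3
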