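import Mathlib
import Fermat.Agent.T4.helper80_EndgameDefs
import Fermat.Agent.T4.helper3_LiftCore

/-!
# T4 block (IV), leaf [IV-LIFT] (helper3, task 984): `helper80.LiftStatement`

A representation with finite image of order prime to the residue characteristic, over the
residue field of a valuation subring `V` of `ℂ`, is the reduction of a representation over `V`.

* `valuationSubring_split` : monic polynomials over a valuation subring of an algebraically
  closed field are products of linear factors;
* `exists_lift_valuationSubring` : `ρ : G →* Matrix ι ι κ_V`, `G` finite of order invertible in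
  `κ_V`, lifts to `G →* Matrix ι ι V` (any dimension);
* `lift : helper80.LiftStatement`.
-/

set_option autoImplicit false
set_option linter.unusedSectionVars false
set_option linter.style.haveILetI false

open Polynomial

namespace Fermat.Agent.T4.helper3

/-- Monic polynomials over a valuation subring of an algebraically closed field split into
linear factors over the valuation subring. -/
theorem valuationSubring_split {K : Type*} [Field K] [IsAlgClosed K] (V : ValuationSubring K)
    (P : (↥V)[X]) (hP : P.Monic) :
    ∃ M : Multiset V, P = (M.map fun a => X - C a).prod := by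
  classical
  have hPK : (P.map (algebraMap V K)).Monic := hP.map _
  have hsp := (IsAlgClosed.splits (P.map (algebraMap V K))).eq_prod_roots_of_monic hPK
  have hmem : ∀ z ∈ (P.map (algebraMap V K)).roots, z ∈ V := by
    intro z hz
    have hroot : (P.map (algebraMap V K)).IsRoot z := (Polynomial.mem_roots'.mp hz).2
    have hint : IsIntegral V z := by
      refine ⟨P, hP, ?_⟩
      rw [← Polynomial.eval_map]
      exact hroot
    obtain ⟨y, hy⟩ := IsIntegrallyClosed.isIntegral_iff.mp hint
    rw [← hy]
    exact y.2
  refine ⟨(P.map (algebraMap V K)).roots.pmap (fun z hz => (⟨z, hz⟩ : V)) hmem, ?_⟩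
  apply Polynomial.map_injective (algebraMap V K) (FaithfulSMul.algebraMap_injective V K)
  rw [Polynomial.map_multiset_prod, Multiset.map_map, Multiset.map_pmap]
  conv_lhs => rw [hsp]
  congr 1
  rw [← Multiset.pmap_eq_map (fun z => z ∈ V) (fun x : K => X - C x) _ hmem]
  refine Multiset.pmap_congr _ fun z _ _ _ => ?_
  simp only [Function.comp_apply, Polynomial.map_sub, Polynomial.map_X, Polynomial.map_C]
  rfl

/-- **Lifting over a valuation subring of an algebraically closed field**, any dimension. -/
theorem exists_lift_valuationSubring {K : Type*} [Field K] [IsAlgClosed K]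
    (V : ValuationSubring K) {G : Type*} [Group G] [Fintype G] {ι : Type*} [Fintype ι]
    [DecidableEq ι] (ρ : G →* Matrix ι ι (IsLocalRing.ResidueField V))
    (hcard : ((Fintype.card G : ℕ) : IsLocalRing.ResidueField V) ≠ 0) :
    ∃ r : G →* Matrix ι ι V, ∀ g : G, (r g).map (IsLocalRing.residue V) = ρ g := by
  classical
  exact exists_lift_of_split (valuationSubring_split V) ρ hcard

/-- **[IV-LIFT]** -/
theorem lift : helper80.LiftStatement := by
  classical
  intro V Γ _ ρ hfin hcard
  haveI : Finite ρ.range := hfin
  letI : Fintype ρ.range := Fintype.ofFinite _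
  -- the representation of the image
  let ρ0 : ρ.range →* Matrix (Fin 2) (Fin 2) (IsLocalRing.ResidueField V) :=
    (Units.coeHom _).comp ρ.range.subtype
  have hcard' : ((Fintype.card ρ.range : ℕ) : IsLocalRing.ResidueField V) ≠ 0 := by
    rw [← Nat.card_eq_fintype_card]
    exact hcard
  obtain ⟨r0, hr0⟩ := exists_lift_valuationSubring V ρ0 hcard'
  -- the complex representation
  let f : Γ →* Matrix (Fin 2) (Fin 2) ℂ :=
    ((RingHom.mapMatrix (algebraMap V ℂ)).toMonoidHom.comp r0).comp ρ.rangeRestrict
  refine ⟨f.toHomUnits, ?_, ?_⟩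
  · intro γ hγ
    rw [MonoidHom.mem_ker] at hγ ⊢
    have h1 : ρ.rangeRestrict γ = 1 := Subtype.ext hγ
    apply Units.ext
    rw [MonoidHom.coe_toHomUnits]
    show RingHom.mapMatrix (algebraMap V ℂ) (r0 (ρ.rangeRestrict γ)) = 1
    rw [h1, map_one, map_one]
  · intro γ
    have hred : (r0 (ρ.rangeRestrict γ)).map (IsLocalRing.residue V) =
        ((ρ γ : GL (Fin 2) (IsLocalRing.ResidueField V)) :
          Matrix (Fin 2) (Fin 2) (IsLocalRing.ResidueField V)) := hr0 (ρ.rangeRestrict γ)
    have hval : ((f.toHomUnits γ : GL (Fin 2) ℂ) : Matrix (Fin 2) (Fin 2) ℂ) =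
        (r0 (ρ.rangeRestrict γ)).map (algebraMap V ℂ) := rfl
    have htr : ∀ {S : Type} [CommRing S] (φ : V →+* S) (A : Matrix (Fin 2) (Fin 2) V),
        φ A.trace = (A.map φ).trace := fun φ A => AddMonoidHom.map_trace φ.toAddMonoidHom A
    have hdet : ∀ {S : Type} [CommRing S] (φ : V →+* S) (A : Matrix (Fin 2) (Fin 2) V),
        φ A.det = (A.map φ).det := fun φ A => RingHom.map_det φ A
    refine ⟨(r0 (ρ.rangeRestrict γ)).trace, (r0 (ρ.rangeRestrict γ)).det, ?_, ?_, ?_, ?_⟩
    · rw [hval]
      exact htr (algebraMap V ℂ) (r0 (ρ.rangeRestrict γ))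
    · rw [hval]
      exact hdet (algebraMap V ℂ) (r0 (ρ.rangeRestrict γ))
    · rw [← hred]
      exact htr (IsLocalRing.residue V) (r0 (ρ.rangeRestrict γ))
    · rw [← hred]
      exact hdet (IsLocalRing.residue V) (r0 (ρ.rangeRestrict γ))

end Fermat.Agent.T4.helper3
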