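import Fermat.Agent.T4.helper80_EndgameDefs

/-!
# T4 block (IV), leaf [IV-IRR], analytic part (helper64)

Bookkeeping with Dirichlet masses: a finite family of sets of primes `X v` on which
`‖a p‖ ^ 2 = v` bounds the Rankin sum from below by `∑ v, v * primeMass (X v) s` up to a
constant; `log (1 / (s - 1))` is unbounded near `1`; finite image of a finite-level
representation.
-/

set_option autoImplicit false

namespace Fermat.Agent.T4.helper64

open Fermat.Agent.T4.helper80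

theorem summable_rpow_neg {s : ℝ} (hs : 1 < s) : Summable (fun p : ℕ => (p : ℝ) ^ (-s)) :=
  Real.summable_nat_rpow.mpr (by linarith)

theorem summable_indicator_rpow (S : Set ℕ) {s : ℝ} (hs : 1 < s) :
    Summable (Set.indicator S (fun p : ℕ => (p : ℝ) ^ (-s))) :=
  (summable_rpow_neg hs).indicator S

theorem rpow_neg_nonneg (p : ℕ) (s : ℝ) : 0 ≤ (p : ℝ) ^ (-s) :=
  Real.rpow_nonneg (Nat.cast_nonneg p) _

/-- The Dirichlet mass of the part of `X` prime to `N`. -/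
noncomputable def primeMassOff (N : ℕ) (X : Set ℕ) (s : ℝ) : ℝ :=
  ∑' p : ℕ, Set.indicator {p : ℕ | p.Prime ∧ p ∈ X ∧ ¬ p ∣ N} (fun p : ℕ => (p : ℝ) ^ (-s)) p

theorem primeMass_le_add (X : Set ℕ) {N : ℕ} (hN : N ≠ 0) {s : ℝ} (hs : 1 < s) :
    primeMass X s ≤ primeMassOff N X s + ((N : ℝ) + 1) := by
  have h3 : ∀ b ∉ Finset.range (N + 1),
      Set.indicator (↑(Finset.range (N + 1)) : Set ℕ) (fun _ : ℕ => (1 : ℝ)) b = 0 := by
    intro b hb
    exact Set.indicator_of_notMem (by simpa using hb) _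
  have hs3 : Summable (Set.indicator (↑(Finset.range (N + 1)) : Set ℕ) (fun _ : ℕ => (1 : ℝ))) :=
    summable_of_ne_finset_zero h3
  have ht3 : ∑' p : ℕ, Set.indicator (↑(Finset.range (N + 1)) : Set ℕ)
      (fun _ : ℕ => (1 : ℝ)) p = (N : ℝ) + 1 := by
    rw [tsum_eq_sum h3]
    rw [Finset.sum_congr rfl (fun b hb => Set.indicator_of_mem (Finset.mem_coe.mpr hb) _)]
    simp
  unfold primeMass primeMassOff
  rw [← ht3, ← Summable.tsum_add (summable_indicator_rpow _ hs) hs3]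
  refine Summable.tsum_le_tsum (fun p => ?_) (summable_indicator_rpow _ hs)
    ((summable_indicator_rpow _ hs).add hs3)
  by_cases h1 : p.Prime ∧ p ∈ X
  · by_cases h2 : p ∣ N
    · have hle : p ≤ N := Nat.le_of_dvd (Nat.pos_of_ne_zero hN) h2
      have hmem : p ∈ (↑(Finset.range (N + 1)) : Set ℕ) := by
        simp only [Finset.coe_range, Set.mem_Iio]
        omega
      rw [Set.indicator_of_mem (show p ∈ {p : ℕ | p.Prime ∧ p ∈ X} from h1),
        Set.indicator_of_notMem (show p ∉ {p : ℕ | p.Prime ∧ p ∈ X ∧ ¬ p ∣ N} from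
          fun h => h.2.2 h2), Set.indicator_of_mem hmem, zero_add]
      refine Real.rpow_le_one_of_one_le_of_nonpos ?_ (by linarith)
      exact_mod_cast h1.1.one_lt.le
    · rw [Set.indicator_of_mem (show p ∈ {p : ℕ | p.Prime ∧ p ∈ X} from h1),
        Set.indicator_of_mem (show p ∈ {p : ℕ | p.Prime ∧ p ∈ X ∧ ¬ p ∣ N} from
          ⟨h1.1, h1.2, h2⟩)]
      have : 0 ≤ Set.indicator (↑(Finset.range (N + 1)) : Set ℕ) (fun _ : ℕ => (1 : ℝ)) p :=
        Set.indicator_nonneg (fun _ _ => zero_le_one) p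
      linarith
  · rw [Set.indicator_of_notMem (show p ∉ {p : ℕ | p.Prime ∧ p ∈ X} from h1)]
    have h4 : 0 ≤ Set.indicator {p : ℕ | p.Prime ∧ p ∈ X ∧ ¬ p ∣ N}
        (fun p : ℕ => (p : ℝ) ^ (-s)) p :=
      Set.indicator_nonneg (fun q _ => rpow_neg_nonneg q s) p
    have h5 : 0 ≤ Set.indicator (↑(Finset.range (N + 1)) : Set ℕ) (fun _ : ℕ => (1 : ℝ)) p :=
      Set.indicator_nonneg (fun _ _ => zero_le_one) p
    linarith

/-- The lower bound of the Rankin sum by a finite family of sets of primes on which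
`‖a p‖ ^ 2` is constant. -/
theorem sum_mul_primeMassOff_le (N : ℕ) (a : ℕ → ℂ) (V : Finset ℝ) (X : ℝ → Set ℕ)
    (hX : ∀ v ∈ V, ∀ p : ℕ, p.Prime → ¬ p ∣ N → p ∈ X v → ‖a p‖ ^ 2 = v)
    {s : ℝ} (hs : 1 < s) (hsum : Summable (rankinTerm N a s)) :
    ∑ v ∈ V, v * primeMassOff N (X v) s ≤ ∑' p : ℕ, rankinTerm N a s p := by
  classical
  unfold primeMassOff
  have h1 : ∀ v ∈ V, Summable (fun p : ℕ => v * Set.indicator
      {p : ℕ | p.Prime ∧ p ∈ X v ∧ ¬ p ∣ N} (fun p : ℕ => (p : ℝ) ^ (-s)) p) :=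
    fun v _ => (summable_indicator_rpow _ hs).mul_left v
  rw [Finset.sum_congr rfl (fun v _ => (tsum_mul_left (a := v)
    (f := Set.indicator {p : ℕ | p.Prime ∧ p ∈ X v ∧ ¬ p ∣ N}
      (fun p : ℕ => (p : ℝ) ^ (-s)))).symm)]
  rw [← Summable.tsum_finsetSum h1]
  refine Summable.tsum_le_tsum (fun p => ?_) (summable_sum h1) hsum
  unfold rankinTerm
  by_cases hp : p.Prime ∧ ¬ p ∣ N
  · rw [Set.indicator_of_mem (show p ∈ {p : ℕ | p.Prime ∧ ¬ p ∣ N} from hp)]
    have hterm : ∀ v ∈ V, v * Set.indicator {p : ℕ | p.Prime ∧ p ∈ X v ∧ ¬ p ∣ N}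
        (fun p : ℕ => (p : ℝ) ^ (-s)) p
        ≤ if v = ‖a p‖ ^ 2 then ‖a p‖ ^ 2 * (p : ℝ) ^ (-s) else 0 := by
      intro v hv
      by_cases hmem : p ∈ X v
      · have hv' : ‖a p‖ ^ 2 = v := hX v hv p hp.1 hp.2 hmem
        rw [if_pos hv'.symm, Set.indicator_of_mem
          (show p ∈ {p : ℕ | p.Prime ∧ p ∈ X v ∧ ¬ p ∣ N} from ⟨hp.1, hmem, hp.2⟩), hv']
      · rw [Set.indicator_of_notMem
          (show p ∉ {p : ℕ | p.Prime ∧ p ∈ X v ∧ ¬ p ∣ N} from fun h => hmem h.2.1), mul_zero]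
        split_ifs
        · exact mul_nonneg (sq_nonneg _) (rpow_neg_nonneg p s)
        · exact le_refl _
    refine le_trans (Finset.sum_le_sum hterm) ?_
    rw [Finset.sum_ite_eq' V (‖a p‖ ^ 2) (fun _ => ‖a p‖ ^ 2 * (p : ℝ) ^ (-s))]
    split_ifs
    · exact le_refl _
    · exact mul_nonneg (sq_nonneg _) (rpow_neg_nonneg p s)
  · rw [Set.indicator_of_notMem (show p ∉ {p : ℕ | p.Prime ∧ ¬ p ∣ N} from hp)]
    refine Finset.sum_nonpos (fun v _ => ?_)
    rw [Set.indicator_of_notMem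
      (show p ∉ {p : ℕ | p.Prime ∧ p ∈ X v ∧ ¬ p ∣ N} from fun h => hp ⟨h.1, h.2.2⟩), mul_zero]

/-- `log (1 / (s - 1))` is unbounded near `1`. -/
theorem exists_log_gt (K δ : ℝ) (hδ : 0 < δ) :
    ∃ s : ℝ, 1 < s ∧ s < 1 + δ ∧ s < 2 ∧ K < Real.log (1 / (s - 1)) := by
  obtain ⟨t, ht⟩ : ∃ t : ℝ, t = min (δ / 2) (min (1 / 2) (Real.exp (-(K + 1)))) := ⟨_, rfl⟩
  have ht0 : 0 < t := by
    rw [ht]
    exact lt_min (by linarith) (lt_min (by norm_num) (Real.exp_pos _))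
  have ht1 : t ≤ δ / 2 := by
    rw [ht]
    exact min_le_left _ _
  have ht2 : t ≤ 1 / 2 := by
    rw [ht]
    exact le_trans (min_le_right _ _) (min_le_left _ _)
  have ht3 : t ≤ Real.exp (-(K + 1)) := by
    rw [ht]
    exact le_trans (min_le_right _ _) (min_le_right _ _)
  refine ⟨1 + t, by linarith, by linarith, by linarith, ?_⟩
  have h1 : Real.log t ≤ -(K + 1) := by
    have := Real.log_le_log ht0 ht3
    rwa [Real.log_exp] at this
  rw [show (1 + t - 1 : ℝ) = t by ring, one_div, Real.log_inv]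
  linarith

/-- Uniform `δ` for finitely many conditions near `1`. -/
theorem exists_uniform_delta (V : Finset ℝ) (P : ℝ → ℝ → Prop)
    (h : ∀ v ∈ V, ∃ δ : ℝ, 0 < δ ∧ ∀ s : ℝ, 1 < s → s < 1 + δ → P v s) :
    ∃ δ : ℝ, 0 < δ ∧ ∀ v ∈ V, ∀ s : ℝ, 1 < s → s < 1 + δ → P v s := by
  classical
  induction V using Finset.induction_on with
  | empty => exact ⟨1, one_pos, fun v hv => absurd hv (Finset.notMem_empty v)⟩
  | insert w V hw ih =>
    obtain ⟨δ₁, hδ₁, H₁⟩ := ih (fun v hv => h v (Finset.mem_insert_of_mem hv))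
    obtain ⟨δ₂, hδ₂, H₂⟩ := h w (Finset.mem_insert_self w V)
    refine ⟨min δ₁ δ₂, lt_min hδ₁ hδ₂, fun v hv s hs1 hs2 => ?_⟩
    rcases Finset.mem_insert.mp hv with rfl | hv'
    · exact H₂ s hs1 (lt_of_lt_of_le hs2 (by linarith [min_le_right δ₁ δ₂]))
    · exact H₁ v hv' s hs1 (lt_of_lt_of_le hs2 (by linarith [min_le_left δ₁ δ₂]))

/-- A finite-level representation has finite image. -/
theorem finite_range_of_finiteLevel {M : Type} [Group M] (ρ : GQ →* M)
    (h : GaloisFactorsThroughFiniteLevel ρ) : Finite ρ.range := by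
  obtain ⟨L, hL, hfix⟩ := h
  have : FiniteDimensional ℚ L := hL
  obtain ⟨r, hr⟩ : ∃ r : GQ → (L →ₐ[ℚ] AlgebraicClosure ℚ),
      r = fun σ : GQ => (AlgEquiv.toAlgHom σ).comp L.val := ⟨_, rfl⟩
  have hfac : Function.FactorsThrough (ρ : GQ → M) r := by
    intro σ τ hστ
    have h1 : ρ (σ⁻¹ * τ) = 1 := by
      apply hfix
      intro x hx
      have h2 := congrArg (fun f : L →ₐ[ℚ] AlgebraicClosure ℚ => f ⟨x, hx⟩) hστ
      rw [hr] at h2
      have h3 : σ x = τ x := h2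
      rw [AlgEquiv.mul_apply, ← h3]
      exact σ.symm_apply_apply x
    rw [map_mul, map_inv, inv_mul_eq_one] at h1
    exact h1
  have hsub : (ρ.range : Set M) ⊆ Set.range (Function.extend r (ρ : GQ → M) (fun _ => 1)) := by
    rintro m ⟨σ, rfl⟩
    exact ⟨r σ, hfac.extend_apply _ σ⟩
  exact Set.Finite.subset (Set.finite_range _) hsub

end Fermat.Agent.T4.helper64
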