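import Fermat.Agent.T4.helper64_IrrAlg
import Fermat.Agent.T4.helper64_IrrSum

/-!
# T4 block (IV), leaf [IV-IRR] (helper64)

`irr : helper80.IrrStatement`, verbatim: a finite-level complex representation whose Frobenius
traces satisfy the Rankin bound is irreducible (given Chebotarev in the lower-density form).

If `ρ` stabilised a line, the mean of `‖tr‖ ^ 2` over the (finite) image would be at least `2`
(`two_mul_card_le_sum_sq_trace`); by the density statement for the level sets of `‖tr‖ ^ 2` the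
Rankin sum would be at least `(2 - ε) log (1 / (s - 1)) - const`, against the Rankin bound.
-/

set_option autoImplicit false

namespace Fermat.Agent.T4.helper64

open Fermat.Agent.T4.helper80

/-- The analytic contradiction. -/
theorem rankin_contra (N : ℕ) (hN : N ≠ 0) (a : ℕ → ℂ) (hR : RankinBound N a)
    (V : Finset ℝ) (X : ℝ → Set ℕ) (η : ℝ → ℝ)
    (hV : ∀ v ∈ V, 0 ≤ v)
    (hX : ∀ v ∈ V, ∀ p : ℕ, p.Prime → ¬ p ∣ N → p ∈ X v → ‖a p‖ ^ 2 = v)
    (hdens : ∀ v ∈ V, LowerDensityGE (X v) (η v))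
    (hmean : 2 ≤ ∑ v ∈ V, v * η v) : False := by
  obtain ⟨SV, hSV⟩ : ∃ SV : ℝ, SV = ∑ v ∈ V, v := ⟨_, rfl⟩
  have hSV0 : 0 ≤ SV := by
    rw [hSV]
    exact Finset.sum_nonneg hV
  obtain ⟨ε, hε⟩ : ∃ ε : ℝ, ε = 1 / (2 * (SV + 1)) := ⟨_, rfl⟩
  have hε0 : 0 < ε := by
    rw [hε]
    positivity
  have hεSV : ε * SV ≤ 1 / 2 := by
    rw [hε, div_mul_eq_mul_div, one_mul, div_le_iff₀ (by positivity)]
    linarith
  obtain ⟨δ, hδ, Hδ⟩ := exists_uniform_delta V
    (fun v s => (η v - ε) * Real.log (1 / (s - 1)) ≤ primeMass (X v) s)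
    (fun v hv => hdens v hv ε hε0)
  obtain ⟨C, hC⟩ := hR
  obtain ⟨s, hs1, hs2, hs3, hlog⟩ := exists_log_gt (2 * (C + ((N : ℝ) + 1) * SV)) δ hδ
  obtain ⟨hsum, hbound⟩ := hC s hs1 hs3
  obtain ⟨L, hL⟩ : ∃ L : ℝ, L = Real.log (1 / (s - 1)) := ⟨_, rfl⟩
  rw [← hL] at hlog hbound
  have hL0 : 0 ≤ L := by
    rw [hL]
    apply Real.log_nonneg
    rw [le_div_iff₀ (by linarith)]
    linarith
  -- the chain of inequalities
  have h1 : ∑ v ∈ V, v * ((η v - ε) * L) ≤ ∑ v ∈ V, v * primeMass (X v) s := by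
    refine Finset.sum_le_sum (fun v hv => ?_)
    have := Hδ v hv s hs1 hs2
    rw [← hL] at this
    exact mul_le_mul_of_nonneg_left this (hV v hv)
  have h2 : ∑ v ∈ V, v * primeMass (X v) s
      ≤ ∑ v ∈ V, (v * primeMassOff N (X v) s + v * ((N : ℝ) + 1)) := by
    refine Finset.sum_le_sum (fun v hv => ?_)
    rw [← mul_add]
    exact mul_le_mul_of_nonneg_left (primeMass_le_add (X v) hN hs1) (hV v hv)
  have h3 : ∑ v ∈ V, (v * primeMassOff N (X v) s + v * ((N : ℝ) + 1))
      = ∑ v ∈ V, v * primeMassOff N (X v) s + ((N : ℝ) + 1) * SV := by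
    rw [Finset.sum_add_distrib, ← Finset.sum_mul, ← hSV, mul_comm SV]
  have h4 := sum_mul_primeMassOff_le N a V X hX hs1 hsum
  have h5 : ∑ v ∈ V, v * ((η v - ε) * L) = (∑ v ∈ V, v * η v - ε * SV) * L := by
    rw [sub_mul, Finset.sum_mul, hSV, Finset.mul_sum, Finset.sum_mul, ← Finset.sum_sub_distrib]
    refine Finset.sum_congr rfl (fun v _ => ?_)
    ring
  have h6 : (3 / 2 : ℝ) * L ≤ (∑ v ∈ V, v * η v - ε * SV) * L :=
    mul_le_mul_of_nonneg_right (by linarith) hL0
  linarith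

/-- **[IV-IRR]** (verbatim `helper80.IrrStatement`). -/
theorem irr : IrrStatement := by
  classical
  intro hDens N a ρ hN hRankin hfin htr
  have hfinite : Finite ρ.range := finite_range_of_finiteLevel ρ hfin
  let _ : Fintype ρ.range := Fintype.ofFinite _
  refine { exists_pair_ne := ⟨⊥, ⊤, ?_⟩, eq_bot_or_eq_top := fun W => ?_ }
  · intro h
    have h1 : (⊥ : Submodule ℂ (Fin 2 → ℂ)) = ⊤ := congrArg Subrepresentation.toSubmodule h
    exact bot_ne_top h1
  · by_contra hW
    rw [not_or] at hW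
    obtain ⟨v, hv, hline⟩ := exists_stable_line ρ W hW.1 hW.2
    have hmean := two_mul_card_le_sum_sq_trace ρ.range v hv (by
      rintro g ⟨γ, rfl⟩
      exact hline γ)
    obtain ⟨f, hf⟩ : ∃ f : ρ.range → ℝ,
        f = fun g : ρ.range =>
          ‖((g : GL (Fin 2) ℂ) : Matrix (Fin 2) (Fin 2) ℂ).trace‖ ^ 2 := ⟨_, rfl⟩
    have hfg : ∀ g : ρ.range,
        f g = ‖((g : GL (Fin 2) ℂ) : Matrix (Fin 2) (Fin 2) ℂ).trace‖ ^ 2 := by
      intro g
      rw [hf]
    have hcard0 : (0 : ℝ) < (Fintype.card ρ.range : ℝ) := by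
      exact_mod_cast Fintype.card_pos
    refine rankin_contra N hN a hRankin (Finset.univ.image f)
      (fun w => frobSet ρ.rangeRestrict {g : ρ.range | f g = w})
      (fun w => (Nat.card {g : ρ.range | f g = w} : ℝ) / (Nat.card ρ.range : ℝ)) ?_ ?_ ?_ ?_
    · intro w hw
      obtain ⟨g, -, rfl⟩ := Finset.mem_image.mp hw
      rw [hfg]
      exact sq_nonneg _
    · rintro w - p hp hpN ⟨A, σ, hA, hσ, hmem⟩
      have h1 : f (ρ.rangeRestrict σ) = w := hmem
      rw [hfg] at h1
      rw [← h1, ← htr p hp hpN A hA σ hσ]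
      rfl
    · intro w _
      refine hDens ρ.range inferInstance inferInstance ρ.rangeRestrict ?_
        ρ.rangeRestrict_surjective _ ?_
      · obtain ⟨L, hL, hfix⟩ := hfin
        exact ⟨L, hL, fun σ hσ => Subtype.ext (hfix σ hσ)⟩
      · intro g h hh
        have h1 : f h = w := hh
        show f (g * h * g⁻¹) = w
        rw [← h1, hfg, hfg]
        congr 1
        have h2 : (((g * h * g⁻¹ : ρ.range) : GL (Fin 2) ℂ) : Matrix (Fin 2) (Fin 2) ℂ)
            = ((g : GL (Fin 2) ℂ) : Matrix (Fin 2) (Fin 2) ℂ)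
              * ((h : GL (Fin 2) ℂ) : Matrix (Fin 2) (Fin 2) ℂ)
              * (((g : GL (Fin 2) ℂ)⁻¹ : GL (Fin 2) ℂ) : Matrix (Fin 2) (Fin 2) ℂ) := by
          simp
        rw [h2]
        congr 1
        exact Matrix.trace_units_conj (g : GL (Fin 2) ℂ) _
    · have hcardw : ∀ w : ℝ, (Nat.card {g : ρ.range | f g = w} : ℝ)
          = ((Finset.univ.filter (fun g : ρ.range => f g = w)).card : ℝ) := by
        intro w
        congr 1
        rw [Nat.card_eq_fintype_card]
        exact Fintype.card_subtype _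
      have hsum : ∑ w ∈ Finset.univ.image f, w * ((Finset.univ.filter
          (fun g : ρ.range => f g = w)).card : ℝ) = ∑ g : ρ.range, f g := by
        rw [← Finset.sum_fiberwise_of_maps_to (s := Finset.univ) (t := Finset.univ.image f)
          (g := f) (fun g _ => Finset.mem_image_of_mem f (Finset.mem_univ g)) f]
        refine Finset.sum_congr rfl (fun w _ => ?_)
        rw [Finset.sum_congr rfl (fun g hg => (Finset.mem_filter.mp hg).2), Finset.sum_const,
          nsmul_eq_mul, mul_comm]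
      have hmean' : 2 * (Fintype.card ρ.range : ℝ) ≤ ∑ g : ρ.range, f g := by
        rw [Finset.sum_congr rfl (fun g _ => hfg g)]
        exact hmean
      rw [Nat.card_eq_fintype_card]
      rw [Finset.sum_congr rfl (fun w _ => by rw [hcardw w, ← mul_div_assoc]),
        ← Finset.sum_div, hsum, le_div_iff₀ hcard0]
      exact hmean'

end Fermat.Agent.T4.helper64
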