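import Mathlib
import Fermat.Agent.T4.helper80_EndgameDefs

/-!
# T4 block (IV): top wiring (helper80)

The frozen statement S48 from the endgame, the density theorem and the forms-side inputs.
-/

set_option autoImplicit false

open CongruenceSubgroup

namespace Fermat.Agent.T4.helper80

/-- The frozen statement S48 (verbatim shape) from `EndgameStatement`, `DensStatement` and
`FormsStatement`. -/
theorem s48_of_statements (hE : EndgameStatement) (hD : DensStatement) (hF : FormsStatement)
    (N : ℕ) [NeZero N] (ε : DirichletCharacter ℂ N) (f : CuspForm (Gamma1 N) 1)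
    (hf₁ : ModularFormClass.qCoeff f 1 = 1)
    (hT : ∀ p : ℕ, p.Prime → ¬ p ∣ N → ∀ n : ℕ,
        ModularFormClass.qCoeff f (p * n) +
            ε (p : ZMod N) * (if p ∣ n then ModularFormClass.qCoeff f (n / p) else 0) =
          ModularFormClass.qCoeff f p * ModularFormClass.qCoeff f n) :
    ∃ ρ : GQ →* GL (Fin 2) ℂ, GaloisFactorsThroughFiniteLevel ρ ∧
      (Deformation.matrixRepresentation ρ).IsIrreducible ∧
      ∀ p : ℕ, p.Prime → ¬ p ∣ N →
        ∀ A : ValuationSubring (AlgebraicClosure ℚ), A.LiesOverPrime p →
          (∀ σ ∈ A.inertiaSubgroupIn ℚ, ρ σ = 1) ∧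
          ∀ σ : GQ, A.IsFrobeniusAt σ p →
            ((ρ σ : GL (Fin 2) ℂ) : Matrix (Fin 2) (Fin 2) ℂ).trace =
                ModularFormClass.qCoeff f p ∧
            ((ρ σ : GL (Fin 2) ℂ) : Matrix (Fin 2) (Fin 2) ℂ).det = ε (p : ZMod N) := by
  obtain ⟨hR, hRes⟩ := hF N inferInstance ε f hf₁ hT
  exact hE N inferInstance ε _ hD hR hRes

/-- The endgame from its leaves (shape of the final assembly of block (IV)). -/
def EndgameOfLeaves : Prop :=
  FinStatement → DensWireStatement → BoundStatement → LiftStatement → ValStatement →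
    IndepStatement → IrrStatement → EndgameStatement

end Fermat.Agent.T4.helper80
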