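import Mathlib
import Fermat.Agent.T4.helper80_EndgameDefs
import Fermat.Agent.T4.helper80_EndgameTop
import Fermat.Agent.T4.helper80_EndgameCore
import Fermat.Agent.T4.helper80_Val
import Fermat.Agent.T4.helper80_Class
import Fermat.Agent.T4.helper10_DensityAPI
import Fermat.Agent.T4.helper11_Fin
import Fermat.Agent.T4.helper18_Bound
import Fermat.Agent.T4.helper35_Unip
import Fermat.Agent.T4.helper3_Lift
import Fermat.Agent.T4.helper25_Indep
import Fermat.Agent.T4.helper64_Irr
import Fermat.Agent.T4.helper75_DensWire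

/-!
# T4 block (IV): the assembled endgame (helper80)

* `imgInput_of_dens`      : `ImgInput` from Rankin + residual representations + density;
* `endgameOfLeaves`       : `EndgameOfLeaves`;
* `endgameStatement`      : `EndgameStatement`, UNCONDITIONAL (all leaves of block (IV) are on
  main); its three hypotheses are the inputs of the other blocks.
* `s48_of_dens_forms`     : the frozen S48 shape from `DensStatement` and `FormsStatement`.
-/

set_option autoImplicit false

open CongruenceSubgroup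

namespace Fermat.Agent.T4.helper80

/-- The Rankin bound only involves the `a p` at the primes `p ∤ N`. -/
theorem rankinBound_congr (N : ℕ) (a b : ℕ → ℂ)
    (h : ∀ p : ℕ, p.Prime → ¬ p ∣ N → a p = b p) (hb : RankinBound N b) : RankinBound N a := by
  have hterm : ∀ s : ℝ, rankinTerm N a s = rankinTerm N b s := by
    intro s
    funext p
    unfold rankinTerm
    by_cases hp : p ∈ {p : ℕ | p.Prime ∧ ¬ p ∣ N}
    · rw [Set.indicator_of_mem hp, Set.indicator_of_mem hp, h p hp.1 hp.2]
    · rw [Set.indicator_of_notMem hp, Set.indicator_of_notMem hp]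
  obtain ⟨C, hC⟩ := hb
  refine ⟨C, fun s hs1 hs2 => ?_⟩
  rw [hterm s]
  exact hC s hs1 hs2

/-- `RankinStatement` gives the Rankin bound for the system itself. -/
theorem rankinBound_of_statement (N : ℕ) (a : ℕ → ℂ) (h : RankinStatement N a) :
    RankinBound N a := by
  obtain ⟨K, _, _, ι, α, hα, hτ⟩ := h
  exact rankinBound_congr N a _ (fun p hp hpN => (hα p hp hpN).symm) (hτ ι)

/-- `RankinStatement` gives the integrality of the `a p`. -/
theorem isIntegral_of_statement (N : ℕ) (a : ℕ → ℂ) (h : RankinStatement N a) :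
    ∀ p : ℕ, p.Prime → ¬ p ∣ N → IsIntegral ℤ (a p) := by
  obtain ⟨K, _, _, ι, α, hα, -⟩ := h
  intro p hp hpN
  rw [← hα p hp hpN]
  exact (NumberField.RingOfIntegers.isIntegral_coe (α p)).map ι.toIntAlgHom

/-- Extension by zero of a residue map of the algebraic integers. -/
noncomputable def extZero {k : Type} [Field k] (φ : Zbar →+* k) (z : ℂ) : k := by
  classical
  exact if h : z ∈ Zbar then φ ⟨z, h⟩ else 0

theorem extZero_coe {k : Type} [Field k] (φ : Zbar →+* k) (x : Zbar) :
    extZero φ (x : ℂ) = φ x := by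
  unfold extZero
  rw [dif_pos x.2]

/-- **`ImgInput` from the density theorem.** -/
theorem imgInput_of_dens (hFin : FinStatement) (hDW : DensWireStatement) (hD : DensStatement)
    (N : ℕ) (hN : N ≠ 0) (a e : ℕ → ℂ) (E : Finset ℂ)
    (hE : ∀ p : ℕ, p.Prime → ¬ p ∣ N → e p ∈ E)
    (hR : RankinStatement N a) (hRes : ResStatement N a e) : ImgInput N a e := by
  classical
  obtain ⟨Y, X, hX, hY⟩ := hFin N a hR (1 / 48) (by norm_num)
  refine ⟨(Y ×ˢ E).card, fun B => ?_⟩
  obtain ⟨l, hlB, hl, hres⟩ := hRes B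
  refine ⟨l, hlB, hl, fun k i1 i2 i3 φ => ?_⟩
  obtain ⟨ρ, hlev, hfr⟩ := hres k i1 i2 i3 φ
  have hNl : N * l ≠ 0 := Nat.mul_ne_zero hN hl.ne_zero
  have hfinite : {p : ℕ | p ∣ N * l}.Finite := by
    apply Set.Finite.subset (Nat.divisors (N * l)).finite_toSet
    intro p hp
    rw [Finset.mem_coe, Nat.mem_divisors]
    exact ⟨hp, hNl⟩
  have hX' : UpperDensityLE (X ∪ {p : ℕ | p ∣ N * l}) (1 / 48) :=
    Fermat.Agent.T4.helper10.upperDensityLE_union_finite hX hfinite
  refine ⟨ρ, hlev, hfr, frobElts (X ∪ {p : ℕ | p ∣ N * l}), ?_, ?_⟩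
  · exact hDW hD _ hX' k i1 ρ hlev
  · refine ⟨(Y ×ˢ E).image (fun ye => (extZero φ ye.1, extZero φ ye.2)),
      Finset.card_image_le, ?_⟩
    rintro f ⟨p, A, hp, hpX, hA, hfrob⟩
    have hpNl : ¬ p ∣ N * l := fun h => hpX (Or.inr h)
    have hpN : ¬ p ∣ N := fun h => hpNl (Dvd.dvd.mul_right h l)
    have hpX0 : p ∉ X := fun h => hpX (Or.inl h)
    obtain ⟨x, y, hx, hy, hFD⟩ := hfr p hp hpNl
    obtain ⟨htr, hdet⟩ := (hFD A hA).2 f hfrob
    rw [Finset.mem_image]
    refine ⟨(a p, e p), ?_, ?_⟩
    · rw [Finset.mem_product]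
      exact ⟨hY p hp hpN hpX0, hE p hp hpN⟩
    · rw [htr, hdet]
      show (extZero φ (a p), extZero φ (e p)) = (φ x, φ y)
      rw [← hx, ← hy, extZero_coe, extZero_coe]

/-- **The endgame from its leaves.** -/
theorem endgameOfLeaves : EndgameOfLeaves := by
  intro hFin hDW hBound hLift hVal hIndep hIrr N hNZ ε a hD hR hRes
  classical
  have hN : N ≠ 0 := NeZero.ne N
  have : NeZero N := hNZ
  have : Fintype (ZMod N) := ZMod.fintype N
  set e : ℕ → ℂ := fun p : ℕ => ε (p : ZMod N) with he
  -- the values of `ε` are integral and finitely many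
  have hinte : ∀ p : ℕ, p.Prime → ¬ p ∣ N → IsIntegral ℤ (e p) := by
    intro p hp hpN
    have hcop : Nat.Coprime p N := (Nat.Prime.coprime_iff_not_dvd hp).2 hpN
    have hu : IsUnit ((p : ℕ) : ZMod N) := (ZMod.isUnit_iff_coprime p N).2 hcop
    obtain ⟨u, hu⟩ := hu
    have hpow : (e p) ^ (Fintype.card (ZMod N)ˣ) = 1 := by
      rw [he]
      simp only
      rw [← hu, ← map_pow, ← Units.val_pow_eq_pow_val, pow_card_eq_one, Units.val_one, map_one]
    have hpos : 0 < Fintype.card (ZMod N)ˣ := Fintype.card_pos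
    refine ⟨Polynomial.X ^ (Fintype.card (ZMod N)ˣ) - Polynomial.C 1,
      Polynomial.monic_X_pow_sub_C 1 hpos.ne', ?_⟩
    rw [Polynomial.eval₂_sub, Polynomial.eval₂_pow, Polynomial.eval₂_X, Polynomial.eval₂_C,
      hpow, map_one, sub_self]
  have hE : ∀ p : ℕ, p.Prime → ¬ p ∣ N →
      e p ∈ (Finset.univ : Finset (ZMod N)).image (fun x : ZMod N => ε x) := by
    intro p _ _
    rw [Finset.mem_image]
    exact ⟨(p : ZMod N), Finset.mem_univ _, rfl⟩
  have hImg : ImgInput N a e := imgInput_of_dens hFin hDW hD N hN a e _ hE hR hRes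
  have hIrrIn : IrrInput N a := fun ρ hlev htr =>
    hIrr hD N a ρ hN (rankinBound_of_statement N a hR) hlev htr
  exact endgame_core hBound hLift hVal hIndep N hN a e (isIntegral_of_statement N a hR) hinte
    hImg hIrrIn

/-- **Block (IV), assembled and unconditional**: the endgame of Deligne-Serre.  The hypotheses
of `EndgameStatement` are exactly the inputs of the other blocks. -/
theorem endgameStatement : EndgameStatement :=
  endgameOfLeaves Fermat.Agent.T4.helper11.fin Fermat.Agent.T4.helper75.densWire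
    (Fermat.Agent.T4.helper18.bound_of Fermat.Agent.T4.helper35.unip classStatement)
    Fermat.Agent.T4.helper3.lift valStatement Fermat.Agent.T4.helper25.indepStatement
    Fermat.Agent.T4.helper64.irr

/-- **The frozen S48 shape** from the density theorem and the forms-side inputs. -/
theorem s48_of_dens_forms (hD : DensStatement) (hF : FormsStatement)
    (N : ℕ) [NeZero N] (ε : DirichletCharacter ℂ N) (f : CuspForm (Gamma1 N) 1)
    (hf₁ : ModularFormClass.qCoeff f 1 = 1)
    (hT : ∀ p : ℕ, p.Prime → ¬ p ∣ N → ∀ n : ℕ,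
        ModularFormClass.qCoeff f (p * n) +
            ε (p : ZMod N) * (if p ∣ n then ModularFormClass.qCoeff f (n / p) else 0) =
          ModularFormClass.qCoeff f p * ModularFormClass.qCoeff f n) :
    ∃ ρ : GQ →* GL (Fin 2) ℂ, GaloisFactorsThroughFiniteLevel ρ ∧
      (Deformation.matrixRepresentation ρ).IsIrreducible ∧
      ∀ p : ℕ, p.Prime → ¬ p ∣ N →
        ∀ A : ValuationSubring (AlgebraicClosure ℚ), A.LiesOverPrime p →
          (∀ σ ∈ A.inertiaSubgroupIn ℚ, ρ σ = 1) ∧
          ∀ σ : GQ, A.IsFrobeniusAt σ p →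
            ((ρ σ : GL (Fin 2) ℂ) : Matrix (Fin 2) (Fin 2) ℂ).trace =
                ModularFormClass.qCoeff f p ∧
            ((ρ σ : GL (Fin 2) ℂ) : Matrix (Fin 2) (Fin 2) ℂ).det = ε (p : ZMod N) :=
  s48_of_statements endgameStatement hD hF N ε f hf₁ hT

end Fermat.Agent.T4.helper80
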