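import Fermat.Agent.T4.helper32_ResWire
import Fermat.Agent.T4.helper42_Glue
import Fermat.Agent.T4.helper15_ConjWire
import Fermat.Agent.T4.helper89_ConjFinal
import Fermat.Agent.T4.helper94_VPrimFinal
import Fermat.Agent.T4.helper80_EndgameAsm

/-!
# T4 (S48): the forms side assembled (helper32, T4 architect)

With blocks (III), (IV), (V) and the wirings (R-WIRE, R-GLUE, CONJ) on main, the frozen statement
S48 follows from exactly two `Prop`s:

* `Eigen1Statement`          (block (I), the `X₁(M)` stack), and
* `helper80.DensStatement`   (block (II), Chebotarev density).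

* `conjStatement`  : `ConjStatement`, unconditional;
* `primStatement`  : `PrimStatement`, unconditional;
* `forms_of_eigen1 : Eigen1Statement → helper80.FormsStatement`;
* `s48_of_eigen1_dens : Eigen1Statement → helper80.DensStatement →` the frozen S48 shape.
-/

set_option autoImplicit false

open CongruenceSubgroup
open scoped MatrixGroups

namespace Fermat.Agent.T4.helper32

open Fermat.Agent.T4.helper80 (GQ Zbar)
open Fermat.Agent.T4

/-- **[V-CONJ]**, unconditional. -/
theorem conjStatement : ConjStatement := helper15.conj_of helper89.conjHom helper89.span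

/-- **[V-PRIM]**, unconditional. -/
theorem primStatement : PrimStatement := helper94.VPrim.prim

/-- The forms side of S48 from block (I). -/
theorem forms_of_eigen1 (hE : Eigen1Statement) : helper80.FormsStatement :=
  fun N hN ε f hf1 hT =>
    haveI : NeZero N := hN
    ⟨helper15.rankinStatement_of_span conjStatement helper89.span N ε f hf1 hT,
      helper42.glue' (res1_four hE primStatement) (res1_nine hE primStatement) N ε f hf1 hT⟩

/-- **The frozen S48 shape** from block (I) and block (II). -/
theorem s48_of_eigen1_dens (hE : Eigen1Statement) (hD : helper80.DensStatement)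
    (N : ℕ) [NeZero N] (ε : DirichletCharacter ℂ N) (f : CuspForm (Gamma1 N) 1)
    (hf₁ : ModularFormClass.qCoeff f 1 = 1)
    (hT : ∀ p : ℕ, p.Prime → ¬ p ∣ N → ∀ n : ℕ,
        ModularFormClass.qCoeff f (p * n) +
            ε (p : ZMod N) * (if p ∣ n then ModularFormClass.qCoeff f (n / p) else 0) =
          ModularFormClass.qCoeff f p * ModularFormClass.qCoeff f n) :
    ∃ ρ : GQ →* GL (Fin 2) ℂ, GaloisFactorsThroughFiniteLevel ρ ∧
      (Deformation.matrixRepresentation ρ).IsIrreducible ∧
      ∀ p : ℕ, p.Prime → ¬ p ∣ N →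
        ∀ A : ValuationSubring (AlgebraicClosure ℚ), A.LiesOverPrime p →
          (∀ σ ∈ A.inertiaSubgroupIn ℚ, ρ σ = 1) ∧
          ∀ σ : GQ, A.IsFrobeniusAt σ p →
            ((ρ σ : GL (Fin 2) ℂ) : Matrix (Fin 2) (Fin 2) ℂ).trace =
                ModularFormClass.qCoeff f p ∧
            ((ρ σ : GL (Fin 2) ℂ) : Matrix (Fin 2) (Fin 2) ℂ).det = ε (p : ZMod N) :=
  helper80.s48_of_dens_forms hD (forms_of_eigen1 hE) N ε f hf₁ hT

end Fermat.Agent.T4.helper32
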