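import Mathlib
import Fermat.Agent.T4.helper4_RedDefs
import Fermat.Agent.P2.helper43_TameBase
import Fermat.Agent.P2.helper66_HauptMem

/-!
# T4 block (I), I-RED box [TAME1] (helper46, row 1152): the tame base function on the special
fibre of `X₁(M)`

`helper4.TameBaseStatement A Eb hjb` for EVERY field `Eb` between the special fibre field
`FFb A M` of `X₀(M)` and `k((q))` which is finite and separable over `k(j̃)`
(`k = kA A`, `A` over a prime `ℓ ∤ M`, `4 ∣ M` or `9 ∣ M`): the reduced Hauptmodul `t̃₄`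
resp. `t̃₉` of P2 (`helper66.tH4`, `tH9`) lies in `FFb A M ≤ Eb`, and the abstract theorem
`helper43.TameHyp.tame_abs` is generic in the function field.

* `tameBase_four_G`, `tameBase_nine_G`, `tameBase_G` : the generic statement;
* `FFb_le_F1b` : `FFb A M ≤ F1b A M`;
* `tameBase1_of_deg` : `GoodPair M A → DegStatement A (F1 M) (F1b A M) hj hjb →
  TameBaseStatement A (F1b A M) hjb`  (the instance `X₁(M)`).
-/

set_option autoImplicit false
set_option linter.unusedSectionVars false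
set_option linter.style.haveILetI false
set_option synthInstance.maxHeartbeats 400000

namespace Fermat.Agent.T4.helper46

open AlgebraicCurve IntermediateField Polynomial ModularCurve
open Fermat.Agent.S18.helper19 (Kb kA FF FFb)
open Fermat.Agent.P2.helper29 (GoodPair)
open Fermat.Agent.P2.helper43 Fermat.Agent.P2.helper66
open Fermat.Agent.T4.helper4 (jbEl TameBaseStatement DegStatement F1b)

noncomputable section

section Generic

variable (M : ℕ) [NeZero M] (A : ValuationSubring Kb) {ℓ : ℕ} [Fact ℓ.Prime]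
  (hA : A.LiesOverPrime ℓ) (hℓM : ¬ ℓ ∣ M)
  (Eb : IntermediateField (kA A) (LaurentSeries (kA A))) (hle : FFb A M ≤ Eb)
  (hjb : jqModC (kA A) ∈ Eb)

/-- `j̃` is transcendental in every intermediate field containing it. -/
theorem transcendental_jbEl : Transcendental (kA A) (jbEl A Eb hjb) := by
  intro h
  apply Fermat.Agent.P2.helper81.transcendental_jBar A
  exact IsAlgebraic.algHom Eb.val h

include hA hℓM hle in
/-- **[TAME1]** at levels divisible by `4`, generic in `Eb ≥ FFb A M`. -/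
theorem tameBase_four_G (h4 : 4 ∣ M)
    [FiniteDimensional (kA A)⟮jbEl A Eb hjb⟯ Eb] [Algebra.IsSeparable (kA A)⟮jbEl A Eb hjb⟯ Eb] :
    TameBaseStatement A Eb hjb := by
  haveI : IsAlgClosed (kA A) := Fermat.Agent.P2.helper95.isAlgClosed_residueField A
  have h2 := two_ne_zero_of_four_dvd M A hA hℓM h4
  have hmem : tH4 (kA A) ∈ Eb := hle (tH4_mem (kA A) h2 M h4)
  have hid : jbEl A Eb hjb * ((⟨tH4 (kA A), hmem⟩ : Eb) ^ 4 * (⟨tH4 (kA A), hmem⟩ + 16)) =
      ((⟨tH4 (kA A), hmem⟩ : Eb) ^ 2 + 256 * ⟨tH4 (kA A), hmem⟩ + 4096) ^ 3 :=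
    Subtype.ext (jq_tH4 (kA A))
  have H := tameHyp_four h2 (jbEl A Eb hjb) ⟨tH4 (kA A), hmem⟩
    (transcendental_jbEl A Eb hjb) hid
  obtain ⟨htr, hfd, hsep, hpoles, hdeg⟩ := H.tame_abs
  refine ⟨⟨tH4 (kA A), hmem⟩, vFour h2, htr, hfd, hsep, hpoles, ?_⟩
  rw [natDegree_four] at hdeg
  rw [card_vFour, ← hdeg]
  push_cast
  ring

include hA hℓM hle in
/-- **[TAME1]** at levels divisible by `9`, generic in `Eb ≥ FFb A M`. -/
theorem tameBase_nine_G (h9 : 9 ∣ M)
    [FiniteDimensional (kA A)⟮jbEl A Eb hjb⟯ Eb] [Algebra.IsSeparable (kA A)⟮jbEl A Eb hjb⟯ Eb] :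
    TameBaseStatement A Eb hjb := by
  haveI : IsAlgClosed (kA A) := Fermat.Agent.P2.helper95.isAlgClosed_residueField A
  have h3 := three_ne_zero_of_nine_dvd M A hA hℓM h9
  obtain ⟨α, hα⟩ : ∃ α : kA A, α ^ 2 + 9 * α + 27 = 0 := by
    have hdeg : (X ^ 2 + 9 * X + 27 : (kA A)[X]).degree ≠ 0 := by
      have : (X ^ 2 + 9 * X + 27 : (kA A)[X]).natDegree = 2 := by compute_degree!
      rw [degree_eq_natDegree (ne_zero_of_natDegree_gt (n := 0) (by omega)), this]
      norm_num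
    obtain ⟨α, hα⟩ := IsAlgClosed.exists_root _ hdeg
    refine ⟨α, ?_⟩
    simpa only [IsRoot.def, eval_add, eval_mul, eval_pow, eval_X, eval_ofNat] using hα
  have hmem : tH9 (kA A) ∈ Eb := hle (tH9_mem (kA A) h3 M h9)
  have hid : jbEl A Eb hjb * ((⟨tH9 (kA A), hmem⟩ : Eb) ^ 9 *
      ((⟨tH9 (kA A), hmem⟩ : Eb) ^ 2 + 9 * ⟨tH9 (kA A), hmem⟩ + 27)) =
      ((⟨tH9 (kA A), hmem⟩ : Eb) + 9) ^ 3 *
        ((⟨tH9 (kA A), hmem⟩ : Eb) ^ 3 + 243 * (⟨tH9 (kA A), hmem⟩ : Eb) ^ 2 +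
          2187 * ⟨tH9 (kA A), hmem⟩ + 6561) ^ 3 :=
    Subtype.ext (jq_tH9 (kA A))
  have H := tameHyp_nine h3 hα (jbEl A Eb hjb) ⟨tH9 (kA A), hmem⟩
    (transcendental_jbEl A Eb hjb) hid
  obtain ⟨htr, hfd, hsep, hpoles, hdeg⟩ := H.tame_abs
  refine ⟨⟨tH9 (kA A), hmem⟩, vNine h3 hα, htr, hfd, hsep, hpoles, ?_⟩
  rw [natDegree_nine] at hdeg
  rw [card_vNine, ← hdeg]
  push_cast
  ring

/-- **[TAME1]**, generic in `Eb ≥ FFb A M`, for good pairs. -/
theorem tameBase_G (h : GoodPair M A)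
    (Eb : IntermediateField (kA A) (LaurentSeries (kA A))) (hle : FFb A M ≤ Eb)
    (hjb : jqModC (kA A) ∈ Eb)
    (hfd : FiniteDimensional (kA A)⟮jbEl A Eb hjb⟯ Eb)
    (hsep : Algebra.IsSeparable (kA A)⟮jbEl A Eb hjb⟯ Eb) :
    TameBaseStatement A Eb hjb := by
  obtain ⟨hM, ℓ, hℓ, hℓM, hA⟩ := h
  haveI : Fact ℓ.Prime := ⟨hℓ⟩
  rcases hM with h4 | h9
  · exact tameBase_four_G M A hA hℓM Eb hle hjb h4
  · exact tameBase_nine_G M A hA hℓM Eb hle hjb h9

end Generic

section X1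

open Fermat.Agent.T4.helper32 (F1 F1C)

/-- the special fibre field of `X₀(M)` is contained in the special fibre field of `X₁(M)`. -/
theorem FFb_le_F1b (A : ValuationSubring Kb) (M : ℕ) [NeZero M] : FFb A M ≤ F1b A M := by
  show modularFunctionFieldFullC (kA A) M ≤ F1C (kA A) M
  rw [modularFunctionFieldFullC, F1C]
  exact IntermediateField.adjoin.mono (kA A) _ _ Set.subset_union_left

/-- **[TAME1]** for `X₁(M)`: the tame base statement for the special fibre field `F1b A M`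
follows from the degree statement (Igusa) at a good pair. -/
theorem tameBase1_of_deg (M : ℕ) [NeZero M] (A : ValuationSubring Kb) (h : GoodPair M A)
    (hj : jqModC Kb ∈ F1 M) (hjb : jqModC (kA A) ∈ F1b A M)
    (hdeg : DegStatement A (F1 M) (F1b A M) hj hjb) :
    TameBaseStatement A (F1b A M) hjb :=
  tameBase_G M A h (F1b A M) (FFb_le_F1b A M) hjb hdeg.2.1 hdeg.2.2.1

end X1

end

end Fermat.Agent.T4.helper46
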