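import Mathlib
import Fermat.Agent.P2.helper29_Infty
import Fermat.Agent.T4.helper4_RedDefs

/-!
# T4 block (I), I-RED box [INF] (helper61): the places at infinity of `F1 M` and `F1b A M`

`infty1 : helper4.InftyStatement A (F1 M) (F1b A M)` (generic `qPlace` of P2 `helper29_Infty`
with the uniformizer `1 / j`), plus the membership lemmas `jqModC_mem_F1`, `jqModC_mem_F1b`
(the hypotheses `hj`, `hjb` of the `j`-statements of `helper4_RedDefs`).
-/

set_option autoImplicit false

noncomputable section

open HahnSeries IntermediateField AlgebraicCurve ModularCurve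
open Fermat.Agent.S18.helper19 (Kb kA FF FFb)
open Fermat.Agent.P2.helper29 (IsInfty qPlace isInfty_qPlace order_coe_inv order_jqModC jElt)
open Fermat.Agent.T4.helper32 (F1 F1C FF_le_F1)
open Fermat.Agent.T4.helper4 (F1b)

namespace Fermat.Agent.T4.helper61

/-- `j ∈ F1 M`. -/
theorem jqModC_mem_F1 (M : ℕ) [NeZero M] : jqModC Kb ∈ F1 M :=
  FF_le_F1 M (jElt M).2

/-- `j̃ ∈ F1C K M` for every field `K`. -/
theorem jqModC_mem_F1C (K : Type*) [Field K] (M : ℕ) : jqModC K ∈ F1C K M :=
  IntermediateField.subset_adjoin K _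
    (Or.inl ⟨1, inferInstance, one_dvd M, (qExpand_one_apply _).symm⟩)

/-- `j̃ ∈ F1b A M`. -/
theorem jqModC_mem_F1b (A : ValuationSubring Kb) (M : ℕ) : jqModC (kA A) ∈ F1b A M :=
  jqModC_mem_F1C (kA A) M

/-- the order of `1 / j` is `1` in every intermediate field containing `j`. -/
theorem order_jInv_of_mem {K : Type*} [Field K] (E : IntermediateField K (LaurentSeries K))
    (hj : jqModC K ∈ E) :
    (((⟨jqModC K, hj⟩ : E)⁻¹ : E) : LaurentSeries K).order = 1 := by
  rw [order_coe_inv]
  show -(jqModC K).order = 1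
  rw [order_jqModC]
  rfl

/-- every intermediate field of `K((q))` containing `j` has a place at infinity. -/
theorem exists_isInfty_of_mem {K : Type*} [Field K] (E : IntermediateField K (LaurentSeries K))
    (hj : jqModC K ∈ E) : ∃ P : Place K E, IsInfty P :=
  ⟨qPlace E _ (order_jInv_of_mem E hj), isInfty_qPlace E _ _⟩

/-- **[INF]** for `X₁(M)`. -/
theorem infty1 (M : ℕ) [NeZero M] (A : ValuationSubring Kb) :
    Fermat.Agent.T4.helper4.InftyStatement A (F1 M) (F1b A M) :=
  ⟨exists_isInfty_of_mem (F1 M) (jqModC_mem_F1 M),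
    exists_isInfty_of_mem (F1b A M) (jqModC_mem_F1b A M)⟩

end Fermat.Agent.T4.helper61

end
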