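import Fermat.Agent.T4.helper50_RootVGRing

/-!
# T4 (I), I-RED, box [ROOT-V] (helper50), part 2: the theorem

Generic port of `P2/helper50_RootV.lean`: for a pair `(E, Eb)` with a primitive element in the
sense of `helper4.PrimStatement`

* `PrimData A E Eb` : the data `(θ, Φ)` of `PrimStatement` (separability is not used);
* `gBasis` : the basis `1, θ, …, θ^(n-1)` of `E` over `ℚ̄(j)`, `n = deg_Y Φ`;
* `g_orthData` : the ring of `w`-integral functions and this basis satisfy the abstract
  hypotheses `OrthData` (orthonormality);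
* `rootV_G (hj : jqModC Kb ∈ E) : PrimStatement A E Eb → RootVStatement_G A E hj`.
-/

set_option autoImplicit false
set_option linter.style.haveILetI false
set_option linter.unusedSectionVars false
set_option linter.unusedVariables false
set_option linter.style.longLine false

open ModularCurve Polynomial IntermediateField HahnSeries
open scoped IntermediateField.algebraAdjoinAdjoin

noncomputable section

namespace Fermat.Agent.T4.helper50

open Fermat.Agent.S18.helper19 (Kb kA)
open Fermat.Agent.P2.helper29 (incl red)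
open Fermat.Agent.P2.helper81 (ev₂ ev₂_apply ev₂_C ev₂_X jA jK jBar)
open Fermat.Agent.P2 Fermat.Agent.S28
open Fermat.Agent.P2.helper50 (OrthData)
open Fermat.Agent.T4.helper4

/-- the data of `helper4.PrimStatement` (separability is not needed) -/
structure PrimData (A : ValuationSubring Kb) (E : IntermediateField Kb (LaurentSeries Kb))
    (Eb : IntermediateField (kA A) (LaurentSeries (kA A))) : Type where
  /-- the primitive element -/
  θ : LaurentSeries A
  /-- its equation over `A[j]` -/
  Φ : Polynomial (Polynomial A)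
  monic : Φ.Monic
  root : ev₂ (jA A) θ Φ = 0
  gen : E = IntermediateField.adjoin Kb {jqModC Kb, incl A θ}
  genb : Eb = IntermediateField.adjoin (kA A) {jqModC (kA A), red A θ}
  irr : Irreducible (Φ.map (Polynomial.mapRingHom A.subtype))
  irrb : Irreducible (Φ.map (Polynomial.mapRingHom (IsLocalRing.residue A)))

section Basis

variable {A : ValuationSubring Kb} {E : IntermediateField Kb (LaurentSeries Kb)}
  {Eb : IntermediateField (kA A) (LaurentSeries (kA A))}
  (hj : jqModC Kb ∈ E) (hjb : jqModC (kA A) ∈ Eb) (D : PrimData A E Eb)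

theorem PrimData.mem : incl A D.θ ∈ E := by
  have h : incl A D.θ ∈ IntermediateField.adjoin Kb {jqModC Kb, incl A D.θ} :=
    IntermediateField.subset_adjoin _ _ (Set.mem_insert_of_mem _ rfl)
  rw [← D.gen] at h
  exact h

theorem PrimData.memb : red A D.θ ∈ Eb := by
  have h : red A D.θ ∈ IntermediateField.adjoin (kA A) {jqModC (kA A), red A D.θ} :=
    IntermediateField.subset_adjoin _ _ (Set.mem_insert_of_mem _ rfl)
  rw [← D.genb] at h
  exact h

/-- the primitive element as an element of `E` -/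
def PrimData.thetaE : E := ⟨incl A D.θ, D.mem⟩

/-- the equation over `ℚ̄` -/
def PrimData.PhiK : Polynomial (Polynomial Kb) := D.Φ.map (Polynomial.mapRingHom A.subtype)

/-- the equation over the residue field -/
def PrimData.PhiB : Polynomial (Polynomial (kA A)) :=
  D.Φ.map (Polynomial.mapRingHom (IsLocalRing.residue A))

theorem PrimData.PhiK_monic : D.PhiK.Monic := D.monic.map _

theorem PrimData.PhiB_monic : D.PhiB.Monic := D.monic.map _

theorem PrimData.PhiK_natDegree : D.PhiK.natDegree = D.Φ.natDegree := D.monic.natDegree_map _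

theorem PrimData.PhiB_natDegree : D.PhiB.natDegree = D.Φ.natDegree := D.monic.natDegree_map _

theorem PrimData.rootK : ev₂ jK (incl A D.θ) D.PhiK = 0 := by
  have h := congrArg (incl A) D.root
  rw [map_zero, ev₂_apply, helper25.coeffMap_eval₂_aeval, helper81.coeffMap_jA] at h
  exact h

theorem PrimData.rootB : ev₂ (jBar A) (red A D.θ) D.PhiB = 0 := by
  have h := congrArg (red A) D.root
  rw [map_zero, ev₂_apply, helper25.coeffMap_eval₂_aeval, helper81.red_jA] at h
  exact h

theorem PrimData.rootE : ev₂ (jEl E hj) D.thetaE D.PhiK = 0 := by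
  apply Subtype.val_injective
  have h := helper81.algHom_ev₂ E.val (jEl E hj) D.thetaE D.PhiK
  have h' : ((ev₂ (jEl E hj) D.thetaE D.PhiK : E) : LaurentSeries Kb) =
      ev₂ jK (incl A D.θ) D.PhiK := h
  rw [h', D.rootK]
  rfl

theorem g_transcendental_jEl : Transcendental Kb (jEl E hj) := by
  intro h
  exact helper81.transcendental_jK (h.algHom E.val)

theorem PrimData.adjoin_eq_top : IntermediateField.adjoin Kb {jEl E hj, D.thetaE} = ⊤ :=
  helper81.adjoin_pair_eq_top_of_val E (jEl E hj) D.thetaE D.gen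

include D in
theorem PrimData.finiteDimensional : FiniteDimensional Kb⟮jEl E hj⟯ E :=
  helper81.finiteDimensional_of_pair (jEl E hj) D.thetaE D.PhiK D.PhiK_monic (D.rootE hj)
    (D.adjoin_eq_top hj)

theorem PrimData.finrank : Module.finrank Kb⟮jEl E hj⟯ E = D.Φ.natDegree := by
  rw [helper81.finrank_of_pair (jEl E hj) D.thetaE (g_transcendental_jEl hj) D.PhiK D.PhiK_monic
    D.irr (D.rootE hj) (D.adjoin_eq_top hj), D.PhiK_natDegree]

include hj in
theorem PrimData.natDegree_pos : 0 < D.Φ.natDegree := by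
  haveI := D.finiteDimensional hj
  rw [← D.finrank hj]
  exact Module.finrank_pos

theorem PrimData.thetaE_isIntegral : IsIntegral Kb⟮jEl E hj⟯ D.thetaE :=
  helper81.isIntegral_of_ev₂ (jEl E hj) D.thetaE D.PhiK D.PhiK_monic (D.rootE hj)

theorem PrimData.natDegree_minpoly :
    (minpoly Kb⟮jEl E hj⟯ D.thetaE).natDegree = D.Φ.natDegree := by
  rw [helper81.minpoly_eq_map (jEl E hj) D.thetaE (g_transcendental_jEl hj) D.PhiK D.PhiK_monic
    D.irr (D.rootE hj), D.PhiK_monic.natDegree_map, D.PhiK_natDegree]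

theorem PrimData.linearIndependent_pow :
    LinearIndependent Kb⟮jEl E hj⟯ (fun i : Fin D.Φ.natDegree => D.thetaE ^ (i : ℕ)) := by
  have h := _root_.linearIndependent_pow (K := Kb⟮jEl E hj⟯) D.thetaE
  have e : D.Φ.natDegree = (minpoly Kb⟮jEl E hj⟯ D.thetaE).natDegree :=
    (D.natDegree_minpoly hj).symm
  exact h.comp (Fin.cast e) (Fin.cast_injective e)

/-- the basis `1, θ, …, θ^(n-1)` of `E` over `ℚ̄(j)` -/
def gBasis : Module.Basis (Fin D.Φ.natDegree) Kb⟮jEl E hj⟯ E :=
  haveI := D.finiteDimensional hj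
  haveI : Nonempty (Fin D.Φ.natDegree) := ⟨⟨0, D.natDegree_pos hj⟩⟩
  basisOfLinearIndependentOfCardEqFinrank (D.linearIndependent_pow hj)
    (by rw [Fintype.card_fin, D.finrank hj])

theorem gBasis_apply (i : Fin D.Φ.natDegree) : gBasis hj D i = D.thetaE ^ (i : ℕ) := by
  haveI := D.finiteDimensional hj
  haveI : Nonempty (Fin D.Φ.natDegree) := ⟨⟨0, D.natDegree_pos hj⟩⟩
  rw [gBasis, coe_basisOfLinearIndependentOfCardEqFinrank]

/-- linear independence in the special fibre: `1, θ̃, …, θ̃^(n-1)` over `k(j̃)` -/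
theorem PrimData.linearIndependent_pow_bar :
    LinearIndependent (kA A)⟮jBar A⟯ (fun i : Fin D.Φ.natDegree => (red A D.θ) ^ (i : ℕ)) := by
  have h := _root_.linearIndependent_pow (K := (kA A)⟮jBar A⟯) (red A D.θ)
  have e : D.Φ.natDegree = (minpoly (kA A)⟮jBar A⟯ (red A D.θ)).natDegree := by
    rw [helper81.minpoly_eq_map (jBar A) (red A D.θ) (helper81.transcendental_jBar A) D.PhiB
      D.PhiB_monic D.irrb D.rootB, D.PhiB_monic.natDegree_map, D.PhiB_natDegree]
  exact h.comp (Fin.cast e) (Fin.cast_injective e)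

end Basis

/-! ### Orthonormality -/

section Orth

variable {A : ValuationSubring Kb} {E : IntermediateField Kb (LaurentSeries Kb)}
  {Eb : IntermediateField (kA A) (LaurentSeries (kA A))}
  (hj : jqModC Kb ∈ E) (hjb : jqModC (kA A) ∈ Eb) (D : PrimData A E Eb)

theorem gwRed_congr {f g : E} (hfg : f = g) (hf : f ∈ gwRing A E Eb)
    (hg : g ∈ gwRing A E Eb) : gwRed A E Eb ⟨f, hf⟩ = gwRed A E Eb ⟨g, hg⟩ := by
  subst hfg
  rfl

theorem g_thetaE_pow_mem (i : ℕ) : D.thetaE ^ i ∈ gwRing A E Eb :=
  mem_gwRing_of_incl A E Eb _ (D.θ ^ i) (by rw [map_pow]; rfl)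

theorem g_gwRed_thetaE_pow (i : ℕ) :
    gwRed A E Eb ⟨D.thetaE ^ i, g_thetaE_pow_mem D i⟩ = (red A D.θ) ^ i :=
  (gwRed_of_incl A E Eb (D.thetaE ^ i) (D.θ ^ i) (by rw [map_pow]; rfl)).trans (map_pow _ _ _)

theorem g_gBasis_mem (i : Fin D.Φ.natDegree) : gBasis hj D i ∈ gwRing A E Eb := by
  rw [gBasis_apply]
  exact g_thetaE_pow_mem D i

theorem g_gwRed_gBasis (i : Fin D.Φ.natDegree) (hb : gBasis hj D i ∈ gwRing A E Eb) :
    gwRed A E Eb ⟨gBasis hj D i, hb⟩ = (red A D.θ) ^ (i : ℕ) :=
  (gwRed_congr (gBasis_apply hj D i) hb (g_thetaE_pow_mem D i)).trans (g_gwRed_thetaE_pow D i)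

include hjb in
/-- **orthonormality**: a combination `∑ cᵢ θ^i` with `w`-integral coefficients `cᵢ ∈ ℚ̄(j)`
which reduces to `0` has all its coefficients reducing to `0`. -/
theorem g_gwRed_coeff_eq_zero (c : Fin D.Φ.natDegree → Kb⟮jEl E hj⟯)
    (hc : ∀ i, algebraMap Kb⟮jEl E hj⟯ E (c i) ∈ gwRing A E Eb)
    (hb : ∀ i, gBasis hj D i ∈ gwRing A E Eb)
    (h0 : ∑ i, gwRed A E Eb ⟨algebraMap Kb⟮jEl E hj⟯ E (c i), hc i⟩ *
      gwRed A E Eb ⟨gBasis hj D i, hb i⟩ = 0) (i : Fin D.Φ.natDegree) :
    gwRed A E Eb ⟨algebraMap Kb⟮jEl E hj⟯ E (c i), hc i⟩ = 0 := by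
  have hmem : ∀ k, gwRed A E Eb ⟨algebraMap Kb⟮jEl E hj⟯ E (c k), hc k⟩ ∈ (kA A)⟮jBar A⟯ :=
    fun k => g_gwRed_mem A E Eb hj hjb (c k) (hc k)
  set d : Fin D.Φ.natDegree → (kA A)⟮jBar A⟯ := fun k => ⟨_, hmem k⟩ with hd
  have hsum : ∑ k, d k • (red A D.θ) ^ (k : ℕ) = 0 := by
    rw [← h0]
    refine Finset.sum_congr rfl fun k _ => ?_
    rw [g_gwRed_gBasis hj D k (hb k), Algebra.smul_def]
    rfl
  have h1 := Fintype.linearIndependent_iff.mp D.linearIndependent_pow_bar d hsum i
  have h2 := congrArg Subtype.val h1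
  exact h2

include hjb in
/-- the abstract hypotheses of orthonormality hold for `(gwRing, gwRed, θ^i)` -/
theorem g_orthData : OrthData (gwRing A E Eb) (gwRed A E Eb) (gBasis hj D) where
  val h := by
    rcases g_mem_or_inv A E Eb hj hjb h with h1 | h1
    · exact Or.inl h1
    · right
      rw [map_inv₀]
      exact h1
  ker h hh hinv := by
    refine g_gwRed_eq_zero A E Eb hj hjb h hh ?_
    intro h1
    apply hinv
    rw [map_inv₀]
    exact h1
  mem i := g_gBasis_mem hj D i
  li c hc h0 i :=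
    g_gwRed_coeff_eq_zero hj hjb D c hc (fun i => g_gBasis_mem hj D i) h0 i

end Orth

/-! ### The theorem -/

section Main

variable (A : ValuationSubring Kb) (E : IntermediateField Kb (LaurentSeries Kb))
  (Eb : IntermediateField (kA A) (LaurentSeries (kA A)))
  (hj : jqModC Kb ∈ E) (hjb : jqModC (kA A) ∈ Eb)

/-- the structure map `A[X] → E`, `X ↦ j` -/
def gevX : Polynomial A →+* E :=
  eval₂RingHom ((algebraMap Kb E).comp A.subtype) (jEl E hj)

theorem gevX_C (a : A) : gevX A E hj (C a) = algebraMap Kb E (a : Kb) := by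
  simp [gevX]

theorem gevX_X : gevX A E hj X = jEl E hj := by
  simp [gevX]

theorem g_coe_evX (p : Polynomial A) :
    ((gevX A E hj p : E) : LaurentSeries Kb) = incl A (aeval (jA A) p) := by
  have : (algebraMap E (LaurentSeries Kb)).comp (gevX A E hj) =
      (coeffMap A.subtype).comp
        ((aeval (jA A) : Polynomial A →ₐ[A] LaurentSeries A) : Polynomial A →+* LaurentSeries A) := by
    apply Polynomial.ringHom_ext
    · intro a
      simp only [RingHom.coe_comp, Function.comp_apply, gevX_C, RingHom.coe_coe, aeval_C]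
      rw [helper25.coeffMap_algebraMap_laurent]
      rfl
    · simp only [RingHom.coe_comp, Function.comp_apply, gevX_X, RingHom.coe_coe, aeval_X]
      rw [helper81.coeffMap_jA]
      rfl
  exact congrArg (fun g => g p) this

theorem g_coe_evX' (p : Polynomial A) :
    ((gevX A E hj p : E) : LaurentSeries Kb) = aeval jK (p.map A.subtype) := by
  rw [g_coe_evX, helper25.coeffMap_aeval, helper81.coeffMap_jA]

/-- the coercion `E → ℚ̄((q))` as a ring homomorphism -/
def gvF : E →+* LaurentSeries Kb := E.val.toRingHom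

theorem gvF_apply (f : E) : gvF E f = (f : LaurentSeries Kb) := rfl

theorem gvF_injective : Function.Injective (gvF E) := Subtype.val_injective

theorem gvF_evX (p : Polynomial A) : gvF E (gevX A E hj p) = incl A (aeval (jA A) p) :=
  g_coe_evX A E hj p

/-- `ℚ̄[j]` is integrally closed in `ℚ̄(j)` -/
theorem g_exists_of_isIntegral_adjoin (x : Kb⟮jEl E hj⟯)
    (hx : IsIntegral (Algebra.adjoin Kb {jEl E hj}) x) :
    ∃ r : Algebra.adjoin Kb {jEl E hj}, algebraMap _ Kb⟮jEl E hj⟯ r = x :=
  IsIntegrallyClosed.isIntegral_iff.mp hx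

theorem gvF_aeval (P : Polynomial Kb) : gvF E (aeval (jEl E hj) P) = aeval jK P := by
  have h := Polynomial.aeval_algHom_apply E.val (jEl E hj) P
  exact h.symm

variable {A E Eb} (D : PrimData A E Eb)

include hjb in
/-- the coefficients of the characteristic polynomial of an integral `w`-integral function are
polynomials in `j` with coefficients in `A` -/
theorem g_exists_poly_charpoly_coeff (Hf : E) (hHw : Hf ∈ gwRing A E Eb)
    (hint : IsIntegral (Algebra.adjoin Kb {jEl E hj}) Hf)
    (χ' : Polynomial (g_orthData hj hjb D).valSubring.toSubring)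
    (hχ' : χ'.map (g_orthData hj hjb D).valSubring.toSubring.subtype =
      (Algebra.leftMulMatrix (gBasis hj D) Hf).charpoly) (i : ℕ) :
    ∃ p : Polynomial A,
      algebraMap Kb⟮jEl E hj⟯ E ((Algebra.leftMulMatrix (gBasis hj D) Hf).charpoly.coeff i) =
        gevX A E hj p := by
  haveI := D.finiteDimensional hj
  obtain ⟨r, hr⟩ := helper50.charpoly_coeff_mem_of_isIntegral Kb (gBasis hj D)
    (g_exists_of_isIntegral_adjoin E hj) hint i
  have hrF : ∀ y : E, y ∈ Algebra.adjoin Kb {jEl E hj} → ∃ P : Polynomial Kb,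
      aeval (jEl E hj) P = y := by
    intro y hy
    rw [Algebra.adjoin_singleton_eq_range_aeval] at hy
    exact hy
  obtain ⟨P, hP⟩ := hrF r r.2
  have hP' : aeval (jEl E hj) P = (r : E) := hP
  have h1 : algebraMap Kb⟮jEl E hj⟯ E
      ((Algebra.leftMulMatrix (gBasis hj D) Hf).charpoly.coeff i) = aeval (jEl E hj) P := by
    rw [← hr, hP']
    rfl
  have hw : IsWInt A E Eb (aeval jK P) := by
    rw [← gvF_aeval E hj, ← h1, ← hχ', Polynomial.coeff_map]
    exact (χ'.coeff i).2
  obtain ⟨p, hp⟩ := g_exists_poly_of_isWInt A E Eb P hw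
  refine ⟨p, ?_⟩
  apply gvF_injective E
  rw [h1, gvF_aeval, gvF_apply, g_coe_evX', hp]

include hjb D in
/-- **[ROOT-V]** from the data of a primitive element. -/
theorem rootV_of_primData : RootVStatement_G A E hj := by
  intro H hH hint hred
  haveI := D.finiteDimensional hj
  set Hf : E := ⟨incl A H, hH⟩ with hHf
  have hvH : gvF E Hf = incl A H := rfl
  have OD := g_orthData hj hjb D
  have hHw : Hf ∈ gwRing A E Eb := mem_gwRing_of_incl A E Eb Hf H rfl
  have hH1 : gwRed A E Eb ⟨Hf, hHw⟩ = 1 := by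
    rw [gwRed_of_incl A E Eb Hf H rfl]
    exact hred
  obtain ⟨χ', hχ', hχ1⟩ := (g_orthData hj hjb D).exists_charpoly hHw hH1
  set χ := (Algebra.leftMulMatrix (gBasis hj D) Hf).charpoly with hχ
  have hcoef := g_exists_poly_charpoly_coeff hj hjb D Hf hHw hint χ' hχ'
  choose p hp using hcoef
  set n := D.Φ.natDegree with hn
  have hdegχ : χ.natDegree = n := by
    rw [hχ, Matrix.charpoly_natDegree_eq_dim, Fintype.card_fin]
  -- Cayley-Hamilton
  have hCH : ∑ i ∈ Finset.range (n + 1), aeval (jA A) (p i) * H ^ i = 0 := by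
    apply helper81.coeffMap_subtype_injective A
    have h1 := helper50.aeval_charpoly_leftMulMatrix (gBasis hj D) Hf
    rw [← hχ, Polynomial.aeval_eq_sum_range, hdegχ] at h1
    have h2 := congrArg (gvF E) h1
    rw [map_sum, map_zero] at h2
    rw [map_sum, map_zero, ← h2]
    refine Finset.sum_congr rfl fun i _ => ?_
    rw [Algebra.smul_def, hp i, map_mul, map_mul, map_pow, map_pow, gvF_evX, hvH]
  rw [Finset.sum_range_succ', pow_zero, mul_one] at hCH
  -- the reduction of the constant coefficient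
  have hp0 : (p 0).map (IsLocalRing.residue A) = (-1) ^ n := by
    have h1 : gwRed A E Eb ⟨algebraMap Kb⟮jEl E hj⟯ E (χ.coeff 0),
        by rw [← hχ', Polynomial.coeff_map]; exact (χ'.coeff 0).2⟩ = (-1) ^ n := by
      have h2 : (χ'.map (g_orthData hj hjb D).rE).coeff 0 = (-1) ^ n := by
        rw [hχ1, Fintype.card_fin, Polynomial.coeff_zero_eq_eval_zero, Polynomial.eval_pow,
          Polynomial.eval_sub, Polynomial.eval_X, Polynomial.eval_one, zero_sub]
      rw [Polynomial.coeff_map, OrthData.rE_apply] at h2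
      rw [← h2]
      congr 2
      rw [← hχ', Polynomial.coeff_map]
      rfl
    have h3 : gwRed A E Eb ⟨algebraMap Kb⟮jEl E hj⟯ E (χ.coeff 0),
        by rw [← hχ', Polynomial.coeff_map]; exact (χ'.coeff 0).2⟩ =
        red A (aeval (jA A) (p 0)) :=
      gwRed_of_incl A E Eb (algebraMap Kb⟮jEl E hj⟯ E (χ.coeff 0)) (aeval (jA A) (p 0))
        ((congrArg (gvF E) (hp 0)).trans (gvF_evX A E hj (p 0))).symm
    rw [h3, helper81.red_aeval] at h1
    apply transcendental_iff_injective.mp (helper81.transcendental_jBar A)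
    rw [h1, map_pow, map_neg, map_one]
  refine ⟨(-1) ^ n * p 0, (-1) ^ (n + 1) * ∑ i ∈ Finset.range n, aeval (jA A) (p (i + 1)) * H ^ i,
    ?_, ?_, ?_, ?_⟩
  · rw [Polynomial.map_mul, Polynomial.map_pow, Polynomial.map_neg, Polynomial.map_one, hp0,
      ← mul_pow, neg_one_mul, neg_neg, one_pow]
  · have h1 := helper50.norm_eq_sign_charpoly_coeff (gBasis hj D) Hf
    rw [Fintype.card_fin, ← hχ] at h1
    rw [h1, map_mul, map_pow, map_neg, map_one, hp 0]
    show gvF E ((-1) ^ n * gevX A E hj (p 0)) = _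
    rw [map_mul, map_pow, map_neg, map_one, gvF_evX]
    show _ = coeffMap A.subtype (aeval (jA A) ((-1) ^ n * p 0))
    rw [map_mul, map_pow, map_neg, map_one, map_mul, map_pow, map_neg, map_one]
  · have h1 : (∑ i ∈ Finset.range n, aeval (jA A) (p (i + 1)) * H ^ i) * H =
        - aeval (jA A) (p 0) := by
      rw [Finset.sum_mul, eq_neg_iff_add_eq_zero, ← hCH]
      congr 1
      refine Finset.sum_congr rfl fun i _ => ?_
      rw [pow_succ, mul_assoc]
    show _ = aeval (jA A) ((-1) ^ n * p 0)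
    rw [mul_assoc, h1, map_mul, map_pow, map_neg, map_one, pow_succ]
    ring
  · have h1 : (∑ i ∈ Finset.range n, aeval (jA A) (p (i + 1)) * H ^ i) * H =
        - aeval (jA A) (p 0) := by
      rw [Finset.sum_mul, eq_neg_iff_add_eq_zero, ← hCH]
      congr 1
      refine Finset.sum_congr rfl fun i _ => ?_
      rw [pow_succ, mul_assoc]
    have h2 : ((-1) ^ (n + 1) * ∑ i ∈ Finset.range n, aeval (jA A) (p (i + 1)) * H ^ i) * H =
        aeval (jA A) ((-1) ^ n * p 0) := by
      rw [mul_assoc, h1, map_mul, map_pow, map_neg, map_one, pow_succ]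
      ring
    have h3 := congrArg (red A) h2
    have hredH : red A H = 1 := hred
    rw [map_mul, hredH, mul_one, helper81.red_aeval, Polynomial.map_mul, Polynomial.map_pow,
      Polynomial.map_neg, Polynomial.map_one, hp0, ← mul_pow, neg_one_mul, neg_neg, one_pow,
      map_one] at h3
    exact h3

end Main

/-- **[ROOT-V]**, generic: `RootVStatement_G` from `helper4.PrimStatement`. -/
theorem rootV_G (A : ValuationSubring Kb) (E : IntermediateField Kb (LaurentSeries Kb))
    (Eb : IntermediateField (kA A) (LaurentSeries (kA A)))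
    (hj : jqModC Kb ∈ E) (h : PrimStatement A E Eb) : RootVStatement_G A E hj := by
  obtain ⟨θ, Φ, hm, hroot, hE, hEb, hirr, hirrb, -⟩ := h
  have hjb : jqModC (kA A) ∈ Eb := by
    have h1 : jqModC (kA A) ∈ IntermediateField.adjoin (kA A) {jqModC (kA A), red A θ} :=
      IntermediateField.subset_adjoin _ _ (Set.mem_insert _ _)
    rw [← hEb] at h1
    exact h1
  exact rootV_of_primData hj hjb ⟨θ, Φ, hm, hroot, hE, hEb, hirr, hirrb⟩

end Fermat.Agent.T4.helper50

end
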