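import Fermat.Agent.T4.helper4_RedDefs

/-!
# T4 (I), I-RED, box [ROOT-V] (helper50): the generic statement

`RootVStatement_G A E hj` : the statement of P2 `helper50.RootVStatement` for an arbitrary function
field `E ⊆ ℚ̄((q))` containing `j` (`FF M ↦ E`, `xJ M ↦ helper4.jEl E hj`):
for an integral series `H` which lies in `E`, is integral over `ℚ̄[j]` and reduces to `1`, the norm
`N_{E/ℚ̄(j)}(H)` is `N₀(j)` for a polynomial `N₀ ∈ A[X]` with `N₀ ≡ 1` modulo the maximal ideal,
and `U = N₀(j) / H` is an integral series with reduction `1`.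

The theorem `rootV_G : PrimStatement A E Eb hj hjb → RootVStatement_G A E hj` is in
`helper50_RootVG.lean`.
-/

set_option autoImplicit false

noncomputable section

open HahnSeries IntermediateField ModularCurve Polynomial
open Fermat.Agent.S18.helper19 (Kb kA)
open Fermat.Agent.P2.helper29 (incl red)

namespace Fermat.Agent.T4.helper50

open Fermat.Agent.T4.helper4

/-- **[ROOT-V]**, generic form (P2 `helper50.RootVStatement` with `FF M ↦ E`, `xJ M ↦ jEl E hj`). -/
def RootVStatement_G (A : ValuationSubring Kb) (E : IntermediateField Kb (LaurentSeries Kb))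
    (hj : jqModC Kb ∈ E) : Prop :=
  ∀ (H : LaurentSeries A) (hH : incl A H ∈ E),
    IsIntegral (Algebra.adjoin Kb {jEl E hj}) (⟨incl A H, hH⟩ : E) → red A H = 1 →
    ∃ (N₀ : Polynomial A) (U : LaurentSeries A),
      N₀.map (IsLocalRing.residue A) = 1 ∧
      ((algebraMap Kb⟮jEl E hj⟯ E (Algebra.norm Kb⟮jEl E hj⟯ (⟨incl A H, hH⟩ : E)) : E) :
          LaurentSeries Kb) = incl A (aeval (jqModC A) N₀) ∧
      U * H = aeval (jqModC A) N₀ ∧ red A U = 1

end Fermat.Agent.T4.helper50

end
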