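import Mathlib
import Fermat.Agent.P2.helper98_RootN
import Fermat.Agent.P2.helper44_RootAsm
import Fermat.Agent.T4.helper4_RedDefs
import Fermat.Agent.T4.helper61_RedInfty

/-!
# T4 block (I), I-RED box [ROOT] (helper61): GENERIC [ROOT-N] and the assembly of [ROOT]

Port of P2 `helper98_RootN` (Part 3), `helper44_RootFinal`, `helper44_RootNFinal` to an arbitrary
intermediate field `E` of `ℚ̄((q))` containing `j` (`hj : jqModC Kb ∈ E`), finite over `ℚ̄(j)`.

* `RootNStatementG E hj m`, `RootVStatementG A E hj` : the statements of P2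
  (`helper44.RootNStatement`, `helper50.RootVStatement`) with `FF M` replaced by `E` and `xJ M`
  by `helper4.jEl E hj`.
* `transcendental_jEl` : `j` is transcendental over `ℚ̄` in `E` (no hypothesis).
* `rootN_ffG`, `rootNG` : helper98's `rootN_ff`, `rootN` for `E`.
* `rootNStatementG` : `RootNStatementG E hj m` for `m ≠ 0` (only `E / ℚ̄(j)` finite).
* `rootStatementG` : `RootVStatementG A E hj → helper4.RootStatement A E m` for `m` a unit
  of `A`; `rootStatementG_of_deg` : the same from `helper4.DegStatement`.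
* `jEl_FF_eq_xJ` : for `E = FF M`, `jEl` is `xJ M`.
-/

set_option autoImplicit false
set_option linter.unusedSectionVars false
set_option linter.style.haveILetI false
set_option linter.deprecated false

open AlgebraicCurve IntermediateField IsDedekindDomain Polynomial ModularCurve
open scoped IntermediateField.algebraAdjoinAdjoin
open Fermat.Agent.S24 Fermat.Agent.S24.helper75
open Fermat.Agent.S18.helper19 (Kb kA FF FFb)
open Fermat.Agent.P2.helper29 (incl red IsInfty InL)
open Fermat.Agent.T4.helper4 (jEl DivDvd RootStatement DegStatement)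

noncomputable section

namespace Fermat.Agent.T4.helper61

section Statements

variable (A : ValuationSubring Kb) (E : IntermediateField Kb (LaurentSeries Kb))
  (hj : jqModC Kb ∈ E)

/-- **[ROOT-N]**, generic form (P2 `helper44.RootNStatement` with `FF M → E`, `xJ M → jEl E hj`):
for `H ∈ L(n ∞)`, `H ≠ 0`, `m ∣ div H`: `H` is integral over `ℚ̄[j]`, the norm `N_{E/ℚ̄(j)}(H)` is
`c * R(j) ^ m` and `m * deg R ≤` pole order of `H` at infinity. -/
def RootNStatementG (m : ℕ) : Prop :=
  ∀ (H : LaurentSeries Kb) (n : ℤ) (hL : InL E n H), H ≠ 0 → DivDvd E m H →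
    IsIntegral (Algebra.adjoin Kb {jEl E hj}) (⟨H, hL.1⟩ : E) ∧
    ∃ (c : Kb) (R : Polynomial Kb),
      ((algebraMap Kb⟮jEl E hj⟯ E (Algebra.norm Kb⟮jEl E hj⟯ (⟨H, hL.1⟩ : E)) : E) :
          LaurentSeries Kb) =
        algebraMap Kb (LaurentSeries Kb) c * (Polynomial.aeval (jqModC Kb) R) ^ m ∧
      ((m * R.natDegree : ℕ) : ℤ) ≤ -H.order

/-- **[ROOT-V]**, generic form (P2 `helper50.RootVStatement` with `FF M → E`,
`xJ M → jEl E hj`). -/
def RootVStatementG : Prop :=
  ∀ (H : LaurentSeries A) (hH : incl A H ∈ E),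
    IsIntegral (Algebra.adjoin Kb {jEl E hj}) (⟨incl A H, hH⟩ : E) → red A H = 1 →
    ∃ (N₀ : Polynomial A) (U : LaurentSeries A),
      N₀.map (IsLocalRing.residue A) = 1 ∧
      ((algebraMap Kb⟮jEl E hj⟯ E (Algebra.norm Kb⟮jEl E hj⟯ (⟨incl A H, hH⟩ : E)) : E) :
          LaurentSeries Kb) = incl A (aeval (jqModC A) N₀) ∧
      U * H = aeval (jqModC A) N₀ ∧ red A U = 1

end Statements

section Port

variable (E : IntermediateField Kb (LaurentSeries Kb)) (hj : jqModC Kb ∈ E)

theorem coe_jEl : ((jEl E hj : E) : LaurentSeries Kb) = jqModC Kb := rfl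

theorem order_jEl : ((jEl E hj : E) : LaurentSeries Kb).order = -1 := by
  rw [coe_jEl, Fermat.Agent.P2.helper29.order_jqModC]

theorem jEl_ne_zero : jEl E hj ≠ 0 := by
  intro h
  have h1 := order_jEl E hj
  rw [h] at h1
  simp at h1

theorem coe_aeval_jEl (R : Polynomial Kb) :
    ((aeval (jEl E hj) R : E) : LaurentSeries Kb) = aeval (jqModC Kb) R := by
  rw [← coe_jEl E hj]
  exact (Polynomial.aeval_algHom_apply E.val (jEl E hj) R).symm

/-- `j` is transcendental over `ℚ̄` in every intermediate field of `ℚ̄((q))` containing it. -/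
theorem transcendental_jEl : Transcendental Kb (jEl E hj) := by
  rw [transcendental_iff_injective]
  intro p r hpr
  apply Fermat.Agent.P2.helper44.aeval_jqModC_injective (R := Kb)
  rw [← coe_aeval_jEl E hj, ← coe_aeval_jEl E hj, hpr]

variable {E} {hj}

/-- at a place at infinity `j` has a pole -/
theorem ord_jEl_neg_of_isInfty {P : Place Kb E} (hP : IsInfty P) :
    P.ord (jEl E hj) < 0 := by
  rw [hP _ (jEl_ne_zero E hj), order_jEl]
  norm_num

variable (E) (hj)

/-- **[ROOT-N]**, function field form, generic. -/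
theorem rootN_ffG [FiniteDimensional Kb⟮jEl E hj⟯ E] (m : ℕ) (hm : m ≠ 0) (H : E) (hH0 : H ≠ 0)
    (hreg : ∀ P : Place Kb E, ¬ IsInfty P → 0 ≤ P.ord H)
    (hdiv : ∀ P : Place Kb E, (m : ℤ) ∣ P.ord H) :
    ∃ (c : Kb) (R : Polynomial Kb) (U : E), c ≠ 0 ∧ R.Monic ∧
      algebraMap Kb⟮jEl E hj⟯ E (Algebra.norm Kb⟮jEl E hj⟯ H)
        = algebraMap Kb E c * (aeval (jEl E hj) R) ^ m ∧
      ((m * R.natDegree : ℕ) : ℤ) ≤ -(H : LaurentSeries Kb).order ∧
      IsIntegral (polyRing (K := Kb) (jEl E hj)) U ∧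
      H * U = algebraMap Kb⟮jEl E hj⟯ E (Algebra.norm Kb⟮jEl E hj⟯ H) := by
  classical
  have hx : Transcendental Kb (jEl E hj) := transcendental_jEl E hj
  have hreg' : ∀ P : Place Kb E, 0 ≤ P.ord (jEl E hj) → 0 ≤ P.ord H := by
    intro P hP
    by_cases hinf : IsInfty P
    · have := ord_jEl_neg_of_isInfty (hj := hj) hinf
      omega
    · exact hreg P hinf
  obtain ⟨c, R, hc, hR, hN, hdeg⟩ :=
    Fermat.Agent.P2.helper98.norm_eq_const_mul_pow (jEl E hj) hx H hH0 hreg' m hm
      (fun P _ => hdiv P)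
  obtain ⟨U, hU, hHU⟩ := Fermat.Agent.P2.helper98.exists_cofactor (jEl E hj) hx H
    (Fermat.Agent.P2.helper98.isIntegral_of_regular (jEl E hj) hx H hreg')
  refine ⟨c, R, U, hc, hR, hN, ?_, hU, hHU⟩
  rw [hdeg, neg_le_neg_iff]
  obtain ⟨Pinf, hinf⟩ := exists_isInfty_of_mem E hj
  have hmem : Pinf ∈ (ff_finite_poles (jEl E hj) hx).toFinset := by
    rw [Set.Finite.mem_toFinset]
    exact ord_jEl_neg_of_isInfty (hj := hj) hinf
  have hsplit := Finset.add_sum_erase (ff_finite_poles (jEl E hj) hx).toFinset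
    (fun P : Place Kb E => P.ord H) hmem
  have hnn : 0 ≤ ∑ P ∈ ((ff_finite_poles (jEl E hj) hx).toFinset).erase Pinf, P.ord H := by
    refine Finset.sum_nonneg fun P hP => ?_
    rw [Finset.mem_erase] at hP
    exact hreg P (fun h => hP.1 (Fermat.Agent.P2.helper29.IsInfty.unique _ h hinf))
  have hord : Pinf.ord H = (H : LaurentSeries Kb).order := hinf H hH0
  rw [← hsplit, hord]
  exact le_add_of_nonneg_right hnn

/-- the `q`-expansion of the norm of `H` from `E` to `ℚ̄(j)` -/
def normSeriesG (H : E) : LaurentSeries Kb :=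
  ((algebraMap Kb⟮jEl E hj⟯ E (Algebra.norm Kb⟮jEl E hj⟯ H) : E) : LaurentSeries Kb)

/-- **[ROOT-N]**, generic: for `H ∈ L(n ∞)`, `H ≠ 0`, with divisor divisible by `m`: the norm `N`
of `H` to `ℚ̄(j)` is `c * R(j) ^ m` with `R` monic, `m * deg R ≤ -ord_q H ≤ n`, and `N = H * U`
with `U` integral over `ℚ̄[j]`. -/
theorem rootNG [FiniteDimensional Kb⟮jEl E hj⟯ E] (m : ℕ) (hm : m ≠ 0) (H : LaurentSeries Kb)
    (n : ℤ) (hL : InL E n H) (hH0 : H ≠ 0) (hdiv : DivDvd E m H) :
    ∃ (c : Kb) (R : Polynomial Kb) (U : LaurentSeries Kb), c ≠ 0 ∧ R.Monic ∧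
      normSeriesG E hj ⟨H, hL.1⟩
        = algebraMap Kb (LaurentSeries Kb) c * (Polynomial.aeval (jqModC Kb) R) ^ m ∧
      ((m * R.natDegree : ℕ) : ℤ) ≤ -H.order ∧ -H.order ≤ n ∧
      (∃ hU : U ∈ E, IsIntegral (polyRing (K := Kb) (jEl E hj)) (⟨U, hU⟩ : E)) ∧
      H * U = normSeriesG E hj ⟨H, hL.1⟩ := by
  obtain ⟨hf, hreg, hcoeff⟩ := hL
  have hf0 : (⟨H, hf⟩ : E) ≠ 0 := fun h => hH0 (congrArg Subtype.val h)
  obtain ⟨c, R, U, hc, hR, hN, hdeg, hU, hHU⟩ :=
    rootN_ffG E hj m hm ⟨H, hf⟩ hf0 hreg (fun P => hdiv hf P)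
  refine ⟨c, R, (U : LaurentSeries Kb), hc, hR, ?_, hdeg, ?_, ⟨U.2, hU⟩, ?_⟩
  · have h1 := congrArg (fun f : E => (f : LaurentSeries Kb)) hN
    simp only [MulMemClass.coe_mul, SubmonoidClass.coe_pow] at h1
    rw [coe_aeval_jEl] at h1
    exact h1
  · have := (Fermat.Agent.P2.helper29.coeff_eq_zero_iff_le_order hH0).mp hcoeff
    omega
  · have h1 := congrArg (fun f : E => (f : LaurentSeries Kb)) hHU
    simp only [MulMemClass.coe_mul] at h1
    exact h1

/-- `j` has a simple pole at a place at infinity -/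
theorem ord_jEl_of_isInfty (P : Place Kb E) (hP : IsInfty P) : P.ord (jEl E hj) = -1 := by
  rw [hP (jEl E hj) (jEl_ne_zero E hj)]
  exact order_jEl E hj

/-- a function in `L(n ∞)` is regular at all places where `j` is finite -/
theorem inL_regularG {H : LaurentSeries Kb} {n : ℤ}
    (hL : InL E n H) (P : Place Kb E) (hP : 0 ≤ P.ord (jEl E hj)) :
    0 ≤ P.ord (⟨H, hL.1⟩ : E) := by
  obtain ⟨hf, hreg, -⟩ := hL
  apply hreg P
  intro hInf
  rw [ord_jEl_of_isInfty E hj P hInf] at hP
  omega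

/-- **[ROOT-N]** in the form consumed by the assembly: holds as soon as `E / ℚ̄(j)` is
finite. -/
theorem rootNStatementG (hfd : FiniteDimensional Kb⟮jEl E hj⟯ E) (m : ℕ) (hm : m ≠ 0) :
    RootNStatementG E hj m := by
  intro H n hL hH0 hdiv
  have hx : Transcendental Kb (jEl E hj) := transcendental_jEl E hj
  refine ⟨Fermat.Agent.P2.helper98.isIntegral_of_regular (jEl E hj) hx (⟨H, hL.1⟩ : E)
    (fun P hP => inL_regularG E hj hL P hP), ?_⟩
  obtain ⟨c, R, U, -, -, h1, h2, -, -, -⟩ := rootNG E hj m hm H n hL hH0 hdiv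
  exact ⟨c, R, h1, h2⟩

end Port

section Assembly

variable (A : ValuationSubring Kb) (E : IntermediateField Kb (LaurentSeries Kb))
  (hj : jqModC Kb ∈ E)

/-- [ROOT-V] + [ROOT-N] give the input of the assembly (generic). -/
theorem rootInput_of_rootV_rootNG (m : ℕ)
    (hV : RootVStatementG A E hj) (hN : RootNStatementG E hj m)
    (H : LaurentSeries A) (n : ℤ) (hL : InL E n (incl A H)) (hred : red A H = 1)
    (hdiv : DivDvd E m (incl A H)) : Fermat.Agent.P2.helper44.RootInput A m H := by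
  have hH0 : incl A H ≠ 0 := by
    intro h0
    have h1 : H = 0 :=
      (Fermat.Agent.P2.helper44.coeffMap_eq_zero_iff_of_inj _ Subtype.val_injective H).1 h0
    rw [h1, map_zero] at hred
    exact zero_ne_one hred
  obtain ⟨hint, c, R, hnorm, hdeg⟩ := hN (incl A H) n hL hH0 hdiv
  obtain ⟨N₀, U, hN₀red, hN₀, hUH, hU⟩ := hV H hL.1 hint hred
  have hmap : N₀.map A.subtype = Polynomial.C c * R ^ m := by
    apply Fermat.Agent.P2.helper44.aeval_jqModC_injective (R := Kb)
    rw [← Fermat.Agent.P2.helper44.coeffMap_aeval_jqModC]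
    have h1 : coeffMap A.subtype (Polynomial.aeval (jqModC A) N₀) =
        incl A (Polynomial.aeval (jqModC A) N₀) := rfl
    rw [h1, ← hN₀, hnorm, map_mul, map_pow, Polynomial.aeval_C]
  refine ⟨N₀, c, R, U, hmap, hN₀red, hU, hUH, ?_⟩
  have h2 : N₀.natDegree ≤ m * R.natDegree := by
    rw [← Polynomial.natDegree_map_eq_of_injective (f := A.subtype) Subtype.val_injective N₀,
      hmap]
    exact (Polynomial.natDegree_C_mul_le _ _).trans Polynomial.natDegree_pow_le
  have h3 : (N₀.natDegree : ℤ) ≤ ((m * R.natDegree : ℕ) : ℤ) := by exact_mod_cast h2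
  exact h3.trans hdeg

/-- **[ROOT]** from the input shape (generic). -/
theorem rootStatementG_of_rootInput (m : ℕ) (hm : IsUnit ((m : ℕ) : A))
    (hin : ∀ (H : LaurentSeries A) (n : ℤ), InL E n (incl A H) → red A H = 1 →
      DivDvd E m (incl A H) → Fermat.Agent.P2.helper44.RootInput A m H) :
    RootStatement A E m := by
  intro H n hL hred hdiv
  exact Fermat.Agent.P2.helper44.exists_root_of_rootInput A m hm H (hin H n hL hred hdiv)

/-- **[ROOT]** from [ROOT-V] and [ROOT-N] (generic). -/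
theorem rootStatementG_of_rootV_rootN (m : ℕ) (hm : IsUnit ((m : ℕ) : A))
    (hV : RootVStatementG A E hj) (hN : RootNStatementG E hj m) : RootStatement A E m :=
  rootStatementG_of_rootInput A E m hm
    (fun H n hL hred hdiv => rootInput_of_rootV_rootNG A E hj m hV hN H n hL hred hdiv)

/-- **[ROOT]** from [ROOT-V] alone, for `E` finite over `ℚ̄(j)` and `m` a unit of `A`. -/
theorem rootStatementG (m : ℕ) (hm : IsUnit ((m : ℕ) : A))
    (hfd : FiniteDimensional Kb⟮jEl E hj⟯ E) (hV : RootVStatementG A E hj) :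
    RootStatement A E m := by
  have hm0 : m ≠ 0 := by
    rintro rfl
    rw [Nat.cast_zero] at hm
    exact not_isUnit_zero hm
  exact rootStatementG_of_rootV_rootN A E hj m hm hV (rootNStatementG E hj hfd m hm0)

/-- **[ROOT]** from [ROOT-V] and [DEG]. -/
theorem rootStatementG_of_deg (Eb : IntermediateField (kA A) (LaurentSeries (kA A)))
    (hjb : jqModC (kA A) ∈ Eb) (m : ℕ) (hm : IsUnit ((m : ℕ) : A))
    (hDeg : DegStatement A E Eb hj hjb) (hV : RootVStatementG A E hj) :
    RootStatement A E m :=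
  rootStatementG A E hj m hm hDeg.1 hV

end Assembly

/-! ### Bridge: for `E = FF M` these are the P2 statements -/

section BridgeP2

variable (M : ℕ) [NeZero M] (A : ValuationSubring Kb)

theorem jqModC_mem_FF : jqModC Kb ∈ FF M := (Fermat.Agent.P2.helper29.jElt M).2

theorem jEl_FF_eq_xJ : jEl (FF M) (jqModC_mem_FF M) = xJ M :=
  Subtype.ext (Fermat.Agent.P2.helper98.coe_xJ_eq_jqModC M).symm

end BridgeP2

end Fermat.Agent.T4.helper61

end
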