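import Mathlib
import Fermat.Agent.T4.helper61_RootG
import Fermat.Agent.T4.helper50_RootVGDefs

/-!
# T4 block (I), I-RED box [ROOT] (helper61): wiring to helper50's generic [ROOT-V] statement

`helper50.RootVStatement_G A E hj` is (definitionally) `helper61.RootVStatementG A E hj`; hence

* `rootStatement_of_rootV_G` : `helper50.RootVStatement_G A E hj → helper4.RootStatement A E m`
  for `E` finite over `ℚ̄(j)` and `m` a unit of `A`;
* `rootStatement_of_rootV_G_deg` : the same with finiteness taken from `helper4.DegStatement`.
-/

set_option autoImplicit false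

open IntermediateField ModularCurve
open Fermat.Agent.S18.helper19 (Kb kA)
open Fermat.Agent.T4.helper4 (jEl RootStatement DegStatement)

noncomputable section

namespace Fermat.Agent.T4.helper61

variable (A : ValuationSubring Kb) (E : IntermediateField Kb (LaurentSeries Kb))
  (hj : jqModC Kb ∈ E)

theorem rootVStatementG_iff :
    RootVStatementG A E hj ↔ Fermat.Agent.T4.helper50.RootVStatement_G A E hj := Iff.rfl

/-- **[ROOT]** from helper50's generic [ROOT-V], for `E` finite over `ℚ̄(j)`. -/
theorem rootStatement_of_rootV_G (m : ℕ) (hm : IsUnit ((m : ℕ) : A))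
    (hfd : FiniteDimensional Kb⟮jEl E hj⟯ E)
    (hV : Fermat.Agent.T4.helper50.RootVStatement_G A E hj) : RootStatement A E m :=
  rootStatementG A E hj m hm hfd ((rootVStatementG_iff A E hj).mpr hV)

/-- **[ROOT]** from helper50's generic [ROOT-V] and [DEG]. -/
theorem rootStatement_of_rootV_G_deg (Eb : IntermediateField (kA A) (LaurentSeries (kA A)))
    (hjb : jqModC (kA A) ∈ Eb) (m : ℕ) (hm : IsUnit ((m : ℕ) : A))
    (hDeg : DegStatement A E Eb hj hjb)
    (hV : Fermat.Agent.T4.helper50.RootVStatement_G A E hj) : RootStatement A E m :=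
  rootStatement_of_rootV_G A E hj m hm hDeg.1 hV

end Fermat.Agent.T4.helper61

end
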