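import Mathlib
import Fermat.Agent.T4.helper61_RootGWire
import Fermat.Agent.T4.helper50_RootVG
import Fermat.Agent.T4.helper43_ValG

/-!
# T4 block (I), I-RED box [ROOT] (helper61): `RootStatement` from `PrimStatement` alone

* `jqModC_mem_of_prim`, `jqModC_mem_bar_of_prim` : `j ∈ E`, `j̃ ∈ Eb` from `PrimStatement`.
* `root_of_prim` : `helper4.PrimStatement A E Eb → helper4.RootStatement A E m` for every `m`
  which is a unit of `A` ([ROOT-V] = `helper50.rootV_G`, [DEG] = `helper43.deg_G`,
  [ROOT-N] + assembly = `helper61_RootG`).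
* `root1_of_prim` : the instance `(F1 M, F1b A M)`.
-/

set_option autoImplicit false

open IntermediateField ModularCurve
open Fermat.Agent.S18.helper19 (Kb kA)
open Fermat.Agent.P2.helper29 (incl red)
open Fermat.Agent.T4.helper4 (jEl RootStatement DegStatement PrimStatement F1b)
open Fermat.Agent.T4.helper32 (F1)

noncomputable section

namespace Fermat.Agent.T4.helper61

variable (A : ValuationSubring Kb) (E : IntermediateField Kb (LaurentSeries Kb))
  (Eb : IntermediateField (kA A) (LaurentSeries (kA A)))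

theorem jqModC_mem_of_prim (hP : PrimStatement A E Eb) : jqModC Kb ∈ E := by
  obtain ⟨θ, Φ, -, -, hE, -⟩ := hP
  rw [hE]
  exact IntermediateField.subset_adjoin _ _ (Set.mem_insert _ _)

theorem jqModC_mem_bar_of_prim (hP : PrimStatement A E Eb) : jqModC (kA A) ∈ Eb := by
  obtain ⟨θ, Φ, -, -, -, hEb, -⟩ := hP
  rw [hEb]
  exact IntermediateField.subset_adjoin _ _ (Set.mem_insert _ _)

/-- **[ROOT]** from **[PRIM]** alone. -/
theorem root_of_prim (m : ℕ) (hm : IsUnit ((m : ℕ) : A)) (hP : PrimStatement A E Eb) :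
    RootStatement A E m :=
  rootStatement_of_rootV_G_deg A E (jqModC_mem_of_prim A E Eb hP) Eb
    (jqModC_mem_bar_of_prim A E Eb hP) m hm
    (Fermat.Agent.T4.helper43.deg_G A E Eb _ _ hP)
    (Fermat.Agent.T4.helper50.rootV_G A E Eb _ hP)

/-- **[ROOT]** for `X₁(M)` from **[PRIM]** for `(F1 M, F1b A M)`. -/
theorem root1_of_prim (M : ℕ) (m : ℕ) (hm : IsUnit ((m : ℕ) : A))
    (hP : PrimStatement A (F1 M) (F1b A M)) : RootStatement A (F1 M) m :=
  root_of_prim A (F1 M) (F1b A M) m hm hP

end Fermat.Agent.T4.helper61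

end
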