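import Mathlib
import Fermat.Agent.T4.helper80_GenDict

/-!
# T4 block (I), I-FLD: [RAM1] over `ℂ`, generic (helper69)

For a family `A : helper80.Gen.Fam ι` of modular functions (containing `j`) with the degree
hypothesis `A.HasDegree`, whose stabiliser `A.stab` contains NO conjugate of `S` and of `S T`
(no elliptic points):

* `ramC_gen`  : every zero of `j - a` is simple, `a ≠ 0, 1728` (no hypothesis on the stabiliser);
* `ramC_zero` : every zero of `j` has order `3`;
* `ramC_1728` : every zero of `j - 1728` has order `2`.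

These are the ramification data of `A.F` over the `j`-line consumed by the Hurwitz genus formula
(`helper69.genus_of_jline`, `helper77.genus_of_torsionFree`).  Source:
`helper80.Gen.dict_interior_of` (generic port of the S24 chart dictionary) with the S24 local
data `helper48.meromorphicOrderAt_jan_sub`, `..._zero_rho`, `..._1728_I`.
-/

set_option autoImplicit false
set_option linter.unusedSectionVars false
set_option linter.unusedVariables false
set_option linter.style.longLine false

noncomputable section

open UpperHalfPlane ModularForm Filter Topology CongruenceSubgroup ModularCurve AlgebraicCurve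
open scoped MatrixGroups Manifold

namespace Fermat.Agent.T4.helper69

open Fermat.Agent.S24 Fermat.Agent.T4.helper80.Gen

/-- `Γ` contains no conjugate of `S` and no conjugate of `S T`: no elliptic points. -/
def NoEll (Γ : Subgroup SL(2, ℤ)) : Prop :=
  ∀ g : SL(2, ℤ), g⁻¹ * ModularGroup.S * g ∉ Γ ∧
    g⁻¹ * (ModularGroup.S * ModularGroup.T) * g ∉ Γ

variable {ι : Type*} (A : Fam ι)

/-- **[RAM-gen]** the zeros of `j - a` are simple for `a ≠ 0, 1728`. -/
theorem ramC_gen (hD : A.HasDegree) (a : ℂ) (h0 : a ≠ 0) (h1 : a ≠ 1728)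
    (w : Place ℂ A.F) (hw : 0 < w.ord (A.xJ - algebraMap ℂ A.F a)) :
    w.ord (A.xJ - algebraMap ℂ A.F a) = 1 := by
  obtain ⟨τ₀, hτ₀⟩ := helper48.jan_surjective a
  have h0' : helper48.jan τ₀ ≠ 0 := by rw [hτ₀]; exact h0
  have h1' : helper48.jan τ₀ ≠ 1728 := by rw [hτ₀]; exact h1
  have hord := helper48.meromorphicOrderAt_jan_sub τ₀ h0' h1'
  rw [hτ₀] at hord
  obtain ⟨g, d, hd, hdE, -, hdw, -⟩ := dict_interior_of A hD a τ₀ 1 one_pos
    (by exact_mod_cast hord) 1 (fun c => by simp)
    (fun k hk hk1 => by
      have := Nat.le_of_dvd one_pos hk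
      omega) w hw
  have hd1 : d = 1 := Nat.dvd_one.mp hdE
  subst hd1
  simpa using hdw

/-- **[RAM-0]** every zero of `j` has order `3` if the stabiliser contains no conjugate of
`S T`. -/
theorem ramC_zero (hD : A.HasDegree) (hno : NoEll A.stab)
    (w : Place ℂ A.F) (hw : 0 < w.ord (A.xJ - algebraMap ℂ A.F 0)) :
    w.ord (A.xJ - algebraMap ℂ A.F 0) = 3 := by
  have hord := helper48.meromorphicOrderAt_jan_sub_zero_rho
  obtain ⟨g, d, hd, hdE, hmem, hdw, -⟩ := dict_interior_of A hD 0 helper48.rho 3 (by norm_num)
    (by exact_mod_cast hord) (ModularGroup.S * ModularGroup.T)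
    (fun c => by rw [helper27.ST_cube]; exact neg_one_smul_quot A c)
    (fun k hk hk1 => by
      have hk3 : k = 3 := by
        have h3 : Nat.Prime 3 := by norm_num
        rcases (Nat.dvd_prime h3).mp hk with h | h
        · omega
        · exact h
      subst hk3
      rw [Nat.div_self (by norm_num), pow_one]
      exact ⟨helper48.STinv_smul_rho, helper48.isPrimitiveRoot_deriv_chartSL_STinv_rho⟩) w hw
  have h3 : Nat.Prime 3 := by norm_num
  rcases (Nat.dvd_prime h3).mp hdE with h | h
  · subst h
    simpa using hdw
  · subst h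
    rw [Nat.div_self (by norm_num), pow_one] at hmem
    exact absurd hmem (hno g).2

/-- **[RAM-1728]** every zero of `j - 1728` has order `2` if the stabiliser contains no
conjugate of `S`. -/
theorem ramC_1728 (hD : A.HasDegree) (hno : NoEll A.stab)
    (w : Place ℂ A.F) (hw : 0 < w.ord (A.xJ - algebraMap ℂ A.F 1728)) :
    w.ord (A.xJ - algebraMap ℂ A.F 1728) = 2 := by
  have hord := helper48.meromorphicOrderAt_jan_sub_1728_I
  obtain ⟨g, d, hd, hdE, hmem, hdw, -⟩ := dict_interior_of A hD 1728 UpperHalfPlane.I 2 two_pos
    (by exact_mod_cast hord) ModularGroup.S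
    (fun c => by rw [helper27.S_sq]; exact neg_one_smul_quot A c)
    (fun k hk hk1 => by
      have hk2 : k = 2 := by
        have := Nat.le_of_dvd two_pos hk
        omega
      subst hk2
      rw [Nat.div_self two_pos, pow_one]
      exact ⟨helper48.Sinv_smul_I, helper48.isPrimitiveRoot_deriv_chartSL_Sinv_I⟩) w hw
  have h2 : Nat.Prime 2 := by norm_num
  rcases (Nat.dvd_prime h2).mp hdE with h | h
  · subst h
    simpa using hdw
  · subst h
    rw [Nat.div_self two_pos, pow_one] at hmem
    exact absurd hmem (hno g).1

end Fermat.Agent.T4.helper69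

end
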