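import Mathlib
import Fermat.Agent.T4.helper69_RamC
import Fermat.Agent.T4.helper77_DegSys
import Fermat.Agent.T4.helper99_Desc1

/-!
# T4 block (I), I-FLD: [RAM1] over `ℚ̄` for a generator system (helper69)

For a generator system `D : helper24.GenData` (`D.IsSys`) whose group `D.Γ` has no elliptic
elements (`NoEll D.Γ`), the ramification of `D.field ℚ̄` over the `j`-line:

* `ram_zero`  : every zero of `j` has order `3`;
* `ram_1728`  : every zero of `j - 1728` has order `2`;
* `ram_gen`   : the zeros of `j - a` are simple for `a ≠ 0, 1728`.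

Proof: the statements over `ℂ` (`helper69_RamC`, for the family `famOf D hD`) descend along the
constant field extension `helper99.descG D.fieldQ` (`LEF`: over every place of `D.field ℚ̄` there
is a place of `D.field ℂ`, with the same orders).
-/

set_option autoImplicit false
set_option linter.unusedSectionVars false
set_option linter.unusedVariables false
set_option linter.style.longLine false

noncomputable section

open UpperHalfPlane ModularCurve AlgebraicCurve IntermediateField
open scoped MatrixGroups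

namespace Fermat.Agent.T4.helper69

open Fermat.Agent.S24 Fermat.Agent.T4.helper24 Fermat.Agent.T4.helper80.Gen
open Fermat.Agent.LEF Fermat.Agent.P2.helper74

/-! ### Descent of orders along a constant field extension -/

section Descent

variable {K F K' F' : Type*} [Field K] [Field F] [Algebra K F] [Field K'] [Field F']
  [Algebra K' F'] (C : ConstExt K F K' F')

/-- if all zeros of `ι x` have order `e`, so have all zeros of `x` -/
theorem ord_eq_of_constExt (hS : RiemannSetting K F) (x : F) (e : ℤ)
    (h : ∀ W : Place K' F', 0 < W.ord (C.ι x) → W.ord (C.ι x) = e)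
    (w : Place K F) (hw : 0 < w.ord x) : w.ord x = e := by
  obtain ⟨Q, hQ⟩ := Fermat.Agent.LEF.helper99.exists_isExt C hS w
  have hord := Fermat.Agent.LEF.helper99.ord_eq_of_isExt C hS hQ x
  rw [← hord] at hw ⊢
  exact h Q hw

theorem constExt_ι_sub (x : F) (a : K) :
    C.ι (x - algebraMap K F a) = C.ι x - algebraMap K' F' (C.κ a) := by
  rw [map_sub, C.comm]

end Descent

/-! ### The family of a generator system -/

section Fam

variable (D : GenData)

/-- the family (in the sense of `helper80.Gen`) of a generator system -/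
def famOf (hD : D.IsSys) : Fam D.I where
  x := D.ser ℂ
  X := D.fn
  S := D.field ℂ
  hS := Fermat.Agent.T4.helper77.field_eq_adjoin D
  hq := hD.isQExp
  i₀ := D.j0
  hj := hD.fn_j0

theorem famOf_stab (hD : D.IsSys) : (famOf D hD).stab = D.Γ := by
  ext g
  rw [Fam.mem_stab]
  exact ⟨fun h => hD.stab g h, fun h i τ => hD.inv i g h τ⟩

theorem famOf_hasDegree (hD : D.IsSys) : (famOf D hD).HasDegree := by
  haveI : (famOf D hD).stab.FiniteIndex := by
    rw [famOf_stab]
    exact Fermat.Agent.T4.helper77.finiteIndex_of_isSys D hD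
  exact hasDegree_of_expGrowth (famOf D hD) (fun g i => hD.growth g i)

theorem famOf_xJ (hD : D.IsSys) : (famOf D hD).xJ = D.xJ ℂ := rfl

end Fam

/-! ### The ramification over `ℚ̄` -/

section Ram

variable (D : GenData)

/-- the constant field extension maps `j` to `j` -/
theorem descG_ι_xJ : (Fermat.Agent.T4.helper99.descG D.fieldQ).ι (D.xJ Kbar) = D.xJ ℂ := by
  apply Subtype.ext
  rw [Fermat.Agent.T4.helper99.descG_ι]
  exact Fermat.Agent.T4.helper77.coeffMap_ser D (iotaC : Kbar →+* ℂ) D.j0

theorem descG_κ_injective :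
    Function.Injective (Fermat.Agent.T4.helper99.descG D.fieldQ).κ :=
  (Fermat.Agent.T4.helper99.descG D.fieldQ).κ.injective

/-- the `RiemannSetting` of the field of a generator system over `ℚ̄` -/
theorem riemannSetting_of_isSys (hD : D.IsSys) : RiemannSetting Kbar (D.field Kbar) := by
  obtain ⟨htr, hfd, -⟩ := (Fermat.Agent.T4.helper77.deg_of D hD).1
  exact @Fermat.Agent.T4.helper99.descG_settingQ D.fieldQ (D.xJ Kbar) htr hfd

/-- the image of `j - a` under the constant field extension -/
theorem descG_ι_xJ_sub (a : Kbar) :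
    (Fermat.Agent.T4.helper99.descG D.fieldQ).ι (D.xJ Kbar - algebraMap Kbar (D.field Kbar) a)
      = D.xJ ℂ - algebraMap ℂ (D.field ℂ) ((Fermat.Agent.T4.helper99.descG D.fieldQ).κ a) := by
  have h := constExt_ι_sub (Fermat.Agent.T4.helper99.descG D.fieldQ) (D.xJ Kbar) a
  rw [descG_ι_xJ] at h
  exact h

/-- descent of the orders of `j - a` -/
theorem ord_descent (hD : D.IsSys) (a : Kbar) (e : ℤ)
    (h : ∀ W : Place ℂ (D.field ℂ),
      0 < W.ord (D.xJ ℂ - algebraMap ℂ (D.field ℂ)
        ((Fermat.Agent.T4.helper99.descG D.fieldQ).κ a)) →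
      W.ord (D.xJ ℂ - algebraMap ℂ (D.field ℂ)
        ((Fermat.Agent.T4.helper99.descG D.fieldQ).κ a)) = e)
    (w : Place Kbar (D.field Kbar))
    (hw : 0 < w.ord (D.xJ Kbar - algebraMap Kbar (D.field Kbar) a)) :
    w.ord (D.xJ Kbar - algebraMap Kbar (D.field Kbar) a) = e := by
  refine ord_eq_of_constExt (Fermat.Agent.T4.helper99.descG D.fieldQ)
    (riemannSetting_of_isSys D hD) _ e (fun W hW => ?_) w hw
  have e1 := descG_ι_xJ_sub D a
  have hW' : 0 < W.ord (D.xJ ℂ - algebraMap ℂ (D.field ℂ)
      ((Fermat.Agent.T4.helper99.descG D.fieldQ).κ a)) := e1 ▸ hW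
  exact e1 ▸ h W hW'

/-- **[RAM1-gen]** the zeros of `j - a`, `a ≠ 0, 1728`, are simple. -/
theorem ram_gen (hD : D.IsSys) (w : Place Kbar (D.field Kbar)) (a : Kbar) (h0 : a ≠ 0)
    (h1 : a ≠ 1728) (hw : 0 < w.ord (D.xJ Kbar - algebraMap Kbar (D.field Kbar) a)) :
    w.ord (D.xJ Kbar - algebraMap Kbar (D.field Kbar) a) = 1 := by
  refine ord_descent D hD a 1 (fun W hW => ?_) w hw
  have hκ0 : (Fermat.Agent.T4.helper99.descG D.fieldQ).κ a ≠ 0 := by
    intro h
    exact h0 (descG_κ_injective D (h.trans (map_zero _).symm))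
  have hκ1 : (Fermat.Agent.T4.helper99.descG D.fieldQ).κ a ≠ 1728 := by
    intro h
    exact h1 (descG_κ_injective D (h.trans (map_ofNat _ 1728).symm))
  exact ramC_gen (famOf D hD) (famOf_hasDegree D hD) _ hκ0 hκ1 W hW

/-- **[RAM1-0]** every zero of `j - 0` has order `3`. -/
theorem ram_zero' (hD : D.IsSys) (hno : NoEll D.Γ) (w : Place Kbar (D.field Kbar))
    (hw : 0 < w.ord (D.xJ Kbar - algebraMap Kbar (D.field Kbar) 0)) :
    w.ord (D.xJ Kbar - algebraMap Kbar (D.field Kbar) 0) = 3 := by
  refine ord_descent D hD 0 3 (fun W hW => ?_) w hw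
  have hno' : NoEll (famOf D hD).stab := by rw [famOf_stab]; exact hno
  rw [map_zero] at hW ⊢
  exact ramC_zero (famOf D hD) (famOf_hasDegree D hD) hno' W hW

/-- **[RAM1-0]** every zero of `j` has order `3`. -/
theorem ram_zero (hD : D.IsSys) (hno : NoEll D.Γ) (w : Place Kbar (D.field Kbar))
    (hw : 0 < w.ord (D.xJ Kbar)) : w.ord (D.xJ Kbar) = 3 := by
  have h := ram_zero' D hD hno w
  rw [map_zero, sub_zero] at h
  exact h hw

/-- **[RAM1-1728]** every zero of `j - 1728` has order `2`. -/
theorem ram_1728 (hD : D.IsSys) (hno : NoEll D.Γ) (w : Place Kbar (D.field Kbar))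
    (hw : 0 < w.ord (D.xJ Kbar - algebraMap Kbar (D.field Kbar) 1728)) :
    w.ord (D.xJ Kbar - algebraMap Kbar (D.field Kbar) 1728) = 2 := by
  refine ord_descent D hD 1728 2 (fun W hW => ?_) w hw
  have hno' : NoEll (famOf D hD).stab := by rw [famOf_stab]; exact hno
  rw [map_ofNat] at hW ⊢
  exact ramC_1728 (famOf D hD) (famOf_hasDegree D hD) hno' W hW

end Ram

end Fermat.Agent.T4.helper69

end
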