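import Mathlib
import Fermat.Agent.P2.helper43_TameBase
import Fermat.Agent.P2.helper66_TameInst
import Fermat.Agent.T4.helper32_X1Defs

/-!
# T4 block (I), I-RED: [TAME-BASE] for an ARBITRARY function field over `F̃_M` (helper43)

The P2 box [TAME-BASE] (`helper43_TameAbs`, `helper43_TameBase`) is generic in the function
field.  This file states it for an arbitrary intermediate field `E` of `K((q))` containing the
special-fibre field `modularFunctionFieldFullC K M` of `X₀(M)` (`K` algebraically closed,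
`4 ∣ M` and `2 ≠ 0`, or `9 ∣ M` and `3 ≠ 0`), finite and separable over `K(j̃)`:

* `tameBaseOver` : there are `t ∈ E` (the reduced Hauptmodul of level `4` or `9`) and a finite
  set `V` of cusp values with: `t` a separating transcendental element of `E`; the poles of `j̃`
  are the poles of `t` and the zeros of the `t - a`, `a ∈ V`; and
  `6 (|V| - 1) [E : K(t)] = [E : K(j̃)]`.
* `tameBase_F1C` : the instance `E = F1C K M` (special fibre field of `X₁(M)`, helper32).
* `fullC_le_F1C`, `jOver`, `transcendental_jOver` : the inclusion `F̃_M ≤ F1C K M`, the element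
  `j̃` of `E`, and its transcendence.
-/

set_option autoImplicit false
set_option linter.unusedSectionVars false
set_option linter.style.haveILetI false

namespace Fermat.Agent.T4.helper43

open AlgebraicCurve IntermediateField Polynomial ModularCurve HahnSeries
open Fermat.Agent.P2.helper43 Fermat.Agent.P2.helper66

noncomputable section

variable (K : Type*) [Field K] (M : ℕ) [NeZero M]

omit [NeZero M] in
/-- the special-fibre field of `X₀(M)` is contained in the special-fibre field of `X₁(M)` -/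
theorem fullC_le_F1C : modularFunctionFieldFullC K M ≤ Fermat.Agent.T4.helper32.F1C K M := by
  rw [modularFunctionFieldFullC, Fermat.Agent.T4.helper32.F1C]
  exact IntermediateField.adjoin.mono K _ _ (fun x hx => Or.inl hx)

variable {K M}

/-- `j̃` as an element of a field `E` containing `F̃_M` -/
def jOver {E : IntermediateField K (LaurentSeries K)}
    (hle : modularFunctionFieldFullC K M ≤ E) : E :=
  ⟨jqModC K, hle (jqModC_mem_full K M)⟩

@[simp]
theorem coe_jOver {E : IntermediateField K (LaurentSeries K)}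
    (hle : modularFunctionFieldFullC K M ≤ E) : ((jOver hle : E) : LaurentSeries K) = jqModC K :=
  rfl

theorem transcendental_jOver {E : IntermediateField K (LaurentSeries K)}
    (hle : modularFunctionFieldFullC K M ≤ E) : Transcendental K (jOver hle) := by
  intro h
  have h1 : Transcendental K (jqModC K) :=
    Fermat.Agent.S28.helper81.transcendental_of_order_neg _
      (by rw [Fermat.Agent.P2.helper66.order_jqModC]; norm_num)
  exact h1 (IsAlgebraic.algHom E.val h)

/-- **[TAME-BASE] over `E`, level divisible by `4`.** -/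
theorem tameBaseOver_four [IsAlgClosed K] {E : IntermediateField K (LaurentSeries K)}
    (hle : modularFunctionFieldFullC K M ≤ E)
    [FiniteDimensional K⟮jOver hle⟯ E] [Algebra.IsSeparable K⟮jOver hle⟯ E]
    (h4 : 4 ∣ M) (h2 : (2 : K) ≠ 0) :
    ∃ (t : E) (V : Finset K), (t : LaurentSeries K) = tH4 K ∧ V.card = 2 ∧
      Transcendental K t ∧
      ∃ (_ : FiniteDimensional K⟮t⟯ E) (_ : Algebra.IsSeparable K⟮t⟯ E),
        (∀ Q : Place K E, Q.ord (jOver hle) < 0 ↔
          (Q.ord t < 0 ∨ ∃ a ∈ V, 0 < Q.ord (t - algebraMap K E a))) ∧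
        6 * ((V.card : ℤ) - 1) * (Module.finrank K⟮t⟯ E : ℤ) =
          (Module.finrank K⟮jOver hle⟯ E : ℤ) := by
  have hmem : tH4 K ∈ E := hle (tH4_mem K h2 M h4)
  have hid : jOver hle * ((⟨tH4 K, hmem⟩ : E) ^ 4 * (⟨tH4 K, hmem⟩ + 16)) =
      ((⟨tH4 K, hmem⟩ : E) ^ 2 + 256 * ⟨tH4 K, hmem⟩ + 4096) ^ 3 :=
    Subtype.ext (jq_tH4 K)
  have H := tameHyp_four h2 (jOver hle) ⟨tH4 K, hmem⟩ (transcendental_jOver hle) hid
  obtain ⟨htr, hfd, hsep, hpoles, hdeg⟩ := H.tame_abs
  refine ⟨⟨tH4 K, hmem⟩, vFour h2, rfl, card_vFour h2, htr, hfd, hsep, hpoles, ?_⟩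
  rw [natDegree_four] at hdeg
  rw [card_vFour, ← hdeg]
  push_cast
  ring

/-- **[TAME-BASE] over `E`, level divisible by `9`.** -/
theorem tameBaseOver_nine [IsAlgClosed K] {E : IntermediateField K (LaurentSeries K)}
    (hle : modularFunctionFieldFullC K M ≤ E)
    [FiniteDimensional K⟮jOver hle⟯ E] [Algebra.IsSeparable K⟮jOver hle⟯ E]
    (h9 : 9 ∣ M) (h3 : (3 : K) ≠ 0) :
    ∃ (t : E) (V : Finset K), (t : LaurentSeries K) = tH9 K ∧ V.card = 3 ∧
      Transcendental K t ∧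
      ∃ (_ : FiniteDimensional K⟮t⟯ E) (_ : Algebra.IsSeparable K⟮t⟯ E),
        (∀ Q : Place K E, Q.ord (jOver hle) < 0 ↔
          (Q.ord t < 0 ∨ ∃ a ∈ V, 0 < Q.ord (t - algebraMap K E a))) ∧
        6 * ((V.card : ℤ) - 1) * (Module.finrank K⟮t⟯ E : ℤ) =
          (Module.finrank K⟮jOver hle⟯ E : ℤ) := by
  have hmem : tH9 K ∈ E := hle (tH9_mem K h3 M h9)
  obtain ⟨α, hα⟩ : ∃ α : K, α ^ 2 + 9 * α + 27 = 0 := by
    have hdeg : (X ^ 2 + 9 * X + 27 : K[X]).degree ≠ 0 := by
      have : (X ^ 2 + 9 * X + 27 : K[X]).natDegree = 2 := by compute_degree!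
      rw [degree_eq_natDegree (ne_zero_of_natDegree_gt (n := 0) (by omega)), this]
      norm_num
    obtain ⟨α, hα⟩ := IsAlgClosed.exists_root _ hdeg
    refine ⟨α, ?_⟩
    simpa only [IsRoot.def, eval_add, eval_mul, eval_pow, eval_X, eval_ofNat] using hα
  have hid : jOver hle * ((⟨tH9 K, hmem⟩ : E) ^ 9 *
      ((⟨tH9 K, hmem⟩ : E) ^ 2 + 9 * ⟨tH9 K, hmem⟩ + 27)) =
      ((⟨tH9 K, hmem⟩ : E) + 9) ^ 3 *
        ((⟨tH9 K, hmem⟩ : E) ^ 3 + 243 * (⟨tH9 K, hmem⟩ : E) ^ 2 +
          2187 * ⟨tH9 K, hmem⟩ + 6561) ^ 3 :=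
    Subtype.ext (jq_tH9 K)
  have H := tameHyp_nine h3 hα (jOver hle) ⟨tH9 K, hmem⟩ (transcendental_jOver hle) hid
  obtain ⟨htr, hfd, hsep, hpoles, hdeg⟩ := H.tame_abs
  refine ⟨⟨tH9 K, hmem⟩, vNine h3 hα, rfl, card_vNine h3 hα, htr, hfd, hsep, hpoles, ?_⟩
  rw [natDegree_nine] at hdeg
  rw [card_vNine, ← hdeg]
  push_cast
  ring

/-- **[TAME-BASE] over `E`**: `E` any function field inside `K((q))` containing `F̃_M`, finite
and separable over `K(j̃)`; `4 ∣ M` and `2 ≠ 0`, or `9 ∣ M` and `3 ≠ 0`. -/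
theorem tameBaseOver [IsAlgClosed K] {E : IntermediateField K (LaurentSeries K)}
    (hle : modularFunctionFieldFullC K M ≤ E)
    [FiniteDimensional K⟮jOver hle⟯ E] [Algebra.IsSeparable K⟮jOver hle⟯ E]
    (hM : (4 ∣ M ∧ (2 : K) ≠ 0) ∨ (9 ∣ M ∧ (3 : K) ≠ 0)) :
    ∃ (t : E) (V : Finset K),
      Transcendental K t ∧
      ∃ (_ : FiniteDimensional K⟮t⟯ E) (_ : Algebra.IsSeparable K⟮t⟯ E),
        (∀ Q : Place K E, Q.ord (jOver hle) < 0 ↔
          (Q.ord t < 0 ∨ ∃ a ∈ V, 0 < Q.ord (t - algebraMap K E a))) ∧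
        6 * ((V.card : ℤ) - 1) * (Module.finrank K⟮t⟯ E : ℤ) =
          (Module.finrank K⟮jOver hle⟯ E : ℤ) := by
  rcases hM with ⟨h4, h2⟩ | ⟨h9, h3⟩
  · obtain ⟨t, V, -, -, h⟩ := tameBaseOver_four hle h4 h2
    exact ⟨t, V, h⟩
  · obtain ⟨t, V, -, -, h⟩ := tameBaseOver_nine hle h9 h3
    exact ⟨t, V, h⟩

/-- **[TAME-BASE] for the special fibre of `X₁(M)`** (`F1C K M` of helper32), conditional only
on finiteness and separability over `K(j̃)`. -/
theorem tameBase_F1C [IsAlgClosed K]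
    [FiniteDimensional K⟮jOver (fullC_le_F1C K M)⟯ (Fermat.Agent.T4.helper32.F1C K M)]
    [Algebra.IsSeparable K⟮jOver (fullC_le_F1C K M)⟯ (Fermat.Agent.T4.helper32.F1C K M)]
    (hM : (4 ∣ M ∧ (2 : K) ≠ 0) ∨ (9 ∣ M ∧ (3 : K) ≠ 0)) :
    ∃ (t : Fermat.Agent.T4.helper32.F1C K M) (V : Finset K),
      Transcendental K t ∧
      ∃ (_ : FiniteDimensional K⟮t⟯ (Fermat.Agent.T4.helper32.F1C K M))
        (_ : Algebra.IsSeparable K⟮t⟯ (Fermat.Agent.T4.helper32.F1C K M)),
        (∀ Q : Place K (Fermat.Agent.T4.helper32.F1C K M),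
          Q.ord (jOver (fullC_le_F1C K M)) < 0 ↔
            (Q.ord t < 0 ∨ ∃ a ∈ V,
              0 < Q.ord (t - algebraMap K (Fermat.Agent.T4.helper32.F1C K M) a))) ∧
        6 * ((V.card : ℤ) - 1) *
            (Module.finrank K⟮t⟯ (Fermat.Agent.T4.helper32.F1C K M) : ℤ) =
          (Module.finrank K⟮jOver (fullC_le_F1C K M)⟯ (Fermat.Agent.T4.helper32.F1C K M) : ℤ) :=
  tameBaseOver (fullC_le_F1C K M) hM

end

end Fermat.Agent.T4.helper43
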