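import Mathlib
import Fermat.Agent.T4.helper4_RedDefs
import Fermat.Agent.T4.helper43_Tame1
import Fermat.Agent.P2.helper77_GenusFormula3
import Fermat.Agent.P2.helper68_GenB

/-!
# T4 block (I), I-RED: [TAME-BASE-0], generic (helper69)

`helper4.TameBaseZeroStatement E hj c` for an ARBITRARY function field `E ⊆ ℚ̄((q))` containing
the function field of `X₀(M)` (`4 ∣ M` or `9 ∣ M`), finite over `ℚ̄(j)`, from the ramification
data of `E` over the `j`-line (or over the `t`-line), `c` = the number of poles of `j`.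

* `mul_card_zeros_eq_finrank` : if all zeros of a transcendental `x` have order `e`, then
  `e * #{zeros of x} = [F : k(x)]`.
* `genus_of_jline` : Riemann-Hurwitz over the `j`-line, characteristic `0`: if all zeros of `j`
  have order `3`, all zeros of `j - 1728` have order `2` and the zeros of `j - a` are simple for
  `a ≠ 0, 1728`, then `6 (2 g - 2) = [F : k(j)] - 6 #{poles of j}`.
* `genus_of_tline` : Riemann-Hurwitz over the `t`-line: if the poles of `j` are the poles of `t`
  and the zeros of the `t - a`, `a ∈ V`, and the zeros of `t - a` are simple for `a ∉ V`, then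
  `2 g - 2 = (|V| - 1) [F : k(t)] - #{poles of j}`.
* `tameBaseZero_of_jline`, `tameBaseZero_of_tline` : `∃ c, helper4.TameBaseZeroStatement E hj c`.

The first clauses of `TameBaseZeroStatement` are `helper43.tameBaseOver_four / _nine` (T4).
-/

set_option autoImplicit false
set_option linter.unusedSectionVars false
set_option linter.unusedVariables false
set_option linter.style.longLine false
set_option linter.style.haveILetI false

noncomputable section

open AlgebraicCurve IntermediateField Polynomial ModularCurve HahnSeries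
open Fermat.Agent.S18.helper19 (Kb kA FF FFb)
open Fermat.Agent.P2

namespace Fermat.Agent.T4.helper69

section Generic

variable {k F : Type*} [Field k] [Field F] [Algebra k F] [IsAlgClosed k]

/-- If all zeros of a separating transcendental element `x` have order `e`, then
`e * #{zeros of x} = [F : k(x)]`. -/
theorem mul_card_zeros_eq_finrank (x : F) (hx : Transcendental k x) [FiniteDimensional k⟮x⟯ F]
    [Algebra.IsSeparable k⟮x⟯ F] (e : ℤ)
    (he : ∀ w : Place k F, 0 < w.ord x → w.ord x = e) :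
    e * (Nat.card {w : Place k F // 0 < w.ord x} : ℤ) = (Module.finrank k⟮x⟯ F : ℤ) := by
  have hs := helper95.ffl_sum_ord_zeros x hx
  have hc : ∑ w ∈ (helper95.ffl_finite_zeros x hx).toFinset, w.ord x
      = ∑ _w ∈ (helper95.ffl_finite_zeros x hx).toFinset, e := by
    refine Finset.sum_congr rfl fun w hw => ?_
    rw [Set.Finite.mem_toFinset] at hw
    exact he w hw
  rw [hc, Finset.sum_const, nsmul_eq_mul,
    helper77.card_toFinset_eq_natCard (helper95.ffl_finite_zeros x hx)] at hs
  rw [← hs]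
  ring

variable [CharZero k]

/-- every intermediate field is of characteristic zero -/
theorem charZero_intermediate (E : IntermediateField k F) : CharZero E :=
  charZero_of_injective_algebraMap (algebraMap k E).injective

/-- separability is automatic in characteristic zero -/
theorem isSeparable_of_charZero (E : IntermediateField k F) [FiniteDimensional E F] :
    Algebra.IsSeparable E F := by
  haveI := charZero_intermediate E
  infer_instance

/-- the number of zeros of `j - a` when all of them have order `e` -/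
theorem mul_card_zeros_sub (j : F) (hj : Transcendental k j) [FiniteDimensional k⟮j⟯ F]
    (a : k) (e : ℤ)
    (he : ∀ w : Place k F, 0 < w.ord (j - algebraMap k F a) →
      w.ord (j - algebraMap k F a) = e) :
    e * (Nat.card {w : Place k F // 0 < w.ord (j - algebraMap k F a)} : ℤ)
      = (Module.finrank k⟮j⟯ F : ℤ) := by
  have hadj : k⟮j - algebraMap k F a⟯ = k⟮j⟯ :=
    Fermat.Agent.S24.helper55.adjoin_sub_algebraMap_eq j a
  haveI hfd : FiniteDimensional k⟮j - algebraMap k F a⟯ F := by
    rw [hadj]; infer_instance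
  haveI := isSeparable_of_charZero (k := k) (F := F) k⟮j - algebraMap k F a⟯
  have h := mul_card_zeros_eq_finrank (j - algebraMap k F a)
    (Fermat.Agent.S24.helper55.transcendental_sub_algebraMap hj a) e he
  rw [h, hadj]

/-- **Riemann-Hurwitz over the `j`-line** (characteristic `0`): all zeros of `j` of order `3`,
all zeros of `j - 1728` of order `2`, no other ramification outside the poles of `j`. -/
theorem genus_of_jline (j : F) (hj : Transcendental k j) [FiniteDimensional k⟮j⟯ F]
    (g : ℕ) (hg : helper74.HasRiemannGenus k F g)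
    (h0 : ∀ w : Place k F, 0 < w.ord j → w.ord j = 3)
    (h1728 : ∀ w : Place k F, 0 < w.ord (j - algebraMap k F 1728) →
      w.ord (j - algebraMap k F 1728) = 2)
    (hunr : ∀ (w : Place k F) (a : k), a ≠ 0 → a ≠ 1728 →
      0 < w.ord (j - algebraMap k F a) → w.ord (j - algebraMap k F a) = 1) :
    6 * (2 * (g : ℤ) - 2) = (Module.finrank k⟮j⟯ F : ℤ)
      - 6 * (Nat.card {w : Place k F // w.ord j < 0} : ℤ) := by
  classical
  have hne : (0 : k) ≠ 1728 := by norm_num
  have h := helper77.hurwitz_eq_uncond j hj g hg {0, 1728} (fun w a ha hw => hunr w a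
    (fun h => ha (by simp [h])) (fun h => ha (by simp [h])) hw)
  rw [Finset.sum_pair hne] at h
  have h0' : ∀ w : Place k F, 0 < w.ord (j - algebraMap k F 0) →
      w.ord (j - algebraMap k F 0) = 3 := by
    intro w hw
    rw [map_zero, sub_zero] at hw ⊢
    exact h0 w hw
  have c0 := mul_card_zeros_sub j hj 0 3 h0'
  have c1 := mul_card_zeros_sub j hj 1728 2 h1728
  linarith

/-- **Riemann-Hurwitz over the `t`-line** (characteristic `0`): the poles of `j` are the poles
of `t` and the zeros of the `t - a`, `a ∈ V`; no ramification of `t` elsewhere. -/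
theorem genus_of_tline (j t : F) (ht : Transcendental k t) [FiniteDimensional k⟮t⟯ F]
    (V : Finset k)
    (hpoles : ∀ Q : Place k F, Q.ord j < 0 ↔
      (Q.ord t < 0 ∨ ∃ a ∈ V, 0 < Q.ord (t - algebraMap k F a)))
    (g : ℕ) (hg : helper74.HasRiemannGenus k F g)
    (hunr : ∀ (w : Place k F) (a : k), a ∉ V →
      0 < w.ord (t - algebraMap k F a) → w.ord (t - algebraMap k F a) = 1)
    (T₀ : Finset (Place k F)) (hT₀ : ∀ P : Place k F, P.ord j < 0 ↔ P ∈ T₀) :
    2 * (g : ℤ) - 2 = ((V.card : ℤ) - 1) * (Module.finrank k⟮t⟯ F : ℤ) - (T₀.card : ℤ) := by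
  classical
  have h := helper77.hurwitz_eq_uncond t ht g hg V hunr
  haveI := isSeparable_of_charZero (k := k) (F := F) k⟮t⟯
  -- the fibres
  have hfdc : ∀ c : k, FiniteDimensional k⟮t - algebraMap k F c⟯ F := fun c => by
    rw [Fermat.Agent.S24.helper55.adjoin_sub_algebraMap_eq]; infer_instance
  have hfinZ : ∀ c : k, {P : Place k F | 0 < P.ord (t - algebraMap k F c)}.Finite := fun c =>
    haveI := hfdc c
    haveI := isSeparable_of_charZero (k := k) (F := F) k⟮t - algebraMap k F c⟯
    helper95.ffl_finite_zeros _ (Fermat.Agent.S24.helper55.transcendental_sub_algebraMap ht c)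
  have hfinP : {P : Place k F | P.ord t < 0}.Finite := helper95.ffl_finite_poles t ht
  -- `T₀` is the disjoint union of the fibres
  have hT : T₀ = hfinP.toFinset ∪ V.biUnion fun a => (hfinZ a).toFinset := by
    ext P
    rw [← hT₀ P, hpoles P, Finset.mem_union, Set.Finite.mem_toFinset, Finset.mem_biUnion]
    refine or_congr Iff.rfl ⟨?_, ?_⟩
    · rintro ⟨a, ha, h⟩
      exact ⟨a, ha, by rw [Set.Finite.mem_toFinset]; exact h⟩
    · rintro ⟨a, ha, h⟩
      rw [Set.Finite.mem_toFinset] at h
      exact ⟨a, ha, h⟩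
  -- a zero of `t - a` is not a pole of `t`, and not a zero of `t - b` for `b ≠ a`
  have hnn : ∀ (P : Place k F) (a : k), 0 < P.ord (t - algebraMap k F a) → 0 ≤ P.ord t :=
    fun P a h => helper68.ord_nonneg_of_ord_sub_pos P t a h
  have hdisj1 : Disjoint hfinP.toFinset (V.biUnion fun a => (hfinZ a).toFinset) := by
    rw [Finset.disjoint_left]
    intro P hP hP'
    rw [Set.Finite.mem_toFinset] at hP
    rw [Finset.mem_biUnion] at hP'
    obtain ⟨a, _, h⟩ := hP'
    rw [Set.Finite.mem_toFinset] at h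
    have := hnn P a h
    have hP'' : P.ord t < 0 := hP
    omega
  have hdisj2 : ∀ a ∈ V, ∀ b ∈ V, a ≠ b →
      Disjoint (hfinZ a).toFinset (hfinZ b).toFinset := by
    intro a _ b _ hab
    rw [Finset.disjoint_left]
    intro P hPa hPb
    rw [Set.Finite.mem_toFinset] at hPa hPb
    exact hab (helper68.eq_of_ord_sub_pos P t a b hPa hPb)
  have hcard : (T₀.card : ℤ) = (hfinP.toFinset.card : ℤ)
      + ∑ a ∈ V, ((hfinZ a).toFinset.card : ℤ) := by
    rw [hT, Finset.card_union_of_disjoint hdisj1, Finset.card_biUnion hdisj2]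
    push_cast
    ring
  rw [helper77.card_toFinset_eq_natCard hfinP] at hcard
  have hsum : ∑ a ∈ V, ((hfinZ a).toFinset.card : ℤ)
      = ∑ a ∈ V, (Nat.card {w : Place k F // 0 < w.ord (t - algebraMap k F a)} : ℤ) :=
    Finset.sum_congr rfl fun a _ => by rw [helper77.card_toFinset_eq_natCard (hfinZ a)]
  rw [hsum] at hcard
  rw [Finset.sum_sub_distrib, Finset.sum_const, nsmul_eq_mul] at h
  rw [hcard]
  linarith

end Generic

/-! ### `TameBaseZeroStatement` -/

section TameZero

open Fermat.Agent.T4.helper4 Fermat.Agent.T4.helper43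

variable {M : ℕ} [NeZero M] {E : IntermediateField Kb (LaurentSeries Kb)}

/-- the hypothesis `hj` of the `j`-statements of `helper4_RedDefs` -/
theorem jq_mem_of_le (hle : modularFunctionFieldFullC Kb M ≤ E) : jqModC Kb ∈ E :=
  hle (jqModC_mem_full Kb M)

theorem jEl_eq_jOver (hle : modularFunctionFieldFullC Kb M ≤ E) :
    jEl E (jq_mem_of_le hle) = jOver hle := rfl

/-- the finite set of the poles of `j` -/
theorem finite_poles_j (hle : modularFunctionFieldFullC Kb M ≤ E)
    [FiniteDimensional Kb⟮jOver hle⟯ E] : {P : Place Kb E | P.ord (jOver hle) < 0}.Finite := by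
  haveI := isSeparable_of_charZero (k := Kb) (F := E) Kb⟮jOver hle⟯
  exact helper95.ffl_finite_poles (jOver hle) (transcendental_jOver hle)

/-- the first clauses of `TameBaseZeroStatement`: the tame base function in characteristic `0`
-/
theorem exists_tameBase_zero (hle : modularFunctionFieldFullC Kb M ≤ E)
    [FiniteDimensional Kb⟮jOver hle⟯ E] (hM : 4 ∣ M ∨ 9 ∣ M) :
    ∃ (t : E) (V : Finset Kb), Transcendental Kb t ∧
      ∃ (_ : FiniteDimensional Kb⟮t⟯ E),
        (∀ Q : Place Kb E, Q.ord (jOver hle) < 0 ↔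
          (Q.ord t < 0 ∨ ∃ a ∈ V, 0 < Q.ord (t - algebraMap Kb E a))) ∧
        6 * ((V.card : ℤ) - 1) * (Module.finrank Kb⟮t⟯ E : ℤ) =
          (Module.finrank Kb⟮jOver hle⟯ E : ℤ) := by
  haveI := isSeparable_of_charZero (k := Kb) (F := E) Kb⟮jOver hle⟯
  have h2 : (2 : Kb) ≠ 0 := by norm_num
  have h3 : (3 : Kb) ≠ 0 := by norm_num
  obtain ⟨t, V, htr, hfd, -, hpoles, hdeg⟩ := tameBaseOver hle
    (hM.imp (fun h => ⟨h, h2⟩) (fun h => ⟨h, h3⟩))
  exact ⟨t, V, htr, hfd, hpoles, hdeg⟩

/-- **[TAME-BASE-0] from the ramification over the `j`-line**: `E ⊇ F_M` (`4 ∣ M` or `9 ∣ M`)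
finite over `ℚ̄(j)`, all zeros of `j` of order `3`, all zeros of `j - 1728` of order `2`, the
zeros of `j - a` simple for `a ≠ 0, 1728`.  `c` is the number of the poles of `j`. -/
theorem tameBaseZero_of_jline (hle : modularFunctionFieldFullC Kb M ≤ E)
    [FiniteDimensional Kb⟮jOver hle⟯ E] (hM : 4 ∣ M ∨ 9 ∣ M)
    (h0 : ∀ w : Place Kb E, 0 < w.ord (jOver hle) → w.ord (jOver hle) = 3)
    (h1728 : ∀ w : Place Kb E, 0 < w.ord (jOver hle - algebraMap Kb E 1728) →
      w.ord (jOver hle - algebraMap Kb E 1728) = 2)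
    (hunr : ∀ (w : Place Kb E) (a : Kb), a ≠ 0 → a ≠ 1728 →
      0 < w.ord (jOver hle - algebraMap Kb E a) → w.ord (jOver hle - algebraMap Kb E a) = 1) :
    TameBaseZeroStatement E (jq_mem_of_le hle) (finite_poles_j hle).toFinset.card := by
  obtain ⟨t, V, htr, hfd, hpoles, hdeg⟩ := exists_tameBase_zero hle hM
  refine ⟨t, V, htr, hfd, hpoles, hdeg, (finite_poles_j hle).toFinset, fun P => ?_, rfl,
    fun g hg => ?_⟩
  · rw [Set.Finite.mem_toFinset]
    rfl
  · have h := genus_of_jline (jOver hle) (transcendental_jOver hle) g hg.2 h0 h1728 hunr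
    rw [← helper77.card_toFinset_eq_natCard (finite_poles_j hle)] at h
    have hdeg' : 6 * ((V.card : ℤ) - 1) * (Module.finrank Kb⟮t⟯ E : ℤ) =
        (Module.finrank Kb⟮jOver hle⟯ E : ℤ) := hdeg
    linarith

/-- **[TAME-BASE-0] from the ramification over the `t`-line**: `E ⊇ F_M` (`4 ∣ M` or `9 ∣ M`)
finite over `ℚ̄(j)`, and every function `t ∈ E` with `j * D(t) = N(t)`-type pole description is
unramified outside the cusp values.  Stated for the `t`, `V` of `exists_tameBase_zero`: the
hypothesis quantifies over all `t`, `V` with the pole description. -/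
theorem tameBaseZero_of_tline (hle : modularFunctionFieldFullC Kb M ≤ E)
    [FiniteDimensional Kb⟮jOver hle⟯ E] (hM : 4 ∣ M ∨ 9 ∣ M)
    (hunr : ∀ (t : E) (V : Finset Kb),
      (∀ Q : Place Kb E, Q.ord (jOver hle) < 0 ↔
        (Q.ord t < 0 ∨ ∃ a ∈ V, 0 < Q.ord (t - algebraMap Kb E a))) →
      ∀ (w : Place Kb E) (a : Kb), a ∉ V →
        0 < w.ord (t - algebraMap Kb E a) → w.ord (t - algebraMap Kb E a) = 1) :
    TameBaseZeroStatement E (jq_mem_of_le hle) (finite_poles_j hle).toFinset.card := by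
  obtain ⟨t, V, htr, hfd, hpoles, hdeg⟩ := exists_tameBase_zero hle hM
  refine ⟨t, V, htr, hfd, hpoles, hdeg, (finite_poles_j hle).toFinset, fun P => ?_, rfl,
    fun g hg => ?_⟩
  · rw [Set.Finite.mem_toFinset]
    rfl
  · exact genus_of_tline (jOver hle) t htr V hpoles g hg.2 (hunr t V hpoles)
      (finite_poles_j hle).toFinset (fun P => by rw [Set.Finite.mem_toFinset]; rfl)

end TameZero

/-! ### The instance `E = F1 M` -/

section X1

open Fermat.Agent.T4.helper4 Fermat.Agent.T4.helper43 Fermat.Agent.T4.helper32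

/-- the function field of `X₀(M)` over `ℚ̄`, generated by the `j(q^d)`, `d ∣ M`, is contained in
the function field of `X₁(M)` -/
theorem fullC_le_F1 (M : ℕ) [NeZero M] : modularFunctionFieldFullC Kb M ≤ F1 M := by
  rw [modularFunctionFieldFullC, IntermediateField.adjoin_le_iff]
  rintro x ⟨d, hne, hd, rfl⟩
  haveI := hne
  exact FF_le_F1 M (Fermat.Agent.S18.helper19.jqNModC_mem_FF (N := M) hd)

/-- **[TAME-BASE-0] for `X₁(M)`** from the ramification of `F1 M` over the `j`-line. -/
theorem tameBaseZero1_of_jline (M : ℕ) [NeZero M]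
    [FiniteDimensional Kb⟮jOver (fullC_le_F1 M)⟯ (F1 M)] (hM : 4 ∣ M ∨ 9 ∣ M)
    (h0 : ∀ w : Place Kb (F1 M), 0 < w.ord (jOver (fullC_le_F1 M)) →
      w.ord (jOver (fullC_le_F1 M)) = 3)
    (h1728 : ∀ w : Place Kb (F1 M),
      0 < w.ord (jOver (fullC_le_F1 M) - algebraMap Kb (F1 M) 1728) →
      w.ord (jOver (fullC_le_F1 M) - algebraMap Kb (F1 M) 1728) = 2)
    (hunr : ∀ (w : Place Kb (F1 M)) (a : Kb), a ≠ 0 → a ≠ 1728 →
      0 < w.ord (jOver (fullC_le_F1 M) - algebraMap Kb (F1 M) a) →
      w.ord (jOver (fullC_le_F1 M) - algebraMap Kb (F1 M) a) = 1) :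
    ∃ c : ℕ, TameBaseZeroStatement (F1 M) (jq_mem_of_le (fullC_le_F1 M)) c :=
  ⟨_, tameBaseZero_of_jline (fullC_le_F1 M) hM h0 h1728 hunr⟩

/-- the same with the degree hypothesis in the shape of `helper4.DegStatement` (first
component) -/
theorem tameBaseZero1_of_jline' (M : ℕ) [NeZero M] (hj : jqModC Kb ∈ F1 M)
    (hfd : FiniteDimensional Kb⟮jEl (F1 M) hj⟯ (F1 M)) (hM : 4 ∣ M ∨ 9 ∣ M)
    (h0 : ∀ w : Place Kb (F1 M), 0 < w.ord (jEl (F1 M) hj) → w.ord (jEl (F1 M) hj) = 3)
    (h1728 : ∀ w : Place Kb (F1 M),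
      0 < w.ord (jEl (F1 M) hj - algebraMap Kb (F1 M) 1728) →
      w.ord (jEl (F1 M) hj - algebraMap Kb (F1 M) 1728) = 2)
    (hunr : ∀ (w : Place Kb (F1 M)) (a : Kb), a ≠ 0 → a ≠ 1728 →
      0 < w.ord (jEl (F1 M) hj - algebraMap Kb (F1 M) a) →
      w.ord (jEl (F1 M) hj - algebraMap Kb (F1 M) a) = 1) :
    ∃ c : ℕ, TameBaseZeroStatement (F1 M) hj c :=
  haveI : FiniteDimensional Kb⟮jOver (fullC_le_F1 M)⟯ (F1 M) := hfd
  ⟨_, tameBaseZero_of_jline (fullC_le_F1 M) hM h0 h1728 hunr⟩

end X1

end Fermat.Agent.T4.helper69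

end
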