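import Mathlib
import Fermat.Agent.T4.helper69_Ram1
import Fermat.Agent.T4.helper69_TameZero
import Fermat.Agent.T4.helper24_X1Sys

/-!
# T4 block (I): [RAM1] and [TAME-BASE-0] for `X₁(M)` (helper69)

* `noEll_PG1` : `±Γ₁(M)` contains no conjugate of `S` or `S T` for `M ≥ 4` (traces mod `M`).
* `tameBaseZero_of_isSys` : `∃ c, helper4.TameBaseZeroStatement (D.field ℚ̄) hj c` for a generator
  system `D` without elliptic elements whose field contains the function field of `X₀(M)`,
  `4 ∣ M` or `9 ∣ M`.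
* `ram1_X1`, `tameBaseZero_X1` : the instances for `helper32.F1 M`, from
  `(helper24.x1Data M).IsSys` (= `helper24.x1Sys_of`).
-/

set_option autoImplicit false
set_option linter.unusedSectionVars false
set_option linter.unusedVariables false
set_option linter.style.longLine false

noncomputable section

open UpperHalfPlane ModularCurve AlgebraicCurve IntermediateField CongruenceSubgroup
open scoped MatrixGroups

namespace Fermat.Agent.T4.helper69

open Fermat.Agent.S24 Fermat.Agent.T4.helper24 Fermat.Agent.T4.helper32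
open Fermat.Agent.S18.helper19 (Kb)

/-! ### No elliptic elements in `±Γ₁(M)` -/

section NoEll

/-- the trace of an element of `SL(2, ℤ)` -/
def tr2 (g : SL(2, ℤ)) : ℤ := g 0 0 + g 1 1

theorem tr2_eq_trace (g : SL(2, ℤ)) : tr2 g = Matrix.trace (g : Matrix (Fin 2) (Fin 2) ℤ) := by
  rw [Matrix.trace_fin_two]
  rfl

theorem tr2_conj (g h : SL(2, ℤ)) : tr2 (g⁻¹ * h * g) = tr2 h := by
  rw [tr2_eq_trace, tr2_eq_trace, Matrix.SpecialLinearGroup.coe_mul, Matrix.trace_mul_comm,
    ← Matrix.SpecialLinearGroup.coe_mul, mul_inv_cancel_left]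

theorem tr2_neg (g : SL(2, ℤ)) : tr2 (-g) = -tr2 g := by
  unfold tr2
  rw [Matrix.SpecialLinearGroup.coe_neg]
  simp only [Matrix.neg_apply]
  ring

theorem tr2_S : tr2 ModularGroup.S = 0 := by decide

theorem tr2_ST : tr2 (ModularGroup.S * ModularGroup.T) = 1 := by decide

theorem tr2_of_mem_Gamma1 {M : ℕ} {g : SL(2, ℤ)} (hg : g ∈ Gamma1 M) :
    ((tr2 g : ℤ) : ZMod M) = 2 := by
  rw [Gamma1_mem] at hg
  unfold tr2
  push_cast
  rw [hg.1, hg.2.1]
  norm_num

theorem tr2_of_mem_PG1 {M : ℕ} {g : SL(2, ℤ)} (hg : g ∈ PG1 M) :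
    ((tr2 g : ℤ) : ZMod M) = 2 ∨ ((tr2 g : ℤ) : ZMod M) = -2 := by
  rcases (mem_PG1_iff M g).mp hg with h | h
  · exact Or.inl (tr2_of_mem_Gamma1 h)
  · right
    have := tr2_of_mem_Gamma1 h
    rw [tr2_neg] at this
    push_cast at this
    rw [← this]
    ring

theorem natCast_ne_zero_of_lt {M n : ℕ} (hn : 0 < n) (hnM : n < M) : ((n : ℕ) : ZMod M) ≠ 0 := by
  intro h
  rw [ZMod.natCast_eq_zero_iff] at h
  exact absurd (Nat.le_of_dvd hn h) (by omega)

/-- **`±Γ₁(M)` has no elliptic elements for `M ≥ 4`.** -/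
theorem noEll_PG1 (M : ℕ) (hM : 4 ≤ M) : NoEll (PG1 M) := by
  have h2 : ((2 : ℕ) : ZMod M) ≠ 0 := natCast_ne_zero_of_lt (by norm_num) (by omega)
  have h1 : ((1 : ℕ) : ZMod M) ≠ 0 := natCast_ne_zero_of_lt (by norm_num) (by omega)
  have h3 : ((3 : ℕ) : ZMod M) ≠ 0 := natCast_ne_zero_of_lt (by norm_num) (by omega)
  intro g
  constructor
  · intro hmem
    have h := tr2_of_mem_PG1 hmem
    rw [tr2_conj, tr2_S] at h
    push_cast at h
    rcases h with h | h
    · exact h2 (by push_cast; exact h.symm)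
    · apply h2
      push_cast
      have : (2 : ZMod M) = -(-2) := by ring
      rw [this, ← h, neg_zero]
  · intro hmem
    have h := tr2_of_mem_PG1 hmem
    rw [tr2_conj, tr2_ST] at h
    push_cast at h
    rcases h with h | h
    · apply h1
      push_cast
      have : (1 : ZMod M) = 2 - 1 := by ring
      rw [this, ← h, sub_self]
    · apply h3
      push_cast
      have : (3 : ZMod M) = 1 - (-2) := by ring
      rw [this, ← h, sub_self]

end NoEll

/-! ### `TameBaseZeroStatement` for a generator system -/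

section Sys

open Fermat.Agent.T4.helper4 Fermat.Agent.T4.helper43

variable (D : GenData) {M : ℕ} [NeZero M]

theorem jOver_eq_xJ (hD : D.IsSys) (hle : modularFunctionFieldFullC Kb M ≤ D.field Kb) :
    jOver hle = D.xJ Kb := by
  apply Subtype.ext
  show jqModC Kb = coeffEmb Kb (D.serQ D.j0)
  rw [hD.serQ_j0]
  exact (helper17.coeffEmb_jq Kb).symm

/-- **[TAME-BASE-0] for a generator system without elliptic elements.** -/
theorem tameBaseZero_of_isSys (hD : D.IsSys) (hno : NoEll D.Γ) (hM : 4 ∣ M ∨ 9 ∣ M)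
    (hle : modularFunctionFieldFullC Kb M ≤ D.field Kb) (hj : jqModC Kb ∈ D.field Kb) :
    ∃ c : ℕ, TameBaseZeroStatement (D.field Kb) hj c := by
  have hx := jOver_eq_xJ D hD hle
  obtain ⟨-, hfd, -⟩ := (Fermat.Agent.T4.helper77.deg_of D hD).1
  haveI : FiniteDimensional Kb⟮jOver hle⟯ (D.field Kb) := by
    rw [hx]
    exact hfd
  refine ⟨_, tameBaseZero_of_jline hle hM ?_ ?_ ?_⟩
  · intro w hw
    rw [hx] at hw ⊢
    exact ram_zero D hD hno w hw
  · intro w hw
    rw [hx] at hw ⊢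
    exact ram_1728 D hD hno w hw
  · intro w a h0 h1 hw
    rw [hx] at hw ⊢
    exact ram_gen D hD w a h0 h1 hw

end Sys

/-! ### `X₁(M)` -/

section X1

open Fermat.Agent.T4.helper4 Fermat.Agent.T4.helper43

variable (M : ℕ) [NeZero M]

/-- `F1 M` is the field of the generator system `x1Data M` over `ℚ̄` -/
theorem F1_eq_field : F1 M = (x1Data M).field Kb :=
  congrArg (laurentBaseChange Kb) (x1Field (M := M))

/-- **[RAM1] for `X₁(M)`**: the ramification of `F1 M` over the `j`-line. -/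
theorem ram1_X1 (hD : (x1Data M).IsSys) (hM : 4 ≤ M) (hj : jqModC Kb ∈ F1 M) :
    (∀ w : Place Kb (F1 M), 0 < w.ord (jEl (F1 M) hj) → w.ord (jEl (F1 M) hj) = 3) ∧
    (∀ w : Place Kb (F1 M), 0 < w.ord (jEl (F1 M) hj - algebraMap Kb (F1 M) 1728) →
      w.ord (jEl (F1 M) hj - algebraMap Kb (F1 M) 1728) = 2) ∧
    (∀ (w : Place Kb (F1 M)) (a : Kb), a ≠ 0 → a ≠ 1728 →
      0 < w.ord (jEl (F1 M) hj - algebraMap Kb (F1 M) a) →
      w.ord (jEl (F1 M) hj - algebraMap Kb (F1 M) a) = 1) := by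
  have hno : NoEll (x1Data M).Γ := noEll_PG1 M hM
  have hle : modularFunctionFieldFullC Kb M ≤ (x1Data M).field Kb := by
    rw [← F1_eq_field]
    exact fullC_le_F1 M
  have hx := jOver_eq_xJ (x1Data M) hD hle
  suffices H : ∀ (E : IntermediateField Kb (LaurentSeries Kb)) (hE : E = (x1Data M).field Kb)
      (hj : jqModC Kb ∈ E),
      (∀ w : Place Kb E, 0 < w.ord (jEl E hj) → w.ord (jEl E hj) = 3) ∧
      (∀ w : Place Kb E, 0 < w.ord (jEl E hj - algebraMap Kb E 1728) →
        w.ord (jEl E hj - algebraMap Kb E 1728) = 2) ∧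
      (∀ (w : Place Kb E) (a : Kb), a ≠ 0 → a ≠ 1728 →
        0 < w.ord (jEl E hj - algebraMap Kb E a) →
        w.ord (jEl E hj - algebraMap Kb E a) = 1) from H _ (F1_eq_field M) hj
  intro E hE hj'
  subst hE
  have hx' : jEl ((x1Data M).field Kb) hj' = (x1Data M).xJ Kb := hx
  rw [hx']
  exact ⟨fun w hw => ram_zero _ hD hno w hw, fun w hw => ram_1728 _ hD hno w hw,
    fun w a h0 h1 hw => ram_gen _ hD w a h0 h1 hw⟩

/-- **[TAME-BASE-0] for `X₁(M)`**, `4 ∣ M` or `9 ∣ M`, from the generator system. -/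
theorem tameBaseZero_X1 (hD : (x1Data M).IsSys) (hM : 4 ∣ M ∨ 9 ∣ M)
    (hj : jqModC Kb ∈ F1 M) : ∃ c : ℕ, TameBaseZeroStatement (F1 M) hj c := by
  have hM4 : 4 ≤ M := by
    have hpos : 0 < M := Nat.pos_of_ne_zero (NeZero.ne M)
    rcases hM with h | h
    · exact Nat.le_of_dvd hpos h
    · have := Nat.le_of_dvd hpos h
      omega
  have hno : NoEll (x1Data M).Γ := noEll_PG1 M hM4
  have hle : modularFunctionFieldFullC Kb M ≤ (x1Data M).field Kb := by
    rw [← F1_eq_field]
    exact fullC_le_F1 M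
  suffices H : ∀ (E : IntermediateField Kb (LaurentSeries Kb)) (hE : E = (x1Data M).field Kb)
      (hj : jqModC Kb ∈ E), ∃ c : ℕ, TameBaseZeroStatement E hj c from H _ (F1_eq_field M) hj
  intro E hE hj'
  subst hE
  exact tameBaseZero_of_isSys (x1Data M) hD hno hM hle hj'

end X1

end Fermat.Agent.T4.helper69

end
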