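import Mathlib
import Fermat.Agent.P2.helper74_PivotInst
import Fermat.Agent.T4.helper4_RedDefs

/-!
# T4 block (I), I-RED [PIVOT1] (helper88): the pivot statement for a generic pair `(E, Eb)`

Generic port of `P2/helper74_PivotInst` to the vocabulary of `T4/helper4_RedDefs`:
an integral formal `m`-th root `W` (with constant nonzero reduction) of a function `H ∈ E`
regular off infinity lies in `E`, provided `m` is invertible in the residue field.

Inputs: (ARCH) for `A`, Riemann's setting for `E`, a place at infinity of `E`, and the generic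
`ScaleStatement`, `IntegralityStatement`, `RegRedStatement`, `SurjRedStatement` of the pair.
-/

set_option autoImplicit false

noncomputable section

open HahnSeries IntermediateField AlgebraicCurve ModularCurve
open Fermat.Agent.S18.helper19 (Kb kA)
open Fermat.Agent.P2.helper29 (incl red IsInfty InL)
open Fermat.Agent.P2.helper74

namespace Fermat.Agent.T4.helper88

variable {A : ValuationSubring Kb} {E : IntermediateField Kb (LaurentSeries Kb)}
  {Eb : IntermediateField (kA A) (LaurentSeries (kA A))}

/-- the Gauss norm is attained on `L(n ∞)` (generic pair). -/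
theorem contentAttained_of_inL1 (hSc : helper4.ScaleStatement A E Eb)
    (hInt : helper4.IntegralityStatement A E Eb)
    {n : ℤ} {f : LaurentSeries Kb} (hf : InL E n f) (hf0 : f ≠ 0) :
    ContentAttained A (IsLocalRing.residue A) f := by
  obtain ⟨c, Y₁, Y₂, hc, hY₁, hY₂, h⟩ := hSc f hf.1 hf0
  have hg : InL E n (algebraMap Kb (LaurentSeries Kb) c⁻¹ * f) := InL.smul hf c⁻¹
  have heq : incl A Y₁ = (algebraMap Kb (LaurentSeries Kb) c⁻¹ * f) * incl A Y₂ := by
    have h1 : algebraMap Kb (LaurentSeries Kb) c⁻¹
        * (algebraMap Kb (LaurentSeries Kb) c * incl A Y₁) = incl A Y₁ := by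
      rw [← mul_assoc, ← map_mul, inv_mul_cancel₀ hc, map_one, one_mul]
    rw [← h1, h]
    ring
  have hW : helper4.IsWInt A E Eb (algebraMap Kb (LaurentSeries Kb) c⁻¹ * f) :=
    ⟨Y₁, Y₂, hY₁.1, hY₂, heq⟩
  obtain ⟨Y, hY⟩ := hInt n _ hg hW
  refine ⟨c⁻¹, inv_ne_zero hc, Y, ?_, ?_⟩
  · rw [smul_eq_algebraMap_mul]
    exact hY
  · intro h0
    have h1 : incl A (Y * Y₂) = incl A Y₁ := by
      rw [map_mul, hY]
      exact heq.symm
    have h2 : Y * Y₂ = Y₁ := coeffMap_subtype_injective A h1
    have h3 : red A Y₁ = 0 := by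
      rw [← h2, map_mul]
      show coeffMap (IsLocalRing.residue A) Y * _ = 0
      rw [h0, zero_mul]
    exact hY₁.2.2 h3

/-- **[PIVOT1]** the pivot statement for a generic pair `(E, Eb)`. -/
theorem pivot1_of (m : ℕ) (hm : IsLocalRing.residue A (m : A) ≠ 0)
    (hArch : Arch A (IsLocalRing.residue A))
    (hS : RiemannSetting Kb E) (P : Place Kb E) (hP : IsInfty P)
    (hSc : helper4.ScaleStatement A E Eb) (hInt : helper4.IntegralityStatement A E Eb)
    (hUE : helper4.RegRedStatement A E Eb) (hSurj : helper4.SurjRedStatement A E Eb) :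
    helper4.PivotStatement A E m := by
  classical
  intro H W n z hH hWH hz hWz
  obtain ⟨c, hc⟩ := hSurj
  set n' : ℤ := max (max n c) 0 with hn'
  have hn'0 : 0 ≤ n' := le_max_right _ _
  have hn'n : n ≤ n' := le_trans (le_max_left _ _) (le_max_left _ _)
  have hn'c : c ≤ n' := le_trans (le_max_right _ _) (le_max_left _ _)
  have hm0 : m ≠ 0 := by
    rintro rfl
    simp at hm
  have hm1 : (1 : ℤ) ≤ (m : ℤ) := by exact_mod_cast Nat.one_le_iff_ne_zero.mpr hm0
  have hmn : n ≤ (m : ℤ) * n' := by nlinarith
  -- the unit `a` lifting `z`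
  obtain ⟨a, ha⟩ := IsLocalRing.residue_surjective z
  have hau : IsUnit a := isUnit_of_residue_ne_zero A a (by rw [ha]; exact hz)
  obtain ⟨ua, hua⟩ := hau
  set b : A := ((ua⁻¹ : Aˣ) : A) with hb
  have hba : b * a = 1 := by
    rw [← hua]
    exact Units.inv_mul ua
  have hab : a * b = 1 := by rw [mul_comm]; exact hba
  set W₀ : LaurentSeries A := HahnSeries.C b * W with hW₀def
  have hW₀red : red A W₀ = 1 := by
    rw [hW₀def, map_mul, red_C, hWz, ← map_mul, ← ha, ← map_mul, hba, map_one, map_one]
  have hWW₀ : W = HahnSeries.C a * W₀ := by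
    rw [hW₀def, ← mul_assoc, ← map_mul, hab, map_one, one_mul]
  set V : Submodule Kb (LaurentSeries Kb) := inLSub E n' with hV
  set V' : Submodule Kb (LaurentSeries Kb) := inLSub E ((m : ℤ) * n') with hV'
  have : FiniteDimensional Kb V := finiteDimensional_inLSub hS hP n'
  have hVatt : ∀ u ∈ V, u ≠ 0 → ContentAttained A (IsLocalRing.residue A) u :=
    fun u hu hu0 => contentAttained_of_inL1 hSc hInt hu hu0
  have hV'att : ∀ u ∈ V', u ≠ 0 → ContentAttained A (IsLocalRing.residue A) u :=
    fun u hu hu0 => contentAttained_of_inL1 hSc hInt hu hu0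
  have hVord : ∀ u ∈ V, ∀ j < -n', u.coeff j = 0 := fun u hu => hu.2.2
  have hpow : ∀ u ∈ V, u ^ m ∈ V' := fun u hu => InL.pow hu m
  have hred : ∀ Z : LaurentSeries A, coeffMap A.subtype Z ∈ V' →
      (∀ j < -n', (coeffMap (IsLocalRing.residue A) Z).coeff j = 0) →
      ∃ Z' : LaurentSeries A, coeffMap A.subtype Z' ∈ V ∧
        coeffMap (IsLocalRing.residue A) Z' = coeffMap (IsLocalRing.residue A) Z := by
    intro Z hZ hZc
    have h1 := hUE ((m : ℤ) * n') Z hZ
    have h2 : InL Eb n' (red A Z) := ⟨h1.1, h1.2.1, hZc⟩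
    obtain ⟨Y, hY, hYr⟩ := hc n' hn'c _ h2
    exact ⟨Y, hY, hYr⟩
  have hW₀pow : (coeffMap A.subtype W₀) ^ m ∈ V' := by
    have h1 : (coeffMap A.subtype W₀) ^ m
        = algebraMap Kb (LaurentSeries Kb) ((b : Kb) ^ m) * incl A H := by
      rw [← map_pow, hW₀def, mul_pow, hWH, map_mul, ← map_pow, incl_C]
      rfl
    rw [h1]
    exact InL.smul (InL.mono hH hmn) _
  have hW₀ord : ∀ j < -n', W₀.coeff j = 0 := by
    intro j hj
    by_cases hw0 : coeffMap A.subtype W₀ = 0
    · have : W₀ = 0 := coeffMap_subtype_injective A (hw0.trans (map_zero _).symm)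
      rw [this]
      rfl
    · have h1 : -((m : ℤ) * n') ≤ ((coeffMap A.subtype W₀) ^ m).order :=
        (Fermat.Agent.P2.helper29.coeff_eq_zero_iff_le_order (pow_ne_zero m hw0)).mp hW₀pow.2.2
      rw [order_pow_field _ hw0] at h1
      have h2 : -n' ≤ (coeffMap A.subtype W₀).order := by
        by_contra hlt
        rw [not_le] at hlt
        nlinarith
      have h3 := (Fermat.Agent.P2.helper29.coeff_eq_zero_iff_le_order hw0).mpr h2 j hj
      rw [coeffMap_coeff] at h3
      exact Subtype.ext h3
  have hatt : ∀ u ∈ V, coeffMap A.subtype W₀ - u ≠ 0 →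
      ContentAttained A (IsLocalRing.residue A) (coeffMap A.subtype W₀ - u) := by
    intro u hu hne
    by_cases hu0 : u = 0
    · subst hu0
      refine ⟨1, one_ne_zero, W₀, ?_, ?_⟩
      · rw [one_smul, sub_zero]
      · have : coeffMap (IsLocalRing.residue A) W₀ = 1 := hW₀red
        rw [this]
        exact one_ne_zero
    obtain ⟨cu, hcu, Yu, hYu, hYur⟩ := hVatt u hu hu0
    by_cases hcuA : cu⁻¹ ∈ A
    · -- `u` is integral
      set U : LaurentSeries A := HahnSeries.C (⟨cu⁻¹, hcuA⟩ : A) * Yu with hU
      have hUu : incl A U = u := by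
        rw [hU, map_mul, incl_C]
        show algebraMap Kb (LaurentSeries Kb) cu⁻¹ * coeffMap A.subtype Yu = u
        rw [hYu, ← smul_eq_algebraMap_mul, smul_smul, inv_mul_cancel₀ hcu, one_smul]
      by_cases hr : red A (W₀ - U) = 0
      · -- the congruent case
        have hUred : red A U = 1 := by
          have h1 := hr
          rw [map_sub, hW₀red, sub_eq_zero] at h1
          exact h1.symm
        set Θ : LaurentSeries A := ∑ i ∈ Finset.range m, W₀ ^ i * U ^ (m - 1 - i) with hΘ
        have hΘmul : (W₀ - U) * Θ = W₀ ^ m - U ^ m := by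
          rw [hΘ, mul_comm]
          exact (Commute.all W₀ U).geom_sum₂_mul m
        have hΘred : red A Θ = (m : LaurentSeries (kA A)) := by
          rw [hΘ, map_sum]
          simp only [map_mul, map_pow, hW₀red, hUred, one_pow, mul_one, Finset.sum_const,
            Finset.card_range, nsmul_eq_mul]
        have hmk : ((m : ℕ) : kA A) ≠ 0 := by
          have := hm
          rwa [map_natCast] at this
        have hΘne : coeffMap (IsLocalRing.residue A) Θ ≠ 0 := by
          have : coeffMap (IsLocalRing.residue A) Θ = (m : LaurentSeries (kA A)) := hΘred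
          rw [this]
          exact natCast_laurent_ne_zero m hmk
        have hd : incl A (W₀ ^ m - U ^ m) ∈ V' := by
          rw [map_sub, map_pow, map_pow, hUu]
          exact V'.sub_mem hW₀pow (hpow u hu)
        have hdne : incl A (W₀ ^ m - U ^ m) ≠ 0 := by
          rw [← hΘmul, map_mul]
          refine mul_ne_zero ?_ ?_
          · rw [map_sub, hUu]
            exact hne
          · intro h
            apply hΘne
            have : Θ = 0 := coeffMap_subtype_injective A (h.trans (map_zero _).symm)
            rw [this, map_zero]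
        obtain ⟨c', hc', Q, hQ, hQr⟩ := hV'att _ hd hdne
        have hc'A : c'⁻¹ ∈ A := by
          by_contra h
          have hc'A' : c' ∈ A := (A.mem_or_inv_mem c').resolve_right h
          apply hQr
          have hQeq : Q = HahnSeries.C (⟨c', hc'A'⟩ : A) * (W₀ ^ m - U ^ m) := by
            apply coeffMap_subtype_injective A
            rw [hQ, map_mul]
            show _ = incl A (HahnSeries.C (⟨c', hc'A'⟩ : A)) * _
            rw [incl_C, ← smul_eq_algebraMap_mul]
          rw [hQeq, map_mul, map_sub, map_pow, map_pow]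
          show _ * (red A W₀ ^ m - red A U ^ m) = 0
          rw [hW₀red, hUred, sub_self, mul_zero]
        set e : A := ⟨c'⁻¹, hc'A⟩ with he_def
        have he : e ≠ 0 := by
          intro h
          have h1 : (e : Kb) = 0 := by rw [h]; rfl
          exact inv_ne_zero hc' h1
        have hQe : (W₀ - U) * Θ = e • Q := by
          rw [hΘmul]
          apply coeffMap_subtype_injective A
          rw [coeffMap_subtype_smul, hQ, smul_smul]
          show _ = (c'⁻¹ * c') • _
          rw [inv_mul_cancel₀ hc', one_smul]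
        obtain ⟨δ', hδ'⟩ := exists_eq_smul_of_mul_eq (isUnit_of_residue_ne_zero A) hArch
          (W₀ - U) Θ Q e he hΘne hQe
        have hδQ : δ' * Θ = Q := by
          have h1 : HahnSeries.C e * (δ' * Θ) = HahnSeries.C e * Q := by
            rw [← mul_assoc, HahnSeries.C_mul_eq_smul, ← hδ', hQe, HahnSeries.C_mul_eq_smul]
          refine HahnSeries.ext (funext fun i => ?_)
          have h2 := congrArg (fun z : LaurentSeries A => z.coeff i) h1
          simp only [HahnSeries.C_mul_eq_smul, HahnSeries.coeff_smul, smul_eq_mul] at h2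
          exact mul_left_cancel₀ he h2
        refine ⟨c', hc', δ', ?_, ?_⟩
        · have h1 : incl A (W₀ - U) = (e : Kb) • incl A δ' := by
            rw [hδ', coeffMap_subtype_smul]
          have h2 : coeffMap A.subtype W₀ - u = incl A (W₀ - U) := by
            rw [map_sub, hUu]
          rw [h2, h1, smul_smul]
          show _ = (c' * c'⁻¹) • _
          rw [mul_inv_cancel₀ hc', one_smul]
        · intro h0
          apply hQr
          rw [← hδQ, map_mul, h0, zero_mul]
      · refine ⟨1, one_ne_zero, W₀ - U, ?_, hr⟩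
        rw [one_smul, map_sub]
        show _ = _ - u
        rw [← hUu]
    · -- `u` is not integral
      have hcuA' : cu ∈ A := (A.mem_or_inv_mem cu).resolve_right hcuA
      have hcu0 : IsLocalRing.residue A (⟨cu, hcuA'⟩ : A) = 0 := by
        by_contra h
        obtain ⟨v, hv⟩ := isUnit_of_residue_ne_zero A _ h
        apply hcuA
        have h1 : ((v⁻¹ : Aˣ) : A) * (⟨cu, hcuA'⟩ : A) = 1 := by
          rw [← hv]
          exact Units.inv_mul v
        have h2 : (((v⁻¹ : Aˣ) : A) : Kb) * cu = 1 := congrArg Subtype.val h1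
        have h3 : cu⁻¹ = (((v⁻¹ : Aˣ) : A) : Kb) := (eq_inv_of_mul_eq_one_left h2).symm
        rw [h3]
        exact Subtype.property _
      refine ⟨cu, hcu, HahnSeries.C (⟨cu, hcuA'⟩ : A) * W₀ - Yu, ?_, ?_⟩
      · rw [map_sub, map_mul, hYu, smul_sub]
        congr 1
        show incl A (HahnSeries.C (⟨cu, hcuA'⟩ : A)) * _ = _
        rw [incl_C, ← smul_eq_algebraMap_mul]
      · rw [map_sub, map_mul]
        show red A (HahnSeries.C (⟨cu, hcuA'⟩ : A)) * _ - _ ≠ 0
        rw [red_C, hcu0, map_zero, zero_mul, zero_sub, neg_ne_zero]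
        exact hYur
  have key := mem_of_pow_mem A (IsLocalRing.residue A) (isUnit_of_residue_ne_zero A)
    IsLocalRing.residue_surjective V V' n' hn'0 m hm hVatt hVord hpow hred W₀ hW₀pow hW₀red
    hW₀ord hatt
  have h1 : incl A W = algebraMap Kb (LaurentSeries Kb) (a : Kb) * incl A W₀ := by
    rw [hWW₀, map_mul, incl_C]
  rw [h1]
  exact E.mul_mem (E.algebraMap_mem _) key.1

end Fermat.Agent.T4.helper88

end
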