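import Mathlib
import Fermat.Agent.T4.helper4_RedDefs
import Fermat.Agent.P2.helper74_IdealStep

/-!
# T4 (I) I-RED [IDEAL1] (helper8): the ideal step for a GENERIC pair `(E, Eb)`

Port of `P2/helper74_IdealStep` (+ `helper74_IdealStepFinal`) to the generic interface
`helper4_RedDefs`: for a valuation subring `A` of `ℚ̄`, a function field `E ⊆ ℚ̄((q))` and a
special fibre field `Eb ⊆ k((q))`:

* `idealStep1_of`   : (VAL-SC) + (VAL-INT) + (VAL-UE) + (GEN) + `RiemannSetting` of both fields +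
  (INF) ⟹ `helper4.IdealStepStatement A E Eb m` for `m ≠ 0`;
* `idealStep1_zero` : the case `m = 0` (needs only (INF));
* `idealStep1`      : all `m`.

Also the generic form of the small lemmas on good series (`isGood1_one`, `IsGood1.mul`,
`isGood1_pow`), `isRedOne1_one`, and of `helper96.exists_scaled` (`exists_scaled1`).
-/

set_option autoImplicit false
set_option synthInstance.maxHeartbeats 200000
set_option linter.unusedSectionVars false
set_option linter.unusedVariables false

noncomputable section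

open HahnSeries IntermediateField AlgebraicCurve ModularCurve
open Fermat.Agent.S18.helper19 (Kb kA)
open Fermat.Agent.P2.helper29 (incl red IsInfty InL HasRiemannGenus inL_one)
open Fermat.Agent.P2.helper74 (RiemannSetting ell exists_ne_zero_of_ell_pos mem_L_mul mem_L_pow
  mem_L_of_ord_eq mulLin mulLin_injective exists_integral_basis
  linearIndependent_coeffMap_of_forall coeffMap_subtype_sum)
open Fermat.Agent.T4.helper4

namespace Fermat.Agent.T4.helper8

variable {A : ValuationSubring Kb} {E : IntermediateField Kb (LaurentSeries Kb)}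
  {Eb : IntermediateField (kA A) (LaurentSeries (kA A))}

/-! ### Good series -/

theorem incl1_injective (A : ValuationSubring Kb) : Function.Injective (incl A) :=
  Fermat.Agent.P2.helper74.coeffMap_subtype_injective A

theorem isGood1_one : IsGood A E Eb (1 : LaurentSeries A) := by
  refine ⟨?_, ?_, ?_⟩
  · rw [map_one]; exact E.one_mem
  · rw [map_one]; exact Eb.one_mem
  · rw [map_one]; exact one_ne_zero

theorem IsGood1.mul {Y Y' : LaurentSeries A} (h : IsGood A E Eb Y) (h' : IsGood A E Eb Y') :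
    IsGood A E Eb (Y * Y') := by
  refine ⟨?_, ?_, ?_⟩
  · rw [map_mul]; exact E.mul_mem h.1 h'.1
  · rw [map_mul]; exact Eb.mul_mem h.2.1 h'.2.1
  · rw [map_mul]; exact mul_ne_zero h.2.2 h'.2.2

theorem isGood1_pow {Y : LaurentSeries A} (h : IsGood A E Eb Y) (k : ℕ) :
    IsGood A E Eb (Y ^ k) := by
  induction k with
  | zero => rw [pow_zero]; exact isGood1_one
  | succ k ih => rw [pow_succ]; exact IsGood1.mul ih h

theorem isGood1_ne_zero {Y : LaurentSeries A} (h : IsGood A E Eb Y) : Y ≠ 0 := by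
  rintro rfl
  exact h.2.2 (map_zero _)

theorem isGood1_incl_ne_zero {Y : LaurentSeries A} (h : IsGood A E Eb Y) : incl A Y ≠ 0 := by
  intro h0
  exact isGood1_ne_zero h (incl1_injective A (h0.trans (map_zero _).symm))

theorem isRedOne1_one : IsRedOne A E Eb (1 : LaurentSeries Kb) :=
  ⟨1, 1, isGood1_one, isGood1_one, by simp, rfl⟩

theorem isUnit1_of_residue_ne_zero (x : A) (h : IsLocalRing.residue A x ≠ 0) : IsUnit x := by
  by_contra hx
  exact h ((IsLocalRing.residue_eq_zero_iff x).mpr ((IsLocalRing.mem_maximalIdeal x).mpr hx))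

/-- every nonzero element of `L(n ∞)` has a scalar multiple with integral `q`-expansion and
nonzero reduction (generic form of `helper96.exists_scaled`) -/
theorem exists_scaled1 (hSc : ScaleStatement A E Eb) (hInt : IntegralityStatement A E Eb)
    {P : Place Kb E} (hP : IsInfty P) (n : ℤ)
    (u : LaurentSeries Kb) (hu : u ∈ Fermat.Agent.P2.helper96.LSub P n) (hu0 : u ≠ 0) :
    ∃ c : Kb, c ≠ 0 ∧ ∃ Y : LaurentSeries A,
      coeffMap A.subtype Y = c • u ∧ coeffMap (IsLocalRing.residue A) Y ≠ 0 := by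
  have huL : InL E n u := (Fermat.Agent.P2.helper96.mem_LSub_iff hP n u).mp hu
  obtain ⟨hmem, -⟩ := huL
  obtain ⟨c, Y₁, Y₂, hc, hY₁, hY₂, e⟩ := hSc u hmem hu0
  have hu' : InL E n (c⁻¹ • u) :=
    (Fermat.Agent.P2.helper96.mem_LSub_iff hP n _).mp (Submodule.smul_mem _ _ hu)
  have e' : incl A Y₁ = (c⁻¹ • u) * incl A Y₂ := by
    rw [← HahnSeries.C_mul_eq_smul, mul_assoc, ← e, algebraMap_laurentSeries_eq_single,
      ← HahnSeries.C_apply, ← mul_assoc, ← map_mul, inv_mul_cancel₀ hc, map_one, one_mul]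
  obtain ⟨Y, hY⟩ := hInt n _ hu' ⟨Y₁, Y₂, hY₁.1, hY₂, e'⟩
  refine ⟨c⁻¹, inv_ne_zero hc, Y, hY, ?_⟩
  intro h0
  have h1 : Y * Y₂ = Y₁ := by
    apply Fermat.Agent.P2.helper74.coeffMap_subtype_injective A
    rw [map_mul, hY]
    exact e'.symm
  have h2 := congrArg (coeffMap (IsLocalRing.residue A)) h1
  rw [map_mul, h0, zero_mul] at h2
  exact hY₁.2.2 h2.symm

/-! ### The ideal step -/

set_option maxHeartbeats 4000000 in
/-- **[IDEAL1]** the ideal step for a generic pair `(E, Eb)`, `m ≠ 0`. -/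
theorem idealStep1_of (m : ℕ) (hm : m ≠ 0)
    (hSc : ScaleStatement A E Eb) (hInt : IntegralityStatement A E Eb)
    (hUE : RegRedStatement A E Eb)
    (hS : RiemannSetting Kb E) (hSb : RiemannSetting (kA A) Eb)
    (hInf : InftyStatement A E Eb) (hGen : GenusEqStatement A E Eb) :
    IdealStepStatement A E Eb m := by
  classical
  intro h hh hh0 hdiv hred
  obtain ⟨g, hg, hgb⟩ := hGen
  obtain ⟨⟨P, hP⟩, ⟨Q, hQ⟩⟩ := hInf
  have hmpos : 0 < m := Nat.pos_of_ne_zero hm
  have hmZ : (m : ℤ) ≠ 0 := by exact_mod_cast hm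
  -- `h` as an element of `E`
  set hE : E := ⟨h, hh⟩ with hEdef
  have hE0 : hE ≠ 0 := fun e => hh0 (congrArg Subtype.val e)
  obtain ⟨Z, hZ, hZdeg⟩ := hS.principal.exists_divisor hE hE0
  have hZm : ∀ v, (m : ℤ) ∣ Z v := fun v => by rw [hZ]; exact hdiv hh v
  -- `D = Z / m`
  set D : Divisor Kb E := Z.mapRange (fun z => z / (m : ℤ)) (by simp) with hDdef
  have hDv : ∀ v, (m : ℤ) * D v = Z v := fun v => by
    rw [hDdef, Finsupp.mapRange_apply (hf := by simp)]
    exact Int.mul_ediv_cancel' (hZm v)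
  have hmD : m • D = Z := by
    ext v
    rw [Finsupp.smul_apply, nsmul_eq_mul]
    exact hDv v
  have hDdeg : Divisor.degree D = 0 := by
    have h1 : m • Divisor.degree D = 0 := by rw [← map_nsmul, hmD, hZdeg]
    rw [nsmul_eq_mul] at h1
    rcases mul_eq_zero.mp h1 with h2 | h2
    · exact absurd h2 hmZ
    · exact h2
  -- the multiplier `Q₀`
  set E₀ : Divisor Kb E := Finsupp.single P (g : ℤ) + D with hE₀def
  have hE₀deg : Divisor.degree E₀ = g := by
    rw [hE₀def, map_add, Divisor.degree_single, hS.deg_one, hDdeg]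
    simp
  have hE₀pos : 0 < ell E₀ := by
    have h1 := hg.1 E₀
    rw [hE₀deg] at h1
    have : (0 : ℤ) < ell E₀ := by linarith
    exact_mod_cast this
  obtain ⟨Q₀, hQ₀0, hQ₀⟩ := exists_ne_zero_of_ell_pos hE₀pos
  have hQ₀L0 : (Q₀ : LaurentSeries Kb) ≠ 0 := fun e => hQ₀0 (Subtype.ext e)
  obtain ⟨c, Y₁', Y₂', hc, hY₁', hY₂', hsc⟩ := hSc (Q₀ : LaurentSeries Kb) Q₀.2 hQ₀L0
  set Q₁ : E := algebraMap Kb E c⁻¹ * Q₀ with hQ₁def
  have hQ₁ : Q₁ ∈ riemannRochSpace E₀ := by
    rw [hQ₁def, ← Algebra.smul_def]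
    exact Submodule.smul_mem _ _ hQ₀
  have hQ₁0 : Q₁ ≠ 0 :=
    mul_ne_zero (by rw [Ne, map_eq_zero]; exact inv_ne_zero hc) hQ₀0
  set q₁ : LaurentSeries Kb := (Q₁ : LaurentSeries Kb) with hq₁def
  have hq₁0 : q₁ ≠ 0 := fun e => hQ₁0 (Subtype.ext e)
  have hq₁ : q₁ = algebraMap Kb (LaurentSeries Kb) c⁻¹ * (Q₀ : LaurentSeries Kb) := rfl
  have hsc' : incl A Y₁' = q₁ * incl A Y₂' := by
    have h1 : algebraMap Kb (LaurentSeries Kb) c⁻¹
        * (algebraMap Kb (LaurentSeries Kb) c * incl A Y₁') = incl A Y₁' := by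
      rw [← mul_assoc, ← map_mul, inv_mul_cancel₀ hc, map_one, one_mul]
    rw [← h1, hsc, hq₁]
    ring
  -- the reduction of `Q₁`
  set qb : LaurentSeries (kA A) := red A Y₁' * (red A Y₂')⁻¹ with hqbdef
  have hqb0 : qb ≠ 0 := mul_ne_zero hY₁'.2.2 (inv_ne_zero hY₂'.2.2)
  have hqbmem : qb ∈ Eb := Eb.mul_mem hY₁'.2.1 (Eb.inv_mem hY₂'.2.1)
  have hqbmul : qb * red A Y₂' = red A Y₁' := by
    rw [hqbdef, mul_assoc, inv_mul_cancel₀ hY₂'.2.2, mul_one]
  obtain ⟨Y₁, Y₂, hY₁, hY₂, h12, hr12⟩ := hred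
  -- `R = Q₁ ^ m * h`
  have hRmem : Q₁ ^ m * hE ∈ riemannRochSpace (Finsupp.single P ((m : ℤ) * g)) := by
    have h1 := mem_L_mul (mem_L_pow hQ₁ m)
      (mem_L_of_ord_eq hE0 (Z := -Z) (fun v => by rw [Finsupp.neg_apply, hZ]))
    have h2 : m • E₀ + -Z = Finsupp.single P ((m : ℤ) * g) := by
      ext v
      have := hDv v
      simp only [hE₀def, Finsupp.add_apply, Finsupp.smul_apply, Finsupp.neg_apply, nsmul_eq_mul,
        Finsupp.single_apply]
      split_ifs <;> linarith
    rwa [h2] at h1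
  set R : LaurentSeries Kb := q₁ ^ m * h with hRdef
  have hRL : InL E ((m : ℤ) * g) R :=
    (Fermat.Agent.P2.helper96.inL_iff_mem_L hP _ R).mpr ⟨(Q₁ ^ m * hE).2, hRmem⟩
  have hRW : IsWInt A E Eb R := by
    refine ⟨Y₁' ^ m * Y₁, Y₂' ^ m * Y₂, ?_, ?_, ?_⟩
    · rw [map_mul, map_pow]
      exact E.mul_mem (E.pow_mem hY₁'.1 m) hY₁.1
    · exact IsGood1.mul (isGood1_pow hY₂' m) hY₂
    · rw [map_mul, map_pow, map_mul, map_pow, hsc', h12, hRdef]
      ring
  obtain ⟨YR, hYR⟩ := hInt _ R hRL hRW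
  have hYRmul : YR * (Y₂' ^ m * Y₂) = Y₁' ^ m * Y₁ := by
    apply Fermat.Agent.P2.helper74.coeffMap_subtype_injective A
    rw [map_mul]
    show incl A YR * incl A (Y₂' ^ m * Y₂) = incl A (Y₁' ^ m * Y₁)
    rw [hYR, map_mul, map_pow, map_mul, map_pow, hsc', h12, hRdef]
    ring
  have hYRred : red A YR = qb ^ m := by
    have h1 := congrArg (red A) hYRmul
    rw [map_mul, map_mul, map_mul, map_pow, map_pow, hr12, ← hqbmul, mul_pow] at h1
    have h2 : red A Y₂' ^ m * red A Y₂ ≠ 0 :=
      mul_ne_zero (pow_ne_zero m hY₂'.2.2) hY₂.2.2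
    have h3 : red A YR * (red A Y₂' ^ m * red A Y₂) = qb ^ m * (red A Y₂' ^ m * red A Y₂) := by
      rw [h1]
      ring
    exact mul_right_cancel₀ h2 h3
  have hYRgood : IsGood A E Eb YR := by
    refine ⟨?_, ?_, ?_⟩
    · show incl A YR ∈ E
      rw [hYR]
      exact hRL.1
    · show red A YR ∈ Eb
      rw [hYRred]
      exact Eb.pow_mem hqbmem m
    · show red A YR ≠ 0
      rw [hYRred]
      exact pow_ne_zero m hqb0
  -- the choice of `n`
  obtain ⟨c, hc⟩ := hg.2
  obtain ⟨cb, hcb⟩ := Fermat.Agent.P2.helper96.exists_finrank_LSub hSb hgb Q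
  set n : ℤ := max (max c cb) 0 with hndef
  have hn0 : 0 ≤ n := le_max_right _ _
  have hnc : c ≤ n := le_trans (le_max_left _ _) (le_max_left _ _)
  have hncb : cb ≤ n := le_trans (le_max_right _ _) (le_max_left _ _)
  set En : Divisor Kb E := Finsupp.single P n - D with hEndef
  have hEndeg : Divisor.degree En = n := by
    rw [hEndef, map_sub, Divisor.degree_single, hS.deg_one, hDdeg]
    simp
  have hell : (ell En : ℤ) + g = n + 1 := by
    have := hc En (by rw [hEndeg]; exact hnc)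
    rw [hEndeg] at this
    exact this
  have hfrQ : (Module.finrank (kA A) (Fermat.Agent.P2.helper96.LSub Q n) : ℤ) + g = n + 1 :=
    hcb n hncb
  -- the space `V = Q₁ L(n ∞ - D)`
  set T : E →ₗ[Kb] LaurentSeries Kb :=
    (Fermat.Agent.P2.helper96.valLin E).comp (LinearMap.mulLeft Kb Q₁) with hTdef
  have hTinj : Function.Injective T := by
    intro x y hxy
    have h1 : Q₁ * x = Q₁ * y := Fermat.Agent.P2.helper96.valLin_injective hxy
    exact mul_left_cancel₀ hQ₁0 h1
  have hTapply : ∀ x : E, T x = q₁ * (x : LaurentSeries Kb) := fun x => rfl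
  set V : Submodule Kb (LaurentSeries Kb) := (riemannRochSpace En).map T with hVdef
  have hVrank : Module.finrank Kb V = ell En :=
    (Submodule.equivMapOfInjective T hTinj _).finrank_eq.symm
  have hsum : E₀ + En = Finsupp.single P (n + g) := by
    rw [hE₀def, hEndef, add_comm n (g : ℤ), Finsupp.single_add]
    abel
  have hVle : V ≤ Fermat.Agent.P2.helper96.LSub P (n + g) := by
    rintro _ ⟨x, hx, rfl⟩
    have h1 := mem_L_mul hQ₁ hx
    rw [hsum] at h1
    exact ⟨Q₁ * x, h1, rfl⟩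
  have hVL : ∀ u ∈ V, InL E (n + g) u := fun u hu =>
    (Fermat.Agent.P2.helper96.mem_LSub_iff hP _ u).mp (hVle hu)
  have hfinL : Module.Finite Kb (Fermat.Agent.P2.helper96.LSub P (n + g)) :=
    Fermat.Agent.P2.helper96.finite_LSub hS P _
  have hVfin : FiniteDimensional Kb V := Submodule.finiteDimensional_of_le hVle
  -- the key computation
  have key : ∀ X : LaurentSeries A, incl A X ∈ V →
      InL Eb n (red A X * qb⁻¹) ∧
        InL E ((m : ℤ) * n) ((incl A X * q₁⁻¹) ^ m * h⁻¹) := by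
    intro X hX
    obtain ⟨x, hx, hxX⟩ := hX
    rw [hTapply] at hxX
    have hxq : incl A X * q₁⁻¹ = (x : LaurentSeries Kb) := by
      rw [← hxX, mul_comm q₁, mul_assoc, mul_inv_cancel₀ hq₁0, mul_one]
    -- `u = x ^ m / h`
    have humem : x ^ m * hE⁻¹ ∈ riemannRochSpace (Finsupp.single P ((m : ℤ) * n)) := by
      have h1 := mem_L_mul (mem_L_pow hx m)
        (mem_L_of_ord_eq (inv_ne_zero hE0) (Z := Z)
          (fun v => by rw [Place.ord_inv, hZ, neg_neg]))
      have h2 : m • En + Z = Finsupp.single P ((m : ℤ) * n) := by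
        ext v
        have := hDv v
        simp only [hEndef, Finsupp.add_apply, Finsupp.smul_apply, Finsupp.sub_apply,
          nsmul_eq_mul, Finsupp.single_apply]
        split_ifs <;> linarith
      rwa [h2] at h1
    set u : LaurentSeries Kb := (x : LaurentSeries Kb) ^ m * h⁻¹ with hudef
    have huL : InL E ((m : ℤ) * n) u :=
      (Fermat.Agent.P2.helper96.inL_iff_mem_L hP _ u).mpr ⟨(x ^ m * hE⁻¹).2, humem⟩
    have hXm : incl A (X ^ m) = u * incl A YR := by
      rw [map_pow, ← hxX, hYR, hudef, hRdef, mul_pow]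
      field_simp
    have huW : IsWInt A E Eb u := by
      refine ⟨X ^ m, YR, ?_, hYRgood, hXm⟩
      rw [hXm]
      exact E.mul_mem huL.1 hYRgood.1
    obtain ⟨U, hU⟩ := hInt _ u huL huW
    have hXU : X ^ m = U * YR := by
      apply Fermat.Agent.P2.helper74.coeffMap_subtype_injective A
      rw [map_mul]
      show incl A (X ^ m) = incl A U * incl A YR
      rw [hXm, hU]
    have hUL : InL Eb ((m : ℤ) * n) (red A U) := hUE _ U (by rw [hU]; exact huL)
    have hXred : (red A X * qb⁻¹) ^ m = red A U := by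
      have h1 := congrArg (red A) hXU
      rw [map_pow, map_mul, hYRred] at h1
      rw [mul_pow, h1, inv_pow, mul_assoc, mul_inv_cancel₀ (pow_ne_zero m hqb0), mul_one]
    have hXmem : red A X ∈ Eb := by
      have h1 : InL E (n + g) (incl A X) := hVL _ ⟨x, hx, by rw [hTapply]; exact hxX⟩
      exact (hUE _ X h1).1
    refine ⟨Fermat.Agent.P2.helper29.InL.of_pow (Eb.mul_mem hXmem (Eb.inv_mem hqbmem)) hmpos ?_,
      ?_⟩
    · rw [hXred]
      exact hUL
    · rw [hxq]
      exact huL
  -- integral basis of `V`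
  obtain ⟨G, hGV, -, -, hGred⟩ := exists_integral_basis A (IsLocalRing.residue A)
    isUnit1_of_residue_ne_zero V
    (fun u hu hu0 => exists_scaled1 hSc hInt hP (n + g) u (hVle hu) hu0)
  have hli : LinearIndependent (kA A) (fun i => red A (G i)) :=
    linearIndependent_coeffMap_of_forall A _ IsLocalRing.residue_surjective G hGred
  have hli' : LinearIndependent (kA A) (fun i => red A (G i) * qb⁻¹) :=
    hli.map' (mulLin qb⁻¹) (LinearMap.ker_eq_bot.mpr (mulLin_injective (inv_ne_zero hqb0)))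
  have hmem : ∀ i, red A (G i) * qb⁻¹ ∈ Fermat.Agent.P2.helper96.LSub Q n := fun i =>
    (Fermat.Agent.P2.helper96.mem_LSub_iff hQ n _).mpr (key (G i) (hGV i)).1
  have hfinQ : Module.Finite (kA A) (Fermat.Agent.P2.helper96.LSub Q n) :=
    Fermat.Agent.P2.helper96.finite_LSub hSb Q n
  have hcard : Module.finrank Kb V =
      Module.finrank (kA A) (Fermat.Agent.P2.helper96.LSub Q n) := by
    have : (Module.finrank Kb V : ℤ) =
        Module.finrank (kA A) (Fermat.Agent.P2.helper96.LSub Q n) := by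
      rw [hVrank]
      linarith
    exact_mod_cast this
  have hspan : Submodule.span (kA A) (Set.range fun i => red A (G i) * qb⁻¹)
      = Fermat.Agent.P2.helper96.LSub Q n := by
    apply Submodule.eq_of_le_of_finrank_eq
      (Submodule.span_le.mpr (by rintro _ ⟨i, rfl⟩; exact hmem i))
    rw [finrank_span_eq_card hli', Fintype.card_fin, hcard]
  have h1mem : (1 : LaurentSeries (kA A)) ∈
      Submodule.span (kA A) (Set.range fun i => red A (G i) * qb⁻¹) := by
    rw [hspan]
    exact (Fermat.Agent.P2.helper96.mem_LSub_iff hQ n 1).mpr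
      (Fermat.Agent.P2.helper29.InL.mono inL_one hn0)
  obtain ⟨cf, hcf⟩ := (Submodule.mem_span_range_iff_exists_fun _).mp h1mem
  choose a ha using fun i => IsLocalRing.residue_surjective (cf i)
  set X : LaurentSeries A := ∑ i, a i • G i with hXdef
  have hXV : incl A X ∈ V := by
    rw [hXdef]
    show coeffMap A.subtype (∑ i, a i • G i) ∈ V
    rw [coeffMap_subtype_sum]
    exact Submodule.sum_mem _ (fun i _ => Submodule.smul_mem _ _ (hGV i))
  have hXred : red A X = qb := by
    have h1 : red A X = ∑ i, cf i • red A (G i) := by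
      rw [hXdef, map_sum]
      refine Finset.sum_congr rfl fun i _ => ?_
      ext k
      simp [ha]
    have h2 : (∑ i, cf i • red A (G i)) * qb⁻¹ = 1 := by
      rw [← hcf, Finset.sum_mul]
      refine Finset.sum_congr rfl fun i _ => ?_
      exact (mulLin qb⁻¹).map_smul (cf i) (red A (G i))
    rw [h1]
    calc (∑ i, cf i • red A (G i))
        = (∑ i, cf i • red A (G i)) * qb⁻¹ * qb := by
          rw [mul_assoc, inv_mul_cancel₀ hqb0, mul_one]
      _ = qb := by rw [h2, one_mul]
  -- conclusion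
  have hXF : incl A X ∈ E := (hVL _ hXV).1
  have hX0 : incl A X ≠ 0 := by
    intro h0
    have h1 : X = 0 :=
      Fermat.Agent.P2.helper74.coeffMap_subtype_injective A (h0.trans (map_zero _).symm)
    rw [h1, map_zero] at hXred
    exact hqb0 hXred.symm
  have hXgood : IsGood A E Eb X := by
    refine ⟨hXF, ?_, ?_⟩
    · show red A X ∈ Eb
      rw [hXred]
      exact hqbmem
    · show red A X ≠ 0
      rw [hXred]
      exact hqb0
  refine ⟨incl A X * q₁⁻¹, E.mul_mem hXF (E.inv_mem Q₁.2),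
    mul_ne_zero hX0 (inv_ne_zero hq₁0), ?_, (m : ℤ) * n, (key X hXV).2⟩
  refine ⟨X * Y₂', Y₁', IsGood1.mul hXgood hY₂', hY₁', ?_, ?_⟩
  · rw [map_mul, hsc']
    field_simp
  · rw [map_mul, hXred, hqbmul]

/-- the case `m = 0` of the ideal step -/
theorem idealStep1_zero (hInf : InftyStatement A E Eb) : IdealStepStatement A E Eb 0 := by
  intro h hh hh0 hdiv _
  obtain ⟨⟨P, hP⟩, -⟩ := hInf
  refine ⟨1, E.one_mem, one_ne_zero, isRedOne1_one, 0, ?_⟩
  rw [pow_zero, one_mul]
  have hE0 : (⟨h, hh⟩ : E) ≠ 0 := fun e => hh0 (congrArg Subtype.val e)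
  have hord : ∀ P : Place Kb E, P.ord (⟨h, hh⟩ : E) = 0 := fun P => by
    have := hdiv hh P
    simpa using this
  have hinv : (⟨h⁻¹, E.inv_mem hh⟩ : E) = (⟨h, hh⟩ : E)⁻¹ := rfl
  refine ⟨E.inv_mem hh, fun P _ => ?_, ?_⟩
  · rw [hinv, Place.ord_inv, hord]
    simp
  · have h1 := hP (⟨h, hh⟩ : E)⁻¹ (inv_ne_zero hE0)
    rw [Place.ord_inv, hord, neg_zero] at h1
    have h2 : (h⁻¹ : LaurentSeries Kb).order = 0 := h1.symm
    rw [Fermat.Agent.P2.helper29.coeff_eq_zero_iff_le_order (inv_ne_zero hh0), h2]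
    simp

/-- **[IDEAL1]** the ideal step for a generic pair `(E, Eb)`, from the valuation dictionary,
genus equality, the `RiemannSetting` of both fields and the places at infinity. -/
theorem idealStep1 (m : ℕ)
    (hSc : ScaleStatement A E Eb) (hInt : IntegralityStatement A E Eb)
    (hUE : RegRedStatement A E Eb)
    (hS : RiemannSetting Kb E) (hSb : RiemannSetting (kA A) Eb)
    (hInf : InftyStatement A E Eb) (hGen : GenusEqStatement A E Eb) :
    IdealStepStatement A E Eb m := by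
  rcases Nat.eq_zero_or_pos m with rfl | hm
  · exact idealStep1_zero hInf
  · exact idealStep1_of m hm.ne' hSc hInt hUE hS hSb hInf hGen

end Fermat.Agent.T4.helper8

end
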