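import Mathlib
import Fermat.Agent.T4.helper8_IdealStep1

/-!
# T4 (I) I-RED [INJ-ASM1] (helper8): assembly of (INJ) for a GENERIC pair `(E, Eb)`

Port of `P2/helper29_Assembly` to the generic interface `helper4_RedDefs`:

* `injReg1_of_root_pivot`    : ROOT + PIVOT ⟹ REG;
* `inj1_of_idealStep_injReg` : I1 + REG + VAL-INT ⟹ `helper4.InjStatement A E Eb m`;
* `inj1_of_packages`         : I1 + ROOT + PIVOT + VAL-INT ⟹ (INJ);
* `inj1_of_val_gen`          : ROOT + PIVOT + the valuation dictionary + genus equality +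
  `RiemannSetting`s + (INF) ⟹ (INJ) (with `idealStep1`);
* `inj1Statement_of`         : `helper4.Inj1Statement M p` from the packages for
  `(F1 M, F1b A M)` at all places over the primes `ℓ ∤ M p`.

Also the calculus of `IsRedOne` (`IsRedOne1.mul`, `.inv`, `.pow`, `.isWInt`,
`red_eq_one_of_isRedOne1`).
-/

set_option autoImplicit false
set_option linter.unusedSectionVars false
set_option linter.unusedVariables false

noncomputable section

open HahnSeries IntermediateField AlgebraicCurve ModularCurve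
open Fermat.Agent.S18.helper19 (Kb kA)
open Fermat.Agent.P2.helper29 (incl red IsInfty InL HasRiemannGenus)
open Fermat.Agent.P2.helper74 (RiemannSetting)
open Fermat.Agent.T4.helper4

namespace Fermat.Agent.T4.helper8

variable {A : ValuationSubring Kb} {E : IntermediateField Kb (LaurentSeries Kb)}
  {Eb : IntermediateField (kA A) (LaurentSeries (kA A))}

/-! ### The calculus of `IsRedOne` -/

theorem IsRedOne1.ne_zero {f : LaurentSeries Kb} (h : IsRedOne A E Eb f) : f ≠ 0 := by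
  obtain ⟨Y₁, Y₂, h1, _, h12, _⟩ := h
  rintro rfl
  rw [zero_mul] at h12
  exact isGood1_incl_ne_zero h1 h12

theorem IsRedOne1.mem {f : LaurentSeries Kb} (h : IsRedOne A E Eb f) : f ∈ E := by
  obtain ⟨Y₁, Y₂, h1, h2, h12, _⟩ := h
  have h2' := isGood1_incl_ne_zero h2
  have : f = incl A Y₁ * (incl A Y₂)⁻¹ := by
    rw [h12, mul_assoc, mul_inv_cancel₀ h2', mul_one]
  rw [this]
  exact E.mul_mem h1.1 (E.inv_mem h2.1)

theorem IsRedOne1.mul {f g : LaurentSeries Kb} (hf : IsRedOne A E Eb f)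
    (hg : IsRedOne A E Eb g) : IsRedOne A E Eb (f * g) := by
  obtain ⟨Y₁, Y₂, h1, h2, h12, hr⟩ := hf
  obtain ⟨Z₁, Z₂, k1, k2, k12, kr⟩ := hg
  refine ⟨Y₁ * Z₁, Y₂ * Z₂, IsGood1.mul h1 k1, IsGood1.mul h2 k2, ?_, ?_⟩
  · rw [map_mul, map_mul, h12, k12]; ring
  · rw [map_mul, map_mul, hr, kr]

theorem IsRedOne1.inv {f : LaurentSeries Kb} (hf : IsRedOne A E Eb f) :
    IsRedOne A E Eb f⁻¹ := by
  have hf0 := IsRedOne1.ne_zero hf
  obtain ⟨Y₁, Y₂, h1, h2, h12, hr⟩ := hf
  refine ⟨Y₂, Y₁, h2, h1, ?_, hr.symm⟩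
  rw [h12, ← mul_assoc, inv_mul_cancel₀ hf0, one_mul]

theorem IsRedOne1.pow {f : LaurentSeries Kb} (hf : IsRedOne A E Eb f) (m : ℕ) :
    IsRedOne A E Eb (f ^ m) := by
  induction m with
  | zero => simpa using isRedOne1_one
  | succ m ih => rw [pow_succ]; exact IsRedOne1.mul ih hf

theorem IsRedOne1.isWInt {f : LaurentSeries Kb} (hf : IsRedOne A E Eb f) :
    IsWInt A E Eb f := by
  obtain ⟨Y₁, Y₂, h1, h2, h12, _⟩ := hf
  exact ⟨Y₁, Y₂, h1.1, h2, h12⟩

/-- the integral expansion of a function with reduction `1` has reduction `1` -/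
theorem red_eq_one_of_isRedOne1 {Y : LaurentSeries A} (h : IsRedOne A E Eb (incl A Y)) :
    red A Y = 1 := by
  obtain ⟨Y₁, Y₂, _, h2, h12, hr⟩ := h
  have e : Y₁ = Y * Y₂ := incl1_injective A (by rw [h12, map_mul])
  have h3 : red A Y * red A Y₂ = red A Y₂ := by rw [← map_mul, ← e, hr]
  have h4 : red A Y₂ ≠ 0 := h2.2.2
  exact mul_right_cancel₀ h4 (h3.trans (one_mul _).symm)

/-! ### Assembly -/

section Assembly

variable {m : ℕ}

/-- **ROOT + PIVOT ⇒ REG** -/
theorem injReg1_of_root_pivot (hroot : RootStatement A E m) (hpiv : PivotStatement A E m) :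
    InjRegStatement A E m := by
  intro H n hL hred hdiv
  obtain ⟨W, z, hW, hz, hWred⟩ := hroot H n hL hred hdiv
  refine ⟨1, incl A W, hpiv H W n z hL hW hz hWred, ?_⟩
  rw [map_one, one_mul, ← map_pow, hW]

theorem divDvd1_pow_mul_inv {g h : LaurentSeries Kb} (hg : g ∈ E) (hg0 : g ≠ 0)
    (hh : h ∈ E) (hh0 : h ≠ 0) (hdiv : DivDvd E m h) : DivDvd E m (g ^ m * h⁻¹) := by
  intro hf P
  have e : (⟨g ^ m * h⁻¹, hf⟩ : E) = (⟨g, hg⟩ : E) ^ m * (⟨h, hh⟩ : E)⁻¹ := rfl
  have hg' : (⟨g, hg⟩ : E) ≠ 0 := fun h' => hg0 (congrArg Subtype.val h')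
  have hh' : (⟨h, hh⟩ : E) ≠ 0 := fun h' => hh0 (congrArg Subtype.val h')
  rw [e, Place.ord_mul P (pow_ne_zero m hg') (inv_ne_zero hh'), Place.ord_inv,
    ← zpow_natCast, Place.ord_zpow]
  exact dvd_sub (Dvd.intro _ rfl) (hdiv hh P)

/-- **I1 + REG + VAL-INT ⇒ (INJ)** -/
theorem inj1_of_idealStep_injReg (hm : 0 < m) (hI1 : IdealStepStatement A E Eb m)
    (hreg : InjRegStatement A E m) (hint : IntegralityStatement A E Eb) :
    InjStatement A E Eb m := by
  intro f hf0 hdiv hred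
  have hfL0 : (f : LaurentSeries Kb) ≠ 0 := fun h => hf0 (Subtype.ext h)
  have hfdiv : DivDvd E m (f : LaurentSeries Kb) := fun hf P => hdiv P
  have hfred : IsRedOne A E Eb (f : LaurentSeries Kb) := hred
  obtain ⟨g, hgF, hg0, hgred, n, hL⟩ := hI1 f f.2 hfL0 hfdiv hfred
  -- the function `H' = g ^ m / f`
  have hH'red : IsRedOne A E Eb (g ^ m * (f : LaurentSeries Kb)⁻¹) :=
    IsRedOne1.mul (IsRedOne1.pow hgred m) (IsRedOne1.inv hfred)
  obtain ⟨Y, hY⟩ := hint n _ hL (IsRedOne1.isWInt hH'red)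
  have hYred : red A Y = 1 :=
    red_eq_one_of_isRedOne1 (E := E) (Eb := Eb) (by rw [hY]; exact hH'red)
  have hYdiv : DivDvd E m (incl A Y) := by
    rw [hY]
    exact divDvd1_pow_mul_inv hgF hg0 f.2 hfL0 hfdiv
  obtain ⟨c, u, hu, hcu⟩ := hreg Y n (by rw [hY]; exact hL) hYred hYdiv
  rw [hY] at hcu
  -- `g ^ m / f = c * u ^ m`
  have hne : g ^ m * (f : LaurentSeries Kb)⁻¹ ≠ 0 :=
    mul_ne_zero (pow_ne_zero m hg0) (inv_ne_zero hfL0)
  have hc0 : c ≠ 0 := by
    rintro rfl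
    rw [map_zero, zero_mul] at hcu
    exact hne hcu
  have hu0 : u ≠ 0 := by
    rintro rfl
    rw [zero_pow (Nat.pos_iff_ne_zero.mp hm), mul_zero] at hcu
    exact hne hcu
  refine ⟨c⁻¹, (⟨g, hgF⟩ : E) * (⟨u, hu⟩ : E)⁻¹, ?_⟩
  apply Subtype.ext
  show (f : LaurentSeries Kb) = algebraMap Kb (LaurentSeries Kb) c⁻¹ * (g * u⁻¹) ^ m
  have hcL : algebraMap Kb (LaurentSeries Kb) c ≠ 0 := by
    rw [Ne, map_eq_zero_iff _ (algebraMap Kb (LaurentSeries Kb)).injective]
    exact hc0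
  have hum : u ^ m ≠ 0 := pow_ne_zero m hu0
  have key : (f : LaurentSeries Kb) * (algebraMap Kb (LaurentSeries Kb) c * u ^ m) = g ^ m := by
    rw [← hcu]
    field_simp
  rw [map_inv₀, mul_pow, inv_pow, ← key]
  field_simp

/-- **(INJ) from the four packages I1, ROOT, PIVOT, VAL-INT** -/
theorem inj1_of_packages (hm : 0 < m) (hI1 : IdealStepStatement A E Eb m)
    (hroot : RootStatement A E m) (hpiv : PivotStatement A E m)
    (hint : IntegralityStatement A E Eb) : InjStatement A E Eb m :=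
  inj1_of_idealStep_injReg hm hI1 (injReg1_of_root_pivot hroot hpiv) hint

/-- **(INJ)** from ROOT, PIVOT, the valuation dictionary, genus equality, the `RiemannSetting`
of both fields and the places at infinity. -/
theorem inj1_of_val_gen (hm : 0 < m)
    (hroot : RootStatement A E m) (hpiv : PivotStatement A E m)
    (hSc : ScaleStatement A E Eb) (hInt : IntegralityStatement A E Eb)
    (hUE : RegRedStatement A E Eb)
    (hS : RiemannSetting Kb E) (hSb : RiemannSetting (kA A) Eb)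
    (hInf : InftyStatement A E Eb) (hGen : GenusEqStatement A E Eb) :
    InjStatement A E Eb m :=
  inj1_of_packages hm (idealStep1 m hSc hInt hUE hS hSb hInf hGen) hroot hpiv hInt

end Assembly

/-! ### The instance `X₁(M)` -/

open Fermat.Agent.T4.helper32 in
/-- **(INJ1)** from the packages for `(F1 M, F1b A M)` at all places over the primes
`ℓ ∤ M p`. -/
theorem inj1Statement_of (M p : ℕ) (hp : 0 < p)
    (h : ∀ (ℓ : ℕ), ℓ.Prime → ¬ ℓ ∣ M * p → ∀ A : ValuationSubring Kb, A.LiesOverPrime ℓ →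
      (∀ n : ℕ, RootStatement A (F1 M) (p ^ n)) ∧ (∀ n : ℕ, PivotStatement A (F1 M) (p ^ n)) ∧
      ScaleStatement A (F1 M) (F1b A M) ∧ IntegralityStatement A (F1 M) (F1b A M) ∧
      RegRedStatement A (F1 M) (F1b A M) ∧ RiemannSetting Kb (F1 M) ∧
      RiemannSetting (kA A) (F1b A M) ∧ InftyStatement A (F1 M) (F1b A M) ∧
      GenusEqStatement A (F1 M) (F1b A M)) :
    Inj1Statement M p := by
  intro ℓ hℓ hℓMp A hA n
  obtain ⟨hroot, hpiv, hSc, hInt, hUE, hS, hSb, hInf, hGen⟩ := h ℓ hℓ hℓMp A hA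
  exact inj1_of_val_gen (pow_pos hp n) (hroot n) (hpiv n) hSc hInt hUE hS hSb hInf hGen

end Fermat.Agent.T4.helper8

end
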