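import Mathlib
import Fermat.Agent.T4.helper8_InjAsm1
import Fermat.Agent.T4.helper18_GenG
import Fermat.Agent.T4.helper43_ValG
import Fermat.Agent.T4.helper46_Tame1
import Fermat.Agent.T4.helper61_RedInfty
import Fermat.Agent.T4.helper61_RootPrim
import Fermat.Agent.T4.helper88_Pivot1
import Fermat.Agent.T4.helper91_RieG
import Fermat.Agent.T4.helper69_Ram1X1
import Fermat.Agent.T4.helper24_X1Inputs
import Fermat.Agent.P2.helper74_PivotFinal

/-!
# T4 block (I), I-RED box [RED-FINAL] (helper69, row 1177): (INJ) from the deep leaves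

Port of `P2/helper29_Final` to the generic vocabulary of `helper4_RedDefs` and to the instance
`(F1 M, F1b A M)`: every generic package which is on main is plugged in, so that only the
**deep leaves** remain as hypotheses.

## Generic pair `(E, Eb)`

* `DeepLeaves A E Eb hj hjb` : `PrimStatement` (Igusa) + `IntegralityStatement` ([VAL-INT]) +
  `RegRedStatement` ([VAL-UE]) + `CuspBarStatement` + `TameBaseStatement` +
  `TameBaseZeroStatement` + a place at infinity on both sides.
* `deg_of_deep`, `genusEq_of_deep`, `surjRed_of_deep`, `pivot_of_deep`, `root_of_deep`,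
  `idealStep_of_deep`, `inj_of_deep`.

## The instance `X₁(M)`

* `DeepLeaves1 M A` : `PrimStatement` + `IntegralityStatement` + `RegRedStatement` +
  `CuspBarStatement` for `(F1 M, F1b A M)`  (the tame base functions, the places at infinity
  and the generator system are on main).
* `deepLeaves_of_deepLeaves1`, `inj1_of_deep` : `helper4.Inj1Statement M p` for `4 ∣ M` or
  `9 ∣ M`, `7 ≤ M`.
-/

set_option autoImplicit false

noncomputable section

open HahnSeries IntermediateField AlgebraicCurve ModularCurve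
open Fermat.Agent.S18.helper19 (Kb kA)
open Fermat.Agent.P2.helper29 (incl red IsInfty InL HasRiemannGenus PrimeToLevel GoodPair)
open Fermat.Agent.P2.helper74 (RiemannSetting)
open Fermat.Agent.T4.helper4
open Fermat.Agent.T4.helper32 (F1)

namespace Fermat.Agent.T4.helper69

/-! ### Generic pair -/

section Generic

variable (A : ValuationSubring Kb) (E : IntermediateField Kb (LaurentSeries Kb))
  (Eb : IntermediateField (kA A) (LaurentSeries (kA A)))
  (hj : jqModC Kb ∈ E) (hjb : jqModC (kA A) ∈ Eb)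

/-- The **deep leaves** of I-RED for a pair `(E, Eb)`: everything else of the chain of
`NOTES_helper4_IRed` follows from them (`inj_of_deep`). -/
structure DeepLeaves : Prop where
  /-- [PRIM] (Igusa, primitive element form) -/
  prim : PrimStatement A E Eb
  /-- [VAL-INT] -/
  int : IntegralityStatement A E Eb
  /-- [VAL-UE] -/
  regRed : RegRedStatement A E Eb
  /-- [CUSP-BAR] -/
  cuspBar : CuspBarStatement A E Eb hj hjb
  /-- [TAME-BASE] -/
  tameBase : TameBaseStatement A Eb hjb
  /-- [TAME-BASE-0] -/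
  tameZero : ∃ c : ℕ, TameBaseZeroStatement E hj c
  /-- [INF] -/
  infty : InftyStatement A E Eb

variable {A E Eb hj hjb}

/-- [DEG] from the deep leaves. -/
theorem deg_of_deep (h : DeepLeaves A E Eb hj hjb) : DegStatement A E Eb hj hjb :=
  Fermat.Agent.T4.helper43.deg_G A E Eb hj hjb h.prim

/-- [VAL-SC] from the deep leaves. -/
theorem scale_of_deep (h : DeepLeaves A E Eb hj hjb) : ScaleStatement A E Eb :=
  Fermat.Agent.T4.helper43.scale_G A E Eb h.prim

/-- [V1] from the deep leaves. -/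
theorem redMem_of_deep (h : DeepLeaves A E Eb hj hjb) : RedMemStatement A E Eb :=
  Fermat.Agent.T4.helper43.redMem_G A E Eb h.prim

/-- the Riemann setting in characteristic `0` -/
theorem riemannSetting_of_deep (h : DeepLeaves A E Eb hj hjb) : RiemannSetting Kb E :=
  Fermat.Agent.T4.helper91.riemannSetting_of_deg (deg_of_deep h)

/-- the Riemann setting of the special fibre -/
theorem riemannSettingBar_of_deep (h : DeepLeaves A E Eb hj hjb) :
    RiemannSetting (kA A) Eb :=
  Fermat.Agent.T4.helper91.riemannSettingBar_of_deg (deg_of_deep h)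

/-- [GEN] genus equality from the deep leaves. -/
theorem genusEq_of_deep (h : DeepLeaves A E Eb hj hjb) : GenusEqStatement A E Eb := by
  obtain ⟨c, hc⟩ := h.tameZero
  exact Fermat.Agent.T4.helper18.genusEq_G
    (Fermat.Agent.T4.helper91.riemann_of_deg (deg_of_deep h))
    (Fermat.Agent.T4.helper91.riemannBar_of_deg (deg_of_deep h))
    h.infty (scale_of_deep h) h.int h.regRed (riemannSetting_of_deep h)
    (riemannSettingBar_of_deep h) hj hjb c h.tameBase h.cuspBar hc (deg_of_deep h)

/-- [SURJ] from the deep leaves. -/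
theorem surjRed_of_deep (h : DeepLeaves A E Eb hj hjb) : SurjRedStatement A E Eb := by
  obtain ⟨c, hc⟩ := h.tameZero
  exact Fermat.Agent.T4.helper18.surjRed_G
    (Fermat.Agent.T4.helper91.riemann_of_deg (deg_of_deep h))
    (Fermat.Agent.T4.helper91.riemannBar_of_deg (deg_of_deep h))
    h.infty (scale_of_deep h) h.int h.regRed (riemannSetting_of_deep h)
    (riemannSettingBar_of_deep h) hj hjb c h.tameBase h.cuspBar hc (deg_of_deep h)

/-- [PIVOT] from the deep leaves, for `m` prime to the residue characteristic. -/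
theorem pivot_of_deep (h : DeepLeaves A E Eb hj hjb) (ℓ : ℕ) (hℓ : ℓ.Prime)
    (hA : A.LiesOverPrime ℓ) (m : ℕ) (hm : ¬ ℓ ∣ m) : PivotStatement A E m := by
  obtain ⟨P, hP⟩ := h.infty.1
  exact Fermat.Agent.T4.helper88.pivot1_of m
    (Fermat.Agent.P2.helper74.residue_natCast_ne_zero A ℓ hℓ hA m hm)
    (Fermat.Agent.P2.helper74.arch_algebraicClosure A ℓ hℓ hA)
    (riemannSetting_of_deep h) P hP (scale_of_deep h) h.int h.regRed (surjRed_of_deep h)

/-- [ROOT] from the deep leaves, for `m` prime to the residue characteristic. -/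
theorem root_of_deep (h : DeepLeaves A E Eb hj hjb) (ℓ : ℕ) (hℓ : ℓ.Prime)
    (hA : A.LiesOverPrime ℓ) (m : ℕ) (hm : ¬ ℓ ∣ m) : RootStatement A E m :=
  Fermat.Agent.T4.helper61.root_of_prim A E Eb m
    (Fermat.Agent.P2.helper74.isUnit_of_residue_ne_zero A _
      (Fermat.Agent.P2.helper74.residue_natCast_ne_zero A ℓ hℓ hA m hm)) h.prim

/-- **(INJ)** from the deep leaves, for `m` prime to the residue characteristic. -/
theorem inj_of_deep (h : DeepLeaves A E Eb hj hjb) (ℓ : ℕ) (hℓ : ℓ.Prime)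
    (hA : A.LiesOverPrime ℓ) (m : ℕ) (hm : ¬ ℓ ∣ m) : InjStatement A E Eb m := by
  have hm0 : 0 < m := Nat.pos_of_ne_zero (fun h0 => hm (h0 ▸ dvd_zero ℓ))
  exact Fermat.Agent.T4.helper8.inj1_of_val_gen hm0 (root_of_deep h ℓ hℓ hA m hm)
    (pivot_of_deep h ℓ hℓ hA m hm) (scale_of_deep h) h.int h.regRed
    (riemannSetting_of_deep h) (riemannSettingBar_of_deep h) h.infty (genusEq_of_deep h)

end Generic

/-! ### The instance `X₁(M)` -/

section X1

variable (M : ℕ) [NeZero M] (A : ValuationSubring Kb)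

/-- The deep leaves of I-RED for `X₁(M)` at `A`: Igusa (primitive element form), integrality,
regularity of reductions, and the count of the cusps of the special fibre. -/
structure DeepLeaves1 : Prop where
  /-- [IGUSA1] -/
  prim : PrimStatement A (F1 M) (F1b A M)
  /-- [VAL-INT] -/
  int : IntegralityStatement A (F1 M) (F1b A M)
  /-- [VAL-UE] -/
  regRed : RegRedStatement A (F1 M) (F1b A M)
  /-- [CUSP-BAR] -/
  cuspBar : CuspBarStatement A (F1 M) (F1b A M)
    (Fermat.Agent.T4.helper61.jqModC_mem_F1 M) (Fermat.Agent.T4.helper61.jqModC_mem_F1b A M)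

variable {M A}

/-- the generic deep leaves of `(F1 M, F1b A M)` from the deep leaves of `X₁(M)`: the tame base
functions, the places at infinity and the generator system are on main. -/
theorem deepLeaves_of_deepLeaves1 (hM : 4 ∣ M ∨ 9 ∣ M) (hM7 : 7 ≤ M) {ℓ : ℕ} (hℓ : ℓ.Prime)
    (hℓM : ¬ ℓ ∣ M) (hA : A.LiesOverPrime ℓ) (h : DeepLeaves1 M A) :
    DeepLeaves A (F1 M) (F1b A M) (Fermat.Agent.T4.helper61.jqModC_mem_F1 M)
      (Fermat.Agent.T4.helper61.jqModC_mem_F1b A M) where
  prim := h.prim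
  int := h.int
  regRed := h.regRed
  cuspBar := h.cuspBar
  tameBase := Fermat.Agent.T4.helper46.tameBase1_of_deg M A ⟨hM, ℓ, hℓ, hℓM, hA⟩
    (Fermat.Agent.T4.helper61.jqModC_mem_F1 M) (Fermat.Agent.T4.helper61.jqModC_mem_F1b A M)
    (Fermat.Agent.T4.helper43.deg_G A (F1 M) (F1b A M) _ _ h.prim)
  tameZero := tameBaseZero_X1 M (Fermat.Agent.T4.helper24.x1Sys M hM7) hM
    (Fermat.Agent.T4.helper61.jqModC_mem_F1 M)
  infty := Fermat.Agent.T4.helper61.infty1 M A

/-- **(INJ1)** for `X₁(M)` from the deep leaves at every place over a good prime. -/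
theorem inj1_of_deep (M p : ℕ) [NeZero M] (hM : 4 ∣ M ∨ 9 ∣ M) (hM7 : 7 ≤ M) (hp : p.Prime)
    (h : ∀ (ℓ : ℕ), ℓ.Prime → ¬ ℓ ∣ M * p → ∀ A : ValuationSubring Kb, A.LiesOverPrime ℓ →
      DeepLeaves1 M A) :
    Inj1Statement M p := by
  intro ℓ hℓ hℓMp A hA n
  have hℓM : ¬ ℓ ∣ M := fun h0 => hℓMp (Dvd.dvd.mul_right h0 p)
  have hℓp : ¬ ℓ ∣ p ^ n := fun h0 => hℓMp (Dvd.dvd.mul_left
    ((Nat.prime_dvd_prime_iff_eq hℓ hp).mp (hℓ.dvd_of_dvd_pow h0) ▸ dvd_rfl) M)
  exact inj_of_deep (deepLeaves_of_deepLeaves1 hM hM7 hℓ hℓM hA (h ℓ hℓ hℓMp A hA)) ℓ hℓ hA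
    (p ^ n) hℓp

end X1

end Fermat.Agent.T4.helper69

end
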