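import Mathlib
import Fermat.Agent.T4.helper32_Cusp1Asm
import Fermat.Agent.T4.helper69_RedFinal

/-!
# T4 block (I), I-RED: `Inj1Statement` and `ScaleStatement` for `X₁(M)`, UNCONDITIONAL (helper32)

* `deepLeaves1 : helper69.DeepLeaves1 M A` for `A` over `ℓ ∤ M`, `7 ≤ M`
  (IGUSA1 `helper4.Ig.prim1` + CUSP1 `helper32.Conj1.cusp1`);
* `inj1 : helper4.Inj1Statement M p` for `4 ∣ M ∨ 9 ∣ M`, `7 ≤ M`, `p` prime
  (`helper69.inj1_of_deep`);
* `scale1 : helper4.ScaleStatement A (F1 M) (F1b A M)`.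

These are the fields `inj` and `scale` of `helper41.Core1 M`.
-/

set_option autoImplicit false
set_option linter.unusedSectionVars false
set_option linter.style.haveILetI false
set_option linter.unusedVariables false

noncomputable section

namespace Fermat.Agent.T4.helper32.Conj1

open ModularCurve
open Fermat.Agent.T4.helper32

/-- the deep leaves of I-RED for `X₁(M)`, unconditional -/
theorem deepLeaves1 {M : ℕ} [NeZero M] (hM : 7 ≤ M) (A : ValuationSubring (AlgebraicClosure ℚ))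
    {ℓ : ℕ} (hℓ : ℓ.Prime) (hA : A.LiesOverPrime ℓ) (hℓM : ¬ ℓ ∣ M) :
    Fermat.Agent.T4.helper69.DeepLeaves1 M A := by
  haveI : Fact ℓ.Prime := ⟨hℓ⟩
  exact
    { prim := Fermat.Agent.T4.helper4.Ig.prim1 A hA hℓM hM
      int := integrality1 hM hA hℓM (Fermat.Agent.T4.helper61.jqModC_mem_F1 M)
        (Fermat.Agent.T4.helper61.jqModC_mem_F1b A M)
      regRed := regRed1 hM hA hℓM (Fermat.Agent.T4.helper61.jqModC_mem_F1 M)
        (Fermat.Agent.T4.helper61.jqModC_mem_F1b A M)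
      cuspBar := cuspBar1 hM hA hℓM (Fermat.Agent.T4.helper61.jqModC_mem_F1 M)
        (Fermat.Agent.T4.helper61.jqModC_mem_F1b A M) }

/-- **(INJ1) for `X₁(M)`, unconditional**: the reduction of divisor classes is injective on the
`p`-power torsion at all places over primes `ℓ ∤ M p`. -/
theorem inj1 (M p : ℕ) [NeZero M] (hM : 4 ∣ M ∨ 9 ∣ M) (hM7 : 7 ≤ M) (hp : p.Prime) :
    Fermat.Agent.T4.helper4.Inj1Statement M p :=
  Fermat.Agent.T4.helper69.inj1_of_deep M p hM hM7 hp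
    (fun ℓ hℓ hℓMp A hA =>
      deepLeaves1 hM7 A hℓ hA (fun h0 => hℓMp (Dvd.dvd.mul_right h0 p)))

/-- **[VAL-SC] for `X₁(M)`, unconditional** -/
theorem scale1 {M : ℕ} [NeZero M] (hM : 7 ≤ M) (A : ValuationSubring (AlgebraicClosure ℚ))
    {ℓ : ℕ} (hℓ : ℓ.Prime) (hA : A.LiesOverPrime ℓ) (hℓM : ¬ ℓ ∣ M) :
    Fermat.Agent.T4.helper4.ScaleStatement A (F1 M) (Fermat.Agent.T4.helper4.F1b A M) := by
  haveI : Fact ℓ.Prime := ⟨hℓ⟩
  exact Fermat.Agent.T4.helper31.scale_of_prim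
    (Fermat.Agent.T4.helper4.Ig.prim1 A hA hℓM hM)

end Fermat.Agent.T4.helper32.Conj1
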