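import Fermat.Agent.T4.helper32_ResDefs
import Fermat.Agent.T4.helper26_ResWire
import Fermat.Agent.T4.helper21_EisLevel

/-!
# T4 (S48), wiring (R): `Res1Statement c` from block (I) and `PrimStatement` (helper32)

`res1_of : Eigen1Statement → PrimStatement → Res1Statement c` for `4 ∣ c ∨ 9 ∣ c`.

Steps (BLUEPRINT T4 v0, (R1)-(R4)):
* (R1) `P = ker φ`; `PrimStatement` gives `h` in the eigen-packet, integral, `h ≢ 0 mod P`,
  with nebentypus `ε`; `helper21.prodContractLevel` (block (III), unconditional) gives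
  `g = h · E` on `Γ₁(c N ℓ)` of weight two with `g ≡ h mod P`;
* (R2) `g` has nebentypus `χ = ε ψ` modulo `c N ℓ`, `p · φ(χ(p)) = φ(ε(p))`, and `φ ∘ B` is a
  formal eigenvector with eigenvalues `φ(a_p)`;
* (R3) `Eigen1Statement` gives the quadratic Frobenius module;
* (R4) `helper26.exists_quadratic` + `helper22.exists_residualGaloisRep_of_quadratic`.
-/

set_option autoImplicit false

open CongruenceSubgroup UpperHalfPlane
open scoped MatrixGroups

noncomputable section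

namespace Fermat.Agent.T4.helper32

open Fermat.Agent.T4.helper80 (GQ Zbar)
open Fermat.Agent.T4 Polynomial

/-! ## (R4) in `ResidualGaloisRep` form -/

section R4

variable {N : ℕ} [NeZero N] (ε : DirichletCharacter ℂ N)
variable {k : Type} [Field k] (φ : Zbar →+* k)
variable {V : Type} [AddCommGroup V] [Module k V]

/-- A nonzero quadratic Frobenius module for `(a_p, ε(p))` yields a `ResidualGaloisRep` with the
characteristic polynomials `X² - φ(a_p) X + φ(ε(p))` of Frobenius, unramified outside `Bad`. -/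
theorem hasResidualMod_of_quadModule (hodd : ε (-1) = -1) (a : ℕ → ℂ) (Bad : ℕ) (hBad : Bad ≠ 0)
    (hN : N ∣ Bad) (h2 : (2 : k) ≠ 0) [Module.Finite k V] [Nontrivial V]
    (r : GQ →* Module.End k V) (hr : GaloisFactorsThroughFiniteLevel r)
    (hunr : ∀ p : ℕ, p.Prime → ¬ p ∣ Bad → ∀ A : ValuationSubring (AlgebraicClosure ℚ),
      A.LiesOverPrime p → ∀ σ ∈ A.inertiaSubgroupIn ℚ, r σ = 1)
    (hfrob : ∀ p : ℕ, p.Prime → ¬ p ∣ Bad → ∃ x : Zbar, (x : ℂ) = a p ∧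
      ∀ A : ValuationSubring (AlgebraicClosure ℚ), A.LiesOverPrime p →
        ∀ σ : GQ, A.IsFrobeniusAt σ p →
        r σ * r σ - φ x • r σ + φ (helper26.epsZ ε (p : ZMod N)) • (1 : Module.End k V) = 0) :
    HasResidualMod Bad a (fun p : ℕ => ε (p : ZMod N)) φ := by
  classical
  let xk : ℕ → k := fun p =>
    if h : p.Prime ∧ ¬ p ∣ Bad then φ (Classical.choose (hfrob p h.1 h.2)) else 0
  have hxk : ∀ (p : ℕ) (hp : p.Prime) (hpB : ¬ p ∣ Bad),
      xk p = φ (Classical.choose (hfrob p hp hpB)) := fun p hp hpB => dif_pos ⟨hp, hpB⟩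
  have hfrob' : ∀ p : ℕ, p.Prime → ¬ p ∣ Bad → ∀ A : ValuationSubring (AlgebraicClosure ℚ),
      A.LiesOverPrime p → ∀ σ : GQ, A.IsFrobeniusAt σ p →
        r σ * r σ - xk p • r σ + φ (helper26.epsZ ε (p : ZMod N)) • (1 : Module.End k V) = 0 := by
    intro p hp hpB A hA σ hσ
    rw [hxk p hp hpB]
    exact (Classical.choose_spec (hfrob p hp hpB)).2 A hA σ hσ
  have hq := helper26.exists_quadratic ε φ Bad hBad hN r hr xk hfrob'
  choose t ht using hq
  obtain ⟨ρ, hchar, htriv⟩ :=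
    Fermat.Agent.P3.helper22.exists_residualGaloisRep_of_quadratic k V h2 r hr t
      (helper26.epsGal ε φ) (helper26.epsGal_factorsThroughFiniteLevel ε φ) ht
      complexConjugation complexConjugation_mul_self
      (helper26.epsGal_complexConjugation ε φ hodd)
  refine ⟨ρ, fun p hp hpB => ?_⟩
  have hpN : Nat.Coprime N p := by
    rw [Nat.coprime_comm]
    exact (Nat.Prime.coprime_iff_not_dvd hp).2 (fun h => hpB (h.trans hN))
  refine ⟨Classical.choose (hfrob p hp hpB), helper26.epsZ ε (p : ZMod N),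
    (Classical.choose_spec (hfrob p hp hpB)).1, rfl, fun A hA => ⟨fun σ hσ => ?_, fun σ hσ => ?_⟩⟩
  · exact htriv σ (hunr p hp hpB A hA σ hσ) (helper26.epsGal_inertia ε φ hpN A hA σ hσ)
  · have hd : helper26.epsGal ε φ σ = φ (helper26.epsZ ε (p : ZMod N)) :=
      helper26.epsGal_frobenius ε φ hpN A hA σ hσ
    have h1 := ht σ
    have h3 := hfrob' p hp hpB A hA σ hσ
    rw [hd] at h1
    have h4 : (xk p - t σ) • r σ = 0 := by
      have : (xk p - t σ) • r σ =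
          (r σ * r σ - t σ • r σ + φ (helper26.epsZ ε (p : ZMod N)) • (1 : Module.End k V)) -
            (r σ * r σ - xk p • r σ +
              φ (helper26.epsZ ε (p : ZMod N)) • (1 : Module.End k V)) := by
        rw [sub_smul]; abel
      rw [this, h1, h3, sub_zero]
    have hinv : r σ * r σ⁻¹ = 1 := by rw [← map_mul, mul_inv_cancel, map_one]
    have h5 : xk p = t σ := sub_eq_zero.1 (helper26.smul_unit_eq_zero hinv h4)
    rw [hchar σ, ← h5, hxk p hp hpB, hd]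

end R4

/-! ## Oddness of the nebentypus -/

theorem neg_one_mem_Gamma0 (N : ℕ) : (-1 : SL(2, ℤ)) ∈ Gamma0 N := by
  rw [Gamma0_mem]
  simp

/-- The nebentypus of a nonzero form of odd weight one is odd. -/
theorem odd_of_hasNeben {N : ℕ} (ε : DirichletCharacter ℂ N) (h : CuspForm (Gamma1 N) 1)
    (hn : HasNeben N 1 ε h) (n : ℕ) (hne : ModularFormClass.qCoeff h n ≠ 0) : ε (-1) = -1 := by
  have h0 : ∃ τ : ℍ, h τ ≠ 0 := by
    by_contra hcon
    push Not at hcon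
    apply hne
    have hz : (h : ℍ → ℂ) = 0 := funext hcon
    unfold ModularFormClass.qCoeff
    rw [hz, UpperHalfPlane.qExpansion_zero]
    simp
  obtain ⟨τ, hτ⟩ := h0
  have h1 := hn (-1) (neg_one_mem_Gamma0 N) τ
  have h2 : (-1 : SL(2, ℤ)) • τ = τ := by
    rw [ModularGroup.SL_neg_smul, one_smul]
  rw [h2] at h1
  have h3 : (((-1 : SL(2, ℤ)) 1 1 : ℤ)) = -1 := by simp
  have h4 : (((-1 : SL(2, ℤ)) 1 0 : ℤ)) = 0 := by simp
  rw [h3, h4] at h1
  have h5 : h τ = -(ε (-1)) * h τ := by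
    have : ε (((-1 : ℤ) : ZMod N)) *
        (((0 : ℤ) : ℂ) * (τ : ℂ) + (((-1 : ℤ)) : ℂ)) ^ 1 * h τ = -(ε (-1)) * h τ := by
      push_cast
      ring
    rw [← this]
    exact h1
  have h6 : (1 + ε (-1)) * h τ = 0 := by
    linear_combination h5
  rcases mul_eq_zero.1 h6 with h7 | h7
  · linear_combination h7
  · exact absurd h7 hτ

/-! ## The nebentypus of the product -/

theorem isCoprime_of_mem_Gamma0 {M : ℕ} {γ : SL(2, ℤ)} (hγ : γ ∈ Gamma0 M) :
    IsCoprime (γ 1 1 : ℤ) (M : ℤ) := by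
  rw [Gamma0_mem] at hγ
  obtain ⟨c, hc⟩ := (ZMod.intCast_zmod_eq_zero_iff_dvd _ _).1 hγ
  have hdet : (γ 0 0 : ℤ) * γ 1 1 - γ 0 1 * γ 1 0 = 1 := by
    have := γ.det_coe
    rw [Matrix.det_fin_two] at this
    exact this
  refine ⟨γ 0 0, -(γ 0 1 * c), ?_⟩
  rw [hc] at hdet
  linear_combination hdet

/-- the product character `ε ψ` modulo `M` (`N ∣ M`, `ℓ ∣ M`). -/
def prodChar {N ℓ M : ℕ} (hN : N ∣ M) (hℓ : ℓ ∣ M) (ε : DirichletCharacter ℂ N)
    (ψ : DirichletCharacter ℂ ℓ) : DirichletCharacter ℂ M :=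
  DirichletCharacter.changeLevel hN ε * DirichletCharacter.changeLevel hℓ ψ

theorem prodChar_intCast {N ℓ M : ℕ} (hN : N ∣ M) (hℓ : ℓ ∣ M) (ε : DirichletCharacter ℂ N)
    (ψ : DirichletCharacter ℂ ℓ) {d : ℤ} (hd : IsCoprime d (M : ℤ)) :
    prodChar hN hℓ ε ψ ((d : ℤ) : ZMod M) = ε ((d : ℤ) : ZMod N) * ψ ((d : ℤ) : ZMod ℓ) := by
  unfold prodChar
  rw [MulChar.mul_apply, DirichletCharacter.changeLevel_eq_cast_of_dvd' ε hN hd,
    DirichletCharacter.changeLevel_eq_cast_of_dvd' ψ hℓ hd]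

theorem gamma0_le_of_dvd {a b : ℕ} (hab : b ∣ a) {γ : SL(2, ℤ)} (hγ : γ ∈ Gamma0 a) :
    γ ∈ Gamma0 b := by
  rw [Gamma0_mem] at hγ ⊢
  exact helper93.intCast_zmod_eq_of_dvd hab (x := γ 1 0) (y := 0) (by simpa using hγ) |>.trans
    (by simp)

/-- The product of a weight-one form with nebentypus `ε` mod `N` and a weight-one form with
nebentypus `ψ` mod `ℓ` has nebentypus `ε ψ` mod `M` in weight two. -/
theorem hasNeben_mul {N ℓ M : ℕ} (hN : N ∣ M) (hℓ : ℓ ∣ M) (ε : DirichletCharacter ℂ N)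
    (ψ : DirichletCharacter ℂ ℓ) (h E g : ℍ → ℂ) (hh : HasNeben N 1 ε h)
    (hE : ∀ γ ∈ Gamma0 ℓ, ∀ τ : ℍ,
      E (γ • τ) = ψ (((γ 1 1 : ℤ) : ZMod ℓ)) * denom γ τ * E τ)
    (hg : ∀ τ : ℍ, g τ = h τ * E τ) : HasNeben M 2 (prodChar hN hℓ ε ψ) g := by
  intro γ hγ τ
  rw [hg, hg, hh γ (gamma0_le_of_dvd hN hγ) τ, hE γ (gamma0_le_of_dvd hℓ hγ) τ,
    prodChar_intCast hN hℓ ε ψ (isCoprime_of_mem_Gamma0 hγ), ModularGroup.denom_apply]
  ring

/-! ## The main wiring -/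

/-- **[R-WIRE]** `Res1Statement c` from block (I) (`Eigen1Statement`) and `PrimStatement`
(block (III) enters through the unconditional `helper21.prodContractLevel`). -/
theorem res1_of (c : ℕ) (hc0 : c ≠ 0) (hc : 4 ∣ c ∨ 9 ∣ c) (hE : Eigen1Statement)
    (hP : PrimStatement) : Res1Statement c := by
  intro N hNZ ε f hf1 hT ℓ hℓ hℓ2 _ k hk hchar hac φ
  classical
  have : NeZero N := hNZ
  have : Fact ℓ.Prime := ⟨hℓ⟩
  have : NeZero c := ⟨hc0⟩
  have h3 : 3 ≤ ℓ := by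
    have h2 := hℓ.two_le
    omega
  obtain ⟨hmax, -⟩ := helper21.ker_isMaximal_of_charP ℓ φ
  obtain ⟨hint, hprim⟩ := hP N hNZ ε f hf1 hT
  obtain ⟨h, A, hA, ⟨n₀, hn₀⟩, hneb, hpack⟩ := hprim (RingHom.ker φ) hmax
  obtain ⟨ψ, Ψ, E, e, g, B, -, hΨ, hΨk, hElaw, -, -, -, hg, hB, hBA⟩ :=
    helper21.prodContractLevel c N ℓ h3 k φ h A hA
  have hNM : N ∣ c * N * ℓ := ⟨c * ℓ, by ring⟩
  have hℓM : ℓ ∣ c * N * ℓ := dvd_mul_left ℓ (c * N)
  have hM0 : c * N * ℓ ≠ 0 := Nat.mul_ne_zero (Nat.mul_ne_zero hc0 (NeZero.ne N)) hℓ.ne_zero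
  have hMZ : NeZero (c * N * ℓ) := ⟨hM0⟩
  have h49 : 4 ∣ c * N * ℓ ∨ 9 ∣ c * N * ℓ :=
    hc.imp (fun h => (h.mul_right N).mul_right ℓ) (fun h => (h.mul_right N).mul_right ℓ)
  -- the eigenvalues as algebraic integers
  let aZ : ℕ → Zbar := fun p =>
    if hp : p.Prime ∧ ¬ p ∣ N then ⟨ModularFormClass.qCoeff f p, hint p hp.1 hp.2⟩ else 0
  have haZ : ∀ p : ℕ, p.Prime → ¬ p ∣ N → ((aZ p : Zbar) : ℂ) = ModularFormClass.qCoeff f p := by
    intro p hp hpN
    simp only [aZ]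
    rw [dif_pos ⟨hp, hpN⟩]
  have hn₀' : φ (B n₀) ≠ 0 := by
    rw [hBA]
    exact fun h0 => hn₀ (RingHom.mem_ker.2 h0)
  have hnebg : HasNeben (c * N * ℓ) 2 (prodChar hNM hℓM ε ψ) g :=
    hasNeben_mul hNM hℓM ε ψ h E g hneb hElaw hg
  -- the determinant: `p · φ(χ(p)) = φ(ε(p))`
  have hdet : ∀ p : ℕ, p.Prime → ¬ p ∣ c * N * ℓ →
      (p : k) * φ (helper26.epsZ (prodChar hNM hℓM ε ψ) (p : ZMod (c * N * ℓ))) =
        φ (helper26.epsZ ε (p : ZMod N)) := by
    intro p hp hpM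
    have hcop : IsCoprime ((p : ℕ) : ℤ) ((c * N * ℓ : ℕ) : ℤ) :=
      Nat.isCoprime_iff_coprime.2 ((Nat.Prime.coprime_iff_not_dvd hp).2 hpM)
    have hpℓ : ¬ ℓ ∣ p := by
      intro hdvd
      have : ℓ = p := (Nat.prime_dvd_prime_iff_eq hℓ hp).1 hdvd
      exact hpM (this ▸ hℓM)
    have hx : helper26.epsZ (prodChar hNM hℓM ε ψ) (p : ZMod (c * N * ℓ)) =
        helper26.epsZ ε (p : ZMod N) * Ψ (p : ZMod ℓ) := by
      apply Subtype.ext
      have h1 := prodChar_intCast hNM hℓM ε ψ hcop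
      simp only [Int.cast_natCast] at h1
      rw [MulMemClass.coe_mul, helper26.coe_epsZ, helper26.coe_epsZ, hΨ]
      exact h1
    rw [hx, map_mul, mul_comm (p : k), mul_assoc, hΨk p hpℓ, mul_one]
  -- the formal eigenvector
  have hformal : ∀ p : ℕ, p.Prime → ¬ p ∣ c * N * ℓ →
      FormalEigenAt (fun n => φ (B n)) p (φ (aZ p))
        ((p : k) * φ (helper26.epsZ (prodChar hNM hℓM ε ψ) (p : ZMod (c * N * ℓ)))) := by
    intro p hp hpM n
    have hpN : ¬ p ∣ N := fun hd => hpM (hd.trans hNM)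
    rw [hdet p hp hpM]
    have key : A (p * n) + helper26.epsZ ε (p : ZMod N) * (if p ∣ n then A (n / p) else 0) =
        aZ p * A n := by
      apply Subtype.ext
      have h1 := hpack p hp hpN n
      by_cases hpn : p ∣ n
      · rw [if_pos hpn] at h1 ⊢
        push_cast
        rw [hA, hA, hA, haZ p hp hpN, helper26.coe_epsZ]
        exact h1
      · rw [if_neg hpn] at h1 ⊢
        push_cast
        rw [hA, hA, haZ p hp hpN, helper26.coe_epsZ]
        exact h1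
    have h2 := congrArg φ key
    rw [map_add, map_mul, map_mul] at h2
    simp only [hBA]
    by_cases hpn : p ∣ n
    · rw [if_pos hpn] at h2 ⊢
      exact h2
    · rw [if_neg hpn] at h2 ⊢
      rw [map_zero] at h2
      exact h2
  obtain ⟨V, _, _, _, _, ρ, hρ, hes⟩ :=
    hE (c * N * ℓ) hMZ h49 ℓ hℓ hℓ2 k hk hchar hac φ g (prodChar hNM hℓM ε ψ)
      (helper26.epsZ (prodChar hNM hℓM ε ψ)) B (fun p => φ (aZ p))
      (fun a => rfl) hB ⟨n₀, hn₀'⟩ hnebg hformal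
  have hodd : ε (-1) = -1 := by
    refine odd_of_hasNeben ε h hneb n₀ ?_
    rw [← hA]
    intro h0
    apply hn₀
    have : A n₀ = 0 := Subtype.ext (by simpa using h0)
    rw [this]
    exact Ideal.zero_mem _
  have h2k : (2 : k) ≠ 0 := by
    intro h0
    have h1 : ((2 : ℕ) : k) = 0 := by exact_mod_cast h0
    rw [CharP.cast_eq_zero_iff k ℓ] at h1
    have := (Nat.prime_dvd_prime_iff_eq hℓ Nat.prime_two).1 h1
    exact hℓ2 this
  have hpMℓ : ∀ p : ℕ, p.Prime → ¬ p ∣ c * N * ℓ → ¬ p ∣ c * N * ℓ * ℓ := by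
    intro p hp hpM hd
    rcases (Nat.Prime.dvd_mul hp).1 hd with h1 | h1
    · exact hpM h1
    · exact hpM (h1.trans hℓM)
  refine hasResidualMod_of_quadModule ε φ hodd _ (c * N * ℓ) hM0 hNM h2k ρ hρ
    (fun p hp hpM A hA σ hσ => ((hes p hp (hpMℓ p hp hpM)) A hA).1 σ hσ)
    (fun p hp hpM => ⟨aZ p, haZ p hp (fun hd => hpM (hd.trans hNM)), fun A hA σ hσ => ?_⟩)
  have h1 := ((hes p hp (hpMℓ p hp hpM)) A hA).2 σ hσ
  rw [hdet p hp hpM] at h1
  exact h1

/-- `Res1Statement 4` from block (I) and `PrimStatement`. -/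
theorem res1_four (hE : Eigen1Statement) (hP : PrimStatement) : Res1Statement 4 :=
  res1_of 4 (by norm_num) (Or.inl dvd_rfl) hE hP

/-- `Res1Statement 9` from block (I) and `PrimStatement`. -/
theorem res1_nine (hE : Eigen1Statement) (hP : PrimStatement) : Res1Statement 9 :=
  res1_of 9 (by norm_num) (Or.inr dvd_rfl) hE hP

end Fermat.Agent.T4.helper32
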