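import Mathlib
import Fermat.Prelude.Def_AlgebraicCurve_Correspondence

/-!
# T4 block (I), I-ES leaf (L4) [SWAP-ABS] (helper33)

Fields `F`, `E`, two embeddings `a b : F → E` and a ring endomorphism `w` of `E` with
`w ∘ b = a`.  If `E` is finite over `a(F)` then `E` is finite over `b(F)` and
`[E : b(F)] ≤ [E : a(F)]`.  If moreover `w' ∘ a = b` for some `w'`, the degrees are equal.
Mathlib only (the last statements are in the `algebraAlong` vocabulary of the Prelude).
-/

set_option autoImplicit false

noncomputable section

namespace Fermat.Agent.T4.helper33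

open AlgebraicCurve

/-- instance form: two algebra structures `instA`, `instB` on `E` over `F` and a ring
endomorphism `w` of `E` carrying `instB` to `instA`. -/
theorem swap_inst {F E : Type*} [Field F] [Field E] (instA instB : Algebra F E) (w : E →+* E)
    (hw : ∀ f : F, w (@algebraMap F E _ _ instB f) = @algebraMap F E _ _ instA f)
    (hfin : @Module.Finite F E _ _ instA.toModule) :
    @Module.Finite F E _ _ instB.toModule ∧
      @Module.finrank F E _ _ instB.toModule ≤ @Module.finrank F E _ _ instA.toModule := by
  let L : @LinearMap F F _ _ (RingHom.id F) E E _ _ instB.toModule instA.toModule :=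
    @LinearMap.mk F F _ _ (RingHom.id F) E E _ _ instB.toModule instA.toModule
      ⟨w, map_add w⟩ (fun c x => by
        show w (@HSMul.hSMul F E E (@instHSMul F E instB.toSMul) c x) =
          @HSMul.hSMul F E E (@instHSMul F E instA.toSMul) c (w x)
        rw [@Algebra.smul_def F E _ _ instB, @Algebra.smul_def F E _ _ instA, map_mul, hw])
  have hinj : Function.Injective L := w.injective
  have hN : @IsNoetherian F E _ _ instA.toModule :=
    @isNoetherian_of_isNoetherianRing_of_finite F E _ _ instA.toModule _ hfin
  refine ⟨?_, ?_⟩
  · exact @Module.Finite.of_injective F F E E _ _ _ _ instB.toModule instA.toModule hN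
      (RingHom.id F) (RingHom.id F) _ _ L hinj
  · exact @LinearMap.finrank_le_finrank_of_injective F E _ _ instB.toModule _ E _
      instA.toModule hfin L hinj

/-- **[SWAP-ABS]**, ring homomorphism form. -/
theorem finrank_le_of_swap {F E : Type*} [Field F] [Field E] (a b : F →+* E) (w : E →+* E)
    (hw : ∀ f : F, w (b f) = a f)
    (hfin : letI := a.toAlgebra; Module.Finite F E) :
    (letI := b.toAlgebra; Module.Finite F E) ∧
      (letI := b.toAlgebra; Module.finrank F E) ≤ (letI := a.toAlgebra; Module.finrank F E) :=
  swap_inst a.toAlgebra b.toAlgebra w hw hfin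

/-- equality of the degrees if there are endomorphisms in both directions -/
theorem finrank_eq_of_swap {F E : Type*} [Field F] [Field E] (a b : F →+* E) (w w' : E →+* E)
    (hw : ∀ f : F, w (b f) = a f) (hw' : ∀ f : F, w' (a f) = b f)
    (hfin : letI := a.toAlgebra; Module.Finite F E) :
    (letI := b.toAlgebra; Module.Finite F E) ∧
      (letI := b.toAlgebra; Module.finrank F E) = (letI := a.toAlgebra; Module.finrank F E) := by
  obtain ⟨h1, h2⟩ := finrank_le_of_swap a b w hw hfin
  obtain ⟨_, h4⟩ := finrank_le_of_swap b a w' hw' h1
  exact ⟨h1, le_antisymm h2 h4⟩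

section Along

variable {K F E : Type*} [Field K] [Field F] [Field E] [Algebra K F] [Algebra K E]

/-- **[SWAP-ABS]** in the `algebraAlong` vocabulary. -/
theorem finrank_along_le_of_swap (a b : F →ₐ[K] E) (w : E →+* E)
    (hw : ∀ f : F, w (b f) = a f)
    (hfin : letI := algebraAlong a; Module.Finite F E) :
    (letI := algebraAlong b; Module.Finite F E) ∧
      (letI := algebraAlong b; Module.finrank F E) ≤
        (letI := algebraAlong a; Module.finrank F E) :=
  swap_inst (algebraAlong a) (algebraAlong b) w hw hfin

theorem finrank_along_eq_of_swap (a b : F →ₐ[K] E) (w w' : E →+* E)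
    (hw : ∀ f : F, w (b f) = a f) (hw' : ∀ f : F, w' (a f) = b f)
    (hfin : letI := algebraAlong a; Module.Finite F E) :
    (letI := algebraAlong b; Module.Finite F E) ∧
      (letI := algebraAlong b; Module.finrank F E) =
        (letI := algebraAlong a; Module.finrank F E) := by
  obtain ⟨h1, h2⟩ := finrank_along_le_of_swap a b w hw hfin
  obtain ⟨_, h4⟩ := finrank_along_le_of_swap b a w' hw' h1
  exact ⟨h1, le_antisymm h2 h4⟩

/-- the degree along `b` from an upper bound along `a`, a swap `w ∘ b = a` and `n` distinct
embeddings over `b(F)` (the shape used for `[F1p : β F1] = ℓ + 1`). -/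
theorem finrank_along_eq_of_swap_of_le (a b : F →ₐ[K] E) (w : E →+* E)
    (hw : ∀ f : F, w (b f) = a f) (n : ℕ)
    (hfin : letI := algebraAlong a; Module.Finite F E)
    (hle : (letI := algebraAlong a; Module.finrank F E) ≤ n)
    (hge : n ≤ (letI := algebraAlong b; Module.finrank F E)) :
    (letI := algebraAlong b; Module.Finite F E) ∧
      (letI := algebraAlong b; Module.finrank F E) = n ∧
      (letI := algebraAlong a; Module.finrank F E) = n := by
  obtain ⟨h1, h2⟩ := finrank_along_le_of_swap a b w hw hfin
  exact ⟨h1, le_antisymm (h2.trans hle) hge, le_antisymm hle (hge.trans h2)⟩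

end Along

end Fermat.Agent.T4.helper33

end
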