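import Fermat.Agent.T4.helper24_FldDefs
import Fermat.Agent.T4.helper33_X1Series

/-!
# T4 block (I), I-FLD box (QEXP) (helper33): the `q`-expansion of `wpDfn M a b`

* generic: a `q`-series with polynomially bounded coefficients defines a nice function on the
  upper half plane whose `q`-expansion is the given series (`isNice_qSum`, `qExpansion_qSum`,
  `isQExp_qSum`);
* `abs_wpCoeff_le` : `|wpCoeff M a e| ≤ 2 e²`;
* `isQExp_wpDfn` : the Laurent series `q * wpDiff M a b` (`= P_a - P_b`) is the `q`-expansion of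
  `helper24.wpDfn M a b`.
-/

set_option autoImplicit false

noncomputable section

open ModularCurve UpperHalfPlane ModularForm Function Filter
open scoped MatrixGroups Manifold Topology

namespace Fermat.Agent.T4.helper33

open Fermat.Agent.S24.helper17 Fermat.Agent.T4.helper32

local notation "𝕢" => Periodic.qParam

/-! ### Generic `q`-series with polynomially bounded coefficients -/

/-- the sum of the series `∑ c_n q^n` -/
def qSum (c : ℕ → ℂ) (q : ℂ) : ℂ := ∑' n : ℕ, c n * q ^ n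

/-- polynomial growth of the coefficients -/
def PolyBound (c : ℕ → ℂ) : Prop := ∃ (C : ℝ) (k : ℕ), ∀ n : ℕ, ‖c n‖ ≤ C * (n : ℝ) ^ k

theorem summable_polyBound (C : ℝ) (k : ℕ) {r : ℝ}
    (hr0 : 0 ≤ r) (hr : r < 1) :
    Summable fun n : ℕ => C * ((n : ℝ) ^ k * r ^ n) := by
  have h := summable_pow_mul_geometric_of_norm_lt_one (R := ℝ) k (r := r)
    (by rw [Real.norm_eq_abs, abs_of_nonneg hr0]; exact hr)
  exact h.mul_left C

theorem PolyBound.norm_term_le {c : ℕ → ℂ} {C : ℝ} {k : ℕ}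
    (hc : ∀ n : ℕ, ‖c n‖ ≤ C * (n : ℝ) ^ k) {r : ℝ} {q : ℂ} (hq : ‖q‖ ≤ r) (n : ℕ) :
    ‖c n * q ^ n‖ ≤ C * ((n : ℝ) ^ k * r ^ n) := by
  rw [norm_mul, norm_pow, ← mul_assoc]
  exact mul_le_mul (hc n) (pow_le_pow_left₀ (norm_nonneg q) hq n) (pow_nonneg (norm_nonneg q) n)
    ((norm_nonneg (c n)).trans (hc n))

theorem PolyBound.summable {c : ℕ → ℂ} (hc : PolyBound c) {q : ℂ} (hq : ‖q‖ < 1) :
    Summable fun n : ℕ => c n * q ^ n := by
  obtain ⟨C, k, hC⟩ := hc
  refine Summable.of_norm_bounded (summable_polyBound C k (norm_nonneg q) hq)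
    fun n => PolyBound.norm_term_le hC le_rfl n

theorem PolyBound.hasSum {c : ℕ → ℂ} (hc : PolyBound c) {q : ℂ} (hq : ‖q‖ < 1) :
    HasSum (fun n : ℕ => c n * q ^ n) (qSum c q) :=
  (hc.summable hq).hasSum

theorem PolyBound.differentiableOn {c : ℕ → ℂ} (hc : PolyBound c) :
    DifferentiableOn ℂ (qSum c) (Metric.ball (0 : ℂ) 1) := by
  obtain ⟨C, k, hC⟩ := hc
  intro z hz
  rw [Metric.mem_ball, dist_zero_right] at hz
  set r : ℝ := (1 + ‖z‖) / 2 with hr
  have hr1 : r < 1 := by rw [hr]; linarith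
  have hzr : ‖z‖ < r := by rw [hr]; linarith
  have hr0 : 0 ≤ r := (norm_nonneg z).trans hzr.le
  have hd : DifferentiableOn ℂ (fun w : ℂ => ∑' n : ℕ, c n * w ^ n) (Metric.ball (0 : ℂ) r) := by
    refine Complex.differentiableOn_tsum_of_summable_norm
      (summable_polyBound C k hr0 hr1) (fun n => ?_)
      Metric.isOpen_ball fun n w hw => ?_
    · exact (differentiable_const _).mul (differentiable_id.pow n) |>.differentiableOn
    · rw [Metric.mem_ball, dist_zero_right] at hw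
      exact PolyBound.norm_term_le hC hw.le n
  have hzU : z ∈ Metric.ball (0 : ℂ) r := by rwa [Metric.mem_ball, dist_zero_right]
  exact ((hd z hzU).differentiableAt (Metric.isOpen_ball.mem_nhds hzU)).differentiableWithinAt

theorem PolyBound.isNice {c : ℕ → ℂ} (hc : PolyBound c) :
    IsNice (fun τ : ℍ => qSum c (𝕢 1 τ)) :=
  isNice_comp_qParam (qSum c) hc.differentiableOn

theorem PolyBound.qExpansion {c : ℕ → ℂ} (hc : PolyBound c) :
    qExpansion 1 (fun τ : ℍ => qSum c (𝕢 1 τ)) = PowerSeries.mk c := by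
  refine hc.isNice.qExpansion_eq_of_hasSum _ fun τ => ?_
  have hq : ‖𝕢 1 (τ : ℂ)‖ < 1 := Periodic.norm_qParam_lt_one one_pos τ.im_pos
  have h := hc.hasSum hq
  refine h.congr_fun fun n => ?_
  rw [PowerSeries.coeff_mk, smul_eq_mul]

/-- a `q`-series with polynomially bounded coefficients is the `q`-expansion of its sum -/
theorem PolyBound.isQExp {c : ℕ → ℂ} (hc : PolyBound c) :
    IsQExp (HahnSeries.ofPowerSeries ℤ ℂ (PowerSeries.mk c)) (fun τ : ℍ => qSum c (𝕢 1 τ)) := by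
  have h := IsQExp.of_isNice hc.isNice
  rwa [hc.qExpansion] at h

/-! ### The coefficients of `P_a` are polynomially bounded -/

theorem abs_wpCoeff_le (M : ℕ) (a : ZMod M) (e : ℕ) : |wpCoeff M a e| ≤ 2 * (e : ℤ) ^ 2 := by
  unfold wpCoeff
  calc |∑ m ∈ e.divisors, (m : ℤ) *
          ((if ((e / m : ℕ) : ZMod M) = a then 1 else 0) +
            (if ((e / m : ℕ) : ZMod M) = -a then 1 else 0))|
      ≤ ∑ m ∈ e.divisors, |(m : ℤ) *
          ((if ((e / m : ℕ) : ZMod M) = a then 1 else 0) +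
            (if ((e / m : ℕ) : ZMod M) = -a then 1 else 0))| := Finset.abs_sum_le_sum_abs _ _
    _ ≤ ∑ _m ∈ e.divisors, (2 * (e : ℤ)) := by
        refine Finset.sum_le_sum fun m hm => ?_
        have hme : (m : ℤ) ≤ e := by exact_mod_cast Nat.divisor_le hm
        have hm0 : (0 : ℤ) ≤ m := Int.natCast_nonneg m
        rw [abs_mul, abs_of_nonneg hm0]
        have h2 : |((if ((e / m : ℕ) : ZMod M) = a then (1 : ℤ) else 0) +
            (if ((e / m : ℕ) : ZMod M) = -a then 1 else 0))| ≤ 2 := by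
          split_ifs <;> norm_num
        calc (m : ℤ) * |((if ((e / m : ℕ) : ZMod M) = a then (1 : ℤ) else 0) +
            (if ((e / m : ℕ) : ZMod M) = -a then 1 else 0))| ≤ (e : ℤ) * 2 :=
              mul_le_mul hme h2 (abs_nonneg _) (Int.natCast_nonneg e)
          _ = 2 * (e : ℤ) := mul_comm _ _
    _ = (e.divisors.card : ℤ) * (2 * (e : ℤ)) := by
        rw [Finset.sum_const, nsmul_eq_mul]
    _ ≤ (e : ℤ) * (2 * (e : ℤ)) := by
        refine mul_le_mul_of_nonneg_right ?_ (by positivity)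
        exact_mod_cast Nat.card_divisors_le_self e
    _ = 2 * (e : ℤ) ^ 2 := by ring

/-- the complex coefficients of `P_a - P_b` -/
def wpC (M : ℕ) (a b : ZMod M) (n : ℕ) : ℂ := ((wpCoeff M a n - wpCoeff M b n : ℤ) : ℂ)

theorem polyBound_wpC (M : ℕ) (a b : ZMod M) : PolyBound (wpC M a b) := by
  refine ⟨4, 2, fun n => ?_⟩
  have h1 := abs_wpCoeff_le M a n
  have h2 := abs_wpCoeff_le M b n
  have h3 : |wpCoeff M a n - wpCoeff M b n| ≤ 4 * (n : ℤ) ^ 2 := by
    have := abs_sub (wpCoeff M a n) (wpCoeff M b n)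
    linarith
  rw [wpC, Complex.norm_intCast]
  have h4 : ((|wpCoeff M a n - wpCoeff M b n| : ℤ) : ℝ) ≤ ((4 * (n : ℤ) ^ 2 : ℤ) : ℝ) :=
    Int.cast_le.2 h3
  push_cast at h4 ⊢
  exact h4

theorem wpDfn_eq (M : ℕ) (a b : ZMod M) (τ : ℍ) :
    helper24.wpDfn M a b τ = qSum (wpC M a b) (𝕢 1 τ) := rfl

/-- the series of `wpDfn M a b` converges -/
theorem hasSum_wpDfn (M : ℕ) (a b : ZMod M) (τ : ℍ) :
    HasSum (fun n : ℕ => ((wpCoeff M a n - wpCoeff M b n : ℤ) : ℂ) * 𝕢 1 τ ^ n)
      (helper24.wpDfn M a b τ) :=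
  (polyBound_wpC M a b).hasSum (Periodic.norm_qParam_lt_one one_pos τ.im_pos)

theorem isNice_wpDfn (M : ℕ) (a b : ZMod M) : IsNice (helper24.wpDfn M a b) :=
  (polyBound_wpC M a b).isNice

theorem qExpansion_wpDfn (M : ℕ) (a b : ZMod M) :
    qExpansion 1 (helper24.wpDfn M a b) = PowerSeries.mk (wpC M a b) :=
  (polyBound_wpC M a b).qExpansion

/-- the formal series `P_a - P_b` (with complex coefficients) is `q * wpDiff M a b` -/
theorem mk_wpC (M : ℕ) (a b : ZMod M) :
    PowerSeries.mk (wpC M a b) =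
      PowerSeries.X * (wpDiff M a b).map (Int.castRingHom ℂ) := by
  ext n
  rw [PowerSeries.coeff_mk]
  rcases n with _ | n
  · rw [PowerSeries.coeff_zero_X_mul, wpC, wpCoeff_zero_right, wpCoeff_zero_right]
    simp
  · rw [PowerSeries.coeff_succ_X_mul, PowerSeries.coeff_map, coeff_wpDiff, wpC]
    rfl

/-- **(QEXP)** the Laurent series `P_a - P_b = q * wpDiff M a b` is the `q`-expansion of
`wpDfn M a b`. -/
theorem isQExp_wpDfn (M : ℕ) (a b : ZMod M) :
    IsQExp (HahnSeries.single (1 : ℤ) (1 : ℂ) *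
      HahnSeries.ofPowerSeries ℤ ℂ ((wpDiff M a b).map (Int.castRingHom ℂ)))
      (helper24.wpDfn M a b) := by
  have h := (polyBound_wpC M a b).isQExp
  rw [mk_wpC, map_mul, HahnSeries.ofPowerSeries_X] at h
  exact h

end Fermat.Agent.T4.helper33

end
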