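import Fermat.Agent.T4.helper33_X1QExp
import Fermat.Agent.T4.helper44_WpBridge

/-!
# T4 block (I), I-FLD [X1-SYS] field `qexp` (helper33): the `q`-expansion of `sFn M a`

`sFn M a = wpDfn M a 1 / wpDfn M 2 1` is a nice function on the upper half plane with
`q`-expansion `sInt M a`; hence `IsQExp (coeffEmb ℂ (sSer ℚ M a)) (sFn M a)`
(`x1_qexp`, the field `qexp` of `helper24.X1Inputs`).
-/

set_option autoImplicit false
set_option linter.unusedSectionVars false

noncomputable section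

open ModularCurve UpperHalfPlane ModularForm Function Filter
open scoped MatrixGroups Manifold Topology

namespace Fermat.Agent.T4.helper33

open Fermat.Agent.S24.helper17 Fermat.Agent.T4.helper32

local notation "𝕢" => Periodic.qParam

/-! ### Shifted series -/

/-- the shifted sequence -/
def shiftC (c : ℕ → ℂ) (n : ℕ) : ℂ := c (n + 1)

theorem summable_polyBound_shift (C : ℝ) (k : ℕ) {r : ℝ} (hr0 : 0 < r) (hr : r < 1) :
    Summable fun n : ℕ => r⁻¹ * (C * (((n + 1 : ℕ) : ℝ) ^ k * r ^ (n + 1))) := by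
  have h := summable_polyBound C k hr0.le hr
  exact ((summable_nat_add_iff 1).2 h).mul_left r⁻¹

theorem norm_shift_term_le {c : ℕ → ℂ} {C : ℝ} {k : ℕ}
    (hc : ∀ n : ℕ, ‖c n‖ ≤ C * (n : ℝ) ^ k) {r : ℝ} (hr0 : 0 < r) {q : ℂ} (hq : ‖q‖ ≤ r)
    (n : ℕ) :
    ‖shiftC c n * q ^ n‖ ≤ r⁻¹ * (C * (((n + 1 : ℕ) : ℝ) ^ k * r ^ (n + 1))) := by
  have h1 : ‖shiftC c n * q ^ n‖ ≤ C * ((n + 1 : ℕ) : ℝ) ^ k * r ^ n := by
    rw [norm_mul, norm_pow]
    exact mul_le_mul (hc (n + 1)) (pow_le_pow_left₀ (norm_nonneg q) hq n)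
      (pow_nonneg (norm_nonneg q) n) ((norm_nonneg (c (n + 1))).trans (hc (n + 1)))
  have h2 : r⁻¹ * (C * (((n + 1 : ℕ) : ℝ) ^ k * r ^ (n + 1))) =
      C * ((n + 1 : ℕ) : ℝ) ^ k * r ^ n := by
    rw [pow_succ]
    field_simp
  rw [h2]
  exact h1

theorem PolyBound.summable_shift {c : ℕ → ℂ} (hc : PolyBound c) {q : ℂ} (hq : ‖q‖ < 1) :
    Summable fun n : ℕ => shiftC c n * q ^ n := by
  obtain ⟨C, k, hC⟩ := hc
  set r : ℝ := (1 + ‖q‖) / 2 with hr
  have hr1 : r < 1 := by rw [hr]; linarith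
  have hqr : ‖q‖ ≤ r := by rw [hr]; linarith
  have hr0 : 0 < r := by
    have := norm_nonneg q
    rw [hr]; linarith
  exact Summable.of_norm_bounded (summable_polyBound_shift C k hr0 hr1)
    fun n => norm_shift_term_le hC hr0 hqr n

theorem PolyBound.differentiableOn_shift {c : ℕ → ℂ} (hc : PolyBound c) :
    DifferentiableOn ℂ (qSum (shiftC c)) (Metric.ball (0 : ℂ) 1) := by
  obtain ⟨C, k, hC⟩ := hc
  intro z hz
  rw [Metric.mem_ball, dist_zero_right] at hz
  set r : ℝ := (1 + ‖z‖) / 2 with hr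
  have hr1 : r < 1 := by rw [hr]; linarith
  have hzr : ‖z‖ < r := by rw [hr]; linarith
  have hr0 : 0 < r := (norm_nonneg z).trans_lt hzr
  have hd : DifferentiableOn ℂ (fun w : ℂ => ∑' n : ℕ, shiftC c n * w ^ n)
      (Metric.ball (0 : ℂ) r) := by
    refine Complex.differentiableOn_tsum_of_summable_norm
      (summable_polyBound_shift C k hr0 hr1) (fun n => ?_)
      Metric.isOpen_ball fun n w hw => ?_
    · exact (differentiable_const _).mul (differentiable_id.pow n) |>.differentiableOn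
    · rw [Metric.mem_ball, dist_zero_right] at hw
      exact norm_shift_term_le hC hr0 hw.le n
  have hzU : z ∈ Metric.ball (0 : ℂ) r := by rwa [Metric.mem_ball, dist_zero_right]
  exact ((hd z hzU).differentiableAt (Metric.isOpen_ball.mem_nhds hzU)).differentiableWithinAt

/-- `∑ c_n q^n = q * ∑ c_(n+1) q^n` if `c_0 = 0` -/
theorem PolyBound.qSum_eq_mul_shift {c : ℕ → ℂ} (hc : PolyBound c) (h0 : c 0 = 0) {q : ℂ}
    (hq : ‖q‖ < 1) : qSum c q = q * qSum (shiftC c) q := by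
  have h1 := (hc.summable hq).tsum_eq_zero_add
  rw [qSum, h1, h0, zero_mul, zero_add, qSum, ← tsum_mul_left]
  refine tsum_congr fun n => ?_
  rw [shiftC, pow_succ]
  ring

theorem qSum_shift_zero (c : ℕ → ℂ) : qSum (shiftC c) 0 = c 1 := by
  rw [qSum, tsum_eq_single 0]
  · simp [shiftC]
  · intro n hn
    rw [zero_pow hn, mul_zero]

/-! ### The function `s_a` -/

section

variable (M : ℕ) [NeZero M]

theorem two_ne_zero_zmod (hM : 4 ≤ M) : (2 : ZMod M) ≠ 0 := fun h => by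
  have := (rep_eq_zero_iff (2 : ZMod M)).2 h
  rw [rep_two hM] at this
  omega

theorem two_ne_one_zmod (hM : 4 ≤ M) : (2 : ZMod M) ≠ 1 ∧ (2 : ZMod M) ≠ -1 := by
  have h : rep (2 : ZMod M) ≠ rep (1 : ZMod M) := by
    rw [rep_one (by omega), rep_two hM]; omega
  rw [Ne, rep_eq_iff, not_or] at h
  exact h

/-- the denominator `u(q) = (P_2 - P_1) / q` -/
def uFn (q : ℂ) : ℂ := qSum (shiftC (wpC M 2 1)) q

/-- the numerator `v(q) = (P_a - P_1) / q` -/
def vFn (a : ZMod M) (q : ℂ) : ℂ := qSum (shiftC (wpC M a 1)) q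

theorem wpC_zero (a b : ZMod M) : wpC M a b 0 = 0 := by
  rw [wpC, wpCoeff_zero_right, wpCoeff_zero_right]
  simp

theorem wpDfn_eq_mul (a b : ZMod M) (τ : ℍ) :
    helper24.wpDfn M a b τ = 𝕢 1 τ * qSum (shiftC (wpC M a b)) (𝕢 1 τ) := by
  rw [wpDfn_eq]
  exact (polyBound_wpC M a b).qSum_eq_mul_shift (wpC_zero M a b)
    (Periodic.norm_qParam_lt_one one_pos τ.im_pos)

theorem qParam_ne_zero' (z : ℂ) : 𝕢 1 z ≠ 0 := by
  unfold Periodic.qParam
  exact Complex.exp_ne_zero _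

theorem uFn_ne_zero (hM : 4 ≤ M) {q : ℂ} (hq : q ∈ Metric.ball (0 : ℂ) 1) : uFn M q ≠ 0 := by
  rw [Metric.mem_ball, dist_zero_right] at hq
  by_cases h0 : q = 0
  · rw [h0, uFn, qSum_shift_zero, wpC]
    have h := constantCoeff_wpDiff_two_one hM
    rw [← PowerSeries.coeff_zero_eq_constantCoeff, coeff_wpDiff] at h
    rw [show (0 + 1 : ℕ) = 1 from rfl] at h
    rw [h]
    norm_num
  · -- `q = 𝕢 τ`
    have him : 0 < (Periodic.invQParam 1 q).im :=
      Periodic.im_invQParam_pos_of_norm_lt_one one_pos hq h0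
    set τ : ℍ := ⟨Periodic.invQParam 1 q, him⟩ with hτ
    have hqτ : 𝕢 1 (τ : ℂ) = q := Periodic.qParam_right_inv one_ne_zero h0
    have hne := Fermat.Agent.T4.helper44.wpDfn_ne_zero M (2 : ZMod M) 1 (two_ne_zero_zmod M hM)
      (one_ne_zero_zmod (by omega)) (two_ne_one_zmod M hM).1 (two_ne_one_zmod M hM).2 τ
    rw [wpDfn_eq_mul, hqτ] at hne
    exact right_ne_zero_of_mul hne

theorem differentiableOn_div_uFn (hM : 4 ≤ M) (a : ZMod M) :
    DifferentiableOn ℂ (fun q => vFn M a q / uFn M q) (Metric.ball (0 : ℂ) 1) :=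
  DifferentiableOn.div (polyBound_wpC M a 1).differentiableOn_shift
    (polyBound_wpC M 2 1).differentiableOn_shift fun _ hq => uFn_ne_zero M hM hq

theorem sFn_eq (hM : 4 ≤ M) (a : ZMod M) (τ : ℍ) :
    helper24.sFn M a τ = vFn M a (𝕢 1 τ) / uFn M (𝕢 1 τ) := by
  rw [helper24.sFn, wpDfn_eq_mul, wpDfn_eq_mul, vFn, uFn]
  have hq : 𝕢 1 (τ : ℂ) ≠ 0 := qParam_ne_zero' _
  have hu : qSum (shiftC (wpC M 2 1)) (𝕢 1 τ) ≠ 0 :=
    uFn_ne_zero M hM (by
      rw [Metric.mem_ball, dist_zero_right]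
      exact Periodic.norm_qParam_lt_one one_pos τ.im_pos)
  field_simp

/-- `s_a` is holomorphic on the upper half plane, periodic and bounded at `i∞` -/
theorem isNice_sFn (hM : 4 ≤ M) (a : ZMod M) : IsNice (helper24.sFn M a) :=
  (isNice_comp_qParam _ (differentiableOn_div_uFn M hM a)).congr fun τ => (sFn_eq M hM a τ).symm

theorem sFn_mul_wpDfn (hM : 4 ≤ M) (a : ZMod M) (τ : ℍ) :
    helper24.sFn M a τ * helper24.wpDfn M 2 1 τ = helper24.wpDfn M a 1 τ := by
  have hne := Fermat.Agent.T4.helper44.wpDfn_ne_zero M (2 : ZMod M) 1 (two_ne_zero_zmod M hM)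
    (one_ne_zero_zmod (by omega)) (two_ne_one_zmod M hM).1 (two_ne_one_zmod M hM).2 τ
  rw [helper24.sFn, div_mul_cancel₀ _ hne]

/-- the `q`-expansion of `s_a` is `sInt M a` -/
theorem qExpansion_sFn (hM : 4 ≤ M) (a : ZMod M) :
    qExpansion 1 (helper24.sFn M a) = (sInt M a).map (Int.castRingHom ℂ) := by
  have hmul : helper24.sFn M a * helper24.wpDfn M 2 1 = helper24.wpDfn M a 1 :=
    funext fun τ => sFn_mul_wpDfn M hM a τ
  have h1 := (isNice_sFn M hM a).qExpansion_mul (isNice_wpDfn M 2 1)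
  rw [hmul, qExpansion_wpDfn, qExpansion_wpDfn, mk_wpC, mk_wpC] at h1
  -- `X * Da1 = E * (X * D21)`
  have h2 : (wpDiff M a 1).map (Int.castRingHom ℂ) =
      qExpansion 1 (helper24.sFn M a) * (wpDiff M 2 1).map (Int.castRingHom ℂ) := by
    have : PowerSeries.X * (wpDiff M a 1).map (Int.castRingHom ℂ) =
        PowerSeries.X * (qExpansion 1 (helper24.sFn M a) *
          (wpDiff M 2 1).map (Int.castRingHom ℂ)) := by
      rw [h1]; ring
    exact mul_left_cancel₀ PowerSeries.X_ne_zero this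
  have h3 : (wpDiff M a 1).map (Int.castRingHom ℂ) =
      (sInt M a).map (Int.castRingHom ℂ) * (wpDiff M 2 1).map (Int.castRingHom ℂ) := by
    rw [← map_mul, sInt_mul hM]
  have hD : (wpDiff M 2 1).map (Int.castRingHom ℂ) ≠ 0 := by
    intro h
    have hc := congrArg (PowerSeries.coeff 0) h
    rw [PowerSeries.coeff_map, PowerSeries.coeff_zero_eq_constantCoeff,
      constantCoeff_wpDiff_two_one hM] at hc
    simp at hc
  exact mul_right_cancel₀ hD (h2.symm.trans h3)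

/-- **[X1-SYS] `qexp`**: the formal series `s_a` is the `q`-expansion of the function `s_a`. -/
theorem x1_qexp (hM : 4 ≤ M) (a : ZMod M) :
    IsQExp (coeffEmb ℂ (sSer ℚ M a)) (helper24.sFn M a) := by
  have h := IsQExp.of_isNice (isNice_sFn M hM a)
  rwa [qExpansion_sFn M hM a, ← sSer_eq, ← coeffEmb_sSer ℂ M a] at h

/-- the same with complex coefficients -/
theorem x1_qexp' (hM : 4 ≤ M) (a : ZMod M) :
    IsQExp (sSer ℂ M a) (helper24.sFn M a) := by
  rw [← coeffEmb_sSer ℂ M a]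
  exact x1_qexp M hM a

end

end Fermat.Agent.T4.helper33

end
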