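import Mathlib
import Fermat.Agent.T4.helper35_SL2Gen

/-!
# T4 block (I), IGUSA1, step (e) (helper35): normal subgroups of `SL₂(R)` inside the Borel

* `sl2_scalar_of_normal_le_borel` : a normal subgroup of `SL₂(R)` (`R` any commutative ring)
  consisting of upper triangular matrices consists of scalar matrices `a • 1` with `a ^ 2 = 1`.
* `sl2_scalar_of_conj_le_borel` : the same for a single element all of whose conjugates are
  upper triangular.
-/

set_option autoImplicit false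
set_option linter.unusedSimpArgs false

namespace Fermat.Agent.T4.helper35

open Matrix

variable {R : Type*} [CommRing R]

theorem sl2_inv_apply (g : SpecialLinearGroup (Fin 2) R) :
    g⁻¹ 0 0 = g 1 1 ∧ g⁻¹ 0 1 = - g 0 1 ∧ g⁻¹ 1 0 = - g 1 0 ∧ g⁻¹ 1 1 = g 0 0 := by
  rw [Matrix.SpecialLinearGroup.coe_inv, Matrix.adjugate_fin_two]
  simp

/-- the lower left entry of `S n S⁻¹` -/
theorem sl2_conj_S_apply_one_zero (n : SpecialLinearGroup (Fin 2) R) :
    ((sl2S * n * sl2S⁻¹ : SpecialLinearGroup (Fin 2) R)) 1 0 = - n 0 1 := by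
  obtain ⟨h00, h01, h10, h11⟩ := sl2_inv_apply (sl2S : SpecialLinearGroup (Fin 2) R)
  simp only [sl2_mul_apply, h00, h01, h10, h11, sl2S_apply_zero_zero, sl2S_apply_zero_one,
    sl2S_apply_one_zero, sl2S_apply_one_one]
  ring

/-- the lower left entry of `L n L⁻¹`, `L = (1 0; 1 1)`, for a diagonal `n` -/
theorem sl2_conj_L_apply_one_zero (n : SpecialLinearGroup (Fin 2) R) (h01 : n 0 1 = 0)
    (h10 : n 1 0 = 0) :
    ((sl2L 1 * n * (sl2L (1 : R))⁻¹ : SpecialLinearGroup (Fin 2) R)) 1 0 = n 0 0 - n 1 1 := by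
  obtain ⟨i00, i01, i10, i11⟩ := sl2_inv_apply (sl2L (1 : R))
  simp only [sl2_mul_apply, i00, i01, i10, i11, sl2L_apply_zero_zero, sl2L_apply_zero_one,
    sl2L_apply_one_zero, sl2L_apply_one_one, h01, h10]
  ring

/-- an element of `SL₂(R)` all of whose conjugates are upper triangular is a scalar matrix
`a • 1` with `a ^ 2 = 1`. -/
theorem sl2_scalar_of_conj_le_borel (n : SpecialLinearGroup (Fin 2) R)
    (h : ∀ g : SpecialLinearGroup (Fin 2) R, (g * n * g⁻¹) 1 0 = 0) :
    n 0 1 = 0 ∧ n 1 0 = 0 ∧ n 0 0 = n 1 1 ∧ n 0 0 * n 0 0 = 1 := by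
  have h10 : n 1 0 = 0 := by
    have := h 1
    simpa using this
  have h01 : n 0 1 = 0 := by
    have := h (sl2S : SpecialLinearGroup (Fin 2) R)
    rw [sl2_conj_S_apply_one_zero] at this
    exact neg_eq_zero.1 this
  have hd : n 0 0 = n 1 1 := by
    have := h (sl2L (1 : R))
    rw [sl2_conj_L_apply_one_zero n h01 h10] at this
    exact sub_eq_zero.1 this
  refine ⟨h01, h10, hd, ?_⟩
  have hdet := sl2_det n
  rw [h01, zero_mul, sub_zero, ← hd] at hdet
  exact hdet

/-- a normal subgroup of `SL₂(R)` consisting of upper triangular matrices consists of scalar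
matrices `a • 1` with `a ^ 2 = 1`. -/
theorem sl2_scalar_of_normal_le_borel (N : Subgroup (SpecialLinearGroup (Fin 2) R))
    (hN : N.Normal) (hB : ∀ n ∈ N, n 1 0 = 0) (n : SpecialLinearGroup (Fin 2) R) (hn : n ∈ N) :
    n 0 1 = 0 ∧ n 1 0 = 0 ∧ n 0 0 = n 1 1 ∧ n 0 0 * n 0 0 = 1 :=
  sl2_scalar_of_conj_le_borel n (fun g => hB _ (hN.conj_mem n hn g))

/-- the kernel of a homomorphism from `SL₂(R)` which is contained in the Borel subgroup
consists of scalar matrices `a • 1` with `a ^ 2 = 1`. -/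
theorem sl2_scalar_of_ker_le_borel {G' : Type*} [Group G']
    (π : SpecialLinearGroup (Fin 2) R →* G')
    (hB : ∀ n : SpecialLinearGroup (Fin 2) R, π n = 1 → n 1 0 = 0)
    (n : SpecialLinearGroup (Fin 2) R) (hn : π n = 1) :
    n 0 1 = 0 ∧ n 1 0 = 0 ∧ n 0 0 = n 1 1 ∧ n 0 0 * n 0 0 = 1 :=
  sl2_scalar_of_normal_le_borel π.ker (MonoidHom.normal_ker π)
    (fun m hm => hB m (MonoidHom.mem_ker.1 hm)) n (MonoidHom.mem_ker.2 hn)

end Fermat.Agent.T4.helper35
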