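import Mathlib
import Fermat.Agent.T4.helper35_SL2Normal
import Fermat.Agent.T4.helper4_IgusaDefs

/-!
# T4 block (I), IGUSA1, leaf [IG-GRP-Z] (helper35): the group lemma in `SL₂(ℤ)`

* `reduction_surjective` : `SL₂(ℤ) → SL₂(ℤ/M)` is onto (`M ≠ 0`).
* `groupStatement : helper4.Ig.GroupStatement M` : a subgroup of `SL₂(ℤ)` containing `Γ(M)` and
  `T` which meets every coset `g Γ₀(M)` is everything.
* `scalar_of_normal_le_Gamma0` : a normal subgroup of `SL₂(ℤ)` contained in `Γ₀(M)` consists of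
  matrices which are scalar modulo `M`, with square `1`.
-/

set_option autoImplicit false
set_option linter.unusedSimpArgs false
set_option linter.unusedSectionVars false

namespace Fermat.Agent.T4.helper35

open Matrix CongruenceSubgroup
open scoped MatrixGroups

variable (M : ℕ)

/-- the reduction `SL₂(ℤ) → SL₂(ℤ/M)` -/
abbrev sl2Red : SL(2, ℤ) →* SpecialLinearGroup (Fin 2) (ZMod M) :=
  SpecialLinearGroup.map (Int.castRingHom (ZMod M))

theorem sl2Red_apply (g : SL(2, ℤ)) (i j : Fin 2) :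
    sl2Red M g i j = ((g i j : ℤ) : ZMod M) := rfl

theorem sl2Red_ker : (sl2Red M).ker = Gamma M := rfl

theorem mem_Gamma0_iff_sl2Red (g : SL(2, ℤ)) : g ∈ Gamma0 M ↔ sl2Red M g 1 0 = 0 :=
  Gamma0_mem

theorem sl2Red_sl2U (n : ℤ) : sl2Red M (sl2U n) = sl2U (n : ZMod M) := by
  apply sl2_ext <;> simp [sl2Red_apply]

theorem sl2Red_sl2L (n : ℤ) : sl2Red M (sl2L n) = sl2L (n : ZMod M) := by
  apply sl2_ext <;> simp [sl2Red_apply]

theorem sl2Red_T : ((sl2Red M ModularGroup.T : SpecialLinearGroup (Fin 2) (ZMod M)) :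
    Matrix (Fin 2) (Fin 2) (ZMod M)) = !![1, 1; 0, 1] :=
  sl2_map_T_coe

variable [NeZero M]

/-- `SL₂(ℤ) → SL₂(ℤ/M)` is onto. -/
theorem reduction_surjective : Function.Surjective (sl2Red M) := by
  have h : sl2E (ZMod M) ≤ (sl2Red M).range := by
    rw [sl2E, Subgroup.closure_le]
    rintro _ (⟨x, rfl⟩ | ⟨x, rfl⟩)
    · refine ⟨sl2U ((x.val : ℕ) : ℤ), ?_⟩
      rw [sl2Red_sl2U]
      congr 1
      rw [Int.cast_natCast, ZMod.natCast_zmod_val]
    · refine ⟨sl2L ((x.val : ℕ) : ℤ), ?_⟩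
      rw [sl2Red_sl2L]
      congr 1
      rw [Int.cast_natCast, ZMod.natCast_zmod_val]
  rw [sl2_closure_unipotent_eq_top] at h
  intro g
  exact h (Subgroup.mem_top g)

/-- a subgroup of `SL₂(ℤ)` containing `Γ(M)` whose reduction is everything is everything -/
theorem eq_top_of_map_eq_top (D : Subgroup SL(2, ℤ)) (hD : Gamma M ≤ D)
    (h : D.map (sl2Red M) = ⊤) : D = ⊤ := by
  rw [eq_top_iff]
  intro g _
  have hg : sl2Red M g ∈ D.map (sl2Red M) := by rw [h]; exact Subgroup.mem_top _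
  obtain ⟨d, hd, hdg⟩ := hg
  have hk : d⁻¹ * g ∈ Gamma M := by
    rw [← sl2Red_ker, MonoidHom.mem_ker, map_mul, map_inv, hdg, inv_mul_cancel]
  have : g = d * (d⁻¹ * g) := by group
  rw [this]
  exact D.mul_mem hd (hD hk)

/-- **[IG-GRP-Z]** -/
theorem groupStatement : Fermat.Agent.T4.helper4.Ig.GroupStatement M := by
  intro D hD hT htrans
  apply eq_top_of_map_eq_top M D hD
  refine sl2_eq_top_of_trans (D.map (sl2Red M)) (sl2Red M ModularGroup.T) (sl2Red_T M)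
    (Subgroup.mem_map_of_mem _ hT) (fun g' => ?_)
  obtain ⟨g, rfl⟩ := reduction_surjective M g'
  obtain ⟨d, hd, hdg⟩ := htrans g
  refine ⟨sl2Red M d, Subgroup.mem_map_of_mem _ hd, sl2Red M (d⁻¹ * g),
    (mem_Gamma0_iff_sl2Red M _).1 hdg, ?_⟩
  rw [← map_mul]
  congr 1
  group

/-- a normal subgroup of `SL₂(ℤ)` contained in `Γ₀(M)` consists of matrices which are scalar
modulo `M`, with square `1`. -/
theorem scalar_of_normal_le_Gamma0 (N : Subgroup SL(2, ℤ)) (hN : N.Normal)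
    (hle : N ≤ Gamma0 M) (g : SL(2, ℤ)) (hg : g ∈ N) :
    ((g 0 1 : ℤ) : ZMod M) = 0 ∧ ((g 1 0 : ℤ) : ZMod M) = 0 ∧
      ((g 0 0 : ℤ) : ZMod M) = ((g 1 1 : ℤ) : ZMod M) ∧
      ((g 0 0 : ℤ) : ZMod M) * ((g 0 0 : ℤ) : ZMod M) = 1 := by
  have h := sl2_scalar_of_conj_le_borel (sl2Red M g) (fun h' => by
    obtain ⟨h, rfl⟩ := reduction_surjective M h'
    have hmem : h * g * h⁻¹ ∈ Gamma0 M := hle (hN.conj_mem g hg h)
    have := (mem_Gamma0_iff_sl2Red M _).1 hmem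
    rwa [map_mul, map_mul, map_inv] at this)
  exact h

/-- the same for elements of `Γ₀(M)` acting trivially under a homomorphism whose kernel lies in
`Γ₀(M)` -/
theorem scalar_of_ker_le_Gamma0 {G' : Type*} [Group G'] (π : SL(2, ℤ) →* G')
    (hle : ∀ g : SL(2, ℤ), π g = 1 → g ∈ Gamma0 M) (g : SL(2, ℤ)) (hg : π g = 1) :
    ((g 0 1 : ℤ) : ZMod M) = 0 ∧ ((g 1 0 : ℤ) : ZMod M) = 0 ∧
      ((g 0 0 : ℤ) : ZMod M) = ((g 1 1 : ℤ) : ZMod M) ∧
      ((g 0 0 : ℤ) : ZMod M) * ((g 0 0 : ℤ) : ZMod M) = 1 :=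
  scalar_of_normal_le_Gamma0 M π.ker (MonoidHom.normal_ker π)
    (fun m hm => hle m (MonoidHom.mem_ker.1 hm)) g (MonoidHom.mem_ker.2 hg)

end Fermat.Agent.T4.helper35
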