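import Mathlib
import Fermat.Agent.T4.helper37_Cusp1Gen
import Fermat.Agent.T4.helper77_DegSys
import Fermat.Agent.P2.helper28_LocalCountSep
import Fermat.Agent.S24.helper80_LocalEmb
import Fermat.Agent.S24.helper75_FFCore2
import Fermat.Agent.P2.helper29_Interface

/-!
# T4 block (I), I-FLD [G-CUSPDICT] (helper37): the cusp dictionary in characteristic `0`

* `led_dictionary` (GENERIC): the full dictionary between the places over `y = 0` of a function
  field `F / K` (`K` algebraically closed of characteristic `0`) and the orbits of the rotation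
  of a `LocalEmbData ι y X` with `|X| = [F : K(y)]`, in the shape of
  `P2.helper28.cusp_dictionary` (places `W i`, orbit sizes, valuation formula, valuation rings,
  count).
* `cuspDict1`: for a generator system `(D : helper24.GenData) (hD : D.IsSys)` and a width `W`
  (`Γ(W) ≤ D.Γ`): the places of `D.field ℚ̄` over `j = ∞` are the places `Wp c` induced by the
  coset expansions `embG1 g`, `c = g D.Γ`; two cosets induce the same place iff they are in the
  same `⟨T⟩`-orbit; `ord_{Wp c} (1 / j)` is the size of the orbit (the width of the cusp);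
  `order (embG1 g f) = d c * ord_{Wp c} f`, `d c * |orbit c| = W`.
* `card_poles1`: the number of poles of `j` is the number of `⟨T⟩`-orbits on `D.X`.
* `isInfty_Wp_one`: if `T ∈ D.Γ`, the place of the identity coset is the place at infinity
  (`helper29.IsInfty`: its order function is the `q`-order), and it is the only one;
  `order_embG1_nonneg_of_inL`: an element of `L(n ∞)` has expansions without poles at all
  cosets different from the identity coset.
-/

set_option autoImplicit false
set_option linter.unusedSectionVars false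
set_option linter.unusedVariables false
set_option linter.style.haveILetI false

noncomputable section

open UpperHalfPlane Filter Topology Function ModularCurve CongruenceSubgroup AlgebraicCurve
  IntermediateField WithZero
open scoped MatrixGroups Manifold

namespace Fermat.Agent.T4.helper37c

open Fermat.Agent.S24 Fermat.Agent.S24.helper37 Fermat.Agent.T4.helper24

/-! ## The generic dictionary of a `LocalEmbData` -/

section Generic

variable {K F : Type*} [Field K] [Field F] [Algebra K F] [IsAlgClosed K] [CharZero K]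

/-- **The dictionary of a `LocalEmbData`.** -/
theorem led_dictionary {ι : K →+* ℂ} (y : F) (hy : Transcendental K y)
    [FiniteDimensional K⟮y⟯ F] {X : Type*} [Fintype X] (D : LocalEmbData ι y X)
    (hcard : Fintype.card X = Module.finrank K⟮y⟯ F) :
    ∃ (W : X → Place K F) (d : X → ℕ),
      (∀ i, 0 < (W i).ord y) ∧
      (∀ w : Place K F, 0 < w.ord y → ∃ i, W i = w) ∧
      (∀ i j, W i = W j ↔ j ∈ MulAction.orbit (Subgroup.zpowers D.π) i) ∧
      (∀ i, (W i).ord y = (Nat.card (MulAction.orbit (Subgroup.zpowers D.π) i) : ℤ)) ∧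
      (∀ i, d i * Nat.card (MulAction.orbit (Subgroup.zpowers D.π) i) = D.E) ∧
      (∀ i (f : F), f ≠ 0 →
        (Valued.v (D.emb i f) : ℤᵐ⁰) = exp (-((d i : ℤ) * (W i).ord f))) ∧
      (∀ i, (W i).toValuationSubring =
        ((Valued.v : Valuation (LaurentSeries ℂ) ℤᵐ⁰).comap (D.emb i)).valuationSubring) ∧
      Nat.card {w : Place K F // 0 < w.ord y}
        = Nat.card (MulAction.orbitRel.Quotient (Subgroup.zpowers D.π) X) := by
  classical
  have hy0 : y ≠ 0 := by
    rintro rfl
    exact hy (isAlgebraic_zero)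
  have hζ0 := helper80.led_zeta_ne_zero D
  have hemb0 : ∀ (c : X) (f : F), f ≠ 0 → D.emb c f ≠ 0 := fun c f hf =>
    (map_ne_zero (D.emb c)).mpr hf
  refine Fermat.Agent.P2.helper28.local_count_sep (K := K) (F := F) (L := LaurentSeries ℂ) y
    (helper75.ff_finite_zeros y hy) (helper75.ff_sum_ord_zeros y hy)
    (fun w s hw => helper75.ff_exists_separating y hy w s hw)
    (Valued.v : Valuation (LaurentSeries ℂ) ℤᵐ⁰) D.emb D.emb_injective
    hcard ?_ ?_ D.emb_y D.E D.E_pos ?_ D.π ?_ ?_ ?_
  · intro i c hc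
    rw [D.emb_algebraMap]
    exact helper80.laurent_valuation_C ((map_ne_zero ι).mpr hc)
  · intro i j c
    rw [D.emb_algebraMap, D.emb_algebraMap]
  · intro i
    rw [helper80.laurent_valuation_eq_exp_neg_order (hemb0 i y hy0), D.order_y]
  · ext c
    apply D.emb_injective
    ext1 f
    rw [helper80.led_emb_pow, D.hζ.pow_eq_one, helper80.rotL_one]
    rfl
  · intro i f
    rw [D.rot]
    exact helper80.valuation_rotL hζ0 _
  · intro i k hk hfix f hf
    have hk0 : k ≠ 0 := by
      rintro rfl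
      have := Nat.eq_zero_of_zero_dvd hk
      exact absurd this (Nat.pos_iff_ne_zero.mp D.E_pos)
    have hprim : IsPrimitiveRoot (D.ζ ^ (D.E / k)) k :=
      D.hζ.pow D.E_pos (Nat.div_mul_cancel hk).symm
    have hinv : rotL (D.ζ ^ (D.E / k)) (D.emb i f) = D.emb i f := by
      rw [← helper80.led_emb_pow, hfix]
    obtain ⟨m, hm⟩ := helper80.dvd_order_of_rotL_eq hprim (hemb0 i f hf) hinv
    refine ⟨-m, ?_⟩
    rw [helper80.laurent_valuation_eq_exp_neg_order (hemb0 i f hf), hm]
    congr 1
    ring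

end Generic

/-! ## The cusp dictionary of a generator system -/

section Gen

variable {D : GenData}

theorem finite_X (hD : D.IsSys) : Finite D.X := by
  haveI := Fermat.Agent.T4.helper77.finiteIndex_of_isSys D hD
  exact Subgroup.finite_quotient_of_finiteIndex

theorem transcendental_xJ (hD : D.IsSys) : Transcendental Kbar (D.xJ Kbar) :=
  (Fermat.Agent.T4.helper77.deg_of D hD).1.1

theorem finiteDimensional_xJ (hD : D.IsSys) :
    FiniteDimensional Kbar⟮D.xJ Kbar⟯ (D.field Kbar) :=
  (Fermat.Agent.T4.helper77.deg_of D hD).1.2.choose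

theorem finrank_xJ (hD : D.IsSys) :
    Module.finrank Kbar⟮D.xJ Kbar⟯ (D.field Kbar) = Nat.card D.X :=
  (Fermat.Agent.T4.helper77.deg_of D hD).1.2.choose_spec

theorem xJ_ne_zero (hD : D.IsSys) : D.xJ Kbar ≠ 0 := by
  intro h
  apply transcendental_xJ hD
  rw [h]
  exact isAlgebraic_zero

variable (hD : D.IsSys) (W : ℕ) [NeZero W] (hW : Gamma W ≤ D.Γ)

/-- the cusp dictionary, raw form -/
theorem exists_cuspDict1 :
    ∃ (Wp : D.X → Place Kbar (D.field Kbar)) (d : D.X → ℕ),
      (∀ i, 0 < (Wp i).ord (D.xJ Kbar)⁻¹) ∧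
      (∀ w : Place Kbar (D.field Kbar), 0 < w.ord (D.xJ Kbar)⁻¹ → ∃ i, Wp i = w) ∧
      (∀ i j, Wp i = Wp j ↔
        j ∈ MulAction.orbit (Subgroup.zpowers (cuspData1 hD W hW).π) i) ∧
      (∀ i, (Wp i).ord (D.xJ Kbar)⁻¹ =
        (Nat.card (MulAction.orbit (Subgroup.zpowers (cuspData1 hD W hW).π) i) : ℤ)) ∧
      (∀ i, d i * Nat.card (MulAction.orbit (Subgroup.zpowers (cuspData1 hD W hW).π) i)
        = (cuspData1 hD W hW).E) ∧
      (∀ i (f : D.field Kbar), f ≠ 0 →
        (Valued.v ((cuspData1 hD W hW).emb i f) : ℤᵐ⁰) = exp (-((d i : ℤ) * (Wp i).ord f))) ∧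
      (∀ i, (Wp i).toValuationSubring =
        ((Valued.v : Valuation (LaurentSeries ℂ) ℤᵐ⁰).comap
          ((cuspData1 hD W hW).emb i)).valuationSubring) ∧
      Nat.card {w : Place Kbar (D.field Kbar) // 0 < w.ord (D.xJ Kbar)⁻¹}
        = Nat.card (MulAction.orbitRel.Quotient
            (Subgroup.zpowers (cuspData1 hD W hW).π) D.X) := by
  classical
  haveI := finite_X hD
  letI : Fintype D.X := Fintype.ofFinite D.X
  haveI := finiteDimensional_xJ hD
  haveI : FiniteDimensional Kbar⟮(D.xJ Kbar)⁻¹⟯ (D.field Kbar) := by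
    rw [helper55.adjoin_inv_eq]; infer_instance
  refine led_dictionary (D.xJ Kbar)⁻¹ (helper55.transcendental_inv (transcendental_xJ hD))
    (cuspData1 hD W hW) ?_
  rw [helper55.adjoin_inv_eq, finrank_xJ hD, Nat.card_eq_fintype_card]

/-- **the place of a coset** (the cusp `g ∞`, `c = g D.Γ`) -/
def cuspPlace (c : D.X) : Place Kbar (D.field Kbar) := (exists_cuspDict1 hD W hW).choose c

/-- the multiplicity `W / (width of the cusp)` -/
def cuspMult (c : D.X) : ℕ := (exists_cuspDict1 hD W hW).choose_spec.choose c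

/-- the width of the cusp of a coset: the size of its `⟨T⟩`-orbit -/
def cuspWidth (D : GenData) (c : D.X) : ℕ :=
  Nat.card (MulAction.orbit (Subgroup.zpowers
    (MulAction.toPerm (ModularGroup.T : SL(2, ℤ)) : Equiv.Perm D.X)) c)

theorem cuspDict1_spec :
      (∀ i, 0 < (cuspPlace hD W hW i).ord (D.xJ Kbar)⁻¹) ∧
      (∀ w : Place Kbar (D.field Kbar), 0 < w.ord (D.xJ Kbar)⁻¹ →
        ∃ i, cuspPlace hD W hW i = w) ∧
      (∀ i j, cuspPlace hD W hW i = cuspPlace hD W hW j ↔
        j ∈ MulAction.orbit (Subgroup.zpowers (cuspData1 hD W hW).π) i) ∧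
      (∀ i, (cuspPlace hD W hW i).ord (D.xJ Kbar)⁻¹ =
        (Nat.card (MulAction.orbit (Subgroup.zpowers (cuspData1 hD W hW).π) i) : ℤ)) ∧
      (∀ i, cuspMult hD W hW i *
          Nat.card (MulAction.orbit (Subgroup.zpowers (cuspData1 hD W hW).π) i)
        = (cuspData1 hD W hW).E) ∧
      (∀ i (f : D.field Kbar), f ≠ 0 →
        (Valued.v ((cuspData1 hD W hW).emb i f) : ℤᵐ⁰) =
          exp (-((cuspMult hD W hW i : ℤ) * (cuspPlace hD W hW i).ord f))) ∧
      (∀ i, (cuspPlace hD W hW i).toValuationSubring =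
        ((Valued.v : Valuation (LaurentSeries ℂ) ℤᵐ⁰).comap
          ((cuspData1 hD W hW).emb i)).valuationSubring) ∧
      Nat.card {w : Place Kbar (D.field Kbar) // 0 < w.ord (D.xJ Kbar)⁻¹}
        = Nat.card (MulAction.orbitRel.Quotient
            (Subgroup.zpowers (cuspData1 hD W hW).π) D.X) :=
  (exists_cuspDict1 hD W hW).choose_spec.choose_spec

/-- the poles of `j` are the places of the cosets -/
theorem ord_xJ_cuspPlace_neg (c : D.X) : (cuspPlace hD W hW c).ord (D.xJ Kbar) < 0 := by
  have h := (cuspDict1_spec hD W hW).1 c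
  rw [Place.ord_inv] at h
  omega

theorem exists_cuspPlace_eq (w : Place Kbar (D.field Kbar)) (hw : w.ord (D.xJ Kbar) < 0) :
    ∃ c, cuspPlace hD W hW c = w := by
  apply (cuspDict1_spec hD W hW).2.1 w
  rw [Place.ord_inv]
  omega

/-- two cosets induce the same place iff they are in the same `⟨T⟩`-orbit -/
theorem cuspPlace_eq_iff (c c' : D.X) :
    cuspPlace hD W hW c = cuspPlace hD W hW c' ↔
      c' ∈ MulAction.orbit (Subgroup.zpowers
        (MulAction.toPerm (ModularGroup.T : SL(2, ℤ)) : Equiv.Perm D.X)) c :=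
  (cuspDict1_spec hD W hW).2.2.1 c c'

theorem mem_orbit_toPerm_iff (c c' : D.X) :
    c' ∈ MulAction.orbit (Subgroup.zpowers
        (MulAction.toPerm (ModularGroup.T : SL(2, ℤ)) : Equiv.Perm D.X)) c ↔
      ∃ n : ℤ, (ModularGroup.T ^ n : SL(2, ℤ)) • c = c' := by
  have key : ∀ n : ℤ, ((MulAction.toPerm (ModularGroup.T : SL(2, ℤ)) : Equiv.Perm D.X) ^ n)
      = MulAction.toPerm ((ModularGroup.T : SL(2, ℤ)) ^ n) := fun n =>
    (map_zpow (MulAction.toPermHom SL(2, ℤ) D.X) ModularGroup.T n).symm
  constructor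
  · rintro ⟨⟨p, hp⟩, rfl⟩
    obtain ⟨n, rfl⟩ := Subgroup.mem_zpowers_iff.mp hp
    refine ⟨n, ?_⟩
    show _ = ((MulAction.toPerm (ModularGroup.T : SL(2, ℤ)) : Equiv.Perm D.X) ^ n) c
    rw [key]
    rfl
  · rintro ⟨n, rfl⟩
    refine ⟨⟨(MulAction.toPerm (ModularGroup.T : SL(2, ℤ)) : Equiv.Perm D.X) ^ n,
      Subgroup.zpow_mem_zpowers _ n⟩, ?_⟩
    show ((MulAction.toPerm (ModularGroup.T : SL(2, ℤ)) : Equiv.Perm D.X) ^ n) c = _
    rw [key]
    rfl

/-- the order of `j` at the place of a coset is minus the width of the cusp -/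
theorem ord_xJ_cuspPlace (c : D.X) :
    (cuspPlace hD W hW c).ord (D.xJ Kbar) = -(cuspWidth D c : ℤ) := by
  have h := (cuspDict1_spec hD W hW).2.2.2.1 c
  rw [Place.ord_inv] at h
  have e : Nat.card (MulAction.orbit (Subgroup.zpowers (cuspData1 hD W hW).π) c)
      = cuspWidth D c := rfl
  rw [e] at h
  omega

theorem cuspMult_mul_cuspWidth (c : D.X) : cuspMult hD W hW c * cuspWidth D c = W :=
  (cuspDict1_spec hD W hW).2.2.2.2.1 c

include hD hW in
theorem cuspWidth_pos (c : D.X) : 0 < cuspWidth D c := by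
  have h := cuspMult_mul_cuspWidth hD W hW c
  rcases Nat.eq_zero_or_pos (cuspWidth D c) with h0 | h0
  · rw [h0, mul_zero] at h
    exact absurd h.symm (NeZero.ne W)
  · exact h0

theorem cuspMult_pos (c : D.X) : 0 < cuspMult hD W hW c := by
  have h := cuspMult_mul_cuspWidth hD W hW c
  rcases Nat.eq_zero_or_pos (cuspMult hD W hW c) with h0 | h0
  · rw [h0, zero_mul] at h
    exact absurd h.symm (NeZero.ne W)
  · exact h0

/-- **the order of a coset expansion**: `order (embG1 g f) = d · ord_{cusp} f` -/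
theorem order_embG1 (g : SL(2, ℤ)) (f : D.field Kbar) (hf : f ≠ 0) :
    (embG1 hD W hW g f).order =
      (cuspMult hD W hW (QuotientGroup.mk g) : ℤ) *
        (cuspPlace hD W hW (QuotientGroup.mk g)).ord f := by
  have h := (cuspDict1_spec hD W hW).2.2.2.2.2.1 (QuotientGroup.mk g) f hf
  rw [cuspData1_emb_mk] at h
  have hne : embG1 hD W hW g f ≠ 0 := (map_ne_zero _).mpr hf
  rw [helper80.laurent_valuation_eq_exp_neg_order hne, exp_inj] at h
  omega

/-- regularity at the place of a coset in terms of the coset expansion -/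
theorem ord_cuspPlace_nonneg_iff (g : SL(2, ℤ)) (f : D.field Kbar) (hf : f ≠ 0) :
    0 ≤ (cuspPlace hD W hW (QuotientGroup.mk g)).ord f ↔ 0 ≤ (embG1 hD W hW g f).order := by
  rw [order_embG1 hD W hW g f hf]
  have hd : (0 : ℤ) < cuspMult hD W hW (QuotientGroup.mk g) := by
    exact_mod_cast cuspMult_pos hD W hW _
  constructor
  · intro h
    exact mul_nonneg hd.le h
  · intro h
    by_contra hcon
    have : (cuspMult hD W hW (QuotientGroup.mk g) : ℤ) *
        (cuspPlace hD W hW (QuotientGroup.mk g)).ord f < 0 :=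
      mul_neg_of_pos_of_neg hd (not_le.mp hcon)
    omega

theorem cuspPlace_valuationSubring (g : SL(2, ℤ)) :
    (cuspPlace hD W hW (QuotientGroup.mk g)).toValuationSubring =
      ((Valued.v : Valuation (LaurentSeries ℂ) ℤᵐ⁰).comap (embG1 hD W hW g)).valuationSubring := by
  have h := (cuspDict1_spec hD W hW).2.2.2.2.2.2.1 (QuotientGroup.mk g)
  rw [cuspData1_emb_mk] at h
  exact h

include hD hW in
/-- **the number of poles of `j`** is the number of `⟨T⟩`-orbits on the cosets -/
theorem card_poles1 :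
    Nat.card {w : Place Kbar (D.field Kbar) // w.ord (D.xJ Kbar) < 0}
      = Nat.card (MulAction.orbitRel.Quotient (Subgroup.zpowers (ModularGroup.T : SL(2, ℤ)))
          D.X) := by
  have h := (cuspDict1_spec hD W hW).2.2.2.2.2.2.2
  rw [cuspData1_π, helper80.card_orbits_of_eq_toPerm _ ModularGroup.T (Or.inl rfl)] at h
  refine Eq.trans ?_ h
  refine Nat.card_congr (Equiv.subtypeEquivRight fun w => ?_)
  rw [Place.ord_inv]
  omega

end Gen

/-! ## The place at infinity -/

section Infty

theorem order_eq_of_coeff1 {R : Type*} [Zero R] {x : LaurentSeries R} {n : ℤ}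
    (hn : x.coeff n ≠ 0) (hlt : ∀ m : ℤ, m < n → x.coeff m = 0) : x.order = n := by
  have hx : x ≠ 0 := by
    rintro rfl
    exact hn rfl
  apply le_antisymm (HahnSeries.order_le_of_coeff_ne_zero hn)
  by_contra hcon
  exact hx (HahnSeries.coeff_order_eq_zero.mp (hlt _ (not_le.mp hcon)))

theorem order_qExpand1 {K : Type*} [Field K] (r : ℕ) [NeZero r] (x : LaurentSeries K) :
    (qExpand K r x).order = r * x.order := by
  rcases eq_or_ne x 0 with rfl | hx
  · simp
  · have hr : (0 : ℤ) < r := by exact_mod_cast Nat.pos_of_ne_zero (NeZero.ne r)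
    apply order_eq_of_coeff1
    · rw [qExpand_coeff_mul]
      exact fun h0 => hx (HahnSeries.coeff_order_eq_zero.mp h0)
    · intro k hk
      by_cases hd : (r : ℤ) ∣ k
      · obtain ⟨j, rfl⟩ := hd
        rw [qExpand_coeff_mul]
        exact HahnSeries.coeff_eq_zero_of_lt_order (lt_of_mul_lt_mul_left hk hr.le)
      · exact qExpand_coeff_of_not_dvd r x hd

theorem order_toC (x : LaurentSeries Kbar) : (helper17.toC x).order = x.order := by
  rcases eq_or_ne x 0 with rfl | hx
  · simp
  · apply order_eq_of_coeff1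
    · rw [helper17.toC_coeff]
      intro h
      exact hx (HahnSeries.coeff_order_eq_zero.mp
        ((iotaC : Kbar →+* ℂ).injective (h.trans (map_zero _).symm)))
    · intro m hm
      rw [helper17.toC_coeff, HahnSeries.coeff_eq_zero_of_lt_order hm, map_zero]

variable {D : GenData} (hD : D.IsSys) (W : ℕ) [NeZero W] (hW : Gamma W ≤ D.Γ)

/-- the order of the expansion at the identity coset is `W` times the `q`-order -/
theorem order_embG1_one (f : D.field Kbar) :
    (embG1 hD W hW 1 f).order = (W : ℤ) * (f : LaurentSeries Kbar).order := by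
  rw [embG1_one, order_qExpand1, order_toC]

/-- the identity coset -/
def oneX (D : GenData) : D.X := QuotientGroup.mk 1

theorem mk_eq_oneX_iff (g : SL(2, ℤ)) : (QuotientGroup.mk g : D.X) = oneX D ↔ g ∈ D.Γ := by
  unfold oneX
  rw [QuotientGroup.eq]
  constructor
  · intro h
    have := inv_mem h
    simpa using this
  · intro h
    have := inv_mem h
    simpa using this

theorem T_zpow_smul_oneX (hT : (ModularGroup.T : SL(2, ℤ)) ∈ D.Γ) (n : ℤ) :
    (ModularGroup.T ^ n : SL(2, ℤ)) • oneX D = oneX D := by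
  show (QuotientGroup.mk ((ModularGroup.T ^ n : SL(2, ℤ)) * 1) : D.X) = oneX D
  rw [mul_one, mk_eq_oneX_iff]
  exact zpow_mem hT n

theorem cuspWidth_oneX (hT : (ModularGroup.T : SL(2, ℤ)) ∈ D.Γ) : cuspWidth D (oneX D) = 1 := by
  unfold cuspWidth
  have h : MulAction.orbit (Subgroup.zpowers
      (MulAction.toPerm (ModularGroup.T : SL(2, ℤ)) : Equiv.Perm D.X)) (oneX D) = {oneX D} := by
    ext c
    rw [mem_orbit_toPerm_iff, Set.mem_singleton_iff]
    constructor
    · rintro ⟨n, rfl⟩
      exact T_zpow_smul_oneX hT n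
    · rintro rfl
      exact ⟨0, by simp⟩
  rw [h]
  simp

/-- **the place of the identity coset is the place at infinity** (if `T ∈ Γ`) -/
theorem isInfty_cuspPlace_oneX (hT : (ModularGroup.T : SL(2, ℤ)) ∈ D.Γ) :
    Fermat.Agent.P2.helper29.IsInfty (cuspPlace hD W hW (oneX D)) := by
  intro f hf
  have h1 := order_embG1 hD W hW 1 f hf
  rw [order_embG1_one] at h1
  have h2 := cuspMult_mul_cuspWidth hD W hW (oneX D)
  rw [cuspWidth_oneX hT, mul_one] at h2
  have e : (QuotientGroup.mk (1 : SL(2, ℤ)) : D.X) = oneX D := rfl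
  rw [e, h2] at h1
  have hW0 : (W : ℤ) ≠ 0 := by exact_mod_cast NeZero.ne W
  exact (mul_left_cancel₀ hW0 h1).symm

/-- a place at infinity is unique -/
theorem eq_of_isInfty {K : Type*} [Field K] {E : IntermediateField K (LaurentSeries K)}
    {P Q : Place K E} (hP : Fermat.Agent.P2.helper29.IsInfty P)
    (hQ : Fermat.Agent.P2.helper29.IsInfty Q) : P = Q := by
  apply Place.ext
  ext f
  rw [helper75.place_mem_iff_ord_nonneg, helper75.place_mem_iff_ord_nonneg]
  rcases eq_or_ne f 0 with rfl | hf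
  · simp
  · rw [hP f hf, hQ f hf]

/-- only the identity coset induces the place at infinity -/
theorem eq_oneX_of_isInfty (hT : (ModularGroup.T : SL(2, ℤ)) ∈ D.Γ) (c : D.X)
    (hc : Fermat.Agent.P2.helper29.IsInfty (cuspPlace hD W hW c)) : c = oneX D := by
  have h := eq_of_isInfty (isInfty_cuspPlace_oneX hD W hW hT) hc
  rw [cuspPlace_eq_iff, mem_orbit_toPerm_iff] at h
  obtain ⟨n, hn⟩ := h
  rw [← hn]
  exact T_zpow_smul_oneX hT n

theorem isInfty_cuspPlace_iff (hT : (ModularGroup.T : SL(2, ℤ)) ∈ D.Γ) (c : D.X) :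
    Fermat.Agent.P2.helper29.IsInfty (cuspPlace hD W hW c) ↔ c = oneX D :=
  ⟨eq_oneX_of_isInfty hD W hW hT c, fun h => h ▸ isInfty_cuspPlace_oneX hD W hW hT⟩

/-- **regularity off infinity in terms of the coset expansions**: an element of `L(n ∞)` has
expansions without poles at all cosets different from the identity coset. -/
theorem order_embG1_nonneg_of_inL (hT : (ModularGroup.T : SL(2, ℤ)) ∈ D.Γ) {n : ℤ}
    {f : LaurentSeries Kbar} (h : Fermat.Agent.P2.helper29.InL (D.field Kbar) n f)
    (g : SL(2, ℤ)) (hg : g ∉ D.Γ) :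
    0 ≤ (embG1 hD W hW g ⟨f, h.choose⟩).order := by
  obtain ⟨hf, hreg, -⟩ := h
  rcases eq_or_ne (⟨f, hf⟩ : D.field Kbar) 0 with h0 | h0
  · rw [h0, map_zero]
    simp
  · rw [← ord_cuspPlace_nonneg_iff hD W hW g _ h0]
    apply hreg
    intro hI
    exact hg ((mk_eq_oneX_iff g).mp (eq_oneX_of_isInfty hD W hW hT _ hI))

/-- the poles of `j` other than the place at infinity are the places of the cosets
`g ∉ D.Γ` -/
theorem exists_cuspPlace_of_not_isInfty (hT : (ModularGroup.T : SL(2, ℤ)) ∈ D.Γ)
    (w : Place Kbar (D.field Kbar)) (hw : w.ord (D.xJ Kbar) < 0)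
    (hI : ¬ Fermat.Agent.P2.helper29.IsInfty w) :
    ∃ g : SL(2, ℤ), g ∉ D.Γ ∧ cuspPlace hD W hW (QuotientGroup.mk g) = w := by
  obtain ⟨c, rfl⟩ := exists_cuspPlace_eq hD W hW w hw
  obtain ⟨g, rfl⟩ := QuotientGroup.mk_surjective c
  refine ⟨g, fun hg => hI ?_, rfl⟩
  rw [(mk_eq_oneX_iff g).mpr hg]
  exact isInfty_cuspPlace_oneX hD W hW hT

end Infty

end Fermat.Agent.T4.helper37c
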