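/-
T4 block (I), I-RED [RED-CUSP1] (helper76), part 1: the GENERIC cusp dictionary.

For a field `F ⊆ K((q))` containing `j` (`K` algebraically closed) and a finite family of
"coset expansions" `emb i : F →+* C((t))` (`t = q^(1/W)`) which

* are pairwise distinct, as many as `[F : K(j)]`,
* agree on the constants and map `j` to `j(t^W)`,
* are permuted by a permutation `π` acting as the rotation `t ↦ ζ t` (`ζ` of order `W`),
* contain the formal expansion `q ↦ t^W` (index `i₀`),

the places of `F` over `j = ∞` are the places induced by the `emb i`, two indices inducing the same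
place iff they are in the same `π`-orbit, and the place at infinity is induced by `i₀` only
(`CosetEmb.dict`, `CosetEmb.isInfty_iff`, `CosetEmb.card_poles`).

Consequences, for a pair `(E, Eb)` in the vocabulary of `helper4_RedDefs`:

* `cuspBar_of`      : `helper4.CuspBarStatement` from coset data in both characteristics;
* `cuspReg_of_key`  : `helper4.CuspRegStatement` from coset data of the special fibre and the
                      regularity of the reduced coset expansions (`KeyStatement`).

This is the abstract form of `P2/helper28_CuspL.cusp_dictionary`, `P2/helper28_CuspBar` and of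
the last step of `P2/helper81_CuspReg`; no property of `X₀` is used.
-/
import Mathlib
import Fermat.Agent.T4.helper4_RedDefs
import Fermat.Agent.P2.helper28_CuspBar
import Fermat.Agent.P2.helper28_CuspOrd

set_option autoImplicit false
set_option linter.unusedSectionVars false
set_option linter.style.haveILetI false
set_option synthInstance.maxHeartbeats 400000

noncomputable section

open HahnSeries IntermediateField AlgebraicCurve ModularCurve WithZero
open Fermat.Agent.S18.helper19 (Kb kA FF FFb)
open Fermat.Agent.P2.helper29 (incl red IsInfty InL)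

namespace Fermat.Agent.T4.helper76

open Fermat.Agent.P2

/-! ### Small generalities -/

section Small

variable {K F : Type*} [Field K] [Field F] [Algebra K F]

theorem adjoin_inv_eq (x : F) : K⟮x⁻¹⟯ = K⟮x⟯ := by
  apply le_antisymm
  · rw [adjoin_simple_le_iff]
    exact inv_mem (mem_adjoin_simple_self K x)
  · rw [adjoin_simple_le_iff]
    have h := inv_mem (mem_adjoin_simple_self K (x⁻¹))
    rwa [inv_inv] at h

theorem finrank_eq_of_eq {S T : IntermediateField K F} (h : S = T) :
    Module.finrank S F = Module.finrank T F := by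
  subst h
  rfl

theorem finiteDimensional_of_eq {S T : IntermediateField K F} (h : S = T)
    [FiniteDimensional S F] : FiniteDimensional T F := by
  subst h
  infer_instance

theorem isSeparable_of_eq {S T : IntermediateField K F} (h : S = T)
    [Algebra.IsSeparable S F] : Algebra.IsSeparable T F := by
  subst h
  infer_instance

/-- two places with the same order function are equal -/
theorem place_eq_of_ord_eq {P Q : Place K F} (h : ∀ f : F, P.ord f = Q.ord f) : P = Q := by
  apply Place.ext
  ext f
  rw [helper95.place_mem_iff_ord_nonneg, helper95.place_mem_iff_ord_nonneg, h]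

end Small

section LaurentVal

variable {k : Type*} [Field k]

theorem valued_le_one_iff' (x : LaurentSeries k) :
    (Valued.v x : ℤᵐ⁰) ≤ 1 ↔ ∀ n : ℤ, n < 0 → x.coeff n = 0 := by
  have h := LaurentSeries.valuation_le_iff_coeff_lt_eq_zero k (D := 0) (f := x)
  rw [neg_zero, WithZero.exp_zero] at h
  exact h

theorem order_nonneg_of_coeff' {x : LaurentSeries k} (h : ∀ n : ℤ, n < 0 → x.coeff n = 0) :
    0 ≤ x.order := by
  rcases eq_or_ne x 0 with rfl | hx
  · simp
  by_contra hlt
  exact (HahnSeries.coeff_order_eq_zero.not.mpr hx) (h _ (not_le.mp hlt))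

theorem coeff_eq_zero_of_order_nonneg {x : LaurentSeries k} (h : 0 ≤ x.order) (n : ℤ)
    (hn : n < 0) : x.coeff n = 0 :=
  HahnSeries.coeff_eq_zero_of_lt_order (lt_of_lt_of_le hn h)

theorem order_qExpand_mul'' (N : ℕ) [NeZero N] (y : LaurentSeries k) :
    (qExpand k N y).order = (N : ℤ) * y.order := by
  by_cases hy : y = 0
  · rw [hy, map_zero]
    simp
  apply Fermat.Agent.S28.helper81.order_eq_of_coeff
  · rw [qExpand_coeff_mul]
    exact fun h => hy (HahnSeries.coeff_order_eq_zero.mp h)
  · intro m hm
    by_cases hd : (N : ℤ) ∣ m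
    · obtain ⟨c, rfl⟩ := hd
      rw [qExpand_coeff_mul]
      apply HahnSeries.coeff_eq_zero_of_lt_order
      have hNpos : (0 : ℤ) < N := by exact_mod_cast Nat.pos_of_ne_zero (NeZero.ne N)
      exact lt_of_mul_lt_mul_left hm hNpos.le
    · exact qExpand_coeff_of_not_dvd N y hd

end LaurentVal

/-! ### Coset expansions -/

/-- `j` as an element of a field of `q`-series containing it -/
def jElt {K : Type*} [Field K] (F : IntermediateField K (LaurentSeries K))
    (hj : jqModC K ∈ F) : F := ⟨jqModC K, hj⟩

/-- **Coset expansions** of a field `F ⊆ K((q))` containing `j`, with values in `C((t))`,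
`t = q^(1/W)`. -/
structure CosetEmb {K : Type*} [Field K] (F : IntermediateField K (LaurentSeries K))
    (hj : jqModC K ∈ F) (C : Type*) [Field C] (ι : K →+* C) where
  /-- the index set (cosets) -/
  I : Type
  /-- the index set is finite -/
  instFintype : Fintype I
  /-- the index of the formal expansion -/
  i₀ : I
  /-- the width: `t = q^(1/W)` -/
  W : ℕ
  /-- the width is nonzero -/
  instNeZero : NeZero W
  /-- the expansions -/
  emb : I → F →+* LaurentSeries C
  emb_inj : Function.Injective emb
  emb_const : ∀ (i : I) (c : K), emb i (algebraMap K F c) = HahnSeries.C (ι c)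
  emb_j : ∀ i : I, emb i (jElt F hj) = qExpand C W (jqModC C)
  emb_i₀ : ∀ y : F, emb i₀ y = qExpand C W (coeffMap ι (y : LaurentSeries K))
  /-- the root of unity of the rotation -/
  ζ : Cˣ
  hζ : orderOf ζ = W
  /-- the permutation induced by the rotation -/
  π : Equiv.Perm I
  emb_π : ∀ (i : I) (y : F), emb (π i) y = helper94.rot ζ (emb i y)
  /-- there are as many expansions as the degree over `K(j)` -/
  card_eq : Fintype.card I = Module.finrank K⟮jElt F hj⟯ F

attribute [instance] CosetEmb.instFintype CosetEmb.instNeZero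

namespace CosetEmb

variable {K : Type*} [Field K] {F : IntermediateField K (LaurentSeries K)}
  {hj : jqModC K ∈ F} {C : Type*} [Field C] {ι : K →+* C} (D : CosetEmb F hj C ι)

/-- the local parameter `1 / j` of the base -/
def tEl (F : IntermediateField K (LaurentSeries K)) (hj : jqModC K ∈ F) : F := (jElt F hj)⁻¹

theorem jElt_ne_zero : jElt F hj ≠ 0 := by
  intro h0
  have h1 : ((jElt F hj : F) : LaurentSeries K) = 0 := by rw [h0]; rfl
  have h2 : jqModC K = 0 := h1
  have h3 := Fermat.Agent.S28.helper81.order_jqModC (R := K)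
  rw [h2, HahnSeries.order_zero] at h3
  omega

theorem order_coe_jElt : ((jElt F hj : F) : LaurentSeries K).order = -1 :=
  Fermat.Agent.S28.helper81.order_jqModC (R := K)

theorem transcendental_jElt : Transcendental K (jElt F hj) := by
  have h : Transcendental K (jqModC K) := by
    apply Fermat.Agent.S28.helper81.transcendental_of_order_neg
    have h3 := Fermat.Agent.S28.helper81.order_jqModC (R := K)
    omega
  intro halg
  apply h
  have := halg.algebraMap (A := LaurentSeries K)
  exact this

theorem transcendental_tEl : Transcendental K (tEl F hj) :=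
  Fermat.Agent.S24.helper55.transcendental_inv transcendental_jElt

theorem ord_tEl (w : Place K F) : w.ord (tEl F hj) = -w.ord (jElt F hj) := by
  rw [tEl, Place.ord_inv]

theorem qExpand_j_ne_zero : qExpand C D.W (jqModC C) ≠ 0 := by
  intro h0
  have := Fermat.Agent.S28.helper81.order_qExpand_jqModC C D.W
  rw [h0, HahnSeries.order_zero] at this
  have hW : (0 : ℤ) < D.W := by exact_mod_cast Nat.pos_of_ne_zero (NeZero.ne D.W)
  omega

theorem emb_tEl (i : D.I) : D.emb i (tEl F hj) = (qExpand C D.W (jqModC C))⁻¹ := by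
  rw [tEl, map_inv₀, D.emb_j]

theorem emb_ne_zero (i : D.I) {f : F} (hf : f ≠ 0) : D.emb i f ≠ 0 :=
  (map_ne_zero (D.emb i)).mpr hf

theorem zeta_pow : D.ζ ^ D.W = 1 := by
  rw [← D.hζ]
  exact pow_orderOf_eq_one D.ζ

theorem emb_pow_rot (m : ℕ) (i : D.I) (y : F) :
    D.emb ((D.π ^ m) i) y = helper94.rot (D.ζ ^ m) (D.emb i y) := by
  induction m generalizing i with
  | zero => simp [helper94.rot_one]
  | succ m ih =>
    rw [pow_succ', Equiv.Perm.mul_apply, D.emb_π, ih, helper94.rot_rot, pow_succ']

theorem pi_pow_W : D.π ^ D.W = 1 := by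
  ext i
  apply D.emb_inj
  ext y
  rw [emb_pow_rot, zeta_pow, helper94.rot_one]
  rfl

/-- the formal expansion is fixed by the rotation -/
theorem pi_i₀ : D.π D.i₀ = D.i₀ := by
  apply D.emb_inj
  ext1 y
  rw [D.emb_π, D.emb_i₀]
  ext n
  rw [helper94.rot_coeff]
  by_cases hn : (D.W : ℤ) ∣ n
  · obtain ⟨m, rfl⟩ := hn
    have h1 : (D.ζ ^ ((D.W : ℤ) * m) : Cˣ) = 1 := by
      rw [zpow_mul, zpow_natCast, zeta_pow, one_zpow]
    rw [h1, Units.val_one, one_mul]
  · rw [qExpand_coeff_of_not_dvd (hk := hn), mul_zero]

theorem orbit_i₀ (i : D.I) (h : i ∈ MulAction.orbit (Subgroup.zpowers D.π) D.i₀) :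
    i = D.i₀ := by
  obtain ⟨⟨g, hg⟩, rfl⟩ := h
  obtain ⟨n, rfl⟩ := Subgroup.mem_zpowers_iff.mp hg
  show (D.π ^ n) D.i₀ = D.i₀
  have h1 : ∀ m : ℕ, (D.π ^ m) D.i₀ = D.i₀ := by
    intro m
    induction m with
    | zero => simp
    | succ m ih => rw [pow_succ, Equiv.Perm.mul_apply, D.pi_i₀, ih]
  rcases Int.eq_nat_or_neg n with ⟨m, rfl | rfl⟩
  · rw [zpow_natCast]
    exact h1 m
  · rw [zpow_neg, zpow_natCast, Equiv.Perm.inv_eq_iff_eq]
    exact (h1 m).symm

variable [IsAlgClosed K]

include D in
theorem finiteDimensional_j : FiniteDimensional K⟮jElt F hj⟯ F := by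
  apply FiniteDimensional.of_finrank_pos
  rw [← D.card_eq]
  exact Fintype.card_pos_iff.mpr ⟨D.i₀⟩

include D in
theorem finiteDimensional_t : FiniteDimensional K⟮tEl F hj⟯ F := by
  haveI := D.finiteDimensional_j
  exact finiteDimensional_of_eq (adjoin_inv_eq (K := K) (jElt F hj)).symm

theorem card_eq_t : Fintype.card D.I = Module.finrank K⟮tEl F hj⟯ F := by
  rw [D.card_eq]
  exact finrank_eq_of_eq (adjoin_inv_eq (K := K) (jElt F hj)).symm

theorem emb_comp_algebraMap (i j : D.I) :
    (D.emb i).comp (algebraMap (K⟮tEl F hj⟯) F) =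
      (D.emb j).comp (algebraMap (K⟮tEl F hj⟯) F) :=
  Fermat.Agent.S24.helper43.comp_algebraMap_adjoin_eq
    (fun c => by rw [D.emb_const, D.emb_const])
    (by rw [emb_tEl, emb_tEl])

include D in
theorem isSeparable_t : Algebra.IsSeparable K⟮tEl F hj⟯ F := by
  haveI := D.finiteDimensional_t
  exact helper28.isSeparable_of_card_eq D.emb D.emb_inj D.card_eq_t
    ((D.emb D.i₀).comp (algebraMap (K⟮tEl F hj⟯) F))
    (fun i => D.emb_comp_algebraMap i D.i₀)

/-- the cusp dictionary for abstract coset expansions (without the place at infinity) -/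
theorem dict₀ :
    ∃ (Wp : D.I → Place K F) (d : D.I → ℕ),
      (∀ i, (Wp i).ord (jElt F hj) < 0) ∧
      (∀ w : Place K F, w.ord (jElt F hj) < 0 → ∃ i, Wp i = w) ∧
      (∀ i j, Wp i = Wp j ↔ j ∈ MulAction.orbit (Subgroup.zpowers D.π) i) ∧
      (∀ i, d i * Nat.card (MulAction.orbit (Subgroup.zpowers D.π) i) = D.W) ∧
      (∀ i (f : F), f ≠ 0 →
        (Valued.v (D.emb i f) : ℤᵐ⁰) = exp (-((d i : ℤ) * (Wp i).ord f))) ∧
      (∀ i, (Wp i).toValuationSubring =
        ((Valued.v : Valuation (LaurentSeries C) ℤᵐ⁰).comap (D.emb i)).valuationSubring) ∧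
      Nat.card {w : Place K F // w.ord (jElt F hj) < 0}
        = Nat.card (MulAction.orbitRel.Quotient (Subgroup.zpowers D.π) D.I) := by
  haveI := D.finiteDimensional_t
  haveI := D.isSeparable_t
  have htr : Transcendental K (tEl F hj) := transcendental_tEl
  have hW : 0 < D.W := Nat.pos_of_ne_zero (NeZero.ne D.W)
  obtain ⟨Wp, d, h1, h2, h3, -, h5, h6, h7, h8⟩ :=
    helper28.local_count_sep (K := K) (F := F) (tEl F hj)
      (helper95.ffl_finite_zeros (tEl F hj) htr)
      (helper95.ffl_sum_ord_zeros (tEl F hj) htr)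
      (fun w s hw => Fermat.Agent.S24.helper82.ff_exists_separating (tEl F hj) htr w s hw)
      (Valued.v : Valuation (LaurentSeries C) ℤᵐ⁰)
      D.emb D.emb_inj D.card_eq_t
      (fun i c hc => by
        rw [D.emb_const]
        exact Fermat.Agent.S24.helper80.laurent_valuation_C ((map_ne_zero ι).mpr hc))
      (fun i j c => by rw [D.emb_const, D.emb_const])
      (fun i j => by rw [emb_tEl, emb_tEl])
      D.W hW
      (fun i => by
        rw [emb_tEl, map_inv₀,
          Fermat.Agent.S24.helper80.laurent_valuation_eq_exp_neg_order D.qExpand_j_ne_zero,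
          Fermat.Agent.S28.helper81.order_qExpand_jqModC, neg_neg, ← exp_neg])
      D.π D.pi_pow_W
      (fun i f => by rw [D.emb_π, helper28.valuation_rot])
      (fun i k' hk' hfix f hf => by
        have hy := D.emb_ne_zero i hf
        have hrot : helper94.rot (D.ζ ^ (D.W / k')) (D.emb i f) = D.emb i f := by
          rw [← emb_pow_rot, hfix]
        have h1 := helper28.zpow_order_eq_one_of_rot_eq _ hy hrot
        rw [← zpow_natCast, ← zpow_mul] at h1
        have h2 : (D.W : ℤ) ∣ ((D.W / k' : ℕ) : ℤ) * (D.emb i f).order := by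
          have h0 := orderOf_dvd_iff_zpow_eq_one.mpr h1
          rwa [D.hζ] at h0
        have hk'pos : 0 < k' := Nat.pos_of_dvd_of_pos hk' hW
        obtain ⟨c, hc⟩ := hk'
        have hcpos : 0 < c := by
          rcases Nat.eq_zero_or_pos c with h0 | h0
          · rw [h0, mul_zero] at hc
            exact absurd hc (NeZero.ne D.W)
          · exact h0
        have h3 : D.W / k' = c := by
          rw [hc, Nat.mul_div_cancel_left _ hk'pos]
        rw [h3] at h2
        have h4 : (k' : ℤ) ∣ (D.emb i f).order := by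
          have h5 : ((k' * c : ℕ) : ℤ) ∣ (c : ℤ) * (D.emb i f).order := by
            rw [← hc]
            exact h2
          push_cast at h5
          rw [mul_comm (k' : ℤ) (c : ℤ)] at h5
          exact (mul_dvd_mul_iff_left (by exact_mod_cast hcpos.ne')).mp h5
        obtain ⟨e, he⟩ := h4
        refine ⟨-e, ?_⟩
        rw [Fermat.Agent.S24.helper80.laurent_valuation_eq_exp_neg_order hy, he]
        congr 1
        ring)
  refine ⟨Wp, d, ?_, ?_, h3, h5, h6, h7, ?_⟩
  · intro i
    have := h1 i
    rw [ord_tEl] at this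
    omega
  · intro w hw
    apply h2
    rw [ord_tEl]
    omega
  · rw [← h8]
    refine Nat.card_congr (Equiv.subtypeEquivRight fun w => ?_)
    rw [ord_tEl]
    omega

/-- the number of poles of `j` is the number of orbits of the rotation -/
theorem card_poles :
    Nat.card {w : Place K F // w.ord (jElt F hj) < 0}
      = Nat.card (MulAction.orbitRel.Quotient (Subgroup.zpowers D.π) D.I) := by
  obtain ⟨-, -, -, -, -, -, -, -, h⟩ := D.dict₀
  exact h

include D in
theorem finite_poles : Finite {w : Place K F // w.ord (jElt F hj) < 0} := by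
  obtain ⟨Wp, -, h1, h2, -⟩ := D.dict₀
  have hsurj : Function.Surjective (fun i : D.I =>
      (⟨Wp i, h1 i⟩ : {w : Place K F // w.ord (jElt F hj) < 0})) := by
    rintro ⟨w, hw⟩
    obtain ⟨i, hi⟩ := h2 w hw
    exact ⟨i, Subtype.ext hi⟩
  exact Finite.of_surjective _ hsurj

theorem order_emb_i₀ (f : F) :
    (D.emb D.i₀ f).order = (D.W : ℤ) * (f : LaurentSeries K).order := by
  rw [D.emb_i₀, order_qExpand_mul'', helper28.order_coeffMap_of_injective ι ι.injective]

theorem card_orbit_i₀ : Nat.card (MulAction.orbit (Subgroup.zpowers D.π) D.i₀) = 1 := by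
  have h : MulAction.orbit (Subgroup.zpowers D.π) D.i₀ = {D.i₀} := by
    ext i
    constructor
    · intro hi
      exact D.orbit_i₀ i hi
    · rintro rfl
      exact MulAction.mem_orbit_self _
  rw [h]
  simp

/-- **The cusp dictionary** for abstract coset expansions: the places over `j = ∞` are induced
by the coset expansions, two indices induce the same place iff they are in the same orbit of the
rotation, and the place at infinity is induced by `i₀` only. -/
theorem dict :
    ∃ (Wp : D.I → Place K F),
      (∀ i, (Wp i).ord (jElt F hj) < 0) ∧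
      (∀ w : Place K F, w.ord (jElt F hj) < 0 → ∃ i, Wp i = w) ∧
      (∀ i j, Wp i = Wp j ↔ j ∈ MulAction.orbit (Subgroup.zpowers D.π) i) ∧
      (∀ i (f : F), 0 ≤ (Wp i).ord f ↔ ∀ n : ℤ, n < 0 → (D.emb i f).coeff n = 0) ∧
      (∀ i, IsInfty (Wp i) ↔ i = D.i₀) := by
  obtain ⟨Wp, d, h1, h2, h3, h5, h6, h7, -⟩ := D.dict₀
  have hW : (0 : ℤ) < D.W := by exact_mod_cast Nat.pos_of_ne_zero (NeZero.ne D.W)
  have hinf : IsInfty (Wp D.i₀) := by
    intro f hf
    have h := h6 D.i₀ f hf
    rw [Fermat.Agent.S24.helper80.laurent_valuation_eq_exp_neg_order (D.emb_ne_zero D.i₀ hf),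
      exp_inj, D.order_emb_i₀] at h
    have hd := h5 D.i₀
    rw [D.card_orbit_i₀, mul_one] at hd
    rw [hd] at h
    have h' : (D.W : ℤ) * (f : LaurentSeries K).order = (D.W : ℤ) * (Wp D.i₀).ord f := by
      linarith
    exact (mul_left_cancel₀ hW.ne' h').symm
  refine ⟨Wp, h1, h2, h3, ?_, ?_⟩
  · intro i f
    rw [← helper95.place_mem_iff_ord_nonneg, h7 i, Valuation.mem_valuationSubring_iff,
      Valuation.comap_apply, valued_le_one_iff']
  · intro i
    constructor
    · intro hi
      have heq : Wp D.i₀ = Wp i := by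
        apply place_eq_of_ord_eq
        intro f
        rcases eq_or_ne f 0 with rfl | hf
        · simp
        · rw [hinf f hf, hi f hf]
      exact D.orbit_i₀ i ((h3 D.i₀ i).mp heq)
    · rintro rfl
      exact hinf

end CosetEmb

/-! ### `[CUSP-BAR]` and `[CUSP-REG]` from coset expansions -/

section Statements

variable (A : ValuationSubring Kb) (E : IntermediateField Kb (LaurentSeries Kb))
  (Eb : IntermediateField (kA A) (LaurentSeries (kA A)))
  (hj : jqModC Kb ∈ E) (hjb : jqModC (kA A) ∈ Eb)

/-- **[CUSP-BAR]** from coset expansions in both characteristics: it suffices that the rotation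
has at most as many orbits in characteristic `ℓ` as in characteristic `0` (e.g. the same index
set and the same permutation). -/
theorem cuspBar_of {C : Type*} [Field C] {ι : Kb →+* C} (D0 : CosetEmb E hj C ι)
    {Cb : Type*} [Field Cb] {ιb : kA A →+* Cb} (Db : CosetEmb Eb hjb Cb ιb)
    (h : Nat.card (MulAction.orbitRel.Quotient (Subgroup.zpowers Db.π) Db.I) ≤
      Nat.card (MulAction.orbitRel.Quotient (Subgroup.zpowers D0.π) D0.I)) :
    helper4.CuspBarStatement A E Eb hj hjb := by
  classical
  have hfb : {w : Place (kA A) Eb | w.ord (jElt Eb hjb) < 0}.Finite :=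
    Set.finite_coe_iff.mp Db.finite_poles
  have hf0 : {w : Place Kb E | w.ord (jElt E hj) < 0}.Finite :=
    Set.finite_coe_iff.mp D0.finite_poles
  refine ⟨hfb.toFinset, hf0.toFinset, ?_, ?_, ?_⟩
  · intro Q hQ
    rw [Set.Finite.mem_toFinset]
    exact hQ
  · intro P hP
    rw [Set.Finite.mem_toFinset] at hP
    exact hP
  · have e1 : hfb.toFinset.card = Nat.card {w : Place (kA A) Eb // w.ord (jElt Eb hjb) < 0} := by
      rw [← Set.ncard_eq_toFinset_card _ hfb]
      rfl
    have e2 : hf0.toFinset.card = Nat.card {w : Place Kb E // w.ord (jElt E hj) < 0} := by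
      rw [← Set.ncard_eq_toFinset_card _ hf0]
      rfl
    rw [e1, e2, Db.card_poles, D0.card_poles]
    exact h

/-- **(KEY)** the reduced coset expansions of an integral function which is regular off infinity
have no negative powers of `t` at the cosets different from `i₀`. -/
def KeyStatement {Cb : Type*} [Field Cb] {ιb : kA A →+* Cb} (Db : CosetEmb Eb hjb Cb ιb) : Prop :=
  ∀ (n : ℤ) (Y : LaurentSeries A), InL E n (incl A Y) →
    ∀ (hmem : red A Y ∈ Eb) (i : Db.I), i ≠ Db.i₀ →
      ∀ m : ℤ, m < 0 → (Db.emb i ⟨red A Y, hmem⟩).coeff m = 0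

/-- **[CUSP-REG]** from the coset expansions of the special fibre and (KEY). -/
theorem cuspReg_of_key {Cb : Type*} [Field Cb] {ιb : kA A →+* Cb} (Db : CosetEmb Eb hjb Cb ιb)
    (hkey : KeyStatement A E Eb hjb Db) : helper4.CuspRegStatement A E Eb hjb := by
  intro n Y hInL hmem P hP hInf
  obtain ⟨Wp, -, h2, -, h4, h5⟩ := Db.dict
  obtain ⟨i, rfl⟩ := h2 P hP
  have hi : i ≠ Db.i₀ := fun h => hInf ((h5 i).mpr h)
  exact (h4 i ⟨red A Y, hmem⟩).mpr (hkey n Y hInL hmem i hi)

end Statements

end Fermat.Agent.T4.helper76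

end
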