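import Mathlib
import Fermat.Agent.T4.helper37_CuspDict1
import Fermat.Agent.T4.helper76_Cusp1Dict
import Fermat.Agent.T4.helper56_X1Field
import Fermat.Agent.T4.helper24_X1Inputs
import Fermat.Agent.T4.helper61_RedInfty

/-!
# T4 block (I), I-RED [RED-CUSP1], item (a) in characteristic `0` (helper37)

The coset expansions `embG1` of a generator system `(D, hD)` (file `helper37_Cusp1Gen`) form a
coset package in the sense of `helper76.CosetEmb` (file `helper76_Cusp1Dict`), with values in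
`ℂ((t))`:

* `cosetEmbOf hD W hW E hE hj : helper76.CosetEmb E hj ℂ iotaC` for any field `E` with
  `hE : E = D.field ℚ̄`; DEFINITIONALLY: index set `D.X = SL(2, ℤ) ⧸ D.Γ`, `i₀ = mk 1`, width
  `W`, rotation `π = toPerm T`, `ζ = zetaCusp1 W`, and `emb c ⟨f, _⟩ = embG1 (out c) ⟨f, _⟩`;
* `cosetEmbOf_emb_mk` : `emb (mk g) ⟨f, _⟩ = embG1 g ⟨f, _⟩`;
* `card_orbits_cosetEmbOf` : the number of orbits of the rotation is the number of
  `⟨T⟩`-orbits on `D.X`; `card_poles_cosetEmbOf`;
* `cosetEmb1 M hM` : the instance for `helper32.F1 M` (`7 ≤ M`), `W = M`, index set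
  `SL(2, ℤ) ⧸ ±Γ₁(M)`.
-/

set_option autoImplicit false
set_option linter.unusedSectionVars false
set_option linter.unusedVariables false
set_option linter.style.haveILetI false

noncomputable section

open UpperHalfPlane ModularCurve CongruenceSubgroup AlgebraicCurve IntermediateField
open scoped MatrixGroups

namespace Fermat.Agent.T4.helper37c

open Fermat.Agent.S24 Fermat.Agent.S24.helper37 Fermat.Agent.T4.helper24

/-! ### The root of unity as a unit -/

/-- `exp(-2πi/W)` as a unit of `ℂ` -/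
def zetaUnit1 (W : ℕ) [NeZero W] : ℂˣ :=
  Units.mk0 (CuspPack.zetaCusp1 W) CuspPack.zetaCusp1_ne_zero

@[simp] theorem coe_zetaUnit1 (W : ℕ) [NeZero W] :
    ((zetaUnit1 W : ℂˣ) : ℂ) = CuspPack.zetaCusp1 W := rfl

theorem orderOf_zetaUnit1 (W : ℕ) [NeZero W] : orderOf (zetaUnit1 W) = W := by
  have h : IsPrimitiveRoot (CuspPack.zetaCusp1 W) W := CuspPack.isPrimitiveRoot_zetaCusp1
  have h2 : IsPrimitiveRoot (zetaUnit1 W) W := by
    rw [← IsPrimitiveRoot.coe_units_iff]
    exact h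
  exact h2.eq_orderOf.symm

theorem rotL_eq_rot1 (u : ℂˣ) (s : LaurentSeries ℂ) :
    rotL (u : ℂ) s = Fermat.Agent.P2.helper94.rot u s := by
  ext n
  rw [rotL_coeff, Fermat.Agent.P2.helper94.rot_coeff, Units.val_zpow_eq_zpow_val]

/-! ### The package of a generator system -/

section Gen

variable {D : GenData} (hD : D.IsSys) (W : ℕ) [NeZero W] (hW : Gamma W ≤ D.Γ)

theorem coe_xJ1 (hD : D.IsSys) :
    ((D.xJ Kbar : D.field Kbar) : LaurentSeries Kbar) = jqModC Kbar := by
  show coeffEmb Kbar (D.serQ D.j0) = _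
  rw [hD.serQ_j0]
  exact helper17.coeffEmb_jq Kbar

theorem jElt_eq_xJ1 (hD : D.IsSys) (hj : jqModC Kbar ∈ D.field Kbar) :
    Fermat.Agent.T4.helper76.jElt (D.field Kbar) hj = D.xJ Kbar :=
  Subtype.ext (coe_xJ1 hD).symm

/-- the identification `E → D.field ℚ̄` for a field `E` equal to the field of the generator
system (no cast on types) -/
def toFieldOf (E : IntermediateField Kbar (LaurentSeries Kbar)) (hE : E = D.field Kbar) :
    E →+* D.field Kbar :=
  (IntermediateField.inclusion (le_of_eq hE)).toRingHom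

theorem coe_toFieldOf (E : IntermediateField Kbar (LaurentSeries Kbar)) (hE : E = D.field Kbar)
    (f : E) : ((toFieldOf E hE f : D.field Kbar) : LaurentSeries Kbar) = (f : LaurentSeries Kbar) :=
  rfl

theorem toFieldOf_mk (E : IntermediateField Kbar (LaurentSeries Kbar)) (hE : E = D.field Kbar)
    (f : LaurentSeries Kbar) (hf : f ∈ E) :
    toFieldOf E hE ⟨f, hf⟩ = ⟨f, hE ▸ hf⟩ := rfl

theorem toFieldOf_surjective (E : IntermediateField Kbar (LaurentSeries Kbar))
    (hE : E = D.field Kbar) : Function.Surjective (toFieldOf E hE) := by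
  intro y
  exact ⟨⟨y.1, hE.symm ▸ y.2⟩, rfl⟩

theorem toFieldOf_algebraMap (E : IntermediateField Kbar (LaurentSeries Kbar))
    (hE : E = D.field Kbar) (c : Kbar) :
    toFieldOf E hE (algebraMap Kbar E c) = algebraMap Kbar (D.field Kbar) c := rfl

theorem toFieldOf_jElt (hD : D.IsSys) (E : IntermediateField Kbar (LaurentSeries Kbar))
    (hE : E = D.field Kbar) (hj : jqModC Kbar ∈ E) :
    toFieldOf E hE (Fermat.Agent.T4.helper76.jElt E hj) = D.xJ Kbar :=
  Subtype.ext (coe_xJ1 hD).symm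

theorem finrank_jElt_of_eq (hD : D.IsSys) (E : IntermediateField Kbar (LaurentSeries Kbar))
    (hE : E = D.field Kbar) (hj : jqModC Kbar ∈ E) :
    Module.finrank Kbar⟮Fermat.Agent.T4.helper76.jElt E hj⟯ E = Nat.card D.X := by
  subst hE
  rw [jElt_eq_xJ1 hD hj, finrank_xJ hD]

/-- **the coset package in characteristic `0`** of a generator system, for a field `E` equal
to the field of the system. -/
def cosetEmbOf (E : IntermediateField Kbar (LaurentSeries Kbar)) (hE : E = D.field Kbar)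
    (hj : jqModC Kbar ∈ E) :
    Fermat.Agent.T4.helper76.CosetEmb E hj ℂ (iotaC : Kbar →+* ℂ) where
  I := D.X
  instFintype := haveI := finite_X hD; Fintype.ofFinite D.X
  i₀ := (QuotientGroup.mk (1 : SL(2, ℤ)) : D.X)
  W := W
  instNeZero := inferInstance
  emb c := (embG1 hD W hW (Quotient.out c)).comp (toFieldOf E hE)
  emb_inj := by
    intro c c' h
    apply (cuspData1 hD W hW).emb_injective
    show embG1 hD W hW (Quotient.out c) = embG1 hD W hW (Quotient.out c')
    ext1 y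
    obtain ⟨x, rfl⟩ := toFieldOf_surjective E hE y
    exact RingHom.congr_fun h x
  emb_const c k := by
    rw [RingHom.comp_apply, toFieldOf_algebraMap]
    exact embG1_algebraMap hD W hW _ k
  emb_j c := by
    rw [RingHom.comp_apply, toFieldOf_jElt hD, embG1_xJ_eq hD W hW _ 1, embG1_one, coe_xJ1 hD]
    congr 1
    exact coeffMap_jqModC (iotaC : Kbar →+* ℂ)
  emb_i₀ y := by
    have h := cuspData1_emb_mk hD W hW 1
    rw [cuspData1_emb] at h
    rw [RingHom.comp_apply, h, embG1_one]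
    rfl
  ζ := zetaUnit1 W
  hζ := orderOf_zetaUnit1 W
  π := (MulAction.toPerm (ModularGroup.T : SL(2, ℤ)) : Equiv.Perm D.X)
  emb_π c y := by
    rw [← rotL_eq_rot1, RingHom.comp_apply, RingHom.comp_apply]
    exact (cuspData1 hD W hW).rot c (toFieldOf E hE y)
  card_eq := by
    rw [finrank_jElt_of_eq hD E hE hj]
    exact Fintype.card_eq_nat_card

variable (E : IntermediateField Kbar (LaurentSeries Kbar)) (hE : E = D.field Kbar)
  (hj : jqModC Kbar ∈ E)

@[simp] theorem cosetEmbOf_W : (cosetEmbOf hD W hW E hE hj).W = W := rfl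

@[simp] theorem cosetEmbOf_i₀ :
    (cosetEmbOf hD W hW E hE hj).i₀ = (QuotientGroup.mk (1 : SL(2, ℤ)) : D.X) := rfl

@[simp] theorem cosetEmbOf_π :
    (cosetEmbOf hD W hW E hE hj).π =
      (MulAction.toPerm (ModularGroup.T : SL(2, ℤ)) : Equiv.Perm D.X) := rfl

@[simp] theorem cosetEmbOf_ζ :
    (((cosetEmbOf hD W hW E hE hj).ζ : ℂˣ) : ℂ) = CuspPack.zetaCusp1 W := rfl

theorem cosetEmbOf_emb (c : D.X) (f : E) :
    (cosetEmbOf hD W hW E hE hj).emb c f =
      embG1 hD W hW (Quotient.out c) (toFieldOf E hE f) := rfl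

/-- the expansions of the package are the coset expansions `embG1` -/
theorem cosetEmbOf_emb_mk (g : SL(2, ℤ)) (f : E) :
    (cosetEmbOf hD W hW E hE hj).emb (QuotientGroup.mk g : D.X) f =
      embG1 hD W hW g (toFieldOf E hE f) := by
  rw [cosetEmbOf_emb, ← cuspData1_emb, cuspData1_emb_mk]

/-- the number of orbits of the rotation is the number of `⟨T⟩`-orbits on the cosets -/
theorem card_orbits_cosetEmbOf :
    Nat.card (MulAction.orbitRel.Quotient
        (Subgroup.zpowers (cosetEmbOf hD W hW E hE hj).π) (cosetEmbOf hD W hW E hE hj).I) =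
      Nat.card (MulAction.orbitRel.Quotient
        (Subgroup.zpowers (ModularGroup.T : SL(2, ℤ))) D.X) :=
  helper80.card_orbits_of_eq_toPerm (X := D.X) _ ModularGroup.T (Or.inl rfl)

/-- the number of poles of `j` is the number of `⟨T⟩`-orbits on the cosets -/
theorem card_poles_cosetEmbOf (hD : D.IsSys) (W : ℕ) [NeZero W] (hW : Gamma W ≤ D.Γ)
    (E : IntermediateField Kbar (LaurentSeries Kbar)) (hE : E = D.field Kbar)
    (hj : jqModC Kbar ∈ E) :
    Nat.card {w : Place Kbar E // w.ord (Fermat.Agent.T4.helper76.jElt E hj) < 0} =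
      Nat.card (MulAction.orbitRel.Quotient
        (Subgroup.zpowers (ModularGroup.T : SL(2, ℤ))) D.X) := by
  rw [← card_orbits_cosetEmbOf hD W hW E hE hj]
  exact (cosetEmbOf hD W hW E hE hj).card_poles

end Gen

/-! ### The instance `X₁(M)` -/

section X1

variable (M : ℕ) [NeZero M]

/-- **the coset package of `X₁(M)` in characteristic `0`** (`7 ≤ M`): index set
`SL(2, ℤ) ⧸ ±Γ₁(M)`, width `M`. -/
def cosetEmb1 (hM : 7 ≤ M) :
    Fermat.Agent.T4.helper76.CosetEmb (Fermat.Agent.T4.helper32.F1 M)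
      (Fermat.Agent.T4.helper61.jqModC_mem_F1 M) ℂ (iotaC : Kbar →+* ℂ) :=
  cosetEmbOf (D := x1Data M) (x1Sys M hM) M (Gamma_le_PG1 M) (Fermat.Agent.T4.helper32.F1 M)
    (Fermat.Agent.T4.helper56.f1_eq M) (Fermat.Agent.T4.helper61.jqModC_mem_F1 M)

@[simp] theorem cosetEmb1_W (hM : 7 ≤ M) : (cosetEmb1 M hM).W = M := rfl

@[simp] theorem cosetEmb1_i₀ (hM : 7 ≤ M) :
    (cosetEmb1 M hM).i₀ = (QuotientGroup.mk (1 : SL(2, ℤ)) : SL(2, ℤ) ⧸ PG1 M) := rfl

@[simp] theorem cosetEmb1_π (hM : 7 ≤ M) :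
    (cosetEmb1 M hM).π =
      (MulAction.toPerm (ModularGroup.T : SL(2, ℤ)) : Equiv.Perm (SL(2, ℤ) ⧸ PG1 M)) := rfl

/-- the expansions of `cosetEmb1` are the `t`-expansions of the translates `f ∘ g⁻¹`
(`embG1`) -/
theorem cosetEmb1_emb_mk (hM : 7 ≤ M) (g : SL(2, ℤ)) (f : Fermat.Agent.T4.helper32.F1 M) :
    (cosetEmb1 M hM).emb (QuotientGroup.mk g : SL(2, ℤ) ⧸ PG1 M) f =
      embG1 (D := x1Data M) (x1Sys M hM) M (Gamma_le_PG1 M) g
        (toFieldOf (D := x1Data M) _ (Fermat.Agent.T4.helper56.f1_eq M) f) :=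
  cosetEmbOf_emb_mk (D := x1Data M) (x1Sys M hM) M (Gamma_le_PG1 M) _ _ _ g f

/-- the number of orbits of the rotation of `cosetEmb1` is the number of `⟨T⟩`-orbits on
`SL(2, ℤ) ⧸ ±Γ₁(M)` (the number of cusps of `X₁(M)`) -/
theorem card_orbits_cosetEmb1 (hM : 7 ≤ M) :
    Nat.card (MulAction.orbitRel.Quotient
        (Subgroup.zpowers (cosetEmb1 M hM).π) (cosetEmb1 M hM).I) =
      Nat.card (MulAction.orbitRel.Quotient
        (Subgroup.zpowers (ModularGroup.T : SL(2, ℤ))) (SL(2, ℤ) ⧸ PG1 M)) :=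
  card_orbits_cosetEmbOf (D := x1Data M) (x1Sys M hM) M (Gamma_le_PG1 M) _ _ _

end X1

end Fermat.Agent.T4.helper37c

end
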