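import Mathlib
import Fermat.Agent.T4.helper21_EisDefs
import Fermat.Agent.T4.helper37_EisPer

/-!
# T4 block (III), leaf [EIS-BDD] (helper37, task 995, second prover)

`bdd_of (h : RowStatement) (h' : PerStatement) : BddStatement` : the division values are bounded
at `i∞`.

Proof: by `PerStatement` we may assume `0 ≤ a 0 < ℓ`; by `RowStatement`
`divVal ℓ a τ = π cot(π z) + ∑_{m ≥ 1} π (cot(π(z - mτ)) + cot(π(z + mτ))) + 2πi a₀/ℓ` with
`z = (a₀ τ + a₁)/ℓ`, and `‖cot w + i‖ ≤ 2 r / (1 - r)`, `r = exp(-2 Im w)`, for `Im w > 0`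
bounds the series by a geometric series for `Im τ ≥ 1`.
-/

set_option autoImplicit false

noncomputable section

namespace Fermat.Agent.T4.helper37

open UpperHalfPlane hiding I
open Complex EisensteinSeries
open scoped Real
open Fermat.Agent.T4.helper21

/-! ### The cotangent far from the real axis -/

theorem cot_neg' (z : ℂ) : Complex.cot (-z) = -Complex.cot z := by
  simp [Complex.cot, Complex.cos_neg, Complex.sin_neg, div_neg]

/-- `‖cot z + i‖ ≤ 2 r / (1 - r)` with `r = exp(-2 Im z)`, for `Im z > 0`. -/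
theorem norm_cot_add_I_le {z : ℂ} (hz : 0 < z.im) :
    ‖Complex.cot z + I‖ ≤ 2 * Real.exp (-(2 * z.im)) / (1 - Real.exp (-(2 * z.im))) := by
  set X : ℂ := Complex.exp (2 * I * z) with hX
  have hXn : ‖X‖ = Real.exp (-(2 * z.im)) := by
    rw [hX, Complex.norm_exp]
    congr 1
    simp [Complex.mul_re, Complex.mul_im]
  have hr : Real.exp (-(2 * z.im)) < 1 := by
    rw [Real.exp_lt_one_iff]
    linarith
  have hXlt : ‖X‖ < 1 := by rw [hXn]; exact hr
  have h1X : (1 : ℂ) - X ≠ 0 := by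
    intro h
    have hX1 : X = 1 := by linear_combination -h
    rw [hX1, norm_one] at hXlt
    exact lt_irrefl _ hXlt
  have hcot : Complex.cot z + I = -(2 * I * X) / (1 - X) := by
    rw [Complex.cot_eq_exp_ratio, ← hX]
    have hI : (I : ℂ) ≠ 0 := Complex.I_ne_zero
    rw [div_add' _ _ _ (mul_ne_zero hI h1X), div_eq_div_iff (mul_ne_zero hI h1X) h1X]
    linear_combination (1 - X) * (1 + X) * Complex.I_sq
  have hden : 1 - ‖X‖ ≤ ‖1 - X‖ := by
    have := norm_sub_norm_le (1 : ℂ) X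
    rwa [norm_one] at this
  have hpos : 0 < 1 - ‖X‖ := by linarith
  have hnum : ‖-(2 * I * X)‖ = 2 * ‖X‖ := by
    rw [norm_neg, norm_mul, norm_mul, Complex.norm_I, mul_one]
    simp
  rw [hcot, norm_div, hnum, ← hXn]
  exact div_le_div_of_nonneg_left (by positivity) hpos hden

/-- monotone form: `‖cot z + i‖ ≤ 2 exp(-2c) / (1 - r)` if `Im z ≥ c` and `exp(-2c) ≤ r < 1`. -/
theorem norm_cot_add_I_le_of_le {z : ℂ} {c r : ℝ} (hc : 0 < c) (hz : c ≤ z.im)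
    (hr : Real.exp (-(2 * c)) ≤ r) (hr1 : r < 1) :
    ‖Complex.cot z + I‖ ≤ 2 * Real.exp (-(2 * c)) / (1 - r) := by
  have hz0 : 0 < z.im := lt_of_lt_of_le hc hz
  have h1 := norm_cot_add_I_le hz0
  have he : Real.exp (-(2 * z.im)) ≤ Real.exp (-(2 * c)) := by
    apply Real.exp_le_exp.2
    linarith
  have he0 : 0 < Real.exp (-(2 * z.im)) := Real.exp_pos _
  have hden : 1 - r ≤ 1 - Real.exp (-(2 * z.im)) := by linarith
  have hrpos : 0 < 1 - r := by linarith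
  calc ‖Complex.cot z + I‖
      ≤ 2 * Real.exp (-(2 * z.im)) / (1 - Real.exp (-(2 * z.im))) := h1
    _ ≤ 2 * Real.exp (-(2 * z.im)) / (1 - r) :=
        div_le_div_of_nonneg_left (by positivity) hrpos hden
    _ ≤ 2 * Real.exp (-(2 * c)) / (1 - r) := by
        apply div_le_div_of_nonneg_right _ hrpos.le
        linarith

/-- the same for the lower half plane: `‖cot z - i‖ ≤ 2 exp(-2c) / (1 - r)` if `Im z ≤ -c`. -/
theorem norm_cot_sub_I_le_of_le {z : ℂ} {c r : ℝ} (hc : 0 < c) (hz : z.im ≤ -c)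
    (hr : Real.exp (-(2 * c)) ≤ r) (hr1 : r < 1) :
    ‖Complex.cot z - I‖ ≤ 2 * Real.exp (-(2 * c)) / (1 - r) := by
  have h1 : Complex.cot z - I = -(Complex.cot (-z) + I) := by
    rw [cot_neg']
    ring
  rw [h1, norm_neg]
  apply norm_cot_add_I_le_of_le hc _ hr hr1
  rw [Complex.neg_im]
  linarith

/-! ### Imaginary parts -/

theorem divPt_im (ℓ : ℕ) (a : Fin 2 → ℤ) (τ : ℍ) :
    (divPt ℓ a τ).im = (a 0 : ℝ) * τ.im / (ℓ : ℝ) := by
  rw [divPt, Complex.div_natCast_im]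
  congr 1
  simp [lat, Complex.add_im, Complex.mul_im]

theorem im_add_mul (z : ℂ) (m : ℕ) (τ : ℍ) :
    ((π : ℂ) * (z + ((m : ℂ) + 1) * (τ : ℂ))).im = π * (z.im + ((m : ℝ) + 1) * τ.im) := by
  rw [Complex.im_ofReal_mul]
  congr 1
  simp [Complex.add_im, Complex.mul_im]

theorem im_sub_mul (z : ℂ) (m : ℕ) (τ : ℍ) :
    ((π : ℂ) * (z - ((m : ℂ) + 1) * (τ : ℂ))).im = π * (z.im - ((m : ℝ) + 1) * τ.im) := by
  rw [Complex.im_ofReal_mul]
  congr 1
  simp [Complex.sub_im, Complex.mul_im]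

/-! ### The bound -/

/-- the tail of the row expansion is bounded by a geometric series for `Im τ ≥ 1`,
`0 ≤ Im z ≤ (1 - 1/ℓ) Im τ`. -/
theorem norm_tail_le {ℓ : ℕ} (hℓ : 0 < ℓ) (τ : ℍ) (hτ : 1 ≤ τ.im) (z : ℂ) (hz0 : 0 ≤ z.im)
    (hz1 : z.im ≤ (1 - 1 / (ℓ : ℝ)) * τ.im) :
    ‖∑' m : ℕ, ((π : ℂ) * Complex.cot (π * (z - ((m : ℂ) + 1) * τ)) +
        π * Complex.cot (π * (z + ((m : ℂ) + 1) * τ)))‖ ≤
      4 * π * (1 - Real.exp (-(2 * π / ℓ)))⁻¹ * (1 - Real.exp (-(2 * π)))⁻¹ := by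
  set r : ℝ := Real.exp (-(2 * π / ℓ)) with hr
  set ρ : ℝ := Real.exp (-(2 * π)) with hρ
  have hℓR : (0 : ℝ) < ℓ := by exact_mod_cast hℓ
  have hℓ1 : (1 : ℝ) ≤ ℓ := by exact_mod_cast hℓ
  have hπ : 0 < π := Real.pi_pos
  have hr1 : r < 1 := by
    rw [hr, Real.exp_lt_one_iff]
    have : 0 < 2 * π / ℓ := by positivity
    linarith
  have hr0 : 0 < r := Real.exp_pos _
  have hρ1 : ρ < 1 := by
    rw [hρ, Real.exp_lt_one_iff]
    linarith
  have hρ0 : 0 < ρ := Real.exp_pos _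
  have hinv : 1 / (ℓ : ℝ) ≤ 1 := by
    rw [div_le_one hℓR]
    exact hℓ1
  have hinv0 : 0 < 1 / (ℓ : ℝ) := by positivity
  -- the geometric majorant
  have hgeo : HasSum (fun m : ℕ => 4 * π * (1 - r)⁻¹ * ρ ^ m)
      (4 * π * (1 - r)⁻¹ * (1 - ρ)⁻¹) :=
    (hasSum_geometric_of_lt_one hρ0.le hρ1).mul_left _
  refine tsum_of_norm_bounded hgeo fun m => ?_
  -- the exponent for the `m`-th pair
  set c : ℝ := π * ((m : ℝ) + 1 / ℓ) with hc
  have hm0 : (0 : ℝ) ≤ m := Nat.cast_nonneg m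
  have hc0 : 0 < c := by positivity
  have hexp : Real.exp (-(2 * c)) = r * ρ ^ m := by
    rw [hr, hρ, ← Real.exp_nat_mul, ← Real.exp_add, hc]
    congr 1
    field_simp
    ring
  have hexp_le : Real.exp (-(2 * c)) ≤ r := by
    rw [hexp]
    have : ρ ^ m ≤ 1 := pow_le_one₀ hρ0.le hρ1.le
    nlinarith
  have hτ0 : 0 < τ.im := τ.im_pos
  -- upper half plane term
  have h2 : c ≤ ((π : ℂ) * (z + ((m : ℂ) + 1) * (τ : ℂ))).im := by
    rw [im_add_mul, hc]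
    apply mul_le_mul_of_nonneg_left _ hπ.le
    have : ((m : ℝ) + 1) * 1 ≤ ((m : ℝ) + 1) * τ.im :=
      mul_le_mul_of_nonneg_left hτ (by positivity)
    linarith
  -- lower half plane term
  have h1 : ((π : ℂ) * (z - ((m : ℂ) + 1) * (τ : ℂ))).im ≤ -c := by
    rw [im_sub_mul, hc]
    have key : ((m : ℝ) + 1 / ℓ) ≤ ((m : ℝ) + 1) * τ.im - z.im := by
      have e1 : ((m : ℝ) + 1) * τ.im - (1 - 1 / (ℓ : ℝ)) * τ.im = ((m : ℝ) + 1 / ℓ) * τ.im := by
        ring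
      have e2 : ((m : ℝ) + 1 / ℓ) * 1 ≤ ((m : ℝ) + 1 / ℓ) * τ.im :=
        mul_le_mul_of_nonneg_left hτ (by positivity)
      linarith
    have := mul_le_mul_of_nonneg_left key hπ.le
    linarith
  have b2 := norm_cot_add_I_le_of_le hc0 h2 hexp_le hr1
  have b1 := norm_cot_sub_I_le_of_le hc0 h1 hexp_le hr1
  have hsplit : (π : ℂ) * Complex.cot (π * (z - ((m : ℂ) + 1) * τ)) +
      π * Complex.cot (π * (z + ((m : ℂ) + 1) * τ)) =
      (π : ℂ) * ((Complex.cot (π * (z - ((m : ℂ) + 1) * τ)) - I) +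
        (Complex.cot (π * (z + ((m : ℂ) + 1) * τ)) + I)) := by
    ring
  rw [hsplit, norm_mul, Complex.norm_real, Real.norm_of_nonneg hπ.le]
  have h1r : 0 < 1 - r := by linarith
  calc π * ‖(Complex.cot (π * (z - ((m : ℂ) + 1) * τ)) - I) +
        (Complex.cot (π * (z + ((m : ℂ) + 1) * τ)) + I)‖
      ≤ π * (2 * Real.exp (-(2 * c)) / (1 - r) + 2 * Real.exp (-(2 * c)) / (1 - r)) := by
        apply mul_le_mul_of_nonneg_left _ hπ.le
        exact (norm_add_le _ _).trans (add_le_add b1 b2)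
    _ = 4 * π * (1 - r)⁻¹ * (r * ρ ^ m) := by
        rw [hexp]
        field_simp
        ring
    _ ≤ 4 * π * (1 - r)⁻¹ * ρ ^ m := by
        have hpow : 0 ≤ ρ ^ m := pow_nonneg hρ0.le m
        have hcoef : 0 ≤ 4 * π * (1 - r)⁻¹ := by positivity
        have : r * ρ ^ m ≤ ρ ^ m := by nlinarith
        exact mul_le_mul_of_nonneg_left this hcoef

/-- the main term `π cot(π z)` is bounded. -/
theorem norm_main_le {ℓ : ℕ} (hℓ : 0 < ℓ) (a : Fin 2 → ℤ) (h0 : 0 ≤ a 0) (τ : ℍ)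
    (hτ : 1 ≤ τ.im) :
    ‖(π : ℂ) * Complex.cot (π * divPt ℓ a τ)‖ ≤
      max ‖(π : ℂ) * Complex.cot (π * ((a 1 : ℂ) / (ℓ : ℂ)))‖
        (π * (2 * (1 - Real.exp (-(2 * π / ℓ)))⁻¹ + 1)) := by
  have hℓR : (0 : ℝ) < ℓ := by exact_mod_cast hℓ
  have hπ : 0 < π := Real.pi_pos
  rcases eq_or_lt_of_le h0 with h | h
  · -- `a 0 = 0`: a constant
    apply le_max_of_le_left
    have : divPt ℓ a τ = (a 1 : ℂ) / (ℓ : ℂ) := by
      rw [divPt, lat, ← h]
      simp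
    rw [this]
  · apply le_max_of_le_right
    set r : ℝ := Real.exp (-(2 * π / ℓ)) with hr
    have hr1 : r < 1 := by
      rw [hr, Real.exp_lt_one_iff]
      have : 0 < 2 * π / ℓ := by positivity
      linarith
    have hr0 : 0 < r := Real.exp_pos _
    have ha1 : (1 : ℝ) ≤ (a 0 : ℝ) := by exact_mod_cast h
    have hc0 : 0 < π / ℓ := by positivity
    have him : π / ℓ ≤ ((π : ℂ) * divPt ℓ a τ).im := by
      rw [Complex.im_ofReal_mul, divPt_im]
      have : (1 : ℝ) * 1 ≤ (a 0 : ℝ) * τ.im := mul_le_mul ha1 hτ zero_le_one (by linarith)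
      have h2 : (1 : ℝ) / ℓ ≤ (a 0 : ℝ) * τ.im / ℓ := by
        apply div_le_div_of_nonneg_right _ hℓR.le
        linarith
      calc π / ℓ = π * (1 / ℓ) := by ring
        _ ≤ π * ((a 0 : ℝ) * τ.im / ℓ) := mul_le_mul_of_nonneg_left h2 hπ.le
    have hexp : Real.exp (-(2 * (π / ℓ))) ≤ r := by
      rw [hr]
      apply le_of_eq
      congr 1
      ring
    have b := norm_cot_add_I_le_of_le hc0 him hexp hr1
    have hexp' : Real.exp (-(2 * (π / ℓ))) ≤ 1 := hexp.trans hr1.le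
    have h1r : 0 < 1 - r := by linarith
    rw [norm_mul, Complex.norm_real, Real.norm_of_nonneg hπ.le]
    apply mul_le_mul_of_nonneg_left _ hπ.le
    have e : Complex.cot (π * divPt ℓ a τ) = (Complex.cot (π * divPt ℓ a τ) + I) - I := by ring
    rw [e]
    calc ‖(Complex.cot (π * divPt ℓ a τ) + I) - I‖
        ≤ ‖Complex.cot (π * divPt ℓ a τ) + I‖ + ‖I‖ := norm_sub_le _ _
      _ ≤ 2 * Real.exp (-(2 * (π / ℓ))) / (1 - r) + 1 := by
          rw [Complex.norm_I]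
          linarith
      _ ≤ 2 * (1 - r)⁻¹ + 1 := by
          have : 2 * Real.exp (-(2 * (π / ℓ))) / (1 - r) ≤ 2 * 1 / (1 - r) := by
            apply div_le_div_of_nonneg_right _ h1r.le
            linarith
          have e2 : 2 * 1 / (1 - r) = 2 * (1 - r)⁻¹ := by
            rw [mul_one, div_eq_mul_inv]
          linarith

/-- **[EIS-BDD]** the division values are bounded at `i∞`. -/
theorem bdd_of (h : RowStatement) (h' : PerStatement) : BddStatement := by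
  intro ℓ a hℓ ha
  have hℓZ : (0 : ℤ) < (ℓ : ℤ) := by exact_mod_cast hℓ
  have hℓR : (0 : ℝ) < ℓ := by exact_mod_cast hℓ
  -- reduce `a 0` modulo `ℓ`
  obtain ⟨a', e, haa, h0, h1⟩ : ∃ a' e : Fin 2 → ℤ, a = a' + (ℓ : ℤ) • e ∧ 0 ≤ a' 0 ∧
      a' 0 ≤ (ℓ : ℤ) - 1 := by
    refine ⟨![a 0 % (ℓ : ℤ), a 1], ![a 0 / (ℓ : ℤ), 0], ?_, ?_, ?_⟩
    · ext i
      fin_cases i
      · simp [Int.emod_add_mul_ediv]
      · simp
    · simpa using Int.emod_nonneg (a 0) hℓZ.ne'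
    · have := Int.emod_lt_of_pos (a 0) hℓZ
      simp only [Matrix.cons_val_zero]
      omega
  have ha' : NotDiv ℓ a' := by
    intro hd
    apply ha
    intro i
    rw [haa]
    exact dvd_add (hd i) ⟨e i, by simp⟩
  have heq : divVal ℓ a = divVal ℓ a' := by
    funext τ
    rw [haa]
    exact h' ℓ a' e hℓ ha' τ
  rw [heq, UpperHalfPlane.isBoundedAtImInfty_iff]
  refine ⟨max ‖(π : ℂ) * Complex.cot (π * ((a' 1 : ℂ) / (ℓ : ℂ)))‖
      (π * (2 * (1 - Real.exp (-(2 * π / ℓ)))⁻¹ + 1)) +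
      4 * π * (1 - Real.exp (-(2 * π / ℓ)))⁻¹ * (1 - Real.exp (-(2 * π)))⁻¹ +
      ‖2 * (π : ℂ) * I * (a' 0 : ℂ) / (ℓ : ℂ)‖, 1, fun τ hτ => ?_⟩
  have hoff := offLat_divPt hℓ ha' τ
  have hrow := (h τ (divPt ℓ a' τ) hoff).2
  have hval : divVal ℓ a' τ = (π : ℂ) * Complex.cot (π * divPt ℓ a' τ) +
      (∑' m : ℕ, ((π : ℂ) * Complex.cot (π * (divPt ℓ a' τ - ((m : ℂ) + 1) * τ)) +
        π * Complex.cot (π * (divPt ℓ a' τ + ((m : ℂ) + 1) * τ)))) +
      2 * (π : ℂ) * I * (a' 0 : ℂ) / (ℓ : ℂ) := by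
    rw [divVal, hrow]
    ring
  have hz0 : 0 ≤ (divPt ℓ a' τ).im := by
    rw [divPt_im]
    have : (0 : ℝ) ≤ (a' 0 : ℝ) := by exact_mod_cast h0
    have := τ.im_pos
    positivity
  have hz1 : (divPt ℓ a' τ).im ≤ (1 - 1 / (ℓ : ℝ)) * τ.im := by
    rw [divPt_im]
    have hle : (a' 0 : ℝ) ≤ (ℓ : ℝ) - 1 := by exact_mod_cast h1
    have hτ0 := τ.im_pos
    have e1 : (1 - 1 / (ℓ : ℝ)) * τ.im = ((ℓ : ℝ) - 1) * τ.im / ℓ := by
      field_simp
    rw [e1]
    apply div_le_div_of_nonneg_right _ hℓR.le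
    exact mul_le_mul_of_nonneg_right hle hτ0.le
  rw [hval]
  refine (norm_add_le _ _).trans (add_le_add ((norm_add_le _ _).trans (add_le_add ?_ ?_)) le_rfl)
  · exact norm_main_le hℓ a' h0 τ hτ
  · exact norm_tail_le hℓ τ hτ _ hz0 hz1

end Fermat.Agent.T4.helper37

end
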