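import Mathlib
import Fermat.Agent.T4.helper62_ChebDefs

/-!
# T4 block (II), leaf [T4-CHEB-CROSS]: interface of the sub-leaves (helper39)

`cross : helper62.CrossStatement` is assembled in `helper39_ChebCross.lean` from

* `CrossFieldsStatement` [CROSS-FIELDS] : for every large prime `ℓ` and every `N` with
  `2 N ∣ ℓ - 1` the field `Ω = L Z` (`Z` the subfield of degree `N` of `ℚ(ζ_ℓ)`) inside
  `Ω₁ = L(ζ_ℓ)`, with `(restriction to L, ψ) : Gal(Ω/ℚ) → Gal(L/ℚ) × μ_N` bijective and `ψ`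
  computed on `Ω₁` by an even Dirichlet character `χ` mod `ℓ` of the cyclotomic character;
* `CrossCountStatement` [CROSS-COUNT] : in a cyclic group of order `n ^ k` the proportion of the
  elements whose order is divisible by `n` tends to `1`.
-/

set_option autoImplicit false
set_option linter.unusedSectionVars false
set_option linter.unusedVariables false
set_option linter.style.longLine false

open NumberField

namespace Fermat.Agent.T4.helper39

/-- [CROSS-FIELDS]: the crossing field `Ω ⊆ Ω₁ = L(ζ_ℓ)` with its character `ψ`. -/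
def CrossFieldsStatement : Prop :=
  ∀ (L : Type) [Field L] [NumberField L] [IsGalois ℚ L],
    ∃ B : ℕ, ∀ (ℓ : ℕ) [Fact ℓ.Prime], B < ℓ → ∀ N : ℕ, 2 * N ∣ ℓ - 1 →
      ∃ (Ω : Type) (_ : Field Ω) (_ : NumberField Ω) (_ : Algebra L Ω) (_ : IsGalois ℚ Ω)
        (Ω₁ : Type) (_ : Field Ω₁) (_ : NumberField Ω₁) (_ : Algebra Ω Ω₁) (_ : IsGalois ℚ Ω₁)
        (ζ : Ω₁) (χ : DirichletCharacter ℂ ℓ) (ψ : Gal(Ω/ℚ) →* ℂˣ),
        IsPrimitiveRoot ζ ℓ ∧ χ.Even ∧
        (∀ g : Gal(Ω/ℚ), AlgEquiv.restrictNormalHom L g = 1 → ψ g = 1 → g = 1) ∧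
        (∀ (τ : Gal(L/ℚ)) (w : ℂˣ), w ^ N = 1 →
          ∃ g : Gal(Ω/ℚ), AlgEquiv.restrictNormalHom L g = τ ∧ ψ g = w) ∧
        (∀ g : Gal(Ω/ℚ), ψ g ^ N = 1) ∧
        (∀ (g₁ : Gal(Ω₁/ℚ)) (j : ℕ), g₁ ζ = ζ ^ j →
          ((ψ (AlgEquiv.restrictNormalHom Ω g₁) : ℂˣ) : ℂ) = χ (j : ZMod ℓ))

/-- [CROSS-COUNT]: in a cyclic group of order `n ^ k`, `k` large, all but the proportion `ε` of
the elements have order divisible by `n`. -/
def CrossCountStatement : Prop :=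
  ∀ n : ℕ, 0 < n → ∀ ε : ℝ, 0 < ε → ∃ k : ℕ, 0 < k ∧
    ∀ (C : Type) [CommGroup C] [Finite C] [IsCyclic C], Nat.card C = n ^ k →
      (1 - ε) * ((n : ℝ) ^ k) ≤ (Nat.card {z : C // n ∣ orderOf z} : ℝ)

end Fermat.Agent.T4.helper39
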