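import Mathlib
import Fermat.Agent.T4.helper39_ChebCrossDefs

/-!
# T4 block (II), leaf [CROSS-FIELDS], part 1: the abstract tower (helper38)

`L → Ω → Ω₁` is a tower of number fields, all Galois over `ℚ`, `ζ ∈ Ω₁` a primitive `ℓ`-th root
of unity, `χ₁ = hζ.autToPow ℚ` the cyclotomic character of `Gal(Ω₁/ℚ)` and `κ₁ = χ₁ ^ e`.
If `Ω` is the fixed field of `ker (res_L) ⊓ ker κ₁` (hypotheses `hker`, `hker'`), then `κ₁`
descends to `κ : Gal(Ω/ℚ) →* (ZMod ℓ)ˣ` and, for an injective `ω : (ZMod ℓ)ˣ →* ℂˣ`,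
`ψ = ω ∘ κ` and `χ = ω ∘ (· ^ e)` satisfy the clauses of `helper39.CrossFieldsStatement`
(`crossTower`).
-/

set_option autoImplicit false
set_option linter.unusedSectionVars false
set_option linter.unusedVariables false
set_option linter.style.longLine false

open NumberField

namespace Fermat.Agent.T4.helper38

section Layer2

variable {L Ω Ω₁ : Type} [Field L] [NumberField L] [IsGalois ℚ L]
  [Field Ω] [NumberField Ω] [IsGalois ℚ Ω] [Field Ω₁] [NumberField Ω₁] [IsGalois ℚ Ω₁]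
  [Algebra L Ω] [Algebra Ω Ω₁] [Algebra L Ω₁] [IsScalarTower L Ω Ω₁]
  {ℓ : ℕ} [NeZero ℓ] {ζ : Ω₁} (hζ : IsPrimitiveRoot ζ ℓ) (e : ℕ)

/-- restriction `Gal(Ω₁/ℚ) → Gal(L/ℚ)`. -/
noncomputable def resL1 : Gal(Ω₁/ℚ) →* Gal(L/ℚ) := AlgEquiv.restrictNormalHom L

/-- restriction `Gal(Ω₁/ℚ) → Gal(Ω/ℚ)`. -/
noncomputable def resΩ : Gal(Ω₁/ℚ) →* Gal(Ω/ℚ) := AlgEquiv.restrictNormalHom Ω

/-- restriction `Gal(Ω/ℚ) → Gal(L/ℚ)`. -/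
noncomputable def resL : Gal(Ω/ℚ) →* Gal(L/ℚ) := AlgEquiv.restrictNormalHom L

lemma resL1_commutes (γ : Gal(Ω₁/ℚ)) (x : L) :
    algebraMap L Ω₁ (resL1 (L := L) γ x) = γ (algebraMap L Ω₁ x) :=
  AlgEquiv.restrictNormal_commutes γ L x

lemma resΩ_commutes (γ : Gal(Ω₁/ℚ)) (x : Ω) :
    algebraMap Ω Ω₁ (resΩ (Ω := Ω) γ x) = γ (algebraMap Ω Ω₁ x) :=
  AlgEquiv.restrictNormal_commutes γ Ω x

lemma resL_commutes (a : Gal(Ω/ℚ)) (x : L) :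
    algebraMap L Ω (resL (L := L) a x) = a (algebraMap L Ω x) :=
  AlgEquiv.restrictNormal_commutes a L x

lemma resL_resΩ (γ : Gal(Ω₁/ℚ)) :
    resL (L := L) (Ω := Ω) (resΩ (Ω := Ω) γ) = resL1 (L := L) γ := by
  ext x
  apply (algebraMap L Ω₁).injective
  rw [resL1_commutes, IsScalarTower.algebraMap_apply L Ω Ω₁, resL_commutes, resΩ_commutes,
    ← IsScalarTower.algebraMap_apply L Ω Ω₁]

lemma resΩ_surjective : Function.Surjective (resΩ (Ω := Ω) (Ω₁ := Ω₁)) :=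
  AlgEquiv.restrictNormalHom_surjective Ω₁

lemma resL1_surjective : Function.Surjective (resL1 (L := L) (Ω₁ := Ω₁)) :=
  AlgEquiv.restrictNormalHom_surjective Ω₁

/-- membership in the kernel of the restriction to `Ω`. -/
lemma mem_ker_resΩ_iff (γ : Gal(Ω₁/ℚ)) :
    γ ∈ (resΩ (Ω := Ω) (Ω₁ := Ω₁)).ker ↔ ∀ x : Ω, γ (algebraMap Ω Ω₁ x) = algebraMap Ω Ω₁ x := by
  rw [MonoidHom.mem_ker]
  constructor
  · intro h x
    rw [← resΩ_commutes, h]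
    rfl
  · intro h
    ext x
    apply (algebraMap Ω Ω₁).injective
    rw [resΩ_commutes, h]
    rfl

/-- membership in the kernel of the restriction to `L`. -/
lemma mem_ker_resL1_iff (γ : Gal(Ω₁/ℚ)) :
    γ ∈ (resL1 (L := L) (Ω₁ := Ω₁)).ker ↔
      ∀ x : L, γ (algebraMap L Ω₁ x) = algebraMap L Ω₁ x := by
  rw [MonoidHom.mem_ker]
  constructor
  · intro h x
    rw [← resL1_commutes, h]
    rfl
  · intro h
    ext x
    apply (algebraMap L Ω₁).injective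
    rw [resL1_commutes, h]
    rfl

/-- the `e`-th power of the cyclotomic character. -/
noncomputable def kappa1 : Gal(Ω₁/ℚ) →* (ZMod ℓ)ˣ :=
  (powMonoidHom e).comp (hζ.autToPow ℚ)

lemma kappa1_apply (γ : Gal(Ω₁/ℚ)) : kappa1 hζ e γ = (hζ.autToPow ℚ γ) ^ e := rfl

/-- the induced character of `Gal(Ω/ℚ)`. -/
noncomputable def kappa (hker : (resΩ (Ω := Ω) (Ω₁ := Ω₁)).ker ≤ (kappa1 hζ e).ker) :
    Gal(Ω/ℚ) →* (ZMod ℓ)ˣ :=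
  (resΩ (Ω := Ω) (Ω₁ := Ω₁)).liftOfSurjective resΩ_surjective ⟨kappa1 hζ e, hker⟩

lemma kappa_resΩ (hker : (resΩ (Ω := Ω) (Ω₁ := Ω₁)).ker ≤ (kappa1 hζ e).ker)
    (γ : Gal(Ω₁/ℚ)) : kappa hζ e hker (resΩ γ) = kappa1 hζ e γ := by
  unfold kappa
  exact MonoidHom.liftOfRightInverse_comp_apply _ _ _ _ _

/-- joint injectivity of `(res_L, κ)` on `Gal(Ω/ℚ)`. -/
theorem kappa_inj (hker : (resΩ (Ω := Ω) (Ω₁ := Ω₁)).ker ≤ (kappa1 hζ e).ker)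
    (hker' : (resL1 (L := L) (Ω₁ := Ω₁)).ker ⊓ (kappa1 hζ e).ker ≤
      (resΩ (Ω := Ω) (Ω₁ := Ω₁)).ker)
    (a b : Gal(Ω/ℚ)) (h1 : resL (L := L) a = resL (L := L) b)
    (h2 : kappa hζ e hker a = kappa hζ e hker b) : a = b := by
  obtain ⟨α, rfl⟩ := resΩ_surjective (Ω₁ := Ω₁) a
  obtain ⟨β, rfl⟩ := resΩ_surjective (Ω₁ := Ω₁) b
  rw [resL_resΩ, resL_resΩ] at h1
  rw [kappa_resΩ, kappa_resΩ] at h2
  have h3 : α * β⁻¹ ∈ (resΩ (Ω := Ω) (Ω₁ := Ω₁)).ker := by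
    apply hker'
    rw [Subgroup.mem_inf, MonoidHom.mem_ker, MonoidHom.mem_ker, map_mul, map_mul, map_inv,
      map_inv, h1, h2, mul_inv_cancel, mul_inv_cancel]
    exact ⟨rfl, rfl⟩
  rw [MonoidHom.mem_ker, map_mul, map_inv, mul_inv_eq_one] at h3
  exact h3

/-- joint surjectivity of `(res_L, κ)` onto `G × range κ`. -/
theorem kappa_surj (hker : (resΩ (Ω := Ω) (Ω₁ := Ω₁)).ker ≤ (kappa1 hζ e).ker)
    (hG2 : ∀ (g : Gal(L/ℚ)) (v : (ZMod ℓ)ˣ),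
      ∃ τ : Gal(Ω₁/ℚ), resL1 (L := L) τ = g ∧ hζ.autToPow ℚ τ = v)
    (g : Gal(L/ℚ)) (t : (ZMod ℓ)ˣ) :
    ∃ a : Gal(Ω/ℚ), resL (L := L) a = g ∧ kappa hζ e hker a = t ^ e := by
  obtain ⟨τ, hτ1, hτ2⟩ := hG2 g t
  refine ⟨resΩ τ, ?_, ?_⟩
  · rw [resL_resΩ, hτ1]
  · rw [kappa_resΩ, kappa1_apply, hτ2]

/-- the value of the cyclotomic character from the action on `ζ`. -/
lemma autToPow_eq_natCast (γ : Gal(Ω₁/ℚ)) (j : ℕ) (hj : γ ζ = ζ ^ j) :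
    ((hζ.autToPow ℚ γ : (ZMod ℓ)ˣ) : ZMod ℓ) = (j : ZMod ℓ) := by
  have h1 := hζ.autToPow_spec ℚ γ
  rw [hj] at h1
  have h2 : ζ ^ (((hζ.autToPow ℚ γ : (ZMod ℓ)ˣ) : ZMod ℓ).val) = ζ ^ (j % ℓ) := by
    rw [h1]
    conv_rhs => rw [hζ.eq_orderOf]
    exact (pow_mod_orderOf ζ j).symm
  have h3 := hζ.pow_inj (ZMod.val_lt _) (Nat.mod_lt j (Nat.pos_of_ne_zero (NeZero.ne ℓ))) h2
  rw [← ZMod.natCast_zmod_val ((hζ.autToPow ℚ γ : (ZMod ℓ)ˣ) : ZMod ℓ), h3]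
  exact ZMod.natCast_mod j ℓ

end Layer2

section Char

variable {ℓ : ℕ} [NeZero ℓ]

/-- The Dirichlet character `x ↦ ω (x ^ e)`. -/
noncomputable def crossChar (ω : (ZMod ℓ)ˣ →* ℂˣ) (e : ℕ) : DirichletCharacter ℂ ℓ :=
  MulChar.ofUnitHom (ω.comp (powMonoidHom e))

lemma crossChar_even (ω : (ZMod ℓ)ˣ →* ℂˣ) {e : ℕ} (he : Even e) : (crossChar ω e).Even := by
  unfold DirichletCharacter.Even crossChar
  have h1 : ((-1 : (ZMod ℓ)ˣ) : ZMod ℓ) = -1 := by simp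
  rw [← h1, MulChar.ofUnitHom_coe]
  simp [he.neg_one_pow]

lemma crossChar_apply (ω : (ZMod ℓ)ˣ →* ℂˣ) (e : ℕ) (u : (ZMod ℓ)ˣ) :
    crossChar ω e (u : ZMod ℓ) = (ω (u ^ e) : ℂ) := by
  unfold crossChar
  rw [MulChar.ofUnitHom_coe]
  rfl

/-- a faithful character of `(ZMod ℓ)ˣ`. -/
theorem exists_faithful_char (ℓ : ℕ) [Fact ℓ.Prime] :
    ∃ ω : (ZMod ℓ)ˣ →* ℂˣ, Function.Injective ω ∧
      ∀ w : ℂˣ, w ^ (ℓ - 1) = 1 → ∃ s : (ZMod ℓ)ˣ, ω s = w := by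
  have : NeZero (ℓ - 1) := ⟨by have := (Fact.out : ℓ.Prime).one_lt; omega⟩
  have hc1 : Nat.card (ZMod ℓ)ˣ = ℓ - 1 := by
    rw [Nat.card_eq_fintype_card, ZMod.card_units_eq_totient, Nat.totient_prime Fact.out]
  have hc2 : Nat.card (rootsOfUnity (ℓ - 1) ℂ) = ℓ - 1 := Complex.card_rootsOfUnity (ℓ - 1)
  let φ : (ZMod ℓ)ˣ ≃* rootsOfUnity (ℓ - 1) ℂ := mulEquivOfCyclicCardEq (hc1.trans hc2.symm)
  refine ⟨(rootsOfUnity (ℓ - 1) ℂ).subtype.comp φ.toMonoidHom, ?_, ?_⟩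
  · intro a b hab
    apply φ.injective
    exact Subtype.ext hab
  · intro w hw
    refine ⟨φ.symm ⟨w, (mem_rootsOfUnity _ _).mpr hw⟩, ?_⟩
    simp

/-- in `(ZMod ℓ)ˣ`, the elements killed by `N` are the `e`-th powers, `ℓ - 1 = N e`. -/
theorem exists_pow_eq_of_pow_eq_one (ℓ : ℕ) [Fact ℓ.Prime] (N e : ℕ) (hNe : ℓ - 1 = N * e)
    (s : (ZMod ℓ)ˣ) (hs : s ^ N = 1) : ∃ t : (ZMod ℓ)ˣ, t ^ e = s := by
  have hℓ1 : 0 < ℓ - 1 := by have := (Fact.out : ℓ.Prime).one_lt; omega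
  have hN0 : N ≠ 0 := by
    rintro rfl
    simp at hNe
    omega
  obtain ⟨g, hg⟩ := IsCyclic.exists_generator (α := (ZMod ℓ)ˣ)
  have hord : orderOf g = ℓ - 1 := by
    rw [orderOf_eq_card_of_forall_mem_zpowers hg, Nat.card_eq_fintype_card,
      ZMod.card_units_eq_totient, Nat.totient_prime Fact.out]
  obtain ⟨m, hm⟩ : ∃ m : ℕ, g ^ m = s := by
    have h1 := hg s
    rw [← mem_powers_iff_mem_zpowers] at h1
    exact h1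
  have h2 : g ^ (m * N) = 1 := by rw [pow_mul, hm, hs]
  have h3 : N * e ∣ m * N := by
    rw [← hNe, ← hord]
    exact orderOf_dvd_of_pow_eq_one h2
  have h4 : e ∣ m := by
    rw [mul_comm m N] at h3
    exact (Nat.mul_dvd_mul_iff_left (Nat.pos_of_ne_zero hN0)).mp h3
  obtain ⟨c, rfl⟩ := h4
  exact ⟨g ^ c, by rw [← hm, ← pow_mul, mul_comm]⟩

end Char

section Tower

variable {L Ω Ω₁ : Type} [Field L] [NumberField L] [IsGalois ℚ L]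
  [Field Ω] [NumberField Ω] [IsGalois ℚ Ω] [Field Ω₁] [NumberField Ω₁] [IsGalois ℚ Ω₁]
  [Algebra L Ω] [Algebra Ω Ω₁] [Algebra L Ω₁] [IsScalarTower L Ω Ω₁]
  {ℓ : ℕ} [Fact ℓ.Prime] {ζ : Ω₁} (hζ : IsPrimitiveRoot ζ ℓ)

/-- **[CROSS-FIELDS], abstract tower form.** -/
theorem crossTower (N e : ℕ) (hNe : ℓ - 1 = N * e) (he : Even e)
    (hker : haveI : NeZero ℓ := ⟨(Fact.out : ℓ.Prime).ne_zero⟩
      (resΩ (Ω := Ω) (Ω₁ := Ω₁)).ker ≤ (kappa1 hζ e).ker)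
    (hker' : haveI : NeZero ℓ := ⟨(Fact.out : ℓ.Prime).ne_zero⟩
      (resL1 (L := L) (Ω₁ := Ω₁)).ker ⊓ (kappa1 hζ e).ker ≤ (resΩ (Ω := Ω) (Ω₁ := Ω₁)).ker)
    (hG2 : haveI : NeZero ℓ := ⟨(Fact.out : ℓ.Prime).ne_zero⟩
      ∀ (g : Gal(L/ℚ)) (v : (ZMod ℓ)ˣ),
        ∃ τ : Gal(Ω₁/ℚ), AlgEquiv.restrictNormalHom L τ = g ∧ hζ.autToPow ℚ τ = v) :
    ∃ (χ : DirichletCharacter ℂ ℓ) (ψ : Gal(Ω/ℚ) →* ℂˣ),
        χ.Even ∧
        (∀ g : Gal(Ω/ℚ), AlgEquiv.restrictNormalHom L g = 1 → ψ g = 1 → g = 1) ∧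
        (∀ (τ : Gal(L/ℚ)) (w : ℂˣ), w ^ N = 1 →
          ∃ g : Gal(Ω/ℚ), AlgEquiv.restrictNormalHom L g = τ ∧ ψ g = w) ∧
        (∀ g : Gal(Ω/ℚ), ψ g ^ N = 1) ∧
        (∀ (g₁ : Gal(Ω₁/ℚ)) (j : ℕ), g₁ ζ = ζ ^ j →
          ((ψ (AlgEquiv.restrictNormalHom Ω g₁) : ℂˣ) : ℂ) = χ (j : ZMod ℓ)) := by
  have : NeZero ℓ := ⟨(Fact.out : ℓ.Prime).ne_zero⟩
  obtain ⟨ω, hω, hωs⟩ := exists_faithful_char ℓ
  have hpow : ∀ u : (ZMod ℓ)ˣ, u ^ (ℓ - 1) = 1 := fun u => by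
    have h := ZMod.pow_card_sub_one_eq_one (p := ℓ) (a := (u : ZMod ℓ)) u.ne_zero
    exact Units.ext (by rw [Units.val_pow_eq_pow_val, h]; rfl)
  refine ⟨crossChar ω e, ω.comp (kappa hζ e hker), crossChar_even ω he, ?_, ?_, ?_, ?_⟩
  · intro g h1 h2
    have h3 : kappa hζ e hker g = kappa hζ e hker 1 := by
      apply hω
      rw [map_one, map_one]
      exact h2
    exact kappa_inj (L := L) hζ e hker hker' g 1 (by rw [map_one]; exact h1) h3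
  · intro τ w hw
    have hw' : w ^ (ℓ - 1) = 1 := by rw [hNe, pow_mul, hw, one_pow]
    obtain ⟨s, hs⟩ := hωs w hw'
    have hsN : s ^ N = 1 := by
      apply hω
      rw [map_pow, hs, hw, map_one]
    obtain ⟨t, ht⟩ := exists_pow_eq_of_pow_eq_one ℓ N e hNe s hsN
    obtain ⟨a, ha1, ha2⟩ := kappa_surj (L := L) (Ω := Ω) hζ e hker hG2 τ t
    refine ⟨a, ha1, ?_⟩
    rw [MonoidHom.comp_apply, ha2, ht, hs]
  · intro g
    obtain ⟨γ, rfl⟩ := resΩ_surjective (Ω := Ω) (Ω₁ := Ω₁) g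
    rw [MonoidHom.comp_apply, kappa_resΩ, kappa1_apply, ← map_pow, ← pow_mul, mul_comm, ← hNe,
      hpow, map_one]
  · intro g₁ j hj
    have h1 := autToPow_eq_natCast hζ g₁ j hj
    rw [← h1, crossChar_apply]
    show ((ω (kappa hζ e hker (resΩ g₁)) : ℂˣ) : ℂ) = _
    rw [kappa_resΩ, kappa1_apply]

end Tower

end Fermat.Agent.T4.helper38
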