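import Mathlib
import Fermat.Agent.S14.helper39_Crossing

/-!
# T4 block (II): [CROSS-GAL] the Galois group of `L(ζ_ℓ)/ℚ` (helper62)

`L` is a number field and `ℓ` a prime which is unramified at one prime `P` of `𝓞 L` above it
(in the form `ℓ ∈ P`, `ℓ ∉ P ^ 2`).

* `irreducible_cyclotomic_of_unram` : the `ℓ`-th cyclotomic polynomial is irreducible over `L`
  (Eisenstein at `P` for `Φ_ℓ(X + 1)`, Gauss lemma).
* `autToPow_surjective` : if `Φ_ℓ` is irreducible over `L`, the cyclotomic character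
  `Gal(L(ζ_ℓ)/L) → (ZMod ℓ)ˣ` is surjective.
* `exists_aut_of_irreducible` : for `L/ℚ` normal, `Ω = L(ζ_ℓ)` normal over `ℚ`, every pair
  `(g, t) ∈ Gal(L/ℚ) × (ZMod ℓ)ˣ` is `(restriction, cyclotomic character)` of some
  `a ∈ Gal(Ω/ℚ)`.
* `exists_prime_unram` : arbitrarily large primes `ℓ ≡ 1 mod N` with such a `P`.
* `crossGal` : the package for `Ω = CyclotomicField ℓ L`.
-/

set_option autoImplicit false
set_option linter.unusedSectionVars false
set_option linter.unusedVariables false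
set_option linter.style.longLine false
set_option linter.style.haveILetI false

open Polynomial NumberField

namespace Fermat.Agent.T4.helper62

theorem monic_cyclotomic_comp (R : Type*) [CommRing R] [Nontrivial R] (ℓ : ℕ) :
    ((cyclotomic ℓ R).comp (X + 1)).Monic := by
  rw [show (X + 1 : R[X]) = X + C 1 by simp]
  refine (cyclotomic.monic ℓ R).comp (monic_X_add_C 1) fun h => ?_
  rw [natDegree_X_add_C] at h
  exact zero_ne_one h.symm

theorem isEisensteinAt_cyclotomic_comp (L : Type*) [Field L] [NumberField L] (ℓ : ℕ)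
    [hℓ : Fact ℓ.Prime] (P : Ideal (𝓞 L)) [hP : P.IsPrime] (h1 : (ℓ : 𝓞 L) ∈ P)
    (h2 : (ℓ : 𝓞 L) ∉ P ^ 2) :
    ((cyclotomic ℓ (𝓞 L)).comp (X + 1)).IsEisensteinAt P := by
  have hZ := cyclotomic_comp_X_add_one_isEisensteinAt ℓ
  have hmap : (cyclotomic ℓ (𝓞 L)).comp (X + 1) =
      ((cyclotomic ℓ ℤ).comp (X + 1)).map (Int.castRingHom (𝓞 L)) := by
    rw [Polynomial.map_comp, map_cyclotomic_int]
    simp
  refine (monic_cyclotomic_comp (𝓞 L) ℓ).isEisensteinAt_of_mem_of_notMem hP.ne_top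
    (fun {n} hn => ?_) ?_
  · have hn' : n < ((cyclotomic ℓ ℤ).comp (X + 1)).natDegree := by
      rw [hmap] at hn
      exact lt_of_lt_of_le hn natDegree_map_le
    have hmem := hZ.mem hn'
    rw [Submodule.mem_span_singleton] at hmem
    obtain ⟨c, hc⟩ := hmem
    rw [hmap, coeff_map, ← hc]
    simp only [smul_eq_mul, eq_intCast, Int.cast_mul, Int.cast_natCast]
    exact P.mul_mem_left _ h1
  · rw [coeff_zero_eq_eval_zero, eval_comp]
    simpa [eval_one_cyclotomic_prime] using h2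

theorem irreducible_cyclotomic_of_unram (L : Type*) [Field L] [NumberField L] (ℓ : ℕ)
    [hℓ : Fact ℓ.Prime] (P : Ideal (𝓞 L)) [hP : P.IsPrime] (h1 : (ℓ : 𝓞 L) ∈ P)
    (h2 : (ℓ : 𝓞 L) ∉ P ^ 2) : Irreducible (cyclotomic ℓ L) := by
  have hE := isEisensteinAt_cyclotomic_comp L ℓ P h1 h2
  have hmonic := monic_cyclotomic_comp (𝓞 L) ℓ
  have hdeg : 0 < ((cyclotomic ℓ (𝓞 L)).comp (X + 1)).natDegree := by
    rw [natDegree_comp, natDegree_cyclotomic]
    have : (X + 1 : (𝓞 L)[X]).natDegree = 1 := by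
      rw [show (X + 1 : (𝓞 L)[X]) = X + C 1 by simp, natDegree_X_add_C]
    rw [this, mul_one]
    exact Nat.totient_pos.mpr hℓ.out.pos
  have hirr1 : Irreducible ((cyclotomic ℓ (𝓞 L)).comp (X + 1)) :=
    hE.irreducible hP hmonic.isPrimitive hdeg
  have hirr2 : Irreducible (cyclotomic ℓ (𝓞 L)) := by
    have h : (cyclotomic ℓ (𝓞 L)).comp (X + 1) =
        (taylorEquiv (1 : 𝓞 L)).toMulEquiv (cyclotomic ℓ (𝓞 L)) := by
      show _ = taylor (1 : 𝓞 L) (cyclotomic ℓ (𝓞 L))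
      rw [taylor_apply]
      simp
    rw [h] at hirr1
    exact (MulEquiv.irreducible_iff _).mp hirr1
  have h3 := (Monic.irreducible_iff_irreducible_map_fraction_map (K := L)
    (cyclotomic.monic ℓ (𝓞 L))).mp hirr2
  rwa [map_cyclotomic] at h3

section B

variable (L : Type*) [Field L] (ℓ : ℕ) [NeZero ℓ]
  (Ω : Type*) [Field Ω] [Algebra L Ω] [IsCyclotomicExtension {ℓ} L Ω]

/-- Over a field `L` over which the `ℓ`-th cyclotomic polynomial is irreducible, every unit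
mod `ℓ` is the cyclotomic character of an `L`-automorphism of `L(ζ_ℓ)`. -/
theorem autToPow_surjective (hirr : Irreducible (cyclotomic ℓ L)) {ζ : Ω}
    (hζ : IsPrimitiveRoot ζ ℓ) : Function.Surjective (hζ.autToPow L) := by
  haveI : FiniteDimensional L Ω := IsCyclotomicExtension.finiteDimensional {ℓ} L Ω
  haveI : IsGalois L Ω := IsCyclotomicExtension.isGalois {ℓ} L Ω
  have hinj := hζ.autToPow_injective L
  have hcard : Nat.card Gal(Ω/L) = Nat.card (ZMod ℓ)ˣ := by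
    rw [IsGalois.card_aut_eq_finrank, IsCyclotomicExtension.finrank Ω hirr,
      Nat.card_eq_fintype_card, ZMod.card_units_eq_totient]
  haveI : Finite Gal(Ω/L) := inferInstance
  exact ((Nat.bijective_iff_injective_and_card _).mpr ⟨hinj, hcard⟩).surjective

end B

section B2

variable (L : Type*) [Field L] [Algebra ℚ L] (ℓ : ℕ) [NeZero ℓ]
  (Ω : Type*) [Field Ω] [Algebra L Ω] [Algebra ℚ Ω] [IsScalarTower ℚ L Ω]
  [IsCyclotomicExtension {ℓ} L Ω] [Normal ℚ L] [Normal ℚ Ω]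

/-- The cyclotomic character does not depend on the base field. -/
theorem autToPow_restrictScalars {ζ : Ω} (hζ : IsPrimitiveRoot ζ ℓ) (b : Gal(Ω/L)) :
    hζ.autToPow ℚ (b.restrictScalars ℚ) = hζ.autToPow L b := by
  have h1 := hζ.autToPow_spec ℚ (b.restrictScalars ℚ)
  have h2 := hζ.autToPow_spec L b
  have h3 : (b.restrictScalars ℚ) ζ = b ζ := rfl
  rw [h3, ← h2] at h1
  have h4 := hζ.pow_inj (ZMod.val_lt _) (ZMod.val_lt _) h1
  exact Units.ext (ZMod.val_injective ℓ h4)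

/-- **[CROSS-GAL]** surjectivity of `(restriction to L, cyclotomic character)`. -/
theorem exists_aut_of_irreducible (hirr : Irreducible (cyclotomic ℓ L)) {ζ : Ω}
    (hζ : IsPrimitiveRoot ζ ℓ) (g : Gal(L/ℚ)) (t : (ZMod ℓ)ˣ) :
    ∃ a : Gal(Ω/ℚ), AlgEquiv.restrictNormalHom L a = g ∧ hζ.autToPow ℚ a = t := by
  obtain ⟨a₀, ha₀⟩ := AlgEquiv.restrictNormalHom_surjective (F := ℚ) (K₁ := L) Ω g
  obtain ⟨b, hb⟩ := autToPow_surjective L ℓ Ω hirr hζ ((hζ.autToPow ℚ a₀)⁻¹ * t)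
  refine ⟨a₀ * b.restrictScalars ℚ, ?_, ?_⟩
  · rw [map_mul, ha₀]
    have : AlgEquiv.restrictNormalHom L (b.restrictScalars ℚ) = 1 := by
      apply AlgEquiv.ext
      intro x
      apply (algebraMap L Ω).injective
      have h := AlgEquiv.restrictNormal_commutes (b.restrictScalars ℚ) L x
      have h' : (b.restrictScalars ℚ) (algebraMap L Ω x) = algebraMap L Ω x := b.commutes x
      rw [h'] at h
      exact h
    rw [this, mul_one]
  · rw [map_mul, autToPow_restrictScalars L ℓ Ω hζ b, hb, mul_inv_cancel_left]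

end B2

/-- Choice of the auxiliary prime: arbitrarily large primes `ℓ ≡ 1 mod N` which are unramified
at some prime `P` of `𝓞 L` above `ℓ`, in the form `ℓ ∈ P`, `ℓ ∉ P ^ 2`. -/
theorem exists_prime_unram (L : Type*) [Field L] [NumberField L] (N : ℕ) (hN : N ≠ 0) (B : ℕ) :
    ∃ ℓ : ℕ, ℓ.Prime ∧ B < ℓ ∧ ℓ ≡ 1 [MOD N] ∧
      ∃ P : Ideal (𝓞 L), P.IsPrime ∧ (ℓ : 𝓞 L) ∈ P ∧ (ℓ : 𝓞 L) ∉ P ^ 2 := by
  classical
  have hfin : {P : IsDedekindDomain.HeightOneSpectrum (𝓞 L) |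
      P.asIdeal ∣ differentIdeal ℤ (𝓞 L)}.Finite :=
    Ideal.finite_factors differentIdeal_ne_bot
  set S : Finset ℕ := hfin.toFinset.image (fun P => Ideal.absNorm P.asIdeal) with hS
  obtain ⟨ℓ, hℓ, hgt, hmod⟩ := Nat.exists_prime_gt_modEq_one (B + S.sup id) hN
  have hpprime : (Ideal.span {(ℓ : ℤ)}).IsPrime :=
    (Ideal.span_singleton_prime (by exact_mod_cast hℓ.ne_zero)).2 (Nat.prime_iff_prime_int.1 hℓ)
  obtain ⟨P, -, hPprime, hPcomap⟩ := Ideal.exists_ideal_over_prime_of_isIntegral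
    (Ideal.span {(ℓ : ℤ)}) (⊥ : Ideal (𝓞 L)) (by
      rw [Ideal.comap_bot_of_injective _ (FaithfulSMul.algebraMap_injective ℤ (𝓞 L))]
      exact bot_le)
  haveI := hPprime
  have hmem : (ℓ : 𝓞 L) ∈ P := by
    have : (ℓ : ℤ) ∈ P.comap (algebraMap ℤ (𝓞 L)) := by
      rw [hPcomap]
      exact Ideal.mem_span_singleton_self _
    simpa using this
  have hℓ0 : (ℓ : 𝓞 L) ≠ 0 := by exact_mod_cast hℓ.ne_zero
  have hP0 : P ≠ ⊥ := by
    rintro rfl
    exact hℓ0 (by simpa using hmem)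
  refine ⟨ℓ, hℓ, by omega, hmod, P, hPprime, hmem, ?_⟩
  -- `P` does not divide the different
  have hnd : ¬ P ∣ differentIdeal ℤ (𝓞 L) := by
    intro hd
    have hPS : Ideal.absNorm P ∈ S :=
      Finset.mem_image.mpr ⟨⟨P, hPprime, hP0⟩, hfin.mem_toFinset.mpr hd, rfl⟩
    have h1 : Ideal.absNorm P ≤ S.sup id := Finset.le_sup (f := id) hPS
    have h2 : (Ideal.absNorm P : ℤ) ∣ Algebra.norm ℤ (ℓ : 𝓞 L) :=
      Ideal.absNorm_dvd_norm_of_mem hmem
    have h3 : Algebra.norm ℤ (ℓ : 𝓞 L) = (ℓ : ℤ) ^ Module.finrank ℤ (𝓞 L) := by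
      have := Algebra.norm_algebraMap (R := ℤ) (S := 𝓞 L) (ℓ : ℤ)
      simpa using this
    rw [h3] at h2
    have h4 : Ideal.absNorm P ∣ ℓ ^ Module.finrank ℤ (𝓞 L) := by exact_mod_cast h2
    obtain ⟨j, -, hj⟩ := (Nat.dvd_prime_pow hℓ).mp h4
    have hne1 : Ideal.absNorm P ≠ 1 := by
      rw [Ne, Ideal.absNorm_eq_one_iff]
      exact hPprime.ne_top
    have hj0 : j ≠ 0 := by
      rintro rfl
      exact hne1 (by simpa using hj)
    have h5 : ℓ ≤ Ideal.absNorm P := by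
      rw [hj]
      calc ℓ = ℓ ^ 1 := (pow_one ℓ).symm
        _ ≤ ℓ ^ j := Nat.pow_le_pow_right hℓ.pos (Nat.one_le_iff_ne_zero.mpr hj0)
    omega
  haveI hur : Algebra.IsUnramifiedAt ℤ P := not_dvd_differentIdeal_iff.mp hnd
  have he : P.ramificationIdx ℤ = 1 := Ideal.ramificationIdx_eq_one_of_isUnramifiedAt
  haveI : P.LiesOver (Ideal.span {(ℓ : ℤ)}) := ⟨hPcomap.symm⟩
  have hmap : (Ideal.span {(ℓ : ℤ)}).map (algebraMap ℤ (𝓞 L)) = Ideal.span {(ℓ : 𝓞 L)} := by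
    rw [Ideal.map_span, Set.image_singleton]
    simp
  have hmap0 : (Ideal.span {(ℓ : ℤ)}).map (algebraMap ℤ (𝓞 L)) ≠ ⊥ := by
    rw [hmap, Ne, Ideal.span_singleton_eq_bot]
    exact hℓ0
  have hcount := Ideal.IsDedekindDomain.ramificationIdx_eq_normalizedFactors_count
    (Ideal.span {(ℓ : ℤ)}) P hmap0
  rw [he, hmap] at hcount
  intro hsq
  have hdvd : P ^ 2 ∣ Ideal.span {(ℓ : 𝓞 L)} := by
    rw [Ideal.dvd_iff_le, Ideal.span_singleton_le_iff_mem]
    exact hsq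
  have hirr : Irreducible P := (Ideal.prime_of_isPrime hP0 hPprime).irreducible
  have hne : Ideal.span {(ℓ : 𝓞 L)} ≠ 0 := by
    rw [Ne, Ideal.zero_eq_bot, Ideal.span_singleton_eq_bot]
    exact hℓ0
  have hem := le_emultiplicity_of_pow_dvd hdvd
  rw [UniqueFactorizationMonoid.emultiplicity_eq_count_normalizedFactors hirr hne,
    normalize_eq, ← hcount] at hem
  norm_cast at hem

/-- **[CROSS-GAL]**, packaged for `Ω = CyclotomicField ℓ L`: it is Galois over `ℚ`, and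
`(restriction to L, cyclotomic character)` is onto `Gal(L/ℚ) × (ZMod ℓ)ˣ`
(injectivity: `Fermat.Agent.S14.helper39.eq_one_of_fixes`). -/
theorem crossGal (L : Type) [Field L] [NumberField L] [IsGalois ℚ L] (ℓ : ℕ) [Fact ℓ.Prime]
    [NeZero ℓ] (P : Ideal (𝓞 L)) [P.IsPrime] (h1 : (ℓ : 𝓞 L) ∈ P) (h2 : (ℓ : 𝓞 L) ∉ P ^ 2) :
    IsGalois ℚ (CyclotomicField ℓ L) ∧
      ∀ {ζ : CyclotomicField ℓ L} (hζ : IsPrimitiveRoot ζ ℓ) (g : Gal(L/ℚ)) (t : (ZMod ℓ)ˣ),
        ∃ a : Gal(CyclotomicField ℓ L/ℚ),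
          AlgEquiv.restrictNormalHom L a = g ∧ hζ.autToPow ℚ a = t := by
  haveI hG : IsGalois ℚ (CyclotomicField ℓ L) :=
    Fermat.Agent.S14.helper39.isGalois_of_isCyclotomicExtension ℚ L ℓ (CyclotomicField ℓ L)
  refine ⟨hG, fun {ζ} hζ g t => ?_⟩
  exact exists_aut_of_irreducible L ℓ (CyclotomicField ℓ L)
    (irreducible_cyclotomic_of_unram L ℓ P h1 h2) hζ g t

end Fermat.Agent.T4.helper62
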