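import Mathlib
import Fermat.Agent.T4.helper39_ChebCrossDefs
import Fermat.Agent.T4.helper62_CrossGal
import Fermat.Agent.T4.helper38_CrossTower

/-!
# T4 block (II), leaf [CROSS-FIELDS] (helper38, row 1055)

`crossFields : helper39.CrossFieldsStatement`, with `Ω₁ = CyclotomicField ℓ L` and
`Ω` the fixed field of `ker (res_L) ⊓ ker (χ₁ ^ e)`, `e = (ℓ - 1) / N`.
-/

set_option autoImplicit false
set_option linter.unusedSectionVars false
set_option linter.unusedVariables false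
set_option linter.style.longLine false
set_option linter.style.haveILetI false

open NumberField

namespace Fermat.Agent.T4.helper38

/-- transport of `IsGalois ℚ K` to the canonical `ℚ`-algebra structure. -/
theorem isGalois_toRatAlgebra {K : Type} [Field K] [CharZero K] (A : Algebra ℚ K)
    (h : @IsGalois ℚ _ K _ A) : @IsGalois ℚ _ K _ DivisionRing.toRatAlgebra := by
  have hA : A = DivisionRing.toRatAlgebra := Subsingleton.elim _ _
  subst hA
  exact h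

section Layer3

variable {L Ω₁ : Type} [Field L] [NumberField L] [IsGalois ℚ L]
  [Field Ω₁] [NumberField Ω₁] [IsGalois ℚ Ω₁] [Algebra L Ω₁]
  {ℓ : ℕ} [NeZero ℓ] {ζ : Ω₁} (hζ : IsPrimitiveRoot ζ ℓ) (e : ℕ)

/-- the subgroup `ker (res_L) ⊓ ker (χ₁ ^ e)` of `Gal(Ω₁/ℚ)`. -/
noncomputable def crossH : Subgroup Gal(Ω₁/ℚ) :=
  (resL1 (L := L) (Ω₁ := Ω₁)).ker ⊓ (kappa1 hζ e).ker

instance crossH_normal : (crossH (L := L) hζ e).Normal := by
  unfold crossH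
  infer_instance

/-- the crossing field. -/
noncomputable abbrev crossΩ : IntermediateField ℚ Ω₁ :=
  IntermediateField.fixedField (crossH (L := L) hζ e)

lemma algebraMap_mem_crossΩ (x : L) : algebraMap L Ω₁ x ∈ crossΩ (L := L) hζ e := by
  rw [IntermediateField.mem_fixedField_iff]
  intro γ hγ
  exact (mem_ker_resL1_iff (L := L) γ).mp hγ.1 x

/-- the `L`-algebra structure of the crossing field. -/
noncomputable abbrev crossAlg : Algebra L (crossΩ (L := L) hζ e) :=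
  (RingHom.codRestrict (algebraMap L Ω₁) (crossΩ (L := L) hζ e)
    (algebraMap_mem_crossΩ hζ e)).toAlgebra

end Layer3

section Layer3b

variable {L Ω₁ : Type} [Field L] [NumberField L] [IsGalois ℚ L]
  [Field Ω₁] [NumberField Ω₁] [IsGalois ℚ Ω₁] [Algebra L Ω₁]
  {ℓ : ℕ} [Fact ℓ.Prime] {ζ : Ω₁} (hζ : IsPrimitiveRoot ζ ℓ)

/-- **[CROSS-FIELDS] over a given `Ω₁`.** -/
theorem crossFields_of (N : ℕ) (hN : 2 * N ∣ ℓ - 1)
    (hG2 : haveI : NeZero ℓ := ⟨(Fact.out : ℓ.Prime).ne_zero⟩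
      ∀ (g : Gal(L/ℚ)) (v : (ZMod ℓ)ˣ),
        ∃ τ : Gal(Ω₁/ℚ), AlgEquiv.restrictNormalHom L τ = g ∧ hζ.autToPow ℚ τ = v) :
    ∃ (Ω : Type) (_ : Field Ω) (_ : NumberField Ω) (_ : Algebra L Ω) (_ : IsGalois ℚ Ω)
        (_ : Algebra Ω Ω₁) (χ : DirichletCharacter ℂ ℓ) (ψ : Gal(Ω/ℚ) →* ℂˣ),
        χ.Even ∧
        (∀ g : Gal(Ω/ℚ), AlgEquiv.restrictNormalHom L g = 1 → ψ g = 1 → g = 1) ∧
        (∀ (τ : Gal(L/ℚ)) (w : ℂˣ), w ^ N = 1 →
          ∃ g : Gal(Ω/ℚ), AlgEquiv.restrictNormalHom L g = τ ∧ ψ g = w) ∧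
        (∀ g : Gal(Ω/ℚ), ψ g ^ N = 1) ∧
        (∀ (g₁ : Gal(Ω₁/ℚ)) (j : ℕ), g₁ ζ = ζ ^ j →
          ((ψ (AlgEquiv.restrictNormalHom Ω g₁) : ℂˣ) : ℂ) = χ (j : ZMod ℓ)) := by
  have : NeZero ℓ := ⟨(Fact.out : ℓ.Prime).ne_zero⟩
  have hℓ1 : 0 < ℓ - 1 := by have := (Fact.out : ℓ.Prime).one_lt; omega
  obtain ⟨c, hc⟩ := hN
  have hN0 : N ≠ 0 := by
    rintro rfl
    simp at hc
    omega
  -- `e = 2 c`
  have hNe : ℓ - 1 = N * (2 * c) := by rw [hc]; ring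
  have he : Even (2 * c) := even_two_mul c
  letI iA : Algebra L (crossΩ (L := L) hζ (2 * c)) := crossAlg hζ (2 * c)
  have iT : IsScalarTower L (crossΩ (L := L) hζ (2 * c)) Ω₁ :=
    IsScalarTower.of_algebraMap_eq (fun _ => rfl)
  have iG0 : IsGalois ℚ (crossΩ (L := L) hζ (2 * c)) :=
    IsGalois.of_fixedField_normal_subgroup (crossH (L := L) hζ (2 * c))
  have iG : @IsGalois ℚ _ (crossΩ (L := L) hζ (2 * c)) _ DivisionRing.toRatAlgebra :=
    isGalois_toRatAlgebra _ iG0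
  have hfix : ∀ γ : Gal(Ω₁/ℚ), γ ∈ crossH (L := L) hζ (2 * c) ↔
      ∀ x : crossΩ (L := L) hζ (2 * c), γ (x : Ω₁) = x := by
    intro γ
    constructor
    · intro hγ x
      exact (IntermediateField.mem_fixedField_iff _ _).mp x.2 γ hγ
    · intro h
      rw [← IntermediateField.fixingSubgroup_fixedField (crossH (L := L) hζ (2 * c)),
        IntermediateField.mem_fixingSubgroup_iff]
      intro x hx
      exact h ⟨x, hx⟩
  have hker : (resΩ (Ω := crossΩ (L := L) hζ (2 * c)) (Ω₁ := Ω₁)).ker ≤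
      (kappa1 hζ (2 * c)).ker := by
    intro γ hγ
    have h1 := (mem_ker_resΩ_iff γ).mp hγ
    exact ((hfix γ).mpr h1).2
  have hker' : (resL1 (L := L) (Ω₁ := Ω₁)).ker ⊓ (kappa1 hζ (2 * c)).ker ≤
      (resΩ (Ω := crossΩ (L := L) hζ (2 * c)) (Ω₁ := Ω₁)).ker := by
    intro γ hγ
    exact (mem_ker_resΩ_iff γ).mpr ((hfix γ).mp hγ)
  obtain ⟨χ, ψ, h⟩ := crossTower (L := L) (Ω := crossΩ (L := L) hζ (2 * c)) hζ N (2 * c) hNe he
    hker hker' hG2
  exact ⟨crossΩ (L := L) hζ (2 * c), inferInstance, inferInstance, iA, iG, inferInstance, χ, ψ, h⟩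

end Layer3b

/-- All large primes are unramified at some prime of `𝓞 L` above them, in the form
`ℓ ∈ P`, `ℓ ∉ P ^ 2` (the argument of `helper62.exists_prime_unram`, for all large primes). -/
theorem exists_bound_unram (L : Type*) [Field L] [NumberField L] :
    ∃ B : ℕ, ∀ ℓ : ℕ, ℓ.Prime → B < ℓ →
      ∃ P : Ideal (𝓞 L), P.IsPrime ∧ (ℓ : 𝓞 L) ∈ P ∧ (ℓ : 𝓞 L) ∉ P ^ 2 := by
  classical
  have hfin : {P : IsDedekindDomain.HeightOneSpectrum (𝓞 L) |
      P.asIdeal ∣ differentIdeal ℤ (𝓞 L)}.Finite :=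
    Ideal.finite_factors differentIdeal_ne_bot
  set S : Finset ℕ := hfin.toFinset.image (fun P => Ideal.absNorm P.asIdeal) with hS
  refine ⟨S.sup id, fun ℓ hℓ hgt => ?_⟩
  have hpprime : (Ideal.span {(ℓ : ℤ)}).IsPrime :=
    (Ideal.span_singleton_prime (by exact_mod_cast hℓ.ne_zero)).2 (Nat.prime_iff_prime_int.1 hℓ)
  obtain ⟨P, -, hPprime, hPcomap⟩ := Ideal.exists_ideal_over_prime_of_isIntegral
    (Ideal.span {(ℓ : ℤ)}) (⊥ : Ideal (𝓞 L)) (by
      rw [Ideal.comap_bot_of_injective _ (FaithfulSMul.algebraMap_injective ℤ (𝓞 L))]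
      exact bot_le)
  haveI := hPprime
  have hmem : (ℓ : 𝓞 L) ∈ P := by
    have : (ℓ : ℤ) ∈ P.comap (algebraMap ℤ (𝓞 L)) := by
      rw [hPcomap]
      exact Ideal.mem_span_singleton_self _
    simpa using this
  have hℓ0 : (ℓ : 𝓞 L) ≠ 0 := by exact_mod_cast hℓ.ne_zero
  have hP0 : P ≠ ⊥ := by
    rintro rfl
    exact hℓ0 (by simpa using hmem)
  refine ⟨P, hPprime, hmem, ?_⟩
  -- `P` does not divide the different
  have hnd : ¬ P ∣ differentIdeal ℤ (𝓞 L) := by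
    intro hd
    have hPS : Ideal.absNorm P ∈ S :=
      Finset.mem_image.mpr ⟨⟨P, hPprime, hP0⟩, hfin.mem_toFinset.mpr hd, rfl⟩
    have h1 : Ideal.absNorm P ≤ S.sup id := Finset.le_sup (f := id) hPS
    have h2 : (Ideal.absNorm P : ℤ) ∣ Algebra.norm ℤ (ℓ : 𝓞 L) :=
      Ideal.absNorm_dvd_norm_of_mem hmem
    have h3 : Algebra.norm ℤ (ℓ : 𝓞 L) = (ℓ : ℤ) ^ Module.finrank ℤ (𝓞 L) := by
      have := Algebra.norm_algebraMap (R := ℤ) (S := 𝓞 L) (ℓ : ℤ)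
      simpa using this
    rw [h3] at h2
    have h4 : Ideal.absNorm P ∣ ℓ ^ Module.finrank ℤ (𝓞 L) := by exact_mod_cast h2
    obtain ⟨j, -, hj⟩ := (Nat.dvd_prime_pow hℓ).mp h4
    have hne1 : Ideal.absNorm P ≠ 1 := by
      rw [Ne, Ideal.absNorm_eq_one_iff]
      exact hPprime.ne_top
    have hj0 : j ≠ 0 := by
      rintro rfl
      exact hne1 (by simpa using hj)
    have h5 : ℓ ≤ Ideal.absNorm P := by
      rw [hj]
      calc ℓ = ℓ ^ 1 := (pow_one ℓ).symm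
        _ ≤ ℓ ^ j := Nat.pow_le_pow_right hℓ.pos (Nat.one_le_iff_ne_zero.mpr hj0)
    omega
  haveI hur : Algebra.IsUnramifiedAt ℤ P := not_dvd_differentIdeal_iff.mp hnd
  have he : P.ramificationIdx ℤ = 1 := Ideal.ramificationIdx_eq_one_of_isUnramifiedAt
  haveI : P.LiesOver (Ideal.span {(ℓ : ℤ)}) := ⟨hPcomap.symm⟩
  have hmap : (Ideal.span {(ℓ : ℤ)}).map (algebraMap ℤ (𝓞 L)) = Ideal.span {(ℓ : 𝓞 L)} := by
    rw [Ideal.map_span, Set.image_singleton]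
    simp
  have hmap0 : (Ideal.span {(ℓ : ℤ)}).map (algebraMap ℤ (𝓞 L)) ≠ ⊥ := by
    rw [hmap, Ne, Ideal.span_singleton_eq_bot]
    exact hℓ0
  have hcount := Ideal.IsDedekindDomain.ramificationIdx_eq_normalizedFactors_count
    (Ideal.span {(ℓ : ℤ)}) P hmap0
  rw [he, hmap] at hcount
  intro hsq
  have hdvd : P ^ 2 ∣ Ideal.span {(ℓ : 𝓞 L)} := by
    rw [Ideal.dvd_iff_le, Ideal.span_singleton_le_iff_mem]
    exact hsq
  have hirr : Irreducible P := (Ideal.prime_of_isPrime hP0 hPprime).irreducible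
  have hne : Ideal.span {(ℓ : 𝓞 L)} ≠ 0 := by
    rw [Ne, Ideal.zero_eq_bot, Ideal.span_singleton_eq_bot]
    exact hℓ0
  have hem := le_emultiplicity_of_pow_dvd hdvd
  rw [UniqueFactorizationMonoid.emultiplicity_eq_count_normalizedFactors hirr hne,
    normalize_eq, ← hcount] at hem
  norm_cast at hem

/-- **[CROSS-FIELDS]** (row 1055). -/
theorem crossFields : Fermat.Agent.T4.helper39.CrossFieldsStatement := by
  intro L _ _ _
  obtain ⟨B, hB⟩ := exists_bound_unram L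
  refine ⟨B, fun ℓ _ hℓ N hN => ?_⟩
  obtain ⟨P, hP, h1, h2⟩ := hB ℓ Fact.out hℓ
  haveI := hP
  haveI : NeZero ℓ := ⟨(Fact.out : ℓ.Prime).ne_zero⟩
  obtain ⟨hG, hsurj⟩ := Fermat.Agent.T4.helper62.crossGal L ℓ P h1 h2
  obtain ⟨ζ, hζ⟩ := IsCyclotomicExtension.exists_isPrimitiveRoot L (CyclotomicField ℓ L)
    (Set.mem_singleton ℓ) (NeZero.ne ℓ)
  obtain ⟨Ω, i1, i2, i3, i4, i5, χ, ψ, h⟩ :=
    crossFields_of (L := L) (Ω₁ := CyclotomicField ℓ L) hζ N hN (hsurj hζ)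
  exact ⟨Ω, i1, i2, i3, i4, CyclotomicField ℓ L, inferInstance, inferInstance, i5, hG, ζ, χ, ψ,
    hζ, h⟩

end Fermat.Agent.T4.helper38
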