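import Mathlib
import Fermat.Agent.T4.helper62_ChebDefs
import Fermat.Agent.S14.helper12_Artin
import Fermat.Agent.S14.helper39_CycloInertia

/-!
# T4 block (II), leaf [T4-CHEB-CROSS], sub-leaf [CROSS-FROB] (helper39)

Generic Frobenius lemma for a tower `F ⊆ Ω ⊆ Ω₁` of number fields, `Ω/F` and `Ω₁/F` Galois:
for a prime `𝔮` of `F` unramified in `Ω` the Frobenius `frobAt F Ω 𝔮` is the restriction of some
`σ₁ ∈ Gal(Ω₁/F)` which raises every root of unity of order prime to `𝔮` to the power `N𝔮`.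
-/

set_option autoImplicit false
set_option linter.unusedSectionVars false
set_option linter.unusedVariables false
set_option linter.style.longLine false
set_option linter.style.haveILetI false
set_option linter.overlappingInstances false

open NumberField Ideal IsDedekindDomain
open scoped Pointwise

namespace Fermat.Agent.T4.helper39

open Fermat.Agent.S14

section Frob

variable {F Ω Ω₁ : Type*} [Field F] [NumberField F] [Field Ω] [NumberField Ω] [Field Ω₁]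
  [NumberField Ω₁] [Algebra F Ω] [Algebra Ω Ω₁] [Algebra F Ω₁] [IsScalarTower F Ω Ω₁]
  [IsGalois F Ω] [IsGalois F Ω₁]

/-- The inertia group at a prime over a prime outside `ramSet` is trivial. -/
theorem inertia_eq_bot_of_notMem_ramSet (𝔮 : HeightOneSpectrum (𝓞 F))
    (hunr : 𝔮 ∉ helper52.ramSet F Ω) (𝔔 : Ideal (𝓞 Ω)) [𝔔.IsPrime]
    (h𝔔u : 𝔔.under (𝓞 F) = 𝔮.asIdeal) : 𝔔.inertia Gal(Ω/F) = ⊥ := by
  have : 𝔮.asIdeal.IsPrime := 𝔮.isPrime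
  have he : helper52.eNum F Ω 𝔮 = 1 := by
    by_contra h
    exact hunr h
  have : 𝔔.LiesOver 𝔮.asIdeal := ⟨h𝔔u.symm⟩
  have hin : Nat.card (𝔔.inertia Gal(Ω/F)) = 1 := by
    rw [Ideal.card_inertia_eq_ramificationIdxIn 𝔮.asIdeal 𝔔]
    exact he
  exact Subgroup.card_eq_one.mp hin

/-- [CROSS-FROB], generic form. -/
theorem frob_cyclo (𝔮 : HeightOneSpectrum (𝓞 F)) (hunr : 𝔮 ∉ helper52.ramSet F Ω)
    {m : ℕ} {ζ : Ω₁} (hζ : ζ ^ m = 1) (hm : (m : 𝓞 F) ∉ 𝔮.asIdeal) :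
    ∃ σ₁ : Gal(Ω₁/F), AlgEquiv.restrictNormalHom Ω σ₁ = frobAt F Ω 𝔮.asIdeal ∧
      σ₁ ζ = ζ ^ Ideal.absNorm 𝔮.asIdeal := by
  have : 𝔮.asIdeal.IsPrime := 𝔮.isPrime
  obtain ⟨𝔔, h𝔔p, h𝔔0, h𝔔u, hfrob⟩ :=
    helper12.exists_isArithFrobAt_frobAt F Ω 𝔮.asIdeal 𝔮.ne_bot
  haveI := h𝔔p
  haveI : IsGalois Ω Ω₁ := IsGalois.tower_top_of_isGalois F Ω Ω₁
  obtain ⟨𝔔₁, h𝔔₁p, h𝔔₁0, h𝔔₁u⟩ := helper12.exists_prime_over Ω Ω₁ 𝔔 h𝔔0
  haveI := h𝔔₁p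
  haveI : Finite (𝓞 Ω₁ ⧸ 𝔔₁) := Ideal.finiteQuotientOfFreeOfNeBot 𝔔₁ h𝔔₁0
  have h𝔔₁F : 𝔔₁.under (𝓞 F) = 𝔮.asIdeal := by
    rw [← h𝔔u, ← h𝔔₁u, Ideal.under_under]
  obtain ⟨σ₁, hσ₁⟩ := IsArithFrobAt.exists_of_isInvariant (𝓞 F) Gal(Ω₁/F) 𝔔₁
  have hcard : Nat.card (𝓞 F ⧸ 𝔔₁.under (𝓞 F)) = Ideal.absNorm 𝔮.asIdeal := by
    rw [h𝔔₁F, Ideal.absNorm_apply]; rfl
  refine ⟨σ₁, ?_, ?_⟩
  · have h1 : IsArithFrobAt (𝓞 F) (AlgEquiv.restrictNormalHom Ω σ₁) 𝔔 := by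
      intro y
      show (AlgEquiv.restrictNormalHom Ω σ₁) • y - y ^ Nat.card (𝓞 F ⧸ 𝔔.under (𝓞 F)) ∈ 𝔔
      have h2 := helper39.restrictNormalHom_frob (K := F) (L := Ω) 𝔔₁ σ₁
        (Nat.card (𝓞 F ⧸ 𝔔₁.under (𝓞 F))) (fun x => hσ₁ x) y
      rw [h𝔔₁u, h𝔔₁F, ← h𝔔u] at h2
      exact h2
    have h3 := h1.mul_inv_mem_inertia hfrob
    rw [inertia_eq_bot_of_notMem_ramSet 𝔮 hunr 𝔔 h𝔔u, Subgroup.mem_bot] at h3
    exact mul_inv_eq_one.mp h3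
  · have hm0 : m ≠ 0 := by rintro rfl; exact hm (by simp)
    have hm₁ : (m : 𝓞 Ω₁) ∉ 𝔔₁ := by
      intro h
      apply hm
      rw [← h𝔔₁F, Ideal.under_def, Ideal.mem_comap]
      simpa using h
    obtain ⟨z, hz, hz1⟩ := helper39.exists_integer_of_pow_eq_one (Ω := Ω₁) hm0 hζ
    have e1 := AlgHom.IsArithFrobAt.apply_of_pow_eq_one (R := 𝓞 F) hσ₁ hz1 hm₁
    have e2 := congrArg (algebraMap (𝓞 Ω₁) Ω₁) e1
    rw [map_pow, hz, hcard] at e2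
    rw [← e2, ← hz]
    rfl

end Frob

end Fermat.Agent.T4.helper39
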