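import Mathlib

/-!
# T4 block (II), leaf [T4-CHEB-CROSS]: the group theory of the crossing (helper39)

`Γ` a finite group, `res : Γ →* G`, `ψ : Γ →* ℂˣ` such that `(res, ψ)` is a bijection of `Γ`
onto `G × μ_N`.  Then
* the conjugacy class of `a` is in bijection with the class of `res a` (`card_conj_eq`);
* `|Γ| = |G| N` (`card_eq_mul`);
* the set `Y` of the `a` with `res a = σ`, `n ∣ orderOf (ψ a)` is in bijection with the
  elements of `μ_N` of order divisible by `n` (`card_crossY`);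
* `ψ` is injective on `⟨a⟩` for `a ∈ Y` (`eq_one_of_mem_zpowers`).
-/

set_option autoImplicit false
set_option linter.unusedSectionVars false
set_option linter.unusedVariables false
set_option linter.style.longLine false
set_option linter.style.haveILetI false

namespace Fermat.Agent.T4.helper39

section Group

variable {Γ G : Type*} [Group Γ] [Group G] (res : Γ →* G) (ψ : Γ →* ℂˣ)

/-- Conjugate elements have the same image under a character. -/
lemma psi_eq_of_isConj {a b : Γ} (h : IsConj a b) : ψ a = ψ b := by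
  obtain ⟨c, hc⟩ := isConj_iff.mp h
  rw [← hc, map_mul, map_mul, map_inv, mul_comm, ← mul_assoc, inv_mul_cancel, one_mul]

/-- `(res, ψ)` is injective. -/
lemma eq_of_res_eq_of_psi_eq
    (hinj : ∀ g : Γ, res g = 1 → ψ g = 1 → g = 1) {a b : Γ} (h1 : res a = res b)
    (h2 : ψ a = ψ b) : a = b := by
  have := hinj (a * b⁻¹) (by rw [map_mul, map_inv, h1, mul_inv_cancel])
    (by rw [map_mul, map_inv, h2, mul_inv_cancel])
  exact mul_inv_eq_one.mp this

/-- The conjugacy class of `a` is in bijection with the class of `res a`. -/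
theorem card_conj_eq (hinj : ∀ g : Γ, res g = 1 → ψ g = 1 → g = 1)
    (hsurj : Function.Surjective res) (a : Γ) :
    Nat.card {b : Γ // IsConj a b} = Nat.card {τ : G // IsConj (res a) τ} := by
  let f : {b : Γ // IsConj a b} → {τ : G // IsConj (res a) τ} :=
    fun b => ⟨res b.1, by
      obtain ⟨c, hc⟩ := isConj_iff.mp b.2
      rw [isConj_iff]
      exact ⟨res c, by rw [← hc, map_mul, map_mul, map_inv]⟩⟩
  apply Nat.card_eq_of_bijective f
  constructor
  · rintro ⟨b, hb⟩ ⟨b', hb'⟩ h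
    have h1 : res b = res b' := congrArg Subtype.val h
    have h2 : ψ b = ψ b' := (psi_eq_of_isConj ψ hb).symm.trans (psi_eq_of_isConj ψ hb')
    exact Subtype.ext (eq_of_res_eq_of_psi_eq res ψ hinj h1 h2)
  · rintro ⟨τ, hτ⟩
    obtain ⟨c, hc⟩ := isConj_iff.mp hτ
    obtain ⟨t, ht⟩ := hsurj c
    refine ⟨⟨t * a * t⁻¹, isConj_iff.mpr ⟨t, rfl⟩⟩, ?_⟩
    apply Subtype.ext
    show res (t * a * t⁻¹) = τ
    rw [map_mul, map_mul, map_inv, ht, hc]

variable (N : ℕ) [NeZero N]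

/-- `|Γ| = |G| N`. -/
theorem card_eq_mul (hinj : ∀ g : Γ, res g = 1 → ψ g = 1 → g = 1)
    (hsurj : ∀ (τ : G) (w : ℂˣ), w ^ N = 1 → ∃ g : Γ, res g = τ ∧ ψ g = w)
    (hpow : ∀ g : Γ, ψ g ^ N = 1) :
    Nat.card Γ = Nat.card G * N := by
  let f : Γ → G × rootsOfUnity N ℂ := fun g => (res g, ⟨ψ g, (mem_rootsOfUnity N _).mpr (hpow g)⟩)
  have hf : Function.Bijective f := by
    constructor
    · intro a b h
      have h1 : res a = res b := congrArg Prod.fst h
      have h2 : ψ a = ψ b := congrArg (fun x => (x.2 : ℂˣ)) h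
      exact eq_of_res_eq_of_psi_eq res ψ hinj h1 h2
    · rintro ⟨τ, ⟨w, hw⟩⟩
      obtain ⟨g, hg1, hg2⟩ := hsurj τ w ((mem_rootsOfUnity N _).mp hw)
      exact ⟨g, Prod.ext hg1 (Subtype.ext hg2)⟩
  have hc : Nat.card (rootsOfUnity N ℂ) = N := Complex.card_rootsOfUnity N
  rw [Nat.card_eq_of_bijective f hf, Nat.card_prod, hc]

/-- The set `Y` is in bijection with the elements of `μ_N` of order divisible by `n`. -/
theorem card_crossY (hinj : ∀ g : Γ, res g = 1 → ψ g = 1 → g = 1)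
    (hsurj : ∀ (τ : G) (w : ℂˣ), w ^ N = 1 → ∃ g : Γ, res g = τ ∧ ψ g = w)
    (hpow : ∀ g : Γ, ψ g ^ N = 1) (σ : G) (n : ℕ) :
    Nat.card {a : Γ // res a = σ ∧ n ∣ orderOf (ψ a)} =
      Nat.card {z : rootsOfUnity N ℂ // n ∣ orderOf z} := by
  let f : {a : Γ // res a = σ ∧ n ∣ orderOf (ψ a)} → {z : rootsOfUnity N ℂ // n ∣ orderOf z} :=
    fun a => ⟨⟨ψ a.1, (mem_rootsOfUnity N _).mpr (hpow a.1)⟩, by
      have : orderOf (⟨ψ a.1, (mem_rootsOfUnity N _).mpr (hpow a.1)⟩ : rootsOfUnity N ℂ) =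
          orderOf (ψ a.1) := by
        rw [← Subgroup.orderOf_coe]
      rw [this]
      exact a.2.2⟩
  apply Nat.card_eq_of_bijective f
  constructor
  · rintro ⟨a, ha1, ha2⟩ ⟨b, hb1, hb2⟩ h
    have h2 : ψ a = ψ b := congrArg (fun x => ((x.1 : rootsOfUnity N ℂ) : ℂˣ)) h
    exact Subtype.ext (eq_of_res_eq_of_psi_eq res ψ hinj (ha1.trans hb1.symm) h2)
  · rintro ⟨⟨w, hw⟩, hz⟩
    obtain ⟨g, hg1, hg2⟩ := hsurj σ w ((mem_rootsOfUnity N _).mp hw)
    have ho : orderOf (⟨w, hw⟩ : rootsOfUnity N ℂ) = orderOf w := by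
      rw [← Subgroup.orderOf_coe]
    refine ⟨⟨g, hg1, ?_⟩, ?_⟩
    · rw [hg2, ← ho]; exact hz
    · apply Subtype.ext
      apply Subtype.ext
      exact hg2

/-- `ψ` is injective on the cyclic group generated by `a` when `orderOf (res a) ∣ orderOf (ψ a)`. -/
theorem eq_one_of_mem_zpowers (hinj : ∀ g : Γ, res g = 1 → ψ g = 1 → g = 1) {a g : Γ}
    (ha : orderOf (res a) ∣ orderOf (ψ a)) (hg : g ∈ Subgroup.zpowers a) (h : ψ g = 1) :
    g = 1 := by
  obtain ⟨j, rfl⟩ := Subgroup.mem_zpowers_iff.mp hg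
  apply hinj _ _ h
  rw [map_zpow] at h ⊢
  have h1 : (orderOf (ψ a) : ℤ) ∣ j := orderOf_dvd_iff_zpow_eq_one.mpr h
  have h2 : (orderOf (res a) : ℤ) ∣ j := (Int.natCast_dvd_natCast.mpr ha).trans h1
  exact orderOf_dvd_iff_zpow_eq_one.mp h2

end Group

section Assemble

variable {Γ G : Type*} [Group Γ] [Group G] [Finite Γ] [Finite G] (res : Γ →* G) (ψ : Γ →* ℂˣ)

open Classical in
/-- The abstract crossing: the set `Y` and the proportion of its classes. -/
theorem exists_crossY (N : ℕ) [NeZero N]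
    (hinj : ∀ g : Γ, res g = 1 → ψ g = 1 → g = 1)
    (hsurj : ∀ (τ : G) (w : ℂˣ), w ^ N = 1 → ∃ g : Γ, res g = τ ∧ ψ g = w)
    (hpow : ∀ g : Γ, ψ g ^ N = 1) (σ : G) (ε : ℝ)
    (hcount : (1 - ε) * (N : ℝ) ≤
      (Nat.card {z : rootsOfUnity N ℂ // orderOf σ ∣ orderOf z} : ℝ)) :
    ∃ Y : Finset Γ, (∀ a ∈ Y, res a = σ) ∧ (∀ a ∈ Y, ∀ b ∈ Y, IsConj a b → a = b) ∧
      (∀ a ∈ Y, orderOf (res a) ∣ orderOf (ψ a)) ∧
      (1 - ε) * ((Nat.card {τ : G // IsConj σ τ} : ℝ) / (Nat.card G : ℝ)) ≤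
        ∑ a ∈ Y, (Nat.card {b : Γ // IsConj a b} : ℝ) / (Nat.card Γ : ℝ) := by
  letI := Fintype.ofFinite Γ
  have hres : Function.Surjective res := fun τ => by
    obtain ⟨g, hg, -⟩ := hsurj τ 1 (one_pow N)
    exact ⟨g, hg⟩
  refine ⟨Finset.univ.filter (fun a => res a = σ ∧ orderOf σ ∣ orderOf (ψ a)), ?_, ?_, ?_, ?_⟩
  · intro a ha
    exact (Finset.mem_filter.mp ha).2.1
  · intro a ha b hb hab
    exact eq_of_res_eq_of_psi_eq res ψ hinj
      ((Finset.mem_filter.mp ha).2.1.trans (Finset.mem_filter.mp hb).2.1.symm)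
      (psi_eq_of_isConj ψ hab)
  · intro a ha
    rw [(Finset.mem_filter.mp ha).2.1]
    exact (Finset.mem_filter.mp ha).2.2
  · have hG : (0 : ℝ) < Nat.card G := by exact_mod_cast Nat.card_pos
    have hNpos : (0 : ℝ) < N := by exact_mod_cast Nat.pos_of_ne_zero (NeZero.ne N)
    have hΓ : (Nat.card Γ : ℝ) = Nat.card G * N := by
      rw [card_eq_mul res ψ N hinj hsurj hpow]; push_cast; ring
    have hsum : ∑ a ∈ Finset.univ.filter (fun a => res a = σ ∧ orderOf σ ∣ orderOf (ψ a)),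
        (Nat.card {b : Γ // IsConj a b} : ℝ) / (Nat.card Γ : ℝ) =
        ∑ a ∈ Finset.univ.filter (fun a => res a = σ ∧ orderOf σ ∣ orderOf (ψ a)),
          (Nat.card {τ : G // IsConj σ τ} : ℝ) / (Nat.card Γ : ℝ) := by
      apply Finset.sum_congr rfl
      intro a ha
      rw [card_conj_eq res ψ hinj hres a, (Finset.mem_filter.mp ha).2.1]
    have hY : ((Finset.univ.filter (fun a => res a = σ ∧ orderOf σ ∣ orderOf (ψ a))).card : ℝ) =
        (Nat.card {z : rootsOfUnity N ℂ // orderOf σ ∣ orderOf z} : ℝ) := by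
      rw [← card_crossY res ψ N hinj hsurj hpow σ (orderOf σ), Nat.card_eq_fintype_card,
        Fintype.card_subtype]
    rw [hsum, Finset.sum_const, nsmul_eq_mul, hY, hΓ]
    have hc : (0 : ℝ) ≤ Nat.card {τ : G // IsConj σ τ} := Nat.cast_nonneg _
    have hGN : (0 : ℝ) < Nat.card G * N := mul_pos hG hNpos
    rw [mul_div_assoc', mul_div_assoc', div_le_div_iff₀ hG hGN]
    have h1 := mul_le_mul_of_nonneg_right hcount hc
    have h2 := mul_le_mul_of_nonneg_right h1 hG.le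
    nlinarith [h2]

end Assemble

end Fermat.Agent.T4.helper39
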