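import Mathlib
import Fermat.Agent.T4.helper39_ChebCrossDefs
import Fermat.Agent.T4.helper39_ChebCrossFrob
import Fermat.Agent.T4.helper39_ChebCrossGroup

/-!
# T4 block (II), leaf [T4-CHEB-CROSS]: assembly (helper39)

`cross_of : CrossFieldsStatement → CrossCountStatement → helper62.CrossStatement`.
-/

set_option autoImplicit false
set_option linter.unusedSectionVars false
set_option linter.unusedVariables false
set_option linter.style.longLine false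
set_option linter.style.haveILetI false
set_option linter.overlappingInstances false

open NumberField Ideal IsDedekindDomain
open scoped Pointwise

namespace Fermat.Agent.T4.helper39

open Fermat.Agent.S14 Fermat.Agent.T4.helper62

section Tower

variable {K F Ω Ω₁ : Type*} [Field K] [Field F] [Field Ω] [Field Ω₁]
  [Algebra K F] [Algebra K Ω] [Algebra K Ω₁] [Algebra F Ω] [Algebra Ω Ω₁] [Algebra F Ω₁]
  [IsScalarTower F Ω Ω₁] [IsScalarTower K F Ω] [IsScalarTower K F Ω₁] [IsScalarTower K Ω Ω₁]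
  [Normal K Ω] [Normal F Ω]

/-- Restriction to `Ω` commutes with restriction of scalars. -/
theorem restrictNormalHom_restrictScalars (σ₁ : Gal(Ω₁/F)) :
    AlgEquiv.restrictNormalHom Ω (σ₁.restrictScalars K) =
      (AlgEquiv.restrictNormalHom Ω σ₁).restrictScalars K := by
  apply AlgEquiv.ext
  intro x
  apply (algebraMap Ω Ω₁).injective
  have h1 := AlgEquiv.restrictNormal_commutes (σ₁.restrictScalars K) Ω x
  have h2 := AlgEquiv.restrictNormal_commutes σ₁ Ω x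
  exact h1.trans h2.symm

end Tower

section Finite

variable (F : Type*) [Field F] [NumberField F]

/-- Only finitely many primes contain a given nonzero natural number. -/
theorem finite_primes_mem_natCast {m : ℕ} (hm : m ≠ 0) :
    {𝔮 : HeightOneSpectrum (𝓞 F) | (m : 𝓞 F) ∈ 𝔮.asIdeal}.Finite := by
  have hI : Ideal.span {(m : 𝓞 F)} ≠ 0 := by
    rw [Ne, Ideal.zero_eq_bot, Ideal.span_singleton_eq_bot]
    exact_mod_cast hm
  refine (Ideal.finite_factors hI).subset ?_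
  intro 𝔮 h𝔮
  show 𝔮.asIdeal ∣ Ideal.span {(m : 𝓞 F)}
  rw [Ideal.dvd_span_singleton]
  exact h𝔮

end Finite

section EvenCyclo

variable {Ω Ω₁ : Type} [Field Ω] [NumberField Ω] [IsGalois ℚ Ω] [Field Ω₁] [NumberField Ω₁]
  [Algebra Ω Ω₁] [IsGalois ℚ Ω₁]

/-- `Ω/F` is of even cyclotomic type as soon as `ψ` is injective on `Gal(Ω/F)`. -/
theorem isEvenCycloType_of_link {ℓ : ℕ} [NeZero ℓ] {ζ : Ω₁} (hζ : ζ ^ ℓ = 1)
    (χ : DirichletCharacter ℂ ℓ) (hχ : χ.Even) (ψ : Gal(Ω/ℚ) →* ℂˣ)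
    (hlink : ∀ (g₁ : Gal(Ω₁/ℚ)) (j : ℕ), g₁ ζ = ζ ^ j →
      ((ψ (AlgEquiv.restrictNormalHom Ω g₁) : ℂˣ) : ℂ) = χ (j : ZMod ℓ))
    (F : IntermediateField ℚ Ω)
    (hinjF : ∀ g : Gal(Ω/F), ψ (g.restrictScalars ℚ) = 1 → g = 1) :
    IsEvenCycloType F Ω := by
  haveI : IsGalois F Ω₁ := IsGalois.tower_top_of_isGalois ℚ F Ω₁
  refine ⟨ℓ, inferInstance, χ, ψ.comp (AlgEquiv.restrictScalarsHom ℚ),
    helper52.ramSet F Ω ∪ {𝔮 : HeightOneSpectrum (𝓞 F) | (ℓ : 𝓞 F) ∈ 𝔮.asIdeal}, hχ, ?_, ?_, ?_⟩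
  · intro g h hgh
    have h1 : ψ ((g * h⁻¹).restrictScalars ℚ) = 1 := by
      have : (g * h⁻¹).restrictScalars ℚ = AlgEquiv.restrictScalarsHom ℚ (g * h⁻¹) := rfl
      rw [this, map_mul, map_inv, map_mul, map_inv]
      have e : ψ (AlgEquiv.restrictScalarsHom ℚ g) = ψ (AlgEquiv.restrictScalarsHom ℚ h) := hgh
      rw [e, mul_inv_cancel]
    exact mul_inv_eq_one.mp (hinjF _ h1)
  · exact (helper52.ramSet_finite (K := F) (M := Ω)).union
      (finite_primes_mem_natCast F (NeZero.ne ℓ))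
  · intro 𝔮 h𝔮
    have h1 : 𝔮 ∉ helper52.ramSet F Ω := fun h => h𝔮 (Or.inl h)
    have h2 : (ℓ : 𝓞 F) ∉ 𝔮.asIdeal := fun h => h𝔮 (Or.inr h)
    obtain ⟨σ₁, hσ₁, hσ₁ζ⟩ := frob_cyclo (F := F) (Ω := Ω) (Ω₁ := Ω₁) 𝔮 h1 hζ h2
    have h3 := hlink (σ₁.restrictScalars ℚ) (Ideal.absNorm 𝔮.asIdeal) hσ₁ζ
    rw [restrictNormalHom_restrictScalars (K := ℚ) (F := F) (Ω := Ω) (Ω₁ := Ω₁) σ₁, hσ₁] at h3
    exact h3

end EvenCyclo

/-- [T4-CHEB-CROSS] from its two sub-leaves. -/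
theorem cross_of (hF : CrossFieldsStatement) (hC : CrossCountStatement) : CrossStatement := by
  intro L _ _ _ σ ε hε
  have hn : 0 < orderOf σ := orderOf_pos σ
  obtain ⟨k, hk, hcount⟩ := hC (orderOf σ) hn ε hε
  obtain ⟨B, hB⟩ := hF L
  have hN0 : 0 < orderOf σ ^ k := pow_pos hn k
  obtain ⟨ℓ, hℓ, hBℓ, hmod⟩ := Nat.exists_prime_gt_modEq_one (k := 2 * orderOf σ ^ k) B
    (by positivity)
  haveI : Fact ℓ.Prime := ⟨hℓ⟩
  haveI : NeZero ℓ := ⟨hℓ.ne_zero⟩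
  have hdvd : 2 * orderOf σ ^ k ∣ ℓ - 1 := (Nat.modEq_iff_dvd' hℓ.one_le).mp hmod.symm
  obtain ⟨Ω, iF, iNF, iAlg, iGal, Ω₁, iF₁, iNF₁, iAlg₁, iGal₁, ζ, χ, ψ, hζ, hχ, hinj, hsurj,
    hpow, hlink⟩ := hB ℓ hBℓ (orderOf σ ^ k) hdvd
  haveI : NeZero (orderOf σ ^ k) := ⟨hN0.ne'⟩
  have hcard : Nat.card (rootsOfUnity (orderOf σ ^ k) ℂ) = orderOf σ ^ k :=
    Complex.card_rootsOfUnity _
  have hcount' := hcount (rootsOfUnity (orderOf σ ^ k) ℂ) hcard
  obtain ⟨Y, hY1, hY2, hY3, hY4⟩ := exists_crossY (AlgEquiv.restrictNormalHom L) ψ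
    (orderOf σ ^ k) hinj hsurj hpow σ ε (by exact_mod_cast hcount')
  refine ⟨Ω, iF, iNF, iAlg, iGal, Y, hY1, hY2, ?_, hY4⟩
  intro a ha
  apply isEvenCycloType_of_link (Ω₁ := Ω₁) hζ.pow_eq_one χ hχ ψ hlink
  intro g hg
  have hmem : g.restrictScalars ℚ ∈ Subgroup.zpowers a := by
    have h1 : (IntermediateField.fixedField (Subgroup.zpowers a)).fixingSubgroup =
        Subgroup.zpowers a := IntermediateField.fixingSubgroup_fixedField _
    have h3 : g.restrictScalars ℚ ∈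
        (IntermediateField.fixedField (Subgroup.zpowers a)).fixingSubgroup := by
      rw [IntermediateField.mem_fixingSubgroup_iff]
      intro x hx
      exact g.commutes ⟨x, hx⟩
    exact h1.le h3
  have h2 := eq_one_of_mem_zpowers (AlgEquiv.restrictNormalHom L) ψ hinj (hY3 a ha) hmem hg
  apply AlgEquiv.ext
  intro x
  exact congrArg (fun f : Gal(Ω/ℚ) => f x) h2

end Fermat.Agent.T4.helper39
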