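import Mathlib
import Fermat.Agent.T4.helper39_ChebCrossDefs

/-!
# T4 block (II), leaf [T4-CHEB-CROSS-COUNT] (helper69)

`crossCount : helper39.CrossCountStatement`: for `0 < n` and `0 < ε` there is `k > 0` such that
in every cyclic group of order `n ^ k` at least `(1 - ε) n ^ k` elements have order divisible
by `n`.

Proof.  If `d ∣ n ^ k`, `0 < k` and `¬ n ∣ d` then there is a prime `p ∣ n` with
`d ∣ (n / p) ^ k` (`exists_prime_dvd_div_pow`).  So the elements whose order is not divisible by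
`n` lie in the union over the primes `p ∣ n` of the sets `{z | z ^ ((n / p) ^ k) = 1}`, each of
which has at most `(n / p) ^ k ≤ n ^ k / 2 ^ k` elements in a cyclic group.
-/

set_option autoImplicit false
set_option linter.unusedSectionVars false
set_option linter.unusedVariables false
set_option linter.style.longLine false

namespace Fermat.Agent.T4.helper69

/-- If `d ∣ n ^ k` (`k > 0`) and `¬ n ∣ d` then `d ∣ (n / p) ^ k` for some prime `p ∣ n`. -/
theorem exists_prime_dvd_div_pow {n d k : ℕ} (hn : 0 < n) (hk : 0 < k) (hd : d ∣ n ^ k)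
    (hnd : ¬ n ∣ d) : ∃ p : ℕ, p.Prime ∧ p ∣ n ∧ d ∣ (n / p) ^ k := by
  have hn0 : n ≠ 0 := hn.ne'
  have hnk0 : n ^ k ≠ 0 := pow_ne_zero _ hn0
  have hd0 : d ≠ 0 := fun h => hnk0 (by simpa [h] using hd)
  -- a prime at which `d` has smaller valuation than `n`
  obtain ⟨p, hp, hlt⟩ : ∃ p : ℕ, p.Prime ∧ d.factorization p < n.factorization p := by
    by_contra hcon
    apply hnd
    rw [← Nat.factorization_prime_le_iff_dvd hn0 hd0]
    intro p hp
    by_contra hlt
    exact hcon ⟨p, hp, not_le.mp hlt⟩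
  have hpn : p ∣ n := by
    by_contra hpn
    rw [Nat.factorization_eq_zero_of_not_dvd hpn] at hlt
    exact Nat.not_lt_zero _ hlt
  refine ⟨p, hp, hpn, ?_⟩
  have hnp0 : n / p ≠ 0 := by
    obtain ⟨m, rfl⟩ := hpn
    rw [Nat.mul_div_cancel_left _ hp.pos]
    rintro rfl
    exact hn0 (by simp)
  have hnpk0 : (n / p) ^ k ≠ 0 := pow_ne_zero _ hnp0
  rw [← Nat.factorization_prime_le_iff_dvd hd0 hnpk0]
  intro q hq
  rw [Nat.factorization_pow, Nat.factorization_div hpn]
  have hdq : d.factorization q ≤ k * n.factorization q := by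
    have := (Nat.factorization_le_iff_dvd hd0 hnk0).mpr hd q
    simpa [Nat.factorization_pow] using this
  simp only [Finsupp.smul_apply, Finsupp.coe_tsub, Pi.sub_apply, smul_eq_mul]
  by_cases hqp : q = p
  · subst hqp
    rw [hq.factorization_self]
    have h1 : d.factorization q ≤ n.factorization q - 1 := by omega
    calc d.factorization q ≤ n.factorization q - 1 := h1
      _ = 1 * (n.factorization q - 1) := (one_mul _).symm
      _ ≤ k * (n.factorization q - 1) := Nat.mul_le_mul_right _ hk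
  · have : p.factorization q = 0 := by
      rw [hp.factorization]
      simp [Ne.symm hqp]
    rw [this, Nat.sub_zero]
    exact hdq

/-- The number of solutions of `z ^ ((n / p) ^ k) = 1` in a cyclic group, `p ∣ n` prime. -/
theorem card_pow_div_le {C : Type} [CommGroup C] [Fintype C] [DecidableEq C] [IsCyclic C]
    {n p k : ℕ} (hn : 0 < n) (hp : p.Prime) (hpn : p ∣ n) :
    (((Finset.univ.filter fun z : C => z ^ ((n / p) ^ k) = 1).card : ℕ) : ℝ) ≤
      (n : ℝ) ^ k / 2 ^ k := by
  have hnp0 : 0 < n / p := Nat.div_pos (Nat.le_of_dvd hn hpn) hp.pos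
  have h1 : (Finset.univ.filter fun z : C => z ^ ((n / p) ^ k) = 1).card ≤ (n / p) ^ k :=
    IsCyclic.card_pow_eq_one_le (pow_pos hnp0 k)
  have h2 : ((n / p : ℕ) : ℝ) = (n : ℝ) / p := Nat.cast_div hpn (by exact_mod_cast hp.ne_zero)
  have hp2 : (2 : ℝ) ≤ p := by exact_mod_cast hp.two_le
  calc (((Finset.univ.filter fun z : C => z ^ ((n / p) ^ k) = 1).card : ℕ) : ℝ)
      ≤ (((n / p) ^ k : ℕ) : ℝ) := by exact_mod_cast h1
    _ = ((n : ℝ) / p) ^ k := by rw [Nat.cast_pow, h2]
    _ = (n : ℝ) ^ k / (p : ℝ) ^ k := div_pow _ _ _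
    _ ≤ (n : ℝ) ^ k / 2 ^ k := by
        apply div_le_div_of_nonneg_left (by positivity) (by positivity)
        exact pow_le_pow_left₀ (by norm_num) hp2 k

/-- The elements of a cyclic group of order `n ^ k` whose order is not divisible by `n`. -/
theorem card_not_dvd_orderOf_le {C : Type} [CommGroup C] [Fintype C] [DecidableEq C] [IsCyclic C]
    {n k : ℕ} (hn : 0 < n) (hk : 0 < k) (hcard : Fintype.card C = n ^ k) :
    (((Finset.univ.filter fun z : C => ¬ n ∣ orderOf z).card : ℕ) : ℝ) ≤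
      ((n : ℝ) + 1) * ((n : ℝ) ^ k / 2 ^ k) := by
  have hsub : (Finset.univ.filter fun z : C => ¬ n ∣ orderOf z) ⊆
      n.primeFactors.biUnion fun p => Finset.univ.filter fun z : C => z ^ ((n / p) ^ k) = 1 := by
    intro z hz
    rw [Finset.mem_filter] at hz
    have hd : orderOf z ∣ n ^ k := hcard ▸ orderOf_dvd_card
    obtain ⟨p, hp, hpn, hdvd⟩ := exists_prime_dvd_div_pow hn hk hd hz.2
    rw [Finset.mem_biUnion]
    refine ⟨p, Nat.mem_primeFactors.mpr ⟨hp, hpn, hn.ne'⟩, ?_⟩
    rw [Finset.mem_filter]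
    exact ⟨Finset.mem_univ _, orderOf_dvd_iff_pow_eq_one.mp hdvd⟩
  have hcardpf : (n.primeFactors.card : ℝ) ≤ (n : ℝ) + 1 := by
    have h1 : n.primeFactors ⊆ Finset.range (n + 1) := by
      intro p hp
      rw [Finset.mem_range]
      exact Nat.lt_succ_of_le (Nat.le_of_dvd hn (Nat.dvd_of_mem_primeFactors hp))
    have h2 := Finset.card_le_card h1
    rw [Finset.card_range] at h2
    exact_mod_cast h2
  have hnn : (0 : ℝ) ≤ (n : ℝ) ^ k / 2 ^ k := by positivity
  calc (((Finset.univ.filter fun z : C => ¬ n ∣ orderOf z).card : ℕ) : ℝ)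
      ≤ ((n.primeFactors.biUnion fun p =>
          Finset.univ.filter fun z : C => z ^ ((n / p) ^ k) = 1).card : ℝ) := by
        exact_mod_cast Finset.card_le_card hsub
    _ ≤ ((∑ p ∈ n.primeFactors,
          (Finset.univ.filter fun z : C => z ^ ((n / p) ^ k) = 1).card : ℕ) : ℝ) := by
        exact_mod_cast Finset.card_biUnion_le
    _ = ∑ p ∈ n.primeFactors,
          (((Finset.univ.filter fun z : C => z ^ ((n / p) ^ k) = 1).card : ℕ) : ℝ) := by
        push_cast; rfl
    _ ≤ ∑ _p ∈ n.primeFactors, (n : ℝ) ^ k / 2 ^ k := by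
        apply Finset.sum_le_sum
        intro p hp
        exact card_pow_div_le hn (Nat.prime_of_mem_primeFactors hp)
          (Nat.dvd_of_mem_primeFactors hp)
    _ = (n.primeFactors.card : ℝ) * ((n : ℝ) ^ k / 2 ^ k) := by
        rw [Finset.sum_const, nsmul_eq_mul]
    _ ≤ ((n : ℝ) + 1) * ((n : ℝ) ^ k / 2 ^ k) := mul_le_mul_of_nonneg_right hcardpf hnn

/-- **[CROSS-COUNT]**: in a cyclic group of order `n ^ k`, `k` large, all but the proportion `ε`
of the elements have order divisible by `n`. -/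
theorem crossCount : helper39.CrossCountStatement := by
  intro n hn ε hε
  have hn1 : (0 : ℝ) < (n : ℝ) + 1 := by positivity
  obtain ⟨k₀, hk₀⟩ := exists_pow_lt_of_lt_one (div_pos hε hn1) (by norm_num : (1 / 2 : ℝ) < 1)
  refine ⟨k₀ + 1, Nat.succ_pos _, ?_⟩
  intro C _ _ _ hcard
  classical
  letI : Fintype C := Fintype.ofFinite C
  set k := k₀ + 1 with hk
  have hkpos : 0 < k := Nat.succ_pos _
  have hcard' : Fintype.card C = n ^ k := by rw [← Nat.card_eq_fintype_card]; exact hcard
  have hbad := card_not_dvd_orderOf_le (C := C) hn hkpos hcard'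
  -- the good and the bad elements partition the group
  have hpart : (Finset.univ.filter fun z : C => n ∣ orderOf z).card +
      (Finset.univ.filter fun z : C => ¬ n ∣ orderOf z).card = n ^ k := by
    rw [Finset.card_filter_add_card_filter_not, Finset.card_univ, hcard']
  have hgood : Nat.card {z : C // n ∣ orderOf z} =
      (Finset.univ.filter fun z : C => n ∣ orderOf z).card := by
    rw [Nat.card_eq_fintype_card, Fintype.card_subtype]
  rw [hgood]
  have hpartR : (((Finset.univ.filter fun z : C => n ∣ orderOf z).card : ℕ) : ℝ) +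
      (((Finset.univ.filter fun z : C => ¬ n ∣ orderOf z).card : ℕ) : ℝ) = (n : ℝ) ^ k := by
    exact_mod_cast hpart
  -- `(n + 1) / 2 ^ k ≤ ε`
  have hpow : ((n : ℝ) + 1) * ((n : ℝ) ^ k / 2 ^ k) ≤ ε * (n : ℝ) ^ k := by
    have h2k : (0 : ℝ) < 2 ^ k := by positivity
    have h1 : (1 / 2 : ℝ) ^ k ≤ (1 / 2 : ℝ) ^ k₀ :=
      pow_le_pow_of_le_one (by norm_num) (by norm_num) (Nat.le_succ _)
    have h2 : (1 / 2 : ℝ) ^ k < ε / ((n : ℝ) + 1) := lt_of_le_of_lt h1 hk₀
    have h3 : ((n : ℝ) + 1) * (1 / 2 : ℝ) ^ k ≤ ε := by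
      have := (lt_div_iff₀ hn1).mp h2
      linarith
    have h4 : ((n : ℝ) + 1) * ((n : ℝ) ^ k / 2 ^ k) =
        (((n : ℝ) + 1) * (1 / 2 : ℝ) ^ k) * (n : ℝ) ^ k := by
      rw [one_div, inv_pow]
      field_simp
    rw [h4]
    exact mul_le_mul_of_nonneg_right h3 (by positivity)
  linarith

end Fermat.Agent.T4.helper69
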