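import Mathlib
import Fermat.Agent.T4.helper39_ChebCrossAsm
import Fermat.Agent.T4.helper69_ChebCrossCount
import Fermat.Agent.T4.helper38_CrossFields

/-!
# T4 block (II), leaf [T4-CHEB-CROSS]: `cross : helper62.CrossStatement` (helper38)

Wire of `helper39.cross_of` with `crossFields` (helper38) and `crossCount` (helper69).
-/

set_option autoImplicit false

namespace Fermat.Agent.T4.helper38

/-- **[T4-CHEB-CROSS]**: the crossing statement of the Chebotarev chain, unconditional. -/
theorem cross : Fermat.Agent.T4.helper62.CrossStatement :=
  Fermat.Agent.T4.helper39.cross_of crossFields Fermat.Agent.T4.helper69.crossCount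

end Fermat.Agent.T4.helper38
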