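import Mathlib
import Fermat.Agent.S14.helper38_CrossAbstract
import Fermat.Agent.S14.helper39_CycloInertia

/-!
# T4 block (II), leaf [T4-CHEB-CROSS], sub-leaf [CROSS-GAL] (helper39)

For a Galois number field `L/ℚ` and a prime `ℓ` unramified in `L` (every large prime is), the map
`(restriction to L, cyclotomic character) : Gal(L(ζ_ℓ)/ℚ) → Gal(L/ℚ) × (ZMod ℓ)ˣ` is surjective.

* `exists_bound_unramified` : all primes of `𝓞 L` over a large rational prime are unramified.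
* `restrict_inertia_eq_one` : inertia at `ℓ` dies in `Gal(L/ℚ)`.
* `exists_gal_of_unramified` : the surjectivity.
-/

set_option autoImplicit false
set_option linter.unusedSectionVars false
set_option linter.unusedVariables false
set_option linter.style.longLine false
set_option linter.style.haveILetI false
set_option linter.overlappingInstances false

open NumberField Ideal IsDedekindDomain
open scoped Pointwise

namespace Fermat.Agent.T4.helper39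

open Fermat.Agent.S14

theorem natCast_ne_zero_of_prime (L : Type*) [Field L] [NumberField L] {ℓ : ℕ} (hℓ : ℓ.Prime) :
    (ℓ : 𝓞 L) ≠ 0 := by
  exact_mod_cast hℓ.ne_zero

theorem one_mem_of_coprime {R : Type*} [CommRing R] (P : Ideal R) {a b : ℕ} (h : Nat.Coprime a b)
    (ha : (a : R) ∈ P) (hb : (b : R) ∈ P) : (1 : R) ∈ P := by
  have h1 : (a : ℤ) * Nat.gcdA a b + (b : ℤ) * Nat.gcdB a b = 1 := by
    have := Nat.gcd_eq_gcd_ab a b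
    rw [h.gcd_eq_one] at this
    exact_mod_cast this.symm
  have h2 : ((a : ℤ) * Nat.gcdA a b + (b : ℤ) * Nat.gcdB a b : ℤ) = (1 : ℤ) := h1
  have h3 := congrArg (Int.cast : ℤ → R) h2
  push_cast at h3
  rw [← h3]
  exact P.add_mem (P.mul_mem_right _ ha) (P.mul_mem_right _ hb)

theorem exists_bound_unramified (L : Type*) [Field L] [NumberField L] :
    ∃ B : ℕ, ∀ (P : Ideal (𝓞 L)) [P.IsPrime], ∀ ℓ : ℕ, ℓ.Prime → B < ℓ → (ℓ : 𝓞 L) ∈ P →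
      Algebra.IsUnramifiedAt ℤ P := by
  classical
  have hfin : {𝔓 : HeightOneSpectrum (𝓞 L) | 𝔓.asIdeal ∣ differentIdeal ℤ (𝓞 L)}.Finite :=
    Ideal.finite_factors differentIdeal_ne_bot
  obtain ⟨B, hB⟩ := (hfin.image (fun 𝔓 => Ideal.absNorm 𝔓.asIdeal)).bddAbove
  refine ⟨B, ?_⟩
  intro P hP ℓ hℓ hBℓ hmem
  by_contra hram
  have hP0 : P ≠ ⊥ := by
    rintro rfl
    exact natCast_ne_zero_of_prime L hℓ ((Ideal.mem_bot).mp hmem)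
  have hdvd : P ∣ differentIdeal ℤ (𝓞 L) := dvd_differentIdeal_iff.mpr hram
  have hmemS : (⟨P, hP, hP0⟩ : HeightOneSpectrum (𝓞 L)) ∈
      {𝔓 : HeightOneSpectrum (𝓞 L) | 𝔓.asIdeal ∣ differentIdeal ℤ (𝓞 L)} := hdvd
  have hle : Ideal.absNorm P ≤ B := hB ⟨_, hmemS, rfl⟩
  have hlt : Ideal.absNorm P < ℓ := lt_of_le_of_lt hle hBℓ
  have hpos : 0 < Ideal.absNorm P :=
    Nat.pos_of_ne_zero (fun h => hP0 (Ideal.absNorm_eq_zero_iff.mp h))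
  have hcop : Nat.Coprime (Ideal.absNorm P) ℓ :=
    Nat.Coprime.symm ((Nat.Prime.coprime_iff_not_dvd hℓ).mpr
      (fun h => absurd (Nat.le_of_dvd hpos h) (not_le.mpr hlt)))
  exact hP.ne_top ((Ideal.eq_top_iff_one P).mpr
    (one_mem_of_coprime P hcop (Ideal.absNorm_mem P) hmem))

section Gal

variable {L Ω₁ : Type*} [Field L] [NumberField L] [IsGalois ℚ L] [Field Ω₁] [NumberField Ω₁]
  [Algebra L Ω₁] [IsGalois ℚ Ω₁]

/-- Inertia at a prime over `ℓ` of `Ω₁` restricts trivially to `L` when `ℓ` is unramified in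
`L`. -/
theorem restrict_inertia_eq_one {ℓ : ℕ} [Fact ℓ.Prime]
    (𝔓₁ : Ideal (𝓞 Ω₁)) [𝔓₁.IsPrime] (hℓ : (ℓ : 𝓞 Ω₁) ∈ 𝔓₁)
    (hunr : Algebra.IsUnramifiedAt ℤ (𝔓₁.under (𝓞 L)))
    (g : Gal(Ω₁/ℚ)) (hg : ∀ x : 𝓞 Ω₁, g • x - x ∈ 𝔓₁) :
    AlgEquiv.restrictNormalHom L g = 1 := by
  have hprime : (Ideal.span {(ℓ : ℤ)}).IsPrime :=
    (Ideal.span_singleton_prime (by exact_mod_cast (Fact.out : ℓ.Prime).ne_zero)).2
      (Nat.prime_iff_prime_int.1 Fact.out)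
  haveI : (𝔓₁.under (𝓞 L)).IsPrime := Ideal.IsPrime.under (𝓞 L) 𝔓₁
  have hmem : (ℓ : 𝓞 L) ∈ 𝔓₁.under (𝓞 L) := by
    rw [Ideal.under_def, Ideal.mem_comap]
    simpa using hℓ
  haveI : (𝔓₁.under (𝓞 L)).LiesOver (Ideal.span {(ℓ : ℤ)}) :=
    helper39.liesOver_span_of_mem ℓ _ hmem
  have hcard : Nat.card ((𝔓₁.under (𝓞 L)).inertia Gal(L/ℚ)) = 1 := by
    rw [Ideal.card_inertia_eq_ramificationIdxIn (Ideal.span {(ℓ : ℤ)}) (𝔓₁.under (𝓞 L)),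
      Ideal.ramificationIdxIn_eq_ramificationIdx (Ideal.span {(ℓ : ℤ)}) (𝔓₁.under (𝓞 L))
        Gal(L/ℚ)]
    exact Ideal.ramificationIdx_eq_one_of_isUnramifiedAt
  have hbot : (𝔓₁.under (𝓞 L)).inertia Gal(L/ℚ) = ⊥ := Subgroup.card_eq_one.mp hcard
  have hin : AlgEquiv.restrictNormalHom L g ∈ (𝔓₁.under (𝓞 L)).inertia Gal(L/ℚ) := by
    intro y
    have := helper39.restrictNormalHom_frob (K := ℚ) (L := L) 𝔓₁ g 1
      (fun x => by simpa using hg x) y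
    simpa using this
  rw [hbot, Subgroup.mem_bot] at hin
  exact hin

/-- [CROSS-GAL]: `(restriction to L, cyclotomic character)` is surjective when `ℓ` is unramified
in `L`. -/
theorem exists_gal_of_unramified {ℓ : ℕ} [Fact ℓ.Prime] [NeZero ℓ] {ζ : Ω₁}
    (hζ : IsPrimitiveRoot ζ ℓ)
    (hgen : ∀ g : Gal(Ω₁/ℚ), AlgEquiv.restrictNormalHom L g = 1 → g ζ = ζ → g = 1)
    (hunr : ∀ (P : Ideal (𝓞 L)) [P.IsPrime], (ℓ : 𝓞 L) ∈ P → Algebra.IsUnramifiedAt ℤ P)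
    (τ : Gal(L/ℚ)) (u : (ZMod ℓ)ˣ) :
    ∃ g : Gal(Ω₁/ℚ), AlgEquiv.restrictNormalHom L g = τ ∧ hζ.autToPow ℚ g = u := by
  have hℓ : ℓ.Prime := Fact.out
  have hprime : (Ideal.span {(ℓ : ℤ)}).IsPrime :=
    (Ideal.span_singleton_prime (by exact_mod_cast hℓ.ne_zero)).2 (Nat.prime_iff_prime_int.1 hℓ)
  obtain ⟨𝔓₁, h𝔓₁, hmem⟩ := helper38.exists_prime_mem Ω₁ ℓ hℓ
  haveI := h𝔓₁
  haveI : (𝔓₁.under (𝓞 L)).IsPrime := Ideal.IsPrime.under (𝓞 L) 𝔓₁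
  have hmemL : (ℓ : 𝓞 L) ∈ 𝔓₁.under (𝓞 L) := by
    rw [Ideal.under_def, Ideal.mem_comap]
    simpa using hmem
  have hunr' := hunr (𝔓₁.under (𝓞 L)) hmemL
  let I : Subgroup Gal(Ω₁/ℚ) := 𝔓₁.inertia Gal(Ω₁/ℚ)
  have hres : ∀ σ : I, AlgEquiv.restrictNormalHom L (σ : Gal(Ω₁/ℚ)) = 1 := fun σ =>
    restrict_inertia_eq_one (L := L) 𝔓₁ hmem hunr' σ.1 (fun x => σ.2 x)
  let f : I → (ZMod ℓ)ˣ := fun σ => hζ.autToPow ℚ (σ : Gal(Ω₁/ℚ))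
  have hone : ((1 : (ZMod ℓ)ˣ) : ZMod ℓ).val = 1 := by
    haveI : Fact (1 < ℓ) := ⟨hℓ.one_lt⟩
    rw [Units.val_one, ZMod.val_one]
  have hf : Function.Injective f := by
    intro σ τ' hστ
    have h1 : hζ.autToPow ℚ ((σ : Gal(Ω₁/ℚ)) * (τ' : Gal(Ω₁/ℚ))⁻¹) = 1 := by
      rw [map_mul, map_inv]
      show f σ * (f τ')⁻¹ = 1
      rw [hστ, mul_inv_cancel]
    have h2 := hζ.autToPow_spec ℚ ((σ : Gal(Ω₁/ℚ)) * (τ' : Gal(Ω₁/ℚ))⁻¹)
    rw [h1, hone, pow_one] at h2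
    have h3 : AlgEquiv.restrictNormalHom L ((σ : Gal(Ω₁/ℚ)) * (τ' : Gal(Ω₁/ℚ))⁻¹) = 1 := by
      rw [map_mul, map_inv, hres σ, hres τ', inv_one, one_mul]
    have h4 : (σ : Gal(Ω₁/ℚ)) * (τ' : Gal(Ω₁/ℚ))⁻¹ = 1 := hgen _ h3 h2.symm
    exact Subtype.ext (mul_inv_eq_one.mp h4)
  have hcardI : (ℓ - 1) ∣ Nat.card I := by
    haveI : 𝔓₁.LiesOver (Ideal.span {(ℓ : ℤ)}) := helper39.liesOver_span_of_mem ℓ 𝔓₁ hmem
    have h3 : Nat.card I = (Ideal.span {(ℓ : ℤ)}).ramificationIdxIn (𝓞 Ω₁) :=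
      Ideal.card_inertia_eq_ramificationIdxIn (Ideal.span {(ℓ : ℤ)}) 𝔓₁
    rw [h3, Ideal.ramificationIdxIn_eq_ramificationIdx (Ideal.span {(ℓ : ℤ)}) 𝔓₁ Gal(Ω₁/ℚ)]
    exact helper39.sub_one_dvd_ramificationIdx_int hζ 𝔓₁ hmem
  have hcard : Nat.card (ZMod ℓ)ˣ ≤ Nat.card I := by
    have h1 : Nat.card (ZMod ℓ)ˣ = ℓ - 1 := by
      rw [Nat.card_eq_fintype_card, ZMod.card_units]
    rw [h1]
    exact Nat.le_of_dvd Nat.card_pos hcardI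
  obtain ⟨g₀, hg₀⟩ := AlgEquiv.restrictNormalHom_surjective (F := ℚ) (K₁ := L) Ω₁ τ
  obtain ⟨σ, hσ⟩ := (hf.bijective_of_nat_card_le hcard).2 (u * (hζ.autToPow ℚ g₀)⁻¹)
  refine ⟨(σ : Gal(Ω₁/ℚ)) * g₀, ?_, ?_⟩
  · rw [map_mul, hres σ, one_mul, hg₀]
  · rw [map_mul]
    show f σ * _ = u
    rw [hσ, inv_mul_cancel_right]

end Gal

end Fermat.Agent.T4.helper39
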