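import Mathlib
import Fermat.Agent.T4.helper39_ChebCrossDefs
import Fermat.Agent.T4.helper39_ChebCrossGal
import Fermat.Agent.S14.helper39_Crossing

/-!
# T4 block (II), leaf [T4-CHEB-CROSS], sub-leaf [CROSS-FIELDS] (helper39)

`crossFields : CrossFieldsStatement` : inside `Ω₁ = L(ζ_ℓ)` (`ℓ` a large prime, `2 N ∣ ℓ - 1`)
the fixed field `Ω` of the kernel of `Ψ₁ = (restriction to L, χ ∘ cyclotomic character)`, `χ` an
even Dirichlet character mod `ℓ` mapping the units onto `μ_N`.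
-/

set_option autoImplicit false
set_option linter.unusedSectionVars false
set_option linter.unusedVariables false
set_option linter.style.longLine false
set_option linter.style.haveILetI false
set_option linter.overlappingInstances false

open NumberField Ideal IsDedekindDomain
open scoped Pointwise

namespace Fermat.Agent.T4.helper39

open Fermat.Agent.S14

/-- An even Dirichlet character mod `ℓ` mapping the units onto `μ_N`, for `2 N ∣ ℓ - 1`. -/
theorem exists_even_char (ℓ : ℕ) [Fact ℓ.Prime] (N : ℕ) (hN : 2 * N ∣ ℓ - 1) :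
    ∃ χ : DirichletCharacter ℂ ℓ, χ.Even ∧ (∀ u : (ZMod ℓ)ˣ, (χ.toUnitHom u) ^ N = 1) ∧
      ∀ w : ℂˣ, w ^ N = 1 → ∃ u : (ZMod ℓ)ˣ, χ.toUnitHom u = w := by
  classical
  have hℓ : ℓ.Prime := Fact.out
  have hℓ1 : 0 < ℓ - 1 := Nat.sub_pos_of_lt hℓ.one_lt
  have hN0 : N ≠ 0 := by
    rintro rfl
    rw [mul_zero, zero_dvd_iff] at hN
    omega
  haveI : NeZero N := ⟨hN0⟩
  obtain ⟨g₀, hg₀⟩ := IsCyclic.exists_generator (α := (ZMod ℓ)ˣ)
  have hξ : IsPrimitiveRoot (Complex.exp (2 * Real.pi * Complex.I / N)) N :=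
    Complex.isPrimitiveRoot_exp N hN0
  set ξu : ℂˣ := (hξ.isUnit hN0).unit with hξu
  have hξu' : IsPrimitiveRoot ξu N := by
    rw [← IsPrimitiveRoot.coe_units_iff]
    exact hξ
  have hcard : Fintype.card (ZMod ℓ)ˣ = ℓ - 1 := ZMod.card_units ℓ
  have hNdvd : N ∣ ℓ - 1 := (Dvd.intro_left 2 rfl).trans hN
  have hmem : ξu ∈ rootsOfUnity (Fintype.card (ZMod ℓ)ˣ) ℂ := by
    rw [mem_rootsOfUnity, hcard]
    obtain ⟨c, hc⟩ := hNdvd
    rw [hc, pow_mul, hξu'.pow_eq_one, one_pow]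
  set χ : MulChar (ZMod ℓ) ℂ := MulChar.ofRootOfUnity hmem hg₀ with hχ
  have hχg : χ.toUnitHom g₀ = ξu := by
    apply Units.ext
    rw [MulChar.coe_toUnitHom]
    exact MulChar.ofRootOfUnity_spec hmem hg₀
  have hχz : ∀ j : ℤ, χ.toUnitHom (g₀ ^ j) = ξu ^ j := fun j => by rw [map_zpow, hχg]
  have hord : orderOf g₀ = ℓ - 1 := by
    rw [orderOf_eq_card_of_forall_mem_zpowers hg₀, Nat.card_eq_fintype_card, hcard]
  refine ⟨χ, ?_, ?_, ?_⟩
  · -- even
    obtain ⟨j, hj⟩ := Subgroup.mem_zpowers_iff.mp (hg₀ (-1))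
    have h1 : g₀ ^ (2 * j) = 1 := by
      rw [mul_comm, zpow_mul, hj]
      norm_num
    have h2 : ((ℓ - 1 : ℕ) : ℤ) ∣ 2 * j := by
      rw [← hord]
      exact orderOf_dvd_iff_zpow_eq_one.mpr h1
    have h3 : ((2 * N : ℕ) : ℤ) ∣ 2 * j := (Int.natCast_dvd_natCast.mpr hN).trans h2
    have h4 : (N : ℤ) ∣ j := by
      push_cast at h3
      exact (mul_dvd_mul_iff_left (by norm_num : (2 : ℤ) ≠ 0)).mp h3
    have h5 : ξu ^ j = 1 := by
      rw [← orderOf_dvd_iff_zpow_eq_one, ← hξu'.eq_orderOf]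
      exact h4
    have h6 : χ.toUnitHom (-1) = 1 := by rw [← hj, hχz, h5]
    have h7 : ((χ.toUnitHom (-1) : ℂˣ) : ℂ) = 1 := by rw [h6]; rfl
    rw [MulChar.coe_toUnitHom] at h7
    show χ (-1) = 1
    have h8 : (((-1 : (ZMod ℓ)ˣ) : ZMod ℓ)) = -1 := by simp
    rw [← h8]
    exact h7
  · intro u
    obtain ⟨j, hj⟩ := Subgroup.mem_zpowers_iff.mp (hg₀ u)
    rw [← hj, hχz, ← zpow_natCast, ← zpow_mul, mul_comm, zpow_mul, zpow_natCast,
      hξu'.pow_eq_one, one_zpow]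
  · intro w hw
    have h1 : w ∈ rootsOfUnity N ℂ := (mem_rootsOfUnity N w).mpr hw
    rw [← hξu'.zpowers_eq] at h1
    obtain ⟨j, hj⟩ := Subgroup.mem_zpowers_iff.mp h1
    exact ⟨g₀ ^ j, by rw [hχz, hj]⟩


section Tower

variable {K L Ω Ω₁ : Type*} [Field K] [Field L] [Field Ω] [Field Ω₁]
  [Algebra K L] [Algebra K Ω] [Algebra K Ω₁] [Algebra L Ω] [Algebra Ω Ω₁] [Algebra L Ω₁]
  [IsScalarTower L Ω Ω₁] [IsScalarTower K L Ω] [IsScalarTower K L Ω₁] [IsScalarTower K Ω Ω₁]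
  [Normal K L] [Normal K Ω]

/-- Transitivity of the restriction maps. -/
theorem restrictNormalHom_tower (g₁ : Gal(Ω₁/K)) :
    AlgEquiv.restrictNormalHom L (AlgEquiv.restrictNormalHom Ω g₁) =
      AlgEquiv.restrictNormalHom L g₁ := by
  apply AlgEquiv.ext
  intro x
  apply (algebraMap L Ω₁).injective
  have h1 := AlgEquiv.restrictNormal_commutes g₁ L x
  have h2 := AlgEquiv.restrictNormal_commutes (AlgEquiv.restrictNormalHom Ω g₁) L x
  have h3 := AlgEquiv.restrictNormal_commutes g₁ Ω (algebraMap L Ω x)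
  have h4 : algebraMap L Ω₁ ((AlgEquiv.restrictNormalHom L (AlgEquiv.restrictNormalHom Ω g₁)) x) =
      algebraMap Ω Ω₁ (algebraMap L Ω
        ((AlgEquiv.restrictNormalHom L (AlgEquiv.restrictNormalHom Ω g₁)) x)) :=
    IsScalarTower.algebraMap_apply L Ω Ω₁ _
  have h5 : algebraMap L Ω₁ x = algebraMap Ω Ω₁ (algebraMap L Ω x) :=
    IsScalarTower.algebraMap_apply L Ω Ω₁ _
  rw [h4]
  refine (congrArg (algebraMap Ω Ω₁) h2).trans ?_
  refine h3.trans ?_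
  rw [← h5]
  exact h1.symm

end Tower

section Fields

variable (L Ω₁ : Type) [Field L] [NumberField L] [IsGalois ℚ L] [Field Ω₁] [NumberField Ω₁]
  [Algebra L Ω₁] [IsGalois ℚ Ω₁]

/-- The crossing field inside `Ω₁`. -/
theorem exists_crossField {ℓ : ℕ} [Fact ℓ.Prime] [NeZero ℓ] {ζ : Ω₁} (hζ : IsPrimitiveRoot ζ ℓ)
    (hgen : ∀ g : Gal(Ω₁/ℚ), AlgEquiv.restrictNormalHom L g = 1 → g ζ = ζ → g = 1)
    (hsurj : ∀ (τ : Gal(L/ℚ)) (u : (ZMod ℓ)ˣ),
      ∃ g : Gal(Ω₁/ℚ), AlgEquiv.restrictNormalHom L g = τ ∧ hζ.autToPow ℚ g = u)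
    (N : ℕ) (hN : 2 * N ∣ ℓ - 1) :
    ∃ (Ω : Type) (_ : Field Ω) (_ : NumberField Ω) (_ : Algebra L Ω) (_ : IsGalois ℚ Ω)
      (_ : Algebra Ω Ω₁) (χ : DirichletCharacter ℂ ℓ) (ψ : Gal(Ω/ℚ) →* ℂˣ),
      χ.Even ∧
      (∀ g : Gal(Ω/ℚ), AlgEquiv.restrictNormalHom L g = 1 → ψ g = 1 → g = 1) ∧
      (∀ (τ : Gal(L/ℚ)) (w : ℂˣ), w ^ N = 1 →
        ∃ g : Gal(Ω/ℚ), AlgEquiv.restrictNormalHom L g = τ ∧ ψ g = w) ∧
      (∀ g : Gal(Ω/ℚ), ψ g ^ N = 1) ∧
      (∀ (g₁ : Gal(Ω₁/ℚ)) (j : ℕ), g₁ ζ = ζ ^ j →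
        ((ψ (AlgEquiv.restrictNormalHom Ω g₁) : ℂˣ) : ℂ) = χ (j : ZMod ℓ)) := by
  obtain ⟨χ, hχeven, hχpow, hχsurj⟩ := exists_even_char ℓ N hN
  -- the character on `Gal(Ω₁/ℚ)`
  let ψ₁ : Gal(Ω₁/ℚ) →* ℂˣ := χ.toUnitHom.comp (hζ.autToPow ℚ)
  let Ψ₁ : Gal(Ω₁/ℚ) →* Gal(L/ℚ) × ℂˣ := (AlgEquiv.restrictNormalHom L).prod ψ₁
  let H : Subgroup Gal(Ω₁/ℚ) := Ψ₁.ker
  haveI hHn : H.Normal := MonoidHom.normal_ker Ψ₁
  haveI hgal : IsGalois ℚ ↥(IntermediateField.fixedField H) :=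
    IsGalois.of_fixedField_normal_subgroup H
  -- `L` lands in the fixed field
  have hLmem : ∀ x : L, algebraMap L Ω₁ x ∈ IntermediateField.fixedField H := by
    intro x
    rw [IntermediateField.mem_fixedField_iff]
    intro h hh
    have h1 : AlgEquiv.restrictNormalHom L h = 1 := congrArg Prod.fst (MonoidHom.mem_ker.mp hh)
    have h2 := AlgEquiv.restrictNormal_commutes h L x
    have h3 : h.restrictNormal L = 1 := h1
    rw [h3] at h2
    exact h2.symm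
  letI algLΩ : Algebra L ↥(IntermediateField.fixedField H) :=
    ((algebraMap L Ω₁).codRestrict (IntermediateField.fixedField H) hLmem).toAlgebra
  haveI tower : IsScalarTower L ↥(IntermediateField.fixedField H) Ω₁ :=
    IsScalarTower.of_algebraMap_eq (fun x => rfl)
  -- the kernel of the restriction to `Ω`
  have hker : ∀ g₁ : Gal(Ω₁/ℚ),
      AlgEquiv.restrictNormalHom ↥(IntermediateField.fixedField H) g₁ = 1 ↔ g₁ ∈ H := by
    intro g₁
    constructor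
    · intro hg
      have h1 : g₁ ∈ (IntermediateField.fixedField H).fixingSubgroup := by
        rw [IntermediateField.mem_fixingSubgroup_iff]
        intro x hx
        have h2 := AlgEquiv.restrictNormal_commutes g₁ (↥(IntermediateField.fixedField H)) ⟨x, hx⟩
        have h3 : g₁.restrictNormal ↥(IntermediateField.fixedField H) = 1 := hg
        rw [h3] at h2
        exact h2.symm
      rw [IntermediateField.fixingSubgroup_fixedField] at h1
      exact h1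
    · intro hg
      apply AlgEquiv.ext
      intro x
      apply (algebraMap ↥(IntermediateField.fixedField H) Ω₁).injective
      have h2 := AlgEquiv.restrictNormal_commutes g₁ (↥(IntermediateField.fixedField H)) x
      refine h2.trans ?_
      exact (IntermediateField.mem_fixedField_iff H _).mp x.2 g₁ hg
  have hsurjΩ : Function.Surjective
      (AlgEquiv.restrictNormalHom (F := ℚ) (K₁ := Ω₁) ↥(IntermediateField.fixedField H)) :=
    AlgEquiv.restrictNormalHom_surjective Ω₁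
  have hkerle : (AlgEquiv.restrictNormalHom (F := ℚ) (K₁ := Ω₁)
      ↥(IntermediateField.fixedField H)).ker ≤ Ψ₁.ker := by
    intro g hg
    exact (hker g).mp (MonoidHom.mem_ker.mp hg)
  let Ψ : Gal(↥(IntermediateField.fixedField H)/ℚ) →* Gal(L/ℚ) × ℂˣ :=
    (AlgEquiv.restrictNormalHom (F := ℚ) (K₁ := Ω₁)
      ↥(IntermediateField.fixedField H)).liftOfRightInverse (Function.surjInv hsurjΩ)
      (Function.rightInverse_surjInv hsurjΩ) ⟨Ψ₁, hkerle⟩
  have hΨ : ∀ g₁ : Gal(Ω₁/ℚ),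
      Ψ (AlgEquiv.restrictNormalHom ↥(IntermediateField.fixedField H) g₁) = Ψ₁ g₁ := fun g₁ =>
    MonoidHom.liftOfRightInverse_comp_apply _ _ _ _ g₁
  have hΨfst : ∀ g : Gal(↥(IntermediateField.fixedField H)/ℚ),
      (Ψ g).1 = AlgEquiv.restrictNormalHom L g := by
    intro g
    obtain ⟨g₁, rfl⟩ := hsurjΩ g
    rw [hΨ, restrictNormalHom_tower (K := ℚ) (L := L) (Ω := ↥(IntermediateField.fixedField H))
      (Ω₁ := Ω₁) g₁]
    rfl
  refine ⟨↥(IntermediateField.fixedField H), inferInstance, inferInstance, algLΩ, hgal,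
    inferInstance, χ, (MonoidHom.snd _ _).comp Ψ, hχeven, ?_, ?_, ?_, ?_⟩
  · intro g hg1 hg2
    obtain ⟨g₁, rfl⟩ := hsurjΩ g
    rw [hker]
    apply MonoidHom.mem_ker.mpr
    rw [← hΨ]
    exact Prod.ext ((hΨfst _).trans hg1) hg2
  · intro τ w hw
    obtain ⟨u, hu⟩ := hχsurj w hw
    obtain ⟨g₁, hg₁, hg₁u⟩ := hsurj τ u
    refine ⟨AlgEquiv.restrictNormalHom ↥(IntermediateField.fixedField H) g₁, ?_, ?_⟩
    · rw [← hΨfst, hΨ]
      exact hg₁
    · show (Ψ _).2 = w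
      rw [hΨ]
      show χ.toUnitHom (hζ.autToPow ℚ g₁) = w
      rw [hg₁u, hu]
  · intro g
    obtain ⟨g₁, rfl⟩ := hsurjΩ g
    show (Ψ _).2 ^ N = 1
    rw [hΨ]
    exact hχpow _
  · intro g₁ j hj
    show (((Ψ _).2 : ℂˣ) : ℂ) = _
    rw [hΨ]
    show ((χ.toUnitHom (hζ.autToPow ℚ g₁) : ℂˣ) : ℂ) = _
    rw [MulChar.coe_toUnitHom, helper38.autToPow_eq_of_apply_eq ℚ hζ g₁ j hj]

end Fields

/-- [CROSS-FIELDS]. -/
theorem crossFields : CrossFieldsStatement := by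
  intro L _ _ _
  obtain ⟨B, hB⟩ := exists_bound_unramified L
  refine ⟨B, ?_⟩
  intro ℓ hℓF hBℓ N hN
  have hℓ : ℓ.Prime := hℓF.out
  haveI : NeZero ℓ := ⟨hℓ.ne_zero⟩
  haveI : NumberField (CyclotomicField ℓ L) := IsCyclotomicExtension.numberField {ℓ} L _
  haveI : IsGalois ℚ (CyclotomicField ℓ L) :=
    helper39.isGalois_of_isCyclotomicExtension ℚ L ℓ (CyclotomicField ℓ L)
  have hζ : IsPrimitiveRoot (IsCyclotomicExtension.zeta ℓ L (CyclotomicField ℓ L)) ℓ :=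
    IsCyclotomicExtension.zeta_spec ℓ L (CyclotomicField ℓ L)
  have hgen : ∀ g : Gal(CyclotomicField ℓ L/ℚ), AlgEquiv.restrictNormalHom L g = 1 →
      g (IsCyclotomicExtension.zeta ℓ L (CyclotomicField ℓ L)) =
        IsCyclotomicExtension.zeta ℓ L (CyclotomicField ℓ L) → g = 1 := by
    intro g hg1 hg2
    apply helper39.eq_one_of_fixes ℚ L ℓ (CyclotomicField ℓ L) hζ g _ hg2
    intro x
    have h2 := AlgEquiv.restrictNormal_commutes g L x
    have h3 : g.restrictNormal L = 1 := hg1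
    rw [h3] at h2
    exact h2.symm
  have hsurj := exists_gal_of_unramified (L := L) (Ω₁ := CyclotomicField ℓ L) hζ hgen
    (fun P _ hmem => hB P ℓ hℓ hBℓ hmem)
  obtain ⟨Ω, i1, i2, i3, i4, i5, χ, ψ, h1, h2, h3, h4, h5⟩ :=
    exists_crossField L (CyclotomicField ℓ L) hζ hgen hsurj N hN
  exact ⟨Ω, i1, i2, i3, i4, CyclotomicField ℓ L, inferInstance, inferInstance, i5, inferInstance,
    _, χ, ψ, hζ, h1, h2, h3, h4, h5⟩

end Fermat.Agent.T4.helper39
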