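import Mathlib
import Fermat.Agent.T4.helper39_ChebCrossAsm
import Fermat.Agent.T4.helper39_ChebCrossFields
import Fermat.Agent.T4.helper69_ChebCrossCount

/-!
# T4 block (II), leaf [T4-CHEB-CROSS] (helper39): the crossing fields, unconditional

`cross : helper62.CrossStatement`, from `cross_of` (assembly, `helper39_ChebCrossAsm`),
`crossFields` (`helper39_ChebCrossFields`) and `helper69.crossCount`.
-/

set_option autoImplicit false

namespace Fermat.Agent.T4.helper39

/-- [T4-CHEB-CROSS]: the crossing fields. -/
theorem cross : Fermat.Agent.T4.helper62.CrossStatement :=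
  cross_of crossFields Fermat.Agent.T4.helper69.crossCount

end Fermat.Agent.T4.helper39
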