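import Fermat.Agent.T4.helper91_ChebDensWire
import Fermat.Agent.T4.helper39_ChebCrossFields

/-!
# T4 block (II): the Chebotarev density theorem, unconditional (helper39)

`chebDensityNF : helper62.ChebDensityNF` and `densStatement : helper80.DensStatement`
(= block (II) of BLUEPRINT T4), from `helper91.dens_of_fields` and `helper39.crossFields`.
-/

set_option autoImplicit false

namespace Fermat.Agent.T4.helper39

/-- The Chebotarev density theorem over `ℚ`, number field form. -/
theorem chebDensityNF : Fermat.Agent.T4.helper62.ChebDensityNF :=
  Fermat.Agent.T4.helper91.chebDensityNF_of_fields crossFields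

/-- Block (II): the density statement consumed by the Deligne–Serre endgame. -/
theorem densStatement : Fermat.Agent.T4.helper80.DensStatement :=
  Fermat.Agent.T4.helper91.dens_of_fields crossFields

end Fermat.Agent.T4.helper39
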