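import Fermat.Agent.T4.helper3_GalH1
import Fermat.Agent.T4.helper1_Eigen1Wire
import Fermat.Agent.S54.helper91_Frobenius

/-!
# T4 (I) [I-COMM1] (helper3): the fields `op_gal` and `op_comm` of `GenTateInput` for `J₁(M)`

For `J = helper32.J1 M` and the operators `helper1.op1 M` (`T_p = hecke1`, `⟨d⟩ = diamond1`):

* `op1_gal`  : the field `op_gal` (unconditional).
* `op1_comm_of` : the field `op_comm` on `ℓ`-power torsion, from the Eichler-Shimura relations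
  (the field `frobenius` for `esSet M ℓ`) and the commutation of `T_p` with the diamonds.
  The prime `ℓ` itself is allowed among the indices: `T_ℓ` commutes with
  `T_p = φ + p ⟨p⟩ φ⁻¹` (`p ≠ ℓ`) because it commutes with Galois and with `⟨p⟩`.
* `genTateInput_of` : `GenTateInput ℓ (op1 M) (inertiaAway (M * ℓ)) (esSet M ℓ)` from the four
  remaining inputs (continuity, finiteness, unramifiedness, Eichler-Shimura) and
  `DiamondLiftStatement M`.
-/

set_option autoImplicit false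
set_option linter.style.haveILetI false
set_option linter.unusedSectionVars false

noncomputable section

namespace Fermat.Agent.T4.helper3

open Fermat.Agent.T4.helper1 Fermat.Agent.T4.helper32
open Fermat.Agent.T4.helper79 (Gen1 primeUnit)

/-- the field `op_gal` of `GenTateInput` for `J₁(M)`: Galois commutes with all operators. -/
theorem op1_gal (M : ℕ) (i : Gen1 M) (g : GalQ) (x : J1 M) :
    op1 M i (g • x) = g • op1 M i x := by
  rcases i with p | d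
  · exact hecke1_galois_smul M ⟨p.1, p.2.1⟩ g x
  · exact diamond1_galois_smul M d g x

/-- `ℓ`-power torsion is stable under Galois. -/
theorem isTors_smul {M ℓ : ℕ} (g : GalQ) {x : J1 M} (hx : ∃ n : ℕ, ℓ ^ n • x = 0) :
    ∃ n : ℕ, ℓ ^ n • (g • x) = 0 := by
  obtain ⟨n, hn⟩ := hx
  refine ⟨n, ?_⟩
  have h := map_nsmul (DistribSMul.toAddMonoidHom (J1 M) g) (ℓ ^ n) x
  rw [DistribSMul.toAddMonoidHom_apply, DistribSMul.toAddMonoidHom_apply] at h
  rw [← h, hn, smul_zero]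

/-- `ℓ`-power torsion is stable under additive maps. -/
theorem isTors_map {M ℓ : ℕ} (f : J1 M →+ J1 M) {x : J1 M} (hx : ∃ n : ℕ, ℓ ^ n • x = 0) :
    ∃ n : ℕ, ℓ ^ n • f x = 0 := by
  obtain ⟨n, hn⟩ := hx
  exact ⟨n, by rw [← map_nsmul, hn, map_zero]⟩

/-- the Eichler-Shimura hypothesis: the field `frobenius` of `GenTateInput` for `esSet M ℓ`. -/
def EsHyp (M ℓ : ℕ) : Prop :=
  ∀ e ∈ esSet M ℓ, ∀ x : J1 M, (∃ n : ℕ, ℓ ^ n • x = 0) →
    e.1 • e.1 • x - op1 M e.2.1 (e.1 • x) + e.2.2.1 • op1 M e.2.2.2 x = 0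

/-- the commutation of the Hecke operators with the diamonds. -/
def DiamHeckeComm (M : ℕ) : Prop :=
  ∀ (p : Nat.Primes), ¬ (p : ℕ) ∣ M → ∀ (d : (ZMod M)ˣ) (x : J1 M),
    hecke1 M p (diamond1 M d x) = diamond1 M d (hecke1 M p x)

theorem diamHeckeComm_of_lift {M : ℕ} (h : DiamondLiftStatement M) : DiamHeckeComm M :=
  fun p hpM d x => hecke1_diamond1 h p hpM d x

section Comm

variable {M ℓ : ℕ}

/-- On `ℓ`-power torsion, `T_p = φ + p ⟨p⟩ φ⁻¹` for every Frobenius lift `φ` at `p ∤ M ℓ`. -/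
theorem hecke1_eq_frob_add (hES : EsHyp M ℓ) {p : ℕ} (hp : p.Prime) (hpM : ¬ p ∣ M)
    (hpMℓ : ¬ p ∣ M * ℓ) (A : ValuationSubring (AlgebraicClosure ℚ)) (hA : A.LiesOverPrime p)
    (φ : GalQ) (hφ : A.IsFrobeniusAt φ p) (x : J1 M) (hx : ∃ n : ℕ, ℓ ^ n • x = 0) :
    hecke1 M ⟨p, hp⟩ x = φ • x + (p : ℤ) • diamond1 M (primeUnit hp hpM) (φ⁻¹ • x) := by
  have h := hES (φ, Sum.inl ⟨p, hp, hpM⟩, (p : ℤ), Sum.inr (primeUnit hp hpM))
    ⟨p, hp, hpM, hpMℓ, A, hA, hφ, rfl, rfl, rfl⟩ (φ⁻¹ • x) (isTors_smul φ⁻¹ hx)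
  simp only [op1, Sum.elim_inl, Sum.elim_inr, LinearMap.toAddMonoidHom_coe,
    smul_inv_smul] at h
  rw [sub_add_eq_add_sub, sub_eq_zero] at h
  exact h.symm

/-- `T_{p'}` commutes with `T_p` on `ℓ`-power torsion, for `p ≠ ℓ` (`p'` arbitrary). -/
theorem hecke1_comm_aux (hℓ : ℓ.Prime) (hES : EsHyp M ℓ) (hDH : DiamHeckeComm M) {p : ℕ}
    (hp : p.Prime) (hpM : ¬ p ∣ M) (hpℓ : p ≠ ℓ) (p' : Nat.Primes) (hp'M : ¬ (p' : ℕ) ∣ M)
    (x : J1 M) (hx : ∃ n : ℕ, ℓ ^ n • x = 0) :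
    hecke1 M p' (hecke1 M ⟨p, hp⟩ x) = hecke1 M ⟨p, hp⟩ (hecke1 M p' x) := by
  have hpMℓ : ¬ p ∣ M * ℓ := by
    intro h
    rcases (Nat.Prime.dvd_mul hp).mp h with h | h
    · exact hpM h
    · exact hpℓ ((Nat.prime_dvd_prime_iff_eq hp hℓ).mp h)
  obtain ⟨A, φ, hA, hφ⟩ := Fermat.Agent.S54.helper91.exists_isFrobeniusAt hp
  have hx' : ∃ n : ℕ, ℓ ^ n • hecke1 M p' x = 0 := isTors_map (hecke1 M p').toAddMonoidHom hx
  rw [hecke1_eq_frob_add hES hp hpM hpMℓ A hA φ hφ x hx,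
    hecke1_eq_frob_add hES hp hpM hpMℓ A hA φ hφ (hecke1 M p' x) hx',
    map_add, map_zsmul, hecke1_galois_smul, hDH p' hp'M, hecke1_galois_smul]

/-- **the field `op_comm` of `GenTateInput` for `J₁(M)`** -/
theorem op1_comm_of (hℓ : ℓ.Prime) (hES : EsHyp M ℓ) (hDH : DiamHeckeComm M)
    (i j : Gen1 M) (x : J1 M) (hx : ∃ n : ℕ, ℓ ^ n • x = 0) :
    op1 M i (op1 M j x) = op1 M j (op1 M i x) := by
  rcases i with p | d
  · rcases j with p' | e
    · -- two Hecke operators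
      show hecke1 M ⟨p.1, p.2.1⟩ (hecke1 M ⟨p'.1, p'.2.1⟩ x) =
        hecke1 M ⟨p'.1, p'.2.1⟩ (hecke1 M ⟨p.1, p.2.1⟩ x)
      by_cases hpℓ : p.1 = ℓ
      · by_cases hp'ℓ : p'.1 = ℓ
        · have : p = p' := Subtype.ext (hpℓ.trans hp'ℓ.symm)
          rw [this]
        · exact hecke1_comm_aux hℓ hES hDH p'.2.1 p'.2.2 hp'ℓ ⟨p.1, p.2.1⟩ p.2.2 x hx
      · exact (hecke1_comm_aux hℓ hES hDH p.2.1 p.2.2 hpℓ ⟨p'.1, p'.2.1⟩ p'.2.2 x hx).symm
    · exact hDH ⟨p.1, p.2.1⟩ p.2.2 e x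
  · rcases j with p' | e
    · exact (hDH ⟨p'.1, p'.2.1⟩ p'.2.2 d x).symm
    · exact diamond1_comm M d e x

end Comm

/-- **`GenTateInput` for `J₁(M)`** from the four remaining inputs and the commutation of the
Hecke operators with the diamonds. -/
theorem genTateInput_of {M ℓ : ℕ} (hℓ : ℓ.Prime) (hDH : DiamHeckeComm M)
    (hcont : ∀ x : J1 M, (∃ n : ℕ, ℓ ^ n • x = 0) →
      ∃ K : IntermediateField ℚ (AlgebraicClosure ℚ), FiniteDimensional ℚ K ∧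
        ∀ σ : GalQ, (∀ y ∈ K, σ y = y) → σ • x = x)
    (hfin : Finite (nsmulAddMonoidHom (α := J1 M) (ℓ ^ 1)).ker)
    (hunr : ∀ σ ∈ inertiaAway (M * ℓ), ∀ x : J1 M, (∃ n : ℕ, ℓ ^ n • x = 0) → σ • x = x)
    (hES : EsHyp M ℓ) :
    GenTateInput ℓ (op1 M) (inertiaAway (M * ℓ)) (esSet M ℓ) where
  op_comm := fun i j x hx => op1_comm_of hℓ hES hDH i j x hx
  op_gal := fun i g x _ => op1_gal M i g x
  continuity := hcont
  finite_torsion := hfin
  unramified := hunr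
  frobenius := hES

end Fermat.Agent.T4.helper3

end
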