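import Fermat.Agent.T4.helper1_TateGen

/-!
# T4 (I) [I-COMM1], abstract form (helper3): `op_comm` is a consequence of Eichler-Shimura

For a `G_ℚ`-module `J` with operators `op : ι → J →+ J` and a set `E` of Eichler-Shimura
quadruples `(φ, i, c, j)` (`φ² - op_i φ + c op_j = 0` on `ℓ`-power torsion), let `Dm ⊆ ι` be a set
of indices ("diamonds") whose operators commute with each other, such that every index outside
`Dm` is the second component of a quadruple of `E` whose last component lies in `Dm`.  If all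
operators commute with Galois, then ALL operators commute on `ℓ`-power torsion:
`op_i = φ + c op_j φ⁻¹` there.

* `op_comm_of_es`   : the field `op_comm` of `helper1.GenTateInput`.
* `genTateInput_of_es` : `helper1.GenTateInput` from the remaining five fields.

No hypothesis on the index set: in the application `ι` is `{p ∤ M ℓ} ⊕ (ℤ/M)ˣ` (the prime `ℓ`
must NOT be an index, there is no Eichler-Shimura relation at `ℓ`).
-/

set_option autoImplicit false
set_option linter.style.haveILetI false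
set_option linter.unusedSectionVars false

noncomputable section

namespace Fermat.Agent.T4.helper3

open Fermat.Agent.T4.helper1 (GalQ GenTateInput)

section Abs

variable {J : Type} [AddCommGroup J] [DistribMulAction GalQ J] {ι : Type}

/-- `ℓ`-power torsion is stable under the Galois action. -/
theorem tors_smul {ℓ : ℕ} (g : GalQ) {x : J} (hx : ∃ n : ℕ, ℓ ^ n • x = 0) :
    ∃ n : ℕ, ℓ ^ n • (g • x) = 0 := by
  obtain ⟨n, hn⟩ := hx
  refine ⟨n, ?_⟩
  have h := map_nsmul (DistribSMul.toAddMonoidHom J g) (ℓ ^ n) x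
  rw [DistribSMul.toAddMonoidHom_apply, DistribSMul.toAddMonoidHom_apply] at h
  rw [← h, hn, smul_zero]

/-- `ℓ`-power torsion is stable under additive maps. -/
theorem tors_map {ℓ : ℕ} (f : J →+ J) {x : J} (hx : ∃ n : ℕ, ℓ ^ n • x = 0) :
    ∃ n : ℕ, ℓ ^ n • f x = 0 := by
  obtain ⟨n, hn⟩ := hx
  exact ⟨n, by rw [← map_nsmul, hn, map_zero]⟩

variable (op : ι → J →+ J) (ℓ : ℕ) (E : Set (GalQ × ι × ℤ × ι))

/-- On `ℓ`-power torsion, `op_i = φ + c op_j φ⁻¹` for every quadruple `(φ, i, c, j)`. -/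
theorem op_eq_frob_add
    (hfrob : ∀ e ∈ E, ∀ x : J, (∃ n : ℕ, ℓ ^ n • x = 0) →
      e.1 • e.1 • x - op e.2.1 (e.1 • x) + e.2.2.1 • op e.2.2.2 x = 0)
    (e : GalQ × ι × ℤ × ι) (he : e ∈ E) (x : J) (hx : ∃ n : ℕ, ℓ ^ n • x = 0) :
    op e.2.1 x = e.1 • x + e.2.2.1 • op e.2.2.2 (e.1⁻¹ • x) := by
  have h := hfrob e he (e.1⁻¹ • x) (tors_smul e.1⁻¹ hx)
  rw [smul_inv_smul, sub_add_eq_add_sub, sub_eq_zero] at h
  exact h.symm

/-- an operator commuting with Galois and with `op_j` commutes with `op_i`, for every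
quadruple `(φ, i, c, j)`. -/
theorem comm_of_quad
    (hfrob : ∀ e ∈ E, ∀ x : J, (∃ n : ℕ, ℓ ^ n • x = 0) →
      e.1 • e.1 • x - op e.2.1 (e.1 • x) + e.2.2.1 • op e.2.2.2 x = 0)
    (e : GalQ × ι × ℤ × ι) (he : e ∈ E) (B : J →+ J)
    (hBg : ∀ (g : GalQ) (x : J), (∃ n : ℕ, ℓ ^ n • x = 0) → B (g • x) = g • B x)
    (hBd : ∀ x : J, (∃ n : ℕ, ℓ ^ n • x = 0) → B (op e.2.2.2 x) = op e.2.2.2 (B x))
    (x : J) (hx : ∃ n : ℕ, ℓ ^ n • x = 0) :
    B (op e.2.1 x) = op e.2.1 (B x) := by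
  rw [op_eq_frob_add op ℓ E hfrob e he x hx,
    op_eq_frob_add op ℓ E hfrob e he (B x) (tors_map B hx), map_add, map_zsmul,
    hBg e.1 x hx, hBd _ (tors_smul e.1⁻¹ hx), hBg e.1⁻¹ x hx]

/-- **the field `op_comm` from Eichler-Shimura** -/
theorem op_comm_of_es (Dm : Set ι)
    (hgal : ∀ (i : ι) (g : GalQ) (x : J), (∃ n : ℕ, ℓ ^ n • x = 0) → op i (g • x) = g • op i x)
    (hfrob : ∀ e ∈ E, ∀ x : J, (∃ n : ℕ, ℓ ^ n • x = 0) →
      e.1 • e.1 • x - op e.2.1 (e.1 • x) + e.2.2.1 • op e.2.2.2 x = 0)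
    (hD : ∀ i ∈ Dm, ∀ j ∈ Dm, ∀ x : J, (∃ n : ℕ, ℓ ^ n • x = 0) →
      op i (op j x) = op j (op i x))
    (hcov : ∀ i : ι, i ∈ Dm ∨ ∃ e ∈ E, e.2.1 = i ∧ e.2.2.2 ∈ Dm)
    (i j : ι) (x : J) (hx : ∃ n : ℕ, ℓ ^ n • x = 0) :
    op i (op j x) = op j (op i x) := by
  -- every diamond commutes with every operator
  have hDall : ∀ d ∈ Dm, ∀ (k : ι) (y : J), (∃ n : ℕ, ℓ ^ n • y = 0) →
      op d (op k y) = op k (op d y) := by
    intro d hd k y hy
    rcases hcov k with hk | ⟨e, he, rfl, hed⟩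
    · exact hD d hd k hk y hy
    · exact comm_of_quad op ℓ E hfrob e he (op d) (fun g z hz => hgal d g z hz)
        (fun z hz => hD d hd _ hed z hz) y hy
  rcases hcov j with hj | ⟨e, he, rfl, hed⟩
  · exact (hDall j hj i x hx).symm
  · exact comm_of_quad op ℓ E hfrob e he (op i) (fun g z hz => hgal i g z hz)
      (fun z hz => (hDall _ hed i z hz).symm) x hx

/-- **`GenTateInput` from Eichler-Shimura**: the field `op_comm` is automatic. -/
theorem genTateInput_of_es (U : Set GalQ) (Dm : Set ι)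
    (hgal : ∀ (i : ι) (g : GalQ) (x : J), (∃ n : ℕ, ℓ ^ n • x = 0) → op i (g • x) = g • op i x)
    (hD : ∀ i ∈ Dm, ∀ j ∈ Dm, ∀ x : J, (∃ n : ℕ, ℓ ^ n • x = 0) →
      op i (op j x) = op j (op i x))
    (hcov : ∀ i : ι, i ∈ Dm ∨ ∃ e ∈ E, e.2.1 = i ∧ e.2.2.2 ∈ Dm)
    (hcont : ∀ x : J, (∃ n : ℕ, ℓ ^ n • x = 0) →
      ∃ K : IntermediateField ℚ (AlgebraicClosure ℚ), FiniteDimensional ℚ K ∧
        ∀ σ : GalQ, (∀ y ∈ K, σ y = y) → σ • x = x)
    (hfin : Finite (nsmulAddMonoidHom (α := J) (ℓ ^ 1)).ker)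
    (hunr : ∀ σ ∈ U, ∀ x : J, (∃ n : ℕ, ℓ ^ n • x = 0) → σ • x = x)
    (hfrob : ∀ e ∈ E, ∀ x : J, (∃ n : ℕ, ℓ ^ n • x = 0) →
      e.1 • e.1 • x - op e.2.1 (e.1 • x) + e.2.2.1 • op e.2.2.2 x = 0) :
    GenTateInput ℓ op U E where
  op_comm := op_comm_of_es op ℓ E Dm hgal hfrob hD hcov
  op_gal := hgal
  continuity := hcont
  finite_torsion := hfin
  unramified := hunr
  frobenius := hfrob

end Abs

/-! ### Restriction of the index set of a `κ`-package -/

section Comap

open Fermat.Agent.T4.helper1 (GenKappa genWordEnd)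

theorem genWordEnd_comp {ι ι' : Type} {X : Type*} [AddCommGroup X] (T : ι → X →+ X)
    (f : ι' → ι) (w : List ι') : genWordEnd (fun i => T (f i)) w = genWordEnd T (w.map f) := by
  induction w with
  | nil => rfl
  | cons i w ih =>
    rw [List.map_cons, genWordEnd, genWordEnd, ih]

/-- a `κ`-package can be restricted along any map of index sets (for instance: forget the
Hecke operator at the residue characteristic). -/
theorem genKappa_comap {p : ℕ} {J : Type} [AddCommGroup J] {ι ι' : Type} (op : ι → J →+ J)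
    {𝕋 : Type} [CommRing 𝕋] (gen : ι → 𝕋) (f : ι' → ι) (h : GenKappa p op gen) :
    GenKappa p (fun i => op (f i)) (fun i => gen (f i)) := by
  classical
  obtain ⟨X, i1, i2, i3, Tst, κ, h1, h2, h3, h4, h5⟩ := h
  refine ⟨X, i1, i2, i3, fun i => Tst (f i), κ, h1, h2, h3, fun n i x => h4 n (f i) x, ?_⟩
  intro c hc
  have key := h5 (c.mapDomain (List.map f)) (fun x => by
    rw [Finsupp.sum_mapDomain_index (h := fun w a => a • genWordEnd Tst w x)
      (fun _ => zero_smul _ _) (fun _ _ _ => add_smul _ _ _)]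
    have := hc x
    simp only [genWordEnd_comp] at this
    exact this)
  rw [Finsupp.sum_mapDomain_index (h := fun w a => a • (List.map gen w).prod)
    (fun _ => zero_smul _ _) (fun _ _ _ => add_smul _ _ _)] at key
  simp only [List.map_map] at key
  exact key

end Comap

end Fermat.Agent.T4.helper3

end
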