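import Fermat.Agent.T4.helper3_CommAbs
import Fermat.Agent.T4.helper3_GalH1

/-!
# T4 (I) [I-COMM1], general form (helper3): `op_comm` from Eichler-Shimura in ANY convention

`op_comm_of_es_gen` : let `𝒟` be a set of additive endomorphisms of `J` ("diamond words") which
commute with Galois and with each other on `ℓ`-power torsion.  If every operator `op i` either
belongs to `𝒟` or satisfies a relation
`a (φ² x) - b (op_i (φ x)) + c • e x = 0` on `ℓ`-power torsion, with `φ ∈ G_ℚ`, `c ∈ ℤ`,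
`a, b, e ∈ 𝒟`, `b` injective on torsion, and if all `op i` commute with Galois, then all
operators commute on `ℓ`-power torsion.

This covers every convention of Eichler-Shimura for `X₁(M)`:
`φ² - T_p φ + p ⟨p⟩ = 0`, `⟨p⟩⁻¹ φ² - T_p^t φ + p = 0`, `φ² - ⟨p⟩ T_p^t φ + p ⟨p⟩ = 0`, ...

`diamondOps M` : the set `𝒟` for `J₁(M)`: the action of the subgroup generated by the diamond
automorphisms; it contains `1`, `diamond1 M d` and the inverse of `diamond1 M d`, and has all
the properties required by `op_comm_of_es_gen`.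
-/

set_option autoImplicit false
set_option linter.style.haveILetI false
set_option linter.unusedSectionVars false

noncomputable section

open AlgebraicCurve ModularCurve

namespace Fermat.Agent.T4.helper3

open Fermat.Agent.T4.helper1 (GalQ GenTateInput)
open Fermat.Agent.T4.helper32 (J1 F1 F1Q Kbar diamondAut diamond1 diamond1_apply)

section Abs

variable {J : Type} [AddCommGroup J] [DistribMulAction GalQ J] {ι : Type}
variable (op : ι → J →+ J) (ℓ : ℕ)

/-- an operator commuting with Galois and with `a`, `b`, `e` commutes with every `T` satisfying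
`a φ² - b T φ + c e = 0` (`b` injective). -/
theorem comm_of_rel (T B a b e : J →+ J) (φ : GalQ) (c : ℤ)
    (hb : ∀ x : J, (∃ n : ℕ, ℓ ^ n • x = 0) → b x = 0 → x = 0)
    (hrel : ∀ x : J, (∃ n : ℕ, ℓ ^ n • x = 0) → a (φ • φ • x) - b (T (φ • x)) + c • e x = 0)
    (hBg : ∀ (g : GalQ) (x : J), (∃ n : ℕ, ℓ ^ n • x = 0) → B (g • x) = g • B x)
    (hBa : ∀ x : J, (∃ n : ℕ, ℓ ^ n • x = 0) → B (a x) = a (B x))
    (hBb : ∀ x : J, (∃ n : ℕ, ℓ ^ n • x = 0) → B (b x) = b (B x))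
    (hBe : ∀ x : J, (∃ n : ℕ, ℓ ^ n • x = 0) → B (e x) = e (B x))
    (x : J) (hx : ∃ n : ℕ, ℓ ^ n • x = 0) : B (T x) = T (B x) := by
  -- `b (T y) = a (φ y) + c e (φ⁻¹ y)` on torsion
  have key : ∀ y : J, (∃ n : ℕ, ℓ ^ n • y = 0) → b (T y) = a (φ • y) + c • e (φ⁻¹ • y) := by
    intro y hy
    have h := hrel (φ⁻¹ • y) (tors_smul φ⁻¹ hy)
    rw [smul_inv_smul, sub_add_eq_add_sub, sub_eq_zero] at h
    exact h.symm
  have h1 : b (B (T x)) = b (T (B x)) := by
    rw [← hBb _ (tors_map T hx), key x hx, key (B x) (tors_map B hx), map_add, map_zsmul,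
      hBa _ (tors_smul φ hx), hBe _ (tors_smul φ⁻¹ hx), hBg φ x hx, hBg φ⁻¹ x hx]
  have h2 : b (B (T x) - T (B x)) = 0 := by rw [map_sub, h1, sub_self]
  have h3 : ∃ n : ℕ, ℓ ^ n • (B (T x) - T (B x)) = 0 := by
    obtain ⟨n, hn⟩ := hx
    exact ⟨n, by rw [smul_sub, ← map_nsmul, ← map_nsmul, ← map_nsmul, ← map_nsmul, hn, map_zero,
      map_zero, map_zero, sub_self]⟩
  exact sub_eq_zero.mp (hb _ h3 h2)

/-- **the field `op_comm` from Eichler-Shimura, any convention** -/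
theorem op_comm_of_es_gen (𝒟 : Set (J →+ J)) (Dm : Set ι)
    (hgal : ∀ (i : ι) (g : GalQ) (x : J), (∃ n : ℕ, ℓ ^ n • x = 0) → op i (g • x) = g • op i x)
    (h𝒟gal : ∀ a ∈ 𝒟, ∀ (g : GalQ) (x : J), (∃ n : ℕ, ℓ ^ n • x = 0) → a (g • x) = g • a x)
    (h𝒟comm : ∀ a ∈ 𝒟, ∀ b ∈ 𝒟, ∀ x : J, (∃ n : ℕ, ℓ ^ n • x = 0) → a (b x) = b (a x))
    (hDm : ∀ i ∈ Dm, op i ∈ 𝒟)
    (hrel : ∀ i : ι, i ∈ Dm ∨ ∃ (φ : GalQ) (c : ℤ) (a b e : J →+ J), a ∈ 𝒟 ∧ b ∈ 𝒟 ∧ e ∈ 𝒟 ∧
      (∀ x : J, (∃ n : ℕ, ℓ ^ n • x = 0) → b x = 0 → x = 0) ∧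
      ∀ x : J, (∃ n : ℕ, ℓ ^ n • x = 0) → a (φ • φ • x) - b (op i (φ • x)) + c • e x = 0)
    (i j : ι) (x : J) (hx : ∃ n : ℕ, ℓ ^ n • x = 0) :
    op i (op j x) = op j (op i x) := by
  -- every diamond word commutes with every operator
  have h2 : ∀ D ∈ 𝒟, ∀ (k : ι) (y : J), (∃ n : ℕ, ℓ ^ n • y = 0) → D (op k y) = op k (D y) := by
    intro D hD k y hy
    rcases hrel k with hk | ⟨φ, c, a, b, e, ha, hb, he, hbinj, hr⟩
    · exact h𝒟comm D hD _ (hDm k hk) y hy
    · exact comm_of_rel ℓ (op k) D a b e φ c hbinj hr (h𝒟gal D hD) (h𝒟comm D hD a ha)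
        (h𝒟comm D hD b hb) (h𝒟comm D hD e he) y hy
  rcases hrel j with hj | ⟨φ, c, a, b, e, ha, hb, he, hbinj, hr⟩
  · exact (h2 _ (hDm j hj) i x hx).symm
  · exact comm_of_rel ℓ (op j) (op i) a b e φ c hbinj hr (hgal i)
      (fun y hy => (h2 a ha i y hy).symm) (fun y hy => (h2 b hb i y hy).symm)
      (fun y hy => (h2 e he i y hy).symm) x hx

end Abs

/-! ### The diamond words on `J₁(M)` -/

section Diamond

variable (M : ℕ)

/-- the subgroup of `SemilinearAut` generated by the diamond automorphisms -/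
def diamondGroup : Subgroup (SemilinearAut Kbar (F1 M)) :=
  Subgroup.closure (Set.range fun d : (ZMod M)ˣ => SemilinearAut.ofAlgAut (diamondAut M d))

/-- the diamond words: the operators on `J₁(M)` induced by the elements of `diamondGroup M` -/
def diamondOps : Set (J1 M →+ J1 M) :=
  {f | ∃ h ∈ diamondGroup M, f = DistribSMul.toAddMonoidHom (J1 M) h}

theorem diamondGroup_comm {g h : SemilinearAut Kbar (F1 M)} (hg : g ∈ diamondGroup M)
    (hh : h ∈ diamondGroup M) : g * h = h * g := by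
  have hc : ∀ x ∈ (Set.range fun d : (ZMod M)ˣ => SemilinearAut.ofAlgAut (diamondAut M d)),
      ∀ y ∈ (Set.range fun d : (ZMod M)ˣ => SemilinearAut.ofAlgAut (diamondAut M d)),
      x * y = y * x := by
    rintro _ ⟨d, rfl⟩ _ ⟨e, rfl⟩
    show SemilinearAut.ofAlgAut (diamondAut M d) * SemilinearAut.ofAlgAut (diamondAut M e) =
      SemilinearAut.ofAlgAut (diamondAut M e) * SemilinearAut.ofAlgAut (diamondAut M d)
    rw [← map_mul, ← map_mul, diamondAut_comm]
  have := Subgroup.closure_le_centralizer_centralizer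
    (Set.range fun d : (ZMod M)ˣ => SemilinearAut.ofAlgAut (diamondAut M d))
  -- `h` centralises the generators, hence `g`
  have hh' : h ∈ Subgroup.centralizer
      (Set.range fun d : (ZMod M)ˣ => SemilinearAut.ofAlgAut (diamondAut M d)) := by
    refine (Subgroup.closure_le _).mpr ?_ hh
    intro y hy
    rw [SetLike.mem_coe, Subgroup.mem_centralizer_iff]
    intro z hz
    exact hc z hz y hy
  have hg' := this hg
  rw [Subgroup.mem_centralizer_iff] at hg'
  exact (hg' h hh').symm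

theorem diamondGroup_galois_comm {h : SemilinearAut Kbar (F1 M)} (hh : h ∈ diamondGroup M)
    (g : Kbar ≃ₐ[ℚ] Kbar) : h * arithmeticGalois (F1Q M) g = arithmeticGalois (F1Q M) g * h := by
  have hle : diamondGroup M ≤ Subgroup.centralizer {arithmeticGalois (F1Q M) g} := by
    refine (Subgroup.closure_le _).mpr ?_
    rintro _ ⟨d, rfl⟩
    rw [SetLike.mem_coe, Subgroup.mem_centralizer_iff]
    intro z hz
    rw [Set.mem_singleton_iff] at hz
    subst hz
    exact ((commute_ofAlgAut_diamondAut M d g).eq).symm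
  have := hle hh
  rw [Subgroup.mem_centralizer_iff] at this
  exact (this _ rfl).symm

theorem one_mem_diamondOps : AddMonoidHom.id (J1 M) ∈ diamondOps M :=
  ⟨1, (diamondGroup M).one_mem, AddMonoidHom.ext fun x => (one_smul _ x).symm⟩

theorem diamond1_mem_diamondOps (d : (ZMod M)ˣ) :
    (diamond1 M d).toAddMonoidHom ∈ diamondOps M :=
  ⟨(SemilinearAut.ofAlgAut (diamondAut M d))⁻¹,
    (diamondGroup M).inv_mem (Subgroup.subset_closure ⟨d, rfl⟩), AddMonoidHom.ext fun _ => rfl⟩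

/-- the inverse of the diamond operator `⟨d⟩` -/
def diamond1Inv (d : (ZMod M)ˣ) : J1 M →+ J1 M :=
  DistribSMul.toAddMonoidHom (J1 M) (SemilinearAut.ofAlgAut (diamondAut M d))

theorem diamond1Inv_diamond1 (d : (ZMod M)ˣ) (x : J1 M) :
    diamond1Inv M d (diamond1 M d x) = x := by
  show SemilinearAut.ofAlgAut (diamondAut M d) • (diamond1 M d x) = x
  rw [diamond1_apply, smul_inv_smul]

theorem diamond1_diamond1Inv (d : (ZMod M)ˣ) (x : J1 M) :
    diamond1 M d (diamond1Inv M d x) = x := by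
  rw [diamond1_apply]
  show (SemilinearAut.ofAlgAut (diamondAut M d))⁻¹ •
    (SemilinearAut.ofAlgAut (diamondAut M d) • x) = x
  rw [inv_smul_smul]

theorem diamond1Inv_mem_diamondOps (d : (ZMod M)ˣ) : diamond1Inv M d ∈ diamondOps M :=
  ⟨SemilinearAut.ofAlgAut (diamondAut M d), Subgroup.subset_closure ⟨d, rfl⟩, rfl⟩

theorem comp_mem_diamondOps {a b : J1 M →+ J1 M} (ha : a ∈ diamondOps M)
    (hb : b ∈ diamondOps M) : a.comp b ∈ diamondOps M := by
  obtain ⟨g, hg, rfl⟩ := ha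
  obtain ⟨h, hh, rfl⟩ := hb
  exact ⟨g * h, (diamondGroup M).mul_mem hg hh, AddMonoidHom.ext fun x => (mul_smul g h x).symm⟩

theorem diamondOps_galois {a : J1 M →+ J1 M} (ha : a ∈ diamondOps M) (g : Kbar ≃ₐ[ℚ] Kbar)
    (x : J1 M) : a (g • x) = g • a x := by
  obtain ⟨h, hh, rfl⟩ := ha
  show h • (g • x) = g • (h • x)
  rw [galois_smul_pic0_def, galois_smul_pic0_def, ← mul_smul, ← mul_smul,
    diamondGroup_galois_comm M hh g]

theorem diamondOps_comm {a b : J1 M →+ J1 M} (ha : a ∈ diamondOps M) (hb : b ∈ diamondOps M)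
    (x : J1 M) : a (b x) = b (a x) := by
  obtain ⟨g, hg, rfl⟩ := ha
  obtain ⟨h, hh, rfl⟩ := hb
  show g • (h • x) = h • (g • x)
  rw [← mul_smul, ← mul_smul, diamondGroup_comm M hg hh]

theorem diamondOps_injective {a : J1 M →+ J1 M} (ha : a ∈ diamondOps M) (x : J1 M)
    (hx : a x = 0) : x = 0 := by
  obtain ⟨h, -, rfl⟩ := ha
  have h1 : h • x = 0 := hx
  have h2 : h⁻¹ • (h • x) = h⁻¹ • (0 : J1 M) := congrArg (fun y => h⁻¹ • y) h1
  rw [inv_smul_smul] at h2
  exact h2.trans (map_zero (DistribSMul.toAddMonoidHom (J1 M) h⁻¹))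

/-- **`op_comm` on `J₁(M)` from Eichler-Shimura in any convention**: operators `op i` commuting
with Galois, each of which is a diamond word or satisfies a relation
`a φ² - b (op i) φ + c e = 0` on `ℓ`-power torsion with diamond words `a`, `b`, `e`. -/
theorem op_comm_J1 {ι : Type} (op : ι → J1 M →+ J1 M) (ℓ : ℕ) (Dm : Set ι)
    (hgal : ∀ (i : ι) (g : GalQ) (x : J1 M), op i (g • x) = g • op i x)
    (hDm : ∀ i ∈ Dm, op i ∈ diamondOps M)
    (hrel : ∀ i : ι, i ∈ Dm ∨ ∃ (φ : GalQ) (c : ℤ) (a b e : J1 M →+ J1 M),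
      a ∈ diamondOps M ∧ b ∈ diamondOps M ∧ e ∈ diamondOps M ∧
      ∀ x : J1 M, (∃ n : ℕ, ℓ ^ n • x = 0) → a (φ • φ • x) - b (op i (φ • x)) + c • e x = 0)
    (i j : ι) (x : J1 M) (hx : ∃ n : ℕ, ℓ ^ n • x = 0) :
    op i (op j x) = op j (op i x) := by
  refine op_comm_of_es_gen op ℓ (diamondOps M) Dm (fun i g x _ => hgal i g x)
    (fun a ha g x _ => diamondOps_galois M ha g x)
    (fun a ha b hb x _ => diamondOps_comm M ha hb x) hDm ?_ i j x hx
  intro k
  rcases hrel k with hk | ⟨φ, c, a, b, e, ha, hb, he, hr⟩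
  · exact Or.inl hk
  · exact Or.inr ⟨φ, c, a, b, e, ha, hb, he, fun x _ hx0 => diamondOps_injective M hb x hx0, hr⟩

end Diamond

end Fermat.Agent.T4.helper3

end
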