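import Mathlib

/-!
# T4 (I) [IG-DED] (helper3, row 1135): the Dedekind reduction for IGUSA1 (Mathlib only)

Setting (that of Mathlib's `IsFractionRing.stabilizerHom_surjective`): a finite group `G` acting
on a commutative ring `B` by ring automorphisms, `A` the ring of invariants
(`Algebra.IsInvariant A B G`), `Q` a prime of `B` over `P`, `K = Frac (A / P)`,
`L = Frac (B / Q)`.  For `b : B` write `resL Q L b` for its image in `L`.

* `exists_stabilizer_of_algEquiv` : (1) every `K`-automorphism of `L` is induced by an element of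
  the stabiliser of `Q`.
* `exists_stabilizer_smul_eq_of_minpoly` : (2) if the conjugates of `x` have pairwise distinct
  images modulo `Q` and `g x mod Q` is a root of the minimal polynomial of `x mod Q` over `K`,
  then `g x = d x` for some `d` in the stabiliser of `Q`.
* `exists_stabilizer_smul_eq_of_irreducible` : (3) the same when `x mod Q` and `g x mod Q` are
  roots of ONE irreducible polynomial over `K`.
* `exists_stabilizer_smul_eq_of_lifts` : (3') the same for a polynomial `F` over `A` killing `x`
  whose reduction is irreducible over `K`; no root hypothesis at all.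
* `stabilizer_transitive` : consequence: the stabiliser of `Q` is transitive on `G / Stab_G (x)`,
  i.e. `G = Stab (Q) · Stab_G (x)`.
-/

set_option autoImplicit false
set_option linter.style.haveILetI false
set_option linter.unusedSectionVars false

noncomputable section

namespace Fermat.Agent.T4.helper3

open Polynomial
open scoped Pointwise

section Ded

variable {A B : Type*} [CommRing A] [CommRing B] [Algebra A B]
  (G : Type*) [Group G] [Finite G] [MulSemiringAction G B] [SMulCommClass G A B]
  (P : Ideal A) (Q : Ideal B) [Q.IsPrime] [Q.LiesOver P]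

variable (K L : Type*) [Field K] [Field L]
  [Algebra (A ⧸ P) K] [Algebra (B ⧸ Q) L]
  [Algebra (A ⧸ P) L] [IsScalarTower (A ⧸ P) (B ⧸ Q) L]
  [Algebra K L] [IsScalarTower (A ⧸ P) K L]
  [Algebra.IsInvariant A B G]
  [IsFractionRing (A ⧸ P) K] [IsFractionRing (B ⧸ Q) L]

/-- the image of `b : B` in `L = Frac (B / Q)` -/
def resL (b : B) : L := algebraMap (B ⧸ Q) L (Ideal.Quotient.mk Q b)

omit [Q.IsPrime] in
theorem resL_eq_iff (b b' : B) : resL Q L b = resL Q L b' ↔ b - b' ∈ Q := by
  unfold resL
  rw [(IsFractionRing.injective (B ⧸ Q) L).eq_iff, Ideal.Quotient.eq]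

include P in
/-- **(1)** every `K`-automorphism of `L` is induced by an element of the stabiliser of `Q`. -/
theorem exists_stabilizer_of_algEquiv (σ : L ≃ₐ[K] L) :
    ∃ d : G, d • Q = Q ∧ ∀ b : B, σ (resL Q L b) = resL Q L (d • b) := by
  obtain ⟨d, hd⟩ := IsFractionRing.stabilizerHom_surjective G P Q K L σ
  refine ⟨d.1, d.2, fun b => ?_⟩
  rw [← hd]
  exact IsFractionRing.stabilizerHom_apply_apply_mk G P Q K L d b

include G P Q in
/-- `L` is normal over `K` (Mathlib). -/
theorem normal_resL : Normal K L :=
  haveI : P.IsPrime := Ideal.over_def Q P ▸ Ideal.IsPrime.under A Q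
  Ideal.IsFractionRing.normal G P Q K L

include P in
/-- **(2)** if the images of the conjugates of `x` modulo `Q` are pairwise distinct and
`g x mod Q` is a root of the minimal polynomial of `x mod Q` over `K`, then `g x = d x` for some
`d` in the stabiliser of `Q`. -/
theorem exists_stabilizer_smul_eq_of_minpoly (x : B)
    (hdist : ∀ g h : G, g • x - h • x ∈ Q → g • x = h • x) (g : G)
    (hroot : aeval (resL Q L (g • x)) (minpoly K (resL Q L x)) = 0) :
    ∃ d : G, d • Q = Q ∧ d • x = g • x := by
  haveI : Normal K L := normal_resL G P Q K L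
  have halg : IsAlgebraic K (resL Q L x) := (Normal.isIntegral ‹_› _).isAlgebraic
  obtain ⟨σ, hσ⟩ := minpoly.exists_algEquiv_of_root' halg hroot
  obtain ⟨d, hdQ, hd⟩ := exists_stabilizer_of_algEquiv G P Q K L σ
  refine ⟨d, hdQ, hdist d g ?_⟩
  rw [← resL_eq_iff Q L, ← hd x, hσ]

include P in
/-- **(3)** if `x mod Q` and `g x mod Q` are roots of one irreducible polynomial over `K`, and the
images of the conjugates of `x` modulo `Q` are pairwise distinct, then `g x = d x` for some `d` in
the stabiliser of `Q`. -/
theorem exists_stabilizer_smul_eq_of_irreducible (x : B)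
    (hdist : ∀ g h : G, g • x - h • x ∈ Q → g • x = h • x) (f : K[X]) (hf : Irreducible f)
    (hx : aeval (resL Q L x) f = 0) (g : G) (hg : aeval (resL Q L (g • x)) f = 0) :
    ∃ d : G, d • Q = Q ∧ d • x = g • x := by
  refine exists_stabilizer_smul_eq_of_minpoly G P Q K L x hdist g ?_
  -- `f` is associated to the minimal polynomial
  have hdvd : minpoly K (resL Q L x) ∣ f := minpoly.dvd K _ hx
  obtain ⟨u, hu⟩ := hdvd
  have hnu : ¬ IsUnit (minpoly K (resL Q L x)) := minpoly.not_isUnit K _
  have huu : IsUnit u := (hf.isUnit_or_isUnit hu).resolve_left hnu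
  rw [hu, map_mul] at hg
  have hu0 : aeval (resL Q L (g • x)) u ≠ 0 := by
    obtain ⟨c, hc, rfl⟩ := Polynomial.isUnit_iff.mp huu
    rw [aeval_C]
    exact fun h => hc.ne_zero ((map_eq_zero (algebraMap K L)).mp h)
  exact (mul_eq_zero.mp hg).resolve_right hu0

include P in
/-- **transitivity**: under the hypotheses of (3) for ALL `g`, the stabiliser of `Q` is transitive
on the conjugates of `x`: `G = Stab (Q) · Stab_G (x)`. -/
theorem stabilizer_transitive (x : B)
    (hdist : ∀ g h : G, g • x - h • x ∈ Q → g • x = h • x) (f : K[X]) (hf : Irreducible f)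
    (hroots : ∀ g : G, aeval (resL Q L (g • x)) f = 0) (g : G) :
    ∃ d s : G, d • Q = Q ∧ s • x = x ∧ g = d * s := by
  have hx : aeval (resL Q L x) f = 0 := by simpa using hroots 1
  obtain ⟨d, hdQ, hd⟩ := exists_stabilizer_smul_eq_of_irreducible G P Q K L x hdist f hf hx g
    (hroots g)
  refine ⟨d, d⁻¹ * g, hdQ, ?_, by rw [mul_inv_cancel_left]⟩
  rw [mul_smul, ← hd, inv_smul_smul]

/-- the reduction map `A → K = Frac (A / P)` -/
def redK : A →+* K := (algebraMap (A ⧸ P) K).comp (Ideal.Quotient.mk P)

/-- the map `B → L = Frac (B / Q)` as a ring homomorphism -/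
def resLHom : B →+* L := (algebraMap (B ⧸ Q) L).comp (Ideal.Quotient.mk Q)

omit [Q.IsPrime] [IsFractionRing (B ⧸ Q) L] in
theorem resLHom_apply (b : B) : resLHom Q L b = resL Q L b := rfl

omit [Q.IsPrime] [IsFractionRing (A ⧸ P) K] [IsFractionRing (B ⧸ Q) L] in
theorem resLHom_comp_algebraMap :
    (resLHom Q L).comp (algebraMap A B) = (algebraMap K L).comp (redK P K) := by
  ext a
  simp only [RingHom.comp_apply, resLHom, redK]
  rw [← IsScalarTower.algebraMap_apply (A ⧸ P) K L,
    IsScalarTower.algebraMap_apply (A ⧸ P) (B ⧸ Q) L, Ideal.Quotient.algebraMap_mk_of_liesOver]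

omit [Q.IsPrime] [IsFractionRing (A ⧸ P) K] [IsFractionRing (B ⧸ Q) L] in
/-- evaluating the reduced polynomial at the reduced element -/
theorem aeval_resL_map (F : A[X]) (b : B) :
    aeval (resL Q L b) (F.map (redK P K)) = resL Q L (aeval b F) := by
  rw [aeval_def, eval₂_map, ← resLHom_comp_algebraMap P Q K L, ← resLHom_apply, ← resLHom_apply,
    aeval_def, hom_eval₂]

/-- the group acts through `A`-algebra maps: it commutes with evaluating polynomials over `A` -/
theorem smul_aeval_of_smulComm (g : G) (F : A[X]) (b : B) :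
    g • aeval b F = aeval (g • b) F := by
  have h := Polynomial.hom_eval₂ F (algebraMap A B) (MulSemiringAction.toRingHom G B g) b
  have hc : (MulSemiringAction.toRingHom G B g).comp (algebraMap A B) = algebraMap A B := by
    ext a
    simp only [RingHom.comp_apply, MulSemiringAction.toRingHom_apply]
    exact smul_algebraMap g a
  rw [hc] at h
  simpa only [aeval_def, MulSemiringAction.toRingHom_apply] using h

include P L in
/-- **(3')** let `F` be a polynomial over `A` killing `x` whose reduction is irreducible over
`K`, and suppose that the images of the conjugates of `x` modulo `Q` are pairwise distinct.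
Then every conjugate `g x` is `d x` for some `d` in the stabiliser of `Q`. -/
theorem exists_stabilizer_smul_eq_of_lifts (x : B)
    (hdist : ∀ g h : G, g • x - h • x ∈ Q → g • x = h • x) (F : A[X])
    (hF : Irreducible (F.map (redK P K))) (hx : aeval x F = 0) (g : G) :
    ∃ d : G, d • Q = Q ∧ d • x = g • x := by
  have hroots : ∀ h : G, aeval (resL Q L (h • x)) (F.map (redK P K)) = 0 := by
    intro h
    rw [aeval_resL_map P Q K L, ← smul_aeval_of_smulComm G h F x, hx, smul_zero]
    exact map_zero (resLHom Q L)
  have hx' : aeval (resL Q L x) (F.map (redK P K)) = 0 := by simpa using hroots 1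
  exact exists_stabilizer_smul_eq_of_irreducible G P Q K L x hdist _ hF hx' g (hroots g)

include P L in
/-- **transitivity, lifted form**: under the hypotheses of (3'), `G = Stab (Q) · Stab_G (x)`. -/
theorem stabilizer_transitive_of_lifts (x : B)
    (hdist : ∀ g h : G, g • x - h • x ∈ Q → g • x = h • x) (F : A[X])
    (hF : Irreducible (F.map (redK P K))) (hx : aeval x F = 0) (g : G) :
    ∃ d s : G, d • Q = Q ∧ s • x = x ∧ g = d * s := by
  obtain ⟨d, hdQ, hd⟩ := exists_stabilizer_smul_eq_of_lifts G P Q K L x hdist F hF hx g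
  refine ⟨d, d⁻¹ * g, hdQ, ?_, by rw [mul_inv_cancel_left]⟩
  rw [mul_smul, ← hd, inv_smul_smul]

include P L in
/-- **subgroup form**: the stabiliser of `Q` (a subgroup of `G`) times any subgroup `H`
containing the stabiliser of `x` is everything: for every `g` there are `d ∈ Stab (Q)` and
`s ∈ H` with `g = d * s`. -/
theorem exists_mul_of_stabilizer_le (x : B)
    (hdist : ∀ g h : G, g • x - h • x ∈ Q → g • x = h • x) (F : A[X])
    (hF : Irreducible (F.map (redK P K))) (hx : aeval x F = 0)
    (H : Subgroup G) (hH : MulAction.stabilizer G x ≤ H) (g : G) :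
    ∃ d ∈ MulAction.stabilizer G Q, ∃ s ∈ H, g = d * s := by
  obtain ⟨d, s, hd, hs, rfl⟩ := stabilizer_transitive_of_lifts G P Q K L x hdist F hF hx g
  exact ⟨d, hd, s, hH hs, rfl⟩

end Ded

end Fermat.Agent.T4.helper3

end
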