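import Mathlib
import Fermat.Prelude.Def_ModularCurve_LaurentCoeff
import Fermat.Agent.T3.helper3_Overring

/-!
# T4 (I) [CUSP1-KEY support] (helper3): integrally closed rings of Laurent series

Mathlib + Prelude `coeffMap` (+ the Mathlib-only T3 file `helper3_Overring`).

* `isIntegrallyClosed_laurentSeries` : **(A)** `R((t))` is integrally closed for a principal ideal
  domain `R` (`R[[t]]` is factorial, `R((t))` is its localisation at `t`).
* `exists_of_isIntegral_of_mul_eq` : **(B), abstract form**: `ψ : T → F` an injective ring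
  homomorphism from an integrally closed domain to a field; if `y * ψ D = ψ N`, `D ≠ 0`, and `y`
  is a root of a monic polynomial over `T`, then `y = ψ Y`.
* `exists_laurent_of_isIntegral_of_mul_eq` : **(B)** for `ψ = coeffMap φ : R((t)) → L((t))`.
* `isPrincipalIdealRing_valuationSubring` : **(C)** every valuation subring of a number field is a
  principal ideal domain (a field or a discrete valuation ring).
* `exists_coeffMap_eq_of_coeff_mem`, `coeff_mem_of_isIntegral_of_mul_eq` : **membership forms**:
  for a valuation subring `A` of a field `K` of characteristic `0` and a number field `L ⊆ K`, a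
  series `y ∈ K((t))` with `y * D = N`, `D ≠ 0`, `N`, `D` and the coefficients of a monic
  polynomial killing `y` all having coefficients in `A ∩ L`, has coefficients in `A ∩ L`.

REMARK.  `A((t))` is NOT integrally closed in `K((t))` (`y² = ℓ² + t`), so the representation of
`y` as a fraction of integral series is essential.
-/

set_option autoImplicit false
set_option linter.style.haveILetI false
set_option linter.unusedSectionVars false

noncomputable section

namespace Fermat.Agent.T4.helper3

open Polynomial ModularCurve

/-! ### (A) -/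

/-- **(A)** the ring of Laurent series over a principal ideal domain is integrally closed. -/
theorem isIntegrallyClosed_laurentSeries (R : Type*) [CommRing R] [IsDomain R]
    [IsPrincipalIdealRing R] : IsIntegrallyClosed (LaurentSeries R) :=
  isIntegrallyClosed_of_isLocalization (R := PowerSeries R) (LaurentSeries R)
    (Submonoid.powers (PowerSeries.X : PowerSeries R))
    (powers_le_nonZeroDivisors_of_noZeroDivisors PowerSeries.X_ne_zero)

/-! ### (B) -/

/-- **(B), abstract form.** -/
theorem exists_of_isIntegral_of_mul_eq {T F : Type*} [CommRing T] [IsDomain T]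
    [IsIntegrallyClosed T] [Field F] (ψ : T →+* F) (hψ : Function.Injective ψ) (y : F)
    (N D : T) (hD : D ≠ 0) (h : y * ψ D = ψ N)
    (hint : ∃ p : T[X], p.Monic ∧ p.eval₂ ψ y = 0) : ∃ Y : T, ψ Y = y := by
  letI : Algebra T F := ψ.toAlgebra
  have hfs : FaithfulSMul T F := (faithfulSMul_iff_algebraMap_injective T F).mpr hψ
  let K := FractionRing T
  let ψ' : K →+* F := IsFractionRing.lift (K := K) (g := (algebraMap T F)) hψ
  have hψ' : ∀ d : T, ψ' (algebraMap T K d) = ψ d := fun d => IsFractionRing.lift_algebraMap hψ d
  have hψ'inj : Function.Injective ψ' := ψ'.injective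
  have hDF : ψ D ≠ 0 := fun h0 => hD (hψ (by rw [h0, map_zero]))
  set y' : K := algebraMap T K N / algebraMap T K D with hy'
  have hy : ψ' y' = y := by
    rw [hy', map_div₀, hψ', hψ', ← h, mul_div_assoc, div_self hDF, mul_one]
  obtain ⟨p, hp, hpy⟩ := hint
  have hint' : IsIntegral T y' := by
    refine ⟨p, hp, hψ'inj ?_⟩
    rw [Polynomial.hom_eval₂, map_zero, hy]
    have hc : ψ'.comp (algebraMap T K) = ψ := RingHom.ext hψ'
    rw [hc]
    exact hpy
  obtain ⟨Y, hY⟩ := (isIntegrallyClosed_iff K).mp inferInstance hint'
  exact ⟨Y, by rw [← hψ', hY, hy]⟩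

theorem coeffMap_injective' {R L : Type*} [CommRing R] [CommRing L] (φ : R →+* L)
    (hφ : Function.Injective φ) : Function.Injective (coeffMap φ) := by
  intro x y h
  ext n
  apply hφ
  have := congrArg (fun z => z.coeff n) h
  simpa using this

/-- **(B)** for Laurent series: `R` a principal ideal domain, `φ : R → L` an injective ring
homomorphism into a field, `y ∈ L((t))` with `y * D = N` (`N`, `D` with coefficients in `R`,
`D ≠ 0`) and `y` a root of a monic polynomial with coefficients in `R((t))`: then `y` has
coefficients in `R`. -/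
theorem exists_laurent_of_isIntegral_of_mul_eq {R L : Type*} [CommRing R] [IsDomain R]
    [IsPrincipalIdealRing R] [Field L] (φ : R →+* L) (hφ : Function.Injective φ)
    (y : LaurentSeries L) (N D : LaurentSeries R) (hD : D ≠ 0)
    (h : y * coeffMap φ D = coeffMap φ N)
    (hint : ∃ p : (LaurentSeries R)[X], p.Monic ∧ p.eval₂ (coeffMap φ) y = 0) :
    ∃ Y : LaurentSeries R, coeffMap φ Y = y :=
  haveI := isIntegrallyClosed_laurentSeries R
  exists_of_isIntegral_of_mul_eq (coeffMap φ) (coeffMap_injective' φ hφ) y N D hD h hint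

/-! ### (C) -/

/-- **(C)** every valuation subring of a number field is a principal ideal domain. -/
theorem isPrincipalIdealRing_valuationSubring (L : Type*) [Field L] [NumberField L]
    (V : ValuationSubring L) : IsPrincipalIdealRing V := by
  have hded : IsDedekindDomain V.toSubring := by
    refine Fermat.Agent.T3.helper3.isDedekindDomain_of_between
      (algebraMap (NumberField.RingOfIntegers L) L)
      (FaithfulSMul.algebraMap_injective _ _) V.toSubring (fun d => ?_) (fun r _ => ?_)
    · -- integral elements lie in `V`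
      have hint : IsIntegral ℤ (algebraMap (NumberField.RingOfIntegers L) L d) :=
        NumberField.RingOfIntegers.isIntegral_coe d
      have hintV : IsIntegral V (algebraMap (NumberField.RingOfIntegers L) L d) :=
        hint.tower_top
      obtain ⟨v, hv⟩ := (isIntegrallyClosed_iff L).mp (inferInstance : IsIntegrallyClosed V) hintV
      rw [← hv]
      exact v.2
    · obtain ⟨a, b, hb, hab⟩ :=
        IsFractionRing.div_surjective (A := NumberField.RingOfIntegers L) r
      have hb0 : b ≠ 0 := nonZeroDivisors.ne_zero hb
      have hbL : algebraMap (NumberField.RingOfIntegers L) L b ≠ 0 := fun h0 =>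
        hb0 (FaithfulSMul.algebraMap_injective _ L (by rw [h0, map_zero]))
      refine ⟨a, b, hb0, ?_⟩
      rw [← hab, div_mul_cancel₀ _ hbL]
  haveI : IsNoetherianRing V := hded.toIsNoetherian
  infer_instance

/-! ### Membership forms -/

/-- a series all of whose coefficients lie in the range of `φ` is in the range of `coeffMap φ` -/
theorem exists_coeffMap_eq_of_coeff_mem {R K : Type*} [CommRing R] [CommRing K] (φ : R →+* K)
    (x : LaurentSeries K) (hx : ∀ n, ∃ r : R, φ r = x.coeff n) :
    ∃ X : LaurentSeries R, coeffMap φ X = x := by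
  classical
  let c : ℤ → R := fun n => if x.coeff n = 0 then 0 else (hx n).choose
  have hc : ∀ n, φ (c n) = x.coeff n := by
    intro n
    by_cases h0 : x.coeff n = 0
    · simp only [c, if_pos h0, map_zero, h0]
    · simp only [c, if_neg h0]
      exact (hx n).choose_spec
  have hsupp : Function.support c ⊆ x.support := by
    intro n hn
    rw [Function.mem_support] at hn
    rw [HahnSeries.mem_support]
    intro h0
    exact hn (by simp only [c, if_pos h0])
  refine ⟨⟨c, x.isPWO_support.mono hsupp⟩, ?_⟩
  ext n
  rw [coeffMap_coeff]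
  exact hc n

section Membership

variable {K : Type*} [Field K] [CharZero K] (A : ValuationSubring K)
  (L : IntermediateField ℚ K)

/-- the valuation subring `A ∩ L` of `L` -/
def capL : ValuationSubring L := A.comap (algebraMap L K)

/-- the inclusion `A ∩ L → K` -/
def capIncl : capL A L →+* K := (algebraMap L K).comp (capL A L).subtype

theorem capIncl_injective : Function.Injective (capIncl A L) :=
  (algebraMap L K).injective.comp Subtype.val_injective

theorem capIncl_mem_A (r : capL A L) : capIncl A L r ∈ A := r.2

theorem capIncl_mem_L (r : capL A L) : capIncl A L r ∈ L := (r.1 : L).2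

theorem exists_capIncl_eq {x : K} (hA : x ∈ A) (hL : x ∈ L) : ∃ r : capL A L, capIncl A L r = x :=
  ⟨⟨⟨x, hL⟩, hA⟩, rfl⟩

/-- the inclusion `A ∩ L → A` -/
def capToA : capL A L →+* A where
  toFun r := ⟨capIncl A L r, capIncl_mem_A A L r⟩
  map_one' := Subtype.ext (map_one (capIncl A L))
  map_mul' x y := Subtype.ext (map_mul (capIncl A L) x y)
  map_zero' := Subtype.ext (map_zero (capIncl A L))
  map_add' x y := Subtype.ext (map_add (capIncl A L) x y)

theorem subtype_comp_capToA : A.subtype.comp (capToA A L) = capIncl A L := rfl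

/-- **(C)** for `A ∩ L`, `L` a number field inside `K`. -/
theorem isPrincipalIdealRing_capL [FiniteDimensional ℚ L] : IsPrincipalIdealRing (capL A L) :=
  haveI : NumberField L := ⟨⟩
  isPrincipalIdealRing_valuationSubring L (capL A L)

/-- **membership form of (B) + (C)**: let `A` be a valuation subring of a field `K` of
characteristic `0` and `L ⊆ K` a number field.  If `y * D = N` in `K((t))`, `D ≠ 0`, and `y` is
a root of a monic polynomial `p`, where `N`, `D` and all coefficients of `p` are series with
coefficients in `A ∩ L`, then `y` has coefficients in `A ∩ L`. -/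
theorem coeff_mem_of_isIntegral_of_mul_eq [FiniteDimensional ℚ L] (y N D : LaurentSeries K)
    (hD : D ≠ 0) (h : y * D = N)
    (hN : ∀ n, N.coeff n ∈ A ∧ N.coeff n ∈ L) (hDc : ∀ n, D.coeff n ∈ A ∧ D.coeff n ∈ L)
    (p : (LaurentSeries K)[X]) (hp : p.Monic)
    (hpc : ∀ i n, (p.coeff i).coeff n ∈ A ∧ (p.coeff i).coeff n ∈ L) (hpy : p.eval y = 0) :
    ∀ n, y.coeff n ∈ A ∧ y.coeff n ∈ L := by
  haveI := isPrincipalIdealRing_capL A L
  obtain ⟨N', hN'⟩ := exists_coeffMap_eq_of_coeff_mem (capIncl A L) N
    (fun n => exists_capIncl_eq A L (hN n).1 (hN n).2)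
  obtain ⟨D', hD'⟩ := exists_coeffMap_eq_of_coeff_mem (capIncl A L) D
    (fun n => exists_capIncl_eq A L (hDc n).1 (hDc n).2)
  have hD'0 : D' ≠ 0 := by
    rintro rfl
    exact hD (by rw [← hD', map_zero])
  have hl : p ∈ Polynomial.lifts (coeffMap (capIncl A L)) := by
    rw [Polynomial.lifts_iff_coeff_lifts]
    intro i
    obtain ⟨c, hc⟩ := exists_coeffMap_eq_of_coeff_mem (capIncl A L) (p.coeff i)
      (fun n => exists_capIncl_eq A L (hpc i n).1 (hpc i n).2)
    exact ⟨c, hc⟩
  obtain ⟨p', hp'1, -, hp'3⟩ := Polynomial.lifts_and_natDegree_eq_and_monic hl hp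
  obtain ⟨Y, hY⟩ := exists_laurent_of_isIntegral_of_mul_eq (capIncl A L)
    (capIncl_injective A L) y N' D' hD'0 (by rw [hD', hN', h])
    ⟨p', hp'3, by rw [← Polynomial.eval_map, hp'1, hpy]⟩
  intro n
  rw [← hY, coeffMap_coeff]
  exact ⟨capIncl_mem_A A L _, capIncl_mem_L A L _⟩

/-- the same with the conclusion as an `A`-integral series: `y = coeffMap A.subtype Y`
(`= incl A Y` in the vocabulary of P2). -/
theorem exists_integral_of_isIntegral_of_mul_eq [FiniteDimensional ℚ L] (y N D : LaurentSeries K)
    (hD : D ≠ 0) (h : y * D = N)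
    (hN : ∀ n, N.coeff n ∈ A ∧ N.coeff n ∈ L) (hDc : ∀ n, D.coeff n ∈ A ∧ D.coeff n ∈ L)
    (p : (LaurentSeries K)[X]) (hp : p.Monic)
    (hpc : ∀ i n, (p.coeff i).coeff n ∈ A ∧ (p.coeff i).coeff n ∈ L) (hpy : p.eval y = 0) :
    ∃ Y : LaurentSeries A, coeffMap A.subtype Y = y :=
  exists_coeffMap_eq_of_coeff_mem A.subtype y (fun n =>
    ⟨⟨y.coeff n, (coeff_mem_of_isIntegral_of_mul_eq A L y N D hD h hN hDc p hp hpc hpy n).1⟩,
      rfl⟩)

end Membership

end Fermat.Agent.T4.helper3

end
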