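import Fermat.Agent.T4.helper1_TateFibre
import Fermat.Agent.T4.helper79_EigenChar1
import Fermat.Agent.T4.helper26_ResWire

/-!
# T4 block (I): the final wiring of `helper32.Eigen1Statement` (helper41, integrator, row 1050)

`Eigen1Statement` follows from ONE package per level `M` and prime `ℓ`:

* a type `J` with an action of `G_ℚ` (in practice `J₁(M)(ℚ̄)`), operators `op : ι → J →+ J`,
  elements `gen : ι → 𝕋₁(M) = helper79.heckeAlgebra1 M 2` and a set `E` of Eichler-Shimura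
  quadruples, with
  1. `helper1.GenTateInput ℓ op U E`, `U = inertiaOff (M * ℓ)` (inertia at all `p ∤ M ℓ`),
  2. `helper1.GenKappa ℓ op gen`,
  3. for every prime `p ∤ M ℓ` and every Frobenius lift `φ` at `p` indices `i, j` with
     `(φ, i, p, j) ∈ E` and
     * convention **[A]** : `gen i = T_p`, `gen j = ⟨p⟩`
       (`φ² - T_p φ + p ⟨p⟩ = 0`), or
     * convention **[C]** : `gen i = ⟨p⟩⁻¹ T_p`, `gen j = ⟨p⟩⁻¹`
       (the transposed correspondence: `φ² - ⟨p⟩⁻¹ T_p φ + p ⟨p⟩⁻¹ = 0`).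

In case [C] the fibre is twisted by the Galois character `r ∘ χ ∘ χ_M` (`helper26.epsGal`).

Main results: `eigen1_of_packA`, `eigen1_of_packC`, `eigen1_of_pack`.
-/

set_option autoImplicit false
set_option linter.unusedSectionVars false
set_option linter.style.haveILetI false
set_option linter.unusedVariables false

noncomputable section

namespace Fermat.Agent.T4.helper41

open Fermat.Agent.T4.helper1 (GalQ GenTateInput GenKappa GenTateDatum genTateAssembly)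
open Fermat.Agent.T4.helper79 (heckeAlgebra1)
open Fermat.Agent.T4.helper80 (Zbar)

/-- The inertia elements at the primes not dividing `D`. -/
def inertiaOff (D : ℕ) : Set GalQ :=
  {σ | ∃ p : ℕ, p.Prime ∧ ¬ p ∣ D ∧ ∃ A : ValuationSubring (AlgebraicClosure ℚ),
    A.LiesOverPrime p ∧ σ ∈ A.inertiaSubgroupIn ℚ}

/-- The class of a prime `p ∤ M` in `(ℤ/M)ˣ`. -/
def unitOf (M : ℕ) {p : ℕ} (hp : p.Prime) (hpM : ¬ p ∣ M) : (ZMod M)ˣ :=
  ZMod.unitOfCoprime p ((Nat.Prime.coprime_iff_not_dvd hp).2 hpM)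

@[simp]
theorem coe_unitOf (M : ℕ) {p : ℕ} (hp : p.Prime) (hpM : ¬ p ∣ M) :
    ((unitOf M hp hpM : (ZMod M)ˣ) : ZMod M) = (p : ZMod M) :=
  ZMod.coe_unitOfCoprime p _

/-- **The package of block (I), convention [A]**: `φ² - T_p φ + p ⟨p⟩ = 0`. -/
def X1PackA (M ℓ : ℕ) [NeZero M] : Prop :=
  ∃ (J : Type) (_ : AddCommGroup J) (_ : DistribMulAction GalQ J) (ι : Type)
    (op : ι → J →+ J) (gen : ι → heckeAlgebra1 M 2) (E : Set (GalQ × ι × ℤ × ι)),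
    GenTateInput ℓ op (inertiaOff (M * ℓ)) E ∧ GenKappa ℓ op gen ∧
    ∀ (p : ℕ) (hp : p.Prime) (hpM : ¬ p ∣ M), ¬ p ∣ M * ℓ →
      ∀ A : ValuationSubring (AlgebraicClosure ℚ), A.LiesOverPrime p →
        ∀ φ : GalQ, A.IsFrobeniusAt φ p →
          ∃ i j : ι, (φ, i, (p : ℤ), j) ∈ E ∧ gen i = heckeAlgebra1.T hp hpM ∧
            gen j = heckeAlgebra1.D (unitOf M hp hpM)

/-- **The package of block (I), convention [C]** (transposed correspondence):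
`φ² - ⟨p⟩⁻¹ T_p φ + p ⟨p⟩⁻¹ = 0`. -/
def X1PackC (M ℓ : ℕ) [NeZero M] : Prop :=
  ∃ (J : Type) (_ : AddCommGroup J) (_ : DistribMulAction GalQ J) (ι : Type)
    (op : ι → J →+ J) (gen : ι → heckeAlgebra1 M 2) (E : Set (GalQ × ι × ℤ × ι)),
    GenTateInput ℓ op (inertiaOff (M * ℓ)) E ∧ GenKappa ℓ op gen ∧
    ∀ (p : ℕ) (hp : p.Prime) (hpM : ¬ p ∣ M), ¬ p ∣ M * ℓ →
      ∀ A : ValuationSubring (AlgebraicClosure ℚ), A.LiesOverPrime p →
        ∀ φ : GalQ, A.IsFrobeniusAt φ p →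
          ∃ i j : ι, (φ, i, (p : ℤ), j) ∈ E ∧
            gen i = heckeAlgebra1.D (unitOf M hp hpM)⁻¹ * heckeAlgebra1.T hp hpM ∧
            gen j = heckeAlgebra1.D (unitOf M hp hpM)⁻¹

/-- The statement `helper32.Eigen1Statement` at a fixed level `M` and prime `ℓ`. -/
def Eigen1At (M ℓ : ℕ) [NeZero M] : Prop :=
  ∀ (k : Type) (_ : Field k) (_ : CharP k ℓ) (_ : IsAlgClosed k) (r : Zbar →+* k)
    (g : CuspForm (CongruenceSubgroup.Gamma1 M) 2) (χ : DirichletCharacter ℂ M)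
    (x : ZMod M → Zbar) (c : ℕ → Zbar) (b : ℕ → k),
    (∀ a : ZMod M, ((x a : Zbar) : ℂ) = χ a) →
    (∀ n : ℕ, ((c n : Zbar) : ℂ) = ModularFormClass.qCoeff g n) →
    (∃ n : ℕ, r (c n) ≠ 0) →
    helper32.HasNeben M 2 χ g →
    (∀ p : ℕ, p.Prime → ¬ p ∣ M →
      helper32.FormalEigenAt (fun n => r (c n)) p (b p) ((p : k) * r (x (p : ZMod M)))) →
    ∃ (V : Type) (_ : AddCommGroup V) (_ : Module k V) (_ : Module.Finite k V)
      (_ : Nontrivial V) (ρ : GalQ →* Module.End k V),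
      GaloisFactorsThroughFiniteLevel ρ ∧
      ∀ p : ℕ, p.Prime → ¬ p ∣ M * ℓ →
        helper32.EsAt ρ p (b p) ((p : k) * r (x (p : ZMod M)))

/-- `helper32.Eigen1Statement` is the conjunction of the statements `Eigen1At M ℓ`. -/
theorem eigen1_of_at
    (h : ∀ (M : ℕ) [NeZero M], (4 ∣ M ∨ 9 ∣ M) → ∀ ℓ : ℕ, ℓ.Prime → ℓ ≠ 2 → Eigen1At M ℓ) :
    helper32.Eigen1Statement := by
  intro M hM hlev ℓ hℓ hℓ2 k iF iC iA r g χ x c b hx hc hne hχ hE
  haveI := hM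
  exact h M hlev ℓ hℓ hℓ2 k iF iC iA r g χ x c b hx hc hne hχ hE

/-! ### The fibre of a package -/

section Fibre

variable {M : ℕ} [NeZero M] {ℓ : ℕ} {k : Type} [Field k] [CharP k ℓ]

/-- The fibre of a package at a character `θ` of the Hecke algebra: a nonzero finite-dimensional
representation through a finite quotient, unramified outside `M ℓ`, with the Eichler-Shimura
relations `φ² - θ(gen i) φ + p θ(gen j) = 0`. -/
theorem exists_fibre_of_input (hℓ : ℓ.Prime) {J : Type} [AddCommGroup J]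
    [DistribMulAction GalQ J] {ι : Type} (op : ι → J →+ J) (gen : ι → heckeAlgebra1 M 2)
    (E : Set (GalQ × ι × ℤ × ι)) (hI : GenTateInput ℓ op (inertiaOff (M * ℓ)) E)
    (hK : GenKappa ℓ op gen) (θ : heckeAlgebra1 M 2 →+* k) :
    ∃ (V : Type) (_ : AddCommGroup V) (_ : Module k V) (_ : Module.Finite k V)
      (_ : Nontrivial V) (ρ : GalQ →* Module.End k V),
      GaloisFactorsThroughFiniteLevel ρ ∧
      (∀ p : ℕ, p.Prime → ¬ p ∣ M * ℓ → ∀ A : ValuationSubring (AlgebraicClosure ℚ),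
        A.LiesOverPrime p → ∀ σ ∈ A.inertiaSubgroupIn ℚ, ρ σ = 1) ∧
      ∀ e ∈ E, ρ e.1 * ρ e.1 - θ (gen e.2.1) • ρ e.1 +
          ((e.2.2.1 : k) * θ (gen e.2.2.2)) • (1 : Module.End k V) = 0 := by
  haveI : Fact ℓ.Prime := ⟨hℓ⟩
  obtain ⟨D⟩ := genTateAssembly ℓ op gen (inertiaOff (M * ℓ)) E hI hK
  obtain ⟨V, i1, i2, i3, i4, ρ, hfin, hunr, hfrob⟩ := D.exists_fibre k θ
  exact ⟨V, i1, i2, i3, i4, ρ, hfin,
    fun p hp hpMℓ A hA σ hσ => hunr σ ⟨p, hp, hpMℓ, A, hA, hσ⟩, hfrob⟩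

end Fibre

/-! ### Convention [A] -/

/-- **[EIGEN1] at `(M, ℓ)` from the package, convention [A]**. -/
theorem eigen1At_of_packA (M : ℕ) [NeZero M] {ℓ : ℕ} (hℓ : ℓ.Prime) (h : X1PackA M ℓ) :
    Eigen1At M ℓ := by
  intro k iF iC _ r g χ x c b hx hc hne hχ hE
  obtain ⟨J, iJ1, iJ2, ι, op, gen, E, hI, hK, hES⟩ := h
  obtain ⟨θ, hθT, hθD⟩ := helper79.exists_eigenChar1 r g χ x c b hx hc hne hχ hE
  obtain ⟨V, i1, i2, i3, i4, ρ, hfin, hunr, hfrob⟩ :=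
    exists_fibre_of_input (k := k) hℓ op gen E hI hK θ
  refine ⟨V, i1, i2, i3, i4, ρ, hfin, fun p hp hpMℓ A hA => ⟨hunr p hp hpMℓ A hA, ?_⟩⟩
  intro σ hσ
  have hpM : ¬ p ∣ M := fun h => hpMℓ (h.mul_right ℓ)
  obtain ⟨i, j, hE', hi, hj⟩ := hES p hp hpM hpMℓ A hA σ hσ
  have h1 := hfrob _ hE'
  simp only at h1
  rw [hi, hj, hθT, hθD, coe_unitOf, Int.cast_natCast] at h1
  exact h1

/-! ### Convention [C] -/

section Twist

variable {k : Type} [Field k] {V : Type} [AddCommGroup V] [Module k V]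

/-- The twist of a representation by a character. -/
def twistRep (e : GalQ →* k) (ρ : GalQ →* Module.End k V) : GalQ →* Module.End k V where
  toFun σ := e σ • ρ σ
  map_one' := by rw [map_one, map_one, one_smul]
  map_mul' σ τ := by
    rw [map_mul, map_mul, smul_mul_smul_comm]

theorem twistRep_apply (e : GalQ →* k) (ρ : GalQ →* Module.End k V) (σ : GalQ) :
    twistRep e ρ σ = e σ • ρ σ := rfl

theorem twistRep_factorsThroughFiniteLevel (e : GalQ →* k) (ρ : GalQ →* Module.End k V)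
    (he : GaloisFactorsThroughFiniteLevel e) (hρ : GaloisFactorsThroughFiniteLevel ρ) :
    GaloisFactorsThroughFiniteLevel (twistRep e ρ) := by
  obtain ⟨L₁, hL₁, h₁⟩ := he
  obtain ⟨L₂, hL₂, h₂⟩ := hρ
  refine ⟨L₁ ⊔ L₂, IntermediateField.finiteDimensional_sup L₁ L₂, fun σ hσ => ?_⟩
  have e1 : e σ = 1 := h₁ σ fun y hy => hσ y ((le_sup_left : L₁ ≤ L₁ ⊔ L₂) hy)
  have e2 : ρ σ = 1 := h₂ σ fun y hy => hσ y ((le_sup_right : L₂ ≤ L₁ ⊔ L₂) hy)
  rw [twistRep_apply, e1, e2, one_smul]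

/-- The quadratic relation of a twist. -/
theorem twist_quadratic (f : Module.End k V) (u v t d : k) (huv : u * v = 1)
    (h : f * f - (v * t) • f + (d * v) • (1 : Module.End k V) = 0) :
    (u • f) * (u • f) - t • (u • f) + (d * u) • (1 : Module.End k V) = 0 := by
  have h2 : (u • f) * (u • f) - t • (u • f) + (d * u) • (1 : Module.End k V) =
      (u * u) • (f * f - (v * t) • f + (d * v) • (1 : Module.End k V)) := by
    rw [smul_add, smul_sub, smul_mul_smul_comm, smul_smul, smul_smul, smul_smul]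
    have e1 : u * u * (v * t) = t * u := by
      calc u * u * (v * t) = (u * v) * (t * u) := by ring
        _ = t * u := by rw [huv, one_mul]
    have e2 : u * u * (d * v) = d * u := by
      calc u * u * (d * v) = (u * v) * (d * u) := by ring
        _ = d * u := by rw [huv, one_mul]
    rw [e1, e2]
  rw [h2, h, smul_zero]

end Twist

/-- **[EIGEN1] at `(M, ℓ)` from the package, convention [C]** (twist by `r ∘ χ ∘ χ_M`). -/
theorem eigen1At_of_packC (M : ℕ) [NeZero M] {ℓ : ℕ} (hℓ : ℓ.Prime) (h : X1PackC M ℓ) :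
    Eigen1At M ℓ := by
  intro k iF iC _ r g χ x c b hx hc hne hχ hE
  obtain ⟨J, iJ1, iJ2, ι, op, gen, E, hI, hK, hES⟩ := h
  obtain ⟨θ, hθT, hθD⟩ := helper79.exists_eigenChar1 r g χ x c b hx hc hne hχ hE
  obtain ⟨V, i1, i2, i3, i4, ρ, hfin, hunr, hfrob⟩ :=
    exists_fibre_of_input (k := k) hℓ op gen E hI hK θ
  -- the values of `x` are those of `helper26.epsZ χ`
  have hxe : ∀ a : ZMod M, x a = helper26.epsZ χ a := fun a => Subtype.ext (hx a)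
  have hxmul : ∀ a a' : ZMod M, x (a * a') = x a * x a' := fun a a' => by
    rw [hxe, hxe, hxe, helper26.epsZ_mul]
  have hx1 : x 1 = 1 := by rw [hxe, helper26.epsZ_one]
  refine ⟨V, i1, i2, i3, i4, twistRep (helper26.epsGal χ r) ρ,
    twistRep_factorsThroughFiniteLevel _ _ (helper26.epsGal_factorsThroughFiniteLevel χ r) hfin,
    fun p hp hpMℓ A hA => ?_⟩
  have hpM : ¬ p ∣ M := fun h => hpMℓ (h.mul_right ℓ)
  have hcop : Nat.Coprime M p := ((Nat.Prime.coprime_iff_not_dvd hp).2 hpM).symm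
  refine ⟨fun σ hσ => ?_, fun σ hσ => ?_⟩
  · rw [twistRep_apply, helper26.epsGal_inertia χ r hcop A hA σ hσ, hunr p hp hpMℓ A hA σ hσ,
      one_smul]
  · obtain ⟨i, j, hE', hi, hj⟩ := hES p hp hpM hpMℓ A hA σ hσ
    have h1 := hfrob _ hE'
    simp only at h1
    rw [hi, hj, map_mul, hθT, hθD, Int.cast_natCast] at h1
    rw [twistRep_apply, helper26.epsGal_frobenius χ r hcop A hA σ hσ, ← hxe]
    refine twist_quadratic (ρ σ) (r (x (p : ZMod M)))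
      (r (x (((unitOf M hp hpM)⁻¹ : (ZMod M)ˣ) : ZMod M))) (b p) (p : k) ?_ h1
    rw [← map_mul, ← hxmul, ← coe_unitOf M hp hpM, ← Units.val_mul, mul_inv_cancel,
      Units.val_one, hx1, map_one]

/-- **[EIGEN1] from the packages**: at every level and prime one of the two conventions. -/
theorem eigen1_of_pack
    (h : ∀ (M : ℕ) [NeZero M], (4 ∣ M ∨ 9 ∣ M) → ∀ ℓ : ℕ, ℓ.Prime → ℓ ≠ 2 →
      X1PackA M ℓ ∨ X1PackC M ℓ) :
    helper32.Eigen1Statement :=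
  eigen1_of_at fun M _ hlev ℓ hℓ hℓ2 =>
    (h M hlev ℓ hℓ hℓ2).elim (eigen1At_of_packA M hℓ) (eigen1At_of_packC M hℓ)

/-- **[EIGEN1] from the packages, convention [A]**. -/
theorem eigen1_of_packA
    (h : ∀ (M : ℕ) [NeZero M], (4 ∣ M ∨ 9 ∣ M) → ∀ ℓ : ℕ, ℓ.Prime → ℓ ≠ 2 → X1PackA M ℓ) :
    helper32.Eigen1Statement :=
  eigen1_of_pack fun M _ hlev ℓ hℓ hℓ2 => Or.inl (h M hlev ℓ hℓ hℓ2)

/-- **[EIGEN1] from the packages, convention [C]**. -/
theorem eigen1_of_packC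
    (h : ∀ (M : ℕ) [NeZero M], (4 ∣ M ∨ 9 ∣ M) → ∀ ℓ : ℕ, ℓ.Prime → ℓ ≠ 2 → X1PackC M ℓ) :
    helper32.Eigen1Statement :=
  eigen1_of_pack fun M _ hlev ℓ hℓ hℓ2 => Or.inr (h M hlev ℓ hℓ hℓ2)

/-! ### Standard forms of the packages (index set `helper79.Gen1 M`)

The sub-blocks choose `J` (in practice `helper32.J1 M`) and `op : Gen1 M → J →+ J`
(`op (inl p)` = the Hecke correspondence at `p`, `op (inr d)` = the diamond operator) and prove
`GenTateInput` for the set `esSetA M ℓ` (resp. `esSetC M ℓ`) and `GenKappa` for the generators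
`helper79.gen1 M 2` (resp. `gen1C M`). -/

section Std

open Fermat.Agent.T4.helper79 (Gen1 gen1)

variable (M ℓ : ℕ) [NeZero M]

/-- The Eichler-Shimura quadruples `(φ, T_p, p, ⟨p⟩)`, `φ` a Frobenius lift at `p ∤ M ℓ`. -/
def esSetA : Set (GalQ × Gen1 M × ℤ × Gen1 M) :=
  {e | ∃ (p : ℕ) (hp : p.Prime) (hpM : ¬ p ∣ M), ¬ p ∣ M * ℓ ∧
    ∃ A : ValuationSubring (AlgebraicClosure ℚ), A.LiesOverPrime p ∧ A.IsFrobeniusAt e.1 p ∧
      e.2 = (Sum.inl ⟨p, hp, hpM⟩, (p : ℤ), Sum.inr (unitOf M hp hpM))}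

/-- The Eichler-Shimura quadruples `(φ, T_p, p, ⟨p⟩⁻¹)`, `φ` a Frobenius lift at `p ∤ M ℓ`
(to be used with the generators `gen1C`, for which `T_p` stands for `⟨p⟩⁻¹ T_p`). -/
def esSetC : Set (GalQ × Gen1 M × ℤ × Gen1 M) :=
  {e | ∃ (p : ℕ) (hp : p.Prime) (hpM : ¬ p ∣ M), ¬ p ∣ M * ℓ ∧
    ∃ A : ValuationSubring (AlgebraicClosure ℚ), A.LiesOverPrime p ∧ A.IsFrobeniusAt e.1 p ∧
      e.2 = (Sum.inl ⟨p, hp, hpM⟩, (p : ℤ), Sum.inr (unitOf M hp hpM)⁻¹)}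

/-- The generators for the transposed correspondences: `⟨p⟩⁻¹ T_p` and `⟨d⟩`. -/
def gen1C : Gen1 M → heckeAlgebra1 M 2 :=
  Sum.elim (fun p => heckeAlgebra1.D (unitOf M p.2.1 p.2.2)⁻¹ * heckeAlgebra1.T p.2.1 p.2.2)
    (fun d => heckeAlgebra1.D d)

variable {M ℓ}

/-- The package [A] in standard form. -/
theorem x1PackA_of_std {J : Type} [AddCommGroup J] [DistribMulAction GalQ J]
    (op : Gen1 M → J →+ J) (hI : GenTateInput ℓ op (inertiaOff (M * ℓ)) (esSetA M ℓ))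
    (hK : GenKappa ℓ op (gen1 M 2)) : X1PackA M ℓ :=
  ⟨J, inferInstance, inferInstance, Gen1 M, op, gen1 M 2, esSetA M ℓ, hI, hK,
    fun p hp hpM hpMℓ A hA φ hφ =>
      ⟨Sum.inl ⟨p, hp, hpM⟩, Sum.inr (unitOf M hp hpM),
        ⟨p, hp, hpM, hpMℓ, A, hA, hφ, rfl⟩, rfl, rfl⟩⟩

/-- The package [C] in standard form. -/
theorem x1PackC_of_std {J : Type} [AddCommGroup J] [DistribMulAction GalQ J]
    (op : Gen1 M → J →+ J) (hI : GenTateInput ℓ op (inertiaOff (M * ℓ)) (esSetC M ℓ))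
    (hK : GenKappa ℓ op (gen1C M)) : X1PackC M ℓ :=
  ⟨J, inferInstance, inferInstance, Gen1 M, op, gen1C M, esSetC M ℓ, hI, hK,
    fun p hp hpM hpMℓ A hA φ hφ =>
      ⟨Sum.inl ⟨p, hp, hpM⟩, Sum.inr (unitOf M hp hpM)⁻¹,
        ⟨p, hp, hpM, hpMℓ, A, hA, hφ, rfl⟩, rfl, rfl⟩⟩

/-- The Eichler-Shimura field of `GenTateInput` for `esSetA`, in explicit form. -/
theorem frobenius_esSetA_iff {J : Type} [AddCommGroup J] [DistribMulAction GalQ J]
    (op : Gen1 M → J →+ J) :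
    (∀ e ∈ esSetA M ℓ, ∀ x : J, (∃ n : ℕ, ℓ ^ n • x = 0) →
      e.1 • e.1 • x - op e.2.1 (e.1 • x) + e.2.2.1 • op e.2.2.2 x = 0) ↔
    ∀ (p : ℕ) (hp : p.Prime) (hpM : ¬ p ∣ M), ¬ p ∣ M * ℓ →
      ∀ A : ValuationSubring (AlgebraicClosure ℚ), A.LiesOverPrime p →
        ∀ φ : GalQ, A.IsFrobeniusAt φ p → ∀ x : J, (∃ n : ℕ, ℓ ^ n • x = 0) →
          φ • φ • x - op (Sum.inl ⟨p, hp, hpM⟩) (φ • x) +
            (p : ℤ) • op (Sum.inr (unitOf M hp hpM)) x = 0 := by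
  constructor
  · intro h p hp hpM hpMℓ A hA φ hφ x hx
    exact h (φ, Sum.inl ⟨p, hp, hpM⟩, (p : ℤ), Sum.inr (unitOf M hp hpM))
      ⟨p, hp, hpM, hpMℓ, A, hA, hφ, rfl⟩ x hx
  · rintro h ⟨φ, e2⟩ ⟨p, hp, hpM, hpMℓ, A, hA, hφ, he⟩ x hx
    simp only at he hφ
    subst he
    exact h p hp hpM hpMℓ A hA φ hφ x hx

/-- The Eichler-Shimura field of `GenTateInput` for `esSetC`, in explicit form. -/
theorem frobenius_esSetC_iff {J : Type} [AddCommGroup J] [DistribMulAction GalQ J]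
    (op : Gen1 M → J →+ J) :
    (∀ e ∈ esSetC M ℓ, ∀ x : J, (∃ n : ℕ, ℓ ^ n • x = 0) →
      e.1 • e.1 • x - op e.2.1 (e.1 • x) + e.2.2.1 • op e.2.2.2 x = 0) ↔
    ∀ (p : ℕ) (hp : p.Prime) (hpM : ¬ p ∣ M), ¬ p ∣ M * ℓ →
      ∀ A : ValuationSubring (AlgebraicClosure ℚ), A.LiesOverPrime p →
        ∀ φ : GalQ, A.IsFrobeniusAt φ p → ∀ x : J, (∃ n : ℕ, ℓ ^ n • x = 0) →
          φ • φ • x - op (Sum.inl ⟨p, hp, hpM⟩) (φ • x) +
            (p : ℤ) • op (Sum.inr (unitOf M hp hpM)⁻¹) x = 0 := by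
  constructor
  · intro h p hp hpM hpMℓ A hA φ hφ x hx
    exact h (φ, Sum.inl ⟨p, hp, hpM⟩, (p : ℤ), Sum.inr (unitOf M hp hpM)⁻¹)
      ⟨p, hp, hpM, hpMℓ, A, hA, hφ, rfl⟩ x hx
  · rintro h ⟨φ, e2⟩ ⟨p, hp, hpM, hpMℓ, A, hA, hφ, he⟩ x hx
    simp only at he hφ
    subst he
    exact h p hp hpM hpMℓ A hA φ hφ x hx

end Std

end Fermat.Agent.T4.helper41

end
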