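import Fermat.Agent.T4.helper3_CommAbs
import Fermat.Agent.T4.helper3_GalH1
import Fermat.Agent.T4.helper1_Eigen1Wire
import Fermat.Agent.T4.helper41_Eigen1Wire
import Fermat.Agent.S54.helper91_Frobenius

/-!
# T4 (I) (helper3): the packages `helper41.X1PackA` / `X1PackC` for `J₁(M)` from their inputs

The index set is `Gen0 M ℓ = {p prime, p ∤ M ℓ} ⊕ (ℤ/M)ˣ` (WITHOUT the prime `ℓ`): then the field
`op_comm` of `GenTateInput` is a consequence of Eichler-Shimura (`helper3_CommAbs`), the field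
`op_gal` is `helper3_GalH1`, and the `κ`-package is the restriction of the one for
`helper79.Gen1 M`.

* `x1PackA_of_inputs` : convention [A], `T_p = hecke1 M p = b_* a^*`,
  `φ² - T_p φ + p ⟨p⟩ = 0`;
* `x1PackC_of_inputs` : convention [C], `T_p^t = hecke1t M p = a_* b^*` (the order of the
  Prelude for `X₀`), `φ² - T_p^t φ + p ⟨p⟩⁻¹ = 0`.

Inputs in both cases: continuity, finiteness of the `ℓ`-torsion, unramifiedness and the
Eichler-Shimura relation on the `ℓ`-power torsion of `J₁(M)`, and `GenKappa`.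
-/

set_option autoImplicit false
set_option linter.style.haveILetI false
set_option linter.unusedSectionVars false

noncomputable section

namespace Fermat.Agent.T4.helper3

open Fermat.Agent.T4.helper1 (GalQ GenTateInput GenKappa)
open Fermat.Agent.T4.helper32 (J1 hecke1 hecke1t diamond1)
open Fermat.Agent.T4.helper79 (Gen1 gen1 heckeAlgebra1)
open Fermat.Agent.T4.helper41 (X1PackA X1PackC inertiaOff unitOf gen1C)

/-- the index set without the prime `ℓ` -/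
abbrev Gen0 (M ℓ : ℕ) : Type := {p : ℕ // p.Prime ∧ ¬ p ∣ M * ℓ} ⊕ (ZMod M)ˣ

theorem not_dvd_of_not_dvd_mul {M ℓ p : ℕ} (h : ¬ p ∣ M * ℓ) : ¬ p ∣ M :=
  fun hd => h (Dvd.dvd.mul_right hd ℓ)

/-- the inclusion of the index sets -/
def gen0Incl (M ℓ : ℕ) : Gen0 M ℓ → Gen1 M :=
  Sum.map (fun p => ⟨p.1, p.2.1, not_dvd_of_not_dvd_mul p.2.2⟩) id

/-- the operators of convention [A] on `J₁(M)`: `T_p = b_* a^*` and `⟨d⟩`, on `Gen1 M` -/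
def opA (M : ℕ) : Gen1 M → J1 M →+ J1 M :=
  Sum.elim (fun p => (hecke1 M ⟨p.1, p.2.1⟩).toAddMonoidHom)
    (fun d => (diamond1 M d).toAddMonoidHom)

/-- the operators of convention [C] on `J₁(M)`: `T_p^t = a_* b^*` and `⟨d⟩`, on `Gen1 M` -/
def opC (M : ℕ) : Gen1 M → J1 M →+ J1 M :=
  Sum.elim (fun p => (hecke1t M ⟨p.1, p.2.1⟩).toAddMonoidHom)
    (fun d => (diamond1 M d).toAddMonoidHom)

theorem opA_gal (M : ℕ) (i : Gen1 M) (g : GalQ) (x : J1 M) : opA M i (g • x) = g • opA M i x := by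
  rcases i with p | d
  · exact hecke1_galois_smul M ⟨p.1, p.2.1⟩ g x
  · exact diamond1_galois_smul M d g x

theorem opC_gal (M : ℕ) (i : Gen1 M) (g : GalQ) (x : J1 M) : opC M i (g • x) = g • opC M i x := by
  rcases i with p | d
  · exact hecke1t_galois_smul M ⟨p.1, p.2.1⟩ g x
  · exact diamond1_galois_smul M d g x

/-- the Eichler-Shimura quadruples on `Gen0 M ℓ`, with the diamond `u p` at `p` -/
def esSet0 (M ℓ : ℕ) (u : {p : ℕ // p.Prime ∧ ¬ p ∣ M * ℓ} → (ZMod M)ˣ) :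
    Set (GalQ × Gen0 M ℓ × ℤ × Gen0 M ℓ) :=
  {e | ∃ p : {p : ℕ // p.Prime ∧ ¬ p ∣ M * ℓ},
    (∃ A : ValuationSubring (AlgebraicClosure ℚ), A.LiesOverPrime p.1 ∧
      A.IsFrobeniusAt e.1 p.1) ∧ e.2 = (Sum.inl p, (p.1 : ℤ), Sum.inr (u p))}

section Input

variable {M ℓ : ℕ} (op : Gen1 M → J1 M →+ J1 M)
  (u : {p : ℕ // p.Prime ∧ ¬ p ∣ M * ℓ} → (ZMod M)ˣ)

/-- **`GenTateInput` on `Gen0 M ℓ`** for operators on `Gen1 M` which commute with Galois and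
whose diamonds commute, from continuity, finiteness, unramifiedness and Eichler-Shimura. -/
theorem genTateInput0_of
    (hgal : ∀ (i : Gen1 M) (g : GalQ) (x : J1 M), op i (g • x) = g • op i x)
    (hdd : ∀ (d e : (ZMod M)ˣ) (x : J1 M),
      op (Sum.inr d) (op (Sum.inr e) x) = op (Sum.inr e) (op (Sum.inr d) x))
    (hcont : ∀ x : J1 M, (∃ n : ℕ, ℓ ^ n • x = 0) →
      ∃ K : IntermediateField ℚ (AlgebraicClosure ℚ), FiniteDimensional ℚ K ∧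
        ∀ σ : GalQ, (∀ y ∈ K, σ y = y) → σ • x = x)
    (hfin : Finite (nsmulAddMonoidHom (α := J1 M) (ℓ ^ 1)).ker)
    (hunr : ∀ σ ∈ inertiaOff (M * ℓ), ∀ x : J1 M, (∃ n : ℕ, ℓ ^ n • x = 0) → σ • x = x)
    (hES : ∀ (p : {p : ℕ // p.Prime ∧ ¬ p ∣ M * ℓ})
      (A : ValuationSubring (AlgebraicClosure ℚ)), A.LiesOverPrime p.1 →
      ∀ φ : GalQ, A.IsFrobeniusAt φ p.1 → ∀ x : J1 M, (∃ n : ℕ, ℓ ^ n • x = 0) →
        φ • φ • x - op (gen0Incl M ℓ (Sum.inl p)) (φ • x) +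
          (p.1 : ℤ) • op (Sum.inr (u p)) x = 0) :
    GenTateInput ℓ (fun i => op (gen0Incl M ℓ i)) (inertiaOff (M * ℓ)) (esSet0 M ℓ u) := by
  refine genTateInput_of_es (fun i => op (gen0Incl M ℓ i)) ℓ (esSet0 M ℓ u) (inertiaOff (M * ℓ))
    (Set.range Sum.inr) (fun i g x _ => hgal _ g x) ?_ ?_ hcont hfin hunr ?_
  · rintro _ ⟨d, rfl⟩ _ ⟨e, rfl⟩ x _
    exact hdd d e x
  · rintro (p | d)
    · right
      obtain ⟨A, φ, hA, hφ⟩ := Fermat.Agent.S54.helper91.exists_isFrobeniusAt p.2.1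
      exact ⟨(φ, Sum.inl p, (p.1 : ℤ), Sum.inr (u p)), ⟨p, ⟨A, hA, hφ⟩, rfl⟩, rfl, ⟨u p, rfl⟩⟩
    · left
      exact ⟨d, rfl⟩
  · rintro ⟨φ, e2⟩ ⟨p, ⟨A, hA, hφ⟩, he⟩ x hx
    simp only at he hφ
    subst he
    exact hES p A hA φ hφ x hx

end Input

/-- the unit of a prime `p ∤ M ℓ` -/
def unit0 (M ℓ : ℕ) (p : {p : ℕ // p.Prime ∧ ¬ p ∣ M * ℓ}) : (ZMod M)ˣ :=
  unitOf M p.2.1 (not_dvd_of_not_dvd_mul p.2.2)

/-- **the package [A] for `J₁(M)`** from its inputs: continuity, finiteness, unramifiedness,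
Eichler-Shimura `φ² - T_p φ + p ⟨p⟩ = 0` for `T_p = hecke1 M p`, and the `κ`-package for
`(opA M, gen1 M 2)`. -/
theorem x1PackA_of_inputs {M ℓ : ℕ} [NeZero M]
    (hcont : ∀ x : J1 M, (∃ n : ℕ, ℓ ^ n • x = 0) →
      ∃ K : IntermediateField ℚ (AlgebraicClosure ℚ), FiniteDimensional ℚ K ∧
        ∀ σ : GalQ, (∀ y ∈ K, σ y = y) → σ • x = x)
    (hfin : Finite (nsmulAddMonoidHom (α := J1 M) (ℓ ^ 1)).ker)
    (hunr : ∀ σ ∈ inertiaOff (M * ℓ), ∀ x : J1 M, (∃ n : ℕ, ℓ ^ n • x = 0) → σ • x = x)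
    (hES : ∀ (p : ℕ) (hp : p.Prime) (hpM : ¬ p ∣ M), ¬ p ∣ M * ℓ →
      ∀ A : ValuationSubring (AlgebraicClosure ℚ), A.LiesOverPrime p →
        ∀ φ : GalQ, A.IsFrobeniusAt φ p → ∀ x : J1 M, (∃ n : ℕ, ℓ ^ n • x = 0) →
          φ • φ • x - hecke1 M ⟨p, hp⟩ (φ • x) + (p : ℤ) • diamond1 M (unitOf M hp hpM) x = 0)
    (hK : GenKappa ℓ (opA M) (gen1 M 2)) : X1PackA M ℓ := by
  refine ⟨J1 M, inferInstance, inferInstance, Gen0 M ℓ, fun i => opA M (gen0Incl M ℓ i),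
    fun i => gen1 M 2 (gen0Incl M ℓ i), esSet0 M ℓ (unit0 M ℓ), ?_, ?_, ?_⟩
  · exact genTateInput0_of (opA M) (unit0 M ℓ) (opA_gal M) (fun d e x => diamond1_comm M d e x)
      hcont hfin hunr
      (fun p A hA φ hφ x hx =>
        hES p.1 p.2.1 (not_dvd_of_not_dvd_mul p.2.2) p.2.2 A hA φ hφ x hx)
  · exact genKappa_comap (opA M) (gen1 M 2) (gen0Incl M ℓ) hK
  · intro p hp hpM hpMℓ A hA φ hφ
    exact ⟨Sum.inl ⟨p, hp, hpMℓ⟩, Sum.inr (unitOf M hp hpM),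
      ⟨⟨p, hp, hpMℓ⟩, ⟨A, hA, hφ⟩, rfl⟩, rfl, rfl⟩

/-- **the package [C] for `J₁(M)`** from its inputs: continuity, finiteness, unramifiedness,
Eichler-Shimura `φ² - T_p^t φ + p ⟨p⟩⁻¹ = 0` for the transposed operator
`T_p^t = hecke1t M p = a_* b^*`, and the `κ`-package for `(opC M, helper41.gen1C M)`. -/
theorem x1PackC_of_inputs {M ℓ : ℕ} [NeZero M]
    (hcont : ∀ x : J1 M, (∃ n : ℕ, ℓ ^ n • x = 0) →
      ∃ K : IntermediateField ℚ (AlgebraicClosure ℚ), FiniteDimensional ℚ K ∧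
        ∀ σ : GalQ, (∀ y ∈ K, σ y = y) → σ • x = x)
    (hfin : Finite (nsmulAddMonoidHom (α := J1 M) (ℓ ^ 1)).ker)
    (hunr : ∀ σ ∈ inertiaOff (M * ℓ), ∀ x : J1 M, (∃ n : ℕ, ℓ ^ n • x = 0) → σ • x = x)
    (hES : ∀ (p : ℕ) (hp : p.Prime) (hpM : ¬ p ∣ M), ¬ p ∣ M * ℓ →
      ∀ A : ValuationSubring (AlgebraicClosure ℚ), A.LiesOverPrime p →
        ∀ φ : GalQ, A.IsFrobeniusAt φ p → ∀ x : J1 M, (∃ n : ℕ, ℓ ^ n • x = 0) →
          φ • φ • x - hecke1t M ⟨p, hp⟩ (φ • x) +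
            (p : ℤ) • diamond1 M (unitOf M hp hpM)⁻¹ x = 0)
    (hK : GenKappa ℓ (opC M) (gen1C M)) : X1PackC M ℓ := by
  refine ⟨J1 M, inferInstance, inferInstance, Gen0 M ℓ, fun i => opC M (gen0Incl M ℓ i),
    fun i => gen1C M (gen0Incl M ℓ i), esSet0 M ℓ (fun p => (unit0 M ℓ p)⁻¹), ?_, ?_, ?_⟩
  · exact genTateInput0_of (opC M) (fun p => (unit0 M ℓ p)⁻¹) (opC_gal M)
      (fun d e x => diamond1_comm M d e x) hcont hfin hunr
      (fun p A hA φ hφ x hx =>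
        hES p.1 p.2.1 (not_dvd_of_not_dvd_mul p.2.2) p.2.2 A hA φ hφ x hx)
  · exact genKappa_comap (opC M) (gen1C M) (gen0Incl M ℓ) hK
  · intro p hp hpM hpMℓ A hA φ hφ
    exact ⟨Sum.inl ⟨p, hp, hpMℓ⟩, Sum.inr (unitOf M hp hpM)⁻¹,
      ⟨⟨p, hp, hpMℓ⟩, ⟨A, hA, hφ⟩, rfl⟩, rfl, rfl⟩

/-- **[EIGEN1] from the inputs of block (I)**, either convention at each `(M, ℓ)`. -/
theorem eigen1_of_x1Inputs
    (h : ∀ (M : ℕ) [NeZero M], (4 ∣ M ∨ 9 ∣ M) → ∀ ℓ : ℕ, ℓ.Prime → ℓ ≠ 2 →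
      (∀ x : J1 M, (∃ n : ℕ, ℓ ^ n • x = 0) →
        ∃ K : IntermediateField ℚ (AlgebraicClosure ℚ), FiniteDimensional ℚ K ∧
          ∀ σ : GalQ, (∀ y ∈ K, σ y = y) → σ • x = x) ∧
      Finite (nsmulAddMonoidHom (α := J1 M) (ℓ ^ 1)).ker ∧
      (∀ σ ∈ inertiaOff (M * ℓ), ∀ x : J1 M, (∃ n : ℕ, ℓ ^ n • x = 0) → σ • x = x) ∧
      (((∀ (p : ℕ) (hp : p.Prime) (hpM : ¬ p ∣ M), ¬ p ∣ M * ℓ →
          ∀ A : ValuationSubring (AlgebraicClosure ℚ), A.LiesOverPrime p →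
            ∀ φ : GalQ, A.IsFrobeniusAt φ p → ∀ x : J1 M, (∃ n : ℕ, ℓ ^ n • x = 0) →
              φ • φ • x - hecke1 M ⟨p, hp⟩ (φ • x) +
                (p : ℤ) • diamond1 M (unitOf M hp hpM) x = 0) ∧
          GenKappa ℓ (opA M) (gen1 M 2)) ∨
        ((∀ (p : ℕ) (hp : p.Prime) (hpM : ¬ p ∣ M), ¬ p ∣ M * ℓ →
          ∀ A : ValuationSubring (AlgebraicClosure ℚ), A.LiesOverPrime p →
            ∀ φ : GalQ, A.IsFrobeniusAt φ p → ∀ x : J1 M, (∃ n : ℕ, ℓ ^ n • x = 0) →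
              φ • φ • x - hecke1t M ⟨p, hp⟩ (φ • x) +
                (p : ℤ) • diamond1 M (unitOf M hp hpM)⁻¹ x = 0) ∧
          GenKappa ℓ (opC M) (gen1C M)))) :
    helper32.Eigen1Statement :=
  helper41.eigen1_of_pack fun M _ hlev ℓ hℓ hℓ2 => by
    obtain ⟨hcont, hfin, hunr, hAC⟩ := h M hlev ℓ hℓ hℓ2
    rcases hAC with ⟨hES, hK⟩ | ⟨hES, hK⟩
    · exact Or.inl (x1PackA_of_inputs hcont hfin hunr hES hK)
    · exact Or.inr (x1PackC_of_inputs hcont hfin hunr hES hK)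

end Fermat.Agent.T4.helper3

end
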