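import Mathlib
import Fermat.Agent.T4.helper40_DivFinal
import Fermat.Agent.T4.helper2_DivDefs

/-!
# T4 [CHEB-DIV] (helper40), part 8: the division density theorem in the shapes of
`Fermat.Agent.T4.helper2_DivDefs`

* `divLowerStatement2 : helper2.DivLowerStatement`;
* `divUpperStatement2 : helper2.DivUpperStatement`.
-/

set_option autoImplicit false

namespace Fermat.Agent.T4.helper40

/-- The division density theorem, lower bound, verbatim shape of helper2. -/
theorem divLowerStatement2 : Fermat.Agent.T4.helper2.DivLowerStatement :=
  fun G hG hF ρ hρ hsurj C h1 h2 => divStatement G hG hF ρ hρ hsurj C ⟨h1, h2⟩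

/-- The division density theorem, upper bound, verbatim shape of helper2. -/
theorem divUpperStatement2 : Fermat.Agent.T4.helper2.DivUpperStatement :=
  fun G hG hF ρ hρ hsurj C h1 h2 => divUpperStatement G hG hF ρ hρ hsurj C ⟨h1, h2⟩

end Fermat.Agent.T4.helper40
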