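import Mathlib

/-!
# T4 (I), IGUSA1, abstract part: orbit polynomials (helper40)

`G` a finite group acting on a commutative ring `B` by ring automorphisms, `A → B` with
`Algebra.IsInvariant A B G`.  For `θ : B`:

* `igaOrb G θ : Finset B` : the orbit of `θ`;
* `igaPolyB G θ = ∏ z ∈ orbit, (X - C z) : B[X]`, `G`-invariant, monic of degree `#orbit`;
* `igaPoly A G θ : A[X]` : a monic lift of `igaPolyB` to `A[X]` (same degree), `θ` is a root;
* `igaLag G θ y : B[X]` (Lagrange numerator, for `y` fixed by the stabiliser of `θ`):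
  `G`-invariant, with `eval θ (igaLag G θ y) = y * eval θ (derivative (igaPolyB G θ))`;
  `igaLagA A G θ y : A[X]` a lift.

Mathlib only.
-/

set_option autoImplicit false
set_option linter.unusedSectionVars false
set_option linter.unusedVariables false

open Polynomial
open scoped Pointwise Classical

noncomputable section

namespace Fermat.Agent.T4.helper40

section Orb

variable {B : Type*} [CommRing B] (G : Type*) [Group G] [Finite G] [MulSemiringAction G B]

/-- the orbit of `θ` as a finset -/
def igaOrb (θ : B) : Finset B := (Set.finite_range (fun g : G => g • θ)).toFinset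

variable {G}

theorem mem_igaOrb {θ z : B} : z ∈ igaOrb G θ ↔ ∃ g : G, g • θ = z := by
  simp [igaOrb]

theorem self_mem_igaOrb (θ : B) : θ ∈ igaOrb G θ := mem_igaOrb.mpr ⟨1, one_smul G θ⟩

theorem smul_mem_igaOrb (θ : B) (g : G) : g • θ ∈ igaOrb G θ := mem_igaOrb.mpr ⟨g, rfl⟩

theorem igaOrb_image (θ : B) (g : G) : (igaOrb G θ).image (fun z => g • z) = igaOrb G θ := by
  ext z
  simp only [Finset.mem_image, mem_igaOrb]
  constructor
  · rintro ⟨w, ⟨h, rfl⟩, rfl⟩
    exact ⟨g * h, mul_smul g h θ⟩
  · rintro ⟨h, rfl⟩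
    exact ⟨g⁻¹ • (h • θ), ⟨g⁻¹ * h, mul_smul _ _ _⟩, smul_inv_smul g _⟩

theorem card_igaOrb (θ : B) : (igaOrb G θ).card = Nat.card (MulAction.orbit G θ) := by
  have : (igaOrb G θ : Set B) = MulAction.orbit G θ := by
    ext z
    simp [mem_igaOrb, MulAction.mem_orbit_iff]
  rw [← this, Nat.card_coe_set_eq, Set.ncard_coe_finset]

variable (G)

/-- the orbit polynomial over `B` -/
def igaPolyB (θ : B) : B[X] := ∏ z ∈ igaOrb G θ, (X - C z)

variable {G}

theorem igaPolyB_monic (θ : B) : (igaPolyB G θ).Monic :=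
  monic_prod_of_monic _ _ (fun _ _ => monic_X_sub_C _)

theorem natDegree_igaPolyB [Nontrivial B] (θ : B) :
    (igaPolyB G θ).natDegree = (igaOrb G θ).card := by
  rw [igaPolyB, natDegree_prod_of_monic _ _ (fun _ _ => monic_X_sub_C _)]
  simp

theorem smul_prod_X_sub_C (g : G) (s : Finset B) :
    g • (∏ z ∈ s, (X - C z) : B[X]) = ∏ w ∈ s.image (fun z => g • z), (X - C w) := by
  rw [Finset.smul_prod', Finset.prod_image (fun a _ b _ h => smul_left_cancel g h)]
  refine Finset.prod_congr rfl (fun z _ => ?_)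
  rw [smul_sub, smul_X, smul_C]

theorem smul_igaPolyB (θ : B) (g : G) : g • igaPolyB G θ = igaPolyB G θ := by
  rw [igaPolyB, smul_prod_X_sub_C, igaOrb_image]

theorem eval_igaPolyB (θ : B) : (igaPolyB G θ).eval θ = 0 := by
  rw [igaPolyB, eval_prod]
  apply Finset.prod_eq_zero (self_mem_igaOrb θ)
  simp

/-- the cofactor `∏ z' ≠ z` -/
def igaCof (G : Type*) [Group G] [Finite G] [MulSemiringAction G B] (θ z : B) : B[X] :=
  ∏ w ∈ (igaOrb G θ).erase z, (X - C w)

theorem smul_igaCof (θ z : B) (g : G) : g • igaCof G θ z = igaCof G θ (g • z) := by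
  rw [igaCof, smul_prod_X_sub_C, Finset.image_erase (fun a b h => smul_left_cancel g h),
    igaOrb_image, igaCof]

theorem eval_igaCof_of_ne {θ z : B} (hz : z ≠ θ) : (igaCof G θ z).eval θ = 0 := by
  rw [igaCof, eval_prod]
  apply Finset.prod_eq_zero (Finset.mem_erase.mpr ⟨hz.symm, self_mem_igaOrb θ⟩)
  simp

theorem derivative_igaPolyB (θ : B) :
    derivative (igaPolyB G θ) = ∑ z ∈ igaOrb G θ, igaCof G θ z := by
  rw [igaPolyB, derivative_prod_finset]
  refine Finset.sum_congr rfl (fun z _ => ?_)
  rw [igaCof, derivative_sub, derivative_X, derivative_C, sub_zero, mul_one]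

theorem eval_derivative_igaPolyB (θ : B) :
    (derivative (igaPolyB G θ)).eval θ = (igaCof G θ θ).eval θ := by
  rw [derivative_igaPolyB, eval_finsetSum, Finset.sum_eq_single θ]
  · intro z _ hz
    exact eval_igaCof_of_ne hz
  · intro h
    exact absurd (self_mem_igaOrb θ) h

/-- the value at `z = g • θ` of the `G`-equivariant extension of `θ ↦ y` -/
def igaVal (G : Type*) [Group G] [Finite G] [MulSemiringAction G B] (θ y z : B) : B :=
  if h : ∃ g : G, g • θ = z then (Classical.choose h) • y else 0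

theorem igaVal_smul {θ y : B} (hy : ∀ g : G, g • θ = θ → g • y = y) (g : G) :
    igaVal G θ y (g • θ) = g • y := by
  have h : ∃ g' : G, g' • θ = g • θ := ⟨g, rfl⟩
  rw [igaVal, dif_pos h]
  have h1 := Classical.choose_spec h
  have h2 : (g⁻¹ * Classical.choose h) • θ = θ := by
    rw [mul_smul, h1, inv_smul_smul]
  have h3 := hy _ h2
  rw [mul_smul, inv_smul_eq_iff] at h3
  exact h3

/-- the Lagrange numerator -/
def igaLag (G : Type*) [Group G] [Finite G] [MulSemiringAction G B] (θ y : B) : B[X] :=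
  ∑ z ∈ igaOrb G θ, C (igaVal G θ y z) * igaCof G θ z

theorem smul_igaLag {θ y : B} (hy : ∀ g : G, g • θ = θ → g • y = y) (g : G) :
    g • igaLag G θ y = igaLag G θ y := by
  rw [igaLag, Finset.smul_sum]
  conv_rhs => rw [← igaOrb_image θ g]
  rw [Finset.sum_image (fun a _ b _ h => smul_left_cancel g h)]
  refine Finset.sum_congr rfl (fun z hz => ?_)
  obtain ⟨h, rfl⟩ := mem_igaOrb.mp hz
  rw [smul_mul', smul_C, smul_igaCof, igaVal_smul hy, ← mul_smul, ← mul_smul, igaVal_smul hy]

theorem eval_igaLag {θ y : B} (hy : ∀ g : G, g • θ = θ → g • y = y) :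
    (igaLag G θ y).eval θ = y * (derivative (igaPolyB G θ)).eval θ := by
  rw [eval_derivative_igaPolyB, igaLag, eval_finsetSum, Finset.sum_eq_single θ]
  · rw [eval_mul, eval_C]
    have := igaVal_smul hy (1 : G)
    rw [one_smul, one_smul] at this
    rw [this]
  · intro z _ hz
    rw [eval_mul, eval_igaCof_of_ne hz, mul_zero]
  · intro h
    exact absurd (self_mem_igaOrb θ) h

end Orb

section Lift

variable (A : Type*) {B : Type*} [CommRing A] [CommRing B] [Algebra A B]
  (G : Type*) [Group G] [Finite G] [MulSemiringAction G B] [Algebra.IsInvariant A B G]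

theorem iga_mem_lifts (p : B[X]) (hp : ∀ g : G, g • p = p) :
    p ∈ Polynomial.lifts (algebraMap A B) :=
  p.lifts_iff_coeff_lifts.mpr fun n =>
    Algebra.IsInvariant.isInvariant (G := G) _ (fun g => by rw [← coeff_smul, hp g])

theorem exists_igaPoly (θ : B) :
    ∃ Φ : A[X], Φ.map (algebraMap A B) = igaPolyB G θ ∧
      Φ.natDegree = (igaPolyB G θ).natDegree ∧ Φ.Monic :=
  lifts_and_natDegree_eq_and_monic (iga_mem_lifts A G _ (smul_igaPolyB θ)) (igaPolyB_monic θ)

/-- a monic lift of the orbit polynomial to `A[X]` -/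
def igaPoly (θ : B) : A[X] := Classical.choose (exists_igaPoly A G θ)

theorem igaPoly_map (θ : B) : (igaPoly A G θ).map (algebraMap A B) = igaPolyB G θ :=
  (Classical.choose_spec (exists_igaPoly A G θ)).1

theorem igaPoly_monic (θ : B) : (igaPoly A G θ).Monic :=
  (Classical.choose_spec (exists_igaPoly A G θ)).2.2

theorem igaPoly_natDegree [Nontrivial B] (θ : B) :
    (igaPoly A G θ).natDegree = Nat.card (MulAction.orbit G θ) := by
  have h : (igaPoly A G θ).natDegree = (igaPolyB G θ).natDegree :=
    (Classical.choose_spec (exists_igaPoly A G θ)).2.1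
  rw [h, natDegree_igaPolyB, card_igaOrb]

theorem igaPoly_aeval (θ : B) : aeval θ (igaPoly A G θ) = 0 := by
  rw [← eval_map_algebraMap, igaPoly_map, eval_igaPolyB]

/-- a lift of the Lagrange numerator to `A[X]` -/
def igaLagA (θ y : B) : A[X] :=
  if h : igaLag G θ y ∈ Polynomial.lifts (algebraMap A B) then Classical.choose h else 0

theorem igaLagA_map {θ y : B} (hy : ∀ g : G, g • θ = θ → g • y = y) :
    (igaLagA A G θ y).map (algebraMap A B) = igaLag G θ y := by
  have h := iga_mem_lifts A G _ (smul_igaLag hy)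
  rw [igaLagA, dif_pos h]
  exact Classical.choose_spec h

/-- **Lagrange interpolation identity** in `B`. -/
theorem igaLagA_aeval {θ y : B} (hy : ∀ g : G, g • θ = θ → g • y = y) :
    aeval θ (igaLagA A G θ y) = y * aeval θ (derivative (igaPoly A G θ)) := by
  rw [← eval_map_algebraMap, igaLagA_map A G hy, ← eval_map_algebraMap, ← derivative_map,
    igaPoly_map, eval_igaLag hy]

end Lift

end Fermat.Agent.T4.helper40
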