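import Mathlib
import Fermat.Agent.T4.helper40_Dedekind
import Fermat.Agent.T4.helper40_IgusaOrb

/-!
# T4 (I), IGUSA1, abstract part (helper40): irreducible separable reduction of the orbit
polynomial, degree = orbit count, Lagrange interpolation, stability of the kernel

Setting: a finite group `G` acting on `B`, `A → B` with `Algebra.IsInvariant A B G`, a prime `Q`
of `B` over `P`, `K` any fraction field of `A ⧸ P`; `igaRedK P K : A →+* K`.

K-level statements (`Φ = igaPoly A G θ`, the orbit polynomial of `θ`):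
* `iga_separable`   : reduction injective on the orbit of `θ` ⟹ `Φ.map (igaRedK P K)` separable;
* `iga_irreducible` : moreover `Q` is `G`-stable ⟹ `Φ.map (igaRedK P K)` irreducible.

Ω-level statements (`ρ : B →+* Ω` a ring hom to a field with kernel `Q`, compatible with
`K → Ω`):
* `iga_minpoly`, `iga_finrank` : `minpoly K (ρ θ) = Φ.map (igaRedK P K)`,
  `[K(ρ θ) : K] = #(orbit of θ)`;  `iga_isSeparable`;
* `iga_mem_adjoin` (Lagrange): `y` fixed by the stabiliser of `θ` ⟹ `ρ y ∈ K(ρ θ)`.

Stability: `iga_stable_of_pivot` : from a pivot `x` (root of `F ∈ A[X]` with irreducible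
reduction, reduction injective on its orbit), `T` with `T • Q = Q`, and the group lemma
`hgen`, every `g : G` stabilises `Q`.

Mathlib + helper40_Dedekind + helper40_IgusaOrb.
-/

set_option autoImplicit false
set_option linter.unusedSectionVars false
set_option linter.unusedVariables false

open Polynomial IntermediateField
open scoped Pointwise

noncomputable section

namespace Fermat.Agent.T4.helper40

/-- the reduction map `A → A ⧸ P → K` -/
def igaRedK {A : Type*} [CommRing A] (P : Ideal A) (K : Type*) [Field K] [Algebra (A ⧸ P) K] :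
    A →+* K :=
  (algebraMap (A ⧸ P) K).comp (Ideal.Quotient.mk P)

section KL

variable {A B : Type*} [CommRing A] [CommRing B] [Algebra A B]
  (G : Type*) [Group G] [Finite G] [MulSemiringAction G B] [SMulCommClass G A B]
  (P : Ideal A) (Q : Ideal B) [Q.IsPrime] [Q.LiesOver P]

variable (K L : Type*) [Field K] [Field L]
  [Algebra (A ⧸ P) K] [Algebra (B ⧸ Q) L]
  [Algebra (A ⧸ P) L] [IsScalarTower (A ⧸ P) (B ⧸ Q) L]
  [Algebra K L] [IsScalarTower (A ⧸ P) K L]
  [Algebra.IsInvariant A B G]
  [IsFractionRing (A ⧸ P) K] [IsFractionRing (B ⧸ Q) L]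

/-- reduction `B → B ⧸ Q → L` -/
def igaResL : B →+* L := (algebraMap (B ⧸ Q) L).comp (Ideal.Quotient.mk Q)

include G P in
theorem igaResL_eq_iff (b b' : B) : igaResL Q L b = igaResL Q L b' ↔ b - b' ∈ Q := by
  unfold igaResL
  simp only [RingHom.comp_apply]
  rw [(IsFractionRing.injective (B ⧸ Q) L).eq_iff, Ideal.Quotient.eq]

include G in
theorem igaRes_comp : (algebraMap K L).comp (igaRedK P K) =
    (igaResL Q L).comp (algebraMap A B) := by
  ext a
  simp only [igaRedK, igaResL, RingHom.comp_apply]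
  rw [← IsScalarTower.algebraMap_apply (A ⧸ P) K L,
    IsScalarTower.algebraMap_apply (A ⧸ P) (B ⧸ Q) L]
  rfl

include G in
theorem igaPoly_map_L (θ : B) :
    ((igaPoly A G θ).map (igaRedK P K)).map (algebraMap K L) =
      ∏ z ∈ igaOrb G θ, (X - C (igaResL Q L z)) := by
  rw [Polynomial.map_map, igaRes_comp G P Q K L, ← Polynomial.map_map, igaPoly_map, igaPolyB,
    Polynomial.map_prod]
  refine Finset.prod_congr rfl (fun z _ => ?_)
  rw [Polynomial.map_sub, Polynomial.map_X, Polynomial.map_C]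

include G Q L in
theorem iga_separable_gen (θ : B)
    (hinj : ∀ g g' : G, g • θ - g' • θ ∈ Q → g • θ = g' • θ) :
    ((igaPoly A G θ).map (igaRedK P K)).Separable := by
  rw [← Polynomial.separable_map (algebraMap K L), igaPoly_map_L G P Q K L,
    separable_prod_X_sub_C_iff']
  intro z hz z' hz' h
  obtain ⟨g, rfl⟩ := mem_igaOrb.mp hz
  obtain ⟨g', rfl⟩ := mem_igaOrb.mp hz'
  exact hinj g g' ((igaResL_eq_iff G P Q L _ _).mp h)

include G Q L in
theorem iga_irreducible_gen (hstab : ∀ g : G, g • Q = Q) (θ : B)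
    (hinj : ∀ g g' : G, g • θ - g' • θ ∈ Q → g • θ = g' • θ) :
    Irreducible ((igaPoly A G θ).map (igaRedK P K)) := by
  classical
  haveI : P.IsPrime := Ideal.over_def Q P ▸ Ideal.IsPrime.under A Q
  haveI : Normal K L := Ideal.IsFractionRing.normal G P Q K L
  haveI : Nontrivial B := ⟨⟨0, 1, fun h => by
    have h1 : (1 : B) ∈ Q := by rw [← h]; exact Q.zero_mem
    exact (Ideal.IsPrime.ne_top inferInstance) ((Ideal.eq_top_iff_one Q).mpr h1)⟩⟩
  set Φ := (igaPoly A G θ).map (igaRedK P K) with hΦ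
  have hΦmonic : Φ.Monic := (igaPoly_monic A G θ).map _
  set t : L := igaResL Q L θ with ht
  have hint : IsIntegral K t := Normal.isIntegral (inferInstance : Normal K L) t
  -- `t` is a root of `Φ`
  have hroot : aeval t Φ = 0 := by
    rw [aeval_def, ← eval_map, hΦ, igaPoly_map_L G P Q K L, eval_prod]
    apply Finset.prod_eq_zero (self_mem_igaOrb θ)
    simp [ht]
  have hdvd : minpoly K t ∣ Φ := minpoly.dvd K t hroot
  -- every `igaResL z`, `z` in the orbit, is a root of the minimal polynomial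
  have hroots : ∀ z ∈ igaOrb G θ, aeval (igaResL Q L z) (minpoly K t) = 0 := by
    intro z hz
    obtain ⟨g, rfl⟩ := mem_igaOrb.mp hz
    let σ : L ≃ₐ[K] L := IsFractionRing.stabilizerHom G P Q K L ⟨g, hstab g⟩
    have hσ : σ t = igaResL Q L (g • θ) := by
      simp only [σ, ht, igaResL, RingHom.comp_apply]
      exact IsFractionRing.stabilizerHom_apply_apply_mk G P Q K L ⟨g, hstab g⟩ θ
    rw [← hσ]
    have := Polynomial.aeval_algHom_apply (σ : L →ₐ[K] L) t (minpoly K t)
    rw [minpoly.aeval, map_zero] at this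
    exact this
  -- count roots
  have hcard : (igaOrb G θ).card ≤ (minpoly K t).natDegree := by
    have hinjL : Set.InjOn (igaResL Q L) (igaOrb G θ : Set B) := by
      intro z hz z' hz' h
      obtain ⟨g, rfl⟩ := mem_igaOrb.mp hz
      obtain ⟨g', rfl⟩ := mem_igaOrb.mp hz'
      exact hinj g g' ((igaResL_eq_iff G P Q L _ _).mp h)
    have h1 : ((igaOrb G θ).image (igaResL Q L)).card = (igaOrb G θ).card :=
      Finset.card_image_of_injOn hinjL
    have hne : (minpoly K t).map (algebraMap K L) ≠ 0 :=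
      (Polynomial.map_ne_zero_iff (algebraMap K L).injective).mpr (minpoly.ne_zero hint)
    have h2 : ((igaOrb G θ).image (igaResL Q L)).val ⊆
        ((minpoly K t).map (algebraMap K L)).roots := by
      intro w hw
      have hw' : w ∈ (igaOrb G θ).image (igaResL Q L) := hw
      obtain ⟨z, hz, rfl⟩ := Finset.mem_image.mp hw'
      rw [Polynomial.mem_roots hne, Polynomial.IsRoot, eval_map, ← aeval_def]
      exact hroots z hz
    have h3 := Polynomial.card_le_degree_of_subset_roots h2
    rw [h1, Polynomial.natDegree_map] at h3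
    exact h3
  have hdeg : Φ.natDegree ≤ (minpoly K t).natDegree := by
    rw [hΦ, (igaPoly_monic A G θ).natDegree_map, igaPoly_natDegree, ← card_igaOrb]
    exact hcard
  have heq : Φ = minpoly K t :=
    Polynomial.eq_of_monic_of_dvd_of_natDegree_le (minpoly.monic hint) hΦmonic hdvd hdeg
  rw [heq]
  exact minpoly.irreducible hint

end KL

section Omega

variable {A B : Type*} [CommRing A] [CommRing B] [Algebra A B]
  (G : Type*) [Group G] [Finite G] [MulSemiringAction G B] [SMulCommClass G A B]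
  [Algebra.IsInvariant A B G]
  (P : Ideal A) (Q : Ideal B) [Q.IsPrime] [Q.LiesOver P]
  (K : Type*) [Field K] [Algebra (A ⧸ P) K] [IsFractionRing (A ⧸ P) K]

/-- **Separability** of the reduction of the orbit polynomial. -/
theorem iga_separable (θ : B) (hinj : ∀ g g' : G, g • θ - g' • θ ∈ Q → g • θ = g' • θ) :
    ((igaPoly A G θ).map (igaRedK P K)).Separable := by
  haveI : P.IsPrime := Ideal.over_def Q P ▸ Ideal.IsPrime.under A Q
  letI := FractionRing.liftAlgebra (A ⧸ P) (FractionRing (B ⧸ Q))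
  have h := iga_separable_gen G P Q (FractionRing (A ⧸ P)) (FractionRing (B ⧸ Q)) θ hinj
  let e : FractionRing (A ⧸ P) ≃ₐ[A ⧸ P] K :=
    IsLocalization.algEquiv (nonZeroDivisors (A ⧸ P)) (FractionRing (A ⧸ P)) K
  have h1 : (igaPoly A G θ).map (igaRedK P K) =
      ((igaPoly A G θ).map (igaRedK P (FractionRing (A ⧸ P)))).map (e : _ →+* K) := by
    rw [Polynomial.map_map]
    congr 1
    ext a
    simp [igaRedK, e]
  rw [h1]
  exact h.map

/-- **Irreducibility** of the reduction of the orbit polynomial, when `Q` is `G`-stable. -/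
theorem iga_irreducible (hstab : ∀ g : G, g • Q = Q) (θ : B)
    (hinj : ∀ g g' : G, g • θ - g' • θ ∈ Q → g • θ = g' • θ) :
    Irreducible ((igaPoly A G θ).map (igaRedK P K)) := by
  haveI : P.IsPrime := Ideal.over_def Q P ▸ Ideal.IsPrime.under A Q
  letI := FractionRing.liftAlgebra (A ⧸ P) (FractionRing (B ⧸ Q))
  have h := iga_irreducible_gen G P Q (FractionRing (A ⧸ P)) (FractionRing (B ⧸ Q)) hstab θ hinj
  have h2 : (igaPoly A G θ).map (igaRedK P (FractionRing (A ⧸ P))) =
      ((igaPoly A G θ).map (Ideal.Quotient.mk P)).map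
        (algebraMap (A ⧸ P) (FractionRing (A ⧸ P))) := by
    rw [Polynomial.map_map]; rfl
  have h3 : (igaPoly A G θ).map (igaRedK P K) =
      ((igaPoly A G θ).map (Ideal.Quotient.mk P)).map (algebraMap (A ⧸ P) K) := by
    rw [Polynomial.map_map]; rfl
  rw [h3]
  rw [h2] at h
  exact ded_irreducible_transfer (FractionRing (A ⧸ P)) K _ h

variable (Ω : Type*) [Field Ω] [Algebra K Ω] (ρ : B →+* Ω)

/-- compatibility of `aeval` with the reduction -/
theorem iga_aeval_rho (hρK : ∀ a : A, ρ (algebraMap A B a) = algebraMap K Ω (igaRedK P K a))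
    (F : A[X]) (b : B) : aeval (ρ b) (F.map (igaRedK P K)) = ρ (aeval b F) := by
  have h1 : (algebraMap K Ω).comp (igaRedK P K) = ρ.comp (algebraMap A B) := by
    ext a
    simp only [RingHom.comp_apply]
    exact (hρK a).symm
  rw [aeval_def, eval₂_map, h1, aeval_def, Polynomial.hom_eval₂]

include G in
theorem iga_isIntegral (hρK : ∀ a : A, ρ (algebraMap A B a) = algebraMap K Ω (igaRedK P K a))
    (θ : B) : IsIntegral K (ρ θ) :=
  ⟨(igaPoly A G θ).map (igaRedK P K), (igaPoly_monic A G θ).map _, by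
    rw [← aeval_def, iga_aeval_rho P K Ω ρ hρK, igaPoly_aeval, map_zero]⟩

/-- `ρ θ` is separable over `K` if reduction is injective on the orbit of `θ`. -/
theorem iga_isSeparable (hρK : ∀ a : A, ρ (algebraMap A B a) = algebraMap K Ω (igaRedK P K a))
    (θ : B) (hinj : ∀ g g' : G, g • θ - g' • θ ∈ Q → g • θ = g' • θ) :
    IsSeparable K (ρ θ) := by
  have h := iga_separable G P Q K θ hinj
  have hroot : aeval (ρ θ) ((igaPoly A G θ).map (igaRedK P K)) = 0 := by
    rw [iga_aeval_rho P K Ω ρ hρK, igaPoly_aeval, map_zero]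
  exact h.of_dvd (minpoly.dvd K _ hroot)

/-- the minimal polynomial of `ρ θ` is the reduction of the orbit polynomial -/
theorem iga_minpoly (hρK : ∀ a : A, ρ (algebraMap A B a) = algebraMap K Ω (igaRedK P K a))
    (hstab : ∀ g : G, g • Q = Q) (θ : B)
    (hinj : ∀ g g' : G, g • θ - g' • θ ∈ Q → g • θ = g' • θ) :
    minpoly K (ρ θ) = (igaPoly A G θ).map (igaRedK P K) := by
  have hroot : aeval (ρ θ) ((igaPoly A G θ).map (igaRedK P K)) = 0 := by
    rw [iga_aeval_rho P K Ω ρ hρK, igaPoly_aeval, map_zero]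
  exact (minpoly.eq_of_irreducible_of_monic (iga_irreducible G P Q K hstab θ hinj) hroot
    ((igaPoly_monic A G θ).map _)).symm

/-- **Degree = orbit count.** -/
theorem iga_finrank (hρK : ∀ a : A, ρ (algebraMap A B a) = algebraMap K Ω (igaRedK P K a))
    (hstab : ∀ g : G, g • Q = Q) (θ : B)
    (hinj : ∀ g g' : G, g • θ - g' • θ ∈ Q → g • θ = g' • θ) :
    Module.finrank K K⟮ρ θ⟯ = Nat.card (MulAction.orbit G θ) := by
  haveI : Nontrivial B := ⟨⟨0, 1, fun h => by
    have h1 : (1 : B) ∈ Q := by rw [← h]; exact Q.zero_mem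
    exact (Ideal.IsPrime.ne_top inferInstance) ((Ideal.eq_top_iff_one Q).mpr h1)⟩⟩
  rw [IntermediateField.adjoin.finrank (iga_isIntegral G P K Ω ρ hρK θ),
    iga_minpoly G P Q K Ω ρ hρK hstab θ hinj, (igaPoly_monic A G θ).natDegree_map,
    igaPoly_natDegree]

/-- **Lagrange interpolation**: if `y` is fixed by the stabiliser of `θ` and reduction is
injective on the orbit of `θ`, then `ρ y ∈ K(ρ θ)`. -/
theorem iga_mem_adjoin (hρK : ∀ a : A, ρ (algebraMap A B a) = algebraMap K Ω (igaRedK P K a))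
    (θ : B) (hinj : ∀ g g' : G, g • θ - g' • θ ∈ Q → g • θ = g' • θ)
    (y : B) (hy : ∀ g : G, g • θ = θ → g • y = y) : ρ y ∈ K⟮ρ θ⟯ := by
  have hsep := iga_separable G P Q K θ hinj
  have hroot : aeval (ρ θ) ((igaPoly A G θ).map (igaRedK P K)) = 0 := by
    rw [iga_aeval_rho P K Ω ρ hρK, igaPoly_aeval, map_zero]
  have hD : aeval (ρ θ) (derivative ((igaPoly A G θ).map (igaRedK P K))) ≠ 0 :=
    hsep.aeval_derivative_ne_zero hroot
  have hN : aeval (ρ θ) ((igaLagA A G θ y).map (igaRedK P K)) =
      ρ y * aeval (ρ θ) (derivative ((igaPoly A G θ).map (igaRedK P K))) := by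
    rw [iga_aeval_rho P K Ω ρ hρK, igaLagA_aeval A G hy, map_mul, derivative_map,
      iga_aeval_rho P K Ω ρ hρK]
  have hmem : ∀ p : K[X], aeval (ρ θ) p ∈ K⟮ρ θ⟯ := by
    intro p
    have h1 := IntermediateField.aeval_coe (R := K) (S := K⟮ρ θ⟯)
      (⟨ρ θ, mem_adjoin_simple_self K (ρ θ)⟩ : K⟮ρ θ⟯) p
    simp only at h1
    rw [h1]
    exact SetLike.coe_mem _
  have hy' : ρ y = aeval (ρ θ) ((igaLagA A G θ y).map (igaRedK P K)) /
      aeval (ρ θ) (derivative ((igaPoly A G θ).map (igaRedK P K))) := by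
    rw [hN, mul_div_cancel_right₀ _ hD]
  rw [hy']
  exact div_mem (hmem _) (hmem _)

end Omega

section Stab

variable {A B : Type*} [CommRing A] [CommRing B] [Algebra A B]
  (G : Type*) [Group G] [Finite G] [MulSemiringAction G B] [SMulCommClass G A B]
  [Algebra.IsInvariant A B G]
  (P : Ideal A) (Q : Ideal B) [Q.IsPrime] [Q.LiesOver P]
  (K : Type*) [Field K] [Algebra (A ⧸ P) K] [IsFractionRing (A ⧸ P) K]

/-- **Stability of the kernel** (Igusa, abstract form).  Pivot `x` with `F ∈ A[X]`, `F(x) = 0`,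
irreducible reduction, reduction injective on the orbit of `x`; `H ⊇ Stab x`; a subgroup
containing `T` and meeting every coset of `H` is everything (`hgen`); `T` stabilises `Q`.
Then every `g : G` stabilises `Q`. -/
theorem iga_stable_of_pivot (x : B) (F : A[X]) (hF : aeval x F = 0)
    (hirr : Irreducible (F.map (igaRedK P K)))
    (hinj : ∀ g g' : G, g • x - g' • x ∈ Q → g • x = g' • x)
    (H : Subgroup G) (hH : MulAction.stabilizer G x ≤ H) (T : G) (hT : T • Q = Q)
    (hgen : ∀ D : Subgroup G, T ∈ D → (∀ g : G, ∃ d ∈ D, ∃ b ∈ H, g = d * b) → D = ⊤)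
    (g : G) : g • Q = Q := by
  have hirr' : Irreducible ((F.map (Ideal.Quotient.mk P)).map (algebraMap (A ⧸ P) K)) := by
    rw [Polynomial.map_map]; exact hirr
  have htop : MulAction.stabilizer G Q = ⊤ := by
    apply hgen _ hT
    intro g
    obtain ⟨d, hd, b, hb, hgdb⟩ := ded_transitive_mul G P Q K x F hF hirr' hinj g
    exact ⟨d, hd, b, hH hb, hgdb⟩
  have : g ∈ MulAction.stabilizer G Q := by rw [htop]; trivial
  exact this

end Stab

end Fermat.Agent.T4.helper40
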