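import Mathlib

/-!
# T4 (I), IGUSA1: a primitive element with injective reduction on its orbit (helper40)

`G` a finite group acting on a commutative ring `B` by `A`-linear ring automorphisms,
`ρ : B →+* Ω` a ring homomorphism to a field (the reduction), `y : Fin n → B` a finite family
(the generators).  If the image of `A` in `Ω` is infinite, there is `c : A` such that
`θ = ∑ i, c ^ i • y i` separates the `ρ`-images of the `G`-translates of the family:

  `ρ (g • θ) = ρ (g' • θ) → ∀ i, ρ (g • y i) = ρ (g' • y i)`.

Consequently, if reduction is injective on the orbit of the family `y`, it is injective on the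
orbit of `θ`, and `Stab θ = Stab y`.

Mathlib only.
-/

set_option autoImplicit false
set_option linter.unusedSectionVars false
set_option linter.unusedVariables false

open Polynomial

namespace Fermat.Agent.T4.helper40

section PE

variable {A B Ω : Type*} [CommRing A] [CommRing B] [Algebra A B] [Field Ω]
  {G : Type*} [Group G] [Finite G] [MulSemiringAction G B] [SMulCommClass G A B]

/-- A finite family of nonzero vectors `v j : Fin n → Ω` and an infinite set `S ⊆ Ω`: some
`s ∈ S` has `∑ i, s ^ i * v j i ≠ 0` for all `j`. -/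
theorem pe_exists_avoid {n : ℕ} {J : Type*} [Finite J] (v : J → Fin n → Ω)
    (hv : ∀ j, v j ≠ 0) (S : Set Ω) (hS : S.Infinite) :
    ∃ s ∈ S, ∀ j, ∑ i : Fin n, s ^ (i : ℕ) * v j i ≠ 0 := by
  classical
  cases nonempty_fintype J
  -- the polynomials `p j = ∑ i, C (v j i) * X ^ i`
  let p : J → Polynomial Ω := fun j => ∑ i : Fin n, C (v j i) * X ^ (i : ℕ)
  have hp : ∀ j, p j ≠ 0 := by
    intro j h
    apply hv j
    funext i
    have hc : (p j).coeff (i : ℕ) = v j i := by
      simp only [p, Polynomial.finset_sum_coeff, Polynomial.coeff_C_mul, Polynomial.coeff_X_pow]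
      rw [Finset.sum_eq_single i]
      · simp
      · intro b _ hb
        have : (i : ℕ) ≠ (b : ℕ) := fun h => hb (Fin.ext h.symm)
        simp [this]
      · intro h
        exact absurd (Finset.mem_univ i) h
    rw [h, Polynomial.coeff_zero] at hc
    simpa using hc.symm
  have heval : ∀ j (s : Ω), (p j).eval s = ∑ i : Fin n, s ^ (i : ℕ) * v j i := by
    intro j s
    simp only [p, Polynomial.eval_finset_sum, Polynomial.eval_mul, Polynomial.eval_C,
      Polynomial.eval_pow, Polynomial.eval_X]
    exact Finset.sum_congr rfl (fun i _ => mul_comm _ _)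
  -- the finite set of roots
  let bad : Finset Ω := Finset.univ.biUnion (fun j => (p j).roots.toFinset)
  obtain ⟨s, hsS, hsbad⟩ := hS.exists_notMem_finset bad
  refine ⟨s, hsS, fun j h0 => hsbad ?_⟩
  simp only [bad, Finset.mem_biUnion, Finset.mem_univ, true_and, Multiset.mem_toFinset]
  refine ⟨j, ?_⟩
  rw [Polynomial.mem_roots (hp j), Polynomial.IsRoot, heval]
  exact h0

/-- The primitive element attached to `c : A` and the family `y`. -/
def peElt {n : ℕ} (c : A) (y : Fin n → B) : B := ∑ i : Fin n, c ^ (i : ℕ) • y i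

theorem pe_smul {n : ℕ} (c : A) (y : Fin n → B) (g : G) :
    g • peElt c y = ∑ i : Fin n, c ^ (i : ℕ) • (g • y i) := by
  unfold peElt
  rw [Finset.smul_sum]
  exact Finset.sum_congr rfl (fun i _ => smul_comm _ _ _)

theorem pe_map_smul {n : ℕ} (ρ : B →+* Ω) (c : A) (y : Fin n → B) (g : G) :
    ρ (g • peElt c y) = ∑ i : Fin n, (ρ (algebraMap A B c)) ^ (i : ℕ) * ρ (g • y i) := by
  rw [pe_smul, map_sum]
  refine Finset.sum_congr rfl (fun i _ => ?_)
  rw [Algebra.smul_def, map_mul, map_pow, map_pow]

/-- **Primitive element, separation form.** -/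
theorem pe_exists_separating {n : ℕ} (ρ : B →+* Ω) (y : Fin n → B)
    (hinf : (Set.range (fun a : A => ρ (algebraMap A B a))).Infinite) :
    ∃ c : A, ∀ g g' : G, ρ (g • peElt c y) = ρ (g' • peElt c y) →
      ∀ i, ρ (g • y i) = ρ (g' • y i) := by
  classical
  -- index set: the pairs with distinct reductions of the translated families
  let J := {q : G × G // (fun i => ρ (q.1 • y i) - ρ (q.2 • y i)) ≠ 0}
  let v : J → Fin n → Ω := fun q i => ρ (q.1.1 • y i) - ρ (q.1.2 • y i)
  obtain ⟨s, ⟨c, rfl⟩, hs⟩ := pe_exists_avoid v (fun q => q.2) _ hinf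
  refine ⟨c, fun g g' h => ?_⟩
  by_contra hne
  have hq : (fun i => ρ (g • y i) - ρ (g' • y i)) ≠ 0 := by
    intro h0
    apply hne
    intro i
    have := congrFun h0 i
    exact sub_eq_zero.mp this
  apply hs ⟨(g, g'), hq⟩
  have h1 := pe_map_smul ρ c y g
  have h2 := pe_map_smul ρ c y g'
  rw [h1, h2] at h
  simp only [v, mul_sub, Finset.sum_sub_distrib]
  exact sub_eq_zero.mpr h

/-- **Primitive element.**  If reduction is injective on the orbit of the family `y`, there is
`c : A` such that reduction is injective on the orbit of `θ = peElt c y`, and `g • θ = g' • θ`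
iff `g • y i = g' • y i` for all `i`. -/
theorem pe_exists {n : ℕ} (ρ : B →+* Ω) (y : Fin n → B)
    (hinf : (Set.range (fun a : A => ρ (algebraMap A B a))).Infinite)
    (hinj : ∀ g g' : G, (∀ i, ρ (g • y i) = ρ (g' • y i)) → ∀ i, g • y i = g' • y i) :
    ∃ c : A, (∀ g g' : G, ρ (g • peElt c y) = ρ (g' • peElt c y) →
        g • peElt c y = g' • peElt c y) ∧
      (∀ g g' : G, g • peElt c y = g' • peElt c y ↔ ∀ i, g • y i = g' • y i) ∧
      (∀ g : G, g • peElt c y = peElt c y ↔ ∀ i, g • y i = y i) := by
  obtain ⟨c, hc⟩ := pe_exists_separating (G := G) ρ y hinf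
  have key : ∀ g g' : G, g • peElt c y = g' • peElt c y ↔ ∀ i, g • y i = g' • y i := by
    intro g g'
    constructor
    · intro h
      exact hinj g g' (hc g g' (by rw [h]))
    · intro h
      rw [pe_smul, pe_smul]
      exact Finset.sum_congr rfl (fun i _ => by rw [h i])
  refine ⟨c, fun g g' h => (key g g').mpr (hinj g g' (hc g g' h)), key, fun g => ?_⟩
  have := key g 1
  simpa using this

end PE

end Fermat.Agent.T4.helper40
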