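import Mathlib

/-!
# T4 (IV), DIV branch, [KUM-GAL]: the abstract Kummer independence core (helper40)

`F` a field, `Ω / F` a Galois extension (in the application `Ω = ℚ̄`, `F = ℚ(β)`), `ζ` a primitive
`M`-th root of unity of `Ω`.

* `kg_exists_moving` : if `r ∣ M` is a prime, `a ∈ F` is not an `r`-th power in `F`, and the
  primitive `r`-th root of unity `ζ ^ (M / r)` is not in `F`, then some `τ ∈ Gal(Ω/F)` fixes `ζ`
  and moves a given `r`-th root `y` of `a`.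
* `kg_exists_simul` : one `g ∈ Gal(Ω/F)` fixing `ζ` and moving the chosen `r`-th roots of `a` for
  all `r` in a finite set of primes dividing `M`.

Mathlib only.
-/

set_option autoImplicit false
set_option linter.unusedSectionVars false
set_option linter.unusedVariables false

open Polynomial

namespace Fermat.Agent.T4.helper40

section Core

variable {F Ω : Type*} [Field F] [Field Ω] [Algebra F Ω]

theorem kg_pow_fix (τ : Ω ≃ₐ[F] Ω) {u : Ω} (hu : τ u = u) (k : ℕ) : (τ ^ k) u = u := by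
  induction k with
  | zero => simp
  | succ k ih => rw [pow_succ, AlgEquiv.mul_apply, hu, ih]

theorem kg_pow_apply (τ : Ω ≃ₐ[F] Ω) {u y : Ω} (hu : τ u = u) (hy : τ y = u * y) (k : ℕ) :
    (τ ^ k) y = u ^ k * y := by
  induction k with
  | zero => simp
  | succ k ih =>
    rw [pow_succ, AlgEquiv.mul_apply, hy, map_mul, ih, kg_pow_fix τ hu k, pow_succ]
    ring

theorem kg_fix_of_pow_eq_one {M : ℕ} (hM : 0 < M) {ζ : Ω} (hζ : IsPrimitiveRoot ζ M)
    (τ : Ω ≃ₐ[F] Ω) (hτ : τ ζ = ζ) {ξ : Ω} (hξ : ξ ^ M = 1) : τ ξ = ξ := by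
  haveI : NeZero M := ⟨hM.ne'⟩
  obtain ⟨i, -, rfl⟩ := hζ.eq_pow_of_pow_eq_one hξ
  rw [map_pow, hτ]

theorem kg_comm_apply {M : ℕ} (hM : 0 < M) {ζ : Ω} (hζ : IsPrimitiveRoot ζ M)
    (σ ρ : Ω ≃ₐ[F] Ω) : σ (ρ ζ) = ρ (σ ζ) := by
  haveI : NeZero M := ⟨hM.ne'⟩
  have h1 : (σ ζ) ^ M = 1 := by rw [← map_pow, hζ.pow_eq_one, map_one]
  have h2 : (ρ ζ) ^ M = 1 := by rw [← map_pow, hζ.pow_eq_one, map_one]
  obtain ⟨a, -, ha⟩ := hζ.eq_pow_of_pow_eq_one h1
  obtain ⟨b, -, hb⟩ := hζ.eq_pow_of_pow_eq_one h2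
  rw [← ha, ← hb, map_pow, map_pow, ← ha, ← hb, ← pow_mul, ← pow_mul, mul_comm]

theorem kg_exists_mult {r M : ℕ} (hr : 0 < r) (hrM : r ∣ M) (hM : 0 < M) {ζ : Ω}
    (hζ : IsPrimitiveRoot ζ M) {β : Ω} (hβ : β ≠ 0) (τ : Ω ≃ₐ[F] Ω) (hτβ : τ β = β)
    (hτ : τ ζ = ζ) {y : Ω} (hy : y ^ r = β) :
    ∃ u : Ω, u ^ r = 1 ∧ τ u = u ∧ τ y = u * y := by
  have hy0 : y ≠ 0 := by
    rintro rfl
    rw [zero_pow hr.ne'] at hy
    exact hβ hy.symm
  refine ⟨τ y / y, ?_, ?_, ?_⟩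
  · rw [div_pow, ← map_pow, hy, hτβ, div_self hβ]
  · apply kg_fix_of_pow_eq_one hM hζ τ hτ
    obtain ⟨k, rfl⟩ := hrM
    rw [pow_mul, div_pow, ← map_pow, hy, hτβ, div_self hβ, one_pow]
  · field_simp

/-- Roots of `X ^ r - a` differ by `r`-th roots of unity. -/
theorem kg_root_eq_mul {r : ℕ} (hr : 0 < r) {β : Ω} (hβ : β ≠ 0) {y z : Ω} (hy : y ^ r = β)
    (hz : z ^ r = β) : ∃ u : Ω, u ^ r = 1 ∧ z = u * y := by
  have hy0 : y ≠ 0 := by
    rintro rfl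
    rw [zero_pow hr.ne'] at hy
    exact hβ hy.symm
  refine ⟨z / y, ?_, ?_⟩
  · rw [div_pow, hy, hz, div_self hβ]
  · field_simp

theorem kg_exists_moving [IsGalois F Ω] {r M : ℕ} (hr : r.Prime) (hrM : r ∣ M) (hM : 0 < M)
    {ζ : Ω} (hζ : IsPrimitiveRoot ζ M)
    (hζF : ζ ^ (M / r) ∉ Set.range (algebraMap F Ω))
    {a : F} (ha0 : a ≠ 0) (ha : ∀ b : F, b ^ r ≠ a) {y : Ω} (hy : y ^ r = algebraMap F Ω a) :
    ∃ τ : Ω ≃ₐ[F] Ω, τ ζ = ζ ∧ τ y ≠ y := by
  by_contra H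
  push Not at H
  apply hζF
  rw [InfiniteGalois.mem_range_algebraMap_iff_fixed]
  intro σ
  haveI : NeZero r := ⟨hr.ne_zero⟩
  haveI : Fact r.Prime := ⟨hr⟩
  set β : Ω := algebraMap F Ω a with hβ_def
  have hβ : β ≠ 0 := by
    rw [hβ_def]
    exact (map_ne_zero_iff _ (algebraMap F Ω).injective).mpr ha0
  have hfixβ : ∀ τ : Ω ≃ₐ[F] Ω, τ β = β := fun τ => τ.commutes a
  set ω := ζ ^ (M / r) with hω_def
  have hω : IsPrimitiveRoot ω r := by
    have hne : M / r ≠ 0 := (Nat.div_pos (Nat.le_of_dvd hM hrM) hr.pos).ne'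
    have := hζ.pow_of_dvd hne (Nat.div_dvd_of_dvd hrM)
    rwa [Nat.div_div_self hrM hM.ne'] at this
  have hωM : ω ^ M = 1 := by
    obtain ⟨k, rfl⟩ := hrM
    rw [pow_mul, hω.pow_eq_one, one_pow]
  have hy0 : y ≠ 0 := by
    rintro rfl
    rw [zero_pow hr.ne_zero] at hy
    exact hβ hy.symm
  -- (a) every element of `N` fixes every root
  have hA : ∀ z : Ω, z ^ r = β → ∀ τ : Ω ≃ₐ[F] Ω, τ ζ = ζ → τ z = z := by
    intro z hz τ hτ
    obtain ⟨u, hu, rfl⟩ := kg_root_eq_mul hr.pos hβ hy hz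
    have huM : u ^ M = 1 := by
      obtain ⟨k, rfl⟩ := hrM
      rw [pow_mul, hu, one_pow]
    rw [map_mul, kg_fix_of_pow_eq_one hM hζ τ hτ huM, H τ hτ]
  by_contra hσω
  -- (b), (c)
  obtain ⟨v, hv, -, hσy⟩ : ∃ v : Ω, v ^ r = 1 ∧ True ∧ σ y = v * y := by
    refine ⟨σ y / y, ?_, trivial, ?_⟩
    · rw [div_pow, ← map_pow, hy, hfixβ, div_self hβ]
    · field_simp
  obtain ⟨c, -, hc⟩ := hω.eq_pow_of_pow_eq_one hv
  have hσω1 : (σ ω) ^ r = 1 := by rw [← map_pow, hω.pow_eq_one, map_one]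
  obtain ⟨a', -, ha'⟩ := hω.eq_pow_of_pow_eq_one hσω1
  have hpow : ∀ m n : ℕ, ((m : ZMod r) = (n : ZMod r)) → ω ^ m = ω ^ n := by
    intro m n hmn
    have hmod : m % r = n % r := (ZMod.natCast_eq_natCast_iff m n r).mp hmn
    have hord : orderOf ω = r := hω.eq_orderOf.symm
    rw [← pow_mod_orderOf ω m, ← pow_mod_orderOf ω n, hord, hmod]
  have hA1 : (a' : ZMod r) ≠ 1 := by
    intro h
    apply hσω
    rw [← ha']
    have := hpow a' 1 (by simpa using h)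
    simpa using this
  have hA1' : (a' : ZMod r) - 1 ≠ 0 := sub_ne_zero.mpr hA1
  -- (d) a fixed root
  set i : ℕ := ((-(c : ZMod r)) / ((a' : ZMod r) - 1)).val with hi_def
  have hi : ((a' * i + c : ℕ) : ZMod r) = (i : ZMod r) := by
    have hcast : ((i : ℕ) : ZMod r) = (-(c : ZMod r)) / ((a' : ZMod r) - 1) := by
      rw [hi_def, ZMod.natCast_val, ZMod.cast_id', id]
    push_cast
    rw [hcast]
    field_simp
    ring
  set y' : Ω := ω ^ i * y with hy'_def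
  have hy'r : y' ^ r = β := by
    rw [hy'_def, mul_pow, ← pow_mul, mul_comm i r, pow_mul, hω.pow_eq_one, one_pow, one_mul, hy]
  have hσy' : σ y' = y' := by
    rw [hy'_def, map_mul, map_pow, ← ha', hσy, ← hc, ← pow_mul, ← mul_assoc, ← pow_add,
      hpow _ _ hi]
  -- (e) transitivity
  have hirr : Irreducible (X ^ r - C a : F[X]) := X_pow_sub_C_irreducible_of_prime hr ha
  have hmonic : (X ^ r - C a : F[X]).Monic := monic_X_pow_sub_C a hr.ne_zero
  have haeval : ∀ z : Ω, z ^ r = β → aeval z (X ^ r - C a : F[X]) = 0 := by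
    intro z hz
    simp only [map_sub, map_pow, aeval_X, aeval_C]
    rw [hz, sub_self]
  have hmin : minpoly F y' = X ^ r - C a :=
    (minpoly.eq_of_irreducible_of_monic hirr (haeval y' hy'r) hmonic).symm
  have halg : IsAlgebraic F y' := ⟨X ^ r - C a, hmonic.ne_zero, haeval y' hy'r⟩
  -- (f) `σ` fixes all roots
  have hF : ∀ z : Ω, z ^ r = β → σ z = z := by
    intro z hz
    obtain ⟨ρ, hρ⟩ := minpoly.exists_algEquiv_of_root' halg (x := z) (by rw [hmin]; exact haeval z hz)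
    set cm : Ω ≃ₐ[F] Ω := (ρ * σ)⁻¹ * (σ * ρ) with hcm
    have hcmζ : cm ζ = ζ := by
      rw [hcm, AlgEquiv.mul_apply, AlgEquiv.mul_apply, kg_comm_apply hM hζ σ ρ,
        ← AlgEquiv.mul_apply ρ σ, ← AlgEquiv.mul_apply, inv_mul_cancel, AlgEquiv.one_apply]
    have hcmy : cm y' = y' := hA y' hy'r cm hcmζ
    have h1 : (σ * ρ) y' = (ρ * σ) (cm y') := by
      rw [hcm, ← AlgEquiv.mul_apply, ← mul_assoc, mul_inv_cancel, one_mul]
    rw [← hρ, ← AlgEquiv.mul_apply, h1, hcmy, AlgEquiv.mul_apply, hσy']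
  -- (g)
  have h1 := hF y hy
  have h2 := hF (ω * y) (by rw [mul_pow, hω.pow_eq_one, one_mul, hy])
  rw [map_mul, h1] at h2
  exact hσω (mul_right_cancel₀ hy0 h2)

theorem kg_pow_ne_one {u : Ω} {s k : ℕ} (hu : u ^ s = 1) (hk : Nat.Coprime k s) (hu1 : u ≠ 1) :
    u ^ k ≠ 1 := by
  intro h
  apply hu1
  have h1 : orderOf u ∣ k := orderOf_dvd_of_pow_eq_one h
  have h2 : orderOf u ∣ s := orderOf_dvd_of_pow_eq_one hu
  have h3 : orderOf u ∣ 1 := by
    have := Nat.dvd_gcd h1 h2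
    rwa [Nat.Coprime.gcd_eq_one hk] at this
  exact orderOf_eq_one_iff.mp (Nat.dvd_one.mp h3)

theorem kg_exists_simul [IsGalois F Ω] {M : ℕ} (hM : 0 < M) {ζ : Ω} (hζ : IsPrimitiveRoot ζ M)
    {a : F} (ha0 : a ≠ 0) (y : ℕ → Ω) (T : Finset ℕ)
    (hT : ∀ r ∈ T, r.Prime ∧ r ∣ M ∧ y r ^ r = algebraMap F Ω a ∧ (∀ b : F, b ^ r ≠ a) ∧
      ζ ^ (M / r) ∉ Set.range (algebraMap F Ω)) :
    ∃ g : Ω ≃ₐ[F] Ω, g ζ = ζ ∧ ∀ r ∈ T, g (y r) ≠ y r := by
  have hβ : algebraMap F Ω a ≠ 0 := (map_ne_zero_iff _ (algebraMap F Ω).injective).mpr ha0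
  induction T using Finset.induction_on with
  | empty => exact ⟨1, rfl, by simp⟩
  | insert r S hrS ih =>
    obtain ⟨g, hgζ, hg⟩ := ih (fun s hs => hT s (Finset.mem_insert_of_mem hs))
    obtain ⟨hr, hrM, hyr, har, hζr⟩ := hT r (Finset.mem_insert_self r S)
    obtain ⟨τ, hτζ, hτ⟩ := kg_exists_moving hr hrM hM hζ hζr ha0 har hyr
    have hy0 : ∀ s ∈ insert r S, y s ≠ 0 := by
      intro s hs h0
      obtain ⟨hsp, -, hys, -, -⟩ := hT s hs
      rw [h0, zero_pow hsp.ne_zero] at hys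
      exact hβ hys.symm
    have hfixM : ∀ (ρ : Ω ≃ₐ[F] Ω), ρ ζ = ζ → ∀ (s : ℕ), s ∣ M → ∀ u : Ω, u ^ s = 1 → ρ u = u := by
      intro ρ hρ s hsM u hu
      apply kg_fix_of_pow_eq_one hM hζ ρ hρ
      obtain ⟨k, rfl⟩ := hsM
      rw [pow_mul, hu, one_pow]
    refine ⟨g ^ r * τ ^ (∏ s ∈ S, s), ?_, ?_⟩
    · rw [AlgEquiv.mul_apply, kg_pow_fix τ hτζ, kg_pow_fix g hgζ]
    · intro s hs
      obtain ⟨hsp, hsM, hys, -, -⟩ := hT s hs
      obtain ⟨u, hu, hτu, hτy⟩ :=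
        kg_exists_mult hsp.pos hsM hM hζ hβ τ (τ.commutes a) hτζ hys
      obtain ⟨v, hv, hgv, hgy⟩ :=
        kg_exists_mult hsp.pos hsM hM hζ hβ g (g.commutes a) hgζ hys
      have hgu : g u = u := hfixM g hgζ s hsM u hu
      have hkey : (g ^ r * τ ^ (∏ s ∈ S, s)) (y s) = (u ^ (∏ s ∈ S, s) * v ^ r) * y s := by
        rw [AlgEquiv.mul_apply, kg_pow_apply τ hτu hτy, map_mul, kg_pow_apply g hgv hgy,
          map_pow, kg_pow_fix g hgu, mul_assoc]
      rw [hkey]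
      intro hcontra
      have hone : u ^ (∏ s ∈ S, s) * v ^ r = 1 := by
        have := mul_right_cancel₀ (hy0 s hs) (hcontra.trans (one_mul (y s)).symm)
        exact this
      rcases Finset.mem_insert.mp hs with rfl | hsS
      · -- `s = r`
        rw [hv, mul_one] at hone
        have hu1 : u ≠ 1 := by
          rintro rfl
          rw [one_mul] at hτy
          exact hτ hτy
        have hcop : Nat.Coprime (∏ t ∈ S, t) s := by
          apply Nat.Coprime.prod_left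
          intro t ht
          have htp := (hT t (Finset.mem_insert_of_mem ht)).1
          exact (Nat.coprime_primes htp hsp).mpr (fun h => hrS (h ▸ ht))
        exact kg_pow_ne_one hu hcop hu1 hone
      · -- `s ∈ S`
        have hum : u ^ (∏ t ∈ S, t) = 1 := by
          obtain ⟨k, hk⟩ := Finset.dvd_prod_of_mem (fun t => t) hsS
          rw [hk, pow_mul, hu, one_pow]
        rw [hum, one_mul] at hone
        have hv1 : v ≠ 1 := by
          rintro rfl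
          rw [one_mul] at hgy
          exact hg s hsS hgy
        have hcop : Nat.Coprime r s :=
          (Nat.coprime_primes hr hsp).mpr (fun h => hrS (h ▸ hsS))
        exact kg_pow_ne_one hv hcop hv1 hone

end Core

end Fermat.Agent.T4.helper40
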