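import Mathlib
import Fermat.Agent.T4.helper2_KummerDefs
import Fermat.Agent.T4.helper40_KumGalCore

/-!
# T4 (IV), DIV branch, [KUM-GAL]: Kummer independence from the root bound (helper40)

`kumGal_of_rootBound : helper2.KumRootBoundStatement → helper2.KumGalStatement`.

With `F = ℚ(β)`, `r₀ = max r₁ ([F : ℚ] + 1)`: for a prime `r > r₀` the polynomial `X ^ r - β` is
irreducible over `F` and `ζ_r ∉ F`, so the abstract core (`kg_exists_simul` of
`helper40_KumGalCore`) applies to `Ω = ℚ̄` over `F`.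
-/

set_option autoImplicit false
set_option linter.unusedSectionVars false
set_option linter.unusedVariables false

open Polynomial
open scoped IntermediateField

namespace Fermat.Agent.T4.helper40

/-- A primitive `r`-th root of unity (`r` prime) does not lie in a number field of degree
`< r - 1`. -/
theorem kg_primitiveRoot_not_mem (F : IntermediateField ℚ (AlgebraicClosure ℚ))
    [FiniteDimensional ℚ F] {r : ℕ} (hr : r.Prime) (hd : Module.finrank ℚ F + 1 < r)
    {ω : AlgebraicClosure ℚ} (hω : IsPrimitiveRoot ω r) :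
    ω ∉ Set.range (algebraMap F (AlgebraicClosure ℚ)) := by
  rintro ⟨x, hx⟩
  have h1 : (minpoly ℚ x).natDegree ≤ Module.finrank ℚ F := minpoly.natDegree_le x
  have h2 : minpoly ℚ x = minpoly ℚ ω := by
    rw [← hx]
    exact (minpoly.algebraMap_eq (algebraMap F (AlgebraicClosure ℚ)).injective x).symm
  have h3 : (minpoly ℚ ω).natDegree = r - 1 := by
    rw [← Polynomial.cyclotomic_eq_minpoly_rat hω hr.pos, Polynomial.natDegree_cyclotomic,
      Nat.totient_prime hr]
  rw [h2, h3] at h1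
  omega

/-- `ℚ̄ / ℚ` is Galois for the default `Algebra ℚ (AlgebraicClosure ℚ)` instance. -/
theorem kg_isGalois_Qbar : IsGalois ℚ (AlgebraicClosure ℚ) := by
  have h : (DivisionRing.toRatAlgebra : Algebra ℚ (AlgebraicClosure ℚ))
      = AlgebraicClosure.instAlgebra ℚ := Subsingleton.elim _ _
  rw [h]
  infer_instance

theorem kumGal_of_rootBound (hRB : Fermat.Agent.T4.helper2.KumRootBoundStatement) :
    Fermat.Agent.T4.helper2.KumGalStatement := by
  intro β hint hβ0 hnt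
  obtain ⟨r₁, hr₁⟩ := hRB β hint hβ0 hnt
  have hintQ : IsIntegral ℚ β := hint.tower_top
  haveI : FiniteDimensional ℚ ℚ⟮β⟯ := IntermediateField.adjoin.finiteDimensional hintQ
  refine ⟨max r₁ (Module.finrank ℚ ℚ⟮β⟯ + 1), ?_⟩
  intro T hT
  have hM : 0 < ∏ r ∈ T, r := Finset.prod_pos (fun r hr => (hT r hr).1.pos)
  haveI : NeZero (∏ r ∈ T, r) := ⟨hM.ne'⟩
  obtain ⟨ζ, hζ⟩ : ∃ ζ : AlgebraicClosure ℚ, IsPrimitiveRoot ζ (∏ r ∈ T, r) :=
    HasEnoughRootsOfUnity.exists_primitiveRoot _ _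
  -- chosen roots
  have hroot : ∀ r : ℕ, ∃ z : AlgebraicClosure ℚ, 0 < r → z ^ r = β := by
    intro r
    by_cases h : 0 < r
    · obtain ⟨z, hz⟩ := IsAlgClosed.exists_pow_nat_eq β h
      exact ⟨z, fun _ => hz⟩
    · exact ⟨0, fun h' => absurd h' h⟩
  choose y hy using hroot
  set a : ℚ⟮β⟯ := IntermediateField.AdjoinSimple.gen ℚ β with ha
  have haβ : algebraMap ℚ⟮β⟯ (AlgebraicClosure ℚ) a = β :=
    IntermediateField.AdjoinSimple.algebraMap_gen ℚ β
  have ha0 : a ≠ 0 := by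
    intro h
    apply hβ0
    rw [← haβ, h, map_zero]
  haveI hGal : IsGalois ℚ (AlgebraicClosure ℚ) := kg_isGalois_Qbar
  haveI hGalF : IsGalois ℚ⟮β⟯ (AlgebraicClosure ℚ) :=
    IsGalois.tower_top_intermediateField ℚ⟮β⟯
  obtain ⟨g, hgζ, hg⟩ := kg_exists_simul (F := ℚ⟮β⟯) (Ω := AlgebraicClosure ℚ) hM hζ ha0 y T (by
    intro r hrT
    obtain ⟨hr, hr0⟩ := hT r hrT
    have hrM : r ∣ ∏ r ∈ T, r := Finset.dvd_prod_of_mem (fun t => t) hrT
    refine ⟨hr, hrM, ?_, ?_, ?_⟩
    · rw [haβ]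
      exact hy r hr.pos
    · intro b hb
      apply hr₁ r hr (lt_of_le_of_lt (le_max_left _ _) hr0) (b : AlgebraicClosure ℚ) b.2
      have := congrArg (algebraMap ℚ⟮β⟯ (AlgebraicClosure ℚ)) hb
      rw [map_pow, haβ] at this
      exact this
    · apply kg_primitiveRoot_not_mem ℚ⟮β⟯ hr (lt_of_le_of_lt (le_max_right _ _) hr0)
      have hne : (∏ r ∈ T, r) / r ≠ 0 := (Nat.div_pos (Nat.le_of_dvd hM hrM) hr.pos).ne'
      have := hζ.pow_of_dvd hne (Nat.div_dvd_of_dvd hrM)
      rwa [Nat.div_div_self hrM hM.ne'] at this)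
  refine ⟨g.restrictScalars ℚ, ?_, ?_, ?_⟩
  · change g β = β
    have := g.commutes a
    rwa [haβ] at this
  · intro ω hω
    change g ω = ω
    exact kg_fix_of_pow_eq_one hM hζ g hgζ hω
  · intro r hrT z hz
    change g z ≠ z
    obtain ⟨hr, hr0⟩ := hT r hrT
    have hrM : r ∣ ∏ r ∈ T, r := Finset.dvd_prod_of_mem (fun t => t) hrT
    obtain ⟨u, hu, rfl⟩ := kg_root_eq_mul hr.pos hβ0 (hy r hr.pos) hz
    have huM : u ^ (∏ r ∈ T, r) = 1 := by
      obtain ⟨k, hk⟩ := hrM
      rw [hk, pow_mul, hu, one_pow]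
    have hu0 : u ≠ 0 := by
      rintro rfl
      rw [zero_pow hr.ne_zero] at hu
      exact zero_ne_one hu
    rw [map_mul, kg_fix_of_pow_eq_one hM hζ g hgζ huM]
    intro h
    exact hg r hrT (mul_left_cancel₀ hu0 h)

end Fermat.Agent.T4.helper40
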