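import Mathlib

/-!
# T4 (I), IGUSA1: degree of a subfield of a normal extension = orbit count (helper40)

`L / K` a normal extension, `H` a group with a surjective homomorphism `φ : H → Aut(L/K)`,
`y : ι → L` a finite family of elements separable over `K`, `F = K(y)`.  Then `F / K` is finite
and separable and `[F : K]` is the number of distinct tuples `(φ h (y i))_i`, `h ∈ H`.

Mathlib only.
-/

set_option autoImplicit false
set_option linter.unusedSectionVars false
set_option linter.unusedVariables false

open Polynomial IntermediateField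

namespace Fermat.Agent.T4.helper40

section OrbitCount

variable {K L : Type*} [Field K] [Field L] [Algebra K L]

/-- Every `K`-embedding of an intermediate field of a normal extension `L / K` into `L` is the
restriction of an automorphism of `L`. -/
theorem oc_exists_algEquiv [Normal K L] (F : IntermediateField K L) (τ : F →ₐ[K] L) :
    ∃ σ : L ≃ₐ[K] L, ∀ z : F, σ z = τ z := by
  obtain ⟨φ, hφ⟩ := IntermediateField.exists_algHom_of_splits
    (F := K) (E := L) (K := L)
    (fun s => ⟨(Normal.isIntegral (inferInstance : Normal K L) s),
      Normal.splits (inferInstance : Normal K L) s⟩) τ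
  haveI : Algebra.IsAlgebraic K L := Normal.toIsAlgebraic
  refine ⟨AlgEquiv.ofBijective φ (Algebra.IsAlgebraic.algHom_bijective φ), fun z => ?_⟩
  have := congrArg (fun f => f z) hφ
  simpa using this

theorem oc_finiteDimensional [Normal K L] {ι : Type*} [Finite ι] (y : ι → L) :
    FiniteDimensional K (adjoin K (Set.range y)) := by
  haveI : Finite (Set.range y) := Set.finite_range y
  exact IntermediateField.finiteDimensional_adjoin
    (fun x _ => Normal.isIntegral (inferInstance : Normal K L) x)

theorem oc_isSeparable {ι : Type*} (y : ι → L) (hsep : ∀ i, IsSeparable K (y i)) :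
    Algebra.IsSeparable K (adjoin K (Set.range y)) := by
  rw [IntermediateField.isSeparable_adjoin_iff_isSeparable]
  rintro x ⟨i, rfl⟩
  exact hsep i

/-- **Orbit count.** -/
theorem oc_finrank_eq_card [Normal K L] {H : Type*} [Group H] (φ : H →* (L ≃ₐ[K] L))
    (hφ : Function.Surjective φ) {ι : Type*} [Finite ι] (y : ι → L)
    (hsep : ∀ i, IsSeparable K (y i)) :
    Module.finrank K (adjoin K (Set.range y)) =
      Nat.card (Set.range (fun h : H => fun i : ι => φ h (y i))) := by
  haveI := oc_finiteDimensional (K := K) y
  haveI := oc_isSeparable (K := K) y hsep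
  rw [← AlgHom.natCard_of_splits K (adjoin K (Set.range y)) L
    (fun x => by
      have h1 := Normal.splits (inferInstance : Normal K L) (x : L)
      rwa [← IntermediateField.minpoly_eq] at h1)]
  -- the evaluation map on embeddings
  let ev : (adjoin K (Set.range y) →ₐ[K] L) → (ι → L) :=
    fun τ i => τ ⟨y i, subset_adjoin K _ ⟨i, rfl⟩⟩
  have hev : Function.Injective ev := by
    intro τ₁ τ₂ h
    apply IntermediateField.algHom_ext_of_eq_adjoin (F := K) (E := L) rfl
    rintro x ⟨i, rfl⟩
    exact congrFun h i
  have hrange : Set.range ev = Set.range (fun h : H => fun i : ι => φ h (y i)) := by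
    ext v
    constructor
    · rintro ⟨τ, rfl⟩
      obtain ⟨σ, hσ⟩ := oc_exists_algEquiv _ τ
      obtain ⟨h, rfl⟩ := hφ σ
      refine ⟨h, ?_⟩
      funext i
      exact hσ ⟨y i, subset_adjoin K _ ⟨i, rfl⟩⟩
    · rintro ⟨h, rfl⟩
      exact ⟨((φ h : L ≃ₐ[K] L) : L →ₐ[K] L).comp (adjoin K (Set.range y)).val, rfl⟩
  rw [← hrange]
  exact (Nat.card_congr (Equiv.ofInjective ev hev))

end OrbitCount

end Fermat.Agent.T4.helper40
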