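import Fermat.Agent.P2.helper94_ESFormal

/-!
# T4 block (I-ES): the formal Eichler-Shimura congruence with a diamond (helper41)

For the curve `X₁(M)` the `p + 1` conjugates of `h(q^p)` over the functions of `q` are `h(q^p)`
and `h'(ζ^j q^{1/p})`, `j < p`, with `h' = ⟨p⟩^* h` (the diamond operator applied to `h`); the
norm of `h(q^p)` along the Hecke correspondence is therefore, in the variable `t = q^{1/p}`,
`N(t^p) = h(t^{p²}) ∏_{j<p} h'(ζ^j t)`.

* `es_formal2` : modulo an ideal `I` with `ζ ≡ 1`, `p ≡ 0`: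
  `N̄(q) = h̄(q^p) · (Frob h̄')(q)`  (two-series version of `helper94.es_formal`).
* `es_formal2'` : the same with the roles exchanged, `N(t^p) = h'(t^{p²}) ∏_{j<p} h(ζ^j t)`
  (norm of `h(q)` over the functions of `q^p`).
-/

set_option autoImplicit false

noncomputable section

open ModularCurve

namespace Fermat.Agent.T4.helper41

open Fermat.Agent.P2.helper94

variable {A : Type*} [CommRing A] (ℓ : ℕ) [Fact ℓ.Prime] [NeZero ℓ]

/-- **Formal Eichler-Shimura congruence with a diamond.**  `I` is an ideal of `A` with `A ⧸ I` of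
characteristic `ℓ`, `u ≡ 1 mod I`.  If `N(t^ℓ) = h(t^(ℓ²)) ∏_{i<ℓ} h'(u^i t)`, then
`N̄(q) = h̄(q^ℓ) · (Frob h̄')(q)`. -/
theorem es_formal2 (I : Ideal A) [CharP (A ⧸ I) ℓ] (u : Aˣ) (hu : (u : A) - 1 ∈ I)
    (h h' N : LaurentSeries A)
    (hN : qExpand A ℓ N = qExpand A ℓ (qExpand A ℓ h) * ∏ i ∈ Finset.range ℓ, rot (u ^ i) h') :
    coeffMap (Ideal.Quotient.mk I) N =
      qExpand (A ⧸ I) ℓ (coeffMap (Ideal.Quotient.mk I) h) *
        coeffMap (frobenius (A ⧸ I) ℓ) (coeffMap (Ideal.Quotient.mk I) h') := by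
  apply Fermat.Agent.P2.helper94.qExpand_injective ℓ
  have hui : ∀ i : ℕ, ((u ^ i : Aˣ) : A) - 1 ∈ I := by
    intro i
    induction i with
    | zero => simp
    | succ i ih =>
      have e : ((u ^ (i + 1) : Aˣ) : A) - 1 = ((u ^ i : Aˣ) : A) * ((u : A) - 1) +
          (((u ^ i : Aˣ) : A) - 1) := by
        rw [pow_succ]
        push_cast
        ring
      rw [e]
      exact I.add_mem (I.mul_mem_left _ hu) ih
  rw [← Fermat.Agent.P2.helper94.coeffMap_qExpand, hN, map_mul, map_prod, map_mul,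
    Fermat.Agent.P2.helper94.coeffMap_qExpand, Fermat.Agent.P2.helper94.coeffMap_qExpand]
  congr 1
  rw [← laurent_pow_char ℓ]
  rw [Finset.prod_congr rfl fun i _ => coeffMap_rot_of_sub_one_mem I (u ^ i) (hui i) h',
    Finset.prod_const, Finset.card_range]

/-- The same with the factors in the other order. -/
theorem es_formal2' (I : Ideal A) [CharP (A ⧸ I) ℓ] (u : Aˣ) (hu : (u : A) - 1 ∈ I)
    (h h' N : LaurentSeries A)
    (hN : qExpand A ℓ N = (∏ i ∈ Finset.range ℓ, rot (u ^ i) h) * qExpand A ℓ (qExpand A ℓ h')) :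
    coeffMap (Ideal.Quotient.mk I) N =
      coeffMap (frobenius (A ⧸ I) ℓ) (coeffMap (Ideal.Quotient.mk I) h) *
        qExpand (A ⧸ I) ℓ (coeffMap (Ideal.Quotient.mk I) h') := by
  rw [mul_comm] at hN
  rw [es_formal2 ℓ I u hu h' h N hN, mul_comm]

/-- `helper94.es_formal` is the case `h' = h`. -/
theorem es_formal2_self (I : Ideal A) [CharP (A ⧸ I) ℓ] (u : Aˣ) (hu : (u : A) - 1 ∈ I)
    (h N : LaurentSeries A)
    (hN : qExpand A ℓ N = qExpand A ℓ (qExpand A ℓ h) * ∏ i ∈ Finset.range ℓ, rot (u ^ i) h) :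
    coeffMap (Ideal.Quotient.mk I) N =
      qExpand (A ⧸ I) ℓ (coeffMap (Ideal.Quotient.mk I) h) *
        coeffMap (frobenius (A ⧸ I) ℓ) (coeffMap (Ideal.Quotient.mk I) h) :=
  es_formal2 ℓ I u hu h h N hN

end Fermat.Agent.T4.helper41

end
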