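import Fermat.Agent.T4.helper41_Eigen1Wire

/-!
# T4 block (I): the packages are stable under passing to WORDS in the operators (helper41)

The Eichler-Shimura relation of block (I-ES) may come out for composite operators (for instance
`⟨p⟩ φ² - T_p^t φ + p = 0` for the transposed correspondence `T_p^t = a_* b^*`, i.e.
`φ² - (⟨p⟩⁻¹ T_p^t) φ + p ⟨p⟩⁻¹ = 0`).  Since `helper1.GenTateInput` and `helper1.GenKappa` are
stated for a family of generators, this file shows that both are inherited by the family of all
WORDS (composites) in the generators: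

* `genKappa_words`     : `GenKappa p op gen → GenKappa p (wordOp op) (wordGen gen)`;
* `genTateInput_words` : `GenTateInput p op U E → GenTateInput p (wordOp op) U E'` for every set
  `E'` of quadruples of words satisfying the quadratic relation on the `p`-power torsion;
* `x1PackA_of_words`, `x1PackC_of_words` : the packages of `helper41_Eigen1Wire` from
  Eichler-Shimura relations between words.
-/

set_option autoImplicit false
set_option linter.unusedSectionVars false
set_option linter.unusedVariables false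
set_option linter.style.haveILetI false

noncomputable section

namespace Fermat.Agent.T4.helper41

open Fermat.Agent.T4.helper1 (GalQ GenTateInput GenKappa genWordEnd)
open Fermat.Agent.T4.helper79 (heckeAlgebra1)

section Words

variable {ι : Type}

/-- The composite operator attached to a word. -/
def wordOp {J : Type} [AddCommGroup J] (op : ι → J →+ J) : List ι → J →+ J := genWordEnd op

/-- The product attached to a word. -/
def wordGen {𝕋 : Type} [CommRing 𝕋] (gen : ι → 𝕋) (w : List ι) : 𝕋 := (w.map gen).prod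

@[simp]
theorem wordOp_nil {J : Type} [AddCommGroup J] (op : ι → J →+ J) (x : J) :
    wordOp op [] x = x := rfl

@[simp]
theorem wordOp_cons {J : Type} [AddCommGroup J] (op : ι → J →+ J) (i : ι) (w : List ι) (x : J) :
    wordOp op (i :: w) x = op i (wordOp op w x) := rfl

@[simp]
theorem wordOp_singleton {J : Type} [AddCommGroup J] (op : ι → J →+ J) (i : ι) (x : J) :
    wordOp op [i] x = op i x := rfl

@[simp]
theorem wordGen_nil {𝕋 : Type} [CommRing 𝕋] (gen : ι → 𝕋) : wordGen gen [] = 1 := rfl

@[simp]
theorem wordGen_cons {𝕋 : Type} [CommRing 𝕋] (gen : ι → 𝕋) (i : ι) (w : List ι) :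
    wordGen gen (i :: w) = gen i * wordGen gen w := by
  rw [wordGen, List.map_cons, List.prod_cons, wordGen]

@[simp]
theorem wordGen_singleton {𝕋 : Type} [CommRing 𝕋] (gen : ι → 𝕋) (i : ι) :
    wordGen gen [i] = gen i := by
  rw [wordGen_cons, wordGen_nil, mul_one]

theorem wordOp_append {J : Type} [AddCommGroup J] (op : ι → J →+ J) (w w' : List ι) (x : J) :
    wordOp op (w ++ w') x = wordOp op w (wordOp op w' x) := by
  induction w with
  | nil => rfl
  | cons i w ih => rw [List.cons_append, wordOp_cons, wordOp_cons, ih]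

theorem wordGen_append {𝕋 : Type} [CommRing 𝕋] (gen : ι → 𝕋) (w w' : List ι) :
    wordGen gen (w ++ w') = wordGen gen w * wordGen gen w' := by
  rw [wordGen, wordGen, wordGen, List.map_append, List.prod_append]

/-- Words of words are words. -/
theorem wordOp_flatten {J : Type} [AddCommGroup J] (op : ι → J →+ J) (W : List (List ι))
    (x : J) : wordOp (wordOp op) W x = wordOp op W.flatten x := by
  induction W with
  | nil => rfl
  | cons w W ih => rw [wordOp_cons, List.flatten_cons, wordOp_append, ih]

theorem wordGen_flatten {𝕋 : Type} [CommRing 𝕋] (gen : ι → 𝕋) (W : List (List ι)) :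
    wordGen (wordGen gen) W = wordGen gen W.flatten := by
  induction W with
  | nil => rfl
  | cons w W ih => rw [wordGen_cons, List.flatten_cons, wordGen_append, ih]

end Words

/-! ### `GenKappa` for words -/

/-- **`GenKappa` is inherited by the family of all words in the generators.** -/
theorem genKappa_words (p : ℕ) {J : Type} [AddCommGroup J] {ι : Type} (op : ι → J →+ J)
    {𝕋 : Type} [CommRing 𝕋] (gen : ι → 𝕋) (h : GenKappa p op gen) :
    GenKappa p (wordOp op) (wordGen gen) := by
  classical
  obtain ⟨X, iX1, iX2, iX3, Tst, κ, h1, h2, h3, h4, h5⟩ := h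
  refine ⟨X, iX1, iX2, iX3, wordOp Tst, κ, h1, h2, h3, ?_, ?_⟩
  · intro n w x
    induction w with
    | nil => rfl
    | cons i w ih => rw [wordOp_cons, wordOp_cons, h4, ih]
  · intro c hc
    have e1 : ((c.mapDomain List.flatten).sum fun (w : List ι) (a : ℤ) =>
          a • (List.map gen w).prod) =
        c.sum fun (W : List (List ι)) (a : ℤ) => a • (List.map gen W.flatten).prod :=
      Finsupp.sum_mapDomain_index (h := fun (w : List ι) (a : ℤ) => a • (List.map gen w).prod)
        (fun _ => zero_smul _ _) (fun _ _ _ => add_smul _ _ _)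
    have e2 : ∀ x : X, ((c.mapDomain List.flatten).sum fun (w : List ι) (a : ℤ) =>
          a • genWordEnd Tst w x) =
        c.sum fun (W : List (List ι)) (a : ℤ) => a • genWordEnd Tst W.flatten x := fun x =>
      Finsupp.sum_mapDomain_index (h := fun (w : List ι) (a : ℤ) => a • genWordEnd Tst w x)
        (fun _ => zero_smul _ _) (fun _ _ _ => add_smul _ _ _)
    have key := h5 (c.mapDomain List.flatten) fun x => by
      rw [e2 x, ← hc x]
      refine Finsupp.sum_congr fun W _ => ?_
      have e : genWordEnd (wordOp Tst) W x = genWordEnd Tst W.flatten x := wordOp_flatten Tst W x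
      rw [e]
    rw [e1] at key
    rw [← key]
    refine Finsupp.sum_congr fun W _ => ?_
    have e : (W.map (wordGen gen)).prod = (W.flatten.map gen).prod := wordGen_flatten gen W
    rw [e]

/-! ### `GenTateInput` for words -/

section Input

variable {p : ℕ} {J : Type} [AddCommGroup J] [DistribMulAction GalQ J] {ι : Type}
  (op : ι → J →+ J) {U : Set GalQ} {E : Set (GalQ × ι × ℤ × ι)}

theorem isTors_op {x : J} (hx : ∃ n : ℕ, p ^ n • x = 0) (i : ι) :
    ∃ n : ℕ, p ^ n • op i x = 0 := by
  obtain ⟨n, hn⟩ := hx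
  exact ⟨n, by rw [← map_nsmul, hn, map_zero]⟩

theorem isTors_wordOp {x : J} (hx : ∃ n : ℕ, p ^ n • x = 0) (w : List ι) :
    ∃ n : ℕ, p ^ n • wordOp op w x = 0 := by
  induction w with
  | nil => exact hx
  | cons i w ih => exact isTors_op op ih i

theorem op_wordOp_comm (hI : GenTateInput p op U E) (i : ι) (w : List ι) {x : J}
    (hx : ∃ n : ℕ, p ^ n • x = 0) : op i (wordOp op w x) = wordOp op w (op i x) := by
  induction w with
  | nil => rfl
  | cons j w ih =>
    rw [wordOp_cons, wordOp_cons, hI.op_comm i j _ (isTors_wordOp op hx w), ih]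

theorem wordOp_comm (hI : GenTateInput p op U E) (w w' : List ι) {x : J}
    (hx : ∃ n : ℕ, p ^ n • x = 0) :
    wordOp op w (wordOp op w' x) = wordOp op w' (wordOp op w x) := by
  induction w with
  | nil => rfl
  | cons i w ih =>
    rw [wordOp_cons, wordOp_cons, ih, op_wordOp_comm op hI i w' (isTors_wordOp op hx w)]

theorem wordOp_gal (hI : GenTateInput p op U E) (w : List ι) (g : GalQ) {x : J}
    (hx : ∃ n : ℕ, p ^ n • x = 0) : wordOp op w (g • x) = g • wordOp op w x := by
  induction w with
  | nil => rfl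
  | cons i w ih =>
    rw [wordOp_cons, wordOp_cons, ih, hI.op_gal i g _ (isTors_wordOp op hx w)]

/-- **`GenTateInput` is inherited by the family of all words**, for every set `E'` of
quadruples of words satisfying the quadratic relation on the `p`-power torsion. -/
theorem genTateInput_words (hI : GenTateInput p op U E)
    (E' : Set (GalQ × List ι × ℤ × List ι))
    (hE' : ∀ e ∈ E', ∀ x : J, (∃ n : ℕ, p ^ n • x = 0) →
      e.1 • e.1 • x - wordOp op e.2.1 (e.1 • x) + e.2.2.1 • wordOp op e.2.2.2 x = 0) :
    GenTateInput p (wordOp op) U E' where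
  op_comm w w' x hx := wordOp_comm op hI w w' hx
  op_gal w g x hx := wordOp_gal op hI w g hx
  continuity := hI.continuity
  finite_torsion := hI.finite_torsion
  unramified := hI.unramified
  frobenius := hE'

end Input

/-! ### The packages from relations between words -/

section Pack

variable {M ℓ : ℕ} [NeZero M] {J : Type} [AddCommGroup J] [DistribMulAction GalQ J] {ι : Type}
  (op : ι → J →+ J) (gen : ι → heckeAlgebra1 M 2) {E : Set (GalQ × ι × ℤ × ι)}

/-- The set of all quadruples of words satisfying the quadratic relation. -/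
def esWords (ℓ : ℕ) : Set (GalQ × List ι × ℤ × List ι) :=
  {e | ∀ x : J, (∃ n : ℕ, ℓ ^ n • x = 0) →
    e.1 • e.1 • x - wordOp op e.2.1 (e.1 • x) + e.2.2.1 • wordOp op e.2.2.2 x = 0}

/-- **Package [A] from Eichler-Shimura relations between words**: for every `p ∤ M ℓ` words
`W₁, W₂` with `φ² - W₁ φ + p W₂ = 0` on the `ℓ`-power torsion for all Frobenius lifts `φ` at `p`,
whose images in the Hecke algebra of cusp forms are `T_p` and `⟨p⟩`. -/
theorem x1PackA_of_words (hI : GenTateInput ℓ op (inertiaOff (M * ℓ)) E)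
    (hK : GenKappa ℓ op gen)
    (hES : ∀ (p : ℕ) (hp : p.Prime) (hpM : ¬ p ∣ M), ¬ p ∣ M * ℓ →
      ∃ W₁ W₂ : List ι, wordGen gen W₁ = heckeAlgebra1.T hp hpM ∧
        wordGen gen W₂ = heckeAlgebra1.D (unitOf M hp hpM) ∧
        ∀ A : ValuationSubring (AlgebraicClosure ℚ), A.LiesOverPrime p →
          ∀ φ : GalQ, A.IsFrobeniusAt φ p → ∀ x : J, (∃ n : ℕ, ℓ ^ n • x = 0) →
            φ • φ • x - wordOp op W₁ (φ • x) + (p : ℤ) • wordOp op W₂ x = 0) :
    X1PackA M ℓ := by
  refine ⟨J, inferInstance, inferInstance, List ι, wordOp op, wordGen gen, esWords op ℓ,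
    genTateInput_words op hI _ fun e he => he, genKappa_words ℓ op gen hK, ?_⟩
  intro p hp hpM hpMℓ A hA φ hφ
  obtain ⟨W₁, W₂, h1, h2, h3⟩ := hES p hp hpM hpMℓ
  exact ⟨W₁, W₂, fun x hx => h3 A hA φ hφ x hx, h1, h2⟩

/-- **Package [C] from Eichler-Shimura relations between words** (images `⟨p⟩⁻¹ T_p` and
`⟨p⟩⁻¹` in the Hecke algebra of cusp forms). -/
theorem x1PackC_of_words (hI : GenTateInput ℓ op (inertiaOff (M * ℓ)) E)
    (hK : GenKappa ℓ op gen)
    (hES : ∀ (p : ℕ) (hp : p.Prime) (hpM : ¬ p ∣ M), ¬ p ∣ M * ℓ →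
      ∃ W₁ W₂ : List ι,
        wordGen gen W₁ = heckeAlgebra1.D (unitOf M hp hpM)⁻¹ * heckeAlgebra1.T hp hpM ∧
        wordGen gen W₂ = heckeAlgebra1.D (unitOf M hp hpM)⁻¹ ∧
        ∀ A : ValuationSubring (AlgebraicClosure ℚ), A.LiesOverPrime p →
          ∀ φ : GalQ, A.IsFrobeniusAt φ p → ∀ x : J, (∃ n : ℕ, ℓ ^ n • x = 0) →
            φ • φ • x - wordOp op W₁ (φ • x) + (p : ℤ) • wordOp op W₂ x = 0) :
    X1PackC M ℓ := by
  refine ⟨J, inferInstance, inferInstance, List ι, wordOp op, wordGen gen, esWords op ℓ,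
    genTateInput_words op hI _ fun e he => he, genKappa_words ℓ op gen hK, ?_⟩
  intro p hp hpM hpMℓ A hA φ hφ
  obtain ⟨W₁, W₂, h1, h2, h3⟩ := hES p hp hpM hpMℓ
  exact ⟨W₁, W₂, fun x hx => h3 A hA φ hφ x hx, h1, h2⟩

end Pack

end Fermat.Agent.T4.helper41

end
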