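import Fermat.Agent.T4.helper3_Pack1
import Fermat.Agent.T4.helper4_RedDefs
import Fermat.Agent.T4.helper21_AN1Final
import Fermat.Agent.T4.helper1_Cont1

/-!
# T4 (I) (helper41, integrator): `Eigen1Statement` from the leaf statements of block (I)

The master conditional theorem of block (I): for every level `M` (`4 ∣ M` or `9 ∣ M`) and every
odd prime `ℓ`, the leaves are

* **[I-FLD]** `FiniteDimensional ℚ̄(j) (F1 M)` (continuity, `helper1.continuity1`);
* **[I-RED] + [I-ES]** `helper4.Unr1Statement M ℓ` and `helper4.ES1Statement M ℓ` (convention [A]);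
* **[I-AN]** the five inputs of `helper21.genKappa1_final`: `Hom1Data`, a standard analytic
  dictionary, `SurjChar1Statement`, `Desc1Statement`, `TransChar1Statement`.

`eigen1_of_leaves` checks that these shapes fit together.
-/

set_option autoImplicit false
set_option linter.style.haveILetI false
set_option linter.unusedSectionVars false

noncomputable section

namespace Fermat.Agent.T4.helper41

open Fermat.Agent.T4.helper1 (GalQ GenKappa)
open Fermat.Agent.T4.helper32 (J1 hecke1 diamond1)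

theorem unitOfPrime_eq_unitOf (M : ℕ) {p : ℕ} (hp : p.Prime) (hpM : ¬ p ∣ M) :
    helper4.unitOfPrime M p hp hpM = unitOf M hp hpM := rfl

/-- (UNR) in the form of the assembly from `helper4.Unr1Statement`. -/
theorem unr_of_unr1 {M ℓ : ℕ} (h : helper4.Unr1Statement M ℓ) :
    ∀ σ ∈ inertiaOff (M * ℓ), ∀ x : J1 M, (∃ n : ℕ, ℓ ^ n • x = 0) → σ • x = x := by
  rintro σ ⟨p, hp, hpMℓ, A, hA, hσ⟩ x hx
  exact h p hp hpMℓ A hA σ hσ x hx

/-- (ES), convention [A], in the form of the assembly from `helper4.ES1Statement`. -/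
theorem es_of_es1 {M ℓ : ℕ} (h : helper4.ES1Statement M ℓ) :
    ∀ (p : ℕ) (hp : p.Prime) (hpM : ¬ p ∣ M), ¬ p ∣ M * ℓ →
      ∀ A : ValuationSubring (AlgebraicClosure ℚ), A.LiesOverPrime p →
        ∀ φ : GalQ, A.IsFrobeniusAt φ p → ∀ x : J1 M, (∃ n : ℕ, ℓ ^ n • x = 0) →
          φ • φ • x - hecke1 M ⟨p, hp⟩ (φ • x) + (p : ℤ) • diamond1 M (unitOf M hp hpM) x = 0 := by
  intro p hp hpM hpMℓ A hA φ hφ x hx
  have := h p hp hpMℓ A hA φ hφ x hx
  rw [natCast_zsmul]
  exact this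

/-- the leaves of block (I) at `(M, ℓ)` -/
structure Leaves1 (M ℓ : ℕ) [NeZero M] : Prop where
  /-- [I-FLD] the function field of `X₁(M)` is finite over `ℚ̄(j)` -/
  fld : FiniteDimensional (IntermediateField.adjoin Fermat.Agent.P3.Qbar {helper1.jF1 M})
    (helper32.F1 M)
  /-- [I-RED] + [K-UNR1] -/
  unr : helper4.Unr1Statement M ℓ
  /-- [I-RED] + [I-ES] -/
  es : helper4.ES1Statement M ℓ
  /-- [I-AN] -/
  an : ∃ (D : helper79.Hom1Data M)
    (𝒟 : Fermat.Agent.P3.helper20.AnDict (helper21.F1Cx M) (CongruenceSubgroup.Gamma1 M)),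
      helper21.IsStdDict M 𝒟 ∧ helper21.SurjChar1Statement M 𝒟 ∧ helper21.Desc1Statement M ∧
        ∀ i : helper79.Gen1 M, helper21.TransChar1Statement M D i

/-- **[EIGEN1] from the leaves of block (I).** -/
theorem eigen1_of_leaves
    (h : ∀ (M : ℕ) [NeZero M], (4 ∣ M ∨ 9 ∣ M) → ∀ ℓ : ℕ, ℓ.Prime → ℓ ≠ 2 → Leaves1 M ℓ) :
    helper32.Eigen1Statement :=
  helper3.eigen1_of_x1Inputs fun M _ hlev ℓ hℓ hℓ2 => by
    obtain ⟨hfld, hunr, hes, D, 𝒟, hstd, hsurj, hdesc, htr⟩ := h M hlev ℓ hℓ hℓ2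
    haveI := hfld
    refine ⟨fun x _ => helper1.continuity1 M x, helper21.fin1_of M ℓ hℓ.pos 𝒟 hdesc,
      unr_of_unr1 hunr, Or.inl ⟨es_of_es1 hes, ?_⟩⟩
    exact helper21.genKappa1_final M ℓ hℓ.pos D 𝒟 hstd hsurj hdesc htr

end Fermat.Agent.T4.helper41

end
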