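import Fermat.Agent.S20
import Fermat.Agent.T4.helper79_Hecke1
import Fermat.Agent.T4.helper71_ParabolicPM
import Fermat.Agent.T4.helper41_Eigen1Wire

/-!
# T4 (I) [EIGEN1-M4] (helper79): the level `M = 4` of `Eigen1Statement`

`S₂(Γ₁(4)) = 0`: a weight two cusp form on `Γ₁(4)` is invariant under `Γ₀(4) = ± Γ₁(4)` (the
diamond `⟨-1⟩` is the slash by `-1`, the identity in even weight), and `S₂(Γ₀(4)) = 0` by the
genus formula (`Fermat.Agent.S20.result`, `genusFormula 4 = 0`).  Hence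
`helper41.Eigen1At 4 ℓ` holds vacuously (all `q`-coefficients of `g` vanish).

* `genusFormula_four`, `cuspForm_Gamma0_four_eq_zero`, `cuspForm_Gamma1_four_eq_zero`;
* `eigen1At_four (ℓ) : helper41.Eigen1At 4 ℓ`;
* `eigen1_of_at_ge_eight` : `helper32.Eigen1Statement` from the levels `8 ≤ M`.
-/

set_option autoImplicit false
set_option linter.style.haveILetI false

noncomputable section

open CongruenceSubgroup UpperHalfPlane ModularForm Matrix.SpecialLinearGroup
open scoped MatrixGroups ModularForm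

namespace Fermat.Agent.T4.helper79

theorem slash_two_neg_one (f : ℍ → ℂ) : f ∣[(2 : ℤ)] (-1 : SL(2, ℤ)) = f := by
  ext τ
  rw [SL_slash_apply, ModularGroup.SL_neg_smul, one_smul]
  have h1 : denom ((-1 : SL(2, ℤ)) : GL (Fin 2) ℝ) (τ : ℂ) = -1 := by
    simp [denom]
  rw [h1]
  simp

theorem slash_two_mapGL_neg_one (f : ℍ → ℂ) : f ∣[(2 : ℤ)] mapGL ℝ (-1 : SL(2, ℤ)) = f :=
  slash_two_neg_one f

theorem neg_one_mem_Gamma0_T4 (N : ℕ) : (-1 : SL(2, ℤ)) ∈ Gamma0 N := by
  rw [Gamma0_mem]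
  simp

theorem unit_zmod_four : ∀ a d : ZMod 4, a * d = 1 → d = 1 ∨ d = -1 := by decide

theorem lowerRight_Gamma0_four {γ : SL(2, ℤ)} (hγ : γ ∈ Gamma0 4) :
    ((γ 1 1 : ℤ) : ZMod 4) = 1 ∨ ((γ 1 1 : ℤ) : ZMod 4) = -1 := by
  have h10 : ((γ 1 0 : ℤ) : ZMod 4) = 0 := Gamma0_mem.mp hγ
  have hdet : γ 0 0 * γ 1 1 - γ 0 1 * γ 1 0 = 1 := by
    have := γ.det_coe
    rwa [Matrix.det_fin_two] at this
  have h := congrArg (Int.cast : ℤ → ZMod 4) hdet
  push_cast at h
  rw [h10, mul_zero, sub_zero] at h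
  exact unit_zmod_four _ _ h

/-- A weight two cusp form on `Γ₁(4)` is invariant under `Γ₀(4) = ± Γ₁(4)`. -/
theorem slash_Gamma0_four (g : CuspForm (Gamma1 4) 2) {γ : SL(2, ℤ)} (hγ : γ ∈ Gamma0 4) :
    ⇑g ∣[(2 : ℤ)] mapGL ℝ γ = ⇑g := by
  have hinv : NbInv 4 2 ⇑g := (isCF_coe g).inv
  rcases lowerRight_Gamma0_four hγ with h | h
  · rw [hinv.slash_congr hγ (one_mem _) (by rw [h]; simp), map_one, SlashAction.slash_one]
  · rw [hinv.slash_congr hγ (neg_one_mem_Gamma0_T4 4) (by rw [h]; simp),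
      slash_two_mapGL_neg_one]

/-- A weight two cusp form on `Γ₁(4)` as a cusp form on `Γ₀(4)`. -/
def toGamma0Four (g : CuspForm (Gamma1 4) 2) : CuspForm (Gamma0 4) 2 where
  toFun := ⇑g
  slash_action_eq' := by
    rintro _ ⟨γ, hγ, rfl⟩
    exact slash_Gamma0_four g hγ
  holo' := CuspFormClass.holo g
  zero_at_cusps' := by
    intro c hc
    apply CuspFormClass.zero_at_cusps g
    rw [Subgroup.IsArithmetic.isCusp_iff_isCusp_SL2Z] at hc ⊢
    exact hc

@[simp] theorem coe_toGamma0Four (g : CuspForm (Gamma1 4) 2) : ⇑(toGamma0Four g) = ⇑g := rfl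


/-! ### The genus formula at level `4` -/

theorem nuTwo_four : ModularCurve.nuTwo 4 = 0 := by
  rw [ModularCurve.nuTwo, Nat.card_eq_fintype_card, Fintype.card_subtype]
  decide

theorem nuThree_four : ModularCurve.nuThree 4 = 0 := by
  rw [ModularCurve.nuThree, Nat.card_eq_fintype_card, Fintype.card_subtype]
  decide

theorem cuspCount_four : ModularCurve.cuspCount 4 = 3 := by
  decide

theorem dedekindPsi_four : ModularCurve.dedekindPsi 4 = 6 := by
  have h4 : Nat.divisors 4 = {1, 2, 4} := by decide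
  have hsq : ¬ Squarefree 4 := by
    intro h
    have h2 := h 2 ⟨1, by norm_num⟩
    exact absurd h2 (by decide)
  have h2 : Squarefree 2 := Nat.prime_two.squarefree
  rw [ModularCurve.dedekindPsi, h4, Finset.filter_insert, if_pos squarefree_one,
    Finset.filter_insert, if_pos h2, Finset.filter_singleton, if_neg hsq]
  decide

theorem genusFormula_four : ModularCurve.genusFormula 4 = 0 := by
  rw [ModularCurve.genusFormula, nuTwo_four, nuThree_four, cuspCount_four, dedekindPsi_four]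
  norm_num


/-! ### Vanishing -/

theorem cuspForm_Gamma0_four_eq_zero (f : CuspForm (Gamma0 4) 2) : f = 0 := by
  have h1 : (Module.finrank ℂ (CuspForm (Gamma0 4) 2) : ℚ) = 0 := by
    rw [Fermat.Agent.S20.result 4, genusFormula_four]
  have h2 : Module.finrank ℂ (CuspForm (Gamma0 4) 2) = 0 := by exact_mod_cast h1
  haveI : Module.Finite ℂ (CuspForm (Gamma0 4) 2) :=
    helper71.finite_cuspForm_gen (helper71.jStable_Gamma0 4)
  haveI : Subsingleton (CuspForm (Gamma0 4) 2) := Module.finrank_zero_iff.mp h2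
  exact Subsingleton.elim _ _

/-- **`S₂(Γ₁(4)) = 0`.** -/
theorem cuspForm_Gamma1_four_eq_zero (g : CuspForm (Gamma1 4) 2) : g = 0 := by
  have h := cuspForm_Gamma0_four_eq_zero (toGamma0Four g)
  apply DFunLike.coe_injective
  rw [← coe_toGamma0Four, h]
  rfl

/-- **[EIGEN1-M4]** the statement `Eigen1At 4 ℓ` holds (vacuously). -/
theorem eigen1At_four (ℓ : ℕ) : helper41.Eigen1At 4 ℓ := by
  intro k _ _ _ r g χ x c b _ hc hne _ _
  exfalso
  obtain ⟨n, hn⟩ := hne
  apply hn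
  have hg : g = 0 := cuspForm_Gamma1_four_eq_zero g
  have h0 : ((c n : helper80.Zbar) : ℂ) = 0 := by
    rw [hc n, hg]
    exact qCoeff_zero_fun n
  have h1 : c n = 0 := Subtype.ext h0
  rw [h1, map_zero]

/-- `helper32.Eigen1Statement` from the levels `8 ≤ M`. -/
theorem eigen1_of_at_ge_eight
    (h : ∀ (M : ℕ) [NeZero M], 8 ≤ M → (4 ∣ M ∨ 9 ∣ M) → ∀ ℓ : ℕ, ℓ.Prime → ℓ ≠ 2 →
      helper41.Eigen1At M ℓ) :
    helper32.Eigen1Statement := by
  refine helper41.eigen1_of_at fun M _ hM ℓ hℓ hℓ2 => ?_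
  by_cases h8 : 8 ≤ M
  · exact h M h8 hM ℓ hℓ hℓ2
  · have hM0 : M ≠ 0 := NeZero.ne M
    have h4 : M = 4 := by
      rcases hM with ⟨t, ht⟩ | ⟨t, ht⟩ <;> omega
    subst h4
    convert eigen1At_four ℓ

end Fermat.Agent.T4.helper79

end
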