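import Fermat.Agent.T4.helper41_Master1
import Fermat.Agent.T4.helper41_CoreWire1
import Fermat.Agent.T4.helper21_AN1Leaf
import Fermat.Agent.T4.helper11_F1Fin
import Fermat.Agent.T4.helper17_DiamondX1
import Fermat.Agent.T4.helper79_Eigen1M4
import Fermat.Agent.T4.helper71_NormId1

/-!
# T4 (I) (helper41, integrator): `Eigen1Statement` from the CORE leaves

All closed leaves of block (I) are plugged in (I-FLD: `helper11.finiteDimensional_F1`,
`helper11.hecke1Inputs_of_le`, `helper17.exists_isDiamondAut_x1`; I-AN: `helper21.an_leaf`;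
Kummer wiring: `helper92.kummerUnr1_of`, `kummerES1_of_norm`; level `4`:
`helper79.eigen1At_four`).  What remains, for every level `M ≥ 8` with `4 ∣ M` or `9 ∣ M`, is
`Core1 M`:

* `inj`   : `helper4.Inj1Statement M p` for the odd primes `p` (block I-RED),
* `scale` : `helper4.ScaleStatement A (F1 M) (F1b A M)` at the places over `q ∤ M` (I-RED, VAL),
* `norm`  : `EsNorm1Statement M q (q mod M)` for the primes `q ∤ M` (I-ES, characteristic `0`).
-/

set_option autoImplicit false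
set_option linter.style.haveILetI false
set_option linter.unusedSectionVars false

noncomputable section

namespace Fermat.Agent.T4.helper41

open Fermat.Agent.S18.helper19 (Kb)
open Fermat.Agent.T4.helper32 (F1 J1)
open Fermat.Agent.T4.helper4 (F1b unitOfPrime)

/-- **[EIGEN1] at `(M, ℓ)` from the leaves.** -/
theorem eigen1At_of_leaves {M ℓ : ℕ} [NeZero M] (hℓ : ℓ.Prime) (h : Leaves1 M ℓ) :
    Eigen1At M ℓ := by
  obtain ⟨hfld, hunr, hes, D, 𝒟, hstd, hsurj, hdesc, htr⟩ := h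
  haveI := hfld
  exact eigen1At_of_packA M hℓ
    (helper3.x1PackA_of_inputs (fun x _ => helper1.continuity1 M x)
      (helper21.fin1_of M ℓ hℓ.pos 𝒟 hdesc) (unr_of_unr1 hunr) (es_of_es1 hes)
      (helper21.genKappa1_final M ℓ hℓ.pos D 𝒟 hstd hsurj hdesc htr))

/-- the complex form of the norm formula (input of `helper21.an_leaf`) from the `ℚ̄`-form -/
theorem esNormC1_of_esNorm1 (M : ℕ) [NeZero M] (q : {q : Nat.Primes // ¬ (q : ℕ) ∣ M})
    (h : haveI : NeZero (q.1 : ℕ) := ⟨q.1.2.ne_zero⟩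
      EsNorm1Statement M (q.1 : ℕ) (unitOfPrime M (q.1 : ℕ) q.1.2 q.2)) :
    helper21.EsNormC1Statement M q := by
  haveI : NeZero (q.1 : ℕ) := ⟨q.1.2.ne_zero⟩
  have h1 : helper71.EsNorm1KbarStatement M q := h
  obtain ⟨ξ, hξ, H⟩ := helper71.normId1_of_kbar M q h1
  exact fun x => ⟨ξ, hξ, H x⟩

/-- **the core leaves of block (I) at the level `M`**: what is still open. -/
structure Core1 (M : ℕ) [NeZero M] : Prop where
  /-- [I-RED] injectivity of the reduction of divisor classes, at the powers of odd primes -/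
  inj : ∀ p : ℕ, p.Prime → p ≠ 2 → helper4.Inj1Statement M p
  /-- [I-RED, VAL] every function is a constant times a quotient of good integral series -/
  scale : ∀ q : ℕ, q.Prime → ¬ q ∣ M → ∀ A : ValuationSubring Kb, A.LiesOverPrime q →
    helper4.ScaleStatement A (F1 M) (F1b A M)
  /-- [I-ES] the norm formula in characteristic `0` -/
  norm : ∀ (q : ℕ) [NeZero q] (hq : q.Prime) (hqM : ¬ q ∣ M),
    EsNorm1Statement M q (unitOfPrime M q hq hqM)

/-- the leaves from the core leaves, `7 ≤ M` -/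
theorem leaves1_of_core {M : ℕ} [NeZero M] (hM : 7 ≤ M) {ℓ : ℕ} (hℓ : ℓ.Prime) (hℓ2 : ℓ ≠ 2)
    (h : Core1 M) : Leaves1 M ℓ := by
  have hVAL : ∀ q : ℕ, q.Prime → ¬ q ∣ M * ℓ → ∀ A : ValuationSubring Kb, A.LiesOverPrime q →
      helper4.ScaleStatement A (F1 M) (F1b A M) := fun q hq hqMℓ A hA =>
    h.scale q hq (fun hd => hqMℓ (Dvd.dvd.mul_right hd ℓ)) A hA
  refine ⟨helper11.finiteDimensional_F1 M hM, ?_, ?_, ?_⟩
  · exact helper92.kummerUnr1_of M ℓ hVAL (h.inj ℓ hℓ hℓ2)
  · exact kummerES1_of_norm M ℓ hVAL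
      (fun q _ _ _ => helper11.hecke1Inputs_of_le M q hM)
      (fun q _ hq hqMℓ => h.norm q hq (fun hd => hqMℓ (Dvd.dvd.mul_right hd ℓ)))
      (h.inj ℓ hℓ hℓ2)
  · exact helper21.an_leaf M hM
      (fun d => helper17.exists_isDiamondAut_x1 M (by omega) d)
      (fun q => esNormC1_of_esNorm1 M q
        (haveI : NeZero (q.1 : ℕ) := ⟨q.1.2.ne_zero⟩; h.norm (q.1 : ℕ) q.1.2 q.2))

/-- **[EIGEN1] from the core leaves** at the levels `M ≥ 8` with `4 ∣ M` or `9 ∣ M`. -/
theorem eigen1_of_core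
    (h : ∀ (M : ℕ) [NeZero M], 8 ≤ M → (4 ∣ M ∨ 9 ∣ M) → Core1 M) :
    helper32.Eigen1Statement :=
  helper79.eigen1_of_at_ge_eight fun M _ h8 hlev ℓ hℓ hℓ2 =>
    eigen1At_of_leaves hℓ (leaves1_of_core (by omega) hℓ hℓ2 (h M h8 hlev))

end Fermat.Agent.T4.helper41

end
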