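import Fermat.Agent.T4.helper80_EndgameAsm
import Fermat.Agent.T4.helper32_ResWire
import Fermat.Agent.T4.helper42_Glue
import Fermat.Agent.T4.helper15_ConjWire
import Fermat.Agent.T4.helper89_ConjFinal
import Fermat.Agent.T4.helper94_VPrimFinal

/-!
# T4 / S48: pre-assembly (helper78)

Everything that is unconditional on main, wired together: the frozen statement S48 follows from

* `helper32.Eigen1Statement` (block (I): mod-`ℓ` Eichler–Shimura for weight 2 on `Γ₁(M)`), and
* `helper80.DensStatement` (block (II): Chebotarev density).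

Blocks (III), (IV), (V) and the wirings (R-WIRE, R-GLUE, CONJ, RANKIN, PRIM) are discharged.
-/

set_option autoImplicit false

open CongruenceSubgroup
open scoped MatrixGroups

namespace Fermat.Agent.T4.helper78

/-- block (V), `helper32.ConjStatement`, unconditional -/
theorem conjStatement32 : helper32.ConjStatement :=
  helper15.conj_of helper89.conjHom helper89.span

/-- the forms-side input of the endgame from block (I) -/
theorem forms_of_eigen1 (hE : helper32.Eigen1Statement) : helper80.FormsStatement := by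
  intro N hN ε f h1 hT
  have := hN
  refine ⟨helper15.rankinStatement_of_span conjStatement32 helper89.span N ε f h1 hT, ?_⟩
  exact helper42.glue'
    (helper32.res1_of 4 (by norm_num) (Or.inl dvd_rfl) hE helper94.VPrim.prim)
    (helper32.res1_of 9 (by norm_num) (Or.inr dvd_rfl) hE helper94.VPrim.prim) N ε f h1 hT

/-- **The frozen S48** from blocks (I) and (II). -/
theorem s48_of_eigen1_dens (hE : helper32.Eigen1Statement) (hD : helper80.DensStatement)
    (N : ℕ) [NeZero N] (ε : DirichletCharacter ℂ N) (f : CuspForm (Gamma1 N) 1)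
    (hf₁ : ModularFormClass.qCoeff f 1 = 1)
    (hT : ∀ p : ℕ, p.Prime → ¬ p ∣ N → ∀ n : ℕ,
        ModularFormClass.qCoeff f (p * n) +
            ε (p : ZMod N) * (if p ∣ n then ModularFormClass.qCoeff f (n / p) else 0) =
          ModularFormClass.qCoeff f p * ModularFormClass.qCoeff f n) :
    ∃ ρ : (AlgebraicClosure ℚ ≃ₐ[ℚ] AlgebraicClosure ℚ) →* GL (Fin 2) ℂ,
      GaloisFactorsThroughFiniteLevel ρ ∧
      (Deformation.matrixRepresentation ρ).IsIrreducible ∧
      ∀ p : ℕ, p.Prime → ¬ p ∣ N →
        ∀ A : ValuationSubring (AlgebraicClosure ℚ), A.LiesOverPrime p →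
          (∀ σ ∈ A.inertiaSubgroupIn ℚ, ρ σ = 1) ∧
          ∀ σ : (AlgebraicClosure ℚ ≃ₐ[ℚ] AlgebraicClosure ℚ), A.IsFrobeniusAt σ p →
            ((ρ σ : GL (Fin 2) ℂ) : Matrix (Fin 2) (Fin 2) ℂ).trace =
                ModularFormClass.qCoeff f p ∧
            ((ρ σ : GL (Fin 2) ℂ) : Matrix (Fin 2) (Fin 2) ℂ).det = ε (p : ZMod N) :=
  helper80.s48_of_dens_forms hD (forms_of_eigen1 hE) N ε f hf₁ hT

end Fermat.Agent.T4.helper78
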