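import Fermat.Agent.T4.helper41_Master2
import Fermat.Agent.T4.helper78_S48Pre
import Fermat.Agent.T4.helper39_ChebDens

/-!
# T4 (helper41, integrator): the frozen S48 from the core leaves of block (I)

`s48_of_core` : the statement of `Fermat/Statements/S48.lean` from `Core1 M` (`helper41_Master2`)
at the levels `M ≥ 8` with `4 ∣ M` or `9 ∣ M`.  Blocks (II) - (V) are plugged
(`helper39.densStatement`, `helper78.s48_of_eigen1_dens`).
-/

set_option autoImplicit false

noncomputable section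

open CongruenceSubgroup
open scoped MatrixGroups

namespace Fermat.Agent.T4.helper41

/-- **The frozen S48 from the core leaves of block (I).** -/
theorem s48_of_core
    (h : ∀ (M : ℕ) [NeZero M], 8 ≤ M → (4 ∣ M ∨ 9 ∣ M) → Core1 M)
    (N : ℕ) [NeZero N] (ε : DirichletCharacter ℂ N) (f : CuspForm (Gamma1 N) 1)
    (hf₁ : ModularFormClass.qCoeff f 1 = 1)
    (hT : ∀ p : ℕ, p.Prime → ¬ p ∣ N → ∀ n : ℕ,
        ModularFormClass.qCoeff f (p * n) +
            ε (p : ZMod N) * (if p ∣ n then ModularFormClass.qCoeff f (n / p) else 0) =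
          ModularFormClass.qCoeff f p * ModularFormClass.qCoeff f n) :
    ∃ ρ : (AlgebraicClosure ℚ ≃ₐ[ℚ] AlgebraicClosure ℚ) →* GL (Fin 2) ℂ,
      GaloisFactorsThroughFiniteLevel ρ ∧
      (Deformation.matrixRepresentation ρ).IsIrreducible ∧
      ∀ p : ℕ, p.Prime → ¬ p ∣ N →
        ∀ A : ValuationSubring (AlgebraicClosure ℚ), A.LiesOverPrime p →
          (∀ σ ∈ A.inertiaSubgroupIn ℚ, ρ σ = 1) ∧
          ∀ σ : (AlgebraicClosure ℚ ≃ₐ[ℚ] AlgebraicClosure ℚ), A.IsFrobeniusAt σ p →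
            ((ρ σ : GL (Fin 2) ℂ) : Matrix (Fin 2) (Fin 2) ℂ).trace =
                ModularFormClass.qCoeff f p ∧
            ((ρ σ : GL (Fin 2) ℂ) : Matrix (Fin 2) (Fin 2) ℂ).det = ε (p : ZMod N) :=
  helper78.s48_of_eigen1_dens (eigen1_of_core h) helper39.densStatement N ε f hf₁ hT

end Fermat.Agent.T4.helper41

end
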