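import Mathlib

/-!
# T4 block (I), [IGUSA1]: the abstract transitivity lemma (helper43)

Mathlib only.  The setting is the reduction modulo `ℓ` of the correspondence `T_p` on `X₁(M)`:

* `R`      : the ring of functions with integral expansions,
* `ev₁ f`  : the reduction of `f (q ^ p)`; `ev₂ b f` : the reduction of
             `(σ_p f) (ζ ^ b q ^ (1 / p))` (`b` in a finite index type, `i₀` the index `b = 0`),
* `κ`      : a subfield containing the coefficients of all the polynomials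
             `(X - ev₁ f) * ∏ b, (X - ev₂ b f)`,
* `φ`      : a field embedding which agrees with the inclusion `inc` on `κ` and maps
             `ev₁ j` to `ev₂ i₀ j` (it exists as soon as the modular equation of level `p` is
             irreducible over `κ`),
* `Λ`      : an infinite set of "constants" (lifts of elements of the residue field).

Conclusion (`igusa_core`): `φ (ev₁ f) = inc (ev₂ i₀ f)` for ALL `f`, in particular
`ev₁ f = 0 → ev₂ i₀ f = 0` (`igusa_core_ker`): the diamond automorphism `σ_p` descends to the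
reduction.
-/

set_option autoImplicit false

namespace Fermat.Agent.T4.helper43

open Polynomial

section Core

variable {R E Ω : Type*} [CommRing R] [Field E] [Field Ω] {ι : Type*} [Fintype ι]

/-- a root of `(X - a) * ∏ b, (X - c b)` is `a` or one of the `c b` -/
theorem eq_or_exists_of_root (a : Ω) (c : ι → Ω) (x : Ω)
    (h : ((X - C a) * ∏ b, (X - C (c b))).eval x = 0) : x = a ∨ ∃ b, x = c b := by
  rw [eval_mul, eval_sub, eval_X, eval_C, eval_prod, mul_eq_zero, sub_eq_zero,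
    Finset.prod_eq_zero_iff] at h
  rcases h with h | ⟨b, -, hb⟩
  · exact Or.inl h
  · right
    refine ⟨b, ?_⟩
    rw [eval_sub, eval_X, eval_C, sub_eq_zero] at hb
    exact hb

/-- **[IGUSA1], abstract core.** -/
theorem igusa_core (ev₁ : R →+* E) (ev₂ : ι → R →+* E) (i₀ : ι) (inc φ : E →+* Ω)
    (κ : Subfield E) (hφ : ∀ x ∈ κ, φ x = inc x)
    (hchar : ∀ f : R, ∀ n : ℕ, ((X - C (ev₁ f)) * ∏ b, (X - C (ev₂ b f))).coeff n ∈ κ)
    (j : R) (hj : φ (ev₁ j) = inc (ev₂ i₀ j))
    (hj₁ : ev₂ i₀ j ≠ ev₁ j) (hj₂ : ∀ b, ev₂ b j = ev₂ i₀ j → b = i₀)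
    (Λ : Set R) (hΛ : Λ.Infinite) (hΛκ : ∀ l ∈ Λ, ev₁ l ∈ κ)
    (hΛ₂ : ∀ l ∈ Λ, ∀ b, ev₂ b l = ev₁ l) (hΛinj : Set.InjOn ev₁ Λ) (f : R) :
    φ (ev₁ f) = inc (ev₂ i₀ f) := by
  classical
  have hinc : Function.Injective inc := inc.injective
  -- the root property
  have hroot : ∀ y : R, φ (ev₁ y) = inc (ev₁ y) ∨ ∃ b, φ (ev₁ y) = inc (ev₂ b y) := by
    intro y
    set P : Polynomial E := (X - C (ev₁ y)) * ∏ b, (X - C (ev₂ b y)) with hP
    have hPφ : P.map φ = P.map inc := by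
      ext n
      rw [coeff_map, coeff_map]
      exact hφ _ (hchar y n)
    have h0 : P.eval (ev₁ y) = 0 := by
      rw [hP, eval_mul, eval_sub, eval_X, eval_C, sub_self, zero_mul]
    have h1 : (P.map φ).eval (φ (ev₁ y)) = 0 := by
      rw [eval_map, eval₂_at_apply, h0, map_zero]
    rw [hPφ, hP, Polynomial.map_mul, Polynomial.map_sub, map_X, map_C, Polynomial.map_prod] at h1
    have h2 : ((X - C (inc (ev₁ y))) * ∏ b, (X - C (inc (ev₂ b y)))).eval (φ (ev₁ y)) = 0 := by
      rw [← h1]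
      congr 2
      refine Finset.prod_congr rfl fun b _ => ?_
      rw [Polynomial.map_sub, map_X, map_C]
    exact eq_or_exists_of_root _ _ _ h2
  -- the case of `f + l * j`
  let case : R → Option ι := fun l =>
    if h : ∃ b, φ (ev₁ (f + l * j)) = inc (ev₂ b (f + l * j)) then some h.choose else none
  obtain ⟨l, hl, l', hl', hne, hcase⟩ : ∃ l ∈ Λ, ∃ l' ∈ Λ, l ≠ l' ∧ case l = case l' :=
    hΛ.exists_ne_map_eq_of_mapsTo (f := case) (t := Set.univ) (fun _ _ => Set.mem_univ _)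
      Set.finite_univ
  have hlne : ev₁ l ≠ ev₁ l' := fun h => hne (hΛinj hl hl' h)
  have hexp : ∀ m ∈ Λ, φ (ev₁ (f + m * j)) = φ (ev₁ f) + inc (ev₁ m) * inc (ev₂ i₀ j) := by
    intro m hm
    rw [map_add, map_mul, map_add, map_mul, hj, hφ _ (hΛκ m hm)]
  by_cases h : ∃ b, φ (ev₁ (f + l * j)) = inc (ev₂ b (f + l * j))
  · have h' : ∃ b, φ (ev₁ (f + l' * j)) = inc (ev₂ b (f + l' * j)) := by
      by_contra hcon
      simp only [case, dif_pos h, dif_neg hcon] at hcase
      exact Option.some_ne_none _ hcase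
    have hb : h.choose = h'.choose := by
      simp only [case, dif_pos h, dif_pos h'] at hcase
      exact Option.some_injective _ hcase
    have e1 := h.choose_spec
    have e2 := h'.choose_spec
    rw [← hb] at e2
    set b := h.choose
    rw [hexp l hl, map_add, map_mul, hΛ₂ l hl, map_add, map_mul] at e1
    rw [hexp l' hl', map_add, map_mul, hΛ₂ l' hl', map_add, map_mul] at e2
    have e3 : (inc (ev₁ l) - inc (ev₁ l')) * (inc (ev₂ i₀ j) - inc (ev₂ b j)) = 0 := by
      linear_combination e1 - e2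
    have e4 : inc (ev₁ l) - inc (ev₁ l') ≠ 0 := by
      rw [sub_ne_zero]
      exact fun h => hlne (hinc h)
    have e5 : inc (ev₂ i₀ j) = inc (ev₂ b j) := by
      rcases mul_eq_zero.1 e3 with h0 | h0
      · exact absurd h0 e4
      · exact sub_eq_zero.1 h0
    have hb0 : b = i₀ := hj₂ b (hinc e5).symm
    rw [hb0] at e1
    linear_combination e1
  · have h' : ¬ ∃ b, φ (ev₁ (f + l' * j)) = inc (ev₂ b (f + l' * j)) := by
      intro hcon
      simp only [case, dif_neg h, dif_pos hcon] at hcase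
      exact Option.some_ne_none _ hcase.symm
    have e1 := (hroot (f + l * j)).resolve_right h
    have e2 := (hroot (f + l' * j)).resolve_right h'
    rw [hexp l hl, map_add, map_mul, map_add, map_mul] at e1
    rw [hexp l' hl', map_add, map_mul, map_add, map_mul] at e2
    have e3 : (inc (ev₁ l) - inc (ev₁ l')) * (inc (ev₂ i₀ j) - inc (ev₁ j)) = 0 := by
      linear_combination e1 - e2
    have e4 : inc (ev₁ l) - inc (ev₁ l') ≠ 0 := by
      rw [sub_ne_zero]
      exact fun h => hlne (hinc h)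
    have e5 : inc (ev₂ i₀ j) = inc (ev₁ j) := by
      rcases mul_eq_zero.1 e3 with h0 | h0
      · exact absurd h0 e4
      · exact sub_eq_zero.1 h0
    exact absurd (hinc e5) hj₁

/-- **[IGUSA1], abstract core, kernel form**: `ev₁ f = 0 → ev₂ i₀ f = 0`. -/
theorem igusa_core_ker (ev₁ : R →+* E) (ev₂ : ι → R →+* E) (i₀ : ι) (inc φ : E →+* Ω)
    (κ : Subfield E) (hφ : ∀ x ∈ κ, φ x = inc x)
    (hchar : ∀ f : R, ∀ n : ℕ, ((X - C (ev₁ f)) * ∏ b, (X - C (ev₂ b f))).coeff n ∈ κ)
    (j : R) (hj : φ (ev₁ j) = inc (ev₂ i₀ j))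
    (hj₁ : ev₂ i₀ j ≠ ev₁ j) (hj₂ : ∀ b, ev₂ b j = ev₂ i₀ j → b = i₀)
    (Λ : Set R) (hΛ : Λ.Infinite) (hΛκ : ∀ l ∈ Λ, ev₁ l ∈ κ)
    (hΛ₂ : ∀ l ∈ Λ, ∀ b, ev₂ b l = ev₁ l) (hΛinj : Set.InjOn ev₁ Λ) (f : R)
    (hf : ev₁ f = 0) : ev₂ i₀ f = 0 := by
  have h := igusa_core ev₁ ev₂ i₀ inc φ κ hφ hchar j hj hj₁ hj₂ Λ hΛ hΛκ hΛ₂ hΛinj f
  rw [hf, map_zero] at h
  exact inc.injective (by rw [← h, map_zero])

end Core

end Fermat.Agent.T4.helper43
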