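import Mathlib
import Fermat.Agent.T4.helper43_Igusa1Abs

/-!
# T4 block (I), [IGUSA1]: abstract algebra around the transitivity lemma (helper43)

Mathlib only.  `R` is a commutative ring with an action of a finite group `Δ` by ring
automorphisms, `ρ : R →+* 𝒦` a ring homomorphism into a field (the reduction of the expansion
at the base cusp).

* `kap0 ρ` : the fraction field of `ρ (R^Δ)` inside `𝒦`; `kap ρ` : the fraction field of
  `ρ R` (`= kap0 ρ · ρ R`);
* `exists_monic_of_mem_kap` : every element of `kap ρ` is a root of a monic polynomial of degree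
  `|Δ|` with coefficients in `kap0 ρ`;
* `irreducible_of_map_eq_linear_mul` : a polynomial over `K` which factors over `L ⊇ K` as
  `(X - a) * Q₁`, `Q₁` irreducible over `L`, `a ∉ K`, is irreducible over `K`;
* `ker_of_closure` : the set of `e : Δ` with `ker ρ ⊆ ker (ρ ∘ e)` is a subgroup;
* `irreducible_charpoly` : if `ker ρ ⊆ ker (ρ ∘ e)` for all `e` and the `ρ (e • η)` are
  pairwise distinct, then `∏ e, (X - ρ (e • η))` is irreducible over `kap0 ρ`.
-/

set_option autoImplicit false
set_option linter.unusedSectionVars false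

namespace Fermat.Agent.T4.helper43

open Polynomial

noncomputable section

variable {R 𝒦 : Type*} [CommRing R] [Field 𝒦] {Δ : Type*} [Group Δ] [MulSemiringAction Δ R]

/-- `a` is fixed by the group -/
def IsInv (Δ : Type*) [Group Δ] [MulSemiringAction Δ R] (a : R) : Prop := ∀ e : Δ, e • a = a

theorem isInv_zero : IsInv Δ (0 : R) := fun e => smul_zero e
theorem isInv_one : IsInv Δ (1 : R) := fun e => smul_one e
theorem IsInv.add {a b : R} (ha : IsInv Δ a) (hb : IsInv Δ b) : IsInv Δ (a + b) := fun e => by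
  rw [smul_add, ha e, hb e]
theorem IsInv.mul {a b : R} (ha : IsInv Δ a) (hb : IsInv Δ b) : IsInv Δ (a * b) := fun e => by
  rw [smul_mul', ha e, hb e]
theorem IsInv.neg {a : R} (ha : IsInv Δ a) : IsInv Δ (-a) := fun e => by
  rw [smul_neg, ha e]
theorem IsInv.pow {a : R} (ha : IsInv Δ a) (n : ℕ) : IsInv Δ (a ^ n) := fun e => by
  rw [smul_pow', ha e]

variable (Δ) in
/-- the fraction field of `ρ (R^Δ)` inside `𝒦` -/
def kap0 (ρ : R →+* 𝒦) : Subfield 𝒦 where
  carrier := {x | ∃ a b : R, IsInv Δ a ∧ IsInv Δ b ∧ ρ b ≠ 0 ∧ x * ρ b = ρ a}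
  mul_mem' := by
    rintro x y ⟨a, b, ha, hb, hb0, h⟩ ⟨a', b', ha', hb', hb0', h'⟩
    refine ⟨a * a', b * b', ha.mul ha', hb.mul hb', ?_, ?_⟩
    · rw [map_mul]; exact mul_ne_zero hb0 hb0'
    · rw [map_mul, map_mul, ← h, ← h']; ring
  one_mem' := ⟨1, 1, isInv_one, isInv_one, by rw [map_one]; exact one_ne_zero, by rw [one_mul]⟩
  add_mem' := by
    rintro x y ⟨a, b, ha, hb, hb0, h⟩ ⟨a', b', ha', hb', hb0', h'⟩
    refine ⟨a * b' + a' * b, b * b', (ha.mul hb').add (ha'.mul hb), hb.mul hb', ?_, ?_⟩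
    · rw [map_mul]; exact mul_ne_zero hb0 hb0'
    · rw [map_add, map_mul, map_mul, map_mul, ← h, ← h']; ring
  zero_mem' := ⟨0, 1, isInv_zero, isInv_one, by rw [map_one]; exact one_ne_zero, by
    rw [map_zero, zero_mul]⟩
  neg_mem' := by
    rintro x ⟨a, b, ha, hb, hb0, h⟩
    exact ⟨-a, b, ha.neg, hb, hb0, by rw [map_neg, ← h]; ring⟩
  inv_mem' := by
    rintro x ⟨a, b, ha, hb, hb0, h⟩
    by_cases hx : x = 0
    · rw [hx, inv_zero]
      exact ⟨0, 1, isInv_zero, isInv_one, by rw [map_one]; exact one_ne_zero, by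
        rw [map_zero, zero_mul]⟩
    · have ha0 : ρ a ≠ 0 := by rw [← h]; exact mul_ne_zero hx hb0
      refine ⟨b, a, hb, ha, ha0, ?_⟩
      rw [← h]
      field_simp

theorem mem_kap0_iff (ρ : R →+* 𝒦) (x : 𝒦) :
    x ∈ kap0 Δ ρ ↔ ∃ a b : R, IsInv Δ a ∧ IsInv Δ b ∧ ρ b ≠ 0 ∧ x * ρ b = ρ a := Iff.rfl

theorem map_mem_kap0 (ρ : R →+* 𝒦) {a : R} (ha : IsInv Δ a) : ρ a ∈ kap0 Δ ρ :=
  ⟨a, 1, ha, isInv_one, by rw [map_one]; exact one_ne_zero, by rw [map_one, mul_one]⟩

section Finite

variable [Fintype Δ]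

/-- a polynomial relation with invariant coefficients gives an "inverse up to an invariant" -/
theorem exists_mul_eq_of_root (ρ : R →+* 𝒦) (F : R) (hF : ρ F ≠ 0) :
    ∀ (n : ℕ) (P : R[X]), P.natDegree ≤ n → (∀ i, IsInv Δ (P.coeff i)) → P.map ρ ≠ 0 →
      (P.map ρ).eval (ρ F) = 0 →
      ∃ G c : R, IsInv Δ c ∧ ρ c ≠ 0 ∧ ρ F * ρ G = ρ c := by
  intro n
  induction n with
  | zero =>
      intro P hP _ h0 hev
      exfalso
      have hC : P = C (P.coeff 0) := eq_C_of_natDegree_le_zero hP
      rw [hC, map_C] at h0 hev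
      rw [eval_C] at hev
      rw [hev, map_zero] at h0
      exact h0 rfl
  | succ n ih =>
      intro P hP hinv h0 hev
      have hdec := divX_mul_X_add P
      by_cases hc : ρ (P.coeff 0) = 0
      · -- recurse with `P.divX`
        have hmap : P.map ρ = (P.divX.map ρ) * X := by
          conv_lhs => rw [← hdec]
          rw [Polynomial.map_add, Polynomial.map_mul, map_X, map_C, hc, map_zero, add_zero]
        refine ih P.divX ?_ (fun i => by rw [coeff_divX]; exact hinv _) ?_ ?_
        · rw [natDegree_divX_eq_natDegree_tsub_one]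
          omega
        · intro h
          rw [hmap, h, zero_mul] at h0
          exact h0 rfl
        · rw [hmap, eval_mul, eval_X] at hev
          rcases mul_eq_zero.1 hev with h | h
          · exact h
          · exact absurd h hF
      · refine ⟨-(P.divX.eval F), P.coeff 0, hinv 0, hc, ?_⟩
        have h1 : (P.map ρ).eval (ρ F) = ρ (P.eval F) := by
          rw [eval_map, eval₂_at_apply]
        have h2 : P.eval F = P.divX.eval F * F + P.coeff 0 := by
          conv_lhs => rw [← hdec]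
          rw [eval_add, eval_mul, eval_X, eval_C]
        rw [h1, h2, map_add, map_mul] at hev
        rw [map_neg]
        linear_combination -hev

/-- the fraction field of `ρ R` inside `𝒦` -/
def kap (Δ : Type*) [Group Δ] [MulSemiringAction Δ R] [Fintype Δ] (ρ : R →+* 𝒦) :
    Subfield 𝒦 where
  carrier := {x | ∃ F b : R, IsInv Δ b ∧ ρ b ≠ 0 ∧ x * ρ b = ρ F}
  mul_mem' := by
    rintro x y ⟨a, b, hb, hb0, h⟩ ⟨a', b', hb', hb0', h'⟩
    refine ⟨a * a', b * b', hb.mul hb', ?_, ?_⟩
    · rw [map_mul]; exact mul_ne_zero hb0 hb0'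
    · rw [map_mul, map_mul, ← h, ← h']; ring
  one_mem' := ⟨1, 1, isInv_one, by rw [map_one]; exact one_ne_zero, by rw [one_mul]⟩
  add_mem' := by
    rintro x y ⟨a, b, hb, hb0, h⟩ ⟨a', b', hb', hb0', h'⟩
    refine ⟨a * b' + a' * b, b * b', hb.mul hb', ?_, ?_⟩
    · rw [map_mul]; exact mul_ne_zero hb0 hb0'
    · rw [map_add, map_mul, map_mul, map_mul, ← h, ← h']; ring
  zero_mem' := ⟨0, 1, isInv_one, by rw [map_one]; exact one_ne_zero, by
    rw [map_zero, zero_mul]⟩
  neg_mem' := by
    rintro x ⟨a, b, hb, hb0, h⟩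
    exact ⟨-a, b, hb, hb0, by rw [map_neg, ← h]; ring⟩
  inv_mem' := by
    rintro x ⟨F, b, hb, hb0, h⟩
    by_cases hx : x = 0
    · rw [hx, inv_zero]
      exact ⟨0, 1, isInv_one, by rw [map_one]; exact one_ne_zero, by rw [map_zero, zero_mul]⟩
    · have hF0 : ρ F ≠ 0 := by rw [← h]; exact mul_ne_zero hx hb0
      obtain ⟨G, c, hc, hc0, hGc⟩ := exists_mul_eq_of_root (Δ := Δ) ρ F hF0
        (MulSemiringAction.charpoly Δ F).natDegree (MulSemiringAction.charpoly Δ F) le_rfl
        (fun i e => MulSemiringAction.smul_coeff_charpoly F i e)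
        (((MulSemiringAction.monic_charpoly Δ F).map ρ).ne_zero)
        (by rw [eval_map, eval₂_at_apply, MulSemiringAction.eval_charpoly, map_zero])
      refine ⟨b * G, c, hc, hc0, ?_⟩
      rw [map_mul, ← hGc, ← h]
      field_simp

theorem mem_kap_iff (ρ : R →+* 𝒦) (x : 𝒦) :
    x ∈ kap Δ ρ ↔ ∃ F b : R, IsInv Δ b ∧ ρ b ≠ 0 ∧ x * ρ b = ρ F := Iff.rfl

theorem map_mem_kap (ρ : R →+* 𝒦) (F : R) : ρ F ∈ kap Δ ρ :=
  ⟨F, 1, isInv_one, by rw [map_one]; exact one_ne_zero, by rw [map_one, mul_one]⟩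

theorem kap0_le_kap (ρ : R →+* 𝒦) : kap0 Δ ρ ≤ kap Δ ρ := by
  rintro x ⟨a, b, -, hb, hb0, h⟩
  exact ⟨a, b, hb, hb0, h⟩

/-- every element of `kap ρ` is a root of a monic polynomial of degree `|Δ|` over `kap0 ρ` -/
theorem exists_monic_of_mem_kap (ρ : R →+* 𝒦) {x : 𝒦} (hx : x ∈ kap Δ ρ) :
    ∃ P : 𝒦[X], P.Monic ∧ P.natDegree = Fintype.card Δ ∧ (∀ n, P.coeff n ∈ kap0 Δ ρ) ∧
      P.eval x = 0 := by
  obtain ⟨F, b, hb, hb0, h⟩ := hx
  set P₀ : 𝒦[X] := (MulSemiringAction.charpoly Δ F).map ρ with hP₀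
  have hmon : P₀.Monic := (MulSemiringAction.monic_charpoly Δ F).map ρ
  have hdeg : P₀.natDegree = Fintype.card Δ := by
    have e : P₀ = ∏ e : Δ, (X - C (ρ (e • F))) := by
      rw [hP₀, MulSemiringAction.charpoly_eq, Polynomial.map_prod]
      refine Finset.prod_congr rfl fun e _ => ?_
      rw [Polynomial.map_sub, map_X, map_C]
    rw [e, natDegree_prod_of_monic _ _ (fun _ _ => monic_X_sub_C _)]
    simp
  have hroot : P₀.eval (ρ F) = 0 := by
    rw [hP₀, eval_map, eval₂_at_apply, MulSemiringAction.eval_charpoly, map_zero]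
  refine ⟨P₀.scaleRoots (ρ b)⁻¹, (monic_scaleRoots_iff _).2 hmon, ?_, ?_, ?_⟩
  · rw [natDegree_scaleRoots, hdeg]
  · intro n
    rw [coeff_scaleRoots]
    refine (kap0 Δ ρ).mul_mem ?_ ((kap0 Δ ρ).pow_mem ((kap0 Δ ρ).inv_mem (map_mem_kap0 ρ hb)) _)
    rw [hP₀, coeff_map]
    exact map_mem_kap0 ρ (fun e => MulSemiringAction.smul_coeff_charpoly F n e)
  · have hx : x = (ρ b)⁻¹ * ρ F := by
      rw [← h]
      field_simp
    rw [hx, scaleRoots_eval_mul, hroot, mul_zero]

end Finite

/-! ## Irreducibility over an intermediate field -/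

section Linear

variable {K L : Type*} [Field K] [Field L]

theorem isUnit_of_isUnit_map_field (i : K →+* L) {U : K[X]} (h : IsUnit (U.map i)) :
    IsUnit U := by
  rw [Polynomial.isUnit_iff_degree_eq_zero] at h ⊢
  rwa [Polynomial.degree_map] at h

/-- auxiliary: one of the two symmetric cases -/
theorem linear_case (i : K →+* L) (a : L) (ha : a ∉ Set.range i) (U : K[X]) (W : L[X])
    (h : X - C a = U.map i * W) : IsUnit U := by
  rcases (irreducible_X_sub_C a).isUnit_or_isUnit h with hU | hW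
  · exact isUnit_of_isUnit_map_field i hU
  · exfalso
    have hW0 : W.natDegree = 0 := natDegree_eq_zero_of_isUnit hW
    have hUne : U.map i ≠ 0 := by
      rintro h0
      rw [h0, zero_mul] at h
      exact X_sub_C_ne_zero a h
    have hWne : W ≠ 0 := hW.ne_zero
    have hdeg : (U.map i).natDegree = 1 := by
      have := congrArg natDegree h
      rw [natDegree_X_sub_C, natDegree_mul hUne hWne, hW0, add_zero] at this
      exact this.symm
    rw [natDegree_map] at hdeg
    have hU1 : U = C (U.coeff 1) * X + C (U.coeff 0) :=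
      eq_X_add_C_of_natDegree_le_one hdeg.le
    have hc1 : U.coeff 1 ≠ 0 := by
      intro h0
      have : U.natDegree = 0 := by
        rw [hU1, h0, map_zero, zero_mul, zero_add, natDegree_C]
      omega
    set r : K := -(U.coeff 0) / U.coeff 1 with hr
    have hroot : U.eval r = 0 := by
      rw [hU1, eval_add, eval_mul, eval_C, eval_X, eval_C, hr]
      field_simp
      ring
    have h2 := congrArg (eval (i r)) h
    rw [eval_sub, eval_X, eval_C, eval_mul, eval_map, eval₂_at_apply, hroot, map_zero,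
      zero_mul, sub_eq_zero] at h2
    exact ha ⟨r, h2⟩

/-- a polynomial over `K` which factors over `L ⊇ K` as `(X - a) * Q₁` with `Q₁` irreducible
over `L` and `a ∉ K` is irreducible over `K` -/
theorem irreducible_of_map_eq_linear_mul (i : K →+* L) (Q : K[X]) (a : L) (Q₁ : L[X])
    (hQ₁ : Irreducible Q₁) (h : Q.map i = (X - C a) * Q₁) (ha : a ∉ Set.range i) :
    Irreducible Q := by
  have hQ₁0 : Q₁ ≠ 0 := hQ₁.ne_zero
  rw [irreducible_iff]
  constructor
  · intro hu
    have hu' : IsUnit (Q.map i) := hu.map (mapRingHom i)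
    rw [h] at hu'
    have h1 := natDegree_eq_zero_of_isUnit hu'
    rw [natDegree_mul (X_sub_C_ne_zero a) hQ₁0, natDegree_X_sub_C] at h1
    omega
  · intro U V hUV
    have hmap : (X - C a) * Q₁ = U.map i * V.map i := by
      rw [← h, hUV, Polynomial.map_mul]
    have hdvd : Q₁ ∣ U.map i * V.map i := ⟨X - C a, by rw [← hmap]; ring⟩
    rcases hQ₁.prime.dvd_or_dvd hdvd with ⟨W, hW⟩ | ⟨W, hW⟩
    · right
      refine linear_case i a ha V W ?_
      have : (X - C a) * Q₁ = (V.map i * W) * Q₁ := by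
        rw [hmap, hW]; ring
      exact mul_right_cancel₀ hQ₁0 this
    · left
      refine linear_case i a ha U W ?_
      have : (X - C a) * Q₁ = (U.map i * W) * Q₁ := by
        rw [hmap, hW]; ring
      exact mul_right_cancel₀ hQ₁0 this

end Linear

/-! ## From generators to the whole group -/

section Closure

variable [Finite Δ]

theorem ker_of_closure (ρ : R →+* 𝒦) (S : Set Δ) (hS : Subgroup.closure S = ⊤)
    (h : ∀ s ∈ S, ∀ f : R, ρ f = 0 → ρ (s • f) = 0) (e : Δ) (f : R) (hf : ρ f = 0) :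
    ρ (e • f) = 0 := by
  have hpow : ∀ (x : Δ), (∀ f : R, ρ f = 0 → ρ (x • f) = 0) → ∀ n : ℕ,
      ∀ f : R, ρ f = 0 → ρ ((x ^ n) • f) = 0 := by
    intro x hx n
    induction n with
    | zero => intro f hf; rwa [pow_zero, one_smul]
    | succ n ih =>
        intro f hf
        rw [pow_succ, mul_smul]
        exact ih _ (hx f hf)
  have hmem : e ∈ Subgroup.closure S := by rw [hS]; exact Subgroup.mem_top e
  revert f
  induction hmem using Subgroup.closure_induction with
  | mem x hx => exact h x hx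
  | one => intro f hf; rwa [one_smul]
  | mul x y _ _ hx hy =>
      intro f hf
      rw [mul_smul]
      exact hx _ (hy f hf)
  | inv x _ hx =>
      intro f hf
      have hn : 0 < orderOf x := orderOf_pos x
      have hinv : x⁻¹ = x ^ (orderOf x - 1) := by
        rw [inv_eq_iff_mul_eq_one, ← pow_succ', Nat.sub_add_cancel hn, pow_orderOf_eq_one]
      rw [hinv]
      exact hpow x hx _ f hf

end Closure

/-! ## Irreducibility of the characteristic polynomial -/

section Irreducible

variable [Fintype Δ]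

/-- common denominators for polynomials over `kap0 ρ` -/
theorem exists_common_denom (ρ : R →+* 𝒦) (m : Polynomial (kap0 Δ ρ)) :
    ∃ (b : R) (M : R[X]), IsInv Δ b ∧ ρ b ≠ 0 ∧ (∀ i, IsInv Δ (M.coeff i)) ∧
      M.map ρ = C (ρ b) * m.map (kap0 Δ ρ).subtype := by
  induction m using Polynomial.induction_on' with
  | add p q hp hq =>
      obtain ⟨b, M, hb, hb0, hM, h⟩ := hp
      obtain ⟨b', M', hb', hb0', hM', h'⟩ := hq
      refine ⟨b * b', C b' * M + C b * M', hb.mul hb', ?_, ?_, ?_⟩
      · rw [map_mul]; exact mul_ne_zero hb0 hb0'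
      · intro i
        rw [coeff_add, coeff_C_mul, coeff_C_mul]
        exact (hb'.mul (hM i)).add (hb.mul (hM' i))
      · rw [Polynomial.map_add, Polynomial.map_mul, Polynomial.map_mul, map_C, map_C, h, h',
          Polynomial.map_add, map_mul, map_mul]
        ring
  | monomial n c =>
      obtain ⟨a, b, ha, hb, hb0, h⟩ := c.2
      refine ⟨b, monomial n a, hb, hb0, ?_, ?_⟩
      · intro i
        rw [coeff_monomial]
        split_ifs
        · exact ha
        · exact isInv_zero
      · rw [map_monomial, map_monomial, C_mul_monomial, ← h]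
        congr 1
        rw [mul_comm]
        rfl

theorem smul_eval_of_isInv (M : R[X]) (hM : ∀ i, IsInv Δ (M.coeff i)) (e : Δ) (η : R) :
    e • M.eval η = M.eval (e • η) := by
  have h1 : e • M = M := by
    ext i
    rw [Polynomial.coeff_smul, hM i e]
  rw [← Polynomial.smul_eval_smul, h1]

/-- **irreducibility of the reduced characteristic polynomial**: if `ker ρ ⊆ ker (ρ ∘ e)` for
all `e : Δ` and the `ρ (e • η)` are pairwise distinct, then `∏ e, (X - ρ (e • η))` is (the image
of) an irreducible polynomial over `kap0 ρ`. -/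
theorem irreducible_charpoly (ρ : R →+* 𝒦)
    (hker : ∀ (e : Δ) (f : R), ρ f = 0 → ρ (e • f) = 0)
    (η : R) (hdist : ∀ e e' : Δ, ρ (e • η) = ρ (e' • η) → e = e') :
    ∃ P : Polynomial (kap0 Δ ρ), Irreducible P ∧ P.Monic ∧
      P.map (kap0 Δ ρ).subtype = ∏ e : Δ, (X - C (ρ (e • η))) := by
  classical
  set Pbar : 𝒦[X] := ∏ e : Δ, (X - C (ρ (e • η))) with hPbar
  have hPbar' : Pbar = (MulSemiringAction.charpoly Δ η).map ρ := by
    rw [hPbar, MulSemiringAction.charpoly_eq, Polynomial.map_prod]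
    refine Finset.prod_congr rfl fun e _ => ?_
    rw [Polynomial.map_sub, map_X, map_C]
  have hmonbar : Pbar.Monic := monic_prod_of_monic _ _ (fun _ _ => monic_X_sub_C _)
  have hdegbar : Pbar.natDegree = Fintype.card Δ := by
    rw [hPbar, natDegree_prod_of_monic _ _ (fun _ _ => monic_X_sub_C _)]
    simp
  have hlifts : Pbar ∈ Polynomial.lifts (kap0 Δ ρ).subtype := by
    rw [Polynomial.lifts_iff_coeff_lifts]
    intro n
    rw [hPbar', coeff_map]
    exact ⟨⟨_, map_mem_kap0 ρ (fun e => MulSemiringAction.smul_coeff_charpoly η n e)⟩, rfl⟩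
  obtain ⟨P, hPmap, hPdeg, hPmon⟩ := Polynomial.lifts_and_natDegree_eq_and_monic hlifts hmonbar
  refine ⟨P, ?_, hPmon, hPmap⟩
  -- the minimal polynomial of `ρ η`
  have hroot : aeval (ρ η) P = 0 := by
    rw [aeval_def, ← eval_map]
    show eval (ρ η) (P.map (kap0 Δ ρ).subtype) = 0
    rw [hPmap, hPbar, eval_prod]
    apply Finset.prod_eq_zero (Finset.mem_univ (1 : Δ))
    rw [one_smul, eval_sub, eval_X, eval_C, sub_self]
  have hint : IsIntegral (kap0 Δ ρ) (ρ η) := ⟨P, hPmon, hroot⟩
  set m := minpoly (kap0 Δ ρ) (ρ η) with hm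
  have hmdvd : m ∣ P := minpoly.dvd _ _ hroot
  have hmroot : ∀ e : Δ, (m.map (kap0 Δ ρ).subtype).eval (ρ (e • η)) = 0 := by
    intro e
    obtain ⟨b, M, hb, hb0, hM, hMmap⟩ := exists_common_denom (Δ := Δ) ρ m
    have h0 : ρ (M.eval η) = 0 := by
      have : ρ (M.eval η) = (M.map ρ).eval (ρ η) := by rw [eval_map, eval₂_at_apply]
      rw [this, hMmap, eval_mul, eval_C]
      have : (m.map (kap0 Δ ρ).subtype).eval (ρ η) = 0 := by
        rw [eval_map]
        exact minpoly.aeval (kap0 Δ ρ) (ρ η)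
      rw [this, mul_zero]
    have h1 := hker e _ h0
    rw [smul_eval_of_isInv M hM e η] at h1
    have : ρ (M.eval (e • η)) = (M.map ρ).eval (ρ (e • η)) := by rw [eval_map, eval₂_at_apply]
    rw [this, hMmap, eval_mul, eval_C] at h1
    rcases mul_eq_zero.1 h1 with h2 | h2
    · exact absurd h2 hb0
    · exact h2
  have hmne : m.map (kap0 Δ ρ).subtype ≠ 0 :=
    (Polynomial.map_ne_zero_iff (kap0 Δ ρ).subtype.injective).2 (minpoly.ne_zero hint)
  have hcard : Fintype.card Δ ≤ m.natDegree := by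
    have hinj : Function.Injective fun e : Δ => ρ (e • η) := fun e e' h => hdist e e' h
    have hsub : (Finset.univ.image fun e : Δ => ρ (e • η)).val ⊆
        (m.map (kap0 Δ ρ).subtype).roots := by
      intro x hx
      rw [Finset.mem_val, Finset.mem_image] at hx
      obtain ⟨e, -, rfl⟩ := hx
      rw [mem_roots hmne]
      exact hmroot e
    have := Polynomial.card_le_degree_of_subset_roots hsub
    rw [Finset.card_image_of_injective _ hinj, Finset.card_univ, natDegree_map] at this
    exact this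
  have hPm : P = m := by
    refine Polynomial.eq_of_monic_of_dvd_of_natDegree_le (minpoly.monic hint) hPmon hmdvd ?_
    rw [hPdeg, hdegbar]
    exact hcard
  rw [hPm]
  exact minpoly.irreducible hint

end Irreducible

end

end Fermat.Agent.T4.helper43
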