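import Mathlib
import Fermat.Agent.T4.helper43_Igusa1Alg

/-!
# T4 block (I), [IGUSA1]: the step at one auxiliary prime (helper43)

Mathlib only.  `igusa_prime`: in the abstract setting of `helper43_Igusa1Alg` (ring `R` with a
finite group `Δ` of automorphisms, reduction `ρ : R →+* 𝒦`), let `s : Δ` (the diamond of an
auxiliary prime `p`) and let

* `B, B₁ : 𝒦 →+* E`, `T b : 𝒦 →+* E` (`b` in a finite index type) be field embeddings
  (`q ↦ t ^ p`, `q ↦ t ^ (p ^ 2)`, `q ↦ ζ ^ b t`),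
* `hchar` : the coefficients of `(X - B₁ (ρ f)) * ∏ b, (X - T b (ρ (s • f)))` are of the form
  `B (ρ c)` (reduction of the `T_p`-conjugates),
* `x` : a pivot fixed by `s` such that `B₁ (ρ x) = B a` where `a` is not a root of a monic
  polynomial of degree `|Δ|` over `kap0 ρ`, and `∏ b, (X - T b (ρ x))` is irreducible over
  `B 𝒦`, with pairwise distinct roots,
* `Λ` : an infinite set of constants.

Then `ρ f = 0 → ρ (s • f) = 0`.
-/

set_option autoImplicit false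
set_option linter.unusedSectionVars false
set_option linter.style.haveILetI false

namespace Fermat.Agent.T4.helper43

open Polynomial

noncomputable section

variable {R 𝒦 E : Type*} [CommRing R] [Field 𝒦] [Field E] {Δ : Type*} [Group Δ] [Fintype Δ]
  [MulSemiringAction Δ R]

/-- the reduced `T_p`-polynomial of `f` -/
def psiBar (ρ : R →+* 𝒦) (s : Δ) {ι : Type*} [Fintype ι] (B₁ : 𝒦 →+* E) (T : ι → 𝒦 →+* E)
    (f : R) : E[X] :=
  (X - C (B₁ (ρ f))) * ∏ b, (X - C (T b (ρ (s • f))))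

theorem psiBar_monic (ρ : R →+* 𝒦) (s : Δ) {ι : Type*} [Fintype ι] (B₁ : 𝒦 →+* E)
    (T : ι → 𝒦 →+* E) (f : R) : (psiBar ρ s B₁ T f).Monic :=
  (monic_X_sub_C _).mul (monic_prod_of_monic _ _ (fun _ _ => monic_X_sub_C _))

theorem psiBar_eval₁ (ρ : R →+* 𝒦) (s : Δ) {ι : Type*} [Fintype ι] (B₁ : 𝒦 →+* E)
    (T : ι → 𝒦 →+* E) (f : R) : (psiBar ρ s B₁ T f).eval (B₁ (ρ f)) = 0 := by
  rw [psiBar, eval_mul, eval_sub, eval_X, eval_C, sub_self, zero_mul]

theorem psiBar_eval₂ (ρ : R →+* 𝒦) (s : Δ) {ι : Type*} [Fintype ι] (B₁ : 𝒦 →+* E)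
    (T : ι → 𝒦 →+* E) (f : R) (b : ι) : (psiBar ρ s B₁ T f).eval (T b (ρ (s • f))) = 0 := by
  rw [psiBar, eval_mul, eval_prod, Finset.prod_eq_zero (Finset.mem_univ b), mul_zero]
  rw [eval_sub, eval_X, eval_C, sub_self]

/-- **[IGUSA1], the step at one auxiliary prime.** -/
theorem igusa_prime (ρ : R →+* 𝒦) (s : Δ) {ι : Type*} [Fintype ι] (i₀ : ι)
    (B B₁ : 𝒦 →+* E) (T : ι → 𝒦 →+* E)
    (hchar : ∀ f : R, ∀ n : ℕ, ∃ c : R, B (ρ c) = (psiBar ρ s B₁ T f).coeff n)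
    (x : R) (hx : s • x = x) (a : 𝒦) (ha : B a = B₁ (ρ x))
    (hdeg : ∀ P : 𝒦[X], P.Monic → P.natDegree = Fintype.card Δ →
      (∀ n, P.coeff n ∈ kap0 Δ ρ) → P.eval a ≠ 0)
    (Q₁ : 𝒦[X]) (hQ₁ : Irreducible Q₁) (hQ₁map : Q₁.map B = ∏ b, (X - C (T b (ρ x))))
    (hT : ∀ b, T b (ρ x) = T i₀ (ρ x) → b = i₀) (hne : T i₀ (ρ x) ≠ B₁ (ρ x))
    (Λ : Set R) (hΛ : Λ.Infinite) (hΛs : ∀ l ∈ Λ, s • l = l)
    (hΛB : ∀ l ∈ Λ, B₁ (ρ l) = B (ρ l) ∧ ∀ b, T b (ρ l) = B (ρ l)) (hΛinj : Set.InjOn ρ Λ)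
    (f : R) (hf : ρ f = 0) : ρ (s • f) = 0 := by
  classical
  -- the field of coefficients
  let F : Subfield 𝒦 := kap Δ ρ
  letI algFE : Algebra F E := (B.comp F.subtype).toAlgebra
  have halgFE : ∀ c : F, algebraMap F E c = B (c : 𝒦) := fun _ => rfl
  -- the polynomial `Q = (X - a) * Q₁` and its lift to `F`
  have hQE : ((X - C a) * Q₁).map B = psiBar ρ s B₁ T x := by
    rw [psiBar, Polynomial.map_mul, Polynomial.map_sub, map_X, map_C, ha, hQ₁map, hx]
  have hQ₁mon : Q₁.Monic := by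
    apply monic_of_injective B.injective
    rw [hQ₁map]
    exact monic_prod_of_monic _ _ (fun _ _ => monic_X_sub_C _)
  have hQmon : ((X - C a) * Q₁).Monic := (monic_X_sub_C a).mul hQ₁mon
  have hQlifts : (X - C a) * Q₁ ∈ Polynomial.lifts F.subtype := by
    rw [Polynomial.lifts_iff_coeff_lifts]
    intro n
    obtain ⟨c, hc⟩ := hchar x n
    rw [← hQE, coeff_map] at hc
    have : ((X - C a) * Q₁).coeff n = ρ c := (B.injective hc).symm
    rw [this]
    exact ⟨⟨ρ c, map_mem_kap ρ c⟩, rfl⟩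
  obtain ⟨Qk, hQkmap, -, hQkmon⟩ := Polynomial.lifts_and_natDegree_eq_and_monic hQlifts hQmon
  have haF : a ∉ Set.range F.subtype := by
    rintro ⟨⟨a', ha'⟩, rfl⟩
    obtain ⟨P, hPmon, hPdeg, hPcoeff, hPev⟩ := exists_monic_of_mem_kap ρ ha'
    exact hdeg P hPmon hPdeg hPcoeff hPev
  have hQkirr : Irreducible Qk :=
    irreducible_of_map_eq_linear_mul F.subtype Qk a Q₁ hQ₁ hQkmap haF
  have hQkE : Qk.map (algebraMap F E) = psiBar ρ s B₁ T x := by
    have : algebraMap F E = B.comp F.subtype := rfl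
    rw [this, ← Polynomial.map_map, hQkmap, hQE]
  -- the relative algebraic closure and the big field
  let Ea : IntermediateField F E := algebraicClosure F E
  let Ω := AlgebraicClosure E
  -- all the roots are algebraic over `F`
  have hpsi_lift : ∀ g : R, ∃ Ψ : F[X], Ψ.Monic ∧ Ψ.map (algebraMap F E) = psiBar ρ s B₁ T g := by
    intro g
    have hl : psiBar ρ s B₁ T g ∈ Polynomial.lifts (algebraMap F E) := by
      rw [Polynomial.lifts_iff_coeff_lifts]
      intro n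
      obtain ⟨c, hc⟩ := hchar g n
      exact ⟨⟨ρ c, map_mem_kap ρ c⟩, hc⟩
    obtain ⟨Ψ, hΨ, -, hΨmon⟩ :=
      Polynomial.lifts_and_natDegree_eq_and_monic hl (psiBar_monic ρ s B₁ T g)
    exact ⟨Ψ, hΨmon, hΨ⟩
  have hint₁ : ∀ g : R, B₁ (ρ g) ∈ Ea := by
    intro g
    obtain ⟨Ψ, hΨmon, hΨ⟩ := hpsi_lift g
    rw [mem_algebraicClosure_iff']
    refine ⟨Ψ, hΨmon, ?_⟩
    rw [← eval_map, hΨ]
    exact psiBar_eval₁ ρ s B₁ T g
  have hint₂ : ∀ (b : ι) (g : R), T b (ρ (s • g)) ∈ Ea := by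
    intro b g
    obtain ⟨Ψ, hΨmon, hΨ⟩ := hpsi_lift g
    rw [mem_algebraicClosure_iff']
    refine ⟨Ψ, hΨmon, ?_⟩
    rw [← eval_map, hΨ]
    exact psiBar_eval₂ ρ s B₁ T g b
  -- the evaluation maps into `Ea`
  let σs : R →+* R := MulSemiringAction.toRingHom Δ R s
  have hσs : ∀ g, σs g = s • g := fun _ => rfl
  let ev₁ : R →+* Ea := RingHom.codRestrict (B₁.comp ρ) Ea hint₁
  let ev₂ : ι → R →+* Ea := fun b =>
    RingHom.codRestrict (((T b).comp ρ).comp σs) Ea (fun g => hint₂ b g)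
  have hev₁ : ∀ g, ((ev₁ g : Ea) : E) = B₁ (ρ g) := fun _ => rfl
  have hev₂ : ∀ b g, ((ev₂ b g : Ea) : E) = T b (ρ (s • g)) := fun _ _ => rfl
  -- the embedding `φ`
  have hx₁root : aeval (ev₁ x : E) Qk = 0 := by
    rw [aeval_def, ← eval_map, hQkE, hev₁]
    exact psiBar_eval₁ ρ s B₁ T x
  have hminpoly : minpoly F (ev₁ x) = Qk := by
    rw [IntermediateField.minpoly_eq]
    exact (minpoly.eq_of_irreducible_of_monic hQkirr hx₁root hQkmon).symm
  have hy : aeval (algebraMap E Ω (T i₀ (ρ x))) (minpoly F (ev₁ x)) = 0 := by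
    rw [hminpoly, aeval_algebraMap_apply, aeval_def, ← eval_map, hQkE]
    have := psiBar_eval₂ ρ s B₁ T x i₀
    rw [hx] at this
    rw [this, map_zero]
  obtain ⟨φ, hφ⟩ := IntermediateField.exists_algHom_of_splits_of_aeval
    (F := F) (E := Ea) (K := Ω)
    (fun z => ⟨(Algebra.IsIntegral.isIntegral z), IsAlgClosed.splits _⟩) hy
  -- apply the core lemma
  let inc : Ea →+* Ω := (algebraMap E Ω).comp (algebraMap Ea E)
  have hinc : ∀ z : Ea, inc z = algebraMap E Ω (z : E) := fun _ => rfl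
  let κ : Subfield Ea := (algebraMap F Ea).fieldRange
  have hmemκ : ∀ (z : Ea) (c : R), (z : E) = B (ρ c) → z ∈ κ := by
    intro z c hz
    refine ⟨⟨ρ c, map_mem_kap ρ c⟩, ?_⟩
    apply Subtype.ext
    rw [hz]
    rfl
  have key := igusa_core_ker ev₁ ev₂ i₀ inc φ.toRingHom κ ?_ ?_ x ?_ ?_ ?_ Λ hΛ ?_ ?_ ?_ f ?_
  · have h2 : T i₀ (ρ (s • f)) = 0 := by
      rw [← hev₂, key]
      rfl
    exact (map_eq_zero (T i₀)).1 h2
  · -- `φ` fixes `κ`
    rintro z ⟨c, rfl⟩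
    show φ (algebraMap F Ea c) = inc (algebraMap F Ea c)
    rw [φ.commutes, hinc, IsScalarTower.algebraMap_apply F E Ω c]
    rfl
  · -- coefficients
    intro g n
    obtain ⟨c, hc⟩ := hchar g n
    refine hmemκ _ c ?_
    rw [hc]
    have hmapval : ((X - C (ev₁ g)) * ∏ b, (X - C (ev₂ b g))).map (algebraMap Ea E) =
        psiBar ρ s B₁ T g := by
      rw [psiBar, Polynomial.map_mul, Polynomial.map_sub, map_X, map_C, Polynomial.map_prod]
      congr 1
      refine Finset.prod_congr rfl fun b _ => ?_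
      rw [Polynomial.map_sub, map_X, map_C]
      rfl
    rw [← hmapval, coeff_map]
    rfl
  · -- the pivot
    show φ (ev₁ x) = inc (ev₂ i₀ x)
    rw [hφ, hinc, hev₂, hx]
  · intro h
    apply hne
    have := congrArg (fun z : Ea => (z : E)) h
    simp only [hev₁, hev₂, hx] at this
    exact this
  · intro b h
    apply hT
    have := congrArg (fun z : Ea => (z : E)) h
    simp only [hev₂, hx] at this
    exact this
  · -- constants
    intro l hl
    exact hmemκ _ l (by rw [hev₁, (hΛB l hl).1])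
  · intro l hl b
    apply Subtype.ext
    rw [hev₂, hev₁, hΛs l hl, (hΛB l hl).1, (hΛB l hl).2 b]
  · intro l hl l' hl' h
    have := congrArg (fun z : Ea => (z : E)) h
    simp only [hev₁] at this
    exact hΛinj hl hl' (B₁.injective this)
  · apply Subtype.ext
    rw [hev₁, hf, map_zero]
    rfl

end

end Fermat.Agent.T4.helper43
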