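import Fermat.Agent.T4.helper44_WpInt
import Fermat.Agent.T4.helper4_IgusaDefs

/-!
# T4 block (I), IGUSA1 leaf [IG-MEM-S] (helper44): the functions `s_a` are `S`-integral modular
functions of level `Γ(M)`

* `sA M hM a ha : GA (Gamma M) M` : the function `s_a` as an element of helper32's algebra
  (UNCONDITIONAL: invariance under `Γ(M)`, all translates holomorphic with a `q_M`-expansion);
* `memS_of_leadUnit : 4 ≤ M → LeadUnit M S → zetaM M ∈ S → helper4.Ig.MemSStatement M S`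
  (VERBATIM; the only input is the lead-unit statement `LeadUnit M S` of `helper44_WpIntA`);
* `EA_sA_lead` : for `a ≠ ± 1` every expansion `EA γ (s_a)` is `single k u * ofPowerSeries p`
  with `u` a unit of `S`, `p ∈ S[[t]]`, `p(0) = 1` (input of CUSP1).
-/

set_option autoImplicit false
set_option linter.unusedSectionVars false

noncomputable section

namespace Fermat.Agent.T4.helper44

open UpperHalfPlane CongruenceSubgroup
open Fermat.Agent.T4.helper32.Conj1 Fermat.Agent.S28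
open Fermat.Agent.T4.helper24 (sFn)
open scoped MatrixGroups Manifold

variable (M : ℕ) [NeZero M]

/-- `s_a` is a modular function of level `Γ(M)` (in the sense of `helper32.Conj1.GA`) -/
theorem sFn_mem_GA (hM : 4 ≤ M) (a : ZMod M) (ha : a ≠ 0) : sFn M a ∈ GA (Gamma M) M := by
  refine ⟨fun γ hγ τ => ?_, fun γ => ?_⟩
  · have hγ1 : γ ∈ Gamma1 M := by
      rw [Gamma_mem] at hγ
      rw [Gamma1_mem]
      exact ⟨hγ.1, hγ.2.2.2, hγ.2.2.1⟩
    exact x1_inv M (by omega) a ha γ hγ1 τ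
  · have hholo := sFn_comp_mem_holoExp M hM γ a ha
    exact ⟨hholo.1, exists_hasExp_of_holoExp hholo (sFn_comp_vadd M hM γ a ha)⟩

/-- `s_a` as an element of `GA (Gamma M) M` -/
def sA (hM : 4 ≤ M) (a : ZMod M) (ha : a ≠ 0) : GA (Gamma M) M := ⟨sFn M a, sFn_mem_GA M hM a ha⟩

@[simp]
theorem coe_sA (hM : 4 ≤ M) (a : ZMod M) (ha : a ≠ 0) :
    ((sA M hM a ha : GA (Gamma M) M) : ℍ → ℂ) = sFn M a := rfl

variable {M}

/-- all expansions of `s_a` have coefficients in `S` -/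
theorem sA_mem_BS (hM : 4 ≤ M) {S : Subring ℂ} (hL : LeadUnit M S) (hζ : zetaM M ∈ S)
    (a : ZMod M) (ha : a ≠ 0) : sA M hM a ha ∈ BS (Gamma M) M S := by
  rw [mem_BS_iff]
  intro γ n
  obtain ⟨-, s, hs, hsS, -⟩ := sFn_translate M hM hL hζ γ a ha
  rw [EA_eq (Gamma M) M γ (sA M hM a ha) hs]
  exact hsS n

/-- `s_a` as an element of `BS (Gamma M) M S` -/
def sB (hM : 4 ≤ M) {S : Subring ℂ} (hL : LeadUnit M S) (hζ : zetaM M ∈ S)
    (a : ZMod M) (ha : a ≠ 0) : BS (Gamma M) M S := ⟨sA M hM a ha, sA_mem_BS hM hL hζ a ha⟩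

@[simp]
theorem coe_sB (hM : 4 ≤ M) {S : Subring ℂ} (hL : LeadUnit M S) (hζ : zetaM M ∈ S)
    (a : ZMod M) (ha : a ≠ 0) :
    (((sB hM hL hζ a ha : BS (Gamma M) M S) : GA (Gamma M) M) : ℍ → ℂ) = sFn M a := rfl

/-- **[IG-MEM-S]** the functions `s_a` are `S`-integral modular functions of level `Γ(M)`, as soon
as `ζ_M ∈ S` and the lead-unit statement holds for `S`. -/
theorem memS_of_leadUnit (hM : 4 ≤ M) (S : Subring ℂ) (hL : LeadUnit M S) (hζ : zetaM M ∈ S) :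
    Fermat.Agent.T4.helper4.Ig.MemSStatement M S :=
  fun a ha => ⟨sB hM hL hζ a ha, rfl⟩

/-- **unit leading coefficients**: for `a ≠ 0, ± 1` every expansion of `s_a` is
`single k u * ofPowerSeries p` with `u` a unit of `S`, `p ∈ S[[t]]`, `p(0) = 1`. -/
theorem EA_sA_lead (hM : 4 ≤ M) {S : Subring ℂ} (hL : LeadUnit M S) (hζ : zetaM M ∈ S)
    (a : ZMod M) (ha : a ≠ 0) (h1 : a ≠ 1) (h2 : a ≠ -1) (γ : SL(2, ℤ)) :
    ∃ (k : ℤ) (u v : ℂ) (p : PowerSeries ℂ), u ∈ S ∧ v ∈ S ∧ u * v = 1 ∧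
      PowerSeries.constantCoeff p = 1 ∧ (∀ n, p.coeff n ∈ S) ∧
      EA (Gamma M) M γ (sA M hM a ha) =
        HahnSeries.single k u * HahnSeries.ofPowerSeries ℤ ℂ p := by
  obtain ⟨-, s, hs, -, hlead⟩ := sFn_translate M hM hL hζ γ a ha
  obtain ⟨k, u, v, p, hu, hv, huv, hp0, hpS, e⟩ := hlead h1 h2
  exact ⟨k, u, v, p, hu, hv, huv, hp0, hpS, by rw [EA_eq (Gamma M) M γ (sA M hM a ha) hs, e]⟩

/-- the expansion of ANY element of `GA` with function `s_a` -/
theorem EA_of_coe_eq_sFn (hM : 4 ≤ M) (a : ZMod M) (ha : a ≠ 0) (f : GA (Gamma M) M)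
    (hf : (f : ℍ → ℂ) = sFn M a) : f = sA M hM a ha := Subtype.ext hf

end Fermat.Agent.T4.helper44

end
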