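import Mathlib
import Fermat.Agent.T4.helper44_WpRow

/-!
# T4 (I) / [I-FLD-WP] (helper44): the closed form of a row

`∑_{n ∈ ℤ} 1 / (x + n)² = (2 π i)² w / (1 - w)²`, `w = e^{2 π i x}`, for every `x ∈ ℂ ∖ ℤ`
(in particular for real `x`: the constant terms of the cusp expansions of the division values).
Mathlib only.
-/

set_option autoImplicit false

open Complex Filter Topology
open scoped Real

namespace Fermat.Agent.T4.helper44

noncomputable section

/-- the closed form `w / (1 - w)²` -/
def rowW (x : ℂ) : ℂ := cexp (2 * π * I * x) / (1 - cexp (2 * π * I * x)) ^ 2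

lemma norm_cexp_lt_one {x : ℂ} (hx : 0 < x.im) : ‖cexp (2 * π * I * x)‖ < 1 := by
  rw [Complex.norm_exp]
  have : (2 * π * I * x).re = -(2 * π * x.im) := by
    simp [Complex.mul_re]
  rw [this, Real.exp_lt_one_iff]
  have := Real.pi_pos
  nlinarith

/-- the closed form in the upper half plane -/
lemma rowS_eq_of_im_pos {x : ℂ} (hx : 0 < x.im) : rowS x = (2 * π * I) ^ 2 * rowW x := by
  have h1 := hasSum_rowS_of_im_pos hx
  have h2 := hasSum_coe_mul_geometric_of_norm_lt_one (norm_cexp_lt_one hx)
  have h3 : HasSum (fun d : ℕ+ => ((d : ℕ) : ℂ) * cexp (2 * π * I * x) ^ (d : ℕ)) (rowW x) := by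
    refine (Function.Injective.hasSum_iff PNat.coe_injective ?_).mpr h2
    intro n hn
    rcases Nat.eq_zero_or_pos n with rfl | hpos
    · simp
    · exact absurd ⟨⟨n, hpos⟩, rfl⟩ hn
  exact h1.unique (h3.mul_left _)

lemma cexp_ne_one {x : ℂ} (hx : ∀ n : ℤ, x ≠ n) : cexp (2 * π * I * x) ≠ 1 := by
  intro h
  obtain ⟨n, hn⟩ := Complex.exp_eq_one_iff.mp h
  apply hx n
  have hpi : (2 * π * I : ℂ) ≠ 0 := by
    simp [Real.pi_ne_zero, Complex.I_ne_zero]
  have : (2 * π * I) * x = (2 * π * I) * n := by rw [hn]; ring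
  exact mul_left_cancel₀ hpi this

lemma rowW_neg {x : ℂ} (hx : ∀ n : ℤ, x ≠ n) : rowW (-x) = rowW x := by
  have h1 := cexp_ne_one hx
  have h0 : cexp (2 * π * I * x) ≠ 0 := Complex.exp_ne_zero _
  have h2 : (1 : ℂ) - cexp (2 * π * I * x) ≠ 0 := sub_ne_zero.mpr (Ne.symm h1)
  simp only [rowW]
  have e : cexp (2 * π * I * -x) = (cexp (2 * π * I * x))⁻¹ := by
    rw [← Complex.exp_neg]; congr 1; ring
  rw [e]
  have h3 : (1 : ℂ) - (cexp (2 * π * I * x))⁻¹ ≠ 0 := by
    intro h
    apply h1
    have := sub_eq_zero.mp h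
    rw [eq_comm, inv_eq_one] at this
    exact this
  field_simp
  ring

/-- continuity of the rows at a real point, from above -/
lemma tendsto_rowS_real {x : ℂ} (hx : ∀ n : ℤ, x ≠ n) (hx0 : 0 ≤ x.im) :
    Tendsto (fun ε : ℝ => rowS (x + ε * I)) (𝓝[>] 0) (𝓝 (rowS x)) := by
  unfold rowS
  have hb : Summable fun n : ℤ => ‖1 / (x + n) ^ 2‖ := (summable_rowS x).norm
  refine tendsto_tsum_of_dominated_convergence hb (fun n => ?_) ?_
  · have hne : x + n ≠ 0 := by
      intro h
      apply hx (-n)
      push_cast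
      linear_combination h
    have hc : ContinuousAt (fun ε : ℝ => 1 / (x + ε * I + n) ^ 2) 0 := by
      have h0 : (x + ((0 : ℝ) : ℂ) * I + n) ^ 2 ≠ 0 := by
        simpa using hne
      refine ContinuousAt.div continuousAt_const ?_ h0
      fun_prop
    have := hc.tendsto
    simp only [ofReal_zero, zero_mul, add_zero] at this
    exact tendsto_nhdsWithin_of_tendsto_nhds this
  · filter_upwards [self_mem_nhdsWithin] with ε hε n
    have hε' : (0 : ℝ) < ε := hε
    rw [norm_div, norm_div, norm_one, norm_pow, norm_pow]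
    have hne : x + n ≠ 0 := by
      intro h
      apply hx (-n)
      push_cast
      linear_combination h
    have hpos : 0 < ‖x + n‖ := norm_pos_iff.mpr hne
    have hle : ‖x + n‖ ≤ ‖x + ε * I + n‖ := by
      rw [Complex.norm_eq_sqrt_sq_add_sq, Complex.norm_eq_sqrt_sq_add_sq]
      apply Real.sqrt_le_sqrt
      simp only [add_re, intCast_re, add_im, intCast_im, add_zero, mul_re, ofReal_re, I_re,
        mul_zero, ofReal_im, I_im, mul_one, sub_self, mul_im]
      nlinarith
    apply one_div_le_one_div_of_le (by positivity)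
    gcongr

/-- **the closed form of a row**, for every `x ∈ ℂ ∖ ℤ` -/
theorem rowS_eq {x : ℂ} (hx : ∀ n : ℤ, x ≠ n) : rowS x = (2 * π * I) ^ 2 * rowW x := by
  have key : ∀ y : ℂ, (∀ n : ℤ, y ≠ n) → 0 ≤ y.im → rowS y = (2 * π * I) ^ 2 * rowW y := by
    intro y hy hy0
    rcases hy0.lt_or_eq with h | h
    · exact rowS_eq_of_im_pos h
    · have h1 := tendsto_rowS_real hy hy0
      have h2 : Tendsto (fun ε : ℝ => (2 * π * I) ^ 2 * rowW (y + ε * I)) (𝓝[>] 0)
          (𝓝 ((2 * π * I) ^ 2 * rowW y)) := by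
        have hc : ContinuousAt (fun ε : ℝ => (2 * π * I) ^ 2 * rowW (y + ε * I)) 0 := by
          unfold rowW
          have hne : (1 - cexp (2 * π * I * (y + ((0 : ℝ) : ℂ) * I))) ^ 2 ≠ 0 := by
            have := cexp_ne_one hy
            simp only [ofReal_zero, zero_mul, add_zero]
            exact pow_ne_zero 2 (sub_ne_zero.mpr (Ne.symm this))
          refine ContinuousAt.mul continuousAt_const (ContinuousAt.div ?_ ?_ hne)
          · fun_prop
          · fun_prop
        have := hc.tendsto
        simp only [ofReal_zero, zero_mul, add_zero] at this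
        exact tendsto_nhdsWithin_of_tendsto_nhds this
      have h3 : (fun ε : ℝ => rowS (y + ε * I)) =ᶠ[𝓝[>] 0]
          fun ε : ℝ => (2 * π * I) ^ 2 * rowW (y + ε * I) := by
        filter_upwards [self_mem_nhdsWithin] with ε hε
        have hε' : (0 : ℝ) < ε := hε
        apply rowS_eq_of_im_pos
        simp only [add_im, mul_im, ofReal_re, I_im, mul_one, ofReal_im, I_re, mul_zero, add_zero]
        linarith
      exact tendsto_nhds_unique h1 (h2.congr' h3.symm)
  rcases le_or_gt 0 x.im with h | h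
  · exact key x hx h
  · have hx' : ∀ n : ℤ, -x ≠ n := fun n hn => hx (-n) (by push_cast; rw [← hn]; ring)
    have := key (-x) hx' (by simp; linarith)
    rw [rowS_neg, rowW_neg hx] at this
    exact this

end

end Fermat.Agent.T4.helper44
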