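import Mathlib
import Fermat.Agent.T4.helper44_WpDiv

/-!
# T4 (I) / [CUSP-INT] part A (helper44): sparse coefficients and re-indexing

* `cDiv_eq_zero_of_not_dvd` : if `D ∣ M` and `D ∣ r` then `cDiv M r s e = 0` unless `D ∣ e`;
* `pco`, `hasSum_pco` : if `c e = 0` unless `D ∣ e` and `Q ^ D = ξ t ^ A`, then
  `∑ c e Q ^ e = ∑ pco c ξ D A m t ^ m`.
* `LeadUnit M S` : the statement "the `q_M`-expansion of a difference of two division values has
  coefficients in `(2πi)² S` and a unit of `S` as first non-zero coefficient".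

Mathlib + `helper44_WpDiv` only.
-/

set_option autoImplicit false

open Complex Filter Topology
open scoped Real

namespace Fermat.Agent.T4.helper44

noncomputable section

/-! ### sparse coefficients -/

lemma wt_eq_zero_of_not_dvd {M D : ℕ} (hD : D ∣ M) {r : ℤ} (hr : (D : ℤ) ∣ r) {x : ℕ}
    (hx : ¬ D ∣ x) : wt M r (x : ℤ) = 0 := by
  unfold wt
  rw [if_neg]
  intro h
  apply hx
  have h2 := (ZMod.intCast_eq_intCast_iff_dvd_sub (x : ℤ) r M).mp h
  have h3 : (D : ℤ) ∣ r - x := (Int.natCast_dvd_natCast.mpr hD).trans h2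
  have h4 : (D : ℤ) ∣ (x : ℤ) := by
    have := dvd_sub hr h3
    simpa using this
  exact Int.natCast_dvd_natCast.mp h4

lemma lamCoeff_wt_eq_zero {M D : ℕ} (hD : D ∣ M) {r : ℤ} (hr : (D : ℤ) ∣ r) (u : ℂ) {e : ℕ}
    (he : ¬ D ∣ e) : lamCoeff u (fun k => wt M r k) e = 0 := by
  unfold lamCoeff
  refine Finset.sum_eq_zero fun x hx => ?_
  have hx' := Nat.mem_divisorsAntidiagonal.mp hx
  have h1 : ¬ D ∣ x.1 := fun h => he (hx'.1 ▸ Dvd.dvd.mul_right h x.2)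
  show wt M r (x.1 : ℤ) * (x.2 : ℂ) * u ^ x.2 = 0
  rw [wt_eq_zero_of_not_dvd hD hr h1]
  ring

/-- **sparseness**: if `D ∣ M` and `D ∣ r`, only the exponents divisible by `D` occur. -/
theorem cDiv_eq_zero_of_not_dvd {M D : ℕ} (hD : D ∣ M) {r : ℤ} (hr : (D : ℤ) ∣ r) (s : ℤ)
    {e : ℕ} (he : ¬ D ∣ e) : cDiv M r s e = 0 := by
  have he0 : e ≠ 0 := fun h => he (h ▸ dvd_zero D)
  unfold cDiv
  rw [lamCoeff_wt_eq_zero hD hr _ he, lamCoeff_wt_eq_zero hD ((dvd_neg).mpr hr) _ he, if_neg he0]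
  ring

/-! ### re-indexing -/

/-- the coefficients after the substitution `Q ^ D = ξ t ^ A` -/
def pco (c : ℕ → ℂ) (ξ : ℂ) (D A : ℕ) (m : ℕ) : ℂ :=
  if A ∣ m then c (D * (m / A)) * ξ ^ (m / A) else 0

lemma pco_mul (c : ℕ → ℂ) (ξ : ℂ) (D : ℕ) {A : ℕ} (hA : 0 < A) (n : ℕ) :
    pco c ξ D A (A * n) = c (D * n) * ξ ^ n := by
  unfold pco
  rw [if_pos (dvd_mul_right A n), Nat.mul_div_cancel_left n hA]

lemma pco_of_not_dvd (c : ℕ → ℂ) (ξ : ℂ) (D : ℕ) {A m : ℕ} (h : ¬ A ∣ m) :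
    pco c ξ D A m = 0 := by
  unfold pco
  rw [if_neg h]

theorem hasSum_pco {c : ℕ → ℂ} {Q t ξ F : ℂ} {D A : ℕ} (hD : 0 < D) (hA : 0 < A)
    (hQ : Q ^ D = ξ * t ^ A) (hc : ∀ e, ¬ D ∣ e → c e = 0)
    (h : HasSum (fun e => c e * Q ^ e) F) :
    HasSum (fun m => pco c ξ D A m * t ^ m) F := by
  have hinjD : Function.Injective (fun n : ℕ => D * n) := fun a b hab =>
    Nat.eq_of_mul_eq_mul_left hD hab
  have hinjA : Function.Injective (fun n : ℕ => A * n) := fun a b hab =>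
    Nat.eq_of_mul_eq_mul_left hA hab
  have h1 : HasSum (fun n : ℕ => c (D * n) * Q ^ (D * n)) F := by
    refine (Function.Injective.hasSum_iff hinjD (f := fun e => c e * Q ^ e) ?_).mpr h
    intro x hx
    have : ¬ D ∣ x := by
      rintro ⟨k, rfl⟩
      exact hx ⟨k, rfl⟩
    rw [hc x this, zero_mul]
  have h2 : HasSum ((fun m => pco c ξ D A m * t ^ m) ∘ fun n : ℕ => A * n) F := by
    refine h1.congr_fun ?_ |>.mono_left le_rfl
    intro n
    simp only [Function.comp_apply]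
    rw [pco_mul c ξ D hA, pow_mul Q, hQ, mul_pow, ← pow_mul t]
    ring
  refine (Function.Injective.hasSum_iff hinjA ?_).mp h2
  intro x hx
  have : ¬ A ∣ x := by
    rintro ⟨k, rfl⟩
    exact hx ⟨k, rfl⟩
  rw [pco_of_not_dvd c ξ D this, zero_mul]

/-! ### the lead-unit statement -/

/-- **[FRICKE-LEAD] as a `Prop`**: the `q_M`-expansion of a difference of two division values of
`℘` (at two non-zero division points which are different up to sign) has all its coefficients in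
`(2πi)² S` and a unit of `S` (times `(2πi)²`) as first non-zero coefficient. -/
def LeadUnit (M : ℕ) (S : Subring ℂ) : Prop :=
  ∀ r s r' s' : ℤ, ¬ ((M : ℤ) ∣ r ∧ (M : ℤ) ∣ s) → ¬ ((M : ℤ) ∣ r' ∧ (M : ℤ) ∣ s') →
    ¬ ((M : ℤ) ∣ r - r' ∧ (M : ℤ) ∣ s - s') → ¬ ((M : ℤ) ∣ r + r' ∧ (M : ℤ) ∣ s + s') →
    ∃ n : ℕ, ∃ u ∈ S, ∃ v ∈ S, u * v = 1 ∧
      (∀ e < n, cDiv M r s e - cDiv M r' s' e = 0) ∧
      cDiv M r s n - cDiv M r' s' n = (2 * π * I) ^ 2 * u ∧
      ∀ e, ∃ c ∈ S, cDiv M r s e - cDiv M r' s' e = (2 * π * I) ^ 2 * c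

end

end Fermat.Agent.T4.helper44
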