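import Mathlib
import Fermat.Agent.T4.helper44_WpIntA
import Fermat.Agent.T4.helper44_WpConst

/-!
# T4 (I) / [CUSP-INT] lead unit, part A (helper44): cyclotomic units and the coefficients of one
division value

For a subring `S ⊆ ℂ` with `ζ_M ∈ S` and `1/M ∈ S`:

* `IsU S x` : `x` is a unit of `S`; `isU_zeta_zpow`, `isU_one_sub_zeta` (`1 - ζ^x`, `M ∤ x`),
  `isU_zeta_sub_zeta` (`ζ^s - ζ^s'`, `M ∤ s - s'`);
* `vRes M r = (r mod M) ∈ [0, M)`;
* `lamCoeff_wt_low`, `lamCoeff_wt_lead` : the first coefficients of the Lambert sums;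
* `cDiv_mem` : `cDiv M r s e ∈ (2πi)² S`;
* `cDiv_neg_neg` : `cDiv M (-r) (-s) e = cDiv M r s e`.

Mathlib + `helper44_WpDiv` / `WpConst` only.
-/

set_option autoImplicit false

open Complex Filter Topology
open scoped Real

namespace Fermat.Agent.T4.helper44

noncomputable section

/-! ### units of `S` -/

/-- `x` is a unit of the subring `S` -/
def IsU (S : Subring ℂ) (x : ℂ) : Prop := x ∈ S ∧ ∃ v ∈ S, x * v = 1

namespace IsU

variable {S : Subring ℂ} {x y : ℂ}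

lemma mem (h : IsU S x) : x ∈ S := h.1

lemma ne_zero (h : IsU S x) : x ≠ 0 := by
  obtain ⟨-, v, -, hv⟩ := h
  exact left_ne_zero_of_mul_eq_one hv

lemma inv_mem (h : IsU S x) : x⁻¹ ∈ S := by
  obtain ⟨-, v, hv, hxv⟩ := h
  have e : v = x⁻¹ := eq_inv_of_mul_eq_one_right hxv
  rw [← e]
  exact hv

lemma mul (hx : IsU S x) (hy : IsU S y) : IsU S (x * y) := by
  refine ⟨S.mul_mem hx.1 hy.1, x⁻¹ * y⁻¹, S.mul_mem hx.inv_mem hy.inv_mem, ?_⟩
  have := hx.ne_zero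
  have := hy.ne_zero
  field_simp

lemma inv (hx : IsU S x) : IsU S x⁻¹ :=
  ⟨hx.inv_mem, x, hx.1, inv_mul_cancel₀ hx.ne_zero⟩

lemma div (hx : IsU S x) (hy : IsU S y) : IsU S (x / y) := by
  rw [div_eq_mul_inv]
  exact hx.mul hy.inv

lemma neg (hx : IsU S x) : IsU S (-x) := by
  refine ⟨S.neg_mem hx.1, -x⁻¹, S.neg_mem hx.inv_mem, ?_⟩
  have := hx.ne_zero
  field_simp

lemma pow (hx : IsU S x) (n : ℕ) : IsU S (x ^ n) := by
  induction n with
  | zero => exact ⟨by simp, 1, S.one_mem, by simp⟩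
  | succ n ih => rw [pow_succ]; exact ih.mul hx

end IsU

variable (M : ℕ) [NeZero M] {S : Subring ℂ}

lemma zetaM_isPrimitiveRoot : IsPrimitiveRoot (zetaM M) M :=
  Complex.isPrimitiveRoot_exp M (NeZero.ne M)

omit [NeZero M] in
lemma zetaM_ne_zero : zetaM M ≠ 0 := Complex.exp_ne_zero _

lemma zetaM_pow_self' : zetaM M ^ M = 1 := (zetaM_isPrimitiveRoot M).pow_eq_one

/-- `ζ ^ k` depends only on `k mod M` -/
lemma zetaM_zpow_eq_pow (k : ℤ) : zetaM M ^ k = zetaM M ^ (k % (M : ℤ)).toNat := by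
  have hM : (M : ℤ) ≠ 0 := by exact_mod_cast NeZero.ne M
  have h0 : 0 ≤ k % (M : ℤ) := Int.emod_nonneg k hM
  have h1 : k = (M : ℤ) * (k / (M : ℤ)) + ((k % (M : ℤ)).toNat : ℤ) := by
    rw [Int.toNat_of_nonneg h0]
    exact (Int.mul_ediv_add_emod k M).symm
  conv_lhs => rw [h1]
  rw [zpow_add₀ (zetaM_ne_zero M), zpow_mul, zpow_natCast, zetaM_pow_self', one_zpow, one_mul,
    zpow_natCast]

lemma zetaM_zpow_mem' (hζ : zetaM M ∈ S) (k : ℤ) : zetaM M ^ k ∈ S := by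
  rw [zetaM_zpow_eq_pow]
  exact S.pow_mem hζ _

lemma isU_zeta_zpow (hζ : zetaM M ∈ S) (k : ℤ) : IsU S (zetaM M ^ k) := by
  refine ⟨zetaM_zpow_mem' M hζ k, zetaM M ^ (-k), zetaM_zpow_mem' M hζ (-k), ?_⟩
  rw [← zpow_add₀ (zetaM_ne_zero M), add_neg_cancel, zpow_zero]

/-- `1 - ζ ^ x` is a unit of `S` for `M ∤ x` (since `∏_{0 < k < M} (1 - ζ ^ k) = M`) -/
lemma isU_one_sub_zeta (hζ : zetaM M ∈ S) (hM : (M : ℂ)⁻¹ ∈ S) {x : ℤ} (hx : ¬ (M : ℤ) ∣ x) :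
    IsU S (1 - zetaM M ^ x) := by
  have hM0 : (M : ℤ) ≠ 0 := by exact_mod_cast NeZero.ne M
  have hMc : (M : ℂ) ≠ 0 := by exact_mod_cast NeZero.ne M
  have h0 : 0 ≤ x % (M : ℤ) := Int.emod_nonneg x hM0
  have hlt : x % (M : ℤ) < M := Int.emod_lt_of_pos x (by positivity)
  have hne : x % (M : ℤ) ≠ 0 := fun h => hx (Int.dvd_of_emod_eq_zero h)
  obtain ⟨m, hm⟩ : ∃ m : ℕ, M = m + 1 := ⟨M - 1, (Nat.succ_pred_eq_of_ne_zero (NeZero.ne M)).symm⟩
  set k : ℕ := (x % (M : ℤ)).toNat with hk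
  have hkZ : (k : ℤ) = x % (M : ℤ) := Int.toNat_of_nonneg h0
  have hk1 : 1 ≤ k := by
    rcases Nat.eq_zero_or_pos k with h | h
    · exact absurd (by rw [← hkZ, h]; rfl) hne
    · exact h
  have hkM : k < M := by
    have : (k : ℤ) < M := by rw [hkZ]; exact hlt
    exact_mod_cast this
  have hprim : IsPrimitiveRoot (zetaM M) (m + 1) := by
    rw [← hm]
    exact zetaM_isPrimitiveRoot M
  have hprod := hprim.prod_one_sub_pow_eq_order
  have hmem : k - 1 ∈ Finset.range m := by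
    rw [Finset.mem_range]; omega
  rw [← Finset.mul_prod_erase _ _ hmem, Nat.sub_add_cancel hk1] at hprod
  rw [zetaM_zpow_eq_pow]
  refine ⟨S.sub_mem S.one_mem (S.pow_mem hζ _),
    (M : ℂ)⁻¹ * ∏ j ∈ (Finset.range m).erase (k - 1), (1 - zetaM M ^ (j + 1)),
    S.mul_mem hM (S.prod_mem fun j _ => S.sub_mem S.one_mem (S.pow_mem hζ _)), ?_⟩
  rw [mul_left_comm, hprod, hm]
  push_cast
  have : ((m : ℂ) + 1) ≠ 0 := by
    have := hMc
    rw [hm] at this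
    exact_mod_cast this
  field_simp

/-- `ζ ^ s - ζ ^ s'` is a unit of `S` for `M ∤ s - s'` -/
lemma isU_zeta_sub_zeta (hζ : zetaM M ∈ S) (hM : (M : ℂ)⁻¹ ∈ S) {s s' : ℤ}
    (h : ¬ (M : ℤ) ∣ s - s') : IsU S (zetaM M ^ s - zetaM M ^ s') := by
  have e : zetaM M ^ s - zetaM M ^ s' = -(zetaM M ^ s' * (1 - zetaM M ^ (s - s'))) := by
    rw [zpow_sub₀ (zetaM_ne_zero M)]
    have := zpow_ne_zero s' (zetaM_ne_zero M)
    field_simp
    ring
  rw [e]
  exact ((isU_zeta_zpow M hζ s').mul (isU_one_sub_zeta M hζ hM h)).neg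

/-! ### residues -/

/-- the residue of `r` modulo `M` in `[0, M)` -/
def vRes (r : ℤ) : ℕ := ((r : ZMod M)).val

lemma vRes_lt (r : ℤ) : vRes M r < M := ZMod.val_lt _

omit [NeZero M] in
lemma vRes_le_of_cast_eq {x : ℕ} {r : ℤ} (h : ((x : ℤ) : ZMod M) = (r : ZMod M)) :
    vRes M r ≤ x := by
  unfold vRes
  rw [← h, Int.cast_natCast, ZMod.val_natCast]
  exact Nat.mod_le _ _

lemma cast_vRes (r : ℤ) : (((vRes M r : ℕ) : ℤ) : ZMod M) = (r : ZMod M) := by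
  rw [Int.cast_natCast]
  exact ZMod.natCast_zmod_val _

omit [NeZero M] in
lemma vRes_eq_zero_iff (r : ℤ) : vRes M r = 0 ↔ (M : ℤ) ∣ r := by
  unfold vRes
  rw [ZMod.val_eq_zero, ZMod.intCast_zmod_eq_zero_iff_dvd]

omit [NeZero M] in
lemma vRes_pos {r : ℤ} (h : ¬ (M : ℤ) ∣ r) : 0 < vRes M r :=
  Nat.pos_of_ne_zero fun h0 => h ((vRes_eq_zero_iff M r).mp h0)

lemma vRes_add_vRes_neg {r : ℤ} (h : ¬ (M : ℤ) ∣ r) : vRes M r + vRes M (-r) = M := by
  have h0 : (r : ZMod M) ≠ 0 := fun h' => h ((ZMod.intCast_zmod_eq_zero_iff_dvd r M).mp h')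
  have hlt := ZMod.val_lt (r : ZMod M)
  unfold vRes
  rw [Int.cast_neg, ZMod.neg_val, if_neg h0]
  omega

lemma dvd_sub_of_vRes_eq {r r' : ℤ} (h : vRes M r = vRes M r') : (M : ℤ) ∣ r - r' := by
  have h1 : (r : ZMod M) = (r' : ZMod M) := ZMod.val_injective M h
  rw [← ZMod.intCast_zmod_eq_zero_iff_dvd, Int.cast_sub, h1, sub_self]

/-! ### the first coefficients of the Lambert sums -/

omit [NeZero M] in
lemma wt_natCast_eq_zero_of_lt {r : ℤ} {x : ℕ} (h : x < vRes M r) : wt M r (x : ℤ) = 0 := by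
  unfold wt
  rw [if_neg]
  intro h'
  exact absurd (vRes_le_of_cast_eq M h') (not_le.mpr h)

omit [NeZero M] in
lemma lamCoeff_zero' (u : ℂ) (w : ℕ → ℂ) : lamCoeff u w 0 = 0 := by
  simp [lamCoeff]

omit [NeZero M] in
lemma lamCoeff_wt_low (u : ℂ) {r : ℤ} {e : ℕ} (h : e < vRes M r) :
    lamCoeff u (fun k => wt M r k) e = 0 := by
  unfold lamCoeff
  refine Finset.sum_eq_zero fun x hx => ?_
  have hx' := Nat.mem_divisorsAntidiagonal.mp hx
  have hx1 : x.1 ≤ e := Nat.le_of_dvd (Nat.pos_of_ne_zero hx'.2) ⟨x.2, hx'.1.symm⟩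
  show wt M r (x.1 : ℤ) * (x.2 : ℂ) * u ^ x.2 = 0
  rw [wt_natCast_eq_zero_of_lt M (lt_of_le_of_lt hx1 h)]
  ring

lemma lamCoeff_wt_lead (u : ℂ) {r : ℤ} (h : 0 < vRes M r) :
    lamCoeff u (fun k => wt M r k) (vRes M r) = u := by
  unfold lamCoeff
  rw [Finset.sum_eq_single (vRes M r, 1)]
  · show wt M r (vRes M r : ℤ) * ((1 : ℕ) : ℂ) * u ^ 1 = u
    rw [wt, if_pos (cast_vRes M r)]
    simp
  · intro x hx hne
    have hx' := Nat.mem_divisorsAntidiagonal.mp hx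
    show wt M r (x.1 : ℤ) * (x.2 : ℂ) * u ^ x.2 = 0
    have hx1 : x.1 < vRes M r := by
      have hle : x.1 ≤ vRes M r := Nat.le_of_dvd h ⟨x.2, hx'.1.symm⟩
      rcases hle.lt_or_eq with h1 | h1
      · exact h1
      · exfalso
        apply hne
        have h2 : x.2 = 1 := by
          have h3 := hx'.1
          rw [h1] at h3
          exact Nat.eq_of_mul_eq_mul_left h (by rw [h3, mul_one])
        exact Prod.ext h1 h2
    rw [wt_natCast_eq_zero_of_lt M hx1]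
    ring
  · intro hnot
    exfalso
    apply hnot
    rw [Nat.mem_divisorsAntidiagonal]
    exact ⟨mul_one _, h.ne'⟩

/-! ### the coefficients of one division value -/

omit [NeZero M] in
lemma cDiv_zero (r s : ℤ) : cDiv M r s 0 = cZero M r s := by
  unfold cDiv
  rw [lamCoeff_zero', lamCoeff_zero', if_pos rfl]
  ring

omit [NeZero M] in
lemma cDiv_of_ne_zero (r s : ℤ) {e : ℕ} (he : e ≠ 0) :
    cDiv M r s e = (2 * π * I) ^ 2 * (lamCoeff (zetaM M ^ s) (fun k => wt M r k) e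
      + lamCoeff (zetaM M ^ (-s)) (fun k => wt M (-r) k) e) := by
  unfold cDiv
  rw [if_neg he, add_zero]

omit [NeZero M] in
lemma cZero_of_not_dvd {r : ℤ} (h : ¬ (M : ℤ) ∣ r) (s : ℤ) : cZero M r s = 0 := by
  unfold cZero wt
  rw [if_neg, zero_mul]
  intro h'
  apply h
  rw [← ZMod.intCast_zmod_eq_zero_iff_dvd, ← h']
  simp

omit [NeZero M] in
lemma cexp_div_eq_zpow (s : ℤ) : cexp (2 * π * I * ((s : ℂ) / M)) = zetaM M ^ s := by
  unfold zetaM
  rw [← Complex.exp_int_mul]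
  congr 1
  ring

lemma cZero_of_dvd {r s : ℤ} (hr : (M : ℤ) ∣ r) (hs : ¬ (M : ℤ) ∣ s) :
    cZero M r s = (2 * π * I) ^ 2 * (zetaM M ^ s / (1 - zetaM M ^ s) ^ 2) := by
  have hMc : (M : ℂ) ≠ 0 := by exact_mod_cast NeZero.ne M
  have hw : wt M r 0 = 1 := by
    unfold wt
    rw [if_pos]
    rw [(ZMod.intCast_zmod_eq_zero_iff_dvd r M).mpr hr]
    simp
  have hx : ∀ n : ℤ, (s : ℂ) / M ≠ n := by
    intro n h
    apply hs
    refine ⟨n, ?_⟩
    have h2 : (s : ℂ) = n * M := by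
      rw [← h]
      field_simp
    have h3 : (s : ℂ) = ((M * n : ℤ) : ℂ) := by
      rw [h2]; push_cast; ring
    exact_mod_cast h3
  unfold cZero
  rw [hw, one_mul, rowS_eq hx, rowW, cexp_div_eq_zpow]

omit [NeZero M] in
lemma wt_mem (S : Subring ℂ) (r x : ℤ) : wt M r x ∈ S := by
  unfold wt
  split_ifs
  · exact S.one_mem
  · exact S.zero_mem

lemma lamCoeff_wt_mem (hζ : zetaM M ∈ S) (r s : ℤ) (e : ℕ) :
    lamCoeff (zetaM M ^ s) (fun k => wt M r k) e ∈ S := by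
  unfold lamCoeff
  exact S.sum_mem fun x _ => S.mul_mem (S.mul_mem (wt_mem M S r _) (natCast_mem S _))
    (S.pow_mem (zetaM_zpow_mem' M hζ s) _)

/-- **integrality**: every coefficient of a division value lies in `(2πi)² S` -/
theorem cDiv_mem (hζ : zetaM M ∈ S) (hM : (M : ℂ)⁻¹ ∈ S) {r s : ℤ}
    (h : ¬ ((M : ℤ) ∣ r ∧ (M : ℤ) ∣ s)) (e : ℕ) :
    ∃ c ∈ S, cDiv M r s e = (2 * π * I) ^ 2 * c := by
  by_cases he : e = 0
  · subst he
    rw [cDiv_zero]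
    by_cases hr : (M : ℤ) ∣ r
    · have hs : ¬ (M : ℤ) ∣ s := fun hs => h ⟨hr, hs⟩
      refine ⟨_, ?_, cZero_of_dvd M hr hs⟩
      exact ((isU_zeta_zpow M hζ s).div ((isU_one_sub_zeta M hζ hM hs).pow 2)).mem
    · exact ⟨0, S.zero_mem, by rw [cZero_of_not_dvd M hr, mul_zero]⟩
  · exact ⟨_, S.add_mem (lamCoeff_wt_mem M hζ r s e) (lamCoeff_wt_mem M hζ (-r) (-s) e),
      cDiv_of_ne_zero M r s he⟩

omit [NeZero M] in
/-- the symmetry `(r, s) ↦ (-r, -s)` -/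
theorem cDiv_neg_neg (r s : ℤ) (e : ℕ) : cDiv M (-r) (-s) e = cDiv M r s e := by
  have hc : cZero M (-r) (-s) = cZero M r s := by
    unfold cZero
    have h1 : wt M (-r) 0 = wt M r 0 := by
      have := wt_neg M r 0
      rw [neg_zero] at this
      exact this.symm
    have h2 : (((-s : ℤ) : ℂ)) / M = -((s : ℂ) / M) := by push_cast; ring
    rw [h1, h2, rowS_neg]
  unfold cDiv
  rw [neg_neg, neg_neg, hc, add_comm (lamCoeff (zetaM M ^ (-s)) _ e)]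

end

end Fermat.Agent.T4.helper44
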