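import Mathlib
import Fermat.Agent.T4.helper44_WpLeadA

/-!
# T4 (I) / [CUSP-INT] = [FRICKE-LEAD] (helper44): the lead-unit statement

`leadUnit : zetaM M ∈ S → (M : ℂ)⁻¹ ∈ S → LeadUnit M S` : for two non-zero `M`-division points
`(r, s)`, `(r', s')` which are different up to sign, the `q_M`-expansion of
`℘((r τ + s) / M) - ℘((r' τ + s') / M)` has all coefficients in `(2πi)² S` and its first non-zero
coefficient is `(2πi)²` times a unit of `S`.

The first non-zero coefficient sits at `min(ρ, ρ')`, `ρ = min(r mod M, -r mod M)`, and is one of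
`± ζ^(± s)`, `± ζ^s / (1 - ζ^s)²`, `ζ^s - ζ^s'`, `(ζ^s - ζ^s') (1 - ζ^(-s-s'))`,
`(ζ^s - ζ^s') (1 - ζ^(s+s')) / ((1 - ζ^s)² (1 - ζ^s')²)`.

Mathlib + `helper44_WpDiv` / `WpConst` / `WpIntA` only.
-/

set_option autoImplicit false

open Complex Filter Topology
open scoped Real

namespace Fermat.Agent.T4.helper44

noncomputable section

variable (M : ℕ) [NeZero M] {S : Subring ℂ}

/-- the leading coefficient of a normalised pair (`r mod M ≤ -r mod M`) -/
def leadC (r s : ℤ) : ℂ :=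
  if (M : ℤ) ∣ r then zetaM M ^ s / (1 - zetaM M ^ s) ^ 2
  else if 2 * vRes M r < M then zetaM M ^ s else zetaM M ^ s + zetaM M ^ (-s)

omit [NeZero M] in
lemma cDiv_low {r : ℤ} (s : ℤ) (hn : vRes M r ≤ vRes M (-r)) {e : ℕ} (he : e < vRes M r) :
    cDiv M r s e = 0 := by
  have hr : ¬ (M : ℤ) ∣ r := fun h => by
    rw [(vRes_eq_zero_iff M r).mpr h] at he
    exact absurd he (Nat.not_lt_zero _)
  by_cases h0 : e = 0
  · subst h0
    rw [cDiv_zero, cZero_of_not_dvd M hr]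
  · rw [cDiv_of_ne_zero M r s h0, lamCoeff_wt_low M _ he,
      lamCoeff_wt_low M _ (lt_of_lt_of_le he hn)]
    ring

lemma two_vRes_le {r : ℤ} (hn : vRes M r ≤ vRes M (-r)) : 2 * vRes M r ≤ M := by
  by_cases hr : (M : ℤ) ∣ r
  · rw [(vRes_eq_zero_iff M r).mpr hr]
    exact Nat.zero_le _
  · have := vRes_add_vRes_neg M hr
    omega

lemma cDiv_lead {r s : ℤ} (hn : vRes M r ≤ vRes M (-r))
    (h : ¬ ((M : ℤ) ∣ r ∧ (M : ℤ) ∣ s)) :
    cDiv M r s (vRes M r) = (2 * π * I) ^ 2 * leadC M r s := by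
  by_cases hr : (M : ℤ) ∣ r
  · have hs : ¬ (M : ℤ) ∣ s := fun hs => h ⟨hr, hs⟩
    rw [(vRes_eq_zero_iff M r).mpr hr, cDiv_zero, cZero_of_dvd M hr hs, leadC, if_pos hr]
  · have hpos := vRes_pos M hr
    have hadd := vRes_add_vRes_neg M hr
    rw [cDiv_of_ne_zero M r s hpos.ne', lamCoeff_wt_lead M _ hpos, leadC, if_neg hr]
    by_cases h2 : 2 * vRes M r < M
    · rw [if_pos h2, lamCoeff_wt_low M _ (by omega), add_zero]
    · rw [if_neg h2]
      have e : vRes M r = vRes M (-r) := by omega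
      have hpos' : 0 < vRes M (-r) := by omega
      conv_lhs => rw [e]
      rw [lamCoeff_wt_lead M _ hpos']

/-! ### the units -/

lemma dvd_two_mul_of_two_vRes {r : ℤ} (h : 2 * vRes M r = M) : (M : ℤ) ∣ 2 * r := by
  rw [← ZMod.intCast_zmod_eq_zero_iff_dvd]
  have h1 := cast_vRes M r
  have h2 : ((2 * r : ℤ) : ZMod M) = (((2 * vRes M r : ℕ) : ℤ) : ZMod M) := by
    push_cast
    rw [← h1]
    push_cast
    ring
  rw [h2, h]
  simp

lemma isU_leadC_of_lt (hζ : zetaM M ∈ S) (hM : (M : ℂ)⁻¹ ∈ S) {r s : ℤ}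
    (h : ¬ ((M : ℤ) ∣ r ∧ (M : ℤ) ∣ s)) (h2 : 2 * vRes M r < M) : IsU S (leadC M r s) := by
  unfold leadC
  by_cases hr : (M : ℤ) ∣ r
  · have hs : ¬ (M : ℤ) ∣ s := fun hs => h ⟨hr, hs⟩
    rw [if_pos hr]
    exact (isU_zeta_zpow M hζ s).div ((isU_one_sub_zeta M hζ hM hs).pow 2)
  · rw [if_neg hr, if_pos h2]
    exact isU_zeta_zpow M hζ s

lemma isU_leadC_sub (hζ : zetaM M ∈ S) (hM : (M : ℂ)⁻¹ ∈ S) {r s r' s' : ℤ}
    (h1 : ¬ ((M : ℤ) ∣ r ∧ (M : ℤ) ∣ s)) (h2 : ¬ ((M : ℤ) ∣ r' ∧ (M : ℤ) ∣ s'))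
    (h3 : ¬ ((M : ℤ) ∣ r - r' ∧ (M : ℤ) ∣ s - s'))
    (h4 : ¬ ((M : ℤ) ∣ r + r' ∧ (M : ℤ) ∣ s + s'))
    (hn : vRes M r ≤ vRes M (-r)) (heq : vRes M r = vRes M r') :
    IsU S (leadC M r s - leadC M r' s') := by
  have hz := zetaM_ne_zero M
  have hrr : (M : ℤ) ∣ r - r' := dvd_sub_of_vRes_eq M heq
  have hss : ¬ (M : ℤ) ∣ s - s' := fun h => h3 ⟨hrr, h⟩
  have hU1 := isU_zeta_sub_zeta M hζ hM hss
  unfold leadC
  by_cases hr : (M : ℤ) ∣ r
  · have hr' : (M : ℤ) ∣ r' := by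
      have := dvd_sub hr hrr
      simpa using this
    have hs : ¬ (M : ℤ) ∣ s := fun hs => h1 ⟨hr, hs⟩
    have hs' : ¬ (M : ℤ) ∣ s' := fun hs => h2 ⟨hr', hs⟩
    have hss' : ¬ (M : ℤ) ∣ s + s' := fun h => h4 ⟨dvd_add hr hr', h⟩
    rw [if_pos hr, if_pos hr']
    have ha := isU_one_sub_zeta M hζ hM hs
    have hb := isU_one_sub_zeta M hζ hM hs'
    have hc := isU_one_sub_zeta M hζ hM hss'
    have e : zetaM M ^ s / (1 - zetaM M ^ s) ^ 2 - zetaM M ^ s' / (1 - zetaM M ^ s') ^ 2 =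
        (zetaM M ^ s - zetaM M ^ s') * (1 - zetaM M ^ (s + s')) /
          ((1 - zetaM M ^ s) ^ 2 * (1 - zetaM M ^ s') ^ 2) := by
      have h1 := ha.ne_zero
      have h2 := hb.ne_zero
      rw [zpow_add₀ hz]
      field_simp
      ring
    rw [e]
    exact (hU1.mul hc).div ((ha.pow 2).mul (hb.pow 2))
  · have hr' : ¬ (M : ℤ) ∣ r' := by
      intro h
      apply hr
      have := dvd_add hrr h
      simpa using this
    rw [if_neg hr, if_neg hr', ← heq]
    by_cases h2v : 2 * vRes M r < M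
    · rw [if_pos h2v, if_pos h2v]
      exact hU1
    · rw [if_neg h2v, if_neg h2v]
      have h2e : 2 * vRes M r = M := le_antisymm (two_vRes_le M hn) (not_lt.mp h2v)
      have h2r : (M : ℤ) ∣ 2 * r := dvd_two_mul_of_two_vRes M h2e
      have hrr' : (M : ℤ) ∣ r + r' := by
        have := dvd_sub h2r hrr
        have e : 2 * r - (r - r') = r + r' := by ring
        rwa [e] at this
      have hss' : ¬ (M : ℤ) ∣ -s - s' := by
        intro h
        apply h4
        refine ⟨hrr', ?_⟩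
        have := (dvd_neg).mpr h
        have e : -(-s - s') = s + s' := by ring
        rwa [e] at this
      have hc := isU_one_sub_zeta M hζ hM hss'
      have e : zetaM M ^ s + zetaM M ^ (-s) - (zetaM M ^ s' + zetaM M ^ (-s')) =
          (zetaM M ^ s - zetaM M ^ s') * (1 - zetaM M ^ (-s - s')) := by
        rw [zpow_sub₀ hz, zpow_neg, zpow_neg]
        have h1 := zpow_ne_zero s hz
        have h2 := zpow_ne_zero s' hz
        field_simp
        ring
      rw [e]
      exact hU1.mul hc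

/-! ### the lead-unit statement -/

/-- the conclusion of the lead-unit statement without the integrality clause -/
def LeadConcl (S : Subring ℂ) (r s r' s' : ℤ) : Prop :=
  ∃ n : ℕ, ∃ u ∈ S, ∃ v ∈ S, u * v = 1 ∧
    (∀ e < n, cDiv M r s e - cDiv M r' s' e = 0) ∧
    cDiv M r s n - cDiv M r' s' n = (2 * π * I) ^ 2 * u

omit [NeZero M] in
lemma leadConcl_of_isU {r s r' s' : ℤ} {n : ℕ} {u : ℂ} (hu : IsU S u)
    (hlow : ∀ e < n, cDiv M r s e - cDiv M r' s' e = 0)
    (hlead : cDiv M r s n - cDiv M r' s' n = (2 * π * I) ^ 2 * u) :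
    LeadConcl M S r s r' s' := by
  obtain ⟨hu1, v, hv, huv⟩ := hu
  exact ⟨n, u, hu1, v, hv, huv, hlow, hlead⟩

/-- the asymmetric case: the first pair has the smaller residue -/
lemma leadConcl_of_lt (hζ : zetaM M ∈ S) (hM : (M : ℂ)⁻¹ ∈ S) {r s r' s' : ℤ}
    (h1 : ¬ ((M : ℤ) ∣ r ∧ (M : ℤ) ∣ s))
    (hn : vRes M r ≤ vRes M (-r)) (hn' : vRes M r' ≤ vRes M (-r'))
    (hlt : vRes M r < vRes M r') :
    ∃ u, IsU S u ∧ (∀ e < vRes M r, cDiv M r s e = 0 ∧ cDiv M r' s' e = 0) ∧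
      cDiv M r s (vRes M r) = (2 * π * I) ^ 2 * u ∧ cDiv M r' s' (vRes M r) = 0 := by
  have h2 : 2 * vRes M r < M := by
    have := two_vRes_le M hn'
    omega
  refine ⟨leadC M r s, isU_leadC_of_lt M hζ hM h1 h2, fun e he => ⟨cDiv_low M s hn he,
    cDiv_low M s' hn' (lt_trans he hlt)⟩, cDiv_lead M hn h1, cDiv_low M s' hn' hlt⟩

/-- the lead-unit statement for two normalised pairs -/
theorem leadConcl_norm (hζ : zetaM M ∈ S) (hM : (M : ℂ)⁻¹ ∈ S) {r s r' s' : ℤ}
    (h1 : ¬ ((M : ℤ) ∣ r ∧ (M : ℤ) ∣ s)) (h2 : ¬ ((M : ℤ) ∣ r' ∧ (M : ℤ) ∣ s'))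
    (h3 : ¬ ((M : ℤ) ∣ r - r' ∧ (M : ℤ) ∣ s - s'))
    (h4 : ¬ ((M : ℤ) ∣ r + r' ∧ (M : ℤ) ∣ s + s'))
    (hn : vRes M r ≤ vRes M (-r)) (hn' : vRes M r' ≤ vRes M (-r')) :
    LeadConcl M S r s r' s' := by
  rcases lt_trichotomy (vRes M r) (vRes M r') with hlt | heq | hgt
  · obtain ⟨u, hu, hlow, hlead, hz⟩ := leadConcl_of_lt M hζ hM (s' := s') h1 hn hn' hlt
    refine leadConcl_of_isU M hu (n := vRes M r) (fun e he => ?_) ?_
    · rw [(hlow e he).1, (hlow e he).2, sub_zero]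
    · rw [hlead, hz, sub_zero]
  · refine leadConcl_of_isU M (isU_leadC_sub M hζ hM h1 h2 h3 h4 hn heq) (n := vRes M r)
      (fun e he => ?_) ?_
    · rw [cDiv_low M s hn he, cDiv_low M s' hn' (heq ▸ he), sub_zero]
    · rw [cDiv_lead M hn h1]
      conv_lhs => rw [heq]
      rw [cDiv_lead M hn' h2]
      ring
  · obtain ⟨u, hu, hlow, hlead, hz⟩ := leadConcl_of_lt M hζ hM (s' := s) h2 hn' hn hgt
    refine leadConcl_of_isU M hu.neg (n := vRes M r') (fun e he => ?_) ?_
    · rw [(hlow e he).1, (hlow e he).2, sub_zero]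
    · rw [hlead, hz]
      ring

/-- **[FRICKE-LEAD]** the lead-unit statement. -/
theorem leadUnit (S : Subring ℂ) (hζ : zetaM M ∈ S) (hM : (M : ℂ)⁻¹ ∈ S) : LeadUnit M S := by
  intro r s r' s' h1 h2 h3 h4
  have hint : ∀ e, ∃ c ∈ S, cDiv M r s e - cDiv M r' s' e = (2 * π * I) ^ 2 * c := by
    intro e
    obtain ⟨c, hc, e1⟩ := cDiv_mem M hζ hM h1 e
    obtain ⟨c', hc', e2⟩ := cDiv_mem M hζ hM h2 e
    exact ⟨c - c', S.sub_mem hc hc', by rw [e1, e2]; ring⟩
  have h1n : ¬ ((M : ℤ) ∣ -r ∧ (M : ℤ) ∣ -s) := fun h => h1 ⟨(dvd_neg).mp h.1, (dvd_neg).mp h.2⟩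
  have h2n : ¬ ((M : ℤ) ∣ -r' ∧ (M : ℤ) ∣ -s') := fun h =>
    h2 ⟨(dvd_neg).mp h.1, (dvd_neg).mp h.2⟩
  have key : LeadConcl M S r s r' s' := by
    rcases le_total (vRes M r) (vRes M (-r)) with hn | hn <;>
      rcases le_total (vRes M r') (vRes M (-r')) with hn' | hn'
    · exact leadConcl_norm M hζ hM h1 h2 h3 h4 hn hn'
    · have hn'' : vRes M (-r') ≤ vRes M (-(-r')) := by rwa [neg_neg]
      have := leadConcl_norm M hζ hM (r := r) (s := s) (r' := -r') (s' := -s') h1 h2n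
        (by rw [sub_neg_eq_add, sub_neg_eq_add]; exact h4)
        (by rw [← sub_eq_add_neg, ← sub_eq_add_neg]; exact h3) hn hn''
      unfold LeadConcl at this ⊢
      simpa only [cDiv_neg_neg] using this
    · have hn'' : vRes M (-r) ≤ vRes M (-(-r)) := by rwa [neg_neg]
      have := leadConcl_norm M hζ hM (r := -r) (s := -s) (r' := r') (s' := s') h1n h2
        (by
          intro h
          apply h4
          refine ⟨?_, ?_⟩
          · have := (dvd_neg).mpr h.1
            have e : -(-r - r') = r + r' := by ring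
            rwa [e] at this
          · have := (dvd_neg).mpr h.2
            have e : -(-s - s') = s + s' := by ring
            rwa [e] at this)
        (by
          intro h
          apply h3
          refine ⟨?_, ?_⟩
          · have := (dvd_neg).mpr h.1
            have e : -(-r + r') = r - r' := by ring
            rwa [e] at this
          · have := (dvd_neg).mpr h.2
            have e : -(-s + s') = s - s' := by ring
            rwa [e] at this) hn'' hn'
      unfold LeadConcl at this ⊢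
      simpa only [cDiv_neg_neg] using this
    · have hn1 : vRes M (-r) ≤ vRes M (-(-r)) := by rwa [neg_neg]
      have hn2 : vRes M (-r') ≤ vRes M (-(-r')) := by rwa [neg_neg]
      have := leadConcl_norm M hζ hM (r := -r) (s := -s) (r' := -r') (s' := -s') h1n h2n
        (by
          intro h
          apply h3
          refine ⟨?_, ?_⟩
          · have := (dvd_neg).mpr h.1
            have e : -(-r - -r') = r - r' := by ring
            rwa [e] at this
          · have := (dvd_neg).mpr h.2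
            have e : -(-s - -s') = s - s' := by ring
            rwa [e] at this)
        (by
          intro h
          apply h4
          refine ⟨?_, ?_⟩
          · have := (dvd_neg).mpr h.1
            have e : -(-r + -r') = r + r' := by ring
            rwa [e] at this
          · have := (dvd_neg).mpr h.2
            have e : -(-s + -s') = s + s' := by ring
            rwa [e] at this) hn1 hn2
      unfold LeadConcl at this ⊢
      simpa only [cDiv_neg_neg] using this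
  obtain ⟨n, u, hu, v, hv, huv, hlow, hlead⟩ := key
  exact ⟨n, u, hu, v, hv, huv, hlow, hlead, hint⟩

end

end Fermat.Agent.T4.helper44
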