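import Fermat.Agent.T4.helper44_MemS
import Fermat.Agent.T4.helper44_WpLead

/-!
# T4 block (I), IGUSA1 leaf [IG-MEM-S] CLOSED (helper44)

`memS : 4 ≤ M → zetaM M ∈ S → (M : ℂ)⁻¹ ∈ S → helper4.Ig.MemSStatement M S` (VERBATIM,
unconditional): the functions `s_a` are `S`-integral modular functions of level `Γ(M)`.

Also the unconditional forms of the by-products:
* `sFn_translate'` : every translate of `s_a` is holomorphic with an `S`-integral `q_M`-expansion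
  (`S28.HasExp M`) with unit leading coefficient (for `a ≠ ± 1`);
* `sBS` : the element of `BS (Gamma M) M S`; `EA_sA_lead'` : unit leading coefficients of all
  expansions `EA γ (s_a)`.
-/

set_option autoImplicit false
set_option linter.unusedSectionVars false

noncomputable section

namespace Fermat.Agent.T4.helper44

open UpperHalfPlane CongruenceSubgroup
open Fermat.Agent.T4.helper32.Conj1 Fermat.Agent.S28
open Fermat.Agent.T4.helper24 (sFn)
open scoped MatrixGroups Manifold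

variable {M : ℕ} [NeZero M]

/-- **[IG-MEM-S]** VERBATIM and unconditional. -/
theorem memS (hM : 4 ≤ M) (S : Subring ℂ) (hζ : zetaM M ∈ S) (hN : (M : ℂ)⁻¹ ∈ S) :
    Fermat.Agent.T4.helper4.Ig.MemSStatement M S :=
  memS_of_leadUnit hM S (leadUnit M S hζ hN) hζ

/-- the same with `S28.zetaC` (which is `zetaM` by definition) -/
theorem memS' (hM : 4 ≤ M) (S : Subring ℂ) (hζ : Fermat.Agent.S28.zetaC M ∈ S)
    (hN : (M : ℂ)⁻¹ ∈ S) : Fermat.Agent.T4.helper4.Ig.MemSStatement M S :=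
  memS hM S hζ hN

/-- `s_a` as an element of `BS (Gamma M) M S` -/
def sBS (hM : 4 ≤ M) (S : Subring ℂ) (hζ : zetaM M ∈ S) (hN : (M : ℂ)⁻¹ ∈ S)
    (a : ZMod M) (ha : a ≠ 0) : BS (Gamma M) M S :=
  sB hM (leadUnit M S hζ hN) hζ a ha

@[simp]
theorem coe_sBS (hM : 4 ≤ M) (S : Subring ℂ) (hζ : zetaM M ∈ S) (hN : (M : ℂ)⁻¹ ∈ S)
    (a : ZMod M) (ha : a ≠ 0) :
    (((sBS hM S hζ hN a ha : BS (Gamma M) M S) : GA (Gamma M) M) : ℍ → ℂ) = sFn M a := rfl

/-- **[CUSP-INT]** unconditional: the translates of `s_a` have `S`-integral `t`-expansions with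
unit leading coefficient. -/
theorem sFn_translate' (hM : 4 ≤ M) (S : Subring ℂ) (hζ : zetaM M ∈ S) (hN : (M : ℂ)⁻¹ ∈ S)
    (g : SL(2, ℤ)) (a : ZMod M) (ha : a ≠ 0) :
    MDiff (fun τ => sFn M a (g • τ)) ∧
    ∃ s : LaurentSeries ℂ, HasExp M (fun τ => sFn M a (g • τ)) s ∧ (∀ n, s.coeff n ∈ S) ∧
      (a ≠ 1 → a ≠ -1 → ∃ (k : ℤ) (u v : ℂ) (p : PowerSeries ℂ), u ∈ S ∧ v ∈ S ∧ u * v = 1 ∧
        PowerSeries.constantCoeff p = 1 ∧ (∀ n, p.coeff n ∈ S) ∧
        s = HahnSeries.single k u * HahnSeries.ofPowerSeries ℤ ℂ p) :=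
  sFn_translate M hM (leadUnit M S hζ hN) hζ g a ha

/-- unit leading coefficients of all expansions of `s_a`, `a ≠ 0, ± 1` (unconditional) -/
theorem EA_sA_lead' (hM : 4 ≤ M) (S : Subring ℂ) (hζ : zetaM M ∈ S) (hN : (M : ℂ)⁻¹ ∈ S)
    (a : ZMod M) (ha : a ≠ 0) (h1 : a ≠ 1) (h2 : a ≠ -1) (γ : SL(2, ℤ)) :
    ∃ (k : ℤ) (u v : ℂ) (p : PowerSeries ℂ), u ∈ S ∧ v ∈ S ∧ u * v = 1 ∧
      PowerSeries.constantCoeff p = 1 ∧ (∀ n, p.coeff n ∈ S) ∧
      EA (Gamma M) M γ (sA M hM a ha) =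
        HahnSeries.single k u * HahnSeries.ofPowerSeries ℤ ℂ p :=
  EA_sA_lead hM (leadUnit M S hζ hN) hζ a ha h1 h2 γ

end Fermat.Agent.T4.helper44

end
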