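import Fermat.Agent.T4.helper55_WpHolo
import Fermat.Agent.T4.helper44_WpLaw

/-!
# T4 (I) / [I-FLD-WP5] part 5 (helper55): `holoExp` for the translates of the ratios of
helper44's `wpD`

* `wpD_eq_wpD1` : `helper44.wpD M a b = wpD1 M a b`;
* `wpD_ratio_precomp_mem_holoExp` : for `c, d ≢ 0`, `c ≢ ± d mod M` and every `g ∈ SL(2, ℤ)`,
  `precomp g (wpD M a b / wpD M c d) ∈ holoExp` (four independent indices; e.g. the analytic
  `s_a = wpD M a 1 / wpD M 2 1`);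
* `wpD1_ratio_precomp_mem_holoExp` : the same for `wpD1`;
* `dD_ratio_comp_ut_mem_holoExp` : the generic step for `℘`-differences at division points.
-/

set_option autoImplicit false

noncomputable section

open Complex Filter Topology PeriodPair Asymptotics
open scoped Real UpperHalfPlane Manifold MatrixGroups

namespace Fermat.Agent.T4.helper55

open Fermat.Agent.S23.helper35 Fermat.Agent.S24.helper77

theorem wpD_eq_wpD1 (M : ℕ) [NeZero M] (a b : ℤ) (τ : ℍ) :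
    Fermat.Agent.T4.helper44.wpD M a b τ = wpD1 M a b τ :=
  wpD1_eq_of_lattice M a b τ (Fermat.Agent.T4.helper44.latt M τ)
    (fun _ => Fermat.Agent.T4.helper44.mem_latt M)

theorem wpD_fun_eq_wpD1 (M : ℕ) [NeZero M] (a b : ℤ) :
    Fermat.Agent.T4.helper44.wpD M a b = wpD1 M a b :=
  funext (wpD_eq_wpD1 M a b)

theorem not_dvd_of_zmod_ne_zero {M : ℕ} {a : ℤ} (ha : (a : ZMod M) ≠ 0) : ¬ (M : ℤ) ∣ a :=
  fun h => ha ((ZMod.intCast_zmod_eq_zero_iff_dvd a M).mpr h)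

theorem not_dvd_sub_of_zmod_ne {M : ℕ} {a c : ℤ} (h : (a : ZMod M) ≠ c) : ¬ (M : ℤ) ∣ a - c := by
  intro hd
  apply h
  have := (ZMod.intCast_zmod_eq_zero_iff_dvd (a - c) M).mpr hd
  push_cast at this
  exact sub_eq_zero.mp this

theorem not_dvd_add_of_zmod_ne {M : ℕ} {a c : ℤ} (h : (a : ZMod M) ≠ -c) : ¬ (M : ℤ) ∣ a + c := by
  intro hd
  apply h
  have := (ZMod.intCast_zmod_eq_zero_iff_dvd (a + c) M).mpr hd
  push_cast at this
  exact eq_neg_of_add_eq_zero_left this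

/-- the translated denominators are nowhere zero -/
theorem dD_translate_ne_zero {M : ℕ} [NeZero M] {c d : ℤ}
    (hc : ¬ (M : ℤ) ∣ c) (hd : ¬ (M : ℤ) ∣ d) (hcd : ¬ (M : ℤ) ∣ c - d)
    (hcd' : ¬ (M : ℤ) ∣ c + d) (δ : SL(2, ℤ)) (σ : ℍ) :
    dD M (c * δ 0 0 + 0 * δ 1 0) (c * δ 0 1 + 0 * δ 1 1)
      (d * δ 0 0 + 0 * δ 1 0) (d * δ 0 1 + 0 * δ 1 1) σ ≠ 0 := by
  intro hσ
  have h1 := dD_smul M (NeZero.pos M) c 0 d 0 δ σ
  rw [hσ, mul_zero] at h1
  exact dD_ne_zero (NeZero.pos M) (fun h => hc h.1) (fun h => hd h.1) (fun h => hcd h.1)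
    (fun h => hcd' h.1) _ h1

/-- `P ∘ ut / Q ∘ ut ∈ holoExp` for `℘`-differences `P`, `Q` with `Q` nowhere zero -/
theorem dD_ratio_comp_ut_mem_holoExp {N : ℕ} (hN : 0 < N) (a b a' b' c d c' d' : ℤ)
    (hQ : ∀ σ : ℍ, dD N c d c' d' σ ≠ 0) {A D : ℕ} {B : ℤ} (hA : 0 < A) (hD : 0 < D) :
    (fun τ : ℍ => dD N a b a' b' (ut A D B hA hD • τ) *
      (dD N c d c' d' (ut A D B hA hD • τ))⁻¹) ∈ holoExp := by
  rw [mem_holoExp]
  have hut : MDiff (fun τ : ℍ => ut A D B hA hD • τ) :=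
    UpperHalfPlane.mdifferentiable_smul (det_ut_pos hA hD)
  have htend := UpperHalfPlane.tendsto_smul_atImInfty (ut_apply_one_zero (B := B) hA hD)
  obtain ⟨n, hn⟩ := inv_dD_isBigO hN (a := c) (b := d) (a' := c') (b' := d')
    ⟨UpperHalfPlane.I, hQ _⟩
  refine ⟨?_, n * A, ?_⟩
  · have hPd : MDiff (fun τ : ℍ => dD N a b a' b' (ut A D B hA hD • τ)) :=
      (mdiff_dD N hN _ _ _ _).comp hut
    have hQd : MDiff (fun τ : ℍ => dD N c d c' d' (ut A D B hA hD • τ)) :=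
      (mdiff_dD N hN _ _ _ _).comp hut
    have hQi : MDiff (fun τ : ℍ => (dD N c d c' d' (ut A D B hA hD • τ))⁻¹) := by
      intro τ
      rw [UpperHalfPlane.mdifferentiableAt_iff]
      have h1 := UpperHalfPlane.mdifferentiableAt_iff.mp (hQd τ)
      have h2 : ((fun τ : ℍ => dD N c d c' d' (ut A D B hA hD • τ)) ∘
          UpperHalfPlane.ofComplex) (τ : ℂ) ≠ 0 := by
        simp only [Function.comp_apply, UpperHalfPlane.ofComplex_apply]
        exact hQ _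
      exact h1.inv h2
    exact hPd.mul hQi
  · have hPb : (fun τ : ℍ => dD N a b a' b' (ut A D B hA hD • τ)) =O[UpperHalfPlane.atImInfty]
        fun _ : ℍ => (1 : ℝ) := by
      have h := isBoundedAtImInfty_dD N hN a b a' b'
      rw [UpperHalfPlane.IsBoundedAtImInfty, BoundedAtFilter] at h
      exact h.comp_tendsto htend
    have hQb : (fun τ : ℍ => (dD N c d c' d' (ut A D B hA hD • τ))⁻¹)
        =O[UpperHalfPlane.atImInfty] fun τ : ℍ => Real.exp (2 * π * (n * A : ℕ) * τ.im) := by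
      have h := hn.comp_tendsto htend
      refine h.trans (IsBigO.of_bound 1 (Eventually.of_forall fun τ => ?_))
      simp only [Function.comp_apply]
      rw [one_mul, Real.norm_of_nonneg (Real.exp_pos _).le,
        Real.norm_of_nonneg (Real.exp_pos _).le, im_ut_smul]
      apply Real.exp_le_exp.mpr
      have hτ := τ.im_pos
      have hD1 : (1 : ℝ) ≤ D := by exact_mod_cast hD
      have hA0 : (0 : ℝ) ≤ A := by positivity
      have h1 : (A : ℝ) / D ≤ A := div_le_self hA0 hD1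
      have hpi := Real.pi_pos
      push_cast
      have h2 : (A : ℝ) / D * τ.im ≤ A * τ.im := by gcongr
      have h3 : (0 : ℝ) ≤ 2 * π * n := by positivity
      calc 2 * π * n * ((A : ℝ) / D * τ.im) ≤ 2 * π * n * (A * τ.im) := by gcongr
        _ = 2 * π * (n * A) * τ.im := by ring
    refine (hPb.mul hQb).congr_right fun τ => ?_
    rw [one_mul]

/-- **Four-index version.**  All `SL(2, ℤ)`-translates of `wpD1 M a b / wpD1 M c d` lie in
`holoExp`. -/
theorem wpD1_ratio_precomp_mem_holoExp (M : ℕ) [NeZero M] (a b c d : ℤ)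
    (hc : ¬ (M : ℤ) ∣ c) (hd : ¬ (M : ℤ) ∣ d) (hcd : ¬ (M : ℤ) ∣ c - d)
    (hcd' : ¬ (M : ℤ) ∣ c + d) (g : SL(2, ℤ)) :
    precomp g (fun τ => wpD1 M a b τ / wpD1 M c d τ) ∈ holoExp := by
  have hM := NeZero.pos M
  obtain ⟨δ, A, D, B, hA, hD, -, -, hmat⟩ := hermite_GL M hM g⁻¹
  have hfun : precomp g (fun τ => wpD1 M a b τ / wpD1 M c d τ) =
      fun τ => dD M (a * δ 0 0 + 0 * δ 1 0) (a * δ 0 1 + 0 * δ 1 1)
          (b * δ 0 0 + 0 * δ 1 0) (b * δ 0 1 + 0 * δ 1 1) (ut A D B hA hD • τ) *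
        (dD M (c * δ 0 0 + 0 * δ 1 0) (c * δ 0 1 + 0 * δ 1 1)
          (d * δ 0 0 + 0 * δ 1 0) (d * δ 0 1 + 0 * δ 1 1) (ut A D B hA hD • τ))⁻¹ := by
    funext τ
    rw [precomp_apply, wpD1_translate a b hmat τ, wpD1_translate c d hmat τ]
    have hj := pow_ne_zero 2 (SL_denom_ne_zero δ (ut A D B hA hD • τ))
    rw [mul_div_mul_left _ _ hj, div_eq_mul_inv]
  rw [hfun]
  exact dD_ratio_comp_ut_mem_holoExp hM _ _ _ _ _ _ _ _
    (dD_translate_ne_zero hc hd hcd hcd' δ) hA hD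

/-- **helper44 vocabulary.**  All `SL(2, ℤ)`-translates of `wpD M a b / wpD M c d` lie in
`holoExp`, for `c, d ≢ 0` and `c ≢ ± d` modulo `M`. -/
theorem wpD_ratio_precomp_mem_holoExp (M : ℕ) [NeZero M] (a b c d : ℤ)
    (hc : (c : ZMod M) ≠ 0) (hd : (d : ZMod M) ≠ 0) (hcd : (c : ZMod M) ≠ d)
    (hcd' : (c : ZMod M) ≠ -d) (g : SL(2, ℤ)) :
    precomp g (fun τ => Fermat.Agent.T4.helper44.wpD M a b τ /
      Fermat.Agent.T4.helper44.wpD M c d τ) ∈ holoExp := by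
  simp only [wpD_eq_wpD1]
  exact wpD1_ratio_precomp_mem_holoExp M a b c d (not_dvd_of_zmod_ne_zero hc)
    (not_dvd_of_zmod_ne_zero hd) (not_dvd_sub_of_zmod_ne hcd) (not_dvd_add_of_zmod_ne hcd') g

/-- the ratio itself (`g = 1`) -/
theorem wpD_ratio_mem_holoExp (M : ℕ) [NeZero M] (a b c d : ℤ)
    (hc : (c : ZMod M) ≠ 0) (hd : (d : ZMod M) ≠ 0) (hcd : (c : ZMod M) ≠ d)
    (hcd' : (c : ZMod M) ≠ -d) :
    (fun τ => Fermat.Agent.T4.helper44.wpD M a b τ /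
      Fermat.Agent.T4.helper44.wpD M c d τ) ∈ holoExp := by
  have := wpD_ratio_precomp_mem_holoExp M a b c d hc hd hcd hcd' 1
  rwa [precomp_one] at this

end Fermat.Agent.T4.helper55
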