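import Fermat.Agent.T4.helper44_WpIntA
import Fermat.Agent.T4.helper55_WpBridge

/-!
# T4 (I) / [CUSP-INT] part B (helper44): the `t`-expansion of the translates of `wpD`

For `g ∈ SL(2, ℤ)` with Hermite form `diag(M, 1) g = δ [[A, B], [0, D]]` (`A D = M`) and
`σ = (A τ + B) / D`:

`wpD M a b (g τ) / (δ₁₀ σ + δ₁₁)² = ∑_m pco c (ζ_M ^ B) D A m · t ^ m`, `t = q_M(τ)`,

where `c e = cDiv M (a δ₀₀) (a δ₀₁) e - cDiv M (b δ₀₀) (b δ₀₁) e` are the coefficients of ONE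
difference of division values (`hasSum_wpD_translate`).
-/

set_option autoImplicit false

open Complex Filter Topology PeriodPair
open UpperHalfPlane hiding I
open scoped Real MatrixGroups

namespace Fermat.Agent.T4.helper44

open Fermat.Agent.S23.helper35 (ut coe_ut_smul hermite_int)

noncomputable section

variable (M : ℕ) [NeZero M]

omit [NeZero M] in
/-- bridge: the `℘`-difference `dD` of `helper55` in the vocabulary of `hasSum_divPt` -/
lemma dD_eq_divPt (r s r' s' : ℤ) (σ : ℍ) :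
    helper55.dD M r s r' s' σ =
      ℘[latP σ] (divPt M σ r s) - ℘[latP σ] (divPt M σ r' s') := by
  have h : ∀ z : ℂ, ℘[helper55.pp σ] z = ℘[latP σ] z := fun z =>
    weierstrassP_congr (latP σ) (helper55.pp σ)
      (fun x => by rw [helper55.mem_pp_lattice, mem_latP]) z
  unfold helper55.dD divPt
  rw [h, h]

/-- the local parameter at the cusp: `q_M(σ) ^ D = ζ_M ^ B · q_M(τ) ^ A` for
`σ = (A τ + B) / D`. -/
lemma qM_ut_pow {A D : ℕ} {B : ℤ} (hA : 0 < A) (hD : 0 < D) (τ : ℍ) :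
    qM M (ut A D B hA hD • τ) ^ D = zetaM M ^ B * qM M τ ^ A := by
  have hD' : (D : ℂ) ≠ 0 := by exact_mod_cast hD.ne'
  have hM : (M : ℂ) ≠ 0 := by exact_mod_cast NeZero.ne M
  unfold qM zetaM
  rw [coe_ut_smul, ← Complex.exp_nat_mul, ← Complex.exp_int_mul, ← Complex.exp_nat_mul,
    ← Complex.exp_add]
  congr 1
  field_simp
  ring

/-- **the `t`-expansion of a translate of `wpD`** -/
theorem hasSum_wpD_translate (a b : ℤ) {g δ : SL(2, ℤ)} {A D : ℕ} {B : ℤ} {hA : 0 < A}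
    {hD : 0 < D} (hAD : A * D = M)
    (h : ut M 1 0 (NeZero.pos M) one_pos * Matrix.SpecialLinearGroup.mapGL ℝ g =
        Matrix.SpecialLinearGroup.mapGL ℝ δ * ut A D B hA hD)
    (hδ : (D : ℤ) ∣ δ 0 0) (τ : ℍ) :
    HasSum (fun m => pco (fun e => cDiv M (a * δ 0 0) (a * δ 0 1) e
        - cDiv M (b * δ 0 0) (b * δ 0 1) e) (zetaM M ^ B) D A m * qM M τ ^ m)
      (wpD M a b (g • τ) / ((δ 1 0 : ℂ) * (ut A D B hA hD • τ : ℍ) + δ 1 1) ^ 2) := by
  have hDM : D ∣ M := ⟨A, by rw [← hAD]; ring⟩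
  have hj : ((δ 1 0 : ℂ) * (ut A D B hA hD • τ : ℍ) + δ 1 1) ^ 2 ≠ 0 :=
    pow_ne_zero 2 (helper55.SL_denom_ne_zero δ _)
  have h1 := helper55.wpD1_translate a b h τ
  rw [← helper55.wpD_eq_wpD1] at h1
  simp only [zero_mul, add_zero] at h1
  rw [h1, mul_div_cancel_left₀ _ hj, dD_eq_divPt]
  refine hasSum_pco hD hA (qM_ut_pow M hA hD τ) ?_ (hasSum_divPt M _ _ _ _ _)
  intro e he
  rw [cDiv_eq_zero_of_not_dvd hDM (Dvd.dvd.mul_left hδ a) _ he,
    cDiv_eq_zero_of_not_dvd hDM (Dvd.dvd.mul_left hδ b) _ he, sub_zero]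

end

end Fermat.Agent.T4.helper44
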