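import Fermat.Agent.T4.helper44_WpIntB
import Fermat.Agent.S28.Expansion

/-!
# T4 (I) / [CUSP-INT] part C (helper44): integral expansions with unit leading coefficient

* `UnitExp M S f` : the function `f` on `ℍ` has a `q_M`-expansion `t ^ n · u · p(t)` with `u` a
  unit of `S`, `p ∈ S[[t]]`, `p(0) = 1`.
* `unitExp_wpD_translate` : from `LeadUnit M S`, every translate of `(2πi)⁻² wpD M a b`
  (divided by the automorphy factor of its Hermite form) satisfies `UnitExp M S`.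
-/

set_option autoImplicit false

open Complex Filter Topology PeriodPair
open UpperHalfPlane hiding I
open scoped Real MatrixGroups

namespace Fermat.Agent.T4.helper44

open Fermat.Agent.S23.helper35 (ut coe_ut_smul hermite_int)
open Fermat.Agent.S28 (HasExpAt HasExp qN lau)

noncomputable section

/-- `f` has an `S`-integral `q_M`-expansion with unit leading coefficient -/
def UnitExp (M : ℕ) (S : Subring ℂ) (f : ℍ → ℂ) : Prop :=
  ∃ (n : ℕ) (u v : ℂ) (p : PowerSeries ℂ), u ∈ S ∧ v ∈ S ∧ u * v = 1 ∧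
    PowerSeries.constantCoeff p = 1 ∧ (∀ m, p.coeff m ∈ S) ∧
    HasExpAt M f 0 (PowerSeries.X ^ n * (PowerSeries.C u * p))

lemma qN_eq_qM (M : ℕ) (τ : ℍ) : qN M τ = qM M τ := by
  simp [qN, qM, Function.Periodic.qParam]

lemma two_pi_I_sq_ne_zero : ((2 * π * I) ^ 2 : ℂ) ≠ 0 := by
  have : (2 * π * I : ℂ) ≠ 0 := by
    simp [Real.pi_ne_zero, Complex.I_ne_zero]
  exact pow_ne_zero 2 this

/-- abstract form: a sparse sequence with unit leading coefficient, after re-indexing -/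
theorem unitExp_of_pco {M : ℕ} {S : Subring ℂ} {f : ℍ → ℂ} {c : ℕ → ℂ} {ξ ξ' : ℂ} {D A : ℕ}
    (hD : 0 < D) (hA : 0 < A) (hξ : ξ ∈ S) (hξ' : ξ' ∈ S) (hξξ : ξ * ξ' = 1)
    (hc : ∀ e, ¬ D ∣ e → c e = 0)
    (hlead : ∃ n : ℕ, ∃ u ∈ S, ∃ v ∈ S, u * v = 1 ∧ (∀ e < n, c e = 0) ∧
      c n = (2 * π * I) ^ 2 * u ∧ ∀ e, ∃ c' ∈ S, c e = (2 * π * I) ^ 2 * c')
    (hsum : ∀ τ : ℍ, HasSum (fun m => pco c ξ D A m * qM M τ ^ m) (((2 * π * I) ^ 2) * f τ)) :
    UnitExp M S f := by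
  obtain ⟨n₀, u, hu, v, hv, huv, hlow, hn₀, hint⟩ := hlead
  have hw := two_pi_I_sq_ne_zero
  have hu0 : u ≠ 0 := left_ne_zero_of_mul_eq_one huv
  have hDn : D ∣ n₀ := by
    by_contra h
    have := hc n₀ h
    rw [hn₀] at this
    exact (mul_ne_zero hw hu0) this
  obtain ⟨k₀, rfl⟩ := hDn
  -- the normalised coefficients
  set P : ℕ → ℂ := fun m => ((2 * π * I) ^ 2)⁻¹ * pco c ξ D A m with hP
  have hPS : ∀ m, P m ∈ S := by
    intro m
    simp only [hP, pco]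
    split_ifs with h
    · obtain ⟨c', hc', e⟩ := hint (D * (m / A))
      rw [e, ← mul_assoc, ← mul_assoc, inv_mul_cancel₀ hw, one_mul]
      exact S.mul_mem hc' (S.pow_mem hξ _)
    · rw [mul_zero]
      exact S.zero_mem
  have hPlow : ∀ m, m < A * k₀ → P m = 0 := by
    intro m hm
    simp only [hP, pco]
    split_ifs with h
    · obtain ⟨k, rfl⟩ := h
      rw [Nat.mul_div_cancel_left k hA]
      have hk : k < k₀ := lt_of_mul_lt_mul_left hm (Nat.zero_le A)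
      rw [hlow (D * k) (Nat.mul_lt_mul_of_pos_left hk hD)]
      ring
    · rw [mul_zero]
  have hPlead : P (A * k₀) = u * ξ ^ k₀ := by
    simp only [hP]
    rw [pco_mul c ξ D hA, hn₀, ← mul_assoc, ← mul_assoc, inv_mul_cancel₀ hw, one_mul]
  have hunit : (u * ξ ^ k₀) * (v * ξ' ^ k₀) = 1 := by
    calc (u * ξ ^ k₀) * (v * ξ' ^ k₀) = (u * v) * (ξ * ξ') ^ k₀ := by rw [mul_pow]; ring
      _ = 1 := by rw [huv, hξξ, one_pow, one_mul]
  refine ⟨A * k₀, u * ξ ^ k₀, v * ξ' ^ k₀,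
    PowerSeries.mk fun m => (v * ξ' ^ k₀) * P (m + A * k₀),
    S.mul_mem hu (S.pow_mem hξ _), S.mul_mem hv (S.pow_mem hξ' _), hunit, ?_, ?_, ?_⟩
  · rw [← PowerSeries.coeff_zero_eq_constantCoeff_apply, PowerSeries.coeff_mk, zero_add, hPlead,
      mul_comm]
    exact hunit
  · intro m
    rw [PowerSeries.coeff_mk]
    exact S.mul_mem (S.mul_mem hv (S.pow_mem hξ' _)) (hPS _)
  · intro τ
    have h1 := (hsum τ).mul_left (((2 * π * I) ^ 2)⁻¹)
    rw [← mul_assoc, inv_mul_cancel₀ hw, one_mul] at h1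
    rw [pow_zero, one_mul, qN_eq_qM]
    refine h1.congr_fun ?_ |>.mono_left le_rfl
    intro m
    rw [PowerSeries.coeff_X_pow_mul', PowerSeries.coeff_C_mul, PowerSeries.coeff_mk]
    split_ifs with h
    · rw [Nat.sub_add_cancel h, ← mul_assoc, hunit, one_mul, ← mul_assoc]
    · rw [zero_mul, ← mul_assoc]
      have := hPlow m (not_le.mp h)
      simp only [hP] at this
      rw [this, zero_mul]

/-! ### the roots of unity -/

lemma zetaM_pow_self (M : ℕ) [NeZero M] : zetaM M ^ M = 1 := by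
  have hM : (M : ℂ) ≠ 0 := by exact_mod_cast NeZero.ne M
  unfold zetaM
  rw [← Complex.exp_nat_mul, mul_div_cancel₀ _ hM, Complex.exp_two_pi_mul_I]

lemma zetaM_zpow_mem (M : ℕ) [NeZero M] {S : Subring ℂ} (hζ : zetaM M ∈ S) (B : ℤ) :
    zetaM M ^ B ∈ S := by
  have hM : (M : ℤ) ≠ 0 := by exact_mod_cast NeZero.ne M
  have h0 : 0 ≤ B % (M : ℤ) := Int.emod_nonneg B hM
  have e : zetaM M ^ B = zetaM M ^ (B % (M : ℤ)).toNat := by
    have h1 : B = (M : ℤ) * (B / (M : ℤ)) + ((B % (M : ℤ)).toNat : ℤ) := by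
      rw [Int.toNat_of_nonneg h0]
      exact (Int.mul_ediv_add_emod B M).symm
    have hz : zetaM M ≠ 0 := Complex.exp_ne_zero _
    conv_lhs => rw [h1]
    rw [zpow_add₀ hz, zpow_mul, zpow_natCast, zetaM_pow_self, one_zpow, one_mul, zpow_natCast]
  rw [e]
  exact S.pow_mem hζ _

/-! ### non-degeneracy of the translated indices -/

lemma not_dvd_pair {M : ℕ} (δ : SL(2, ℤ)) {a : ℤ} (ha : ¬ (M : ℤ) ∣ a) :
    ¬ ((M : ℤ) ∣ a * δ 0 0 ∧ (M : ℤ) ∣ a * δ 0 1) := by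
  rintro ⟨h1, h2⟩
  apply ha
  have hdet := det_eq_one δ
  have e : a = a * δ 0 0 * δ 1 1 - a * δ 0 1 * δ 1 0 := by
    calc a = a * (δ 0 0 * δ 1 1 - δ 0 1 * δ 1 0) := by rw [hdet, mul_one]
      _ = _ := by ring
  rw [e]
  exact dvd_sub (Dvd.dvd.mul_right h1 _) (Dvd.dvd.mul_right h2 _)

/-- **translates of `wpD` have `S`-integral expansions with unit leading coefficient** -/
theorem unitExp_wpD_translate (M : ℕ) [NeZero M] {S : Subring ℂ} (hL : LeadUnit M S)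
    (hζ : zetaM M ∈ S) {a b : ℤ} (ha : ¬ (M : ℤ) ∣ a) (hb : ¬ (M : ℤ) ∣ b)
    (hab : ¬ (M : ℤ) ∣ a - b) (hab' : ¬ (M : ℤ) ∣ a + b)
    {g δ : SL(2, ℤ)} {A D : ℕ} {B : ℤ} {hA : 0 < A}
    {hD : 0 < D} (hAD : A * D = M)
    (h : ut M 1 0 (NeZero.pos M) one_pos * Matrix.SpecialLinearGroup.mapGL ℝ g =
        Matrix.SpecialLinearGroup.mapGL ℝ δ * ut A D B hA hD)
    (hδ : (D : ℤ) ∣ δ 0 0) :
    UnitExp M S (fun τ => ((2 * π * I) ^ 2)⁻¹ *
      (wpD M a b (g • τ) / ((δ 1 0 : ℂ) * (ut A D B hA hD • τ : ℍ) + δ 1 1) ^ 2)) := by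
  have hDM : D ∣ M := ⟨A, by rw [← hAD]; ring⟩
  have hz : zetaM M ≠ 0 := Complex.exp_ne_zero _
  refine unitExp_of_pco (c := fun e => cDiv M (a * δ 0 0) (a * δ 0 1) e
      - cDiv M (b * δ 0 0) (b * δ 0 1) e) (ξ := zetaM M ^ B) (ξ' := zetaM M ^ (-B)) hD hA
    (zetaM_zpow_mem M hζ B) (zetaM_zpow_mem M hζ (-B)) ?_ ?_ ?_ ?_
  · rw [← zpow_add₀ hz, add_neg_cancel, zpow_zero]
  · intro e he
    show cDiv M (a * δ 0 0) (a * δ 0 1) e - cDiv M (b * δ 0 0) (b * δ 0 1) e = 0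
    rw [cDiv_eq_zero_of_not_dvd hDM (Dvd.dvd.mul_left hδ a) _ he,
      cDiv_eq_zero_of_not_dvd hDM (Dvd.dvd.mul_left hδ b) _ he, sub_zero]
  · refine hL (a * δ 0 0) (a * δ 0 1) (b * δ 0 0) (b * δ 0 1) (not_dvd_pair δ ha)
      (not_dvd_pair δ hb) ?_ ?_
    · rw [← sub_mul, ← sub_mul]
      exact not_dvd_pair δ hab
    · rw [← add_mul, ← add_mul]
      exact not_dvd_pair δ hab'
  · intro τ
    rw [mul_inv_cancel_left₀ two_pi_I_sq_ne_zero]
    exact hasSum_wpD_translate M a b hAD h hδ τ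

end

end Fermat.Agent.T4.helper44
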