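import Fermat.Agent.T4.helper44_WpIntC
import Fermat.Agent.T4.helper44_WpX1
import Fermat.Agent.S28.helper63_LevelOne

/-!
# T4 (I) / [CUSP-INT] part D (helper44): existence of the expansion of a periodic function of
exponential growth, and the algebra of quotients of unit expansions

* `exists_hasExp_of_holoExp` : `F ∈ holoExp`, `F (τ + N) = F τ` ⟹ `∃ s, HasExp N F s`;
* `hasExp_unit_form`, `exists_inv_powerSeries`, `quot_of_unitExp`.
-/

set_option autoImplicit false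

open Complex Filter Topology
open UpperHalfPlane hiding I
open scoped Real MatrixGroups Manifold

namespace Fermat.Agent.T4.helper44

open Fermat.Agent.S23.helper35 (ut coe_ut_smul hermite_int)
open Fermat.Agent.S28 (HasExpAt HasExp qN lau)
open Fermat.Agent.S24 (scaleH)
open Fermat.Agent.S24.helper77 (holoExp precomp)

noncomputable section

/-! ### change of width -/

/-- the point `τ / N` -/
def divH (N : ℕ) [NeZero N] (τ : ℍ) : ℍ := ut 1 N 0 one_pos (NeZero.pos N) • τ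

lemma coe_divH (N : ℕ) [NeZero N] (τ : ℍ) : ((divH N τ : ℍ) : ℂ) = (τ : ℂ) / N := by
  rw [divH, coe_ut_smul]
  simp

lemma scaleH_divH (N : ℕ) [NeZero N] (τ : ℍ) : scaleH N (divH N τ) = τ := by
  have hN : (N : ℂ) ≠ 0 := by exact_mod_cast NeZero.ne N
  apply UpperHalfPlane.ext
  show (N : ℂ) * ((divH N τ : ℍ) : ℂ) = τ
  rw [coe_divH, mul_div_cancel₀ _ hN]

lemma qN_one_divH (N : ℕ) [NeZero N] (τ : ℍ) : qN 1 (divH N τ) = qN N τ := by
  simp only [qN, Function.Periodic.qParam]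
  rw [coe_divH]
  congr 1
  push_cast
  ring

/-- converse change of width: an expansion of width `1` of `τ ↦ F (N τ)` is an expansion of
width `N` of `F`. -/
theorem hasExp_of_comp_scaleH {N : ℕ} [NeZero N] {F : ℍ → ℂ} {s : LaurentSeries ℂ}
    (h : HasExp 1 (fun τ => F (scaleH N τ)) s) : HasExp N F s := by
  obtain ⟨K, p, rfl, hp⟩ := h
  refine ⟨K, p, rfl, fun τ => ?_⟩
  have h1 := hp (divH N τ)
  simp only [qN_one_divH, scaleH_divH] at h1
  exact h1

/-- **existence of the expansion**: a holomorphic function of exponential growth at `i∞` which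
is `N`-periodic has a `q_N`-expansion. -/
theorem exists_hasExp_of_holoExp {N : ℕ} [NeZero N] {F : ℍ → ℂ} (hF : F ∈ holoExp)
    (hper : ∀ τ : ℍ, F ((N : ℝ) +ᵥ τ) = F τ) : ∃ s : LaurentSeries ℂ, HasExp N F s := by
  have hG : (fun τ => F (scaleH N τ)) ∈ holoExp := by
    obtain ⟨hmd, K, hK⟩ := hF
    refine ⟨hmd.comp (Fermat.Agent.S24.helper77.mdifferentiable_scaleH N), K * N, ?_⟩
    have h1 := hK.comp_tendsto (Fermat.Agent.S24.helper24.tendsto_scaleH N)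
    refine h1.congr_right fun τ => ?_
    simp only [Function.comp_apply, Fermat.Agent.S24.helper24.im_scaleH]
    push_cast
    ring_nf
  have hGper : ∀ τ : ℍ, (fun τ => F (scaleH N τ)) ((1 : ℝ) +ᵥ τ) = (fun τ => F (scaleH N τ)) τ := by
    intro τ
    have e : scaleH N ((1 : ℝ) +ᵥ τ) = (N : ℝ) +ᵥ scaleH N τ := by
      apply UpperHalfPlane.ext
      rw [UpperHalfPlane.coe_vadd]
      show (N : ℂ) * (((1 : ℝ) +ᵥ τ : ℍ) : ℂ) = _
      rw [UpperHalfPlane.coe_vadd]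
      show _ = ((N : ℝ) : ℂ) + (N : ℂ) * (τ : ℂ)
      push_cast
      ring
    show F (scaleH N ((1 : ℝ) +ᵥ τ)) = F (scaleH N τ)
    rw [e, hper]
  obtain ⟨s, hs⟩ := Fermat.Agent.P3.helper48.exists_isQExp hG hGper
  exact ⟨s, hasExp_of_comp_scaleH (Fermat.Agent.S28.helper63.hasExp_of_isQExp hs)⟩

/-! ### algebra of unit expansions -/

lemma ofPS_unit_form (n : ℕ) (u : ℂ) (p : PowerSeries ℂ) :
    HahnSeries.ofPowerSeries ℤ ℂ (PowerSeries.X ^ n * (PowerSeries.C u * p)) =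
      HahnSeries.single (n : ℤ) u * HahnSeries.ofPowerSeries ℤ ℂ p := by
  rw [map_mul, map_mul, map_pow, HahnSeries.ofPowerSeries_X, HahnSeries.single_pow, one_pow,
    HahnSeries.ofPowerSeries_C, ← mul_assoc, HahnSeries.C_apply, HahnSeries.single_mul_single]
  simp

lemma lau_zero (p : PowerSeries ℂ) : lau 0 p = HahnSeries.ofPowerSeries ℤ ℂ p := by
  rw [lau]
  simp

lemma ofPS_coeff_mem (S : Subring ℂ) (p : PowerSeries ℂ) (hp : ∀ m, p.coeff m ∈ S) (j : ℤ) :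
    (HahnSeries.ofPowerSeries ℤ ℂ p).coeff j ∈ S := by
  rw [← lau_zero, Fermat.Agent.S28.lau_coeff]
  split_ifs
  · exact hp _
  · exact S.zero_mem

lemma single_mul_ofPS_coeff_mem (S : Subring ℂ) (k : ℤ) {w : ℂ} (hw : w ∈ S)
    (p : PowerSeries ℂ) (hp : ∀ m, p.coeff m ∈ S) (j : ℤ) :
    (HahnSeries.single k w * HahnSeries.ofPowerSeries ℤ ℂ p).coeff j ∈ S := by
  rw [HahnSeries.coeff_single_mul]
  exact S.mul_mem hw (ofPS_coeff_mem S p hp _)

lemma mul_coeff_mem_ps (S : Subring ℂ) (p q : PowerSeries ℂ) (hp : ∀ m, p.coeff m ∈ S)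
    (hq : ∀ m, q.coeff m ∈ S) (m : ℕ) : (p * q).coeff m ∈ S := by
  rw [PowerSeries.coeff_mul]
  exact S.sum_mem fun x _ => S.mul_mem (hp _) (hq _)

/-- the inverse of a power series with coefficients in `S` and constant coefficient `1` -/
lemma exists_inv_powerSeries (S : Subring ℂ) (p : PowerSeries ℂ)
    (h0 : PowerSeries.constantCoeff p = 1) (hp : ∀ m, p.coeff m ∈ S) :
    ∃ q : PowerSeries ℂ, p * q = 1 ∧ PowerSeries.constantCoeff q = 1 ∧ ∀ m, q.coeff m ∈ S := by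
  set p' : PowerSeries S := PowerSeries.mk fun m => ⟨p.coeff m, hp m⟩ with hp'
  have hmap : PowerSeries.map S.subtype p' = p := by
    ext m
    rw [PowerSeries.coeff_map, hp', PowerSeries.coeff_mk]
    rfl
  have hc : PowerSeries.constantCoeff p' = 1 := by
    apply Subtype.ext
    rw [← PowerSeries.coeff_zero_eq_constantCoeff_apply, hp', PowerSeries.coeff_mk]
    show p.coeff 0 = 1
    rw [PowerSeries.coeff_zero_eq_constantCoeff_apply, h0]
  have hu : IsUnit p' := by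
    rw [PowerSeries.isUnit_iff_constantCoeff, hc]
    exact isUnit_one
  obtain ⟨q', hq'⟩ := hu.exists_right_inv
  have h1 : p * PowerSeries.map S.subtype q' = 1 := by
    rw [← hmap, ← map_mul, hq', map_one]
  refine ⟨PowerSeries.map S.subtype q', h1, ?_, ?_⟩
  · have h2 := congrArg PowerSeries.constantCoeff h1
    rw [map_mul, h0, one_mul, map_one] at h2
    exact h2
  · intro m
    rw [PowerSeries.coeff_map]
    exact (q'.coeff m).2

theorem hasExp_unit_form {M : ℕ} {f : ℍ → ℂ} {n : ℕ} {u : ℂ} {p : PowerSeries ℂ}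
    (h : HasExpAt M f 0 (PowerSeries.X ^ n * (PowerSeries.C u * p))) :
    HasExp M f (HahnSeries.single (n : ℤ) u * HahnSeries.ofPowerSeries ℤ ℂ p) :=
  ⟨0, _, by rw [lau_zero, ofPS_unit_form], h⟩

/-- **quotients of unit expansions** -/
theorem quot_of_unitExp {M : ℕ} [NeZero M] {S : Subring ℂ} {F num den : ℍ → ℂ}
    (hnum : UnitExp M S num) (hden : UnitExp M S den) (hF : ∃ s, HasExp M F s)
    (hmul : ∀ τ, F τ * den τ = num τ) :
    ∃ s : LaurentSeries ℂ, HasExp M F s ∧ (∀ n, s.coeff n ∈ S) ∧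
      ∃ (k : ℤ) (u v : ℂ) (p : PowerSeries ℂ), u ∈ S ∧ v ∈ S ∧ u * v = 1 ∧
        PowerSeries.constantCoeff p = 1 ∧ (∀ n, p.coeff n ∈ S) ∧
        s = HahnSeries.single k u * HahnSeries.ofPowerSeries ℤ ℂ p := by
  obtain ⟨n₁, u₁, v₁, p₁, hu₁, hv₁, huv₁, hp₁0, hp₁S, he₁⟩ := hnum
  obtain ⟨n₂, u₂, v₂, p₂, hu₂, hv₂, huv₂, hp₂0, hp₂S, he₂⟩ := hden
  obtain ⟨s₀, hs₀⟩ := hF
  have hN := hasExp_unit_form he₁
  have hD := hasExp_unit_form he₂
  have hFD : (F * den) = num := funext hmul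
  have heq : s₀ * (HahnSeries.single (n₂ : ℤ) u₂ * HahnSeries.ofPowerSeries ℤ ℂ p₂) =
      HahnSeries.single (n₁ : ℤ) u₁ * HahnSeries.ofPowerSeries ℤ ℂ p₁ := by
    have h1 := hs₀.mul hD
    rw [hFD] at h1
    exact h1.unique hN
  obtain ⟨q₂, hq₂, hq₂0, hq₂S⟩ := exists_inv_powerSeries S p₂ hp₂0 hp₂S
  have hXY : HahnSeries.single (n₂ : ℤ) u₂ * HahnSeries.single (-(n₂ : ℤ)) v₂ =
      (1 : LaurentSeries ℂ) := by
    rw [HahnSeries.single_mul_single, huv₂, add_neg_cancel]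
    rfl
  have hPQ : HahnSeries.ofPowerSeries ℤ ℂ p₂ * HahnSeries.ofPowerSeries ℤ ℂ q₂ = 1 := by
    rw [← map_mul, hq₂, map_one]
  have hs : s₀ = HahnSeries.single ((n₁ : ℤ) - n₂) (u₁ * v₂) *
      HahnSeries.ofPowerSeries ℤ ℂ (p₁ * q₂) := by
    have e1 : HahnSeries.single ((n₁ : ℤ) - n₂) (u₁ * v₂) =
        HahnSeries.single (n₁ : ℤ) u₁ * HahnSeries.single (-(n₂ : ℤ)) v₂ := by
      rw [HahnSeries.single_mul_single, sub_eq_add_neg]
    rw [e1, map_mul]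
    calc s₀ = s₀ * ((HahnSeries.single (n₂ : ℤ) u₂ * HahnSeries.single (-(n₂ : ℤ)) v₂) *
          (HahnSeries.ofPowerSeries ℤ ℂ p₂ * HahnSeries.ofPowerSeries ℤ ℂ q₂)) := by
            rw [hXY, hPQ, mul_one, mul_one]
      _ = (s₀ * (HahnSeries.single (n₂ : ℤ) u₂ * HahnSeries.ofPowerSeries ℤ ℂ p₂)) *
          (HahnSeries.single (-(n₂ : ℤ)) v₂ * HahnSeries.ofPowerSeries ℤ ℂ q₂) := by ring
      _ = (HahnSeries.single (n₁ : ℤ) u₁ * HahnSeries.ofPowerSeries ℤ ℂ p₁) *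
          (HahnSeries.single (-(n₂ : ℤ)) v₂ * HahnSeries.ofPowerSeries ℤ ℂ q₂) := by rw [heq]
      _ = _ := by ring
  have hpS : ∀ m, (p₁ * q₂).coeff m ∈ S := mul_coeff_mem_ps S p₁ q₂ hp₁S hq₂S
  refine ⟨s₀, hs₀, ?_, (n₁ : ℤ) - n₂, u₁ * v₂, v₁ * u₂, p₁ * q₂, S.mul_mem hu₁ hv₂,
    S.mul_mem hv₁ hu₂, ?_, ?_, hpS, hs⟩
  · intro j
    rw [hs]
    exact single_mul_ofPS_coeff_mem S _ (S.mul_mem hu₁ hv₂) _ hpS j
  · calc u₁ * v₂ * (v₁ * u₂) = (u₁ * v₁) * (u₂ * v₂) := by ring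
      _ = 1 := by rw [huv₁, huv₂, one_mul]
  · rw [map_mul, hp₁0, hq₂0, one_mul]

end

end Fermat.Agent.T4.helper44
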