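import Mathlib
import Fermat.Agent.T4.helper4_IgusaFinal

/-!
# T4 block (I), [IG-THETA] (helper4): the conjugates of the primitive element of `X₁(M)`

For a package `Q : PrimPack1 A M` (`helper4_IgusaInst3`): the conjugates
`Q.Θ : SL(2, ℤ) ⧸ ±Γ₁(M) → A((t))`, `Θ [g] = (expansion of θ ∘ g⁻¹)`, with

* `red_Θ_injective` : the reductions are pairwise distinct;
* `prod_Θ`          : `∏ (Y - Θ i) = Φ(j(t^M), Y)`;
* `Θ_rot`           : `Θ [T⁻¹ g] = rot ζ (Θ [g])`;
* `Θ_base`          : `Θ [1] = θ(t^M)`;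
* `zetaA`, `orderOf_zetaA`, `orderOf_map_zetaA` : the root of unity.

These are the fields of `helper18.ConjPackA`.
-/

set_option autoImplicit false
set_option linter.unusedSectionVars false
set_option linter.style.haveILetI false

noncomputable section

namespace Fermat.Agent.T4.helper4.Ig

open UpperHalfPlane CongruenceSubgroup Polynomial ModularCurve
open Fermat.Agent.T4.helper32.Conj1
open Fermat.Agent.P2.helper81 (subringC equivC rhoC)
open Fermat.Agent.S18.helper19 (Kb kA)
open Fermat.Agent.P2.helper29 (incl red)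
open Fermat.Agent.T4.helper24 Fermat.Agent.T4.helper32
open Fermat.Agent.S28 (zetaC)
open scoped MatrixGroups

variable {A : ValuationSubring Kb} {M : ℕ} [NeZero M]

/-! ### The index set -/

theorem finiteIndex_PG1 (M : ℕ) [NeZero M] : (PG1 M).FiniteIndex :=
  Subgroup.finiteIndex_of_le (H := Gamma M) Gamma_le_PG1

/-- the index set of the conjugates is finite -/
@[reducible] def fintypeCosets (M : ℕ) [NeZero M] : Fintype (SL(2, ℤ) ⧸ PG1 M) :=
  haveI := finiteIndex_PG1 M
  Fintype.ofFinite _

theorem card_cosets (M : ℕ) [NeZero M] :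
    @Fintype.card (SL(2, ℤ) ⧸ PG1 M) (fintypeCosets M) = (PG1 M).index := by
  rw [Subgroup.index_eq_card]
  exact (@Nat.card_eq_fintype_card _ (fintypeCosets M)).symm

namespace PrimPack1

variable (Q : PrimPack1 A M)

/-! ### The conjugates -/

/-- the conjugates, with coefficients in `S` -/
def ΘS (g : SL(2, ℤ)) : LaurentSeries (subringC A) :=
  ES (Gamma M) M (subringC A) g⁻¹ Q.θB

theorem ΘS_mul (g h : SL(2, ℤ)) (hh : h ∈ PG1 M) : Q.ΘS (g * h) = Q.ΘS g := by
  unfold ΘS
  rw [mul_inv_rev, ← ES_trB, Q.fix _ (inv_mem hh)]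

/-- the conjugates, with coefficients in `A`, indexed by the cosets of `±Γ₁(M)` -/
def Θ : SL(2, ℤ) ⧸ PG1 M → LaurentSeries A :=
  Quotient.lift (fun g => coeffMap (equivC A).symm.toRingHom (Q.ΘS g)) (by
    intro a b hab
    have h : a⁻¹ * b ∈ PG1 M := QuotientGroup.leftRel_apply.mp hab
    have e : b = a * (a⁻¹ * b) := by group
    show coeffMap _ (Q.ΘS a) = coeffMap _ (Q.ΘS b)
    rw [e, Q.ΘS_mul _ _ h])

theorem Θ_mk (g : SL(2, ℤ)) :
    Q.Θ (QuotientGroup.mk g) = coeffMap (equivC A).symm.toRingHom (Q.ΘS g) := rfl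

theorem red_Θ_mk (g : SL(2, ℤ)) :
    red A (Q.Θ (QuotientGroup.mk g)) =
      EB (Gamma M) M (subringC A) (rhoC A) g⁻¹ Q.θB := by
  show coeffMap (IsLocalRing.residue A) (coeffMap (equivC A).symm.toRingHom _) =
    coeffMap (rhoC A) _
  rw [coeffMap_coeffMap, residue_comp_equivC_symm]
  rfl

/-- **the reductions of the conjugates are pairwise distinct** -/
theorem red_Θ_injective (hζ : zetaC M ∈ subringC A) (hN : (M : ℂ)⁻¹ ∈ subringC A) :
    Function.Injective (fun i => red A (Q.Θ i)) := by
  intro i i' h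
  induction i using QuotientGroup.induction_on with
  | H g =>
    induction i' using QuotientGroup.induction_on with
    | H g' =>
      have h' : EB (Gamma M) M (subringC A) (rhoC A) g⁻¹ Q.θB =
          EB (Gamma M) M (subringC A) (rhoC A) g'⁻¹ Q.θB := by
        rw [← red_Θ_mk, ← red_Θ_mk]
        exact h
      rw [QuotientGroup.eq]
      apply Q.sep
      have h1 : EB (Gamma M) M (subringC A) (rhoC A) 1
            (trB (Gamma M) M (subringC A) g⁻¹ Q.θB) =
          EB (Gamma M) M (subringC A) (rhoC A) 1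
            (trB (Gamma M) M (subringC A) g'⁻¹ Q.θB) := by
        rw [EB_trB, EB_trB, mul_one, mul_one]
        exact h'
      have h2 := Fermat.Agent.T4.helper65.IgKer.EB_congr_of_surj M (subringC A) (rhoC A) hζ hN
        (Fermat.Agent.P2.helper81.rhoC_surjective A) g' h1
      rw [EB_trB, EB_trB, inv_mul_cancel] at h2
      exact h2

theorem Θ_injective (hζ : zetaC M ∈ subringC A) (hN : (M : ℂ)⁻¹ ∈ subringC A) :
    Function.Injective Q.Θ := by
  intro i i' h
  apply Q.red_Θ_injective hζ hN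
  show red A (Q.Θ i) = red A (Q.Θ i')
  rw [h]

/-! ### The base point -/

theorem Θ_base : Q.Θ (QuotientGroup.mk 1) = qExpand A M Q.θA := by
  rw [Θ_mk, ΘS, inv_one, Q.rep.ES_eq, ModularCurve.coeffMap_qExpand, coeffMap_coeffMap]
  congr 1
  have e : ((equivC A).symm.toRingHom).comp (equivC A).toRingHom = RingHom.id A := by
    ext a
    simp
  rw [e]
  ext n
  simp

/-! ### The equation -/

/-- the expansion at `g` of a polynomial in `j` -/
theorem coeffMap_ES_polyB (g : SL(2, ℤ)) (P : Polynomial (subringC A)) :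
    coeffMap (equivC A).symm.toRingHom (ES (Gamma M) M (subringC A) g
        (polyB (Gamma M) M (subringC A) P)) =
      aeval (qExpand A M (jqModC A)) (P.map (equivC A).symm.toRingHom) := by
  have h : ((coeffMap (equivC A).symm.toRingHom).comp
      ((ES (Gamma M) M (subringC A) g).comp (polyB (Gamma M) M (subringC A)))) =
      ((aeval (qExpand A M (jqModC A)) : Polynomial A →ₐ[A] LaurentSeries A) :
        Polynomial A →+* LaurentSeries A).comp
          (Polynomial.mapRingHom (equivC A).symm.toRingHom) := by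
    apply Polynomial.ringHom_ext
    · intro c
      have h1 : polyB (Gamma M) M (subringC A) (C c) = constB (Gamma M) M (subringC A) c := by
        simp [polyB]
      rw [RingHom.comp_apply, RingHom.comp_apply, RingHom.comp_apply, h1, ES_constB,
        coeffMap_C', coe_mapRingHom, Polynomial.map_C, RingHom.coe_coe, aeval_C,
        Fermat.Agent.S28.helper93.algebraMap_laurent_eq_C]
    · have h2 : polyB (Gamma M) M (subringC A) X = jB (Gamma M) M (subringC A) := by
        simp [polyB]
      rw [RingHom.comp_apply, RingHom.comp_apply, RingHom.comp_apply, h2,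
        Fermat.Agent.T4.helper65.IgKer.ES_jB, ModularCurve.coeffMap_qExpand, coeffMap_jqModC,
        coe_mapRingHom, Polynomial.map_X, RingHom.coe_coe, aeval_X]
  exact RingHom.congr_fun h P

/-- the expansion at `g` of a polynomial in `(j, θ)` -/
theorem coeffMap_ES_eval₂ (g : SL(2, ℤ)) (Ψ : Polynomial (Polynomial (subringC A))) :
    coeffMap (equivC A).symm.toRingHom (ES (Gamma M) M (subringC A) g⁻¹
        (Ψ.eval₂ (polyB (Gamma M) M (subringC A)) Q.θB)) =
      (Ψ.map (Polynomial.mapRingHom (equivC A).symm.toRingHom)).eval₂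
        ((aeval (qExpand A M (jqModC A)) : Polynomial A →ₐ[A] LaurentSeries A) :
          Polynomial A →+* LaurentSeries A) (Q.Θ (QuotientGroup.mk g)) := by
  induction Ψ using Polynomial.induction_on' with
  | add p q hp hq =>
    rw [eval₂_add, map_add, map_add, Polynomial.map_add, eval₂_add, hp, hq]
  | monomial n c =>
    rw [← C_mul_X_pow_eq_monomial, eval₂_mul, eval₂_pow, eval₂_C, eval₂_X,
      Polynomial.map_mul, Polynomial.map_pow, Polynomial.map_C, Polynomial.map_X, eval₂_mul,
      eval₂_pow, eval₂_C, eval₂_X, map_mul, map_mul, map_pow, map_pow, coeffMap_ES_polyB]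
    rfl

/-- the conjugates are roots of `Φ(j(t^M), Y)` -/
theorem root_Θ (i : SL(2, ℤ) ⧸ PG1 M) :
    Q.ΦA.eval₂ ((aeval (qExpand A M (jqModC A)) : Polynomial A →ₐ[A] LaurentSeries A) :
      Polynomial A →+* LaurentSeries A) (Q.Θ i) = 0 := by
  induction i using QuotientGroup.induction_on with
  | H g =>
    rw [ΦA, ← Q.coeffMap_ES_eval₂ g Q.Φ, Q.root, map_zero, map_zero]

/-- **the product formula** `∏ (Y - Θ i) = Φ(j(t^M), Y)` -/
theorem prod_Θ (hζ : zetaC M ∈ subringC A) (hN : (M : ℂ)⁻¹ ∈ subringC A) :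
    letI := fintypeCosets M
    ∏ i, (Polynomial.X - Polynomial.C (Q.Θ i)) =
      Q.ΦA.map ((aeval (qExpand A M (jqModC A)) : Polynomial A →ₐ[A] LaurentSeries A) :
        Polynomial A →+* LaurentSeries A) := by
  letI := fintypeCosets M
  classical
  set p : Polynomial (LaurentSeries A) :=
    Q.ΦA.map ((aeval (qExpand A M (jqModC A)) : Polynomial A →ₐ[A] LaurentSeries A) :
      Polynomial A →+* LaurentSeries A) with hp
  have hpm : p.Monic := Q.monic_ΦA.map _
  have hpdeg : p.natDegree = Fintype.card (SL(2, ℤ) ⧸ PG1 M) := by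
    rw [hp, Q.monic_ΦA.natDegree_map, Q.natDegree_ΦA, card_cosets]
  have hroot : ∀ i, p.IsRoot (Q.Θ i) := by
    intro i
    rw [Polynomial.IsRoot, hp, Polynomial.eval_map]
    exact Q.root_Θ i
  have hqm : (∏ i, (Polynomial.X - Polynomial.C (Q.Θ i))).Monic :=
    Polynomial.monic_prod_of_monic _ _ (fun i _ => Polynomial.monic_X_sub_C _)
  have hqdeg : (∏ i, (Polynomial.X - Polynomial.C (Q.Θ i))).natDegree =
      Fintype.card (SL(2, ℤ) ⧸ PG1 M) := by
    rw [Polynomial.natDegree_prod_of_monic _ _ (fun i _ => Polynomial.monic_X_sub_C _)]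
    simp
  have hdvd : (∏ i, (Polynomial.X - Polynomial.C (Q.Θ i))) ∣ p := by
    have h1 : ((Finset.univ : Finset (SL(2, ℤ) ⧸ PG1 M)).val.map Q.Θ) ≤ p.roots := by
      rw [Multiset.le_iff_subset]
      · intro x hx
        rw [Multiset.mem_map] at hx
        obtain ⟨i, -, rfl⟩ := hx
        rw [Polynomial.mem_roots hpm.ne_zero]
        exact hroot i
      · exact (Multiset.nodup_map_iff_of_injective (Q.Θ_injective hζ hN)).mpr
          Finset.univ.nodup
    have h2 := (Multiset.prod_X_sub_C_dvd_iff_le_roots hpm.ne_zero _).mpr h1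
    rw [Multiset.map_map] at h2
    exact h2
  exact (Polynomial.eq_of_monic_of_dvd_of_natDegree_le hqm hpm hdvd
    (by rw [hpdeg, hqdeg])).symm

/-! ### The rotation -/

/-- `ζ_M` as a unit of `A` -/
def zetaA (hζ : zetaC M ∈ subringC A) : Aˣ :=
  Units.map (((equivC A).symm : subringC A ≃+* A) : subringC A →* A)
    (zetaU M (subringC A) hζ)

theorem coe_zetaA_zpow (hζ : zetaC M ∈ subringC A) (n : ℤ) :
    ((zetaA hζ ^ n : Aˣ) : A) =
      (equivC A).symm ((zetaU M (subringC A) hζ ^ n : (subringC A)ˣ) : subringC A) := by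
  rw [zetaA, ← map_zpow]
  rfl

/-- the order of the reduction of `ζ_M` (`P2.helper28.orderOf_zetaBarU`, restated to keep the
imports small) -/
theorem orderOf_zetaBarU' (S : Subring ℂ) {k : Type} [Field k] (r : S →+* k)
    (hζ : zetaC M ∈ S) (hN : (M : ℂ)⁻¹ ∈ S) :
    orderOf (Fermat.Agent.P2.helper28.zetaBarU S r hζ) = M := by
  rw [orderOf_eq_iff (Nat.pos_of_ne_zero (NeZero.ne M))]
  refine ⟨Fermat.Agent.P2.helper28.zetaBarU_pow S r hζ, fun m hm hm0 h => ?_⟩
  have := (Fermat.Agent.P2.helper28.zetaBarU_pow_eq_one_iff S r hζ hN m).mp h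
  exact absurd (Nat.le_of_dvd hm0 this) (not_le.mpr hm)

theorem orderOf_zetaA (hζ : zetaC M ∈ subringC A) (hN : (M : ℂ)⁻¹ ∈ subringC A) :
    orderOf (zetaA (A := A) hζ) = M := by
  have h1 : orderOf (zetaA (A := A) hζ) = orderOf (zetaU M (subringC A) hζ) := by
    rw [zetaA]
    exact orderOf_injective _
      (Units.map_injective (f := (((equivC A).symm : subringC A ≃+* A) : subringC A →* A))
        (equivC A).symm.injective) _
  have h2 : orderOf (Units.map ((subringC A).subtype : subringC A →* ℂ)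
      (zetaU M (subringC A) hζ)) = orderOf (zetaU M (subringC A) hζ) :=
    orderOf_injective _
      (Units.map_injective (f := ((subringC A).subtype : subringC A →* ℂ))
        Subtype.val_injective) _
  have h3 : Units.map ((subringC A).subtype : subringC A →* ℂ) (zetaU M (subringC A) hζ) =
      Fermat.Agent.P2.helper28.zetaBarU (subringC A) (subringC A).subtype hζ :=
    Units.ext rfl
  rw [h1, ← h2, h3]
  exact orderOf_zetaBarU' (subringC A) (subringC A).subtype hζ hN

theorem orderOf_map_zetaA (hζ : zetaC M ∈ subringC A) (hN : (M : ℂ)⁻¹ ∈ subringC A) :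
    orderOf (Units.map ((IsLocalRing.residue A : A →+* kA A) : A →* kA A)
      (zetaA (A := A) hζ)) = M := by
  have h3 : Units.map ((IsLocalRing.residue A : A →+* kA A) : A →* kA A) (zetaA (A := A) hζ) =
      Fermat.Agent.P2.helper28.zetaBarU (subringC A) (rhoC A) hζ := by
    apply Units.ext
    show IsLocalRing.residue A ((equivC A).symm ⟨zetaC M, hζ⟩) = rhoC A ⟨zetaC M, hζ⟩
    rw [← residue_comp_equivC_symm]
    rfl
  rw [h3]
  exact orderOf_zetaBarU' (subringC A) (rhoC A) hζ hN

/-- **the rotation**: `Θ [T⁻¹ g] = rot ζ (Θ [g])` -/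
theorem Θ_rot (hζ : zetaC M ∈ subringC A) (i : SL(2, ℤ) ⧸ PG1 M) :
    Q.Θ (MulAction.toPerm (ModularGroup.T⁻¹ : SL(2, ℤ)) i) =
      Fermat.Agent.P2.helper94.rot (zetaA hζ) (Q.Θ i) := by
  induction i using QuotientGroup.induction_on with
  | H g =>
    have e : MulAction.toPerm (ModularGroup.T⁻¹ : SL(2, ℤ))
        (QuotientGroup.mk g : SL(2, ℤ) ⧸ PG1 M) = QuotientGroup.mk (ModularGroup.T⁻¹ * g) :=
      rfl
    rw [e, Θ_mk, Θ_mk, ΘS, ΘS, mul_inv_rev, inv_inv]
    ext n
    rw [coeffMap_coeff, ES_mul_T_coeff (Gamma M) M (subringC A) hζ,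
      Fermat.Agent.P2.helper94.rot_coeff, coeffMap_coeff, coe_zetaA_zpow]
    exact congrArg Subtype.val (map_mul (equivC A).symm.toRingHom _ _)

end PrimPack1

end Fermat.Agent.T4.helper4.Ig

end
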