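/-
T4 block (I), I-RED [RED-ASM] (helper4): GENERIC assembly of (INJ) for a pair `(E, Eb)` of
`q`-expansion fields - port of `P2/helper29_Assembly.lean`.

* `injReg_of_root_pivot`   : ROOT + PIVOT ⇒ REG.
* `inj_of_idealStep_injReg` : I1 + REG + VAL-INT ⇒ `InjStatement A E Eb m`.
* `inj_of_packages`        : (INJ) from I1, ROOT, PIVOT, VAL-INT.
* `inj1_of_packages`       : `Inj1Statement M p` from the packages at `(F1 M, F1b A M)`.
-/
import Mathlib
import Fermat.Agent.T4.helper4_RedDefs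
import Fermat.Agent.P2.helper29_Assembly

set_option autoImplicit false

noncomputable section

open HahnSeries IntermediateField AlgebraicCurve ModularCurve
open Fermat.Agent.S18.helper19 (Kb kA)
open Fermat.Agent.P2.helper29 (incl red IsInfty InL incl_injective)

namespace Fermat.Agent.T4.helper4

section Basic

variable {A : ValuationSubring Kb} {E : IntermediateField Kb (LaurentSeries Kb)}
  {Eb : IntermediateField (kA A) (LaurentSeries (kA A))}

theorem isGood_one : IsGood A E Eb (1 : LaurentSeries A) := by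
  refine ⟨?_, ?_, ?_⟩
  · rw [map_one]; exact one_mem _
  · rw [map_one]; exact one_mem _
  · rw [map_one]; exact one_ne_zero

theorem IsGood.mul {Y Y' : LaurentSeries A} (h : IsGood A E Eb Y) (h' : IsGood A E Eb Y') :
    IsGood A E Eb (Y * Y') := by
  refine ⟨?_, ?_, ?_⟩
  · rw [map_mul]; exact mul_mem h.1 h'.1
  · rw [map_mul]; exact mul_mem h.2.1 h'.2.1
  · rw [map_mul]; exact mul_ne_zero h.2.2 h'.2.2

theorem IsGood.pow {Y : LaurentSeries A} (h : IsGood A E Eb Y) (n : ℕ) :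
    IsGood A E Eb (Y ^ n) := by
  induction n with
  | zero => simpa using isGood_one
  | succ n ih => rw [pow_succ]; exact ih.mul h

theorem isGood_ne_zero {Y : LaurentSeries A} (h : IsGood A E Eb Y) : Y ≠ 0 := by
  rintro rfl
  exact h.2.2 (map_zero _)

theorem isGood_incl_ne_zero {Y : LaurentSeries A} (h : IsGood A E Eb Y) : incl A Y ≠ 0 := by
  intro h0
  exact isGood_ne_zero h (incl_injective A (h0.trans (map_zero _).symm))

theorem isRedOne_one : IsRedOne A E Eb (1 : LaurentSeries Kb) :=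
  ⟨1, 1, isGood_one, isGood_one, by simp, rfl⟩

theorem IsRedOne.ne_zero {f : LaurentSeries Kb} (h : IsRedOne A E Eb f) : f ≠ 0 := by
  obtain ⟨Y₁, Y₂, h1, _, h12, _⟩ := h
  rintro rfl
  rw [zero_mul] at h12
  exact isGood_incl_ne_zero h1 h12

theorem IsRedOne.mem {f : LaurentSeries Kb} (h : IsRedOne A E Eb f) : f ∈ E := by
  obtain ⟨Y₁, Y₂, h1, h2, h12, _⟩ := h
  have h2' := isGood_incl_ne_zero h2
  have : f = incl A Y₁ * (incl A Y₂)⁻¹ := by
    rw [h12, mul_assoc, mul_inv_cancel₀ h2', mul_one]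
  rw [this]
  exact E.mul_mem h1.1 (E.inv_mem h2.1)

theorem IsRedOne.mul {f g : LaurentSeries Kb} (hf : IsRedOne A E Eb f)
    (hg : IsRedOne A E Eb g) : IsRedOne A E Eb (f * g) := by
  obtain ⟨Y₁, Y₂, h1, h2, h12, hr⟩ := hf
  obtain ⟨Z₁, Z₂, k1, k2, k12, kr⟩ := hg
  refine ⟨Y₁ * Z₁, Y₂ * Z₂, IsGood.mul h1 k1, IsGood.mul h2 k2, ?_, ?_⟩
  · rw [map_mul, map_mul, h12, k12]; ring
  · rw [map_mul, map_mul, hr, kr]

theorem IsRedOne.inv {f : LaurentSeries Kb} (hf : IsRedOne A E Eb f) :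
    IsRedOne A E Eb f⁻¹ := by
  have hf0 := hf.ne_zero
  obtain ⟨Y₁, Y₂, h1, h2, h12, hr⟩ := hf
  refine ⟨Y₂, Y₁, h2, h1, ?_, hr.symm⟩
  rw [h12, ← mul_assoc, inv_mul_cancel₀ hf0, one_mul]

theorem IsRedOne.pow {f : LaurentSeries Kb} (hf : IsRedOne A E Eb f) (m : ℕ) :
    IsRedOne A E Eb (f ^ m) := by
  induction m with
  | zero => simpa using isRedOne_one
  | succ m ih => rw [pow_succ]; exact ih.mul hf

theorem IsRedOne.isWInt {f : LaurentSeries Kb} (hf : IsRedOne A E Eb f) :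
    IsWInt A E Eb f := by
  obtain ⟨Y₁, Y₂, h1, h2, h12, _⟩ := hf
  exact ⟨Y₁, Y₂, h1.1, h2, h12⟩

/-- the integral expansion of a function with reduction `1` has reduction `1` -/
theorem red_eq_one_of_isRedOne {Y : LaurentSeries A} (h : IsRedOne A E Eb (incl A Y)) :
    red A Y = 1 := by
  obtain ⟨Y₁, Y₂, _, h2, h12, hr⟩ := h
  have e : Y₁ = Y * Y₂ := incl_injective A (by rw [h12, map_mul])
  have h3 : red A Y * red A Y₂ = red A Y₂ := by rw [← map_mul, ← e, hr]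
  have h4 : red A Y₂ ≠ 0 := h2.2.2
  exact mul_right_cancel₀ h4 (h3.trans (one_mul _).symm)

/-- an integral series of `E` with reduction `1` is a function with reduction `1`
(needs `1 ∈ Eb` only) -/
theorem isRedOne_of_red_eq_one {Y : LaurentSeries A} (hY : incl A Y ∈ E)
    (hred : red A Y = 1) : IsRedOne A E Eb (incl A Y) :=
  ⟨Y, 1, ⟨hY, by rw [hred]; exact one_mem _, by rw [hred]; exact one_ne_zero⟩, isGood_one,
    by rw [map_one, mul_one], by rw [hred, map_one]⟩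

end Basic

section Assembly

variable {A : ValuationSubring Kb} {E : IntermediateField Kb (LaurentSeries Kb)}
  {Eb : IntermediateField (kA A) (LaurentSeries (kA A))} {m : ℕ}

/-- **ROOT + PIVOT ⇒ REG** -/
theorem injReg_of_root_pivot (hroot : RootStatement A E m) (hpiv : PivotStatement A E m) :
    InjRegStatement A E m := by
  intro H n hL hred hdiv
  obtain ⟨W, z, hW, hz, hWred⟩ := hroot H n hL hred hdiv
  refine ⟨1, incl A W, hpiv H W n z hL hW hz hWred, ?_⟩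
  rw [map_one, one_mul, ← map_pow, hW]

theorem divDvd_pow_mul_inv {g h : LaurentSeries Kb} (hg : g ∈ E) (hg0 : g ≠ 0)
    (hh : h ∈ E) (hh0 : h ≠ 0) (hdiv : DivDvd E m h) : DivDvd E m (g ^ m * h⁻¹) := by
  intro hf P
  have e : (⟨g ^ m * h⁻¹, hf⟩ : E) = (⟨g, hg⟩ : E) ^ m * (⟨h, hh⟩ : E)⁻¹ := rfl
  have hg' : (⟨g, hg⟩ : E) ≠ 0 := fun h' => hg0 (congrArg Subtype.val h')
  have hh' : (⟨h, hh⟩ : E) ≠ 0 := fun h' => hh0 (congrArg Subtype.val h')
  rw [e, Place.ord_mul P (pow_ne_zero m hg') (inv_ne_zero hh'), Place.ord_inv,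
    ← zpow_natCast, Place.ord_zpow]
  exact dvd_sub (Dvd.intro _ rfl) (hdiv hh P)

/-- **I1 + REG + VAL-INT ⇒ (INJ)** -/
theorem inj_of_idealStep_injReg (hm : 0 < m) (hI1 : IdealStepStatement A E Eb m)
    (hreg : InjRegStatement A E m) (hint : IntegralityStatement A E Eb) :
    InjStatement A E Eb m := by
  intro f hf0 hdiv hred
  have hfL0 : (f : LaurentSeries Kb) ≠ 0 := fun h => hf0 (Subtype.ext h)
  have hfdiv : DivDvd E m (f : LaurentSeries Kb) := fun hf P => hdiv P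
  have hfred : IsRedOne A E Eb (f : LaurentSeries Kb) := hred
  obtain ⟨g, hgF, hg0, hgred, n, hL⟩ := hI1 f f.2 hfL0 hfdiv hfred
  -- the function `H' = g ^ m / f`
  have hH'red : IsRedOne A E Eb (g ^ m * (f : LaurentSeries Kb)⁻¹) :=
    (hgred.pow m).mul hfred.inv
  obtain ⟨Y, hY⟩ := hint n _ hL hH'red.isWInt
  have hYred : red A Y = 1 :=
    red_eq_one_of_isRedOne (E := E) (Eb := Eb) (by rw [hY]; exact hH'red)
  have hYdiv : DivDvd E m (incl A Y) := by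
    rw [hY]
    exact divDvd_pow_mul_inv hgF hg0 f.2 hfL0 hfdiv
  obtain ⟨c, u, hu, hcu⟩ := hreg Y n (by rw [hY]; exact hL) hYred hYdiv
  rw [hY] at hcu
  -- `g ^ m / f = c * u ^ m`
  have hne : g ^ m * (f : LaurentSeries Kb)⁻¹ ≠ 0 :=
    mul_ne_zero (pow_ne_zero m hg0) (inv_ne_zero hfL0)
  have hc0 : c ≠ 0 := by
    rintro rfl
    rw [map_zero, zero_mul] at hcu
    exact hne hcu
  have hu0 : u ≠ 0 := by
    rintro rfl
    rw [zero_pow (Nat.pos_iff_ne_zero.mp hm), mul_zero] at hcu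
    exact hne hcu
  refine ⟨c⁻¹, (⟨g, hgF⟩ : E) * (⟨u, hu⟩ : E)⁻¹, ?_⟩
  apply Subtype.ext
  show (f : LaurentSeries Kb) = algebraMap Kb (LaurentSeries Kb) c⁻¹ * (g * u⁻¹) ^ m
  have hcL : algebraMap Kb (LaurentSeries Kb) c ≠ 0 := by
    rw [Ne, map_eq_zero_iff _ (algebraMap Kb (LaurentSeries Kb)).injective]
    exact hc0
  have hum : u ^ m ≠ 0 := pow_ne_zero m hu0
  have key : (f : LaurentSeries Kb) * (algebraMap Kb (LaurentSeries Kb) c * u ^ m) = g ^ m := by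
    rw [← hcu]
    field_simp
  rw [map_inv₀, mul_pow, inv_pow, ← key]
  field_simp

/-- **(INJ) from the four packages I1, ROOT, PIVOT, VAL-INT** -/
theorem inj_of_packages (hm : 0 < m) (hI1 : IdealStepStatement A E Eb m)
    (hroot : RootStatement A E m) (hpiv : PivotStatement A E m)
    (hint : IntegralityStatement A E Eb) : InjStatement A E Eb m :=
  inj_of_idealStep_injReg hm hI1 (injReg_of_root_pivot hroot hpiv) hint

end Assembly

section X1

open Fermat.Agent.T4.helper32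

/-- **(INJ1)** from the packages at `(F1 M, F1b A M)` for all places over good primes. -/
theorem inj1_of_packages (M p : ℕ) (hp : p.Prime)
    (hI1 : ∀ ℓ : ℕ, ℓ.Prime → ¬ ℓ ∣ M * p → ∀ A : ValuationSubring Kb, A.LiesOverPrime ℓ →
      ∀ m : ℕ, ¬ ℓ ∣ m → IdealStepStatement A (F1 M) (F1b A M) m)
    (hroot : ∀ ℓ : ℕ, ℓ.Prime → ¬ ℓ ∣ M * p → ∀ A : ValuationSubring Kb,
      A.LiesOverPrime ℓ → ∀ m : ℕ, ¬ ℓ ∣ m → RootStatement A (F1 M) m)
    (hpiv : ∀ ℓ : ℕ, ℓ.Prime → ¬ ℓ ∣ M * p → ∀ A : ValuationSubring Kb,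
      A.LiesOverPrime ℓ → ∀ m : ℕ, ¬ ℓ ∣ m → PivotStatement A (F1 M) m)
    (hint : ∀ ℓ : ℕ, ℓ.Prime → ¬ ℓ ∣ M * p → ∀ A : ValuationSubring Kb,
      A.LiesOverPrime ℓ → IntegralityStatement A (F1 M) (F1b A M)) :
    Inj1Statement M p := by
  intro ℓ hℓ hℓMp A hA n
  have hm : ¬ ℓ ∣ p ^ n := fun h =>
    hℓMp (Dvd.dvd.mul_left
      ((Nat.prime_dvd_prime_iff_eq hℓ hp).mp (hℓ.dvd_of_dvd_pow h) ▸ dvd_rfl) M)
  exact inj_of_packages (pow_pos hp.pos n) (hI1 ℓ hℓ hℓMp A hA _ hm)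
    (hroot ℓ hℓ hℓMp A hA _ hm) (hpiv ℓ hℓ hℓMp A hA _ hm) (hint ℓ hℓ hℓMp A hA)

/-- **P2-CORE for `X₁(M)`** from the packages and the two Kummer wirings. -/
theorem p2Core1_of_packages (M p : ℕ) (hp : p.Prime)
    (hU : KummerUnr1Statement M p) (hE : KummerES1Statement M p)
    (hI1 : ∀ ℓ : ℕ, ℓ.Prime → ¬ ℓ ∣ M * p → ∀ A : ValuationSubring Kb, A.LiesOverPrime ℓ →
      ∀ m : ℕ, ¬ ℓ ∣ m → IdealStepStatement A (F1 M) (F1b A M) m)
    (hroot : ∀ ℓ : ℕ, ℓ.Prime → ¬ ℓ ∣ M * p → ∀ A : ValuationSubring Kb,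
      A.LiesOverPrime ℓ → ∀ m : ℕ, ¬ ℓ ∣ m → RootStatement A (F1 M) m)
    (hpiv : ∀ ℓ : ℕ, ℓ.Prime → ¬ ℓ ∣ M * p → ∀ A : ValuationSubring Kb,
      A.LiesOverPrime ℓ → ∀ m : ℕ, ¬ ℓ ∣ m → PivotStatement A (F1 M) m)
    (hint : ∀ ℓ : ℕ, ℓ.Prime → ¬ ℓ ∣ M * p → ∀ A : ValuationSubring Kb,
      A.LiesOverPrime ℓ → IntegralityStatement A (F1 M) (F1b A M)) :
    P2Core1Statement M p :=
  p2Core1_of M p hU hE (inj1_of_packages M p hp hI1 hroot hpiv hint)

end X1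

end Fermat.Agent.T4.helper4

end
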