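import Mathlib
import Fermat.Prelude.Def_FLTPrelim_Modularity

/-!
# T4 block (III): the weight-one Eisenstein series `E_{1,ψ}` on `Γ₁(ℓ)` — definitions and Props

Sub-coordinator: helper4.  Blueprint: `Fermat/Agent/T4/NOTES_helper4_Wt1.lean` (comment-only file).

Route (no theta functions, no Hecke trick): the Weierstrass zeta function as an absolutely
convergent lattice sum, Mathlib's transformation law of `G2`, and the `q`-series of the cotangent.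

* `wzTerm ω₁ ω₂ z (m, n) = 1/(z - ω) + 1/ω + z/ω²`, `ω = m ω₁ + n ω₂` (for `ω = 0` Lean's
  conventions give `1/z`), `wzeta ω₁ ω₂ z = ∑' p, wzTerm ω₁ ω₂ z p`.
* `wF ℓ x y τ = ζ_τ(z) - (x η₂ + y η₁)/ℓ`, `z = (x τ + y)/ℓ`, `η₁ = G2 τ`, `η₂ = τ G2 τ - 2πi`.
-/

set_option autoImplicit false

open UpperHalfPlane hiding I
open Complex Filter Topology CongruenceSubgroup
open scoped Real MatrixGroups Manifold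

noncomputable section

namespace Fermat.Agent.T4.helper4

/-- Summand of the Weierstrass zeta function of the lattice `ℤ ω₁ + ℤ ω₂`. -/
def wzTerm (ω₁ ω₂ z : ℂ) (p : ℤ × ℤ) : ℂ :=
  1 / (z - ((p.1 : ℂ) * ω₁ + (p.2 : ℂ) * ω₂)) + 1 / ((p.1 : ℂ) * ω₁ + (p.2 : ℂ) * ω₂) +
    z / ((p.1 : ℂ) * ω₁ + (p.2 : ℂ) * ω₂) ^ 2

/-- The Weierstrass zeta function of the lattice `ℤ ω₁ + ℤ ω₂`. -/
def wzeta (ω₁ ω₂ z : ℂ) : ℂ := ∑' p : ℤ × ℤ, wzTerm ω₁ ω₂ z p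

/-- The division value `F_{(x,y)}(τ) = ζ_τ(z) - (x η₂(τ) + y η₁(τ))/ℓ`, `z = (x τ + y)/ℓ`. -/
def wF (ℓ : ℕ) (x y : ℤ) (τ : ℍ) : ℂ :=
  wzeta (τ : ℂ) 1 (((x : ℂ) * τ + y) / ℓ) -
    ((x : ℂ) * ((τ : ℂ) * EisensteinSeries.G2 τ - 2 * π * I) + (y : ℂ) * EisensteinSeries.G2 τ) / ℓ

/-- Partial sums of `φ(z, τ) = π cot πz + ∑_{m ≥ 1} π (cot π(z - mτ) + cot π(z + mτ))`. -/
def phiPartial (z τ : ℂ) (M : ℕ) : ℂ :=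
  π * cot (π * z) + ∑ m ∈ Finset.range M,
    (π * cot (π * (z - ((m : ℂ) + 1) * τ)) + π * cot (π * (z + ((m : ℂ) + 1) * τ)))

/-- [W1-SUM] absolute convergence of the zeta lattice sum for the lattice `ℤ τ + ℤ`. -/
def ZetaSummable : Prop :=
  ∀ (τ : ℍ) (z : ℂ), Summable (wzTerm (τ : ℂ) 1 z)

/-- [W1-EXP] Eisenstein summation of the (absolutely convergent) zeta sum:
`ζ_τ(z) = G2(τ) z + φ(z, τ)` off the lattice. -/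
def ZetaExpand : Prop :=
  ∀ (τ : ℍ) (z : ℂ), (∀ m n : ℤ, z ≠ (m : ℂ) * τ + n) →
    Tendsto (phiPartial z (τ : ℂ)) atTop (𝓝 (wzeta (τ : ℂ) 1 z - EisensteinSeries.G2 τ * z))

/-- [W1-MOD] modularity of the division values (formal: homogeneity + reindexing + `G2` law). -/
def DivModular : Prop :=
  ∀ (ℓ : ℕ) (x y : ℤ) (γ : SL(2, ℤ)) (τ : ℍ),
    wF ℓ x y (γ • τ) =
      (((γ 1 0 : ℤ) : ℂ) * τ + ((γ 1 1 : ℤ) : ℂ)) *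
        wF ℓ (x * γ 0 0 + y * γ 1 0) (x * γ 0 1 + y * γ 1 1) τ

/-- [W1-PER] the division values only depend on `(x, y)` modulo `ℓ`
(off the lattice, i.e. for `(x, y) ≢ (0, 0)`). -/
def DivPeriodic : Prop :=
  ∀ (ℓ : ℕ) [NeZero ℓ] (x y a b : ℤ) (τ : ℍ), ¬ ((ℓ : ℤ) ∣ x ∧ (ℓ : ℤ) ∣ y) →
    wF ℓ (x + ℓ * a) (y + ℓ * b) τ = wF ℓ x y τ

/-- [W1-QEXP] the `q`-expansion of `F_{(0,y)}`, `ℓ ∤ y`:
`F_{(0,y)}(τ) = π cot(π y/ℓ) + 2πi ∑_{N ≥ 1} (∑_{n ∣ N} (ζ^{-ny} - ζ^{ny})) q^N`, `ζ = e^{2πi/ℓ}`. -/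
def DivQExp : Prop :=
  ∀ (ℓ : ℕ) [NeZero ℓ] (y : ℤ), ¬ (ℓ : ℤ) ∣ y → ∀ τ : ℍ,
    HasSum (fun N : ℕ => (if N = 0 then π * cot (π * ((y : ℂ) / ℓ)) else
        2 * π * I * ∑ n ∈ N.divisors,
          (cexp (-(2 * π * I * ((n : ℂ) * y / ℓ))) - cexp (2 * π * I * ((n : ℂ) * y / ℓ)))) *
          cexp (2 * π * I * τ) ^ N)
      (wF ℓ 0 y τ)

/-- [W1-HOL] holomorphy of the division values. -/
def DivHolo : Prop :=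
  ∀ (ℓ : ℕ) [NeZero ℓ] (x y : ℤ), ¬ ((ℓ : ℤ) ∣ x ∧ (ℓ : ℤ) ∣ y) → MDiff (wF ℓ x y)

/-- [W1-BDD] boundedness at `i∞` of all division values. -/
def DivBounded : Prop :=
  ∀ (ℓ : ℕ) [NeZero ℓ] (x y : ℤ), ¬ ((ℓ : ℤ) ∣ x ∧ (ℓ : ℤ) ∣ y) → IsBoundedAtImInfty (wF ℓ x y)

/-- [W1-EIS] THE TARGET (classical form): for an odd Dirichlet character `ψ` modulo a prime `ℓ`
there is `E ∈ M₁(Γ₁(ℓ))` with nebentypus `ψ` on `Γ₀(ℓ)` and `q`-expansion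
`∑_{0<k<ℓ} k ψ(k) - 2ℓ ∑_{N ≥ 1} (∑_{d ∣ N} ψ(d)) q^N`. -/
def Wt1EisStatement : Prop :=
  ∀ (ℓ : ℕ) [Fact ℓ.Prime] (ψ : DirichletCharacter ℂ ℓ), ψ (-1) = -1 →
    ∃ E : ModularForm (Gamma1 ℓ) 1,
      (∀ γ : SL(2, ℤ), γ ∈ Gamma0 ℓ → ∀ τ : ℍ,
        E (γ • τ) = ψ ((γ 1 1 : ℤ) : ZMod ℓ) * (((γ 1 0 : ℤ) : ℂ) * τ + ((γ 1 1 : ℤ) : ℂ)) * E τ) ∧
      ModularFormClass.qCoeff E 0 = ∑ k ∈ Finset.range ℓ, (k : ℂ) * ψ (k : ZMod ℓ) ∧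
      ∀ N : ℕ, 0 < N →
        ModularFormClass.qCoeff E N = -2 * (ℓ : ℂ) * ∑ d ∈ N.divisors, ψ (d : ZMod ℓ)

/-- [W1-TEICH] the inverse Teichmüller character relative to a reduction map
`r : ℤ̄ → k`, `char k = ℓ` odd: an odd Dirichlet character `ψ` mod `ℓ` with values in `ℤ̄`
and `k · ψ(k) ≡ 1` for `ℓ ∤ k`. -/
def TeichStatement : Prop :=
  ∀ (ℓ : ℕ) [Fact ℓ.Prime], ℓ ≠ 2 → ∀ (k : Type) [Field k] [CharP k ℓ]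
    (r : integralClosure ℤ ℂ →+* k),
    ∃ (ψ : DirichletCharacter ℂ ℓ) (w : ZMod ℓ → integralClosure ℤ ℂ),
      ψ (-1) = -1 ∧ (∀ a : ZMod ℓ, ((w a : integralClosure ℤ ℂ) : ℂ) = ψ a) ∧
      ∀ a : ℕ, ¬ ℓ ∣ a → (a : k) * r (w (a : ZMod ℓ)) = 1

/-- [W1-CONG] THE TARGET (congruence form): for every reduction map `r : ℤ̄ → k`, `char k = ℓ`
odd, a weight-one form on `Γ₁(ℓ)` with nebentypus `ψ` (`ψ(a) a ≡ 1`), whose `q`-expansion has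
coefficients in `ℤ̄`, constant term a unit mod `r` and all higher coefficients `≡ 0` mod `r`. -/
def Wt1CongStatement : Prop :=
  ∀ (ℓ : ℕ) [Fact ℓ.Prime], ℓ ≠ 2 → ∀ (k : Type) [Field k] [CharP k ℓ]
    (r : integralClosure ℤ ℂ →+* k),
    ∃ (ψ : DirichletCharacter ℂ ℓ) (w : ZMod ℓ → integralClosure ℤ ℂ)
      (E : ModularForm (Gamma1 ℓ) 1) (α : ℕ → integralClosure ℤ ℂ),
      ψ (-1) = -1 ∧ (∀ a : ZMod ℓ, ((w a : integralClosure ℤ ℂ) : ℂ) = ψ a) ∧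
      (∀ a : ℕ, ¬ ℓ ∣ a → (a : k) * r (w (a : ZMod ℓ)) = 1) ∧
      (∀ γ : SL(2, ℤ), γ ∈ Gamma0 ℓ → ∀ τ : ℍ,
        E (γ • τ) = ψ ((γ 1 1 : ℤ) : ZMod ℓ) * (((γ 1 0 : ℤ) : ℂ) * τ + ((γ 1 1 : ℤ) : ℂ)) * E τ) ∧
      (∀ n : ℕ, ModularFormClass.qCoeff E n = ((α n : integralClosure ℤ ℂ) : ℂ)) ∧
      r (α 0) = -1 ∧ ∀ n : ℕ, 0 < n → r (α n) = 0

end Fermat.Agent.T4.helper4
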