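import Fermat.Agent.T4.helper50_RootVGDefs
import Fermat.Agent.P2.helper50_RootVAbs
import Fermat.Agent.P2.helper81_ValScale

/-!
# T4 (I), I-RED, box [ROOT-V] (helper50), part 1: the ring of `w`-integral functions of a
generic function field and the Gauss valuation of `ℚ̄(j)`

Generic port of `P2/helper50_RootVRing.lean` for a pair `(E, Eb)` with `j ∈ E`, `j̃ ∈ Eb`:

* `gwRing A E Eb` : the subring `{f | IsWInt A E Eb f}` of `E`;
* `gwRed A E Eb : gwRing A E Eb →+* k((q))` : the reduction `Y₁ / Y₂ ↦ red Y₁ / red Y₂`;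
* `g_exists_repr` : an element of `ℚ̄(j)` which is `w`-integral is `r(j) / s(j)` with
  `r, s ∈ A[X]`, `s` primitive;
* `g_mem_or_inv`, `g_gwRed_eq_zero` : `gwRing ∩ ℚ̄(j)` is a valuation ring of `ℚ̄(j)` and the kernel
  of the reduction is its maximal ideal; `g_gwRed_mem` : the reduction of such an element lies in
  `k(j̃)`;
* `g_exists_poly_of_isWInt` : a polynomial in `j` over `ℚ̄` which is `w`-integral has
  coefficients in `A`.
-/

set_option autoImplicit false
set_option linter.style.haveILetI false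
set_option linter.unusedSectionVars false
set_option linter.unusedVariables false
set_option linter.style.longLine false

open ModularCurve Polynomial IntermediateField HahnSeries

noncomputable section

namespace Fermat.Agent.T4.helper50

open Fermat.Agent.S18.helper19 (Kb kA)
open Fermat.Agent.P2.helper29 (incl red)
open Fermat.Agent.P2.helper81 (ev₂ ev₂_apply ev₂_C ev₂_X jA jK jBar)
open Fermat.Agent.P2 Fermat.Agent.S28
open Fermat.Agent.T4.helper4

/-! ### Good series -/

section Good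

variable {A : ValuationSubring Kb} {E : IntermediateField Kb (LaurentSeries Kb)}
  {Eb : IntermediateField (kA A) (LaurentSeries (kA A))}

theorem g_isGood_one : IsGood A E Eb 1 :=
  ⟨by rw [map_one]; exact one_mem _, by rw [map_one]; exact one_mem _,
    by rw [map_one]; exact one_ne_zero⟩

theorem g_isGood_mul {Y Z : LaurentSeries A} (hY : IsGood A E Eb Y) (hZ : IsGood A E Eb Z) :
    IsGood A E Eb (Y * Z) :=
  ⟨by rw [map_mul]; exact mul_mem hY.1 hZ.1, by rw [map_mul]; exact mul_mem hY.2.1 hZ.2.1,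
    by rw [map_mul]; exact mul_ne_zero hY.2.2 hZ.2.2⟩

theorem g_incl_aeval (A : ValuationSubring Kb) (s : Polynomial A) :
    incl A (aeval (jA A) s) = aeval jK (s.map A.subtype) := by
  rw [helper25.coeffMap_aeval, helper81.coeffMap_jA]

theorem g_aeval_mem (hj : jqModC Kb ∈ E) (P : Polynomial Kb) : aeval jK P ∈ E := by
  have h := Polynomial.aeval_algHom_apply E.val (jEl E hj) P
  have h2 : E.val (jEl E hj) = jK := rfl
  rw [h2] at h
  rw [h]
  exact (aeval (jEl E hj) P).2

theorem g_aeval_bar_mem (hjb : jqModC (kA A) ∈ Eb) (P : Polynomial (kA A)) :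
    aeval (jBar A) P ∈ Eb := by
  have h := Polynomial.aeval_algHom_apply Eb.val (jbEl A Eb hjb) P
  have h2 : Eb.val (jbEl A Eb hjb) = jBar A := rfl
  rw [h2] at h
  rw [h]
  exact (aeval (jbEl A Eb hjb) P).2

/-- a polynomial in `j` with nonzero reduction is a good series -/
theorem g_isGood_aeval (hj : jqModC Kb ∈ E) (hjb : jqModC (kA A) ∈ Eb) (s : Polynomial A)
    (hs : s.map (IsLocalRing.residue A) ≠ 0) : IsGood A E Eb (aeval (jA A) s) := by
  refine ⟨?_, ?_, ?_⟩
  · rw [g_incl_aeval]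
    exact g_aeval_mem hj _
  · rw [helper81.red_aeval]
    exact g_aeval_bar_mem hjb _
  · rw [helper81.red_aeval]
    exact helper81.aeval_jBar_ne_zero A _ hs

end Good

/-! ### The ring of `w`-integral functions -/

section Ring

variable (A : ValuationSubring Kb) (E : IntermediateField Kb (LaurentSeries Kb))
  (Eb : IntermediateField (kA A) (LaurentSeries (kA A)))

/-- the subring of `w`-integral functions -/
def gwRing : Subring E where
  carrier := {f | IsWInt A E Eb (f : LaurentSeries Kb)}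
  zero_mem' := ⟨0, 1, by rw [map_zero]; exact zero_mem _, g_isGood_one, by simp⟩
  one_mem' := ⟨1, 1, by rw [map_one]; exact one_mem _, g_isGood_one, by simp⟩
  add_mem' := by
    rintro f g ⟨Y₁, Y₂, hY₁, hY₂, hf⟩ ⟨Z₁, Z₂, hZ₁, hZ₂, hg⟩
    refine ⟨Y₁ * Z₂ + Z₁ * Y₂, Y₂ * Z₂, ?_, g_isGood_mul hY₂ hZ₂, ?_⟩
    · rw [map_add, map_mul, map_mul]
      exact add_mem (mul_mem hY₁ hZ₂.1) (mul_mem hZ₁ hY₂.1)
    · rw [map_add, map_mul, map_mul, map_mul, hf, hg]
      push_cast
      ring
  mul_mem' := by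
    rintro f g ⟨Y₁, Y₂, hY₁, hY₂, hf⟩ ⟨Z₁, Z₂, hZ₁, hZ₂, hg⟩
    refine ⟨Y₁ * Z₁, Y₂ * Z₂, ?_, g_isGood_mul hY₂ hZ₂, ?_⟩
    · rw [map_mul]
      exact mul_mem hY₁ hZ₁
    · rw [map_mul, map_mul, hf, hg]
      push_cast
      ring
  neg_mem' := by
    rintro f ⟨Y₁, Y₂, hY₁, hY₂, hf⟩
    refine ⟨-Y₁, Y₂, ?_, hY₂, ?_⟩
    · rw [map_neg]
      exact neg_mem hY₁
    · rw [map_neg, hf]
      push_cast
      ring

lemma mem_gwRing {f : E} : f ∈ gwRing A E Eb ↔ IsWInt A E Eb (f : LaurentSeries Kb) :=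
  Iff.rfl

/-- the numerator of the chosen representation -/
def gwNum (f : gwRing A E Eb) : LaurentSeries A := Classical.choose f.2

/-- the denominator of the chosen representation -/
def gwDen (f : gwRing A E Eb) : LaurentSeries A := Classical.choose (Classical.choose_spec f.2)

lemma gwDen_isGood (f : gwRing A E Eb) : IsGood A E Eb (gwDen A E Eb f) :=
  (Classical.choose_spec (Classical.choose_spec f.2)).2.1

lemma gwNum_eq (f : gwRing A E Eb) :
    incl A (gwNum A E Eb f) =
      ((f : E) : LaurentSeries Kb) * incl A (gwDen A E Eb f) :=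
  (Classical.choose_spec (Classical.choose_spec f.2)).2.2

/-- the reduction of a `w`-integral function -/
def gwRedFun (f : gwRing A E Eb) : LaurentSeries (kA A) :=
  red A (gwNum A E Eb f) / red A (gwDen A E Eb f)

/-- the reduction can be computed from any representation -/
theorem gwRedFun_eq (f : gwRing A E Eb) (Y₁ Y₂ : LaurentSeries A)
    (hY₂ : red A Y₂ ≠ 0)
    (h : incl A Y₁ = ((f : E) : LaurentSeries Kb) * incl A Y₂) :
    gwRedFun A E Eb f = red A Y₁ / red A Y₂ := by
  have hd := (gwDen_isGood A E Eb f).2.2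
  have e : gwNum A E Eb f * Y₂ = Y₁ * gwDen A E Eb f := by
    apply helper81.coeffMap_subtype_injective A
    rw [map_mul, map_mul]
    have h1 := gwNum_eq A E Eb f
    have h1' : coeffMap A.subtype (gwNum A E Eb f) =
        ((f : E) : LaurentSeries Kb) * coeffMap A.subtype (gwDen A E Eb f) := h1
    have h' : coeffMap A.subtype Y₁ = ((f : E) : LaurentSeries Kb) * coeffMap A.subtype Y₂ := h
    rw [h1', h']
    ring
  have e' := congrArg (red A) e
  rw [map_mul, map_mul] at e'
  rw [gwRedFun, div_eq_div_iff hd hY₂]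
  exact e'

/-- the reduction as a ring homomorphism -/
def gwRed : gwRing A E Eb →+* LaurentSeries (kA A) where
  toFun := gwRedFun A E Eb
  map_one' := by
    rw [gwRedFun_eq A E Eb 1 1 1 (by rw [map_one]; exact one_ne_zero) (by simp), map_one, div_one]
  map_zero' := by
    rw [gwRedFun_eq A E Eb 0 0 1 (by rw [map_one]; exact one_ne_zero) (by simp), map_zero,
      zero_div]
  map_mul' := by
    intro f g
    have hf := (gwDen_isGood A E Eb f).2.2
    have hg := (gwDen_isGood A E Eb g).2.2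
    rw [gwRedFun_eq A E Eb (f * g) (gwNum A E Eb f * gwNum A E Eb g)
      (gwDen A E Eb f * gwDen A E Eb g)
      (by rw [map_mul]; exact mul_ne_zero hf hg)
      (by rw [map_mul, map_mul, gwNum_eq, gwNum_eq]; push_cast; ring)]
    rw [map_mul, map_mul, gwRedFun, gwRedFun, div_mul_div_comm]
  map_add' := by
    intro f g
    have hf := (gwDen_isGood A E Eb f).2.2
    have hg := (gwDen_isGood A E Eb g).2.2
    rw [gwRedFun_eq A E Eb (f + g)
      (gwNum A E Eb f * gwDen A E Eb g + gwNum A E Eb g * gwDen A E Eb f)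
      (gwDen A E Eb f * gwDen A E Eb g)
      (by rw [map_mul]; exact mul_ne_zero hf hg)
      (by rw [map_add, map_mul, map_mul, map_mul, gwNum_eq, gwNum_eq]; push_cast; ring)]
    rw [map_add, map_mul, map_mul, map_mul, gwRedFun, gwRedFun, div_add_div _ _ hf hg]
    congr 1
    ring

/-- the reduction can be computed from any representation -/
theorem gwRed_eq (f : E) (hf : f ∈ gwRing A E Eb) (Y₁ Y₂ : LaurentSeries A)
    (hY₂ : red A Y₂ ≠ 0)
    (h : incl A Y₁ = (f : LaurentSeries Kb) * incl A Y₂) :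
    gwRed A E Eb ⟨f, hf⟩ = red A Y₁ / red A Y₂ :=
  gwRedFun_eq A E Eb ⟨f, hf⟩ Y₁ Y₂ hY₂ h

/-- an integral series of `E` is `w`-integral -/
theorem mem_gwRing_of_incl (f : E) (Y : LaurentSeries A)
    (h : incl A Y = (f : LaurentSeries Kb)) : f ∈ gwRing A E Eb :=
  ⟨Y, 1, by rw [h]; exact f.2, g_isGood_one, by rw [h, map_one, mul_one]⟩

/-- ... and its reduction is the reduction of the series -/
theorem gwRed_of_incl (f : E) (Y : LaurentSeries A)
    (h : incl A Y = (f : LaurentSeries Kb)) :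
    gwRed A E Eb ⟨f, mem_gwRing_of_incl A E Eb f Y h⟩ = red A Y := by
  rw [gwRed_eq A E Eb f (mem_gwRing_of_incl A E Eb f Y h) Y 1
    (by rw [map_one]; exact one_ne_zero) (by rw [h, map_one, mul_one]), map_one, div_one]

end Ring

/-! ### The Gauss valuation of `ℚ̄(j)` -/

section Base

variable (A : ValuationSubring Kb) (E : IntermediateField Kb (LaurentSeries Kb))
  (Eb : IntermediateField (kA A) (LaurentSeries (kA A)))
  (hj : jqModC Kb ∈ E) (hjb : jqModC (kA A) ∈ Eb)

lemma g_residue_eq_zero {u : A} (hu : ¬ IsUnit u) : IsLocalRing.residue A u = 0 :=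
  (IsLocalRing.residue_eq_zero_iff u).mpr ((IsLocalRing.mem_maximalIdeal u).mpr hu)

lemma g_algebraMap_mem (c : Kb) : algebraMap Kb (LaurentSeries Kb) c ∈ E :=
  E.algebraMap_mem c

/-- a nonzero polynomial over `ℚ̄` is a constant times a primitive polynomial over `A` -/
theorem g_exists_scale (P : Polynomial Kb) (hP : P ≠ 0) :
    ∃ (b c : A) (P₁ : Polynomial A), b ≠ 0 ∧ c ≠ 0 ∧ P₁.map (IsLocalRing.residue A) ≠ 0 ∧
      C (b : Kb) * P = C (c : Kb) * P₁.map A.subtype := by
  obtain ⟨b, hb, hQ⟩ := IsLocalization.integerNormalization_spec (nonZeroDivisors A) P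
  set Q := IsLocalization.integerNormalization (nonZeroDivisors A) P with hQdef
  have hb0 : b ≠ 0 := nonZeroDivisors.ne_zero hb
  have hQ0 : Q ≠ 0 := by
    rw [hQdef, Ne, IsFractionRing.integerNormalization_eq_zero_iff]
    exact hP
  have hQ' : Q.map A.subtype = C (b : Kb) * P := by
    have : Q.map (algebraMap A Kb) = b • P := hQ
    rw [Algebra.smul_def] at this
    exact this
  obtain ⟨c, Q₁, i, hc, hQ₁, hi⟩ := helper81.exists_scale₁ Q hQ0
  refine ⟨b, c, Q₁, hb0, hc, helper81.map_ne_zero_of_coeff_eq_one _ Q₁ i hi, ?_⟩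
  rw [← hQ', hQ₁, Polynomial.map_mul, Polynomial.map_C]
  rfl

/-- **primitive quotient** for the elements of `ℚ̄(j)` -/
theorem g_exists_primitive_quot (h : Kb⟮jEl E hj⟯) (hne : h ≠ 0) :
    ∃ (c c' : A) (s₁ r₁ : Polynomial A), c ≠ 0 ∧ c' ≠ 0 ∧
      s₁.map (IsLocalRing.residue A) ≠ 0 ∧ r₁.map (IsLocalRing.residue A) ≠ 0 ∧
      algebraMap Kb (LaurentSeries Kb) (c : Kb) * incl A (aeval (jA A) s₁) *
          (((h : E) : E) : LaurentSeries Kb) =
        algebraMap Kb (LaurentSeries Kb) (c' : Kb) * incl A (aeval (jA A) r₁) := by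
  obtain ⟨r, s, hrs⟩ := (IntermediateField.mem_adjoin_simple_iff Kb (h : E)).mp h.2
  have hhE : (h : E) ≠ 0 := fun h0 => hne (Subtype.ext h0)
  have hs0 : aeval (jEl E hj) s ≠ 0 := by
    intro h0
    rw [h0, div_zero] at hrs
    exact hhE hrs
  have hr0 : aeval (jEl E hj) r ≠ 0 := by
    intro h0
    rw [h0, zero_div] at hrs
    exact hhE hrs
  have hs : s ≠ 0 := fun h0 => hs0 (by rw [h0, map_zero])
  have hr : r ≠ 0 := fun h0 => hr0 (by rw [h0, map_zero])
  have hL : (((h : E) : E) : LaurentSeries Kb) * aeval jK s = aeval jK r := by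
    have h1 : (h : E) * aeval (jEl E hj) s = aeval (jEl E hj) r := by
      rw [hrs, div_mul_cancel₀ _ hs0]
    have h2 := congrArg E.val h1
    rw [map_mul, ← Polynomial.aeval_algHom_apply, ← Polynomial.aeval_algHom_apply] at h2
    exact h2
  obtain ⟨bs, cs, s₁, hbs, hcs, hs₁, hS⟩ := g_exists_scale A s hs
  obtain ⟨br, cr, r₁, hbr, hcr, hr₁, hR⟩ := g_exists_scale A r hr
  refine ⟨cs * br, cr * bs, s₁, r₁, mul_ne_zero hcs hbr, mul_ne_zero hcr hbs, hs₁, hr₁, ?_⟩
  have e1 := congrArg (aeval jK) hS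
  have e2 := congrArg (aeval jK) hR
  rw [map_mul, map_mul, aeval_C, aeval_C] at e1 e2
  rw [g_incl_aeval, g_incl_aeval]
  have hc1 : (((cs * br : A) : A) : Kb) = (cs : Kb) * (br : Kb) := rfl
  have hc2 : (((cr * bs : A) : A) : Kb) = (cr : Kb) * (bs : Kb) := rfl
  rw [hc1, hc2, map_mul, map_mul]
  linear_combination (-(algebraMap Kb (LaurentSeries Kb) (br : Kb) *
      (((h : E) : E) : LaurentSeries Kb))) * e1 +
    algebraMap Kb (LaurentSeries Kb) (bs : Kb) * e2 +
    algebraMap Kb (LaurentSeries Kb) (br : Kb) * algebraMap Kb (LaurentSeries Kb) (bs : Kb) * hL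

/-- normal form of a nonzero element of `ℚ̄(j)`: `h = u r₁(j) / s₁(j)` or
`h⁻¹ = u s₁(j) / r₁(j)` with `u ∈ 𝔪`, `r₁, s₁` primitive. -/
theorem g_exists_normal_form (h : Kb⟮jEl E hj⟯) (hne : h ≠ 0) :
    ∃ (u : A) (s₁ r₁ : Polynomial A),
      s₁.map (IsLocalRing.residue A) ≠ 0 ∧ r₁.map (IsLocalRing.residue A) ≠ 0 ∧
      (incl A (aeval (jA A) s₁) * (((h : E) : E) : LaurentSeries Kb) =
          algebraMap Kb (LaurentSeries Kb) (u : Kb) * incl A (aeval (jA A) r₁) ∨
        (algebraMap Kb (LaurentSeries Kb) (u : Kb) * incl A (aeval (jA A) s₁) *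
            (((h : E) : E) : LaurentSeries Kb) = incl A (aeval (jA A) r₁) ∧ ¬ IsUnit u)) := by
  obtain ⟨c, c', s₁, r₁, hc, hc', hs₁, hr₁, hq⟩ := g_exists_primitive_quot A E hj h hne
  have hcK : (c : Kb) ≠ 0 := fun h0 => hc (Subtype.ext h0)
  have hc'K : (c' : Kb) ≠ 0 := fun h0 => hc' (Subtype.ext h0)
  have hcL : algebraMap Kb (LaurentSeries Kb) (c : Kb) ≠ 0 := by
    rw [Ne, map_eq_zero]; exact hcK
  have hc'L : algebraMap Kb (LaurentSeries Kb) (c' : Kb) ≠ 0 := by
    rw [Ne, map_eq_zero]; exact hc'K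
  have first : ∀ u : A, c' = c * u →
      incl A (aeval (jA A) s₁) * (((h : E) : E) : LaurentSeries Kb) =
        algebraMap Kb (LaurentSeries Kb) (u : Kb) * incl A (aeval (jA A) r₁) := by
    intro u hu
    have hcu : ((c' : A) : Kb) = (c : Kb) * (u : Kb) := by rw [hu]; rfl
    apply mul_left_cancel₀ hcL
    rw [← mul_assoc, hq, hcu, map_mul]
    ring
  rcases ValuationRing.dvd_total c c' with ⟨u, hu⟩ | ⟨u, hu⟩
  · exact ⟨u, s₁, r₁, hs₁, hr₁, Or.inl (first u hu)⟩
  · by_cases huu : IsUnit u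
    · obtain ⟨v, rfl⟩ := huu
      refine ⟨((v⁻¹ : Aˣ) : A), s₁, r₁, hs₁, hr₁, Or.inl (first _ ?_)⟩
      rw [hu, mul_assoc, Units.mul_inv, mul_one]
    · refine ⟨u, s₁, r₁, hs₁, hr₁, Or.inr ⟨?_, huu⟩⟩
      have hcu : ((c : A) : Kb) = (c' : Kb) * (u : Kb) := by rw [hu]; rfl
      apply mul_left_cancel₀ hc'L
      rw [← hq, hcu, map_mul]
      ring

include hjb in
/-- `gwRing ∩ ℚ̄(j)` is a valuation ring of `ℚ̄(j)` -/
theorem g_mem_or_inv (h : Kb⟮jEl E hj⟯) :
    (h : E) ∈ gwRing A E Eb ∨ ((h : E))⁻¹ ∈ gwRing A E Eb := by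
  by_cases hne : h = 0
  · left
    rw [hne]
    exact (gwRing A E Eb).zero_mem
  have hhE : (h : E) ≠ 0 := fun h0 => hne (Subtype.ext h0)
  have hhL : (((h : E) : E) : LaurentSeries Kb) ≠ 0 := fun h0 => hhE (Subtype.ext h0)
  obtain ⟨u, s₁, r₁, hs₁, hr₁, hq | ⟨hq, -⟩⟩ := g_exists_normal_form A E hj h hne
  · left
    refine ⟨algebraMap A (LaurentSeries A) u * aeval (jA A) r₁, aeval (jA A) s₁, ?_,
      g_isGood_aeval hj hjb s₁ hs₁, ?_⟩
    · rw [map_mul, helper81.incl_algebraMap]
      exact mul_mem (g_algebraMap_mem E _) (g_isGood_aeval (Eb := Eb) hj hjb r₁ hr₁).1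
    · rw [map_mul, helper81.incl_algebraMap, ← hq]
      exact mul_comm _ _
  · right
    refine ⟨algebraMap A (LaurentSeries A) u * aeval (jA A) s₁, aeval (jA A) r₁, ?_,
      g_isGood_aeval hj hjb r₁ hr₁, ?_⟩
    · rw [map_mul, helper81.incl_algebraMap]
      exact mul_mem (g_algebraMap_mem E _) (g_isGood_aeval (Eb := Eb) hj hjb s₁ hs₁).1
    · rw [map_mul, helper81.incl_algebraMap, ← hq]
      push_cast
      field_simp

include hjb in
/-- **representation** of a `w`-integral element of `ℚ̄(j)`: `s(j) h = r(j)` with `s` primitive -/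
theorem g_exists_repr (h : Kb⟮jEl E hj⟯) (hh : (h : E) ∈ gwRing A E Eb) :
    ∃ (s r : Polynomial A), s.map (IsLocalRing.residue A) ≠ 0 ∧
      incl A (aeval (jA A) r) =
        (((h : E) : E) : LaurentSeries Kb) * incl A (aeval (jA A) s) := by
  by_cases hne : h = 0
  · refine ⟨1, 0, by rw [Polynomial.map_one]; exact one_ne_zero, ?_⟩
    rw [hne]
    simp
  obtain ⟨u, s₁, r₁, hs₁, hr₁, hq | ⟨hq, huu⟩⟩ := g_exists_normal_form A E hj h hne
  · refine ⟨s₁, C u * r₁, hs₁, ?_⟩
    rw [map_mul, aeval_C, map_mul, helper81.incl_algebraMap, ← hq]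
    exact mul_comm _ _
  · exfalso
    obtain ⟨Y₁, Y₂, hY₁, hY₂, hY⟩ := hh
    -- `u s₁(j) Y₁ = r₁(j) Y₂` in `A((q))`
    have h2 : algebraMap A (LaurentSeries A) u * aeval (jA A) s₁ * Y₁ =
        aeval (jA A) r₁ * Y₂ := by
      apply helper81.coeffMap_subtype_injective A
      have hq' : algebraMap Kb (LaurentSeries Kb) (u : Kb) *
          coeffMap A.subtype (aeval (jA A) s₁) * (((h : E) : E) : LaurentSeries Kb) =
            coeffMap A.subtype (aeval (jA A) r₁) := hq
      have hY' : coeffMap A.subtype Y₁ =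
          (((h : E) : E) : LaurentSeries Kb) * coeffMap A.subtype Y₂ := hY
      rw [map_mul, map_mul, map_mul, helper81.incl_algebraMap, ← hq', hY']
      ring
    have h3 := congrArg (red A) h2
    rw [map_mul, map_mul, map_mul, helper81.red_algebraMap, g_residue_eq_zero A huu, map_zero,
      zero_mul, zero_mul] at h3
    have h4 := (g_isGood_aeval (E := E) (Eb := Eb) hj hjb r₁ hr₁).2.2
    rcases mul_eq_zero.mp h3.symm with h5 | h5
    · exact h4 h5
    · exact hY₂.2.2 h5

include hjb in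
/-- the reduction of a `w`-integral element of `ℚ̄(j)` in terms of a representation -/
theorem g_gwRed_repr (h : Kb⟮jEl E hj⟯) (hh : (h : E) ∈ gwRing A E Eb) (s r : Polynomial A)
    (hs : s.map (IsLocalRing.residue A) ≠ 0)
    (hrep : incl A (aeval (jA A) r) =
        (((h : E) : E) : LaurentSeries Kb) * incl A (aeval (jA A) s)) :
    gwRed A E Eb ⟨(h : E), hh⟩ =
      aeval (jBar A) (r.map (IsLocalRing.residue A)) /
        aeval (jBar A) (s.map (IsLocalRing.residue A)) := by
  rw [gwRed_eq A E Eb (h : E) hh _ _ (g_isGood_aeval (E := E) (Eb := Eb) hj hjb s hs).2.2 hrep,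
    helper81.red_aeval, helper81.red_aeval]

include hjb in
/-- the kernel of `gwRed` contains the non-units of `gwRing ∩ ℚ̄(j)` -/
theorem g_gwRed_eq_zero (h : Kb⟮jEl E hj⟯) (hh : (h : E) ∈ gwRing A E Eb)
    (hinv : ((h : E))⁻¹ ∉ gwRing A E Eb) : gwRed A E Eb ⟨(h : E), hh⟩ = 0 := by
  obtain ⟨s, r, hs, hrep⟩ := g_exists_repr A E Eb hj hjb h hh
  rw [g_gwRed_repr A E Eb hj hjb h hh s r hs hrep]
  by_cases hr : r.map (IsLocalRing.residue A) = 0
  · rw [hr, map_zero, zero_div]
  · exfalso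
    apply hinv
    have hgs := g_isGood_aeval (E := E) (Eb := Eb) hj hjb s hs
    have hgr := g_isGood_aeval (E := E) (Eb := Eb) hj hjb r hr
    have hr0 : incl A (aeval (jA A) r) ≠ 0 := by
      intro h0
      apply hgr.2.2
      have := helper81.coeffMap_subtype_injective A (h0.trans (map_zero _).symm)
      rw [this, map_zero]
    have hhL : (((h : E) : E) : LaurentSeries Kb) ≠ 0 := by
      intro h0
      rw [h0, zero_mul] at hrep
      exact hr0 hrep
    refine ⟨aeval (jA A) s, aeval (jA A) r, hgs.1, hgr, ?_⟩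
    rw [hrep]
    push_cast
    field_simp

include hjb in
/-- the reduction of a `w`-integral element of `ℚ̄(j)` lies in `k(j̃)` -/
theorem g_gwRed_mem (h : Kb⟮jEl E hj⟯) (hh : (h : E) ∈ gwRing A E Eb) :
    gwRed A E Eb ⟨(h : E), hh⟩ ∈ (kA A)⟮jBar A⟯ := by
  obtain ⟨s, r, hs, hrep⟩ := g_exists_repr A E Eb hj hjb h hh
  rw [g_gwRed_repr A E Eb hj hjb h hh s r hs hrep]
  exact (IntermediateField.mem_adjoin_simple_iff (kA A) _).mpr ⟨_, _, rfl⟩

/-- **content**: a polynomial in `j` over `ℚ̄` which is `w`-integral has coefficients in `A` -/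
theorem g_exists_poly_of_isWInt (P : Polynomial Kb)
    (hw : IsWInt A E Eb (aeval jK P)) :
    ∃ p : Polynomial A, p.map A.subtype = P := by
  by_cases hP : P = 0
  · exact ⟨0, by rw [hP, Polynomial.map_zero]⟩
  obtain ⟨b, c, Q₁, hb0, hc, hQ₁, hrel⟩ := g_exists_scale A P hP
  have hbK : (b : Kb) ≠ 0 := fun h0 => hb0 (Subtype.ext h0)
  have hcK : (c : Kb) ≠ 0 := fun h0 => hc (Subtype.ext h0)
  have first : ∀ u : A, c = b * u → (C u * Q₁).map A.subtype = P := by
    intro u hu
    have hCb : (C (b : Kb) : Polynomial Kb) ≠ 0 := by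
      rw [Ne, Polynomial.C_eq_zero]; exact hbK
    have hcu : ((c : A) : Kb) = (b : Kb) * (u : Kb) := by rw [hu]; rfl
    have hmap : (C u * Q₁).map A.subtype = C (u : Kb) * Q₁.map A.subtype := by
      rw [Polynomial.map_mul, Polynomial.map_C]
      rfl
    apply mul_left_cancel₀ hCb
    rw [hrel, hmap, hcu, C_mul]
    ring
  rcases ValuationRing.dvd_total b c with ⟨u, hu⟩ | ⟨u, hu⟩
  · exact ⟨C u * Q₁, first u hu⟩
  · by_cases huu : IsUnit u
    · obtain ⟨v, rfl⟩ := huu
      refine ⟨C ((v⁻¹ : Aˣ) : A) * Q₁, first _ ?_⟩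
      rw [hu, mul_assoc, Units.mul_inv, mul_one]
    · exfalso
      obtain ⟨Y₁, Y₂, hY₁, hY₂, hY⟩ := hw
      have hCc : (C (c : Kb) : Polynomial Kb) ≠ 0 := by
        rw [Ne, Polynomial.C_eq_zero]; exact hcK
      have hbu : ((b : A) : Kb) = (c : Kb) * (u : Kb) := by rw [hu]; rfl
      have h1 : C ((u : A) : Kb) * P = Q₁.map A.subtype := by
        apply mul_left_cancel₀ hCc
        rw [← hrel, hbu, C_mul]
        ring
      have h2 : algebraMap Kb (LaurentSeries Kb) (u : Kb) * aeval jK P =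
          coeffMap A.subtype (aeval (jA A) Q₁) := by
        rw [helper25.coeffMap_aeval, helper81.coeffMap_jA, ← h1, map_mul, aeval_C]
      have h3 : algebraMap A (LaurentSeries A) u * Y₁ = aeval (jA A) Q₁ * Y₂ := by
        apply helper81.coeffMap_subtype_injective A
        rw [map_mul, map_mul, helper81.incl_algebraMap, ← h2]
        have hY' : coeffMap A.subtype Y₁ = aeval jK P * coeffMap A.subtype Y₂ := hY
        rw [hY']
        ring
      have h4 := congrArg (red A) h3
      rw [map_mul, map_mul, helper81.red_algebraMap, g_residue_eq_zero A huu, map_zero,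
        zero_mul] at h4
      have h5 : red A (aeval (jA A) Q₁) ≠ 0 := by
        rw [helper81.red_aeval]
        exact helper81.aeval_jBar_ne_zero A _ hQ₁
      rcases mul_eq_zero.mp h4.symm with h6 | h6
      · exact h5 h6
      · exact hY₂.2.2 h6

end Base

end Fermat.Agent.T4.helper50

end
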