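import Mathlib
import Fermat.Agent.T4.helper62_ChebDefs
import Fermat.Agent.S14.helper12_Artin
import Fermat.Agent.S14.helper39_CycloInertia

/-!
# T4 block (II), leaf [T4-CHEB-RESTRICT] (helper53)

`restrict : RestrictStatement` : for Galois number fields `L ⊆ Ω` over `ℚ` and a prime `𝔭` of
`ℚ` which is unramified in `Ω`, the prime `𝔭` is unramified in `L` and the restriction to `L`
of `frobAt ℚ Ω 𝔭` is conjugate to `frobAt ℚ L 𝔭`.
-/

set_option autoImplicit false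
set_option linter.unusedSectionVars false
set_option linter.unusedVariables false
set_option linter.style.longLine false
set_option linter.style.haveILetI false

open NumberField Ideal IsDedekindDomain
open scoped Pointwise

namespace Fermat.Agent.T4.helper53

open Fermat.Agent.S14 Fermat.Agent.T4.helper62

/-- [T4-CHEB-RESTRICT]: Frobenius elements restrict to Frobenius elements, up to conjugacy. -/
theorem restrict : RestrictStatement := by
  intro L Ω _ _ _ _ _ _ _ 𝔭 h𝔭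
  have : 𝔭.asIdeal.IsPrime := 𝔭.isPrime
  have he : helper52.eNum ℚ Ω 𝔭 = 1 := by
    by_contra h
    exact h𝔭 h
  obtain ⟨P, hP, hP0, hPu, hfrobΩ⟩ :=
    helper12.exists_isArithFrobAt_frobAt ℚ Ω 𝔭.asIdeal 𝔭.ne_bot
  obtain ⟨Q', hQ', hQ'0, hQ'u, hfrobL⟩ :=
    helper12.exists_isArithFrobAt_frobAt ℚ L 𝔭.asIdeal 𝔭.ne_bot
  have := hP
  have := hQ'
  have hQprime : (P.under (𝓞 L)).IsPrime := Ideal.IsPrime.under (𝓞 L) P
  have : P.LiesOver (P.under (𝓞 L)) := ⟨rfl⟩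
  have hQu : (P.under (𝓞 L)).under (𝓞 ℚ) = 𝔭.asIdeal := by
    rw [Ideal.under_under]
    exact hPu
  have : (P.under (𝓞 L)).LiesOver 𝔭.asIdeal := ⟨hQu.symm⟩
  have : P.LiesOver 𝔭.asIdeal := ⟨hPu.symm⟩
  have heP : P.ramificationIdx (𝓞 ℚ) = 1 := by
    rw [← ramificationIdxIn_eq_ramificationIdx 𝔭.asIdeal P Gal(Ω/ℚ)]
    exact he
  have heQ : (P.under (𝓞 L)).ramificationIdx (𝓞 ℚ) = 1 := by
    have := Ideal.ramificationIdx_below_dvd (R := 𝓞 ℚ) (q := P.under (𝓞 L)) (r := P)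
    rw [heP] at this
    exact Nat.dvd_one.mp this
  have heL : helper52.eNum ℚ L 𝔭 = 1 := by
    rw [helper52.eNum, ramificationIdxIn_eq_ramificationIdx 𝔭.asIdeal (P.under (𝓞 L)) Gal(L/ℚ)]
    exact heQ
  refine ⟨fun h => h heL, ?_⟩
  have hin : Nat.card ((P.under (𝓞 L)).inertia Gal(L/ℚ)) = 1 := by
    rw [Ideal.card_inertia_eq_ramificationIdxIn 𝔭.asIdeal (P.under (𝓞 L))]
    exact heL
  have h1 : IsArithFrobAt (𝓞 ℚ) (AlgEquiv.restrictNormalHom L (frobAt ℚ Ω 𝔭.asIdeal))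
      (P.under (𝓞 L)) := by
    intro y
    show (AlgEquiv.restrictNormalHom L (frobAt ℚ Ω 𝔭.asIdeal)) • y -
      y ^ Nat.card (𝓞 ℚ ⧸ (P.under (𝓞 L)).under (𝓞 ℚ)) ∈ _
    rw [Ideal.under_under]
    exact helper39.restrictNormalHom_frob (K := ℚ) (L := L) P (frobAt ℚ Ω 𝔭.asIdeal) _
      (fun x => hfrobΩ x) y
  obtain ⟨τ, hτ⟩ := Algebra.IsInvariant.exists_smul_of_under_eq (𝓞 ℚ) (𝓞 L) Gal(L/ℚ) Q'
    (P.under (𝓞 L)) (hQ'u.trans hQu.symm)
  have h2 : IsArithFrobAt (𝓞 ℚ) (τ * frobAt ℚ L 𝔭.asIdeal * τ⁻¹) (P.under (𝓞 L)) := by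
    rw [hτ]
    exact hfrobL.conj τ
  have h3 := h1.mul_inv_mem_inertia h2
  have hbot : (P.under (𝓞 L)).inertia Gal(L/ℚ) = ⊥ := Subgroup.card_eq_one.mp hin
  rw [hbot, Subgroup.mem_bot] at h3
  have h5 : AlgEquiv.restrictNormalHom L (frobAt ℚ Ω 𝔭.asIdeal) =
      τ * frobAt ℚ L 𝔭.asIdeal * τ⁻¹ := mul_inv_eq_one.mp h3
  rw [isConj_iff]
  refine ⟨τ⁻¹, ?_⟩
  rw [h5]
  group

end Fermat.Agent.T4.helper53
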