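import Mathlib
import Fermat.Agent.P2.helper81_ValConv
import Fermat.Agent.T4.helper4_RedDefs

/-!
# T4 block (I), I-RED, box [VAL1] (helper53), part 1: the primitive element package

GENERIC port of `P2/helper81_ValBar`, `helper81_ValGen` to a pair `(E, Eb)` of `q`-expansion
fields as in `helper4_RedDefs`.  The only level input is `helper4.PrimStatement A E Eb`,
unpacked in the structure `PrimData A E Eb`:

  `θ ∈ A((q))`, `Φ ∈ A[X][Y]` monic, `Φ(j, θ) = 0`, `E = ℚ̄(j, θ)`, `Eb = k(j̃, θ̃)`,
  `Φ` irreducible over `ℚ̄[X]` and over `k[X]`, `∂Φ̃/∂Y (j̃, θ̃) ≠ 0`.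

(NO unit hypothesis on `∂Φ/∂Y (j, θ)`: the `q`-expansion principle is obtained in part 3 from
complete integral closedness, `T2/helper96_CIC`.)

Main results of this file, for `D : PrimData A E Eb`:
* `D.eq_zero_of_evBar_eq_zero` : `1, θ̃, …, θ̃^(n-1)` are linearly independent over `k[j̃]`;
* `D.adjoin_fractionRing_eq_top` : `E = Frac(A[X])[θ]`;
* `D.exists_eq_ev₂` (**GEN**) : `s(j) f = G(j, θ)` with `0 ≠ s ∈ A[X]`, `deg_Y G < n`.
-/

set_option autoImplicit false
set_option linter.style.haveILetI false
set_option linter.unusedSectionVars false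
set_option linter.unusedVariables false
set_option linter.style.longLine false

open HahnSeries IntermediateField AlgebraicCurve ModularCurve Polynomial
open Fermat.Agent.S18.helper19 (Kb kA)
open Fermat.Agent.P2.helper29 (incl red)
open Fermat.Agent.P2.helper81 (ev₂ ev₂_apply ev₂_C ev₂_X jA jK jBar)
open Fermat.Agent.S28

noncomputable section

namespace Fermat.Agent.T4.helper53

/-! ### instance shortcuts (speed only: these ARE the standard instances) -/

/-- shortcut for the standard instance -/
@[reducible] def scAlgA (A : ValuationSubring Kb) : Algebra A (LaurentSeries A) := inferInstance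

/-- shortcut for the standard instance -/
@[reducible] def scAlgK : Algebra Kb (LaurentSeries Kb) := inferInstance

/-- shortcut for the standard instance -/
@[reducible] def scAlgk (A : ValuationSubring Kb) : Algebra (kA A) (LaurentSeries (kA A)) :=
  inferInstance

attribute [local instance 5000] scAlgA scAlgK scAlgk

/-- The data of `helper4.PrimStatement A E Eb`. -/
structure PrimData (A : ValuationSubring Kb) (E : IntermediateField Kb (LaurentSeries Kb))
    (Eb : IntermediateField (kA A) (LaurentSeries (kA A))) where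
  /-- the primitive element, an integral `q`-series -/
  θ : LaurentSeries A
  /-- its equation over `A[j]` -/
  Φ : Polynomial (Polynomial A)
  monic : Φ.Monic
  root : ev₂ (jA A) θ Φ = 0
  hE : E = IntermediateField.adjoin Kb {jK, incl A θ}
  hEb : Eb = IntermediateField.adjoin (kA A) {jBar A, red A θ}
  irr0 : Irreducible (Φ.map (Polynomial.mapRingHom A.subtype))
  irrb : Irreducible (Φ.map (Polynomial.mapRingHom (IsLocalRing.residue A)))
  sep : ev₂ (jBar A) (red A θ)
    (derivative (Φ.map (Polynomial.mapRingHom (IsLocalRing.residue A)))) ≠ 0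

theorem primStatement_iff (A : ValuationSubring Kb) (E : IntermediateField Kb (LaurentSeries Kb))
    (Eb : IntermediateField (kA A) (LaurentSeries (kA A))) :
    helper4.PrimStatement A E Eb ↔ Nonempty (PrimData A E Eb) := by
  constructor
  · rintro ⟨θ, Φ, h1, h2, h3, h4, h5, h6, h7⟩
    exact ⟨⟨θ, Φ, h1, h2, h3, h4, h5, h6, h7⟩⟩
  · rintro ⟨D⟩
    exact ⟨D.θ, D.Φ, D.monic, D.root, D.hE, D.hEb, D.irr0, D.irrb, D.sep⟩

/-! ### generic reduction formulas -/

section Red

variable (A : ValuationSubring Kb)

theorem incl_jA : incl A (jA A) = jK := ModularCurve.coeffMap_jqModC _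

theorem red_jA' : red A (jA A) = jBar A := ModularCurve.coeffMap_jqModC _

theorem incl_injective : Function.Injective (incl A) :=
  Fermat.Agent.P2.helper81.coeffMap_subtype_injective A

theorem incl_aeval (s : Polynomial A) :
    incl A (aeval (jA A) s) = aeval jK (s.map A.subtype) := by
  rw [helper25.coeffMap_aeval, incl_jA]

theorem red_aeval' (s : Polynomial A) :
    red A (aeval (jA A) s) = aeval (jBar A) (s.map (IsLocalRing.residue A)) := by
  rw [helper25.coeffMap_aeval, red_jA']

theorem incl_ev₂ (θ : LaurentSeries A) (G : Polynomial (Polynomial A)) :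
    incl A (ev₂ (jA A) θ G) =
      ev₂ jK (incl A θ) (G.map (Polynomial.mapRingHom A.subtype)) := by
  rw [ev₂_apply, helper25.coeffMap_eval₂_aeval, incl_jA]
  rfl

theorem red_ev₂' (θ : LaurentSeries A) (G : Polynomial (Polynomial A)) :
    red A (ev₂ (jA A) θ G) =
      ev₂ (jBar A) (red A θ) (G.map (Polynomial.mapRingHom (IsLocalRing.residue A))) := by
  rw [ev₂_apply, helper25.coeffMap_eval₂_aeval, red_jA']
  rfl

theorem incl_algebraMap' (a : A) :
    incl A (algebraMap A (LaurentSeries A) a) = algebraMap Kb (LaurentSeries Kb) (a : Kb) :=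
  helper25.coeffMap_algebraMap_laurent _ _

theorem red_algebraMap' (a : A) :
    red A (algebraMap A (LaurentSeries A) a) =
      algebraMap (kA A) (LaurentSeries (kA A)) (IsLocalRing.residue A a) :=
  helper25.coeffMap_algebraMap_laurent _ _

end Red

namespace PrimData

variable {A : ValuationSubring Kb} {E : IntermediateField Kb (LaurentSeries Kb)}
  {Eb : IntermediateField (kA A) (LaurentSeries (kA A))} (D : PrimData A E Eb)

/-- the degree `n = deg_Y Φ` -/
def n : ℕ := D.Φ.natDegree

/-- `θ` over `ℚ̄` -/
def thetaK : LaurentSeries Kb := incl A D.θ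

/-- `θ̃`, the reduction of `θ` -/
def thetaBar : LaurentSeries (kA A) := red A D.θ

/-- the reduction of `Φ` -/
def phiBar : Polynomial (Polynomial (kA A)) :=
  D.Φ.map (Polynomial.mapRingHom (IsLocalRing.residue A))

/-- `Φ` over `ℚ̄` -/
def phiK : Polynomial (Polynomial Kb) := D.Φ.map (Polynomial.mapRingHom A.subtype)

theorem phiBar_monic : D.phiBar.Monic := D.monic.map _

theorem phiBar_natDegree : D.phiBar.natDegree = D.n := D.monic.natDegree_map _

theorem phiBar_irreducible : Irreducible D.phiBar := D.irrb

theorem phiK_monic : D.phiK.Monic := D.monic.map _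

theorem phiK_natDegree : D.phiK.natDegree = D.n := D.monic.natDegree_map _

theorem phiK_irreducible : Irreducible D.phiK := D.irr0

theorem red_ev₂ (G : Polynomial (Polynomial A)) :
    red A (ev₂ (jA A) D.θ G) =
      ev₂ (jBar A) D.thetaBar (G.map (Polynomial.mapRingHom (IsLocalRing.residue A))) :=
  red_ev₂' A D.θ G

theorem incl_ev₂K (G : Polynomial (Polynomial A)) :
    incl A (ev₂ (jA A) D.θ G) =
      ev₂ jK D.thetaK (G.map (Polynomial.mapRingHom A.subtype)) :=
  incl_ev₂ A D.θ G

theorem phiBar_root : ev₂ (jBar A) D.thetaBar D.phiBar = 0 := by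
  have h := congrArg (red A) D.root
  rw [red_ev₂', map_zero] at h
  exact h

theorem phiK_root : ev₂ jK D.thetaK D.phiK = 0 := by
  have h := congrArg (incl A) D.root
  rw [incl_ev₂, map_zero] at h
  exact h

theorem phiBar_derivative_ne_zero : ev₂ (jBar A) D.thetaBar (derivative D.phiBar) ≠ 0 := D.sep

theorem n_pos : 0 < D.n := by
  by_contra h0
  have h1 : D.phiBar.natDegree = 0 := by rw [phiBar_natDegree]; omega
  have h2 : D.phiBar = 1 := by
    have := Polynomial.eq_C_of_natDegree_eq_zero h1
    have hm := D.phiBar_monic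
    rw [Polynomial.Monic, Polynomial.leadingCoeff, h1] at hm
    rw [this, hm, map_one]
  have h3 := D.phiBar_irreducible
  rw [h2] at h3
  exact h3.not_isUnit isUnit_one

theorem transcendental_jBar' : Transcendental (kA A) (jBar A) :=
  Fermat.Agent.P2.helper81.transcendental_jBar A

/-- **linear independence in characteristic `ℓ`**: `G(j̃, θ̃) = 0` with `deg_Y G < n`
implies `G = 0`. -/
theorem eq_zero_of_evBar_eq_zero (G : Polynomial (Polynomial (kA A)))
    (hdeg : G.natDegree < D.n) (hG : ev₂ (jBar A) D.thetaBar G = 0) : G = 0 :=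
  Fermat.Agent.P2.helper81.eq_zero_of_ev₂_eq_zero_of_natDegree_lt (jBar A) D.thetaBar
    (transcendental_jBar' (A := A)) D.phiBar D.phiBar_monic D.phiBar_irreducible D.phiBar_root G hG
    (by rw [phiBar_natDegree]; exact hdeg)

/-- linear independence in characteristic `0` -/
theorem eq_zero_of_evK_eq_zero (G : Polynomial (Polynomial Kb))
    (hdeg : G.natDegree < D.n) (hG : ev₂ jK D.thetaK G = 0) : G = 0 :=
  Fermat.Agent.P2.helper81.eq_zero_of_ev₂_eq_zero_of_natDegree_lt jK D.thetaK
    Fermat.Agent.P2.helper81.transcendental_jK D.phiK D.phiK_monic D.phiK_irreducible D.phiK_root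
    G hG (by rw [phiK_natDegree]; exact hdeg)

include D in
theorem jK_mem : jK ∈ E :=
  (SetLike.ext_iff.mp D.hE _).mpr (IntermediateField.subset_adjoin Kb _ (Set.mem_insert _ _))

theorem thetaK_mem : D.thetaK ∈ E :=
  (SetLike.ext_iff.mp D.hE _).mpr
    (IntermediateField.subset_adjoin Kb _ (Set.mem_insert_of_mem _ rfl))

include D in
theorem jBar_mem : jBar A ∈ Eb :=
  (SetLike.ext_iff.mp D.hEb _).mpr (IntermediateField.subset_adjoin (kA A) _ (Set.mem_insert _ _))

theorem thetaBar_mem : D.thetaBar ∈ Eb :=
  (SetLike.ext_iff.mp D.hEb _).mpr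
    (IntermediateField.subset_adjoin (kA A) _ (Set.mem_insert_of_mem _ rfl))

/-- `j` as an element of `E` -/
def xJ : E := ⟨jK, D.jK_mem⟩

/-- `θ` as an element of `E` -/
def thetaF : E := ⟨D.thetaK, D.thetaK_mem⟩

/-- `j̃` as an element of `Eb` -/
def xBar : Eb := ⟨jBar A, D.jBar_mem⟩

/-- `θ̃` as an element of `Eb` -/
def thetaBarF : Eb := ⟨D.thetaBar, D.thetaBar_mem⟩

@[simp] theorem coe_xJ : ((D.xJ : E) : LaurentSeries Kb) = jK := rfl

@[simp] theorem coe_thetaF : ((D.thetaF : E) : LaurentSeries Kb) = D.thetaK := rfl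

@[simp] theorem coe_xBar : ((D.xBar : Eb) : LaurentSeries (kA A)) = jBar A := rfl

@[simp] theorem coe_thetaBarF : ((D.thetaBarF : Eb) : LaurentSeries (kA A)) = D.thetaBar := rfl

/-- the structure map `A[X] → E`, `X ↦ j` -/
def evX : Polynomial A →+* E :=
  eval₂RingHom ((algebraMap Kb E).comp A.subtype) D.xJ

theorem evX_C (a : A) : D.evX (C a) = algebraMap Kb E (a : Kb) := by
  simp [evX]

theorem evX_X : D.evX X = D.xJ := by
  simp [evX]

theorem coe_evX (p : Polynomial A) :
    ((D.evX p : E) : LaurentSeries Kb) = incl A (aeval (jA A) p) := by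
  have : (algebraMap E (LaurentSeries Kb)).comp D.evX =
      (incl A).comp
        ((aeval (jA A) : Polynomial A →ₐ[A] LaurentSeries A) : Polynomial A →+* LaurentSeries A) := by
    apply Polynomial.ringHom_ext
    · intro a
      simp only [RingHom.coe_comp, Function.comp_apply, evX_C, RingHom.coe_coe, aeval_C]
      rw [incl_algebraMap']
      rfl
    · simp only [RingHom.coe_comp, Function.comp_apply, evX_X, RingHom.coe_coe, aeval_X]
      rw [incl_jA]
      rfl
  exact congrArg (fun g => g p) this

theorem coe_evX' (p : Polynomial A) :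
    ((D.evX p : E) : LaurentSeries Kb) = aeval jK (p.map A.subtype) := by
  rw [coe_evX, incl_aeval]

theorem evX_injective : Function.Injective D.evX := by
  rw [injective_iff_map_eq_zero]
  intro p hp
  have h1 := D.coe_evX' p
  rw [hp, ZeroMemClass.coe_zero] at h1
  have h2 := transcendental_iff_injective.mp Fermat.Agent.P2.helper81.transcendental_jK
  have h3 : p.map A.subtype = 0 := h2 (by rw [← h1, map_zero])
  exact (Polynomial.map_eq_zero_iff Subtype.val_injective).mp h3

/-- the `A[X]`-algebra structure on `E` -/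
@[reducible] def algAX : Algebra (Polynomial A) E := D.evX.toAlgebra

theorem faithfulSMul_AX :
    letI := D.algAX
    FaithfulSMul (Polynomial A) E :=
  letI := D.algAX
  (faithfulSMul_iff_algebraMap_injective _ _).mpr D.evX_injective

/-- compatibility of the expansions with evaluation at `θ` -/
theorem coe_eval₂_thetaF (G : Polynomial (Polynomial A)) :
    ((eval₂ D.evX D.thetaF G : E) : LaurentSeries Kb) = incl A (ev₂ (jA A) D.θ G) := by
  have : (algebraMap E (LaurentSeries Kb)).comp (eval₂RingHom D.evX D.thetaF) =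
      (incl A).comp (ev₂ (jA A) D.θ) := by
    apply Polynomial.ringHom_ext
    · intro p
      simp only [RingHom.coe_comp, Function.comp_apply, coe_eval₂RingHom, eval₂_C, ev₂_C]
      exact D.coe_evX p
    · simp only [RingHom.coe_comp, Function.comp_apply, coe_eval₂RingHom, eval₂_X, ev₂_X]
      rfl
  exact congrArg (fun g => g G) this

theorem eval₂_thetaF_Φ : eval₂ D.evX D.thetaF D.Φ = 0 := by
  apply Subtype.val_injective
  rw [coe_eval₂_thetaF, D.root, map_zero]
  rfl

/-- irreducibility of `Φ` over `A[X]` -/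
theorem Φ_irreducible : Irreducible D.Φ :=
  Polynomial.Monic.irreducible_of_irreducible_map
    (Polynomial.mapRingHom (IsLocalRing.residue A)) _ D.monic D.irrb


attribute [local instance] FractionRing.liftAlgebra FractionRing.isScalarTower_liftAlgebra

/-- **generation**: `E = Frac(A[X])[θ]` -/
theorem adjoin_fractionRing_eq_top :
    letI := D.algAX
    letI := D.faithfulSMul_AX
    Algebra.adjoin (FractionRing (Polynomial A)) {D.thetaF} = ⊤ := by
  letI := D.algAX
  letI := D.faithfulSMul_AX
  have hθint : IsIntegral (Polynomial A) D.thetaF := ⟨D.Φ, D.monic, D.eval₂_thetaF_Φ⟩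
  have hθK : IsIntegral (FractionRing (Polynomial A)) D.thetaF := hθint.tower_top
  rw [← IntermediateField.adjoin_simple_toSubalgebra_of_isAlgebraic hθK.isAlgebraic]
  rw [eq_top_iff]
  intro f _
  rw [IntermediateField.mem_toSubalgebra]
  set S : Subfield (LaurentSeries Kb) :=
    ((IntermediateField.adjoin (FractionRing (Polynomial A)) {D.thetaF}).toSubfield).map
      (algebraMap E (LaurentSeries Kb)) with hS
  have hconst : ∀ a : A, algebraMap Kb E (a : Kb) ∈
      IntermediateField.adjoin (FractionRing (Polynomial A)) {D.thetaF} := by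
    intro a
    have : algebraMap Kb E (a : Kb) =
        algebraMap (FractionRing (Polynomial A)) E
          (algebraMap (Polynomial A) (FractionRing (Polynomial A)) (C a)) := by
      rw [← IsScalarTower.algebraMap_apply]
      exact (D.evX_C a).symm
    rw [this]
    exact IntermediateField.algebraMap_mem _ _
  have hle : Subfield.closure (Set.range (algebraMap Kb (LaurentSeries Kb)) ∪
      {jK, D.thetaK}) ≤ S := by
    rw [Subfield.closure_le]
    rintro y (⟨c, rfl⟩ | hy)
    · obtain ⟨a, b, hb, rfl⟩ := IsFractionRing.div_surjective (A := A) c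
      refine ⟨algebraMap Kb E (algebraMap A Kb a / algebraMap A Kb b), ?_, rfl⟩
      rw [map_div₀]
      exact div_mem (hconst a) (hconst b)
    · rcases hy with rfl | rfl
      · refine ⟨D.xJ, ?_, rfl⟩
        change D.xJ ∈ IntermediateField.adjoin (FractionRing (Polynomial A)) {D.thetaF}
        have hx : D.xJ = algebraMap (FractionRing (Polynomial A)) E
            (algebraMap (Polynomial A) (FractionRing (Polynomial A)) X) := by
          rw [← IsScalarTower.algebraMap_apply]
          exact D.evX_X.symm
        rw [hx]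
        exact IntermediateField.algebraMap_mem _ _
      · refine ⟨D.thetaF, ?_, rfl⟩
        exact IntermediateField.mem_adjoin_simple_self _ _
  have hfE : (f : LaurentSeries Kb) ∈ IntermediateField.adjoin Kb {jK, D.thetaK} :=
    (SetLike.ext_iff.mp D.hE _).mp f.2
  have hfE' : (f : LaurentSeries Kb) ∈ Subfield.closure
      (Set.range (algebraMap Kb (LaurentSeries Kb)) ∪ {jK, D.thetaK}) := hfE
  obtain ⟨g, hg, hgf⟩ := hle hfE'
  have : g = f := Subtype.val_injective hgf
  rw [← this]
  exact hg

/-- **GEN**: every `f ∈ E` satisfies `s(j) f = G(j, θ)` with `0 ≠ s ∈ A[X]`,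
`G ∈ A[X][Y]`, `deg_Y G < n`. -/
theorem exists_eq_ev₂ (f : E) :
    ∃ (s : Polynomial A) (G : Polynomial (Polynomial A)), s ≠ 0 ∧ G.natDegree < D.n ∧
      incl A (aeval (jA A) s) * (f : LaurentSeries Kb) = incl A (ev₂ (jA A) D.θ G) := by
  letI := D.algAX
  letI := D.faithfulSMul_AX
  have hgen := D.adjoin_fractionRing_eq_top
  have hf : f ∈ Algebra.adjoin (FractionRing (Polynomial A)) {D.thetaF} := by
    rw [hgen]; exact Algebra.mem_top
  rw [Algebra.adjoin_singleton_eq_range_aeval] at hf
  obtain ⟨p, hp⟩ := hf
  set Φ' := D.Φ.map (algebraMap (Polynomial A) (FractionRing (Polynomial A))) with hΦ'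
  have hΦ'm : Φ'.Monic := D.monic.map _
  have hΦ0 : aeval D.thetaF D.Φ = 0 := D.eval₂_thetaF_Φ
  have hΦ'0 : aeval D.thetaF Φ' = 0 := by
    rw [hΦ', aeval_map_algebraMap]; exact hΦ0
  have hΦ'deg : Φ'.natDegree = D.n := D.monic.natDegree_map _
  have hΦ'1 : Φ' ≠ 1 := by
    intro h1
    have := D.n_pos
    rw [← hΦ'deg, h1, natDegree_one] at this
    exact lt_irrefl _ this
  set p₁ := p %ₘ Φ' with hp₁
  have hp₁f : aeval D.thetaF p₁ = f := by
    rw [hp₁, aeval_modByMonic_eq_self_of_root hΦ'0]; exact hp
  have hp₁deg : p₁.natDegree < D.n := by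
    rw [← hΦ'deg]; exact natDegree_modByMonic_lt _ hΦ'm hΦ'1
  obtain ⟨b, hb, hG⟩ := IsLocalization.integerNormalization_spec
    (nonZeroDivisors (Polynomial A)) p₁
  set G := IsLocalization.integerNormalization (nonZeroDivisors (Polynomial A)) p₁ with hGdef
  have hinj := IsFractionRing.injective (Polynomial A) (FractionRing (Polynomial A))
  refine ⟨b, G, nonZeroDivisors.ne_zero hb, ?_, ?_⟩
  · rw [← natDegree_map_eq_of_injective hinj G, hG]
    exact lt_of_le_of_lt (natDegree_smul_le _ _) hp₁deg
  · have h1 : aeval D.thetaF G = D.evX b * f := by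
      rw [← aeval_map_algebraMap (FractionRing (Polynomial A)), hG, Algebra.smul_def,
        map_mul, hp₁f, IsScalarTower.algebraMap_apply (Polynomial A)
          (FractionRing (Polynomial A)) (Polynomial (FractionRing (Polynomial A))),
        Polynomial.algebraMap_apply, Algebra.algebraMap_self_apply, aeval_C,
        ← IsScalarTower.algebraMap_apply]
      rfl
    have h2 := congrArg (fun z : E => (z : LaurentSeries Kb)) h1
    simp only [MulMemClass.coe_mul] at h2
    rw [D.coe_evX] at h2
    have h3 : ((aeval D.thetaF G : E) : LaurentSeries Kb) = incl A (ev₂ (jA A) D.θ G) :=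
      D.coe_eval₂_thetaF G
    rw [h3] at h2
    exact h2.symm

end PrimData

end Fermat.Agent.T4.helper53

end
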