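import Mathlib
import Fermat.Agent.T4.helper53_Val1Gen

/-!
# T4 block (I), I-RED, box [VAL1] (helper53), part 2: reduction, scaling, orthonormality

GENERIC port of `P2/helper81_ValRed`, `helper81_ValScale` to a pair
`(E, Eb)` with `D : PrimData A E Eb`.

* `D.red_mem` (**V1**) : the reduction of an integral `q`-expansion of an element of `E` lies
  in `Eb`;
* `D.isGood_aeval`, `D.isGood_ev₂` : primitive polynomials in `j` (resp. `j, θ`) are good;
* `D.exists_primitive_quot`, `D.scale` (**[VAL-SC]**);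
* `D.exists_primitive_repr` (**ORTHONORMALITY**), `D.red_mul_eq_of_repr`;
* wiring: `redMem_of : PrimStatement → RedMemStatement`,
  `scale_of : PrimStatement → ScaleStatement`.
-/

set_option autoImplicit false
set_option linter.style.haveILetI false
set_option linter.unusedSectionVars false
set_option linter.unusedVariables false
set_option linter.style.longLine false

open HahnSeries IntermediateField AlgebraicCurve ModularCurve Polynomial
open Fermat.Agent.S18.helper19 (Kb kA)
open Fermat.Agent.P2.helper29 (incl red)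
open Fermat.Agent.P2.helper81 (ev₂ ev₂_apply ev₂_C ev₂_X jA jK jBar)
open Fermat.Agent.S28

noncomputable section

namespace Fermat.Agent.T4.helper53

attribute [local instance 5000] scAlgA scAlgK scAlgk

namespace PrimData

variable {A : ValuationSubring Kb} {E : IntermediateField Kb (LaurentSeries Kb)}
  {Eb : IntermediateField (kA A) (LaurentSeries (kA A))} (D : PrimData A E Eb)

/-! ### membership -/

include D in
theorem aeval_mem_Eb (p : Polynomial (kA A)) : aeval (jBar A) p ∈ Eb := by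
  rw [aeval_eq_sum_range]
  refine sum_mem fun i _ => ?_
  rw [Algebra.smul_def]
  exact mul_mem (IntermediateField.algebraMap_mem _ _) (pow_mem D.jBar_mem _)

theorem ev₂_mem_Eb (G : Polynomial (Polynomial (kA A))) :
    ev₂ (jBar A) D.thetaBar G ∈ Eb := by
  rw [ev₂_apply]
  exact Fermat.Agent.S28.helper81.eval₂_mem_of_subringClass _ _ (fun a => D.aeval_mem_Eb a) _
    D.thetaBar_mem G

include D in
theorem incl_aeval_mem (s : Polynomial A) : incl A (aeval (jA A) s) ∈ E := by
  rw [← D.coe_evX s]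
  exact SetLike.coe_mem _

theorem incl_ev₂_mem (G : Polynomial (Polynomial A)) : incl A (ev₂ (jA A) D.θ G) ∈ E := by
  rw [← D.coe_eval₂_thetaF G]
  exact SetLike.coe_mem _

include D in
theorem red_aeval_mem (s : Polynomial A) : red A (aeval (jA A) s) ∈ Eb := by
  rw [red_aeval']
  exact D.aeval_mem_Eb _

theorem red_ev₂_mem (G : Polynomial (Polynomial A)) : red A (ev₂ (jA A) D.θ G) ∈ Eb := by
  rw [D.red_ev₂]
  exact D.ev₂_mem_Eb _

/-! ### V1 -/

include D in
/-- **V1.**  The reduction of an `A`-integral `q`-expansion of an element of `E` lies in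
`Eb`. -/
theorem red_mem (y : LaurentSeries A) (hy : incl A y ∈ E) : red A y ∈ Eb := by
  obtain ⟨s, G, hs, hdeg, h⟩ := D.exists_eq_ev₂ ⟨_, hy⟩
  rw [← map_mul] at h
  have hAeq : aeval (jA A) s * y = ev₂ (jA A) D.θ G := incl_injective A h
  by_cases hG : G = 0
  · rw [hG, map_zero] at hAeq
    have hy0 : y = 0 := by
      apply Fermat.Agent.P2.helper81.mul_left_cancel_laurentA A
        (Fermat.Agent.P2.helper81.aeval_jA_ne_zero A s hs)
      rw [hAeq, mul_zero]
    rw [hy0, map_zero]
    exact zero_mem _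
  obtain ⟨c, s₁, i, hc, hs₁, hi⟩ := Fermat.Agent.P2.helper81.exists_scale₁ s hs
  obtain ⟨c', G₁, i', j', hc', hG₁, hij⟩ := Fermat.Agent.P2.helper81.exists_scale₂ G hG
  have hs₁bar : s₁.map (IsLocalRing.residue A) ≠ 0 :=
    Fermat.Agent.P2.helper81.map_ne_zero_of_coeff_eq_one _ s₁ i hi
  have hG₁bar : G₁.map (Polynomial.mapRingHom (IsLocalRing.residue A)) ≠ 0 :=
    Fermat.Agent.P2.helper81.map₂_ne_zero_of_coeff_eq_one _ G₁ i' j' hij
  have hG₁deg : (G₁.map (Polynomial.mapRingHom (IsLocalRing.residue A))).natDegree < D.n := by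
    refine lt_of_le_of_lt Polynomial.natDegree_map_le ?_
    have : G.natDegree = G₁.natDegree := by
      rw [hG₁]
      exact Polynomial.natDegree_C_mul (by simpa using hc')
    rw [← this]; exact hdeg
  have hev : ev₂ (jBar A) D.thetaBar
      (G₁.map (Polynomial.mapRingHom (IsLocalRing.residue A))) ≠ 0 := fun h0 =>
    hG₁bar (D.eq_zero_of_evBar_eq_zero _ hG₁deg h0)
  have hsb : aeval (jBar A) (s₁.map (IsLocalRing.residue A)) ≠ 0 :=
    Fermat.Agent.P2.helper81.aeval_jBar_ne_zero A _ hs₁bar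
  have hAeq' : algebraMap A (LaurentSeries A) c * (aeval (jA A) s₁ * y) =
      algebraMap A (LaurentSeries A) c' * ev₂ (jA A) D.θ G₁ := by
    have h1 : aeval (jA A) s = algebraMap A (LaurentSeries A) c * aeval (jA A) s₁ := by
      rw [hs₁, map_mul, aeval_C]
    have h2 : ev₂ (jA A) D.θ G =
        algebraMap A (LaurentSeries A) c' * ev₂ (jA A) D.θ G₁ := by
      rw [hG₁, map_mul, ev₂_C, aeval_C]
    rw [← h2, ← hAeq, h1, mul_assoc]
  rcases ValuationRing.dvd_total c c' with ⟨u, hu⟩ | ⟨u, hu⟩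
  · -- `c' = c u`
    have h3 : aeval (jA A) s₁ * y =
        algebraMap A (LaurentSeries A) u * ev₂ (jA A) D.θ G₁ := by
      apply Fermat.Agent.P2.helper81.mul_left_cancel_laurentA A
        (Fermat.Agent.P2.helper81.algebraMap_laurentA_ne_zero A hc)
      rw [hAeq', hu, map_mul, mul_assoc]
    have h4 := congrArg (red A) h3
    rw [map_mul, map_mul, red_aeval', D.red_ev₂, red_algebraMap'] at h4
    have h5 : red A y = (aeval (jBar A) (s₁.map (IsLocalRing.residue A)))⁻¹ *
        (algebraMap (kA A) (LaurentSeries (kA A)) (IsLocalRing.residue A u) *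
          ev₂ (jBar A) D.thetaBar
            (G₁.map (Polynomial.mapRingHom (IsLocalRing.residue A)))) := by
      rw [← h4, inv_mul_cancel_left₀ hsb]
    rw [h5]
    exact mul_mem (inv_mem (D.aeval_mem_Eb _))
      (mul_mem (IntermediateField.algebraMap_mem _ _) (D.ev₂_mem_Eb _))
  · -- `c = c' u`
    have h3 : algebraMap A (LaurentSeries A) u * (aeval (jA A) s₁ * y) =
        ev₂ (jA A) D.θ G₁ := by
      apply Fermat.Agent.P2.helper81.mul_left_cancel_laurentA A
        (Fermat.Agent.P2.helper81.algebraMap_laurentA_ne_zero A hc')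
      rw [← hAeq', hu, map_mul, mul_assoc]
    have h4 := congrArg (red A) h3
    rw [map_mul, map_mul, red_aeval', D.red_ev₂, red_algebraMap'] at h4
    have hu0 : algebraMap (kA A) (LaurentSeries (kA A)) (IsLocalRing.residue A u) ≠ 0 := by
      intro h0
      rw [h0, zero_mul] at h4
      exact hev h4.symm
    have h5 : red A y = (algebraMap (kA A) (LaurentSeries (kA A)) (IsLocalRing.residue A u) *
        aeval (jBar A) (s₁.map (IsLocalRing.residue A)))⁻¹ *
          ev₂ (jBar A) D.thetaBar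
            (G₁.map (Polynomial.mapRingHom (IsLocalRing.residue A))) := by
      rw [← h4, ← mul_assoc (algebraMap (kA A) (LaurentSeries (kA A)) (IsLocalRing.residue A u)),
        inv_mul_cancel_left₀ (mul_ne_zero hu0 hsb)]
    rw [h5]
    exact mul_mem (inv_mem (mul_mem (IntermediateField.algebraMap_mem _ _)
      (D.aeval_mem_Eb _))) (D.ev₂_mem_Eb _)

/-! ### good series -/

include D in
/-- a polynomial in `j` with nonzero reduction is a good series -/
theorem isGood_aeval (s : Polynomial A) (hs : s.map (IsLocalRing.residue A) ≠ 0) :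
    helper4.IsGood A E Eb (aeval (jA A) s) := by
  refine ⟨D.incl_aeval_mem s, D.red_aeval_mem s, ?_⟩
  have := Fermat.Agent.P2.helper81.aeval_jBar_ne_zero A _ hs
  rwa [← red_aeval'] at this

/-- a polynomial in `j, θ` of `θ`-degree `< n` with nonzero reduction is a good series -/
theorem isGood_ev₂ (G : Polynomial (Polynomial A)) (hdeg : G.natDegree < D.n)
    (hG : G.map (Polynomial.mapRingHom (IsLocalRing.residue A)) ≠ 0) :
    helper4.IsGood A E Eb (ev₂ (jA A) D.θ G) := by
  refine ⟨D.incl_ev₂_mem G, D.red_ev₂_mem G, ?_⟩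
  intro h0
  have h1 : ev₂ (jBar A) D.thetaBar
      (G.map (Polynomial.mapRingHom (IsLocalRing.residue A))) = 0 :=
    (D.red_ev₂ G).symm.trans h0
  exact hG (D.eq_zero_of_evBar_eq_zero _
    (lt_of_le_of_lt Polynomial.natDegree_map_le hdeg) h1)

/-! ### scaling -/

/-- **primitive representation**: every nonzero `f ∈ E` is
`(c'/c) · G₁(j, θ) / s₁(j)` with primitive `s₁ ∈ A[X]`, `G₁ ∈ A[X][Y]`, `deg_Y G₁ < n`. -/
theorem exists_primitive_quot (f : LaurentSeries Kb) (hf : f ∈ E) (hf0 : f ≠ 0) :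
    ∃ (c c' : A) (s₁ : Polynomial A) (G₁ : Polynomial (Polynomial A)),
      c ≠ 0 ∧ c' ≠ 0 ∧ s₁.map (IsLocalRing.residue A) ≠ 0 ∧ G₁.natDegree < D.n ∧
      G₁.map (Polynomial.mapRingHom (IsLocalRing.residue A)) ≠ 0 ∧
      algebraMap Kb (LaurentSeries Kb) (c : Kb) * incl A (aeval (jA A) s₁) * f =
        algebraMap Kb (LaurentSeries Kb) (c' : Kb) * incl A (ev₂ (jA A) D.θ G₁) := by
  obtain ⟨s, G, hs, hdeg, h⟩ := D.exists_eq_ev₂ ⟨f, hf⟩
  have hG : G ≠ 0 := by
    rintro rfl
    rw [map_zero, map_zero] at h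
    rcases mul_eq_zero.mp h with h1 | h1
    · exact Fermat.Agent.P2.helper81.aeval_jA_ne_zero A s hs
        (incl_injective A (by rw [h1, map_zero]))
    · exact hf0 h1
  obtain ⟨c, s₁, i, hc, hs₁, hi⟩ := Fermat.Agent.P2.helper81.exists_scale₁ s hs
  obtain ⟨c', G₁, i', j', hc', hG₁, hij⟩ := Fermat.Agent.P2.helper81.exists_scale₂ G hG
  refine ⟨c, c', s₁, G₁, hc, hc',
    Fermat.Agent.P2.helper81.map_ne_zero_of_coeff_eq_one _ s₁ i hi, ?_,
    Fermat.Agent.P2.helper81.map₂_ne_zero_of_coeff_eq_one _ G₁ i' j' hij, ?_⟩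
  · have : G.natDegree = G₁.natDegree := by
      rw [hG₁]
      exact Polynomial.natDegree_C_mul (by simpa using hc')
    rw [← this]; exact hdeg
  · have h1 : aeval (jA A) s = algebraMap A (LaurentSeries A) c * aeval (jA A) s₁ := by
      rw [hs₁, map_mul, aeval_C]
    have h2 : ev₂ (jA A) D.θ G =
        algebraMap A (LaurentSeries A) c' * ev₂ (jA A) D.θ G₁ := by
      rw [hG₁, map_mul, ev₂_C, aeval_C]
    rw [h1, h2, map_mul, map_mul, incl_algebraMap', incl_algebraMap'] at h
    exact h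

include D in
/-- **[VAL-SC]** -/
theorem scale : helper4.ScaleStatement A E Eb := by
  intro f hf hf0
  obtain ⟨c, c', s₁, G₁, hc, hc', hs₁, hdeg, hG₁, h⟩ := D.exists_primitive_quot f hf hf0
  have hcK : (c : Kb) ≠ 0 := fun h0 => hc (Subtype.ext h0)
  have hc'K : (c' : Kb) ≠ 0 := fun h0 => hc' (Subtype.ext h0)
  refine ⟨(c' : Kb) / (c : Kb), ev₂ (jA A) D.θ G₁, aeval (jA A) s₁,
    div_ne_zero hc'K hcK, D.isGood_ev₂ G₁ hdeg hG₁, D.isGood_aeval s₁ hs₁, ?_⟩
  have hcL : algebraMap Kb (LaurentSeries Kb) (c : Kb) ≠ 0 := by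
    rw [Ne, map_eq_zero]; exact hcK
  apply mul_left_cancel₀ hcL
  rw [← mul_assoc, ← map_mul, mul_div_cancel₀ _ hcK]
  rw [← h]
  ring

/-- **ORTHONORMALITY.**  A `w`-integral `f ∈ E` satisfies `s(j) f = G(j, θ)` with `s ∈ A[X]`
PRIMITIVE (nonzero reduction) and `G ∈ A[X][Y]`, `deg_Y G < n`. -/
theorem exists_primitive_repr (f : LaurentSeries Kb) (hf : f ∈ E)
    (hw : helper4.IsWInt A E Eb f) :
    ∃ (s : Polynomial A) (G : Polynomial (Polynomial A)),
      s.map (IsLocalRing.residue A) ≠ 0 ∧ G.natDegree < D.n ∧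
      incl A (aeval (jA A) s) * f = incl A (ev₂ (jA A) D.θ G) := by
  by_cases hf0 : f = 0
  · refine ⟨1, 0, ?_, ?_, ?_⟩
    · rw [Polynomial.map_one]; exact one_ne_zero
    · rw [natDegree_zero]; exact D.n_pos
    · rw [hf0, mul_zero, map_zero, map_zero]
  obtain ⟨c, c', s₁, G₁, hc, hc', hs₁, hdeg, hG₁, h⟩ := D.exists_primitive_quot f hf hf0
  have hcK : (c : Kb) ≠ 0 := fun h0 => hc (Subtype.ext h0)
  have hc'K : (c' : Kb) ≠ 0 := fun h0 => hc' (Subtype.ext h0)
  -- the case `c' = c u`
  have key : ∀ u : A, c' = c * u →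
      incl A (aeval (jA A) s₁) * f = incl A (ev₂ (jA A) D.θ (C (C u) * G₁)) := by
    intro u hu
    have hcL : algebraMap Kb (LaurentSeries Kb) (c : Kb) ≠ 0 := by
      rw [Ne, map_eq_zero]; exact hcK
    apply mul_left_cancel₀ hcL
    rw [← mul_assoc, h, map_mul, ev₂_C, aeval_C, map_mul, incl_algebraMap', ← mul_assoc,
      ← map_mul, hu]
    rfl
  have hdeg' : ∀ u : A, (C (C u) * G₁).natDegree < D.n := fun u =>
    lt_of_le_of_lt (Polynomial.natDegree_C_mul_le _ _) hdeg
  rcases ValuationRing.dvd_total c c' with ⟨u, hu⟩ | ⟨u, hu⟩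
  · exact ⟨s₁, C (C u) * G₁, hs₁, hdeg' u, key u hu⟩
  · by_cases huu : IsUnit u
    · obtain ⟨v, rfl⟩ := huu
      refine ⟨s₁, C (C ((v⁻¹ : Aˣ) : A)) * G₁, hs₁, hdeg' _, key _ ?_⟩
      rw [hu, mul_assoc, Units.mul_inv, mul_one]
    · exfalso
      obtain ⟨Y₁, Y₂, hY₁, hY₂, hY⟩ := hw
      have hu0 : IsLocalRing.residue A u = 0 :=
        (IsLocalRing.residue_eq_zero_iff u).mpr ((IsLocalRing.mem_maximalIdeal u).mpr huu)
      have hc'L : algebraMap Kb (LaurentSeries Kb) (c' : Kb) ≠ 0 := by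
        rw [Ne, map_eq_zero]; exact hc'K
      -- `u s₁(j) f = G₁(θ)`
      have h1 : algebraMap Kb (LaurentSeries Kb) (u : Kb) * incl A (aeval (jA A) s₁) * f =
          incl A (ev₂ (jA A) D.θ G₁) := by
        apply mul_left_cancel₀ hc'L
        rw [← h, hu]
        simp only [MulMemClass.coe_mul, map_mul]
        ring
      -- `u s₁(j) Y₁ = G₁(θ) Y₂` in `A((q))`
      have h2 : algebraMap A (LaurentSeries A) u * aeval (jA A) s₁ * Y₁ =
          ev₂ (jA A) D.θ G₁ * Y₂ := by
        apply incl_injective A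
        rw [map_mul, map_mul, map_mul, incl_algebraMap', ← h1]
        have hY' : incl A Y₁ = f * incl A Y₂ := hY
        rw [hY']
        ring
      have h3 := congrArg (red A) h2
      rw [map_mul, map_mul, map_mul, red_algebraMap', hu0, map_zero, zero_mul, zero_mul] at h3
      have h4 := (D.isGood_ev₂ G₁ hdeg hG₁).2.2
      rcases mul_eq_zero.mp h3.symm with h5 | h5
      · exact h4 h5
      · exact hY₂.2.2 h5

/-- the reduction formula attached to a primitive representation -/
theorem red_mul_eq_of_repr (f : LaurentSeries Kb) (s : Polynomial A)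
    (G : Polynomial (Polynomial A))
    (h : incl A (aeval (jA A) s) * f = incl A (ev₂ (jA A) D.θ G))
    (Y₁ Y₂ : LaurentSeries A) (hY : incl A Y₁ = f * incl A Y₂) :
    aeval (jBar A) (s.map (IsLocalRing.residue A)) * red A Y₁ =
      ev₂ (jBar A) D.thetaBar (G.map (Polynomial.mapRingHom (IsLocalRing.residue A))) *
        red A Y₂ := by
  have h2 : aeval (jA A) s * Y₁ = ev₂ (jA A) D.θ G * Y₂ := by
    apply incl_injective A
    rw [map_mul, map_mul, hY, ← h]
    ring
  have h3 := congrArg (red A) h2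
  rw [map_mul, map_mul, red_aeval', D.red_ev₂] at h3
  exact h3

end PrimData

/-! ### wiring: the `helper4` statements -/

section Wiring

variable (A : ValuationSubring Kb) (E : IntermediateField Kb (LaurentSeries Kb))
  (Eb : IntermediateField (kA A) (LaurentSeries (kA A)))

/-- **[V1]** from **[PRIM]** -/
theorem redMem_of (h : helper4.PrimStatement A E Eb) : helper4.RedMemStatement A E Eb := by
  obtain ⟨D⟩ := (primStatement_iff A E Eb).mp h
  exact fun Y hY => D.red_mem Y hY

/-- **[VAL-SC]** from **[PRIM]** -/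
theorem scale_of (h : helper4.PrimStatement A E Eb) : helper4.ScaleStatement A E Eb := by
  obtain ⟨D⟩ := (primStatement_iff A E Eb).mp h
  exact D.scale

end Wiring

end Fermat.Agent.T4.helper53

end
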