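import Mathlib
import Fermat.Agent.T4.helper53_Val1Scale

/-!
# T4 block (I), I-RED, box [VAL1] (helper53), part 3: degree preservation

GENERIC port of `P2/helper81_ValField` (section `Bar`) and `helper81_ValScale` (section
`Degree`) to a pair `(E, Eb)` with `D : PrimData A E Eb`.

* `D.finiteDimensional_xJ`, `D.finrank_xJ : [E : ℚ̄(j)] = n`;
* `D.finiteDimensional_xBar`, `D.finrank_xBar : [Eb : k(j̃)] = n`, `D.isSeparable_xBar`;
* wiring: `deg_of : PrimStatement A E Eb → DegStatement A E Eb hj hjb`.
-/

set_option autoImplicit false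
set_option linter.style.haveILetI false
set_option linter.unusedSectionVars false
set_option linter.unusedVariables false
set_option linter.style.longLine false

open HahnSeries IntermediateField AlgebraicCurve ModularCurve Polynomial
open Fermat.Agent.S18.helper19 (Kb kA)
open Fermat.Agent.P2.helper29 (incl red)
open Fermat.Agent.P2.helper81 (ev₂ ev₂_apply ev₂_C ev₂_X jA jK jBar)
open Fermat.Agent.S28

noncomputable section

namespace Fermat.Agent.T4.helper53

/-! ### more instance shortcuts (speed only: these ARE the standard instances) -/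

set_option synthInstance.maxHeartbeats 400000 in
/-- shortcut for the standard instance -/
@[reducible] def scAlgkEb (A : ValuationSubring Kb)
    (Eb : IntermediateField (kA A) (LaurentSeries (kA A))) : Algebra (kA A) Eb := inferInstance

set_option synthInstance.maxHeartbeats 400000 in
/-- shortcut for the standard instance -/
@[reducible] def scAlgKE (E : IntermediateField Kb (LaurentSeries Kb)) : Algebra Kb E :=
  inferInstance

section Core

attribute [local instance 5000] scAlgA scAlgK scAlgk scAlgkEb scAlgKE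

namespace PrimData

variable {A : ValuationSubring Kb} {E : IntermediateField Kb (LaurentSeries Kb)}
  {Eb : IntermediateField (kA A) (LaurentSeries (kA A))} (D : PrimData A E Eb)

theorem transcendental_xJ : Transcendental Kb D.xJ := by
  intro h
  apply Fermat.Agent.P2.helper81.transcendental_jK
  exact IsAlgebraic.algHom E.val h

theorem transcendental_xBar : Transcendental (kA A) D.xBar := by
  intro h
  apply Fermat.Agent.P2.helper81.transcendental_jBar A
  exact IsAlgebraic.algHom Eb.val h

theorem adjoin_xJ_thetaF_eq_top : IntermediateField.adjoin Kb {D.xJ, D.thetaF} = ⊤ :=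
  Fermat.Agent.P2.helper81.adjoin_pair_eq_top_of_val E D.xJ D.thetaF D.hE

theorem adjoin_xBar_thetaBarF_eq_top :
    IntermediateField.adjoin (kA A) {D.xBar, D.thetaBarF} = ⊤ :=
  Fermat.Agent.P2.helper81.adjoin_pair_eq_top_of_val Eb D.xBar D.thetaBarF D.hEb

theorem ev₂_xJ_thetaF (G : Polynomial (Polynomial Kb)) :
    ((ev₂ D.xJ D.thetaF G : E) : LaurentSeries Kb) = ev₂ jK D.thetaK G :=
  Fermat.Agent.P2.helper81.algHom_ev₂ E.val D.xJ D.thetaF G

theorem ev₂_xBar_thetaBarF (G : Polynomial (Polynomial (kA A))) :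
    ((ev₂ D.xBar D.thetaBarF G : Eb) : LaurentSeries (kA A)) = ev₂ (jBar A) D.thetaBar G :=
  Fermat.Agent.P2.helper81.algHom_ev₂ Eb.val D.xBar D.thetaBarF G

theorem phiK_rootF : ev₂ D.xJ D.thetaF D.phiK = 0 := by
  apply Subtype.val_injective
  rw [ev₂_xJ_thetaF, phiK_root]
  rfl

theorem phiBar_rootF : ev₂ D.xBar D.thetaBarF D.phiBar = 0 := by
  apply Subtype.val_injective
  rw [ev₂_xBar_thetaBarF, phiBar_root]
  rfl

theorem phiBar_derivativeF_ne_zero : ev₂ D.xBar D.thetaBarF (derivative D.phiBar) ≠ 0 := by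
  intro h
  apply D.phiBar_derivative_ne_zero
  rw [← ev₂_xBar_thetaBarF, h]
  rfl

/-- `E` is finite over `ℚ̄(j)` -/
theorem finiteDimensional_xJ : FiniteDimensional Kb⟮D.xJ⟯ E :=
  Fermat.Agent.P2.helper81.finiteDimensional_of_pair D.xJ D.thetaF D.phiK D.phiK_monic
    D.phiK_rootF D.adjoin_xJ_thetaF_eq_top

/-- `[E : ℚ̄(j)] = n` -/
theorem finrank_xJ : Module.finrank Kb⟮D.xJ⟯ E = D.n := by
  rw [Fermat.Agent.P2.helper81.finrank_of_pair D.xJ D.thetaF D.transcendental_xJ D.phiK
    D.phiK_monic D.phiK_irreducible D.phiK_rootF D.adjoin_xJ_thetaF_eq_top, phiK_natDegree]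

/-- `Eb` is finite over `k(j̃)` -/
theorem finiteDimensional_xBar : FiniteDimensional (kA A)⟮D.xBar⟯ Eb :=
  Fermat.Agent.P2.helper81.finiteDimensional_of_pair D.xBar D.thetaBarF D.phiBar D.phiBar_monic
    D.phiBar_rootF D.adjoin_xBar_thetaBarF_eq_top

/-- **degree preservation**: `[Eb : k(j̃)] = n` -/
theorem finrank_xBar : Module.finrank (kA A)⟮D.xBar⟯ Eb = D.n := by
  rw [Fermat.Agent.P2.helper81.finrank_of_pair D.xBar D.thetaBarF D.transcendental_xBar D.phiBar
    D.phiBar_monic D.phiBar_irreducible D.phiBar_rootF D.adjoin_xBar_thetaBarF_eq_top,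
    phiBar_natDegree]

/-- `Eb` is separable over `k(j̃)` -/
theorem isSeparable_xBar : Algebra.IsSeparable (kA A)⟮D.xBar⟯ Eb :=
  Fermat.Agent.P2.helper81.isSeparable_of_pair D.xBar D.thetaBarF D.transcendental_xBar D.phiBar
    D.phiBar_monic D.phiBar_irreducible D.phiBar_rootF D.phiBar_derivativeF_ne_zero
    D.adjoin_xBar_thetaBarF_eq_top

end PrimData

end Core

/-! ### wiring -/

section Wiring

variable (A : ValuationSubring Kb) (E : IntermediateField Kb (LaurentSeries Kb))
  (Eb : IntermediateField (kA A) (LaurentSeries (kA A)))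

/-- **[DEG]** from **[PRIM]** -/
theorem deg_of (hj : jqModC Kb ∈ E) (hjb : jqModC (kA A) ∈ Eb)
    (h : helper4.PrimStatement A E Eb) : helper4.DegStatement A E Eb hj hjb := by
  obtain ⟨D⟩ := (primStatement_iff A E Eb).mp h
  have h1 : helper4.jEl E hj = D.xJ := rfl
  have h2 : helper4.jbEl A Eb hjb = D.xBar := rfl
  unfold helper4.DegStatement
  rw [h1, h2]
  exact ⟨D.finiteDimensional_xJ, D.finiteDimensional_xBar, D.isSeparable_xBar,
    D.finrank_xBar.trans D.finrank_xJ.symm⟩

end Wiring

end Fermat.Agent.T4.helper53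

end
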