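import Mathlib
import Fermat.Agent.T4.helper53_Val1Deg
import Fermat.Agent.T2.helper96_CIC

/-!
# T4 block (I), I-RED, box [VAL1] (helper53), part 4: integrality — the `q`-expansion principle

GENERIC version of `P2/helper81_ValInt` for a pair `(E, Eb)` with `D : PrimData A E Eb`,
WITHOUT the unit hypothesis on `δ = ∂Φ/∂Y (j, θ)` (only `δ̃ ≠ 0`, which is part of
`helper4.PrimStatement`).

Route: for `f ∈ E` integral over `ℚ̄[j]` and `w`-integral, Euler's lemma + Gauss scaling +
orthonormality give `f δ ∈ A((q))`; this applies to all powers `f ^ m`, hence `f ∈ A((q))` by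
the complete integral closedness of `A((q))` in `ℚ̄((q))` (`T2/helper96_CIC`, `A` of rank one).

* `D.exists_euler` : Euler's lemma over `A[j]`;
* `D.exists_incl_eq_mul_delta` : `f δ ∈ A((q))`;
* `D.exists_monic_of_inL` : `InL E n f` implies that `f` is integral over `ℚ̄[j]`;
* `D.integrality`, wiring `integrality_of : A.LiesOverPrime ℓ → PrimStatement A E Eb →
  IntegralityStatement A E Eb`.
-/

set_option autoImplicit false
set_option linter.style.haveILetI false
set_option linter.unusedSectionVars false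
set_option linter.unusedVariables false
set_option linter.style.longLine false

open HahnSeries IntermediateField AlgebraicCurve ModularCurve Polynomial
open Fermat.Agent.S18.helper19 (Kb kA)
open Fermat.Agent.P2.helper29 (incl red IsInfty InL)
open Fermat.Agent.P2.helper81 (ev₂ ev₂_apply ev₂_C ev₂_X jA jK jBar)
open Fermat.Agent.S28

noncomputable section

namespace Fermat.Agent.T4.helper53

section Core

attribute [local instance 5000] scAlgA scAlgK scAlgk scAlgkEb scAlgKE
attribute [local instance] FractionRing.liftAlgebra FractionRing.isScalarTower_liftAlgebra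

/-! ### powers -/

theorem isWInt_pow (A : ValuationSubring Kb) (E : IntermediateField Kb (LaurentSeries Kb))
    (Eb : IntermediateField (kA A) (LaurentSeries (kA A))) (f : LaurentSeries Kb)
    (hw : helper4.IsWInt A E Eb f) (m : ℕ) : helper4.IsWInt A E Eb (f ^ m) := by
  obtain ⟨Y₁, Y₂, hY₁, ⟨hY₂E, hY₂b, hY₂0⟩, hY⟩ := hw
  refine ⟨Y₁ ^ m, Y₂ ^ m, ?_, ⟨?_, ?_, ?_⟩, ?_⟩
  · rw [map_pow]; exact pow_mem hY₁ m
  · rw [map_pow]; exact pow_mem hY₂E m
  · rw [map_pow]; exact pow_mem hY₂b m
  · rw [map_pow]; exact pow_ne_zero m hY₂0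
  · rw [map_pow, map_pow, hY, mul_pow]

theorem exists_monic_pow (x f : LaurentSeries Kb)
    (h : ∃ p : Polynomial (Polynomial Kb), p.Monic ∧ ev₂ x f p = 0) (m : ℕ) :
    ∃ p : Polynomial (Polynomial Kb), p.Monic ∧ ev₂ x (f ^ m) p = 0 := by
  have h' : RingHom.IsIntegralElem
      ((aeval x : Polynomial Kb →ₐ[Kb] LaurentSeries Kb) : Polynomial Kb →+* LaurentSeries Kb)
      f := h
  have : RingHom.IsIntegralElem
      ((aeval x : Polynomial Kb →ₐ[Kb] LaurentSeries Kb) : Polynomial Kb →+* LaurentSeries Kb)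
      (f ^ m) := by
    induction m with
    | zero => rw [pow_zero]; exact RingHom.isIntegralElem_one _
    | succ m ih => rw [pow_succ]; exact RingHom.IsIntegralElem.mul _ ih h'
  exact this

namespace PrimData

variable {A : ValuationSubring Kb} {E : IntermediateField Kb (LaurentSeries Kb)}
  {Eb : IntermediateField (kA A) (LaurentSeries (kA A))} (D : PrimData A E Eb)

/-- `δ = ∂Φ/∂Y (j, θ)` -/
def delta : LaurentSeries A := ev₂ (jA A) D.θ (derivative D.Φ)

theorem red_delta : red A D.delta = ev₂ (jBar A) D.thetaBar (derivative D.phiBar) := by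
  rw [delta, D.red_ev₂, phiBar, derivative_map]

theorem red_delta_ne_zero : red A D.delta ≠ 0 := by
  rw [red_delta]; exact D.phiBar_derivative_ne_zero

theorem delta_ne_zero : D.delta ≠ 0 := fun h => D.red_delta_ne_zero (by rw [h, map_zero])

theorem incl_delta_ne_zero : incl A D.delta ≠ 0 := fun h =>
  D.delta_ne_zero (incl_injective A (by rw [h, map_zero]))

/-- a root of a monic polynomial over `A[j]` is integral over `A[X]` -/
theorem isIntegral_of_monic (f : E) (q : Polynomial (Polynomial A)) (hq : q.Monic)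
    (h : ev₂ jK (f : LaurentSeries Kb) (q.map (Polynomial.mapRingHom A.subtype)) = 0) :
    letI := D.algAX
    IsIntegral (Polynomial A) f := by
  letI := D.algAX
  refine ⟨q, hq, ?_⟩
  apply Subtype.val_injective
  have h1 : (algebraMap E (LaurentSeries Kb)).comp (algebraMap (Polynomial A) E) =
      ((aeval jK : Polynomial Kb →ₐ[Kb] LaurentSeries Kb) :
        Polynomial Kb →+* LaurentSeries Kb).comp (Polynomial.mapRingHom A.subtype) :=
    RingHom.ext fun p => D.coe_evX' p
  have h2 : ((eval₂ (algebraMap (Polynomial A) E) f q : E) : LaurentSeries Kb) =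
      eval₂ ((algebraMap E (LaurentSeries Kb)).comp (algebraMap (Polynomial A) E))
        (f : LaurentSeries Kb) q :=
    Polynomial.hom_eval₂ q (algebraMap (Polynomial A) E)
      (algebraMap E (LaurentSeries Kb)) f
  rw [h2, h1, ← Polynomial.eval₂_map]
  exact h

/-- **Euler's lemma over `A[j]`**: `f · ∂Φ/∂Y(j, θ) ∈ A[j, θ]` for `f` integral over `A[j]` -/
theorem exists_euler (f : E)
    (hint : letI := D.algAX
      IsIntegral (Polynomial A) f) :
    ∃ G : Polynomial (Polynomial A), G.natDegree < D.n ∧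
      incl A (ev₂ (jA A) D.θ G) = (f : LaurentSeries Kb) * incl A D.delta := by
  letI := D.algAX
  letI := D.faithfulSMul_AX
  obtain ⟨G, hGdeg, hG⟩ := helper25.exists_polynomial_eq_mul_aeval_derivative
    D.adjoin_fractionRing_eq_top D.monic D.Φ_irreducible D.eval₂_thetaF_Φ hint
  refine ⟨G, ?_, ?_⟩
  · show G.natDegree < D.Φ.natDegree
    by_cases hG0 : G = 0
    · rw [hG0, natDegree_zero]; exact D.n_pos
    · exact (Polynomial.natDegree_lt_natDegree_iff hG0).mpr hGdeg
  · have h1 := congrArg (fun z : E => (z : LaurentSeries Kb)) hG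
    simp only [MulMemClass.coe_mul] at h1
    have h3 : ((aeval D.thetaF G : E) : LaurentSeries Kb) = incl A (ev₂ (jA A) D.θ G) :=
      D.coe_eval₂_thetaF G
    have h4 : ((aeval D.thetaF (derivative D.Φ) : E) : LaurentSeries Kb) = incl A D.delta :=
      D.coe_eval₂_thetaF _
    rw [h3, h4] at h1
    exact h1

/-- an element of `E` which is integral over `ℚ̄[j]` and `w`-integral satisfies
`f δ ∈ A((q))`. -/
theorem exists_incl_eq_mul_delta (f : LaurentSeries Kb) (hf : f ∈ E)
    (hint : ∃ p : Polynomial (Polynomial Kb), p.Monic ∧ ev₂ jK f p = 0)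
    (hw : helper4.IsWInt A E Eb f) :
    ∃ Y : LaurentSeries A, incl A Y = f * incl A D.delta := by
  obtain ⟨p, hp, hp0⟩ := hint
  obtain ⟨b, q, hb, hq, hq0⟩ :=
    Fermat.Agent.P2.helper81.exists_monic_of_integral A jK f p hp hp0
  have hbK : (b : Kb) ≠ 0 := fun h0 => hb (Subtype.ext h0)
  have hbL : algebraMap Kb (LaurentSeries Kb) (b : Kb) ≠ 0 := by
    rw [Ne, map_eq_zero]; exact hbK
  set g : E := algebraMap Kb E (b : Kb) * ⟨f, hf⟩ with hg
  have hgint := D.isIntegral_of_monic g q hq hq0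
  obtain ⟨G, hGdeg, hG⟩ := D.exists_euler g hgint
  have hgcoe : (g : LaurentSeries Kb) = algebraMap Kb (LaurentSeries Kb) (b : Kb) * f := rfl
  rw [hgcoe] at hG
  by_cases hG0 : G = 0
  · refine ⟨0, ?_⟩
    rw [hG0, map_zero, map_zero, mul_assoc] at hG
    rw [map_zero]
    exact ((mul_eq_zero.mp hG.symm).resolve_left hbL).symm
  obtain ⟨c, G₁, i, j, hc, hG₁, hij⟩ := Fermat.Agent.P2.helper81.exists_scale₂ G hG0
  have hG₁bar :=
    Fermat.Agent.P2.helper81.map₂_ne_zero_of_coeff_eq_one (IsLocalRing.residue A) G₁ i j hij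
  have hG₁deg : G₁.natDegree < D.n := by
    have : G.natDegree = G₁.natDegree := by
      rw [hG₁]; exact Polynomial.natDegree_C_mul (by simpa using hc)
    rw [← this]; exact hGdeg
  -- `b f δ = c G₁(j, θ)`
  have hrel : algebraMap Kb (LaurentSeries Kb) (b : Kb) * (f * incl A D.delta) =
      algebraMap Kb (LaurentSeries Kb) (c : Kb) * incl A (ev₂ (jA A) D.θ G₁) := by
    have h1 : incl A (ev₂ (jA A) D.θ G) =
        algebraMap Kb (LaurentSeries Kb) (c : Kb) * incl A (ev₂ (jA A) D.θ G₁) := by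
      rw [hG₁, map_mul, ev₂_C, aeval_C, map_mul, incl_algebraMap']
    rw [← h1, hG, mul_assoc]
  have key : ∀ v : A, c = b * v → ∃ Y : LaurentSeries A, incl A Y = f * incl A D.delta := by
    intro v hv
    refine ⟨algebraMap A (LaurentSeries A) v * ev₂ (jA A) D.θ G₁, ?_⟩
    apply mul_left_cancel₀ hbL
    rw [hrel, hv, map_mul, incl_algebraMap']
    simp only [MulMemClass.coe_mul, map_mul]
    ring
  rcases ValuationRing.dvd_total b c with ⟨v, hv⟩ | ⟨v, hv⟩
  · exact key v hv
  · by_cases hvu : IsUnit v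
    · obtain ⟨w, rfl⟩ := hvu
      exact key ((w⁻¹ : Aˣ) : A) (by rw [hv, mul_assoc, Units.mul_inv, mul_one])
    · exfalso
      obtain ⟨Y₁, Y₂, hY₁, hY₂, hY⟩ := hw
      have hv0 : IsLocalRing.residue A v = 0 :=
        (IsLocalRing.residue_eq_zero_iff v).mpr ((IsLocalRing.mem_maximalIdeal v).mpr hvu)
      have hcK : (c : Kb) ≠ 0 := fun h0 => hc (Subtype.ext h0)
      have hcL : algebraMap Kb (LaurentSeries Kb) (c : Kb) ≠ 0 := by
        rw [Ne, map_eq_zero]; exact hcK
      -- `v f δ = G₁(j, θ)`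
      have h1 : algebraMap Kb (LaurentSeries Kb) (v : Kb) * (f * incl A D.delta) =
          incl A (ev₂ (jA A) D.θ G₁) := by
        apply mul_left_cancel₀ hcL
        rw [← hrel, hv]
        simp only [MulMemClass.coe_mul, map_mul]
        ring
      -- `v Y₁ δ = G₁(j, θ) Y₂`
      have h2 : algebraMap A (LaurentSeries A) v * (Y₁ * D.delta) =
          ev₂ (jA A) D.θ G₁ * Y₂ := by
        apply incl_injective A
        have hY' : incl A Y₁ = f * incl A Y₂ := hY
        rw [map_mul, map_mul, map_mul, incl_algebraMap', hY', ← h1]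
        ring
      have h3 := congrArg (red A) h2
      rw [map_mul, red_algebraMap', hv0, map_zero, zero_mul, map_mul] at h3
      rcases mul_eq_zero.mp h3.symm with h5 | h5
      · exact (D.isGood_ev₂ G₁ hG₁deg hG₁bar).2.2 h5
      · exact hY₂.2.2 h5

/-! ### places -/

/-- a place at which `j` is regular is not the place at infinity -/
theorem not_isInfty_of_ord_xJ_nonneg (P : Place Kb E) (hP : 0 ≤ P.ord D.xJ) :
    ¬ IsInfty P := by
  intro hInf
  have hx0 : D.xJ ≠ 0 := fun h0 =>
    Fermat.Agent.P2.helper81.jK_ne_zero (congrArg (fun z : E => (z : LaurentSeries Kb)) h0)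
  have h1 := hInf D.xJ hx0
  rw [D.coe_xJ, Fermat.Agent.P2.helper81.order_jK] at h1
  omega

include D in
/-- `InL` implies integrality over `ℚ̄[j]` -/
theorem exists_monic_of_inL (n : ℤ) (f : LaurentSeries Kb) (h : InL E n f) :
    ∃ p : Polynomial (Polynomial Kb), p.Monic ∧ ev₂ jK f p = 0 := by
  obtain ⟨hf, hreg, -⟩ := h
  haveI : FiniteDimensional Kb⟮D.xJ⟯ E := D.finiteDimensional_xJ
  have h1 : ∀ P : Place Kb E, 0 ≤ P.ord D.xJ → 0 ≤ P.ord (⟨f, hf⟩ : E) :=
    fun P hP => hreg P (D.not_isInfty_of_ord_xJ_nonneg P hP)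
  have h2 := Fermat.Agent.P2.helper81.isIntegral_of_forall_place D.xJ (⟨f, hf⟩ : E) h1
  obtain ⟨p, hp, hp0⟩ :=
    Fermat.Agent.P2.helper81.exists_monic_of_isIntegral_adjoin D.xJ (⟨f, hf⟩ : E) h2
  refine ⟨p, hp, ?_⟩
  have h3 := Fermat.Agent.P2.helper81.algHom_ev₂ E.val D.xJ (⟨f, hf⟩ : E) p
  rw [hp0, map_zero] at h3
  exact h3.symm

include D in
/-- **[VAL-INT], B-form**: an element of `E` which is integral over `ℚ̄[j]` and `w`-integral has
an `A`-integral `q`-expansion. -/
theorem integralityB {ℓ : ℕ} (hℓ : ℓ.Prime) (hA : A.LiesOverPrime ℓ)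
    (f : LaurentSeries Kb) (hf : f ∈ E)
    (hint : ∃ p : Polynomial (Polynomial Kb), p.Monic ∧ ev₂ jK f p = 0)
    (hw : helper4.IsWInt A E Eb f) :
    ∃ Y : LaurentSeries A, incl A Y = f := by
  have hpow : ∀ m : ℕ, incl A D.delta * f ^ m ∈ Fermat.Agent.T2.helper96.intSeries A := by
    intro m
    obtain ⟨Y, hY⟩ := D.exists_incl_eq_mul_delta (f ^ m) (pow_mem hf m)
      (exists_monic_pow jK f hint m) (isWInt_pow A E Eb f hw m)
    exact ⟨Y, by rw [mul_comm]; exact hY⟩
  exact Fermat.Agent.T2.helper96.mem_intSeries_of_forall_mul_pow A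
    (Fermat.Agent.T2.helper96.isArchVS_of_liesOverPrime A hℓ hA) (incl A D.delta)
    D.incl_delta_ne_zero f hpow

include D in
/-- **[VAL-INT]** -/
theorem integrality {ℓ : ℕ} (hℓ : ℓ.Prime) (hA : A.LiesOverPrime ℓ) :
    helper4.IntegralityStatement A E Eb := by
  intro n f hInL hw
  exact D.integralityB hℓ hA f hInL.1 (D.exists_monic_of_inL n f hInL) hw

end PrimData

end Core

/-! ### wiring -/

section Wiring

variable (A : ValuationSubring Kb) (E : IntermediateField Kb (LaurentSeries Kb))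
  (Eb : IntermediateField (kA A) (LaurentSeries (kA A)))

/-- **[VAL-INT]** from **[PRIM]**, for `A` over a prime `ℓ` -/
theorem integrality_of {ℓ : ℕ} (hℓ : ℓ.Prime) (hA : A.LiesOverPrime ℓ)
    (h : helper4.PrimStatement A E Eb) : helper4.IntegralityStatement A E Eb := by
  obtain ⟨D⟩ := (primStatement_iff A E Eb).mp h
  exact D.integrality hℓ hA

end Wiring

end Fermat.Agent.T4.helper53

end
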