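import Mathlib
import Fermat.Agent.T4.helper53_Val1Int

/-!
# T4 block (I), I-RED, box [VAL1] (helper53), part 5: the converse of the `q`-expansion
principle, `RED-INT` and `[VAL-UE]`

GENERIC port of `P2/helper81_ValConv` to a pair `(E, Eb)` with `D : PrimData A E Eb` (no unit
hypothesis on `δ`: only `δ̃ ≠ 0` is used).

* `D.exists_euler_of_incl` : `Y · δ = G(j, θ)`, `G ∈ A[X][Y]`, for the integral `q`-expansion
  `Y` of a function which is integral over `ℚ̄[j]`;
* `D.exists_primitive_bezout` : `U(j, θ) · δ = d(j)` with `d ∈ A[X]` primitive;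
* `D.isIntegral_of_incl` (**Q1c**), `D.exists_monic_of_incl`;
* `D.exists_monic_red` (**RED-INT**): the reduction is integral over `k[j̃]`;
* `D.ord_red_nonneg_of_ord_xBar_nonneg` : the finite-place half of `[VAL-UE]`;
* `D.regRed`, wiring `regRed_of : PrimStatement A E Eb → CuspRegStatement A E Eb hjb →
  RegRedStatement A E Eb`.
-/

set_option autoImplicit false
set_option linter.style.haveILetI false
set_option linter.unusedSectionVars false
set_option linter.unusedVariables false
set_option linter.style.longLine false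

open HahnSeries IntermediateField AlgebraicCurve ModularCurve Polynomial
open Fermat.Agent.S18.helper19 (Kb kA)
open Fermat.Agent.P2.helper29 (incl red IsInfty InL)
open Fermat.Agent.P2.helper81 (ev₂ ev₂_apply ev₂_C ev₂_X jA jK jBar)
open Fermat.Agent.S28

noncomputable section

namespace Fermat.Agent.T4.helper53

section Core

attribute [local instance 5000] scAlgA scAlgK scAlgk scAlgkEb scAlgKE
attribute [local instance] FractionRing.liftAlgebra FractionRing.isScalarTower_liftAlgebra

namespace PrimData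

variable {A : ValuationSubring Kb} {E : IntermediateField Kb (LaurentSeries Kb)}
  {Eb : IntermediateField (kA A) (LaurentSeries (kA A))} (D : PrimData A E Eb)

theorem residue_eq_zero_of_not_isUnit' {v : A} (hv : ¬ IsUnit v) :
    IsLocalRing.residue A v = 0 :=
  (IsLocalRing.residue_eq_zero_iff v).mpr ((IsLocalRing.mem_maximalIdeal v).mpr hv)

/-- **Euler's formula for integral `q`-expansions**: if `Y ∈ A((q))` is the `q`-expansion of an
element of `E` which is integral over `ℚ̄[j]`, then `Y · δ = G(j, θ)` with `G ∈ A[X][Y]`,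
`deg_Y G < n`. -/
theorem exists_euler_of_incl (Y : LaurentSeries A) (hY : incl A Y ∈ E)
    (hint : ∃ p : Polynomial (Polynomial Kb), p.Monic ∧ ev₂ jK (incl A Y) p = 0) :
    ∃ G : Polynomial (Polynomial A), G.natDegree < D.n ∧
      ev₂ (jA A) D.θ G = Y * D.delta := by
  obtain ⟨p, hp, hp0⟩ := hint
  obtain ⟨b, q, hb, hq, hq0⟩ :=
    Fermat.Agent.P2.helper81.exists_monic_of_integral A jK _ p hp hp0
  set g : E := algebraMap Kb E (b : Kb) * ⟨incl A Y, hY⟩ with hg
  have hgint := D.isIntegral_of_monic g q hq hq0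
  obtain ⟨G, hGdeg, hG⟩ := D.exists_euler g hgint
  have hgcoe : (g : LaurentSeries Kb) =
      algebraMap Kb (LaurentSeries Kb) (b : Kb) * incl A Y := rfl
  rw [hgcoe] at hG
  have hG' : ev₂ (jA A) D.θ G = algebraMap A (LaurentSeries A) b * (Y * D.delta) := by
    apply incl_injective A
    rw [hG, map_mul, map_mul, incl_algebraMap']
    ring
  have hbL : algebraMap A (LaurentSeries A) b ≠ 0 :=
    Fermat.Agent.P2.helper81.algebraMap_laurentA_ne_zero A hb
  by_cases hG0 : G = 0
  · refine ⟨0, by rw [natDegree_zero]; exact D.n_pos, ?_⟩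
    rw [hG0, map_zero] at hG'
    rw [map_zero]
    exact Fermat.Agent.P2.helper81.mul_left_cancel_laurentA A hbL (by rw [mul_zero]; exact hG')
  obtain ⟨c, G₁, i, j, hc, hG₁, hij⟩ := Fermat.Agent.P2.helper81.exists_scale₂ G hG0
  have hG₁bar :=
    Fermat.Agent.P2.helper81.map₂_ne_zero_of_coeff_eq_one (IsLocalRing.residue A) G₁ i j hij
  have hG₁deg : G₁.natDegree < D.n := by
    have : G.natDegree = G₁.natDegree := by
      rw [hG₁]; exact Polynomial.natDegree_C_mul (by simpa using hc)
    rw [← this]; exact hGdeg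
  have hgood : red A (ev₂ (jA A) D.θ G₁) ≠ 0 := (D.isGood_ev₂ G₁ hG₁deg hG₁bar).2.2
  have hrel : algebraMap A (LaurentSeries A) b * (Y * D.delta) =
      algebraMap A (LaurentSeries A) c * ev₂ (jA A) D.θ G₁ := by
    rw [← hG', hG₁, map_mul, ev₂_C, aeval_C]
  have key : ∀ v : A, c = b * v → ∃ G : Polynomial (Polynomial A), G.natDegree < D.n ∧
      ev₂ (jA A) D.θ G = Y * D.delta := by
    intro v hv
    refine ⟨C (C v) * G₁, lt_of_le_of_lt (Polynomial.natDegree_C_mul_le _ _) hG₁deg, ?_⟩
    apply Fermat.Agent.P2.helper81.mul_left_cancel_laurentA A hbL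
    rw [hrel, hv, map_mul, map_mul, ev₂_C, aeval_C]
    ring
  rcases ValuationRing.dvd_total b c with ⟨v, hv⟩ | ⟨v, hv⟩
  · exact key v hv
  · by_cases hvu : IsUnit v
    · obtain ⟨w, rfl⟩ := hvu
      exact key ((w⁻¹ : Aˣ) : A) (by rw [hv, mul_assoc, Units.mul_inv, mul_one])
    · exfalso
      have hv0 := residue_eq_zero_of_not_isUnit' hvu
      have h1 : algebraMap A (LaurentSeries A) v * (Y * D.delta) = ev₂ (jA A) D.θ G₁ := by
        apply Fermat.Agent.P2.helper81.mul_left_cancel_laurentA A
          (Fermat.Agent.P2.helper81.algebraMap_laurentA_ne_zero A hc)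
        rw [← hrel, hv, map_mul]
        ring
      have h2 := congrArg (red A) h1
      rw [map_mul, red_algebraMap', hv0, map_zero, zero_mul] at h2
      exact hgood h2.symm

/-- **primitive Bezout**: `U(j, θ) · δ = d(j)` with `d ∈ A[X]` primitive. -/
theorem exists_primitive_bezout :
    ∃ (U : Polynomial (Polynomial A)) (d : Polynomial A),
      d.map (IsLocalRing.residue A) ≠ 0 ∧
      ev₂ (jA A) D.θ U * D.delta = aeval (jA A) d := by
  letI := D.algAX
  letI := D.faithfulSMul_AX
  have hδ0 : D.delta ≠ 0 := D.delta_ne_zero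
  have hδbar : red A D.delta ≠ 0 := D.red_delta_ne_zero
  have hΦ0 : aeval D.thetaF D.Φ = 0 := D.eval₂_thetaF_Φ
  have hδF : aeval D.thetaF (derivative D.Φ) ≠ 0 := by
    intro h0
    have h1 : ((aeval D.thetaF (derivative D.Φ) : E) : LaurentSeries Kb) =
        ((0 : E) : LaurentSeries Kb) := congrArg Subtype.val h0
    have h4 : ((aeval D.thetaF (derivative D.Φ) : E) : LaurentSeries Kb) = incl A D.delta :=
      D.coe_eval₂_thetaF _
    rw [h4] at h1
    exact D.incl_delta_ne_zero h1
  obtain ⟨U₀, V₀, d, hd, hUV⟩ := helper25.exists_bezout_of_irreducible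
    D.monic D.Φ_irreducible hΦ0 hδF
  have hΦm : D.Φ.Monic := D.monic
  have hroot : ev₂ (jA A) D.θ D.Φ = 0 := D.root
  set U₁ := U₀ %ₘ D.Φ with hU₁
  have hU₁ev : ev₂ (jA A) D.θ U₁ = ev₂ (jA A) D.θ U₀ := by
    have h1 := Polynomial.modByMonic_add_div U₀ D.Φ
    have h2 := congrArg (ev₂ (jA A) D.θ) h1
    rw [map_add, map_mul, hroot, zero_mul, add_zero] at h2
    exact h2
  have h1 : ev₂ (jA A) D.θ U₁ * D.delta = aeval (jA A) d := by
    have h2 := congrArg (ev₂ (jA A) D.θ) hUV
    rw [map_add, map_mul, map_mul, hroot, mul_zero, add_zero, ev₂_C] at h2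
    rw [hU₁ev]
    exact h2
  have hU₁deg : U₁.natDegree < D.n := by
    show U₁.natDegree < D.Φ.natDegree
    exact Polynomial.natDegree_modByMonic_lt U₀ hΦm
      (fun h => by
        have h3 := congrArg Polynomial.natDegree h
        rw [natDegree_one] at h3
        exact absurd h3 D.n_pos.ne')
  have hd_ne : aeval (jA A) d ≠ 0 := Fermat.Agent.P2.helper81.aeval_jA_ne_zero A d hd
  have hU₁0 : U₁ ≠ 0 := by
    intro h0
    rw [h0, map_zero, zero_mul] at h1
    exact hd_ne h1.symm
  obtain ⟨u, U₂, i, j, hu, hU₂, hij⟩ := Fermat.Agent.P2.helper81.exists_scale₂ U₁ hU₁0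
  obtain ⟨c, d₁, i', hc, hd₁, hi'⟩ := Fermat.Agent.P2.helper81.exists_scale₁ d hd
  have hU₂bar :=
    Fermat.Agent.P2.helper81.map₂_ne_zero_of_coeff_eq_one (IsLocalRing.residue A) U₂ i j hij
  have hd₁bar :=
    Fermat.Agent.P2.helper81.map_ne_zero_of_coeff_eq_one (IsLocalRing.residue A) d₁ i' hi'
  have hU₂deg : U₂.natDegree < D.n := by
    have : U₁.natDegree = U₂.natDegree := by
      rw [hU₂]; exact Polynomial.natDegree_C_mul (by simpa using hu)
    rw [← this]; exact hU₁deg
  have hgood : red A (ev₂ (jA A) D.θ U₂) ≠ 0 := (D.isGood_ev₂ U₂ hU₂deg hU₂bar).2.2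
  have hrel : algebraMap A (LaurentSeries A) u * (ev₂ (jA A) D.θ U₂ * D.delta) =
      algebraMap A (LaurentSeries A) c * aeval (jA A) d₁ := by
    have h2 : ev₂ (jA A) D.θ U₁ = algebraMap A (LaurentSeries A) u * ev₂ (jA A) D.θ U₂ := by
      rw [hU₂, map_mul, ev₂_C, aeval_C]
    have h3 : aeval (jA A) d = algebraMap A (LaurentSeries A) c * aeval (jA A) d₁ := by
      rw [hd₁, map_mul, aeval_C]
    rw [← h3, ← h1, h2]
    ring
  rcases ValuationRing.dvd_total c u with ⟨v, hv⟩ | ⟨v, hv⟩
  · -- `u = c v`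
    refine ⟨C (C v) * U₂, d₁, hd₁bar, ?_⟩
    apply Fermat.Agent.P2.helper81.mul_left_cancel_laurentA A
      (Fermat.Agent.P2.helper81.algebraMap_laurentA_ne_zero A hc)
    rw [← hrel, hv, map_mul, map_mul, ev₂_C, aeval_C]
    ring
  · -- `c = u v`, then `v` is a unit
    have h2 : ev₂ (jA A) D.θ U₂ * D.delta =
        algebraMap A (LaurentSeries A) v * aeval (jA A) d₁ := by
      apply Fermat.Agent.P2.helper81.mul_left_cancel_laurentA A
        (Fermat.Agent.P2.helper81.algebraMap_laurentA_ne_zero A hu)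
      rw [hrel, hv, map_mul]
      ring
    have hvbar : IsLocalRing.residue A v ≠ 0 := by
      intro hv0
      have h3 := congrArg (red A) h2
      rw [map_mul, map_mul, red_algebraMap', hv0, map_zero, zero_mul] at h3
      rcases mul_eq_zero.mp h3 with h4 | h4
      · exact hgood h4
      · exact hδbar h4
    refine ⟨U₂, C v * d₁, ?_, ?_⟩
    · rw [Polynomial.map_mul, Polynomial.map_C]
      exact mul_ne_zero (by simpa using hvbar) hd₁bar
    · rw [h2, map_mul, aeval_C]

/-- **(Q1c) converse of the `q`-expansion principle**: an element of `E` which is integral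
over `ℚ̄[j]` and has an `A`-integral `q`-expansion is integral over `A[j]`. -/
theorem isIntegral_of_incl (Y : LaurentSeries A) (hY : incl A Y ∈ E)
    (hint : ∃ p : Polynomial (Polynomial Kb), p.Monic ∧ ev₂ jK (incl A Y) p = 0) :
    letI := D.algAX
    IsIntegral (Polynomial A) (⟨incl A Y, hY⟩ : E) := by
  letI := D.algAX
  letI := D.faithfulSMul_AX
  obtain ⟨G, -, hG⟩ := D.exists_euler_of_incl Y hY hint
  obtain ⟨U, d, hd, hUd⟩ := D.exists_primitive_bezout
  obtain ⟨p, hp, hp0⟩ := hint
  obtain ⟨b, q, hb, hq, hq0⟩ :=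
    Fermat.Agent.P2.helper81.exists_monic_of_integral A jK _ p hp hp0
  set f : E := ⟨incl A Y, hY⟩ with hf
  have h1 : IsIntegral (Polynomial A) (algebraMap (Polynomial A) E (C b) * f) := by
    have : algebraMap (Polynomial A) E (C b) * f = algebraMap Kb E (b : Kb) * f := by
      have h0 : algebraMap (Polynomial A) E (C b) = D.evX (C b) := rfl
      rw [h0, D.evX_C]
    rw [this]
    exact D.isIntegral_of_monic _ q hq hq0
  have hθ : IsIntegral (Polynomial A) D.thetaF := ⟨D.Φ, D.monic, D.eval₂_thetaF_Φ⟩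
  have hθint : ∀ G : Polynomial (Polynomial A), IsIntegral (Polynomial A) (aeval D.thetaF G) :=
    fun G => (Algebra.adjoin_le (S := integralClosure (Polynomial A) E)
      (Set.singleton_subset_iff.mpr hθ)) (aeval_mem_adjoin_singleton (Polynomial A) D.thetaF)
  have h2 : IsIntegral (Polynomial A) (algebraMap (Polynomial A) E d * f) := by
    have key : algebraMap (Polynomial A) E d * f = aeval D.thetaF (U * G) := by
      apply Subtype.val_injective
      have h3 : ((aeval D.thetaF (U * G) : E) : LaurentSeries Kb) =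
          incl A (ev₂ (jA A) D.θ (U * G)) := D.coe_eval₂_thetaF _
      have h0 : algebraMap (Polynomial A) E d = D.evX d := rfl
      rw [h3, map_mul, hG, MulMemClass.coe_mul, h0, D.coe_evX, ← hUd]
      simp only [map_mul]
      ring
    rw [key]
    exact hθint _
  exact Fermat.Agent.P2.helper81.isIntegral_of_isIntegral_mul_of_primitive hb hd h1 h2

include D in
/-- (Q1c), equation form: a monic equation over `A[j]` satisfied by the integral
`q`-expansion -/
theorem exists_monic_of_incl (Y : LaurentSeries A) (hY : incl A Y ∈ E)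
    (hint : ∃ p : Polynomial (Polynomial Kb), p.Monic ∧ ev₂ jK (incl A Y) p = 0) :
    ∃ q : Polynomial (Polynomial A), q.Monic ∧ ev₂ (jA A) Y q = 0 := by
  letI := D.algAX
  obtain ⟨q, hq, hq0⟩ := D.isIntegral_of_incl Y hY hint
  refine ⟨q, hq, ?_⟩
  apply incl_injective A
  rw [map_zero]
  set f : E := ⟨incl A Y, hY⟩ with hf
  have h1 : ((eval₂ (algebraMap (Polynomial A) E) f q : E) : LaurentSeries Kb) =
      ((0 : E) : LaurentSeries Kb) := congrArg Subtype.val hq0
  have h2 : ((eval₂ (algebraMap (Polynomial A) E) f q : E) : LaurentSeries Kb) =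
      eval₂ ((algebraMap E (LaurentSeries Kb)).comp (algebraMap (Polynomial A) E))
        (f : LaurentSeries Kb) q :=
    Polynomial.hom_eval₂ q (algebraMap (Polynomial A) E)
      (algebraMap E (LaurentSeries Kb)) f
  have h3 : (algebraMap E (LaurentSeries Kb)).comp (algebraMap (Polynomial A) E) =
      (incl A).comp
        ((aeval (jA A) : Polynomial A →ₐ[A] LaurentSeries A) :
          Polynomial A →+* LaurentSeries A) :=
    RingHom.ext fun p => D.coe_evX p
  rw [ev₂_apply, Polynomial.hom_eval₂, ← h3, ← h2]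
  exact h1

include D in
/-- **RED-INT**: the reduction of an integral `q`-expansion of a function which is integral over
`ℚ̄[j]` is integral over `k[j̃]`. -/
theorem exists_monic_red (Y : LaurentSeries A) (hY : incl A Y ∈ E)
    (hint : ∃ p : Polynomial (Polynomial Kb), p.Monic ∧ ev₂ jK (incl A Y) p = 0) :
    ∃ q : Polynomial (Polynomial (kA A)), q.Monic ∧ ev₂ (jBar A) (red A Y) q = 0 := by
  obtain ⟨q, hq, hq0⟩ := D.exists_monic_of_incl Y hY hint
  refine ⟨q.map (Polynomial.mapRingHom (IsLocalRing.residue A)), hq.map _, ?_⟩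
  have h := congrArg (red A) hq0
  rw [map_zero, red_ev₂'] at h
  exact h

/-- **finite-place half of [VAL-UE]**: the reduction of an integral `q`-expansion of a function
integral over `ℚ̄[j]` is regular at every place of the special fibre field at which `j̃` is
regular. -/
theorem ord_red_nonneg_of_ord_xBar_nonneg (Y : LaurentSeries A) (hY : incl A Y ∈ E)
    (hint : ∃ p : Polynomial (Polynomial Kb), p.Monic ∧ ev₂ jK (incl A Y) p = 0)
    (hmem : red A Y ∈ Eb) (P : Place (kA A) Eb) (hP : 0 ≤ P.ord D.xBar) :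
    0 ≤ P.ord (⟨red A Y, hmem⟩ : Eb) := by
  obtain ⟨q, hq, hq0⟩ := D.exists_monic_red Y hY hint
  refine Fermat.Agent.P2.helper81.place_ord_nonneg_of_monic P D.xBar _ hP q hq ?_
  apply Subtype.val_injective
  have h3 := Fermat.Agent.P2.helper81.algHom_ev₂ Eb.val D.xBar (⟨red A Y, hmem⟩ : Eb) q
  rw [ZeroMemClass.coe_zero]
  exact h3.trans hq0

include D in
/-- **[VAL-UE]** from the cusp side alone. -/
theorem regRed (hjb : jqModC (kA A) ∈ Eb) (hC : helper4.CuspRegStatement A E Eb hjb) :
    helper4.RegRedStatement A E Eb := by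
  intro n Y hInL
  have hint := D.exists_monic_of_inL n _ hInL
  obtain ⟨hY, hreg, hcoeff⟩ := hInL
  have hmem : red A Y ∈ Eb := D.red_mem Y hY
  refine ⟨hmem, fun P hP => ?_, fun k hk => ?_⟩
  · by_cases hx : 0 ≤ P.ord D.xBar
    · exact D.ord_red_nonneg_of_ord_xBar_nonneg Y hY hint hmem P hx
    · exact hC n Y ⟨hY, hreg, hcoeff⟩ hmem P (not_le.mp hx) hP
  · have h1 := hcoeff k hk
    have h1' : (coeffMap A.subtype Y).coeff k = 0 := h1
    rw [coeffMap_coeff] at h1'
    have h2 : Y.coeff k = 0 := Subtype.ext h1'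
    show (coeffMap (IsLocalRing.residue A) Y).coeff k = 0
    rw [coeffMap_coeff, h2, map_zero]

end PrimData

end Core

/-! ### wiring -/

section Wiring

variable (A : ValuationSubring Kb) (E : IntermediateField Kb (LaurentSeries Kb))
  (Eb : IntermediateField (kA A) (LaurentSeries (kA A)))

/-- **[VAL-UE]** from **[PRIM]** and **[CUSP-REG]** -/
theorem regRed_of (hjb : jqModC (kA A) ∈ Eb) (h : helper4.PrimStatement A E Eb)
    (hC : helper4.CuspRegStatement A E Eb hjb) : helper4.RegRedStatement A E Eb := by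
  obtain ⟨D⟩ := (primStatement_iff A E Eb).mp h
  exact D.regRed hjb hC

end Wiring

end Fermat.Agent.T4.helper53

end
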