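import Mathlib

set_option autoImplicit false

open MeasureTheory Set
open scoped ENNReal NNReal Pointwise

namespace Fermat.Agent.T4.helper54

/-! ### a topological lemma -/

/-- A preconnected set which meets `S` and its complement meets the frontier of `S`. -/
theorem inter_frontier_nonempty_of_isPreconnected {X : Type*} [TopologicalSpace X]
    {C S : Set X} (hC : IsPreconnected C) (h1 : (C ∩ S).Nonempty) (h2 : (C \ S).Nonempty) :
    (C ∩ frontier S).Nonempty := by
  by_contra hcon
  rw [Set.not_nonempty_iff_eq_empty] at hcon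
  have hcov : C ⊆ interior S ∪ interior Sᶜ := by
    intro x hx
    by_contra hx'
    rw [Set.mem_union, not_or] at hx'
    have : x ∈ frontier S := by
      rw [frontier, Set.mem_sdiff]
      refine ⟨?_, hx'.1⟩
      by_contra hcl
      apply hx'.2
      rw [interior_compl]
      exact hcl
    have : x ∈ C ∩ frontier S := ⟨hx, this⟩
    rw [hcon] at this
    exact this
  have hdisj : Disjoint (interior S) (interior Sᶜ) :=
    Set.disjoint_of_subset interior_subset interior_subset disjoint_compl_right
  obtain ⟨x, hxC, hxS⟩ := h1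
  obtain ⟨y, hyC, hyS⟩ := h2
  rcases hC.subset_or_subset isOpen_interior isOpen_interior hdisj hcov with h | h
  · exact hyS (interior_subset (h hyC))
  · exact (interior_subset (h hxC)) hxS

/-! ### the unit cubes -/

variable {ι : Type*} [Fintype ι]

/-- the half-open unit cube with lower corner `a + z` -/
def cube (a : ι → ℝ) (z : ι → ℤ) : Set (ι → ℝ) :=
  Set.pi Set.univ fun i => Set.Ico (a i + z i) (a i + z i + 1)

theorem mem_cube_iff {a : ι → ℝ} {z : ι → ℤ} {x : ι → ℝ} :
    x ∈ cube a z ↔ ∀ i, a i + z i ≤ x i ∧ x i < a i + z i + 1 := by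
  simp [cube, Set.mem_pi]

theorem corner_mem_cube (a : ι → ℝ) (z : ι → ℤ) : (fun i => a i + z i) ∈ cube a z := by
  rw [mem_cube_iff]
  intro i
  exact ⟨le_rfl, lt_add_one _⟩

theorem measurableSet_cube (a : ι → ℝ) (z : ι → ℤ) : MeasurableSet (cube a z) :=
  MeasurableSet.univ_pi fun _ => measurableSet_Ico

theorem volume_cube (a : ι → ℝ) (z : ι → ℤ) : volume (cube a z) = 1 := by
  rw [cube, Real.volume_pi_Ico]
  simp

theorem isPreconnected_cube (a : ι → ℝ) (z : ι → ℤ) : IsPreconnected (cube a z) :=
  (convex_pi fun _ _ => convex_Ico _ _).isPreconnected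

/-- the index of the cube containing `x` -/
noncomputable def cubeIndex (a : ι → ℝ) (x : ι → ℝ) : ι → ℤ := fun i => ⌊x i - a i⌋

theorem mem_cube_iff_eq {a : ι → ℝ} {z : ι → ℤ} {x : ι → ℝ} :
    x ∈ cube a z ↔ cubeIndex a x = z := by
  rw [mem_cube_iff]
  constructor
  · intro h
    funext i
    rw [cubeIndex, Int.floor_eq_iff]
    constructor <;> linarith [h i]
  · rintro rfl i
    have h1 := Int.floor_le (x i - a i)
    have h2 := Int.lt_floor_add_one (x i - a i)
    simp only [cubeIndex]
    constructor <;> linarith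

theorem pairwise_disjoint_cube (a : ι → ℝ) :
    Pairwise (Function.onFun Disjoint (cube a)) := by
  intro z z' hzz'
  rw [Function.onFun, Set.disjoint_left]
  intro x hx hx'
  exact hzz' ((mem_cube_iff_eq.1 hx).symm.trans (mem_cube_iff_eq.1 hx'))

theorem iUnion_cube (a : ι → ℝ) : ⋃ z, cube a z = Set.univ := by
  ext x
  simp only [Set.mem_iUnion, Set.mem_univ, iff_true]
  exact ⟨cubeIndex a x, mem_cube_iff_eq.2 rfl⟩

end Fermat.Agent.T4.helper54
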