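import Mathlib
import Fermat.Agent.T4.helper54_LatCube

/-!
# T4 / [T4-CHEB-LATTICE] (helper54), part 2: lattice points versus volume

For a measurable set `S` and a finite set `B` of integer vectors containing the index of every
cube that meets `frontier S`: `vol S ≤ #latPts + #B` and `#latPts ≤ vol S + #B` (in `ℝ≥0∞`).
-/

set_option autoImplicit false

open MeasureTheory Set
open scoped ENNReal NNReal Pointwise

namespace Fermat.Agent.T4.helper54

variable {ι : Type*} [Fintype ι]

/-- the lattice points of the coset `a + ℤ^ι` in `S`, as a set of integer vectors -/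
def latPts (a : ι → ℝ) (S : Set (ι → ℝ)) : Set (ι → ℤ) := {z | (fun i => a i + z i) ∈ S}

theorem cube_dichotomy {a : ι → ℝ} {S : Set (ι → ℝ)} {z : ι → ℤ}
    (h : ¬ (cube a z ∩ frontier S).Nonempty) : cube a z ⊆ S ∨ cube a z ∩ S = ∅ := by
  by_contra hcon
  rw [not_or] at hcon
  obtain ⟨h1, h2⟩ := hcon
  apply h
  refine inter_frontier_nonempty_of_isPreconnected (isPreconnected_cube a z)
    (Set.nonempty_iff_ne_empty.2 h2) ?_
  rw [Set.not_subset] at h1
  obtain ⟨x, hx, hxS⟩ := h1
  exact ⟨x, hx, hxS⟩

theorem volume_eq_tsum_cube (a : ι → ℝ) {S : Set (ι → ℝ)} (hS : MeasurableSet S) :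
    volume S = ∑' z : ι → ℤ, volume (S ∩ cube a z) := by
  have h1 : S = ⋃ z : ι → ℤ, S ∩ cube a z := by
    rw [← Set.inter_iUnion, iUnion_cube, Set.inter_univ]
  conv_lhs => rw [h1]
  refine measure_iUnion ?_ fun z => hS.inter (measurableSet_cube a z)
  intro z z' hzz'
  exact Set.disjoint_of_subset Set.inter_subset_right Set.inter_subset_right
    (pairwise_disjoint_cube a hzz')

omit [Fintype ι] in
theorem encard_latPts_eq_tsum (a : ι → ℝ) (S : Set (ι → ℝ)) [DecidablePred (· ∈ latPts a S)] :
    ((latPts a S).encard : ℝ≥0∞) = ∑' z : ι → ℤ, if z ∈ latPts a S then (1 : ℝ≥0∞) else 0 := by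
  rw [← ENNReal.tsum_set_one, tsum_subtype (latPts a S) (fun _ => (1 : ℝ≥0∞))]
  congr 1
  funext z
  by_cases hz : z ∈ latPts a S <;> simp [Set.indicator, hz]

/-- **comparison of the number of lattice points with the volume**: both differ at most by the
number of cubes meeting the frontier. -/
theorem volume_le_encard_add (a : ι → ℝ) {S : Set (ι → ℝ)} (hS : MeasurableSet S)
    (B : Finset (ι → ℤ)) (hB : ∀ z, (cube a z ∩ frontier S).Nonempty → z ∈ B) :
    volume S ≤ (latPts a S).encard + B.card ∧
      ((latPts a S).encard : ℝ≥0∞) ≤ volume S + B.card := by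
  classical
  have hBsum : ∑' z : ι → ℤ, (if z ∈ B then (1 : ℝ≥0∞) else 0) = B.card := by
    rw [tsum_eq_sum (s := B) (fun z hz => by simp [hz])]
    rw [Finset.sum_ite_mem]
    simp
  have hle1 : ∀ z, volume (S ∩ cube a z) ≤ 1 := fun z =>
    (measure_mono Set.inter_subset_right).trans (volume_cube a z).le
  have key : ∀ z, z ∉ B →
      volume (S ∩ cube a z) = if z ∈ latPts a S then (1 : ℝ≥0∞) else 0 := by
    intro z hz
    rcases cube_dichotomy (mt (hB z) hz) with h | h
    · have h1 : z ∈ latPts a S := h (corner_mem_cube a z)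
      rw [if_pos h1, Set.inter_eq_right.2 h, volume_cube]
    · have h1 : z ∉ latPts a S := by
        intro hz'
        have : (fun i => a i + z i) ∈ cube a z ∩ S := ⟨corner_mem_cube a z, hz'⟩
        rw [h] at this
        exact this
      rw [if_neg h1, Set.inter_comm, h, measure_empty]
  rw [volume_eq_tsum_cube a hS, encard_latPts_eq_tsum, ← hBsum, ← ENNReal.tsum_add,
    ← ENNReal.tsum_add]
  constructor
  · refine ENNReal.tsum_le_tsum fun z => ?_
    by_cases hz : z ∈ B
    · rw [if_pos hz]
      exact (hle1 z).trans le_add_self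
    · rw [key z hz, if_neg hz, add_zero]
  · refine ENNReal.tsum_le_tsum fun z => ?_
    by_cases hz : z ∈ B
    · rw [if_pos hz]
      refine le_trans ?_ le_add_self
      split_ifs <;> simp
    · rw [key z hz, if_neg hz, add_zero]

end Fermat.Agent.T4.helper54
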