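import Mathlib
import Fermat.Agent.T4.helper54_LatCompare

set_option autoImplicit false

open MeasureTheory Set
open scoped ENNReal NNReal Pointwise

namespace Fermat.Agent.T4.helper54

variable {ι : Type*} [Fintype ι] [DecidableEq ι]

/-! ### boxes of integer vectors -/

/-- the integer vectors `z` whose cube may contain a point at distance `≤ r` from `y` -/
noncomputable def box (a y : ι → ℝ) (r : ℝ) : Finset (ι → ℤ) :=
  Fintype.piFinset fun i => Finset.Icc ⌊y i - a i - r - 1⌋ ⌊y i - a i + r⌋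

theorem mem_box_of_mem_cube {a y x : ι → ℝ} {r : ℝ} {z : ι → ℤ} (hx : x ∈ cube a z)
    (hxy : dist x y ≤ r) : z ∈ box a y r := by
  rw [box, Fintype.mem_piFinset]
  intro i
  have h1 := (mem_cube_iff.1 hx) i
  have h2 : |x i - y i| ≤ r := by
    have := dist_le_pi_dist x y i
    rw [Real.dist_eq] at this
    exact this.trans hxy
  rw [abs_le] at h2
  rw [Finset.mem_Icc]
  constructor
  · have h3 : (⌊y i - a i - r - 1⌋ : ℝ) ≤ y i - a i - r - 1 := Int.floor_le _
    have h4 : (⌊y i - a i - r - 1⌋ : ℝ) < (z i : ℝ) := by linarith [h1.2, h2.1]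
    exact le_of_lt (by exact_mod_cast h4)
  · rw [Int.le_floor]
    linarith [h1.1, h2.2]

/-- the bound for the number of integers in an interval of length `2 r + 2` -/
noncomputable def boxBound (r : ℝ) : ℕ := ⌊2 * r + 3⌋₊

theorem card_box_le (a y : ι → ℝ) {r : ℝ} (hr : 0 ≤ r) :
    (box a y r).card ≤ boxBound r ^ Fintype.card ι := by
  rw [box, Fintype.card_piFinset]
  have : ∀ i, (Finset.Icc ⌊y i - a i - r - 1⌋ ⌊y i - a i + r⌋).card ≤ boxBound r := by
    intro i
    rw [Int.card_Icc, boxBound]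
    apply Nat.le_floor
    have h1 : y i - a i - r - 1 < (⌊y i - a i - r - 1⌋ : ℝ) + 1 := Int.lt_floor_add_one _
    have h2 : (⌊y i - a i + r⌋ : ℝ) ≤ y i - a i + r := Int.floor_le _
    by_cases h : 0 ≤ ⌊y i - a i + r⌋ + 1 - ⌊y i - a i - r - 1⌋
    · have h3 : (((⌊y i - a i + r⌋ + 1 - ⌊y i - a i - r - 1⌋).toNat : ℤ) : ℝ) =
          ((⌊y i - a i + r⌋ + 1 - ⌊y i - a i - r - 1⌋ : ℤ) : ℝ) := by
        rw [Int.toNat_of_nonneg h]
      have h4 : (((⌊y i - a i + r⌋ + 1 - ⌊y i - a i - r - 1⌋).toNat : ℕ) : ℝ) =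
          (((⌊y i - a i + r⌋ + 1 - ⌊y i - a i - r - 1⌋).toNat : ℤ) : ℝ) := by
        norm_cast
      rw [h4, h3]
      push_cast
      linarith
    · rw [not_le] at h
      rw [Int.toNat_of_nonpos h.le]
      simp only [Nat.cast_zero]
      linarith
  calc ∏ i, (Finset.Icc ⌊y i - a i - r - 1⌋ ⌊y i - a i + r⌋).card
      ≤ ∏ _i : ι, boxBound r := Finset.prod_le_prod' fun i _ => this i
    _ = boxBound r ^ Fintype.card ι := by simp

/-! ### the grid in the unit cube -/

variable {κ : Type*} [Fintype κ]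

/-- the grid point of index `w` -/
noncomputable def gridPt (T : ℕ) (w : κ → Fin T) : κ → ℝ := fun k => ((w k : ℕ) : ℝ) / T

omit [Fintype κ] in
theorem gridPt_mem (T : ℕ) (w : κ → Fin T) : gridPt T w ∈ Set.Icc (0 : κ → ℝ) 1 := by
  rw [Set.mem_Icc]
  constructor
  · intro k
    simp only [Pi.zero_apply, gridPt]
    positivity
  · intro k
    simp only [Pi.one_apply, gridPt]
    have h1 : ((w k : ℕ) : ℝ) ≤ T := by exact_mod_cast (w k).2.le
    have hT : (0 : ℝ) < T := by
      have := (w k).pos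
      exact_mod_cast this
    rw [div_le_one hT]
    exact h1

theorem exists_gridPt_near {T : ℕ} (hT : 0 < T) {u : κ → ℝ} (hu : u ∈ Set.Icc (0 : κ → ℝ) 1) :
    ∃ w : κ → Fin T, dist u (gridPt T w) ≤ 1 / T := by
  have hT' : (0 : ℝ) < T := by exact_mod_cast hT
  rw [Set.mem_Icc] at hu
  have hu0 : ∀ k, 0 ≤ u k := fun k => hu.1 k
  have hu1 : ∀ k, u k ≤ 1 := fun k => hu.2 k
  refine ⟨fun k => ⟨min ⌊T * u k⌋₊ (T - 1), lt_of_le_of_lt (min_le_right _ _) (by omega)⟩, ?_⟩
  rw [dist_pi_le_iff (by positivity)]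
  intro k
  rw [Real.dist_eq, gridPt]
  simp only
  have hnn : (0 : ℝ) ≤ T * u k := mul_nonneg hT'.le (hu0 k)
  have hfl : (⌊T * u k⌋₊ : ℝ) ≤ T * u k := Nat.floor_le hnn
  have hfl' : T * u k < ⌊T * u k⌋₊ + 1 := Nat.lt_floor_add_one _
  have hle : T * u k ≤ T := by nlinarith [hu1 k]
  have key : ∀ w : ℝ, |T * u k - w| ≤ 1 → |u k - w / T| ≤ 1 / T := by
    intro w hw
    have e : u k - w / T = (T * u k - w) / T := by field_simp
    rw [e, abs_div, abs_of_pos hT']
    exact div_le_div_of_nonneg_right hw hT'.le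
  rcases le_total ⌊T * u k⌋₊ (T - 1) with h | h
  · rw [min_eq_left h]
    apply key
    rw [abs_le]
    constructor <;> linarith
  · rw [min_eq_right h]
    have hT1 : ((T - 1 : ℕ) : ℝ) = (T : ℝ) - 1 := by
      rw [Nat.cast_sub hT]; simp
    have h' : ((T - 1 : ℕ) : ℝ) ≤ ⌊T * u k⌋₊ := by exact_mod_cast h
    apply key
    rw [hT1] at h' ⊢
    rw [abs_le]
    constructor <;> linarith

end Fermat.Agent.T4.helper54
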