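import Mathlib
import Fermat.Agent.T4.helper54_LatBox

/-!
# T4 / [T4-CHEB-LATTICE] (helper54), part 4: the cubes meeting a Lipschitz-parametrised set
-/

set_option autoImplicit false

open MeasureTheory Set
open scoped ENNReal NNReal Pointwise

namespace Fermat.Agent.T4.helper54

variable {ι : Type*} [Fintype ι] [DecidableEq ι] {κ : Type*} [Fintype κ] [DecidableEq κ]

/-- the finite set of cubes that may meet `t • (⋃ j, φ j '' [0,1]^κ)` -/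
noncomputable def bdryBox (a : ι → ℝ) {m : ℕ} (φ : Fin m → (κ → ℝ) → (ι → ℝ)) (L t : ℝ) :
    Finset (ι → ℤ) :=
  (Finset.univ : Finset (Fin m × (κ → Fin ⌈t⌉₊))).biUnion fun jw =>
    box a (t • φ jw.1 (gridPt ⌈t⌉₊ jw.2)) L

theorem card_bdryBox_le (a : ι → ℝ) {m : ℕ} (φ : Fin m → (κ → ℝ) → (ι → ℝ)) {L : ℝ} (hL : 0 ≤ L)
    (t : ℝ) :
    (bdryBox a φ L t).card ≤ m * ⌈t⌉₊ ^ Fintype.card κ * boxBound L ^ Fintype.card ι := by
  classical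
  refine (Finset.card_biUnion_le).trans ?_
  calc ∑ jw : Fin m × (κ → Fin ⌈t⌉₊), (box a (t • φ jw.1 (gridPt ⌈t⌉₊ jw.2)) L).card
      ≤ ∑ _jw : Fin m × (κ → Fin ⌈t⌉₊), boxBound L ^ Fintype.card ι :=
        Finset.sum_le_sum fun jw _ => card_box_le a _ hL
    _ = m * ⌈t⌉₊ ^ Fintype.card κ * boxBound L ^ Fintype.card ι := by
        simp [Finset.card_univ, Fintype.card_prod, Fintype.card_pi]

theorem mem_bdryBox {a : ι → ℝ} {m : ℕ} {φ : Fin m → (κ → ℝ) → (ι → ℝ)} {L : ℝ≥0}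
    (hφ : ∀ j, LipschitzOnWith L (φ j) (Set.Icc 0 1)) {t : ℝ} (ht : 1 ≤ t) {z : ι → ℤ}
    {x : ι → ℝ} (hx : x ∈ cube a z) (hxf : x ∈ t • ⋃ j, φ j '' Set.Icc (0 : κ → ℝ) 1) :
    z ∈ bdryBox a φ (L : ℝ) t := by
  classical
  have ht0 : (0 : ℝ) < t := lt_of_lt_of_le one_pos ht
  have hT : 0 < ⌈t⌉₊ := Nat.ceil_pos.2 ht0
  have hT' : (0 : ℝ) < ⌈t⌉₊ := by exact_mod_cast hT
  obtain ⟨y, hy, rfl⟩ := hxf
  rw [Set.mem_iUnion] at hy
  obtain ⟨j, u, hu, rfl⟩ := hy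
  obtain ⟨w, hw⟩ := exists_gridPt_near hT hu
  rw [bdryBox, Finset.mem_biUnion]
  refine ⟨(j, w), Finset.mem_univ _, mem_box_of_mem_cube hx ?_⟩
  have h1 : dist (φ j u) (φ j (gridPt ⌈t⌉₊ w)) ≤ L * dist u (gridPt ⌈t⌉₊ w) :=
    (hφ j).dist_le_mul u hu _ (gridPt_mem _ w)
  have h2 : dist (t • φ j u) (t • φ j (gridPt ⌈t⌉₊ w)) =
      t * dist (φ j u) (φ j (gridPt ⌈t⌉₊ w)) := by
    rw [dist_smul₀, Real.norm_eq_abs, abs_of_pos ht0]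
  show dist (t • φ j u) (t • φ j (gridPt ⌈t⌉₊ w)) ≤ L
  rw [h2]
  have h3 : t ≤ ⌈t⌉₊ := Nat.le_ceil t
  have hL : (0 : ℝ) ≤ L := L.2
  calc t * dist (φ j u) (φ j (gridPt ⌈t⌉₊ w))
      ≤ t * (L * (1 / ⌈t⌉₊)) := by
        gcongr
        exact h1.trans (by gcongr)
    _ = L * (t / ⌈t⌉₊) := by ring
    _ ≤ L * 1 := by
        gcongr
        rw [div_le_one hT']
        exact h3
    _ = L := mul_one _

end Fermat.Agent.T4.helper54
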