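import Mathlib
import Fermat.Agent.T4.helper54_LatBdry

/-!
# T4 / S48, block (II), leaf [T4-CHEB-LATTICE] (helper54): lattice points with error term

Let `D ⊆ ℝ^ι` be a bounded measurable set whose frontier is covered by the images of finitely
many maps `φ_j : [0,1]^κ → ℝ^ι`, Lipschitz with constant `L` (in nature `#κ = #ι - 1`).  Then
for every coset `a + ℤ^ι` and every `t ≥ 1`

  `| #((a + ℤ^ι) ∩ t D) - vol(D) t^(#ι) | ≤ C t^(#κ)`,  `C = m 2^(#κ) ⌊2 L + 3⌋^(#ι)`

(`lattice_count`; Lang, *Algebraic Number Theory*, VI.2 Theorem 2; Marcus, *Number Fields*,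
chapter 6, Lemma 2).  The constant depends only on `m`, `L`, `#ι`, `#κ`; in particular it is
uniform in the coset.

* `latPts a S` : the set `{z : ι → ℤ | a + z ∈ S}`;
* `lattice_count_ennreal` : the comparison in `ℝ≥0∞`, with the explicit finite set `bdryBox`;
* `lattice_count` : the real form;
* `lattice_count_exists` : existence of the constant.
-/

set_option autoImplicit false

open MeasureTheory Set
open scoped ENNReal NNReal Pointwise

namespace Fermat.Agent.T4.helper54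

variable {ι : Type*} [Fintype ι] {κ : Type*} [Fintype κ]

omit [Fintype ι] in
theorem frontier_smul_eq {t : ℝ} (ht : t ≠ 0) (D : Set (ι → ℝ)) :
    frontier (t • D) = t • frontier D := by
  have h := (Homeomorph.smulOfNeZero t ht).image_frontier D
  have e : ∀ s : Set (ι → ℝ), (Homeomorph.smulOfNeZero t ht) '' s = t • s := fun s => by
    ext x
    simp [Set.mem_smul_set]
  rw [e, e] at h
  exact h.symm

theorem lattice_count_ennreal [DecidableEq ι] [DecidableEq κ] {D : Set (ι → ℝ)}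
    (hD : MeasurableSet D) {m : ℕ}
    {φ : Fin m → (κ → ℝ) → (ι → ℝ)} {L : ℝ≥0}
    (hφ : ∀ j, LipschitzOnWith L (φ j) (Set.Icc 0 1))
    (hcov : frontier D ⊆ ⋃ j, φ j '' Set.Icc (0 : κ → ℝ) 1) (a : ι → ℝ) {t : ℝ} (ht : 1 ≤ t) :
    volume (t • D) ≤ (latPts a (t • D)).encard + (bdryBox a φ (L : ℝ) t).card ∧
      ((latPts a (t • D)).encard : ℝ≥0∞) ≤ volume (t • D) + (bdryBox a φ (L : ℝ) t).card := by
  have ht0 : t ≠ 0 := (lt_of_lt_of_le one_pos ht).ne'
  refine volume_le_encard_add a (hD.const_smul₀ t) _ ?_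
  rintro z ⟨x, hx, hxf⟩
  rw [frontier_smul_eq ht0] at hxf
  exact mem_bdryBox hφ ht hx (Set.smul_set_mono hcov hxf)

/-- **[T4-CHEB-LATTICE]** the number of points of a coset of `ℤ^ι` in `t D` is
`vol(D) t^(#ι) + O(t^(#κ))`, with an explicit constant, uniformly in the coset. -/
theorem lattice_count {D : Set (ι → ℝ)} (hD : MeasurableSet D) (hDb : Bornology.IsBounded D)
    {m : ℕ} {φ : Fin m → (κ → ℝ) → (ι → ℝ)} {L : ℝ≥0}
    (hφ : ∀ j, LipschitzOnWith L (φ j) (Set.Icc 0 1))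
    (hcov : frontier D ⊆ ⋃ j, φ j '' Set.Icc (0 : κ → ℝ) 1) (a : ι → ℝ) {t : ℝ} (ht : 1 ≤ t) :
    (latPts a (t • D)).Finite ∧
      |((latPts a (t • D)).ncard : ℝ) - (volume D).toReal * t ^ Fintype.card ι| ≤
        ((m * 2 ^ Fintype.card κ * boxBound (L : ℝ) ^ Fintype.card ι : ℕ) : ℝ)
          * t ^ Fintype.card κ := by
  classical
  have ht0 : (0 : ℝ) < t := lt_of_lt_of_le one_pos ht
  obtain ⟨h1, h2⟩ := lattice_count_ennreal hD hφ hcov a ht
  set b := (bdryBox a φ (L : ℝ) t).card with hb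
  -- the volume
  have hVD : volume D < ⊤ := hDb.measure_lt_top
  have hV : volume (t • D) = ENNReal.ofReal (t ^ Fintype.card ι) * volume D := by
    rw [Measure.addHaar_smul, Module.finrank_fintype_fun_eq_card, abs_of_pos (pow_pos ht0 _)]
  have hVfin : volume (t • D) < ⊤ := by
    rw [hV]
    exact ENNReal.mul_lt_top ENNReal.ofReal_lt_top hVD
  have hVreal : (volume (t • D)).toReal = (volume D).toReal * t ^ Fintype.card ι := by
    rw [hV, ENNReal.toReal_mul, ENNReal.toReal_ofReal (pow_pos ht0 _).le, mul_comm]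
  -- finiteness
  have hfin : (latPts a (t • D)).Finite := by
    rw [← Set.encard_lt_top_iff]
    have : ((latPts a (t • D)).encard : ℝ≥0∞) < ⊤ :=
      lt_of_le_of_lt h2 (ENNReal.add_lt_top.2 ⟨hVfin, ENNReal.natCast_lt_top _⟩)
    exact_mod_cast this
  refine ⟨hfin, ?_⟩
  have hN : ((latPts a (t • D)).encard : ℝ≥0∞) = ((latPts a (t • D)).ncard : ℝ≥0∞) := by
    rw [← hfin.cast_ncard_eq]
    simp
  rw [hN] at h1 h2
  -- real inequalities
  have r1 : (volume (t • D)).toReal ≤ (latPts a (t • D)).ncard + b := by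
    have := ENNReal.toReal_mono (by simp) h1
    rwa [ENNReal.toReal_add (by simp) (by simp), ENNReal.toReal_natCast,
      ENNReal.toReal_natCast] at this
  have r2 : ((latPts a (t • D)).ncard : ℝ) ≤ (volume (t • D)).toReal + b := by
    have := ENNReal.toReal_mono (ENNReal.add_lt_top.2 ⟨hVfin, ENNReal.natCast_lt_top _⟩).ne h2
    rwa [ENNReal.toReal_add hVfin.ne (by simp), ENNReal.toReal_natCast,
      ENNReal.toReal_natCast] at this
  rw [hVreal] at r1 r2
  -- the bound for `b`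
  have hbb : (b : ℝ) ≤ ((m * 2 ^ Fintype.card κ * boxBound (L : ℝ) ^ Fintype.card ι : ℕ) : ℝ)
      * t ^ Fintype.card κ := by
    have h3 : b ≤ m * ⌈t⌉₊ ^ Fintype.card κ * boxBound (L : ℝ) ^ Fintype.card ι :=
      card_bdryBox_le a φ L.2 t
    have h4 : (⌈t⌉₊ : ℝ) ≤ 2 * t := by
      have := Nat.ceil_lt_add_one ht0.le
      linarith
    have h5 : ((⌈t⌉₊ : ℝ)) ^ Fintype.card κ ≤ (2 * t) ^ Fintype.card κ :=
      pow_le_pow_left₀ (Nat.cast_nonneg _) h4 _
    calc (b : ℝ) ≤ ((m * ⌈t⌉₊ ^ Fintype.card κ * boxBound (L : ℝ) ^ Fintype.card ι : ℕ) : ℝ) := by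
          exact_mod_cast h3
      _ = m * (⌈t⌉₊ : ℝ) ^ Fintype.card κ * (boxBound (L : ℝ) : ℝ) ^ Fintype.card ι := by
          push_cast; ring
      _ ≤ m * (2 * t) ^ Fintype.card κ * (boxBound (L : ℝ) : ℝ) ^ Fintype.card ι := by
          gcongr
      _ = ((m * 2 ^ Fintype.card κ * boxBound (L : ℝ) ^ Fintype.card ι : ℕ) : ℝ)
          * t ^ Fintype.card κ := by
          push_cast; rw [mul_pow]; ring
  rw [abs_le]
  constructor <;> linarith

/-- existence of the constant in `lattice_count` -/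
theorem lattice_count_exists {D : Set (ι → ℝ)} (hD : MeasurableSet D)
    (hDb : Bornology.IsBounded D) {m : ℕ} {φ : Fin m → (κ → ℝ) → (ι → ℝ)} {L : ℝ≥0}
    (hφ : ∀ j, LipschitzOnWith L (φ j) (Set.Icc 0 1))
    (hcov : frontier D ⊆ ⋃ j, φ j '' Set.Icc (0 : κ → ℝ) 1) :
    ∃ C : ℝ, 0 ≤ C ∧ ∀ (a : ι → ℝ) (t : ℝ), 1 ≤ t →
      (latPts a (t • D)).Finite ∧
      |((latPts a (t • D)).ncard : ℝ) - (volume D).toReal * t ^ Fintype.card ι| ≤
        C * t ^ Fintype.card κ :=
  ⟨_, Nat.cast_nonneg _, fun a _ ht => lattice_count hD hDb hφ hcov a ht⟩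

end Fermat.Agent.T4.helper54
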