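import Fermat.Agent.T4.helper21_AN1Final
import Fermat.Agent.T4.helper20_TwistedU1
import Fermat.Agent.P3.helper48_AN1Ratio

/-!
# T4 block (I), sub-block I-AN, leaf [SURJ1] (helper54): surjectivity of the monodromy for `Γ₁(M)`

Target: `helper21.SurjChar1Statement M 𝒟` for a standard analytic dictionary `𝒟` of `F1Cx M`
(`4 ≤ M`): every character `ψ : Γ₁(M) → μ_m` which is trivial on the elements of trace `± 2`
is the monodromy of a class of `Pic⁰(F_ℂ)`, namely of `(1/m) div (u_ψ ^ m)`,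
`u_ψ = E_{4,ψ} / E₄` (`helper20.twistedU1`).

Proved here, unconditionally:

* `trace_sq_eq_four_of_mem_Gamma1` : for `4 ≤ M` an element of `Γ₁(M)` with `trace² ≤ 4` has
  `trace² = 4` (no elliptic elements, `-1 ∉ Γ₁(M)`);
* `exists_cuspGerm1_of_bounded`, `exists_cuspGerm_twistedU1` : every `SL(2,ℤ)`-translate of
  `u_ψ` is an analytic function of `q_W = exp(2πiτ/W)` at `q_W = 0`, for every multiple `W > 0`
  of a level `M` with `Γ(M) ≤ Γ`;
* `IsWeakFormG`, `ratio_mem_of_fullQ` (Theorem B from Theorem A, for any subgroup containing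
  `T`), `exists_isEv_twistedU1_pow`;
* `exists_isMonData_of_root1` (the class of `(1/m) div h`).

Inputs, as explicit hypotheses (`Prop`s defined below):

* `FullQ1Statement M` ([G-ROOT], Theorem A): the `q`-expansion of a `Γ₁(M)`-invariant
  holomorphic function with at most exponential growth at all cusps lies in `F1Cx M`;
* `RootOrd1Statement M` ([G-T1]): the orders of `h` at all places are divisible by `m` as
  soon as the function of `h` has an `m`-th root which is invariant under the elements of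
  `±Γ₁(M)` with `trace² ≤ 4` and analytic in `q_W` at all cusps;
* `HasPrincipalDivisors ℂ (F1Cx M)` ([I-FLD]).

Final statement: `surjChar1_of`.
-/

set_option autoImplicit false

noncomputable section

open UpperHalfPlane ModularForm CongruenceSubgroup Filter Topology AlgebraicCurve ModularCurve
open scoped MatrixGroups Manifold

namespace Fermat.Agent.T4.helper54

open Fermat.Agent.S24 Fermat.Agent.S24.helper17 Fermat.Agent.S24.helper77
open Fermat.Agent.P3.helper20 Fermat.Agent.P3.helper34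
open Fermat.Agent.T4.helper20 Fermat.Agent.T4.helper21

/-! ## (ELL) `Γ₁(M)` has no elliptic elements for `4 ≤ M` -/

/-- The trace of an element of `Γ₁(M)` is `2` modulo `M`. -/
theorem trace_sub_two_dvd {M : ℕ} {γ : SL(2, ℤ)} (hγ : γ ∈ Gamma1 M) :
    (M : ℤ) ∣ (γ : Matrix (Fin 2) (Fin 2) ℤ).trace - 2 := by
  rw [Gamma1_mem] at hγ
  rw [← ZMod.intCast_zmod_eq_zero_iff_dvd, Matrix.trace_fin_two]
  push_cast
  rw [hγ.1, hγ.2.1]
  ring

/-- For `4 ≤ M` an element of `Γ₁(M)` with `trace² ≤ 4` has `trace² = 4`. -/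
theorem trace_sq_eq_four_of_mem_Gamma1 {M : ℕ} (hM : 4 ≤ M) {γ : SL(2, ℤ)}
    (hγ : γ ∈ Gamma1 M) (h : (γ : Matrix (Fin 2) (Fin 2) ℤ).trace ^ 2 ≤ 4) :
    (γ : Matrix (Fin 2) (Fin 2) ℤ).trace ^ 2 = 4 := by
  obtain ⟨c, hc⟩ := trace_sub_two_dvd hγ
  set t := (γ : Matrix (Fin 2) (Fin 2) ℤ).trace with ht
  have h1 : -2 ≤ t := by nlinarith
  have h2 : t ≤ 2 := by nlinarith
  have hM' : (4 : ℤ) ≤ (M : ℤ) := by exact_mod_cast hM
  have hc0 : c ≤ 0 := by
    by_contra hcon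
    have : 1 ≤ c := by omega
    nlinarith
  have hc1 : -1 ≤ c := by
    by_contra hcon
    have : c ≤ -2 := by omega
    nlinarith
  have hcases : c = 0 ∨ c = -1 := by omega
  rcases hcases with h0 | h0
  · rw [h0, mul_zero] at hc
    have : t = 2 := by omega
    rw [this]
    norm_num
  · rw [h0] at hc
    have : t = -2 := by nlinarith
    rw [this]
    norm_num

/-- A character of `Γ₁(M)`, `4 ≤ M`, which is trivial on the elements of trace `± 2` is trivial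
on all elements with `trace² ≤ 4`. -/
theorem psi_eq_one_of_trace_sq_le {M : ℕ} (hM : 4 ≤ M) {ψ : Gamma1 M →* ℂˣ}
    (hψ : ∀ γ : Gamma1 M, ((γ : SL(2, ℤ)) : Matrix (Fin 2) (Fin 2) ℤ).trace ^ 2 = 4 → ψ γ = 1)
    (γ : Gamma1 M) (h : ((γ : SL(2, ℤ)) : Matrix (Fin 2) (Fin 2) ℤ).trace ^ 2 ≤ 4) : ψ γ = 1 :=
  hψ γ (trace_sq_eq_four_of_mem_Gamma1 hM γ.2 h)

/-! ## (CUSP) germs at the cusps -/

theorem periodic_comp_ofComplex_of_vadd1 {W : ℕ} {f : ℍ → ℂ}
    (hper : ∀ τ : ℍ, f ((W : ℝ) +ᵥ τ) = f τ) :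
    Function.Periodic (f ∘ ofComplex) ((W : ℝ) : ℂ) := by
  intro w
  by_cases hw : 0 < w.im
  · have hw' : 0 < (w + ((W : ℝ) : ℂ)).im := by simpa using hw
    simp only [Function.comp_apply, ofComplex_apply_of_im_pos hw', ofComplex_apply_of_im_pos hw]
    have := hper ⟨w, hw⟩
    rw [← this]
    congr 1
    ext
    simp [add_comm]
  · have hw0 : w.im ≤ 0 := not_lt.mp hw
    have hw' : (w + ((W : ℝ) : ℂ)).im ≤ 0 := by simpa using hw0
    simp only [Function.comp_apply, ofComplex_apply_of_im_nonpos hw',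
      ofComplex_apply_of_im_nonpos hw0]

/-- A function on the upper half plane which is `W`-periodic, bounded at `i∞` and holomorphic
near `i∞` is an analytic function of `q_W = exp (2 π i τ / W)` at `q_W = 0`. -/
theorem exists_cuspGerm1_of_bounded {W : ℕ} (hW : 0 < W) {f : ℍ → ℂ}
    (hper : ∀ τ : ℍ, f ((W : ℝ) +ᵥ τ) = f τ)
    (hbd : IsBoundedAtImInfty f)
    (hhol : ∀ᶠ τ : ℍ in atImInfty, DifferentiableAt ℂ (f ∘ ofComplex) (τ : ℂ)) :
    ∃ U : ℂ → ℂ, AnalyticAt ℂ U 0 ∧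
      ∀ τ : ℍ, U (Function.Periodic.qParam W (τ : ℂ)) = f τ := by
  have hN : (0 : ℝ) < W := by exact_mod_cast hW
  have hfper := periodic_comp_ofComplex_of_vadd1 (W := W) hper
  refine ⟨UpperHalfPlane.cuspFunction W f, ?_,
    fun τ => UpperHalfPlane.eq_cuspFunction τ hN.ne' hfper⟩
  have h_hol : ∀ᶠ z in Filter.comap Complex.im atTop,
      DifferentiableAt ℂ (f ∘ ofComplex) z := by
    obtain ⟨A, hA⟩ := (atImInfty_mem _).mp hhol
    rw [Filter.eventually_comap]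
    filter_upwards [Filter.eventually_ge_atTop (max A 1)] with y hy z hz
    have hzpos : 0 < z.im := by
      rw [hz]
      exact lt_of_lt_of_le one_pos ((le_max_right A 1).trans hy)
    have := hA ⟨z, hzpos⟩ (by
      show A ≤ z.im
      rw [hz]
      exact (le_max_left A 1).trans hy)
    exact this
  have h_bd : BoundedAtFilter (Filter.comap Complex.im atTop) (f ∘ ofComplex) :=
    hbd.comp_tendsto tendsto_comap_im_ofComplex
  have h0 : DifferentiableAt ℂ (UpperHalfPlane.cuspFunction W f) 0 :=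
    hfper.differentiableAt_cuspFunction_zero hN h_hol h_bd
  have h1 := Function.Periodic.eventually_differentiableAt_cuspFunction_nhds_ne_zero hN hfper
    h_hol
  rw [Complex.analyticAt_iff_eventually_differentiableAt]
  rw [eventually_nhdsWithin_iff] at h1
  filter_upwards [h1] with q hq
  by_cases hq0 : q = 0
  · rw [hq0]
    exact h0
  · exact hq hq0

/-- `Γ(W) ≤ Γ(M)` if `M ∣ W`. -/
theorem Gamma_le_of_dvd {M W : ℕ} (h : M ∣ W) : Gamma W ≤ Gamma M := by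
  intro γ hγ
  rw [Gamma_mem] at hγ ⊢
  have key : ∀ a b : ℤ, ((a : ℤ) : ZMod W) = ((b : ℤ) : ZMod W) →
      ((a : ℤ) : ZMod M) = ((b : ℤ) : ZMod M) := by
    intro a b hab
    rw [ZMod.intCast_eq_intCast_iff_dvd_sub] at hab ⊢
    exact (Int.natCast_dvd_natCast.mpr h).trans hab
  refine ⟨?_, ?_, ?_, ?_⟩
  · have := key _ 1 (by simpa using hγ.1)
    simpa using this
  · have := key _ 0 (by simpa using hγ.2.1)
    simpa using this
  · have := key _ 0 (by simpa using hγ.2.2.1)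
    simpa using this
  · have := key _ 1 (by simpa using hγ.2.2.2)
    simpa using this

section CuspU

variable {Γ : Subgroup SL(2, ℤ)} {ψ : Γ →* ℂˣ}

/-- Every translate of `u_ψ` is an analytic function of `q_W` at the cusp, for every width `W`
with `Γ(W) ≤ Γ`. -/
theorem exists_cuspGerm_twistedU1 {W : ℕ} (hW : 0 < W) (hΓ : Gamma W ≤ Γ)
    (hψ : IsParabolicChar1 ψ) (hu : IsUnitaryChar1 ψ) (δ : SL(2, ℤ)) :
    ∃ U : ℂ → ℂ, AnalyticAt ℂ U 0 ∧
      ∀ τ : ℍ, U (Function.Periodic.qParam W (τ : ℂ)) = twistedU1 ψ (δ • τ) := by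
  refine exists_cuspGerm1_of_bounded hW (f := fun τ => twistedU1 ψ (δ • τ))
    (fun τ => twistedU1_smul_vadd hΓ hψ δ τ) (isBoundedAtImInfty_twistedU1_smul hu δ) ?_
  obtain ⟨B, hB⟩ := eventually_norm_E₄_ge
  refine (atImInfty_mem _).mpr ⟨B, fun τ hτ => ?_⟩
  have hE : E₄ τ ≠ 0 := by
    intro h0
    have := hB τ hτ
    rw [h0, norm_zero] at this
    linarith
  exact differentiableAt_twistedU1_smul hu δ hE

end CuspU

/-! ## (REP) Theorem B from Theorem A -/

/-- **Theorem A** for the group `Γ` and the field `F ⊆ ℂ((q))`: the `q`-expansion of every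
`Γ`-invariant holomorphic function on `ℍ` with at most exponential growth at all cusps lies in
`F`. -/
def FullQStatement (Γ : Subgroup SL(2, ℤ)) (F : IntermediateField ℂ (LaurentSeries ℂ)) : Prop :=
  ∀ (s : ℍ → ℂ) (S : LaurentSeries ℂ), IsQExp S s →
    (∀ γ ∈ Γ, precomp γ s = s) → (∀ g : SL(2, ℤ), precomp g s ∈ holoExp) → S ∈ F

/-- `f` is a weakly holomorphic modular form of weight `k` on `Γ`. -/
structure IsWeakFormG (Γ : Subgroup SL(2, ℤ)) (k : ℤ) (f : ℍ → ℂ) : Prop where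
  slash_eq : ∀ γ ∈ Γ, f ∣[k] γ = f
  slash_mem : ∀ δ : SL(2, ℤ), f ∣[k] δ ∈ holoExp

namespace IsWeakFormG

variable {Γ : Subgroup SL(2, ℤ)} {k : ℤ} {f g : ℍ → ℂ}

theorem mem (hf : IsWeakFormG Γ k f) : f ∈ holoExp := by
  have := hf.slash_mem 1
  rwa [SlashAction.slash_one] at this

theorem vadd (hT : ModularGroup.T ∈ Γ) (hf : IsWeakFormG Γ k f) (τ : ℍ) :
    f ((1 : ℝ) +ᵥ τ) = f τ := by
  have h := congrFun (hf.slash_eq _ hT) τ
  rw [SL_slash_apply, modular_T_smul, Fermat.Agent.P3.helper48.denom_T] at h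
  simpa using h

theorem exists_isQExp (hT : ModularGroup.T ∈ Γ) (hf : IsWeakFormG Γ k f) :
    ∃ F : LaurentSeries ℂ, IsQExp F f :=
  Fermat.Agent.P3.helper48.exists_isQExp hf.mem (hf.vadd hT)

theorem precomp_wtZero_eq (hf : IsWeakFormG Γ k f) (hg : IsWeakFormG Γ k g) {γ : SL(2, ℤ)}
    (hγ : γ ∈ Γ) :
    precomp γ (Fermat.Agent.P3.helper48.wtZero k f g) = Fermat.Agent.P3.helper48.wtZero k f g := by
  rw [Fermat.Agent.P3.helper48.precomp_wtZero, hf.slash_eq _ (inv_mem hγ),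
    hg.slash_eq _ (inv_mem hγ)]

theorem precomp_wtZero_mem (hf : IsWeakFormG Γ k f) (hg : IsWeakFormG Γ k g) (δ : SL(2, ℤ)) :
    precomp δ (Fermat.Agent.P3.helper48.wtZero k f g) ∈ holoExp := by
  rw [Fermat.Agent.P3.helper48.precomp_wtZero]
  have e : Fermat.Agent.P3.helper48.wtZero k (f ∣[k] δ⁻¹) (g ∣[k] δ⁻¹)
      = (f ∣[k] δ⁻¹) * (g ∣[k] δ⁻¹) ^ 11 * Fermat.Agent.P3.helper48.discPow k := by
    funext τ
    rfl
  rw [e]
  exact mul_mem (mul_mem (hf.slash_mem _) (pow_mem (hg.slash_mem _) 11))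
    (Fermat.Agent.P3.helper48.discPow_mem_holoExp k)

/-- A holomorphic function which is slash-invariant of weight `k` under `Γ` and bounded at all
cusps is a weakly holomorphic modular form. -/
theorem of_bdd (hslash : ∀ γ ∈ Γ, f ∣[k] γ = f) (hf : MDiff f)
    (hbdd : ∀ δ : SL(2, ℤ), IsBoundedAtImInfty (f ∣[k] δ)) : IsWeakFormG Γ k f where
  slash_eq := hslash
  slash_mem δ := Fermat.Agent.P3.helper48.isBounded_mem_holoExp (hf.slash k _) (hbdd δ)

end IsWeakFormG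

theorem isWeakFormG_of_modularForm {Γ : Subgroup SL(2, ℤ)} [Γ.FiniteIndex] {k : ℤ}
    (f : ModularForm (Γ : Subgroup (GL (Fin 2) ℝ)) k) : IsWeakFormG Γ k f :=
  IsWeakFormG.of_bdd
    (fun γ hγ => by
      rw [SL_slash]
      exact SlashInvariantForm.slash_action_eqn f _ (Subgroup.mem_map_of_mem _ hγ))
    f.holo' (fun δ => ModularFormClass.bdd_at_infty_slash f δ)

/-- A level one modular form is a weakly holomorphic modular form on every `Γ`. -/
theorem isWeakFormG_of_levelOne (Γ : Subgroup SL(2, ℤ)) {k : ℤ} (F : ModularForm 𝒮ℒ k) :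
    IsWeakFormG Γ k F := by
  have hsl : ∀ γ : SL(2, ℤ), (F : ℍ → ℂ) ∣[k] γ = F := fun γ => by
    rw [SL_slash]
    exact SlashInvariantForm.slash_action_eqn F _ ⟨γ, rfl⟩
  refine IsWeakFormG.of_bdd (fun γ _ => hsl γ) F.holo' fun δ => ?_
  rw [hsl δ]
  exact ModularFormClass.bdd_at_infty F

/-- **Theorem B** (from Theorem A). The ratio of the `q`-expansions of two weakly holomorphic
modular forms of the same weight on `Γ` lies in `F`. -/
theorem ratio_mem_of_fullQ {Γ : Subgroup SL(2, ℤ)} {F : IntermediateField ℂ (LaurentSeries ℂ)}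
    (hA : FullQStatement Γ F) {k : ℤ} {f g : ℍ → ℂ} (hf : IsWeakFormG Γ k f)
    (hg : IsWeakFormG Γ k g) {Fq Gq : LaurentSeries ℂ} (hFq : IsQExp Fq f) (hGq : IsQExp Gq g) :
    Fq / Gq ∈ F := by
  by_cases hG0 : Gq = 0
  · rw [hG0, div_zero]
    exact zero_mem _
  obtain ⟨D, hD⟩ := Fermat.Agent.P3.helper48.exists_isQExp_discPow k
  have hD0 : D ≠ 0 := by
    intro h
    have := (hD.eq_zero_iff).mp h
    exact Fermat.Agent.P3.helper48.discPow_ne_zero k UpperHalfPlane.I (congrFun this _)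
  have h1 : Fq * Gq ^ 11 * D ∈ F :=
    hA _ _ (Fermat.Agent.P3.helper48.isQExp_wtZero hFq hGq hD)
      (fun γ hγ => IsWeakFormG.precomp_wtZero_eq hf hg hγ)
      (fun δ => IsWeakFormG.precomp_wtZero_mem hf hg δ)
  have h2 : Gq * Gq ^ 11 * D ∈ F :=
    hA _ _ (Fermat.Agent.P3.helper48.isQExp_wtZero hGq hGq hD)
      (fun γ hγ => IsWeakFormG.precomp_wtZero_eq hg hg hγ)
      (fun δ => IsWeakFormG.precomp_wtZero_mem hg hg δ)
  have e : Fq / Gq = (Fq * Gq ^ 11 * D) / (Gq * Gq ^ 11 * D) := by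
    field_simp
  rw [e]
  exact div_mem h1 h2

/-- The ratio of two weakly holomorphic modular forms of the same weight on `Γ` is the function
of an element of `F`, nonzero if the numerator is. -/
theorem exists_isEv_ratio {Γ : Subgroup SL(2, ℤ)} {F : IntermediateField ℂ (LaurentSeries ℂ)}
    (hA : FullQStatement Γ F) (hT : ModularGroup.T ∈ Γ) {k : ℤ} {f g : ℍ → ℂ}
    (hf : IsWeakFormG Γ k f) (hg : IsWeakFormG Γ k g) (hf0 : f ≠ 0) (hg0 : g ≠ 0) :
    ∃ x : F, x ≠ 0 ∧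
      IsEv (x : LaurentSeries ℂ) (fun w => f (ofComplex w) / g (ofComplex w)) := by
  obtain ⟨Fq, hFq⟩ := hf.exists_isQExp hT
  obtain ⟨Gq, hGq⟩ := hg.exists_isQExp hT
  have hF0 : Fq ≠ 0 := fun h => hf0 (hFq.eq_zero_iff.mp h)
  have hG0 : Gq ≠ 0 := fun h => hg0 (hGq.eq_zero_iff.mp h)
  refine ⟨⟨Fq / Gq, ratio_mem_of_fullQ hA hf hg hFq hGq⟩, ?_, ?_⟩
  · intro h
    have := congrArg Subtype.val h
    exact div_ne_zero hF0 hG0 this
  · exact (isEv_of_isQExp hFq).div (isEv_of_isQExp hGq) hG0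

/-- **`u_ψ ^ m` is the function of a nonzero element of `F`** (`ψ ^ m = 1`). -/
theorem exists_isEv_twistedU1_pow {Γ : Subgroup SL(2, ℤ)} [Γ.FiniteIndex]
    {F : IntermediateField ℂ (LaurentSeries ℂ)} (hA : FullQStatement Γ F)
    (hT : ModularGroup.T ∈ Γ) {ψ : Γ →* ℂˣ}
    (hψ : IsParabolicChar1 ψ) {m : ℕ} (hm : m ≠ 0) (hpow : ∀ γ : Γ, ψ γ ^ m = 1) :
    ∃ h : F, h ≠ 0 ∧
      IsEv (h : LaurentSeries ℂ) (fun z => (↑ₕ(twistedU1 ψ)) z ^ m) := by
  have hF := isWeakFormG_of_modularForm (twistedEisPow1 (k := 4) (by norm_num) hψ hm hpow)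
  have hG := isWeakFormG_of_levelOne Γ (E₄.pow m)
  have hF0 : (twistedEisPow1 (k := 4) (by norm_num) hψ hm hpow : ℍ → ℂ) ≠ 0 :=
    twistedEisPow1_ne_zero (k := 4) (by norm_num) (by decide) hψ hm hpow
  have hG0 : (E₄.pow m : ℍ → ℂ) ≠ 0 := by
    obtain ⟨z, hz⟩ := exists_E₄_ne_zero
    intro h0
    have := congrFun h0 z
    rw [ModularForm.coe_pow, Pi.pow_apply] at this
    exact hz (pow_eq_zero_iff hm |>.mp this)
  obtain ⟨x, hx0, hx⟩ := exists_isEv_ratio hA hT hF hG hF0 hG0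
  refine ⟨x, hx0, ?_⟩
  have e : (fun z => (↑ₕ(twistedU1 ψ)) z ^ m) = fun w : ℂ =>
      (twistedEisPow1 (k := 4) (by norm_num) hψ hm hpow) (ofComplex w) /
        (E₄.pow m) (ofComplex w) := by
    funext w
    exact twistedU1_pow_eq hψ hm hpow (ofComplex w)
  rw [e]
  exact hx

/-! ## The class of `(1/m) div h` -/

section Abstract

variable {Γ : Subgroup SL(2, ℤ)} {F : Type*} [Field F] [Algebra ℂ F]

/-- If all orders of `h` are divisible by `m` and the function of `h` has an `m`-th root `g`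
with multiplier `ψ`, then `ψ` is the monodromy of the class of the divisor `(1/m) div h`. -/
theorem exists_isMonData_of_root1 (𝒟 : AnDict F Γ) (hPD : HasPrincipalDivisors ℂ F) {m : ℕ}
    (hm : 0 < m) (h : F) (hh0 : h ≠ 0) (hdvd : ∀ w : Place ℂ F, (m : ℤ) ∣ w.ord h)
    (g : ℂ → ℂ) (hg : MeromorphicOn g {z : ℂ | 0 < z.im}) (hgfin : FinOrd g)
    (hpow : EqH (fun w ↦ g w ^ m) (𝒟.ev h)) (ψ : Γ →* ℂˣ) (hmult : HasMultH g ψ) :
    ∃ c : Pic0 ℂ F, IsMonData 𝒟 m c ψ := by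
  obtain ⟨D₀, hD₀, hdeg⟩ := hPD.exists_divisor h hh0
  set D : Divisor ℂ F := D₀.mapRange (fun n ↦ n / (m : ℤ)) (by simp) with hDdef
  have hD : ∀ w : Place ℂ F, (m : ℤ) * D w = w.ord h := fun w ↦ by
    rw [hDdef, Finsupp.mapRange_apply, hD₀ w]
    exact Int.mul_ediv_cancel' (hdvd w)
  have hmD : (m : ℤ) • D = D₀ := by
    ext w
    rw [Finsupp.smul_apply, smul_eq_mul, hD w, hD₀ w]
  have hdegD : Divisor.degree D = 0 := by
    have h1 : (m : ℤ) * Divisor.degree D = 0 := by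
      rw [← smul_eq_mul, ← map_zsmul, hmD, hdeg]
    rcases mul_eq_zero.mp h1 with h2 | h2
    · exact absurd h2 (by exact_mod_cast hm.ne')
    · exact h2
  exact ⟨Pic0.mk ⟨D, hdegD⟩, ⟨D, hdegD⟩, h, g, rfl, hh0, hD, hg, hgfin, hpow, hmult⟩

end Abstract

/-! ## The leaves and the final statement -/

/-- **[G-ROOT] / Theorem A for `Γ₁(M)`**: the `q`-expansion of a `Γ₁(M)`-invariant holomorphic
function on `ℍ` with at most exponential growth at all cusps lies in `F1Cx M`. -/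
def FullQ1Statement (M : ℕ) : Prop := FullQStatement (Gamma1 M) (F1Cx M)

/-- **[G-T1] for `Γ₁(M)`**: let `h ∈ F1Cx M`, `h ≠ 0`, and let `u` be meromorphic on `ℍ`, of
finite order everywhere, such that `u ^ m` is the function of `h`, `u` is invariant under all
elements `γ` of `±Γ₁(M)` with `trace² ≤ 4`, and every translate `u ∘ g` is an analytic function
of `q_W` at `q_W = 0` for every multiple `W > 0` of `M`.  Then `m ∣ ord_w h` at all places `w`
of `F1Cx M`. -/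
def RootOrd1Statement (M : ℕ) : Prop :=
  ∀ (m : ℕ), 0 < m → ∀ (h : F1Cx M), h ≠ 0 → ∀ (u : ℂ → ℂ),
    MeromorphicOn u {z : ℂ | 0 < z.im} → FinOrd u →
    IsEv (h : LaurentSeries ℂ) (fun z => u z ^ m) →
    (∀ γ : SL(2, ℤ), (γ ∈ Gamma1 M ∨ -γ ∈ Gamma1 M) →
      (γ : Matrix (Fin 2) (Fin 2) ℤ).trace ^ 2 ≤ 4 →
      ∀ τ : ℍ, u ((γ • τ : ℍ) : ℂ) = u (τ : ℂ)) →
    (∀ (W : ℕ), 0 < W → M ∣ W → ∀ g : SL(2, ℤ), ∃ U : ℂ → ℂ, AnalyticAt ℂ U 0 ∧
      ∀ τ : ℍ, U (Function.Periodic.qParam W (τ : ℂ)) = u ((g • τ : ℍ) : ℂ)) →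
    ∀ w : Place ℂ (F1Cx M), (m : ℤ) ∣ w.ord h

theorem T_mem_Gamma1 (M : ℕ) : ModularGroup.T ∈ Gamma1 M := by
  rw [Gamma1_mem]
  simp [ModularGroup.T]

theorem trace_neg_sq (γ : SL(2, ℤ)) :
    ((-γ : SL(2, ℤ)) : Matrix (Fin 2) (Fin 2) ℤ).trace ^ 2
      = (γ : Matrix (Fin 2) (Fin 2) ℤ).trace ^ 2 := by
  rw [Matrix.SpecialLinearGroup.coe_neg, Matrix.trace_neg]
  ring

/-- **[SURJ1]** from Theorem A, T1 and the existence of principal divisors. -/
theorem surjChar1_of (M : ℕ) [NeZero M] (hM : 4 ≤ M) (𝒟 : AnDict (F1Cx M) (Gamma1 M))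
    (hstd : IsStdDict M 𝒟) (hPD : HasPrincipalDivisors ℂ (F1Cx M))
    (hA : FullQ1Statement M) (hT1 : RootOrd1Statement M) :
    SurjChar1Statement M 𝒟 := by
  intro m hm ψ hpow hψ
  have hpar : IsParabolicChar1 ψ := fun γ hγ => hψ γ hγ
  have hu : IsUnitaryChar1 ψ := isUnitaryChar1_of_pow_eq_one ψ hm.ne' hpow
  obtain ⟨h, hh0, hev⟩ := exists_isEv_twistedU1_pow hA (T_mem_Gamma1 M) hpar hm.ne' hpow
  have hpowE : EqH (fun z => (↑ₕ(twistedU1 ψ)) z ^ m) (𝒟.ev h) :=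
    fun z hz => hev.unique (hstd h) hz
  have hpt : ∀ (γ : Gamma1 M) (z : ℍ),
      (↑ₕ(twistedU1 ψ)) ((((γ : SL(2, ℤ)) • z : ℍ) : ℍ) : ℂ)
        = ((ψ γ : ℂˣ) : ℂ) * (↑ₕ(twistedU1 ψ)) (z : ℂ) := fun γ z => by
    show twistedU1 ψ (ofComplex (((γ : SL(2, ℤ)) • z : ℍ) : ℂ))
      = _ * twistedU1 ψ (ofComplex (z : ℂ))
    rw [ofComplex_apply, ofComplex_apply, twistedU1_smul hpar]
  have hmult : HasMultH (↑ₕ(twistedU1 ψ)) ψ := HasMultH.of_pointwise hpt
  have hfin : FinOrd (↑ₕ(twistedU1 ψ)) :=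
    fun z hz => meromorphicOrderAt_twistedU1_ne_top hpar hu hz
  have hdvd : ∀ w : Place ℂ (F1Cx M), (m : ℤ) ∣ w.ord h := by
    refine hT1 m hm h hh0 (↑ₕ(twistedU1 ψ)) (meromorphicOn_twistedU1 hu) hfin hev ?_ ?_
    · rintro γ (hγ | hγ) htr τ
      · have := hpt ⟨γ, hγ⟩ τ
        rw [psi_eq_one_of_trace_sq_le hM hψ ⟨γ, hγ⟩ htr] at this
        simpa using this
      · have htr' : ((-γ : SL(2, ℤ)) : Matrix (Fin 2) (Fin 2) ℤ).trace ^ 2 ≤ 4 := by
          rw [trace_neg_sq]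
          exact htr
        have := hpt ⟨-γ, hγ⟩ τ
        rw [psi_eq_one_of_trace_sq_le hM hψ ⟨-γ, hγ⟩ htr'] at this
        have e : (-γ) • τ = γ • τ := ModularGroup.SL_neg_smul γ τ
        simp only [e] at this
        simpa using this
    · intro W hW hMW g
      obtain ⟨U, hU, hUf⟩ := exists_cuspGerm_twistedU1 hW
        ((Gamma_le_of_dvd hMW).trans (Gamma_le_Gamma1 M)) hpar hu g
      refine ⟨U, hU, fun τ => ?_⟩
      rw [hUf τ]
      show _ = twistedU1 ψ (ofComplex ((g • τ : ℍ) : ℂ))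
      rw [ofComplex_apply]
  exact exists_isMonData_of_root1 𝒟 hPD hm h hh0 hdvd (↑ₕ(twistedU1 ψ))
    (meromorphicOn_twistedU1 hu) hfin hpowE ψ hmult

end Fermat.Agent.T4.helper54
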