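import Fermat.Agent.T4.helper54_Surj1
import Fermat.Agent.T4.helper80_GenRootOrd
import Fermat.Agent.T4.helper80_GenEv
import Fermat.Agent.T4.helper24_X1Sys
import Fermat.Agent.T4.helper56_X1Field

/-!
# T4 block (I), sub-block I-AN, leaf [SURJ1] (helper54): discharge of the inputs

The three inputs of `surjChar1_of` (`helper54_Surj1`), from the generic analytic dictionary of
helper80 (`Gen.mem_of_isQExp` = Theorem A, `Gen.dvd_ord_core` + `Gen.dict_interior` +
`Gen.dict_cusp` = T1, `Gen.hasPrincipalDivisors`) applied to the family of the generator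
system `x1Data M` of `X₁(M)` (helper24):

* `famOfSys D hD : Gen.Fam D.I` for a generator system `D` (`hD : D.IsSys`), with field
  `D.field ℂ`, stabiliser `D.Γ` (`famOfSys_stab`), exponential growth, finite index;
* `fullQ_of_sys` (Theorem A), `dvd_ord_of_inv` (T1 in the invariance form, for any `Gen.Fam`),
  `rootOrd_of_sys`, `hasPrincipalDivisors_of_sys`;
* `fullQ1_of_sys`, `rootOrd1_of_sys`, `hasPrincipalDivisors_F1Cx_of_sys` : the three inputs for
  `F1Cx M` and `Γ₁(M)`;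
* `surjChar1_of_sys` : `(x1Data M).IsSys → ∀ 𝒟, IsStdDict M 𝒟 → SurjChar1Statement M 𝒟`
  (`4 ≤ M`).
-/

set_option autoImplicit false

noncomputable section

open UpperHalfPlane ModularForm CongruenceSubgroup Filter Topology AlgebraicCurve ModularCurve
  IntermediateField WithZero
open scoped MatrixGroups Manifold

namespace Fermat.Agent.T4.helper54

open Fermat.Agent.S24 Fermat.Agent.S24.helper17 Fermat.Agent.S24.helper24
  Fermat.Agent.S24.helper99
open Fermat.Agent.P3.helper20 Fermat.Agent.P3.helper34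
open Fermat.Agent.T4.helper80.Gen
open Fermat.Agent.T4.helper24 (GenData x1Data PG1 mem_PG1_iff Gamma_le_PG1)

/-! ## Generalities -/

/-- A function of `h ∈ A.F` in the sense of `helper34.IsEv` represents `h`. -/
theorem represents_of_isEv1 {ι : Type*} (A : Fam ι) {h : A.F} {f : ℂ → ℂ}
    (H : IsEv (h : LaurentSeries ℂ) f) : Represents A h f :=
  (represents_iff_eventuallyEq_evC A).mpr fun τ₀ => H.unique (isEv_evC A h) τ₀.im_pos

/-- Pointwise invariance under `γ` on the upper half plane gives invariance in the sense of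
`EqH`. -/
theorem eqH_of_pointwise_inv {u : ℂ → ℂ} {γ : SL(2, ℤ)}
    (h : ∀ τ : ℍ, u ((γ • τ : ℍ) : ℂ) = u (τ : ℂ)) : EqH (fun z => u (moebC γ z)) u := by
  intro z hz
  filter_upwards [mem_nhdsWithin_of_mem_nhds
    (UpperHalfPlane.isOpen_upperHalfPlaneSet.mem_nhds hz)] with w hw
  have := h ⟨w, hw⟩
  rw [← moebC_coe] at this
  exact this

/-! ## T1 in the invariance form -/

/-- **T1**, invariance form.  Let `h ∈ A.F`, `h ≠ 0`, be represented by `u ^ m`, where `u` is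
meromorphic on the upper half plane, invariant under the elements `γ` of the stabiliser with
`trace² ≤ 4`, and such that every translate `u ∘ g` is meromorphic at `i∞` in the parameter
`q_h`, `h = D.h`.  Then `m ∣ ord_w h` for all places `w` of `A.F`. -/
theorem dvd_ord_of_inv {ι : Type*} {A : Fam ι} (hD : A.HasDegree) (D : CuspData A)
    {h : A.F} (hh0 : h ≠ 0) {m : ℕ} (hm : 0 < m) {u : ℂ → ℂ}
    (hu : MeromorphicOn u {z : ℂ | 0 < z.im})
    (hrep : Represents A h (fun z => u z ^ m))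
    (hinv : ∀ γ ∈ A.stab, (γ : Matrix (Fin 2) (Fin 2) ℤ).trace ^ 2 ≤ 4 →
      EqH (fun z => u (moebC γ z)) u)
    (hcusp : ∀ g : SL(2, ℤ), ∃ U : ℂ → ℂ, MeromorphicAt U 0 ∧
      ∀ᶠ τ : ℍ in atImInfty,
        U (Function.Periodic.qParam (D.h : ℝ) (τ : ℂ)) = u ((g • τ : ℍ) : ℂ))
    (w : Place ℂ A.F) : (m : ℤ) ∣ w.ord h := by
  by_cases hw : 0 ≤ w.ord A.xJ
  · -- interior points
    obtain ⟨τ₀, g, hh, d, hd, hmem, -, hrot, hdict⟩ := dict_interior A hD w hw
    have hmem' : g⁻¹ * hh⁻¹ * g ∈ A.stab := by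
      have := inv_mem hmem
      have e : (g⁻¹ * hh * g)⁻¹ = g⁻¹ * hh⁻¹ * g := by group
      rwa [e] at this
    have hgz : (0 : ℝ) < (moebC g⁻¹ (τ₀ : ℂ)).im := moebC_im_pos g⁻¹ τ₀.im_pos
    have hW : MeromorphicAt (fun z => u (moebC g⁻¹ z)) (τ₀ : ℂ) :=
      (hu _ hgz).comp_analyticAt (analyticAt_moebC g⁻¹ τ₀.im_pos)
    refine dvd_ord_core (interiorChart A τ₀) g w d hd hdict (fun hd1 => ?_) hh0 hm hrep
      (W := fun z => u (moebC g⁻¹ z)) hW ?_
    · obtain ⟨hfix, hprim⟩ := hrot hd1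
      refine ⟨hh, helper48.chartSL hh⁻¹, isRot_interior A τ₀ hh hfix, hprim, ?_⟩
      have hfix' : (g⁻¹ * hh⁻¹ * g) • (g⁻¹ • τ₀) = g⁻¹ • τ₀ := by
        rw [← mul_smul, mul_assoc, mul_inv_cancel, mul_one, mul_smul, hfix]
      exact hinv _ hmem' (Fermat.Agent.P3.helper80.trace_sq_le_four_of_smul_eq _ _ hfix')
    · refine Eventually.of_forall fun q τ hτ => ?_
      have e : (τ : ℂ) = q := hτ
      rw [← e, moebC_coe]
  · -- cusps
    obtain ⟨g, d, hd, hdN, hmem, hdict⟩ := dict_cusp hD D w (not_le.mp hw)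
    obtain ⟨U, hU, hUu⟩ := hcusp g⁻¹
    have hmem' : g⁻¹ * (ModularGroup.T ^ (D.h / d))⁻¹ * g ∈ A.stab := by
      have := inv_mem hmem
      have e : (g⁻¹ * ModularGroup.T ^ (D.h / d) * g)⁻¹
          = g⁻¹ * (ModularGroup.T ^ (D.h / d))⁻¹ * g := by group
      rwa [e] at this
    have hUu' : ∀ᶠ q in 𝓝[≠] (cuspChart D).z₀, ∀ τ : ℍ, (cuspChart D).u τ = q →
        U q = u ((g⁻¹ • τ : ℍ) : ℂ) := by
      filter_upwards [eventually_cusp_of_atImInfty D.hpos hUu] with q hq τ hτ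
      have := hq τ hτ
      rwa [hτ] at this
    refine dvd_ord_core (cuspChart D) g w d hd hdict (fun hd1 => ?_) hh0 hm hrep
      (W := U) hU hUu'
    have : NeZero D.h := ⟨D.hpos.ne'⟩
    refine ⟨ModularGroup.T ^ (D.h / d), fun q => rotC D.h (D.h / d) * q, isRot_cusp D (D.h / d),
      isPrimitiveRoot_rotC D.h d hdN hd1, ?_⟩
    have htr : (((g⁻¹ * (ModularGroup.T ^ (D.h / d))⁻¹ * g : SL(2, ℤ)) :
        Matrix (Fin 2) (Fin 2) ℤ)).trace = 2 := by
      have h1 : g⁻¹ * (ModularGroup.T ^ (D.h / d))⁻¹ * g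
          = g⁻¹ * ModularGroup.T ^ (-((D.h / d : ℕ) : ℤ)) * g⁻¹⁻¹ := by
        rw [inv_inv, zpow_neg, zpow_natCast]
      rw [h1]
      exact trace_conj_T_zpow _ g⁻¹
    refine hinv _ hmem' ?_
    rw [htr]
    norm_num

/-! ## The family of a generator system -/

section Sys

variable (D : GenData)

/-- The family (in the sense of helper80) of a generator system (in the sense of helper24). -/
def famOfSys (hD : D.IsSys) : Fam D.I where
  x := D.ser ℂ
  X := D.fn
  S := D.field ℂ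
  hS := Fermat.Agent.T4.helper77.laurentBaseChange_adjoin_range ℂ D.serQ
  hq := hD.isQExp
  i₀ := D.j0
  hj := hD.fn_j0

@[simp] theorem famOfSys_S (hD : D.IsSys) : (famOfSys D hD).S = D.field ℂ := rfl

theorem famOfSys_stab (hD : D.IsSys) : (famOfSys D hD).stab = D.Γ := by
  ext g
  constructor
  · intro hg
    exact hD.stab g fun i τ => hg i τ
  · intro hg i τ
    exact hD.inv i g hg τ

theorem famOfSys_expGrowth (hD : D.IsSys) : (famOfSys D hD).ExpGrowth := hD.growth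

theorem famOfSys_finiteIndex (hD : D.IsSys) : (famOfSys D hD).stab.FiniteIndex := by
  obtain ⟨W, hW, hle⟩ := hD.level
  exact finiteIndex_of_Gamma_le _ hW (by rw [famOfSys_stab]; exact hle)

theorem famOfSys_hasDegree (hD : D.IsSys) : (famOfSys D hD).HasDegree :=
  have := famOfSys_finiteIndex D hD
  hasDegree_of_expGrowth _ (famOfSys_expGrowth D hD)

/-- **Theorem A** for a generator system. -/
theorem fullQ_of_sys (hD : D.IsSys) : FullQStatement D.Γ (D.field ℂ) := by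
  intro s S hS hinv hmem
  refine mem_of_isQExp (famOfSys D hD) (famOfSys_hasDegree D hD) (famOfSys_expGrowth D hD) hS
    (fun γ hγ τ => ?_) hmem
  rw [famOfSys_stab] at hγ
  have := congrFun (hinv γ⁻¹ (inv_mem hγ)) τ
  rwa [S24.helper77.precomp_apply, inv_inv] at this

/-- **Principal divisors** for a generator system. -/
theorem hasPrincipalDivisors_of_sys (hD : D.IsSys) : HasPrincipalDivisors ℂ (D.field ℂ) :=
  have := (famOfSys_hasDegree D hD).fd
  hasPrincipalDivisors (famOfSys D hD)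

/-- **T1** for a generator system, in the invariance form, with germs at one width `W` such
that `Γ(W) ≤ D.Γ`. -/
theorem rootOrd_of_sys (hD : D.IsSys) {W : ℕ} (hW : 0 < W) (hΓW : Gamma W ≤ D.Γ)
    {m : ℕ} (hm : 0 < m) {h : D.field ℂ} (hh0 : h ≠ 0) {u : ℂ → ℂ}
    (hu : MeromorphicOn u {z : ℂ | 0 < z.im})
    (hev : IsEv (h : LaurentSeries ℂ) (fun z => u z ^ m))
    (hinv : ∀ γ ∈ D.Γ, (γ : Matrix (Fin 2) (Fin 2) ℤ).trace ^ 2 ≤ 4 →
      ∀ τ : ℍ, u ((γ • τ : ℍ) : ℂ) = u (τ : ℂ))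
    (hcusp : ∀ g : SL(2, ℤ), ∃ U : ℂ → ℂ, AnalyticAt ℂ U 0 ∧
      ∀ τ : ℍ, U (Function.Periodic.qParam W (τ : ℂ)) = u ((g • τ : ℍ) : ℂ))
    (w : Place ℂ (D.field ℂ)) : (m : ℤ) ∣ w.ord h := by
  have := famOfSys_finiteIndex D hD
  have hW' : Gamma W ≤ (famOfSys D hD).stab := by
    rw [famOfSys_stab]
    exact hΓW
  refine dvd_ord_of_inv (A := famOfSys D hD) (famOfSys_hasDegree D hD)
    (cuspDataOfWidth (famOfSys D hD) (famOfSys_expGrowth D hD) W hW
      (T_pow_smul_of_Gamma_le _ hW'))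
    (h := h) hh0 hm hu (represents_of_isEv1 (famOfSys D hD) hev) (fun γ hγ htr => ?_)
    (fun g => ?_) w
  · rw [famOfSys_stab] at hγ
    exact eqH_of_pointwise_inv (hinv γ hγ htr)
  · obtain ⟨U, hU, hUf⟩ := hcusp g
    exact ⟨U, hU.meromorphicAt, Eventually.of_forall fun τ => hUf τ⟩

end Sys

/-! ## The inputs for `X₁(M)` -/

section X1

/-- Invariance under `Γ₁(M)` is invariance under `±Γ₁(M)`. -/
theorem precomp_eq_of_mem_PG1 (M : ℕ) {s : ℍ → ℂ}
    (hinv : ∀ γ ∈ Gamma1 M, S24.helper77.precomp γ s = s) {γ : SL(2, ℤ)} (hγ : γ ∈ PG1 M) :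
    S24.helper77.precomp γ s = s := by
  rcases (mem_PG1_iff M γ).1 hγ with h1 | h1
  · exact hinv γ h1
  · have h2 := hinv (-γ) h1
    funext τ
    have h3 := congrFun h2 τ
    rw [S24.helper77.precomp_apply] at h3 ⊢
    have e : (-γ)⁻¹ • τ = γ⁻¹ • τ := by
      have : (-γ)⁻¹ = -γ⁻¹ := by
        rw [inv_eq_iff_eq_inv, inv_neg, inv_inv]
      rw [this, ModularGroup.SL_neg_smul]
    rwa [e] at h3

variable (M : ℕ) [NeZero M]

/-- **Theorem A for `Γ₁(M)`** from the generator system of `X₁(M)`. -/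
theorem fullQ1_of_sys (hsys : (x1Data M).IsSys) : FullQ1Statement M := by
  have key : ∀ E : IntermediateField ℂ (LaurentSeries ℂ), E = (x1Data M).field ℂ →
      FullQStatement (Gamma1 M) E := by
    rintro E rfl s S hS hinv hmem
    exact fullQ_of_sys (x1Data M) hsys s S hS
      (fun γ hγ => precomp_eq_of_mem_PG1 M hinv hγ) hmem
  exact key _ (Fermat.Agent.T4.helper56.f1Cx_eq M)

/-- **Principal divisors of `F1Cx M`** from the generator system of `X₁(M)`. -/
theorem hasPrincipalDivisors_F1Cx_of_sys (hsys : (x1Data M).IsSys) :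
    HasPrincipalDivisors ℂ (Fermat.Agent.T4.helper21.F1Cx M) := by
  have key : ∀ E : IntermediateField ℂ (LaurentSeries ℂ), E = (x1Data M).field ℂ →
      HasPrincipalDivisors ℂ E := by
    rintro E rfl
    exact hasPrincipalDivisors_of_sys (x1Data M) hsys
  exact key _ (Fermat.Agent.T4.helper56.f1Cx_eq M)

/-- **T1 for `Γ₁(M)`** from the generator system of `X₁(M)`. -/
theorem rootOrd1_of_sys (hsys : (x1Data M).IsSys) : RootOrd1Statement M := by
  have key : ∀ E : IntermediateField ℂ (LaurentSeries ℂ), E = (x1Data M).field ℂ →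
      ∀ (m : ℕ), 0 < m → ∀ (h : E), h ≠ 0 → ∀ (u : ℂ → ℂ),
      MeromorphicOn u {z : ℂ | 0 < z.im} → FinOrd u →
      IsEv (h : LaurentSeries ℂ) (fun z => u z ^ m) →
      (∀ γ : SL(2, ℤ), (γ ∈ Gamma1 M ∨ -γ ∈ Gamma1 M) →
        (γ : Matrix (Fin 2) (Fin 2) ℤ).trace ^ 2 ≤ 4 →
        ∀ τ : ℍ, u ((γ • τ : ℍ) : ℂ) = u (τ : ℂ)) →
      (∀ (W : ℕ), 0 < W → M ∣ W → ∀ g : SL(2, ℤ), ∃ U : ℂ → ℂ, AnalyticAt ℂ U 0 ∧
        ∀ τ : ℍ, U (Function.Periodic.qParam W (τ : ℂ)) = u ((g • τ : ℍ) : ℂ)) →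
      ∀ w : Place ℂ E, (m : ℤ) ∣ w.ord h := by
    rintro E rfl m hm h hh0 u hu - hev hinv hcusp w
    exact rootOrd_of_sys (x1Data M) hsys (Nat.pos_of_ne_zero (NeZero.ne M)) (Gamma_le_PG1 M)
      hm hh0 hu hev (fun γ hγ htr => hinv γ ((mem_PG1_iff M γ).1 hγ) htr)
      (hcusp M (Nat.pos_of_ne_zero (NeZero.ne M)) dvd_rfl) w
  exact key _ (Fermat.Agent.T4.helper56.f1Cx_eq M)

/-- **[SURJ1]** for every standard analytic dictionary of `F1Cx M`, from the generator system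
of `X₁(M)`. -/
theorem surjChar1_of_sys (hM : 4 ≤ M) (hsys : (x1Data M).IsSys)
    (𝒟 : AnDict (Fermat.Agent.T4.helper21.F1Cx M) (Gamma1 M))
    (hstd : Fermat.Agent.T4.helper21.IsStdDict M 𝒟) :
    Fermat.Agent.T4.helper21.SurjChar1Statement M 𝒟 :=
  surjChar1_of M hM 𝒟 hstd (hasPrincipalDivisors_F1Cx_of_sys M hsys) (fullQ1_of_sys M hsys)
    (rootOrd1_of_sys M hsys)

end X1

end Fermat.Agent.T4.helper54
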