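import Mathlib
import Fermat.Agent.T4.helper54_LatticeCount

/-!
# T4 / [T4-CHEB-LATTICE] (helper54), part 6: general lattices and homogeneous cones

The error-term analogues of Mathlib's `ZLattice.covolume.tendsto_card_div_pow''`,
`tendsto_card_div_pow'`, `tendsto_card_le_div'` (file `Mathlib.Algebra.Module.ZLattice.Covolume`),
for COSETS `a + L` of a `ℤ`-lattice `L`, uniformly in `a`.  Hypothesis replacing
`volume (frontier s) = 0`: the frontier of `s` is covered by finitely many Lipschitz images of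
the unit cube `[0,1]^κ`.

* `zlattice_count''` : normed space, basis `b` of `L`, main term `vol (b.equivFun '' s) t^(#ι)`;
* `zlattice_count'`  : inner product space, main term `vol s / covolume L * t ^ finrank`;
* `card_le_sub_le'`  : sublevel sets `{x ∈ X | F x ≤ c}` of a homogeneous `F` on a cone `X`:
  main term `vol {F ≤ 1} / covolume L * c`, error `O(c ^ (#κ / n))`.
-/

set_option autoImplicit false

open MeasureTheory Set Module Bornology
open scoped ENNReal NNReal Pointwise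

namespace Fermat.Agent.T4.helper54

section General

variable {E : Type*} [NormedAddCommGroup E] [NormedSpace ℝ E] [FiniteDimensional ℝ E]
variable {L : Submodule ℤ E} [DiscreteTopology L] [IsZLattice ℝ L]
variable {ι : Type*} [Fintype ι] (b : Basis ι ℤ L)

/-- the lattice points of the coset `a + L` in `S` correspond to the integer vectors `z` with
`e a + z ∈ e '' S`, `e` the coordinate map of a basis of `L`. -/
theorem latPts_image_eq (a : E) (S : Set E) :
    (fun z : ι → ℤ => (b.ofZLatticeBasis ℝ L).equivFun.symm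
        (fun i => (b.ofZLatticeBasis ℝ L).equivFun a i + z i)) ''
      latPts ((b.ofZLatticeBasis ℝ L).equivFun a) ((b.ofZLatticeBasis ℝ L).equivFun '' S)
      = S ∩ (a +ᵥ (L : Set E)) := by
  set e := (b.ofZLatticeBasis ℝ L).equivFun with he
  ext x
  constructor
  · rintro ⟨z, hz, rfl⟩
    obtain ⟨y, hy, hyz⟩ := hz
    have h1 : e.symm (fun i => e a i + z i) = y := by
      rw [← hyz, LinearEquiv.symm_apply_apply]
    refine ⟨by show e.symm (fun i => e a i + z i) ∈ S; rw [h1]; exact hy, ?_⟩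
    show e.symm (fun i => e a i + z i) ∈ a +ᵥ (L : Set E)
    rw [Set.mem_vadd_set]
    refine ⟨e.symm (fun i => (z i : ℝ)), ?_, ?_⟩
    · rw [SetLike.mem_coe, ← b.ofZLatticeBasis_span ℝ, Basis.mem_span_iff_repr_mem]
      intro i
      refine ⟨z i, ?_⟩
      have : (b.ofZLatticeBasis ℝ L).repr (e.symm fun i => (z i : ℝ)) i =
          e (e.symm fun i => (z i : ℝ)) i := rfl
      rw [this, LinearEquiv.apply_symm_apply]
      simp
    · rw [vadd_eq_add, ← e.symm_apply_apply a, ← map_add]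
      congr 1
      funext i
      simp
  · rintro ⟨hxS, hxL⟩
    rw [Set.mem_vadd_set] at hxL
    obtain ⟨l, hl, rfl⟩ := hxL
    refine ⟨fun i => b.repr ⟨l, hl⟩ i, ?_, ?_⟩
    · refine ⟨a +ᵥ l, hxS, ?_⟩
      funext i
      rw [vadd_eq_add, map_add]
      simp only [Pi.add_apply, add_right_inj]
      exact b.ofZLatticeBasis_repr_apply ℝ L ⟨l, hl⟩ i
    · simp only
      rw [vadd_eq_add]
      apply e.injective
      rw [LinearEquiv.apply_symm_apply, map_add]
      funext i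
      simp only [Pi.add_apply, add_right_inj]
      exact (b.ofZLatticeBasis_repr_apply ℝ L ⟨l, hl⟩ i).symm

theorem injective_latPts_map (a : E) :
    Function.Injective (fun z : ι → ℤ => (b.ofZLatticeBasis ℝ L).equivFun.symm
        (fun i => (b.ofZLatticeBasis ℝ L).equivFun a i + z i)) := by
  intro z z' h
  have := (b.ofZLatticeBasis ℝ L).equivFun.symm.injective h
  funext i
  have h2 := congrFun this i
  simp only [add_right_inj] at h2
  exact_mod_cast h2

variable [MeasurableSpace E] [BorelSpace E] {κ : Type*} [Fintype κ]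

/-- **lattice points with error term, general lattice**: for a lattice `L` with `ℤ`-basis `b`
in a finite dimensional real normed space, a bounded measurable set `s` whose frontier is
covered by finitely many Lipschitz images of `[0,1]^κ`, the number of points of the coset
`a + L` in `t • s` is `vol(e '' s) t^(#ι) + O(t^(#κ))`, uniformly in `a` (`e` = coordinates
with respect to `b`). -/
theorem zlattice_count'' {s : Set E} (hs₁ : IsBounded s) (hs₂ : MeasurableSet s) {m : ℕ}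
    {φ : Fin m → (κ → ℝ) → E} {Lip : ℝ≥0}
    (hφ : ∀ j, LipschitzOnWith Lip (φ j) (Set.Icc 0 1))
    (hcov : frontier s ⊆ ⋃ j, φ j '' Set.Icc (0 : κ → ℝ) 1) :
    ∃ C : ℝ, 0 ≤ C ∧ ∀ (a : E) (t : ℝ), 1 ≤ t →
      ((t • s) ∩ (a +ᵥ (L : Set E))).Finite ∧
      |(Nat.card ((t • s) ∩ (a +ᵥ (L : Set E)) : Set E) : ℝ) -
          volume.real ((b.ofZLatticeBasis ℝ L).equivFun '' s) * t ^ Fintype.card ι| ≤
        C * t ^ Fintype.card κ := by
  set e := (b.ofZLatticeBasis ℝ L).equivFunL with he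
  have hecoe : ∀ x, e x = (b.ofZLatticeBasis ℝ L).equivFun x := fun _ => rfl
  have himg : ∀ S : Set E, e '' S = (b.ofZLatticeBasis ℝ L).equivFun '' S := fun _ => rfl
  have hD'm : MeasurableSet (e '' s) :=
    e.toHomeomorph.toMeasurableEquiv.measurableSet_image.mpr hs₂
  have hD'b : IsBounded (e '' s) := by
    rw [← NormedSpace.isVonNBounded_iff ℝ] at hs₁ ⊢
    exact Bornology.IsVonNBounded.image hs₁ (e : E →L[ℝ] ι → ℝ)
  have hφ' : ∀ j, LipschitzOnWith (‖(e : E →L[ℝ] ι → ℝ)‖₊ * Lip) (fun u => e (φ j u))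
      (Set.Icc 0 1) := fun j =>
    (e : E →L[ℝ] ι → ℝ).lipschitz.comp_lipschitzOnWith (hφ j)
  have hcov' : frontier (e '' s) ⊆ ⋃ j, (fun u => e (φ j u)) '' Set.Icc (0 : κ → ℝ) 1 := by
    have h1 : frontier (e '' s) = e '' frontier s := (e.toHomeomorph.image_frontier s).symm
    rw [h1]
    rintro _ ⟨x, hx, rfl⟩
    obtain ⟨j, hj⟩ := Set.mem_iUnion.1 (hcov hx)
    obtain ⟨u, hu, rfl⟩ := hj
    exact Set.mem_iUnion.2 ⟨j, u, hu, rfl⟩
  obtain ⟨C, hC, hmain⟩ := lattice_count_exists hD'm hD'b hφ' hcov'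
  refine ⟨C, hC, fun a t ht => ?_⟩
  obtain ⟨hfin, hbound⟩ := hmain (e a) t ht
  have hsm : t • (e '' s) = (b.ofZLatticeBasis ℝ L).equivFun '' (t • s) := by
    rw [← himg, image_smul_set]
  rw [hsm] at hfin hbound
  have hset := latPts_image_eq b a (t • s)
  have hinj := injective_latPts_map b a
  have hcard : Nat.card ((t • s) ∩ (a +ᵥ (L : Set E)) : Set E) =
      (latPts ((b.ofZLatticeBasis ℝ L).equivFun a)
        ((b.ofZLatticeBasis ℝ L).equivFun '' (t • s))).ncard := by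
    rw [Nat.card_coe_set_eq, ← hset, Set.ncard_image_of_injective _ hinj]
  refine ⟨?_, ?_⟩
  · rw [← hset]
    exact hfin.image _
  · rw [hcard]
    exact hbound

end General

section InnerProductSpace

open ZLattice

variable {E : Type*} [NormedAddCommGroup E] [InnerProductSpace ℝ E] [FiniteDimensional ℝ E]
  [MeasurableSpace E] [BorelSpace E]
variable (L : Submodule ℤ E) [DiscreteTopology L] [IsZLattice ℝ L]
variable {κ : Type*} [Fintype κ]

/-- **lattice points with error term, inner product space form**: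
`#((a + L) ∩ t • s) = vol(s) / covol(L) * t ^ n + O(t ^ #κ)`, uniformly in the coset. -/
theorem zlattice_count' {s : Set E} (hs₁ : IsBounded s) (hs₂ : MeasurableSet s) {m : ℕ}
    {φ : Fin m → (κ → ℝ) → E} {Lip : ℝ≥0}
    (hφ : ∀ j, LipschitzOnWith Lip (φ j) (Set.Icc 0 1))
    (hcov : frontier s ⊆ ⋃ j, φ j '' Set.Icc (0 : κ → ℝ) 1) :
    ∃ C : ℝ, 0 ≤ C ∧ ∀ (a : E) (t : ℝ), 1 ≤ t →
      ((t • s) ∩ (a +ᵥ (L : Set E))).Finite ∧
      |(Nat.card ((t • s) ∩ (a +ᵥ (L : Set E)) : Set E) : ℝ) -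
          volume.real s / covolume L * t ^ finrank ℝ E| ≤ C * t ^ Fintype.card κ := by
  let b := Module.Free.chooseBasis ℤ L
  obtain ⟨C, hC, h⟩ := zlattice_count'' b hs₁ hs₂ hφ hcov
  refine ⟨C, hC, fun a t ht => ?_⟩
  obtain ⟨h1, h2⟩ := h a t ht
  refine ⟨h1, ?_⟩
  have e1 : volume.real ((b.ofZLatticeBasis ℝ L).equivFun '' s) = volume.real s / covolume L := by
    simp only [measureReal_def]
    rw [volume_image_eq_volume_div_covolume' L b hs₂.nullMeasurableSet, ENNReal.toReal_div,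
      ENNReal.toReal_ofReal (covolume_pos L volume).le]
  have e2 : Fintype.card (Module.Free.ChooseBasisIndex ℤ L) = finrank ℝ E := by
    rw [← finrank_eq_card_chooseBasisIndex, ZLattice.rank ℝ L]
  rw [e1, e2] at h2
  exact h2

omit [FiniteDimensional ℝ E] [MeasurableSpace E] [BorelSpace E] in
/-- scaling of the sublevel sets of a homogeneous function on a cone -/
theorem smul_sublevel_eq {X : Set E} (hX : ∀ ⦃x⦄ ⦃r : ℝ⦄, x ∈ X → 0 < r → r • x ∈ X)
    {F : E → ℝ} {n : ℕ} (hF₁ : ∀ x ⦃r : ℝ⦄, 0 ≤ r → F (r • x) = r ^ n * (F x)) {c : ℝ}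
    (hc : 0 < c) : c • {x ∈ X | F x ≤ 1} = {x ∈ X | F x ≤ c ^ n} := by
  ext x
  simp_rw [Set.mem_smul_set_iff_inv_smul_mem₀ hc.ne', Set.mem_ofPred_eq, hF₁ _
    (inv_pos_of_pos hc).le, inv_pow, inv_mul_le_iff₀ (pow_pos hc _), mul_one, and_congr_left_iff]
  exact fun _ ↦ ⟨fun h ↦ (smul_inv_smul₀ hc.ne' x) ▸ hX h hc, fun h ↦ hX h (inv_pos_of_pos hc)⟩

/-- **points of a lattice coset in the sublevel sets of a homogeneous function on a cone, with
error term** (the analogue with error term of Mathlib's `ZLattice.covolume.tendsto_card_le_div'`):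
`#({x ∈ X | F x ≤ c} ∩ (a + L)) = vol{F ≤ 1} / covol(L) * c + O(c ^ (#κ / n))`, `n = dim E`,
uniformly in the coset; with `#κ = n - 1` the error is `O(c ^ (1 - 1 / n))`. -/
theorem card_le_sub_le' [Nontrivial E] {X : Set E} {F : E → ℝ}
    (hX : ∀ ⦃x⦄ ⦃r : ℝ⦄, x ∈ X → 0 < r → r • x ∈ X)
    (h₁ : ∀ x ⦃r : ℝ⦄, 0 ≤ r → F (r • x) = r ^ finrank ℝ E * (F x))
    (h₂ : IsBounded {x ∈ X | F x ≤ 1}) (h₃ : MeasurableSet {x ∈ X | F x ≤ 1}) {m : ℕ}
    {φ : Fin m → (κ → ℝ) → E} {Lip : ℝ≥0}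
    (hφ : ∀ j, LipschitzOnWith Lip (φ j) (Set.Icc 0 1))
    (hcov : frontier {x ∈ X | F x ≤ 1} ⊆ ⋃ j, φ j '' Set.Icc (0 : κ → ℝ) 1) :
    ∃ C : ℝ, 0 ≤ C ∧ ∀ (a : E) (c : ℝ), 1 ≤ c →
      ({x ∈ X | F x ≤ c} ∩ (a +ᵥ (L : Set E))).Finite ∧
      |(Nat.card ({x ∈ X | F x ≤ c} ∩ (a +ᵥ (L : Set E)) : Set E) : ℝ) -
          volume.real {x ∈ X | F x ≤ 1} / covolume L * c| ≤
        C * c ^ ((Fintype.card κ : ℝ) / (finrank ℝ E : ℝ)) := by
  obtain ⟨C, hC, h⟩ := zlattice_count' L h₂ h₃ hφ hcov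
  refine ⟨C, hC, fun a c hc => ?_⟩
  have hn : (0 : ℝ) < (finrank ℝ E : ℝ) := by exact_mod_cast finrank_pos
  have hc0 : (0 : ℝ) < c := lt_of_lt_of_le one_pos hc
  set t : ℝ := c ^ ((finrank ℝ E : ℝ))⁻¹ with ht
  have ht0 : 0 < t := Real.rpow_pos_of_pos hc0 _
  have ht1 : 1 ≤ t := Real.one_le_rpow hc (inv_nonneg.2 hn.le)
  have htn : t ^ finrank ℝ E = c := by
    rw [ht, ← Real.rpow_natCast, ← Real.rpow_mul hc0.le, inv_mul_cancel₀ hn.ne', Real.rpow_one]
  have htk : t ^ Fintype.card κ = c ^ ((Fintype.card κ : ℝ) / (finrank ℝ E : ℝ)) := by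
    rw [ht, ← Real.rpow_natCast, ← Real.rpow_mul hc0.le, div_eq_inv_mul]
  have hset : t • {x ∈ X | F x ≤ 1} = {x ∈ X | F x ≤ c} := by
    rw [smul_sublevel_eq hX h₁ ht0, htn]
  obtain ⟨h1, h2⟩ := h a t ht1
  rw [hset, htn, htk] at h2
  rw [hset] at h1
  exact ⟨h1, h2⟩

end InnerProductSpace

end Fermat.Agent.T4.helper54
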