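import Mathlib
import Fermat.Agent.S24.helper77_SymmFun

/-!
# T4 (I) / [I-FLD-WP5] (helper55): inverses of periodic nowhere-zero functions have at most
exponential growth at `i∞`

Generic lemma (no leading-term analysis): let `f : ℍ → ℂ` be holomorphic, periodic with period
`h > 0`, of at most exponential growth at `i∞`, and not identically zero.  Then `1 / f` has at
most exponential growth at `i∞`.  Proof: the cusp function of `q^K f` is analytic at `0` and
not identically zero near `0`, hence of the form `q^n g(q)` with `g(0) ≠ 0`.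

Consequence: the algebra `holoExp` (S24, helper77) is stable under inversion of periodic
nowhere-zero elements.
-/

set_option autoImplicit false

noncomputable section

open Complex Filter Asymptotics UpperHalfPlane Function
open scoped Real Topology Manifold

namespace Fermat.Agent.T4.helper55

local notation "𝕢" => Periodic.qParam

/-- periodicity on `ℍ` in the `Function.Periodic` form used by Mathlib's cusp functions -/
theorem periodic_comp_ofComplex_of_vadd {f : ℍ → ℂ} {h : ℝ}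
    (hper : ∀ τ : ℍ, f (h +ᵥ τ) = f τ) : Periodic (f ∘ ofComplex) h := by
  intro w
  by_cases hw : 0 < im w
  · have hw' : 0 < im (w + h) := by simpa using hw
    simp only [comp_apply, ofComplex_apply_of_im_pos hw', ofComplex_apply_of_im_pos hw]
    rw [← hper ⟨w, hw⟩]
    congr 1
    ext
    simp [add_comm]
  · have hw0 : im w ≤ 0 := not_lt.mp hw
    have hw' : im (w + h) ≤ 0 := by simpa using hw0
    simp only [comp_apply, ofComplex_apply_of_im_nonpos hw', ofComplex_apply_of_im_nonpos hw0]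

/-- the norm of the `q`-parameter on `ℍ` -/
theorem norm_qParam_coe (h : ℝ) (τ : ℍ) : ‖𝕢 h (τ : ℂ)‖ = Real.exp (-2 * π * τ.im / h) := by
  rw [Periodic.norm_qParam]
  rfl

/-- **Generic inverse growth, bounded case.** -/
theorem inv_isBigO_of_periodic_of_bounded {h : ℝ} (hh : 0 < h) {f : ℍ → ℂ}
    (hfper : Periodic (f ∘ ofComplex) h) (hfhol : MDiff f) (hfbdd : IsBoundedAtImInfty f)
    (hne : ∃ τ, f τ ≠ 0) :
    ∃ n : ℕ, (fun τ : ℍ => (f τ)⁻¹) =O[atImInfty]
      fun τ : ℍ => Real.exp (2 * π * n * τ.im / h) := by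
  set G := UpperHalfPlane.cuspFunction h f with hG
  have hGan : AnalyticAt ℂ G 0 := analyticAt_cuspFunction_zero hh hfper hfhol hfbdd
  have hGball : AnalyticOnNhd ℂ G (Metric.ball 0 1) :=
    (differentiableOn_cuspFunction_ball hh hfper hfhol hfbdd).analyticOnNhd Metric.isOpen_ball
  have hnz : ¬ ∀ᶠ q in 𝓝 (0 : ℂ), G q = 0 := by
    intro hz
    have hzero : Set.EqOn G 0 (Metric.ball 0 1) :=
      hGball.eqOn_zero_of_preconnected_of_eventuallyEq_zero
        (convex_ball (0 : ℂ) 1).isPreconnected (Metric.mem_ball_self one_pos) hz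
    obtain ⟨τ, hτ⟩ := hne
    apply hτ
    rw [← eq_cuspFunction τ hh.ne' hfper]
    apply hzero
    rw [mem_ball_zero_iff]
    exact Periodic.norm_qParam_lt_one hh τ.im_pos
  obtain ⟨n, g, hgan, hg0, hgeq⟩ := hGan.exists_eventuallyEq_pow_smul_nonzero_iff.mpr hnz
  refine ⟨n, ?_⟩
  have hgcont : ContinuousAt g 0 := hgan.continuousAt
  have hginv : ∀ᶠ q in 𝓝 (0 : ℂ), ‖(g q)⁻¹‖ ≤ ‖(g 0)⁻¹‖ + 1 := by
    have hc : ContinuousAt (fun q => ‖(g q)⁻¹‖) 0 := (hgcont.inv₀ hg0).norm
    exact hc.eventually_le_const (lt_add_one _) |>.mono fun q hq => hq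
  have hq0 := qParam_tendsto_atImInfty hh
  refine IsBigO.of_bound (‖(g 0)⁻¹‖ + 1) ?_
  filter_upwards [hq0.eventually hgeq, hq0.eventually hginv] with τ h1 h2
  have hfeq : f τ = (𝕢 h (τ : ℂ)) ^ n * g (𝕢 h (τ : ℂ)) := by
    rw [← eq_cuspFunction τ hh.ne' hfper]
    simpa [hG, smul_eq_mul] using h1
  rw [hfeq, mul_inv, norm_mul, norm_inv, norm_pow, norm_qParam_coe,
    Real.norm_of_nonneg (Real.exp_pos _).le, ← Real.exp_nat_mul, ← Real.exp_neg, mul_comm]
  have he : -(↑n * (-2 * π * τ.im / h)) = 2 * π * n * τ.im / h := by ring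
  rw [he]
  exact mul_le_mul_of_nonneg_right h2 (Real.exp_pos _).le

/-- **Generic inverse growth.**  A holomorphic function on `ℍ`, periodic with period `h ≥ 1`,
of at most exponential growth at `i∞` and not identically zero has an inverse of at most
exponential growth. -/
theorem inv_isBigO_of_periodic_of_isBigO_exp {h : ℕ} (hh : 0 < h) {f : ℍ → ℂ}
    (hfper : ∀ τ : ℍ, f ((h : ℝ) +ᵥ τ) = f τ) (hfhol : MDiff f) {K : ℕ}
    (hfbdd : f =O[atImInfty] fun τ : ℍ => Real.exp (2 * π * K * τ.im))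
    (hne : ∃ τ, f τ ≠ 0) :
    ∃ n : ℕ, (fun τ : ℍ => (f τ)⁻¹) =O[atImInfty]
      fun τ : ℍ => Real.exp (2 * π * n * τ.im) := by
  have hh' : (0 : ℝ) < h := by exact_mod_cast hh
  -- the bounded function `q^K f`
  set f₁ : ℍ → ℂ := fun τ => (𝕢 1 (τ : ℂ)) ^ K * f τ with hf₁
  have hqper : ∀ τ : ℍ, 𝕢 1 ((((h : ℝ) +ᵥ τ : ℍ)) : ℂ) = 𝕢 1 (τ : ℂ) := by
    intro τ
    simp only [Periodic.qParam, coe_vadd, ofReal_one, div_one, ofReal_natCast]
    rw [mul_add, Complex.exp_add]
    have : Complex.exp (2 * π * Complex.I * (h : ℂ)) = 1 := by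
      have := Complex.exp_nat_mul_two_pi_mul_I h
      rwa [show (h : ℂ) * (2 * π * Complex.I) = 2 * π * Complex.I * h by ring] at this
    rw [this, one_mul]
  have hper₁ : ∀ τ : ℍ, f₁ ((h : ℝ) +ᵥ τ) = f₁ τ := fun τ => by
    simp only [hf₁, hqper, hfper]
  have hqdiff : MDiff (fun τ : ℍ => 𝕢 1 (τ : ℂ)) := by
    intro τ
    rw [UpperHalfPlane.mdifferentiableAt_iff]
    have : DifferentiableAt ℂ (𝕢 1) (τ : ℂ) := (Periodic.differentiable_qParam (h := 1)) _
    refine this.congr_of_eventuallyEq ?_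
    filter_upwards [isOpen_upperHalfPlaneSet.mem_nhds τ.im_pos] with w hw
    simp only [comp_apply, ofComplex_apply_of_im_pos hw]
  have hhol₁ : MDiff f₁ := (hqdiff.pow K).mul hfhol
  have hbdd₁ : IsBoundedAtImInfty f₁ := by
    rw [IsBoundedAtImInfty, BoundedAtFilter]
    have hq : (fun τ : ℍ => (𝕢 1 (τ : ℂ)) ^ K) =O[atImInfty]
        fun τ : ℍ => Real.exp (-(2 * π * K * τ.im)) := by
      refine IsBigO.of_bound 1 (Eventually.of_forall fun τ => ?_)
      rw [norm_pow, norm_qParam_coe, ← Real.exp_nat_mul, one_mul,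
        Real.norm_of_nonneg (Real.exp_pos _).le]
      apply le_of_eq
      congr 1
      ring
    refine (hq.mul hfbdd).congr_right fun τ => ?_
    rw [← Real.exp_add, neg_add_cancel, Real.exp_zero]
    rfl
  have hne₁ : ∃ τ, f₁ τ ≠ 0 := by
    obtain ⟨τ, hτ⟩ := hne
    exact ⟨τ, mul_ne_zero (pow_ne_zero _ (Periodic.qParam_ne_zero _)) hτ⟩
  obtain ⟨n, hn⟩ := inv_isBigO_of_periodic_of_bounded hh'
    (periodic_comp_ofComplex_of_vadd hper₁) hhol₁ hbdd₁ hne₁
  refine ⟨n, ?_⟩
  have h1 : (fun τ : ℍ => (f τ)⁻¹) = fun τ : ℍ => (𝕢 1 (τ : ℂ)) ^ K * (f₁ τ)⁻¹ := by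
    funext τ
    simp only [hf₁, mul_inv]
    rw [← mul_assoc, mul_inv_cancel₀ (pow_ne_zero _ (Periodic.qParam_ne_zero _)), one_mul]
  rw [h1]
  have hq1 : (fun τ : ℍ => (𝕢 1 (τ : ℂ)) ^ K) =O[atImInfty] fun _ : ℍ => (1 : ℝ) := by
    refine IsBigO.of_bound 1 (Eventually.of_forall fun τ => ?_)
    rw [norm_pow, one_mul, norm_one]
    exact pow_le_one₀ (norm_nonneg _) (Periodic.norm_qParam_lt_one one_pos τ.im_pos).le
  have h2 : (fun τ : ℍ => Real.exp (2 * π * n * τ.im / h)) =O[atImInfty]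
      fun τ : ℍ => Real.exp (2 * π * n * τ.im) := by
    refine IsBigO.of_bound 1 (Eventually.of_forall fun τ => ?_)
    rw [one_mul, Real.norm_of_nonneg (Real.exp_pos _).le, Real.norm_of_nonneg (Real.exp_pos _).le]
    apply Real.exp_le_exp.mpr
    have h1h : (1 : ℝ) ≤ h := by exact_mod_cast hh
    have hnn : 0 ≤ 2 * π * n * τ.im := by
      have := τ.im_pos
      positivity
    exact div_le_self hnn h1h
  refine ((hq1.mul (hn.trans h2)).congr_right fun τ => ?_)
  rw [one_mul]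

open Fermat.Agent.S24.helper77 in
/-- `holoExp` is stable under inversion of periodic nowhere-zero elements. -/
theorem inv_mem_holoExp_of_periodic {h : ℕ} (hh : 0 < h) {s : ℍ → ℂ} (hs : s ∈ holoExp)
    (hper : ∀ τ : ℍ, s ((h : ℝ) +ᵥ τ) = s τ) (hne : ∀ τ, s τ ≠ 0) :
    (fun τ : ℍ => (s τ)⁻¹) ∈ holoExp := by
  obtain ⟨hhol, K, hK⟩ := hs
  refine ⟨?_, ?_⟩
  · intro τ
    rw [UpperHalfPlane.mdifferentiableAt_iff]
    have h1 := UpperHalfPlane.mdifferentiableAt_iff.mp (hhol τ)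
    have h2 : (s ∘ ofComplex) (τ : ℂ) ≠ 0 := by
      simp only [comp_apply, ofComplex_apply]
      exact hne τ
    exact h1.inv h2
  · exact inv_isBigO_of_periodic_of_isBigO_exp hh hper hhol hK
      ⟨UpperHalfPlane.I, hne UpperHalfPlane.I⟩

end Fermat.Agent.T4.helper55
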