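import Mathlib
import Fermat.Agent.S28.helper93_Reduce

/-!
# T4 (I) / I-FLD [I-FLD-INT], part 4 (helper55): division of `S`-integral Laurent series

For a subring `S` of `ℂ`:

* `laurent_div_coeff_mem` : if `x * d = n` in `ℂ((t))`, `d` and `n` have all their coefficients in
  `S` and the leading coefficient of `d` is a unit of `S`, then all the coefficients of `x` lie
  in `S`;
* `laurent_div_lead` : moreover `x.order = n.order - d.order` and
  `x.leadingCoeff * d.leadingCoeff = n.leadingCoeff`;
* `laurent_div_lead_unit` : if the leading coefficient of `n` is a unit of `S` as well, so is the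
  leading coefficient of `x`.

(Formal half of "the quotient of two integral expansions, the denominator with a unit leading
coefficient, is an integral expansion".)
-/

set_option autoImplicit false

noncomputable section

open ModularCurve

namespace Fermat.Agent.T4.helper55

open Fermat.Agent.S28.helper93 (coeffMap_injective' exists_coeffMap_eq)

/-- the leading coefficient of an `S`-integral series, computed in `S` -/
theorem leadingCoeff_coeffMap_subtype (S : Subring ℂ) (x : LaurentSeries S) :
    (coeffMap S.subtype x).leadingCoeff = ((x.leadingCoeff : S) : ℂ) := by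
  by_cases hx : x = 0
  · rw [hx, map_zero, HahnSeries.leadingCoeff_zero, HahnSeries.leadingCoeff_zero]
    rfl
  have hinj := coeffMap_injective' S.subtype Subtype.val_injective
  have hx' : coeffMap S.subtype x ≠ 0 := fun h => hx (hinj (by rw [h, map_zero]))
  have hord : (coeffMap S.subtype x).order = x.order := by
    refine le_antisymm ?_ ?_
    · refine HahnSeries.order_le_of_coeff_ne_zero ?_
      rw [coeffMap_coeff]
      intro h
      have h2 : x.coeff x.order = 0 := Subtype.val_injective (by simpa using h)
      exact hx (HahnSeries.coeff_order_eq_zero.1 h2)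
    · refine HahnSeries.order_le_of_coeff_ne_zero ?_
      intro h
      have h1 : (coeffMap S.subtype x).coeff (coeffMap S.subtype x).order ≠ 0 :=
        fun h0 => hx' (HahnSeries.coeff_order_eq_zero.1 h0)
      apply h1
      rw [coeffMap_coeff, h]
      rfl
  rw [HahnSeries.leadingCoeff_eq, HahnSeries.leadingCoeff_eq, hord, coeffMap_coeff]
  rfl

/-- **Division of integral Laurent series.** -/
theorem laurent_div_coeff_mem (S : Subring ℂ) {x d n : LaurentSeries ℂ} (h : x * d = n)
    (hd : ∀ k, d.coeff k ∈ S) (hn : ∀ k, n.coeff k ∈ S)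
    (hu : ∃ v ∈ S, d.leadingCoeff * v = 1) : ∀ k, x.coeff k ∈ S := by
  obtain ⟨v, hv, huv⟩ := hu
  obtain ⟨d', hd'⟩ := exists_coeffMap_eq S.subtype d (fun k => ⟨⟨_, hd k⟩, rfl⟩)
  obtain ⟨n', hn'⟩ := exists_coeffMap_eq S.subtype n (fun k => ⟨⟨_, hn k⟩, rfl⟩)
  have hlead : ((d'.leadingCoeff : S) : ℂ) = d.leadingCoeff := by
    rw [← hd', leadingCoeff_coeffMap_subtype]
  have hunit : IsUnit d'.leadingCoeff := by
    refine IsUnit.of_mul_eq_one (⟨v, hv⟩ : S) ?_
    apply Subtype.val_injective
    show ((d'.leadingCoeff : S) : ℂ) * v = 1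
    rw [hlead, huv]
  have hU : IsUnit d' := HahnSeries.isUnit_iff.2 hunit
  obtain ⟨e', he'⟩ := hU.exists_right_inv
  have hd0 : d ≠ 0 := by
    intro h0
    rw [h0, HahnSeries.leadingCoeff_zero, zero_mul] at huv
    exact zero_ne_one huv
  have hx : x = coeffMap S.subtype (n' * e') := by
    have h1 : coeffMap S.subtype (n' * e') * d = x * d := by
      rw [← hd', ← map_mul, mul_assoc, mul_comm e' d', he', mul_one, hn', hd', h]
    exact (mul_right_cancel₀ hd0 h1).symm
  intro k
  rw [hx, coeffMap_coeff]
  exact (n' * e').coeff k |>.2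

/-- order and leading coefficient of a quotient -/
theorem laurent_div_lead {x d n : LaurentSeries ℂ} (h : x * d = n) (hn : n ≠ 0) :
    x.order + d.order = n.order ∧ x.leadingCoeff * d.leadingCoeff = n.leadingCoeff := by
  have hx : x ≠ 0 := fun h0 => hn (by rw [← h, h0, zero_mul])
  have hd : d ≠ 0 := fun h0 => hn (by rw [← h, h0, mul_zero])
  refine ⟨?_, ?_⟩
  · rw [← h, HahnSeries.order_mul hx hd]
  · rw [← h, HahnSeries.leadingCoeff_mul]

/-- **the leading coefficient of a quotient of two series with unit leading coefficients is a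
unit** -/
theorem laurent_div_lead_unit (S : Subring ℂ) {x d n : LaurentSeries ℂ} (h : x * d = n)
    (hu : ∃ v ∈ S, d.leadingCoeff * v = 1) (hd : d.leadingCoeff ∈ S)
    (hn : n.leadingCoeff ∈ S) (hun : ∃ w ∈ S, n.leadingCoeff * w = 1) :
    x.leadingCoeff ∈ S ∧ ∃ y ∈ S, x.leadingCoeff * y = 1 := by
  obtain ⟨v, hv, huv⟩ := hu
  obtain ⟨w, hw, hnw⟩ := hun
  have hn0 : n ≠ 0 := by
    intro h0
    rw [h0, HahnSeries.leadingCoeff_zero, zero_mul] at hnw
    exact zero_ne_one hnw
  have h1 := (laurent_div_lead h hn0).2
  have h2 : x.leadingCoeff = n.leadingCoeff * v := by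
    rw [← h1, mul_assoc, huv, mul_one]
  refine ⟨by rw [h2]; exact S.mul_mem hn hv, d.leadingCoeff * w, S.mul_mem hd hw, ?_⟩
  rw [h2]
  calc n.leadingCoeff * v * (d.leadingCoeff * w)
      = (d.leadingCoeff * v) * (n.leadingCoeff * w) := by ring
    _ = 1 := by rw [huv, hnw, one_mul]

end Fermat.Agent.T4.helper55
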