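import Fermat.Agent.T4.helper55_WpRow

/-!
# T4 (I) / [I-FLD-WP5] part 2 (helper55): `℘`-differences at division points are holomorphic in
`τ` and bounded at `i∞`

`dD N a b a' b' τ = ℘((a τ + b)/N) - ℘((a' τ + b')/N)` for the lattice `⟨1, τ⟩`, all integers
`a b a' b'` (no hypothesis): `mdiff_dD`, `isBoundedAtImInfty_dD`, `dD_vadd` (period `N`).
-/

set_option autoImplicit false

noncomputable section

open Complex Filter Topology PeriodPair
open scoped Real UpperHalfPlane Manifold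

namespace Fermat.Agent.T4.helper55

/-- `rowS` is holomorphic off the real axis -/
theorem differentiableAt_rowS {z : ℂ} (hz : z.im ≠ 0) : DifferentiableAt ℂ rowS z := by
  have key : ∀ {z : ℂ}, 0 < z.im →
      DifferentiableAt ℂ (fun w : ℂ => -(4 * (π : ℂ) ^ 2) * Tq (cexp (2 * π * I * w))) z := by
    intro z hpos
    have hw : ‖cexp (2 * π * I * z)‖ < 1 := by
      rw [norm_exp_two_pi_I_mul, Real.exp_lt_one_iff]
      have := Real.pi_pos
      nlinarith
    have hne : (1 - cexp (2 * π * I * z)) ^ 2 ≠ 0 := by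
      apply pow_ne_zero
      intro h0
      have : cexp (2 * π * I * z) = 1 := by linear_combination -h0
      rw [this, norm_one] at hw
      exact lt_irrefl _ hw
    have he : DifferentiableAt ℂ (fun w : ℂ => cexp (2 * π * I * w)) z := by fun_prop
    unfold Tq
    exact (he.div ((differentiableAt_const _).sub he |>.pow 2) hne).const_mul _
  rcases lt_or_gt_of_ne hz with h | h
  · have h' : 0 < (-z).im := by simpa using h
    have h1 := key h'
    have h2 : DifferentiableAt ℂ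
        (fun w : ℂ => -(4 * (π : ℂ) ^ 2) * Tq (cexp (2 * π * I * (-w)))) z :=
      (h1.comp z (differentiableAt_id.neg) : _)
    refine h2.congr_of_eventuallyEq ?_
    have hopen : IsOpen {w : ℂ | w.im < 0} := isOpen_lt Complex.continuous_im continuous_const
    filter_upwards [hopen.mem_nhds h] with w hw
    exact rowS_eq_of_im_neg hw
  · refine (key h).congr_of_eventuallyEq ?_
    have hopen : IsOpen {w : ℂ | 0 < w.im} := isOpen_lt continuous_const Complex.continuous_im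
    filter_upwards [hopen.mem_nhds h] with w hw
    exact rowS_eq_of_im_pos hw

/-- the row functions `w ↦ S((k w + b) / N)` -/
def rhoF (N : ℕ) (k b : ℤ) (w : ℂ) : ℂ := rowS (((k : ℂ) * w + b) / N)

theorem im_rho_arg {N : ℕ} (k b : ℤ) (w : ℂ) :
    ((((k : ℂ) * w + b) / N : ℂ)).im = k * w.im / N := by
  rw [div_natCast_im, add_im, intCast_im, add_zero, mul_im, intCast_re, intCast_im, zero_mul,
    add_zero]

theorem differentiableOn_rhoF (N : ℕ) (hN : 0 < N) (k b : ℤ) :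
    DifferentiableOn ℂ (rhoF N k b) {w | 0 < w.im} := by
  intro w hw
  apply DifferentiableAt.differentiableWithinAt
  rcases eq_or_ne k 0 with rfl | hk
  · have : rhoF N 0 b = fun _ => rowS ((b : ℂ) / N) := by
      funext w
      simp [rhoF]
    rw [this]
    exact differentiableAt_const _
  · have hN' : (0 : ℝ) < N := by exact_mod_cast hN
    have him : ((((k : ℂ) * w + b) / N : ℂ)).im ≠ 0 := by
      rw [im_rho_arg]
      have hk' : (k : ℝ) ≠ 0 := by exact_mod_cast hk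
      have hw' : w.im ≠ 0 := (show 0 < w.im from hw).ne'
      positivity
    have h1 := differentiableAt_rowS him
    have h2 : DifferentiableAt ℂ (fun w : ℂ => ((k : ℂ) * w + b) / N) w := by fun_prop
    exact h1.comp w h2

/-- uniform exponential bound for the row functions on `{δ ≤ Im w}` -/
theorem rhoF_bound (N : ℕ) (hN : 0 < N) (b : ℤ) {δ : ℝ} (hδ : 0 < δ) :
    ∃ C : ℝ, 0 ≤ C ∧ ∀ (k : ℤ) (w : ℂ), δ ≤ w.im →
      ‖rhoF N k b w‖ ≤ C * Real.exp (-2 * π * δ / N) ^ k.natAbs := by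
  have hN' : (0 : ℝ) < N := by exact_mod_cast hN
  set ρ := Real.exp (-2 * π * δ / N) with hρ
  have hρ1 : ρ < 1 := by
    rw [hρ, Real.exp_lt_one_iff]
    have := Real.pi_pos
    have : 0 < 2 * π * δ / N := by positivity
    have e : -2 * π * δ / N = -(2 * π * δ / N) := by ring
    rw [e]
    linarith
  have hρ0 : 0 < ρ := Real.exp_pos _
  refine ⟨max (4 * π ^ 2 / (1 - ρ) ^ 2) ‖rowS ((b : ℂ) / N)‖, le_max_of_le_right (norm_nonneg _),
    fun k w hw => ?_⟩
  rcases eq_or_ne k 0 with rfl | hk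
  · simp only [rhoF, Int.cast_zero, zero_mul, zero_add, Int.natAbs_zero, pow_zero, mul_one]
    exact le_max_right _ _
  · have hkabs : (1 : ℝ) ≤ |(k : ℝ)| := by
      have : (1 : ℤ) ≤ |k| := Int.one_le_abs hk
      exact_mod_cast this
    have hwpos : 0 < w.im := lt_of_lt_of_le hδ hw
    have him : |((((k : ℂ) * w + b) / N : ℂ)).im| = |(k : ℝ)| * w.im / N := by
      rw [im_rho_arg, abs_div, abs_mul, abs_of_pos hwpos, abs_of_pos hN']
    have hle : Real.exp (-2 * π * |((((k : ℂ) * w + b) / N : ℂ)).im|) ≤ ρ ^ k.natAbs := by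
      rw [him, hρ, ← Real.exp_nat_mul]
      apply Real.exp_le_exp.mpr
      have hcast : ((k.natAbs : ℕ) : ℝ) = |(k : ℝ)| := by
        rw [Nat.cast_natAbs, Int.cast_abs]
      rw [hcast]
      have h1 : |(k : ℝ)| * δ ≤ |(k : ℝ)| * w.im := by
        apply mul_le_mul_of_nonneg_left hw (abs_nonneg _)
      have h2 : |(k : ℝ)| * δ / N ≤ |(k : ℝ)| * w.im / N := by gcongr
      have hpi := Real.pi_pos
      have e1 : -2 * π * (|(k : ℝ)| * w.im / N) = -(2 * π) * (|(k : ℝ)| * w.im / N) := by ring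
      have e2 : |(k : ℝ)| * (-2 * π * δ / N) = -(2 * π) * (|(k : ℝ)| * δ / N) := by ring
      rw [e1, e2]
      apply mul_le_mul_of_nonpos_left h2
      linarith
    have hle1 : ρ ^ k.natAbs ≤ ρ := by
      have hna : 1 ≤ k.natAbs := Int.natAbs_pos.mpr hk
      calc ρ ^ k.natAbs ≤ ρ ^ 1 := pow_le_pow_of_le_one hρ0.le hρ1.le hna
        _ = ρ := pow_one _
    have him0 : ((((k : ℂ) * w + b) / N : ℂ)).im ≠ 0 := by
      rw [im_rho_arg]
      have hk' : (k : ℝ) ≠ 0 := by exact_mod_cast hk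
      have hw' : w.im ≠ 0 := hwpos.ne'
      positivity
    have h3 := norm_rowS_le hρ1 (hle.trans hle1) him0
    have hC : 0 ≤ 4 * π ^ 2 / (1 - ρ) ^ 2 := by positivity
    calc ‖rhoF N k b w‖ ≤ 4 * π ^ 2 / (1 - ρ) ^ 2 *
          Real.exp (-2 * π * |((((k : ℂ) * w + b) / N : ℂ)).im|) := h3
      _ ≤ 4 * π ^ 2 / (1 - ρ) ^ 2 * ρ ^ k.natAbs := by gcongr
      _ ≤ max (4 * π ^ 2 / (1 - ρ) ^ 2) ‖rowS ((b : ℂ) / N)‖ * ρ ^ k.natAbs := by
          gcongr
          exact le_max_left _ _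

theorem summable_pow_natAbs {ρ : ℝ} (h0 : 0 ≤ ρ) (h1 : ρ < 1) :
    Summable fun k : ℤ => ρ ^ k.natAbs := by
  rw [summable_int_iff_summable_nat_and_neg]
  constructor
  · simpa using summable_geometric_of_lt_one h0 h1
  · simpa using summable_geometric_of_lt_one h0 h1

theorem summable_pow_natAbs_shift {ρ : ℝ} (h0 : 0 ≤ ρ) (h1 : ρ < 1) (N : ℕ) (hN : 0 < N)
    (a : ℤ) : Summable fun n : ℤ => ρ ^ (a + n * N).natAbs := by
  have hinj : Function.Injective fun n : ℤ => a + n * N := by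
    intro x y hxy
    have hN' : (N : ℤ) ≠ 0 := by exact_mod_cast hN.ne'
    have : x * N = y * N := by simpa using hxy
    exact mul_right_cancel₀ hN' this
  exact (summable_pow_natAbs h0 h1).comp_injective hinj

/-- the difference of `℘`-values at two `N`-division points of `⟨1, τ⟩` -/
def dD (N : ℕ) (a b a' b' : ℤ) (τ : ℍ) : ℂ :=
  ℘[pp τ] (((a : ℂ) * τ + b) / N) - ℘[pp τ] (((a' : ℂ) * τ + b') / N)

/-- the terms of the row expansion of `dD` -/
def dTerm (N : ℕ) (a b a' b' : ℤ) (n : ℤ) (w : ℂ) : ℂ :=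
  rhoF N (a + n * N) b w - rhoF N (a' + n * N) b' w

theorem hasSum_dD (N : ℕ) (hN : 0 < N) (a b a' b' : ℤ) (τ : ℍ) :
    HasSum (fun n : ℤ => dTerm N a b a' b' n (τ : ℂ)) (dD N a b a' b' τ) := by
  have h := hasSum_rows τ (((a : ℂ) * τ + b) / N) (((a' : ℂ) * τ + b') / N)
  have hN' : (N : ℂ) ≠ 0 := by exact_mod_cast hN.ne'
  refine h.congr_fun ?_ |>.mono_left le_rfl
  intro n
  simp only [dTerm, rhoF]
  congr 2
  · push_cast; field_simp; ring
  · push_cast; field_simp; ring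

theorem dD_eq_tsum (N : ℕ) (hN : 0 < N) (a b a' b' : ℤ) (τ : ℍ) :
    dD N a b a' b' τ = ∑' n : ℤ, dTerm N a b a' b' n (τ : ℂ) :=
  (hasSum_dD N hN a b a' b' τ).tsum_eq.symm

/-- the summable majorant on `{δ ≤ Im w}` -/
theorem dTerm_bound (N : ℕ) (hN : 0 < N) (a b a' b' : ℤ) {δ : ℝ} (hδ : 0 < δ) :
    ∃ u : ℤ → ℝ, Summable u ∧ ∀ (n : ℤ) (w : ℂ), δ ≤ w.im → ‖dTerm N a b a' b' n w‖ ≤ u n := by
  obtain ⟨C, hC0, hC⟩ := rhoF_bound N hN b hδ
  obtain ⟨C', hC0', hC'⟩ := rhoF_bound N hN b' hδ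
  have hN' : (0 : ℝ) < N := by exact_mod_cast hN
  set ρ := Real.exp (-2 * π * δ / N) with hρ
  have hρ1 : ρ < 1 := by
    rw [hρ, Real.exp_lt_one_iff]
    have := Real.pi_pos
    have : 0 < 2 * π * δ / N := by positivity
    have e : -2 * π * δ / N = -(2 * π * δ / N) := by ring
    rw [e]
    linarith
  have hρ0 : 0 ≤ ρ := (Real.exp_pos _).le
  refine ⟨fun n => C * ρ ^ (a + n * N).natAbs + C' * ρ ^ (a' + n * N).natAbs,
    ((summable_pow_natAbs_shift hρ0 hρ1 N hN a).mul_left C).add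
      ((summable_pow_natAbs_shift hρ0 hρ1 N hN a').mul_left C'), fun n w hw => ?_⟩
  calc ‖dTerm N a b a' b' n w‖ ≤ ‖rhoF N (a + n * N) b w‖ + ‖rhoF N (a' + n * N) b' w‖ :=
        norm_sub_le _ _
    _ ≤ _ := add_le_add (hC _ w hw) (hC' _ w hw)

/-- **Holomorphy in `τ`.** -/
theorem mdiff_dD (N : ℕ) (hN : 0 < N) (a b a' b' : ℤ) : MDiff (dD N a b a' b') := by
  intro τ
  rw [UpperHalfPlane.mdifferentiableAt_iff]
  set δ := τ.im / 2 with hδ
  have hδ0 : 0 < δ := by have := τ.im_pos; positivity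
  obtain ⟨u, hu, hub⟩ := dTerm_bound N hN a b a' b' hδ0
  have hopen : IsOpen {w : ℂ | δ < w.im} := isOpen_lt continuous_const Complex.continuous_im
  have hmem : (τ : ℂ) ∈ {w : ℂ | δ < w.im} := by
    show δ < (τ : ℂ).im
    have := τ.im_pos
    rw [hδ]
    show τ.im / 2 < τ.im
    linarith
  have hsub : {w : ℂ | δ < w.im} ⊆ {w : ℂ | 0 < w.im} := fun w hw => lt_trans hδ0 hw
  have hdiff : DifferentiableOn ℂ (fun w : ℂ => ∑' n : ℤ, dTerm N a b a' b' n w)
      {w : ℂ | δ < w.im} := by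
    refine differentiableOn_tsum_of_summable_norm hu (fun n => ?_) hopen
      (fun n w hw => hub n w (le_of_lt hw))
    exact ((differentiableOn_rhoF N hN _ b).sub (differentiableOn_rhoF N hN _ b')).mono hsub
  refine ((hdiff (τ : ℂ) hmem).differentiableAt (hopen.mem_nhds hmem)).congr_of_eventuallyEq ?_
  filter_upwards [hopen.mem_nhds hmem] with w hw
  have hw0 : 0 < w.im := hsub hw
  simp only [Function.comp_apply, UpperHalfPlane.ofComplex_apply_of_im_pos hw0]
  exact dD_eq_tsum N hN a b a' b' ⟨w, hw0⟩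

/-- **Boundedness at `i∞`.** -/
theorem isBoundedAtImInfty_dD (N : ℕ) (hN : 0 < N) (a b a' b' : ℤ) :
    UpperHalfPlane.IsBoundedAtImInfty (dD N a b a' b') := by
  obtain ⟨u, hu, hub⟩ := dTerm_bound N hN a b a' b' one_pos
  rw [UpperHalfPlane.isBoundedAtImInfty_iff]
  refine ⟨∑' n, u n, 1, fun τ hτ => ?_⟩
  rw [dD_eq_tsum N hN]
  have hsn : Summable fun n : ℤ => ‖dTerm N a b a' b' n (τ : ℂ)‖ :=
    Summable.of_nonneg_of_le (fun _ => norm_nonneg _) (fun n => hub n _ hτ) hu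
  exact (norm_tsum_le_tsum_norm hsn).trans (hsn.tsum_le_tsum (fun n => hub n _ hτ) hu)

/-- **Periodicity.** -/
theorem dD_vadd (N : ℕ) (hN : 0 < N) (a b a' b' : ℤ) (τ : ℍ) :
    dD N a b a' b' ((N : ℝ) +ᵥ τ) = dD N a b a' b' τ := by
  rw [dD_eq_tsum N hN, dD_eq_tsum N hN]
  refine tsum_congr fun n => ?_
  have hN' : (N : ℂ) ≠ 0 := by exact_mod_cast hN.ne'
  have key : ∀ k c : ℤ, rhoF N k c ((((N : ℝ) +ᵥ τ : ℍ)) : ℂ) = rhoF N k c (τ : ℂ) := by
    intro k c
    simp only [rhoF, UpperHalfPlane.coe_vadd, ofReal_natCast]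
    have e : ((k : ℂ) * ((N : ℂ) + τ) + c) / N = ((k : ℂ) * τ + c) / N + k := by
      field_simp
      ring
    rw [e, rowS_add_int]
  simp only [dTerm, key]

end Fermat.Agent.T4.helper55
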