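import Fermat.Agent.T4.helper55_WpRow
import Fermat.Agent.T4.helper44_WpDiv

/-!
# T4 (I) / [I-FLD-INT] part 1 (helper55): the row sum on the real axis and the ring `ℤ[ζ_M, 1/M]`

* `rowS_eq_of_im_nonneg` : `∑_n (z + n)⁻² = -4π² e(z) / (1 - e(z))²` on the closed upper half
  plane minus the integers (continuity of the row sum + the `q`-expansion identity);
* `Rz M = ℤ[ζ_M, 1/M] ⊆ ℂ`, `UnitOf R x` (units of a subring), `unitOf_one_sub_zpow`
  (`1 - ζ^s` is a unit for `M ∤ s`), `unitOf_zpow_sub_zpow`.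
-/

set_option autoImplicit false

noncomputable section

open Complex Filter Topology
open scoped Real UpperHalfPlane

namespace Fermat.Agent.T4.helper55

open Fermat.Agent.T4.helper44 (zetaM wt cDiv cZero lamCoeff)


theorem rowS44_eq : Fermat.Agent.T4.helper44.rowS = rowS := rfl

/-- a uniform lower bound for the distance to the integers -/
theorem exists_ball_integerComplement {x₀ : ℂ} (hx₀ : x₀ ∈ Complex.integerComplement) :
    ∃ ε : ℝ, 0 < ε ∧ ∀ n : ℤ, ε ≤ ‖x₀ + n‖ := by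
  have hopen : IsOpen Complex.integerComplement := Complex.isOpen_compl_range_intCast
  obtain ⟨ε, hε, hball⟩ := Metric.isOpen_iff.mp hopen x₀ hx₀
  refine ⟨ε, hε, fun n => ?_⟩
  by_contra hlt
  replace hlt := not_le.mp hlt
  have hmem : ((-n : ℤ) : ℂ) ∈ Metric.ball x₀ ε := by
    rw [Metric.mem_ball, dist_comm, dist_eq_norm]
    simpa [sub_neg_eq_add] using hlt
  exact hball hmem ⟨-n, rfl⟩

theorem continuousAt_rowS {x₀ : ℂ} (hx₀ : x₀ ∈ Complex.integerComplement) :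
    ContinuousAt rowS x₀ := by
  obtain ⟨ε, hε, hn⟩ := exists_ball_integerComplement hx₀
  have hcont : ContinuousOn (fun z : ℂ => ∑' n : ℤ, 1 / (z + n) ^ 2) (Metric.ball x₀ (ε / 2)) := by
    refine continuousOn_tsum (u := fun n : ℤ => 4 * ‖1 / (x₀ + n) ^ 2‖) (fun n => ?_)
      ((summable_row x₀).norm.mul_left 4) (fun n z hz => ?_)
    · intro z hz
      have hne : z + n ≠ 0 := by
        intro h0
        have h1 : ‖x₀ + n‖ = ‖x₀ - z‖ := by
          congr 1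
          linear_combination h0
        have h2 : ‖x₀ - z‖ < ε / 2 := by
          rw [← dist_eq_norm, dist_comm]; exact hz
        have := hn n
        linarith
      exact ContinuousAt.continuousWithinAt (by fun_prop (disch := exact pow_ne_zero 2 hne))
    · have h2 : ‖z - x₀‖ < ε / 2 := by
        rw [← dist_eq_norm]; exact hz
      have h3 : ‖x₀ + n‖ ≤ ‖z + n‖ + ‖z - x₀‖ := by
        have : x₀ + n = (z + n) - (z - x₀) := by ring
        rw [this]
        exact norm_sub_le _ _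
      have h4 := hn n
      have h5 : ‖x₀ + n‖ / 2 ≤ ‖z + n‖ := by linarith
      have h6 : 0 < ‖x₀ + n‖ := by linarith
      rw [norm_div, norm_div, norm_one, norm_pow, norm_pow]
      rw [show 4 * (1 / ‖x₀ + n‖ ^ 2) = 1 / (‖x₀ + n‖ / 2) ^ 2 by field_simp; ring]
      apply one_div_le_one_div_of_le (by positivity)
      gcongr
  exact hcont.continuousAt (Metric.ball_mem_nhds x₀ (by positivity))

/-- `1 - e(z) ≠ 0` off the integers -/
theorem one_sub_exp_ne_zero {z : ℂ} (hz : z ∈ Complex.integerComplement) :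
    1 - cexp (2 * π * I * z) ≠ 0 := by
  intro h
  have h1 : cexp (2 * π * I * z) = 1 := by linear_combination -h
  rw [Complex.exp_eq_one_iff] at h1
  obtain ⟨n, hn⟩ := h1
  apply hz
  refine ⟨n, ?_⟩
  have h2 : (2 * π * I : ℂ) ≠ 0 := by
    simp [Real.pi_ne_zero, I_ne_zero]
  have h3 : (2 * π * I) * z = (2 * π * I) * n := by rw [hn]; ring
  exact (mul_left_cancel₀ h2 h3).symm

/-- **The row sum in closed form**, on the closed upper half plane minus the integers. -/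
theorem rowS_eq_of_im_nonneg {z : ℂ} (hz : z ∈ Complex.integerComplement) (him : 0 ≤ z.im) :
    rowS z = -(4 * π ^ 2) * Tq (cexp (2 * π * I * z)) := by
  have hcl : z ∈ closure {w : ℂ | 0 < w.im} := by
    rw [Complex.closure_setOfPred_lt_im]
    exact him
  have : (𝓝[{w : ℂ | 0 < w.im}] z).NeBot := mem_closure_iff_nhdsWithin_neBot.mp hcl
  have h1 : Tendsto rowS (𝓝[{w : ℂ | 0 < w.im}] z) (𝓝 (rowS z)) :=
    (continuousAt_rowS hz).tendsto.mono_left nhdsWithin_le_nhds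
  have hne := one_sub_exp_ne_zero hz
  have hc : ContinuousAt (fun w : ℂ => -(4 * (π : ℂ) ^ 2) * Tq (cexp (2 * π * I * w))) z := by
    unfold Tq
    have he : ContinuousAt (fun w : ℂ => cexp (2 * π * I * w)) z := by fun_prop
    exact continuousAt_const.mul
      (he.div ((continuousAt_const.sub he).pow 2) (pow_ne_zero 2 hne))
  have h2 : Tendsto (fun w : ℂ => -(4 * (π : ℂ) ^ 2) * Tq (cexp (2 * π * I * w)))
      (𝓝[{w : ℂ | 0 < w.im}] z) (𝓝 (-(4 * (π : ℂ) ^ 2) * Tq (cexp (2 * π * I * z)))) :=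
    hc.tendsto.mono_left nhdsWithin_le_nhds
  have h3 : rowS =ᶠ[𝓝[{w : ℂ | 0 < w.im}] z]
      fun w : ℂ => -(4 * (π : ℂ) ^ 2) * Tq (cexp (2 * π * I * w)) :=
    eventually_nhdsWithin_of_forall fun w hw => rowS_eq_of_im_pos hw
  exact tendsto_nhds_unique (h1.congr' h3) h2



/-- the ring `ℤ[ζ_M, 1/M]` -/
def Rz (M : ℕ) : Subring ℂ := Subring.closure {zetaM M, (M : ℂ)⁻¹}

/-- units of a subring of `ℂ` -/
def UnitOf (R : Subring ℂ) (x : ℂ) : Prop := x ∈ R ∧ ∃ y ∈ R, x * y = 1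

theorem UnitOf.mul {R : Subring ℂ} {x y : ℂ} (hx : UnitOf R x) (hy : UnitOf R y) :
    UnitOf R (x * y) := by
  obtain ⟨hx1, x', hx', hxx⟩ := hx
  obtain ⟨hy1, y', hy', hyy⟩ := hy
  refine ⟨R.mul_mem hx1 hy1, x' * y', R.mul_mem hx' hy', ?_⟩
  linear_combination y * y' * hxx + hyy

theorem UnitOf.inv {R : Subring ℂ} {x : ℂ} (hx : UnitOf R x) : UnitOf R x⁻¹ := by
  obtain ⟨hx1, x', hx', hxx⟩ := hx
  have hx0 : x ≠ 0 := left_ne_zero_of_mul_eq_one hxx
  have e : x⁻¹ = x' := by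
    rw [inv_eq_iff_eq_inv]
    exact eq_inv_of_mul_eq_one_left hxx
  refine ⟨e ▸ hx', x, hx1, ?_⟩
  rw [inv_mul_cancel₀ hx0]

theorem UnitOf.neg {R : Subring ℂ} {x : ℂ} (hx : UnitOf R x) : UnitOf R (-x) := by
  obtain ⟨hx1, x', hx', hxx⟩ := hx
  exact ⟨R.neg_mem hx1, -x', R.neg_mem hx', by rw [neg_mul_neg, hxx]⟩

theorem UnitOf.ne_zero {R : Subring ℂ} {x : ℂ} (hx : UnitOf R x) : x ≠ 0 :=
  left_ne_zero_of_mul_eq_one hx.2.choose_spec.2

theorem UnitOf.pow {R : Subring ℂ} {x : ℂ} (hx : UnitOf R x) (n : ℕ) : UnitOf R (x ^ n) := by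
  obtain ⟨hx1, x', hx', hxx⟩ := hx
  refine ⟨R.pow_mem hx1 n, x' ^ n, R.pow_mem hx' n, ?_⟩
  rw [← mul_pow, hxx, one_pow]

theorem UnitOf.div {R : Subring ℂ} {x y : ℂ} (hx : UnitOf R x) (hy : UnitOf R y) :
    UnitOf R (x / y) := by
  rw [div_eq_mul_inv]
  exact hx.mul hy.inv

variable (M : ℕ) [NeZero M]

omit [NeZero M] in
theorem zetaM_mem : zetaM M ∈ Rz M := Subring.subset_closure (by simp)

omit [NeZero M] in
theorem inv_M_mem : (M : ℂ)⁻¹ ∈ Rz M := Subring.subset_closure (by simp)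

theorem isPrimitiveRoot_zetaM : IsPrimitiveRoot (zetaM M) M :=
  Complex.isPrimitiveRoot_exp M (NeZero.ne M)

theorem zetaM_pow_M : zetaM M ^ M = 1 := (isPrimitiveRoot_zetaM M).pow_eq_one

omit [NeZero M] in
theorem zetaM_ne_zero : zetaM M ≠ 0 := Complex.exp_ne_zero _

theorem unitOf_zetaM : UnitOf (Rz M) (zetaM M) := by
  refine ⟨zetaM_mem M, zetaM M ^ (M - 1), (Rz M).pow_mem (zetaM_mem M) _, ?_⟩
  rw [← pow_succ', Nat.sub_add_cancel (NeZero.pos M), zetaM_pow_M]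

theorem unitOf_zetaM_zpow (s : ℤ) : UnitOf (Rz M) (zetaM M ^ s) := by
  cases s with
  | ofNat n => simpa using (unitOf_zetaM M).pow n
  | negSucc n =>
    rw [zpow_negSucc]
    exact ((unitOf_zetaM M).pow (n + 1)).inv

theorem zetaM_zpow_mem (s : ℤ) : zetaM M ^ s ∈ Rz M := (unitOf_zetaM_zpow M s).1

theorem zetaM_zpow_eq_one_iff (s : ℤ) : zetaM M ^ s = 1 ↔ (M : ℤ) ∣ s :=
  (isPrimitiveRoot_zetaM M).zpow_eq_one_iff_dvd s

theorem zetaM_zpow_pow_M (s : ℤ) : (zetaM M ^ s) ^ M = 1 := by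
  rw [← zpow_natCast, ← zpow_mul, mul_comm, zpow_mul, zpow_natCast, zetaM_pow_M, one_zpow]

omit [NeZero M] in
/-- `(w - 1) ∑_{k < n} k w^k = (n - 1) w^n - ∑_{k < n} w^k + 1` -/
theorem sub_one_mul_sum_id (w : ℂ) (n : ℕ) :
    (w - 1) * ∑ k ∈ Finset.range n, (k : ℂ) * w ^ k
      = ((n : ℂ) - 1) * w ^ n - ∑ k ∈ Finset.range n, w ^ k + 1 := by
  induction n with
  | zero => simp
  | succ n ih =>
    rw [Finset.sum_range_succ, Finset.sum_range_succ, mul_add, ih]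
    push_cast
    ring

/-- `1 - w` is a unit of `ℤ[ζ_M, 1/M]` for a root of unity `w ≠ 1` in the ring -/
theorem unitOf_one_sub {w : ℂ} (hw : w ∈ Rz M) (hM : w ^ M = 1) (h1 : w ≠ 1) :
    UnitOf (Rz M) (1 - w) := by
  have hgeom : ∑ k ∈ Finset.range M, w ^ k = 0 := by
    have := mul_geom_sum w M
    rw [hM, sub_self] at this
    rcases mul_eq_zero.mp this with h | h
    · exact absurd (sub_eq_zero.mp h) h1
    · exact h
  have hkey := sub_one_mul_sum_id w M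
  rw [hM, hgeom] at hkey
  have hMne : (M : ℂ) ≠ 0 := by exact_mod_cast NeZero.ne M
  refine ⟨(Rz M).sub_mem (Rz M).one_mem hw,
    -((M : ℂ)⁻¹ * ∑ k ∈ Finset.range M, (k : ℂ) * w ^ k), ?_, ?_⟩
  · refine (Rz M).neg_mem ((Rz M).mul_mem (inv_M_mem M) ((Rz M).sum_mem fun k _ => ?_))
    exact (Rz M).mul_mem (natCast_mem _ k) ((Rz M).pow_mem hw k)
  · have : (1 - w) * -((M : ℂ)⁻¹ * ∑ k ∈ Finset.range M, (k : ℂ) * w ^ k)
        = (M : ℂ)⁻¹ * ((w - 1) * ∑ k ∈ Finset.range M, (k : ℂ) * w ^ k) := by ring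
    rw [this, hkey]
    field_simp
    ring

/-- `1 - ζ^s` is a unit for `M ∤ s` -/
theorem unitOf_one_sub_zpow {s : ℤ} (hs : ¬ (M : ℤ) ∣ s) : UnitOf (Rz M) (1 - zetaM M ^ s) :=
  unitOf_one_sub M (zetaM_zpow_mem M s) (zetaM_zpow_pow_M M s)
    (fun h => hs ((zetaM_zpow_eq_one_iff M s).mp h))

/-- `ζ^a - ζ^b` is a unit for `a ≢ b mod M` -/
theorem unitOf_zpow_sub_zpow {a b : ℤ} (hab : ¬ (M : ℤ) ∣ a - b) :
    UnitOf (Rz M) (zetaM M ^ a - zetaM M ^ b) := by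
  have e : zetaM M ^ a - zetaM M ^ b = -(zetaM M ^ b * (1 - zetaM M ^ (a - b))) := by
    rw [zpow_sub₀ (zetaM_ne_zero M)]
    field_simp [zpow_ne_zero _ (zetaM_ne_zero M)]
    ring
  rw [e]
  exact ((unitOf_zetaM_zpow M b).mul (unitOf_one_sub_zpow M hab)).neg


end Fermat.Agent.T4.helper55
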