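import Fermat.Agent.T4.helper55_WpInt1

/-!
# T4 (I) / [I-FLD-INT] part 2 (helper55): integrality and unit leading coefficients of the
`q_M`-expansions of differences of division values of `℘`

In helper44's vocabulary (`cDiv M r s e` = coefficient of `q_M^e` in the rows of the division
point `(r τ + s) / M`, `hasSum_divPt`):

* `cDiv_eq` : `cDiv M r s e = (2πi)² cN M r s e` for `(r, s) ≢ 0 mod M`;
* `cN_mem` : `cN M r s e ∈ ℤ[ζ_M, 1/M]`;
* `exists_lead` : order and leading coefficient of `cN M r s` for `M ∤ r`;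
* `lead_unit` : for two division points, non-zero and distinct modulo `±` and the lattice, the
  first nonzero coefficient of `cN M r s - cN M r' s'` is a UNIT of `ℤ[ζ_M, 1/M]`.
-/

set_option autoImplicit false

noncomputable section

open Complex Filter Topology
open scoped Real UpperHalfPlane

namespace Fermat.Agent.T4.helper55

open Fermat.Agent.T4.helper44 (zetaM wt cDiv cZero lamCoeff)

variable (M : ℕ) [NeZero M]

/-! ### the normalised coefficients -/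

/-- the normalised constant row -/
def cZ (M : ℕ) (r s : ℤ) : ℂ := wt M r 0 * (zetaM M ^ s / (1 - zetaM M ^ s) ^ 2)

/-- the normalised coefficients `(2πi)⁻² cDiv` -/
def cN (M : ℕ) (r s : ℤ) (e : ℕ) : ℂ :=
  (lamCoeff (zetaM M ^ s) (fun k => wt M r k) e
      + lamCoeff (zetaM M ^ (-s)) (fun k => wt M (-r) k) e)
    + if e = 0 then cZ M r s else 0

omit [NeZero M] in
theorem wt_eq_one_iff (r x : ℤ) : wt M r x = 1 ↔ (x : ZMod M) = (r : ZMod M) := by
  unfold wt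
  split_ifs with h
  · simp [h]
  · simp [h]

omit [NeZero M] in
theorem wt_eq_zero_iff (r x : ℤ) : wt M r x = 0 ↔ (x : ZMod M) ≠ (r : ZMod M) := by
  unfold wt
  split_ifs with h
  · simp [h]
  · simp [h]

omit [NeZero M] in
theorem wt_zero_eq_one_iff (r : ℤ) : wt M r 0 = 1 ↔ (M : ℤ) ∣ r := by
  rw [wt_eq_one_iff, ← ZMod.intCast_zmod_eq_zero_iff_dvd]
  simp [eq_comm]

omit [NeZero M] in
theorem wt_zero_of_not_dvd {r : ℤ} (hr : ¬ (M : ℤ) ∣ r) : wt M r 0 = 0 := by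
  rw [wt_eq_zero_iff]
  intro h
  apply hr
  rw [← ZMod.intCast_zmod_eq_zero_iff_dvd]
  simpa using h.symm

omit [NeZero M] in
theorem wt_mem (R : Subring ℂ) (r x : ℤ) : wt M r x ∈ R := by
  unfold wt
  split_ifs
  · exact R.one_mem
  · exact R.zero_mem

omit [NeZero M] in
theorem zetaM_eq_exp (s : ℤ) : cexp (2 * π * I * ((s : ℂ) / M)) = zetaM M ^ s := by
  rw [zetaM, ← Complex.exp_int_mul]
  congr 1
  ring

theorem int_div_mem_integerComplement {s : ℤ} (hs : ¬ (M : ℤ) ∣ s) :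
    ((s : ℂ) / M) ∈ Complex.integerComplement := by
  rintro ⟨n, hn⟩
  apply hs
  have hM : (M : ℂ) ≠ 0 := by exact_mod_cast NeZero.ne M
  have h1 : (s : ℂ) = n * M := by
    rw [hn]; field_simp
  refine ⟨n, ?_⟩
  have h2 : (s : ℂ) = ((M * n : ℤ) : ℂ) := by rw [h1]; push_cast; ring
  exact_mod_cast h2

/-- the constant row in closed form -/
theorem cZero_eq {r s : ℤ} (h : ¬ ((M : ℤ) ∣ r ∧ (M : ℤ) ∣ s)) :
    cZero M r s = (2 * π * I) ^ 2 * cZ M r s := by
  unfold cZero cZ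
  by_cases hr : (M : ℤ) ∣ r
  · have hs : ¬ (M : ℤ) ∣ s := fun hs => h ⟨hr, hs⟩
    rw [rowS44_eq, rowS_eq_of_im_nonneg (int_div_mem_integerComplement M hs) (by simp),
      zetaM_eq_exp, Tq]
    rw [mul_pow, mul_pow, I_sq]
    ring
  · rw [wt_zero_of_not_dvd M hr]
    ring

/-- `cDiv = (2πi)² cN` -/
theorem cDiv_eq {r s : ℤ} (h : ¬ ((M : ℤ) ∣ r ∧ (M : ℤ) ∣ s)) (e : ℕ) :
    cDiv M r s e = (2 * π * I) ^ 2 * cN M r s e := by
  unfold cDiv cN
  rw [cZero_eq M h]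
  split_ifs <;> ring

omit [NeZero M] in
theorem lamCoeff_mem {R : Subring ℂ} {u : ℂ} (hu : u ∈ R) (r : ℤ) (e : ℕ) :
    lamCoeff u (fun k => wt M r k) e ∈ R := by
  unfold lamCoeff
  refine R.sum_mem fun x _ => ?_
  exact R.mul_mem (R.mul_mem (wt_mem M R r _) (natCast_mem R _)) (R.pow_mem hu _)

/-- **Integrality of the coefficients.** -/
theorem cN_mem {r s : ℤ} (h : ¬ ((M : ℤ) ∣ r ∧ (M : ℤ) ∣ s)) (e : ℕ) : cN M r s e ∈ Rz M := by
  unfold cN
  refine (Rz M).add_mem ((Rz M).add_mem (lamCoeff_mem M (zetaM_zpow_mem M s) r e)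
    (lamCoeff_mem M (zetaM_zpow_mem M (-s)) (-r) e)) ?_
  split_ifs
  · unfold cZ
    by_cases hr : (M : ℤ) ∣ r
    · have hs : ¬ (M : ℤ) ∣ s := fun hs => h ⟨hr, hs⟩
      refine (Rz M).mul_mem (wt_mem M _ r 0) ?_
      rw [div_eq_mul_inv]
      exact (Rz M).mul_mem (zetaM_zpow_mem M s) ((unitOf_one_sub_zpow M hs).pow 2).inv.1
    · rw [wt_zero_of_not_dvd M hr, zero_mul]
      exact (Rz M).zero_mem
  · exact (Rz M).zero_mem


/-! ### leading terms -/

omit [NeZero M] in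
theorem lamCoeff_zero (u : ℂ) (w : ℕ → ℂ) : lamCoeff u w 0 = 0 := by
  simp [lamCoeff]

omit [NeZero M] in
theorem lamCoeff_eq_zero_of_lt (u : ℂ) (w : ℕ → ℂ) {ρ e : ℕ} (he : e < ρ)
    (hw : ∀ x, 1 ≤ x → x < ρ → w x = 0) : lamCoeff u w e = 0 := by
  unfold lamCoeff
  refine Finset.sum_eq_zero fun x hx => ?_
  rw [Nat.mem_divisorsAntidiagonal] at hx
  have hx1 : 1 ≤ x.1 := by
    rcases Nat.eq_zero_or_pos x.1 with h | h
    · exfalso; apply hx.2; rw [← hx.1, h, zero_mul]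
    · exact h
  have hx2 : x.1 ≤ e := Nat.le_of_dvd (Nat.pos_of_ne_zero hx.2) ⟨x.2, hx.1.symm⟩
  rw [hw x.1 hx1 (lt_of_le_of_lt hx2 he), zero_mul, zero_mul]

omit [NeZero M] in
theorem lamCoeff_eq_of_min (u : ℂ) (w : ℕ → ℂ) {ρ : ℕ} (hρ : 1 ≤ ρ)
    (hw : ∀ x, 1 ≤ x → x < ρ → w x = 0) : lamCoeff u w ρ = w ρ * u := by
  unfold lamCoeff
  rw [Finset.sum_eq_single (ρ, 1)]
  · simp
  · intro x hx hne
    rw [Nat.mem_divisorsAntidiagonal] at hx
    have hx1 : 1 ≤ x.1 := by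
      rcases Nat.eq_zero_or_pos x.1 with h | h
      · exfalso; apply hx.2; rw [← hx.1, h, zero_mul]
      · exact h
    have hx2 : x.1 ≤ ρ := Nat.le_of_dvd (Nat.pos_of_ne_zero hx.2) ⟨x.2, hx.1.symm⟩
    rcases lt_or_eq_of_le hx2 with h | h
    · rw [hw x.1 hx1 h, zero_mul, zero_mul]
    · exfalso
      apply hne
      have h2 : x.2 = 1 := by
        have := hx.1
        rw [h] at this
        exact Nat.eq_of_mul_eq_mul_left (by omega : 0 < ρ) (by rw [this, mul_one])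
      exact Prod.ext h h2
  · intro h
    exfalso
    apply h
    rw [Nat.mem_divisorsAntidiagonal]
    exact ⟨by simp, by omega⟩

omit [NeZero M] in
/-- congruences modulo `M` in divisibility form -/
theorem zmod_eq_iff (a b : ℤ) : (a : ZMod M) = (b : ZMod M) ↔ (M : ℤ) ∣ a - b := by
  rw [ZMod.intCast_eq_intCast_iff_dvd_sub]
  constructor
  · rintro ⟨k, hk⟩; exact ⟨-k, by linarith⟩
  · rintro ⟨k, hk⟩; exact ⟨-k, by linarith⟩

/-- the leading term of the coefficients of a division point with `M ∤ r` -/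
theorem exists_lead {r : ℤ} (hr : ¬ (M : ℤ) ∣ r) (s : ℤ) :
    ∃ ρ : ℕ, 1 ≤ ρ ∧ 2 * ρ ≤ M ∧ ∃ x : ℤ,
      (((M : ℤ) ∣ (ρ : ℤ) - r ∧ x = s) ∨ ((M : ℤ) ∣ (ρ : ℤ) + r ∧ x = -s)) ∧
      (∀ e < ρ, cN M r s e = 0) ∧
      cN M r s ρ = zetaM M ^ x + (if 2 * ρ = M then zetaM M ^ (-x) else 0) := by
  classical
  have hM := NeZero.pos M
  have hMz : (0 : ℤ) < M := by exact_mod_cast hM
  -- existence of a positive representative
  have hex : ∃ x : ℕ, 1 ≤ x ∧ ((M : ℤ) ∣ (x : ℤ) - r ∨ (M : ℤ) ∣ (x : ℤ) + r) := by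
    refine ⟨(r % M).toNat, ?_, Or.inl ?_⟩
    · have h1 : 0 ≤ r % M := Int.emod_nonneg r hMz.ne'
      have h2 : r % M ≠ 0 := fun h => hr (Int.dvd_of_emod_eq_zero h)
      omega
    · have h1 : 0 ≤ r % M := Int.emod_nonneg r hMz.ne'
      rw [Int.toNat_of_nonneg h1]
      exact ⟨-(r / M), by linarith [Int.emod_add_mul_ediv r M]⟩
  set ρ := Nat.find hex with hρdef
  obtain ⟨hρ1, hρ2⟩ := Nat.find_spec hex
  have hmin : ∀ x : ℕ, 1 ≤ x → x < ρ → ¬ ((M : ℤ) ∣ (x : ℤ) - r ∨ (M : ℤ) ∣ (x : ℤ) + r) :=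
    fun x hx1 hx hP => Nat.find_min hex hx ⟨hx1, hP⟩
  -- `ρ < M`
  have hρM : ρ < M := by
    have hw : (r % M).toNat < M := by
      have h1 : 0 ≤ r % M := Int.emod_nonneg r hMz.ne'
      have h2 : r % M < M := Int.emod_lt_of_pos r hMz
      omega
    have hle : ρ ≤ (r % M).toNat := by
      apply Nat.find_min' hex
      refine ⟨?_, Or.inl ?_⟩
      · have h1 : 0 ≤ r % M := Int.emod_nonneg r hMz.ne'
        have h2 : r % M ≠ 0 := fun h => hr (Int.dvd_of_emod_eq_zero h)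
        omega
      · have h1 : 0 ≤ r % M := Int.emod_nonneg r hMz.ne'
        rw [Int.toNat_of_nonneg h1]
        exact ⟨-(r / M), by linarith [Int.emod_add_mul_ediv r M]⟩
    omega
  -- `2 ρ ≤ M`
  have h2ρ : 2 * ρ ≤ M := by
    by_contra hlt
    have hlt' : M - ρ < ρ := by omega
    have h1 : 1 ≤ M - ρ := by omega
    apply hmin (M - ρ) h1 hlt'
    have hc : ((M - ρ : ℕ) : ℤ) = (M : ℤ) - ρ := by
      rw [Nat.cast_sub hρM.le]
    rw [hc]
    rcases hρ2 with ⟨k, hk⟩ | ⟨k, hk⟩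
    · right
      exact ⟨1 - k, by linarith⟩
    · left
      exact ⟨1 - k, by linarith⟩
  -- the weights below `ρ` vanish
  have hw1 : ∀ x : ℕ, 1 ≤ x → x < ρ → wt M r (x : ℤ) = 0 := by
    intro x hx1 hx
    rw [wt_eq_zero_iff, Ne, zmod_eq_iff]
    exact fun h => hmin x hx1 hx (Or.inl h)
  have hw2 : ∀ x : ℕ, 1 ≤ x → x < ρ → wt M (-r) (x : ℤ) = 0 := by
    intro x hx1 hx
    rw [wt_eq_zero_iff, Ne, zmod_eq_iff]
    intro h
    apply hmin x hx1 hx
    right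
    simpa [sub_neg_eq_add] using h
  have hzero : ∀ e < ρ, cN M r s e = 0 := by
    intro e he
    unfold cN
    rw [lamCoeff_eq_zero_of_lt _ _ he hw1, lamCoeff_eq_zero_of_lt _ _ he hw2]
    split_ifs
    · unfold cZ
      rw [wt_zero_of_not_dvd M hr]
      ring
    · ring
  have hval : cN M r s ρ = wt M r ρ * zetaM M ^ s + wt M (-r) ρ * zetaM M ^ (-s) := by
    unfold cN
    rw [lamCoeff_eq_of_min _ _ hρ1 hw1, lamCoeff_eq_of_min _ _ hρ1 hw2, if_neg (by omega),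
      add_zero]
  -- both weights are one iff `2 ρ = M`
  have hboth : ∀ {a : ℤ}, (M : ℤ) ∣ (ρ : ℤ) - a →
      ((M : ℤ) ∣ (ρ : ℤ) + a ↔ 2 * ρ = M) := by
    intro a ha
    constructor
    · intro hb
      have h2 : (M : ℤ) ∣ 2 * (ρ : ℤ) := by
        have := dvd_add ha hb
        rwa [show (ρ : ℤ) - a + (ρ + a) = 2 * ρ by ring] at this
      obtain ⟨k, hk⟩ := h2
      have hk1 : 0 < k := by
        by_contra hk0
        have : (M : ℤ) * k ≤ 0 := mul_nonpos_of_nonneg_of_nonpos hMz.le (not_lt.mp hk0)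
        have h3 : (0 : ℤ) < 2 * ρ := by exact_mod_cast (by omega : 0 < 2 * ρ)
        linarith
      have hk2 : k < 2 := by
        by_contra hk2
        have : (M : ℤ) * 2 ≤ M * k := mul_le_mul_of_nonneg_left (not_lt.mp hk2) hMz.le
        have h3 : (2 * ρ : ℤ) ≤ M := by exact_mod_cast h2ρ
        linarith
      have hk3 : k = 1 := by omega
      rw [hk3, mul_one] at hk
      exact_mod_cast hk
    · intro h2
      have h3 : (2 * ρ : ℤ) = M := by exact_mod_cast h2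
      obtain ⟨k, hk⟩ := ha
      exact ⟨1 - k, by linarith⟩
  refine ⟨ρ, hρ1, h2ρ, ?_⟩
  by_cases hplus : (M : ℤ) ∣ (ρ : ℤ) - r
  · refine ⟨s, Or.inl ⟨hplus, rfl⟩, hzero, ?_⟩
    rw [hval]
    have h1 : wt M r ρ = 1 := by rw [wt_eq_one_iff, zmod_eq_iff]; exact hplus
    rw [h1, one_mul]
    congr 1
    by_cases h2 : 2 * ρ = M
    · rw [if_pos h2]
      have : wt M (-r) ρ = 1 := by
        rw [wt_eq_one_iff, zmod_eq_iff]
        simpa [sub_neg_eq_add] using (hboth hplus).mpr h2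
      rw [this, one_mul]
    · rw [if_neg h2]
      have : wt M (-r) ρ = 0 := by
        rw [wt_eq_zero_iff, Ne, zmod_eq_iff]
        intro h
        exact h2 ((hboth hplus).mp (by simpa [sub_neg_eq_add] using h))
      rw [this, zero_mul]
  · have hminus : (M : ℤ) ∣ (ρ : ℤ) + r := by
      rcases hρ2 with h | h
      · exact absurd h hplus
      · exact h
    refine ⟨-s, Or.inr ⟨hminus, rfl⟩, hzero, ?_⟩
    rw [hval]
    have h1 : wt M r ρ = 0 := by rw [wt_eq_zero_iff, Ne, zmod_eq_iff]; exact hplus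
    have h2 : wt M (-r) ρ = 1 := by
      rw [wt_eq_one_iff, zmod_eq_iff]
      simpa [sub_neg_eq_add] using hminus
    have h3 : ¬ 2 * ρ = M := by
      intro h
      apply hplus
      have hm' : (M : ℤ) ∣ (ρ : ℤ) - (-r) := by simpa [sub_neg_eq_add] using hminus
      have := (hboth hm').mpr h
      rw [sub_eq_add_neg]
      exact this
    rw [h1, h2, if_neg h3]
    ring


/-! ### units among the leading coefficients -/

theorem unitOf_lead_two {x x' : ℤ} (h1 : ¬ (M : ℤ) ∣ x - x') (h2 : ¬ (M : ℤ) ∣ x + x') :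
    UnitOf (Rz M) (zetaM M ^ x + zetaM M ^ (-x) - (zetaM M ^ x' + zetaM M ^ (-x'))) := by
  have hz := zetaM_ne_zero M
  have e : zetaM M ^ x + zetaM M ^ (-x) - (zetaM M ^ x' + zetaM M ^ (-x'))
      = zetaM M ^ (-x) * ((zetaM M ^ x - zetaM M ^ x') * (zetaM M ^ x - zetaM M ^ (-x'))) := by
    have hx := zpow_ne_zero x hz
    have hx' := zpow_ne_zero x' hz
    rw [zpow_neg, zpow_neg]
    field_simp
    ring
  rw [e]
  refine (unitOf_zetaM_zpow M _).mul ((unitOf_zpow_sub_zpow M h1).mul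
    (unitOf_zpow_sub_zpow M ?_))
  rwa [sub_neg_eq_add]

theorem unitOf_cZ_val {s : ℤ} (hs : ¬ (M : ℤ) ∣ s) :
    UnitOf (Rz M) (zetaM M ^ s / (1 - zetaM M ^ s) ^ 2) :=
  (unitOf_zetaM_zpow M s).div ((unitOf_one_sub_zpow M hs).pow 2)

theorem unitOf_cZ_sub {s s' : ℤ} (hs : ¬ (M : ℤ) ∣ s) (hs' : ¬ (M : ℤ) ∣ s')
    (h1 : ¬ (M : ℤ) ∣ s - s') (h2 : ¬ (M : ℤ) ∣ s + s') :
    UnitOf (Rz M) (zetaM M ^ s / (1 - zetaM M ^ s) ^ 2
      - zetaM M ^ s' / (1 - zetaM M ^ s') ^ 2) := by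
  have u1 := unitOf_one_sub_zpow M hs
  have u2 := unitOf_one_sub_zpow M hs'
  have e : zetaM M ^ s / (1 - zetaM M ^ s) ^ 2 - zetaM M ^ s' / (1 - zetaM M ^ s') ^ 2
      = (zetaM M ^ s - zetaM M ^ s') * (1 - zetaM M ^ (s + s')) /
        ((1 - zetaM M ^ s) ^ 2 * (1 - zetaM M ^ s') ^ 2) := by
    have n1 := u1.ne_zero
    have n2 := u2.ne_zero
    rw [zpow_add₀ (zetaM_ne_zero M)]
    field_simp
    ring
  rw [e]
  exact ((unitOf_zpow_sub_zpow M h1).mul (unitOf_one_sub_zpow M h2)).div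
    ((u1.pow 2).mul (u2.pow 2))

omit [NeZero M] in
theorem cN_zero_of_dvd {r : ℤ} (hr : (M : ℤ) ∣ r) (s : ℤ) :
    cN M r s 0 = zetaM M ^ s / (1 - zetaM M ^ s) ^ 2 := by
  unfold cN cZ
  rw [lamCoeff_zero, lamCoeff_zero, if_pos rfl, (wt_zero_eq_one_iff M r).mpr hr]
  ring

/-- **LEAD-UNIT.**  The first nonzero coefficient of the `q_M`-expansion of a difference of
division values of `℘` is a unit of `ℤ[ζ_M, 1/M]`. -/
theorem lead_unit {r s r' s' : ℤ} (h1 : ¬ ((M : ℤ) ∣ r ∧ (M : ℤ) ∣ s))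
    (h2 : ¬ ((M : ℤ) ∣ r' ∧ (M : ℤ) ∣ s'))
    (h3 : ¬ ((M : ℤ) ∣ r - r' ∧ (M : ℤ) ∣ s - s'))
    (h4 : ¬ ((M : ℤ) ∣ r + r' ∧ (M : ℤ) ∣ s + s')) :
    ∃ e₀ : ℕ, (∀ e < e₀, cN M r s e - cN M r' s' e = 0) ∧
      UnitOf (Rz M) (cN M r s e₀ - cN M r' s' e₀) := by
  by_cases hr : (M : ℤ) ∣ r
  · have hs : ¬ (M : ℤ) ∣ s := fun h => h1 ⟨hr, h⟩
    refine ⟨0, fun e he => absurd he (Nat.not_lt_zero e), ?_⟩
    by_cases hr' : (M : ℤ) ∣ r'
    · have hs' : ¬ (M : ℤ) ∣ s' := fun h => h2 ⟨hr', h⟩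
      rw [cN_zero_of_dvd M hr, cN_zero_of_dvd M hr']
      exact unitOf_cZ_sub M hs hs' (fun h => h3 ⟨dvd_sub hr hr', h⟩)
        (fun h => h4 ⟨dvd_add hr hr', h⟩)
    · obtain ⟨ρ', hρ1', -, x', -, hz', -⟩ := exists_lead M hr' s'
      rw [cN_zero_of_dvd M hr, hz' 0 (by omega), sub_zero]
      exact unitOf_cZ_val M hs
  · obtain ⟨ρ, hρ1, h2ρ, x, hx, hz, hv⟩ := exists_lead M hr s
    by_cases hr' : (M : ℤ) ∣ r'
    · have hs' : ¬ (M : ℤ) ∣ s' := fun h => h2 ⟨hr', h⟩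
      refine ⟨0, fun e he => absurd he (Nat.not_lt_zero e), ?_⟩
      rw [cN_zero_of_dvd M hr', hz 0 (by omega), zero_sub]
      exact (unitOf_cZ_val M hs').neg
    · obtain ⟨ρ', hρ1', h2ρ', x', hx', hz', hv'⟩ := exists_lead M hr' s'
      rcases lt_trichotomy ρ ρ' with hlt | heq | hgt
      · refine ⟨ρ, fun e he => by rw [hz e he, hz' e (by omega), sub_zero], ?_⟩
        rw [hv, hz' ρ hlt, sub_zero, if_neg (by omega), add_zero]
        exact unitOf_zetaM_zpow M x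
      · subst heq
        refine ⟨ρ, fun e he => by rw [hz e he, hz' e he, sub_zero], ?_⟩
        -- the two congruence facts
        have c1 : ¬ (M : ℤ) ∣ x - x' := by
          intro hd
          rcases hx with ⟨ha, hxs⟩ | ⟨ha, hxs⟩ <;> rcases hx' with ⟨hb, hxs'⟩ | ⟨hb, hxs'⟩ <;>
            rw [hxs, hxs'] at hd
          · exact h3 ⟨by have := dvd_sub hb ha; rwa [show (ρ : ℤ) - r' - (ρ - r) = r - r' by ring] at this, hd⟩
          · exact h4 ⟨by have := dvd_sub hb ha; rwa [show (ρ : ℤ) + r' - (ρ - r) = r + r' by ring] at this,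
              by rwa [sub_neg_eq_add] at hd⟩
          · exact h4 ⟨by have := dvd_sub ha hb; rwa [show (ρ : ℤ) + r - (ρ - r') = r + r' by ring] at this,
              by have := (dvd_neg (a := (M : ℤ))).mpr hd; rwa [show -(-s - s') = s + s' by ring] at this⟩
          · exact h3 ⟨by have := dvd_sub ha hb; rwa [show (ρ : ℤ) + r - (ρ + r') = r - r' by ring] at this,
              by have := (dvd_neg (a := (M : ℤ))).mpr hd; rwa [show -(-s - -s') = s - s' by ring] at this⟩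
        have c2 : 2 * ρ = M → ¬ (M : ℤ) ∣ x + x' := by
          intro h2M hd
          have hM2 : (M : ℤ) ∣ 2 * (ρ : ℤ) := ⟨1, by rw [mul_one]; exact_mod_cast h2M⟩
          rcases hx with ⟨ha, hxs⟩ | ⟨ha, hxs⟩ <;> rcases hx' with ⟨hb, hxs'⟩ | ⟨hb, hxs'⟩ <;>
            rw [hxs, hxs'] at hd
          · exact h4 ⟨by have := dvd_sub hM2 (dvd_add ha hb); rwa [show 2 * (ρ : ℤ) - (ρ - r + (ρ - r')) = r + r' by ring] at this, hd⟩
          · exact h3 ⟨by have := dvd_sub hM2 (dvd_add ha hb); rwa [show 2 * (ρ : ℤ) - (ρ - r + (ρ + r')) = r - r' by ring] at this,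
              by rwa [← sub_eq_add_neg] at hd⟩
          · exact h3 ⟨by have := dvd_sub (dvd_add ha hb) hM2; rwa [show (ρ : ℤ) + r + (ρ - r') - 2 * ρ = r - r' by ring] at this,
              by have := (dvd_neg (a := (M : ℤ))).mpr hd; rwa [show -(-s + s') = s - s' by ring] at this⟩
          · exact h4 ⟨by have := dvd_sub (dvd_add ha hb) hM2; rwa [show (ρ : ℤ) + r + (ρ + r') - 2 * ρ = r + r' by ring] at this,
              by have := (dvd_neg (a := (M : ℤ))).mpr hd; rwa [show -(-s + -s') = s + s' by ring] at this⟩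
        rw [hv, hv']
        by_cases h2M : 2 * ρ = M
        · rw [if_pos h2M, if_pos h2M]
          exact unitOf_lead_two M c1 (c2 h2M)
        · rw [if_neg h2M, if_neg h2M, add_zero, add_zero]
          exact unitOf_zpow_sub_zpow M c1
      · refine ⟨ρ', fun e he => by rw [hz e (by omega), hz' e he, sub_zero], ?_⟩
        rw [hv', hz ρ' hgt, zero_sub, if_neg (by omega), add_zero]
        exact (unitOf_zetaM_zpow M x').neg


end Fermat.Agent.T4.helper55
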