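import Fermat.Agent.T4.helper55_WpInt2

/-!
# T4 (I) / I-FLD [I-FLD-INT], part 3 (helper55): `S`-forms of the integrality and of the unit
leading coefficient

For ANY subring `S` of `ℂ` containing `zetaM M` and `(M : ℂ)⁻¹` (the shape consumed by the
analytic ring `B_S` of helper32 / by the membership wiring of helper44):

* `Rz_le` : `Rz M ≤ S`; `UnitOf.mono`;
* `cN_mem_of`, `cDiv_sub_mem_of` : every coefficient of the expansion of a difference of two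
  division values is `(2 π i)² ·` (an element of `S`);
* `lead_unit_of` : the first nonzero coefficient is `(2 π i)² ·` (a unit of `S`);
* `leadUnit_of` : the two statements packaged in ONE proposition (the announced shape of
  `helper44.LeadUnit M S`).
-/

set_option autoImplicit false

noncomputable section

open Complex Filter Topology
open scoped Real UpperHalfPlane

namespace Fermat.Agent.T4.helper55

open Fermat.Agent.T4.helper44 (zetaM wt cDiv cZero lamCoeff)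

variable (M : ℕ) [NeZero M]

omit [NeZero M] in
/-- `ℤ[ζ_M, 1/M]` is contained in every subring containing `ζ_M` and `1/M`. -/
theorem Rz_le {S : Subring ℂ} (hz : zetaM M ∈ S) (hM : (M : ℂ)⁻¹ ∈ S) : Rz M ≤ S := by
  refine Subring.closure_le.2 ?_
  intro x hx
  rcases hx with hx | hx
  · rw [hx]; exact hz
  · rw [Set.mem_singleton_iff.1 hx]; exact hM

theorem UnitOf.mono {R S : Subring ℂ} (h : R ≤ S) {x : ℂ} (hx : UnitOf R x) : UnitOf S x := by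
  obtain ⟨h1, y, hy, hxy⟩ := hx
  exact ⟨h h1, y, h hy, hxy⟩

/-- **Integrality, `S`-form.** -/
theorem cN_mem_of {S : Subring ℂ} (hz : zetaM M ∈ S) (hM : (M : ℂ)⁻¹ ∈ S) {r s : ℤ}
    (h : ¬ ((M : ℤ) ∣ r ∧ (M : ℤ) ∣ s)) (e : ℕ) : cN M r s e ∈ S :=
  Rz_le M hz hM (cN_mem M h e)

/-- every coefficient of a difference is `(2 π i)²` times an element of `S` -/
theorem cDiv_sub_mem_of {S : Subring ℂ} (hz : zetaM M ∈ S) (hM : (M : ℂ)⁻¹ ∈ S) {r s r' s' : ℤ}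
    (h1 : ¬ ((M : ℤ) ∣ r ∧ (M : ℤ) ∣ s)) (h2 : ¬ ((M : ℤ) ∣ r' ∧ (M : ℤ) ∣ s')) (e : ℕ) :
    ∃ c ∈ S, cDiv M r s e - cDiv M r' s' e = (2 * π * I) ^ 2 * c :=
  ⟨cN M r s e - cN M r' s' e, S.sub_mem (cN_mem_of M hz hM h1 e) (cN_mem_of M hz hM h2 e), by
    rw [cDiv_eq M h1, cDiv_eq M h2, mul_sub]⟩

/-- **Unit leading coefficient, `S`-form.** -/
theorem lead_unit_of {S : Subring ℂ} (hz : zetaM M ∈ S) (hM : (M : ℂ)⁻¹ ∈ S) {r s r' s' : ℤ}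
    (h1 : ¬ ((M : ℤ) ∣ r ∧ (M : ℤ) ∣ s)) (h2 : ¬ ((M : ℤ) ∣ r' ∧ (M : ℤ) ∣ s'))
    (h3 : ¬ ((M : ℤ) ∣ r - r' ∧ (M : ℤ) ∣ s - s'))
    (h4 : ¬ ((M : ℤ) ∣ r + r' ∧ (M : ℤ) ∣ s + s')) :
    ∃ e₀ : ℕ, (∀ e < e₀, cN M r s e - cN M r' s' e = 0) ∧
      UnitOf S (cN M r s e₀ - cN M r' s' e₀) := by
  obtain ⟨e₀, h5, h6⟩ := lead_unit M h1 h2 h3 h4
  exact ⟨e₀, h5, h6.mono (Rz_le M hz hM)⟩

/-- **[FRICKE-LEAD], packaged**: for every subring `S ∋ ζ_M, 1/M` and all pairs of division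
points with `(r, s), (r', s') ≢ 0` and `(r, s) ≢ ± (r', s')` modulo `M`, the coefficients
`cDiv M r s e - cDiv M r' s' e` of the `q_M`-expansion of `℘(v) - ℘(w)` lie in `(2 π i)² S`, and
the first nonzero one is `(2 π i)² ·` a unit of `S`. -/
theorem leadUnit_of {S : Subring ℂ} (hz : zetaM M ∈ S) (hM : (M : ℂ)⁻¹ ∈ S) :
    ∀ r s r' s' : ℤ, ¬ ((M : ℤ) ∣ r ∧ (M : ℤ) ∣ s) → ¬ ((M : ℤ) ∣ r' ∧ (M : ℤ) ∣ s') →
      ¬ ((M : ℤ) ∣ r - r' ∧ (M : ℤ) ∣ s - s') → ¬ ((M : ℤ) ∣ r + r' ∧ (M : ℤ) ∣ s + s') →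
      ∃ n : ℕ, ∃ u ∈ S, ∃ v ∈ S, u * v = 1 ∧
        (∀ e < n, cDiv M r s e - cDiv M r' s' e = 0) ∧
        cDiv M r s n - cDiv M r' s' n = (2 * π * I) ^ 2 * u ∧
        ∀ e, ∃ c ∈ S, cDiv M r s e - cDiv M r' s' e = (2 * π * I) ^ 2 * c := by
  intro r s r' s' h1 h2 h3 h4
  obtain ⟨n, h5, h6, v, hv, huv⟩ := lead_unit_of M hz hM h1 h2 h3 h4
  refine ⟨n, _, h6, v, hv, huv, fun e he => ?_, ?_, fun e => cDiv_sub_mem_of M hz hM h1 h2 e⟩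
  · rw [cDiv_eq M h1, cDiv_eq M h2, ← mul_sub, h5 e he, mul_zero]
  · rw [cDiv_eq M h1, cDiv_eq M h2, mul_sub]

/-- the version for `Rz M = ℤ[ζ_M, 1/M]` itself -/
theorem leadUnit_Rz :
    ∀ r s r' s' : ℤ, ¬ ((M : ℤ) ∣ r ∧ (M : ℤ) ∣ s) → ¬ ((M : ℤ) ∣ r' ∧ (M : ℤ) ∣ s') →
      ¬ ((M : ℤ) ∣ r - r' ∧ (M : ℤ) ∣ s - s') → ¬ ((M : ℤ) ∣ r + r' ∧ (M : ℤ) ∣ s + s') →
      ∃ n : ℕ, ∃ u ∈ Rz M, ∃ v ∈ Rz M, u * v = 1 ∧
        (∀ e < n, cDiv M r s e - cDiv M r' s' e = 0) ∧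
        cDiv M r s n - cDiv M r' s' n = (2 * π * I) ^ 2 * u ∧
        ∀ e, ∃ c ∈ Rz M, cDiv M r s e - cDiv M r' s' e = (2 * π * I) ^ 2 * c :=
  leadUnit_of M (zetaM_mem M) (inv_M_mem M)

/-! ### vanishing of the coefficients outside the multiples of `D` (Hermite form of a translate)

If `D ∣ M` and `D ∣ r`, then `cN M r s e = 0` unless `D ∣ e`: in the Hermite form
`diag(M,1) g = δ (A B; 0 D)` the translate of a division value is a division value `(r, s)` with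
`D ∣ r` at `(A τ + B)/D`, so only the powers `q_M((A τ + B)/D)^(D m) = ζ_M^(B m) t^(A m)` occur. -/

omit [NeZero M] in
theorem lamCoeff_eq_zero_of_not_dvd (u : ℂ) (w : ℕ → ℂ) {D e : ℕ}
    (hw : ∀ x : ℕ, ¬ D ∣ x → w x = 0) (he : ¬ D ∣ e) : lamCoeff u w e = 0 := by
  unfold lamCoeff
  refine Finset.sum_eq_zero fun x hx => ?_
  rw [Nat.mem_divisorsAntidiagonal] at hx
  have h1 : ¬ D ∣ x.1 := fun h => he (hx.1 ▸ Dvd.dvd.mul_right h x.2)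
  rw [hw x.1 h1, zero_mul, zero_mul]

omit [NeZero M] in
theorem wt_eq_zero_of_not_dvd {D : ℕ} (hDM : D ∣ M) {r : ℤ} (hr : (D : ℤ) ∣ r) {x : ℤ}
    (hx : ¬ (D : ℤ) ∣ x) : wt M r x = 0 := by
  rw [wt_eq_zero_iff, Ne, zmod_eq_iff]
  intro h
  apply hx
  have h2 : (D : ℤ) ∣ x - r := dvd_trans (Int.natCast_dvd_natCast.2 hDM) h
  have h3 := dvd_add h2 hr
  rwa [sub_add_cancel] at h3

omit [NeZero M] in
/-- **the coefficients of a division value `(r, s)` with `D ∣ r` (`D ∣ M`) vanish outside the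
multiples of `D`** -/
theorem cN_eq_zero_of_not_dvd {D : ℕ} (hDM : D ∣ M) {r : ℤ} (hr : (D : ℤ) ∣ r) (s : ℤ) {e : ℕ}
    (he : ¬ D ∣ e) : cN M r s e = 0 := by
  have he0 : e ≠ 0 := fun h => he (h ▸ dvd_zero D)
  unfold cN
  rw [if_neg he0, add_zero,
    lamCoeff_eq_zero_of_not_dvd _ _ (fun x hx => wt_eq_zero_of_not_dvd M hDM hr
      (fun h => hx (Int.natCast_dvd_natCast.1 h))) he,
    lamCoeff_eq_zero_of_not_dvd _ _ (fun x hx => wt_eq_zero_of_not_dvd M hDM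
      ((dvd_neg (a := (D : ℤ)) (b := r)).2 hr)
      (fun h => hx (Int.natCast_dvd_natCast.1 h))) he, add_zero]

omit [NeZero M] in
theorem cDiv_eq_zero_of_not_dvd {D : ℕ} (hDM : D ∣ M) {r : ℤ} (hr : (D : ℤ) ∣ r) (s : ℤ)
    {e : ℕ} (he : ¬ D ∣ e) : cDiv M r s e = 0 := by
  have he0 : e ≠ 0 := fun h => he (h ▸ dvd_zero D)
  have h := cN_eq_zero_of_not_dvd M hDM hr s he
  unfold cN at h
  unfold cDiv
  rw [if_neg he0, add_zero] at h ⊢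
  rw [h, mul_zero]

/-- **Unit leading coefficient at a multiple of `D`** (`S`-form, Hermite re-indexing): if `D ∣ M`
and `D ∣ r, r'`, the first nonzero coefficient of the difference sits at an index `D * m`. -/
theorem lead_unit_dvd_of {S : Subring ℂ} (hz : zetaM M ∈ S) (hM : (M : ℂ)⁻¹ ∈ S) {D : ℕ}
    (hDM : D ∣ M) {r s r' s' : ℤ} (hr : (D : ℤ) ∣ r) (hr' : (D : ℤ) ∣ r')
    (h1 : ¬ ((M : ℤ) ∣ r ∧ (M : ℤ) ∣ s)) (h2 : ¬ ((M : ℤ) ∣ r' ∧ (M : ℤ) ∣ s'))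
    (h3 : ¬ ((M : ℤ) ∣ r - r' ∧ (M : ℤ) ∣ s - s'))
    (h4 : ¬ ((M : ℤ) ∣ r + r' ∧ (M : ℤ) ∣ s + s')) :
    ∃ m : ℕ, (∀ e < D * m, cN M r s e - cN M r' s' e = 0) ∧
      (∀ e, ¬ D ∣ e → cN M r s e - cN M r' s' e = 0) ∧
      UnitOf S (cN M r s (D * m) - cN M r' s' (D * m)) := by
  obtain ⟨e₀, h5, h6⟩ := lead_unit_of M hz hM h1 h2 h3 h4
  have hv : ∀ e, ¬ D ∣ e → cN M r s e - cN M r' s' e = 0 := fun e he => by
    rw [cN_eq_zero_of_not_dvd M hDM hr s he, cN_eq_zero_of_not_dvd M hDM hr' s' he, sub_zero]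
  have hd : D ∣ e₀ := by
    by_contra h
    exact h6.ne_zero (hv e₀ h)
  obtain ⟨m, rfl⟩ := hd
  exact ⟨m, h5, hv, h6⟩

end Fermat.Agent.T4.helper55
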