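import Fermat.Agent.T4.helper55_WpDiv
import Fermat.Agent.T4.helper55_InvGrowth
import Fermat.Agent.T4.helper44_WpInj

/-!
# T4 (I) / [I-FLD-WP5] part 3 (helper55): modular behaviour of the `℘`-differences at division
points

* `dD_ne_zero` : `dD N a b a' b'` is nowhere zero on `ℍ` when the two points are non-zero and
  different modulo `±` and the lattice (helper44's injectivity of `℘`);
* `weierstrassP_smul` : `℘` depends only on the lattice and is homogeneous of degree `-2`;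
* `dD_smul` : `dD N v w (g τ) = (c τ + d)² dD N (v g) (w g) τ` for `g ∈ SL(2, ℤ)`;
* `inv_dD_isBigO` : `1 / dD` has at most exponential growth at `i∞`.
-/

set_option autoImplicit false

noncomputable section

open Complex Filter Topology PeriodPair Asymptotics
open scoped Real UpperHalfPlane Manifold MatrixGroups

namespace Fermat.Agent.T4.helper55

/-- membership of a division point in the lattice `⟨1, τ⟩` -/
theorem div_mem_pp_lattice_iff {N : ℕ} (hN : 0 < N) (a b : ℤ) (τ : ℍ) :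
    ((a : ℂ) * τ + b) / N ∈ (pp τ).lattice ↔ (N : ℤ) ∣ a ∧ (N : ℤ) ∣ b := by
  have hN' : (N : ℂ) ≠ 0 := by exact_mod_cast hN.ne'
  have hNr : (N : ℝ) ≠ 0 := by exact_mod_cast hN.ne'
  rw [mem_pp_lattice]
  constructor
  · rintro ⟨m, n, h⟩
    have h1 : ((m : ℂ) + n * τ) * N = (a : ℂ) * τ + b := by
      rw [h]; field_simp
    have him := congrArg Complex.im h1
    have hre := congrArg Complex.re h1
    simp only [mul_im, add_im, intCast_im, intCast_re, natCast_re, natCast_im, mul_zero,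
      add_zero, zero_add, zero_mul, UpperHalfPlane.coe_im, add_re, mul_re, sub_zero,
      UpperHalfPlane.coe_re] at him hre
    have hτ := τ.im_pos
    have ha : (n : ℝ) * N = a := by
      have : ((n : ℝ) * N - a) * τ.im = 0 := by linarith
      rcases mul_eq_zero.mp this with h0 | h0
      · linarith
      · exact absurd h0 hτ.ne'
    have hb : (m : ℝ) * N = b := by
      have e : (n : ℝ) * τ.re * N = a * τ.re := by rw [← ha]; ring
      linarith
    refine ⟨⟨n, ?_⟩, ⟨m, ?_⟩⟩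
    · have : (a : ℝ) = ((N * n : ℤ) : ℝ) := by push_cast; linarith
      exact_mod_cast this
    · have : (b : ℝ) = ((N * m : ℤ) : ℝ) := by push_cast; linarith
      exact_mod_cast this
  · rintro ⟨⟨n, rfl⟩, ⟨m, rfl⟩⟩
    refine ⟨m, n, ?_⟩
    push_cast
    field_simp
    ring

/-- **Nowhere zero.** -/
theorem dD_ne_zero {N : ℕ} (hN : 0 < N) {a b a' b' : ℤ}
    (h1 : ¬ ((N : ℤ) ∣ a ∧ (N : ℤ) ∣ b)) (h2 : ¬ ((N : ℤ) ∣ a' ∧ (N : ℤ) ∣ b'))
    (h3 : ¬ ((N : ℤ) ∣ a - a' ∧ (N : ℤ) ∣ b - b'))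
    (h4 : ¬ ((N : ℤ) ∣ a + a' ∧ (N : ℤ) ∣ b + b')) (τ : ℍ) :
    dD N a b a' b' τ ≠ 0 := by
  intro h
  have hN' : (N : ℂ) ≠ 0 := by exact_mod_cast hN.ne'
  have hu : ((a : ℂ) * τ + b) / N ∉ (pp τ).lattice := by
    rw [div_mem_pp_lattice_iff hN]; exact h1
  have hv : ((a' : ℂ) * τ + b') / N ∉ (pp τ).lattice := by
    rw [div_mem_pp_lattice_iff hN]; exact h2
  have heq : ℘[pp τ] (((a : ℂ) * τ + b) / N) = ℘[pp τ] (((a' : ℂ) * τ + b') / N) :=
    sub_eq_zero.mp h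
  rcases Fermat.Agent.T4.helper44.weierstrassP_eq_iff_sub_or_add_mem (pp τ) hu hv heq with h5 | h5
  · apply h3
    rw [← div_mem_pp_lattice_iff hN (a - a') (b - b') τ]
    convert h5 using 1
    push_cast
    field_simp
    ring
  · apply h4
    rw [← div_mem_pp_lattice_iff hN (a + a') (b + b') τ]
    convert h5 using 1
    push_cast
    field_simp
    ring



/-- `℘` depends only on the lattice and is homogeneous of degree `-2` -/
theorem weierstrassP_smul (L₁ L₂ : PeriodPair) (c : ℂ) (hc : c ≠ 0)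
    (h : ∀ x : ℂ, x ∈ L₁.lattice ↔ c * x ∈ L₂.lattice) (z : ℂ) :
    ℘[L₂] (c * z) = (c ^ 2)⁻¹ * ℘[L₁] z := by
  let e : L₁.lattice ≃ L₂.lattice :=
    { toFun := fun l => ⟨c * l, (h l).mp l.2⟩
      invFun := fun l => ⟨c⁻¹ * l, (h _).mpr (by rw [mul_inv_cancel_left₀ hc]; exact l.2)⟩
      left_inv := fun l => Subtype.ext (by simp [hc])
      right_inv := fun l => Subtype.ext (by simp [hc]) }
  have h1 := (L₁.hasSum_weierstrassP z).mul_left ((c ^ 2)⁻¹)
  have h2 := e.hasSum_iff.mpr (L₂.hasSum_weierstrassP (c * z))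
  refine h2.unique ?_
  refine h1.congr_fun ?_ |>.mono_left le_rfl
  intro l
  simp only [Function.comp_apply, e, Equiv.coe_fn_mk]
  rw [← mul_sub, mul_pow, mul_pow]
  simp only [one_div, mul_inv]
  ring

theorem weierstrassP_congr_lattice (L₁ L₂ : PeriodPair) (h : L₁.lattice = L₂.lattice) (z : ℂ) :
    ℘[L₂] z = ℘[L₁] z := by
  have := weierstrassP_smul L₁ L₂ 1 one_ne_zero (fun x => by rw [one_mul, h]) z
  simpa using this


theorem coe_SL_smul (g : SL(2, ℤ)) (τ : ℍ) :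
    ((g • τ : ℍ) : ℂ) = ((g 0 0 : ℂ) * τ + g 0 1) / ((g 1 0 : ℂ) * τ + g 1 1) := by
  rw [UpperHalfPlane.coe_specialLinearGroup_apply]
  simp

theorem SL_denom_ne_zero (g : SL(2, ℤ)) (τ : ℍ) : (g 1 0 : ℂ) * τ + g 1 1 ≠ 0 := by
  have := UpperHalfPlane.denom_ne_zero g τ
  rwa [ModularGroup.denom_apply] at this

theorem SL_det (g : SL(2, ℤ)) : g 0 0 * g 1 1 - g 0 1 * g 1 0 = 1 := by
  have := g.det_coe
  rwa [Matrix.det_fin_two] at this

theorem pp_lattice_smul (g : SL(2, ℤ)) (τ : ℍ) (x : ℂ) :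
    x ∈ (pp (g • τ)).lattice ↔ ((g 1 0 : ℂ) * τ + g 1 1) * x ∈ (pp τ).lattice := by
  have hc := SL_denom_ne_zero g τ
  have hdet : (g 0 0 : ℂ) * g 1 1 - g 0 1 * g 1 0 = 1 := by exact_mod_cast SL_det g
  rw [mem_pp_lattice, mem_pp_lattice, coe_SL_smul]
  constructor
  · rintro ⟨m, n, rfl⟩
    refine ⟨m * g 1 1 + n * g 0 1, m * g 1 0 + n * g 0 0, ?_⟩
    push_cast
    field_simp
    ring
  · rintro ⟨p, q, h⟩
    refine ⟨p * g 0 0 - q * g 0 1, q * g 1 1 - p * g 1 0, ?_⟩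
    have hx : x = ((p : ℂ) + q * τ) / ((g 1 0 : ℂ) * τ + g 1 1) := by
      rw [h]; field_simp
    rw [hx]
    push_cast
    field_simp
    linear_combination ((p : ℂ) + q * τ) * hdet

/-- the value of `℘` at a division point transforms with weight `2` -/
theorem wp_div_smul (N : ℕ) (hN : 0 < N) (a b : ℤ) (g : SL(2, ℤ)) (τ : ℍ) :
    ℘[pp (g • τ)] (((a : ℂ) * (g • τ : ℍ) + b) / N) =
      ((g 1 0 : ℂ) * τ + g 1 1) ^ 2 *
        ℘[pp τ] ((((a * g 0 0 + b * g 1 0 : ℤ) : ℂ) * τ + ((a * g 0 1 + b * g 1 1 : ℤ) : ℂ)) / N) := by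
  have hc := SL_denom_ne_zero g τ
  have hN' : (N : ℂ) ≠ 0 := by exact_mod_cast hN.ne'
  have h := weierstrassP_smul (pp (g • τ)) (pp τ) _ hc (pp_lattice_smul g τ)
    (((a : ℂ) * (g • τ : ℍ) + b) / N)
  have harg : ((g 1 0 : ℂ) * τ + g 1 1) * (((a : ℂ) * (g • τ : ℍ) + b) / N) =
      (((a * g 0 0 + b * g 1 0 : ℤ) : ℂ) * τ + ((a * g 0 1 + b * g 1 1 : ℤ) : ℂ)) / N := by
    rw [coe_SL_smul]
    push_cast
    field_simp
    ring
  rw [harg] at h
  rw [h, ← mul_assoc, mul_inv_cancel₀ (pow_ne_zero 2 hc), one_mul]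

/-- **Transformation law under `SL(2, ℤ)`.** -/
theorem dD_smul (N : ℕ) (hN : 0 < N) (a b a' b' : ℤ) (g : SL(2, ℤ)) (τ : ℍ) :
    dD N a b a' b' (g • τ) = ((g 1 0 : ℂ) * τ + g 1 1) ^ 2 *
      dD N (a * g 0 0 + b * g 1 0) (a * g 0 1 + b * g 1 1)
        (a' * g 0 0 + b' * g 1 0) (a' * g 0 1 + b' * g 1 1) τ := by
  simp only [dD]
  rw [wp_div_smul N hN, wp_div_smul N hN, mul_sub]


/-- **Inverse growth.** -/
theorem inv_dD_isBigO {N : ℕ} (hN : 0 < N) {a b a' b' : ℤ}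
    (hne : ∃ τ, dD N a b a' b' τ ≠ 0) :
    ∃ n : ℕ, (fun τ : ℍ => (dD N a b a' b' τ)⁻¹) =O[UpperHalfPlane.atImInfty]
      fun τ : ℍ => Real.exp (2 * π * n * τ.im) := by
  have hb : (dD N a b a' b') =O[UpperHalfPlane.atImInfty]
      fun τ : ℍ => Real.exp (2 * π * ((0 : ℕ) : ℝ) * τ.im) := by
    have h := isBoundedAtImInfty_dD N hN a b a' b'
    rw [UpperHalfPlane.IsBoundedAtImInfty, BoundedAtFilter] at h
    refine h.congr_right fun τ => ?_
    simp
  exact inv_isBigO_of_periodic_of_isBigO_exp hN (dD_vadd N hN a b a' b')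
    (mdiff_dD N hN a b a' b') hb hne

end Fermat.Agent.T4.helper55
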