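import Mathlib

/-!
# T4 (I) / [I-FLD-WP5] part 1 (helper55): row expansion of differences of `℘`

For the lattice `⟨1, τ⟩` (`pp τ`) and ARBITRARY `u v : ℂ`:
`℘(u) - ℘(v) = ∑_{n ∈ ℤ} (S(u + n τ) - S(v + n τ))`, `S(z) = ∑_{m ∈ ℤ} (z + m)⁻²` (`rowS`),
and for `Im z ≠ 0`: `S(z) = -4π² T(e(± z))`, `T(w) = w / (1 - w)²` (`Tq`), with the bound
`‖S(z)‖ ≤ 4π² r / (1 - r)²`, `r = exp(-2π |Im z|)`.
-/

set_option autoImplicit false

noncomputable section

open Complex Filter Topology PeriodPair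
open scoped Real UpperHalfPlane

namespace Fermat.Agent.T4.helper55

/-- the period pair `⟨1, τ⟩` -/
def pp (τ : ℍ) : PeriodPair where
  ω₁ := 1
  ω₂ := (τ : ℂ)
  indep := by
    rw [LinearIndependent.pair_iff]
    intro s t h
    have him := congrArg Complex.im h
    have hre := congrArg Complex.re h
    simp only [real_smul, mul_one, add_im, ofReal_im, mul_im, ofReal_re, zero_mul, add_zero,
      zero_add, zero_im, add_re, mul_re, sub_zero, zero_re] at him hre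
    have ht : t = 0 := by
      rcases mul_eq_zero.mp him with h0 | h0
      · exact h0
      · exact absurd h0 τ.im_pos.ne'
    subst ht
    simp only [zero_mul, add_zero] at hre
    exact ⟨hre, rfl⟩

@[simp] theorem pp_ω₁ (τ : ℍ) : (pp τ).ω₁ = 1 := rfl
@[simp] theorem pp_ω₂ (τ : ℍ) : (pp τ).ω₂ = (τ : ℂ) := rfl

theorem mem_pp_lattice {τ : ℍ} {x : ℂ} :
    x ∈ (pp τ).lattice ↔ ∃ m n : ℤ, (m : ℂ) + n * τ = x := by
  rw [PeriodPair.mem_lattice]
  simp only [pp_ω₁, pp_ω₂, mul_one]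

/-- the row sum `S(z) = ∑_{m ∈ ℤ} (z + m)⁻²` -/
def rowS (z : ℂ) : ℂ := ∑' m : ℤ, 1 / (z + m) ^ 2

/-- `T(w) = w / (1 - w)²` -/
def Tq (w : ℂ) : ℂ := w / (1 - w) ^ 2

theorem summable_row (z : ℂ) : Summable fun m : ℤ => 1 / (z + m) ^ 2 := by
  have h := EisensteinSeries.linear_right_summable z 1 (k := 2) le_rfl
  refine h.congr fun m => ?_
  rw [Int.cast_one, one_mul, one_div]
  rfl

theorem hasSum_row (z : ℂ) : HasSum (fun m : ℤ => 1 / (z + m) ^ 2) (rowS z) :=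
  (summable_row z).hasSum

theorem rowS_neg (z : ℂ) : rowS (-z) = rowS z := by
  rw [rowS, rowS, ← (Equiv.neg ℤ).tsum_eq]
  refine tsum_congr fun m => ?_
  simp only [Equiv.neg_apply, Int.cast_neg]
  rw [show -z + -(m : ℂ) = -(z + m) by ring, neg_sq]

theorem rowS_add_int (z : ℂ) (k : ℤ) : rowS (z + k) = rowS z := by
  rw [rowS, rowS, ← (Equiv.addLeft k).tsum_eq (fun m : ℤ => 1 / (z + m) ^ 2)]
  refine tsum_congr fun m => ?_
  simp only [Equiv.coe_addLeft, Int.cast_add]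
  rw [add_assoc]

/-- the row expansion of a difference of `℘`-values -/
theorem hasSum_rows (τ : ℍ) (u v : ℂ) :
    HasSum (fun n : ℤ => rowS (u + n * τ) - rowS (v + n * τ)) (℘[pp τ] u - ℘[pp τ] v) := by
  have h1 := ((pp τ).hasSum_weierstrassP u).sub ((pp τ).hasSum_weierstrassP v)
  have h2 : HasSum (fun l : (pp τ).lattice => 1 / (u - l) ^ 2 - 1 / (v - l) ^ 2)
      (℘[pp τ] u - ℘[pp τ] v) := by
    refine h1.congr_fun ?_ |>.mono_left le_rfl
    intro l
    ring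
  let e : ℤ × ℤ ≃ (pp τ).lattice :=
    ((Equiv.prodComm ℤ ℤ).trans ((Equiv.neg ℤ).prodCongr (Equiv.neg ℤ))).trans
      (pp τ).latticeEquivProd.symm.toEquiv
  have he : ∀ n m : ℤ, ((e (n, m) : (pp τ).lattice) : ℂ) = -(m : ℂ) - n * τ := by
    intro n m
    have := (pp τ).latticeEquiv_symm_apply (-m, -n)
    simp only [pp_ω₁, pp_ω₂, mul_one, Int.cast_neg] at this
    simp only [e, Equiv.trans_apply, Equiv.prodComm_apply, Prod.swap_prod_mk,
      Equiv.prodCongr_apply, Prod.map_apply, Equiv.neg_apply, LinearEquiv.coe_toEquiv]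
    rw [this]
    ring
  have h3 := e.hasSum_iff.mpr h2
  refine h3.prod_fiberwise fun n => ?_
  have h4 := (hasSum_row (u + n * τ)).sub (hasSum_row (v + n * τ))
  refine h4.congr_fun ?_ |>.mono_left le_rfl
  intro m
  simp only [Function.comp_apply, he]
  rw [show u - (-(m : ℂ) - n * τ) = u + n * τ + m by ring,
    show v - (-(m : ℂ) - n * τ) = v + n * τ + m by ring]

theorem rowS_eq_of_im_pos {z : ℂ} (hz : 0 < z.im) :
    rowS z = -(4 * π ^ 2) * Tq (cexp (2 * π * I * z)) := by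
  have h := EisensteinSeries.qExpansion_identity (k := 1) le_rfl ⟨z, hz⟩
  have hw : ‖cexp (2 * π * I * z)‖ < 1 := UpperHalfPlane.norm_exp_two_pi_I_lt_one ⟨z, hz⟩
  have h2 := tsum_coe_mul_geometric_of_norm_lt_one hw
  rw [rowS, Tq, ← h2]
  simp only [Nat.reduceAdd, pow_one, Nat.factorial_one, Nat.cast_one,
    div_one] at h
  rw [h]
  congr 1
  rw [mul_pow, mul_pow, I_sq]
  ring

theorem rowS_eq_of_im_neg {z : ℂ} (hz : z.im < 0) :
    rowS z = -(4 * π ^ 2) * Tq (cexp (2 * π * I * (-z))) := by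
  rw [← rowS_neg]
  exact rowS_eq_of_im_pos (by simpa using hz)

theorem norm_Tq_le {w : ℂ} (hw : ‖w‖ < 1) : ‖Tq w‖ ≤ ‖w‖ / (1 - ‖w‖) ^ 2 := by
  rw [Tq, norm_div, norm_pow]
  have h1 : 1 - ‖w‖ ≤ ‖1 - w‖ := by
    have := norm_sub_norm_le (1 : ℂ) w
    simpa using this
  have h2 : 0 < 1 - ‖w‖ := by linarith
  gcongr

theorem norm_exp_two_pi_I_mul (z : ℂ) : ‖cexp (2 * π * I * z)‖ = Real.exp (-2 * π * z.im) := by
  rw [Complex.norm_exp]
  congr 1
  simp only [mul_re, re_ofNat, ofReal_re, im_ofNat, ofReal_im, mul_zero, sub_zero, I_re,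
    mul_im, zero_mul, add_zero, I_im, mul_one, sub_self, zero_sub]
  ring

/-- exponential decay of the row sums away from the real axis -/
theorem norm_rowS_le {z : ℂ} {ρ : ℝ} (hρ : ρ < 1)
    (hz : Real.exp (-2 * π * |z.im|) ≤ ρ) (hz0 : z.im ≠ 0) :
    ‖rowS z‖ ≤ 4 * π ^ 2 / (1 - ρ) ^ 2 * Real.exp (-2 * π * |z.im|) := by
  have key : ∀ {z : ℂ}, 0 < z.im → Real.exp (-2 * π * |z.im|) ≤ ρ →
      ‖rowS z‖ ≤ 4 * π ^ 2 / (1 - ρ) ^ 2 * Real.exp (-2 * π * |z.im|) := by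
    intro z hpos hz
    rw [abs_of_pos hpos] at hz ⊢
    rw [rowS_eq_of_im_pos hpos, norm_mul, norm_neg]
    have hn : ‖(4 * (π : ℂ) ^ 2)‖ = 4 * π ^ 2 := by
      rw [norm_mul, norm_pow, Complex.norm_real, Real.norm_of_nonneg Real.pi_pos.le]
      simp
    rw [hn]
    have hw : ‖cexp (2 * π * I * z)‖ = Real.exp (-2 * π * z.im) := norm_exp_two_pi_I_mul z
    have hw1 : ‖cexp (2 * π * I * z)‖ < 1 := by
      rw [hw]; exact lt_of_le_of_lt hz hρ
    have h1 := norm_Tq_le hw1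
    rw [hw] at h1
    have h2 : 0 < 1 - ρ := by linarith
    have h3 : 1 - ρ ≤ 1 - Real.exp (-2 * π * z.im) := by linarith
    have h4 : Real.exp (-2 * π * z.im) / (1 - Real.exp (-2 * π * z.im)) ^ 2 ≤
        Real.exp (-2 * π * z.im) / (1 - ρ) ^ 2 := by
      gcongr
    calc 4 * π ^ 2 * ‖Tq (cexp (2 * π * I * z))‖
        ≤ 4 * π ^ 2 * (Real.exp (-2 * π * z.im) / (1 - ρ) ^ 2) := by
          gcongr
          exact h1.trans h4
      _ = 4 * π ^ 2 / (1 - ρ) ^ 2 * Real.exp (-2 * π * z.im) := by ring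
  rcases lt_or_gt_of_ne hz0 with h | h
  · have h' : 0 < (-z).im := by simpa using h
    have := key h' (by simpa using hz)
    rw [rowS_neg] at this
    simpa using this
  · exact key h hz


end Fermat.Agent.T4.helper55
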