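import Mathlib
import Fermat.Agent.T4.helper92_KumWire1

/-!
# T4 block (I), [I-ES-KWIRE], corrected diamond leaf (helper57)

`helper92.DiamGood1Statement M A d` (every GOOD integral series of `F1 M` has an INTEGRAL
inverse diamond) is false for `d ≠ ± 1`: a good series may have a pole at a point which reduces
to the cusp `⟨d⟩ ∞`, and then its inverse diamond has a `q`-expansion with unbounded
denominators (`M = 9`, `d = 2`: `G = (s₄ - 1) / (1 + (ℓ + 1) (s₄ - 1))` is good and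
`σ⁻¹ G = 1 / (ℓ - (s₅ - 1))`).

The Kummer wiring of helper92 uses the diamond leaf only for the numerator and the denominator
of ONE representation `h = c y₁ / y₂` of the Kummer function.  The corrected leaf is

* `DiamScale1Statement M A d` **[DIAM-SCALE]**: every `h ≠ 0` of `F1 M` has a representation
  `c y₁ = h y₂` with `y₁`, `y₂` good and `(diamondAut M d)⁻¹ y₁`, `(diamondAut M d)⁻¹ y₂` good.

`kummerES1_of_diamScale` is the proof of `helper92.kummerES1_of` with `[SCALE1]` + `[DIAM-GOOD]`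
replaced by `[DIAM-SCALE]`; `p2Core1_of_leaves2` is the corresponding final wiring.
-/

set_option autoImplicit false
set_option linter.unusedSectionVars false
set_option linter.unusedVariables false
set_option linter.style.longLine false
set_option linter.style.haveILetI false

noncomputable section

open HahnSeries IntermediateField AlgebraicCurve ModularCurve
open Fermat.Agent.S18.helper19 (Kb kA)
open Fermat.Agent.P2.helper29 (incl red)
open Fermat.Agent.T4.helper32 Fermat.Agent.T4.helper4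
open Fermat.Agent.T4.helper92
open Fermat.Agent.P2.helper93 (IsRootDiv kum_exists_root kum_mk_eq_zero_of_ord decA decK actA
  coeffMap_subtype_actA coeffMap_residue_actA decK_eq_id_of_mem_inertia
  decK_eq_frobenius_of_isFrobeniusAt cw_coeffMap_injective norm_along_const charP_residueField
  coeffMap_subtype_injective)

namespace Fermat.Agent.T4.helper57

/-- **[DIAM-SCALE]** every nonzero function of `F1 M` is `c y₁ / y₂` with `y₁`, `y₂` good
integral series whose inverse diamonds are good integral series. -/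
def DiamScale1Statement (M : ℕ) (A : ValuationSubring Kb) (d : (ZMod M)ˣ) : Prop :=
  ∀ h : F1 M, h ≠ 0 →
    ∃ (c : Kb) (y₁ y₂ : F1 M) (a b a' b' : LaurentSeries (kA A)), c ≠ 0 ∧
      Lifts1 A M y₁ a ∧ Lifts1 A M y₂ b ∧ algebraMap Kb (F1 M) c * y₁ = h * y₂ ∧
      Lifts1 A M ((diamondAut M d).symm y₁) a' ∧ Lifts1 A M ((diamondAut M d).symm y₂) b'

/-- [DIAM-SCALE] contains [SCALE1]. -/
theorem scale_of_diamScale {M : ℕ} {A : ValuationSubring Kb} {d : (ZMod M)ˣ}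
    (hD : DiamScale1Statement M A d) : ScaleStatement A (F1 M) (F1b A M) := by
  intro f hf hf0
  obtain ⟨c, y₁, y₂, a, b, a', b', hc, ⟨Y₁, e1, e2, m1, n1⟩, ⟨Y₂, e1', e2', m2, n2⟩, e, -, -⟩ :=
    hD ⟨f, hf⟩ (fun h0 => hf0 (congrArg Subtype.val h0))
  refine ⟨c, Y₁, Y₂, hc, ⟨?_, ?_, ?_⟩, ⟨?_, ?_, ?_⟩, ?_⟩
  · show coeffMap A.subtype Y₁ ∈ F1 M
    rw [e1]; exact y₁.2
  · show coeffMap _ Y₁ ∈ _
    rw [e2]; exact m1
  · show coeffMap _ Y₁ ≠ 0
    rw [e2]; exact n1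
  · show coeffMap A.subtype Y₂ ∈ F1 M
    rw [e1']; exact y₂.2
  · show coeffMap _ Y₂ ∈ _
    rw [e2']; exact m2
  · show coeffMap _ Y₂ ≠ 0
    rw [e2']; exact n2
  · have := congrArg Subtype.val e
    show algebraMap Kb (LaurentSeries Kb) c * coeffMap A.subtype Y₁ = f * coeffMap A.subtype Y₂
    rw [e1, e1']
    exact this

/-- **[K-ES1]** the Eichler-Shimura part of the Kummer wiring for `X₁(M)` (convention [A]),
from the CORRECTED diamond leaf [DIAM-SCALE]. -/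
theorem kummerES1_of_diamScale (M p : ℕ)
    (hHI : ∀ (ℓ : ℕ) [NeZero ℓ], ℓ.Prime → ¬ ℓ ∣ M * p → Hecke1Inputs Kbar M ℓ)
    (hDS : ∀ (ℓ : ℕ) (hℓ : ℓ.Prime) (hℓMp : ¬ ℓ ∣ M * p) (A : ValuationSubring Kb),
      A.LiesOverPrime ℓ →
      DiamScale1Statement M A (unitOfPrime M ℓ hℓ (fun h => hℓMp (Dvd.dvd.mul_right h p))))
    (hES : ∀ (ℓ : ℕ) [NeZero ℓ] [Fact ℓ.Prime] (hℓ : ℓ.Prime) (hℓMp : ¬ ℓ ∣ M * p)
      (A : ValuationSubring Kb), A.LiesOverPrime ℓ →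
      EsRed1Statement M ℓ A (unitOfPrime M ℓ hℓ (fun h => hℓMp (Dvd.dvd.mul_right h p)))) :
    KummerES1Statement M p := by
  intro hINJ ℓ hℓ hℓMp A hA σ hF x hx
  obtain ⟨n, hx⟩ := hx
  haveI : Fact ℓ.Prime := ⟨hℓ⟩
  haveI : NeZero ℓ := ⟨hℓ.ne_zero⟩
  haveI : CharP (kA A) ℓ := charP_residueField hℓ hA
  have hp0 : p ≠ 0 := by
    rintro rfl
    exact hℓMp (by rw [mul_zero]; exact dvd_zero ℓ)
  set d := unitOfPrime M ℓ hℓ (fun h => hℓMp (Dvd.dvd.mul_right h p)) with hd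
  obtain ⟨D, rfl⟩ := Pic0.mk_surjective x
  obtain ⟨h, H⟩ := kum_exists_root hx
  obtain ⟨D1, e1, H1⟩ := kum_galois1 M σ H
  obtain ⟨D2, e2, H2⟩ := kum_galois1 M σ H1
  obtain ⟨D3, e3, H3⟩ := kum_hecke1 M ℓ hℓ (hHI ℓ hℓ hℓMp) H1
  obtain ⟨D4, e4, H4⟩ := kum_diamond1 M d H
  obtain ⟨hσ', hfr⟩ := decK_eq_frobenius_of_isFrobeniusAt (ℓ := ℓ) hF
  -- representation of `h` as `c y₁ / y₂`, compatible with the diamond
  obtain ⟨c, y₁, y₂, a, b, a', b', hc, l₁, l₂, e, l₁', l₂'⟩ := hDS ℓ hℓ hℓMp A hA h H.1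
  have R : Rep1 A M h a b := ⟨c, y₁, y₂, hc, l₁, l₂, e⟩
  have R' : Rep1 A M ((diamondAut M d).symm h) a' b' := by
    refine ⟨c, _, _, hc, l₁', l₂', ?_⟩
    have := congrArg (diamondAut M d).symm e
    rw [map_mul, map_mul, AlgEquiv.commutes] at this
    exact this
  -- Galois twists
  have g₁ := l₁.gal σ hσ'
  have g₂ := l₂.gal σ hσ'
  have g₁' := l₁'.gal σ hσ'
  have g₂' := l₂'.gal σ hσ'
  rw [hfr] at g₁ g₂ g₁' g₂'
  rw [← diamondAut_symm_galF1] at g₁' g₂'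
  -- the Hecke norms
  have n₁ := Lifts1.hecke ℓ (hES ℓ hℓ hℓMp A hA) l₁'.mem l₁'.bar_ne_zero g₁ g₁'
  have n₂ := Lifts1.hecke ℓ (hES ℓ hℓ hℓMp A hA) l₂'.mem l₂'.bar_ne_zero g₂ g₂'
  have R1 : Rep1 A M (galF1 M σ h) (coeffMap (frobenius (kA A) ℓ) a)
      (coeffMap (frobenius (kA A) ℓ) b) := by
    have := R.gal σ hσ'
    rwa [hfr] at this
  have R2 : Rep1 A M (galF1 M σ (galF1 M σ h))
      (coeffMap (frobenius (kA A) ℓ) (coeffMap (frobenius (kA A) ℓ) a))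
      (coeffMap (frobenius (kA A) ℓ) (coeffMap (frobenius (kA A) ℓ) b)) := by
    have := R1.gal σ hσ'
    rwa [hfr] at this
  have R3 : Rep1 A M (heckeNorm1 M ℓ (galF1 M σ h))
      (a' ^ ℓ * coeffMap (frobenius (kA A) ℓ) (coeffMap (frobenius (kA A) ℓ) a))
      (b' ^ ℓ * coeffMap (frobenius (kA A) ℓ) (coeffMap (frobenius (kA A) ℓ) b)) := by
    obtain ⟨dd, hdd⟩ := heckeNorm1_algebraMap M ℓ (σ c)
    refine ⟨(σ c) ^ dd, _, _, pow_ne_zero dd ((map_ne_zero σ).mpr hc), n₁, n₂, ?_⟩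
    have e' : algebraMap Kb (F1 M) (σ c) * galF1 M σ y₁ = galF1 M σ h * galF1 M σ y₂ := by
      rw [← galF1_algebraMap, ← map_mul, e, map_mul]
    rw [← hdd, ← heckeNorm1_mul, e', heckeNorm1_mul]
  have R4 := (R2.div R3).mul (R'.pow ℓ)
  have E4 : IsRootDiv (p ^ n) ((D2 - D3 + ℓ • D4 : Divisor.degZero (K := Kb) (F := F1 M)) :
      Divisor Kb (F1 M))
      (galF1 M σ (galF1 M σ h) / heckeNorm1 M ℓ (galF1 M σ h) *
        ((diamondAut M d).symm h) ^ ℓ) := by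
    rw [AddSubgroup.coe_add, AddSubgroup.coe_sub, AddSubgroup.coe_nsmul]
    exact (H2.div H3).mul (H4.pow ℓ)
  have hab : coeffMap (frobenius (kA A) ℓ) (coeffMap (frobenius (kA A) ℓ) a) *
        (b' ^ ℓ * coeffMap (frobenius (kA A) ℓ) (coeffMap (frobenius (kA A) ℓ) b)) * a' ^ ℓ
      = coeffMap (frobenius (kA A) ℓ) (coeffMap (frobenius (kA A) ℓ) b) *
        (a' ^ ℓ * coeffMap (frobenius (kA A) ℓ) (coeffMap (frobenius (kA A) ℓ) a)) * b' ^ ℓ := by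
    ring
  rw [hab] at R4
  have key := mk_eq_zero_of_rep1 (pow_ne_zero n hp0) (hINJ ℓ hℓ hℓMp A hA n) E4 R4
  rw [e1, e2, e3, e4]
  have hkey : (Pic0.mk (D2 - D3 + ℓ • D4) : J1 M) = Pic0.mk D2 - Pic0.mk D3 + ℓ • Pic0.mk D4 := rfl
  rw [← hkey]
  exact key

/-- **P2-CORE for `X₁(M)`** from (INJ1) and the three leaves [HI1], [DIAM-SCALE], [ES-RED1]. -/
theorem p2Core1_of_leaves2 (M p : ℕ)
    (hINJ : Inj1Statement M p)
    (hHI : ∀ (ℓ : ℕ) [NeZero ℓ], ℓ.Prime → ¬ ℓ ∣ M * p → Hecke1Inputs Kbar M ℓ)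
    (hDS : ∀ (ℓ : ℕ) (hℓ : ℓ.Prime) (hℓMp : ¬ ℓ ∣ M * p) (A : ValuationSubring Kb),
      A.LiesOverPrime ℓ →
      DiamScale1Statement M A (unitOfPrime M ℓ hℓ (fun h => hℓMp (Dvd.dvd.mul_right h p))))
    (hES : ∀ (ℓ : ℕ) [NeZero ℓ] [Fact ℓ.Prime] (hℓ : ℓ.Prime) (hℓMp : ¬ ℓ ∣ M * p)
      (A : ValuationSubring Kb), A.LiesOverPrime ℓ →
      EsRed1Statement M ℓ A (unitOfPrime M ℓ hℓ (fun h => hℓMp (Dvd.dvd.mul_right h p)))) :
    P2Core1Statement M p :=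
  p2Core1_of M p
    (kummerUnr1_of M p (fun ℓ hℓ hℓMp A hA => scale_of_diamScale (hDS ℓ hℓ hℓMp A hA)))
    (kummerES1_of_diamScale M p hHI hDS hES) hINJ

end Fermat.Agent.T4.helper57

end
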