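import Mathlib
import Fermat.Agent.T4.helper78_VPrimForm
import Fermat.Agent.S23.helper87_GaloisDescent

/-!
# T4 / S48, block (V), leaf [V-DESC] (helper78): integer spanning families from conjugation

* `ConjAllStatement` (output (A) of the CONJ routes): the space of cusp forms of weight one on
  `Γ₁(N)` is stable under the coefficientwise action of the ring automorphisms of `ℂ`.
* `FGAllStatement`: the `q`-coefficients of every cusp form of weight one on `Γ₁(N)` lie in one
  finitely generated subgroup of `ℂ`.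
* `BDStatement`: bounded denominators for the forms with rational `q`-coefficients.

`bd_of_fgAll : FGAllStatement → BDStatement` and
`intSpan_of_conjAll_bd : ConjAllStatement → BDStatement → IntSpanStatement`
(Galois descent `helper87.span_rat_points_eq`, generic), hence with `prim_of_intSpan`:
`prim_of_conjAll_fgAll : ConjAllStatement → FGAllStatement → PrimStatement`.
-/

set_option autoImplicit false

open CongruenceSubgroup UpperHalfPlane
open scoped MatrixGroups ModularForm

namespace Fermat.Agent.T4.helper78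

open ModularFormClass

/-- **(A)**: stability of `S₁(Γ₁(N))` under `Aut(ℂ)` acting on `q`-coefficients. -/
def ConjAllStatement : Prop :=
  ∀ (N : ℕ) [NeZero N] (σ : ℂ ≃+* ℂ) (f : CuspForm (Gamma1 N) 1),
    ∃ g : CuspForm (Gamma1 N) 1,
      ∀ n : ℕ, ModularFormClass.qCoeff g n = σ (ModularFormClass.qCoeff f n)

/-- the `q`-coefficients of every cusp form of weight one on `Γ₁(N)` lie in one finitely
generated subgroup of `ℂ`. -/
def FGAllStatement : Prop :=
  ∀ (N : ℕ) [NeZero N] (f : CuspForm (Gamma1 N) 1), CoeffsInFG (ModularFormClass.qCoeff f)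

/-- bounded denominators for the cusp forms of weight one on `Γ₁(N)` with rational
`q`-coefficients. -/
def BDStatement : Prop :=
  ∀ (N : ℕ) [NeZero N] (f : CuspForm (Gamma1 N) 1),
    (∀ n : ℕ, ∃ r : ℚ, ModularFormClass.qCoeff f n = (r : ℂ)) →
    ∃ D : ℕ, 0 < D ∧ ∀ n : ℕ, ∃ z : ℤ, (D : ℂ) * ModularFormClass.qCoeff f n = (z : ℂ)

/-! ### bounded denominators from finite generation -/

/-- a `ℚ`-linear functional on `ℂ` with value `1` at `1` -/
lemma exists_ratFunctional_one : ∃ l : ℂ →ₗ[ℚ] ℚ, l 1 = 1 := by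
  obtain ⟨g, hg⟩ := (LinearMap.toSpanSingleton ℚ ℂ 1).exists_leftInverse_of_injective
    (LinearMap.ker_toSpanSingleton ℚ one_ne_zero)
  refine ⟨g, ?_⟩
  have := congrArg (fun f : ℚ →ₗ[ℚ] ℚ => f 1) hg
  simpa using this

/-- a rational number in a finitely generated subgroup of `ℂ` has its denominator bounded in
terms of the subgroup. -/
theorem exists_den_of_fg (Λ : Submodule ℤ ℂ) (hΛ : Λ.FG) :
    ∃ D : ℕ, 0 < D ∧ ∀ r : ℚ, (r : ℂ) ∈ Λ → ∃ z : ℤ, (D : ℚ) * r = z := by
  classical
  obtain ⟨T, hT⟩ := hΛ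
  obtain ⟨l, hl⟩ := exists_ratFunctional_one
  refine ⟨∏ t ∈ T, (l t).den, Finset.prod_pos fun t _ => (l t).den_pos, fun r hr => ?_⟩
  have hlr : l (r : ℂ) = r := by
    have : (r : ℂ) = r • (1 : ℂ) := by
      rw [Algebra.smul_def]; simp
    rw [this, map_smul, hl, smul_eq_mul, mul_one]
  rw [← hT] at hr
  have key : ∀ x ∈ Submodule.span ℤ (T : Set ℂ),
      ∃ z : ℤ, ((∏ t ∈ T, (l t).den : ℕ) : ℚ) * l x = z := by
    intro x hx
    refine Submodule.span_induction ?_ ?_ ?_ ?_ hx
    · intro t ht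
      refine ⟨(∏ s ∈ T.erase t, (l s).den : ℕ) * (l t).num, ?_⟩
      rw [← Finset.mul_prod_erase T _ ht]
      push_cast
      have h2 : ((l t).den : ℚ) * l t = (l t).num := by
        have := Rat.den_mul_eq_num (l t)
        exact_mod_cast this
      calc ((l t).den : ℚ) * (∏ s ∈ T.erase t, ((l s).den : ℚ)) * l t
          = (∏ s ∈ T.erase t, ((l s).den : ℚ)) * (((l t).den : ℚ) * l t) := by ring
        _ = _ := by rw [h2]
    · exact ⟨0, by simp⟩
    · rintro u v _ _ ⟨zu, hzu⟩ ⟨zv, hzv⟩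
      refine ⟨zu + zv, ?_⟩
      rw [map_add, mul_add, hzu, hzv]
      push_cast
      rfl
    · rintro c u _ ⟨zu, hzu⟩
      refine ⟨c * zu, ?_⟩
      have : l (c • u) = (c : ℚ) * l u := by
        have h3 : c • u = (c : ℚ) • u := by
          rw [Algebra.smul_def, Algebra.smul_def]; simp
        rw [h3, map_smul, smul_eq_mul]
      rw [this]
      push_cast
      rw [← hzu]
      push_cast
      ring
  obtain ⟨z, hz⟩ := key _ hr
  exact ⟨z, by rw [← hz, hlr]⟩

theorem bd_of_fgAll (hFG : FGAllStatement) : BDStatement := by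
  intro N _ f hrat
  obtain ⟨Λ, hΛ, hmem⟩ := hFG N f
  obtain ⟨D, hD, hden⟩ := exists_den_of_fg Λ hΛ
  refine ⟨D, hD, fun n => ?_⟩
  obtain ⟨r, hr⟩ := hrat n
  obtain ⟨z, hz⟩ := hden r (by rw [← hr]; exact hmem n)
  refine ⟨z, ?_⟩
  rw [hr]
  have := congrArg (fun x : ℚ => (x : ℂ)) hz
  simpa using this

/-! ### the `q`-expansion map of level `Γ₁(N)` -/

section qmap

variable (N : ℕ) [NeZero N] (k : ℤ)

/-- the `q`-coefficient map of `S_k(Γ₁(N))`, as a linear map -/
noncomputable def qCoeffLinG1 : CuspForm (Gamma1 N) k →ₗ[ℂ] (ℕ → ℂ) where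
  toFun f n := ModularFormClass.qCoeff f n
  map_add' f g := by
    funext n
    have h1 : (⇑(f + g) : ℍ → ℂ) = ⇑f + ⇑g := by ext τ; simp
    simp only [Pi.add_apply]
    rw [h1, helper79.qCoeff_add (helper79.nice_coe f) (helper79.nice_coe g)]
  map_smul' c f := by
    funext n
    have h1 : (⇑(c • f) : ℍ → ℂ) = c • ⇑f := by ext τ; simp
    simp only [Pi.smul_apply, RingHom.id_apply, smul_eq_mul]
    rw [h1, helper79.qCoeff_smul (helper79.nice_coe f)]

@[simp] lemma qCoeffLinG1_apply (f : CuspForm (Gamma1 N) k) (n : ℕ) :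
    qCoeffLinG1 N k f n = ModularFormClass.qCoeff f n := rfl

lemma qCoeffLinG1_injective : Function.Injective (qCoeffLinG1 N k) := by
  intro f g hfg
  apply DFunLike.coe_injective
  exact helper79.IsNice.ext (helper79.nice_coe f) (helper79.nice_coe g) fun n => congrFun hfg n

lemma finiteDimensional_cuspForm_Gamma1 : FiniteDimensional ℂ (CuspForm (Gamma1 N) k) := by
  let T : CuspForm (Gamma1 N) k →ₗ[ℂ] (Fin (helper79.nbSturm N k + 1) → ℂ) :=
    (LinearMap.funLeft ℂ ℂ (fun i : Fin (helper79.nbSturm N k + 1) => (i : ℕ))).comp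
      (qCoeffLinG1 N k)
  have hT : Function.Injective T := by
    rw [← LinearMap.ker_eq_bot, LinearMap.ker_eq_bot']
    intro f hf
    apply DFunLike.coe_injective
    have h0 : ∀ n ≤ helper79.nbSturm N k, ModularFormClass.qCoeff f n = 0 := by
      intro n hn
      have := congrFun hf ⟨n, Nat.lt_succ_of_le hn⟩
      simpa [T, LinearMap.funLeft_apply] using this
    have := helper79.IsCF.eq_zero_of_qCoeff (helper79.isCF_coe f) h0
    rw [this]
    rfl
  exact FiniteDimensional.of_injective T hT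

end qmap

/-! ### Galois descent -/

/-- **[V-DESC]**: integer spanning families from `Aut(ℂ)`-stability and bounded denominators. -/
theorem intSpan_of_conjAll_bd (hA : ConjAllStatement) (hBD : BDStatement) :
    IntSpanStatement := by
  classical
  intro N _ f
  have := finiteDimensional_cuspForm_Gamma1 N 1
  set Φ := qCoeffLinG1 N 1 with hΦ
  have hinj := qCoeffLinG1_injective N 1
  let V : Submodule ℂ (ℕ → ℂ) := LinearMap.range Φ
  have hVstab : ∀ σ : ℂ ≃+* ℂ, ∀ v ∈ V, (fun n => σ (v n)) ∈ V := by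
    rintro σ _ ⟨g, rfl⟩
    obtain ⟨g', hg'⟩ := hA N σ g
    exact ⟨g', funext fun n => hg' n⟩
  have hspan := Fermat.Agent.S23.helper87.span_rat_points_eq V hVstab
  have hf : Φ f ∈ Submodule.span ℂ {v | v ∈ V ∧ ∀ n, ∃ r : ℚ, v n = (r : ℂ)} := by
    rw [hspan]; exact ⟨f, rfl⟩
  obtain ⟨m, c, v, hsum⟩ := Submodule.mem_span_set'.1 hf
  -- the forms behind the rational points
  have hv : ∀ i : Fin m, ∃ G : CuspForm (Gamma1 N) 1, Φ G = (v i : ℕ → ℂ) := fun i => (v i).2.1
  choose G' hG' using hv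
  have hrat : ∀ i : Fin m, ∀ n, ∃ r : ℚ, ModularFormClass.qCoeff (G' i) n = (r : ℂ) := by
    intro i n
    obtain ⟨r, hr⟩ := (v i).2.2 n
    exact ⟨r, by rw [← hr, ← hG' i]; rfl⟩
  have hbd := fun i => hBD N (G' i) (hrat i)
  choose D hD hDz using hbd
  choose b hb using hDz
  refine ⟨m, fun i => (D i : ℂ) • G' i, b, fun i => c i / (D i : ℂ), fun i n => ?_, ?_⟩
  · have h1 : (⇑((D i : ℂ) • G' i) : ℍ → ℂ) = (D i : ℂ) • ⇑(G' i) := by ext τ; simp
    rw [h1, helper79.qCoeff_smul (helper79.nice_coe (G' i))]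
    exact hb i n
  · apply hinj
    rw [← hsum, map_sum]
    refine Finset.sum_congr rfl fun i _ => ?_
    have hDne : (D i : ℂ) ≠ 0 := by exact_mod_cast (hD i).ne'
    rw [smul_smul, div_mul_cancel₀ _ hDne, map_smul, hG' i]

/-- **[V-PRIM]** from the two outputs of the CONJ routes. -/
theorem prim_of_conjAll_fgAll (hA : ConjAllStatement) (hFG : FGAllStatement) : PrimStatement :=
  prim_of_intSpan (intSpan_of_conjAll_bd hA (bd_of_fgAll hFG))

end Fermat.Agent.T4.helper78
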