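import Mathlib
import Fermat.Agent.T4.helper57_IntG1
import Fermat.Agent.T4.helper78_VDesc

/-!
# T4 block (V) (helper57): the contract of the CONJ route, verbatim

* `conjAll : helper78.ConjAllStatement` — `S₁(Γ₁(N))` is stable under the coefficientwise action
  of the ring automorphisms of `ℂ` (same level `N`, every `N ≥ 1`);
* `fgAll : helper78.FGAllStatement` — the `q`-coefficients of every cusp form of weight one on
  `Γ₁(N)` lie in one finitely generated subgroup of `ℂ`.

For `N ≤ 2` the space `S₁(Γ₁(N))` is zero (`-1 ∈ Γ₁(N)`, odd weight); for `N ≥ 3` see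
`helper57_ConjG1` / `helper57_IntG1`.
-/

set_option autoImplicit false

open UpperHalfPlane ModularForm SlashInvariantForm Finset CongruenceSubgroup
open scoped MatrixGroups ModularForm Manifold Pointwise

namespace Fermat.Agent.T4.helper57

theorem neg_one_mem_Gamma1 {N : ℕ} (hN : N ≤ 2) (hN0 : N ≠ 0) :
    (-1 : SL(2, ℤ)) ∈ Gamma1 N := by
  rw [Gamma1_mem]
  have h : ((-1 : ℤ) : ZMod N) = 1 := by
    interval_cases N
    · exact absurd rfl hN0
    · exact Subsingleton.elim _ _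
    · decide
  refine ⟨?_, ?_, ?_⟩
  · simpa using h
  · simpa using h
  · simp

theorem neg_one_mem_Gamma1_GL {N : ℕ} (hN : N ≤ 2) (hN0 : N ≠ 0) :
    (-1 : GL (Fin 2) ℝ) ∈ (Gamma1 N : Subgroup (GL (Fin 2) ℝ)) :=
  ⟨-1, neg_one_mem_Gamma1 hN hN0, by ext; simp⟩

/-- cusp forms of odd weight on `Γ₁(N)`, `N ≤ 2`, vanish. -/
theorem cuspForm_Gamma1_eq_zero {N : ℕ} [NeZero N] (hN : N ≤ 2) {k : ℤ} (hk : Odd k)
    (f : CuspForm (Gamma1 N : Subgroup (GL (Fin 2) ℝ)) k) : f = 0 := by
  have h := ModularForm.eq_zero_of_neg_one_mem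
    (neg_one_mem_Gamma1_GL hN (NeZero.ne N)) hk (CuspForm.toModularFormₗ f)
  ext z
  have := congrArg (fun g : ModularForm (Gamma1 N : Subgroup (GL (Fin 2) ℝ)) k => g z) h
  simpa using this

theorem qCoeff_zero_fun (n : ℕ) : ModularFormClass.qCoeff (0 : ℍ → ℂ) n = 0 := by
  unfold ModularFormClass.qCoeff
  rw [UpperHalfPlane.qExpansion_zero]
  simp

/-- **[V-S23G1] (A)**, contract shape of helper78. -/
theorem conjAll : Fermat.Agent.T4.helper78.ConjAllStatement := by
  intro N _ σ f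
  by_cases hN : 3 ≤ N
  · exact exists_conj_Gamma1 N hN 1 σ.toRingHom f
  · have hf : f = 0 := cuspForm_Gamma1_eq_zero (by omega) (by decide) f
    refine ⟨0, fun n => ?_⟩
    rw [hf]
    have e : (⇑(0 : CuspForm (Gamma1 N : Subgroup (GL (Fin 2) ℝ)) 1) : ℍ → ℂ) = 0 := rfl
    rw [e, qCoeff_zero_fun, map_zero]

/-- **[V-S23G1] (B)**, contract shape of helper78. -/
theorem fgAll : Fermat.Agent.T4.helper78.FGAllStatement := by
  intro N _ f
  by_cases hN : 3 ≤ N
  · obtain ⟨r, b, c, h⟩ := exists_int_combination_Gamma1 N hN 1 f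
    exact Fermat.Agent.T4.helper78.coeffsInFG_of_span b c _ h
  · have hf : f = 0 := cuspForm_Gamma1_eq_zero (by omega) (by decide) f
    refine ⟨⊥, Submodule.fg_bot, fun n => ?_⟩
    rw [hf]
    have e : (⇑(0 : CuspForm (Gamma1 N : Subgroup (GL (Fin 2) ℝ)) 1) : ℍ → ℂ) = 0 := rfl
    rw [e, qCoeff_zero_fun]
    exact Submodule.zero_mem _

end Fermat.Agent.T4.helper57
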