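import Mathlib

/-!
# T4 block (II), leaf [CROSS-COUNT] (helper60)

In a finite cyclic group of order `n ^ k` the proportion of the elements whose order is
divisible by `n` tends to `1` as `k → ∞`:
`#{z : ¬ n ∣ orderOf z} * 2 ^ k ≤ n * n ^ k`  (`crossCount_bad_le`), hence
for every `ε > 0` there is `k₀ ≥ 1` with `(1 - ε) n ^ k ≤ #{z : n ∣ orderOf z}` for all
`k ≥ k₀` (`crossCount`, `crossCount_filter`, `crossCount_div`).

Proof: if `n ∤ d = orderOf z` then `v_p(d) < v_p(n)` for a prime `p ∣ n`, and then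
`d ∣ (n / p) ^ k`; a cyclic group has at most `(n / p) ^ k ≤ n ^ k / 2 ^ k` solutions of
`z ^ ((n / p) ^ k) = 1`.
-/

set_option autoImplicit false

namespace Fermat.Agent.T4.helper60

/-- Arithmetic core: a divisor `d` of `n ^ k` which is not a multiple of `n` divides
`(n / p) ^ k` for some prime `p ∣ n`. -/
lemma crossCount_exists_prime {n k d : ℕ} (hn : 0 < n) (hk : 0 < k) (hd : d ∣ n ^ k)
    (hnd : ¬ n ∣ d) : ∃ p, p.Prime ∧ p ∣ n ∧ d ∣ (n / p) ^ k := by
  have hd0 : d ≠ 0 := by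
    rintro rfl
    exact (pow_pos hn k).ne' (zero_dvd_iff.1 hd)
  have hex : ∃ p, p.Prime ∧ d.factorization p < n.factorization p := by
    by_contra hcon
    refine hnd ((Nat.factorization_prime_le_iff_dvd hn.ne' hd0).1 fun p hp => ?_)
    by_contra h
    exact hcon ⟨p, hp, not_le.1 h⟩
  obtain ⟨p, hp, hlt⟩ := hex
  have hpn : p ∣ n := Nat.dvd_of_factorization_pos (by omega)
  refine ⟨p, hp, hpn, ?_⟩
  have hnp : 0 < n / p := Nat.div_pos (Nat.le_of_dvd hn hpn) hp.pos
  refine (Nat.factorization_prime_le_iff_dvd hd0 (pow_pos hnp k).ne').1 fun q hq => ?_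
  have h1 : d.factorization q ≤ k * n.factorization q := by
    have := (Nat.factorization_prime_le_iff_dvd hd0 (pow_pos hn k).ne').2 hd q hq
    simpa [Nat.factorization_pow] using this
  have h2 : ((n / p) ^ k).factorization q = k * (n.factorization q - p.factorization q) := by
    rw [Nat.factorization_pow, Nat.factorization_div hpn]
    simp
  rw [h2, hp.factorization]
  by_cases hqp : q = p
  · subst hqp
    simp only [Finsupp.single_eq_same]
    calc d.factorization q ≤ n.factorization q - 1 := by omega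
      _ = 1 * (n.factorization q - 1) := (one_mul _).symm
      _ ≤ k * (n.factorization q - 1) := Nat.mul_le_mul_right _ hk
  · have : (Finsupp.single p 1 : ℕ →₀ ℕ) q = 0 := Finsupp.single_eq_of_ne hqp
    rw [this, Nat.sub_zero]
    exact h1

/-- In a finite cyclic group of order `n ^ k` (`k ≥ 1`), the elements whose order is NOT
divisible by `n` are few: `#bad * 2 ^ k ≤ n * n ^ k`. -/
lemma crossCount_bad_le {H : Type*} [Group H] [Fintype H] [DecidableEq H] [IsCyclic H]
    {n k : ℕ} (hn : 0 < n) (hk : 0 < k) (hcard : Fintype.card H = n ^ k) :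
    (Finset.univ.filter fun z : H => ¬ n ∣ orderOf z).card * 2 ^ k ≤ n * n ^ k := by
  classical
  have hsub : (Finset.univ.filter fun z : H => ¬ n ∣ orderOf z) ⊆
      n.primeFactors.biUnion fun p => Finset.univ.filter fun z : H => z ^ ((n / p) ^ k) = 1 := by
    intro z hz
    rw [Finset.mem_filter] at hz
    have hd : orderOf z ∣ n ^ k := by
      rw [← hcard]
      exact orderOf_dvd_card
    obtain ⟨p, hp, hpn, hdvd⟩ := crossCount_exists_prime hn hk hd hz.2
    rw [Finset.mem_biUnion]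
    refine ⟨p, Nat.mem_primeFactors.2 ⟨hp, hpn, hn.ne'⟩, ?_⟩
    rw [Finset.mem_filter]
    exact ⟨Finset.mem_univ _, orderOf_dvd_iff_pow_eq_one.1 hdvd⟩
  have hterm : ∀ p ∈ n.primeFactors,
      (Finset.univ.filter fun z : H => z ^ ((n / p) ^ k) = 1).card * 2 ^ k ≤ n ^ k := by
    intro p hp
    have hpp := Nat.prime_of_mem_primeFactors hp
    have hpn := Nat.dvd_of_mem_primeFactors hp
    have hnp : 0 < n / p := Nat.div_pos (Nat.le_of_dvd hn hpn) hpp.pos
    have h1 := IsCyclic.card_pow_eq_one_le (α := H) (pow_pos hnp k)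
    calc (Finset.univ.filter fun z : H => z ^ ((n / p) ^ k) = 1).card * 2 ^ k
        ≤ (n / p) ^ k * 2 ^ k := Nat.mul_le_mul_right _ h1
      _ = (n / p * 2) ^ k := (mul_pow _ _ _).symm
      _ ≤ (n / p * p) ^ k := Nat.pow_le_pow_left (Nat.mul_le_mul_left _ hpp.two_le) k
      _ = n ^ k := by rw [Nat.div_mul_cancel hpn]
  have hcardpf : n.primeFactors.card ≤ n := by
    calc n.primeFactors.card ≤ (Finset.Icc 1 n).card := by
          refine Finset.card_le_card fun p hp => ?_
          rw [Finset.mem_Icc]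
          exact ⟨(Nat.prime_of_mem_primeFactors hp).pos,
            Nat.le_of_dvd hn (Nat.dvd_of_mem_primeFactors hp)⟩
      _ = n := by simp
  calc (Finset.univ.filter fun z : H => ¬ n ∣ orderOf z).card * 2 ^ k
      ≤ (n.primeFactors.biUnion fun p =>
          Finset.univ.filter fun z : H => z ^ ((n / p) ^ k) = 1).card * 2 ^ k :=
        Nat.mul_le_mul_right _ (Finset.card_le_card hsub)
    _ ≤ (∑ p ∈ n.primeFactors,
          (Finset.univ.filter fun z : H => z ^ ((n / p) ^ k) = 1).card) * 2 ^ k :=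
        Nat.mul_le_mul_right _ Finset.card_biUnion_le
    _ = ∑ p ∈ n.primeFactors,
          (Finset.univ.filter fun z : H => z ^ ((n / p) ^ k) = 1).card * 2 ^ k :=
        Finset.sum_mul _ _ _
    _ ≤ ∑ _p ∈ n.primeFactors, n ^ k := Finset.sum_le_sum hterm
    _ = n.primeFactors.card * n ^ k := by rw [Finset.sum_const, smul_eq_mul]
    _ ≤ n * n ^ k := Nat.mul_le_mul_right _ hcardpf

/-- Real form of `crossCount_bad_le`: the good elements are at least `(1 - n / 2 ^ k) n ^ k`. -/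
lemma crossCount_good_ge {H : Type*} [Group H] [Fintype H] [DecidableEq H] [IsCyclic H]
    {n k : ℕ} (hn : 0 < n) (hk : 0 < k) (hcard : Fintype.card H = n ^ k) :
    (1 - (n : ℝ) / 2 ^ k) * (n : ℝ) ^ k ≤
      ((Finset.univ.filter fun z : H => n ∣ orderOf z).card : ℝ) := by
  have hbad := crossCount_bad_le (H := H) hn hk hcard
  have hsum := Finset.card_filter_add_card_filter_not (s := (Finset.univ : Finset H))
    (fun z : H => n ∣ orderOf z)
  rw [Finset.card_univ, hcard] at hsum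
  have hbadR : ((Finset.univ.filter fun z : H => ¬ n ∣ orderOf z).card : ℝ) * 2 ^ k ≤
      (n : ℝ) * (n : ℝ) ^ k := by exact_mod_cast hbad
  have hsumR : ((Finset.univ.filter fun z : H => n ∣ orderOf z).card : ℝ) +
      ((Finset.univ.filter fun z : H => ¬ n ∣ orderOf z).card : ℝ) = (n : ℝ) ^ k := by
    exact_mod_cast hsum
  have h2 : (0 : ℝ) < 2 ^ k := by positivity
  have hb : ((Finset.univ.filter fun z : H => ¬ n ∣ orderOf z).card : ℝ) ≤
      (n : ℝ) / 2 ^ k * (n : ℝ) ^ k := by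
    rw [div_mul_eq_mul_div, le_div_iff₀ h2]
    exact hbadR
  linarith

universe u

/-- **[CROSS-COUNT]** For `n ≥ 1` and `ε > 0` there is `k₀ ≥ 1` such that in every finite cyclic
group of order `n ^ k`, `k ≥ k₀`, at least `(1 - ε) n ^ k` elements have order divisible by
`n`.  (`Finset.filter` form.) -/
theorem crossCount_filter (n : ℕ) (hn : 0 < n) (ε : ℝ) (hε : 0 < ε) :
    ∃ k₀ : ℕ, 0 < k₀ ∧ ∀ k : ℕ, k₀ ≤ k →
      ∀ (H : Type u) [Group H] [Fintype H] [DecidableEq H] [IsCyclic H],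
        Fintype.card H = n ^ k →
        (1 - ε) * (n : ℝ) ^ k ≤ ((Finset.univ.filter fun z : H => n ∣ orderOf z).card : ℝ) := by
  obtain ⟨m, hm⟩ := pow_unbounded_of_one_lt ((n : ℝ) / ε) (one_lt_two)
  refine ⟨m + 1, Nat.succ_pos m, fun k hk H _ _ _ _ hcard => ?_⟩
  have hk0 : 0 < k := lt_of_lt_of_le (Nat.succ_pos m) hk
  have h := crossCount_good_ge (H := H) hn hk0 hcard
  have hpow : (2 : ℝ) ^ m ≤ 2 ^ k :=
    pow_le_pow_right₀ one_le_two (le_trans (Nat.le_succ m) hk)
  have h2 : (0 : ℝ) < 2 ^ k := by positivity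
  have hle : (n : ℝ) / 2 ^ k ≤ ε := by
    rw [div_le_iff₀ h2]
    have h3 : (n : ℝ) < ε * 2 ^ m := by
      have := (div_lt_iff₀ hε).1 hm
      linarith
    have h4 : ε * 2 ^ m ≤ ε * 2 ^ k := mul_le_mul_of_nonneg_left hpow hε.le
    linarith
  have hnk : (0 : ℝ) ≤ (n : ℝ) ^ k := by positivity
  calc (1 - ε) * (n : ℝ) ^ k ≤ (1 - (n : ℝ) / 2 ^ k) * (n : ℝ) ^ k :=
        mul_le_mul_of_nonneg_right (by linarith) hnk
    _ ≤ _ := h

/-- **[CROSS-COUNT]**, `Nat.card` form (no `Fintype` / `DecidableEq` instances in the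
statement). -/
theorem crossCount (n : ℕ) (hn : 0 < n) (ε : ℝ) (hε : 0 < ε) :
    ∃ k₀ : ℕ, 0 < k₀ ∧ ∀ k : ℕ, k₀ ≤ k →
      ∀ (H : Type u) [Group H] [Finite H] [IsCyclic H], Nat.card H = n ^ k →
        (1 - ε) * (n : ℝ) ^ k ≤ (Nat.card {z : H // n ∣ orderOf z} : ℝ) := by
  classical
  obtain ⟨k₀, hk₀, h⟩ := crossCount_filter.{u} n hn ε hε
  refine ⟨k₀, hk₀, fun k hk H _ _ _ hcard => ?_⟩
  have : Fintype H := Fintype.ofFinite H
  have hc : Fintype.card H = n ^ k := by rw [← Nat.card_eq_fintype_card, hcard]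
  have := h k hk H hc
  rw [Nat.card_eq_fintype_card, Fintype.card_subtype]
  exact this

/-- Proportion form: `1 - ε ≤ #{z : n ∣ orderOf z} / #H`. -/
theorem crossCount_div (n : ℕ) (hn : 0 < n) (ε : ℝ) (hε : 0 < ε) :
    ∃ k₀ : ℕ, 0 < k₀ ∧ ∀ k : ℕ, k₀ ≤ k →
      ∀ (H : Type u) [Group H] [Finite H] [IsCyclic H], Nat.card H = n ^ k →
        1 - ε ≤ (Nat.card {z : H // n ∣ orderOf z} : ℝ) / (Nat.card H : ℝ) := by
  obtain ⟨k₀, hk₀, h⟩ := crossCount.{u} n hn ε hε
  refine ⟨k₀, hk₀, fun k hk H _ _ _ hcard => ?_⟩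
  have := h k hk H hcard
  have hpos : (0 : ℝ) < (n : ℝ) ^ k := by positivity
  rw [hcard, Nat.cast_pow, le_div_iff₀ hpos]
  exact this

end Fermat.Agent.T4.helper60
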