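import Mathlib
import Fermat.Agent.T4.helper60_ChebCrossCount

/-!
# T4 block (II): abstract product core of [CROSS] (helper60)

Group-theoretic half of `helper62.CrossStatement`.  If `Γ ≃* G × H` with `H` finite cyclic of
order `n ^ k` and `σ ∈ G` of order `n`, the elements `a = Φ⁻¹ (σ, z)` with `n ∣ orderOf z`
* lie over `σ`,
* are pairwise non-conjugate,
* generate cyclic groups that map injectively to `H` (`⟨a⟩ ∩ Φ⁻¹ (G × 1) = 1`),
* have conjugacy classes of the size of the class of `σ`,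
and for `k ≥ k₀(n, ε)` they carry the proportion `≥ 1 - ε` of the class of `σ` (`crossProd`).
-/

set_option autoImplicit false

namespace Fermat.Agent.T4.helper60

universe u v w

section

variable {G : Type u} {H : Type v} [Group G] [CommGroup H]

/-- Conjugacy in `G × H` with `H` commutative. -/
lemma crossProd_isConj_iff (σ σ' : G) (z z' : H) :
    IsConj ((σ, z) : G × H) (σ', z') ↔ IsConj σ σ' ∧ z = z' := by
  simp only [isConj_iff]
  constructor
  · rintro ⟨⟨c, d⟩, h⟩
    simp only [Prod.mk_mul_mk, Prod.inv_mk, Prod.mk.injEq] at h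
    refine ⟨⟨c, h.1⟩, ?_⟩
    rw [← h.2, mul_comm d z, mul_inv_cancel_right]
  · rintro ⟨⟨c, hc⟩, rfl⟩
    exact ⟨(c, 1), by simp [hc]⟩

/-- The conjugacy class of `(σ, z)` in `G × H` has the cardinality of the class of `σ`. -/
lemma crossProd_card_conj (σ : G) (z : H) :
    Nat.card {b : G × H // IsConj ((σ, z) : G × H) b} = Nat.card {τ : G // IsConj σ τ} := by
  refine Nat.card_congr
    { toFun := fun b => ⟨b.1.1, ((crossProd_isConj_iff σ b.1.1 z b.1.2).1 b.2).1⟩
      invFun := fun τ => ⟨(τ.1, z), (crossProd_isConj_iff σ τ.1 z z).2 ⟨τ.2, rfl⟩⟩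
      left_inv := ?_
      right_inv := ?_ }
  · rintro ⟨⟨τ, z'⟩, hb⟩
    have := ((crossProd_isConj_iff σ τ z z').1 hb).2
    subst this
    rfl
  · rintro ⟨τ, hτ⟩
    rfl

/-- If `orderOf σ ∣ orderOf z`, the cyclic group generated by `(σ, z)` meets `G × 1` trivially. -/
lemma crossProd_zpowers_inj (σ : G) (z : H) (h : orderOf σ ∣ orderOf z) :
    ∀ x ∈ Subgroup.zpowers ((σ, z) : G × H), x.2 = 1 → x = 1 := by
  rintro x ⟨j, rfl⟩ hx
  have hx' : z ^ j = 1 := by simpa using hx
  have h1 : (orderOf z : ℤ) ∣ j := orderOf_dvd_iff_zpow_eq_one.2 hx'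
  have h2 : (orderOf σ : ℤ) ∣ j := (Int.natCast_dvd_natCast.2 h).trans h1
  have hσ : σ ^ j = 1 := orderOf_dvd_iff_zpow_eq_one.1 h2
  ext
  · simpa using hσ
  · simpa using hx'

end

/-- **Abstract product core of [CROSS]**.  For `n ≥ 1` and `ε > 0` there is `k₀ ≥ 1` such that
for all `k ≥ k₀`: if `Γ ≃* G × H` with `G` finite, `H` finite cyclic of order `n ^ k`, and
`σ ∈ G` has order `n`, there is a finite set `Y ⊆ Γ` of pairwise non-conjugate elements lying
over `σ`, each generating a cyclic group that maps injectively to `H`, carrying the proportion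
`≥ 1 - ε` of the class of `σ`. -/
theorem crossProd (n : ℕ) (hn : 0 < n) (ε : ℝ) (hε : 0 < ε) :
    ∃ k₀ : ℕ, 0 < k₀ ∧ ∀ k : ℕ, k₀ ≤ k →
      ∀ (Γ : Type w) (G : Type u) (H : Type v) [Group Γ] [Group G] [CommGroup H] [Finite G]
        [Finite H] [IsCyclic H] (Φ : Γ ≃* G × H) (σ : G), orderOf σ = n → Nat.card H = n ^ k →
        ∃ Y : Finset Γ,
          (∀ a ∈ Y, (Φ a).1 = σ) ∧
          (∀ a ∈ Y, n ∣ orderOf (Φ a).2) ∧
          (∀ a ∈ Y, ∀ x ∈ Subgroup.zpowers a, (Φ x).2 = 1 → x = 1) ∧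
          (∀ a ∈ Y, ∀ b ∈ Y, IsConj a b → a = b) ∧
          (1 - ε) * ((Nat.card {τ : G // IsConj σ τ} : ℝ) / (Nat.card G : ℝ)) ≤
            ∑ a ∈ Y, (Nat.card {b : Γ // IsConj a b} : ℝ) / (Nat.card Γ : ℝ) := by
  classical
  obtain ⟨k₀, hk₀, hcount⟩ := crossCount_filter.{v} n hn ε hε
  refine ⟨k₀, hk₀, fun k hk Γ G H _ _ _ _ _ _ Φ σ hσ hcard => ?_⟩
  have : Fintype H := Fintype.ofFinite H
  have hc : Fintype.card H = n ^ k := by rw [← Nat.card_eq_fintype_card, hcard]
  have hgood := hcount k hk H hc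
  set good : Finset H := Finset.univ.filter fun z : H => n ∣ orderOf z with hgood_def
  have hinj : Function.Injective fun z : H => Φ.symm (σ, z) := by
    intro z z' h
    have := Φ.symm.injective h
    exact (Prod.mk.injEq _ _ _ _ ▸ this).2
  refine ⟨good.image fun z : H => Φ.symm (σ, z), ?_, ?_, ?_, ?_, ?_⟩
  · intro a ha
    obtain ⟨z, -, rfl⟩ := Finset.mem_image.1 ha
    simp
  · intro a ha
    obtain ⟨z, hz, rfl⟩ := Finset.mem_image.1 ha
    simpa [hgood_def] using hz
  · intro a ha x hx hx1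
    obtain ⟨z, hz, rfl⟩ := Finset.mem_image.1 ha
    have hz' : n ∣ orderOf z := by simpa [hgood_def] using hz
    obtain ⟨j, rfl⟩ := hx
    have hmem : Φ ((Φ.symm (σ, z)) ^ j) ∈ Subgroup.zpowers ((σ, z) : G × H) :=
      ⟨j, by simp [map_zpow]⟩
    have := crossProd_zpowers_inj σ z (hσ ▸ hz') _ hmem hx1
    exact Φ.injective (this.trans (map_one Φ).symm)
  · intro a ha b hb hab
    obtain ⟨z, -, rfl⟩ := Finset.mem_image.1 ha
    obtain ⟨z', -, rfl⟩ := Finset.mem_image.1 hb
    have h1 : IsConj (Φ (Φ.symm (σ, z))) (Φ (Φ.symm (σ, z'))) := Φ.toMonoidHom.map_isConj hab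
    simp only [MulEquiv.apply_symm_apply] at h1
    have := ((crossProd_isConj_iff σ σ z z').1 h1).2
    simp [this]
  · have hterm : ∀ a ∈ good.image fun z : H => Φ.symm (σ, z),
        (Nat.card {b : Γ // IsConj a b} : ℝ) / (Nat.card Γ : ℝ) =
          (Nat.card {τ : G // IsConj σ τ} : ℝ) / ((Nat.card G : ℝ) * (n : ℝ) ^ k) := by
      intro a ha
      obtain ⟨z, -, rfl⟩ := Finset.mem_image.1 ha
      have h1 : Nat.card {b : Γ // IsConj (Φ.symm (σ, z)) b} =
          Nat.card {b : G × H // IsConj ((σ, z) : G × H) b} := by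
        refine Nat.card_congr (Φ.toEquiv.subtypeEquiv fun b => ?_)
        constructor
        · intro h
          have := Φ.toMonoidHom.map_isConj h
          simpa using this
        · intro h
          have := Φ.symm.toMonoidHom.map_isConj h
          simpa using this
      have h2 : Nat.card Γ = Nat.card G * n ^ k := by
        rw [Nat.card_congr Φ.toEquiv, Nat.card_prod, hcard]
      rw [h1, crossProd_card_conj, h2]
      push_cast
      rfl
    rw [Finset.sum_congr rfl hterm, Finset.sum_const, Finset.card_image_of_injective _ hinj, nsmul_eq_mul]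
    have hG : (0 : ℝ) < (Nat.card G : ℝ) := by exact_mod_cast Nat.card_pos
    have hnk : (0 : ℝ) < (n : ℝ) ^ k := by positivity
    have hC : (0 : ℝ) ≤ (Nat.card {τ : G // IsConj σ τ} : ℝ) := by positivity
    rw [← mul_div_assoc, ← mul_div_assoc, div_le_div_iff₀ hG (mul_pos hG hnk)]
    calc (1 - ε) * (Nat.card {τ : G // IsConj σ τ} : ℝ) * ((Nat.card G : ℝ) * (n : ℝ) ^ k)
        = ((1 - ε) * (n : ℝ) ^ k) * ((Nat.card {τ : G // IsConj σ τ} : ℝ) * (Nat.card G : ℝ)) := by
          ring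
      _ ≤ (good.card : ℝ) * ((Nat.card {τ : G // IsConj σ τ} : ℝ) * (Nat.card G : ℝ)) :=
          mul_le_mul_of_nonneg_right hgood (mul_nonneg hC hG.le)
      _ = _ := by ring

end Fermat.Agent.T4.helper60
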