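import Mathlib
import Fermat.Agent.T4.helper85_Wt1Defs

/-!
# T4 / S48, block (III), leaf [W1-CONG] (helper60): `CongStatement`

The inverse Teichmüller character attached to a reduction map `φ : ℤ̄ → k`, `char k = ℓ`:
`ψ(g) = ζ` for a generator `g` of `(ℤ/ℓ)ˣ` and an `(ℓ - 1)`-th root of unity `ζ ∈ ℤ̄` with
`φ ζ = g⁻¹`.  Then `φ (ψ d) * d = 1` for all units `d`, `ψ (-1) = -1` (as `ℓ ≠ 2`),
`φ (∑ ψ(a) a) = ℓ - 1 = -1` and `φ (-2 ℓ σ_ψ(n)) = 0`.
-/

set_option autoImplicit false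

open Polynomial

namespace Fermat.Agent.T4.helper60

open Fermat.Agent.T4.helper85

/-- a root of unity of `ℤ̄` with prescribed reduction -/
theorem exists_root_reduction (n : ℕ) (hn : 0 < n) (k : Type) [Field k]
    (φ : integralClosure ℤ ℂ →+* k) (c : k) (hc : c ^ n = 1) :
    ∃ ζ : integralClosure ℤ ℂ, ζ ^ n = 1 ∧ φ ζ = c := by
  have hprim : IsPrimitiveRoot (Complex.exp (2 * Real.pi * Complex.I / n)) n :=
    Complex.isPrimitiveRoot_exp n hn.ne'
  have hint : IsIntegral ℤ (Complex.exp (2 * Real.pi * Complex.I / n)) := hprim.isIntegral hn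
  let ζ₀ : integralClosure ℤ ℂ := ⟨Complex.exp (2 * Real.pi * Complex.I / n), hint⟩
  have hprim₀ : IsPrimitiveRoot ζ₀ n := by
    refine IsPrimitiveRoot.of_map_of_injective (f := algebraMap (integralClosure ℤ ℂ) ℂ) ?_
      (FaithfulSMul.algebraMap_injective _ _)
    exact hprim
  have hfac := X_pow_sub_one_eq_prod hn hprim₀
  have hmap := congrArg (Polynomial.map φ) hfac
  simp only [Polynomial.map_sub, Polynomial.map_pow, Polynomial.map_X, Polynomial.map_one,
    Polynomial.map_prod, Polynomial.map_C] at hmap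
  have hev := congrArg (Polynomial.eval c) hmap
  simp only [eval_sub, eval_pow, eval_X, eval_one, eval_prod, eval_C] at hev
  rw [hc, sub_self] at hev
  obtain ⟨ζ, hζ, h0⟩ := Finset.prod_eq_zero_iff.1 hev.symm
  refine ⟨ζ, ((mem_nthRootsFinset hn 1).1 hζ), ?_⟩
  exact (sub_eq_zero.1 h0).symm

/-- **[W1-CONG]** -/
theorem cong : CongStatement := by
  intro ℓ hℓ hℓ2 k _ _ φ
  classical
  have hℓp : ℓ.Prime := hℓ.out
  -- a generator of the unit group
  obtain ⟨g, hg⟩ := IsCyclic.exists_generator (α := (ZMod ℓ)ˣ)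
  set n := Fintype.card (ZMod ℓ)ˣ with hn
  have hn0 : 0 < n := Fintype.card_pos
  let ι : ZMod ℓ →+* k := ZMod.castHom (dvd_refl ℓ) k
  have hgn : (ι (g : ZMod ℓ)) ^ n = 1 := by
    rw [← map_pow, ← Units.val_pow_eq_pow_val, pow_card_eq_one, Units.val_one, map_one]
  have hιg : ι (g : ZMod ℓ) ≠ 0 := by
    intro h0
    rw [h0, zero_pow hn0.ne'] at hgn
    exact zero_ne_one hgn
  obtain ⟨ζ, hζ, hφζ⟩ := exists_root_reduction n hn0 k φ (ι (g : ZMod ℓ))⁻¹ (by
    rw [inv_pow, hgn, inv_one])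
  -- the character with values in `ℤ̄`
  let ζu : (integralClosure ℤ ℂ)ˣ := Units.ofPowEqOne ζ n hζ hn0.ne'
  have hζu : ζu ∈ rootsOfUnity (Fintype.card (ZMod ℓ)ˣ) (integralClosure ℤ ℂ) := by
    rw [mem_rootsOfUnity]
    apply Units.ext
    rw [Units.val_pow_eq_pow_val, Units.val_one]
    exact hζ
  let χ : MulChar (ZMod ℓ) (integralClosure ℤ ℂ) := MulChar.ofRootOfUnity hζu hg
  have hχg : χ (g : ZMod ℓ) = ζ := by
    have := MulChar.ofRootOfUnity_spec hζu hg
    exact this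
  -- the key relation on units
  have key : ∀ u : (ZMod ℓ)ˣ, φ (χ (u : ZMod ℓ)) * ι (u : ZMod ℓ) = 1 := by
    intro u
    let F : (ZMod ℓ)ˣ →* k :=
      (((φ : integralClosure ℤ ℂ →* k).comp χ.toMonoidHom).comp (Units.coeHom (ZMod ℓ))) *
        ((ι : ZMod ℓ →* k).comp (Units.coeHom (ZMod ℓ)))
    have hF : ∀ v : (ZMod ℓ)ˣ, F v = φ (χ (v : ZMod ℓ)) * ι (v : ZMod ℓ) := fun v => rfl
    have hFg : F g = 1 := by
      rw [hF, hχg, hφζ, inv_mul_cancel₀ hιg]
    obtain ⟨i, rfl⟩ := Subgroup.mem_zpowers_iff.1 (hg u)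
    rw [← hF, map_zpow, hFg, one_zpow]
  have keyNat : ∀ d : ℕ, ¬ ℓ ∣ d → φ (χ (d : ZMod ℓ)) * (d : k) = 1 := by
    intro d hd
    have hcop : Nat.Coprime d ℓ := (Nat.Prime.coprime_iff_not_dvd hℓp).2 hd |>.symm
    have := key (ZMod.unitOfCoprime d hcop)
    rw [ZMod.coe_unitOfCoprime, map_natCast ι d] at this
    exact this
  -- the complex character
  let ψ : DirichletCharacter ℂ ℓ := χ.ringHomComp (algebraMap (integralClosure ℤ ℂ) ℂ)
  have hψ : ∀ a : ZMod ℓ, ψ a = ((χ a : integralClosure ℤ ℂ) : ℂ) := fun a => rfl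
  have hφℓ : (ℓ : k) = 0 := CharP.cast_eq_zero k ℓ
  refine ⟨ψ, ?_, ?_, ?_, ?_⟩
  · -- oddness
    have hsq : χ (-1) * χ (-1) = 1 := by
      rw [← map_mul, neg_one_mul, neg_neg, map_one]
    have hk := key (-1)
    have e1 : (((-1 : (ZMod ℓ)ˣ) : (ZMod ℓ)ˣ) : ZMod ℓ) = -1 := by
      rw [Units.val_neg, Units.val_one]
    have e2 : ι (-1) = -1 := by rw [map_neg, map_one]
    rw [e1, e2] at hk
    rcases mul_self_eq_one_iff.1 hsq with h1 | h1
    · exfalso
      rw [h1, map_one] at hk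
      have h2 : (2 : k) = 0 := by
        linear_combination (-1 : k) * hk
      have h3 : ((2 : ℕ) : k) = 0 := by exact_mod_cast h2
      rw [CharP.cast_eq_zero_iff k ℓ] at h3
      exact hℓ2 ((Nat.prime_dvd_prime_iff_eq hℓp Nat.prime_two).1 h3)
    · rw [hψ, h1]
      push_cast
      rfl
  · intro d hd
    exact ⟨χ (d : ZMod ℓ), hψ _, keyNat d hd⟩
  · refine ⟨∑ a ∈ Finset.range ℓ, χ ((a : ℕ) : ZMod ℓ) * (a : integralClosure ℤ ℂ), ?_, ?_⟩
    · rw [sumS]
      push_cast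
      rfl
    · rw [map_sum]
      have hterm : ∀ a ∈ Finset.range ℓ,
          φ (χ ((a : ℕ) : ZMod ℓ) * (a : integralClosure ℤ ℂ)) = if a = 0 then 0 else 1 := by
        intro a ha
        rw [map_mul, map_natCast φ a]
        split_ifs with h0
        · subst h0
          simp
        · exact keyNat a (Nat.not_dvd_of_pos_of_lt (Nat.pos_of_ne_zero h0)
            (Finset.mem_range.1 ha))
      rw [Finset.sum_congr rfl hterm]
      obtain ⟨m, hm⟩ : ∃ m, ℓ = m + 1 := ⟨ℓ - 1, (Nat.succ_pred_eq_of_pos hℓp.pos).symm⟩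
      rw [hm, Finset.sum_range_succ']
      simp only [Nat.succ_ne_zero, if_false, if_true, Finset.sum_const, Finset.card_range,
        nsmul_eq_mul, mul_one, add_zero]
      have : ((m + 1 : ℕ) : k) = 0 := by rw [← hm]; exact hφℓ
      push_cast at this
      linear_combination this
  · intro m hm
    refine ⟨-2 * (ℓ : integralClosure ℤ ℂ) * ∑ d ∈ m.divisors, χ ((d : ℕ) : ZMod ℓ), ?_, ?_⟩
    · rw [eisCoeff, if_neg hm, sigmaPsi]
      push_cast
      rfl
    · rw [map_mul, map_mul, map_natCast φ ℓ, hφℓ, mul_zero, zero_mul]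

end Fermat.Agent.T4.helper60
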