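import Mathlib
import Fermat.Agent.T4.helper85_Wt1Defs

/-!
# T4 block (III), leaf [W1-EISNEB] (helper61): the nebentypus law of `E_ψ` on `Γ₀(ℓ)`

`eisNeb_of : GModStatement → GPerStatement → EisNebStatement`.

For `γ ∈ Γ₀(ℓ)` with lower row `(c, d)`: `g_(0,b)(γ τ) = (cτ + d) g_(bc, bd)(τ) =
(cτ + d) g_(0, bd mod ℓ)(τ)` for `b ≠ 0 mod ℓ`, the Fourier coefficients satisfy
`c_b = ψ(d) c_(b d)` and `c_0 = 0` (`ψ` is non-trivial); reindex `b ↦ b d` on `ZMod ℓ`.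
-/

set_option autoImplicit false

open Complex
open UpperHalfPlane hiding I
open scoped MatrixGroups Real

namespace Fermat.Agent.T4.helper61

open Fermat.Agent.T4.helper85

noncomputable section

variable (ℓ : ℕ) [NeZero ℓ]

/-- sums over `range ℓ` are sums over `ZMod ℓ`. -/
lemma neb_sum_range_zmod (f : ZMod ℓ → ℂ) :
    ∑ a ∈ Finset.range ℓ, f (a : ZMod ℓ) = ∑ x : ZMod ℓ, f x := by
  refine Finset.sum_nbij' (fun a => (a : ZMod ℓ)) (fun x => x.val) ?_ ?_ ?_ ?_ ?_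
  · intro a _
    exact Finset.mem_univ _
  · intro x _
    exact Finset.mem_range.mpr (ZMod.val_lt x)
  · intro a ha
    exact ZMod.val_natCast_of_lt (Finset.mem_range.mp ha)
  · intro x _
    exact ZMod.natCast_zmod_val x
  · intro a _
    rfl

/-- the finite Fourier transform of `ψ`, as a function on `ZMod ℓ`. -/
def nebC (ψ : DirichletCharacter ℂ ℓ) (x : ZMod ℓ) : ℂ :=
  (ℓ : ℂ)⁻¹ * ∑ y : ZMod ℓ, ψ y * ZMod.stdAddChar (y * x)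

lemma neb_cFou (ψ : DirichletCharacter ℂ ℓ) (b : ℕ) : cFou ℓ ψ b = nebC ℓ ψ (b : ZMod ℓ) := by
  unfold cFou nebC
  congr 1
  rw [← neb_sum_range_zmod ℓ (fun y => ψ y * ZMod.stdAddChar (y * (b : ZMod ℓ)))]
  refine Finset.sum_congr rfl fun a _ => ?_
  congr 1
  have h := ZMod.stdAddChar_coe (N := ℓ) ((a : ℤ) * (b : ℤ))
  rw [eRoot, ← h]
  push_cast
  rfl

lemma nebC_zero (ψ : DirichletCharacter ℂ ℓ) (hodd : ψ (-1) = -1) : nebC ℓ ψ 0 = 0 := by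
  have hne : ψ ≠ 1 := by
    intro h
    rw [h, MulChar.one_apply (isUnit_one.neg)] at hodd
    norm_num at hodd
  unfold nebC
  have h0 : ∑ y : ZMod ℓ, ψ y * ZMod.stdAddChar (y * (0 : ZMod ℓ)) = ∑ y : ZMod ℓ, ψ y := by
    refine Finset.sum_congr rfl fun y _ => ?_
    rw [mul_zero, AddChar.map_zero_eq_one, mul_one]
  rw [h0, MulChar.sum_eq_zero_of_ne_one hne, mul_zero]

lemma nebC_mul_unit (ψ : DirichletCharacter ℂ ℓ) (u : (ZMod ℓ)ˣ) (x : ZMod ℓ) :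
    nebC ℓ ψ x = ψ u * nebC ℓ ψ (x * (u : ZMod ℓ)) := by
  unfold nebC
  have h : ∑ y : ZMod ℓ, ψ y * ZMod.stdAddChar (y * x) =
      ψ u * ∑ y : ZMod ℓ, ψ y * ZMod.stdAddChar (y * (x * (u : ZMod ℓ))) := by
    rw [Finset.mul_sum,
      ← Equiv.sum_comp (Units.mulRight u) (fun y : ZMod ℓ => ψ y * ZMod.stdAddChar (y * x))]
    refine Finset.sum_congr rfl fun y _ => ?_
    have h1 : y * (u : ZMod ℓ) * x = y * (x * (u : ZMod ℓ)) := by ring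
    rw [Units.mulRight_apply, map_mul, h1]
    ring
  rw [h]
  ring

omit [NeZero ℓ] in
/-- the lower right entry of an element of `Γ₀(ℓ)` is a unit mod `ℓ`. -/
lemma neb_isUnit (γ : SL(2, ℤ)) (hγ : γ ∈ CongruenceSubgroup.Gamma0 ℓ) :
    ∃ u : (ZMod ℓ)ˣ, (u : ZMod ℓ) = ((γ 1 1 : ℤ) : ZMod ℓ) := by
  have hc : ((γ 1 0 : ℤ) : ZMod ℓ) = 0 := CongruenceSubgroup.Gamma0_mem.mp hγ
  have hdet : γ 0 0 * γ 1 1 - γ 0 1 * γ 1 0 = 1 := by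
    have := γ.det_coe
    rw [Matrix.det_fin_two] at this
    exact this
  have h1 : ((γ 0 0 : ℤ) : ZMod ℓ) * ((γ 1 1 : ℤ) : ZMod ℓ) = 1 := by
    have := congrArg (fun t : ℤ => (t : ZMod ℓ)) hdet
    simp only [Int.cast_sub, Int.cast_mul, Int.cast_one, hc, mul_zero, sub_zero] at this
    exact this
  exact ⟨⟨((γ 1 1 : ℤ) : ZMod ℓ), ((γ 0 0 : ℤ) : ZMod ℓ), by rw [mul_comm]; exact h1, h1⟩, rfl⟩

/-- the law of `g_(0, b)` under `Γ₀(ℓ)`, `b ≠ 0`. -/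
lemma neb_gH (hM : GModStatement) (hP : GPerStatement) (γ : SL(2, ℤ))
    (hγ : γ ∈ CongruenceSubgroup.Gamma0 ℓ) (u : (ZMod ℓ)ˣ)
    (hu : (u : ZMod ℓ) = ((γ 1 1 : ℤ) : ZMod ℓ)) (τ : ℍ) (x : ZMod ℓ) (hx : x ≠ 0) :
    gH ℓ 0 (x.val : ℤ) (γ • τ) =
      ((γ 1 0 : ℂ) * τ + (γ 1 1 : ℂ)) * gH ℓ 0 ((x * (u : ZMod ℓ)).val : ℤ) τ := by
  rw [hM ℓ 0 (x.val : ℤ) γ τ]
  congr 1
  have hc : (ℓ : ℤ) ∣ γ 1 0 :=
    (ZMod.intCast_zmod_eq_zero_iff_dvd _ _).mp (CongruenceSubgroup.Gamma0_mem.mp hγ)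
  obtain ⟨m, hm⟩ : ∃ m : ℤ, 0 * γ 0 0 + (x.val : ℤ) * γ 1 0 = 0 + ℓ * m := by
    obtain ⟨c', hc'⟩ := hc
    exact ⟨x.val * c', by rw [hc']; ring⟩
  obtain ⟨n, hn⟩ : ∃ n : ℤ, 0 * γ 0 1 + (x.val : ℤ) * γ 1 1 = ((x * (u : ZMod ℓ)).val : ℤ) + ℓ * n := by
    have h1 : ((((x * (u : ZMod ℓ)).val : ℕ) : ℤ) : ZMod ℓ) = (((x.val : ℤ) * γ 1 1 : ℤ) : ZMod ℓ) := by
      push_cast
      rw [ZMod.natCast_zmod_val, ZMod.natCast_zmod_val, hu]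
    obtain ⟨n, hn⟩ := (ZMod.intCast_eq_intCast_iff_dvd_sub _ _ _).mp h1
    exact ⟨n, by linarith⟩
  rw [hm, hn]
  refine hP ℓ 0 _ m n τ (NeZero.pos ℓ) ?_
  rintro ⟨-, h2⟩
  apply hx
  have h3 : ((x * (u : ZMod ℓ)).val : ℕ) = 0 := by
    have h4 : (ℓ : ℕ) ∣ (x * (u : ZMod ℓ)).val := by exact_mod_cast h2
    exact Nat.eq_zero_of_dvd_of_lt h4 (ZMod.val_lt _)
  have h5 : x * (u : ZMod ℓ) = 0 := by
    rw [← ZMod.natCast_zmod_val (x * (u : ZMod ℓ)), h3, Nat.cast_zero]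
  exact (Units.mul_left_eq_zero u).mp h5

/-- **[W1-EISNEB]** the nebentypus law of `E_ψ` on `Γ₀(ℓ)`. -/
theorem eisNeb_of (hM : GModStatement) (hP : GPerStatement) : EisNebStatement := by
  intro ℓ _ ψ hodd γ hγ τ
  obtain ⟨u, hu⟩ := neb_isUnit ℓ γ hγ
  have key : ∀ τ' : ℍ, ∑ b ∈ Finset.range ℓ, cFou ℓ ψ b * gH ℓ 0 b τ' =
      ∑ x : ZMod ℓ, nebC ℓ ψ x * gH ℓ 0 (x.val : ℤ) τ' := by
    intro τ'
    rw [← neb_sum_range_zmod ℓ (fun x => nebC ℓ ψ x * gH ℓ 0 (x.val : ℤ) τ')]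
    refine Finset.sum_congr rfl fun b hb => ?_
    rw [neb_cFou, ZMod.val_natCast_of_lt (Finset.mem_range.mp hb)]
  have hterm : ∀ x : ZMod ℓ, nebC ℓ ψ x * gH ℓ 0 (x.val : ℤ) (γ • τ) =
      ψ u * ((γ 1 0 : ℂ) * τ + (γ 1 1 : ℂ)) *
        (nebC ℓ ψ (x * (u : ZMod ℓ)) * gH ℓ 0 ((x * (u : ZMod ℓ)).val : ℤ) τ) := by
    intro x
    by_cases hx : x = 0
    · subst hx
      rw [zero_mul, nebC_zero ℓ ψ hodd]
      ring
    · rw [neb_gH ℓ hM hP γ hγ u hu τ x hx, nebC_mul_unit ℓ ψ u x]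
      ring
  unfold eisFun
  rw [key, key, Finset.sum_congr rfl (fun x _ => hterm x), ← Finset.mul_sum]
  have hre := Equiv.sum_comp (Units.mulRight u)
    (fun x : ZMod ℓ => nebC ℓ ψ x * gH ℓ 0 (x.val : ℤ) τ)
  simp only [Units.mulRight_apply] at hre
  rw [hre, hu]
  ring

end

end Fermat.Agent.T4.helper61
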