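import Mathlib
import Fermat.Agent.T4.helper62_ChebDefs

/-!
# T4 block (II): Chebotarev density - the assembly [T4-CHEB-ASM] (helper62)

`chebDensityNF_of : CycChebStatement → DeuringStatement → CrossStatement → RestrictStatement →
ChebDensityNF`.

For a conjugacy class `C(σ)` of `Gal(L/ℚ)` and `ε > 0` the crossing fields give `Ω ⊇ L` and
pairwise non-conjugate `a ∈ Y ⊆ Gal(Ω/ℚ)` over `σ`; Chebotarev for the extension of cyclotomic
type `Ω / Ω^⟨a⟩` and Deuring's reduction give the lower density `|C(a)| / |Gal(Ω/ℚ)|` for the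
primes with Frobenius in `C(a)`; these sets of primes are pairwise disjoint and contained in the
set of primes with Frobenius in `C(σ)`.  Summing over the classes contained in `C` gives the
general case.
-/

set_option autoImplicit false
set_option linter.unusedSectionVars false
set_option linter.unusedVariables false
set_option linter.style.longLine false
set_option linter.style.haveILetI false

open NumberField Ideal IsDedekindDomain Filter Topology
open scoped Classical

namespace Fermat.Agent.T4.helper62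

open Fermat.Agent.S14

section psum

variable (E : Type*) [Field E] [NumberField E]

lemma summable_indicator_pterm (S : Set (HeightOneSpectrum (𝓞 E))) {s : ℝ} (hs : 1 < s) :
    Summable (S.indicator (helper40.pterm E s)) :=
  (helper40.summable_pterm E hs).indicator S

lemma psum_nonneg (S : Set (HeightOneSpectrum (𝓞 E))) (s : ℝ) : 0 ≤ psum E S s :=
  tsum_nonneg fun 𝔭 => Set.indicator_nonneg (fun 𝔮 _ => (helper40.pterm_pos E s 𝔮).le) 𝔭

lemma psum_mono {S T : Set (HeightOneSpectrum (𝓞 E))} (h : S ⊆ T) {s : ℝ} (hs : 1 < s) :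
    psum E S s ≤ psum E T s := by
  unfold psum
  exact (summable_indicator_pterm E S hs).tsum_le_tsum
    (fun 𝔭 => Set.indicator_le_indicator_of_subset h (fun 𝔮 => (helper40.pterm_pos E s 𝔮).le) 𝔭)
    (summable_indicator_pterm E T hs)

lemma psum_biUnion {ι : Type*} (Y : Finset ι) (S : ι → Set (HeightOneSpectrum (𝓞 E)))
    (hd : ∀ a ∈ Y, ∀ b ∈ Y, a ≠ b → Disjoint (S a) (S b)) {s : ℝ} (hs : 1 < s) :
    psum E (⋃ a ∈ Y, S a) s = ∑ a ∈ Y, psum E (S a) s := by
  unfold psum
  rw [← Summable.tsum_finsetSum (fun a _ => summable_indicator_pterm E (S a) hs)]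
  congr 1
  funext 𝔭
  exact congrFun (Finset.indicator_biUnion Y S hd) 𝔭

lemma log_inv_nonneg {s : ℝ} (hs : 1 < s) (hs2 : s ≤ 2) : 0 ≤ Real.log (1 / (s - 1)) := by
  apply Real.log_nonneg
  rw [le_div_iff₀ (by linarith)]
  linarith

variable {E}

lemma HasLogDensity.ge {S : Set (HeightOneSpectrum (𝓞 E))} {c : ℝ} (h : HasLogDensity E S c) :
    HasLogDensityGE E S c := by
  obtain ⟨B, hB⟩ := h
  refine ⟨B, fun s hs hs2 => ?_⟩
  have := (abs_le.mp (hB s hs hs2)).1
  linarith

lemma HasLogDensityGE.mono {S T : Set (HeightOneSpectrum (𝓞 E))} {c : ℝ}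
    (h : HasLogDensityGE E S c) (hST : S ⊆ T) : HasLogDensityGE E T c := by
  obtain ⟨B, hB⟩ := h
  refine ⟨B, fun s hs hs2 => ?_⟩
  have := hB s hs hs2
  have := psum_mono E hST hs
  linarith

lemma HasLogDensityGE.weaken {S : Set (HeightOneSpectrum (𝓞 E))} {c c' : ℝ}
    (h : HasLogDensityGE E S c) (hc : c' ≤ c) : HasLogDensityGE E S c' := by
  obtain ⟨B, hB⟩ := h
  refine ⟨B, fun s hs hs2 => ?_⟩
  have h1 := hB s hs hs2
  have h2 := mul_le_mul_of_nonneg_right hc (log_inv_nonneg hs hs2)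
  linarith

lemma HasLogDensityGE.biUnion {ι : Type*} (Y : Finset ι)
    (S : ι → Set (HeightOneSpectrum (𝓞 E))) (c : ι → ℝ)
    (hd : ∀ a ∈ Y, ∀ b ∈ Y, a ≠ b → Disjoint (S a) (S b))
    (h : ∀ a ∈ Y, HasLogDensityGE E (S a) (c a)) :
    HasLogDensityGE E (⋃ a ∈ Y, S a) (∑ a ∈ Y, c a) := by
  have h' : ∀ a : ι, ∃ B : ℝ, a ∈ Y → ∀ s : ℝ, 1 < s → s ≤ 2 →
      c a * Real.log (1 / (s - 1)) ≤ psum E (S a) s + B := by
    intro a
    by_cases ha : a ∈ Y
    · obtain ⟨B, hB⟩ := h a ha
      exact ⟨B, fun _ => hB⟩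
    · exact ⟨0, fun ha' => absurd ha' ha⟩
  choose B hB using h'
  refine ⟨∑ a ∈ Y, B a, fun s hs hs2 => ?_⟩
  rw [psum_biUnion E Y S hd hs, Finset.sum_mul, ← Finset.sum_add_distrib]
  exact Finset.sum_le_sum fun a ha => hB a ha s hs hs2

end psum

/-! ### One conjugacy class -/

theorem class_density (hCyc : CycChebStatement) (hDeu : DeuringStatement)
    (hCross : CrossStatement) (hRes : RestrictStatement)
    (L : Type) [Field L] [NumberField L] [IsGalois ℚ L] (σ : Gal(L/ℚ)) (ε : ℝ) (hε : 0 < ε) :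
    HasLogDensityGE ℚ (frobSet ℚ L {τ | IsConj σ τ})
      ((1 - ε) * ((Nat.card {τ : Gal(L/ℚ) // IsConj σ τ} : ℝ) / (Nat.card Gal(L/ℚ) : ℝ))) := by
  obtain ⟨Ω, iF, iNF, iAlg, iGal, Y, hres, hconj, hcyc, hprop⟩ := hCross L σ ε hε
  -- the density of each class `C(a)`, `a ∈ Y`
  have hY : ∀ a ∈ Y, HasLogDensityGE ℚ (frobSet ℚ Ω {b | IsConj a b})
      ((Nat.card {b : Gal(Ω/ℚ) // IsConj a b} : ℝ) / (Nat.card Gal(Ω/ℚ) : ℝ)) := by
    intro a ha
    have hmem : a ∈ (IntermediateField.fixedField (Subgroup.zpowers a)).fixingSubgroup := by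
      rw [IntermediateField.fixingSubgroup_fixedField]
      exact Subgroup.mem_zpowers a
    have h1 := hCyc (IntermediateField.fixedField (Subgroup.zpowers a)) Ω (hcyc a ha)
      (IntermediateField.fixingSubgroupEquiv
        (IntermediateField.fixedField (Subgroup.zpowers a)) ⟨a, hmem⟩)
    have hcard : Nat.card Gal(Ω/(IntermediateField.fixedField (Subgroup.zpowers a))) =
        orderOf a := by
      rw [← Nat.card_congr (IntermediateField.fixingSubgroupEquiv
        (IntermediateField.fixedField (Subgroup.zpowers a))).toEquiv,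
        IntermediateField.fixingSubgroup_fixedField, Nat.card_zpowers]
    rw [hcard] at h1
    exact hDeu Ω a _ (fun x => rfl) h1.ge
  -- disjointness
  have hdisj : ∀ a ∈ Y, ∀ b ∈ Y, a ≠ b →
      Disjoint (frobSet ℚ Ω {c | IsConj a c}) (frobSet ℚ Ω {c | IsConj b c}) := by
    intro a ha b hb hab
    rw [Set.disjoint_left]
    intro 𝔭 h1 h2
    exact hab (hconj a ha b hb (h1.2.trans h2.2.symm))
  have hU := HasLogDensityGE.biUnion Y (fun a => frobSet ℚ Ω {c | IsConj a c})
    (fun a => (Nat.card {b : Gal(Ω/ℚ) // IsConj a b} : ℝ) / (Nat.card Gal(Ω/ℚ) : ℝ)) hdisj hY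
  -- inclusion
  have hsub : (⋃ a ∈ Y, frobSet ℚ Ω {c | IsConj a c}) ⊆ frobSet ℚ L {τ | IsConj σ τ} := by
    intro 𝔭 h𝔭
    simp only [Set.mem_iUnion] at h𝔭
    obtain ⟨a, ha, hur, hfr⟩ := h𝔭
    obtain ⟨hurL, hc⟩ := hRes L Ω 𝔭 hur
    refine ⟨hurL, ?_⟩
    have h3 : IsConj (AlgEquiv.restrictNormalHom L a)
        (AlgEquiv.restrictNormalHom L (frobAt ℚ Ω 𝔭.asIdeal)) :=
      MonoidHom.map_isConj (AlgEquiv.restrictNormalHom L)
        (show IsConj a (frobAt ℚ Ω 𝔭.asIdeal) from hfr)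
    rw [hres a ha] at h3
    exact h3.trans hc
  exact (hU.mono hsub).weaken hprop

/-! ### Conjugation-stable sets -/

section classes

variable {G : Type*} [Group G] [Finite G]

/-- A conjugation-stable set is the disjoint union of the conjugacy classes it contains:
the cardinalities add up. -/
lemma sum_card_carrier_eq (C : Set G) (hC : ∀ g h : G, h ∈ C → g * h * g⁻¹ ∈ C)
    [Fintype (ConjClasses G)] :
    ∑ c ∈ (Finset.univ.filter fun c : ConjClasses G => c.carrier ⊆ C),
      (Nat.card c.carrier : ℝ) = (Nat.card C : ℝ) := by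
  have hmk : ∀ x : G, x ∈ C → (ConjClasses.mk x).carrier ⊆ C := by
    intro x hx y hy
    rw [ConjClasses.mem_carrier_iff_mk_eq, ConjClasses.mk_eq_mk_iff_isConj] at hy
    obtain ⟨u, hu⟩ := hy.symm
    have : y = (u : G) * x * (u : G)⁻¹ := by
      have := hu
      rw [SemiconjBy] at this
      rw [this, mul_inv_cancel_right]
    rw [this]
    exact hC _ _ hx
  let e : C ≃ Σ c : {c : ConjClasses G // c.carrier ⊆ C}, c.1.carrier :=
    { toFun := fun x => ⟨⟨ConjClasses.mk x.1, hmk x.1 x.2⟩, ⟨x.1, ConjClasses.mem_carrier_mk⟩⟩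
      invFun := fun y => ⟨y.2.1, y.1.2 y.2.2⟩
      left_inv := fun x => rfl
      right_inv := by
        rintro ⟨⟨c, hc⟩, ⟨y, hy⟩⟩
        have : ConjClasses.mk y = c := ConjClasses.mem_carrier_iff_mk_eq.mp hy
        subst this
        rfl }
  rw [Nat.card_congr e, Nat.card_sigma, Nat.cast_sum]
  rw [← Finset.sum_subtype (Finset.univ.filter fun c : ConjClasses G => c.carrier ⊆ C)
    (fun c => by simp) (fun c => (Nat.card c.carrier : ℝ))]

end classes

/-- **[T4-CHEB-ASM]** The Chebotarev density theorem (number field form, lower bounds) from the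
leaves of the chain. -/
theorem chebDensityNF_of (hCyc : CycChebStatement) (hDeu : DeuringStatement)
    (hCross : CrossStatement) (hRes : RestrictStatement) : ChebDensityNF := by
  intro L _ _ _ C hC ε hε
  letI : Fintype (ConjClasses Gal(L/ℚ)) := Fintype.ofFinite _
  set T : Finset (ConjClasses Gal(L/ℚ)) :=
    Finset.univ.filter fun c : ConjClasses Gal(L/ℚ) => c.carrier ⊆ C with hT
  -- each class
  have hcl : ∀ c ∈ T, HasLogDensityGE ℚ (frobSet ℚ L c.carrier)
      ((1 - ε) * ((Nat.card c.carrier : ℝ) / (Nat.card Gal(L/ℚ) : ℝ))) := by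
    intro c _
    obtain ⟨σ, rfl⟩ := ConjClasses.mk_surjective c
    have h := class_density hCyc hDeu hCross hRes L σ ε hε
    have hset : {τ : Gal(L/ℚ) | IsConj σ τ} = (ConjClasses.mk σ).carrier := by
      ext τ
      rw [ConjClasses.mem_carrier_iff_mk_eq, ConjClasses.mk_eq_mk_iff_isConj]
      exact ⟨fun h => h.symm, fun h => h.symm⟩
    have hcard : Nat.card {τ : Gal(L/ℚ) // IsConj σ τ} =
        Nat.card (ConjClasses.mk σ).carrier :=
      Nat.card_congr (Equiv.setCongr hset)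
    rw [hset, hcard] at h
    exact h
  have hdisj : ∀ c ∈ T, ∀ c' ∈ T, c ≠ c' →
      Disjoint (frobSet ℚ L c.carrier) (frobSet ℚ L c'.carrier) := by
    intro c _ c' _ hcc
    rw [Set.disjoint_left]
    intro 𝔭 h1 h2
    exact hcc ((ConjClasses.mem_carrier_iff_mk_eq.mp h1.2).symm.trans
      (ConjClasses.mem_carrier_iff_mk_eq.mp h2.2))
  have hU := HasLogDensityGE.biUnion T (fun c => frobSet ℚ L c.carrier)
    (fun c => (1 - ε) * ((Nat.card c.carrier : ℝ) / (Nat.card Gal(L/ℚ) : ℝ))) hdisj hcl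
  have hsub : (⋃ c ∈ T, frobSet ℚ L c.carrier) ⊆ frobSet ℚ L C := by
    intro 𝔭 h𝔭
    simp only [Set.mem_iUnion] at h𝔭
    obtain ⟨c, hc, hur, hfr⟩ := h𝔭
    exact ⟨hur, (Finset.mem_filter.mp hc).2 hfr⟩
  refine (hU.mono hsub).weaken ?_
  -- the constants
  have hsum := sum_card_carrier_eq C hC
  have hG : (0 : ℝ) < (Nat.card Gal(L/ℚ) : ℝ) := by exact_mod_cast Nat.card_pos
  have hCG : (Nat.card C : ℝ) / (Nat.card Gal(L/ℚ) : ℝ) ≤ 1 := by
    rw [div_le_one hG]
    exact_mod_cast Nat.card_le_card_of_injective (fun x : C => x.1) Subtype.val_injective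
  have hCG0 : (0 : ℝ) ≤ (Nat.card C : ℝ) / (Nat.card Gal(L/ℚ) : ℝ) := by positivity
  rw [← Finset.mul_sum, ← Finset.sum_div, hsum]
  nlinarith
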