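import Mathlib
import Fermat.Agent.T4.helper62_ChebAsm
import Fermat.Agent.Cheb.helper40_ChebCyclic
import Fermat.Agent.S14.helper12_Artin

/-!
# T4 block (II): Chebotarev for extensions of even cyclotomic type [T4-CHEB-CYC] (helper62)

`cycCheb_of : AbelianDensityStatement → CycChebStatement`.

`Gal(Ω/F)` embeds in `ℂˣ`, so it is cyclic of order `d`.  The character `χ ∘ N` has exact order
`d` on the primes outside `Bad ∪ ramSet`: a prime whose Frobenius generates the group exists by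
the weak Chebotarev theorem on main, and `χ (N𝔮) = 1` on the completely split primes, which
have lower density `1/d` (pole of the zeta function of `Ω`).
-/

set_option autoImplicit false
set_option linter.unusedSectionVars false
set_option linter.unusedVariables false
set_option linter.style.longLine false
set_option linter.style.haveILetI false

open NumberField Ideal IsDedekindDomain Filter Topology
open scoped Classical

namespace Fermat.Agent.T4.helper62

open Fermat.Agent.S14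

section finiteChange

variable {E : Type*} [Field E] [NumberField E]

lemma psum_union_le (A B : Set (HeightOneSpectrum (𝓞 E))) {s : ℝ} (hs : 1 < s) :
    psum E (A ∪ B) s ≤ psum E A s + psum E B s := by
  unfold psum
  rw [← (summable_indicator_pterm E A hs).tsum_add (summable_indicator_pterm E B hs)]
  refine (summable_indicator_pterm E (A ∪ B) hs).tsum_le_tsum (fun 𝔭 => ?_)
    ((summable_indicator_pterm E A hs).add (summable_indicator_pterm E B hs))
  have hp := (helper40.pterm_pos E s 𝔭).le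
  by_cases hA : 𝔭 ∈ A <;> by_cases hB : 𝔭 ∈ B <;>
    simp [Set.indicator, hA, hB, hp]

lemma psum_finite_le {D : Set (HeightOneSpectrum (𝓞 E))} (hD : D.Finite) {s : ℝ} (hs : 1 < s) :
    psum E D s ≤ (hD.toFinset.card : ℝ) :=
  Cheb.helper40.tsum_indicator_finite_le E hD hs.le

/-- Logarithmic density is insensitive to finite changes of the set. -/
lemma HasLogDensity.of_finite_change {S S' : Set (HeightOneSpectrum (𝓞 E))} {c : ℝ}
    (h : HasLogDensity E S' c) (D : Set (HeightOneSpectrum (𝓞 E))) (hD : D.Finite)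
    (h1 : S ⊆ S' ∪ D) (h2 : S' ⊆ S ∪ D) : HasLogDensity E S c := by
  obtain ⟨B, hB⟩ := h
  refine ⟨B + (hD.toFinset.card : ℝ), fun s hs hs2 => ?_⟩
  have hb := abs_le.mp (hB s hs hs2)
  have e1 := (psum_mono E h1 hs).trans (psum_union_le S' D hs)
  have e2 := (psum_mono E h2 hs).trans (psum_union_le S D hs)
  have e3 := psum_finite_le hD hs
  rw [abs_le]
  constructor <;> linarith [hb.1, hb.2]

end finiteChange

section split

variable (F Ω : Type*) [Field F] [NumberField F] [Field Ω] [NumberField Ω] [Algebra F Ω]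
  [IsAbelianGalois F Ω]

/-- At an unramified completely split prime the Frobenius is trivial. -/
lemma frobAt_eq_one_of_mem_splitSet (𝔮 : HeightOneSpectrum (𝓞 F))
    (hr : 𝔮 ∉ helper52.ramSet F Ω) (hs : 𝔮 ∈ helper34.splitSet F Ω) :
    frobAt F Ω 𝔮.asIdeal = 1 := by
  haveI : 𝔮.asIdeal.IsPrime := 𝔮.isPrime
  obtain ⟨P, hP, hP0, hPu, -⟩ := helper12.exists_isArithFrobAt_frobAt F Ω 𝔮.asIdeal 𝔮.ne_bot
  haveI := hP
  haveI : P.LiesOver 𝔮.asIdeal := ⟨hPu.symm⟩
  have he : helper52.eNum F Ω 𝔮 = 1 := by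
    by_contra hne
    exact hr hne
  have hunr := Cheb.helper40.inertia_trivial_of_eNum_eq_one F Ω 𝔮 he P hPu
  have h1 := (helper12.ncard_primesOver_eq_finrank_iff F Ω 𝔮.asIdeal 𝔮.ne_bot P hunr).mp hs
  have h2 := (helper12.frobAt_eq_one_iff_card F Ω P hP0 hunr).mpr (by rw [hPu]; exact h1)
  rw [hPu] at h2
  exact h2

end split

/-- **[T4-CHEB-CYC]** -/
theorem cycCheb_of (hAD : AbelianDensityStatement) : CycChebStatement := by
  intro F Ω _ _ _ _ _ _ hct g
  obtain ⟨m, hm, χ, ι, Bad, heven, hinj, hBad, hfrob⟩ := hct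
  haveI : NeZero m := hm
  -- the group is abelian
  haveI hcomm : IsMulCommutative Gal(Ω/F) :=
    ⟨⟨fun a b => hinj (by rw [map_mul, map_mul, mul_comm])⟩⟩
  haveI hab : IsAbelianGalois F Ω := { }
  have hdpos : 0 < Nat.card Gal(Ω/F) := Nat.card_pos
  have hBad'fin : (Bad ∪ helper52.ramSet F Ω).Finite := hBad.union (helper52.ramSet_finite F Ω)
  -- the group is cyclic
  haveI : IsCyclic Gal(Ω/F) :=
    isCyclic_of_subgroup_isDomain ((Units.coeHom ℂ).comp ι) (Units.val_injective.comp hinj)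
  obtain ⟨g₀, hg₀⟩ := IsCyclic.exists_generator (α := Gal(Ω/F))
  obtain ⟨𝔮₁, h𝔮₁, -, hgen⟩ :=
    Cheb.helper40.exists_prime_frobAt_generates g₀ hg₀ (Bad ∪ helper52.ramSet F Ω) hBad'fin
  have hfrob' : ∀ 𝔮 : HeightOneSpectrum (𝓞 F), 𝔮 ∉ Bad ∪ helper52.ramSet F Ω →
      chiN F χ 𝔮 = (ι (frobAt F Ω 𝔮.asIdeal) : ℂ) :=
    fun 𝔮 h𝔮 => (hfrob 𝔮 (fun h => h𝔮 (Or.inl h))).symm
  have hNO : NormOrder F χ (Nat.card Gal(Ω/F)) (Bad ∪ helper52.ramSet F Ω) := by
    refine ⟨hdpos, hBad'fin, ?_, ⟨𝔮₁, h𝔮₁, ?_⟩, ?_⟩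
    · intro 𝔮 h𝔮
      rw [hfrob' 𝔮 h𝔮, ← Units.val_pow_eq_pow_val, ← map_pow, pow_card_eq_one', map_one,
        Units.val_one]
    · rw [hfrob' 𝔮₁ h𝔮₁]
      have ho : orderOf (frobAt F Ω 𝔮₁.asIdeal) = Nat.card Gal(Ω/F) :=
        orderOf_eq_card_of_forall_mem_zpowers hgen
      have ho' : orderOf (ι (frobAt F Ω 𝔮₁.asIdeal)) = Nat.card Gal(Ω/F) := by
        rw [orderOf_injective ι hinj, ho]
      rw [IsPrimitiveRoot.coe_units_iff, ← ho']
      exact IsPrimitiveRoot.orderOf _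
    · obtain ⟨B, hB⟩ := Cheb.helper40.exists_bound_good_split (E := F) Ω
        (Bad ∪ helper52.ramSet F Ω) hBad'fin
      refine ⟨B / (Nat.card Gal(Ω/F) : ℝ), fun s hs hs2 => ?_⟩
      have h1 := (abs_le.mp (hB s hs hs2)).1
      have hsub : Cheb.helper40.goodSet F (Bad ∪ helper52.ramSet F Ω) ∩ helper34.splitSet F Ω ⊆
          {𝔮 | 𝔮 ∉ Bad ∪ helper52.ramSet F Ω ∧ chiN F χ 𝔮 = 1} := by
        rintro 𝔮 ⟨⟨-, hb⟩, hsp⟩
        refine ⟨hb, ?_⟩
        rw [hfrob' 𝔮 hb, frobAt_eq_one_of_mem_splitSet F Ω 𝔮 (fun h => hb (Or.inr h)) hsp,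
          map_one, Units.val_one]
      have h2 := psum_mono F hsub hs
      have hfr : (Module.finrank F Ω : ℝ) = (Nat.card Gal(Ω/F) : ℝ) := by
        rw [IsGalois.card_aut_eq_finrank]
      have hd : (0 : ℝ) < (Nat.card Gal(Ω/F) : ℝ) := by exact_mod_cast hdpos
      have h3 : ∑' 𝔭, (Cheb.helper40.goodSet F (Bad ∪ helper52.ramSet F Ω) ∩
          helper34.splitSet F Ω).indicator (Cheb.helper40.pt F s) 𝔭 =
          psum F (Cheb.helper40.goodSet F (Bad ∪ helper52.ramSet F Ω) ∩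
            helper34.splitSet F Ω) s := rfl
      rw [h3, hfr] at h1
      have h4 : Real.log (1 / (s - 1)) ≤ (Nat.card Gal(Ω/F) : ℝ) *
          psum F {𝔮 | 𝔮 ∉ Bad ∪ helper52.ramSet F Ω ∧ chiN F χ 𝔮 = 1} s + B := by
        have := mul_le_mul_of_nonneg_left h2 hd.le
        linarith
      rw [one_div, inv_mul_le_iff₀ hd, mul_add, mul_div_cancel₀ _ hd.ne']
      exact h4
  have hz : ((ι g : ℂˣ) : ℂ) ^ Nat.card Gal(Ω/F) = 1 := by
    rw [← Units.val_pow_eq_pow_val, ← map_pow, pow_card_eq_one', map_one, Units.val_one]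
  have h := hAD F m χ (Nat.card Gal(Ω/F)) (Bad ∪ helper52.ramSet F Ω) heven hNO (ι g) hz
  refine HasLogDensity.of_finite_change h Bad hBad ?_ ?_
  · rintro 𝔮 ⟨hr, hf⟩
    by_cases hb : 𝔮 ∈ Bad
    · exact Or.inr hb
    · left
      have hb' : 𝔮 ∉ Bad ∪ helper52.ramSet F Ω := fun h => h.elim hb hr
      refine ⟨hb', ?_⟩
      rw [hfrob' 𝔮 hb']
      have : frobAt F Ω 𝔮.asIdeal = g := hf
      rw [this]
  · rintro 𝔮 ⟨hb', hc⟩
    left
    refine ⟨fun h => hb' (Or.inr h), ?_⟩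
    rw [hfrob' 𝔮 hb'] at hc
    exact hinj (Units.ext hc)
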