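/-
# T4 block (II) - Chebotarev density: BLUEPRINT (helper62, sub-coordinator)   [comment-only file]

Shapes: `Fermat/Agent/T4/helper62_ChebDefs.lean` (ns `Fermat.Agent.T4.helper62`),
        `Fermat/Agent/T4/helper62_ChebStmts.lean` (Gal(Qbar/Q) forms for block (IV)).
Every leaf is ONE theorem `name : <inputs> -> XStatement` in its own file
`Fermat/Agent/T4/<seat>_Cheb<Leaf>.lean`, namespace `Fermat.Agent.T4.<seat>`; import only
Mathlib + S14 / Cheb files on main + helper62_ChebDefs.  Additions only; never edit landed files.

## DAG
  LTWIST --+
  EULERLOG +--> NONVANISH --+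
           +--> LOGBOUND ---+--> AD --> CYC --+
                                    DEURING --+
                                      CROSS --+--> ASM (ChebDensityNF) --> GQ --> CONSUMER
                                   RESTRICT --+

## Analytic leaves (F a number field, chi a Dirichlet character mod m, real s in (1,2])
[LTWIST] helper31.  `LTwistStatement`.  S14 tent-weight machinery (helper34_Translate, LatticeSum,
  Coset, helper78_OrbitSum): partial sums over ideal classes, chi(N a) periodic mod m c.
[EULERLOG] `eulerLog : EulerLogStatement`.  R s := sum over primes of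
  (-log(1 - x) - x), x = chi(Nq) Nq^-s, |x| <= 1/2, |(-log(1-x)) - x| <= |x|^2, so
  |R s| <= sum Nq^-2.  exp(sum -log(1 - x)) = prod (1 - x)^-1 = Ltw by
  S14 helper69_EulerProd.hasProd_euler (f I := chi(N I) N(I)^-s as a monoid-with-zero hom)
  and HasSum.cexp.  Continuity on (1,2]: uniform convergence on [1+delta, 2].
[NONVANISH] `nonvanish_of : LTwistStatement -> EulerLogStatement -> NonvanishStatement`.
  P(s) := prod_{i<d} Ltw F (chi^i) s.  By EULERLOG, log |P(s)| = sum_q (sum_{i<d} Re chi(Nq)^i)
  Nq^-s + O(1) = d * psum {q notin Bad, chi(Nq) = 1} + O(1) >= log(1/(s-1)) - O(1) (NormOrder,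
  third clause; for q notin Bad, chi(Nq) is a d-th root of unity).  Upper bound:
  |Ltw F 1 s| <= zeta_F(s) <= C/(s-1) (S14 helper52_ZetaIdeal.tendsto_sub_one_mul_zetaR) and
  for 0 < i < d the factor Ltw F (chi^i) has a finite limit (LTWIST: chi^i is even and
  chi^i(Nq1) != 0, 1 at the prime q1 of NormOrder).  Hence prod_{0<i<d} |Ltw F (chi^i) s| is
  bounded below near 1, so no limit is 0.
[LOGBOUND] `logBound_of : EulerLogStatement -> LogBoundStatement`.  u := primeTw + R is continuous
  on (1,2] with exp u = Ltw -> l != 0.  Near 1: v := u - Complex.log (Ltw / l) is continuous with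
  exp v = l, so v is constant on (1, 1+delta) (IsPreconnected.constant_of_mapsTo, discrete
  fibre of exp); on [1+delta, 2] compactness.  So u, hence primeTw, is bounded.
[AD] `abelianDensity_of : LTwistStatement -> NonvanishStatement -> LogBoundStatement ->
  AbelianDensityStatement`.  For w with w^d = 1: indicator (w = z) = (1/d) sum_{j<d} z^-j w^j.
  j = 0: sum over q notin Bad of Nq^-s = log(1/(s-1)) + O(1)
  (S14 helper52_PrimeSum.primeIdeal_sum_sub_log_bounded, Bad finite); 0 < j < d: bounded.

## Algebraic leaves
[CYC] `cycCheb_of : AbelianDensityStatement -> CycChebStatement`.  Gal(Omega/F) embeds in C^x by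
  iota, so it is cyclic of order d, generated by g0.  NormOrder F chi d (Bad u ramSet):
  chi(Nq)^d = iota(frob^d) = 1; a prime with chi(Nq) primitive of order d from
  Cheb.helper40.exists_prime_frobAt_generates; the density of (chi(Nq) = 1) = (frob = 1) =
  splitSet from Cheb.helper40.exists_bound_good_split and mem_splitSet_iff_mem_fixingSubgroup
  (or S14 helper12 frobAt_eq_one_iff_card).  Then AD with z = iota g.
[DEURING] `deuring : DeuringStatement`.  F = fixed field of <a>, d = orderOf a.  A prime q of F
  in frobSet F Omega {a'} with prime norm p, p unramified in Omega: the prime Q of Omega above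
  q is unique, a is a Frobenius at Q for Omega/Q, so frobAt Q Omega (p) is conjugate to a.
  Fibre over p: injects into {Q | p : Frob_Q = a}, on which the centraliser Z(a) acts
  transitively with stabilisers containing <a>: at most |Z(a)|/d elements.  Primes q of
  non-prime norm and the finitely many ramified p contribute O(1)
  (Cheb.helper40.tsum_indicator_nonprime_le, tsum_indicator_finite_le).  So
  psum_F <= (|Z(a)|/d) psum_Q + O(1) and |Z(a)| |C(a)| = |Gal(Omega/Q)|.
[RESTRICT] `restrict : RestrictStatement`.  S14 helper39_CycloInertia.restrictNormalHom_frob,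
  helper12_Artin.exists_isArithFrobAt_frobAt, transitivity of the Galois action on primes.
[CROSS] `cross : CrossStatement`.  n = orderOf sigma.  Choose k with
  #{z in C_(n^k) : n | orderOf z} >= (1 - eps) n^k (each prime power p^a || n fails with
  proportion p^(a-1-ak)), and a prime l = 1 mod 2 n^k unramified in L
  (Nat.exists_prime_gt_modEq_one).  Omega1 := CyclotomicField l L is Galois over Q with
  Phi = (restriction to L, cyclotomic character) : Gal(Omega1/Q) -> G x (Z/l)^x bijective
  (injective: Omega1 = L(zeta); surjective: inertia over l is trivial on L and maps onto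
  (Z/l)^x, or: the l-th cyclotomic polynomial is Eisenstein at an unramified prime over l).
  K0 := {x : x^((l-1)/n^k) = 1} contains -1.  Omega := fixed field of Phi^-1(1 x K0)
  (= L Z, Z the real subfield of degree n^k of Q(zeta_l)); Gal(Omega/Q) = G x mu_(n^k).
  Y := {(sigma, z) : n | orderOf z}.  For a = (sigma, z): Gal(Omega/F_a) = <a> maps
  injectively to mu_(n^k) (because n | orderOf z), and for a prime q of F_a, unramified, not
  over l, the Frobenius acts on zeta_l by zeta -> zeta^(Nq), so iota(frob_q) = omega_k(Nq) with
  omega_k an even Dirichlet character mod l of order n^k: IsEvenCycloType.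
  Sub-leaves: [CROSS-GAL] (Phi bijective), [CROSS-FROB] (Frobenius acts on zeta_l by the norm;
  S14 helper39_FrobGeneric.exists_frob_over), [CROSS-COUNT] (the proportion), [CROSS-ASM].

## Assembly
[ASM] helper62.  `chebDensityNF_of : CycChebStatement -> DeuringStatement -> CrossStatement ->
  RestrictStatement -> ChebDensityNF`.
[GQ] `chebDensityGQ_of : ChebDensityNF -> ChebDensityGQ` (helper91 dictionary:
  S14 helper91_Dictionary.restrict_frobenius, exists_primeOf_eq, Cheb helper91_ChebW) and
  `chebConsumer_of : ChebDensityGQ -> ChebConsumerStatement`.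

## Not needed
The Lipschitz lattice-point count is NOT on the critical path (LTWIST replaces it).
-/
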