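import Mathlib
import Fermat.Agent.T4.helper62_ChebDefs
import Fermat.Agent.Cheb.helper91_ChebW

/-!
# T4 block (II): Chebotarev density - the Prelude forms consumed by block (IV) (helper62)

* `psumNat X s` : `∑_{p ∈ X, p prime} p^(-s)` for a set `X` of natural numbers.
* `ChebDensityGQ` : for an open normal subgroup `U` of `Gal(ℚ̄/ℚ)` and a subset `C` stable under
  conjugation and under translation by `U`, the primes `p`, unramified modulo `U`, whose
  Frobenius elements lie in `C` have lower logarithmic density `|C/U| / |G/U|`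
  (bounded-error form, on `(1, 2]`).
* `ChebConsumerStatement` : the form used by the Deligne-Serre endgame: if all primes with
  Frobenius in `C` lie in a set `X` with `∑_{p ∈ X} p^(-s) ≤ η log (1/(s-1)) + O(1)`, then
  `|C/U| ≤ η |G/U|`.
-/

set_option autoImplicit false
set_option linter.unusedSectionVars false
set_option linter.unusedVariables false
set_option linter.style.longLine false

open Filter Topology
open scoped Classical

namespace Fermat.Agent.T4.helper62

open Fermat.Agent.S54.helper91 Fermat.Agent.S14.helper91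

/-- The prime sum `∑_{p ∈ X, p prime} p^(-s)` over a set of natural numbers. -/
noncomputable def psumNat (X : Set ℕ) (s : ℝ) : ℝ :=
  ∑' p : ℕ, (X ∩ {p | p.Prime}).indicator (fun p : ℕ => (p : ℝ) ^ (-s)) p

/-- The primes `p` such that the inertia groups over `p` lie in `U` and the Frobenius elements
over `p` lie in `C`. -/
def frobSetGQ (U : Subgroup GQ) (C : Set GQ) : Set ℕ :=
  {p | p.Prime ∧ ∀ A : ValuationSubring Qbar, A.LiesOverPrime p →
    A.inertiaSubgroupIn ℚ ≤ U ∧ ∀ φ : GQ, A.IsFrobeniusAt φ p → φ ∈ C}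

/-- **Chebotarev density theorem**, `Gal(ℚ̄/ℚ)` form, lower bound with bounded error. -/
def ChebDensityGQ : Prop :=
  ∀ (U : Subgroup GQ) [U.Normal], IsOpen (U : Set GQ) → ∀ C : Set GQ,
    (∀ g h : GQ, h ∈ C → g * h * g⁻¹ ∈ C) → (∀ g u : GQ, g ∈ C → u ∈ U → g * u ∈ C) →
    ∀ ε : ℝ, 0 < ε → ∃ B : ℝ, ∀ s : ℝ, 1 < s → s ≤ 2 →
      ((Nat.card ((QuotientGroup.mk : GQ → GQ ⧸ U) '' C) : ℝ) / (Nat.card (GQ ⧸ U) : ℝ) - ε) *
          Real.log (1 / (s - 1)) ≤ psumNat (frobSetGQ U C) s + B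

/-- The consumer form for the Deligne-Serre endgame. -/
def ChebConsumerStatement : Prop :=
  ∀ (U : Subgroup GQ) [U.Normal], IsOpen (U : Set GQ) → ∀ C : Set GQ,
    (∀ g h : GQ, h ∈ C → g * h * g⁻¹ ∈ C) → (∀ g u : GQ, g ∈ C → u ∈ U → g * u ∈ C) →
    ∀ (X : Set ℕ) (η : ℝ),
    (∀ p : ℕ, p.Prime → p ∉ X → ∀ A : ValuationSubring Qbar, A.LiesOverPrime p →
      A.inertiaSubgroupIn ℚ ≤ U → ∀ φ : GQ, A.IsFrobeniusAt φ p → φ ∉ C) →
    (∃ B : ℝ, ∀ s : ℝ, 1 < s → s ≤ 2 → psumNat X s ≤ η * Real.log (1 / (s - 1)) + B) →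
    (Nat.card ((QuotientGroup.mk : GQ → GQ ⧸ U) '' C) : ℝ) ≤ η * (Nat.card (GQ ⧸ U) : ℝ)

end Fermat.Agent.T4.helper62
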