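import Mathlib
import Fermat.Agent.T4.helper62_CrossGal
import Fermat.Agent.T4.helper39_ChebCrossDefs

/-!
# T4 block (II): [CROSS-FIELDS] the crossing fields (helper62)

`crossFields : helper39.CrossFieldsStatement`.

For a Galois number field `L/ℚ`, every prime `ℓ` above a bound `B` (the primes dividing the
different of `L`) is unramified at some prime `P` of `𝓞 L`, hence the `ℓ`-th cyclotomic
polynomial is irreducible over `L` and `(restriction, cyclotomic character)` maps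
`Gal(L(ζ_ℓ)/ℚ)` onto `Gal(L/ℚ) × (ZMod ℓ)ˣ` (`helper62_CrossGal`).  For `2 N ∣ ℓ - 1` take a
character `χ'` of `(ZMod ℓ)ˣ` onto the `N`-th roots of unity of `ℂ` (trivial at `-1`), and let
`Ω` be the fixed field of the kernel of `a ↦ (a|_L, χ'(cyclotomic character of a))`.

* `exists_bound_unram` : the bound `B`.
* `exists_unitHom` : the character `χ'`.
* `crossFields_core` : the clauses of the statement from a field `Ω ⊆ Ω₁` whose fixing
  automorphisms are exactly the kernel above.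
* `crossFields_of_irreducible` : the fixed field construction.
* `crossFields` : the statement.
-/

set_option autoImplicit false
set_option linter.unusedSectionVars false
set_option linter.unusedVariables false
set_option linter.style.longLine false
set_option linter.style.haveILetI false

open Polynomial NumberField

namespace Fermat.Agent.T4.helper62

/-- Part A: all large primes are unramified at some prime above them. -/
theorem exists_bound_unram (L : Type*) [Field L] [NumberField L] :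
    ∃ B : ℕ, ∀ ℓ : ℕ, ℓ.Prime → B < ℓ →
      ∃ P : Ideal (𝓞 L), P.IsPrime ∧ (ℓ : 𝓞 L) ∈ P ∧ (ℓ : 𝓞 L) ∉ P ^ 2 := by
  classical
  have hfin : {P : IsDedekindDomain.HeightOneSpectrum (𝓞 L) |
      P.asIdeal ∣ differentIdeal ℤ (𝓞 L)}.Finite :=
    Ideal.finite_factors differentIdeal_ne_bot
  set S : Finset ℕ := hfin.toFinset.image (fun P => Ideal.absNorm P.asIdeal) with hS
  refine ⟨S.sup id, fun ℓ hℓ hgt => ?_⟩
  have hpprime : (Ideal.span {(ℓ : ℤ)}).IsPrime :=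
    (Ideal.span_singleton_prime (by exact_mod_cast hℓ.ne_zero)).2 (Nat.prime_iff_prime_int.1 hℓ)
  obtain ⟨P, -, hPprime, hPcomap⟩ := Ideal.exists_ideal_over_prime_of_isIntegral
    (Ideal.span {(ℓ : ℤ)}) (⊥ : Ideal (𝓞 L)) (by
      rw [Ideal.comap_bot_of_injective _ (FaithfulSMul.algebraMap_injective ℤ (𝓞 L))]
      exact bot_le)
  haveI := hPprime
  have hmem : (ℓ : 𝓞 L) ∈ P := by
    have : (ℓ : ℤ) ∈ P.comap (algebraMap ℤ (𝓞 L)) := by
      rw [hPcomap]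
      exact Ideal.mem_span_singleton_self _
    simpa using this
  have hℓ0 : (ℓ : 𝓞 L) ≠ 0 := by exact_mod_cast hℓ.ne_zero
  have hP0 : P ≠ ⊥ := by
    rintro rfl
    exact hℓ0 (by simpa using hmem)
  refine ⟨P, hPprime, hmem, ?_⟩
  -- `P` does not divide the different
  have hnd : ¬ P ∣ differentIdeal ℤ (𝓞 L) := by
    intro hd
    have hPS : Ideal.absNorm P ∈ S :=
      Finset.mem_image.mpr ⟨⟨P, hPprime, hP0⟩, hfin.mem_toFinset.mpr hd, rfl⟩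
    have h1 : Ideal.absNorm P ≤ S.sup id := Finset.le_sup (f := id) hPS
    have h2 : (Ideal.absNorm P : ℤ) ∣ Algebra.norm ℤ (ℓ : 𝓞 L) :=
      Ideal.absNorm_dvd_norm_of_mem hmem
    have h3 : Algebra.norm ℤ (ℓ : 𝓞 L) = (ℓ : ℤ) ^ Module.finrank ℤ (𝓞 L) := by
      have := Algebra.norm_algebraMap (R := ℤ) (S := 𝓞 L) (ℓ : ℤ)
      simpa using this
    rw [h3] at h2
    have h4 : Ideal.absNorm P ∣ ℓ ^ Module.finrank ℤ (𝓞 L) := by exact_mod_cast h2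
    obtain ⟨j, -, hj⟩ := (Nat.dvd_prime_pow hℓ).mp h4
    have hne1 : Ideal.absNorm P ≠ 1 := by
      rw [Ne, Ideal.absNorm_eq_one_iff]
      exact hPprime.ne_top
    have hj0 : j ≠ 0 := by
      rintro rfl
      exact hne1 (by simpa using hj)
    have h5 : ℓ ≤ Ideal.absNorm P := by
      rw [hj]
      calc ℓ = ℓ ^ 1 := (pow_one ℓ).symm
        _ ≤ ℓ ^ j := Nat.pow_le_pow_right hℓ.pos (Nat.one_le_iff_ne_zero.mpr hj0)
    omega
  haveI hur : Algebra.IsUnramifiedAt ℤ P := not_dvd_differentIdeal_iff.mp hnd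
  have he : P.ramificationIdx ℤ = 1 := Ideal.ramificationIdx_eq_one_of_isUnramifiedAt
  haveI : P.LiesOver (Ideal.span {(ℓ : ℤ)}) := ⟨hPcomap.symm⟩
  have hmap : (Ideal.span {(ℓ : ℤ)}).map (algebraMap ℤ (𝓞 L)) = Ideal.span {(ℓ : 𝓞 L)} := by
    rw [Ideal.map_span, Set.image_singleton]
    simp
  have hmap0 : (Ideal.span {(ℓ : ℤ)}).map (algebraMap ℤ (𝓞 L)) ≠ ⊥ := by
    rw [hmap, Ne, Ideal.span_singleton_eq_bot]
    exact hℓ0
  have hcount := Ideal.IsDedekindDomain.ramificationIdx_eq_normalizedFactors_count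
    (Ideal.span {(ℓ : ℤ)}) P hmap0
  rw [he, hmap] at hcount
  intro hsq
  have hdvd : P ^ 2 ∣ Ideal.span {(ℓ : 𝓞 L)} := by
    rw [Ideal.dvd_iff_le, Ideal.span_singleton_le_iff_mem]
    exact hsq
  have hirr : Irreducible P := (Ideal.prime_of_isPrime hP0 hPprime).irreducible
  have hne : Ideal.span {(ℓ : 𝓞 L)} ≠ 0 := by
    rw [Ne, Ideal.zero_eq_bot, Ideal.span_singleton_eq_bot]
    exact hℓ0
  have hem := le_emultiplicity_of_pow_dvd hdvd
  rw [UniqueFactorizationMonoid.emultiplicity_eq_count_normalizedFactors hirr hne,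
    normalize_eq, ← hcount] at hem
  norm_cast at hem

/-- Part 0: a character of `(ZMod ℓ)ˣ` onto the `N`-th roots of unity, trivial at `-1`. -/
theorem exists_unitHom (ℓ : ℕ) [hℓ : Fact ℓ.Prime] (N : ℕ) (hN : 2 * N ∣ ℓ - 1) :
    ∃ χ' : (ZMod ℓ)ˣ →* ℂˣ, χ' (-1) = 1 ∧ (∀ u, χ' u ^ N = 1) ∧
      ∀ w : ℂˣ, w ^ N = 1 → ∃ u, χ' u = w := by
  have hℓ2 : 2 ≤ ℓ := hℓ.out.two_le
  have hN0 : N ≠ 0 := by
    rintro rfl
    simp at hN
    omega
  haveI : NeZero N := ⟨hN0⟩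
  obtain ⟨γ, hγ⟩ := IsCyclic.exists_generator (α := (ZMod ℓ)ˣ)
  have hord : orderOf γ = ℓ - 1 := by
    rw [orderOf_eq_card_of_forall_mem_zpowers hγ, Nat.card_eq_fintype_card, ZMod.card_units_eq_totient,
      Nat.totient_prime hℓ.out]
  -- a primitive `N`-th root of unity in `ℂˣ`
  obtain ⟨ξ₀, hξ₀⟩ : ∃ ξ₀ : ℂ, IsPrimitiveRoot ξ₀ N := ⟨_, Complex.isPrimitiveRoot_exp N hN0⟩
  obtain ⟨ξ, hξval⟩ : ∃ ξ : ℂˣ, (ξ : ℂ) = ξ₀ := ⟨(hξ₀.isUnit hN0).unit, rfl⟩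
  have hξ : IsPrimitiveRoot ξ N := by
    rw [← IsPrimitiveRoot.coe_units_iff, hξval]
    exact hξ₀
  have hdvd : orderOf ξ ∣ orderOf γ := by
    rw [← hξ.eq_orderOf, hord]
    exact (Dvd.intro_left 2 rfl).trans hN
  refine ⟨monoidHomOfForallMemZpowers hγ hdvd, ?_, ?_, ?_⟩
  · obtain ⟨k, hk⟩ := Subgroup.mem_zpowers_iff.mp (hγ (-1))
    have h2 : γ ^ (2 * k) = 1 := by
      rw [mul_comm, zpow_mul, hk]
      simp
    have h3 : ((ℓ - 1 : ℕ) : ℤ) ∣ 2 * k := by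
      rw [← hord]
      exact orderOf_dvd_iff_zpow_eq_one.mpr h2
    have h4 : ((2 * N : ℕ) : ℤ) ∣ 2 * k := (Int.natCast_dvd_natCast.mpr hN).trans h3
    have h5 : (N : ℤ) ∣ k := by
      push_cast at h4
      exact (mul_dvd_mul_iff_left (by norm_num : (2 : ℤ) ≠ 0)).mp h4
    rw [← hk, map_zpow, monoidHomOfForallMemZpowers_apply_gen]
    obtain ⟨c, rfl⟩ := h5
    rw [zpow_mul, zpow_natCast, hξ.pow_eq_one, one_zpow]
  · intro u
    obtain ⟨k, rfl⟩ := Subgroup.mem_zpowers_iff.mp (hγ u)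
    rw [map_zpow, monoidHomOfForallMemZpowers_apply_gen, ← zpow_natCast, ← zpow_mul, mul_comm,
      zpow_mul, zpow_natCast, hξ.pow_eq_one, one_zpow]
  · intro w hw
    have hw' : (w : ℂ) ^ N = 1 := by
      rw [← Units.val_pow_eq_pow_val, hw, Units.val_one]
    obtain ⟨k, -, hk⟩ := hξ₀.eq_pow_of_pow_eq_one hw'
    refine ⟨γ ^ k, ?_⟩
    rw [map_pow, monoidHomOfForallMemZpowers_apply_gen]
    apply Units.ext
    rw [Units.val_pow_eq_pow_val, ← hk, hξval]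

/-- restriction is trivial iff the automorphism fixes the subfield pointwise -/
theorem restrictNormalHom_eq_one_iff (F Ω Ω₁ : Type*) [Field F] [Field Ω] [Field Ω₁]
    [Algebra F Ω] [Algebra F Ω₁] [Algebra Ω Ω₁] [IsScalarTower F Ω Ω₁] [Normal F Ω]
    (a : Gal(Ω₁/F)) :
    AlgEquiv.restrictNormalHom Ω a = 1 ↔
      ∀ x : Ω, a (algebraMap Ω Ω₁ x) = algebraMap Ω Ω₁ x := by
  constructor
  · intro h x
    have h1 := AlgEquiv.restrictNormal_commutes a Ω x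
    have h2 : a.restrictNormal Ω = 1 := h
    rw [h2] at h1
    exact h1.symm
  · intro h
    apply AlgEquiv.ext
    intro x
    apply (algebraMap Ω Ω₁).injective
    have h1 := AlgEquiv.restrictNormal_commutes a Ω x
    rw [h x] at h1
    exact h1

/-- Part 1: the crossing data from a field `Ω` cut out by the character. -/
theorem crossFields_core
    (L : Type) [Field L] [NumberField L] [IsGalois ℚ L]
    (Ω : Type) [Field Ω] [NumberField Ω] [Algebra L Ω] [IsGalois ℚ Ω]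
    (Ω₁ : Type) [Field Ω₁] [NumberField Ω₁] [Algebra Ω Ω₁] [IsGalois ℚ Ω₁]
    [Algebra L Ω₁] [IsScalarTower L Ω Ω₁]
    (ℓ : ℕ) [Fact ℓ.Prime] (N : ℕ)
    (ζ : Ω₁) (hζ : IsPrimitiveRoot ζ ℓ)
    (χ' : (ZMod ℓ)ˣ →* ℂˣ) (heven : χ' (-1) = 1) (hpow : ∀ u, χ' u ^ N = 1)
    (hsurjχ : ∀ w : ℂˣ, w ^ N = 1 → ∃ u, χ' u = w)
    (hsurj : ∀ (τ : Gal(L/ℚ)) (t : (ZMod ℓ)ˣ),
      ∃ a : Gal(Ω₁/ℚ), AlgEquiv.restrictNormalHom L a = τ ∧ hζ.autToPow ℚ a = t)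
    (hfix : ∀ a : Gal(Ω₁/ℚ), (∀ x : Ω, a (algebraMap Ω Ω₁ x) = algebraMap Ω Ω₁ x) ↔
      (AlgEquiv.restrictNormalHom L a = 1 ∧ χ' (hζ.autToPow ℚ a) = 1)) :
    ∃ (χ : DirichletCharacter ℂ ℓ) (ψ : Gal(Ω/ℚ) →* ℂˣ),
      χ.Even ∧
      (∀ g : Gal(Ω/ℚ), AlgEquiv.restrictNormalHom L g = 1 → ψ g = 1 → g = 1) ∧
      (∀ (τ : Gal(L/ℚ)) (w : ℂˣ), w ^ N = 1 →
        ∃ g : Gal(Ω/ℚ), AlgEquiv.restrictNormalHom L g = τ ∧ ψ g = w) ∧
      (∀ g : Gal(Ω/ℚ), ψ g ^ N = 1) ∧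
      (∀ (g₁ : Gal(Ω₁/ℚ)) (j : ℕ), g₁ ζ = ζ ^ j →
        ((ψ (AlgEquiv.restrictNormalHom Ω g₁) : ℂˣ) : ℂ) = χ (j : ZMod ℓ)) := by
  have hℓ : ℓ.Prime := Fact.out
  have hres : Function.Surjective (AlgEquiv.restrictNormalHom (F := ℚ) (K₁ := Ω₁) Ω) :=
    AlgEquiv.restrictNormalHom_surjective Ω₁
  have htower : ∀ a : Gal(Ω₁/ℚ), AlgEquiv.restrictNormalHom L a =
      AlgEquiv.restrictNormalHom L (AlgEquiv.restrictNormalHom Ω a) := fun a =>
    IsScalarTower.AlgEquiv.restrictNormalHom_comp_apply L Ω a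
  have hker : (AlgEquiv.restrictNormalHom (F := ℚ) (K₁ := Ω₁) Ω).ker ≤
      (χ'.comp (hζ.autToPow ℚ)).ker := by
    intro a ha
    rw [MonoidHom.mem_ker] at ha ⊢
    exact ((hfix a).mp ((restrictNormalHom_eq_one_iff ℚ Ω Ω₁ a).mp ha)).2
  set ψ : Gal(Ω/ℚ) →* ℂˣ := MonoidHom.liftOfSurjective _ hres ⟨χ'.comp (hζ.autToPow ℚ), hker⟩
    with hψ
  have hψa : ∀ a : Gal(Ω₁/ℚ), ψ (AlgEquiv.restrictNormalHom Ω a) = χ' (hζ.autToPow ℚ a) :=
    fun a => MonoidHom.liftOfRightInverse_comp_apply _ _ _ _ a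
  refine ⟨MulChar.ofUnitHom χ', ψ, ?_, ?_, ?_, ?_, ?_⟩
  · show MulChar.ofUnitHom χ' (-1) = 1
    have : ((-1 : (ZMod ℓ)ˣ) : ZMod ℓ) = -1 := by simp
    rw [← this, MulChar.ofUnitHom_coe, heven, Units.val_one]
  · intro g h1 h2
    obtain ⟨a, rfl⟩ := hres g
    rw [← htower] at h1
    rw [hψa] at h2
    exact (restrictNormalHom_eq_one_iff ℚ Ω Ω₁ a).mpr ((hfix a).mpr ⟨h1, h2⟩)
  · intro τ w hw
    obtain ⟨u, rfl⟩ := hsurjχ w hw
    obtain ⟨a, ha1, ha2⟩ := hsurj τ u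
    exact ⟨AlgEquiv.restrictNormalHom Ω a, by rw [← htower, ha1], by rw [hψa, ha2]⟩
  · intro g
    obtain ⟨a, rfl⟩ := hres g
    rw [hψa]
    exact hpow _
  · intro g₁ j hj
    rw [hψa]
    have hspec := hζ.autToPow_spec ℚ g₁
    rw [hj] at hspec
    have hj' : ζ ^ j = ζ ^ (j % ℓ) := by
      conv_rhs => rw [hζ.eq_orderOf]
      exact (pow_mod_orderOf ζ j).symm
    rw [hj'] at hspec
    have hval : (hζ.autToPow ℚ g₁ : ZMod ℓ).val = j % ℓ :=
      hζ.pow_inj (ZMod.val_lt _) (Nat.mod_lt _ hℓ.pos) hspec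
    have hcast : ((hζ.autToPow ℚ g₁ : (ZMod ℓ)ˣ) : ZMod ℓ) = (j : ZMod ℓ) := by
      rw [← ZMod.natCast_mod j ℓ, ← hval, ZMod.natCast_zmod_val]
    rw [← hcast, MulChar.ofUnitHom_coe]


/-- transport of `IsGalois ℚ _` to the canonical `ℚ`-algebra structure -/
theorem isGalois_rat_of (Ω : Type) [Field Ω] [NumberField Ω]
    (h : ∃ I : Algebra ℚ Ω, @IsGalois ℚ _ Ω _ I) : IsGalois ℚ Ω := by
  obtain ⟨I, h⟩ := h
  have : I = DivisionRing.toRatAlgebra := Subsingleton.elim _ _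
  subst this
  exact h

/-- Part 2: the crossing data inside a cyclotomic extension `Ω₁ = L(ζ_ℓ)` over which the
cyclotomic polynomial is irreducible. -/
theorem crossFields_of_irreducible
    (L : Type) [Field L] [NumberField L] [IsGalois ℚ L]
    (Ω₁ : Type) [Field Ω₁] [NumberField Ω₁] [Algebra L Ω₁] [IsGalois ℚ Ω₁]
    (ℓ : ℕ) [Fact ℓ.Prime] [IsCyclotomicExtension {ℓ} L Ω₁]
    (hirr : Irreducible (cyclotomic ℓ L)) (N : ℕ) (hN : 2 * N ∣ ℓ - 1) :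
    ∃ (Ω : Type) (_ : Field Ω) (_ : NumberField Ω) (_ : Algebra L Ω) (_ : IsGalois ℚ Ω)
      (_ : Algebra Ω Ω₁)
      (ζ : Ω₁) (χ : DirichletCharacter ℂ ℓ) (ψ : Gal(Ω/ℚ) →* ℂˣ),
      IsPrimitiveRoot ζ ℓ ∧ χ.Even ∧
      (∀ g : Gal(Ω/ℚ), AlgEquiv.restrictNormalHom L g = 1 → ψ g = 1 → g = 1) ∧
      (∀ (τ : Gal(L/ℚ)) (w : ℂˣ), w ^ N = 1 →
        ∃ g : Gal(Ω/ℚ), AlgEquiv.restrictNormalHom L g = τ ∧ ψ g = w) ∧
      (∀ g : Gal(Ω/ℚ), ψ g ^ N = 1) ∧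
      (∀ (g₁ : Gal(Ω₁/ℚ)) (j : ℕ), g₁ ζ = ζ ^ j →
        ((ψ (AlgEquiv.restrictNormalHom Ω g₁) : ℂˣ) : ℂ) = χ (j : ZMod ℓ)) := by
  have hℓ : ℓ.Prime := Fact.out
  haveI : NeZero ℓ := ⟨hℓ.ne_zero⟩
  obtain ⟨χ', heven, hpow, hsurjχ⟩ := exists_unitHom ℓ N hN
  obtain ⟨ζ, hζ⟩ := IsCyclotomicExtension.exists_isPrimitiveRoot L Ω₁ (S := {ℓ})
    (Set.mem_singleton ℓ) hℓ.ne_zero
  set Φ : Gal(Ω₁/ℚ) →* Gal(L/ℚ) × ℂˣ :=
    (AlgEquiv.restrictNormalHom L).prod (χ'.comp (hζ.autToPow ℚ)) with hΦ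
  have hΦmem : ∀ a : Gal(Ω₁/ℚ), a ∈ Φ.ker ↔
      (AlgEquiv.restrictNormalHom L a = 1 ∧ χ' (hζ.autToPow ℚ a) = 1) := by
    intro a
    rw [MonoidHom.mem_ker, hΦ, MonoidHom.prod_apply, Prod.mk_eq_one]
    rfl
  haveI hnormal : (Φ.ker).Normal := MonoidHom.normal_ker Φ
  set E : IntermediateField ℚ Ω₁ := IntermediateField.fixedField Φ.ker with hE
  have hLE : ∀ y : L, algebraMap L Ω₁ y ∈ E := by
    intro y
    rw [hE, IntermediateField.mem_fixedField_iff]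
    intro a ha
    have h1 := ((hΦmem a).mp ha).1
    have h2 := AlgEquiv.restrictNormal_commutes a L y
    have h3 : a.restrictNormal L = 1 := h1
    rw [h3] at h2
    exact h2.symm
  letI algLE : Algebra L E := ((algebraMap L Ω₁).codRestrict E hLE).toAlgebra
  haveI tower : IsScalarTower L E Ω₁ := IsScalarTower.of_algebraMap_eq (fun y => rfl)
  haveI hGalE : IsGalois ℚ E := isGalois_rat_of E ⟨_, IsGalois.of_fixedField_normal_subgroup Φ.ker⟩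
  have hsurj : ∀ (τ : Gal(L/ℚ)) (t : (ZMod ℓ)ˣ),
      ∃ a : Gal(Ω₁/ℚ), AlgEquiv.restrictNormalHom L a = τ ∧ hζ.autToPow ℚ a = t :=
    fun τ t => exists_aut_of_irreducible L ℓ Ω₁ hirr hζ τ t
  have hfix : ∀ a : Gal(Ω₁/ℚ), (∀ x : E, a (algebraMap E Ω₁ x) = algebraMap E Ω₁ x) ↔
      (AlgEquiv.restrictNormalHom L a = 1 ∧ χ' (hζ.autToPow ℚ a) = 1) := by
    intro a
    rw [← hΦmem]
    constructor
    · intro h
      have h1 : a ∈ E.fixingSubgroup := by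
        rw [IntermediateField.mem_fixingSubgroup_iff]
        intro x hx
        exact h ⟨x, hx⟩
      rwa [hE, IntermediateField.fixingSubgroup_fixedField] at h1
    · intro h x
      have hx : (x : Ω₁) ∈ IntermediateField.fixedField Φ.ker := x.2
      rw [IntermediateField.mem_fixedField_iff] at hx
      exact hx a h
  obtain ⟨χ, ψ, h⟩ := crossFields_core L E Ω₁ ℓ N ζ hζ χ' heven hpow hsurjχ hsurj hfix
  exact ⟨E, inferInstance, inferInstance, algLE, hGalE, inferInstance, ζ, χ, ψ, hζ, h⟩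

/-- **[CROSS-FIELDS]** -/
theorem crossFields : helper39.CrossFieldsStatement := by
  intro L _ _ _
  obtain ⟨B, hB⟩ := exists_bound_unram L
  refine ⟨B, fun ℓ _ hgt N hN => ?_⟩
  have hℓ : ℓ.Prime := Fact.out
  haveI : NeZero ℓ := ⟨hℓ.ne_zero⟩
  obtain ⟨P, hPprime, h1, h2⟩ := hB ℓ hℓ hgt
  haveI := hPprime
  have hirr := irreducible_cyclotomic_of_unram L ℓ P h1 h2
  haveI hNF : NumberField (CyclotomicField ℓ L) :=
    IsCyclotomicExtension.numberField {ℓ} L (CyclotomicField ℓ L)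
  haveI hGal : IsGalois ℚ (CyclotomicField ℓ L) :=
    Fermat.Agent.S14.helper39.isGalois_of_isCyclotomicExtension ℚ L ℓ (CyclotomicField ℓ L)
  obtain ⟨Ω, i1, i2, i3, i4, i5, ζ, χ, ψ, h⟩ :=
    crossFields_of_irreducible L (CyclotomicField ℓ L) ℓ hirr N hN
  exact ⟨Ω, i1, i2, i3, i4, CyclotomicField ℓ L, inferInstance, hNF, i5, hGal, ζ, χ, ψ, h⟩

end Fermat.Agent.T4.helper62
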