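import Fermat.Agent.T4.helper80_EndgameDefs

/-!
# T4 block (IV), leaf [IV-IRR], algebraic part (helper64)

A finite subgroup `G` of `GL 2 ℂ` stabilising a line has mean square trace at least `2`:
`2 |G| ≤ ∑_{g ∈ G} ‖tr g‖ ^ 2`.  (On the line `g` acts by `λ(g)`, a root of unity, the other
eigenvalue is `det g / λ(g)`, and `‖tr g‖ ^ 2 = 2 + 2 Re ψ(g)` for the character
`ψ = λ ^ 2 / det`; the sum of a character over a finite group is `0` or `|G|`.)

Also: a subrepresentation of a two-dimensional matrix representation which is neither `⊥` nor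
`⊤` is a stable line.
-/

set_option autoImplicit false

open Matrix

namespace Fermat.Agent.T4.helper64

/-- The eigenvalue of `g` on `v`, read off at the coordinate `i`. -/
noncomputable def lamAt (v : Fin 2 → ℂ) (i : Fin 2) (g : Matrix (Fin 2) (Fin 2) ℂ) : ℂ :=
  (g.mulVec v) i / v i

theorem lamAt_eq {v : Fin 2 → ℂ} {i : Fin 2} (hi : v i ≠ 0) {g : Matrix (Fin 2) (Fin 2) ℂ}
    {c : ℂ} (h : g.mulVec v = c • v) : lamAt v i g = c := by
  unfold lamAt
  rw [h, Pi.smul_apply, smul_eq_mul, mul_div_assoc, div_self hi, mul_one]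

/-- An eigenvalue is a root of the characteristic polynomial. -/
theorem eigen_mul_trace_sub {v : Fin 2 → ℂ} (hv : v ≠ 0) {g : Matrix (Fin 2) (Fin 2) ℂ} {c : ℂ}
    (h : g.mulVec v = c • v) : c * (g.trace - c) = g.det := by
  have h0 := congrFun h 0
  have h1 := congrFun h 1
  simp only [Matrix.mulVec, dotProduct, Fin.sum_univ_two, Pi.smul_apply, smul_eq_mul] at h0 h1
  rw [Matrix.trace_fin_two, Matrix.det_fin_two]
  have hx : (c * (g 0 0 + g 1 1 - c) - (g 0 0 * g 1 1 - g 0 1 * g 1 0)) * v 0 = 0 := by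
    linear_combination (-(g 1 1 - c)) * h0 + (g 0 1) * h1
  have hy : (c * (g 0 0 + g 1 1 - c) - (g 0 0 * g 1 1 - g 0 1 * g 1 0)) * v 1 = 0 := by
    linear_combination (-(g 0 0 - c)) * h1 + (g 1 0) * h0
  have hv' : v 0 ≠ 0 ∨ v 1 ≠ 0 := by
    by_contra hcon
    rw [not_or, not_not, not_not] at hcon
    apply hv
    funext i
    fin_cases i
    · exact hcon.1
    · exact hcon.2
  rcases hv' with h' | h'
  · exact sub_eq_zero.mp ((mul_eq_zero.mp hx).resolve_right h')
  · exact sub_eq_zero.mp ((mul_eq_zero.mp hy).resolve_right h')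

section Group

variable (G : Subgroup (GL (Fin 2) ℂ)) [Fintype G]

/-- The character by which a group stabilising the line `ℂ v` acts on it. -/
noncomputable def lamHom (v : Fin 2 → ℂ) (i : Fin 2) (hi : v i ≠ 0)
    (h : ∀ g ∈ G, ∃ c : ℂ, (g : Matrix (Fin 2) (Fin 2) ℂ).mulVec v = c • v) : G →* ℂ where
  toFun g := lamAt v i ((g : GL (Fin 2) ℂ) : Matrix (Fin 2) (Fin 2) ℂ)
  map_one' := by
    apply lamAt_eq hi
    simp
  map_mul' := by
    intro a b
    obtain ⟨ca, hca⟩ := h a a.2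
    obtain ⟨cb, hcb⟩ := h b b.2
    rw [lamAt_eq hi hca, lamAt_eq hi hcb]
    apply lamAt_eq hi
    rw [Subgroup.coe_mul, Units.val_mul, ← Matrix.mulVec_mulVec, hcb, Matrix.mulVec_smul, hca,
      smul_smul, mul_comm]

/-- The determinant character. -/
noncomputable def detHom : G →* ℂ where
  toFun g := ((g : GL (Fin 2) ℂ) : Matrix (Fin 2) (Fin 2) ℂ).det
  map_one' := by simp
  map_mul' := by
    intro a b
    rw [Subgroup.coe_mul, Units.val_mul, Matrix.det_mul]

theorem norm_hom_eq_one (f : G →* ℂ) (g : G) : ‖f g‖ = 1 := by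
  have h1 : f g ^ Fintype.card G = 1 := by
    rw [← map_pow, pow_card_eq_one, map_one]
  exact Complex.norm_eq_one_of_pow_eq_one h1 Fintype.card_ne_zero

/-- The sum of a character of a finite group has nonnegative real part. -/
theorem re_sum_hom_nonneg (f : G →* ℂ) : 0 ≤ (∑ g : G, f g).re := by
  by_cases hf : f = 1
  · subst hf
    simp
  · rw [sum_hom_units_eq_zero f hf]
    simp

/-- **Mean square trace of a reducible finite group.** -/
theorem two_mul_card_le_sum_sq_trace (v : Fin 2 → ℂ) (hv : v ≠ 0)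
    (h : ∀ g ∈ G, ∃ c : ℂ, (g : Matrix (Fin 2) (Fin 2) ℂ).mulVec v = c • v) :
    2 * (Fintype.card G : ℝ) ≤
      ∑ g : G, ‖((g : GL (Fin 2) ℂ) : Matrix (Fin 2) (Fin 2) ℂ).trace‖ ^ 2 := by
  obtain ⟨i, hi⟩ : ∃ i, v i ≠ 0 := by
    by_contra hcon
    rw [not_exists] at hcon
    exact hv (funext fun i => not_not.mp (hcon i))
  obtain ⟨L, hL⟩ : ∃ L : G →* ℂ, L = lamHom G v i hi h := ⟨_, rfl⟩
  obtain ⟨D, hD⟩ : ∃ D : G →* ℂ, D = detHom G := ⟨_, rfl⟩
  obtain ⟨ψ, hψ⟩ : ∃ ψ : G →* ℂ,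
      ψ = L * L * ((starRingEnd ℂ : ℂ →+* ℂ) : ℂ →* ℂ).comp D := ⟨_, rfl⟩
  have key : ∀ g : G, ‖((g : GL (Fin 2) ℂ) : Matrix (Fin 2) (Fin 2) ℂ).trace‖ ^ 2
      = 2 + 2 * (ψ g).re := by
    intro g
    obtain ⟨c, hc⟩ := h g g.2
    have hLg : L g = c := by
      rw [hL]
      exact lamAt_eq hi hc
    have hDg : D g = ((g : GL (Fin 2) ℂ) : Matrix (Fin 2) (Fin 2) ℂ).det := by
      rw [hD]
      rfl
    have hrel := eigen_mul_trace_sub hv hc
    have hnL : ‖L g‖ = 1 := norm_hom_eq_one G L g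
    have hnD : ‖D g‖ = 1 := norm_hom_eq_one G D g
    have hLL : L g * (starRingEnd ℂ) (L g) = 1 := by
      rw [Complex.mul_conj, Complex.normSq_eq_norm_sq, hnL]
      simp
    have htr : ((g : GL (Fin 2) ℂ) : Matrix (Fin 2) (Fin 2) ℂ).trace
        = L g + D g * (starRingEnd ℂ) (L g) := by
      rw [hLg, hDg, ← hrel]
      rw [hLg] at hLL
      linear_combination (-(((g : GL (Fin 2) ℂ) : Matrix (Fin 2) (Fin 2) ℂ).trace - c)) * hLL
    rw [htr, ← Complex.normSq_eq_norm_sq, Complex.normSq_add, Complex.normSq_mul,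
      Complex.normSq_conj, Complex.normSq_eq_norm_sq, Complex.normSq_eq_norm_sq, hnL, hnD]
    have hψg : ψ g = L g * (starRingEnd ℂ) (D g * (starRingEnd ℂ) (L g)) := by
      have h0 : ψ g = L g * L g * (starRingEnd ℂ) (D g) := by
        rw [hψ]
        rfl
      rw [h0, map_mul, Complex.conj_conj]
      ring
    rw [← hψg]
    ring
  calc 2 * (Fintype.card G : ℝ) ≤ 2 * (Fintype.card G : ℝ) + 2 * (∑ g : G, ψ g).re := by
        have := re_sum_hom_nonneg G ψ
        linarith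
    _ = ∑ g : G, (2 + 2 * (ψ g).re) := by
        rw [Finset.sum_add_distrib, Complex.re_sum, ← Finset.mul_sum]
        simp
        ring
    _ = ∑ g : G, ‖((g : GL (Fin 2) ℂ) : Matrix (Fin 2) (Fin 2) ℂ).trace‖ ^ 2 := by
        refine Finset.sum_congr rfl (fun g _ => (key g).symm)

end Group

/-- A subrepresentation of a two-dimensional matrix representation that is neither `⊥` nor `⊤`
is a stable line. -/
theorem exists_stable_line {Γ : Type} [Group Γ] (ρ : Γ →* GL (Fin 2) ℂ)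
    (W : Subrepresentation (Deformation.matrixRepresentation ρ)) (hbot : W ≠ ⊥) (htop : W ≠ ⊤) :
    ∃ v : Fin 2 → ℂ, v ≠ 0 ∧ ∀ γ : Γ, ∃ c : ℂ,
      ((ρ γ : GL (Fin 2) ℂ) : Matrix (Fin 2) (Fin 2) ℂ).mulVec v = c • v := by
  have hbot' : W.toSubmodule ≠ ⊥ := fun h0 =>
    hbot (Subrepresentation.toSubmodule_injective h0)
  have htop' : W.toSubmodule ≠ ⊤ := fun h0 =>
    htop (Subrepresentation.toSubmodule_injective h0)
  obtain ⟨v, hvW, hv0⟩ := (Submodule.ne_bot_iff _).mp hbot'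
  have hlt : Module.finrank ℂ W.toSubmodule < Module.finrank ℂ (Fin 2 → ℂ) :=
    Submodule.finrank_lt htop'
  have h2 : Module.finrank ℂ (Fin 2 → ℂ) = 2 := by simp
  have hpos : 0 < Module.finrank ℂ W.toSubmodule := by
    rw [Module.finrank_pos_iff_exists_ne_zero]
    exact ⟨⟨v, hvW⟩, fun h0 => hv0 (congrArg Subtype.val h0)⟩
  have h1 : Module.finrank ℂ W.toSubmodule = 1 := by omega
  have hspan := (finrank_eq_one_iff_of_nonzero' (⟨v, hvW⟩ : W.toSubmodule)
    (fun h0 => hv0 (congrArg Subtype.val h0))).mp h1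
  refine ⟨v, hv0, fun γ => ?_⟩
  have hmem : (Deformation.matrixRepresentation ρ γ) v ∈ W.toSubmodule :=
    W.apply_mem_toSubmodule γ hvW
  obtain ⟨c, hc⟩ := hspan ⟨_, hmem⟩
  refine ⟨c, ?_⟩
  have := congrArg Subtype.val hc
  simp only [Submodule.coe_smul] at this
  rw [this, Deformation.matrixRepresentation_apply]
  rfl

end Fermat.Agent.T4.helper64
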