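import Mathlib
import Fermat.Agent.T4.helper92_KumWire1

/-!
# T4 block (I), [I-ES-KWIRE-FIX] (helper64): the Kummer wiring for `X₁(M)` with
diamond-stable lifts

`helper92.DiamGood1Statement M A d` ("the inverse diamond of EVERY good integral series is a good
integral series") is false for `d ≠ ± 1`: the diamond moves the cusp `∞` to another cusp, and a
function with integral `q`-expansion at `∞` may have a pole in the residue disc of that cusp
(example: `1 / (ℓ + u)`, `u = 1 + O(q)`, `(δ_d)⁻¹ u = ± q ^ m + ⋯`).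

What is true, and sufficient for the Eichler–Shimura wiring, is the statement for the lifts
produced by the valuation package: every nonzero `h ∈ F1 M` is `c y₁ / y₂` with `y₁`, `y₂`
AND their inverse diamond translates of good reduction (`ScaleDiam1Statement`).

* `kummerES1_of_scaleDiam` : `helper4.KummerES1Statement M p` from `ScaleDiam1Statement`,
  `helper32.Hecke1Inputs` and `helper92.EsRed1Statement` (same proof as
  `helper92.kummerES1_of`).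
* `kummerUnr1_of_scaleDiam`, `p2Core1_of_scaleDiam`.
* `IsDiamInt M A Y` : all inverse diamond translates of the integral series `Y` have integral
  expansions; `ScaleRing1Statement`, `KerStable1Statement` and
  `scaleDiam1_of_ring : ScaleRing1 → KerStable1 → RedMem → ScaleDiam1`.
-/

set_option autoImplicit false
set_option linter.unusedSectionVars false
set_option linter.unusedVariables false
set_option linter.style.longLine false
set_option linter.style.haveILetI false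

noncomputable section

open HahnSeries IntermediateField AlgebraicCurve ModularCurve
open Fermat.Agent.S18.helper19 (Kb kA)
open Fermat.Agent.P2.helper29 (incl red)
open Fermat.Agent.T4.helper32 Fermat.Agent.T4.helper4
open Fermat.Agent.P2.helper93 (IsRootDiv kum_exists_root kum_mk_eq_zero_of_ord decA decK actA
  coeffMap_subtype_actA coeffMap_residue_actA decK_eq_id_of_mem_inertia
  decK_eq_frobenius_of_isFrobeniusAt cw_coeffMap_injective norm_along_const charP_residueField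
  coeffMap_subtype_injective)
open Fermat.Agent.T4.helper92

namespace Fermat.Agent.T4.helper64

/-! ## The corrected leaf -/

/-- **[SCALE-DIAM]** every nonzero function of `F1 M` is `c y₁ / y₂` where `y₁`, `y₂` and their
inverse diamond translates `(δ_d)⁻¹ y₁`, `(δ_d)⁻¹ y₂` have integral `q`-expansions with nonzero
reduction in the special fibre field. -/
def ScaleDiam1Statement (M : ℕ) (A : ValuationSubring Kb) (d : (ZMod M)ˣ) : Prop :=
  ∀ h : F1 M, h ≠ 0 →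
    ∃ (c : Kb) (y₁ y₂ : F1 M) (a b a' b' : LaurentSeries (kA A)), c ≠ 0 ∧
      Lifts1 A M y₁ a ∧ Lifts1 A M y₂ b ∧
      Lifts1 A M ((diamondAut M d).symm y₁) a' ∧ Lifts1 A M ((diamondAut M d).symm y₂) b' ∧
      algebraMap Kb (F1 M) c * y₁ = h * y₂

theorem ScaleDiam1Statement.rep1 {M : ℕ} {A : ValuationSubring Kb} {d : (ZMod M)ˣ}
    (hS : ScaleDiam1Statement M A d) (h : F1 M) (hh : h ≠ 0) :
    ∃ a b : LaurentSeries (kA A), Rep1 A M h a b := by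
  obtain ⟨c, y₁, y₂, a, b, a', b', hc, l₁, l₂, -, -, e⟩ := hS h hh
  exact ⟨a, b, c, y₁, y₂, hc, l₁, l₂, e⟩

/-! ## The wiring -/

/-- **[K-UNR1]** from representations as quotients of good series. -/
theorem kummerUnr1_of_rep (M p : ℕ)
    (hR : ∀ ℓ : ℕ, ℓ.Prime → ¬ ℓ ∣ M * p → ∀ A : ValuationSubring Kb, A.LiesOverPrime ℓ →
      ∀ h : F1 M, h ≠ 0 → ∃ a b : LaurentSeries (kA A), Rep1 A M h a b) :
    KummerUnr1Statement M p := by
  intro hINJ ℓ hℓ hℓMp A hA σ hσ x hx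
  obtain ⟨n, hx⟩ := hx
  have hp0 : p ≠ 0 := by
    rintro rfl
    exact hℓMp (by rw [mul_zero]; exact dvd_zero ℓ)
  obtain ⟨D, rfl⟩ := Pic0.mk_surjective x
  obtain ⟨h, H⟩ := kum_exists_root hx
  obtain ⟨D', e', H'⟩ := kum_galois1 M σ H
  obtain ⟨hσ', hid⟩ := decK_eq_id_of_mem_inertia hσ
  obtain ⟨a, b, R⟩ := hR ℓ hℓ hℓMp A hA h H.1
  have R' := R.gal σ hσ'
  rw [hid, coeffMap_id, coeffMap_id] at R'
  have R2 := R'.div R
  rw [mul_comm b a] at R2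
  have H2 : IsRootDiv (p ^ n) ((D' - D : Divisor.degZero (K := Kb) (F := F1 M)) :
      Divisor Kb (F1 M)) (galF1 M σ h / h) := by
    rw [AddSubgroup.coe_sub]
    exact H'.div H
  have key := mk_eq_zero_of_rep1 (pow_ne_zero n hp0) (hINJ ℓ hℓ hℓMp A hA n) H2 R2
  rw [e']
  exact sub_eq_zero.mp key

/-- **[K-ES1]** the Eichler-Shimura part of the Kummer wiring for `X₁(M)` (convention [A]),
from diamond-stable lifts. -/
theorem kummerES1_of_scaleDiam (M p : ℕ)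
    (hSD : ∀ (ℓ : ℕ) (hℓ : ℓ.Prime) (hℓMp : ¬ ℓ ∣ M * p) (A : ValuationSubring Kb),
      A.LiesOverPrime ℓ →
      ScaleDiam1Statement M A (unitOfPrime M ℓ hℓ (fun h => hℓMp (Dvd.dvd.mul_right h p))))
    (hHI : ∀ (ℓ : ℕ) [NeZero ℓ], ℓ.Prime → ¬ ℓ ∣ M * p → Hecke1Inputs Kbar M ℓ)
    (hES : ∀ (ℓ : ℕ) [NeZero ℓ] [Fact ℓ.Prime] (hℓ : ℓ.Prime) (hℓMp : ¬ ℓ ∣ M * p)
      (A : ValuationSubring Kb), A.LiesOverPrime ℓ →
      EsRed1Statement M ℓ A (unitOfPrime M ℓ hℓ (fun h => hℓMp (Dvd.dvd.mul_right h p)))) :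
    KummerES1Statement M p := by
  intro hINJ ℓ hℓ hℓMp A hA σ hF x hx
  obtain ⟨n, hx⟩ := hx
  haveI : Fact ℓ.Prime := ⟨hℓ⟩
  haveI : NeZero ℓ := ⟨hℓ.ne_zero⟩
  haveI : CharP (kA A) ℓ := charP_residueField hℓ hA
  have hp0 : p ≠ 0 := by
    rintro rfl
    exact hℓMp (by rw [mul_zero]; exact dvd_zero ℓ)
  set d := unitOfPrime M ℓ hℓ (fun h => hℓMp (Dvd.dvd.mul_right h p)) with hd
  obtain ⟨D, rfl⟩ := Pic0.mk_surjective x
  obtain ⟨h, H⟩ := kum_exists_root hx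
  obtain ⟨D1, e1, H1⟩ := kum_galois1 M σ H
  obtain ⟨D2, e2, H2⟩ := kum_galois1 M σ H1
  obtain ⟨D3, e3, H3⟩ := kum_hecke1 M ℓ hℓ (hHI ℓ hℓ hℓMp) H1
  obtain ⟨D4, e4, H4⟩ := kum_diamond1 M d H
  obtain ⟨hσ', hfr⟩ := decK_eq_frobenius_of_isFrobeniusAt (ℓ := ℓ) hF
  -- representation of `h` as `c y₁ / y₂` with diamond-stable lifts
  obtain ⟨c, y₁, y₂, a, b, a', b', hc, l₁, l₂, l₁', l₂', e⟩ := hSD ℓ hℓ hℓMp A hA h H.1
  have R : Rep1 A M h a b := ⟨c, y₁, y₂, hc, l₁, l₂, e⟩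
  have R' : Rep1 A M ((diamondAut M d).symm h) a' b' := by
    refine ⟨c, _, _, hc, l₁', l₂', ?_⟩
    have := congrArg (diamondAut M d).symm e
    rw [map_mul, map_mul, AlgEquiv.commutes] at this
    exact this
  -- Galois twists
  have g₁ := l₁.gal σ hσ'
  have g₂ := l₂.gal σ hσ'
  have g₁' := l₁'.gal σ hσ'
  have g₂' := l₂'.gal σ hσ'
  rw [hfr] at g₁ g₂ g₁' g₂'
  rw [← diamondAut_symm_galF1] at g₁' g₂'
  -- the Hecke norms
  have n₁ := Lifts1.hecke ℓ (hES ℓ hℓ hℓMp A hA) l₁'.mem l₁'.bar_ne_zero g₁ g₁'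
  have n₂ := Lifts1.hecke ℓ (hES ℓ hℓ hℓMp A hA) l₂'.mem l₂'.bar_ne_zero g₂ g₂'
  have R1 : Rep1 A M (galF1 M σ h) (coeffMap (frobenius (kA A) ℓ) a)
      (coeffMap (frobenius (kA A) ℓ) b) := by
    have := R.gal σ hσ'
    rwa [hfr] at this
  have R2 : Rep1 A M (galF1 M σ (galF1 M σ h))
      (coeffMap (frobenius (kA A) ℓ) (coeffMap (frobenius (kA A) ℓ) a))
      (coeffMap (frobenius (kA A) ℓ) (coeffMap (frobenius (kA A) ℓ) b)) := by
    have := R1.gal σ hσ'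
    rwa [hfr] at this
  have R3 : Rep1 A M (heckeNorm1 M ℓ (galF1 M σ h))
      (a' ^ ℓ * coeffMap (frobenius (kA A) ℓ) (coeffMap (frobenius (kA A) ℓ) a))
      (b' ^ ℓ * coeffMap (frobenius (kA A) ℓ) (coeffMap (frobenius (kA A) ℓ) b)) := by
    obtain ⟨dd, hdd⟩ := heckeNorm1_algebraMap M ℓ (σ c)
    refine ⟨(σ c) ^ dd, _, _, pow_ne_zero dd ((map_ne_zero σ).mpr hc), n₁, n₂, ?_⟩
    have e' : algebraMap Kb (F1 M) (σ c) * galF1 M σ y₁ = galF1 M σ h * galF1 M σ y₂ := by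
      rw [← galF1_algebraMap, ← map_mul, e, map_mul]
    rw [← hdd, ← heckeNorm1_mul, e', heckeNorm1_mul]
  have R4 := (R2.div R3).mul (R'.pow ℓ)
  have E4 : IsRootDiv (p ^ n) ((D2 - D3 + ℓ • D4 : Divisor.degZero (K := Kb) (F := F1 M)) :
      Divisor Kb (F1 M))
      (galF1 M σ (galF1 M σ h) / heckeNorm1 M ℓ (galF1 M σ h) *
        ((diamondAut M d).symm h) ^ ℓ) := by
    rw [AddSubgroup.coe_add, AddSubgroup.coe_sub, AddSubgroup.coe_nsmul]
    exact (H2.div H3).mul (H4.pow ℓ)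
  have hab : coeffMap (frobenius (kA A) ℓ) (coeffMap (frobenius (kA A) ℓ) a) *
        (b' ^ ℓ * coeffMap (frobenius (kA A) ℓ) (coeffMap (frobenius (kA A) ℓ) b)) * a' ^ ℓ
      = coeffMap (frobenius (kA A) ℓ) (coeffMap (frobenius (kA A) ℓ) b) *
        (a' ^ ℓ * coeffMap (frobenius (kA A) ℓ) (coeffMap (frobenius (kA A) ℓ) a)) * b' ^ ℓ := by
    ring
  rw [hab] at R4
  have key := mk_eq_zero_of_rep1 (pow_ne_zero n hp0) (hINJ ℓ hℓ hℓMp A hA n) E4 R4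
  rw [e1, e2, e3, e4]
  have hkey : (Pic0.mk (D2 - D3 + ℓ • D4) : J1 M) = Pic0.mk D2 - Pic0.mk D3 + ℓ • Pic0.mk D4 := rfl
  rw [← hkey]
  exact key

/-- **P2-CORE for `X₁(M)`** from (INJ1) and the corrected leaves. -/
theorem p2Core1_of_scaleDiam (M p : ℕ)
    (hINJ : Inj1Statement M p)
    (hSD : ∀ (ℓ : ℕ) (hℓ : ℓ.Prime) (hℓMp : ¬ ℓ ∣ M * p) (A : ValuationSubring Kb),
      A.LiesOverPrime ℓ →
      ScaleDiam1Statement M A (unitOfPrime M ℓ hℓ (fun h => hℓMp (Dvd.dvd.mul_right h p))))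
    (hHI : ∀ (ℓ : ℕ) [NeZero ℓ], ℓ.Prime → ¬ ℓ ∣ M * p → Hecke1Inputs Kbar M ℓ)
    (hES : ∀ (ℓ : ℕ) [NeZero ℓ] [Fact ℓ.Prime] (hℓ : ℓ.Prime) (hℓMp : ¬ ℓ ∣ M * p)
      (A : ValuationSubring Kb), A.LiesOverPrime ℓ →
      EsRed1Statement M ℓ A (unitOfPrime M ℓ hℓ (fun h => hℓMp (Dvd.dvd.mul_right h p)))) :
    P2Core1Statement M p :=
  p2Core1_of M p
    (kummerUnr1_of_rep M p fun ℓ hℓ hℓMp A hA h hh => (hSD ℓ hℓ hℓMp A hA).rep1 h hh)
    (kummerES1_of_scaleDiam M p hSD hHI hES) hINJ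

/-! ## [SCALE-DIAM] from a diamond-stable ring of integral series -/

/-- `Y` is *diamond-stably integral*: `incl Y ∈ F1 M` and all its inverse diamond translates have
`A`-integral `q`-expansions. -/
def IsDiamInt (M : ℕ) (A : ValuationSubring Kb) (Y : LaurentSeries A) : Prop :=
  ∃ hY : incl A Y ∈ F1 M, ∀ d : (ZMod M)ˣ, ∃ Z : LaurentSeries A,
    incl A Z = (((diamondAut M d).symm ⟨incl A Y, hY⟩ : F1 M) : LaurentSeries Kb)

/-- **[SCALE-R]** the scaling statement with diamond-stably integral numerator and denominator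
(the valuation package in GEN form with a diamond-stably integral primitive element). -/
def ScaleRing1Statement (M : ℕ) (A : ValuationSubring Kb) : Prop :=
  ∀ h : F1 M, h ≠ 0 →
    ∃ (c : Kb) (Y₁ Y₂ : LaurentSeries A), c ≠ 0 ∧ IsDiamInt M A Y₁ ∧ IsDiamInt M A Y₂ ∧
      red A Y₁ ≠ 0 ∧ red A Y₂ ≠ 0 ∧
      algebraMap Kb (LaurentSeries Kb) c * incl A Y₁ = (h : LaurentSeries Kb) * incl A Y₂

/-- **[KER-STABLE]** on diamond-stably integral series the inverse diamond `(δ_d)⁻¹` preserves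
"nonzero reduction" (the kernel of the reduction is diamond-stable; IGUSA1,
`helper43.ker_of_closure`). -/
def KerStable1Statement (M : ℕ) (A : ValuationSubring Kb) (d : (ZMod M)ˣ) : Prop :=
  ∀ (Y Z : LaurentSeries A) (hY : incl A Y ∈ F1 M), IsDiamInt M A Y →
    incl A Z = (((diamondAut M d).symm ⟨incl A Y, hY⟩ : F1 M) : LaurentSeries Kb) →
    red A Y ≠ 0 → red A Z ≠ 0

/-- **[SCALE-DIAM]** from [SCALE-R], [KER-STABLE] and [V1]. -/
theorem scaleDiam1_of_ring (M : ℕ) (A : ValuationSubring Kb) (d : (ZMod M)ˣ)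
    (hS : ScaleRing1Statement M A) (hK : KerStable1Statement M A d)
    (hV : RedMemStatement A (F1 M) (F1b A M)) :
    ScaleDiam1Statement M A d := by
  intro h hh
  obtain ⟨c, Y₁, Y₂, hc, ⟨hY₁, hd₁⟩, ⟨hY₂, hd₂⟩, r₁, r₂, e⟩ := hS h hh
  obtain ⟨Z₁, hZ₁⟩ := hd₁ d
  obtain ⟨Z₂, hZ₂⟩ := hd₂ d
  have mem : ∀ (Z : LaurentSeries A) (y : F1 M), incl A Z = (y : LaurentSeries Kb) →
      incl A Z ∈ F1 M := fun Z y hZ => by rw [hZ]; exact y.2
  refine ⟨c, ⟨incl A Y₁, hY₁⟩, ⟨incl A Y₂, hY₂⟩, red A Y₁, red A Y₂, red A Z₁, red A Z₂, hc,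
    ⟨Y₁, rfl, rfl, hV Y₁ hY₁, r₁⟩, ⟨Y₂, rfl, rfl, hV Y₂ hY₂, r₂⟩,
    ⟨Z₁, hZ₁, rfl, hV Z₁ (mem Z₁ _ hZ₁), hK Y₁ Z₁ hY₁ ⟨hY₁, hd₁⟩ hZ₁ r₁⟩,
    ⟨Z₂, hZ₂, rfl, hV Z₂ (mem Z₂ _ hZ₂), hK Y₂ Z₂ hY₂ ⟨hY₂, hd₂⟩ hZ₂ r₂⟩, Subtype.ext ?_⟩
  exact e

end Fermat.Agent.T4.helper64

end
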