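/-
T4 / S48, block (V), leaf [V-CHARDEC] (helper65, row 1064).

Every cusp form of weight `k` on `Γ₁(N)` is the sum of its nebentypus components
  `f_ε = φ(N)⁻¹ ∑_{d ∈ (ℤ/N)ˣ} ε(d)⁻¹ ⟨d⟩ f`,
and `f_ε` has nebentypus `ε`.  Inputs: the diamond operators `helper79.diamondLin` and the
orthogonality relations for Dirichlet characters (Mathlib).
-/
import Mathlib.NumberTheory.DirichletCharacter.Orthogonality
import Fermat.Agent.T4.helper79_Hecke1
import Fermat.Agent.T4.helper89_ConjDefs2

set_option autoImplicit false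

noncomputable section

open CongruenceSubgroup UpperHalfPlane Matrix.SpecialLinearGroup
open scoped MatrixGroups ModularForm Manifold

namespace Fermat.Agent.T4.helper65

variable {N : ℕ} [NeZero N] {k : ℤ}

/-- The unnormalised `ε`-component `∑_d ε(d⁻¹) ⟨d⟩ f` of a cusp form on `Γ₁(N)`. -/
def charSum (f : CuspForm (Gamma1 N) k) (ε : DirichletCharacter ℂ N) : CuspForm (Gamma1 N) k :=
  ∑ d : (ZMod N)ˣ, ε ((d⁻¹ : (ZMod N)ˣ) : ZMod N) • helper79.diamondLin k d f

/-- The `ε`-component `φ(N)⁻¹ ∑_d ε(d⁻¹) ⟨d⟩ f` of a cusp form on `Γ₁(N)`. -/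
def charComp (f : CuspForm (Gamma1 N) k) (ε : DirichletCharacter ℂ N) : CuspForm (Gamma1 N) k :=
  ((N.totient : ℂ))⁻¹ • charSum f ε

theorem diamondLin_charSum (f : CuspForm (Gamma1 N) k) (ε : DirichletCharacter ℂ N)
    (e : (ZMod N)ˣ) :
    helper79.diamondLin k e (charSum f ε) = ε (e : ZMod N) • charSum f ε := by
  unfold charSum
  rw [map_sum, Finset.smul_sum]
  -- reindex by `d ↦ e * d`
  refine Fintype.sum_equiv (Equiv.mulLeft e) _ _ fun d => ?_
  rw [map_smul, Equiv.coe_mulLeft, smul_smul, helper79.diamondLin_mul, Module.End.mul_apply]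
  congr 1
  rw [← map_mul, ← Units.val_mul, mul_inv_rev, mul_comm e, mul_assoc, inv_mul_cancel, mul_one]

theorem diamondLin_charComp (f : CuspForm (Gamma1 N) k) (ε : DirichletCharacter ℂ N)
    (e : (ZMod N)ˣ) :
    helper79.diamondLin k e (charComp f ε) = ε (e : ZMod N) • charComp f ε := by
  unfold charComp
  rw [map_smul, diamondLin_charSum, smul_comm]

/-- The `ε`-component has nebentypus `ε` (shape of `helper79`). -/
theorem hasNeben79_charComp (f : CuspForm (Gamma1 N) k) (ε : DirichletCharacter ℂ N) :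
    helper79.HasNeben ε (charComp f ε) :=
  helper79.hasNeben_of_diamondLin fun e => diamondLin_charComp f ε e

/-- The `ε`-component has nebentypus `ε` (shape of `helper89`). -/
theorem hasNeben_charComp (f : CuspForm (Gamma1 N) k) (ε : DirichletCharacter ℂ N) :
    helper89.HasNeben N k ε ⇑(charComp f ε) :=
  fun γ hγ => hasNeben79_charComp f ε γ hγ

/-- Orthogonality: the sum of all components is the form itself. -/
theorem sum_charSum (f : CuspForm (Gamma1 N) k) :
    ∑ ε : DirichletCharacter ℂ N, charSum f ε = (N.totient : ℂ) • f := by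
  unfold charSum
  rw [Finset.sum_comm]
  have key : ∀ d : (ZMod N)ˣ,
      ∑ ε : DirichletCharacter ℂ N, ε ((d⁻¹ : (ZMod N)ˣ) : ZMod N) • helper79.diamondLin k d f =
        if d = 1 then (N.totient : ℂ) • f else 0 := by
    intro d
    rw [← Finset.sum_smul, DirichletCharacter.sum_characters_eq]
    by_cases hd : d = 1
    · subst hd
      simp [helper79.diamondLin_one]
    · have : ¬ (((d⁻¹ : (ZMod N)ˣ) : ZMod N) = 1) := by
        intro h
        apply hd
        have h' : (d⁻¹ : (ZMod N)ˣ) = 1 := Units.ext (by simpa using h)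
        simpa using h'
      rw [if_neg this, if_neg hd, zero_smul]
  rw [Finset.sum_congr rfl fun d _ => key d]
  simp

theorem sum_charComp (f : CuspForm (Gamma1 N) k) :
    ∑ ε : DirichletCharacter ℂ N, charComp f ε = f := by
  unfold charComp
  rw [← Finset.smul_sum, sum_charSum, smul_smul, inv_mul_cancel₀, one_smul]
  exact_mod_cast (Nat.totient_pos.mpr (NeZero.pos N)).ne'

/-- **[V-CHARDEC]** in every weight: a cusp form on `Γ₁(N)` is a finite sum of cusp forms with a
nebentypus. -/
theorem charDec_weight (k : ℤ) (f : CuspForm (Gamma1 N) k) :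
    ∃ (S : Finset (DirichletCharacter ℂ N))
      (F : DirichletCharacter ℂ N → CuspForm (Gamma1 N) k),
      (∀ ε ∈ S, helper89.HasNeben N k ε ⇑(F ε)) ∧ f = ∑ ε ∈ S, F ε :=
  ⟨Finset.univ, charComp f, fun ε _ => hasNeben_charComp f ε, (sum_charComp f).symm⟩

/-- **[V-CHARDEC]** (row 1064): `helper89.CharDecStatement`, verbatim. -/
theorem charDec : helper89.CharDecStatement :=
  fun _ _ f => charDec_weight 1 f

end Fermat.Agent.T4.helper65
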