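import Fermat.Agent.T4.helper85_Wt1Defs

/-!
# T4 / S48, block (III): package [W1-EISMF]

`eisMF_of`: the Eisenstein series `E_ψ` of weight one is a modular form on `Γ₁(ℓ)` with the
expected `q`-expansion, from the nebentypus law, the holomorphy, boundedness and transformation
law of Hecke's forms, and the `q`-expansion as a convergent series.
-/

set_option autoImplicit false

open Complex
open UpperHalfPlane hiding I
open scoped MatrixGroups Real Manifold ModularForm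

namespace Fermat.Agent.T4.helper66

open Fermat.Agent.T4.helper85 CongruenceSubgroup

noncomputable section

/-- The junk value of `zetaW` at `0`. -/
lemma zetaW_zero (L : PeriodPair) : zetaW L 0 = 0 := by
  unfold zetaW
  have h : ∀ l : L.lattice,
      (1 / ((0 : ℂ) - (l : ℂ)) + 1 / (l : ℂ) + (0 : ℂ) / (l : ℂ) ^ 2) = 0 := by
    intro l
    rw [zero_sub, zero_div, add_zero, one_div, one_div, inv_neg, neg_add_cancel]
  simp only [h, tsum_zero]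

/-- Hecke's form of index `(0, 0)` is zero. -/
lemma gH_zero_zero (ℓ : ℕ) (τ : ℍ) : gH ℓ 0 0 τ = 0 := by
  unfold gH
  simp [zetaW_zero]

lemma gH_zero_zero_fun (ℓ : ℕ) : gH ℓ 0 0 = 0 := by
  funext τ
  exact gH_zero_zero ℓ τ

/-- For `0 < b < ℓ` the index `(0, b)` is not `≡ (0, 0)`. -/
lemma not_dvd_index {ℓ b : ℕ} (hb : b ∈ Finset.range ℓ) (hb0 : b ≠ 0) (γ : SL(2, ℤ)) :
    ¬ ((ℓ : ℤ) ∣ (0 : ℤ) * γ 0 0 + (b : ℤ) * γ 1 0 ∧
       (ℓ : ℤ) ∣ (0 : ℤ) * γ 0 1 + (b : ℤ) * γ 1 1) := by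
  rintro ⟨h1, h2⟩
  rw [zero_mul, zero_add] at h1 h2
  have hdet := γ.det_coe
  rw [Matrix.det_fin_two] at hdet
  have hb' : (ℓ : ℤ) ∣ (b : ℤ) := by
    have : (b : ℤ) = γ 0 0 * ((b : ℤ) * γ 1 1) - γ 0 1 * ((b : ℤ) * γ 1 0) := by
      linear_combination (-(b : ℤ)) * hdet
    rw [this]
    exact dvd_sub (Dvd.dvd.mul_left h2 _) (Dvd.dvd.mul_left h1 _)
  have hb'' : ℓ ∣ b := by exact_mod_cast hb'
  have hlt : b < ℓ := Finset.mem_range.1 hb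
  exact hb0 (Nat.eq_zero_of_dvd_of_lt hb'' hlt)

lemma not_dvd_index' {ℓ b : ℕ} (hb : b ∈ Finset.range ℓ) (hb0 : b ≠ 0) :
    ¬ ((ℓ : ℤ) ∣ (0 : ℤ) ∧ (ℓ : ℤ) ∣ (b : ℤ)) := by
  rintro ⟨-, h2⟩
  have hb'' : ℓ ∣ b := by exact_mod_cast h2
  have hlt : b < ℓ := Finset.mem_range.1 hb
  exact hb0 (Nat.eq_zero_of_dvd_of_lt hb'' hlt)

/-- `E_ψ` as a finite sum of functions. -/
lemma eisFun_eq_sum (ℓ : ℕ) (ψ : DirichletCharacter ℂ ℓ) :
    eisFun ℓ ψ = ∑ b ∈ Finset.range ℓ,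
      (fun τ : ℍ => -((ℓ : ℂ) / (2 * π * I)) * (cFou ℓ ψ b * gH ℓ 0 (b : ℤ) τ)) := by
  funext τ
  rw [Finset.sum_apply]
  simp only [eisFun, Finset.mul_sum]

/-- The slash of `E_ψ` by an element of `SL(2, ℤ)`. -/
lemma eisFun_slash (hMod : GModStatement) (ℓ : ℕ) (ψ : DirichletCharacter ℂ ℓ) (γ : SL(2, ℤ)) :
    eisFun ℓ ψ ∣[(1 : ℤ)] γ = ∑ b ∈ Finset.range ℓ,
      (fun τ : ℍ => -((ℓ : ℂ) / (2 * π * I)) *
        (cFou ℓ ψ b *
          gH ℓ ((0 : ℤ) * γ 0 0 + (b : ℤ) * γ 1 0) ((0 : ℤ) * γ 0 1 + (b : ℤ) * γ 1 1) τ)) := by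
  funext τ
  rw [ModularForm.SL_slash_apply, Finset.sum_apply]
  simp only [eisFun, Finset.mul_sum, Finset.sum_mul]
  refine Finset.sum_congr rfl fun b _ => ?_
  rw [hMod ℓ 0 b γ τ]
  have hd : denom γ τ ≠ 0 := denom_ne_zero γ τ
  have hd' : denom γ τ = (γ 1 0 : ℂ) * τ + (γ 1 1 : ℂ) := by
    simp [denom]
  rw [← hd'] at *
  rw [zpow_neg, zpow_one]
  field_simp

/-- `E_ψ` is invariant under `Γ₁(ℓ)`. -/
lemma eisFun_slash_Gamma1 (hNeb : EisNebStatement) (ℓ : ℕ) [NeZero ℓ]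
    (ψ : DirichletCharacter ℂ ℓ) (hψ : ψ (-1) = -1) {γ : SL(2, ℤ)} (hγ : γ ∈ Gamma1 ℓ) :
    eisFun ℓ ψ ∣[(1 : ℤ)] γ = eisFun ℓ ψ := by
  funext τ
  rw [ModularForm.slash_action_eq'_iff]
  have h0 : γ ∈ Gamma0 ℓ := Gamma1_in_Gamma0 ℓ hγ
  have h11 : ((γ 1 1 : ℤ) : ZMod ℓ) = 1 := ((Gamma1_mem ℓ γ).1 hγ).2.1
  rw [hNeb ℓ ψ hψ γ h0 τ, h11, map_one, one_mul, zpow_one]

/-- `E_ψ` is holomorphic. -/
lemma eisFun_mdiff (hHol : GHolStatement) (ℓ : ℕ) [NeZero ℓ] (ψ : DirichletCharacter ℂ ℓ) :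
    MDifferentiable 𝓘(ℂ) 𝓘(ℂ) (eisFun ℓ ψ) := by
  rw [eisFun_eq_sum]
  refine .sum fun b hb => ?_
  by_cases hb0 : b = 0
  · subst hb0
    have : (fun τ : ℍ => -((ℓ : ℂ) / (2 * π * I)) * (cFou ℓ ψ 0 * gH ℓ 0 ((0 : ℕ) : ℤ) τ))
        = fun _ => (0 : ℂ) := by
      funext τ
      rw [Nat.cast_zero, gH_zero_zero, mul_zero, mul_zero]
    rw [this]
    exact mdifferentiable_const
  · have h := hHol ℓ 0 (b : ℤ) (Nat.pos_of_ne_zero (NeZero.ne ℓ)) (not_dvd_index' hb hb0)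
    exact (mdifferentiable_const.mul (mdifferentiable_const.mul h))

/-- Every slash of `E_ψ` by an element of `SL(2, ℤ)` is bounded at `i∞`. -/
lemma eisFun_slash_bdd (hBdd : GBddStatement) (hMod : GModStatement) (ℓ : ℕ) [NeZero ℓ]
    (ψ : DirichletCharacter ℂ ℓ) (γ : SL(2, ℤ)) :
    IsBoundedAtImInfty (eisFun ℓ ψ ∣[(1 : ℤ)] γ) := by
  rw [eisFun_slash hMod, IsBoundedAtImInfty, Filter.BoundedAtFilter, Finset.sum_fn]
  refine .fun_sum fun b hb => ?_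
  by_cases hb0 : b = 0
  · subst hb0
    have : (fun τ : ℍ => -((ℓ : ℂ) / (2 * π * I)) *
        (cFou ℓ ψ 0 * gH ℓ ((0 : ℤ) * γ 0 0 + ((0 : ℕ) : ℤ) * γ 1 0)
          ((0 : ℤ) * γ 0 1 + ((0 : ℕ) : ℤ) * γ 1 1) τ)) = fun _ => (0 : ℂ) := by
      funext τ
      have hz : (0 : ℤ) * γ 0 0 + ((0 : ℕ) : ℤ) * γ 1 0 = 0 := by
        rw [Nat.cast_zero, zero_mul, zero_mul, add_zero]
      have hz' : (0 : ℤ) * γ 0 1 + ((0 : ℕ) : ℤ) * γ 1 1 = 0 := by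
        rw [Nat.cast_zero, zero_mul, zero_mul, add_zero]
      rw [hz, hz', gH_zero_zero, mul_zero, mul_zero]
    rw [this]
    exact Filter.const_boundedAtFilter _ (0 : ℂ)
  · have h : IsBoundedAtImInfty
        (gH ℓ ((0 : ℤ) * γ 0 0 + (b : ℤ) * γ 1 0) ((0 : ℤ) * γ 0 1 + (b : ℤ) * γ 1 1)) :=
      hBdd ℓ _ _ (Nat.pos_of_ne_zero (NeZero.ne ℓ)) (not_dvd_index hb hb0 γ)
    have h1 : IsBoundedAtImInfty (fun τ : ℍ => cFou ℓ ψ b *
        gH ℓ ((0 : ℤ) * γ 0 0 + (b : ℤ) * γ 1 0) ((0 : ℤ) * γ 0 1 + (b : ℤ) * γ 1 1) τ) :=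
      (Filter.const_boundedAtFilter _ (cFou ℓ ψ b)).mul h
    exact (Filter.const_boundedAtFilter _ (-((ℓ : ℂ) / (2 * π * I)))).mul h1

/-- `E_ψ` as a modular form of weight one on `Γ₁(ℓ)`. -/
def eisMF (hNeb : EisNebStatement) (hHol : GHolStatement) (hBdd : GBddStatement)
    (hMod : GModStatement) (ℓ : ℕ) [NeZero ℓ] (ψ : DirichletCharacter ℂ ℓ) (hψ : ψ (-1) = -1) :
    ModularForm (Gamma1 ℓ) 1 where
  toFun := eisFun ℓ ψ
  slash_action_eq' A hA := by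
    obtain ⟨γ, hγ, rfl⟩ := hA
    have := eisFun_slash_Gamma1 hNeb ℓ ψ hψ hγ
    rw [ModularForm.SL_slash] at this
    exact this
  holo' := eisFun_mdiff hHol ℓ ψ
  bdd_at_cusps' {c} hc := by
    rw [Subgroup.IsArithmetic.isCusp_iff_isCusp_SL2Z] at hc
    rw [OnePoint.isBoundedAt_iff_forall_SL2Z hc]
    intro γ _
    exact eisFun_slash_bdd hBdd hMod ℓ ψ γ

@[simp] lemma eisMF_apply (hNeb : EisNebStatement) (hHol : GHolStatement) (hBdd : GBddStatement)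
    (hMod : GModStatement) (ℓ : ℕ) [NeZero ℓ] (ψ : DirichletCharacter ℂ ℓ) (hψ : ψ (-1) = -1)
    (τ : ℍ) : eisMF hNeb hHol hBdd hMod ℓ ψ hψ τ = eisFun ℓ ψ τ := rfl

/-- `qOf` is the `q`-parameter of period one. -/
lemma qParam_one_eq_qOf (τ : ℍ) : Function.Periodic.qParam (1 : ℝ) (τ : ℂ) = qOf τ := by
  simp [Function.Periodic.qParam, qOf]

/-- The `q`-coefficients of `E_ψ`. -/
lemma eisMF_qCoeff (hNeb : EisNebStatement) (hHol : GHolStatement) (hBdd : GBddStatement)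
    (hMod : GModStatement) (hQ : EisQStatement) (ℓ : ℕ) [NeZero ℓ]
    (ψ : DirichletCharacter ℂ ℓ) (hψ : ψ (-1) = -1) (n : ℕ) :
    ModularFormClass.qCoeff (eisMF hNeb hHol hBdd hMod ℓ ψ hψ) n = eisCoeff ℓ ψ n := by
  have hΓ : (1 : ℝ) ∈ ((Gamma1 ℓ : Subgroup (GL (Fin 2) ℝ))).strictPeriods := by
    rw [CongruenceSubgroup.strictPeriods_Gamma1]
    exact AddSubgroup.mem_zmultiples 1
  have hf : ∀ τ : ℍ, HasSum
      (fun m : ℕ => eisCoeff ℓ ψ m • Function.Periodic.qParam (1 : ℝ) (τ : ℂ) ^ m)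
      (eisMF hNeb hHol hBdd hMod ℓ ψ hψ τ) := by
    intro τ
    rw [qParam_one_eq_qOf, eisMF_apply]
    simpa [smul_eq_mul] using hQ ℓ ψ hψ τ
  exact (ModularFormClass.qExpansion_coeff_unique one_pos hΓ hf n).symm

/-- **[W1-EISMF]** `E_ψ` is a modular form of weight one on `Γ₁(ℓ)`, with the expected
`q`-expansion. -/
theorem eisMF_of (hNeb : EisNebStatement) (hHol : GHolStatement) (hBdd : GBddStatement)
    (hMod : GModStatement) (_hPer : GPerStatement) (hQ : EisQStatement) : EisMFStatement := by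
  intro ℓ _ ψ hψ
  exact ⟨eisMF hNeb hHol hBdd hMod ℓ ψ hψ, fun τ => rfl,
    fun n => eisMF_qCoeff hNeb hHol hBdd hMod hQ ℓ ψ hψ n⟩

end

end Fermat.Agent.T4.helper66
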