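import Fermat.Agent.P3.helper22_CentralTrace
import Fermat.Agent.P3.helper22_QuadraticRep

/-!
# T4 block (I), algebraic end step [T4-I-ALG] (helper68)

The P3 "central trace" machinery with an ARBITRARY determinant character `d` (P3 has it for the
cyclotomic character, constant term `ℓ`): if the Frobenius lifts `φ` at the primes `ℓ ∉ Bad`
satisfy `r φ ^ 2 - a ℓ • r φ + d φ = 0` on a nonzero finite-dimensional representation `V` of
`G_ℚ` over a field `k` of characteristic `≠ 2` (through a finite level), `d` a character through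
a finite level with `d c = -1` for an involution `c`, then there is a `ResidualGaloisRep k`
(dimension `2`) with characteristic polynomial `X ^ 2 - a ℓ X + d φ` at all these Frobenius
lifts, trivial on every `σ` with `r σ = 1` and `d σ = 1`.

This is the last step of the construction of the residual representations of a weight-one
eigensystem (`V` = an eigenspace in the `ℓ`-torsion of a Jacobian, `d = ε̄`).

* `centralTrace_mem_gen`, `exists_scalar_trace_gen` : the central trace trick for general `d`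
  (noetherian local ring, subalgebra `B` resp. scalars).
* `exists_residual_of_frobenius` : the field statement.
-/

set_option autoImplicit false
set_option linter.unusedSectionVars false
set_option linter.style.haveILetI false

namespace Fermat.Agent.T4.helper68

open IsLocalRing Polynomial
open Fermat.Agent.P3 (ChebStatement Qbar)
open Fermat.Agent.P3.helper22 (smallEnd mem_of_forall_exists_sub_mem_smallEnd pow_add_pow_mem
  mul_mem_smallEnd_left mul_mem_smallEnd_right smul_mem_smallEnd quad_of_eq centralTrace_mul_eq)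

/-- the absolute Galois group of `ℚ` -/
abbrev GQ : Type := AlgebraicClosure ℚ ≃ₐ[ℚ] AlgebraicClosure ℚ

section Core

/-- **The central trace lies in `B`**, for an arbitrary continuous character `d`. -/
theorem centralTrace_mem_gen (hcheb : ChebStatement)
    {R : Type} [CommRing R] [IsLocalRing R] [IsNoetherianRing R]
    {L : Type} [AddCommGroup L] [Module R L] [Module.Free R L] [Module.Finite R L]
    (r : GQ →* Module.End R L) (hr : GaloisActionIsAdicContinuous R r)
    (d : GQ →* Rˣ) (hd : Fermat.Agent.P3.IsAdicContinuousChar d)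
    (B : Subalgebra R (Module.End R L)) (Bad : Finset ℕ)
    (hfrob : ∀ ℓ : ℕ, ℓ.Prime → ℓ ∉ Bad → ∀ A : ValuationSubring Qbar, A.LiesOverPrime ℓ →
      ∀ φ : GQ, A.IsFrobeniusAt φ ℓ →
        ∃ a ∈ B, Commute a (r φ) ∧
          r φ * r φ - a * r φ + (d φ : R) • (1 : Module.End R L) = 0)
    (s : GQ) : r s + (d s : R) • r s⁻¹ ∈ B := by
  classical
  refine mem_of_forall_exists_sub_mem_smallEnd (Subalgebra.toSubmodule B) _ fun n => ?_
  obtain ⟨L₁, hL₁, h1⟩ := hr n
  obtain ⟨L₂, hL₂, h2⟩ := hd n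
  have hK : FiniteDimensional ℚ (L₁ ⊔ L₂ : IntermediateField ℚ Qbar) :=
    IntermediateField.finiteDimensional_sup L₁ L₂
  obtain ⟨ℓ, hℓ, hℓBad, A, hA, φ, hφ, j, hj⟩ := hcheb (L₁ ⊔ L₂) hK s Bad
  obtain ⟨a, haB, hcomm, hrel⟩ := hfrob ℓ hℓ hℓBad A hA φ hφ
  have hinv : r φ⁻¹ * r φ = 1 := by rw [← map_mul, inv_mul_cancel, map_one]
  have hprod : r φ * (a - r φ) = (d φ : R) • (1 : Module.End R L) := by
    have : r φ * (a - r φ) = (d φ : R) • (1 : Module.End R L)
        - (r φ * r φ - a * r φ + (d φ : R) • (1 : Module.End R L)) := by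
      rw [mul_sub, ← hcomm.eq]; abel
    rw [this, hrel, sub_zero]
  have hcomm' : Commute (r φ) (a - r φ) :=
    (hcomm.symm).sub_right (Commute.refl _)
  have hy' : a - r φ = (d φ : R) • r φ⁻¹ := by
    have := congrArg (fun f => r φ⁻¹ * f) hprod
    simp only [← mul_assoc, hinv, one_mul, mul_smul_comm, mul_one] at this
    exact this
  have hpj : r φ ^ j + (a - r φ) ^ j ∈ B :=
    pow_add_pow_mem B (d φ : R) (by rw [add_sub_cancel]; exact haB) hprod hcomm' j
  obtain ⟨g, hg⟩ : ∃ g : GQ, g = s⁻¹ * φ ^ j := ⟨_, rfl⟩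
  have hφj : φ ^ j = s * g := by rw [hg, mul_inv_cancel_left]
  have hgfix : ∀ x ∈ (L₁ ⊔ L₂ : IntermediateField ℚ Qbar), g x = x := by
    intro x hx
    rw [hg, AlgEquiv.mul_apply, hj x hx, ← AlgEquiv.mul_apply, inv_mul_cancel,
      AlgEquiv.one_apply]
  have hginvfix : ∀ x ∈ (L₁ ⊔ L₂ : IntermediateField ℚ Qbar), g⁻¹ x = x := by
    intro x hx
    have := hgfix x hx
    calc g⁻¹ x = g⁻¹ (g x) := by rw [this]
      _ = x := by rw [← AlgEquiv.mul_apply, inv_mul_cancel, AlgEquiv.one_apply]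
  have hsm1 : ∀ τ : GQ, (∀ x ∈ (L₁ ⊔ L₂ : IntermediateField ℚ Qbar), τ x = x) →
      (1 - r τ : Module.End R L) ∈ smallEnd (maximalIdeal R ^ n) := by
    intro τ hτ v
    have := h1 τ (fun x hx => hτ x ((le_sup_left : L₁ ≤ L₁ ⊔ L₂) hx)) v
    rw [LinearMap.sub_apply, Module.End.one_apply, ← neg_sub]
    exact Submodule.neg_mem _ this
  have hsm2 : (1 - (d g : R)) ∈ maximalIdeal R ^ n := by
    have := h2 g (fun x hx => hgfix x ((le_sup_right : L₂ ≤ L₁ ⊔ L₂) hx))
    rw [← neg_sub]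
    exact Ideal.neg_mem_iff _ |>.mpr this
  refine ⟨r φ ^ j + (a - r φ) ^ j, hpj, ?_⟩
  have e1 : r φ ^ j = r s * r g := by rw [← map_pow, hφj, map_mul]
  have e2 : (a - r φ) ^ j = ((d s : R) * (d g : R)) • (r g⁻¹ * r s⁻¹) := by
    rw [hy', _root_.smul_pow, ← map_pow, inv_pow, hφj, mul_inv_rev, map_mul]
    congr 1
    have : ((d φ : R)) ^ j = ((d (φ ^ j) : Rˣ) : R) := by
      rw [map_pow, Units.val_pow_eq_pow_val]
    rw [this, hφj, map_mul, Units.val_mul]
  have e : r s + (d s : R) • r s⁻¹ - (r φ ^ j + (a - r φ) ^ j)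
      = r s * (1 - r g) + (d s : R) • ((1 - r g⁻¹) * r s⁻¹)
        + (d s : R) • ((1 - (d g : R)) • (r g⁻¹ * r s⁻¹)) := by
    rw [e1, e2, mul_smul]
    simp only [mul_sub, sub_mul, mul_one, one_mul, smul_sub, sub_smul, one_smul]
    abel
  rw [e]
  refine Submodule.add_mem _ (Submodule.add_mem _ ?_ ?_) ?_
  · exact mul_mem_smallEnd_left _ (hsm1 g hgfix)
  · exact Submodule.smul_mem _ _ (mul_mem_smallEnd_right _ (hsm1 g⁻¹ hginvfix))
  · exact Submodule.smul_mem _ _ (smul_mem_smallEnd hsm2 _)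

/-- **Scalar form**: if the Frobenius lifts at the primes `ℓ ∉ Bad` satisfy
`X ^ 2 - a ℓ X + d φ` on `L`, there is `t : G_ℚ → R` with `t s • 1 = r s + d s • r s⁻¹` for all
`s`; in particular the quadratic relation holds for all `s`. -/
theorem exists_scalar_trace_gen (hcheb : ChebStatement)
    {R : Type} [CommRing R] [IsLocalRing R] [IsNoetherianRing R]
    {L : Type} [AddCommGroup L] [Module R L] [Module.Free R L] [Module.Finite R L]
    (r : GQ →* Module.End R L) (hr : GaloisActionIsAdicContinuous R r)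
    (d : GQ →* Rˣ) (hd : Fermat.Agent.P3.IsAdicContinuousChar d)
    (Bad : Finset ℕ) (a : ℕ → R)
    (hfrob : ∀ ℓ : ℕ, ℓ.Prime → ℓ ∉ Bad → ∀ A : ValuationSubring Qbar, A.LiesOverPrime ℓ →
      ∀ φ : GQ, A.IsFrobeniusAt φ ℓ →
        r φ * r φ - a ℓ • r φ + (d φ : R) • (1 : Module.End R L) = 0) :
    ∃ t : GQ → R, (∀ s, t s • (1 : Module.End R L) = r s + (d s : R) • r s⁻¹) ∧
      Fermat.Agent.P3.QuadraticRel r t d ∧
      (∀ σ, r σ = 1 → d σ = 1 → ∀ s, t (σ * s) • (1 : Module.End R L)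
        = t s • (1 : Module.End R L)) := by
  have hmem : ∀ s, r s + (d s : R) • r s⁻¹ ∈ (⊥ : Subalgebra R (Module.End R L)) := by
    intro s
    refine centralTrace_mem_gen hcheb r hr d hd ⊥ Bad (fun ℓ hℓ hℓB A hA φ hφ => ?_) s
    have h2 := hfrob ℓ hℓ hℓB A hA φ hφ
    refine ⟨a ℓ • 1, ?_, ?_, ?_⟩
    · exact Subalgebra.smul_mem _ (Subalgebra.one_mem _) _
    · exact (Commute.one_left _).smul_left _
    · rw [smul_mul_assoc, one_mul]; exact h2
  choose t ht using fun s => Algebra.mem_bot.mp (hmem s)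
  have ht' : ∀ s, t s • (1 : Module.End R L) = r s + (d s : R) • r s⁻¹ := fun s => by
    rw [← ht s, Algebra.algebraMap_eq_smul_one]
  refine ⟨t, ht', fun s => ?_, fun σ hσ hdσ s => ?_⟩
  · have := quad_of_eq r d s _ (ht' s)
    rwa [smul_mul_assoc, one_mul] at this
  · rw [ht', ht', centralTrace_mul_eq r d hσ hdσ]

end Core

section Field

/-- **[T4-I-ALG]** from Frobenius quadratic relations with an arbitrary (odd, finite-order)
determinant character to a two-dimensional residual representation. -/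
theorem exists_residual_of_frobenius (hcheb : ChebStatement)
    (k : Type) [Field k] (h2 : (2 : k) ≠ 0)
    (V : Type) [AddCommGroup V] [Module k V] [Module.Finite k V] [Nontrivial V]
    (r : GQ →* Module.End k V) (hr : GaloisFactorsThroughFiniteLevel r)
    (d : GQ →* kˣ) (hd : GaloisFactorsThroughFiniteLevel d)
    (cc : GQ) (hcc : cc * cc = 1) (hdc : (d cc : k) = -1)
    (Bad : Finset ℕ) (a : ℕ → k)
    (hfrob : ∀ ℓ : ℕ, ℓ.Prime → ℓ ∉ Bad → ∀ A : ValuationSubring Qbar, A.LiesOverPrime ℓ →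
      ∀ φ : GQ, A.IsFrobeniusAt φ ℓ →
        r φ * r φ - a ℓ • r φ + (d φ : k) • (1 : Module.End k V) = 0) :
    ∃ ρ : ResidualGaloisRep k,
      (∀ ℓ : ℕ, ℓ.Prime → ℓ ∉ Bad → ∀ A : ValuationSubring Qbar, A.LiesOverPrime ℓ →
        ∀ φ : GQ, A.IsFrobeniusAt φ ℓ →
          LinearMap.charpoly (ρ.ρ φ) = X ^ 2 - C (a ℓ) * X + C (d φ : k)) ∧
      (∀ σ : GQ, ∃ tσ : k, LinearMap.charpoly (ρ.ρ σ) = X ^ 2 - C tσ * X + C (d σ : k)) ∧
      (∀ σ : GQ, r σ = 1 → d σ = 1 → ρ.ρ σ = 1) := by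
  have hr' : GaloisActionIsAdicContinuous k r := by
    intro n
    obtain ⟨L, hL, h⟩ := hr
    refine ⟨L, hL, fun σ hσ v => ?_⟩
    rw [h σ hσ, Module.End.one_apply, sub_self]
    exact Submodule.zero_mem _
  have hd' : Fermat.Agent.P3.IsAdicContinuousChar d := by
    intro n
    obtain ⟨L, hL, h⟩ := hd
    refine ⟨L, hL, fun σ hσ => ?_⟩
    rw [h σ hσ, Units.val_one, sub_self]
    exact Ideal.zero_mem _
  obtain ⟨t, ht, hquad, -⟩ := exists_scalar_trace_gen hcheb r hr' d hd' Bad a hfrob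
  have hdk : GaloisFactorsThroughFiniteLevel ((Units.coeHom k).comp d) := by
    obtain ⟨L, hL, h⟩ := hd
    refine ⟨L, hL, fun σ hσ => ?_⟩
    rw [MonoidHom.comp_apply, h σ hσ, map_one]
  obtain ⟨ρ, hρ1, hρ2⟩ := Fermat.Agent.P3.helper22.exists_residualGaloisRep_of_quadratic k V h2 r
    hr t ((Units.coeHom k).comp d) hdk (fun σ => hquad σ) cc hcc hdc
  refine ⟨ρ, fun ℓ hℓ hℓB A hA φ hφ => ?_, fun σ => ?_, fun σ h1 h3 => ?_⟩
  · have h3 := hfrob ℓ hℓ hℓB A hA φ hφ
    have hinv : r φ * r φ⁻¹ = 1 := by rw [← map_mul, mul_inv_cancel, map_one]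
    have h4 : t φ • (1 : Module.End k V) = a ℓ • (1 : Module.End k V) := by
      rw [ht φ]
      have h5 := congrArg (fun f => f * r φ⁻¹) h3
      simp only [add_mul, sub_mul, mul_assoc, hinv, mul_one, smul_mul_assoc, one_mul,
        zero_mul] at h5
      have h6 : r φ + (d φ : k) • r φ⁻¹ = a ℓ • (1 : Module.End k V) + (r φ - a ℓ • 1 +
          (d φ : k) • r φ⁻¹) := by abel
      rw [h6, h5, add_zero]
    have h7 : t φ = a ℓ := by
      have h8 : (t φ - a ℓ) • (1 : Module.End k V) = 0 := by rw [sub_smul, h4, sub_self]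
      rcases smul_eq_zero.1 h8 with h9 | h9
      · exact sub_eq_zero.1 h9
      · exact absurd h9 one_ne_zero
    rw [hρ1 φ, h7]
    rfl
  · exact ⟨t σ, hρ1 σ⟩
  · exact hρ2 σ h1 (by rw [MonoidHom.comp_apply, h3]; rfl)

end Field

end Fermat.Agent.T4.helper68
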