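import Fermat.Agent.T4.helper68_AlgRes
import Fermat.Agent.P3.helper91_Cheb

/-!
# T4 block (I), algebraic end step [T4-I-ALG], unconditional form (helper68)

`exists_residual_of_frobenius_uncond` = `exists_residual_of_frobenius` with weak Chebotarev
(`helper91.cheb`, on main) plugged in.
-/

set_option autoImplicit false

namespace Fermat.Agent.T4.helper68

open Polynomial
open Fermat.Agent.P3 (Qbar)

/-- **[T4-I-ALG]**, unconditional. -/
theorem exists_residual_of_frobenius_uncond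
    (k : Type) [Field k] (h2 : (2 : k) ≠ 0)
    (V : Type) [AddCommGroup V] [Module k V] [Module.Finite k V] [Nontrivial V]
    (r : GQ →* Module.End k V) (hr : GaloisFactorsThroughFiniteLevel r)
    (d : GQ →* kˣ) (hd : GaloisFactorsThroughFiniteLevel d)
    (cc : GQ) (hcc : cc * cc = 1) (hdc : (d cc : k) = -1)
    (Bad : Finset ℕ) (a : ℕ → k)
    (hfrob : ∀ ℓ : ℕ, ℓ.Prime → ℓ ∉ Bad → ∀ A : ValuationSubring Qbar, A.LiesOverPrime ℓ →
      ∀ φ : GQ, A.IsFrobeniusAt φ ℓ →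
        r φ * r φ - a ℓ • r φ + (d φ : k) • (1 : Module.End k V) = 0) :
    ∃ ρ : ResidualGaloisRep k,
      (∀ ℓ : ℕ, ℓ.Prime → ℓ ∉ Bad → ∀ A : ValuationSubring Qbar, A.LiesOverPrime ℓ →
        ∀ φ : GQ, A.IsFrobeniusAt φ ℓ →
          LinearMap.charpoly (ρ.ρ φ) = X ^ 2 - C (a ℓ) * X + C (d φ : k)) ∧
      (∀ σ : GQ, ∃ tσ : k, LinearMap.charpoly (ρ.ρ σ) = X ^ 2 - C tσ * X + C (d σ : k)) ∧
      (∀ σ : GQ, r σ = 1 → d σ = 1 → ρ.ρ σ = 1) :=
  exists_residual_of_frobenius Fermat.Agent.P3.helper91.cheb k h2 V r hr d hd cc hcc hdc Bad a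
    hfrob

end Fermat.Agent.T4.helper68
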