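import Mathlib
import Fermat.Agent.T4.helper68_AlgResU
import Fermat.Agent.T4.helper32_ResDefs
import Fermat.Agent.P3.helper65_Pseudo
import Fermat.Agent.P3.helper26_Cyclo

/-!
# T4 (R) [DIRGAL] (helper68): Dirichlet characters as Galois characters, and the last step of
the residual wiring

* `cycN N : GQ →* (ZMod N)ˣ` : the mod-`N` cyclotomic character of `G_ℚ`, with
  `cycN_spec`, `cycN_frob` (Frobenius lifts at `p ∤ N` go to `p`), `cycN_inertia`,
  `cycN_conj` (complex conjugation goes to `-1`), `cycN_finiteLevel`.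
* `dirGal N ψ := ψ ∘ cycN N` for `ψ : (ZMod N)ˣ →* kˣ`.
* `twistRep d ρ`, `esAt_twist` : twisting a module with Eichler-Shimura relations by a
  character.
* `res_of_es` : a nonzero finite-dimensional `k[G_ℚ]`-module through a finite quotient with
  the relations `φ² - b_p φ + ψ(p) = 0` at the Frobenius lifts and trivial inertia outside `D`
  (`ψ` odd, `N ∣ D`) yields a `ResidualGaloisRep k` with the characteristic polynomials
  `X² - b_p X + ψ(p)` and trivial inertia outside `D`.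
-/

set_option autoImplicit false
set_option linter.style.haveILetI false

noncomputable section

namespace Fermat.Agent.T4.helper68

open Polynomial
open Fermat.Agent.P3 (Qbar)

/-! ## The mod-`N` cyclotomic character -/

section CycN

variable (N : ℕ) [NeZero N]

theorem natCard_rootsOfUnity_Qbar : Nat.card (rootsOfUnity N Qbar) = N :=
  IsAlgClosed.card_rootsOfUnity_eq Qbar N

/-- The mod-`N` cyclotomic character of `G_ℚ`. -/
def cycN : GQ →* (ZMod N)ˣ :=
  (modularCyclotomicCharacter Qbar (natCard_rootsOfUnity_Qbar N)).comp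
    (MulSemiringAction.toRingAut GQ Qbar)

theorem cycN_spec (σ : GQ) {ζ : Qbar} (hζ : ζ ^ N = 1) :
    σ ζ = ζ ^ ((cycN N σ : ZMod N)).val := by
  have hu : IsUnit ζ := IsUnit.of_pow_eq_one hζ (NeZero.ne N)
  obtain ⟨u, rfl⟩ := hu
  have hmem : u ∈ rootsOfUnity N Qbar := by
    rw [mem_rootsOfUnity]
    exact Units.ext (by simpa using hζ)
  exact modularCyclotomicCharacter.spec Qbar (natCard_rootsOfUnity_Qbar N)
    (MulSemiringAction.toRingAut GQ Qbar σ) hmem

theorem cycN_eq_of (σ : GQ) (c : ZMod N) (h : ∀ ζ : Qbar, ζ ^ N = 1 → σ ζ = ζ ^ c.val) :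
    ((cycN N σ : (ZMod N)ˣ) : ZMod N) = c := by
  refine (modularCyclotomicCharacter.unique Qbar (natCard_rootsOfUnity_Qbar N)
    (MulSemiringAction.toRingAut GQ Qbar σ) (c := c) ?_).symm
  intro t ht
  have h1 : ((t : Qbarˣ) : Qbar) ^ N = 1 := by
    rw [mem_rootsOfUnity] at ht
    rw [← Units.val_pow_eq_pow_val, ht, Units.val_one]
  exact h _ h1


theorem cycN_eq_one_of (σ : GQ) (h : ∀ ζ : Qbar, ζ ^ N = 1 → σ ζ = ζ) : cycN N σ = 1 := by
  apply Units.ext
  rw [Units.val_one]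
  apply cycN_eq_of
  intro ζ hζ
  rw [h ζ hζ, ZMod.val_one_eq_one_mod, ← pow_eq_pow_mod 1 hζ, pow_one]

/-- A Frobenius lift at `p ∤ N` is sent to `p`. -/
theorem cycN_frob (A : ValuationSubring Qbar) {p : ℕ} (hA : A.LiesOverPrime p)
    (hN : Nat.Coprime N p) {φ : GQ} (hφ : A.IsFrobeniusAt φ p) :
    ((cycN N φ : (ZMod N)ˣ) : ZMod N) = (p : ZMod N) := by
  apply cycN_eq_of
  intro ζ hζ
  rw [Fermat.Agent.P3.helper65.frob_rootOfUnity A hA hN hφ ζ hζ, ZMod.val_natCast,
    ← pow_eq_pow_mod p hζ]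

/-- The inertia groups at the places over `p ∤ N` are in the kernel. -/
theorem cycN_inertia (A : ValuationSubring Qbar) {p : ℕ} (hA : A.LiesOverPrime p)
    (hN : Nat.Coprime N p) {σ : GQ} (hσ : σ ∈ A.inertiaSubgroupIn ℚ) : cycN N σ = 1 := by
  obtain ⟨-, hval⟩ := (Fermat.Agent.S14.helper91.mem_inertiaSubgroupIn_iff_valuation A σ).1 hσ
  apply cycN_eq_one_of
  intro ζ hζ
  have hN0 : N ≠ 0 := NeZero.ne N
  have hζ0 : ζ ≠ 0 := by
    rintro rfl
    rw [zero_pow hN0] at hζ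
    exact zero_ne_one hζ
  have hζA : ζ ∈ A := Fermat.Agent.P3.helper26.mem_of_pow_eq_one A hN0 hζ
  have hv : A.valuation ζ = 1 :=
    Fermat.Agent.P3.helper65.valuation_eq_one_of_pow_eq_one A hN0 hζ
  have hu : (σ ζ * ζ⁻¹) ^ N = 1 := by
    rw [mul_pow, inv_pow, ← map_pow, hζ, map_one, inv_one, mul_one]
  have h2 : A.valuation (σ ζ * ζ⁻¹ - 1) < 1 := by
    have h3 : σ ζ * ζ⁻¹ - 1 = (σ ζ - ζ) * ζ⁻¹ := by field_simp
    rw [h3, map_mul, map_inv₀, hv, inv_one, mul_one]
    exact hval ζ hζA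
  have h4 := Fermat.Agent.P3.helper65.eq_one_of_valuation_sub_lt_one A hA hN hu h2
  field_simp at h4
  exact h4

/-- Complex conjugation is sent to `-1`. -/
theorem cycN_conj : ((cycN N complexConjugation : (ZMod N)ˣ) : ZMod N) = -1 := by
  apply cycN_eq_of
  intro ζ hζ
  have hN0 : N ≠ 0 := NeZero.ne N
  have hζ0 : ζ ≠ 0 := by
    rintro rfl
    rw [zero_pow hN0] at hζ
    exact zero_ne_one hζ
  rw [Fermat.Agent.P3.helper26.complexConjugation_apply_of_pow_eq_one hN0 hζ]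
  have h1 : ((((-1 : ZMod N)).val + 1 : ℕ) : ZMod N) = 0 := by
    rw [Nat.cast_add, ZMod.natCast_zmod_val, Nat.cast_one, neg_add_cancel]
  have h2 : N ∣ (-1 : ZMod N).val + 1 := (ZMod.natCast_eq_zero_iff _ _).1 h1
  obtain ⟨c, hc⟩ := h2
  have h3 : ζ ^ ((-1 : ZMod N).val + 1) = 1 := by rw [hc, pow_mul, hζ, one_pow]
  rw [pow_succ] at h3
  exact (eq_inv_of_mul_eq_one_left h3).symm

/-- The mod-`N` cyclotomic character factors through a finite level. -/
theorem cycN_finiteLevel : GaloisFactorsThroughFiniteLevel (cycN N) := by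
  classical
  have hN0 : 0 < N := Nat.pos_of_ne_zero (NeZero.ne N)
  refine ⟨IntermediateField.adjoin ℚ ((nthRootsFinset N (1 : Qbar) : Finset Qbar) : Set Qbar),
    ?_, ?_⟩
  · exact IntermediateField.finiteDimensional_adjoin
      (fun x _ => ((AlgebraicClosure.isAlgebraic ℚ).isAlgebraic x).isIntegral)
  · intro σ hσ
    apply cycN_eq_one_of
    intro ζ hζ
    exact hσ ζ (IntermediateField.subset_adjoin ℚ _
      (Finset.mem_coe.2 ((mem_nthRootsFinset hN0 (1 : Qbar)).2 hζ)))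

end CycN

/-! ## Dirichlet characters as Galois characters -/

section DirGal

variable (N : ℕ) [NeZero N] {k : Type} [Field k] (ψ : (ZMod N)ˣ →* kˣ)

/-- The Galois character attached to a character of `(ZMod N)ˣ`. -/
def dirGal : GQ →* kˣ := ψ.comp (cycN N)

theorem dirGal_apply (σ : GQ) : dirGal N ψ σ = ψ (cycN N σ) := rfl

theorem dirGal_finiteLevel : GaloisFactorsThroughFiniteLevel (dirGal N ψ) := by
  obtain ⟨L, hL, h⟩ := cycN_finiteLevel N
  exact ⟨L, hL, fun σ hσ => by rw [dirGal_apply, h σ hσ, map_one]⟩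

theorem dirGal_frob (A : ValuationSubring Qbar) {p : ℕ} (hA : A.LiesOverPrime p)
    (hN : Nat.Coprime N p) {φ : GQ} (hφ : A.IsFrobeniusAt φ p) (u : (ZMod N)ˣ)
    (hu : (u : ZMod N) = (p : ZMod N)) : dirGal N ψ φ = ψ u := by
  rw [dirGal_apply]
  congr 1
  exact Units.ext ((cycN_frob N A hA hN hφ).trans hu.symm)

theorem dirGal_inertia (A : ValuationSubring Qbar) {p : ℕ} (hA : A.LiesOverPrime p)
    (hN : Nat.Coprime N p) {σ : GQ} (hσ : σ ∈ A.inertiaSubgroupIn ℚ) : dirGal N ψ σ = 1 := by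
  rw [dirGal_apply, cycN_inertia N A hA hN hσ, map_one]

theorem dirGal_conj : dirGal N ψ complexConjugation = ψ (-1) := by
  rw [dirGal_apply]
  congr 1
  exact Units.ext (by rw [cycN_conj, Units.val_neg, Units.val_one])

end DirGal

/-! ## Twisting -/

section Twist

variable {k V : Type} [Field k] [AddCommGroup V] [Module k V]

/-- The twist of a representation by a character. -/
def twistRep (d : GQ →* kˣ) (ρ : GQ →* Module.End k V) : GQ →* Module.End k V where
  toFun σ := (d σ : k) • ρ σ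
  map_one' := by rw [map_one, map_one, Units.val_one, one_smul]
  map_mul' a b := by
    rw [map_mul, map_mul, Units.val_mul, smul_mul_smul_comm]

theorem twistRep_apply (d : GQ →* kˣ) (ρ : GQ →* Module.End k V) (σ : GQ) :
    twistRep d ρ σ = (d σ : k) • ρ σ := rfl

theorem twistRep_finiteLevel (d : GQ →* kˣ) (ρ : GQ →* Module.End k V)
    (hd : GaloisFactorsThroughFiniteLevel d) (hρ : GaloisFactorsThroughFiniteLevel ρ) :
    GaloisFactorsThroughFiniteLevel (twistRep d ρ) := by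
  obtain ⟨L₁, hL₁, h₁⟩ := hd
  obtain ⟨L₂, hL₂, h₂⟩ := hρ
  refine ⟨L₁ ⊔ L₂, IntermediateField.finiteDimensional_sup L₁ L₂, fun σ hσ => ?_⟩
  rw [twistRep_apply, h₁ σ (fun x hx => hσ x ((le_sup_left : L₁ ≤ L₁ ⊔ L₂) hx)),
    h₂ σ (fun x hx => hσ x ((le_sup_right : L₂ ≤ L₁ ⊔ L₂) hx)), Units.val_one, one_smul]

/-- Twisting the Eichler-Shimura relations: if `d` is trivial on the inertia groups over `p`
and takes the value `t` at the Frobenius lifts, the twist satisfies the relations for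
`(t b, t² e)`. -/
theorem esAt_twist (d : GQ →* kˣ) (ρ : GQ →* Module.End k V) (p : ℕ) (b e t : k)
    (h : Fermat.Agent.T4.helper32.EsAt ρ p b e)
    (hin : ∀ A : ValuationSubring Qbar, A.LiesOverPrime p →
      ∀ σ ∈ A.inertiaSubgroupIn ℚ, d σ = 1)
    (hfr : ∀ A : ValuationSubring Qbar, A.LiesOverPrime p →
      ∀ σ : GQ, A.IsFrobeniusAt σ p → (d σ : k) = t) :
    Fermat.Agent.T4.helper32.EsAt (twistRep d ρ) p (t * b) (t ^ 2 * e) := by
  intro A hA
  obtain ⟨h1, h2⟩ := h A hA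
  refine ⟨fun σ hσ => ?_, fun σ hσ => ?_⟩
  · rw [twistRep_apply, hin A hA σ hσ, h1 σ hσ, Units.val_one, one_smul]
  · have h3 := h2 σ hσ
    rw [twistRep_apply, hfr A hA σ hσ]
    have : t • ρ σ * t • ρ σ - (t * b) • t • ρ σ + (t ^ 2 * e) • (1 : Module.End k V) =
        (t ^ 2) • (ρ σ * ρ σ - b • ρ σ + e • (1 : Module.End k V)) := by
      rw [smul_mul_smul_comm, smul_add, smul_sub, smul_smul, smul_smul, smul_smul]
      congr 2
      · rw [pow_two]
      · congr 1
        ring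
    rw [this, h3, smul_zero]

end Twist

/-! ## The residual representation of a module with Eichler-Shimura relations -/

section Res

open Fermat.Agent.T4.helper32 (EsAt HasResidualMod)
open Fermat.Agent.T4.helper80 (Zbar)

/-- **[RES-OF-ES]**  A nonzero finite-dimensional representation of `G_ℚ` through a finite
quotient, with trivial inertia and the relations `φ² - b_p φ + e_p = 0` at the Frobenius lifts
for all primes `p ∤ D`, where `e_p = ψ(p)` for an odd character `ψ` of `(ℤ/N)ˣ`, `N ∣ D`,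
yields a two-dimensional residual representation with trivial inertia and the characteristic
polynomials `X² - b_p X + e_p` at the Frobenius lifts for all `p ∤ D`. -/
theorem res_of_es (N : ℕ) [NeZero N] {k : Type} [Field k] (h2 : (2 : k) ≠ 0)
    (ψ : (ZMod N)ˣ →* kˣ) (hodd : (ψ (-1) : k) = -1)
    (D : ℕ) (hD : D ≠ 0) (hND : N ∣ D) (b e : ℕ → k)
    (he : ∀ p : ℕ, p.Prime → ¬ p ∣ D → ∀ u : (ZMod N)ˣ, (u : ZMod N) = (p : ZMod N) →
      e p = (ψ u : k))
    (V : Type) [AddCommGroup V] [Module k V] [Module.Finite k V] [Nontrivial V]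
    (ρ : GQ →* Module.End k V) (hfin : GaloisFactorsThroughFiniteLevel ρ)
    (hes : ∀ p : ℕ, p.Prime → ¬ p ∣ D → EsAt ρ p (b p) (e p)) :
    ∃ ρ' : ResidualGaloisRep k, ∀ p : ℕ, p.Prime → ¬ p ∣ D →
      ∀ A : ValuationSubring Qbar, A.LiesOverPrime p →
        (∀ σ ∈ A.inertiaSubgroupIn ℚ, ρ'.ρ σ = 1) ∧
        ∀ σ : GQ, A.IsFrobeniusAt σ p →
          LinearMap.charpoly (ρ'.ρ σ) = X ^ 2 - C (b p) * X + C (e p) := by
  have hcop : ∀ p : ℕ, p.Prime → ¬ p ∣ D → Nat.Coprime N p := fun p hp hpD =>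
    ((Nat.Prime.coprime_iff_not_dvd hp).2 (fun h => hpD (h.trans hND))).symm
  have hnot : ∀ p : ℕ, p.Prime → p ∉ D.primeFactors → ¬ p ∣ D := fun p hp hpD h =>
    hpD (Nat.mem_primeFactors.2 ⟨hp, h, hD⟩)
  have hfr : ∀ p : ℕ, p.Prime → ¬ p ∣ D → ∀ A : ValuationSubring Qbar, A.LiesOverPrime p →
      ∀ φ : GQ, A.IsFrobeniusAt φ p → (dirGal N ψ φ : k) = e p := by
    intro p hp hpD A hA φ hφ
    rw [he p hp hpD (cycN N φ) (cycN_frob N A hA (hcop p hp hpD) hφ), dirGal_apply]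
  obtain ⟨ρ', h1, -, h3⟩ := exists_residual_of_frobenius_uncond k h2 V ρ hfin (dirGal N ψ)
    (dirGal_finiteLevel N ψ) complexConjugation complexConjugation_mul_self
    (by rw [dirGal_conj]; exact hodd) D.primeFactors b
    (fun ℓ hℓ hℓD A hA φ hφ => by
      rw [hfr ℓ hℓ (hnot ℓ hℓ hℓD) A hA φ hφ]
      exact (hes ℓ hℓ (hnot ℓ hℓ hℓD) A hA).2 φ hφ)
  refine ⟨ρ', fun p hp hpD A hA => ⟨fun σ hσ => ?_, fun σ hσ => ?_⟩⟩
  · exact h3 σ ((hes p hp hpD A hA).1 σ hσ) (dirGal_inertia N ψ A hA (hcop p hp hpD) hσ)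
  · rw [h1 p hp (fun h => hpD (Nat.mem_primeFactors.1 h).2.1) A hA σ hσ, hfr p hp hpD A hA σ hσ]

/-- The values of a Dirichlet character at the units are algebraic integers. -/
theorem isIntegral_dirichlet_unit (N : ℕ) [NeZero N] (ε : DirichletCharacter ℂ N)
    (u : (ZMod N)ˣ) : IsIntegral ℤ (ε (u : ZMod N)) := by
  have h1 : ε (u : ZMod N) ^ orderOf u = 1 := by
    rw [← map_pow, ← Units.val_pow_eq_pow_val, pow_orderOf_eq_one, Units.val_one, map_one]
  exact IsIntegral.of_pow (orderOf_pos u) (h1 ▸ isIntegral_one)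

/-- The reduction of a Dirichlet character along `φ : ℤ̄ → k`, as a character of the units. -/
def redChar (N : ℕ) [NeZero N] (ε : DirichletCharacter ℂ N) {k : Type} [Field k]
    (φ : Zbar →+* k) : (ZMod N)ˣ →* kˣ :=
  MonoidHom.toHomUnits
    { toFun := fun u => φ ⟨ε (u : ZMod N), isIntegral_dirichlet_unit N ε u⟩
      map_one' := by
        have : (⟨ε ((1 : (ZMod N)ˣ) : ZMod N), isIntegral_dirichlet_unit N ε 1⟩ : Zbar) = 1 :=
          Subtype.ext (by simp)
        rw [this, map_one]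
      map_mul' := fun u v => by
        have : (⟨ε ((u * v : (ZMod N)ˣ) : ZMod N), isIntegral_dirichlet_unit N ε (u * v)⟩ :
            Zbar) = ⟨ε (u : ZMod N), isIntegral_dirichlet_unit N ε u⟩ *
              ⟨ε (v : ZMod N), isIntegral_dirichlet_unit N ε v⟩ :=
          Subtype.ext (by simp)
        rw [this, map_mul] }

theorem coe_redChar (N : ℕ) [NeZero N] (ε : DirichletCharacter ℂ N) {k : Type} [Field k]
    (φ : Zbar →+* k) (u : (ZMod N)ˣ) :
    (redChar N ε φ u : k) = φ ⟨ε (u : ZMod N), isIntegral_dirichlet_unit N ε u⟩ := rfl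

/-- **[RES-OF-ES], contract form**: the conclusion `HasResidualMod` of `helper32.Res1Statement`
from a module with the Eichler-Shimura relations for the system `(a_p, ε(p))`, `ε` odd. -/
theorem hasResidualMod_of_es (N : ℕ) [NeZero N] (ε : DirichletCharacter ℂ N)
    (hodd : ε (-1) = -1) {k : Type} [Field k] (h2 : (2 : k) ≠ 0) (φ : Zbar →+* k)
    (D : ℕ) (hD : D ≠ 0) (hND : N ∣ D) (a : ℕ → ℂ)
    (V : Type) [AddCommGroup V] [Module k V] [Module.Finite k V] [Nontrivial V]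
    (ρ : GQ →* Module.End k V) (hfin : GaloisFactorsThroughFiniteLevel ρ)
    (hes : ∀ p : ℕ, p.Prime → ¬ p ∣ D → ∃ x y : Zbar, (x : ℂ) = a p ∧
      (y : ℂ) = ε (p : ZMod N) ∧ EsAt ρ p (φ x) (φ y)) :
    HasResidualMod D a (fun p => ε (p : ZMod N)) φ := by
  classical
  choose! x y hx hy hxy using hes
  have hoddψ : (redChar N ε φ (-1) : k) = -1 := by
    rw [coe_redChar]
    have : (⟨ε (((-1 : (ZMod N)ˣ)) : ZMod N), isIntegral_dirichlet_unit N ε (-1)⟩ : Zbar) =
        -1 := Subtype.ext (by simpa using hodd)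
    rw [this, map_neg, map_one]
  obtain ⟨ρ', h⟩ := res_of_es N h2 (redChar N ε φ) hoddψ D hD hND (fun p => φ (x p))
    (fun p => φ (y p))
    (fun p hp hpD u hu => by
      rw [coe_redChar]
      congr 1
      refine Subtype.ext ?_
      change (y p : ℂ) = ε (u : ZMod N)
      rw [hy p hp hpD, hu])
    V ρ hfin (fun p hp hpD => hxy p hp hpD)
  exact ⟨ρ', fun p hp hpD => ⟨x p, y p, hx p hp hpD, hy p hp hpD, h p hp hpD⟩⟩


open UpperHalfPlane in
/-- A nonzero function with nebentypus `ε` in weight one: `ε` is odd. -/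
theorem odd_of_hasNeben (N : ℕ) (ε : DirichletCharacter ℂ N) (h : ℍ → ℂ)
    (hN : Fermat.Agent.T4.helper32.HasNeben N 1 ε h) (τ : ℍ) (hτ : h τ ≠ 0) :
    ε (-1) = -1 := by
  have hmem : (-1 : Matrix.SpecialLinearGroup (Fin 2) ℤ) ∈ CongruenceSubgroup.Gamma0 N := by
    rw [CongruenceSubgroup.Gamma0_mem]
    simp
  have h1 := hN (-1) hmem τ
  have h2 : (-1 : Matrix.SpecialLinearGroup (Fin 2) ℤ) • τ = τ := by
    rw [ModularGroup.SL_neg_smul, one_smul]
  rw [h2] at h1
  have h3 : (((-1 : Matrix.SpecialLinearGroup (Fin 2) ℤ) 1 1 : ℤ) : ZMod N) = -1 := by simp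
  have h4 : (((-1 : Matrix.SpecialLinearGroup (Fin 2) ℤ) 1 0 : ℤ) : ℂ) = 0 := by simp
  have h5 : (((-1 : Matrix.SpecialLinearGroup (Fin 2) ℤ) 1 1 : ℤ) : ℂ) = -1 := by simp
  rw [h3, h4, h5, zero_mul, zero_add, pow_one] at h1
  have h6 : (ε (-1) * -1 - 1) * h τ = 0 := by
    rw [sub_mul, one_mul, ← h1, sub_self]
  rcases mul_eq_zero.1 h6 with h7 | h7
  · have : ε (-1) = -(ε (-1) * -1) := by ring
    rw [this, sub_eq_zero.1 h7]
  · exact absurd h7 hτ

end Res

end Fermat.Agent.T4.helper68
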