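import Fermat.Agent.T4.helper41_Master1
import Fermat.Agent.T4.helper30_S48DivL

/-!
# T4 / S48 (helper68): the LIGHT master theorem

The frozen statement S48 from the leaves of block (I) (`helper41.Leaves1 M ℓ`) at the levels
used by the wiring ONLY: `4 ∣ M ∨ 9 ∣ M`, `ℓ` an odd prime, `ℓ ∣ M`, `12 ≤ M`.

* `eigen1At_of_leaves : Leaves1 M ℓ → helper41.Eigen1At M ℓ` (pointwise form of
  `helper41.eigen1_of_leaves`);
* `eigen1L_of_at`, `eigen1L_of_leaves` : the light contract `helper32.Eigen1StatementL`;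
* `s48_of_leavesL` : the frozen S48 shape (through `helper30.s48_of_eigen1L_div`, no density
  hypothesis).
-/

set_option autoImplicit false
set_option linter.style.haveILetI false
set_option linter.unusedSectionVars false

open CongruenceSubgroup
open scoped MatrixGroups

namespace Fermat.Agent.T4.helper68

open Fermat.Agent.T4

/-- **[EIGEN1] at `(M, ℓ)` from the leaves of block (I) at `(M, ℓ)`.** -/
theorem eigen1At_of_leaves (M ℓ : ℕ) [NeZero M] (hℓ : ℓ.Prime) (h : helper41.Leaves1 M ℓ) :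
    helper41.Eigen1At M ℓ := by
  obtain ⟨hfld, hunr, hes, D, 𝒟, hstd, hsurj, hdesc, htr⟩ := h
  haveI := hfld
  exact helper41.eigen1At_of_packA M hℓ (helper3.x1PackA_of_inputs
    (fun x _ => helper1.continuity1 M x) (helper21.fin1_of M ℓ hℓ.pos 𝒟 hdesc)
    (helper41.unr_of_unr1 hunr) (helper41.es_of_es1 hes)
    (helper21.genKappa1_final M ℓ hℓ.pos D 𝒟 hstd hsurj hdesc htr))

/-- the light contract of block (I) from the statements `Eigen1At M ℓ` at the levels used -/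
theorem eigen1L_of_at
    (h : ∀ (M : ℕ) [NeZero M], (4 ∣ M ∨ 9 ∣ M) → ∀ ℓ : ℕ, ℓ.Prime → ℓ ≠ 2 → ℓ ∣ M → 12 ≤ M →
      helper41.Eigen1At M ℓ) :
    helper32.Eigen1StatementL := by
  intro M hM hlev ℓ hℓ hℓ2 hℓM h12 k iF iC iA r g χ x c b hx hc hne hχ hE
  haveI := hM
  exact h M hlev ℓ hℓ hℓ2 hℓM h12 k iF iC iA r g χ x c b hx hc hne hχ hE

/-- **The light contract of block (I) from the leaves at the levels used.** -/
theorem eigen1L_of_leaves
    (h : ∀ (M : ℕ) [NeZero M], (4 ∣ M ∨ 9 ∣ M) → ∀ ℓ : ℕ, ℓ.Prime → ℓ ≠ 2 → ℓ ∣ M → 12 ≤ M →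
      helper41.Leaves1 M ℓ) :
    helper32.Eigen1StatementL :=
  eigen1L_of_at fun M _ hlev ℓ hℓ hℓ2 hℓM h12 =>
    eigen1At_of_leaves M ℓ hℓ (h M hlev ℓ hℓ hℓ2 hℓM h12)

/-- **The frozen S48 shape from the leaves of block (I) at the levels used.** -/
theorem s48_of_leavesL
    (h : ∀ (M : ℕ) [NeZero M], (4 ∣ M ∨ 9 ∣ M) → ∀ ℓ : ℕ, ℓ.Prime → ℓ ≠ 2 → ℓ ∣ M → 12 ≤ M →
      helper41.Leaves1 M ℓ)
    (N : ℕ) [NeZero N] (ε : DirichletCharacter ℂ N) (f : CuspForm (Gamma1 N) 1)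
    (hf₁ : ModularFormClass.qCoeff f 1 = 1)
    (hT : ∀ p : ℕ, p.Prime → ¬ p ∣ N → ∀ n : ℕ,
        ModularFormClass.qCoeff f (p * n) +
            ε (p : ZMod N) * (if p ∣ n then ModularFormClass.qCoeff f (n / p) else 0) =
          ModularFormClass.qCoeff f p * ModularFormClass.qCoeff f n) :
    ∃ ρ : (AlgebraicClosure ℚ ≃ₐ[ℚ] AlgebraicClosure ℚ) →* GL (Fin 2) ℂ,
      GaloisFactorsThroughFiniteLevel ρ ∧
      (Deformation.matrixRepresentation ρ).IsIrreducible ∧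
      ∀ p : ℕ, p.Prime → ¬ p ∣ N →
        ∀ A : ValuationSubring (AlgebraicClosure ℚ), A.LiesOverPrime p →
          (∀ σ ∈ A.inertiaSubgroupIn ℚ, ρ σ = 1) ∧
          ∀ σ : (AlgebraicClosure ℚ ≃ₐ[ℚ] AlgebraicClosure ℚ), A.IsFrobeniusAt σ p →
            ((ρ σ : GL (Fin 2) ℂ) : Matrix (Fin 2) (Fin 2) ℂ).trace =
                ModularFormClass.qCoeff f p ∧
            ((ρ σ : GL (Fin 2) ℂ) : Matrix (Fin 2) (Fin 2) ℂ).det = ε (p : ZMod N) :=
  helper30.s48_of_eigen1L_div (eigen1L_of_leaves h) N ε f hf₁ hT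

end Fermat.Agent.T4.helper68
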