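import Mathlib

/-!
# T4 block (II), [T4-CHEB-DIRCORE] (helper69): abstract Dirichlet density from `L`-values

Mathlib only.  An abstract "system of primes" is an index type `ι` with norms `n i ≥ 2` and
classes `c i : H` in a finite set `H`, such that `∑ (n i) ^ (-s)` converges for `s > 1`.
A "system of characters" is a finite family of functions `ev x : H → ℂ` of absolute value `1`
with the orthogonality relations, containing the trivial character `x₀`.

Inputs (for `1 < s ≤ 2`):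
* `(U)`   `|∑ᵢ (n i) ^ (-s) - log (1 / (s - 1))| ≤ C`;
* `(L)`   `(1 / #X) log (1 / (s - 1)) - C ≤ ∑_{c i = e} (n i) ^ (-s)` for the unit class `e`;
* `(Lip)` for `x ≠ x₀` the Euler product `LP x s = ∏ᵢ (1 - ev x (c i) (n i) ^ (-s))⁻¹` satisfies
  `‖LP x s - ℓ‖ ≤ C (s - 1)`.

Outputs: `ℓ ≠ 0` (`limit_ne_zero`) and, for every class `b`,
`|∑_{c i = b} (n i) ^ (-s) - (1 / #X) log (1 / (s - 1))| ≤ C'` (`cls_sub_log_le`).
-/

set_option autoImplicit false

open Filter Topology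

noncomputable section

namespace Fermat.Agent.T4.helper69

/-- An abstract system of primes: norms `n i ≥ 2`, classes `c i`, convergence for `s > 1`. -/
structure PrimeSys (ι H : Type*) where
  n : ι → ℝ
  c : ι → H
  two_le : ∀ i, 2 ≤ n i
  summable : ∀ s : ℝ, 1 < s → Summable fun i => (n i) ^ (-s)

/-- An abstract system of characters on the set of classes `H`. -/
structure CharSys (H X : Type*) [Fintype X] where
  ev : X → H → ℂ
  e : H
  x₀ : X
  norm_ev : ∀ x h, ‖ev x h‖ = 1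
  ev_x₀ : ∀ h, ev x₀ h = 1
  ev_e : ∀ x, ev x e = 1
  orth : ∀ a b : H, a ≠ b → ∑ x, (starRingEnd ℂ) (ev x b) * ev x a = 0

namespace PrimeSys

variable {ι H : Type*} (P : PrimeSys ι H)

/-- the weight `(n i) ^ (-s)` -/
def w (s : ℝ) (i : ι) : ℝ := (P.n i) ^ (-s)

lemma n_pos (i : ι) : 0 < P.n i := lt_of_lt_of_le two_pos (P.two_le i)

lemma w_pos (s : ℝ) (i : ι) : 0 < P.w s i := Real.rpow_pos_of_pos (P.n_pos i) _

lemma w_nonneg (s : ℝ) (i : ι) : 0 ≤ P.w s i := (P.w_pos s i).le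

lemma w_anti {s t : ℝ} (hst : s ≤ t) (i : ι) : P.w t i ≤ P.w s i := by
  unfold w
  apply Real.rpow_le_rpow_of_exponent_le
  · linarith [P.two_le i]
  · linarith

lemma w_one (i : ι) : P.w 1 i ≤ 1 / 2 := by
  unfold w
  rw [Real.rpow_neg_one, inv_eq_one_div]
  apply one_div_le_one_div_of_le two_pos (P.two_le i)

lemma w_le_half {s : ℝ} (hs : 1 ≤ s) (i : ι) : P.w s i ≤ 1 / 2 :=
  (P.w_anti hs i).trans (P.w_one i)

lemma w_mul (s t : ℝ) (i : ι) : P.w s i * P.w t i = P.w (s + t) i := by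
  unfold w
  rw [← Real.rpow_add (P.n_pos i)]
  congr 1
  ring

lemma summable_w {s : ℝ} (hs : 1 < s) : Summable (P.w s) := P.summable s hs

/-- the total prime zeta sum -/
def tot (s : ℝ) : ℝ := ∑' i, P.w s i

/-- the prime zeta sum of the class `b` -/
def cls (b : H) (s : ℝ) : ℝ := ∑' i, Set.indicator {i | P.c i = b} (P.w s) i

lemma summable_cls (b : H) {s : ℝ} (hs : 1 < s) :
    Summable (Set.indicator {i | P.c i = b} (P.w s)) :=
  (P.summable_w hs).indicator _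

lemma cls_nonneg (b : H) (s : ℝ) : 0 ≤ P.cls b s :=
  tsum_nonneg fun i => Set.indicator_nonneg (fun j _ => P.w_nonneg s j) i

lemma cls_le_tot (b : H) {s : ℝ} (hs : 1 < s) : P.cls b s ≤ P.tot s :=
  (P.summable_cls b hs).tsum_le_tsum
    (fun i => Set.indicator_le_self' (fun j _ => P.w_nonneg s j) i) (P.summable_w hs)

lemma tot_nonneg (s : ℝ) : 0 ≤ P.tot s := tsum_nonneg fun i => P.w_nonneg s i

lemma tot_anti {s t : ℝ} (hs : 1 < s) (hst : s ≤ t) : P.tot t ≤ P.tot s :=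
  (P.summable_w (lt_of_lt_of_le hs hst)).tsum_le_tsum (fun i => P.w_anti hst i) (P.summable_w hs)

/-- the constant `∑ (n i) ^ (-2)` -/
def c₀ : ℝ := P.tot 2

lemma c₀_nonneg : 0 ≤ P.c₀ := P.tot_nonneg 2

lemma w_sq_le {s : ℝ} (hs : 1 ≤ s) (i : ι) : P.w s i ^ 2 ≤ P.w 2 i := by
  rw [sq, P.w_mul]
  exact P.w_anti (by linarith) i

end PrimeSys

namespace CharSys

variable {H X : Type*} [Fintype X] (Q : CharSys H X)

lemma conj_mul_self (x : X) (h : H) : (starRingEnd ℂ) (Q.ev x h) * Q.ev x h = 1 := by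
  rw [mul_comm, Complex.mul_conj, Complex.normSq_eq_norm_sq, Q.norm_ev]
  simp

lemma orth_self (b : H) : ∑ x, (starRingEnd ℂ) (Q.ev x b) * Q.ev x b = (Fintype.card X : ℂ) := by
  simp [Q.conj_mul_self]

lemma sum_ev_e_ne {a : H} (ha : a ≠ Q.e) : ∑ x, Q.ev x a = 0 := by
  have h := Q.orth a Q.e ha
  simpa [Q.ev_e] using h

include Q in
lemma card_pos : 0 < Fintype.card X := Fintype.card_pos_iff.mpr ⟨Q.x₀⟩

end CharSys

/-! ## The series attached to a character -/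

section Series

variable {ι H X : Type*} [Fintype X] (P : PrimeSys ι H) (Q : CharSys H X)

/-- the term `ev x (c i) * (n i) ^ (-s)` -/
def zt (x : X) (s : ℝ) (i : ι) : ℂ := Q.ev x (P.c i) * ((P.w s i : ℝ) : ℂ)

lemma norm_zt (x : X) (s : ℝ) (i : ι) : ‖zt P Q x s i‖ = P.w s i := by
  unfold zt
  rw [norm_mul, Q.norm_ev, one_mul, Complex.norm_real, Real.norm_of_nonneg (P.w_nonneg s i)]

lemma summable_zt {s : ℝ} (hs : 1 < s) (x : X) : Summable (zt P Q x s) := by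
  apply Summable.of_norm
  simp_rw [norm_zt]
  exact P.summable_w hs

/-- the prime sum `∑ ev x (c i) (n i) ^ (-s)` -/
def Lam (x : X) (s : ℝ) : ℂ := ∑' i, zt P Q x s i

/-- the logarithm of the Euler factor -/
def lg (x : X) (s : ℝ) (i : ι) : ℂ := Complex.log (1 - zt P Q x s i)⁻¹

lemma norm_lg_sub_le {s : ℝ} (hs : 1 ≤ s) (x : X) (i : ι) :
    ‖lg P Q x s i - zt P Q x s i‖ ≤ P.w 2 i := by
  have hz : ‖zt P Q x s i‖ ≤ 1 / 2 := by rw [norm_zt]; exact P.w_le_half hs i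
  have hz1 : ‖zt P Q x s i‖ < 1 := by linarith
  have h1 := Complex.norm_log_one_sub_inv_sub_self_le hz1
  have h2 : (1 - ‖zt P Q x s i‖)⁻¹ ≤ 2 := by
    rw [inv_le_comm₀ (by linarith) two_pos]; linarith
  calc ‖lg P Q x s i - zt P Q x s i‖
      ≤ ‖zt P Q x s i‖ ^ 2 * (1 - ‖zt P Q x s i‖)⁻¹ / 2 := h1
    _ ≤ ‖zt P Q x s i‖ ^ 2 * 2 / 2 := by gcongr
    _ = P.w s i ^ 2 := by rw [norm_zt]; ring
    _ ≤ P.w 2 i := P.w_sq_le hs i

lemma summable_lg_sub {s : ℝ} (hs : 1 ≤ s) (x : X) :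
    Summable fun i => lg P Q x s i - zt P Q x s i :=
  Summable.of_norm_bounded (P.summable_w one_lt_two) (fun i => norm_lg_sub_le P Q hs x i)

lemma summable_lg {s : ℝ} (hs : 1 < s) (x : X) : Summable (lg P Q x s) := by
  have := (summable_lg_sub P Q hs.le x).add (summable_zt P Q hs x)
  simpa using this

/-- the logarithm of the Euler product, as a series -/
def G (x : X) (s : ℝ) : ℂ := ∑' i, lg P Q x s i

lemma norm_G_sub_Lam_le {s : ℝ} (hs : 1 < s) (x : X) : ‖G P Q x s - Lam P Q x s‖ ≤ P.c₀ := by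
  unfold G Lam
  rw [← (summable_lg P Q hs x).tsum_sub (summable_zt P Q hs x)]
  exact tsum_of_norm_bounded (P.summable_w one_lt_two).hasSum
    (fun i => norm_lg_sub_le P Q hs.le x i)

/-- the Euler product -/
def LP (x : X) (s : ℝ) : ℂ := ∏' i, (1 - zt P Q x s i)⁻¹

lemma one_sub_zt_ne_zero {s : ℝ} (hs : 1 ≤ s) (x : X) (i : ι) : 1 - zt P Q x s i ≠ 0 := by
  intro h
  have h0 : zt P Q x s i = 1 := by linear_combination -h
  have h1 : ‖zt P Q x s i‖ = 1 := by rw [h0, norm_one]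
  rw [norm_zt] at h1
  linarith [P.w_le_half hs i]

lemma hasProd_LP {s : ℝ} (hs : 1 < s) (x : X) :
    HasProd (fun i => (1 - zt P Q x s i)⁻¹) (Complex.exp (G P Q x s)) :=
  Complex.hasProd_of_hasSum_log (fun i => inv_ne_zero (one_sub_zt_ne_zero P Q hs.le x i))
    (summable_lg P Q hs x).hasSum

lemma exp_G {s : ℝ} (hs : 1 < s) (x : X) : Complex.exp (G P Q x s) = LP P Q x s :=
  (hasProd_LP P Q hs x).tprod_eq.symm

lemma norm_LP {s : ℝ} (hs : 1 < s) (x : X) : ‖LP P Q x s‖ = Real.exp (G P Q x s).re := by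
  rw [← exp_G P Q hs x, Complex.norm_exp]

/-- orthogonality: `∑ₓ conj (ev x b) Lam x s = #X * cls b s` -/
lemma sum_conj_mul_Lam {s : ℝ} (hs : 1 < s) (b : H) :
    ∑ x, (starRingEnd ℂ) (Q.ev x b) * Lam P Q x s =
      (Fintype.card X : ℂ) * ((P.cls b s : ℝ) : ℂ) := by
  classical
  unfold Lam
  simp_rw [← tsum_mul_left]
  rw [← Summable.tsum_finsetSum (fun x _ => (summable_zt P Q hs x).mul_left _)]
  unfold PrimeSys.cls
  rw [Complex.ofReal_tsum, ← tsum_mul_left]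
  congr 1
  funext i
  unfold zt
  simp_rw [← mul_assoc]
  rw [← Finset.sum_mul]
  by_cases hb : P.c i = b
  · rw [hb, Q.orth_self, Set.indicator_of_mem (by exact hb)]
  · rw [Q.orth _ _ hb, Set.indicator_of_notMem (by exact hb)]
    simp

lemma sum_Lam {s : ℝ} (hs : 1 < s) :
    ∑ x, Lam P Q x s = (Fintype.card X : ℂ) * ((P.cls Q.e s : ℝ) : ℂ) := by
  rw [← sum_conj_mul_Lam P Q hs Q.e]
  simp [Q.ev_e]

lemma norm_Lam_le {s : ℝ} (hs : 1 < s) (x : X) : ‖Lam P Q x s‖ ≤ P.tot s :=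
  tsum_of_norm_bounded (P.summable_w hs).hasSum (fun i => (norm_zt P Q x s i).le)

lemma Lam_x₀ (s : ℝ) : Lam P Q Q.x₀ s = ((P.tot s : ℝ) : ℂ) := by
  unfold Lam PrimeSys.tot zt
  rw [Complex.ofReal_tsum]
  simp [Q.ev_x₀]

lemma sum_re_G_ge {s : ℝ} (hs : 1 < s) :
    (Fintype.card X : ℝ) * P.cls Q.e s - Fintype.card X * P.c₀ ≤ ∑ x, (G P Q x s).re := by
  have h1 : ∀ x, (Lam P Q x s).re - P.c₀ ≤ (G P Q x s).re := fun x => by
    have h2 := (Complex.abs_re_le_norm (G P Q x s - Lam P Q x s)).trans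
      (norm_G_sub_Lam_le P Q hs x)
    rw [Complex.sub_re] at h2
    linarith [(abs_le.mp h2).1]
  have h3 : ∑ x, (Lam P Q x s).re = Fintype.card X * P.cls Q.e s := by
    have := congrArg Complex.re (sum_Lam P Q hs)
    rw [Complex.re_sum] at this
    rw [this, ← Complex.ofReal_natCast, ← Complex.ofReal_mul, Complex.ofReal_re]
  calc (Fintype.card X : ℝ) * P.cls Q.e s - Fintype.card X * P.c₀
      = ∑ x, ((Lam P Q x s).re - P.c₀) := by
        rw [Finset.sum_sub_distrib, h3]; simp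
    _ ≤ ∑ x, (G P Q x s).re := Finset.sum_le_sum fun x _ => h1 x

lemma prod_norm_LP_ge {s : ℝ} (hs : 1 < s) :
    Real.exp ((Fintype.card X : ℝ) * P.cls Q.e s - Fintype.card X * P.c₀) ≤
      ∏ x, ‖LP P Q x s‖ := by
  simp_rw [norm_LP P Q hs]
  rw [← Real.exp_sum]
  exact Real.exp_le_exp.mpr (sum_re_G_ge P Q hs)

lemma norm_G_le {s : ℝ} (hs : 1 < s) (x : X) : ‖G P Q x s‖ ≤ P.tot s + P.c₀ := by
  have h1 := norm_G_sub_Lam_le P Q hs x
  have h2 := norm_Lam_le P Q hs x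
  have h4 : ‖G P Q x s‖ ≤ ‖G P Q x s - Lam P Q x s‖ + ‖Lam P Q x s‖ := by
    have := norm_add_le (G P Q x s - Lam P Q x s) (Lam P Q x s)
    simpa using this
  linarith

lemma norm_Lam_le_G {s : ℝ} (hs : 1 < s) (x : X) : ‖Lam P Q x s‖ ≤ ‖G P Q x s‖ + P.c₀ := by
  have h1 := norm_G_sub_Lam_le P Q hs x
  have h4 : ‖Lam P Q x s‖ ≤ ‖G P Q x s - Lam P Q x s‖ + ‖G P Q x s‖ := by
    have := norm_sub_le (G P Q x s) (G P Q x s - Lam P Q x s)
    simpa [add_comm] using this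
  linarith

lemma norm_LP_le {s : ℝ} (hs : 1 < s) (x : X) :
    ‖LP P Q x s‖ ≤ Real.exp (P.tot s + P.c₀) := by
  rw [norm_LP P Q hs]
  exact Real.exp_le_exp.mpr ((Complex.re_le_norm _).trans (norm_G_le P Q hs x))

lemma LP_ne_zero {s : ℝ} (hs : 1 < s) (x : X) : LP P Q x s ≠ 0 := by
  rw [← exp_G P Q hs x]
  exact Complex.exp_ne_zero _

end Series

/-! ## The hypotheses -/

section Hyp

variable {ι H X : Type*} [Fintype X] (P : PrimeSys ι H) (Q : CharSys H X)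

/-- **(U)** the total prime zeta sum is `log (1 / (s - 1)) + O(1)`. -/
def HypU : Prop :=
  ∃ C : ℝ, ∀ s : ℝ, 1 < s → s ≤ 2 → |P.tot s - Real.log (1 / (s - 1))| ≤ C

/-- **(L)** lower bound for the unit class. -/
def HypL : Prop :=
  ∃ C : ℝ, ∀ s : ℝ, 1 < s → s ≤ 2 →
    (1 / (Fintype.card X : ℝ)) * Real.log (1 / (s - 1)) - C ≤ P.cls Q.e s

/-- **(Lip)** the Euler product of `x` is Lipschitz at `1+` with limit `ℓ`. -/
def HypLip (x : X) (ℓ : ℂ) : Prop :=
  ∃ C : ℝ, ∀ s : ℝ, 1 < s → s ≤ 2 → ‖LP P Q x s - ℓ‖ ≤ C * (s - 1)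

end Hyp

end Fermat.Agent.T4.helper69
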