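import Fermat.Agent.T4.helper69_DirCore

/-!
# T4 block (II), [T4-CHEB-DIRCORE] part 2 (helper69): non-vanishing of the limits `L(1, χ)`

`limit_ne_zero`: under `(U)`, `(L)` and `(Lip)` for all `x ≠ x₀`, every limit `ℓ x` is nonzero.
-/

set_option autoImplicit false

open Filter Topology

noncomputable section

namespace Fermat.Agent.T4.helper69

variable {ι H X : Type*} [Fintype X] (P : PrimeSys ι H) (Q : CharSys H X)

/-- upper bound for the Euler product of the trivial character -/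
lemma norm_LP_x₀_le {CU : ℝ}
    (hCU : ∀ s : ℝ, 1 < s → s ≤ 2 → |P.tot s - Real.log (1 / (s - 1))| ≤ CU)
    {s : ℝ} (hs : 1 < s) (hs2 : s ≤ 2) :
    ‖LP P Q Q.x₀ s‖ ≤ Real.exp (CU + P.c₀) / (s - 1) := by
  have hs0 : 0 < s - 1 := by linarith
  have h1 := norm_LP_le P Q hs Q.x₀
  have h2 := (abs_le.mp (hCU s hs hs2)).2
  have h3 : Real.exp (P.tot s + P.c₀) ≤ Real.exp (Real.log (1 / (s - 1)) + (CU + P.c₀)) :=
    Real.exp_le_exp.mpr (by linarith)
  have e1 : Real.exp (Real.log (1 / (s - 1)) + (CU + P.c₀)) =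
      1 / (s - 1) * Real.exp (CU + P.c₀) := by
    rw [Real.exp_add, Real.exp_log (by positivity)]
  rw [e1] at h3
  calc ‖LP P Q Q.x₀ s‖ ≤ Real.exp (P.tot s + P.c₀) := h1
    _ ≤ 1 / (s - 1) * Real.exp (CU + P.c₀) := h3
    _ = Real.exp (CU + P.c₀) / (s - 1) := by ring

/-- lower bound for the product of all Euler products -/
lemma prod_norm_LP_ge' {CL : ℝ}
    (hCL : ∀ s : ℝ, 1 < s → s ≤ 2 →
      (1 / (Fintype.card X : ℝ)) * Real.log (1 / (s - 1)) - CL ≤ P.cls Q.e s)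
    {s : ℝ} (hs : 1 < s) (hs2 : s ≤ 2) :
    Real.exp (-(Fintype.card X * (CL + P.c₀))) / (s - 1) ≤ ∏ x, ‖LP P Q x s‖ := by
  refine le_trans ?_ (prod_norm_LP_ge P Q hs)
  have hs0 : 0 < s - 1 := by linarith
  have hc : (0 : ℝ) < Fintype.card X := by exact_mod_cast Q.card_pos
  have h1 := hCL s hs hs2
  have h2 : Real.log (1 / (s - 1)) - Fintype.card X * (CL + P.c₀) ≤
      Fintype.card X * P.cls Q.e s - Fintype.card X * P.c₀ := by
    have h3 := mul_le_mul_of_nonneg_left h1 hc.le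
    have h4 : (Fintype.card X : ℝ) * ((1 / (Fintype.card X : ℝ)) * Real.log (1 / (s - 1)) - CL)
        = Real.log (1 / (s - 1)) - Fintype.card X * CL := by
      field_simp
    rw [h4] at h3
    linarith
  calc Real.exp (-(Fintype.card X * (CL + P.c₀))) / (s - 1)
      = Real.exp (Real.log (1 / (s - 1)) - Fintype.card X * (CL + P.c₀)) := by
        rw [Real.exp_sub, Real.exp_log (by positivity), Real.exp_neg]
        field_simp
    _ ≤ Real.exp (Fintype.card X * P.cls Q.e s - Fintype.card X * P.c₀) :=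
        Real.exp_le_exp.mpr h2

/-- **Non-vanishing**: under `(U)`, `(L)`, `(Lip)` the limits `ℓ x`, `x ≠ x₀`, are nonzero. -/
theorem limit_ne_zero (hU : HypU P) (hL : HypL P Q) (ℓ : X → ℂ)
    (hLip : ∀ x, x ≠ Q.x₀ → HypLip P Q x (ℓ x)) (x₁ : X) (hx₁ : x₁ ≠ Q.x₀) : ℓ x₁ ≠ 0 := by
  classical
  intro h0
  obtain ⟨CU, hCU⟩ := hU
  obtain ⟨CL, hCL⟩ := hL
  choose Cx hCx using hLip
  let B : X → ℝ := fun x => if h : x ≠ Q.x₀ then ‖ℓ x‖ + |Cx x h| else 1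
  have hB0 : ∀ x, 0 ≤ B x := by
    intro x
    by_cases h : x ≠ Q.x₀
    · simp only [B, dif_pos h]; positivity
    · simp only [B, dif_neg h]; norm_num
  have hB : ∀ x (h : x ≠ Q.x₀) (s : ℝ), 1 < s → s ≤ 2 → ‖LP P Q x s‖ ≤ B x := by
    intro x h s hs hs2
    have h1 := hCx x h s hs hs2
    have h2 : ‖LP P Q x s‖ ≤ ‖LP P Q x s - ℓ x‖ + ‖ℓ x‖ := by
      simpa using norm_add_le (LP P Q x s - ℓ x) (ℓ x)
    have hs0 : 0 ≤ s - 1 := by linarith
    have h3 : Cx x h * (s - 1) ≤ |Cx x h| := by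
      calc Cx x h * (s - 1) ≤ |Cx x h| * (s - 1) :=
            mul_le_mul_of_nonneg_right (le_abs_self _) hs0
        _ ≤ |Cx x h| * 1 := mul_le_mul_of_nonneg_left (by linarith) (abs_nonneg _)
        _ = |Cx x h| := mul_one _
    simp only [B, dif_pos h]
    linarith
  have hx1 : ∀ s : ℝ, 1 < s → s ≤ 2 → ‖LP P Q x₁ s‖ ≤ |Cx x₁ hx₁| * (s - 1) := by
    intro s hs hs2
    have h1 := hCx x₁ hx₁ s hs hs2
    rw [h0, sub_zero] at h1
    exact h1.trans (mul_le_mul_of_nonneg_right (le_abs_self _) (by linarith))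
  set R := (Finset.univ.erase Q.x₀).erase x₁ with hR
  have hsplit : ∀ s : ℝ, ∏ x, ‖LP P Q x s‖ =
      ‖LP P Q Q.x₀ s‖ * (‖LP P Q x₁ s‖ * ∏ x ∈ R, ‖LP P Q x s‖) := by
    intro s
    rw [← Finset.mul_prod_erase Finset.univ _ (Finset.mem_univ Q.x₀),
      ← Finset.mul_prod_erase (Finset.univ.erase Q.x₀) _
        (Finset.mem_erase.mpr ⟨hx₁, Finset.mem_univ _⟩)]
  have hRle : ∀ s : ℝ, 1 < s → s ≤ 2 → ∏ x ∈ R, ‖LP P Q x s‖ ≤ ∏ x ∈ R, B x := by
    intro s hs hs2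
    apply Finset.prod_le_prod (fun x _ => norm_nonneg _)
    intro x hx
    have hx' : x ≠ Q.x₀ := (Finset.mem_erase.mp (Finset.mem_erase.mp hx).2).1
    exact hB x hx' s hs hs2
  set BR := ∏ x ∈ R, B x with hBR
  have hBR0 : 0 ≤ BR := Finset.prod_nonneg fun x _ => hB0 x
  have hup : ∀ s : ℝ, 1 < s → s ≤ 2 →
      ∏ x, ‖LP P Q x s‖ ≤ Real.exp (CU + P.c₀) * |Cx x₁ hx₁| * BR := by
    intro s hs hs2
    rw [hsplit]
    have hs0 : 0 < s - 1 := by linarith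
    have hA := norm_LP_x₀_le P Q hCU hs hs2
    have h1 := hx1 s hs hs2
    have h2 := hRle s hs hs2
    have hP0 : 0 ≤ ∏ x ∈ R, ‖LP P Q x s‖ := Finset.prod_nonneg fun x _ => norm_nonneg _
    have h3 : ‖LP P Q x₁ s‖ * ∏ x ∈ R, ‖LP P Q x s‖ ≤ |Cx x₁ hx₁| * (s - 1) * BR :=
      mul_le_mul h1 h2 hP0 (by positivity)
    have h4 : ‖LP P Q Q.x₀ s‖ * (‖LP P Q x₁ s‖ * ∏ x ∈ R, ‖LP P Q x s‖) ≤
        Real.exp (CU + P.c₀) / (s - 1) * (|Cx x₁ hx₁| * (s - 1) * BR) :=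
      mul_le_mul hA h3 (by positivity) (by positivity)
    calc ‖LP P Q Q.x₀ s‖ * (‖LP P Q x₁ s‖ * ∏ x ∈ R, ‖LP P Q x s‖)
        ≤ Real.exp (CU + P.c₀) / (s - 1) * (|Cx x₁ hx₁| * (s - 1) * BR) := h4
      _ = Real.exp (CU + P.c₀) * |Cx x₁ hx₁| * BR := by field_simp
  set κ := Real.exp (-(Fintype.card X * (CL + P.c₀))) with hκdef
  set M := Real.exp (CU + P.c₀) * |Cx x₁ hx₁| * BR with hMdef
  have hκ : 0 < κ := Real.exp_pos _
  have hM : 0 ≤ M := by positivity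
  have ht0 : 0 < κ / (M + 1 + κ) := by positivity
  have ht1 : κ / (M + 1 + κ) ≤ 1 := by
    rw [div_le_one (by positivity)]; linarith
  have h5 := (prod_norm_LP_ge' P Q hCL (s := 1 + κ / (M + 1 + κ)) (by linarith)
    (by linarith)).trans (hup (1 + κ / (M + 1 + κ)) (by linarith) (by linarith))
  have e : κ / (1 + κ / (M + 1 + κ) - 1) = M + 1 + κ := by
    rw [add_sub_cancel_left]
    field_simp
  rw [e] at h5
  linarith

end Fermat.Agent.T4.helper69
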