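import Fermat.Agent.T4.helper69_DirCore2

/-!
# T4 block (II), [T4-CHEB-DIRCORE] part 3 (helper69): boundedness of `log L(s, χ)` and density

* `continuousOn_G` : the series `G x s = ∑ᵢ log (1 - ev x (c i) (n i) ^ (-s))⁻¹` is continuous
  on `s > 1`;
* `norm_G_le_near_one` : if `LP x s → ℓ ≠ 0` Lipschitz at `1+`, then `G x` is bounded near `1`
  (the continuous logarithm stays on one branch);
* `norm_Lam_le_of_lip` : then the prime sum `Lam x s` is bounded on `(1, 2]`;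
* `cls_sub_log_le` : **Dirichlet density** for every class `b`.
-/

set_option autoImplicit false

open Filter Topology

noncomputable section

namespace Fermat.Agent.T4.helper69

variable {ι H X : Type*} [Fintype X] (P : PrimeSys ι H) (Q : CharSys H X)

/-! ## Continuity -/

lemma continuous_w (i : ι) : Continuous fun s : ℝ => P.w s i := by
  unfold PrimeSys.w
  exact (Real.continuous_const_rpow (P.n_pos i).ne').comp continuous_neg

lemma continuous_zt (x : X) (i : ι) : Continuous fun s : ℝ => zt P Q x s i := by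
  unfold zt
  exact continuous_const.mul (Complex.continuous_ofReal.comp (continuous_w P i))

lemma one_sub_zt_mem_slitPlane {s : ℝ} (hs : 1 ≤ s) (x : X) (i : ι) :
    1 - zt P Q x s i ∈ Complex.slitPlane := by
  rw [sub_eq_add_neg]
  apply Complex.mem_slitPlane_of_norm_lt_one
  rw [norm_neg, norm_zt]
  linarith [P.w_le_half hs i]

lemma lg_eq_neg_log {s : ℝ} (hs : 1 ≤ s) (x : X) (i : ι) :
    lg P Q x s i = - Complex.log (1 - zt P Q x s i) := by
  unfold lg
  exact Complex.log_inv _ (Complex.slitPlane_arg_ne_pi (one_sub_zt_mem_slitPlane P Q hs x i))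

lemma continuousOn_lg (x : X) (i : ι) : ContinuousOn (fun s : ℝ => lg P Q x s i) (Set.Ici 1) := by
  have h1 : ContinuousOn (fun s : ℝ => - Complex.log (1 - zt P Q x s i)) (Set.Ici 1) := by
    apply ContinuousOn.neg
    apply ContinuousOn.clog
    · exact (continuous_const.sub (continuous_zt P Q x i)).continuousOn
    · intro s hs
      exact one_sub_zt_mem_slitPlane P Q hs x i
  refine h1.congr ?_
  intro s hs
  exact lg_eq_neg_log P Q hs x i

lemma norm_lg_le {s : ℝ} (hs : 1 ≤ s) (x : X) (i : ι) :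
    ‖lg P Q x s i‖ ≤ P.w 2 i + P.w s i := by
  have h1 := norm_lg_sub_le P Q hs x i
  have h2 : ‖lg P Q x s i‖ ≤ ‖lg P Q x s i - zt P Q x s i‖ + ‖zt P Q x s i‖ := by
    simpa using norm_add_le (lg P Q x s i - zt P Q x s i) (zt P Q x s i)
  rw [norm_zt] at h2
  linarith

lemma continuousOn_G_Ici (x : X) {δ : ℝ} (hδ : 0 < δ) :
    ContinuousOn (fun s : ℝ => G P Q x s) (Set.Ici (1 + δ)) := by
  unfold G
  refine continuousOn_tsum (u := fun i => P.w 2 i + P.w (1 + δ) i) ?_ ?_ ?_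
  · intro i
    exact (continuousOn_lg P Q x i).mono (Set.Ici_subset_Ici.mpr (by linarith))
  · exact (P.summable_w one_lt_two).add (P.summable_w (by linarith))
  · intro i s hs
    have hs' : 1 + δ ≤ s := hs
    have h1 := norm_lg_le P Q (s := s) (by linarith) x i
    have h2 := P.w_anti hs' i
    linarith

theorem continuousOn_G (x : X) : ContinuousOn (fun s : ℝ => G P Q x s) (Set.Ioi 1) := by
  intro s hs
  have hs' : (1 : ℝ) < s := hs
  have h1 := continuousOn_G_Ici P Q x (δ := (s - 1) / 2) (by linarith)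
  have h2 : Set.Ici (1 + (s - 1) / 2) ∈ 𝓝 s := Ici_mem_nhds (by linarith)
  exact (h1.continuousAt h2).continuousWithinAt

/-! ## The branch argument -/

/-- If the Euler product tends to `ℓ ≠ 0` (Lipschitz at `1+`), its logarithm `G x` is bounded
near `1`. -/
theorem norm_G_le_near_one (x : X) (ℓ : ℂ) (hℓ : ℓ ≠ 0) (hLip : HypLip P Q x ℓ) :
    ∃ δ : ℝ, 0 < δ ∧ δ ≤ 1 ∧ ∃ B : ℝ, ∀ s : ℝ, 1 < s → s ≤ 1 + δ → ‖G P Q x s‖ ≤ B := by
  obtain ⟨C, hC⟩ := hLip
  have hℓn : 0 < ‖ℓ‖ := norm_pos_iff.mpr hℓ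
  set δ : ℝ := min 1 (‖ℓ‖ / (2 * (|C| + 1))) with hδdef
  have hC1 : 0 < |C| + 1 := by positivity
  have hδ0 : 0 < δ := lt_min one_pos (by positivity)
  have hδ1 : δ ≤ 1 := min_le_left _ _
  have hδ2 : δ ≤ ‖ℓ‖ / (2 * (|C| + 1)) := min_le_right _ _
  -- closeness of `LP` to `ℓ`
  have hclose : ∀ s : ℝ, 1 < s → s ≤ 1 + δ → ‖LP P Q x s - ℓ‖ ≤ ‖ℓ‖ / 2 := by
    intro s hs hs2
    have h1 := hC s hs (by linarith)
    have h2 : C * (s - 1) ≤ |C| * δ :=
      (mul_le_mul_of_nonneg_right (le_abs_self C) (by linarith)).trans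
        (mul_le_mul_of_nonneg_left (by linarith) (abs_nonneg C))
    have h3 : |C| * δ ≤ |C| * (‖ℓ‖ / (2 * (|C| + 1))) :=
      mul_le_mul_of_nonneg_left hδ2 (abs_nonneg C)
    have h4 : |C| * (‖ℓ‖ / (2 * (|C| + 1))) ≤ ‖ℓ‖ / 2 := by
      rw [show |C| * (‖ℓ‖ / (2 * (|C| + 1))) = (‖ℓ‖ / 2) * (|C| / (|C| + 1)) by field_simp]
      have h5 : |C| / (|C| + 1) ≤ 1 := by
        rw [div_le_one hC1]; linarith
      calc (‖ℓ‖ / 2) * (|C| / (|C| + 1)) ≤ (‖ℓ‖ / 2) * 1 :=
            mul_le_mul_of_nonneg_left h5 (by positivity)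
        _ = ‖ℓ‖ / 2 := mul_one _
    linarith
  -- the auxiliary function
  set u : ℝ → ℂ := fun s => Complex.exp (G P Q x s) / ℓ - 1 with hu
  have hunorm : ∀ s : ℝ, 1 < s → s ≤ 1 + δ → ‖u s‖ ≤ 1 / 2 := by
    intro s hs hs2
    have h1 := hclose s hs hs2
    have e : u s = (LP P Q x s - ℓ) / ℓ := by
      simp only [hu, exp_G P Q hs x]
      field_simp
    rw [e, norm_div, div_le_iff₀ hℓn]
    linarith
  set F : ℝ → ℂ := fun s => G P Q x s - Complex.log ℓ - Complex.log (1 + u s) with hF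
  have hJ : IsPreconnected (Set.Ioc (1 : ℝ) (1 + δ)) := isPreconnected_Ioc
  have hsub : Set.Ioc (1 : ℝ) (1 + δ) ⊆ Set.Ioi 1 := fun s hs => hs.1
  have hGc : ContinuousOn (fun s : ℝ => G P Q x s) (Set.Ioc (1 : ℝ) (1 + δ)) :=
    (continuousOn_G P Q x).mono hsub
  have huc : ContinuousOn u (Set.Ioc (1 : ℝ) (1 + δ)) := by
    simp only [hu]
    exact ((Complex.continuous_exp.comp_continuousOn hGc).div_const ℓ).sub continuousOn_const
  have hFc : ContinuousOn F (Set.Ioc (1 : ℝ) (1 + δ)) := by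
    simp only [hF]
    refine (hGc.sub continuousOn_const).sub ?_
    apply ContinuousOn.clog (continuousOn_const.add huc)
    intro s hs
    apply Complex.mem_slitPlane_of_norm_lt_one
    linarith [hunorm s hs.1 hs.2]
  have hFexp : ∀ s : ℝ, 1 < s → s ≤ 1 + δ → Complex.exp (F s) = 1 := by
    intro s hs hs2
    have h1 : (1 : ℂ) + u s ≠ 0 := by
      intro h0
      have h2 : u s = -1 := by linear_combination h0
      have h3 := hunorm s hs hs2
      rw [h2, norm_neg, norm_one] at h3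
      linarith
    simp only [hF]
    rw [Complex.exp_sub, Complex.exp_sub, Complex.exp_log hℓ, Complex.exp_log h1]
    simp only [hu]
    have h4 : Complex.exp (G P Q x s) ≠ 0 := Complex.exp_ne_zero _
    field_simp
    ring
  have hT : IsDiscrete ((AddSubgroup.zmultiples (2 * (Real.pi : ℂ) * Complex.I) :
      AddSubgroup ℂ) : Set ℂ) :=
    isDiscrete_iff_discreteTopology.mpr
      (NormedSpace.discreteTopology_zmultiples (2 * (Real.pi : ℂ) * Complex.I))
  have hmaps : Set.MapsTo F (Set.Ioc (1 : ℝ) (1 + δ))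
      ((AddSubgroup.zmultiples (2 * (Real.pi : ℂ) * Complex.I) : AddSubgroup ℂ) : Set ℂ) := by
    intro s hs
    obtain ⟨n, hn⟩ := Complex.exp_eq_one_iff.mp (hFexp s hs.1 hs.2)
    rw [SetLike.mem_coe, AddSubgroup.mem_zmultiples_iff]
    exact ⟨n, by rw [hn]; simp [zsmul_eq_mul]⟩
  have hend : (1 + δ) ∈ Set.Ioc (1 : ℝ) (1 + δ) := ⟨by linarith, le_refl _⟩
  have hconst : ∀ s : ℝ, 1 < s → s ≤ 1 + δ → F s = F (1 + δ) := fun s hs hs2 =>
    hJ.constant_of_mapsTo hT hFc hmaps ⟨hs, hs2⟩ hend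
  refine ⟨δ, hδ0, hδ1, ‖F (1 + δ)‖ + ‖Complex.log ℓ‖ + 3 / 4, ?_⟩
  intro s hs hs2
  have h1 := hconst s hs hs2
  have h2 : G P Q x s = F (1 + δ) + Complex.log ℓ + Complex.log (1 + u s) := by
    rw [← h1]
    simp only [hF]
    ring
  have h3 : ‖Complex.log (1 + u s)‖ ≤ 3 / 4 := by
    have := Complex.norm_log_one_add_half_le_self (hunorm s hs hs2)
    have h4 := hunorm s hs hs2
    linarith
  rw [h2]
  calc ‖F (1 + δ) + Complex.log ℓ + Complex.log (1 + u s)‖
      ≤ ‖F (1 + δ) + Complex.log ℓ‖ + ‖Complex.log (1 + u s)‖ := norm_add_le _ _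
    _ ≤ ‖F (1 + δ)‖ + ‖Complex.log ℓ‖ + 3 / 4 := by
        have := norm_add_le (F (1 + δ)) (Complex.log ℓ)
        linarith

/-- The prime sum of a character with nonzero Lipschitz limit is bounded on `(1, 2]`. -/
theorem norm_Lam_le_of_lip (x : X) (ℓ : ℂ) (hℓ : ℓ ≠ 0) (hLip : HypLip P Q x ℓ) :
    ∃ K : ℝ, ∀ s : ℝ, 1 < s → s ≤ 2 → ‖Lam P Q x s‖ ≤ K := by
  obtain ⟨δ, hδ0, hδ1, B, hB⟩ := norm_G_le_near_one P Q x ℓ hℓ hLip
  refine ⟨max (B + P.c₀) (P.tot (1 + δ)), ?_⟩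
  intro s hs hs2
  by_cases h : s ≤ 1 + δ
  · exact ((norm_Lam_le_G P Q hs x).trans (by linarith [hB s hs h])).trans (le_max_left _ _)
  · rw [not_le] at h
    exact ((norm_Lam_le P Q hs x).trans (P.tot_anti (by linarith) h.le)).trans
      (le_max_right _ _)

/-! ## The density theorem -/

/-- **Abstract Dirichlet density**: under `(U)`, `(L)` and `(Lip)` for all `x ≠ x₀`, every class
`b` has prime zeta sum `(1 / #X) log (1 / (s - 1)) + O(1)` on `(1, 2]`. -/
theorem cls_sub_log_le (hU : HypU P) (hL : HypL P Q) (ℓ : X → ℂ)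
    (hLip : ∀ x, x ≠ Q.x₀ → HypLip P Q x (ℓ x)) (b : H) :
    ∃ C : ℝ, ∀ s : ℝ, 1 < s → s ≤ 2 →
      |P.cls b s - (1 / (Fintype.card X : ℝ)) * Real.log (1 / (s - 1))| ≤ C := by
  classical
  have hne := limit_ne_zero P Q hU hL ℓ hLip
  have hK : ∀ x, x ≠ Q.x₀ → ∃ K : ℝ, ∀ s : ℝ, 1 < s → s ≤ 2 → ‖Lam P Q x s‖ ≤ K :=
    fun x hx => norm_Lam_le_of_lip P Q x (ℓ x) (hne x hx) (hLip x hx)
  choose K hK' using hK
  obtain ⟨CU, hCU⟩ := hU
  set KK : ℝ := ∑ x ∈ (Finset.univ.erase Q.x₀).attach,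
    K x.1 (Finset.mem_erase.mp x.2).1 with hKK
  have hc : (0 : ℝ) < Fintype.card X := by exact_mod_cast Q.card_pos
  refine ⟨(KK + CU) / Fintype.card X, ?_⟩
  intro s hs hs2
  -- the complex identity
  have h1 := sum_conj_mul_Lam P Q hs b
  rw [← Finset.add_sum_erase Finset.univ _ (Finset.mem_univ Q.x₀), Q.ev_x₀, map_one, one_mul,
    Lam_x₀] at h1
  have h2 : ((((Fintype.card X : ℝ) * P.cls b s - P.tot s : ℝ)) : ℂ) =
      ∑ x ∈ Finset.univ.erase Q.x₀, (starRingEnd ℂ) (Q.ev x b) * Lam P Q x s := by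
    push_cast
    rw [← h1]
    ring
  have h3 : |(Fintype.card X : ℝ) * P.cls b s - P.tot s| ≤ KK := by
    rw [← Real.norm_eq_abs, ← Complex.norm_real, h2, ← Finset.sum_attach]
    refine (norm_sum_le _ _).trans ?_
    apply Finset.sum_le_sum
    intro x _
    rw [norm_mul, RCLike.norm_conj, Q.norm_ev, one_mul]
    exact hK' x.1 (Finset.mem_erase.mp x.2).1 s hs hs2
  have h4 := hCU s hs hs2
  have h5 : P.cls b s - (1 / (Fintype.card X : ℝ)) * Real.log (1 / (s - 1)) =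
      (((Fintype.card X : ℝ) * P.cls b s - P.tot s) + (P.tot s - Real.log (1 / (s - 1)))) /
        Fintype.card X := by
    field_simp
    ring
  rw [h5, abs_div, abs_of_pos hc]
  apply div_le_div_of_nonneg_right _ hc.le
  exact (abs_add_le _ _).trans (add_le_add h3 h4)

end Fermat.Agent.T4.helper69
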