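import Fermat.Agent.T4.helper79_Frontier1
import Fermat.Agent.T4.helper69_RedFinal

/-!
# T4 block (I): the frontier of S48 after [RED-FINAL] (helper69, row 1177)

`helper79_Frontier1` with (INJ1) replaced by the deep leaves of I-RED (`helper69_RedFinal`):
the light contract `Eigen1StatementL`, hence S48, follows from

* **[ES-NORM1]** `helper71.EsNorm1KbarStatement M q` (`q ∤ M`);
* **[DEEP1]** `helper69.DeepLeaves1 M A` = [IGUSA1] `PrimStatement` + [VAL-INT]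
  `IntegralityStatement` + [VAL-UE] `RegRedStatement` + [CUSP-BAR] `CuspBarStatement` for
  `(F1 M, F1b A M)` at every `A` over a prime `p ∤ M`;
* **[SCALE-DIAM]** `helper92.ScaleDiam1Statement`;
* **[ES-RED1]** `helper92.EsRed1Statement`,

all at the levels of the light contract (`12 ≤ M`, `4 ∣ M ∨ 9 ∣ M`, `ℓ ∣ M` odd prime; then the
primes `p ∤ M ℓ` are exactly the primes `p ∤ M`).

* `inj1_light`, `unr1_light` : (INJ1), (UNR1) at a light level from [DEEP1] alone;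
* `eigen1L_frontier_deep`, `s48_frontier_deep`.
-/

set_option autoImplicit false
set_option linter.style.haveILetI false
set_option linter.unusedSectionVars false

noncomputable section

namespace Fermat.Agent.T4.helper69

open Fermat.Agent.T4.helper1 (GalQ)
open Fermat.Agent.T4.helper79 (IsLightLevel)
open Fermat.Agent.S18.helper19 (Kb)

/-- **(INJ1)** at a light level from the deep leaves. -/
theorem inj1_light (M ℓ : ℕ) [NeZero M] (hL : IsLightLevel M ℓ)
    (hdeep : ∀ (p : ℕ), p.Prime → ¬ p ∣ M → ∀ A : ValuationSubring Kb, A.LiesOverPrime p →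
      DeepLeaves1 M A) :
    helper4.Inj1Statement M ℓ :=
  inj1_of_deep M ℓ hL.1 (by have := hL.2.1; omega) hL.2.2.1
    (fun p hp hpMℓ A hA => hdeep p hp (fun h => hpMℓ (Dvd.dvd.mul_right h ℓ)) A hA)

/-- **(UNR1)** at a light level from the deep leaves alone. -/
theorem unr1_light (M ℓ : ℕ) [NeZero M] (hL : IsLightLevel M ℓ)
    (hdeep : ∀ (p : ℕ), p.Prime → ¬ p ∣ M → ∀ A : ValuationSubring Kb, A.LiesOverPrime p →
      DeepLeaves1 M A) :
    helper4.Unr1Statement M ℓ :=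
  helper92.kummerUnr1_of M ℓ
    (fun p hp hpMℓ A hA => helper43.scale_G A _ _
      (hdeep p hp (fun h => hpMℓ (Dvd.dvd.mul_right h ℓ)) A hA).prim)
    (inj1_light M ℓ hL hdeep)

/-- **FRONTIER of block (I) after [RED-FINAL]**: the light contract from [ES-NORM1], the deep
leaves of I-RED, [SCALE-DIAM] and [ES-RED1]. -/
theorem eigen1L_frontier_deep
    (hes : ∀ (M : ℕ) [NeZero M], 12 ≤ M → (4 ∣ M ∨ 9 ∣ M) →
      ∀ q : {q : Nat.Primes // ¬ (q : ℕ) ∣ M}, helper71.EsNorm1KbarStatement M q)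
    (hdeep : ∀ (M : ℕ) [NeZero M], 12 ≤ M → (4 ∣ M ∨ 9 ∣ M) →
      ∀ (p : ℕ), p.Prime → ¬ p ∣ M → ∀ A : ValuationSubring Kb, A.LiesOverPrime p →
        DeepLeaves1 M A)
    (hSD : ∀ (M : ℕ) [NeZero M], 12 ≤ M → (4 ∣ M ∨ 9 ∣ M) →
      ∀ (p : ℕ) (hp : p.Prime) (hpM : ¬ p ∣ M) (A : ValuationSubring Kb), A.LiesOverPrime p →
        helper92.ScaleDiam1Statement M A (helper4.unitOfPrime M p hp hpM))
    (hER : ∀ (M : ℕ) [NeZero M], 12 ≤ M → (4 ∣ M ∨ 9 ∣ M) →
      ∀ (p : ℕ) [NeZero p] [Fact p.Prime] (hp : p.Prime) (hpM : ¬ p ∣ M)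
        (A : ValuationSubring Kb), A.LiesOverPrime p →
        helper92.EsRed1Statement M p A (helper4.unitOfPrime M p hp hpM)) :
    helper32.Eigen1StatementL :=
  helper79.eigen1L_frontier' hes
    (fun M ℓ _ hL => inj1_light M ℓ hL (hdeep M hL.2.1 hL.1))
    (fun M ℓ _ hL p hp hpMℓ A hA => hSD M hL.2.1 hL.1 p hp _ A hA)
    (fun M ℓ _ hL p _ _ hp hpMℓ A hA => hER M hL.2.1 hL.1 p hp _ A hA)

/-- **S48 from the frontier of block (I) after [RED-FINAL]** (frozen shape of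
`Templates/S48`). -/
theorem s48_frontier_deep
    (hes : ∀ (M : ℕ) [NeZero M], 12 ≤ M → (4 ∣ M ∨ 9 ∣ M) →
      ∀ q : {q : Nat.Primes // ¬ (q : ℕ) ∣ M}, helper71.EsNorm1KbarStatement M q)
    (hdeep : ∀ (M : ℕ) [NeZero M], 12 ≤ M → (4 ∣ M ∨ 9 ∣ M) →
      ∀ (p : ℕ), p.Prime → ¬ p ∣ M → ∀ A : ValuationSubring Kb, A.LiesOverPrime p →
        DeepLeaves1 M A)
    (hSD : ∀ (M : ℕ) [NeZero M], 12 ≤ M → (4 ∣ M ∨ 9 ∣ M) →
      ∀ (p : ℕ) (hp : p.Prime) (hpM : ¬ p ∣ M) (A : ValuationSubring Kb), A.LiesOverPrime p →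
        helper92.ScaleDiam1Statement M A (helper4.unitOfPrime M p hp hpM))
    (hER : ∀ (M : ℕ) [NeZero M], 12 ≤ M → (4 ∣ M ∨ 9 ∣ M) →
      ∀ (p : ℕ) [NeZero p] [Fact p.Prime] (hp : p.Prime) (hpM : ¬ p ∣ M)
        (A : ValuationSubring Kb), A.LiesOverPrime p →
        helper92.EsRed1Statement M p A (helper4.unitOfPrime M p hp hpM))
    (N : ℕ) [NeZero N] (ε : DirichletCharacter ℂ N)
    (f : CuspForm (CongruenceSubgroup.Gamma1 N) 1)
    (hf₁ : ModularFormClass.qCoeff f 1 = 1)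
    (hT : ∀ p : ℕ, p.Prime → ¬ p ∣ N → ∀ n : ℕ,
        ModularFormClass.qCoeff f (p * n) +
            ε (p : ZMod N) * (if p ∣ n then ModularFormClass.qCoeff f (n / p) else 0) =
          ModularFormClass.qCoeff f p * ModularFormClass.qCoeff f n) :
    ∃ ρ : GalQ →* GL (Fin 2) ℂ, GaloisFactorsThroughFiniteLevel ρ ∧
      (Deformation.matrixRepresentation ρ).IsIrreducible ∧
      ∀ p : ℕ, p.Prime → ¬ p ∣ N →
        ∀ A : ValuationSubring (AlgebraicClosure ℚ), A.LiesOverPrime p →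
          (∀ σ ∈ A.inertiaSubgroupIn ℚ, ρ σ = 1) ∧
          ∀ σ : GalQ, A.IsFrobeniusAt σ p →
            ((ρ σ : GL (Fin 2) ℂ) : Matrix (Fin 2) (Fin 2) ℂ).trace =
                ModularFormClass.qCoeff f p ∧
            ((ρ σ : GL (Fin 2) ℂ) : Matrix (Fin 2) (Fin 2) ℂ).det = ε (p : ZMod N) :=
  helper2.s48_of_eigen1L (eigen1L_frontier_deep hes hdeep hSD hER) N ε f hf₁ hT

end Fermat.Agent.T4.helper69

end
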