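import Fermat.Agent.T4.helper69_Frontier2
import Fermat.Agent.T4.helper92_KumWire1c
import Fermat.Agent.T4.helper43_ValIntG

/-!
# T4 block (I): the frontier of S48, version 3 (helper69, row 1177)

After [VAL-INT] / [VAL-UE] (`helper43.integrality_G`, `regRed_G`) and the Kummer wiring through
the norm formula (`helper92.p2Core1_of_norm`), the light contract `Eigen1StatementL`, hence S48,
follows from TWO leaves, both at the levels of the light contract (`12 ≤ M`, `4 ∣ M ∨ 9 ∣ M`,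
primes `p ∤ M`):

* **[ES-NORM1]** `helper92.EsNorm1Statement M p (unitOfPrime M p _ _)` (char-0 norm formula);
* **[IGUSA-CUSP1]** `helper69.IgusaCusp1 M A` = [IGUSA1] `PrimStatement` + [CUSP-REG]
  `CuspRegStatement` + [CUSP-BAR] `CuspBarStatement` for `(F1 M, F1b A M)`, `A` over `p`.

* `deepLeaves1_of_igusaCusp1`, `esNorm1Kbar_of_esNorm1`, `p2Core1_light`;
* `eigen1L_frontier3`, `s48_frontier3`.
-/

set_option autoImplicit false
set_option linter.style.haveILetI false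
set_option linter.unusedSectionVars false

noncomputable section

namespace Fermat.Agent.T4.helper69

open Fermat.Agent.T4.helper1 (GalQ)
open Fermat.Agent.T4.helper79 (IsLightLevel)
open Fermat.Agent.S18.helper19 (Kb)
open Fermat.Agent.T4.helper4
open Fermat.Agent.T4.helper32 (F1)

/-- The deep leaves of I-RED for `X₁(M)` at `A`, after [VAL]: Igusa (primitive element form),
regularity of reductions at the cusps, and the count of the cusps of the special fibre. -/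
structure IgusaCusp1 (M : ℕ) [NeZero M] (A : ValuationSubring Kb) : Prop where
  /-- [IGUSA1] -/
  prim : PrimStatement A (F1 M) (F1b A M)
  /-- [CUSP-REG] -/
  cuspReg : CuspRegStatement A (F1 M) (F1b A M) (helper61.jqModC_mem_F1b A M)
  /-- [CUSP-BAR] -/
  cuspBar : CuspBarStatement A (F1 M) (F1b A M)
    (helper61.jqModC_mem_F1 M) (helper61.jqModC_mem_F1b A M)

/-- [VAL-INT] and [VAL-UE] are consequences of [IGUSA1] and [CUSP-REG]. -/
theorem deepLeaves1_of_igusaCusp1 {M : ℕ} [NeZero M] {A : ValuationSubring Kb} {ℓ : ℕ}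
    (hℓ : ℓ.Prime) (hA : A.LiesOverPrime ℓ) (h : IgusaCusp1 M A) : DeepLeaves1 M A where
  prim := h.prim
  int := helper43.integrality_G A (F1 M) (F1b A M) hℓ hA h.prim
  regRed := helper43.regRed_G A (F1 M) (F1b A M) (helper61.jqModC_mem_F1b A M) h.prim h.cuspReg
  cuspBar := h.cuspBar

/-- [ES-NORM1] in the form of I-AN (`helper71`) from the form of I-ES (`helper92`). -/
theorem esNorm1Kbar_of_esNorm1 (M : ℕ) [NeZero M]
    (q : {q : Nat.Primes // ¬ (q : ℕ) ∣ M})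
    (h : haveI : NeZero (q.1 : ℕ) := ⟨q.1.2.ne_zero⟩
      helper92.EsNorm1Statement M (q.1 : ℕ) (unitOfPrime M (q.1 : ℕ) q.1.2 q.2)) :
    helper71.EsNorm1KbarStatement M q := by
  haveI : NeZero (q.1 : ℕ) := ⟨q.1.2.ne_zero⟩
  haveI : NeZero (((q.1 : ℕ) : ℕ) : helper32.Kbar) := ⟨by
    have : ((q.1 : ℕ) : helper32.Kbar) ≠ 0 := Nat.cast_ne_zero.mpr q.1.2.ne_zero
    exact this⟩
  obtain ⟨ζ, hζ⟩ := HasEnoughRootsOfUnity.exists_primitiveRoot helper32.Kbar (q.1 : ℕ)
  refine ⟨ζ, hζ, fun x => ?_⟩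
  have := h ζ hζ x
  rw [helper71.heckeNorm1_eq_heckeKummer1, helper71.unitOfPrime_eq_primeUnit] at this
  exact this

/-- **P2-CORE for `X₁(M)`** at a light level from [ES-NORM1] and [IGUSA-CUSP1]. -/
theorem p2Core1_light (M ℓ : ℕ) [NeZero M] (hL : IsLightLevel M ℓ)
    (hN : ∀ (p : ℕ) [NeZero p] (hp : p.Prime) (hpM : ¬ p ∣ M),
      helper92.EsNorm1Statement M p (unitOfPrime M p hp hpM))
    (hIC : ∀ (p : ℕ), p.Prime → ¬ p ∣ M → ∀ A : ValuationSubring Kb, A.LiesOverPrime p →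
      IgusaCusp1 M A) :
    P2Core1Statement M ℓ :=
  helper92.p2Core1_of_norm M ℓ
    (inj1_light M ℓ hL
      (fun p hp hpM A hA => deepLeaves1_of_igusaCusp1 hp hA (hIC p hp hpM A hA)))
    (fun p hp hpMℓ A hA => helper43.scale_G A _ _
      (hIC p hp (fun h => hpMℓ (Dvd.dvd.mul_right h ℓ)) A hA).prim)
    (fun p _ _ _ => helper11.hecke1Inputs_of_le M p (by have := hL.2.1; omega))
    (fun p _ hp hpMℓ => hN p hp _)

/-- **FRONTIER of block (I), version 3**: the light contract from [ES-NORM1] and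
[IGUSA-CUSP1]. -/
theorem eigen1L_frontier3
    (hN : ∀ (M : ℕ) [NeZero M], 12 ≤ M → (4 ∣ M ∨ 9 ∣ M) →
      ∀ (p : ℕ) [NeZero p] (hp : p.Prime) (hpM : ¬ p ∣ M),
        helper92.EsNorm1Statement M p (unitOfPrime M p hp hpM))
    (hIC : ∀ (M : ℕ) [NeZero M], 12 ≤ M → (4 ∣ M ∨ 9 ∣ M) →
      ∀ (p : ℕ), p.Prime → ¬ p ∣ M → ∀ A : ValuationSubring Kb, A.LiesOverPrime p →
        IgusaCusp1 M A) :
    helper32.Eigen1StatementL :=
  helper79.eigen1L_frontier
    (fun M _ h12 hlev q => esNorm1Kbar_of_esNorm1 M q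
      (haveI : NeZero (q.1 : ℕ) := ⟨q.1.2.ne_zero⟩; hN M h12 hlev (q.1 : ℕ) q.1.2 q.2))
    (fun M ℓ _ hL => p2Core1_light M ℓ hL (hN M hL.2.1 hL.1) (hIC M hL.2.1 hL.1))

/-- **S48 from the frontier of block (I), version 3** (frozen shape of `Templates/S48`). -/
theorem s48_frontier3
    (hN : ∀ (M : ℕ) [NeZero M], 12 ≤ M → (4 ∣ M ∨ 9 ∣ M) →
      ∀ (p : ℕ) [NeZero p] (hp : p.Prime) (hpM : ¬ p ∣ M),
        helper92.EsNorm1Statement M p (unitOfPrime M p hp hpM))
    (hIC : ∀ (M : ℕ) [NeZero M], 12 ≤ M → (4 ∣ M ∨ 9 ∣ M) →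
      ∀ (p : ℕ), p.Prime → ¬ p ∣ M → ∀ A : ValuationSubring Kb, A.LiesOverPrime p →
        IgusaCusp1 M A)
    (N : ℕ) [NeZero N] (ε : DirichletCharacter ℂ N)
    (f : CuspForm (CongruenceSubgroup.Gamma1 N) 1)
    (hf₁ : ModularFormClass.qCoeff f 1 = 1)
    (hT : ∀ p : ℕ, p.Prime → ¬ p ∣ N → ∀ n : ℕ,
        ModularFormClass.qCoeff f (p * n) +
            ε (p : ZMod N) * (if p ∣ n then ModularFormClass.qCoeff f (n / p) else 0) =
          ModularFormClass.qCoeff f p * ModularFormClass.qCoeff f n) :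
    ∃ ρ : GalQ →* GL (Fin 2) ℂ, GaloisFactorsThroughFiniteLevel ρ ∧
      (Deformation.matrixRepresentation ρ).IsIrreducible ∧
      ∀ p : ℕ, p.Prime → ¬ p ∣ N →
        ∀ A : ValuationSubring (AlgebraicClosure ℚ), A.LiesOverPrime p →
          (∀ σ ∈ A.inertiaSubgroupIn ℚ, ρ σ = 1) ∧
          ∀ σ : GalQ, A.IsFrobeniusAt σ p →
            ((ρ σ : GL (Fin 2) ℂ) : Matrix (Fin 2) (Fin 2) ℂ).trace =
                ModularFormClass.qCoeff f p ∧
            ((ρ σ : GL (Fin 2) ℂ) : Matrix (Fin 2) (Fin 2) ℂ).det = ε (p : ZMod N) :=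
  helper2.s48_of_eigen1L (eigen1L_frontier3 hN hIC) N ε f hf₁ hT

end Fermat.Agent.T4.helper69

end
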