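import Fermat.Agent.T4.helper69_Frontier3
import Fermat.Agent.T4.helper4_IgusaFinal

/-!
# T4 block (I): the frontier of S48, version 4 (helper69, row 1177)

After [IGUSA1] (`helper4.Ig.prim1`, unconditional), the light contract `Eigen1StatementL`, hence
S48, follows from

* **[ES-NORM1]** `helper92.EsNorm1Statement M p (unitOfPrime M p _ _)` (char-0 norm formula);
* **[CUSP1]** `helper69.Cusp1 M A` = [CUSP-REG] `CuspRegStatement` + [CUSP-BAR]
  `CuspBarStatement` for `(F1 M, F1b A M)`, `A` over a prime `p ∤ M`,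

at the levels of the light contract (`12 ≤ M`, `4 ∣ M ∨ 9 ∣ M`, primes `p ∤ M`).

* `igusaCusp1_of_cusp1`, `inj1_of_cusp1`, `unr1_of_cusp1`;
* `eigen1L_frontier4`, `s48_frontier4`.
-/

set_option autoImplicit false
set_option linter.style.haveILetI false
set_option linter.unusedSectionVars false

noncomputable section

namespace Fermat.Agent.T4.helper69

open Fermat.Agent.T4.helper1 (GalQ)
open Fermat.Agent.T4.helper79 (IsLightLevel)
open Fermat.Agent.S18.helper19 (Kb)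
open Fermat.Agent.T4.helper4
open Fermat.Agent.T4.helper32 (F1)

/-- The two cusp leaves of I-RED for `X₁(M)` at `A`. -/
structure Cusp1 (M : ℕ) [NeZero M] (A : ValuationSubring Kb) : Prop where
  /-- [CUSP-REG] -/
  cuspReg : CuspRegStatement A (F1 M) (F1b A M) (helper61.jqModC_mem_F1b A M)
  /-- [CUSP-BAR] -/
  cuspBar : CuspBarStatement A (F1 M) (F1b A M)
    (helper61.jqModC_mem_F1 M) (helper61.jqModC_mem_F1b A M)

/-- [IGUSA1] is on main. -/
theorem igusaCusp1_of_cusp1 {M : ℕ} [NeZero M] (hM : 7 ≤ M) {A : ValuationSubring Kb} {ℓ : ℕ}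
    (hℓ : ℓ.Prime) (hℓM : ¬ ℓ ∣ M) (hA : A.LiesOverPrime ℓ) (h : Cusp1 M A) :
    IgusaCusp1 M A where
  prim := haveI : Fact ℓ.Prime := ⟨hℓ⟩; Fermat.Agent.T4.helper4.Ig.prim1 A hA hℓM hM
  cuspReg := h.cuspReg
  cuspBar := h.cuspBar

/-- **(INJ1)** for `X₁(M)` from the cusp leaves. -/
theorem inj1_of_cusp1 (M p : ℕ) [NeZero M] (hM : 4 ∣ M ∨ 9 ∣ M) (hM7 : 7 ≤ M) (hp : p.Prime)
    (h : ∀ (ℓ : ℕ), ℓ.Prime → ¬ ℓ ∣ M → ∀ A : ValuationSubring Kb, A.LiesOverPrime ℓ →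
      Cusp1 M A) :
    Inj1Statement M p :=
  inj1_of_deep M p hM hM7 hp (fun ℓ hℓ hℓMp A hA =>
    have hℓM : ¬ ℓ ∣ M := fun h0 => hℓMp (Dvd.dvd.mul_right h0 p)
    deepLeaves1_of_igusaCusp1 hℓ hA (igusaCusp1_of_cusp1 hM7 hℓ hℓM hA (h ℓ hℓ hℓM A hA)))

/-- **FRONTIER of block (I), version 4**: the light contract from [ES-NORM1] and [CUSP1]. -/
theorem eigen1L_frontier4
    (hN : ∀ (M : ℕ) [NeZero M], 12 ≤ M → (4 ∣ M ∨ 9 ∣ M) →
      ∀ (p : ℕ) [NeZero p] (hp : p.Prime) (hpM : ¬ p ∣ M),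
        helper92.EsNorm1Statement M p (unitOfPrime M p hp hpM))
    (hC : ∀ (M : ℕ) [NeZero M], 12 ≤ M → (4 ∣ M ∨ 9 ∣ M) →
      ∀ (p : ℕ), p.Prime → ¬ p ∣ M → ∀ A : ValuationSubring Kb, A.LiesOverPrime p →
        Cusp1 M A) :
    helper32.Eigen1StatementL :=
  eigen1L_frontier3 hN (fun M _ h12 hlev p hp hpM A hA =>
    igusaCusp1_of_cusp1 (by omega) hp hpM hA (hC M h12 hlev p hp hpM A hA))

/-- **S48 from the frontier of block (I), version 4** (frozen shape of `Templates/S48`). -/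
theorem s48_frontier4
    (hN : ∀ (M : ℕ) [NeZero M], 12 ≤ M → (4 ∣ M ∨ 9 ∣ M) →
      ∀ (p : ℕ) [NeZero p] (hp : p.Prime) (hpM : ¬ p ∣ M),
        helper92.EsNorm1Statement M p (unitOfPrime M p hp hpM))
    (hC : ∀ (M : ℕ) [NeZero M], 12 ≤ M → (4 ∣ M ∨ 9 ∣ M) →
      ∀ (p : ℕ), p.Prime → ¬ p ∣ M → ∀ A : ValuationSubring Kb, A.LiesOverPrime p →
        Cusp1 M A)
    (N : ℕ) [NeZero N] (ε : DirichletCharacter ℂ N)
    (f : CuspForm (CongruenceSubgroup.Gamma1 N) 1)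
    (hf₁ : ModularFormClass.qCoeff f 1 = 1)
    (hT : ∀ p : ℕ, p.Prime → ¬ p ∣ N → ∀ n : ℕ,
        ModularFormClass.qCoeff f (p * n) +
            ε (p : ZMod N) * (if p ∣ n then ModularFormClass.qCoeff f (n / p) else 0) =
          ModularFormClass.qCoeff f p * ModularFormClass.qCoeff f n) :
    ∃ ρ : GalQ →* GL (Fin 2) ℂ, GaloisFactorsThroughFiniteLevel ρ ∧
      (Deformation.matrixRepresentation ρ).IsIrreducible ∧
      ∀ p : ℕ, p.Prime → ¬ p ∣ N →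
        ∀ A : ValuationSubring (AlgebraicClosure ℚ), A.LiesOverPrime p →
          (∀ σ ∈ A.inertiaSubgroupIn ℚ, ρ σ = 1) ∧
          ∀ σ : GalQ, A.IsFrobeniusAt σ p →
            ((ρ σ : GL (Fin 2) ℂ) : Matrix (Fin 2) (Fin 2) ℂ).trace =
                ModularFormClass.qCoeff f p ∧
            ((ρ σ : GL (Fin 2) ℂ) : Matrix (Fin 2) (Fin 2) ℂ).det = ε (p : ZMod N) :=
  helper2.s48_of_eigen1L (eigen1L_frontier4 hN hC) N ε f hf₁ hT

end Fermat.Agent.T4.helper69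

end
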