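import Fermat.Agent.T4.helper21_AN1Trans
import Fermat.Agent.P3.helper34_EvNorm

/-!
# T4 block (I), sub-block I-AN, row [NORM1-EV] (helper71): the norm dictionary for `X₁(M)`

For a prime `q ∤ M` and `h ∈ F₁(M)` with function `f` on the upper half plane, the function of
the Hecke norm `heckeKummer1 M q h = Norm_{β₁} (α₁ h)` is the norm product of `f` along the coset
system of `T_q` on `Γ₁(M)`,
`w ↦ f (δ_q (q w)) ∏_{j mod q} f ((w + j) / q)`, `δ_q = diamondRep (primeUnit q)`.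

This is the port of P3 `helper34_EvNorm` with the diamond twist in the first factor.

## Contents

* `prodH2`, `isTExp_prodH2`, `prodH2_identity` : the twisted norm product of functions on `ℍ`;
* `twProd`, `isEv_twProd_of_identity` : **the generic core**: if
  `T(q^ℓ) = S'(q^{ℓ²}) ∏_k S(ξ^k q)` in `ℂ((q))`, `f` is the function of `S` and `f'` is the
  function of `S'`, then `w ↦ f' (ℓ w) ∏_j f ((w + j) / ℓ)` is the function of `T`;
* `normProd_systemTq` : the norm product along `helper79.systemTq M q` in explicit form;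
* the hypotheses as `Prop`s: `NormId1Statement M q` (the formal norm identity over `ℂ`, owner
  I-ES), `EvExists1Statement M` (every element of `F₁(M)` has a function, from the analytic
  dictionary of I-FLD);
* `normEv1_of : NormId1Statement M q → helper14.DiamondEvSymm M (primeUnit q) →
  EvExists1Statement M → helper21.NormEv1Statement M q` : **the deliverable**;
* `evExists1_of_dict` : `EvExists1Statement M` from a standard dictionary.
-/

set_option autoImplicit false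
set_option linter.unusedSectionVars false
set_option linter.style.haveILetI false

open Filter Topology Set UpperHalfPlane ModularCurve AlgebraicCurve
open scoped MatrixGroups Manifold
open Fermat.Agent.S24 Fermat.Agent.S24.helper17 Fermat.Agent.S24.helper37
open Fermat.Agent.P2.helper93 Fermat.Agent.S16.helper26
open Fermat.Agent.P3.helper34

noncomputable section

namespace Fermat.Agent.T4.helper71

/-! ### The twisted norm product of functions on `ℍ` -/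

section TExp

variable {ℓ : ℕ} [NeZero ℓ]

/-- the `t`-expansion of `τ ↦ ∏_{k < n} a ((τ + k) / ℓ)` -/
theorem isTExp_prodDiv {A : LaurentSeries ℂ} {a : ℍ → ℂ} (h : IsQExp A a) (n : ℕ) :
    IsTExp ℓ (∏ k ∈ Finset.range n, rotL (zetaR ℓ 1 ^ k) A)
      (fun τ => ∏ k ∈ Finset.range n, a (divH ℓ ((k : ℝ) +ᵥ τ))) := by
  induction n with
  | zero =>
    simp only [Finset.range_zero, Finset.prod_empty]
    exact IsTExp.one
  | succ n ih =>
    simp only [Finset.prod_range_succ]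
    have h1 := isTExp_comp_divH_vadd (ℓ := ℓ) h (n : ℝ)
    rw [zetaR_natCast] at h1
    exact ih.mul h1

/-- The twisted "norm product" of two functions on `ℍ`:
`τ ↦ a₁ (ℓ τ) ∏_{k < ℓ} a ((τ + k) / ℓ)`. -/
def prodH2 (ℓ : ℕ) [NeZero ℓ] (a₁ a : ℍ → ℂ) (τ : ℍ) : ℂ :=
  a₁ (mulH ℓ τ) * ∏ k ∈ Finset.range ℓ, a (divH ℓ ((k : ℝ) +ᵥ τ))

theorem isTExp_prodH2 {A₁ A : LaurentSeries ℂ} {a₁ a : ℍ → ℂ} (h₁ : IsQExp A₁ a₁)
    (h : IsQExp A a) :
    IsTExp ℓ (qExpand ℂ (ℓ * ℓ) A₁ * ∏ k ∈ Finset.range ℓ, rotL (zetaR ℓ 1 ^ k) A)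
      (prodH2 ℓ a₁ a) :=
  (isTExp_comp_mulH h₁).mul (isTExp_prodDiv h ℓ)

/-- The function identity behind the twisted norm formula. -/
theorem prodH2_identity {ξ : ℂ} (hξ : IsPrimitiveRoot ξ ℓ)
    {S S₁ T A B A₁ B₁ A' B' : LaurentSeries ℂ} {a b a₁ b₁ a' b' : ℍ → ℂ}
    (hA : IsQExp A a) (hB : IsQExp B b) (hA₁ : IsQExp A₁ a₁) (hB₁ : IsQExp B₁ b₁)
    (hA' : IsQExp A' a') (hB' : IsQExp B' b')
    (hS : S * B = A) (hS₁ : S₁ * B₁ = A₁) (hT : T * B' = A')
    (hST : qExpand ℂ ℓ T = qExpand ℂ (ℓ * ℓ) S₁ * ∏ k ∈ Finset.range ℓ, rotL (ξ ^ k) S) :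
    a' * prodH2 ℓ b₁ b = b' * prodH2 ℓ a₁ a := by
  have hz : zetaR ℓ 1 ≠ 0 := zetaR_ne_zero ℓ 1
  rw [prod_pow_primitiveRoot hξ (isPrimitiveRoot_zetaR_one (ℓ := ℓ)) (fun c => rotL c S)] at hST
  have h1 : IsTExp ℓ (qExpand ℂ ℓ A' *
      (qExpand ℂ (ℓ * ℓ) B₁ * ∏ k ∈ Finset.range ℓ, rotL (zetaR ℓ 1 ^ k) B))
      (a' * prodH2 ℓ b₁ b) :=
    (isTExp_of_isQExp hA' ℓ).mul (isTExp_prodH2 hB₁ hB)
  have h2 : IsTExp ℓ (qExpand ℂ ℓ B' *
      (qExpand ℂ (ℓ * ℓ) A₁ * ∏ k ∈ Finset.range ℓ, rotL (zetaR ℓ 1 ^ k) A))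
      (b' * prodH2 ℓ a₁ a) :=
    (isTExp_of_isQExp hB' ℓ).mul (isTExp_prodH2 hA₁ hA)
  have e : qExpand ℂ ℓ A' *
      (qExpand ℂ (ℓ * ℓ) B₁ * ∏ k ∈ Finset.range ℓ, rotL (zetaR ℓ 1 ^ k) B) =
      qExpand ℂ ℓ B' *
      (qExpand ℂ (ℓ * ℓ) A₁ * ∏ k ∈ Finset.range ℓ, rotL (zetaR ℓ 1 ^ k) A) := by
    have e1 : ∏ k ∈ Finset.range ℓ, rotL (zetaR ℓ 1 ^ k) A =
        (∏ k ∈ Finset.range ℓ, rotL (zetaR ℓ 1 ^ k) S) *
          ∏ k ∈ Finset.range ℓ, rotL (zetaR ℓ 1 ^ k) B := by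
      rw [← Finset.prod_mul_distrib]
      refine Finset.prod_congr rfl fun k _ => ?_
      rw [← hS, rotL_mul (pow_ne_zero k hz)]
    rw [e1, ← hT, ← hS₁, map_mul, map_mul, hST]
    ring
  rw [e] at h1
  exact h1.fun_unique h2

end TExp

/-! ### Passing to functions on `ℂ` -/

section OnC

variable {ℓ : ℕ} [NeZero ℓ]

/-- The twisted norm product of two functions on `ℂ`:
`w ↦ f₁ (ℓ w) ∏_{k < ℓ} f ((w + k) / ℓ)`. -/
def twProd (ℓ : ℕ) (f₁ f : ℂ → ℂ) (w : ℂ) : ℂ :=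
  f₁ ((ℓ : ℂ) * w) * ∏ k ∈ Finset.range ℓ, f ((w + (k : ℂ)) / (ℓ : ℂ))

theorem twProd_comp_ofComplex (c₁ c : ℍ → ℂ) {w : ℂ} (hw : 0 < w.im) :
    twProd ℓ (fun v => c₁ (ofComplex v)) (fun v => c (ofComplex v)) w =
      prodH2 ℓ c₁ c (ofComplex w) := by
  rw [twProd, prodH2, ofComplex_natCast_mul hw]
  congr 1
  refine Finset.prod_congr rfl fun k _ => ?_
  rw [ofComplex_add_div hw k]

theorem twProd_div (g₁ g₁' g g' : ℂ → ℂ) (w : ℂ) :
    twProd ℓ (fun v => g₁ v / g₁' v) (fun v => g v / g' v) w =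
      twProd ℓ g₁ g w / twProd ℓ g₁' g' w := by
  simp only [twProd]
  rw [Finset.prod_div_distrib, div_mul_div_comm]

theorem twProd_eq_moebG (f₁ f : ℂ → ℂ) (w : ℂ) :
    twProd ℓ f₁ f w = f₁ (moebG (ModularForm.heckeDiagMatrix ℓ) w) *
      ∏ k ∈ Finset.range ℓ, f (moebG (ModularForm.heckeMatrix ℓ k) w) := by
  rw [twProd, moebG_heckeDiagMatrix (NeZero.ne ℓ)]
  congr 1
  refine Finset.prod_congr rfl fun k _ => ?_
  rw [moebG_heckeMatrix (NeZero.ne ℓ)]

/-- The twisted norm product is compatible with equality on punctured neighbourhoods. -/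
theorem twProd_congr {f₁ f₁' f f' : ℂ → ℂ}
    (h₁ : ∀ z ∈ {z : ℂ | 0 < z.im}, f₁ =ᶠ[𝓝[≠] z] f₁')
    (h : ∀ z ∈ {z : ℂ | 0 < z.im}, f =ᶠ[𝓝[≠] z] f') {z : ℂ} (hz : 0 < z.im) :
    twProd ℓ f₁ f =ᶠ[𝓝[≠] z] twProd ℓ f₁' f' := by
  have hD := ModularForm.det_heckeDiagMatrix_pos ℓ
  have e1 : (fun w => f₁ (moebG (ModularForm.heckeDiagMatrix ℓ) w)) =ᶠ[𝓝[≠] z]
      fun w => f₁' (moebG (ModularForm.heckeDiagMatrix ℓ) w) :=
    eventuallyEq_comp_moebG hD hz (h₁ _ (moebG_im_pos hD hz))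
  have e2 : ∀ᶠ w in 𝓝[≠] z, ∀ k ∈ Finset.range ℓ,
      f (moebG (ModularForm.heckeMatrix ℓ k) w) = f' (moebG (ModularForm.heckeMatrix ℓ k) w) := by
    rw [Filter.eventually_all_finset]
    intro k _
    have hk := ModularForm.det_heckeMatrix_pos ℓ k
    exact eventuallyEq_comp_moebG hk hz (h _ (moebG_im_pos hk hz))
  filter_upwards [e1, e2] with w hw1 hw2
  rw [twProd_eq_moebG, twProd_eq_moebG, hw1, Finset.prod_congr rfl hw2]

theorem eventually_twProd_ne_zero {g₁ g : ℂ → ℂ}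
    (hg₁ : MeromorphicOn g₁ {z : ℂ | 0 < z.im})
    (hfin₁ : ∀ z ∈ {z : ℂ | 0 < z.im}, meromorphicOrderAt g₁ z ≠ ⊤)
    (hg : MeromorphicOn g {z : ℂ | 0 < z.im})
    (hfin : ∀ z ∈ {z : ℂ | 0 < z.im}, meromorphicOrderAt g z ≠ ⊤) {z : ℂ} (hz : 0 < z.im) :
    ∀ᶠ w in 𝓝[≠] z, twProd ℓ g₁ g w ≠ 0 := by
  have hD := ModularForm.det_heckeDiagMatrix_pos ℓ
  have e1 : ∀ᶠ w in 𝓝[≠] z, g₁ (moebG (ModularForm.heckeDiagMatrix ℓ) w) ≠ 0 :=
    (meromorphicOrderAt_ne_top_iff_eventually_ne_zero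
      (meromorphicOn_comp_moebG hD hg₁ z hz)).1
      (meromorphicOrderAt_comp_moebG_ne_top hD hg₁ hfin₁ hz)
  have e2 : ∀ᶠ w in 𝓝[≠] z, ∀ k ∈ Finset.range ℓ,
      g (moebG (ModularForm.heckeMatrix ℓ k) w) ≠ 0 := by
    rw [Filter.eventually_all_finset]
    intro k _
    have hk := ModularForm.det_heckeMatrix_pos ℓ k
    exact (meromorphicOrderAt_ne_top_iff_eventually_ne_zero
      (meromorphicOn_comp_moebG hk hg z hz)).1
      (meromorphicOrderAt_comp_moebG_ne_top hk hg hfin hz)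
  filter_upwards [e1, e2] with w hw1 hw2
  rw [twProd_eq_moebG]
  exact mul_ne_zero hw1 (Finset.prod_ne_zero_iff.2 hw2)

/-- **Core of the twisted norm dictionary**: if `T(q^ℓ) = S₁(q^{ℓ²}) ∏_k S(ξ^k q)` in `ℂ((q))`,
`f` is the function of `S` and `f₁` is the function of `S₁`, then the twisted norm product
`w ↦ f₁ (ℓ w) ∏_k f ((w + k) / ℓ)` is the function of `T`. -/
theorem isEv_twProd_of_identity {ξ : ℂ} (hξ : IsPrimitiveRoot ξ ℓ)
    {S S₁ T : LaurentSeries ℂ} {f f₁ g : ℂ → ℂ} (hS : IsEv S f) (hS₁ : IsEv S₁ f₁)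
    (hT : IsEv T g)
    (hST : qExpand ℂ ℓ T = qExpand ℂ (ℓ * ℓ) S₁ * ∏ k ∈ Finset.range ℓ, rotL (ξ ^ k) S) :
    IsEv T (twProd ℓ f₁ f) := by
  refine hT.congr fun z hz => ?_
  obtain ⟨A, B, a, b, hA, hB, hB0, hSB, hf⟩ := hS
  obtain ⟨A₁, B₁, a₁, b₁, hA₁, hB₁, hB₁0, hSB₁, hf₁⟩ := hS₁
  obtain ⟨A', B', a', b', hA', hB', hB0', hTB, hg⟩ := hT
  have hid := prodH2_identity hξ hA hB hA₁ hB₁ hA' hB' hSB hSB₁ hTB hST
  have hb0 : b ≠ 0 := fun h0 => hB0 (hB.eq_zero_iff.2 h0)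
  have hb₁0 : b₁ ≠ 0 := fun h0 => hB₁0 (hB₁.eq_zero_iff.2 h0)
  have hb0' : b' ≠ 0 := fun h0 => hB0' (hB'.eq_zero_iff.2 h0)
  have hbm : MeromorphicOn (fun v => b (ofComplex v)) {z : ℂ | 0 < z.im} := fun z hz =>
    (analyticOnNhd_comp_ofComplex hB.mdiff z hz).meromorphicAt
  have hbfin : ∀ z ∈ {z : ℂ | 0 < z.im}, meromorphicOrderAt (fun v => b (ofComplex v)) z ≠ ⊤ :=
    fun z hz => (meromorphicOrderAt_ne_top_iff_eventually_ne_zero (hbm z hz)).2
      (eventually_comp_ofComplex_ne_zero hB.mdiff hb0 hz)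
  have hbm₁ : MeromorphicOn (fun v => b₁ (ofComplex v)) {z : ℂ | 0 < z.im} := fun z hz =>
    (analyticOnNhd_comp_ofComplex hB₁.mdiff z hz).meromorphicAt
  have hbfin₁ : ∀ z ∈ {z : ℂ | 0 < z.im},
      meromorphicOrderAt (fun v => b₁ (ofComplex v)) z ≠ ⊤ :=
    fun z hz => (meromorphicOrderAt_ne_top_iff_eventually_ne_zero (hbm₁ z hz)).2
      (eventually_comp_ofComplex_ne_zero hB₁.mdiff hb₁0 hz)
  have hH : ∀ᶠ w in 𝓝[≠] z, 0 < w.im :=
    mem_nhdsWithin_of_mem_nhds (UpperHalfPlane.isOpen_upperHalfPlaneSet.mem_nhds hz)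
  filter_upwards [hg z hz, twProd_congr (ℓ := ℓ) hf₁ hf hz, hH,
    eventually_comp_ofComplex_ne_zero hB'.mdiff hb0' hz,
    eventually_twProd_ne_zero (ℓ := ℓ) hbm₁ hbfin₁ hbm hbfin hz] with w hw1 hw2 hwH hw3 hw4
  rw [hw1, hw2, twProd_div, twProd_comp_ofComplex a₁ a hwH]
  rw [twProd_comp_ofComplex b₁ b hwH] at hw4 ⊢
  rw [div_eq_div_iff hw3 hw4]
  have := congrFun hid (ofComplex w)
  simp only [Pi.mul_apply] at this
  rw [this]
  ring

end OnC

/-! ### The norm product along the coset system of `T_q` on `Γ₁(M)` -/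

section SystemTq

open Fermat.Agent.T4.helper79
open P2MW.S_ModularForm_heckeT_slash_eq_self_of_mem_Gamma0.ModularForm.HeckeSlashInvariance
open Matrix.SpecialLinearGroup
open scoped OnePoint

variable (M : ℕ) [NeZero M]

/-- the representative `δ_q ∈ Γ₀(M)` of the diamond `⟨q⟩` (lower right entry `≡ q`) used by
the coset system `helper79.systemTq M q` -/
def deltaQ (q : {q : Nat.Primes // ¬ (q : ℕ) ∣ M}) : SL(2, ℤ) :=
  diamondRep (primeUnit (M := M) q.1.2 q.2)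

theorem systemTq_α (q : {q : Nat.Primes // ¬ (q : ℕ) ∣ M})
    (x : OnePoint (ZMod (q.1 : ℕ))) :
    (systemTq M q).α x = repT1 (q.1 : ℕ) (deltaQ M q) x := rfl

/-- products over `OnePoint α`, for an arbitrary `Fintype` instance -/
theorem prod_onePoint_any {α : Type*} [Fintype α] [inst : Fintype (OnePoint α)] {N : Type*}
    [CommMonoid N] (φ : OnePoint α → N) :
    ∏ x, φ x = φ (∞ : OnePoint α) * ∏ a : α, φ (a : OnePoint α) := by
  have hinst : inst = (inferInstance : Fintype (Option α)) := Subsingleton.elim _ _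
  subst hinst
  exact Fintype.prod_option φ

theorem moebG_repT1_infty {p : ℕ} (hp : p ≠ 0) (δ : SL(2, ℤ)) {w : ℂ} (hw : 0 < w.im) :
    moebG (repT1 p δ (∞ : OnePoint (ZMod p))) w = moebC δ ((p : ℂ) * w) := by
  have hD := ModularForm.det_heckeDiagMatrix_pos p
  have him : 0 < ((p : ℂ) * w).im := by
    have := moebG_im_pos hD hw
    rwa [moebG_heckeDiagMatrix hp] at this
  show moebG (mapGL ℝ δ * ModularForm.heckeDiagMatrix p) w = _
  rw [moebG_mul (det_mapGL_pos _) hD hw, moebG_heckeDiagMatrix hp, moebG_mapGL _ him]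

theorem moebG_repT1_coe {p : ℕ} (hp : p ≠ 0) (δ : SL(2, ℤ)) (j : ZMod p) (w : ℂ) :
    moebG (repT1 p δ (j : OnePoint (ZMod p))) w = (w + (j.val : ℂ)) / (p : ℂ) := by
  show moebG (mapGL ℝ (1 : SL(2, ℤ)) * ModularForm.heckeMatrix p j.val) w = _
  rw [map_one, one_mul, moebG_heckeMatrix hp]

/-- **The norm product along the coset system of `T_q`** is the twisted norm product
`w ↦ f (δ_q (q w)) ∏_{k < q} f ((w + k) / q)`. -/
theorem normProd_systemTq (q : {q : Nat.Primes // ¬ (q : ℕ) ∣ M})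
    [inst : Fintype (OnePoint (ZMod (q.1 : ℕ)))] (f : ℂ → ℂ) {w : ℂ} (hw : 0 < w.im) :
    normProd (systemTq M q) f w =
      twProd (q.1 : ℕ) (fun v => f (moebC (deltaQ M q) v)) f w := by
  haveI : NeZero (q.1 : ℕ) := ⟨q.1.2.ne_zero⟩
  have hq : (q.1 : ℕ) ≠ 0 := q.1.2.ne_zero
  have h1 : normProd (systemTq M q) f w =
      ∏ x : OnePoint (ZMod (q.1 : ℕ)), f (moebG (repT1 (q.1 : ℕ) (deltaQ M q) x) w) := rfl
  rw [h1, prod_onePoint_any, twProd, moebG_repT1_infty hq _ hw,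
    ← prod_zmod_eq_prod_range (q.1 : ℕ) (fun k => f ((w + (k : ℂ)) / ((q.1 : ℕ) : ℂ)))]
  congr 1
  refine Finset.prod_congr rfl fun j _ => ?_
  rw [moebG_repT1_coe hq]

end SystemTq

/-! ### The deliverable -/

section Final

open Fermat.Agent.T4.helper79 Fermat.Agent.T4.helper21

variable (M : ℕ) [NeZero M]

/-- **[ES-NORM1]** (hypothesis (a); owner: I-ES) the formal norm identity over `ℂ` for the Hecke
norm `T = Norm_{β₁} (α₁ h)`:
`T(q^ℓ) = ((δ_ℓ^*)⁻¹ h)(q^{ℓ²}) ∏_{k < ℓ} h(ξ^k q)`, `ξ` a primitive `ℓ`-th root of unity. -/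
def NormId1Statement (q : {q : Nat.Primes // ¬ (q : ℕ) ∣ M}) : Prop :=
  haveI : NeZero (q.1 : ℕ) := ⟨q.1.2.ne_zero⟩
  ∃ ξ : ℂ, IsPrimitiveRoot ξ (q.1 : ℕ) ∧ ∀ h : helper32.F1 M,
    qExpand ℂ (q.1 : ℕ)
        (toC ((heckeKummer1 M (q.1 : ℕ) h : helper32.F1 M) : LaurentSeries helper32.Kbar)) =
      qExpand ℂ ((q.1 : ℕ) * (q.1 : ℕ))
          (toC ((((helper32.diamondAut M (primeUnit (M := M) q.1.2 q.2)).symm h :
            helper32.F1 M)) : LaurentSeries helper32.Kbar)) *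
        ∏ k ∈ Finset.range (q.1 : ℕ), rotL (ξ ^ k) (toC (h : LaurentSeries helper32.Kbar))

/-- (hypothesis (c); owner: I-FLD) every element of `F₁(M)` has a function on the upper half
plane. -/
def EvExists1Statement : Prop :=
  ∀ h : helper32.F1 M, ∃ g : ℂ → ℂ, IsEv (toC (h : LaurentSeries helper32.Kbar)) g

/-- **[NORM1-EV]** the norm dictionary for `X₁(M)` from the formal norm identity, the analytic
meaning of the inverse diamond automorphism and the existence of functions. -/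
theorem normEv1_of (q : {q : Nat.Primes // ¬ (q : ℕ) ∣ M})
    (hid : NormId1Statement M q)
    (hD : helper14.DiamondEvSymm M (primeUnit (M := M) q.1.2 q.2))
    (hev : EvExists1Statement M) :
    NormEv1Statement M q := by
  haveI : NeZero (q.1 : ℕ) := ⟨q.1.2.ne_zero⟩
  intro h f hf
  obtain ⟨ξ, hξ, hST⟩ := hid
  obtain ⟨g, hg⟩ := hev (heckeKummer1 M (q.1 : ℕ) h)
  have hf₁ : IsEv (toC ((((helper32.diamondAut M (primeUnit (M := M) q.1.2 q.2)).symm h :
      helper32.F1 M)) : LaurentSeries helper32.Kbar))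
      (fun w => f (moebC (deltaQ M q) w)) := hD h f hf
  have key := isEv_twProd_of_identity hξ hf hf₁ hg (hST h)
  refine key.congr fun z hz => ?_
  filter_upwards [mem_nhdsWithin_of_mem_nhds
    (UpperHalfPlane.isOpen_upperHalfPlaneSet.mem_nhds hz)] with w hw
  exact (normProd_systemTq M q f hw).symm

/-- The coefficientwise embedding `ℚ̄((q)) → ℂ((q))` maps the base change to `ℚ̄` of a field
`F₀ ⊆ ℚ((q))` into its base change to `ℂ`. -/
theorem toC_mem_laurentBaseChange {F₀ : IntermediateField ℚ (LaurentSeries ℚ)}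
    {y : LaurentSeries helper32.Kbar} (hy : y ∈ laurentBaseChange helper32.Kbar F₀) :
    toC y ∈ laurentBaseChange ℂ F₀ := by
  unfold laurentBaseChange at hy
  induction hy using IntermediateField.adjoin_induction with
  | mem x hx =>
    obtain ⟨y₀, hy₀, rfl⟩ := hx
    rw [Fermat.Agent.P3.helper48.toC_coeffEmb]
    exact coeffEmb_mem_laurentBaseChange ℂ hy₀
  | algebraMap c =>
    rw [toC_algebraMap]
    exact IntermediateField.algebraMap_mem _ _
  | add x y _ _ hx hy =>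
    rw [map_add]
    exact add_mem hx hy
  | inv x _ hx =>
    rw [map_inv₀]
    exact inv_mem hx
  | mul x y _ _ hx hy =>
    rw [map_mul]
    exact mul_mem hx hy

/-- `toC` maps `F₁(M)` (over `ℚ̄`) into the function field of `X₁(M)` over `ℂ`. -/
theorem toC_mem_F1Cx (h : helper32.F1 M) :
    toC (h : LaurentSeries helper32.Kbar) ∈ F1Cx M :=
  toC_mem_laurentBaseChange h.2

/-- (c) from a standard analytic dictionary of `F₁(M)` over `ℂ` (deliverable of I-FLD). -/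
theorem evExists1_of_dict (𝒟 : Fermat.Agent.P3.helper20.AnDict (F1Cx M)
    (CongruenceSubgroup.Gamma1 M)) (hstd : IsStdDict M 𝒟) : EvExists1Statement M :=
  fun h => ⟨𝒟.ev ⟨toC (h : LaurentSeries helper32.Kbar), toC_mem_F1Cx M h⟩,
    hstd ⟨toC (h : LaurentSeries helper32.Kbar), toC_mem_F1Cx M h⟩⟩

/-- (c) from the deliverable `helper24.AnDict1Statement M` of I-FLD (`M ≥ 7`). -/
theorem evExists1_of_anDict1 (hM : 7 ≤ M) (hdict : helper24.AnDict1Statement M) :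
    EvExists1Statement M := by
  obtain ⟨𝒟, hstd⟩ := hdict hM
  exact evExists1_of_dict M 𝒟 hstd

/-- **[NORM1-EV]**, in the shape consumed by `helper21.ian_of_leaves`: for all good primes at
once, from the formal norm identities [ES-NORM1], the diamond dictionary [TRANS-D] and the
analytic dictionary of I-FLD. -/
theorem normEv1_all (hM : 7 ≤ M) (hdict : helper24.AnDict1Statement M)
    (hid : ∀ q : {q : Nat.Primes // ¬ (q : ℕ) ∣ M}, NormId1Statement M q)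
    (hD : ∀ d : (ZMod M)ˣ, helper14.DiamondEvSymm M d) :
    ∀ q : {q : Nat.Primes // ¬ (q : ℕ) ∣ M}, NormEv1Statement M q :=
  fun q => normEv1_of M q (hid q) (hD _) (evExists1_of_anDict1 M hM hdict)

end Final

end Fermat.Agent.T4.helper71

end

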