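import Fermat.Agent.S21.Injective

/-!
# T4 (I), helper71: the Eichler-Shimura period package for a GENERAL subgroup `Γ ≤ SL(2, ℤ)`

The Prelude period map `ModularCurve.periodMap N` is tied to `Γ₀(N)`.  For the `X₁` stack of T4
we need the same objects for `Γ₁(M)` (or `Γ_H`).  Everything below is stated for an arbitrary
subgroup `Γ` of finite index; the involution part needs that `Γ` is stable under conjugation by
`diag(1, -1)` (`JStable Γ`), which holds for `Γ₀(N)` and `Γ₁(N)`.

* `HasEqPrim Γ f F`            : the four clauses of the Prelude `HasEquivariantPrimitive`.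
* `exists_hasEqPrim`           : every weight two cusp form on `Γ` has such a primitive.
* `periodGen Γ f`              : the period homomorphism `Additive Γ →+ ℂ`, by the Prelude pattern;
  `periodGen_apply`            : `periodGen Γ f γ = F (γ • z) - F z` for EVERY primitive and base point;
  `periodGen_eq_periodHom`     : `periodGen Γ f = hF.2.2.1.periodHom` for every primitive (bridge lemma);
  `periodGen_gamma0`           : `periodGen (Γ₀(N)) f = ModularCurve.periodMap N f`.
* `periodGenLin Γ`             : `ℂ`-linear in `f`.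
* `periodGen_mem_parabolicHoms`: periods vanish on the elements of trace `±2`.
* `JStable Γ`, `jConjSub`, `charInvGen`, `periodPairGen` : the involution and the pair map
  `(f, g) ↦ (1 + ι) p_f + (1 - ι) p_g` (same shape as the Prelude `periodHomPair`).
* `periodPairGen_injective`    : **injectivity** (maximum principle proof of S21).
* `range_periodPairGen_le`, `periodPairGen_range_eq_of_finrank_le` : the range is the space of
  parabolic homomorphisms as soon as `dim H¹_par ≤ 2 dim S₂`.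
* `jStable_Gamma0`, `jStable_Gamma1`.
-/

set_option autoImplicit false

namespace Fermat.Agent.T4.helper71

open Filter Topology Complex Function CongruenceSubgroup ModularCurve ModularCurve.Period
open UpperHalfPlane hiding I
open scoped Manifold MatrixGroups ModularForm ComplexConjugate
open Fermat.Agent.S21

section Basic

variable (Γ : Subgroup SL(2, ℤ))

/-- The Prelude notion `HasEquivariantPrimitive`, for a general subgroup. -/
def HasEqPrim (f : CuspForm Γ 2) (F : ℍ → ℂ) : Prop :=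
  (∀ τ : ℍ, HasDerivAt (F ∘ ofComplex) (f τ) ↑τ) ∧
    Tendsto F atImInfty (𝓝 0) ∧
    IsEquivariantPrimitive Γ F ∧
    ∀ δ : SL(2, ℤ), ∃ L : ℂ, Tendsto (fun w : ℍ => F (δ • w)) atImInfty (𝓝 L)

theorem hasEqPrim_gamma0_iff (N : ℕ) (f : CuspForm (Gamma0 N) 2) (F : ℍ → ℂ) :
    HasEqPrim (Gamma0 N) f F ↔ HasEquivariantPrimitive N f F := Iff.rfl

/-- Every weight two cusp form on a subgroup of finite index has an equivariant primitive. -/
theorem exists_hasEqPrim [Γ.FiniteIndex] (f : CuspForm Γ 2) : ∃ F : ℍ → ℂ, HasEqPrim Γ f F :=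
  exists_good_primitive f

open Classical in
/-- **The period homomorphism** of a weight two cusp form on `Γ`. -/
noncomputable def periodGen (f : CuspForm Γ 2) : Additive Γ →+ ℂ :=
  if h : ∃ F : ℍ → ℂ, HasEqPrim Γ f F then h.choose_spec.2.2.1.periodHom else 0

theorem periodGen_def (f : CuspForm Γ 2) {F : ℍ → ℂ} (hF : HasEqPrim Γ f F) :
    ∃ (F₀ : ℍ → ℂ) (h₀ : HasEqPrim Γ f F₀), periodGen Γ f = h₀.2.2.1.periodHom := by
  classical
  have h : ∃ F : ℍ → ℂ, HasEqPrim Γ f F := ⟨F, hF⟩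
  exact ⟨h.choose, h.choose_spec, dif_pos h⟩

/-- The period through any equivariant primitive and any base point. -/
theorem periodGen_apply (f : CuspForm Γ 2) {F : ℍ → ℂ} (hF : HasEqPrim Γ f F) (γ : Γ) (z : ℍ) :
    periodGen Γ f (Additive.ofMul γ) = F ((γ : SL(2, ℤ)) • z) - F z := by
  obtain ⟨F₀, h₀, heq⟩ := periodGen_def Γ f hF
  rw [heq, IsEquivariantPrimitive.periodHom_apply, ← h₀.2.2.1.sub_eq_period γ z]
  obtain ⟨c, hc⟩ := exists_eq_add_const_of_hasDerivAt h₀.1 hF.1
  rw [hc, hc]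
  ring

/-- Bridge lemma: the period homomorphism of ANY equivariant primitive is `periodGen`. -/
theorem periodGen_eq_periodHom (f : CuspForm Γ 2) {F : ℍ → ℂ} (hF : HasEqPrim Γ f F) :
    periodGen Γ f = hF.2.2.1.periodHom := by
  refine AddMonoidHom.ext fun γ => ?_
  obtain ⟨γ, rfl⟩ := Additive.ofMul.surjective γ
  rw [periodGen_apply Γ f hF γ UpperHalfPlane.I, IsEquivariantPrimitive.periodHom_apply]
  rfl

/-- For `Γ₀(N)` this is the Prelude period map. -/
theorem periodGen_gamma0 (N : ℕ) [NeZero N] (f : CuspForm (Gamma0 N) 2) :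
    periodGen (Gamma0 N) f = periodMap N f := by
  obtain ⟨F, hF⟩ := exists_hasEquivariantPrimitive N f
  refine AddMonoidHom.ext fun γ => ?_
  obtain ⟨γ, rfl⟩ := Additive.ofMul.surjective γ
  rw [periodGen_apply (Gamma0 N) f hF γ UpperHalfPlane.I,
    periodMap_apply N f hF γ UpperHalfPlane.I]

variable [Γ.FiniteIndex]

theorem periodGen_add (f g : CuspForm Γ 2) :
    periodGen Γ (f + g) = periodGen Γ f + periodGen Γ g := by
  obtain ⟨F, hF⟩ := exists_hasEqPrim Γ f
  obtain ⟨G, hG⟩ := exists_hasEqPrim Γ g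
  have hFG : HasEqPrim Γ (f + g) (fun z => F z + G z) := by
    refine ⟨fun τ => ?_, ?_, ?_, fun δ => ?_⟩
    · exact (hF.1 τ).add (hG.1 τ)
    · simpa using hF.2.1.add hG.2.1
    · intro γ
      obtain ⟨c, hc⟩ := hF.2.2.1 γ
      obtain ⟨d, hd⟩ := hG.2.2.1 γ
      exact ⟨c + d, fun z => by rw [← hc z, ← hd z]; ring⟩
    · obtain ⟨L, hL⟩ := hF.2.2.2 δ
      obtain ⟨L', hL'⟩ := hG.2.2.2 δ
      exact ⟨L + L', hL.add hL'⟩
  refine AddMonoidHom.ext fun γ => ?_
  obtain ⟨γ, rfl⟩ := Additive.ofMul.surjective γ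
  rw [AddMonoidHom.add_apply, periodGen_apply Γ (f + g) hFG γ UpperHalfPlane.I,
    periodGen_apply Γ f hF γ UpperHalfPlane.I, periodGen_apply Γ g hG γ UpperHalfPlane.I]
  ring

theorem periodGen_smul (c : ℂ) (f : CuspForm Γ 2) :
    periodGen Γ (c • f) = c • periodGen Γ f := by
  obtain ⟨F, hF⟩ := exists_hasEqPrim Γ f
  have hcF : HasEqPrim Γ (c • f) (fun z => c * F z) := by
    refine ⟨fun τ => ?_, ?_, ?_, fun δ => ?_⟩
    · exact (hF.1 τ).const_mul c
    · simpa using hF.2.1.const_mul c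
    · intro γ
      obtain ⟨d, hd⟩ := hF.2.2.1 γ
      exact ⟨c * d, fun z => by rw [← hd z]; ring⟩
    · obtain ⟨L, hL⟩ := hF.2.2.2 δ
      exact ⟨c * L, hL.const_mul c⟩
  refine AddMonoidHom.ext fun γ => ?_
  obtain ⟨γ, rfl⟩ := Additive.ofMul.surjective γ
  rw [AddMonoidHom.smul_apply, periodGen_apply Γ (c • f) hcF γ UpperHalfPlane.I,
    periodGen_apply Γ f hF γ UpperHalfPlane.I, smul_eq_mul]
  ring

/-- The period map as a `ℂ`-linear map. -/
noncomputable def periodGenLin : CuspForm Γ 2 →ₗ[ℂ] (Additive Γ →+ ℂ) where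
  toFun := periodGen Γ
  map_add' := periodGen_add Γ
  map_smul' := periodGen_smul Γ

@[simp] theorem periodGenLin_apply (f : CuspForm Γ 2) :
    periodGenLin Γ f = periodGen Γ f := rfl

/-- Periods vanish on the elements of trace `±2`. -/
theorem periodGen_mem_parabolicHoms (f : CuspForm Γ 2) :
    periodGen Γ f ∈ parabolicHoms ℂ Γ ℂ := by
  rw [mem_parabolicHoms_iff]
  intro γ hγ
  obtain ⟨F, hF⟩ := exists_hasEqPrim Γ f
  obtain ⟨δ, hδ⟩ := exists_conj_apply_one_zero_eq_zero (γ : SL(2, ℤ)) hγ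
  obtain ⟨n, hn⟩ := ModularGroup.exists_eq_T_zpow_of_c_eq_zero hδ
  obtain ⟨L, hL⟩ := hF.2.2.2 δ
  have h1 : ∀ w : ℍ, periodGen Γ f (Additive.ofMul γ)
      = F (δ • (ModularGroup.T ^ n • w)) - F (δ • w) := by
    intro w
    rw [periodGen_apply Γ f hF γ (δ • w), ← hn w]
    congr 2
    rw [← mul_smul, ← mul_smul]
    congr 1
    group
  have h2 : Tendsto (fun w : ℍ => ModularGroup.T ^ n • w) atImInfty atImInfty := by
    rw [atImInfty, tendsto_comap_iff]
    have : (UpperHalfPlane.im ∘ fun w : ℍ => ModularGroup.T ^ n • w) = UpperHalfPlane.im := by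
      funext w
      exact ModularGroup.im_T_zpow_smul w n
    rw [this]
    exact tendsto_comap
  have h3 : Tendsto (fun w : ℍ => F (δ • (ModularGroup.T ^ n • w)) - F (δ • w)) atImInfty
      (𝓝 (L - L)) := (hL.comp h2).sub hL
  have h4 : Tendsto (fun _ : ℍ => periodGen Γ f (Additive.ofMul γ)) atImInfty (𝓝 (L - L)) :=
    h3.congr fun w => (h1 w).symm
  rw [sub_self] at h4
  exact tendsto_nhds_unique tendsto_const_nhds h4

end Basic

/-! ## The involution -/

section Involution

/-- `Γ` is stable under conjugation by `diag(1, -1)`. -/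
def JStable (Γ : Subgroup SL(2, ℤ)) : Prop := ∀ A : SL(2, ℤ), A ∈ Γ → jConjSL A ∈ Γ

theorem jStable_Gamma0 (N : ℕ) : JStable (Gamma0 N) := fun _ hA => jConjSL_mem_Gamma0 hA

theorem jStable_Gamma1 (N : ℕ) : JStable (Gamma1 N) := by
  intro A hA
  rw [Gamma1_mem] at hA ⊢
  obtain ⟨h00, h11, h10⟩ := hA
  refine ⟨?_, ?_, ?_⟩
  · show ((((jConjSL A : SL(2, ℤ)) : Matrix (Fin 2) (Fin 2) ℤ) 0 0 : ℤ) : ZMod N) = 1
    rw [jConjSL_coe, jConjMat_apply_zero_zero]; exact h00
  · show ((((jConjSL A : SL(2, ℤ)) : Matrix (Fin 2) (Fin 2) ℤ) 1 1 : ℤ) : ZMod N) = 1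
    rw [jConjSL_coe, jConjMat_apply_one_one]; exact h11
  · show ((((jConjSL A : SL(2, ℤ)) : Matrix (Fin 2) (Fin 2) ℤ) 1 0 : ℤ) : ZMod N) = 0
    rw [jConjSL_coe, jConjMat_apply_one_zero]; push_cast; rw [h10, neg_zero]

variable {Γ : Subgroup SL(2, ℤ)} (hJ : JStable Γ)

/-- Conjugation by `diag(1, -1)` on `Γ`. -/
def jConjSub : Γ →* Γ where
  toFun γ := ⟨jConjSL ↑γ, hJ _ γ.2⟩
  map_one' := by
    apply Subtype.ext
    show jConjSL ↑(1 : Γ) = _
    rw [OneMemClass.coe_one, map_one]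
  map_mul' γ δ := by
    apply Subtype.ext
    show jConjSL ↑(γ * δ) = _
    rw [MulMemClass.coe_mul, map_mul]; rfl

@[simp] theorem jConjSub_coe (γ : Γ) : ((jConjSub hJ γ : Γ) : SL(2, ℤ)) = jConjSL ↑γ := rfl

theorem jConjSub_jConjSub (γ : Γ) : jConjSub hJ (jConjSub hJ γ) = γ := by
  apply Subtype.ext; rw [jConjSub_coe, jConjSub_coe, jConjSL_jConjSL]

variable (R : Type*) [Semiring R] (A : Type*) [AddCommGroup A] [Module R A]

/-- The involution `ψ ↦ ψ ∘ (conjugation by diag(1, -1))` on `Hom(Γ, A)`. -/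
def charInvGen : (Additive Γ →+ A) →ₗ[R] (Additive Γ →+ A) where
  toFun ψ := ψ.comp (MonoidHom.toAdditive (jConjSub hJ))
  map_add' _ _ := rfl
  map_smul' _ _ := rfl

@[simp] theorem charInvGen_apply (ψ : Additive Γ →+ A) (γ : Additive Γ) :
    (charInvGen hJ R A ψ) γ = ψ (Additive.ofMul (jConjSub hJ (Additive.toMul γ))) := rfl

theorem charInvGen_charInvGen (ψ : Additive Γ →+ A) :
    charInvGen hJ R A (charInvGen hJ R A ψ) = ψ := by
  refine AddMonoidHom.ext fun γ => ?_
  show ψ (Additive.ofMul (jConjSub hJ (jConjSub hJ (Additive.toMul γ)))) = ψ γ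
  rw [jConjSub_jConjSub]; rfl

theorem charInvGen_mem_parabolicHoms {ψ : Additive Γ →+ A} (hψ : ψ ∈ parabolicHoms R Γ A) :
    charInvGen hJ R A ψ ∈ parabolicHoms R Γ A := by
  rw [mem_parabolicHoms_iff] at hψ ⊢
  intro γ hγ
  refine hψ (jConjSub hJ γ) ?_
  have htr : (((jConjSub hJ γ : Γ) : SL(2, ℤ)) : Matrix (Fin 2) (Fin 2) ℤ).trace
      = (((γ : Γ) : SL(2, ℤ)) : Matrix (Fin 2) (Fin 2) ℤ).trace := by
    rw [jConjSub_coe, jConjSL_coe, jConjMat_trace]
  rw [htr]; exact hγ

end Involution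

/-! ## The pair map and its injectivity -/

section Pair

variable {Γ : Subgroup SL(2, ℤ)} [Γ.FiniteIndex] (hJ : JStable Γ)

/-- **The Eichler-Shimura pair map** `(f, g) ↦ (1 + ι) p_f + (1 - ι) p_g`. -/
noncomputable def periodPairGen : (CuspForm Γ 2 × CuspForm Γ 2) →ₗ[ℂ] (Additive Γ →+ ℂ) :=
  LinearMap.coprod
    ((LinearMap.id + charInvGen hJ ℂ ℂ) ∘ₗ periodGenLin Γ)
    ((LinearMap.id - charInvGen hJ ℂ ℂ) ∘ₗ periodGenLin Γ)

theorem periodPairGen_apply (f g : CuspForm Γ 2) :
    periodPairGen hJ (f, g)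
      = (periodGen Γ f + charInvGen hJ ℂ ℂ (periodGen Γ f))
        + (periodGen Γ g - charInvGen hJ ℂ ℂ (periodGen Γ g)) := by
  simp [periodPairGen, LinearMap.coprod_apply]

/-- If the period homomorphism `p` of `f` satisfies `p + ε • (p ∘ j) = 0` with `ε = ±1`, then
`f = 0`. -/
theorem eq_zero_of_periodGen_add_charInv (f : CuspForm Γ 2) (ε : ℝ) (hε : ε * ε = 1)
    (h : ∀ γ : Γ, periodGen Γ f (Additive.ofMul γ)
      + (ε : ℂ) * periodGen Γ f (Additive.ofMul (jConjSub hJ γ)) = 0) : f = 0 := by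
  obtain ⟨F, hF⟩ := exists_hasEqPrim Γ f
  have hFd : MDiff F := by
    rw [UpperHalfPlane.mdifferentiable_iff]
    intro z hz
    exact ((hF.1 ⟨z, hz⟩).differentiableAt).differentiableWithinAt
  have hFJd : MDiff (conjJ F) := mdifferentiable_conjJ hFd
  set p : Γ → ℂ := fun γ => periodGen Γ f (Additive.ofMul γ) with hp
  have hper : ∀ (γ : Γ) (z : ℍ), F ((γ : SL(2, ℤ)) • z) - F z = p γ := fun γ z =>
    (periodGen_apply Γ f hF γ z).symm
  have hperJ : ∀ (γ : Γ) (z : ℍ),
      conjJ F ((γ : SL(2, ℤ)) • z) - conjJ F z = conj (p (jConjSub hJ γ)) := by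
    intro γ z
    simp only [conjJ]
    rw [← map_sub, ← jConjSL_smul_J_smul]
    congr 1
    exact hper (jConjSub hJ γ) (UpperHalfPlane.J • z)
  have hεc : (ε : ℂ) * (ε : ℂ) = 1 := by exact_mod_cast hε
  have hpj : ∀ γ : Γ, p (jConjSub hJ γ) = -(ε : ℂ) * p γ := by
    intro γ
    have h1 := h γ
    have h2 : (ε : ℂ) * (p γ + (ε : ℂ) * p (jConjSub hJ γ)) = 0 := by
      rw [show p γ + (ε : ℂ) * p (jConjSub hJ γ) = 0 from h1, mul_zero]
    have h3 : (ε : ℂ) * (p γ + (ε : ℂ) * p (jConjSub hJ γ))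
        = (ε : ℂ) * p γ + ((ε : ℂ) * (ε : ℂ)) * p (jConjSub hJ γ) := by ring
    rw [h3, hεc, one_mul] at h2
    linear_combination h2
  have hlimF : ∀ δ : SL(2, ℤ), ∃ L : ℂ, Tendsto (fun w : ℍ => F (δ • w)) atImInfty (𝓝 L) :=
    hF.2.2.2
  have hlimFJ : ∀ δ : SL(2, ℤ), ∃ L : ℂ,
      Tendsto (fun w : ℍ => conjJ F (δ • w)) atImInfty (𝓝 L) := by
    intro δ
    obtain ⟨L, hL⟩ := hlimF (jConjSL δ)
    refine ⟨conj L, ?_⟩
    have h1 : Tendsto (fun w : ℍ => F (jConjSL δ • (UpperHalfPlane.J • w))) atImInfty (𝓝 L) :=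
      hL.comp tendsto_J_smul_atImInfty
    have h2 : Tendsto (fun w : ℍ => conj (F (jConjSL δ • (UpperHalfPlane.J • w)))) atImInfty
        (𝓝 (conj L)) := (Complex.continuous_conj.tendsto L).comp h1
    refine h2.congr fun w => ?_
    simp only [conjJ]
    rw [jConjSL_smul_J_smul]
  have hA₁ : ∃ c : ℂ, ∀ z : ℍ, F z + (ε : ℂ) * conjJ F z = c := by
    refine exists_eq_const_of_re_invariant (Γ := Γ)
      (hFd.add (mdifferentiable_const.mul hFJd)) ?_ ?_
    · intro γ hγ z
      have h1 := hper ⟨γ, hγ⟩ z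
      have h2 := hperJ ⟨γ, hγ⟩ z
      have h3 := hpj ⟨γ, hγ⟩
      simp only at h1 h2
      have h4 : F (γ • z) + (ε : ℂ) * conjJ F (γ • z) - (F z + (ε : ℂ) * conjJ F z)
          = p ⟨γ, hγ⟩ - conj (p ⟨γ, hγ⟩) := by
        have : F (γ • z) + (ε : ℂ) * conjJ F (γ • z) - (F z + (ε : ℂ) * conjJ F z)
            = (F (γ • z) - F z) + (ε : ℂ) * (conjJ F (γ • z) - conjJ F z) := by ring
        rw [this, h1, h2, h3, map_mul, map_neg, Complex.conj_ofReal]
        linear_combination (-(conj (p ⟨γ, hγ⟩))) * hεc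
      have h5 := congrArg Complex.re h4
      simp only [Complex.sub_re, Complex.conj_re] at h5
      linarith
    · intro δ
      obtain ⟨L, hL⟩ := hlimF δ
      obtain ⟨L', hL'⟩ := hlimFJ δ
      exact ⟨L + (ε : ℂ) * L', hL.add (hL'.const_mul _)⟩
  have hA₂ : ∃ c : ℂ, ∀ z : ℍ, Complex.I * (F z - (ε : ℂ) * conjJ F z) = c := by
    refine exists_eq_const_of_re_invariant (Γ := Γ)
      (mdifferentiable_const.mul (hFd.sub (mdifferentiable_const.mul hFJd))) ?_ ?_
    · intro γ hγ z
      have h1 := hper ⟨γ, hγ⟩ z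
      have h2 := hperJ ⟨γ, hγ⟩ z
      have h3 := hpj ⟨γ, hγ⟩
      simp only at h1 h2
      have h4 : Complex.I * (F (γ • z) - (ε : ℂ) * conjJ F (γ • z))
          - Complex.I * (F z - (ε : ℂ) * conjJ F z)
          = Complex.I * (p ⟨γ, hγ⟩ + conj (p ⟨γ, hγ⟩)) := by
        have : Complex.I * (F (γ • z) - (ε : ℂ) * conjJ F (γ • z))
            - Complex.I * (F z - (ε : ℂ) * conjJ F z)
            = Complex.I * ((F (γ • z) - F z) - (ε : ℂ) * (conjJ F (γ • z) - conjJ F z)) := by
          ring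
        rw [this, h1, h2, h3, map_mul, map_neg, Complex.conj_ofReal]
        linear_combination (Complex.I * (conj (p ⟨γ, hγ⟩))) * hεc
      have h5 := congrArg Complex.re h4
      have h6 : ∀ x : ℂ, (Complex.I * x).re = -x.im := fun x => by simp
      rw [Complex.sub_re, h6, h6, h6] at h5
      simp only [Complex.add_im, Complex.conj_im] at h5
      rw [h6, h6]
      linarith
    · intro δ
      obtain ⟨L, hL⟩ := hlimF δ
      obtain ⟨L', hL'⟩ := hlimFJ δ
      exact ⟨Complex.I * (L - (ε : ℂ) * L'), (hL.sub (hL'.const_mul _)).const_mul _⟩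
  obtain ⟨c₁, hc₁⟩ := hA₁
  obtain ⟨c₂, hc₂⟩ := hA₂
  have hFconst : ∀ z : ℍ, F z = (c₁ - Complex.I * c₂) / 2 := by
    intro z
    have h1 := hc₁ z
    have h2 := hc₂ z
    have h3 : F z - (ε : ℂ) * conjJ F z = -Complex.I * c₂ := by
      rw [← h2, ← mul_assoc, neg_mul, Complex.I_mul_I]
      ring
    have h4 : 2 * F z = c₁ - Complex.I * c₂ := by linear_combination h1 + h3
    rw [← h4]
    ring
  ext τ
  have h1 := hF.1 τ
  have h2 : (F ∘ ofComplex) = fun _ => (c₁ - Complex.I * c₂) / 2 := by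
    funext z
    exact hFconst _
  rw [h2] at h1
  have h3 := h1.unique (hasDerivAt_const (τ : ℂ) _)
  simpa using h3

/-- **Injectivity of the Eichler-Shimura pair map**, for every `J`-stable subgroup of finite
index. -/
theorem periodPairGen_injective : Function.Injective (periodPairGen hJ) := by
  rw [injective_iff_map_eq_zero]
  rintro ⟨f, g⟩ hfg
  rw [periodPairGen_apply] at hfg
  have hfg' := congrArg (charInvGen hJ ℂ ℂ) hfg
  simp only [map_add, map_sub, charInvGen_charInvGen, map_zero] at hfg'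
  have hf : periodGen Γ f + charInvGen hJ ℂ ℂ (periodGen Γ f) = 0 := by
    have h2 : (2 : ℂ) • (periodGen Γ f + charInvGen hJ ℂ ℂ (periodGen Γ f)) = 0 := by
      rw [two_smul]
      have := congrArg₂ (· + ·) hfg hfg'
      simp only [add_zero] at this
      rw [← this]
      abel
    exact (smul_eq_zero.mp h2).resolve_left two_ne_zero
  have hg : periodGen Γ g - charInvGen hJ ℂ ℂ (periodGen Γ g) = 0 := by
    have h2 : (2 : ℂ) • (periodGen Γ g - charInvGen hJ ℂ ℂ (periodGen Γ g)) = 0 := by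
      rw [two_smul]
      have := congrArg₂ (· - ·) hfg hfg'
      simp only [sub_zero] at this
      rw [← this]
      abel
    exact (smul_eq_zero.mp h2).resolve_left two_ne_zero
  have hf0 : f = 0 := by
    refine eq_zero_of_periodGen_add_charInv hJ f 1 (by norm_num) fun γ => ?_
    have := DFunLike.congr_fun hf (Additive.ofMul γ)
    simpa using this
  have hg0 : g = 0 := by
    refine eq_zero_of_periodGen_add_charInv hJ g (-1) (by norm_num) fun γ => ?_
    have := DFunLike.congr_fun hg (Additive.ofMul γ)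
    simp only [AddMonoidHom.sub_apply, charInvGen_apply, toMul_ofMul,
      AddMonoidHom.zero_apply] at this
    push_cast
    linear_combination this
  rw [hf0, hg0]
  rfl

theorem range_periodPairGen_le :
    LinearMap.range (periodPairGen hJ) ≤ parabolicHoms ℂ Γ ℂ := by
  rintro _ ⟨⟨f, g⟩, rfl⟩
  rw [periodPairGen_apply]
  refine Submodule.add_mem _ ?_ ?_
  · exact Submodule.add_mem _ (periodGen_mem_parabolicHoms Γ f)
      (charInvGen_mem_parabolicHoms hJ ℂ ℂ (periodGen_mem_parabolicHoms Γ f))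
  · exact Submodule.sub_mem _ (periodGen_mem_parabolicHoms Γ g)
      (charInvGen_mem_parabolicHoms hJ ℂ ℂ (periodGen_mem_parabolicHoms Γ g))

/-- The pair map, corestricted to the parabolic homomorphisms. -/
noncomputable def periodPairGenPar :
    (CuspForm Γ 2 × CuspForm Γ 2) →ₗ[ℂ] parabolicHoms ℂ Γ ℂ :=
  (periodPairGen hJ).codRestrict _ fun x =>
    range_periodPairGen_le hJ (LinearMap.mem_range_self _ x)

theorem periodPairGenPar_injective : Function.Injective (periodPairGenPar hJ) := by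
  intro x y h
  apply periodPairGen_injective hJ
  have := congrArg Subtype.val h
  simpa [periodPairGenPar] using this

include hJ in
/-- Finiteness of the space of cusp forms from finiteness of the parabolic cohomology. -/
theorem finite_cuspForm_of_finite_parabolicHoms [Module.Finite ℂ (parabolicHoms ℂ Γ ℂ)] :
    Module.Finite ℂ (CuspForm Γ 2) := by
  have h1 : Module.Finite ℂ (CuspForm Γ 2 × CuspForm Γ 2) :=
    Module.Finite.of_injective (periodPairGenPar hJ) (periodPairGenPar_injective hJ)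
  exact Module.Finite.of_injective (LinearMap.inl ℂ (CuspForm Γ 2) (CuspForm Γ 2))
    LinearMap.inl_injective

include hJ in
/-- `2 dim S₂(Γ) ≤ dim H¹_par(Γ, ℂ)`. -/
theorem two_mul_finrank_cuspForm_le_gen [Module.Finite ℂ (parabolicHoms ℂ Γ ℂ)] :
    2 * Module.finrank ℂ (CuspForm Γ 2) ≤ Module.finrank ℂ (parabolicHoms ℂ Γ ℂ) := by
  have := finite_cuspForm_of_finite_parabolicHoms hJ
  have h := LinearMap.finrank_le_finrank_of_injective (periodPairGenPar_injective hJ)
  rw [Module.finrank_prod, ← two_mul] at h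
  exact h

/-- **Eichler-Shimura for `Γ`**: the pair map is injective, and its range is the space of
parabolic homomorphisms as soon as `dim H¹_par(Γ, ℂ) ≤ 2 dim S₂(Γ)`. -/
theorem periodPairGen_range_eq_of_finrank_le [Module.Finite ℂ (parabolicHoms ℂ Γ ℂ)]
    (h : Module.finrank ℂ (parabolicHoms ℂ Γ ℂ) ≤ 2 * Module.finrank ℂ (CuspForm Γ 2)) :
    Function.Injective (periodPairGen hJ)
      ∧ LinearMap.range (periodPairGen hJ) = parabolicHoms ℂ Γ ℂ := by
  refine ⟨periodPairGen_injective hJ, ?_⟩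
  have := finite_cuspForm_of_finite_parabolicHoms hJ
  refine Submodule.eq_of_le_of_finrank_le (range_periodPairGen_le hJ) ?_
  rw [LinearMap.finrank_range_of_inj (periodPairGen_injective hJ), Module.finrank_prod,
    ← two_mul]
  exact h

end Pair

end Fermat.Agent.T4.helper71
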