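import Mathlib
import Fermat.Agent.T4.helper62_ChebDefs
import Fermat.Agent.T4.helper80_EndgameDefs
import Fermat.Agent.S14.helper91_Dictionary
import Fermat.Agent.S14.helper91_FieldObstruction
import Fermat.Agent.S14.helper12_Artin

/-!
# T4 block (II), leaf [T4-CHEB-GQ] (helper75)

`dens_of : helper62.ChebDensityNF → helper80.DensStatement` : the Chebotarev density theorem in
the number field form (lower bounds with bounded error for the primes of `𝓞 ℚ`, unramified in a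
Galois number field `L`, with Frobenius in a conjugation-stable subset of `Gal(L/ℚ)`) gives the
form consumed by the Deligne-Serre endgame: for a surjection `ρ : Gal(ℚ̄/ℚ) → G` onto a finite
group which factors through a finite level, and a conjugation-stable `C ⊆ G`, the prime numbers
having a Frobenius element mapped into `C` have lower Dirichlet density at least `|C| / |G|`.

Steps:
* `gq_prime_ratInt`, `gq_absNorm_prime`, `gq_absNorm_injective` : the primes of `𝓞 ℚ` are the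
  prime numbers, through the absolute norm;
* `gq_psum_le` : comparison of the two prime sums;
* `gq_frob_mem` : a prime in the number-field Frobenius set has a Frobenius element in
  `Gal(ℚ̄/ℚ)` mapped into `C` (helper91 dictionary);
* `gq_card_preimage`, `gq_card_ratio` : `|π⁻¹ C| / |H| = |C| / |G|` for a surjection `π : H → G`;
* `gq_lower_of_bounded` : bounded-error form implies the `ε`-`δ` form;
* `dens_of`.
-/

set_option autoImplicit false
set_option linter.unusedSectionVars false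
set_option linter.unusedVariables false
set_option linter.style.longLine false
set_option linter.style.haveILetI false

open NumberField IsDedekindDomain
open scoped Pointwise Classical

namespace Fermat.Agent.T4.helper75

open Fermat.Agent.S14 Fermat.Agent.S54.helper91 Fermat.Agent.S14.helper91

/-- Every prime of `𝓞 ℚ` is generated by a prime number, which is its absolute norm. -/
lemma gq_prime_ratInt (𝔭 : HeightOneSpectrum (𝓞 ℚ)) :
    ∃ q : ℕ, q.Prime ∧ 𝔭.asIdeal = Ideal.span {((q : ℕ) : 𝓞 ℚ)} ∧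
      Ideal.absNorm 𝔭.asIdeal = q := by
  set q := Rat.HeightOneSpectrum.natGenerator 𝔭 with hq
  have hqp : q.Prime := Rat.HeightOneSpectrum.prime_natGenerator 𝔭
  have hspan := Rat.HeightOneSpectrum.span_natGenerator 𝔭
  have h1 : 𝔭.asIdeal = Ideal.span {((q : ℕ) : 𝓞 ℚ)} := by
    have h2 : 𝔭.asIdeal = (𝔭.asIdeal.map (Rat.IsIntegralClosure.intEquiv (𝓞 ℚ))).comap
        (Rat.IsIntegralClosure.intEquiv (𝓞 ℚ)) :=
      (Ideal.comap_map_of_bijective _ (Rat.IsIntegralClosure.intEquiv (𝓞 ℚ)).bijective).symm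
    rw [h2, ← hspan]
    ext x
    rw [Ideal.mem_comap, Ideal.mem_span_singleton, Ideal.mem_span_singleton]
    constructor
    · rintro ⟨c, hc⟩
      refine ⟨(Rat.IsIntegralClosure.intEquiv (𝓞 ℚ)).symm c, ?_⟩
      apply (Rat.IsIntegralClosure.intEquiv (𝓞 ℚ)).injective
      rw [map_mul, RingEquiv.apply_symm_apply, map_natCast, hc]
    · rintro ⟨c, hc⟩
      refine ⟨Rat.IsIntegralClosure.intEquiv (𝓞 ℚ) c, ?_⟩
      rw [hc, map_mul, map_natCast]
  refine ⟨q, hqp, h1, ?_⟩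
  rw [h1, Ideal.absNorm_span_singleton]
  have h3 : ((q : ℕ) : 𝓞 ℚ) = algebraMap ℤ (𝓞 ℚ) (q : ℤ) := by simp
  rw [h3, Algebra.norm_algebraMap]
  have h4 : Module.finrank ℤ (𝓞 ℚ) = 1 := by
    rw [NumberField.RingOfIntegers.rank]
    exact Module.finrank_self ℚ
  rw [h4, pow_one]
  simp

lemma gq_absNorm_prime (𝔭 : HeightOneSpectrum (𝓞 ℚ)) : (Ideal.absNorm 𝔭.asIdeal).Prime := by
  obtain ⟨q, hq, -, h⟩ := gq_prime_ratInt 𝔭
  rw [h]
  exact hq

lemma gq_absNorm_injective :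
    Function.Injective (fun 𝔭 : HeightOneSpectrum (𝓞 ℚ) => Ideal.absNorm 𝔭.asIdeal) := by
  intro 𝔭 𝔮 h
  obtain ⟨q, -, h1, h2⟩ := gq_prime_ratInt 𝔭
  obtain ⟨q', -, h1', h2'⟩ := gq_prime_ratInt 𝔮
  have h' : Ideal.absNorm 𝔭.asIdeal = Ideal.absNorm 𝔮.asIdeal := h
  apply HeightOneSpectrum.ext
  rw [h1, h1']
  rw [h2, h2'] at h'
  rw [h']

/-! ### Comparison of the prime sums -/

lemma gq_psum_le (S : Set (HeightOneSpectrum (𝓞 ℚ))) (X : Set ℕ)
    (h : ∀ 𝔭 ∈ S, Ideal.absNorm 𝔭.asIdeal ∈ X) {s : ℝ} (hs : 1 < s) :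
    Fermat.Agent.T4.helper62.psum ℚ S s ≤ Fermat.Agent.T4.helper80.primeMass X s := by
  unfold Fermat.Agent.T4.helper62.psum Fermat.Agent.T4.helper80.primeMass
  have hnn : ∀ c : ℕ, 0 ≤ Set.indicator {p : ℕ | p.Prime ∧ p ∈ X}
      (fun p : ℕ => (p : ℝ) ^ (-s)) c := fun c =>
    Set.indicator_nonneg (fun p _ => Real.rpow_nonneg (Nat.cast_nonneg p) _) c
  refine Summable.tsum_le_tsum_of_inj
    (fun 𝔭 : HeightOneSpectrum (𝓞 ℚ) => Ideal.absNorm 𝔭.asIdeal) gq_absNorm_injective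
    (fun c _ => hnn c) ?_ ?_ ?_
  · intro 𝔭
    by_cases h𝔭 : 𝔭 ∈ S
    · rw [Set.indicator_of_mem h𝔭, Set.indicator_of_mem]
      · rfl
      · exact ⟨gq_absNorm_prime 𝔭, h 𝔭 h𝔭⟩
    · rw [Set.indicator_of_notMem h𝔭]
      exact hnn _
  · exact (Fermat.Agent.S14.helper40.summable_pterm ℚ hs).indicator S
  · exact (Real.summable_nat_rpow.mpr (by linarith)).indicator _

/-! ### Frobenius elements -/

theorem gq_frob_mem (L : Type) [Field L] [NumberField L] [Algebra L Qbar] [IsGalois ℚ L]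
    {G : Type} [Group G] (ρ : Fermat.Agent.T4.helper80.GQ →* G) (π : Gal(L/ℚ) →* G)
    (hπ : ∀ σ : Fermat.Agent.T4.helper80.GQ, π (AlgEquiv.restrictNormalHom L σ) = ρ σ)
    (C : Set G) (𝔭 : HeightOneSpectrum (𝓞 ℚ))
    (h𝔭 : 𝔭 ∈ Fermat.Agent.T4.helper62.frobSet ℚ L (π ⁻¹' C)) :
    Ideal.absNorm 𝔭.asIdeal ∈ Fermat.Agent.T4.helper80.frobSet ρ C := by
  obtain ⟨hram, hfrob⟩ := h𝔭
  have : 𝔭.asIdeal.IsPrime := 𝔭.isPrime
  have he : helper52.eNum ℚ L 𝔭 = 1 := by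
    by_contra h
    exact hram h
  obtain ⟨P, hP, hP0, hPu, hfrobL⟩ :=
    helper12.exists_isArithFrobAt_frobAt ℚ L 𝔭.asIdeal 𝔭.ne_bot
  haveI := hP
  haveI : P.IsMaximal := Ring.DimensionLEOne.maximalOfPrime hP0 hP
  obtain ⟨A, hA⟩ := exists_primeOf_eq L P
  obtain ⟨p, hp⟩ : ∃ p : ℕ, p = Ideal.absNorm 𝔭.asIdeal := ⟨_, rfl⟩
  have hpprime : p.Prime := hp ▸ gq_absNorm_prime 𝔭
  have hpP : (p : 𝓞 L) ∈ P := by
    have h1 : ((p : ℕ) : 𝓞 ℚ) ∈ 𝔭.asIdeal := hp ▸ Ideal.absNorm_mem 𝔭.asIdeal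
    have h2 : ((p : ℕ) : 𝓞 ℚ) ∈ P.under (𝓞 ℚ) := hPu ▸ h1
    rw [Ideal.under_def, Ideal.mem_comap, map_natCast] at h2
    exact h2
  have hAp : A.LiesOverPrime p := liesOverPrime_of_natCast_mem L A (by rw [hA]; exact hpP)
  obtain ⟨σ, hσ⟩ := exists_isFrobeniusAt_of_liesOver A hpprime hAp
  obtain ⟨hσP, hσF⟩ := restrict_frobenius L A hσ
  rw [hA] at hσP hσF
  haveI : P.LiesOver 𝔭.asIdeal := ⟨hPu.symm⟩
  have hin : Ideal.inertia Gal(L/ℚ) P = ⊥ := by
    have h1 := Ideal.card_inertia_eq_ramificationIdxIn (G := Gal(L/ℚ)) 𝔭.asIdeal P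
    unfold helper52.eNum at he
    rw [he] at h1
    exact Subgroup.eq_bot_of_card_eq _ h1
  have hcard : Nat.card (𝓞 ℚ ⧸ P.under (𝓞 ℚ)) = p := by
    rw [hPu, hp, Ideal.absNorm_apply, Submodule.cardQuot_apply]
  have hres : AlgEquiv.restrictNormalHom L σ = frobAt ℚ L 𝔭.asIdeal := by
    obtain ⟨ψ, hψ⟩ : ∃ ψ : Gal(L/ℚ), ψ = AlgEquiv.restrictNormalHom L σ := ⟨_, rfl⟩
    obtain ⟨φ₀, hφ₀⟩ : ∃ φ₀ : Gal(L/ℚ), φ₀ = frobAt ℚ L 𝔭.asIdeal := ⟨_, rfl⟩
    rw [← hψ] at hσP hσF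
    rw [← hφ₀] at hfrobL
    rw [← hψ, ← hφ₀]
    have hfrob' : ∀ x : 𝓞 L, φ₀ • x - x ^ p ∈ P := by
      intro x
      have h1 := hfrobL x
      change φ₀ • x - x ^ Nat.card (𝓞 ℚ ⧸ P.under (𝓞 ℚ)) ∈ P at h1
      rw [hcard] at h1
      exact h1
    have h1 : ψ⁻¹ * φ₀ = 1 := by
      have hmem : ψ⁻¹ * φ₀ ∈ Ideal.inertia Gal(L/ℚ) P := by
        intro x
        show (ψ⁻¹ * φ₀) • x - x ∈ P
        have h2 : φ₀ • x - ψ • x ∈ P := by
          have := P.sub_mem (hfrob' x) (hσF x)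
          simpa using this
        have h3 : ψ⁻¹ • (φ₀ • x - ψ • x) ∈ ψ⁻¹ • P := Ideal.smul_mem_pointwise_smul _ _ _ h2
        have h4 : ψ⁻¹ • P = P := by
          conv_lhs => rw [← hσP]
          rw [inv_smul_smul]
        rw [h4, smul_sub, inv_smul_smul, ← mul_smul] at h3
        exact h3
      rw [hin] at hmem
      exact Subgroup.mem_bot.mp hmem
    have := congrArg (fun t => ψ * t) h1
    simpa using this.symm
  refine ⟨A, σ, hp ▸ hAp, hp ▸ hσ, ?_⟩
  rw [← hπ, hres]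
  exact hfrob

/-! ### Counting preimages under a surjective homomorphism -/

lemma gq_card_preimage {H G : Type*} [Group H] [Group G] (π : H →* G)
    (hπ : Function.Surjective π) (C : Set G) :
    Nat.card (π ⁻¹' C) = Nat.card C * Nat.card π.ker := by
  classical
  rw [← Nat.card_prod]
  apply Nat.card_congr
  let s : G → H := Function.surjInv hπ
  have hs : ∀ g, π (s g) = g := Function.surjInv_eq hπ
  refine
    { toFun := fun x => (⟨π x.1, x.2⟩, ⟨(s (π x.1))⁻¹ * x.1, ?_⟩)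
      invFun := fun y => ⟨s y.1.1 * y.2.1, ?_⟩
      left_inv := ?_
      right_inv := ?_ }
  · rw [MonoidHom.mem_ker, map_mul, map_inv, hs, inv_mul_cancel]
  · show π (s y.1.1 * y.2.1) ∈ C
    rw [map_mul, hs, MonoidHom.mem_ker.mp y.2.2, mul_one]
    exact y.1.2
  · intro x
    apply Subtype.ext
    show s (π x.1) * ((s (π x.1))⁻¹ * x.1) = x.1
    rw [mul_inv_cancel_left]
  · rintro ⟨⟨c, hc⟩, ⟨k, hk⟩⟩
    have hk' : π k = 1 := MonoidHom.mem_ker.mp hk
    have h1 : π (s c * k) = c := by rw [map_mul, hs, hk', mul_one]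
    apply Prod.ext
    · apply Subtype.ext
      exact h1
    · apply Subtype.ext
      show (s (π (s c * k)))⁻¹ * (s c * k) = k
      rw [h1, inv_mul_cancel_left]

lemma gq_card_ratio {H G : Type*} [Group H] [Group G] [Finite H] (π : H →* G)
    (hπ : Function.Surjective π) (C : Set G) :
    (Nat.card (π ⁻¹' C) : ℝ) / (Nat.card H : ℝ) = (Nat.card C : ℝ) / (Nat.card G : ℝ) := by
  have : Finite G := Finite.of_surjective π hπ
  have h1 := gq_card_preimage π hπ C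
  have h2 := gq_card_preimage π hπ Set.univ
  rw [Set.preimage_univ, Nat.card_coe_set_eq, Set.ncard_univ, Nat.card_coe_set_eq,
    Set.ncard_univ] at h2
  have hk : (0 : ℝ) < (Nat.card π.ker : ℝ) := by exact_mod_cast Nat.card_pos
  have hG : (0 : ℝ) < (Nat.card G : ℝ) := by exact_mod_cast Nat.card_pos
  rw [h1, h2]
  push_cast
  field_simp

/-! ### From the bounded-error form to the lower density -/

lemma gq_lower_of_bounded {f : ℝ → ℝ} {η : ℝ}
    (h : ∀ ε : ℝ, 0 < ε → ∃ B : ℝ, ∀ s : ℝ, 1 < s → s ≤ 2 →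
      (η - ε) * Real.log (1 / (s - 1)) ≤ f s + B) :
    ∀ ε : ℝ, 0 < ε → ∃ δ : ℝ, 0 < δ ∧ ∀ s : ℝ, 1 < s → s < 1 + δ →
      (η - ε) * Real.log (1 / (s - 1)) ≤ f s := by
  intro ε hε
  obtain ⟨B, hB⟩ := h (ε / 2) (by linarith)
  refine ⟨min 1 (Real.exp (-(2 * B / ε))), lt_min one_pos (Real.exp_pos _), fun s hs1 hs2 => ?_⟩
  have hs2' : s ≤ 2 := by
    have := min_le_left (1 : ℝ) (Real.exp (-(2 * B / ε)))
    linarith
  have hs3 : s - 1 < Real.exp (-(2 * B / ε)) := by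
    have := min_le_right (1 : ℝ) (Real.exp (-(2 * B / ε)))
    linarith
  have hpos : 0 < s - 1 := by linarith
  have hlog : Real.log (s - 1) < -(2 * B / ε) := by
    rw [Real.log_lt_iff_lt_exp hpos]
    exact hs3
  have hL : Real.log (1 / (s - 1)) = -Real.log (s - 1) := by
    rw [one_div, Real.log_inv]
  have h1 := hB s hs1 hs2'
  rw [hL] at h1 ⊢
  have h2 : 2 * B / ε < -Real.log (s - 1) := by linarith
  have h3 : B < ε / 2 * (-Real.log (s - 1)) := by
    have h4 : 2 * B / ε * (ε / 2) = B := by field_simp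
    have h5 := mul_lt_mul_of_pos_right h2 (by linarith : (0 : ℝ) < ε / 2)
    rw [h4] at h5
    linarith
  nlinarith [h1, h3]


/-! ### The result -/

/-- **[T4-CHEB-GQ]** the Chebotarev density theorem for finite quotients of `Gal(ℚ̄/ℚ)`, from the
number field form. -/
theorem dens_of (hNF : Fermat.Agent.T4.helper62.ChebDensityNF) :
    Fermat.Agent.T4.helper80.DensStatement := by
  intro G _ _ ρ hρ hsurj C hC
  obtain ⟨L₀, hL₀, hker⟩ := hρ
  haveI := hL₀
  obtain ⟨L₁, hL₁⟩ : ∃ L₁ : IntermediateField ℚ Qbar,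
      L₁ = IntermediateField.normalClosure ℚ L₀ Qbar := ⟨_, rfl⟩
  haveI : Normal ℚ L₁ := by
    rw [hL₁]
    exact @normalClosure.normal ℚ L₀ Qbar _ _ _ _ _ normal_Qbar
  haveI : FiniteDimensional ℚ L₁ := by rw [hL₁]; infer_instance
  haveI : NumberField L₁ := ⟨⟩
  haveI : IsGalois ℚ L₁ := ⟨⟩
  have hle : L₀ ≤ L₁ := by rw [hL₁]; exact IntermediateField.le_normalClosure L₀
  have hres_surj : Function.Surjective (AlgEquiv.restrictNormalHom (F := ℚ) (K₁ := Qbar) L₁) := by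
    have := normal_Qbar
    exact AlgEquiv.restrictNormalHom_surjective Qbar
  have hkerle : (AlgEquiv.restrictNormalHom (F := ℚ) (K₁ := Qbar) L₁).ker ≤ ρ.ker := by
    intro σ hσ
    rw [MonoidHom.mem_ker] at hσ ⊢
    apply hker
    intro x hx
    have := mem_fixingSubgroup_of_restrictNormalHom_eq_one L₁ hσ
    exact (IntermediateField.mem_fixingSubgroup_iff L₁ σ).mp this x (hle hx)
  obtain ⟨π, hπ⟩ : ∃ π : Gal(L₁/ℚ) →* G,
      ∀ σ : Fermat.Agent.T4.helper80.GQ, π (AlgEquiv.restrictNormalHom L₁ σ) = ρ σ :=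
    ⟨(AlgEquiv.restrictNormalHom (F := ℚ) (K₁ := Qbar) L₁).liftOfRightInverse
        (Function.surjInv hres_surj) (Function.rightInverse_surjInv hres_surj) ⟨ρ, hkerle⟩,
      fun σ => MonoidHom.liftOfRightInverse_comp_apply _ _ _ ⟨ρ, hkerle⟩ σ⟩
  have hπsurj : Function.Surjective π := by
    intro g
    obtain ⟨σ, rfl⟩ := hsurj g
    exact ⟨AlgEquiv.restrictNormalHom L₁ σ, hπ σ⟩
  have hCL : ∀ g h : Gal(L₁/ℚ), h ∈ π ⁻¹' C → g * h * g⁻¹ ∈ π ⁻¹' C := by
    intro g h hh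
    show π (g * h * g⁻¹) ∈ C
    rw [map_mul, map_mul, map_inv]
    exact hC _ _ hh
  have hratio := gq_card_ratio π hπsurj C
  unfold Fermat.Agent.T4.helper80.LowerDensityGE
  apply gq_lower_of_bounded
  intro ε hε
  obtain ⟨B, hB⟩ := hNF L₁ (π ⁻¹' C) hCL ε hε
  refine ⟨B, fun s hs1 hs2 => ?_⟩
  have h1 := hB s hs1 hs2
  rw [hratio] at h1
  have h2 := gq_psum_le (Fermat.Agent.T4.helper62.frobSet ℚ L₁ (π ⁻¹' C))
    (Fermat.Agent.T4.helper80.frobSet ρ C) (fun 𝔭 h𝔭 => gq_frob_mem L₁ ρ π hπ C 𝔭 h𝔭) hs1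
  linarith

end Fermat.Agent.T4.helper75
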