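import Mathlib

/-!
# T4 block (I), leaf [IG-DED] (helper75): abstract Dedekind reduction for IGUSA1

Mathlib only.  Setting: `B` a commutative ring with an action of a finite group `G` by ring
automorphisms, `A` with `Algebra.IsInvariant A B G` (the invariants of `G` in `B` are `A`),
`Q` a prime of `B`, `P = Q ∩ A`, `K = Frac (A ⧸ P)`, `L = Frac (B ⧸ Q)`.

* `ded_aut`  **(1)** every `K`-automorphism of `L` is induced by an element of `Stab(Q)`
  (packaging of Mathlib's `IsFractionRing.stabilizerHom_surjective`);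
* `ded_conj` **(2)** if the classes of `x` and `g • x` in `L` are conjugate over `K`, then
  `σ • x ≡ g • x mod Q` for some `σ ∈ Stab(Q)`;
* `ded_trans_mod` **(3), congruence form**: `F ∈ A[X]` monic, `F(x) = 0`, reduction of `F`
  irreducible over `K`: for every `g` there is `σ ∈ Stab(Q)` with `σ • x ≡ g • x mod Q`;
* `ded_trans` **(3)**: if moreover `B` is a domain and the reduction of `F` is separable, then
  `σ • x = g • x`;
* `ded_decomp` **(3), group form**: `G = Stab(Q) · Stab(x)`;
* `ded_trans_of_hom`, `ded_trans_mod_of_hom`, `ded_decomp_of_hom`: the same with the hypotheses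
  on `F` stated over ANY field `K'` with a ring homomorphism `φ : A → K'` of kernel `Q ∩ A`
  (no fraction field in the statement);
* `ded_transfer`: irreducibility / separability over `K'` imply the same over `Frac (A ⧸ P)`.
-/

set_option autoImplicit false
set_option linter.unusedSectionVars false
set_option linter.unusedVariables false
set_option linter.style.longLine false
set_option linter.style.haveILetI false

open Polynomial
open scoped Pointwise

namespace Fermat.Agent.T4.helper75

section Dedekind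

variable {A B : Type*} [CommRing A] [CommRing B] [Algebra A B]
  (G : Type*) [Group G] [Finite G] [MulSemiringAction G B] [SMulCommClass G A B]
  [Algebra.IsInvariant A B G]
  (P : Ideal A) (Q : Ideal B) [Q.IsPrime] [Q.LiesOver P]

variable (K L : Type*) [Field K] [Field L]
  [Algebra (A ⧸ P) K] [Algebra (B ⧸ Q) L]
  [Algebra (A ⧸ P) L] [IsScalarTower (A ⧸ P) (B ⧸ Q) L]
  [Algebra K L] [IsScalarTower (A ⧸ P) K L]
  [IsFractionRing (A ⧸ P) K] [IsFractionRing (B ⧸ Q) L]

include P in
/-- **(1)** every `K`-automorphism of `L = Frac (B ⧸ Q)` is induced by an element of the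
stabiliser of `Q`. -/
theorem ded_aut (τ : L ≃ₐ[K] L) :
    ∃ σ : G, σ • Q = Q ∧ ∀ b : B, τ (algebraMap (B ⧸ Q) L (Ideal.Quotient.mk Q b)) =
      algebraMap (B ⧸ Q) L (Ideal.Quotient.mk Q (σ • b)) := by
  obtain ⟨σ, hσ⟩ := IsFractionRing.stabilizerHom_surjective G P Q K L τ
  refine ⟨σ.1, σ.2, fun b => ?_⟩
  rw [← hσ]
  exact IsFractionRing.stabilizerHom_apply_apply_mk G P Q K L σ b

include P in
/-- **(2)** if the residue classes of `x` and `g • x` are conjugate over `K`, then some element
of the stabiliser of `Q` maps `x` to `g • x` modulo `Q`. -/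
theorem ded_conj (x : B) (g : G)
    (h : IsConjRoot K (algebraMap (B ⧸ Q) L (Ideal.Quotient.mk Q (g • x)))
      (algebraMap (B ⧸ Q) L (Ideal.Quotient.mk Q x))) :
    ∃ σ : G, σ • Q = Q ∧ σ • x - g • x ∈ Q := by
  haveI : P.IsPrime := Ideal.over_def Q P ▸ Ideal.IsPrime.under A Q
  haveI : Normal K L := Ideal.IsFractionRing.normal G P Q K L
  obtain ⟨τ, hτ⟩ := h.exists_algEquiv
  obtain ⟨σ, hσQ, hσ⟩ := ded_aut G P Q K L τ
  refine ⟨σ, hσQ, ?_⟩
  have h1 := hσ x
  rw [hτ] at h1
  have h2 := IsFractionRing.injective (B ⧸ Q) L h1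
  rw [← Ideal.Quotient.eq]
  exact h2.symm

/-- the canonical map `B → L` -/
noncomputable def dedMap : B →+* L := (algebraMap (B ⧸ Q) L).comp (Ideal.Quotient.mk Q)

omit [Finite G] [Group G] [MulSemiringAction G B] [SMulCommClass G A B]
  [Algebra.IsInvariant A B G] [Q.IsPrime] [IsFractionRing (A ⧸ P) K]
  [IsFractionRing (B ⧸ Q) L] in
theorem dedMap_comp :
    ((algebraMap K L).comp (algebraMap (A ⧸ P) K)).comp (algebraMap A (A ⧸ P)) =
      (dedMap Q L).comp (algebraMap A B) := by
  have comm₁ : (algebraMap K L).comp (algebraMap (A ⧸ P) K) =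
      (algebraMap (B ⧸ Q) L).comp (algebraMap (A ⧸ P) (B ⧸ Q)) := by
    simp_rw [← IsScalarTower.algebraMap_eq]
  have comm₂ : (algebraMap (A ⧸ P) (B ⧸ Q)).comp (algebraMap A (A ⧸ P)) =
      (algebraMap B (B ⧸ Q)).comp (algebraMap A B) := by
    simp_rw [← IsScalarTower.algebraMap_eq]
  rw [comm₁, RingHom.comp_assoc, comm₂, ← RingHom.comp_assoc]
  rfl

omit [Finite G] [Group G] [MulSemiringAction G B] [SMulCommClass G A B]
  [Algebra.IsInvariant A B G] [Q.IsPrime] [IsFractionRing (A ⧸ P) K]
  [IsFractionRing (B ⧸ Q) L] in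
/-- the reduction of `F ∈ A[X]`, seen over `L`, is the image of `F` under `B → L`. -/
theorem ded_map_map (F : A[X]) :
    (((F.map (algebraMap A (A ⧸ P))).map (algebraMap (A ⧸ P) K)).map (algebraMap K L)) =
      (F.map (algebraMap A B)).map (dedMap Q L) := by
  rw [Polynomial.map_map, Polynomial.map_map, Polynomial.map_map, dedMap_comp P Q K L]

omit [Finite G] [Group G] [MulSemiringAction G B] [SMulCommClass G A B]
  [Algebra.IsInvariant A B G] [Q.IsPrime] [IsFractionRing (A ⧸ P) K]
  [IsFractionRing (B ⧸ Q) L] in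
theorem ded_root (F : A[X]) (y : B) (hy : aeval y F = 0) :
    aeval (algebraMap (B ⧸ Q) L (Ideal.Quotient.mk Q y))
      ((F.map (algebraMap A (A ⧸ P))).map (algebraMap (A ⧸ P) K)) = 0 := by
  rw [aeval_def, ← eval_map, ded_map_map P Q K L, eval_map]
  have h2 : eval y (F.map (algebraMap A B)) = 0 := by
    rw [eval_map, ← aeval_def]
    exact hy
  show eval₂ (dedMap Q L) (dedMap Q L y) (F.map (algebraMap A B)) = 0
  rw [eval₂_at_apply, h2, map_zero]

omit [Finite G] [Algebra.IsInvariant A B G] [Q.IsPrime] [Q.LiesOver P] in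
theorem ded_smul_root (F : A[X]) (x : B) (hx : aeval x F = 0) (g : G) :
    aeval (g • x) F = 0 := by
  have h := Polynomial.aeval_algHom_apply (MulSemiringAction.toAlgHom A B g) x F
  rw [hx, map_zero] at h
  exact h

include L in
/-- **(3), congruence form**: if `F ∈ A[X]` is monic with root `x ∈ B` and the reduction of `F`
is irreducible over `K = Frac (A ⧸ P)`, then the stabiliser of `Q` acts transitively on the
conjugates `g • x` modulo `Q`. -/
theorem ded_trans_mod (F : A[X]) (hF : F.Monic)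
    (hirr : Irreducible ((F.map (algebraMap A (A ⧸ P))).map (algebraMap (A ⧸ P) K)))
    (x : B) (hx : aeval x F = 0) (g : G) :
    ∃ σ : G, σ • Q = Q ∧ σ • x - g • x ∈ Q := by
  apply ded_conj G P Q K L x g
  have hF' : ((F.map (algebraMap A (A ⧸ P))).map (algebraMap (A ⧸ P) K)).Monic :=
    (hF.map _).map _
  rw [IsConjRoot,
    ← minpoly.eq_of_irreducible_of_monic hirr (ded_root P Q K L F _ (ded_smul_root G F x hx g)) hF',
    ← minpoly.eq_of_irreducible_of_monic hirr (ded_root P Q K L F _ hx) hF']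

omit [Finite G] [Group G] [MulSemiringAction G B] [SMulCommClass G A B]
  [Algebra.IsInvariant A B G] [Q.IsPrime] [Q.LiesOver P] [IsFractionRing (A ⧸ P) K]
  [IsScalarTower (A ⧸ P) (B ⧸ Q) L] [IsScalarTower (A ⧸ P) K L] [Algebra (A ⧸ P) L]
  [Algebra (A ⧸ P) K] [Algebra K L] [Field K] in
theorem dedMap_eq_of_sub_mem {a b : B} (h : a - b ∈ Q) : dedMap Q L a = dedMap Q L b := by
  unfold dedMap
  rw [RingHom.comp_apply, RingHom.comp_apply, (Ideal.Quotient.eq (I := Q)).mpr h]

include L in
/-- **(3)**: if `B` is a domain, `F ∈ A[X]` is monic with root `x ∈ B` and the reduction of `F`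
is irreducible and separable over `K = Frac (A ⧸ P)`, then the stabiliser of `Q` acts
transitively on the conjugates `g • x`. -/
theorem ded_trans [IsDomain B] (F : A[X]) (hF : F.Monic)
    (hirr : Irreducible ((F.map (algebraMap A (A ⧸ P))).map (algebraMap (A ⧸ P) K)))
    (hsep : ((F.map (algebraMap A (A ⧸ P))).map (algebraMap (A ⧸ P) K)).Separable)
    (x : B) (hx : aeval x F = 0) (g : G) :
    ∃ σ : G, σ • Q = Q ∧ σ • x = g • x := by
  obtain ⟨σ, hσQ, hσ⟩ := ded_trans_mod G P Q K L F hF hirr x hx g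
  refine ⟨σ, hσQ, ?_⟩
  by_contra hne
  have ha : (F.map (algebraMap A B)).IsRoot (σ • x) := by
    rw [IsRoot.def, eval_map, ← aeval_def]
    exact ded_smul_root G F x hx σ
  have hb : (F.map (algebraMap A B)).IsRoot (g • x) := by
    rw [IsRoot.def, eval_map, ← aeval_def]
    exact ded_smul_root G F x hx g
  obtain ⟨H, hH⟩ := dvd_iff_isRoot.mpr ha
  have hb' : H.IsRoot (g • x) := by
    rw [hH, IsRoot.def, eval_mul, eval_sub, eval_X, eval_C] at hb
    rcases mul_eq_zero.mp hb with h | h
    · exact absurd (sub_eq_zero.mp h).symm hne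
    · exact h
  obtain ⟨H', hH'⟩ := dvd_iff_isRoot.mpr hb'
  have hsq : ((X - C (dedMap Q L (σ • x))) * (X - C (dedMap Q L (σ • x)))) ∣
      (((F.map (algebraMap A (A ⧸ P))).map (algebraMap (A ⧸ P) K)).map (algebraMap K L)) := by
    rw [ded_map_map P Q K L, hH, hH', Polynomial.map_mul, Polynomial.map_mul, Polynomial.map_sub,
      map_X, map_C, Polynomial.map_sub, map_X, map_C,
      ← dedMap_eq_of_sub_mem Q L hσ, ← mul_assoc]
    exact dvd_mul_right _ _
  have hunit := (hsep.map (f := algebraMap K L)).squarefree _ hsq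
  exact not_isUnit_X_sub_C _ hunit

include L in
/-- **(3), group form**: `G = Stab(Q) · Stab(x)`. -/
theorem ded_decomp [IsDomain B] (F : A[X]) (hF : F.Monic)
    (hirr : Irreducible ((F.map (algebraMap A (A ⧸ P))).map (algebraMap (A ⧸ P) K)))
    (hsep : ((F.map (algebraMap A (A ⧸ P))).map (algebraMap (A ⧸ P) K)).Separable)
    (x : B) (hx : aeval x F = 0) (g : G) :
    ∃ σ ∈ MulAction.stabilizer G Q, ∃ h ∈ MulAction.stabilizer G x, g = σ * h := by
  obtain ⟨σ, hσQ, hσ⟩ := ded_trans G P Q K L F hF hirr hsep x hx g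
  refine ⟨σ, MulAction.mem_stabilizer_iff.mpr hσQ, σ⁻¹ * g, ?_, by group⟩
  rw [MulAction.mem_stabilizer_iff, mul_smul, ← hσ, inv_smul_smul]

end Dedekind

/-! ### Variants for an arbitrary field receiving `A / (Q ∩ A)` -/

section Variant

variable {A B : Type*} [CommRing A] [CommRing B] [Algebra A B]
  (G : Type*) [Group G] [Finite G] [MulSemiringAction G B] [SMulCommClass G A B]
  [Algebra.IsInvariant A B G] (Q : Ideal B) [Q.IsPrime]
  {K' : Type*} [Field K'] (φ : A →+* K')

/-- Transfer of irreducibility and separability from a field `K'` receiving `A` with kernel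
`Q ∩ A` to the fraction field of `A ⧸ (Q ∩ A)`. -/
theorem ded_transfer (hφ : RingHom.ker φ = Q.under A) (F : A[X]) (hF : F.Monic) :
    (Irreducible (F.map φ) →
      Irreducible ((F.map (algebraMap A (A ⧸ Q.under A))).map
        (algebraMap (A ⧸ Q.under A) (FractionRing (A ⧸ Q.under A))))) ∧
    ((F.map φ).Separable →
      ((F.map (algebraMap A (A ⧸ Q.under A))).map
        (algebraMap (A ⧸ Q.under A) (FractionRing (A ⧸ Q.under A)))).Separable) := by
  haveI : (Q.under A).IsPrime := Ideal.IsPrime.under A Q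
  have hle : ∀ a ∈ Q.under A, φ a = 0 := fun a ha => by
    rw [← hφ] at ha
    exact ha
  let φ' : A ⧸ Q.under A →+* K' := Ideal.Quotient.lift (Q.under A) φ hle
  have hφ' : Function.Injective φ' := by
    rw [injective_iff_map_eq_zero]
    intro a ha
    obtain ⟨a, rfl⟩ := Ideal.Quotient.mk_surjective a
    have h1 : φ a = 0 := ha
    rw [Ideal.Quotient.eq_zero_iff_mem, ← hφ]
    exact h1
  let ι : FractionRing (A ⧸ Q.under A) →+* K' := IsFractionRing.lift hφ'
  have hι : ((F.map (algebraMap A (A ⧸ Q.under A))).map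
        (algebraMap (A ⧸ Q.under A) (FractionRing (A ⧸ Q.under A)))).map ι = F.map φ := by
    rw [Polynomial.map_map, Polynomial.map_map]
    congr 1
    ext a
    show ι (algebraMap _ _ (Ideal.Quotient.mk _ a)) = φ a
    rw [IsFractionRing.lift_algebraMap]
    rfl
  constructor
  · intro h
    rw [← hι] at h
    exact Polynomial.Monic.irreducible_of_irreducible_map ι _ ((hF.map _).map _) h
  · intro h
    rw [← hι] at h
    exact (Polynomial.separable_map ι).mp h

/-- **(3)** for an arbitrary field `K'` receiving `A` with kernel `Q ∩ A`. -/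
theorem ded_trans_of_hom [IsDomain B] (hφ : RingHom.ker φ = Q.under A) (F : A[X])
    (hF : F.Monic) (hirr : Irreducible (F.map φ)) (hsep : (F.map φ).Separable)
    (x : B) (hx : aeval x F = 0) (g : G) :
    ∃ σ : G, σ • Q = Q ∧ σ • x = g • x := by
  haveI : (Q.under A).IsPrime := Ideal.IsPrime.under A Q
  haveI : Q.LiesOver (Q.under A) := ⟨rfl⟩
  letI := FractionRing.liftAlgebra (A ⧸ Q.under A) (FractionRing (B ⧸ Q))
  obtain ⟨h1, h2⟩ := ded_transfer Q φ hφ F hF
  exact ded_trans G (Q.under A) Q (FractionRing (A ⧸ Q.under A)) (FractionRing (B ⧸ Q)) F hF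
    (h1 hirr) (h2 hsep) x hx g

/-- **(3), congruence form** for an arbitrary field `K'` receiving `A` with kernel `Q ∩ A`
(no separability, no domain hypothesis). -/
theorem ded_trans_mod_of_hom (hφ : RingHom.ker φ = Q.under A) (F : A[X])
    (hF : F.Monic) (hirr : Irreducible (F.map φ))
    (x : B) (hx : aeval x F = 0) (g : G) :
    ∃ σ : G, σ • Q = Q ∧ σ • x - g • x ∈ Q := by
  haveI : (Q.under A).IsPrime := Ideal.IsPrime.under A Q
  haveI : Q.LiesOver (Q.under A) := ⟨rfl⟩
  letI := FractionRing.liftAlgebra (A ⧸ Q.under A) (FractionRing (B ⧸ Q))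
  obtain ⟨h1, -⟩ := ded_transfer Q φ hφ F hF
  exact ded_trans_mod G (Q.under A) Q (FractionRing (A ⧸ Q.under A)) (FractionRing (B ⧸ Q)) F hF
    (h1 hirr) x hx g

/-- **(3), group form** for an arbitrary field `K'`: `G = Stab(Q) · Stab(x)`. -/
theorem ded_decomp_of_hom [IsDomain B] (hφ : RingHom.ker φ = Q.under A) (F : A[X])
    (hF : F.Monic) (hirr : Irreducible (F.map φ)) (hsep : (F.map φ).Separable)
    (x : B) (hx : aeval x F = 0) (g : G) :
    ∃ σ ∈ MulAction.stabilizer G Q, ∃ h ∈ MulAction.stabilizer G x, g = σ * h := by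
  obtain ⟨σ, hσQ, hσ⟩ := ded_trans_of_hom G Q φ hφ F hF hirr hsep x hx g
  refine ⟨σ, MulAction.mem_stabilizer_iff.mpr hσQ, σ⁻¹ * g, ?_, by group⟩
  rw [MulAction.mem_stabilizer_iff, mul_smul, ← hσ, inv_smul_smul]

end Variant

end Fermat.Agent.T4.helper75
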