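/-
T4 block (I), I-RED [RED-CUSP1] (helper76, row 1139): the KEY of CUSP1 in the vocabulary of
`helper18_CuspGen` / `helper18_CosetConj`.

For a pair `(E, Eb)` with a primitive element (`helper43.PrimPack A E Eb θ Φ`) and integral
conjugates (`helper18.ConjPackA A θ Φ W π i₀`), `A` over a prime `ℓ`:

* `cosetCompat_of_conj` : `helper18.CosetCompat A E Eb hj hjb (D.cosetK H hj) (D.cosetB H hjb)`
  - every coset expansion of an integral `Y` with `incl Y ∈ L(n ∞)` is `A`-integral, and its
  reduction is the coset expansion of `red Y`.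
  Proof: Euler's formula `Y · Φ'(j, θ) = G(j, θ)` over `A[j]` (`helper43`), transported by the
  `i`-th embedding: `e_i(Y) · Φ'(J_W, Θ_i) = G(J_W, Θ_i)`; `e_i(Y)` is a root of a monic
  polynomial over `A((t))`; `A((t))` is completely integrally closed in `ℚ̄((t))`
  (`T2.helper96.exists_incl_eq_of_monic`); the reduction is determined because
  `red Φ'(J_W, Θ_i) = ē_i(red δ) ≠ 0`.
* `cuspReg_of_conj`, `cuspBar_of_conj`, `regRed_of_conj` : `helper4.CuspRegStatement`,
  `helper4.CuspBarStatement`, `helper4.RegRedStatement` VERBATIM for the pair.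
-/
import Mathlib
import Fermat.Agent.T4.helper18_CosetConj
import Fermat.Agent.T4.helper43_ValIntG

set_option autoImplicit false
set_option linter.unusedSectionVars false
set_option linter.style.haveILetI false

noncomputable section

open HahnSeries IntermediateField AlgebraicCurve ModularCurve Polynomial
open Fermat.Agent.S18.helper19 (Kb kA)
open Fermat.Agent.P2.helper29 (incl red IsInfty InL)
open Fermat.Agent.P2.helper81 (ev₂ ev₂_apply ev₂_C ev₂_X jA jK jBar coeffMap_subtype_injective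
  algHom_ev₂)

namespace Fermat.Agent.T4.helper76

variable {A : ValuationSubring Kb} {E : IntermediateField Kb (LaurentSeries Kb)}
  {Eb : IntermediateField (kA A) (LaurentSeries (kA A))} {θ : LaurentSeries A}
  {Φ : Polynomial (Polynomial A)} {I : Type*} [Fintype I] {W : ℕ} [NeZero W]
  {π : Equiv.Perm I} {i₀ : I}

/-- **KEY of CUSP1**: the coset expansions of the two fibres built from integral conjugates are
compatible with the reduction on integral functions of `L(n ∞)`. -/
theorem cosetCompat_of_conj {ℓ : ℕ} (hℓ : ℓ.Prime) (hA : A.LiesOverPrime ℓ)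
    (H : Fermat.Agent.T4.helper43.PrimPack A E Eb θ Φ)
    (D : Fermat.Agent.T4.helper18.ConjPackA A θ Φ W π i₀)
    (hj : jqModC Kb ∈ E) (hjb : jqModC (kA A) ∈ Eb) :
    Fermat.Agent.T4.helper18.CosetCompat A E Eb hj hjb (D.cosetK H hj) (D.cosetB H hjb) := by
  intro Y n h hb i
  have hint := H.exists_monic_of_inL n _ h
  obtain ⟨G, -, hG⟩ := H.exists_euler_of_weakInt (incl A Y) h.1 hint
    (Fermat.Agent.T4.helper43.isWeakInt_incl A Y)
  obtain ⟨q, hq, hq0⟩ := H.exists_monic_of_incl Y h.1 hint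
  -- notation
  set P := D.cosetK H hj with hP
  set Pb := D.cosetB H hjb with hPb
  set JW : LaurentSeries A := qExpand A W (jqModC A) with hJW
  set Y₁ : LaurentSeries A := ev₂ JW (D.Θ i) G with hY₁
  set Y₂ : LaurentSeries A := ev₂ JW (D.Θ i) (derivative Φ) with hY₂
  set hh : LaurentSeries Kb := P.e i ⟨incl A Y, h.1⟩ with hhh
  have hδdef : Fermat.Agent.T4.helper43.deltaG θ Φ = ev₂ (jqModC A) θ (derivative Φ) := rfl
  -- Euler's formula over `A`
  have hGA : ev₂ (jqModC A) θ G = Y * ev₂ (jqModC A) θ (derivative Φ) := by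
    apply coeffMap_subtype_injective A
    rw [map_mul]
    exact hG
  have hGmem : incl A (ev₂ (jqModC A) θ G) ∈ E := H.incl_ev₂_mem G
  have hδmem : incl A (ev₂ (jqModC A) θ (derivative Φ)) ∈ E := H.incl_ev₂_mem _
  have hGmemb : red A (ev₂ (jqModC A) θ G) ∈ Eb := H.red_ev₂_mem G
  have hδmemb : red A (ev₂ (jqModC A) θ (derivative Φ)) ∈ Eb := H.red_ev₂_mem _
  -- transport by the embeddings of the generic fibre
  have hEK : (⟨incl A (ev₂ (jqModC A) θ G), hGmem⟩ : E) =
      ⟨incl A Y, h.1⟩ * ⟨incl A (ev₂ (jqModC A) θ (derivative Φ)), hδmem⟩ := by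
    apply Subtype.ext
    show incl A (ev₂ (jqModC A) θ G) = incl A Y * incl A (ev₂ (jqModC A) θ (derivative Φ))
    rw [hGA, map_mul]
  have h1 : incl A Y₁ = hh * incl A Y₂ := by
    have := congrArg (P.e i) hEK
    rw [map_mul, D.cosetK_ev₂ H hj i G hGmem, D.cosetK_ev₂ H hj i _ hδmem] at this
    exact this
  -- transport by the embeddings of the special fibre
  have hEB : (⟨red A (ev₂ (jqModC A) θ G), hGmemb⟩ : Eb) =
      ⟨red A Y, hb⟩ * ⟨red A (ev₂ (jqModC A) θ (derivative Φ)), hδmemb⟩ := by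
    apply Subtype.ext
    show red A (ev₂ (jqModC A) θ G) = red A Y * red A (ev₂ (jqModC A) θ (derivative Φ))
    rw [hGA, map_mul]
  have h1b : red A Y₁ = Pb.e i ⟨red A Y, hb⟩ * red A Y₂ := by
    have := congrArg (Pb.e i) hEB
    rw [map_mul, D.cosetB_ev₂ H hjb i G hGmemb, D.cosetB_ev₂ H hjb i _ hδmemb] at this
    exact this
  -- the denominator has nonzero reduction
  have hredY₂ : red A Y₂ ≠ 0 := by
    have h2 : red A Y₂ = Pb.e i ⟨red A (ev₂ (jqModC A) θ (derivative Φ)), hδmemb⟩ :=
      (D.cosetB_ev₂ H hjb i _ hδmemb).symm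
    rw [h2]
    intro h0
    have h3 : (⟨red A (ev₂ (jqModC A) θ (derivative Φ)), hδmemb⟩ : Eb) = 0 :=
      (map_eq_zero (Pb.e i)).mp h0
    have h4 := congrArg Subtype.val h3
    exact H.red_deltaG_ne_zero h4
  have hY₂0 : Y₂ ≠ 0 := fun h0 => hredY₂ (by rw [h0, map_zero])
  -- the monic equation
  have hmonic : Polynomial.eval₂ (coeffMap A.subtype) hh
      (q.map ((aeval JW : Polynomial A →ₐ[A] LaurentSeries A) :
        Polynomial A →+* LaurentSeries A)) = 0 := by
    rw [Polynomial.eval₂_map, Fermat.Agent.S28.helper93.coeffMap_comp_aeval,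
      ← Polynomial.eval₂_map]
    -- the equation in `E`
    set YE : E := ⟨incl A Y, h.1⟩ with hYE
    set jE : E := Fermat.Agent.T4.helper18.jG E hj with hjE
    have hz : ev₂ jE YE (q.map (Polynomial.mapRingHom A.subtype)) = 0 := by
      apply Subtype.val_injective
      have h3 := algHom_ev₂ E.val jE YE (q.map (Polynomial.mapRingHom A.subtype))
      rw [ZeroMemClass.coe_zero]
      refine h3.trans ?_
      have h4 := Fermat.Agent.T4.helper43.PrimPack.incl_ev₂ Y q
      rw [hq0, map_zero] at h4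
      exact h4.symm
    have h5 := Fermat.Agent.T4.helper18.ringHom_ev₂ (k := Kb) (P.e i)
      (fun c => by
        rw [P.e_C, Fermat.Agent.S28.helper93.algebraMap_laurent_eq_C])
      jE YE (q.map (Polynomial.mapRingHom A.subtype))
    rw [hz, map_zero, P.e_j] at h5
    rw [Fermat.Agent.S28.helper81.coeffMap_qExpand, ModularCurve.coeffMap_jqModC]
    exact h5.symm
  obtain ⟨Z, hZ⟩ := Fermat.Agent.T2.helper96.exists_incl_eq_of_monic A hℓ hA hh Y₁ Y₂ hY₂0 h1
    _ (hq.map _) hmonic
  refine ⟨Z, hZ.symm, ?_⟩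
  -- the reduction
  have hZY : Z * Y₂ = Y₁ := by
    apply coeffMap_subtype_injective A
    rw [map_mul]
    show incl A Z * incl A Y₂ = incl A Y₁
    rw [h1]
    congr 1
  have h6 : Pb.e i ⟨red A Y, hb⟩ * red A Y₂ = red A Z * red A Y₂ := by
    rw [← h1b, ← map_mul, hZY]
  exact mul_right_cancel₀ hredY₂ h6

/-- **[CUSP-REG]** for a pair with a primitive element and integral conjugates -/
theorem cuspReg_of_conj {ℓ : ℕ} (hℓ : ℓ.Prime) (hA : A.LiesOverPrime ℓ)
    (H : Fermat.Agent.T4.helper43.PrimPack A E Eb θ Φ)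
    (D : Fermat.Agent.T4.helper18.ConjPackA A θ Φ W π i₀)
    (hj : jqModC Kb ∈ E) (hjb : jqModC (kA A) ∈ Eb) :
    Fermat.Agent.T4.helper4.CuspRegStatement A E Eb hjb :=
  Fermat.Agent.T4.helper18.cuspReg_of_deg (H.deg hj hjb) (D.cosetK H hj) (D.cosetB H hjb)
    (cosetCompat_of_conj hℓ hA H D hj hjb)

/-- **[CUSP-BAR]** for a pair with a primitive element and integral conjugates -/
theorem cuspBar_of_conj
    (H : Fermat.Agent.T4.helper43.PrimPack A E Eb θ Φ)
    (D : Fermat.Agent.T4.helper18.ConjPackA A θ Φ W π i₀)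
    (hj : jqModC Kb ∈ E) (hjb : jqModC (kA A) ∈ Eb) :
    Fermat.Agent.T4.helper4.CuspBarStatement A E Eb hj hjb :=
  Fermat.Agent.T4.helper18.cuspBar_of_deg (H.deg hj hjb) (D.cosetK H hj) (D.cosetB H hjb)

/-- **[VAL-UE]** for a pair with a primitive element and integral conjugates -/
theorem regRed_of_conj {ℓ : ℕ} (hℓ : ℓ.Prime) (hA : A.LiesOverPrime ℓ)
    (H : Fermat.Agent.T4.helper43.PrimPack A E Eb θ Φ)
    (D : Fermat.Agent.T4.helper18.ConjPackA A θ Φ W π i₀) :
    Fermat.Agent.T4.helper4.RegRedStatement A E Eb :=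
  H.regRed H.jB_mem (cuspReg_of_conj hℓ hA H D H.jK_mem H.jB_mem)

end Fermat.Agent.T4.helper76

end
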