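/-
T4 block (I), I-RED [RED-CUSP1] (helper76), part 2a (Mathlib only):

* `exists_of_isIntegral_of_quot` : an element `z` of a field `L ⊇ S` (`S` an integrally closed
  domain) which is a quotient of two elements of `S` and integral over `S` lies in `S`;
* `isIntegrallyClosed_laurentSeries` : `R((t))` is integrally closed for a principal ideal
  domain `R` (Mathlib: `R⟦X⟧` is a unique factorisation domain);
* `exists_pid_subring` : for a valuation subring `A` of a field `Ω` of characteristic `0` over a
  prime `ℓ` and a number field `L ⊆ Ω` there is a subring `R ⊆ A` of `Ω` which is a principal ideal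
  domain and contains `A ∩ L` (the localisation of the ring of integers of `L` at the prime cut
  out by `A`).
-/
import Mathlib

set_option autoImplicit false
set_option linter.style.haveILetI false

open scoped NumberField

namespace Fermat.Agent.T4.helper76

open Polynomial

/-- an element of a field which is a quotient of two elements of an integrally closed domain `S`
and integral over `S` lies in `S` -/
theorem exists_of_isIntegral_of_quot {S L : Type*} [CommRing S] [IsDomain S]
    [IsIntegrallyClosed S] [Field L] (φ : S →+* L) (hφ : Function.Injective φ) (z : L)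
    (n d : S) (hd : d ≠ 0) (h : φ d * z = φ n) (p : Polynomial S) (hp : p.Monic)
    (hz : p.eval₂ φ z = 0) : ∃ y : S, φ y = z := by
  let ψ : FractionRing S →+* L := IsFractionRing.lift hφ
  have hψ : ∀ s : S, ψ (algebraMap S (FractionRing S) s) = φ s := fun s =>
    IsFractionRing.lift_algebraMap hφ s
  have hφd : φ d ≠ 0 := fun h0 => hd (hφ (h0.trans (map_zero φ).symm))
  set w : FractionRing S := algebraMap S (FractionRing S) n / algebraMap S (FractionRing S) d
    with hw
  have hψw : ψ w = z := by
    rw [hw, map_div₀, hψ, hψ, ← h, mul_div_cancel_left₀ _ hφd]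
  have hint : IsIntegral S w := by
    refine ⟨p, hp, ?_⟩
    apply ψ.injective
    rw [map_zero, Polynomial.hom_eval₂, hψw]
    have : ψ.comp (algebraMap S (FractionRing S)) = φ := by
      ext s
      exact hψ s
    rw [this]
    exact hz
  obtain ⟨y, hy⟩ := IsIntegrallyClosed.isIntegral_iff.mp hint
  refine ⟨y, ?_⟩
  rw [← hψ, hy, hψw]

/-- `R((t))` is integrally closed for a principal ideal domain `R` -/
theorem isIntegrallyClosed_laurentSeries (R : Type*) [CommRing R] [IsDomain R]
    [IsPrincipalIdealRing R] : IsIntegrallyClosed (LaurentSeries R) := by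
  haveI : IsIntegrallyClosed (PowerSeries R) := inferInstance
  exact isIntegrallyClosed_of_isLocalization (LaurentSeries R)
    (Submonoid.powers (PowerSeries.X : PowerSeries R))
    (by
      intro x hx
      obtain ⟨n, rfl⟩ := hx
      exact mem_nonZeroDivisors_of_ne_zero (pow_ne_zero n PowerSeries.X_ne_zero))

section Pid

variable {Ω : Type*} [Field Ω]

/-- algebraic integers lie in every valuation subring -/
theorem mem_of_isIntegral_int (A : ValuationSubring Ω) {x : Ω} (hx : IsIntegral ℤ x) :
    x ∈ A := by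
  have h1 : IsIntegral A x := hx.tower_top
  obtain ⟨y, hy⟩ := IsIntegrallyClosed.isIntegral_iff.mp h1
  rw [← hy]
  exact y.2

/-- the localisation of a Dedekind domain `D ⊆ A` at the prime cut out by a valuation ring `A`,
as a subring of `A` -/
theorem exists_pid_subring_of_dedekind (A : ValuationSubring Ω) {D : Type*} [CommRing D]
    [IsDedekindDomain D] (g₀ : D →+* Ω) (hg₀inj : Function.Injective g₀)
    (hint : ∀ a : D, g₀ a ∈ A) (P : Ideal D) [P.IsPrime] (hP : P ≠ ⊥)
    (hmemP : ∀ a : D, a ∈ P ↔ A.valuation (g₀ a) < 1) :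
    ∃ R : Subring Ω, R ≤ A.toSubring ∧ IsPrincipalIdealRing R ∧
      ∀ a b : D, b ≠ 0 → g₀ a / g₀ b ∈ A → g₀ a / g₀ b ∈ R := by
  classical
  have hval_one : ∀ s : D, s ∉ P → A.valuation (g₀ s) = 1 := by
    intro s hs
    rw [hmemP] at hs
    have h1 : A.valuation (g₀ s) ≤ 1 := (A.valuation_le_one_iff _).mpr (hint s)
    exact le_antisymm h1 (not_lt.mp hs)
  haveI : IsDiscreteValuationRing (Localization.AtPrime P) :=
    IsLocalization.AtPrime.isDiscreteValuationRing_of_dedekind_domain D hP
      (Localization.AtPrime P)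
  have hunit : ∀ y : P.primeCompl, IsUnit (g₀ y) := by
    intro y
    apply IsUnit.mk0
    intro h0
    have : (y : D) = 0 := hg₀inj (h0.trans (map_zero g₀).symm)
    exact y.2 (by rw [this]; exact P.zero_mem)
  set ψ : Localization.AtPrime P →+* Ω :=
    IsLocalization.lift (M := P.primeCompl) (g := g₀) hunit with hψdef
  have hψalg : ∀ a : D, ψ (algebraMap D (Localization.AtPrime P) a) = g₀ a := fun a =>
    IsLocalization.lift_eq hunit a
  have hψmk : ∀ (a : D) (s : P.primeCompl),
      ψ (IsLocalization.mk' (Localization.AtPrime P) a s) = g₀ a / g₀ s := by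
    intro a s
    rw [eq_div_iff (hunit s).ne_zero, ← hψalg (s : D), ← map_mul, IsLocalization.mk'_spec]
    exact hψalg a
  have hψval : ∀ y : Localization.AtPrime P, A.valuation (ψ y) ≤ 1 := by
    intro y
    obtain ⟨a, t, rfl⟩ := IsLocalization.exists_mk'_eq P.primeCompl y
    rw [hψmk, map_div₀, hval_one t t.2, div_one]
    exact (A.valuation_le_one_iff _).mpr (hint a)
  have hψmax : ∀ y : Localization.AtPrime P,
      y ∈ IsLocalRing.maximalIdeal (Localization.AtPrime P) → A.valuation (ψ y) < 1 := by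
    intro y hy
    obtain ⟨a, t, rfl⟩ := IsLocalization.exists_mk'_eq P.primeCompl y
    rw [IsLocalization.AtPrime.mk'_mem_maximal_iff (Localization.AtPrime P) P] at hy
    rw [hψmk, map_div₀, hval_one t t.2, div_one]
    exact (hmemP a).mp hy
  have hψunit : ∀ u : (Localization.AtPrime P)ˣ, A.valuation (ψ u) = 1 := by
    intro u
    have h1 := hψval (u : Localization.AtPrime P)
    have h2 := hψval ((u⁻¹ : (Localization.AtPrime P)ˣ) : Localization.AtPrime P)
    have h3 : ψ (u : Localization.AtPrime P) *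
        ψ ((u⁻¹ : (Localization.AtPrime P)ˣ) : Localization.AtPrime P) = 1 := by
      rw [← map_mul, Units.mul_inv, map_one]
    have h4 : A.valuation (ψ (u : Localization.AtPrime P)) *
        A.valuation (ψ ((u⁻¹ : (Localization.AtPrime P)ˣ) : Localization.AtPrime P)) = 1 := by
      rw [← map_mul, h3, map_one]
    apply le_antisymm h1
    by_contra hlt
    rw [not_le] at hlt
    have h5 : A.valuation (ψ (u : Localization.AtPrime P)) *
        A.valuation (ψ ((u⁻¹ : (Localization.AtPrime P)ˣ) : Localization.AtPrime P)) < 1 :=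
      mul_lt_one_of_lt_of_le hlt h2
    rw [h4] at h5
    exact lt_irrefl _ h5
  refine ⟨ψ.range, ?_, ?_, ?_⟩
  · rintro x ⟨y, rfl⟩
    exact (A.valuation_le_one_iff _).mp (hψval y)
  · exact IsPrincipalIdealRing.of_surjective ψ.rangeRestrict ψ.rangeRestrict_surjective
  · intro a b hb0 hxA
    rcases eq_or_ne a 0 with rfl | ha0
    · rw [map_zero, zero_div]
      exact Subring.zero_mem _
    have hinjO : Function.Injective (algebraMap D (Localization.AtPrime P)) :=
      IsLocalization.injective (Localization.AtPrime P) (Ideal.primeCompl_le_nonZeroDivisors P)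
    have haO : algebraMap D (Localization.AtPrime P) a ≠ 0 :=
      fun h0 => ha0 (hinjO (h0.trans (map_zero _).symm))
    have hbO : algebraMap D (Localization.AtPrime P) b ≠ 0 :=
      fun h0 => hb0 (hinjO (h0.trans (map_zero _).symm))
    obtain ⟨ϖ, hϖ⟩ := IsDiscreteValuationRing.exists_irreducible (Localization.AtPrime P)
    obtain ⟨m, u, hu⟩ := IsDiscreteValuationRing.eq_unit_mul_pow_irreducible haO hϖ
    obtain ⟨n, u', hu'⟩ := IsDiscreteValuationRing.eq_unit_mul_pow_irreducible hbO hϖ
    have hψne : ∀ y : Localization.AtPrime P, y ≠ 0 → ψ y ≠ 0 := by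
      intro y hy
      obtain ⟨a', t, rfl⟩ := IsLocalization.exists_mk'_eq P.primeCompl y
      rw [hψmk]
      have ha' : a' ≠ 0 := by
        rintro rfl
        exact hy (IsLocalization.mk'_zero _)
      exact div_ne_zero (fun h0 => ha' (hg₀inj (h0.trans (map_zero g₀).symm))) (hunit t).ne_zero
    have hϖ0 : ψ ϖ ≠ 0 := hψne _ hϖ.ne_zero
    have hu0 : ψ (u : Localization.AtPrime P) ≠ 0 := hψne _ u.ne_zero
    have hu'0 : ψ (u' : Localization.AtPrime P) ≠ 0 := hψne _ u'.ne_zero
    have hga : g₀ a = ψ (u : Localization.AtPrime P) * ψ ϖ ^ m := by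
      rw [← hψalg, hu, map_mul, map_pow]
    have hgb : g₀ b = ψ (u' : Localization.AtPrime P) * ψ ϖ ^ n := by
      rw [← hψalg, hu', map_mul, map_pow]
    have hx0 : g₀ a / g₀ b ≠ 0 := by
      rw [hga, hgb]
      exact div_ne_zero (mul_ne_zero hu0 (pow_ne_zero _ hϖ0)) (mul_ne_zero hu'0 (pow_ne_zero _ hϖ0))
    rcases le_or_gt n m with hnm | hnm
    · refine ⟨(u : Localization.AtPrime P) *
        ((u'⁻¹ : (Localization.AtPrime P)ˣ) : Localization.AtPrime P) * ϖ ^ (m - n), ?_⟩
      have hinv : ψ ((u'⁻¹ : (Localization.AtPrime P)ˣ) : Localization.AtPrime P) =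
          (ψ (u' : Localization.AtPrime P))⁻¹ := by
        apply eq_inv_of_mul_eq_one_left
        rw [← map_mul, Units.inv_mul, map_one]
      rw [map_mul, map_mul, map_pow, hinv, hga, hgb]
      obtain ⟨c, rfl⟩ := Nat.exists_eq_add_of_le hnm
      rw [Nat.add_sub_cancel_left, pow_add]
      field_simp
    · exfalso
      obtain ⟨c, rfl⟩ := Nat.exists_eq_add_of_lt hnm
      have hxinv : (g₀ a / g₀ b)⁻¹ =
          ψ (u' : Localization.AtPrime P) * (ψ (u : Localization.AtPrime P))⁻¹ *
            ψ ϖ ^ (c + 1) := by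
        rw [hga, hgb, inv_div]
        rw [show m + c + 1 = m + (c + 1) by ring, pow_add]
        field_simp
      have hϖmax : ϖ ∈ IsLocalRing.maximalIdeal (Localization.AtPrime P) := by
        rw [IsLocalRing.mem_maximalIdeal, mem_nonunits_iff]
        exact hϖ.not_isUnit
      have h1 : A.valuation (g₀ a / g₀ b)⁻¹ < 1 := by
        rw [hxinv, map_mul, map_mul, map_inv₀, hψunit u, hψunit u', inv_one, mul_one, one_mul,
          map_pow]
        exact pow_lt_one₀ zero_le' (hψmax ϖ hϖmax) (Nat.succ_ne_zero c)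
      have h2 : A.valuation (g₀ a / g₀ b) ≤ 1 := (A.valuation_le_one_iff _).mpr hxA
      have h3 : A.valuation (g₀ a / g₀ b) * A.valuation (g₀ a / g₀ b)⁻¹ = 1 := by
        rw [← map_mul, mul_inv_cancel₀ hx0, map_one]
      have h4 : A.valuation (g₀ a / g₀ b) * A.valuation (g₀ a / g₀ b)⁻¹ < 1 := by
        rw [mul_comm]
        exact mul_lt_one_of_lt_of_le h1 h2
      rw [h3] at h4
      exact lt_irrefl _ h4

variable [CharZero Ω]

/-- **A principal ideal domain inside a valuation ring of `ℚ̄`** containing its intersection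
with a given number field. -/
theorem exists_pid_subring (A : ValuationSubring Ω) {ℓ : ℕ} (hℓ0 : ℓ ≠ 0)
    (hA : (ℓ : Ω) ∈ A.nonunits) (L : IntermediateField ℚ Ω) [FiniteDimensional ℚ L] :
    ∃ R : Subring Ω, R ≤ A.toSubring ∧ IsPrincipalIdealRing R ∧
      ∀ x : Ω, x ∈ L → x ∈ A → x ∈ R := by
  classical
  haveI : NumberField L := { }
  have hg₀inj : Function.Injective ((algebraMap L Ω).comp (algebraMap (𝓞 L) L)) :=
    (algebraMap L Ω).injective.comp (FaithfulSMul.algebraMap_injective (𝓞 L) L)
  have hint : ∀ a : 𝓞 L, ((algebraMap L Ω).comp (algebraMap (𝓞 L) L)) a ∈ A := by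
    intro a
    apply mem_of_isIntegral_int
    have h1 : IsIntegral ℤ ((algebraMap (𝓞 L) L) a) := NumberField.RingOfIntegers.isIntegral_coe a
    exact h1.map (IsScalarTower.toAlgHom ℤ L Ω)
  have hP : ∃ P : Ideal (𝓞 L), P.IsPrime ∧ P ≠ ⊥ ∧
      ∀ a : 𝓞 L, a ∈ P ↔ A.valuation (((algebraMap L Ω).comp (algebraMap (𝓞 L) L)) a) < 1 := by
    refine ⟨Ideal.comap (((algebraMap L Ω).comp (algebraMap (𝓞 L) L)).codRestrict A.toSubring
      hint) (IsLocalRing.maximalIdeal A), Ideal.comap_isPrime _ _, ?_, ?_⟩
    · intro h0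
      have h1 : ((ℓ : ℕ) : 𝓞 L) ∈ Ideal.comap
          (((algebraMap L Ω).comp (algebraMap (𝓞 L) L)).codRestrict A.toSubring hint)
          (IsLocalRing.maximalIdeal A) := by
        rw [Ideal.mem_comap, A.valuation_lt_one_iff]
        have h2 : A.valuation (ℓ : Ω) < 1 := (ValuationSubring.mem_nonunits_iff A).mp hA
        simpa using h2
      rw [h0, Ideal.mem_bot] at h1
      exact hℓ0 (by exact_mod_cast h1)
    · intro a
      rw [Ideal.mem_comap, A.valuation_lt_one_iff]
      rfl
  obtain ⟨P, hPprime, hPne, hmemP⟩ := hP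
  obtain ⟨R, hRA, hRpid, hR⟩ := exists_pid_subring_of_dedekind A
    ((algebraMap L Ω).comp (algebraMap (𝓞 L) L)) hg₀inj hint P hPne hmemP
  refine ⟨R, hRA, hRpid, ?_⟩
  intro x hxL hxA
  obtain ⟨a, b, hb, hab⟩ := IsFractionRing.div_surjective (A := 𝓞 L) (⟨x, hxL⟩ : L)
  have hb0 : b ≠ 0 := nonZeroDivisors.ne_zero hb
  have hx : x = ((algebraMap L Ω).comp (algebraMap (𝓞 L) L)) a /
      ((algebraMap L Ω).comp (algebraMap (𝓞 L) L)) b := by
    have := congrArg (algebraMap L Ω) hab
    rw [map_div₀] at this
    exact this.symm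
  rw [hx]
  apply hR a b hb0
  rw [← hx]
  exact hxA

end Pid

end Fermat.Agent.T4.helper76
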