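/-
T4 block (I), I-RED [RED-CUSP1] (helper76), part 2b: INTEGRALITY AT A COSET.

`coset_integrality`: let `(θ, Φ)` be a primitive element of `E` as in `helper4.PrimStatement`,
`σ0 : E →+* C((t))` and `σb : Eb →+* k((t))` ring homomorphisms ("expansions at a coset") with

  `σ0 j = j(t^W)`, `σb j̃ = j̃(t^W)`, `σ0 θ = Θ`, `σb θ̃ = red Θ`

for an `A`-integral series `Θ` whose coefficients lie in a number field.  Then for EVERY integral
series `Y` of `E` which satisfies Euler's formula `Y · ∂Φ(j, θ) = G(j, θ)`, `G ∈ A[X][Y]`, and a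
monic equation over `A[j]` (both are consequences of `Y ∈ L(n ∞)`: VAL package), the expansion
`σ0 Y` is `A`-integral and its reduction is `σb (red Y)`.

No information on leading coefficients is needed: `σ0 Y = N / D` with `N, D ∈ R((t))`, `R ⊆ A` a
discrete valuation ring of a number field, `σ0 Y` is integral over `R((t))`, and `R((t))` is
integrally closed (`helper76_PidSub`).
-/
import Mathlib
import Fermat.Agent.T4.helper76_Cusp1Dict
import Fermat.Agent.T4.helper76_PidSub

set_option autoImplicit false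
set_option linter.unusedSectionVars false
set_option linter.style.haveILetI false
set_option synthInstance.maxHeartbeats 400000

noncomputable section

open HahnSeries IntermediateField AlgebraicCurve ModularCurve Polynomial
open Fermat.Agent.S18.helper19 (Kb kA FF FFb)
open Fermat.Agent.P2.helper29 (incl red IsInfty InL)

namespace Fermat.Agent.T4.helper76

open Fermat.Agent.P2 Fermat.Agent.S28

/-! ### Evaluation of two-variable polynomials -/

/-- evaluation of a two-variable polynomial at a pair of Laurent series -/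
abbrev evL (R : Type*) [CommRing R] (x y : LaurentSeries R) (P : Polynomial (Polynomial R)) :
    LaurentSeries R :=
  eval₂ ((aeval x : Polynomial R →ₐ[R] LaurentSeries R) : Polynomial R →+* LaurentSeries R) y P

theorem coeffMap_evL {R S : Type*} [CommRing R] [CommRing S] (f : R →+* S)
    (x y : LaurentSeries R) (P : Polynomial (Polynomial R)) :
    coeffMap f (evL R x y P) = evL S (coeffMap f x) (coeffMap f y) (P.map (mapRingHom f)) :=
  helper28.coeffMap_eval₂_aeval f x y P

section Hom

variable {K : Type*} [Field K] (F : IntermediateField K (LaurentSeries K))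
  {C : Type*} [Field C] (ι : K →+* C) (σ : F →+* LaurentSeries C)
  (hσc : ∀ c : K, σ (algebraMap K F c) = HahnSeries.C (ι c))

/-- evaluation inside the field `F` -/
def evF (x y : F) (P : Polynomial (Polynomial K)) : F :=
  eval₂ ((aeval x : Polynomial K →ₐ[K] F) : Polynomial K →+* F) y P

theorem coe_evF (x y : F) (P : Polynomial (Polynomial K)) :
    ((evF F x y P : F) : LaurentSeries K) = evL K (x : LaurentSeries K) y P := by
  have h : (F.val : F →+* LaurentSeries K).comp
      ((aeval x : Polynomial K →ₐ[K] F) : Polynomial K →+* F) =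
      ((aeval (x : LaurentSeries K) : Polynomial K →ₐ[K] LaurentSeries K) :
        Polynomial K →+* LaurentSeries K) := by
    apply Polynomial.ringHom_ext
    · intro c
      simp
    · simp
  show (F.val : F →+* LaurentSeries K) (evF F x y P) = _
  rw [evF, Polynomial.hom_eval₂, h]
  rfl

include hσc in
theorem map_evF (x y : F) (P : Polynomial (Polynomial K)) :
    σ (evF F x y P) = evL C (σ x) (σ y) (P.map (mapRingHom ι)) := by
  have h : σ.comp ((aeval x : Polynomial K →ₐ[K] F) : Polynomial K →+* F) =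
      (((aeval (σ x) : Polynomial C →ₐ[C] LaurentSeries C) :
        Polynomial C →+* LaurentSeries C)).comp (mapRingHom ι) := by
    apply Polynomial.ringHom_ext
    · intro c
      simp only [RingHom.comp_apply, RingHom.coe_coe, aeval_C, coe_mapRingHom, Polynomial.map_C]
      rw [hσc, helper93.algebraMap_laurent_eq_C]
    · simp
  rw [evF, Polynomial.hom_eval₂, h, evL, eval₂_map]

end Hom

/-! ### Lifting coefficients to a subring -/

section Lift

variable {S T : Type*} [CommRing S] [CommRing T] (f : S →+* T)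

theorem map_mapRingHom_comp' {A B C : Type*} [CommRing A] [CommRing B] [CommRing C]
    (f : A →+* B) (g : B →+* C) (P : Polynomial (Polynomial A)) :
    (P.map (Polynomial.mapRingHom f)).map (Polynomial.mapRingHom g) =
      P.map (Polynomial.mapRingHom (g.comp f)) := by
  rw [Polynomial.map_map]
  congr 1
  exact RingHom.ext fun p => Polynomial.map_map f g p

theorem exists_map₂_eq (G : Polynomial (Polynomial T))
    (h : ∀ n m, (G.coeff n).coeff m ∈ Set.range f) :
    ∃ G' : Polynomial (Polynomial S), G'.map (mapRingHom f) = G := by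
  have h1 : G ∈ Polynomial.lifts (mapRingHom f) := by
    rw [Polynomial.lifts_iff_coeff_lifts]
    intro n
    have h2 : G.coeff n ∈ Polynomial.lifts f := by
      rw [Polynomial.lifts_iff_coeff_lifts]
      exact h n
    obtain ⟨q, hq⟩ := (Polynomial.mem_lifts _).mp h2
    exact ⟨q, hq⟩
  exact (Polynomial.mem_lifts _).mp h1

theorem exists_map₂_eq_monic (G : Polynomial (Polynomial T)) (hG : G.Monic)
    (h : ∀ n m, (G.coeff n).coeff m ∈ Set.range f) :
    ∃ G' : Polynomial (Polynomial S), G'.map (mapRingHom f) = G ∧ G'.Monic := by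
  have h1 : G ∈ Polynomial.lifts (mapRingHom f) := by
    rw [Polynomial.lifts_iff_coeff_lifts]
    intro n
    have h2 : G.coeff n ∈ Polynomial.lifts f := by
      rw [Polynomial.lifts_iff_coeff_lifts]
      exact h n
    obtain ⟨q, hq⟩ := (Polynomial.mem_lifts _).mp h2
    exact ⟨q, hq⟩
  obtain ⟨q, hq, -, hqm⟩ := Polynomial.lifts_and_natDegree_eq_and_monic h1 hG
  exact ⟨q, hq, hqm⟩

end Lift

/-! ### Integrality at a coset -/

section Main

variable (A : ValuationSubring Kb) (E : IntermediateField Kb (LaurentSeries Kb))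
  (Eb : IntermediateField (kA A) (LaurentSeries (kA A)))
  (hj : jqModC Kb ∈ E) (hjb : jqModC (kA A) ∈ Eb)

/-- **integrality at a coset**, with a principal ideal domain `R ⊆ A` containing all the
coefficients -/
theorem coset_integrality_core {C : Type*} [Field C] (ι : Kb →+* C) (W : ℕ) [NeZero W]
    (σ0 : E →+* LaurentSeries C) (σb : Eb →+* LaurentSeries (kA A))
    (hσ0c : ∀ c : Kb, σ0 (algebraMap Kb E c) = HahnSeries.C (ι c))
    (hσ0j : σ0 (jElt E hj) = qExpand C W (jqModC C))
    (hσbc : ∀ c : kA A, σb (algebraMap (kA A) Eb c) = HahnSeries.C c)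
    (hσbj : σb (jElt Eb hjb) = qExpand (kA A) W (jqModC (kA A)))
    (θ Θ : LaurentSeries A) (hθE : incl A θ ∈ E) (hθb : red A θ ∈ Eb)
    (hσ0θ : σ0 ⟨incl A θ, hθE⟩ = coeffMap ι (incl A Θ))
    (hσbθ : σb ⟨red A θ, hθb⟩ = red A Θ)
    (Φ : Polynomial (Polynomial A))
    (hsep : evL (kA A) (jqModC (kA A)) (red A θ)
      (derivative (Φ.map (mapRingHom (IsLocalRing.residue A)))) ≠ 0)
    (Y : LaurentSeries A) (hY : incl A Y ∈ E) (hYb : red A Y ∈ Eb)
    (G p : Polynomial (Polynomial A))
    (hG : evL A (jqModC A) θ G = Y * evL A (jqModC A) θ (derivative Φ))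
    (hp : p.Monic) (hp0 : evL A (jqModC A) Y p = 0)
    (R : Subring Kb) (hRA : R ≤ A.toSubring) [IsPrincipalIdealRing R]
    (hΘR : ∀ n, ((Θ.coeff n : A) : Kb) ∈ R)
    (hGR : ∀ n m, (((G.coeff n).coeff m : A) : Kb) ∈ R)
    (hΦR : ∀ n m, (((Φ.coeff n).coeff m : A) : Kb) ∈ R)
    (hpR : ∀ n m, (((p.coeff n).coeff m : A) : Kb) ∈ R) :
    ∃ Z : LaurentSeries A, coeffMap ι (incl A Z) = σ0 ⟨incl A Y, hY⟩ ∧
      red A Z = σb ⟨red A Y, hYb⟩ := by
  classical
  -- the inclusion `R → A`
  let f : R →+* A := (R.subtype).codRestrict A (fun x => hRA x.2)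
  have hfsub : (A.subtype : A →+* Kb).comp f = R.subtype := rfl
  have hfrange : ∀ a : A, (a : Kb) ∈ R → a ∈ Set.range f := fun a ha => ⟨⟨a, ha⟩, rfl⟩
  have hιA : Function.Injective (ι.comp (A.subtype : A →+* Kb)) :=
    ι.injective.comp Subtype.val_injective
  have hιR : Function.Injective (ι.comp R.subtype) :=
    ι.injective.comp Subtype.val_injective
  -- lifts
  obtain ⟨ΘR, hΘR'⟩ := helper93.exists_coeffMap_eq f Θ (fun n => hfrange _ (hΘR n))
  obtain ⟨GR, hGR'⟩ := exists_map₂_eq f G (fun n m => hfrange _ (hGR n m))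
  obtain ⟨ΦR, hΦR'⟩ := exists_map₂_eq f Φ (fun n m => hfrange _ (hΦR n m))
  obtain ⟨pR, hpR', hpRm⟩ := exists_map₂_eq_monic f p hp (fun n m => hfrange _ (hpR n m))
  -- the series `j(t^W)`
  set JR : LaurentSeries R := qExpand R W (jqModC R) with hJR
  set JA : LaurentSeries A := qExpand A W (jqModC A) with hJA
  have hJRA : coeffMap f JR = JA := by
    rw [hJR, hJA, helper81.coeffMap_qExpand, coeffMap_jqModC]
  have hJAC : coeffMap (ι.comp (A.subtype : A →+* Kb)) JA = qExpand C W (jqModC C) := by
    rw [hJA, helper81.coeffMap_qExpand, coeffMap_jqModC]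
  have hJAk : red A JA = qExpand (kA A) W (jqModC (kA A)) := by
    rw [hJA, helper81.coeffMap_qExpand, coeffMap_jqModC]
  -- numerator and denominator
  set NR : LaurentSeries R := evL R JR ΘR GR with hNR
  set DR : LaurentSeries R := evL R JR ΘR (derivative ΦR) with hDR
  set N : LaurentSeries A := evL A JA Θ G with hN
  set D : LaurentSeries A := evL A JA Θ (derivative Φ) with hD
  have hNRN : coeffMap f NR = N := by
    rw [hNR, hN, coeffMap_evL, hJRA, hΘR', hGR']
  have hDRD : coeffMap f DR = D := by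
    rw [hDR, hD, coeffMap_evL, hJRA, hΘR', ← Polynomial.derivative_map, hΦR']
  set φA : LaurentSeries A →+* LaurentSeries C := coeffMap (ι.comp (A.subtype : A →+* Kb))
    with hφA
  set φR : LaurentSeries R →+* LaurentSeries C := coeffMap (ι.comp R.subtype) with hφR
  have hφRA : ∀ x : LaurentSeries R, φR x = φA (coeffMap f x) := by
    intro x
    rw [hφR, hφA, coeffMap_coeffMap]
    rfl
  have hφAincl : ∀ x : LaurentSeries A, φA x = coeffMap ι (incl A x) := by
    intro x
    rw [hφA, coeffMap_coeffMap]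
  have hφAinj : Function.Injective φA := helper93.coeffMap_injective' _ hιA
  have hφRinj : Function.Injective φR := helper93.coeffMap_injective' _ hιR
  -- the elements of `E`
  set jE : E := jElt E hj with hjE
  set θE : E := ⟨incl A θ, hθE⟩ with hθEdef
  set YE : E := ⟨incl A Y, hY⟩ with hYE
  have hcoeE : ∀ P : Polynomial (Polynomial A),
      ((evF E jE θE (P.map (mapRingHom (A.subtype : A →+* Kb))) : E) : LaurentSeries Kb) =
        incl A (evL A (jqModC A) θ P) := by
    intro P
    rw [coe_evF, coeffMap_evL, coeffMap_jqModC]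
    rfl
  have hσ0E : ∀ P : Polynomial (Polynomial A),
      σ0 (evF E jE θE (P.map (mapRingHom (A.subtype : A →+* Kb)))) = φA (evL A JA Θ P) := by
    intro P
    rw [map_evF E ι σ0 hσ0c, hσ0j, hθEdef, hσ0θ, map_mapRingHom_comp', hφA,
      coeffMap_evL, hJAC, ← hφA, hφAincl]
  -- Euler's formula at the coset, characteristic `0`
  have hEulerE : evF E jE θE (G.map (mapRingHom (A.subtype : A →+* Kb))) =
      YE * evF E jE θE ((derivative Φ).map (mapRingHom (A.subtype : A →+* Kb))) := by
    apply Subtype.ext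
    rw [MulMemClass.coe_mul, hcoeE, hcoeE, hG, map_mul]
  have hEuler0 : φA N = σ0 YE * φA D := by
    have := congrArg σ0 hEulerE
    rw [map_mul, hσ0E, hσ0E] at this
    exact this
  -- the same in characteristic `ℓ`
  set jb : Eb := jElt Eb hjb with hjbdef
  set θb : Eb := ⟨red A θ, hθb⟩ with hθbdef
  set Yb : Eb := ⟨red A Y, hYb⟩ with hYbdef
  have hcoeb : ∀ P : Polynomial (Polynomial A),
      ((evF Eb jb θb (P.map (mapRingHom (IsLocalRing.residue A))) : Eb) :
        LaurentSeries (kA A)) = red A (evL A (jqModC A) θ P) := by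
    intro P
    rw [coe_evF, coeffMap_evL, coeffMap_jqModC]
    rfl
  have hσbE : ∀ P : Polynomial (Polynomial A),
      σb (evF Eb jb θb (P.map (mapRingHom (IsLocalRing.residue A)))) =
        red A (evL A JA Θ P) := by
    intro P
    have hid : ∀ Q : Polynomial (Polynomial (kA A)),
        Q.map (mapRingHom (RingHom.id (kA A))) = Q := by
      intro Q
      rw [Polynomial.mapRingHom_id, Polynomial.map_id]
    rw [map_evF Eb (RingHom.id (kA A)) σb (fun c => by rw [hσbc]; rfl), hσbj, hθbdef, hσbθ,
      hid, coeffMap_evL, hJAk]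
  have hEulerb : evF Eb jb θb (G.map (mapRingHom (IsLocalRing.residue A))) =
      Yb * evF Eb jb θb ((derivative Φ).map (mapRingHom (IsLocalRing.residue A))) := by
    apply Subtype.ext
    rw [MulMemClass.coe_mul, hcoeb, hcoeb, hG, map_mul]
  have hEulerb' : red A N = σb Yb * red A D := by
    have := congrArg σb hEulerb
    rw [map_mul, hσbE, hσbE] at this
    exact this
  -- separability: the reduction of the denominator is nonzero
  have hredD : red A D ≠ 0 := by
    rw [hD, ← hσbE]
    apply (map_ne_zero σb).mpr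
    intro h0
    apply hsep
    have h1 := hcoeb (derivative Φ)
    rw [h0] at h1
    rw [Polynomial.derivative_map, ← coeffMap_jqModC (IsLocalRing.residue A), ← coeffMap_evL]
    exact h1.symm
  have hDR0 : DR ≠ 0 := by
    intro h0
    apply hredD
    rw [← hDRD, h0, map_zero, map_zero]
  -- integrality of the expansion
  have hpE : evF E jE YE (p.map (mapRingHom (A.subtype : A →+* Kb))) = 0 := by
    apply Subtype.ext
    rw [coe_evF]
    have := congrArg (incl A) hp0
    rw [coeffMap_evL, coeffMap_jqModC, map_zero] at this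
    exact this
  have hint : (pR.map ((aeval JR : Polynomial R →ₐ[R] LaurentSeries R) :
      Polynomial R →+* LaurentSeries R)).eval₂ φR (σ0 YE) = 0 := by
    rw [Polynomial.eval₂_map, hφR, helper93.coeffMap_comp_aeval, ← Polynomial.eval₂_map]
    have h1 : coeffMap (ι.comp R.subtype) JR = qExpand C W (jqModC C) := by
      rw [hJR, helper81.coeffMap_qExpand, coeffMap_jqModC]
    have h2 : pR.map (mapRingHom (ι.comp R.subtype)) =
        (p.map (mapRingHom (A.subtype : A →+* Kb))).map (mapRingHom ι) := by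
      rw [← hpR', map_mapRingHom_comp', map_mapRingHom_comp']
      rfl
    rw [h1, h2]
    have h3 := congrArg σ0 hpE
    rw [map_evF E ι σ0 hσ0c, hσ0j, map_zero] at h3
    exact h3
  haveI : IsIntegrallyClosed (LaurentSeries R) := isIntegrallyClosed_laurentSeries R
  obtain ⟨ZR, hZR⟩ := exists_of_isIntegral_of_quot φR hφRinj (σ0 YE) NR DR hDR0
    (by rw [hφRA, hφRA, hDRD, hNRN, hEuler0, mul_comm])
    (pR.map ((aeval JR : Polynomial R →ₐ[R] LaurentSeries R) :
      Polynomial R →+* LaurentSeries R)) (hpRm.map _) hint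
  refine ⟨coeffMap f ZR, ?_, ?_⟩
  · rw [← hφAincl, ← hφRA, hZR]
  · have hZD : coeffMap f ZR * D = N := by
      apply hφAinj
      rw [map_mul, ← hφRA, hZR, hEuler0]
    have h1 : red A (coeffMap f ZR) * red A D = σb Yb * red A D := by
      rw [← map_mul, hZD, hEulerb']
    exact mul_right_cancel₀ hredD h1

/-- the (finite) set of coefficients of a two-variable polynomial -/
def coeffs₂ (P : Polynomial (Polynomial A)) : Finset Kb :=
  P.support.biUnion fun n => (P.coeff n).support.image fun m => (((P.coeff n).coeff m : A) : Kb)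

theorem coeff_mem_coeffs₂ (P : Polynomial (Polynomial A)) (n m : ℕ)
    (h : (P.coeff n).coeff m ≠ 0) : (((P.coeff n).coeff m : A) : Kb) ∈ coeffs₂ A P := by
  rw [coeffs₂, Finset.mem_biUnion]
  refine ⟨n, ?_, Finset.mem_image.mpr ⟨m, ?_, rfl⟩⟩
  · rw [Polynomial.mem_support_iff]
    intro h0
    apply h
    rw [h0, Polynomial.coeff_zero]
  · rw [Polynomial.mem_support_iff]
    exact h

/-- **Integrality at a coset.**  The expansion at a coset of an integral series of `E` which
satisfies Euler's formula and a monic equation over `A[j]` is `A`-integral, and its reduction is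
the reduced expansion of the reduction. -/
theorem coset_integrality {ℓ : ℕ} (hℓ0 : ℓ ≠ 0) (hA : A.LiesOverPrime ℓ)
    {C : Type*} [Field C] (ι : Kb →+* C) (W : ℕ) [NeZero W]
    (σ0 : E →+* LaurentSeries C) (σb : Eb →+* LaurentSeries (kA A))
    (hσ0c : ∀ c : Kb, σ0 (algebraMap Kb E c) = HahnSeries.C (ι c))
    (hσ0j : σ0 (jElt E hj) = qExpand C W (jqModC C))
    (hσbc : ∀ c : kA A, σb (algebraMap (kA A) Eb c) = HahnSeries.C c)
    (hσbj : σb (jElt Eb hjb) = qExpand (kA A) W (jqModC (kA A)))
    (θ Θ : LaurentSeries A) (hθE : incl A θ ∈ E) (hθb : red A θ ∈ Eb)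
    (hσ0θ : σ0 ⟨incl A θ, hθE⟩ = coeffMap ι (incl A Θ))
    (hσbθ : σb ⟨red A θ, hθb⟩ = red A Θ)
    (hΘL : ∃ L₀ : IntermediateField ℚ Kb, FiniteDimensional ℚ L₀ ∧
      ∀ n, ((Θ.coeff n : A) : Kb) ∈ L₀)
    (Φ : Polynomial (Polynomial A))
    (hsep : evL (kA A) (jqModC (kA A)) (red A θ)
      (derivative (Φ.map (mapRingHom (IsLocalRing.residue A)))) ≠ 0)
    (Y : LaurentSeries A) (hY : incl A Y ∈ E) (hYb : red A Y ∈ Eb)
    (G p : Polynomial (Polynomial A))
    (hG : evL A (jqModC A) θ G = Y * evL A (jqModC A) θ (derivative Φ))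
    (hp : p.Monic) (hp0 : evL A (jqModC A) Y p = 0) :
    ∃ Z : LaurentSeries A, coeffMap ι (incl A Z) = σ0 ⟨incl A Y, hY⟩ ∧
      red A Z = σb ⟨red A Y, hYb⟩ := by
  classical
  obtain ⟨L₀, hL₀fd, hL₀⟩ := hΘL
  haveI := hL₀fd
  set S : Finset Kb := coeffs₂ A G ∪ coeffs₂ A Φ ∪ coeffs₂ A p with hS
  haveI : FiniteDimensional ℚ (IntermediateField.adjoin ℚ (S : Set Kb)) :=
    IntermediateField.finiteDimensional_adjoin
      (fun x _ => ((AlgebraicClosure.isAlgebraic ℚ).isAlgebraic x).isIntegral)
  set L : IntermediateField ℚ Kb := L₀ ⊔ IntermediateField.adjoin ℚ (S : Set Kb) with hL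
  haveI : FiniteDimensional ℚ L := IntermediateField.finiteDimensional_sup _ _
  obtain ⟨R, hRA, hRpid, hR⟩ := exists_pid_subring A hℓ0 hA L
  haveI := hRpid
  have hSL : ∀ x ∈ S, x ∈ L := fun x hx =>
    (le_sup_right : IntermediateField.adjoin ℚ (S : Set Kb) ≤ L)
      (IntermediateField.subset_adjoin ℚ _ hx)
  have hcoef : ∀ P : Polynomial (Polynomial A), coeffs₂ A P ⊆ S →
      ∀ n m, (((P.coeff n).coeff m : A) : Kb) ∈ R := by
    intro P hP n m
    by_cases h0 : (P.coeff n).coeff m = 0
    · rw [h0]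
      exact Subring.zero_mem _
    · exact hR _ (hSL _ (hP (coeff_mem_coeffs₂ A P n m h0))) ((P.coeff n).coeff m).2
  refine coset_integrality_core A E Eb hj hjb ι W σ0 σb hσ0c hσ0j hσbc hσbj θ Θ hθE hθb hσ0θ
    hσbθ Φ hsep Y hY hYb G p hG hp hp0 R hRA ?_ ?_ ?_ ?_
  · intro n
    exact hR _ ((le_sup_left : L₀ ≤ L) (hL₀ n)) (Θ.coeff n).2
  · exact hcoef G (fun x hx => by
      rw [hS]
      exact Finset.mem_union_left _ (Finset.mem_union_left _ hx))
  · exact hcoef Φ (fun x hx => by
      rw [hS]
      exact Finset.mem_union_left _ (Finset.mem_union_right _ hx))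
  · exact hcoef p (fun x hx => by
      rw [hS]
      exact Finset.mem_union_right _ hx)

end Main

end Fermat.Agent.T4.helper76

end
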