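import Fermat.Agent.T4.helper1_TateFibre
import Fermat.Agent.T4.helper79_EigenChar1

/-!
# T4 (I) [I-EIGEN1-ASM] (helper76): `Eigen1Statement` from a generic Tate datum at level `Γ₁(M)`

`Tate1Statement` : for every good level `M` and odd prime `ℓ` there is a generic Tate datum
(`helper1.GenTateDatum`) for the Hecke algebra `heckeAlgebra1 M 2` of `S₂(Γ₁(M))` with its
generators `T_p` (`p ∤ M`) and `⟨d⟩`, unramified at the inertia groups at `p ∤ M ℓ`, with the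
Eichler-Shimura relation `φ² - T_p φ + p ⟨p⟩ = 0` at Frobenius lifts `φ` at `p ∤ M ℓ`.

`eigen1_of_tate1 : Tate1Statement → helper32.Eigen1Statement`.
-/

set_option autoImplicit false

noncomputable section

namespace Fermat.Agent.T4.helper76

open CongruenceSubgroup
open Fermat.Agent.T4.helper1 Fermat.Agent.T4.helper79
open Fermat.Agent.T4.helper80 (GQ Zbar)

/-- The unramified set: inertia at the places over primes `p ∤ M ℓ`. -/
def unrSet1 (M ℓ : ℕ) : Set GalQ :=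
  {σ | ∃ p : ℕ, p.Prime ∧ ¬ p ∣ M * ℓ ∧ ∃ A : ValuationSubring (AlgebraicClosure ℚ),
    A.LiesOverPrime p ∧ σ ∈ A.inertiaSubgroupIn ℚ}

/-- The Eichler-Shimura set: `(φ, T_p, p, ⟨p⟩)` for Frobenius lifts `φ` at `p ∤ M ℓ`. -/
def esSet1 (M ℓ : ℕ) [NeZero M] : Set (GalQ × Gen1 M × ℤ × Gen1 M) :=
  {e | ∃ (p : ℕ) (hp : p.Prime) (hpM : ¬ p ∣ M), ¬ p ∣ M * ℓ ∧
    (∃ A : ValuationSubring (AlgebraicClosure ℚ), A.LiesOverPrime p ∧ A.IsFrobeniusAt e.1 p) ∧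
    e.2.1 = Sum.inl ⟨p, hp, hpM⟩ ∧ e.2.2.1 = (p : ℤ) ∧
    e.2.2.2 = Sum.inr (primeUnit hp hpM)}

/-- **[TATE1]** the deliverable of the geometric part of block (I), in `helper1`'s generic shape. -/
def Tate1Statement : Prop :=
  ∀ (M : ℕ) (_ : NeZero M), (4 ∣ M ∨ 9 ∣ M) → ∀ (ℓ : ℕ) (hℓ : ℓ.Prime), ℓ ≠ 2 →
    Nonempty (@GenTateDatum ℓ ⟨hℓ⟩ (Gen1 M) (heckeAlgebra1 M 2) _ (gen1 M 2)
      (unrSet1 M ℓ) (esSet1 M ℓ))

/-- **[I-EIGEN1-ASM]** -/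
theorem eigen1_of_tate1 (h : Tate1Statement) : helper32.Eigen1Statement := by
  intro M _ hM ℓ hℓ hℓ2 k _ _ _ r g χ x c b hx hc hne hχ hE
  have : Fact ℓ.Prime := ⟨hℓ⟩
  obtain ⟨D⟩ := h M inferInstance hM ℓ hℓ hℓ2
  obtain ⟨θ, hθT, hθD⟩ := exists_eigenChar1 r g χ x c b hx hc hne hχ hE
  obtain ⟨V, i1, i2, i3, i4, ρ, hfin, hU, hES⟩ := D.exists_fibre k θ
  refine ⟨V, i1, i2, i3, i4, ρ, hfin, ?_⟩
  intro p hp hpMℓ A hA
  have hpM : ¬ p ∣ M := fun h0 => hpMℓ (Dvd.dvd.mul_right h0 ℓ)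
  refine ⟨fun σ hσ => hU σ ⟨p, hp, hpMℓ, A, hA, hσ⟩, fun σ hσ => ?_⟩
  have := hES (σ, Sum.inl ⟨p, hp, hpM⟩, (p : ℤ), Sum.inr (primeUnit hp hpM))
    ⟨p, hp, hpM, hpMℓ, ⟨A, hA, hσ⟩, rfl, rfl, rfl⟩
  simp only [gen1, Sum.elim_inl, Sum.elim_inr, hθT, hθD, coe_primeUnit, Int.cast_natCast] at this
  exact this

/-- **[J1-INPUT]** the two geometric inputs of block (I) in `helper1`'s generic shape: for every
good level `M` and odd prime `ℓ` a `G_ℚ`-module `J` (the `ℚ̄`-points of `J₁(M)`) with operators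
`T_p`, `⟨d⟩` satisfying `GenTateInput` (commutation, Galois equivariance, continuity, finiteness
of `J[ℓ]`, unramifiedness and Eichler-Shimura on the `ℓ`-power torsion: blocks I-RED / I-ES) and
`GenKappa` (the analytic uniformisation of the `ℓ`-power torsion by a Hecke lattice: I-AN). -/
def J1InputStatement : Prop :=
  ∀ (M : ℕ) (_ : NeZero M), (4 ∣ M ∨ 9 ∣ M) → ∀ (ℓ : ℕ), ℓ.Prime → ℓ ≠ 2 →
    ∃ (J : Type) (_ : AddCommGroup J) (_ : DistribMulAction GalQ J) (op : Gen1 M → J →+ J),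
      GenTateInput ℓ op (unrSet1 M ℓ) (esSet1 M ℓ) ∧ GenKappa ℓ op (gen1 M 2)

theorem tate1_of_input (h : J1InputStatement) : Tate1Statement := by
  intro M _ hM ℓ hℓ hℓ2
  obtain ⟨J, i1, i2, op, hI, hK⟩ := h M inferInstance hM ℓ hℓ hℓ2
  exact @genTateAssembly ℓ ⟨hℓ⟩ J i1 i2 (Gen1 M) op (heckeAlgebra1 M 2) _ (gen1 M 2)
    (unrSet1 M ℓ) (esSet1 M ℓ) hI hK

theorem eigen1_of_input (h : J1InputStatement) : helper32.Eigen1Statement :=
  eigen1_of_tate1 (tate1_of_input h)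

end Fermat.Agent.T4.helper76
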