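import Mathlib
import Fermat.Agent.T4.helper21_EisDefs

/-!
# T4 block (III), leaf [EIS-ROW] (helper76, task 966): row summation of the Weierstrass zeta series

`row_of : SumStatement → RowStatement` :
`wZeta z τ = z G₂(τ) + π cot(πz) + ∑_{m ≥ 1} π (cot(π(z - mτ)) + cot(π(z + mτ)))`
together with the unconditional summability of the paired cotangent terms.

Proof: the family `zetaTerm z τ` is absolutely summable (hypothesis), so it may be summed by rows.
`zetaTerm z τ ![m, n] = z (mτ + n)⁻² + (1/(z - mτ - n) + 1/(mτ + n))`; the first part sums to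
`z · e2Summand m τ`, the second one (pairing `n ↔ -n`, Mathlib's `cot_series_rep'`) to
`π cot(π(z - mτ)) + cTerm τ m`, `cTerm τ m = π cot(π m τ)` (`m ≠ 0`), odd in `m`.
`e2Summand · τ` is unconditionally summable over `ℤ` (`q`-expansion of the rows), so
`G₂ τ = ∑' m, e2Summand m τ`; subtracting and pairing `m ↔ -m` gives the statement.

Reusable: `hasSum_pair`, `e2Summand_succ`, `summable_e2Summand_int`, `G2_eq_tsum_int`,
`hasSum_row`, `wZeta_eq_tsum_prod`.
-/

set_option autoImplicit false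

noncomputable section

namespace Fermat.Agent.T4.helper76

open UpperHalfPlane hiding I
open Complex EisensteinSeries Filter
open scoped Real
open Fermat.Agent.T4.helper21

/-- pairing `n ↔ -n` in an unconditional sum over `ℤ`. -/
lemma hasSum_pair {f : ℤ → ℂ} {S : ℂ} (h : HasSum f S) :
    HasSum (fun n : ℕ => f ((n : ℤ) + 1) + f (-((n : ℤ) + 1))) (S - f 0) := by
  have h1 := h.nat_add_neg
  have h2 := (hasSum_nat_add_iff' (f := fun n : ℕ => f n + f (-(n : ℤ))) 1).mpr h1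
  have e : S + f 0 - ∑ i ∈ Finset.range 1, (f (i : ℤ) + f (-(i : ℤ))) = S - f 0 := by
    simp
  rw [e] at h2
  refine h2.congr_fun ?_
  intro n
  push_cast
  rfl

/-- the lattice point is nonzero off the origin. -/
lemma lat_ne_zero (τ : ℍ) {m n : ℤ} (h : ¬ (m = 0 ∧ n = 0)) : (m : ℂ) * (τ : ℂ) + (n : ℂ) ≠ 0 := by
  have := linear_ne_zero (cd := ![(m : ℝ), (n : ℝ)]) τ (by
    intro h0
    apply h
    have h1 := congrFun h0 0
    have h2 := congrFun h0 1
    simp at h1 h2
    exact ⟨h1, h2⟩)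
  simpa using this

lemma cot_neg' (w : ℂ) : cot (-w) = - cot w := by
  rw [Complex.cot_eq_cos_div_sin, Complex.cot_eq_cos_div_sin, Complex.cos_neg, Complex.sin_neg,
    div_neg]

/-- the odd correction term of the rows. -/
def cTerm (τ : ℂ) (m : ℤ) : ℂ := if m = 0 then 0 else π * cot (π * ((m : ℂ) * τ))

lemma cTerm_neg (τ : ℂ) (m : ℤ) : cTerm τ (-m) = - cTerm τ m := by
  unfold cTerm
  by_cases hm : m = 0
  · simp [hm]
  · have : -m ≠ 0 := by simpa using hm
    simp only [hm, this, if_false]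
    push_cast
    rw [show (π : ℂ) * (-(m : ℂ) * τ) = -(π * ((m : ℂ) * τ)) by ring, cot_neg']
    ring

/-- decomposition of the zeta term. -/
lemma zetaTerm_eq (τ : ℍ) (z : ℂ) (hz : ∀ v : Fin 2 → ℤ, z ≠ lat τ v) (m n : ℤ) :
    zetaTerm z τ ![m, n] = z * eisSummand 2 ![m, n] τ +
      (1 / (z - (m : ℂ) * τ - n) + ((m : ℂ) * τ + n)⁻¹) := by
  have hzmn : z - (m : ℂ) * τ - n ≠ 0 := by
    have := hz ![m, n]
    simp only [lat, Matrix.cons_val_zero, Matrix.cons_val_one] at this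
    intro h0
    apply this
    linear_combination h0
  by_cases h : m = 0 ∧ n = 0
  · obtain ⟨rfl, rfl⟩ := h
    have : (![0, 0] : Fin 2 → ℤ) = 0 := by ext i; fin_cases i <;> rfl
    simp [zetaTerm, eisSummand, this]
  · have hω := lat_ne_zero τ h
    have hv : (![m, n] : Fin 2 → ℤ) ≠ 0 := by
      intro h0
      apply h
      have h1 := congrFun h0 0
      have h2 := congrFun h0 1
      simp at h1 h2
      exact ⟨h1, h2⟩
    simp only [zetaTerm, hv, if_false, lat, eisSummand, Matrix.cons_val_zero, Matrix.cons_val_one]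
    have hzω : z - ((m : ℂ) * τ + n) ≠ 0 := by
      intro h0; apply hzmn; linear_combination h0
    rw [show ((m : ℂ) * (τ : ℂ) + (n : ℂ)) ^ (-(2 : ℤ)) = (((m : ℂ) * (τ : ℂ) + (n : ℂ)) ^ 2)⁻¹ by
      rw [zpow_neg]; norm_cast]
    field_simp
    ring

lemma sub_mem_intCompl (τ : ℍ) (z : ℂ) (hz : ∀ v : Fin 2 → ℤ, z ≠ lat τ v) (m : ℤ) :
    z - (m : ℂ) * τ ∈ Complex.integerComplement := by
  rw [Complex.mem_integerComplement_iff]
  rintro ⟨n, hn⟩
  have := hz ![m, n]
  simp only [lat, Matrix.cons_val_zero, Matrix.cons_val_one] at this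
  apply this
  linear_combination -hn

lemma mul_mem_intCompl (τ : ℍ) {m : ℤ} (hm : m ≠ 0) :
    (m : ℂ) * τ ∈ Complex.integerComplement := by
  rw [Complex.mem_integerComplement_iff]
  rintro ⟨n, hn⟩
  have h := lat_ne_zero τ (m := m) (n := -n) (by tauto)
  apply h
  push_cast
  linear_combination -hn

lemma hasSum_cotTerm {x : ℂ} (hx : x ∈ Complex.integerComplement) :
    HasSum (fun n : ℕ => 1 / (x - ((n : ℂ) + 1)) + 1 / (x + ((n : ℂ) + 1)))
      (π * cot (π * x) - 1 / x) := by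
  rw [cot_series_rep' hx]
  exact (summable_cotTerm hx).hasSum

/-- the inner part of a row. -/
def gTerm (z τ : ℂ) (m n : ℤ) : ℂ := 1 / (z - (m : ℂ) * τ - n) + ((m : ℂ) * τ + n)⁻¹

/-- **Row identity for the inner part**, given summability. -/
lemma hasSum_gTerm (τ : ℍ) (z : ℂ) (hz : ∀ v : Fin 2 → ℤ, z ≠ lat τ v) (m : ℤ)
    (hs : Summable (gTerm z τ m)) :
    HasSum (gTerm z τ m) (π * cot (π * (z - (m : ℂ) * τ)) + cTerm τ m) := by
  have hx := sub_mem_intCompl τ z hz m
  have h1 := hasSum_pair hs.hasSum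
  have hX := hasSum_cotTerm hx
  by_cases hm : m = 0
  · subst hm
    have e : (fun n : ℕ => gTerm z τ 0 ((n : ℤ) + 1) + gTerm z τ 0 (-((n : ℤ) + 1))) =
        fun n : ℕ => 1 / (z - (0 : ℤ) * τ - ((n : ℂ) + 1)) + 1 / (z - (0 : ℤ) * τ + ((n : ℂ) + 1)) := by
      funext n
      have h0 : ((0 : ℂ) * (τ : ℂ) + ((n : ℂ) + 1))⁻¹ + ((0 : ℂ) * (τ : ℂ) + -((n : ℂ) + 1))⁻¹ = 0 := by
        rw [zero_mul, zero_add, zero_add, inv_neg, add_neg_cancel]
      simp only [gTerm, Int.cast_zero, Int.cast_neg, Int.cast_add, Int.cast_natCast, Int.cast_one,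
        sub_neg_eq_add]
      linear_combination h0
    rw [e] at h1
    have := h1.unique hX
    have e2 : (∑' n, gTerm z τ 0 n) = π * cot (π * (z - ((0 : ℤ) : ℂ) * τ)) + cTerm τ 0 := by
      have g0 : gTerm z τ 0 0 = 1 / (z - ((0 : ℤ) : ℂ) * τ) := by simp [gTerm]
      rw [g0] at this
      simp only [cTerm, if_true, add_zero]
      linear_combination this
    rw [← e2]
    exact hs.hasSum
  · have hy := mul_mem_intCompl τ hm
    have hY := hasSum_cotTerm hy
    have e : (fun n : ℕ => gTerm z τ m ((n : ℤ) + 1) + gTerm z τ m (-((n : ℤ) + 1))) =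
        fun n : ℕ => (1 / (z - (m : ℂ) * τ - ((n : ℂ) + 1)) + 1 / (z - (m : ℂ) * τ + ((n : ℂ) + 1))) +
          (1 / ((m : ℂ) * τ - ((n : ℂ) + 1)) + 1 / ((m : ℂ) * τ + ((n : ℂ) + 1))) := by
      funext n
      simp only [gTerm]
      push_cast
      simp only [one_div]
      ring_nf
    rw [e] at h1
    have := h1.unique (hX.add hY)
    have e2 : (∑' n, gTerm z τ m n) = π * cot (π * (z - (m : ℂ) * τ)) + cTerm τ m := by
      have g0 : gTerm z τ m 0 = 1 / (z - (m : ℂ) * τ) + 1 / ((m : ℂ) * τ) := by simp [gTerm]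
      rw [g0] at this
      simp only [cTerm, hm, if_false]
      linear_combination this
    rw [← e2]
    exact hs.hasSum

/-- `e2Summand (a+1)` as a `q`-series. -/
lemma e2Summand_succ (τ : ℍ) (a : ℕ) :
    e2Summand ((a : ℤ) + 1) τ =
      -4 * π ^ 2 * ∑' n : ℕ+, (n : ℂ) * cexp (2 * π * I * τ) ^ ((a + 1) * (n : ℕ)) := by
  have hpos : 0 < (((a : ℂ) + 1) * (τ : ℂ)).im := by
    have : (((a : ℂ) + 1) * (τ : ℂ)).im = ((a : ℝ) + 1) * τ.im := by
      simp [Complex.mul_im]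
    rw [this]
    have := τ.im_pos
    positivity
  have H2 := qExpansion_identity_pnat (k := 1) le_rfl ⟨((a : ℂ) + 1) * τ, hpos⟩
  simp only [e2Summand, eisSummand, Matrix.cons_val_zero, Matrix.cons_val_one]
  have e1 : ∀ n : ℤ, ((((a : ℤ) + 1 : ℤ) : ℂ) * (τ : ℂ) + (n : ℂ)) ^ (-(2 : ℤ)) =
      1 / (((⟨((a : ℂ) + 1) * τ, hpos⟩ : ℍ) : ℂ) + n) ^ (1 + 1) := by
    intro n
    rw [zpow_neg, one_div]
    push_cast
    norm_cast
  rw [tsum_congr e1, H2]
  have e2 : ∀ n : ℕ+, ((n : ℂ)) ^ 1 * cexp (2 * π * I * ((⟨((a : ℂ) + 1) * τ, hpos⟩ : ℍ) : ℂ)) ^ (n : ℕ) =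
      (n : ℂ) * cexp (2 * π * I * τ) ^ ((a + 1) * (n : ℕ)) := by
    intro n
    rw [pow_one, ← Complex.exp_nat_mul, ← Complex.exp_nat_mul]
    congr 2
    push_cast
    show (n : ℂ) * (2 * π * I * (((a : ℂ) + 1) * τ)) = _
    ring
  rw [tsum_congr e2]
  congr 1
  simp only [Nat.factorial_one, Nat.cast_one, div_one]
  ring_nf
  simp [I_sq]

lemma summable_e2Summand_int (τ : ℍ) : Summable (fun m : ℤ => e2Summand m τ) := by
  have hq := norm_exp_two_pi_I_lt_one τ
  have h1 : Summable (fun a : ℕ => e2Summand ((a : ℤ) + 1) τ) := by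
    have h0 : Summable fun b : ℕ+ => ∑' c : ℕ+, (c : ℂ) ^ 1 * cexp (2 * π * I * τ) ^ ((b : ℕ) * (c : ℕ)) :=
      (summable_prod_mul_pow 1 hq).prod
    have h0' := (summable_pnat_iff_summable_succ
      (f := fun b : ℕ => ∑' c : ℕ+, (c : ℂ) ^ 1 * cexp (2 * π * I * τ) ^ (b * (c : ℕ)))).mp h0
    refine (h0'.mul_left (-4 * (π : ℂ) ^ 2)).congr ?_
    intro a
    rw [e2Summand_succ]
    simp
  have h2 : Summable (fun a : ℕ => e2Summand (-((a : ℤ) + 1)) τ) := by
    refine h1.congr fun a => ?_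
    exact (e2Summand_even τ _).symm
  exact Summable.of_add_one_of_neg_add_one h1 h2

lemma G2_eq_tsum_int (τ : ℍ) : G2 τ = ∑' m : ℤ, e2Summand m τ := by
  rw [G2]
  exact tsum_eq_of_summable_unconditional (L := SummationFilter.symmetricIcc ℤ)
    (summable_e2Summand_int τ)

lemma hasSum_row (τ : ℍ) (z : ℂ) (hz : ∀ v : Fin 2 → ℤ, z ≠ lat τ v) (m : ℤ)
    (hr : Summable (fun n : ℤ => zetaTerm z τ ![m, n])) :
    HasSum (fun n : ℤ => zetaTerm z τ ![m, n])
      (z * e2Summand m τ + (π * cot (π * (z - (m : ℂ) * τ)) + cTerm τ m)) := by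
  have he : HasSum (fun n : ℤ => z * eisSummand 2 ![m, n] τ) (z * e2Summand m τ) :=
    (e2Summand_summable m τ).hasSum.mul_left z
  have hg : Summable (gTerm z τ m) := by
    refine (hr.sub he.summable).congr fun n => ?_
    rw [zetaTerm_eq τ z hz m n]
    simp only [gTerm]
    ring
  refine (he.add (hasSum_gTerm τ z hz m hg)).congr_fun ?_
  intro n
  rw [zetaTerm_eq τ z hz m n]
  simp only [gTerm]

lemma wZeta_eq_tsum_prod (τ z : ℂ) :
    wZeta z τ = ∑' p : ℤ × ℤ, zetaTerm z τ ![p.1, p.2] := by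
  rw [wZeta, ← (finTwoArrowEquiv ℤ).symm.tsum_eq (zetaTerm z τ)]
  refine tsum_congr fun p => ?_
  rw [finTwoArrowEquiv_symm_apply]

/-- **[EIS-ROW]** row summation of the Weierstrass zeta series, from absolute summability. -/
theorem row_of (h : SumStatement) : RowStatement := by
  intro τ z hz
  have hsum : Summable (zetaTerm z τ) := (h τ z hz).of_norm
  have hprod : Summable (fun p : ℤ × ℤ => zetaTerm z τ ![p.1, p.2]) := by
    have := (finTwoArrowEquiv ℤ).symm.summable_iff.mpr hsum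
    refine this.congr fun p => ?_
    simp only [Function.comp_apply, finTwoArrowEquiv_symm_apply]
  have hR : HasSum (fun m : ℤ => z * e2Summand m τ +
      (π * cot (π * (z - (m : ℂ) * τ)) + cTerm τ m)) (wZeta z τ) := by
    have h1 := hprod.hasSum.prod_fiberwise
      (fun m => hasSum_row τ z hz m (hprod.prod_factor m))
    rwa [← wZeta_eq_tsum_prod] at h1
  have hE : HasSum (fun m : ℤ => z * e2Summand m τ) (z * G2 τ) := by
    rw [G2_eq_tsum_int]
    exact (summable_e2Summand_int τ).hasSum.mul_left z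
  have hC : HasSum (fun m : ℤ => π * cot (π * (z - (m : ℂ) * τ)) + cTerm τ m)
      (wZeta z τ - z * G2 τ) := by
    refine (hR.sub hE).congr_fun ?_
    intro m
    ring
  have hP := hasSum_pair hC
  have e : (fun n : ℕ => (π * cot (π * (z - (((n : ℤ) + 1 : ℤ) : ℂ) * τ)) + cTerm τ ((n : ℤ) + 1)) +
      (π * cot (π * (z - ((-((n : ℤ) + 1) : ℤ) : ℂ) * τ)) + cTerm τ (-((n : ℤ) + 1)))) =
      fun m : ℕ => π * cot (π * (z - (m + 1 : ℂ) * τ)) + π * cot (π * (z + (m + 1 : ℂ) * τ)) := by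
    funext n
    rw [cTerm_neg]
    push_cast
    rw [show z - -((n : ℂ) + 1) * (τ : ℂ) = z + ((n : ℂ) + 1) * τ by ring]
    ring
  rw [e] at hP
  refine ⟨hP.summable, ?_⟩
  rw [hP.tsum_eq]
  simp only [cTerm, if_true, Int.cast_zero, zero_mul, sub_zero, add_zero]
  ring

end Fermat.Agent.T4.helper76
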