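import Mathlib

/-!
# T4 / S48, block (IV) (Deligne-Serre endgame): definitions and statements (helper77)

* `IsSemisimpleSub G` : the tautological representation of `G ≤ GL(2, F)` on `F²` is semisimple
  (every stable subspace has a stable complement).
* `FewCharpolyStatement` : **[T4-GRP]**, Deligne-Serre's group-theoretic lemma
  (*Formes modulaires de poids 1*, §7): for `η < 1/2` and `M` there is a bound `A` such that
  every semisimple subgroup `G ≤ GL(2, 𝔽_ℓ)` (any prime `ℓ`) which has a subset `H` with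
  `|H| ≥ (1 - η) |G|` and at most `M` distinct characteristic polynomials satisfies `|G| ≤ A`.
-/

set_option autoImplicit false

namespace Fermat.Agent.T4.helper77

open Matrix

/-- semisimplicity of the tautological representation of a subgroup of `GL(2, F)`. -/
def IsSemisimpleSub {F : Type*} [Field F] (G : Subgroup (GL (Fin 2) F)) : Prop :=
  ∀ L : Submodule F (Fin 2 → F), (∀ g ∈ G, ∀ v ∈ L, (g : Matrix (Fin 2) (Fin 2) F).mulVec v ∈ L) →
    ∃ L' : Submodule F (Fin 2 → F),
      (∀ g ∈ G, ∀ v ∈ L', (g : Matrix (Fin 2) (Fin 2) F).mulVec v ∈ L') ∧ IsCompl L L'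

/-- **[T4-GRP]** the Deligne-Serre lemma on subgroups of `GL(2, 𝔽_ℓ)` with few characteristic
polynomials. -/
def FewCharpolyStatement : Prop :=
  ∀ η : ℝ, η < 1 / 2 → ∀ M : ℕ, ∃ A : ℕ,
    ∀ (ℓ : ℕ) [Fact ℓ.Prime] (G : Subgroup (GL (Fin 2) (ZMod ℓ))), IsSemisimpleSub G →
      ∀ H : Finset (GL (Fin 2) (ZMod ℓ)), (∀ h ∈ H, h ∈ G) →
        (1 - η) * (Nat.card G : ℝ) ≤ (H.card : ℝ) →
        (H.image (fun h : GL (Fin 2) (ZMod ℓ) => h.val.charpoly)).card ≤ M →
        Nat.card G ≤ A

end Fermat.Agent.T4.helper77
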