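import Mathlib

/-!
# T4 / S48, block (IV), [T4-GRP] part 2: fixed points on the projective line (helper77)

* `scalar_smul_onePoint` : scalar matrices act trivially on `OnePoint K`.
* `card_fixedBy_eq_two` : an element of `GL(2, K)` whose discriminant is a nonzero square has
  exactly two fixed points on `OnePoint K`.
* `not_isParabolic_of_pow_eq_one` : an element of finite order prime to the characteristic is
  not parabolic.
* `eq_of_same_eigen` : two elements with a common eigenvector, the same eigenvalue on it and the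
  same characteristic polynomial, whose quotient has order prime to the characteristic, are equal.
-/

set_option autoImplicit false

namespace Fermat.Agent.T4.helper77

open Matrix OnePoint MulAction

variable {K : Type*} [Field K] [DecidableEq K]

/-- scalar matrices act trivially. -/
lemma scalar_smul_onePoint (g : GL (Fin 2) K) (hg : g.val ∈ Set.range (Matrix.scalar (Fin 2)))
    (x : OnePoint K) : g • x = x := by
  obtain ⟨a, ha⟩ := hg
  have h00 : g 0 0 = a := by
    have := congrFun (congrFun ha 0) 0
    simpa using this.symm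
  have h01 : g 0 1 = 0 := by
    have := congrFun (congrFun ha 0) 1
    simpa using this.symm
  have h10 : g 1 0 = 0 := by
    have := congrFun (congrFun ha 1) 0
    simpa using this.symm
  have h11 : g 1 1 = a := by
    have := congrFun (congrFun ha 1) 1
    simpa using this.symm
  have ha0 : a ≠ 0 := by
    intro h0
    have hdet := g.det_ne_zero
    rw [Matrix.det_fin_two] at hdet
    apply hdet
    show g 0 0 * g 1 1 - g 0 1 * g 1 0 = 0
    rw [h00, h11, h01, h10, h0]
    ring
  cases x with
  | infty => rw [smul_infty_eq_self_iff]; exact h10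
  | coe c =>
    rw [smul_some_eq_ite, h10, h11, h00, h01]
    simp only [zero_mul, zero_add, add_zero]
    rw [if_neg ha0, mul_div_assoc, mul_comm, div_mul_cancel₀ _ ha0]

omit [DecidableEq K] in
/-- the discriminant in coordinates. -/
lemma discr_coord (g : GL (Fin 2) K) :
    g.val.discr = (g 1 1 - g 0 0) ^ 2 + 4 * g 1 0 * g 0 1 := by
  rw [Matrix.discr_fin_two, Matrix.trace_fin_two, Matrix.det_fin_two]
  show (g 0 0 + g 1 1) ^ 2 - 4 * (g 0 0 * g 1 1 - g 0 1 * g 1 0) = _
  ring

/-- **Two fixed points.** -/
theorem card_fixedBy_eq_two (h2 : (2 : K) ≠ 0) (g : GL (Fin 2) K) (δ : K) (hδ : δ ≠ 0)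
    (hD : g.val.discr = δ * δ) : Nat.card (fixedBy (OnePoint K) g) = 2 := by
  have : NeZero (2 : K) := ⟨h2⟩
  rw [discr_coord] at hD
  rw [Nat.card_coe_set_eq]
  by_cases hc : g 1 0 = 0
  · -- upper triangular
    have hB : g 1 1 - g 0 0 ≠ 0 := by
      intro hB
      rw [hB, hc] at hD
      have : δ * δ = 0 := by rw [← hD]; ring
      exact hδ (mul_self_eq_zero.1 this)
    have hset : fixedBy (OnePoint K) g = {∞, ((g 0 1 / (g 1 1 - g 0 0) : K) : OnePoint K)} := by
      ext x
      rw [mem_fixedBy]
      cases x with
      | infty =>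
        simp only [Set.mem_insert_iff, true_or, iff_true]
        exact smul_infty_eq_self_iff.2 hc
      | coe c =>
        rw [← Matrix.GeneralLinearGroup.fixpointPolynomial_aeval_eq_zero_iff]
        simp only [Matrix.GeneralLinearGroup.fixpointPolynomial, map_sub, map_add, map_mul,
          Polynomial.aeval_C, Polynomial.aeval_X, map_pow, Algebra.algebraMap_self_apply, hc]
        simp only [Set.mem_insert_iff, Set.mem_singleton_iff, OnePoint.coe_ne_infty, false_or,
          OnePoint.coe_eq_coe]
        constructor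
        · intro h
          rw [eq_div_iff hB]
          linear_combination h
        · intro h
          rw [eq_div_iff hB] at h
          linear_combination h
    rw [hset]
    exact Set.ncard_pair (OnePoint.infty_ne_coe _)
  · -- generic case
    set r₁ : K := (-(g 1 1 - g 0 0) + δ) / (2 * g 1 0) with hr₁
    set r₂ : K := (-(g 1 1 - g 0 0) - δ) / (2 * g 1 0) with hr₂
    have hdisc : discrim (g 1 0) (g 1 1 - g 0 0) (-g 0 1) = δ * δ := by
      rw [discrim, ← hD]
      ring
    have hset : fixedBy (OnePoint K) g = {(r₁ : OnePoint K), (r₂ : OnePoint K)} := by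
      ext x
      rw [mem_fixedBy]
      cases x with
      | infty =>
        simp only [Set.mem_insert_iff, Set.mem_singleton_iff, OnePoint.infty_ne_coe, or_self,
          iff_false]
        rw [smul_infty_eq_self_iff]
        exact hc
      | coe c =>
        rw [← Matrix.GeneralLinearGroup.fixpointPolynomial_aeval_eq_zero_iff]
        simp only [Matrix.GeneralLinearGroup.fixpointPolynomial, map_sub, map_add, map_mul,
          Polynomial.aeval_C, Polynomial.aeval_X, map_pow, Algebra.algebraMap_self_apply]
        simp only [Set.mem_insert_iff, Set.mem_singleton_iff, OnePoint.coe_eq_coe]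
        rw [← quadratic_eq_zero_iff hc hdisc c]
        constructor
        · intro h
          linear_combination h
        · intro h
          linear_combination h
    rw [hset]
    refine Set.ncard_pair ?_
    rw [Ne, OnePoint.coe_eq_coe]
    intro h
    have h2c : (2 * g 1 0 : K) ≠ 0 := mul_ne_zero h2 hc
    rw [hr₁, hr₂, div_left_inj' h2c] at h
    have : (2 : K) * δ = 0 := by linear_combination h
    rcases mul_eq_zero.1 this with h | h
    · exact h2 h
    · exact hδ h

omit [DecidableEq K] in
lemma scalar_eq_smul_one (a : K) :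
    Matrix.scalar (Fin 2) a = a • (1 : Matrix (Fin 2) (Fin 2) K) := by
  rw [Matrix.scalar_apply, Matrix.smul_one_eq_diagonal]

omit [DecidableEq K] in
/-- powers of `scalar a + n` with `n ^ 2 = 0`. -/
lemma scalar_add_nilp_pow (a : K) (n : Matrix (Fin 2) (Fin 2) K) (hn : n * n = 0) (j : ℕ) :
    (Matrix.scalar (Fin 2) a + n) ^ (j + 1) =
      Matrix.scalar (Fin 2) (a ^ (j + 1)) + (((j + 1 : ℕ) : K) * a ^ j) • n := by
  induction j with
  | zero => simp
  | succ j ih =>
    rw [pow_succ, ih]
    have hcomm : n * Matrix.scalar (Fin 2) a = Matrix.scalar (Fin 2) a * n := by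
      rw [Matrix.scalar_apply, ← Matrix.smul_eq_diagonal_mul, ← Matrix.smul_eq_mul_diagonal]
    rw [add_mul, mul_add, mul_add, Matrix.smul_mul, Matrix.smul_mul, hn, smul_zero, add_zero,
      hcomm, ← map_mul, Matrix.scalar_apply a, ← Matrix.smul_eq_diagonal_mul,
      Matrix.scalar_apply (a ^ (j + 1)), ← Matrix.smul_eq_diagonal_mul, smul_smul,
      add_assoc, ← add_smul, ← pow_succ]
    congr 2
    push_cast
    ring

omit [DecidableEq K] in
/-- an element of finite order prime to the characteristic is not parabolic. -/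
theorem not_isParabolic_of_pow_eq_one (h2 : (2 : K) ≠ 0) (g : GL (Fin 2) K) (m : ℕ)
    (hm : (m : K) ≠ 0) (hgm : g ^ m = 1) : ¬ g.val.IsParabolic := by
  have : NeZero (2 : K) := ⟨h2⟩
  intro hpar
  obtain ⟨a, n, hgn, hn0, hn2⟩ := Matrix.isParabolic_iff_exists.1 hpar
  rw [sq] at hn2
  have hm0 : m ≠ 0 := by
    rintro rfl
    simp at hm
  obtain ⟨j, rfl⟩ := Nat.exists_eq_succ_of_ne_zero hm0
  have hpow : (g.val) ^ (j + 1) = 1 := by
    have := congrArg (fun u : GL (Fin 2) K => u.val) hgm
    simpa using this
  rw [hgn, scalar_add_nilp_pow a n hn2 j] at hpow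
  -- `a ≠ 0`
  have ha : a ≠ 0 := by
    rintro rfl
    have hdet := g.det_ne_zero
    apply hdet
    have h1 : g.val * g.val = 0 := by
      rw [hgn]
      simp [hn2]
    have h2' : g.val.det * g.val.det = 0 := by
      rw [← Matrix.det_mul, h1]
      simp
    exact mul_self_eq_zero.1 h2'
  have hc : (((j + 1 : ℕ) : K) * a ^ j) ≠ 0 := mul_ne_zero hm (pow_ne_zero _ ha)
  -- `n` is scalar
  have hns : n = Matrix.scalar (Fin 2) ((((j + 1 : ℕ) : K) * a ^ j)⁻¹ * (1 - a ^ (j + 1))) := by
    have h3 : (((j + 1 : ℕ) : K) * a ^ j) • n = Matrix.scalar (Fin 2) (1 - a ^ (j + 1)) := by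
      rw [map_sub, map_one]
      rw [eq_sub_iff_add_eq, add_comm]
      exact hpow
    have h4 : n = (((j + 1 : ℕ) : K) * a ^ j)⁻¹ • ((((j + 1 : ℕ) : K) * a ^ j) • n) := by
      rw [smul_smul, inv_mul_cancel₀ hc, one_smul]
    rw [h4, h3, scalar_eq_smul_one, scalar_eq_smul_one, smul_smul]
  set c := (((j + 1 : ℕ) : K) * a ^ j)⁻¹ * (1 - a ^ (j + 1)) with hcdef
  have hcc : c * c = 0 := by
    have h5 : Matrix.scalar (Fin 2) (c * c) = 0 := by
      rw [map_mul, ← hns, hn2]
    have := congrFun (congrFun h5 0) 0
    simpa using this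
  have hc0 : c = 0 := mul_self_eq_zero.1 hcc
  apply hn0
  rw [hns, hc0, map_zero]

omit [DecidableEq K] in
/-- Elements of finite order prime to the characteristic with trace `2` and determinant `1`
fixing a nonzero vector are trivial. -/
theorem eq_one_of_fix (h2 : (2 : K) ≠ 0) (u : GL (Fin 2) K) (m : ℕ)
    (hm : (m : K) ≠ 0) (hum : u ^ m = 1) (v : Fin 2 → K) (hv : v ≠ 0)
    (huv : u.val.mulVec v = v) (hdet : u.val.det = 1) : u = 1 := by
  -- the trace is `2`
  have htr : u.val.trace = 2 := by
    -- `(u - 1) v = 0` with `v ≠ 0` gives `det (u - 1) = 0`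
    have hker : (u.val - 1).mulVec v = 0 := by
      rw [Matrix.sub_mulVec, huv, Matrix.one_mulVec, sub_self]
    have hdet0 : (u.val - 1).det = 0 := by
      by_contra hne
      have hinj := Matrix.eq_zero_of_mulVec_eq_zero hne hker
      exact hv hinj
    rw [Matrix.det_fin_two] at hdet0 hdet
    rw [Matrix.trace_fin_two]
    simp only [Matrix.sub_apply, Matrix.one_apply_eq, Matrix.one_apply_ne, ne_eq,
      zero_ne_one, one_ne_zero, not_false_eq_true, sub_zero] at hdet0
    linear_combination hdet - hdet0
  have hdisc : u.val.discr = 0 := by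
    rw [Matrix.discr_fin_two, htr, hdet]
    ring
  have hnp := not_isParabolic_of_pow_eq_one h2 u m hm hum
  have hsc : u.val ∈ Set.range (Matrix.scalar (Fin 2)) := by
    by_contra hns
    exact hnp ⟨hns, hdisc⟩
  obtain ⟨a, ha⟩ := hsc
  have ha1 : a = 1 := by
    rw [← ha, scalar_eq_smul_one, Matrix.smul_mulVec, Matrix.one_mulVec] at huv
    by_contra hne
    apply hv
    have : (a - 1) • v = 0 := by rw [sub_smul, huv, one_smul, sub_self]
    rcases smul_eq_zero.1 this with h | h
    · exact absurd (sub_eq_zero.1 h) hne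
    · exact h
  apply Units.ext
  rw [← ha, ha1, map_one]
  rfl

end Fermat.Agent.T4.helper77
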