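import Mathlib
import Fermat.Agent.T4.helper77_FixedPts

/-!
# T4 / S48, block (IV), [T4-GRP] part 3: eigenvalues at fixed points, fibre counts (helper77)
-/

set_option autoImplicit false

namespace Fermat.Agent.T4.helper77

open Matrix OnePoint MulAction Polynomial

variable {K : Type*} [Field K] [DecidableEq K]

/-- the vector representing a point of the projective line. -/
def vecOf (x : OnePoint K) : Fin 2 → K :=
  OnePoint.rec (C := fun _ => Fin 2 → K) ![1, 0] (fun t => ![t, 1]) x

/-- the eigenvalue of `g` at a fixed point. -/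
def evAt (x : OnePoint K) (g : GL (Fin 2) K) : K :=
  OnePoint.rec (C := fun _ => K) (g 0 0) (fun t => g 1 0 * t + g 1 1) x

omit [DecidableEq K] in
@[simp] lemma vecOf_infty : vecOf (∞ : OnePoint K) = ![1, 0] := rfl
omit [DecidableEq K] in
@[simp] lemma vecOf_coe (t : K) : vecOf (t : OnePoint K) = ![t, 1] := rfl
omit [DecidableEq K] in
@[simp] lemma evAt_infty (g : GL (Fin 2) K) : evAt (∞ : OnePoint K) g = g 0 0 := rfl
omit [DecidableEq K] in
@[simp] lemma evAt_coe (t : K) (g : GL (Fin 2) K) :
    evAt (t : OnePoint K) g = g 1 0 * t + g 1 1 := rfl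

omit [DecidableEq K] in
lemma vecOf_ne_zero (x : OnePoint K) : vecOf x ≠ 0 := by
  cases x with
  | infty =>
    intro h
    have := congrFun h 0
    simp at this
  | coe t =>
    intro h
    have := congrFun h 1
    simp at this

/-- the fixed point equation for a finite point. -/
lemma fixed_coe_iff (g : GL (Fin 2) K) (t : K) :
    g • (t : OnePoint K) = t ↔ g 1 0 * t ^ 2 + (g 1 1 - g 0 0) * t - g 0 1 = 0 := by
  rw [← Matrix.GeneralLinearGroup.fixpointPolynomial_aeval_eq_zero_iff]
  simp only [Matrix.GeneralLinearGroup.fixpointPolynomial, map_sub, map_add, map_mul,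
    Polynomial.aeval_C, Polynomial.aeval_X, map_pow, Algebra.algebraMap_self_apply]

/-- a fixed point is an eigenline. -/
lemma mulVec_vecOf_of_fixed (g : GL (Fin 2) K) (x : OnePoint K) (h : g • x = x) :
    g.val.mulVec (vecOf x) = evAt x g • vecOf x := by
  cases x with
  | infty =>
    have hc : g 1 0 = 0 := smul_infty_eq_self_iff.1 h
    ext i
    fin_cases i
    · simp [Matrix.mulVec, dotProduct, Fin.sum_univ_two]
    · simp [Matrix.mulVec, dotProduct, Fin.sum_univ_two]
      exact hc
  | coe t =>
    have hf := (fixed_coe_iff g t).1 h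
    ext i
    fin_cases i
    · simp [Matrix.mulVec, dotProduct, Fin.sum_univ_two]
      linear_combination -hf
    · simp [Matrix.mulVec, dotProduct, Fin.sum_univ_two]

/-- the eigenvalue is a root of the characteristic polynomial. -/
lemma evAt_root (g : GL (Fin 2) K) (x : OnePoint K) (h : g • x = x) :
    evAt x g ^ 2 - g.val.trace * evAt x g + g.val.det = 0 := by
  rw [Matrix.trace_fin_two, Matrix.det_fin_two]
  cases x with
  | infty =>
    have hc : g 1 0 = 0 := smul_infty_eq_self_iff.1 h
    simp only [evAt_infty]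
    show g 0 0 ^ 2 - (g 0 0 + g 1 1) * g 0 0 + (g 0 0 * g 1 1 - g 0 1 * g 1 0) = 0
    rw [hc]
    ring
  | coe t =>
    have hf := (fixed_coe_iff g t).1 h
    simp only [evAt_coe]
    show (g 1 0 * t + g 1 1) ^ 2 - (g 0 0 + g 1 1) * (g 1 0 * t + g 1 1) +
      (g 0 0 * g 1 1 - g 0 1 * g 1 0) = 0
    linear_combination (g 1 0) * hf

lemma evAt_isRoot (g : GL (Fin 2) K) (x : OnePoint K) (h : g • x = x) :
    (g.val.charpoly).IsRoot (evAt x g) := by
  rw [Matrix.charpoly_fin_two, Polynomial.IsRoot.def]
  simp only [eval_add, eval_sub, eval_pow, eval_X, eval_mul, eval_C]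
  exact evAt_root g x h

lemma evAt_ne_zero (g : GL (Fin 2) K) (x : OnePoint K) (h : g • x = x) : evAt x g ≠ 0 := by
  intro h0
  have hv := mulVec_vecOf_of_fixed g x h
  rw [h0, zero_smul] at hv
  have := Matrix.eq_zero_of_mulVec_eq_zero g.det_ne_zero hv
  exact vecOf_ne_zero x this

omit [DecidableEq K] in
/-- equal characteristic polynomials have equal traces and determinants. -/
lemma trace_det_of_charpoly_eq {A B : Matrix (Fin 2) (Fin 2) K} (h : A.charpoly = B.charpoly) :
    A.trace = B.trace ∧ A.det = B.det := by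
  constructor
  · rw [Matrix.trace_eq_neg_charpoly_coeff, Matrix.trace_eq_neg_charpoly_coeff, h]
  · rw [Matrix.det_eq_sign_charpoly_coeff, Matrix.det_eq_sign_charpoly_coeff, h]

/-- **Uniqueness in a stabiliser**: two elements fixing `x`, with the same characteristic
polynomial and the same eigenvalue at `x`, whose quotient has order prime to the characteristic,
are equal. -/
theorem eq_of_same_eigen (h2 : (2 : K) ≠ 0) (g h : GL (Fin 2) K) (x : OnePoint K)
    (hg : g • x = x) (hh : h • x = x) (hP : g.val.charpoly = h.val.charpoly)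
    (hev : evAt x g = evAt x h) (m : ℕ) (hm : (m : K) ≠ 0) (hord : (g⁻¹ * h) ^ m = 1) :
    g = h := by
  have hu : g⁻¹ * h = 1 := by
    refine eq_one_of_fix h2 (g⁻¹ * h) m hm hord (vecOf x) (vecOf_ne_zero x) ?_ ?_
    · have h1 := mulVec_vecOf_of_fixed g x hg
      have h2' := mulVec_vecOf_of_fixed h x hh
      have hμ := evAt_ne_zero g x hg
      -- `g⁻¹ (μ v) = v`
      have h3 : (g⁻¹).val.mulVec (evAt x g • vecOf x) = vecOf x := by
        rw [← h1, Matrix.mulVec_mulVec]
        have : (g⁻¹).val * g.val = 1 := by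
          rw [← Units.val_mul, inv_mul_cancel]
          rfl
        rw [this, Matrix.one_mulVec]
      rw [Units.val_mul, ← Matrix.mulVec_mulVec, h2', ← hev]
      exact h3
    · have hd := (trace_det_of_charpoly_eq hP).2
      rw [Units.val_mul, Matrix.det_mul]
      have h4 : (g⁻¹).val.det * g.val.det = 1 := by
        rw [← Matrix.det_mul, ← Units.val_mul, inv_mul_cancel]
        simp
      rw [← hd]
      exact h4
  calc g = g * 1 := (mul_one g).symm
    _ = g * (g⁻¹ * h) := by rw [hu]
    _ = h := by group

omit [DecidableEq K] in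
/-- **Uniqueness in a coset of the centre**: two elements with the same characteristic polynomial
which differ by a scalar are equal up to sign. -/
theorem eq_or_eq_neg_of_scalar (g h : GL (Fin 2) K)
    (hP : g.val.charpoly = h.val.charpoly)
    (hz : (g⁻¹ * h).val ∈ Set.range (Matrix.scalar (Fin 2))) :
    h.val = g.val ∨ h.val = -g.val := by
  obtain ⟨c, hc⟩ := hz
  have hhg : h.val = c • g.val := by
    have h1 : g.val * (g⁻¹ * h).val = h.val := by
      rw [← Units.val_mul]
      congr 1
      group
    rw [← h1, ← hc, scalar_eq_smul_one, Matrix.mul_smul, mul_one]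
  obtain ⟨htr, hdet⟩ := trace_det_of_charpoly_eq hP
  rw [hhg, Matrix.trace_smul, smul_eq_mul] at htr
  rw [hhg, Matrix.det_smul, Fintype.card_fin] at hdet
  have hd0 : g.val.det ≠ 0 := g.det_ne_zero
  have hc2 : c ^ 2 = 1 := by
    have : (c ^ 2 - 1) * g.val.det = 0 := by linear_combination -hdet
    rcases mul_eq_zero.1 this with h | h
    · linear_combination h
    · exact absurd h hd0
  have hc1 : c = 1 ∨ c = -1 := by
    have : (c - 1) * (c + 1) = 0 := by linear_combination hc2
    rcases mul_eq_zero.1 this with h | h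
    · left; linear_combination h
    · right; linear_combination h
  rcases hc1 with rfl | rfl
  · left; rw [hhg, one_smul]
  · right; rw [hhg, neg_smul, one_smul]

end Fermat.Agent.T4.helper77
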