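import Mathlib
import Fermat.Agent.T4.helper77_DSDefs
import Fermat.Agent.T4.helper77_Eigen

/-!
# T4 / S48, block (IV), [T4-GRP] part 5: subgroups containing an element of order `ℓ` (helper77)

* `card_charpoly_fibre_le` : at most `2 |F|²` elements of `GL(2, F)` share a characteristic
  polynomial.
* `caseA_core` : a subgroup of `GL(2, 𝔽_ℓ)` containing `[1, 1; 0, 1]` and an element with nonzero
  lower left entry has at least `ℓ² (ℓ - 1)` elements.
* `caseA` : a semisimple subgroup of `GL(2, 𝔽_ℓ)` of order divisible by `ℓ` has at least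
  `ℓ² (ℓ - 1)` elements.
-/

set_option autoImplicit false

namespace Fermat.Agent.T4.helper77

open Matrix Polynomial

section Count

variable {F : Type*} [Field F] [Fintype F] [DecidableEq F]

/-- at most `2 |F|²` elements of `GL(2, F)` share a characteristic polynomial. -/
lemma card_charpoly_fibre_le (T : Finset (GL (Fin 2) F)) (P : F[X])
    (hT : ∀ g ∈ T, g.val.charpoly = P) : T.card ≤ 2 * Fintype.card F ^ 2 := by
  classical
  let enc : GL (Fin 2) F → F × F × Bool := fun g =>
    (g 0 0, if g 0 1 = 0 then (g 1 0, true) else (g 0 1, false))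
  have hinj : Set.InjOn enc (T : Set (GL (Fin 2) F)) := by
    intro g hg h hh he
    obtain ⟨htr, hdet⟩ := trace_det_of_charpoly_eq ((hT g hg).trans (hT h hh).symm)
    rw [Matrix.trace_fin_two, Matrix.trace_fin_two] at htr
    rw [Matrix.det_fin_two, Matrix.det_fin_two] at hdet
    have htr' : g 0 0 + g 1 1 = h 0 0 + h 1 1 := htr
    have hdet' : g 0 0 * g 1 1 - g 0 1 * g 1 0 = h 0 0 * h 1 1 - h 0 1 * h 1 0 := hdet
    simp only [enc, Prod.mk.injEq] at he
    obtain ⟨h00, he2⟩ := he
    have h11 : g 1 1 = h 1 1 := by linear_combination htr' - h00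
    have hent : g 0 1 = h 0 1 ∧ g 1 0 = h 1 0 := by
      by_cases hg01 : g 0 1 = 0
      · by_cases hh01 : h 0 1 = 0
        · rw [if_pos hg01, if_pos hh01] at he2
          simp only [Prod.mk.injEq, and_true] at he2
          exact ⟨by rw [hg01, hh01], he2⟩
        · rw [if_pos hg01, if_neg hh01] at he2
          simp at he2
      · by_cases hh01 : h 0 1 = 0
        · rw [if_neg hg01, if_pos hh01] at he2
          simp at he2
        · rw [if_neg hg01, if_neg hh01] at he2
          simp only [Prod.mk.injEq, and_true] at he2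
          refine ⟨he2, ?_⟩
          have h1 : g 0 1 * (g 1 0 - h 1 0) = 0 := by
            rw [h00, h11, he2] at hdet'
            rw [he2]
            linear_combination -hdet'
          rcases mul_eq_zero.1 h1 with h | h
          · exact absurd h hg01
          · exact sub_eq_zero.1 h
    apply Units.ext
    ext i j
    fin_cases i <;> fin_cases j
    · exact h00
    · exact hent.1
    · exact hent.2
    · exact h11
  calc T.card ≤ (Finset.univ : Finset (F × F × Bool)).card :=
        Finset.card_le_card_of_injOn enc (fun _ _ => Finset.mem_univ _) hinj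
    _ = 2 * Fintype.card F ^ 2 := by
        rw [Finset.card_univ, Fintype.card_prod, Fintype.card_prod, Fintype.card_bool]
        ring

end Count

section Core

variable {ℓ : ℕ} [Fact ℓ.Prime]

/-- the unipotent elements `[1, y; 0, 1]` lie in a subgroup containing `[1, 1; 0, 1]`. -/
lemma upperRight_mem (G : Subgroup (GL (Fin 2) (ZMod ℓ)))
    (hU : GeneralLinearGroup.upperRightHom (1 : ZMod ℓ) ∈ G) (y : ZMod ℓ) :
    GeneralLinearGroup.upperRightHom y ∈ G := by
  have hy : y = (y.val) • (1 : ZMod ℓ) := by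
    rw [nsmul_one, ZMod.natCast_val, ZMod.cast_id', id]
  rw [hy, AddChar.map_nsmul_eq_pow]
  exact G.pow_mem hU _

/-- entries of `[1, y; 0, 1] * m * [1, z; 0, 1]`. -/
lemma upper_mul_entries (m : GL (Fin 2) (ZMod ℓ)) (y z : ZMod ℓ) :
    (GeneralLinearGroup.upperRightHom y * m * GeneralLinearGroup.upperRightHom z) 1 0 = m 1 0 ∧
    (GeneralLinearGroup.upperRightHom y * m * GeneralLinearGroup.upperRightHom z) 0 0 =
      m 0 0 + y * m 1 0 ∧
    (GeneralLinearGroup.upperRightHom y * m * GeneralLinearGroup.upperRightHom z) 1 1 =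
      m 1 0 * z + m 1 1 := by
  refine ⟨?_, ?_, ?_⟩ <;>
  simp [Matrix.mul_apply, Fin.sum_univ_two, GeneralLinearGroup.upperRightHom, Matrix.vecMul,
    dotProduct]

/-- the lower left entry of `g * [1, j; 0, 1] * g⁻¹`. -/
lemma conj_upper_entry (g : GL (Fin 2) (ZMod ℓ)) (j : ZMod ℓ) :
    (g * GeneralLinearGroup.upperRightHom j * g⁻¹) 1 0 * g.val.det = -(g 1 0) ^ 2 * j := by
  set m := g * GeneralLinearGroup.upperRightHom j * g⁻¹ with hm
  have hmg : m * g = g * GeneralLinearGroup.upperRightHom j := by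
    rw [hm]; group
  have h10 := congrArg (fun u : GL (Fin 2) (ZMod ℓ) => u 1 0) hmg
  have h11 := congrArg (fun u : GL (Fin 2) (ZMod ℓ) => u 1 1) hmg
  simp [Matrix.mul_apply, Fin.sum_univ_two, GeneralLinearGroup.upperRightHom] at h10 h11
  rw [Matrix.det_fin_two]
  show m 1 0 * (g 0 0 * g 1 1 - g 0 1 * g 1 0) = _
  linear_combination (g 1 1) * h10 - (g 1 0) * h11


/-- **Case A, core count.** -/
theorem caseA_core (G : Subgroup (GL (Fin 2) (ZMod ℓ)))
    (hU : GeneralLinearGroup.upperRightHom (1 : ZMod ℓ) ∈ G)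
    (g : GL (Fin 2) (ZMod ℓ)) (hg : g ∈ G) (hc : g 1 0 ≠ 0) :
    ℓ ^ 2 * (ℓ - 1) ≤ Nat.card G := by
  classical
  have hmem : ∀ p : ZMod ℓ × (ZMod ℓ)ˣ × ZMod ℓ,
      GeneralLinearGroup.upperRightHom p.1 *
        (g * GeneralLinearGroup.upperRightHom (p.2.1 : ZMod ℓ) * g⁻¹) *
        GeneralLinearGroup.upperRightHom p.2.2 ∈ G := by
    intro p
    exact G.mul_mem (G.mul_mem (upperRight_mem G hU _)
      (G.mul_mem (G.mul_mem hg (upperRight_mem G hU _)) (G.inv_mem hg))) (upperRight_mem G hU _)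
  let Φ : ZMod ℓ × (ZMod ℓ)ˣ × ZMod ℓ → G := fun p => ⟨_, hmem p⟩
  have hD : g.val.det ≠ 0 := g.det_ne_zero
  have hinj : Function.Injective Φ := by
    rintro ⟨y, j, z⟩ ⟨y', j', z'⟩ h
    have hW : GeneralLinearGroup.upperRightHom y *
        (g * GeneralLinearGroup.upperRightHom (j : ZMod ℓ) * g⁻¹) *
        GeneralLinearGroup.upperRightHom z =
        GeneralLinearGroup.upperRightHom y' *
        (g * GeneralLinearGroup.upperRightHom (j' : ZMod ℓ) * g⁻¹) *
        GeneralLinearGroup.upperRightHom z' := congrArg Subtype.val h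
    obtain ⟨e10, e00, e11⟩ := upper_mul_entries
      (g * GeneralLinearGroup.upperRightHom (j : ZMod ℓ) * g⁻¹) y z
    obtain ⟨e10', e00', e11'⟩ := upper_mul_entries
      (g * GeneralLinearGroup.upperRightHom (j' : ZMod ℓ) * g⁻¹) y' z'
    have hc1 := conj_upper_entry g (j : ZMod ℓ)
    have hc1' := conj_upper_entry g (j' : ZMod ℓ)
    rw [hW] at e10 e00 e11
    have hm10 : (g * GeneralLinearGroup.upperRightHom (j : ZMod ℓ) * g⁻¹) 1 0 =
        (g * GeneralLinearGroup.upperRightHom (j' : ZMod ℓ) * g⁻¹) 1 0 := by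
      rw [← e10, ← e10']
    have hjj : (j : ZMod ℓ) = (j' : ZMod ℓ) := by
      have h1 : (g 1 0) ^ 2 * ((j : ZMod ℓ) - (j' : ZMod ℓ)) = 0 := by
        rw [hm10] at hc1
        linear_combination hc1 - hc1'
      rcases mul_eq_zero.1 h1 with h | h
      · exact absurd ((pow_eq_zero_iff two_ne_zero).1 h) hc
      · exact sub_eq_zero.1 h
    have hj : j = j' := Units.ext hjj
    subst hj
    have hm10ne : (g * GeneralLinearGroup.upperRightHom (j : ZMod ℓ) * g⁻¹) 1 0 ≠ 0 := by
      intro h0
      rw [h0, zero_mul] at hc1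
      have : (g 1 0) ^ 2 * (j : ZMod ℓ) = 0 := by linear_combination hc1
      rcases mul_eq_zero.1 this with h | h
      · exact hc ((pow_eq_zero_iff (two_ne_zero)).1 h)
      · exact j.ne_zero h
    have hy : y = y' := by
      have h1 : (y - y') * (g * GeneralLinearGroup.upperRightHom (j : ZMod ℓ) * g⁻¹) 1 0 = 0 := by
        have := e00.symm.trans e00'
        linear_combination this
      rcases mul_eq_zero.1 h1 with h | h
      · exact sub_eq_zero.1 h
      · exact absurd h hm10ne
    have hz : z = z' := by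
      have h1 : (g * GeneralLinearGroup.upperRightHom (j : ZMod ℓ) * g⁻¹) 1 0 * (z - z') = 0 := by
        have := e11.symm.trans e11'
        linear_combination this
      rcases mul_eq_zero.1 h1 with h | h
      · exact absurd h hm10ne
      · exact sub_eq_zero.1 h
    rw [hy, hz]
  have hcard := Nat.card_le_card_of_injective Φ hinj
  have hdom : Nat.card (ZMod ℓ × (ZMod ℓ)ˣ × ZMod ℓ) = ℓ ^ 2 * (ℓ - 1) := by
    rw [Nat.card_prod, Nat.card_prod, Nat.card_zmod, Nat.card_eq_fintype_card (α := (ZMod ℓ)ˣ),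
      ZMod.card_units]
    ring
  rw [hdom] at hcard
  exact hcard

end Core


section Reduce

variable {ℓ : ℕ} [Fact ℓ.Prime]

/-- a nilpotent `2 × 2` matrix over a field squares to zero. -/
lemma sq_eq_zero_of_isNilpotent {F : Type*} [Field F] (N : Matrix (Fin 2) (Fin 2) F)
    (hN : IsNilpotent N) : N * N = 0 := by
  have h1 := Matrix.isNilpotent_charpoly_sub_pow_of_isNilpotent hN
  have h2 : N.charpoly - X ^ Fintype.card (Fin 2) = 0 := h1.eq_zero
  have h3 : N.charpoly = X ^ 2 := by
    rw [Fintype.card_fin] at h2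
    exact sub_eq_zero.1 h2
  have h4 := Matrix.aeval_self_charpoly N
  rw [h3] at h4
  simpa [sq] using h4

/-- **Case A**: a semisimple subgroup of `GL(2, 𝔽_ℓ)` of order divisible by `ℓ` has at least
`ℓ² (ℓ - 1)` elements. -/
theorem caseA (G : Subgroup (GL (Fin 2) (ZMod ℓ))) (hss : IsSemisimpleSub G)
    (hdvd : ℓ ∣ Nat.card G) : ℓ ^ 2 * (ℓ - 1) ≤ Nat.card G := by
  classical
  have hℓ : ℓ.Prime := Fact.out
  -- an element of order `ℓ`
  obtain ⟨u, hu⟩ := exists_prime_orderOf_dvd_card' (G := G) ℓ hdvd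
  have hupow : (u : GL (Fin 2) (ZMod ℓ)) ^ ℓ = 1 := by
    have := pow_orderOf_eq_one u
    rw [hu] at this
    exact congrArg Subtype.val this
  have hu1 : (u : GL (Fin 2) (ZMod ℓ)) ≠ 1 := by
    intro h
    have : u = 1 := Subtype.ext h
    rw [this, orderOf_one] at hu
    exact hℓ.one_lt.ne hu
  set um : Matrix (Fin 2) (Fin 2) (ZMod ℓ) := (u : GL (Fin 2) (ZMod ℓ)).val with hum
  set N : Matrix (Fin 2) (Fin 2) (ZMod ℓ) := um - 1 with hN
  have humpow : um ^ ℓ = 1 := by
    have := congrArg (fun g : GL (Fin 2) (ZMod ℓ) => g.val) hupow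
    simpa using this
  have hNpow : N ^ ℓ = 0 := by
    rw [hN, sub_pow_char_of_commute ℓ (Commute.one_right um), humpow, one_pow, sub_self]
  have hN2 : N * N = 0 := sq_eq_zero_of_isNilpotent N ⟨ℓ, hNpow⟩
  have hN0 : N ≠ 0 := by
    intro h
    apply hu1
    apply Units.ext
    show um = 1
    exact sub_eq_zero.1 h
  -- a vector `w` with `N w ≠ 0`
  obtain ⟨w, hw⟩ : ∃ w : Fin 2 → ZMod ℓ, N.mulVec w ≠ 0 := by
    by_contra hcon
    push Not at hcon
    apply hN0
    ext i j
    have := congrFun (hcon (Pi.single j 1)) i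
    simpa using this
  set e₁ : Fin 2 → ZMod ℓ := N.mulVec w with he₁
  have hNe₁ : N.mulVec e₁ = 0 := by
    rw [he₁, Matrix.mulVec_mulVec, hN2, Matrix.zero_mulVec]
  have hue₁ : um.mulVec e₁ = e₁ := by
    have : um = 1 + N := by rw [hN]; abel
    rw [this, Matrix.add_mulVec, Matrix.one_mulVec, hNe₁, add_zero]
  have huw : um.mulVec w = w + e₁ := by
    have : um = 1 + N := by rw [hN]; abel
    rw [this, Matrix.add_mulVec, Matrix.one_mulVec]
  -- the base change
  set P : Matrix (Fin 2) (Fin 2) (ZMod ℓ) := !![e₁ 0, w 0; e₁ 1, w 1] with hP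
  have hPv : ∀ v : Fin 2 → ZMod ℓ, P.mulVec v = v 0 • e₁ + v 1 • w := by
    intro v
    ext i
    fin_cases i <;> simp [hP, Matrix.mulVec, dotProduct, Fin.sum_univ_two] <;> ring
  have hPdet : P.det ≠ 0 := by
    intro hdet
    obtain ⟨v, hv0, hv⟩ := Matrix.exists_mulVec_eq_zero_iff.2 hdet
    rw [hPv] at hv
    have h1 := congrArg N.mulVec hv
    rw [Matrix.mulVec_add, Matrix.mulVec_smul, Matrix.mulVec_smul, hNe₁, smul_zero, zero_add,
      Matrix.mulVec_zero] at h1
    have hv1 : v 1 = 0 := by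
      rcases smul_eq_zero.1 h1 with h | h
      · exact h
      · exact absurd h hw
    rw [hv1, zero_smul, add_zero] at hv
    have hv0' : v 0 = 0 := by
      rcases smul_eq_zero.1 hv with h | h
      · exact h
      · exact absurd h hw
    apply hv0
    ext i
    fin_cases i
    · exact hv0'
    · exact hv1
  set Pg : GL (Fin 2) (ZMod ℓ) := Matrix.GeneralLinearGroup.mkOfDetNeZero P hPdet with hPg
  have hPgval : Pg.val = P := rfl
  -- conjugation
  have hconjU : Pg⁻¹ * (u : GL (Fin 2) (ZMod ℓ)) * Pg =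
      GeneralLinearGroup.upperRightHom (1 : ZMod ℓ) := by
    have h1 : (u : GL (Fin 2) (ZMod ℓ)) * Pg = Pg * GeneralLinearGroup.upperRightHom (1 : ZMod ℓ) := by
      apply Units.ext
      rw [Units.val_mul, Units.val_mul, hPgval]
      show um * P = P * _
      ext i j
      have hcol0 : ∀ i, (um * P) i 0 = e₁ i := by
        intro i
        have := congrFun hue₁ i
        rw [← this]
        fin_cases i <;> simp [hP, Matrix.mul_apply, Matrix.mulVec, dotProduct, Fin.sum_univ_two]
      have hcol1 : ∀ i, (um * P) i 1 = w i + e₁ i := by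
        intro i
        have := congrFun huw i
        rw [Pi.add_apply] at this
        rw [← this]
        fin_cases i <;> simp [hP, Matrix.mul_apply, Matrix.mulVec, dotProduct, Fin.sum_univ_two]
      fin_cases j
      · rw [show ((⟨0, by norm_num⟩ : Fin 2)) = 0 from rfl, hcol0 i]
        fin_cases i <;>
          simp [hP, Matrix.mul_apply, Fin.sum_univ_two, GeneralLinearGroup.upperRightHom]
      · rw [show ((⟨1, by norm_num⟩ : Fin 2)) = 1 from rfl, hcol1 i]
        fin_cases i <;>
          simp [hP, Matrix.mul_apply, Fin.sum_univ_two, GeneralLinearGroup.upperRightHom] <;> ring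
    rw [mul_assoc, h1, ← mul_assoc, inv_mul_cancel, one_mul]
  -- the conjugate subgroup
  let c : GL (Fin 2) (ZMod ℓ) →* GL (Fin 2) (ZMod ℓ) := (MulAut.conj Pg⁻¹).toMonoidHom
  have hc_apply : ∀ g, c g = Pg⁻¹ * g * Pg := by
    intro g
    simp [c]
  have hcinj : Function.Injective c := (MulAut.conj Pg⁻¹).injective
  set G' : Subgroup (GL (Fin 2) (ZMod ℓ)) := G.map c with hG'
  have hcard : Nat.card G' = Nat.card G := Subgroup.card_map_of_injective hcinj
  have hU : GeneralLinearGroup.upperRightHom (1 : ZMod ℓ) ∈ G' := by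
    rw [← hconjU, ← hc_apply]
    exact Subgroup.mem_map_of_mem c u.2
  -- an element with nonzero lower left entry
  have hex : ∃ g ∈ G, (Pg⁻¹ * g * Pg) 1 0 ≠ 0 := by
    by_contra hcon
    push Not at hcon
    -- the line spanned by `e₁` is stable
    have hstab : ∀ g ∈ G, ∃ a : ZMod ℓ, g.val.mulVec e₁ = a • e₁ := by
      intro g hg
      have h0 := hcon g hg
      set q : GL (Fin 2) (ZMod ℓ) := Pg⁻¹ * g * Pg with hq
      refine ⟨q 0 0, ?_⟩
      have h1 : g * Pg = Pg * q := by rw [hq]; group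
      have h2 : g.val * P = P * q.val := by
        have := congrArg (fun x : GL (Fin 2) (ZMod ℓ) => x.val) h1
        simpa only [Units.val_mul, hPgval] using this
      have hPe : P.mulVec ![1, 0] = e₁ := by
        rw [hPv]
        simp
      have hcol : q.val.mulVec ![1, 0] = ![q 0 0, 0] := by
        ext i
        fin_cases i
        · simp [Matrix.mulVec, dotProduct, Fin.sum_univ_two]
        · simp only [Matrix.mulVec, dotProduct, Fin.sum_univ_two]
          simp
          exact h0
      calc g.val.mulVec e₁ = g.val.mulVec (P.mulVec ![1, 0]) := by rw [hPe]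
        _ = (g.val * P).mulVec ![1, 0] := by rw [Matrix.mulVec_mulVec]
        _ = (P * q.val).mulVec ![1, 0] := by rw [h2]
        _ = P.mulVec (q.val.mulVec ![1, 0]) := by rw [Matrix.mulVec_mulVec]
        _ = P.mulVec ![q 0 0, 0] := by rw [hcol]
        _ = q 0 0 • e₁ := by
            rw [hPv]
            simp
    let L : Submodule (ZMod ℓ) (Fin 2 → ZMod ℓ) := Submodule.span (ZMod ℓ) {e₁}
    have hLstab : ∀ g ∈ G, ∀ v ∈ L, (g : Matrix (Fin 2) (Fin 2) (ZMod ℓ)).mulVec v ∈ L := by
      intro g hg v hv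
      obtain ⟨b, rfl⟩ := Submodule.mem_span_singleton.1 hv
      obtain ⟨a, ha⟩ := hstab g hg
      rw [Matrix.mulVec_smul, ha]
      exact Submodule.smul_mem _ _ (Submodule.smul_mem _ _ (Submodule.mem_span_singleton_self _))
    obtain ⟨L', hL'stab, hcompl⟩ := hss L hLstab
    have hwsup : w ∈ L ⊔ L' := by
      rw [hcompl.sup_eq_top]
      exact Submodule.mem_top
    obtain ⟨l, hl, m, hm, hlm⟩ := Submodule.mem_sup.1 hwsup
    obtain ⟨b, rfl⟩ := Submodule.mem_span_singleton.1 hl
    have he₁L' : e₁ ∈ L' := by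
      have h1 : e₁ = um.mulVec m - m := by
        have h2 : N.mulVec w = N.mulVec m := by
          rw [← hlm, Matrix.mulVec_add, Matrix.mulVec_smul, hNe₁, smul_zero, zero_add]
        rw [he₁, h2, hN, Matrix.sub_mulVec, Matrix.one_mulVec]
      rw [h1]
      exact L'.sub_mem (hL'stab u u.2 m hm) hm
    have he₁L : e₁ ∈ L := Submodule.mem_span_singleton_self _
    have : e₁ ∈ L ⊓ L' := ⟨he₁L, he₁L'⟩
    rw [hcompl.inf_eq_bot] at this
    exact hw ((Submodule.mem_bot _).1 this)
  obtain ⟨g, hg, hg10⟩ := hex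
  have hg' : Pg⁻¹ * g * Pg ∈ G' := by
    rw [← hc_apply]
    exact Subgroup.mem_map_of_mem c hg
  rw [← hcard]
  exact caseA_core G' hU (Pg⁻¹ * g * Pg) hg' hg10

end Reduce

end Fermat.Agent.T4.helper77
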