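import Mathlib

/-!
# T4 / S48, block (IV), [T4-GRP] part 1: the Klein count (helper77)

A finite group `G` acting on a finite set `X` such that a subgroup `Z` acts trivially and every
element outside `Z` has exactly two fixed points satisfies: `[G : Z] ≤ 60`, or some point
stabiliser has index `≤ 2`.  (Burnside's lemma + the classical numerics
`∑ (1 - 1/e_i) = 2 - 2/n`.)
-/

set_option autoImplicit false

namespace Fermat.Agent.T4.helper77

open MulAction

/-- numerics, ordered case. -/
lemma klein_three_aux (n a b c : ℕ) (hn : n = 2 * a) (hb : b ∣ n) (hc : c ∣ n)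
    (hc3 : 3 ≤ c) (hb2 : 2 * b ≤ n) (h : a + b + c = n + 2)
    (hbc : c ≤ b) : n ≤ 60 := by
  obtain ⟨e, he⟩ := hb
  have hbpos : 0 < b := by omega
  have he4 : e < 4 := by
    by_contra hcon
    push Not at hcon
    have : b * 4 ≤ b * e := Nat.mul_le_mul_left b hcon
    omega
  have he2 : 2 ≤ e := by
    by_contra hcon
    push Not at hcon
    have : b * e ≤ b * 1 := Nat.mul_le_mul_left b (by omega)
    omega
  interval_cases e
  · omega
  · obtain ⟨e3, he3⟩ := hc
    have h6 : 6 * c = n + 12 := by omega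
    have he36 : e3 < 6 := by
      by_contra hcon
      push Not at hcon
      have : c * 6 ≤ c * e3 := Nat.mul_le_mul_left c hcon
      omega
    interval_cases e3 <;> omega

/-- numerics: three proper divisors `≥ 3` of `n` with sum `n + 2` force `n ≤ 60`. -/
lemma klein_three (n a b c : ℕ) (ha : a ∣ n) (hb : b ∣ n) (hc : c ∣ n)
    (ha3 : 3 ≤ a) (hb3 : 3 ≤ b) (hc3 : 3 ≤ c)
    (ha2 : 2 * a ≤ n) (hb2 : 2 * b ≤ n) (hc2 : 2 * c ≤ n) (h : a + b + c = n + 2) : n ≤ 60 := by
  -- the largest of the three is `n / 2`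
  have key : ∀ x y z : ℕ, x ∣ n → y ∣ n → z ∣ n → 3 ≤ y → 3 ≤ z → 2 * x ≤ n → 2 * y ≤ n →
      2 * z ≤ n → x + y + z = n + 2 → y ≤ x → z ≤ y → n ≤ 60 := by
    intro x y z hx hy hz hy3 hz3 hx2 hy2 hz2 hsum hyx hzy
    obtain ⟨e, he⟩ := hx
    have hxpos : 0 < x := by omega
    have he3 : e < 3 := by
      by_contra hcon
      push Not at hcon
      have : x * 3 ≤ x * e := Nat.mul_le_mul_left x hcon
      omega
    have he2 : 2 ≤ e := by
      by_contra hcon
      push Not at hcon
      have : x * e ≤ x * 1 := Nat.mul_le_mul_left x (by omega)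
      omega
    have he' : e = 2 := by omega
    subst he'
    exact klein_three_aux n x y z (by omega) hy hz hz3 hy2 hsum hzy
  rcases le_total a b with hab | hab <;> rcases le_total b c with hbc | hbc <;>
    rcases le_total a c with hac | hac
  · exact key c b a hc hb ha hb3 ha3 hc2 hb2 ha2 (by omega) hbc hab
  · exact key c b a hc hb ha hb3 ha3 hc2 hb2 ha2 (by omega) hbc hab
  · exact key b c a hb hc ha hc3 ha3 hb2 hc2 ha2 (by omega) hbc hac
  · exact key b a c hb ha hc ha3 hc3 hb2 ha2 hc2 (by omega) hab hac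
  · exact key c a b hc ha hb ha3 hb3 hc2 ha2 hb2 (by omega) hac hab
  · exact key a c b ha hc hb hc3 hb3 ha2 hc2 hb2 (by omega) hac hbc
  · exact key a b c ha hb hc hb3 hc3 ha2 hb2 hc2 (by omega) hab hbc
  · exact key a b c ha hb hc hb3 hc3 ha2 hb2 hc2 (by omega) hab hbc

/-- numerics: the orbit sizes in Burnside's formula. -/
lemma klein_arith {ι : Type*} [Fintype ι] (n : ℕ) (hn : 0 < n) (s : ι → ℕ)
    (hs : ∀ i, s i ∣ n) (h3 : ∀ i, 3 ≤ s i)
    (hsum : ∑ _i : ι, n = ∑ i, s i + 2 * (n - 1)) : n ≤ 60 := by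
  classical
  set J : Finset ι := Finset.univ.filter (fun i => s i ≠ n) with hJ
  have hJc : ∀ i ∈ Finset.univ.filter (fun i => ¬ s i ≠ n), s i = n := by
    intro i hi
    simpa using hi
  have hsplit1 : ∑ _i : ι, n = ∑ _i ∈ J, n + ∑ _i ∈ Finset.univ.filter (fun i => ¬ s i ≠ n), n :=
    (Finset.sum_filter_add_sum_filter_not Finset.univ (fun i => s i ≠ n) (fun _ => n)).symm
  have hsplit2 : ∑ i : ι, s i = ∑ i ∈ J, s i +
      ∑ i ∈ Finset.univ.filter (fun i => ¬ s i ≠ n), s i :=
    (Finset.sum_filter_add_sum_filter_not Finset.univ (fun i => s i ≠ n) s).symm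
  have hrest : ∑ i ∈ Finset.univ.filter (fun i => ¬ s i ≠ n), s i =
      ∑ _i ∈ Finset.univ.filter (fun i => ¬ s i ≠ n), n :=
    Finset.sum_congr rfl hJc
  have hmain : ∑ _i ∈ J, n = ∑ i ∈ J, s i + 2 * (n - 1) := by
    rw [hsplit1, hsplit2, hrest] at hsum
    omega
  have hhalf : ∀ i ∈ J, 2 * s i ≤ n := by
    intro i hi
    have hne : s i ≠ n := by simpa [hJ] using hi
    obtain ⟨e, he⟩ := hs i
    have hspos : 0 < s i := by have := h3 i; omega
    have he2 : 2 ≤ e := by
      rcases Nat.lt_or_ge e 2 with h | h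
      · interval_cases e
        · omega
        · exact absurd (by rw [he, mul_one]) hne
      · exact h
    calc 2 * s i = s i * 2 := by ring
      _ ≤ s i * e := Nat.mul_le_mul_left _ he2
      _ = n := he.symm
  have hsumhalf : 2 * ∑ i ∈ J, s i ≤ J.card * n := by
    rw [Finset.mul_sum]
    calc ∑ i ∈ J, 2 * s i ≤ ∑ _i ∈ J, n := Finset.sum_le_sum hhalf
      _ = J.card * n := by rw [Finset.sum_const, smul_eq_mul]
  rw [Finset.sum_const, smul_eq_mul] at hmain
  have hcard : J.card ≤ 3 := by
    by_contra hcon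
    push Not at hcon
    have h4 : 4 * n ≤ J.card * n := Nat.mul_le_mul_right n hcon
    omega
  have hcases : J.card = 0 ∨ J.card = 1 ∨ J.card = 2 ∨ J.card = 3 := by omega
  rcases hcases with h0 | h1 | h2 | h3'
  · rw [h0] at hmain
    rw [Finset.card_eq_zero.1 h0, Finset.sum_empty] at hmain
    omega
  · obtain ⟨i, hi⟩ := Finset.card_eq_one.1 h1
    rw [h1] at hmain
    rw [hi, Finset.sum_singleton] at hmain
    have := h3 i
    omega
  · obtain ⟨i, j, hij, hJ2⟩ := Finset.card_eq_two.1 h2
    rw [h2] at hmain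
    rw [hJ2, Finset.sum_pair hij] at hmain
    have := h3 i
    have := h3 j
    omega
  · obtain ⟨i, j, k, hij, hik, hjk, hJ3⟩ := Finset.card_eq_three.1 h3'
    have hi : i ∈ J := by rw [hJ3]; simp
    have hj : j ∈ J := by rw [hJ3]; simp
    have hk : k ∈ J := by rw [hJ3]; simp
    have hsum3 : ∑ x ∈ J, s x = s i + s j + s k := by
      rw [hJ3, Finset.sum_insert (by simp [hij, hik]), Finset.sum_pair hjk]
      ring
    rw [h3'] at hmain
    rw [hsum3] at hmain
    exact klein_three n (s i) (s j) (s k) (hs i) (hs j) (hs k) (h3 i) (h3 j) (h3 k)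
      (hhalf i hi) (hhalf j hj) (hhalf k hk) (by omega)

/-- **The Klein count.** -/
theorem klein_count {G X : Type*} [Group G] [Finite G] [Finite X] [MulAction G X]
    (Z : Subgroup G) (hZ : ∀ g ∈ Z, ∀ x : X, g • x = x)
    (h2 : ∀ g : G, g ∉ Z → Nat.card (fixedBy X g) = 2) :
    Z.index ≤ 60 ∨ ∃ x : X, (stabilizer G x).index ≤ 2 := by
  classical
  by_contra hcon
  push Not at hcon
  obtain ⟨h60, hst⟩ := hcon
  let _ : Fintype G := Fintype.ofFinite G
  let _ : Fintype X := Fintype.ofFinite X
  let Ω := orbitRel.Quotient G X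
  let _ : Fintype Ω := Fintype.ofFinite Ω
  have hB := sum_card_fixedBy_eq_card_orbits_mul_card_group G X
  -- the left-hand side
  have hfix : ∀ g : G, Fintype.card (fixedBy X g) =
      if g ∈ Z then Fintype.card X else 2 := by
    intro g
    split_ifs with hg
    · have : fixedBy X g = Set.univ := by
        ext x
        simp [mem_fixedBy, hZ g hg x]
      rw [← Nat.card_eq_fintype_card, this, Nat.card_congr (Equiv.Set.univ X),
        Nat.card_eq_fintype_card]
    · rw [← Nat.card_eq_fintype_card, h2 g hg]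
  have hZle : ∀ x : X, Z ≤ stabilizer G x := fun x g hg => hZ g hg x
  set n := Z.index with hn
  set z := Nat.card Z with hz
  have hzpos : 0 < z := Nat.card_pos
  have hnpos : 0 < n := Nat.pos_of_ne_zero (Subgroup.index_ne_zero_of_finite)
  have hN : Fintype.card G = n * z := by
    rw [← Nat.card_eq_fintype_card, hn, hz, Subgroup.index_mul_card]
  have hLHS : ∑ g : G, Fintype.card (fixedBy X g) = z * Fintype.card X + 2 * (n * z - z) := by
    simp_rw [hfix]
    rw [Finset.sum_ite, Finset.sum_const, Finset.sum_const, smul_eq_mul, smul_eq_mul]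
    have hc1 : (Finset.univ.filter (fun g : G => g ∈ Z)).card = z := by
      rw [hz, Nat.card_eq_fintype_card, Fintype.card_subtype]
    have hc2 : (Finset.univ.filter (fun g : G => g ∉ Z)).card = n * z - z := by
      have := Finset.card_filter_add_card_filter_not (s := (Finset.univ : Finset G))
        (fun g : G => g ∈ Z)
      rw [hc1, Finset.card_univ, hN] at this
      omega
    rw [hc1, hc2]
    ring
  -- the class formula
  let s : Ω → ℕ := fun ω => (stabilizer G (Quotient.out ω : X)).index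
  have hX : Fintype.card X = ∑ ω : Ω, s ω := by
    rw [Fintype.card_congr (selfEquivSigmaOrbitsQuotientStabilizer G X), Fintype.card_sigma]
    refine Finset.sum_congr rfl (fun ω _ => ?_)
    rw [← Nat.card_eq_fintype_card]
    rfl
  have hs : ∀ ω, s ω ∣ n := by
    intro ω
    exact ⟨Z.relIndex (stabilizer G (Quotient.out ω : X)), by
      rw [hn, mul_comm]; exact (Subgroup.relIndex_mul_index (hZle _)).symm⟩
  have h3 : ∀ ω, 3 ≤ s ω := by
    intro ω
    have := hst (Quotient.out ω : X)
    show 3 ≤ (stabilizer G (Quotient.out ω : X)).index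
    omega
  have hsum : ∑ _ω : Ω, n = ∑ ω, s ω + 2 * (n - 1) := by
    rw [hLHS, hX, hN] at hB
    rw [Finset.sum_const, smul_eq_mul, Finset.card_univ]
    have h1 : z * (∑ ω, s ω + 2 * (n - 1)) = z * (Fintype.card Ω * n) := by
      have hz1 : n * z - z = z * (n - 1) := by
        rw [Nat.mul_sub, mul_one, mul_comm]
      rw [hz1] at hB
      calc z * (∑ ω, s ω + 2 * (n - 1)) = z * ∑ ω, s ω + 2 * (z * (n - 1)) := by ring
        _ = Fintype.card Ω * (n * z) := hB
        _ = z * (Fintype.card Ω * n) := by ring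
    exact (Nat.eq_of_mul_eq_mul_left hzpos h1).symm
  have := klein_arith n hnpos s hs h3 hsum
  omega

end Fermat.Agent.T4.helper77
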