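import Mathlib
import Fermat.Agent.T4.helper77_KleinNum
import Fermat.Agent.T4.helper77_Eigen

/-!
# T4 / S48, block (IV), [T4-GRP] part 4: subgroups of order prime to the characteristic (helper77)

`caseB`: let `G ≤ GL(2, k)` be a finite subgroup of order prime to the characteristic (odd)
of the finite field `k`, all of whose elements have square discriminant.  If `H ⊆ G` has at most
`M` characteristic polynomials then `|H| ≤ 120 M` or `2 |H| ≤ 4 M + |G|`.
-/

set_option autoImplicit false

namespace Fermat.Agent.T4.helper77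

open Matrix OnePoint MulAction Polynomial

variable {k : Type*} [Field k] [Fintype k] [DecidableEq k]

omit [Fintype k] [DecidableEq k] in
/-- non-central elements of a group of order prime to the characteristic have nonzero
discriminant. -/
lemma discr_ne_zero_of_mem (h2 : (2 : k) ≠ 0) (G : Subgroup (GL (Fin 2) k))
    (hord : ((Nat.card G : ℕ) : k) ≠ 0) (g : GL (Fin 2) k) (hg : g ∈ G)
    (hns : g ∉ Subgroup.center (GL (Fin 2) k)) : g.val.discr ≠ 0 := by
  intro hd
  have hpow : g ^ Nat.card G = 1 := by
    have := pow_card_eq_one' (G := G) (x := ⟨g, hg⟩)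
    exact congrArg Subtype.val this
  refine not_isParabolic_of_pow_eq_one h2 g (Nat.card G) hord hpow ⟨?_, hd⟩
  intro hsc
  exact hns (Matrix.GeneralLinearGroup.mem_center_iff_val_mem_range_scalar.2 hsc)

/-- the fibres of the characteristic polynomial in a coset of the centre. -/
lemma card_fibre_center_le (T : Finset (GL (Fin 2) k)) (P : k[X])
    (hT : ∀ g ∈ T, g.val.charpoly = P)
    (q : GL (Fin 2) k ⧸ Subgroup.center (GL (Fin 2) k)) :
    (T.filter (fun g => (QuotientGroup.mk g : GL (Fin 2) k ⧸ Subgroup.center (GL (Fin 2) k)) = q)).card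
      ≤ 2 := by
  classical
  by_cases hne : (T.filter (fun g =>
      (QuotientGroup.mk g : GL (Fin 2) k ⧸ Subgroup.center (GL (Fin 2) k)) = q)).Nonempty
  · obtain ⟨g₀, hg₀⟩ := hne
    rw [Finset.mem_filter] at hg₀
    -- the second candidate
    let negOne : GL (Fin 2) k := Units.map (Matrix.scalar (Fin 2)).toMonoidHom (-1 : kˣ)
    have hsub : (T.filter (fun g =>
        (QuotientGroup.mk g : GL (Fin 2) k ⧸ Subgroup.center (GL (Fin 2) k)) = q)) ⊆
        {g₀, negOne * g₀} := by
      intro g hg
      rw [Finset.mem_filter] at hg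
      have hq : (QuotientGroup.mk g₀ : GL (Fin 2) k ⧸ Subgroup.center (GL (Fin 2) k)) =
          QuotientGroup.mk g := by rw [hg₀.2, hg.2]
      rw [QuotientGroup.eq] at hq
      have hsc := Matrix.GeneralLinearGroup.mem_center_iff_val_mem_range_scalar.1 hq
      have hP : g₀.val.charpoly = g.val.charpoly := by rw [hT g₀ hg₀.1, hT g hg.1]
      rcases eq_or_eq_neg_of_scalar g₀ g hP hsc with h | h
      · rw [Finset.mem_insert]
        left
        exact Units.ext h
      · rw [Finset.mem_insert, Finset.mem_singleton]
        right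
        apply Units.ext
        rw [h, Units.val_mul]
        show -g₀.val = (Matrix.scalar (Fin 2)) ((-1 : kˣ) : k) * g₀.val
        rw [scalar_eq_smul_one, Matrix.smul_mul, one_mul]
        simp
    exact (Finset.card_le_card hsub).trans Finset.card_le_two
  · rw [Finset.not_nonempty_iff_eq_empty] at hne
    rw [hne]
    simp

omit [Fintype k] in
/-- the fibres of the characteristic polynomial in a point stabiliser. -/
lemma card_fibre_stab_le (h2 : (2 : k) ≠ 0) (G : Subgroup (GL (Fin 2) k))
    (hord : ((Nat.card G : ℕ) : k) ≠ 0) (x : OnePoint k)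
    (T : Finset (GL (Fin 2) k)) (hTG : ∀ g ∈ T, g ∈ G) (hTx : ∀ g ∈ T, g • x = x)
    (P : k[X]) (hT : ∀ g ∈ T, g.val.charpoly = P) : T.card ≤ 2 := by
  classical
  by_cases hne : T.Nonempty
  · obtain ⟨g₀, hg₀⟩ := hne
    have hPdeg : P.natDegree = 2 := by
      rw [← hT g₀ hg₀, Matrix.charpoly_natDegree_eq_dim, Fintype.card_fin]
    have hP0 : P ≠ 0 := by
      intro h
      rw [h] at hPdeg
      simp at hPdeg
    have hmaps : ∀ g ∈ T, evAt x g ∈ P.roots.toFinset := by
      intro g hg
      rw [Multiset.mem_toFinset, Polynomial.mem_roots hP0, ← hT g hg]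
      exact evAt_isRoot g x (hTx g hg)
    have hinj : Set.InjOn (evAt x) (T : Set (GL (Fin 2) k)) := by
      intro g hg h hh hev
      have hgG := hTG g hg
      have hhG := hTG h hh
      have hpow : (g⁻¹ * h) ^ Nat.card G = 1 := by
        have := pow_card_eq_one' (G := G) (x := ⟨g⁻¹ * h, G.mul_mem (G.inv_mem hgG) hhG⟩)
        exact congrArg Subtype.val this
      exact eq_of_same_eigen h2 g h x (hTx g hg) (hTx h hh) (by rw [hT g hg, hT h hh]) hev
        (Nat.card G) hord hpow
    calc T.card ≤ P.roots.toFinset.card := Finset.card_le_card_of_injOn (evAt x) hmaps hinj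
      _ ≤ Multiset.card P.roots := Multiset.toFinset_card_le _
      _ ≤ P.natDegree := Polynomial.card_roots' P
      _ = 2 := hPdeg
  · rw [Finset.not_nonempty_iff_eq_empty] at hne
    rw [hne]
    simp


/-- **Case B**: subgroups of order prime to the characteristic. -/
theorem caseB (h2 : (2 : k) ≠ 0) (G : Subgroup (GL (Fin 2) k))
    (hord : ((Nat.card G : ℕ) : k) ≠ 0) (hsq : ∀ g ∈ G, IsSquare g.val.discr)
    (H : Finset (GL (Fin 2) k)) (hH : ∀ h ∈ H, h ∈ G) (M : ℕ)
    (hM : (H.image (fun h => h.val.charpoly)).card ≤ M) :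
    H.card ≤ 120 * M ∨ 2 * H.card ≤ 4 * M + Nat.card G := by
  classical
  set Z : Subgroup G := (Subgroup.center (GL (Fin 2) k)).subgroupOf G with hZdef
  have hZ : ∀ g ∈ Z, ∀ x : OnePoint k, g • x = x := by
    intro g hg x
    rw [hZdef, Subgroup.mem_subgroupOf] at hg
    exact scalar_smul_onePoint (g : GL (Fin 2) k)
      (Matrix.GeneralLinearGroup.mem_center_iff_val_mem_range_scalar.1 hg) x
  have hfix2 : ∀ g : G, g ∉ Z → Nat.card (fixedBy (OnePoint k) g) = 2 := by
    intro g hg
    have hns : (g : GL (Fin 2) k) ∉ Subgroup.center (GL (Fin 2) k) :=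
      fun h => hg (Subgroup.mem_subgroupOf.2 h)
    have hd := discr_ne_zero_of_mem h2 G hord g g.2 hns
    obtain ⟨δ, hδ⟩ := hsq g g.2
    have hδ0 : δ ≠ 0 := by
      rintro rfl
      apply hd
      rw [hδ, mul_zero]
    exact card_fixedBy_eq_two h2 (g : GL (Fin 2) k) δ hδ0 hδ
  rcases klein_count Z hZ hfix2 with h60 | ⟨x, hx⟩
  · left
    -- the image of `G` modulo the centre
    let φ : G →* GL (Fin 2) k ⧸ Subgroup.center (GL (Fin 2) k) :=
      (QuotientGroup.mk' (Subgroup.center (GL (Fin 2) k))).comp G.subtype
    have hker : φ.ker = Z := by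
      ext g
      rw [MonoidHom.mem_ker, hZdef, Subgroup.mem_subgroupOf]
      show (QuotientGroup.mk (g : GL (Fin 2) k) : GL (Fin 2) k ⧸ Subgroup.center (GL (Fin 2) k))
        = 1 ↔ _
      rw [QuotientGroup.eq_one_iff]
    have hrange : Nat.card φ.range ≤ 60 := by
      rw [← Subgroup.index_ker, hker]
      exact h60
    have hfib : ∀ P ∈ H.image (fun h => h.val.charpoly),
        (H.filter (fun a => a.val.charpoly = P)).card ≤ 120 := by
      intro P _
      set T := H.filter (fun a => a.val.charpoly = P) with hT
      have hTP : ∀ g ∈ T, g.val.charpoly = P := by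
        intro g hg
        rw [hT, Finset.mem_filter] at hg
        exact hg.2
      have h1 := Finset.card_le_mul_card_image (f := fun g : GL (Fin 2) k =>
        (QuotientGroup.mk g : GL (Fin 2) k ⧸ Subgroup.center (GL (Fin 2) k))) T 2
        (fun q _ => card_fibre_center_le T P hTP q)
      have h3 : (T.image (fun g : GL (Fin 2) k =>
          (QuotientGroup.mk g : GL (Fin 2) k ⧸ Subgroup.center (GL (Fin 2) k)))).card ≤
          Nat.card φ.range := by
        have hr : Nat.card φ.range =
            (φ.range : Set (GL (Fin 2) k ⧸ Subgroup.center (GL (Fin 2) k))).ncard := by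
          rw [← Nat.card_coe_set_eq]
          rfl
        rw [← Set.ncard_coe_finset, hr]
        refine Set.ncard_le_ncard ?_ (Set.toFinite _)
        intro q hq
        rw [Finset.mem_coe, Finset.mem_image] at hq
        obtain ⟨g, hg, rfl⟩ := hq
        rw [hT, Finset.mem_filter] at hg
        exact ⟨⟨g, hH g hg.1⟩, rfl⟩
      calc T.card ≤ 2 * _ := h1
        _ ≤ 2 * 60 := Nat.mul_le_mul_left 2 (h3.trans hrange)
    calc H.card ≤ 120 * (H.image (fun h => h.val.charpoly)).card :=
        Finset.card_le_mul_card_image H 120 hfib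
      _ ≤ 120 * M := Nat.mul_le_mul_left _ hM
  · right
    set A := H.filter (fun g => g • x = x) with hA
    set B := H.filter (fun g => ¬ g • x = x) with hB
    have hAB : A.card + B.card = H.card :=
      Finset.card_filter_add_card_filter_not (s := H) (fun g => g • x = x)
    -- the fixed part
    have hAcard : A.card ≤ 2 * M := by
      have hfibA : ∀ P ∈ A.image (fun h => h.val.charpoly),
          (A.filter (fun a => a.val.charpoly = P)).card ≤ 2 := by
        intro P _
        refine card_fibre_stab_le h2 G hord x _ ?_ ?_ P ?_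
        · intro g hg
          rw [Finset.mem_filter, hA, Finset.mem_filter] at hg
          exact hH g hg.1.1
        · intro g hg
          rw [Finset.mem_filter, hA, Finset.mem_filter] at hg
          exact hg.1.2
        · intro g hg
          rw [Finset.mem_filter] at hg
          exact hg.2
      calc A.card ≤ 2 * (A.image (fun h => h.val.charpoly)).card :=
          Finset.card_le_mul_card_image A 2 hfibA
        _ ≤ 2 * (H.image (fun h => h.val.charpoly)).card :=
          Nat.mul_le_mul_left _ (Finset.card_le_card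
            (Finset.image_subset_image (Finset.filter_subset _ _)))
        _ ≤ 2 * M := Nat.mul_le_mul_left _ hM
    -- the moving part
    set S : Set (GL (Fin 2) k) := {g | g ∈ G ∧ g • x = x} with hS
    have hSG : S ⊆ (G : Set (GL (Fin 2) k)) := fun g hg => hg.1
    have hScard : S.ncard = Nat.card (stabilizer G x) := by
      have himg : S = Subtype.val '' ((stabilizer G x : Subgroup G) : Set G) := by
        ext g
        constructor
        · rintro ⟨hgG, hgx⟩
          exact ⟨⟨g, hgG⟩, hgx, rfl⟩
        · rintro ⟨g', hg', rfl⟩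
          exact ⟨g'.2, hg'⟩
      rw [himg, Set.ncard_image_of_injective _ Subtype.val_injective,
        ← Nat.card_coe_set_eq]
      rfl
    have hGcard : (G : Set (GL (Fin 2) k)).ncard = Nat.card G := by
      rw [← Nat.card_coe_set_eq]
      rfl
    have hBle : B.card ≤ Nat.card G - S.ncard := by
      rw [← hGcard, ← Set.ncard_sdiff hSG (Set.toFinite _), ← Set.ncard_coe_finset]
      refine Set.ncard_le_ncard ?_ (Set.toFinite _)
      intro g hg
      rw [Finset.mem_coe, hB, Finset.mem_filter] at hg
      exact ⟨hH g hg.1, fun h => hg.2 h.2⟩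
    have hidx : Nat.card G ≤ 2 * S.ncard := by
      rw [hScard, ← Subgroup.card_mul_index (stabilizer G x), mul_comm]
      exact Nat.mul_le_mul_right _ hx
    omega

end Fermat.Agent.T4.helper77
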