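import Mathlib
import Fermat.Agent.T4.helper32_X1Defs
import Fermat.Agent.T4.helper77_DegGen

/-! # T4 (I) / I-FLD [DEG1-UB] for `F₁(M)` (helper77)

`[F₁(M) : ℚ̄(j)] ≤ [SL(2,ℤ) : Γ]` for every subgroup `Γ ≤ Γ₀(M)` of finite index under which the
analytic realisations `S_a` of the generators `s_a` (`helper32.sSer`) are invariant
(`Γ = ±Γ₁(M)`), given the analytic input `Deg1Pack` (`q`-expansion, invariance, growth of all
translates).

* `Deg1Pack M Γ S` : the analytic input (a `Prop`-valued structure).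
* `F1Q_eq_adjoin_genS`, `F1_eq_adjoin` : the generators of `F₁(M)` as a finite family.
* `deg1_ub` : the degree bound.
-/

set_option autoImplicit false

noncomputable section

open ModularCurve UpperHalfPlane MatrixGroups

namespace Fermat.Agent.T4.helper77

open Fermat.Agent.S24 Fermat.Agent.S24.helper17 Fermat.Agent.S24.helper77

/-- Total version of `qExpand ℚ d jq` (junk value `0` at `d = 0`). -/
def jdQ (d : ℕ) : LaurentSeries ℚ :=
  if h : d = 0 then 0 else haveI : NeZero d := ⟨h⟩; qExpand ℚ d jq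

theorem jdQ_eq (d : ℕ) [NeZero d] : jdQ d = qExpand ℚ d jq := by
  rw [jdQ, dif_neg (NeZero.ne d)]

theorem coeffEmb_jdQ (d : ℕ) : coeffEmb Kbar (jdQ d) = JdT d := by
  by_cases h : d = 0
  · simp [jdQ, JdT, h]
  · have : NeZero d := ⟨h⟩
    rw [jdQ_eq, JdT, dif_neg h]
    rfl

theorem coeffEmbC_jdQ (d : ℕ) : coeffEmb ℂ (jdQ d) = JdTC d := by
  rw [← toC_coeffEmb, coeffEmb_jdQ, toC_JdT]

/-- The index type of the generators of `F₁(M)`: the divisors of `M` and the nonzero residues. -/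
abbrev GenIdx (M : ℕ) : Type := M.divisors ⊕ {a : ZMod M // a ≠ 0}

/-- The generators `j(q^d)`, `d ∣ M`, and `s_a`, `a ≠ 0`, of `F₁(M)` over `ℚ`. -/
def genS (M : ℕ) : GenIdx M → LaurentSeries ℚ
  | Sum.inl d => jdQ d.1
  | Sum.inr a => helper32.sSer ℚ M a.1

@[simp] theorem genS_inl (M : ℕ) (d : M.divisors) : genS M (Sum.inl d) = jdQ d.1 := rfl

@[simp] theorem genS_inr (M : ℕ) (a : {a : ZMod M // a ≠ 0}) :
    genS M (Sum.inr a) = helper32.sSer ℚ M a.1 := rfl

theorem range_genS (M : ℕ) [NeZero M] :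
    Set.range (genS M) = divisorExpansions M ∪ helper32.sGens ℚ M := by
  ext x
  constructor
  · rintro ⟨i, rfl⟩
    rcases i with d | a
    · have hd := Nat.mem_divisors.mp d.2
      have hd0 : d.1 ≠ 0 := fun h => hd.2 (by rw [h] at hd; exact Nat.eq_zero_of_zero_dvd hd.1)
      have : NeZero d.1 := ⟨hd0⟩
      exact Or.inl ⟨d.1, inferInstance, hd.1, jdQ_eq d.1⟩
    · exact Or.inr ⟨a.1, a.2, rfl⟩
  · rintro (⟨d, hne, hd, rfl⟩ | ⟨a, ha, rfl⟩)
    · have := hne
      exact ⟨Sum.inl ⟨d, Nat.mem_divisors.mpr ⟨hd, NeZero.ne M⟩⟩, jdQ_eq d⟩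
    · exact ⟨Sum.inr ⟨a, ha⟩, rfl⟩

theorem F1Q_eq_adjoin_genS (M : ℕ) [NeZero M] :
    helper32.F1Q M = IntermediateField.adjoin ℚ (Set.range (genS M)) := by
  rw [range_genS, helper32.F1Q]

/-- `F₁(M)` is generated over `ℚ̄` by the `j(q^d)`, `d ∣ M`, and the `s_a`, `a ≠ 0`. -/
theorem F1_eq_adjoin (M : ℕ) [NeZero M] :
    helper32.F1 M =
      IntermediateField.adjoin Kbar (Set.range fun i => coeffEmb Kbar (genS M i)) := by
  show laurentBaseChange Kbar (helper32.F1Q M) = _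
  rw [F1Q_eq_adjoin_genS, laurentBaseChange_adjoin_range]

theorem coeffEmb_sSer (L : Type*) [Field L] [Algebra ℚ L] (M : ℕ) (a : ZMod M) :
    coeffEmb L (helper32.sSer ℚ M a) = helper32.sSer L M a := by
  rw [helper32.sSer, helper32.sSer, coeffEmb, coeffMap_ofPowerSeries]
  congr 1
  ext n
  simp [PowerSeries.coeff_map]

/-- The analytic realisations of the generators. -/
def genA (M : ℕ) (S : ZMod M → ℍ → ℂ) : GenIdx M → ℍ → ℂ
  | Sum.inl d => jfunDT d.1
  | Sum.inr a => S a.1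

/-- **The analytic input of DEG1**: functions `S_a` on the upper half plane (`a ≠ 0` in `ℤ/M`)
with `q`-expansion `s_a`, invariant under `Γ`, all of whose `SL(2,ℤ)`-translates are holomorphic
of at most exponential growth at `i∞`. -/
structure Deg1Pack (M : ℕ) (Γ : Subgroup SL(2, ℤ)) (S : ZMod M → ℍ → ℂ) : Prop where
  qexp : ∀ a : ZMod M, a ≠ 0 → IsQExp (helper32.sSer ℂ M a) (S a)
  inv : ∀ γ ∈ Γ, ∀ a : ZMod M, a ≠ 0 → precomp γ (S a) = S a
  growth : ∀ (g : SL(2, ℤ)) (a : ZMod M), a ≠ 0 → precomp g (S a) ∈ holoExp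

/-- **DEG1, upper bound.** `[F₁(M) : ℚ̄(j)] ≤ [SL(2,ℤ) : Γ]`. -/
theorem deg1_ub (M : ℕ) [NeZero M] (Γ : Subgroup SL(2, ℤ)) [Γ.FiniteIndex]
    (hΓ : Γ ≤ CongruenceSubgroup.Gamma0 M) (S : ZMod M → ℍ → ℂ) (h : Deg1Pack M Γ S)
    (x : helper32.F1 M) (hx : (x : LaurentSeries Kbar) = coeffEmb Kbar jq) :
    FiniteDimensional (IntermediateField.adjoin Kbar {x}) (helper32.F1 M) ∧
      Module.finrank (IntermediateField.adjoin Kbar {x}) (helper32.F1 M) ≤ Γ.index := by
  have h1 : (1 : ℕ) ∈ M.divisors := Nat.mem_divisors.mpr ⟨one_dvd M, NeZero.ne M⟩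
  refine finrank_le_index_baseChange Γ (genS M) (genA M S) ?_ ?_ ?_ (Sum.inl ⟨1, h1⟩) ?_
    (helper32.F1Q M) (F1Q_eq_adjoin_genS M) x ?_
  · rintro (d | a)
    · show IsQExp (coeffEmb ℂ (jdQ d.1)) (jfunDT d.1)
      rw [coeffEmbC_jdQ]
      exact isQExp_jfunDT d.1
    · show IsQExp (coeffEmb ℂ (helper32.sSer ℚ M a.1)) (S a.1)
      rw [coeffEmb_sSer]
      exact h.qexp a.1 a.2
  · rintro γ hγ (d | a)
    · exact precomp_jfam_of_mem_Gamma0 (N := M) (fun i : M.divisors => i.1)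
        (fun i => Nat.dvd_of_mem_divisors i.2) (hΓ hγ) d
    · exact h.inv γ hγ a.1 a.2
  · rintro g (d | a)
    · exact precomp_jfam_mem_holoExp (fun i : M.divisors => i.1)
        (fun i hi => by
          have := Nat.mem_divisors.mp i.2
          rw [hi] at this
          exact this.2 (Nat.eq_zero_of_zero_dvd this.1)) g d
    · exact h.growth g a.1 a.2
  · funext τ
    exact jfunDT_one τ
  · rw [hx]
    show coeffEmb Kbar jq = coeffEmb Kbar (jdQ 1)
    rw [jdQ_eq, qExpand_one_apply]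

end Fermat.Agent.T4.helper77
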