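import Mathlib
import Fermat.Agent.T4.helper77_DSDefs
import Fermat.Agent.T4.helper77_CaseA
import Fermat.Agent.T4.helper77_CaseB

/-!
# T4 / S48, block (IV), [T4-GRP]: the Deligne-Serre lemma (helper77)

`fewCharpoly : FewCharpolyStatement`.
-/

set_option autoImplicit false

namespace Fermat.Agent.T4.helper77

open Matrix Polynomial

section Transfer

variable {ℓ : ℕ} [Fact ℓ.Prime]

/-- every element of `𝔽_ℓ` is a square in a field with `ℓ²` elements. -/
lemma isSquare_algebraMap (hℓ2 : ℓ ≠ 2) (k : Type*) [Field k] [Finite k] [Algebra (ZMod ℓ) k]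
    [CharP k ℓ] (hcard : Nat.card k = ℓ ^ 2) (x : ZMod ℓ) :
    IsSquare (algebraMap (ZMod ℓ) k x) := by
  classical
  have hℓ : ℓ.Prime := Fact.out
  by_cases hx : x = 0
  · rw [hx, map_zero]
    exact ⟨0, by simp⟩
  · let _ : Fintype k := Fintype.ofFinite k
    have hchar : ringChar k ≠ 2 := by
      rw [ringChar.eq k ℓ]
      exact hℓ2
    have hy : algebraMap (ZMod ℓ) k x ≠ 0 := by
      intro h
      exact hx ((map_eq_zero (algebraMap (ZMod ℓ) k)).1 h)
    rw [FiniteField.isSquare_iff hchar hy, ← Nat.card_eq_fintype_card, hcard]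
    have hodd : ℓ % 2 = 1 := by
      rcases hℓ.eq_two_or_odd with h | h
      · exact absurd h hℓ2
      · exact h
    have hexp : ℓ ^ 2 / 2 = (ℓ - 1) * ((ℓ + 1) / 2) := by
      obtain ⟨m, hm⟩ : ∃ m, ℓ = 2 * m + 1 := ⟨ℓ / 2, by omega⟩
      subst hm
      have h1 : (2 * m + 1) ^ 2 = 2 * (2 * m * (m + 1)) + 1 := by ring
      have h2 : (2 * m + 1 + 1) / 2 = m + 1 := by omega
      rw [h1, h2]
      have h3 : (2 * (2 * m * (m + 1)) + 1) / 2 = 2 * m * (m + 1) := by omega
      rw [h3]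
      simp
    rw [hexp, pow_mul, ← map_pow, ZMod.pow_card_sub_one_eq_one hx, map_one, one_pow]

/-- the base change `GL(2, 𝔽_ℓ) → GL(2, k)` is injective. -/
lemma glMap_injective (k : Type*) [Field k] [Algebra (ZMod ℓ) k] :
    Function.Injective (Matrix.GeneralLinearGroup.map (n := Fin 2) (algebraMap (ZMod ℓ) k)) := by
  intro g h hgh
  apply Matrix.GeneralLinearGroup.ext
  intro i j
  have := congrArg (fun u : GL (Fin 2) k => u i j) hgh
  simp only [Matrix.GeneralLinearGroup.map_apply] at this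
  exact (algebraMap (ZMod ℓ) k).injective this

lemma glMap_val (k : Type*) [Field k] [Algebra (ZMod ℓ) k] (g : GL (Fin 2) (ZMod ℓ)) :
    (Matrix.GeneralLinearGroup.map (n := Fin 2) (algebraMap (ZMod ℓ) k) g).val =
      g.val.map (algebraMap (ZMod ℓ) k) := by
  ext i j
  rw [Matrix.map_apply]
  exact Matrix.GeneralLinearGroup.map_apply _ _ _ _

lemma glMap_charpoly (k : Type*) [Field k] [Algebra (ZMod ℓ) k] (g : GL (Fin 2) (ZMod ℓ)) :
    (Matrix.GeneralLinearGroup.map (n := Fin 2) (algebraMap (ZMod ℓ) k) g).val.charpoly =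
      g.val.charpoly.map (algebraMap (ZMod ℓ) k) := by
  rw [glMap_val, Matrix.charpoly_map]

lemma glMap_discr (k : Type*) [Field k] [Algebra (ZMod ℓ) k] (g : GL (Fin 2) (ZMod ℓ)) :
    (Matrix.GeneralLinearGroup.map (n := Fin 2) (algebraMap (ZMod ℓ) k) g).val.discr =
      algebraMap (ZMod ℓ) k g.val.discr := by
  rw [Matrix.discr_fin_two, Matrix.discr_fin_two, glMap_val, Matrix.trace_fin_two,
    Matrix.trace_fin_two, Matrix.det_fin_two, Matrix.det_fin_two]
  simp only [Matrix.map_apply, map_sub, map_mul, map_pow, map_add, map_ofNat]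

/-- the order of `GL(2, 𝔽_ℓ)` is at most `ℓ⁴`. -/
lemma card_subgroup_le (G : Subgroup (GL (Fin 2) (ZMod ℓ))) : Nat.card G ≤ ℓ ^ 4 := by
  have h1 : Nat.card G ≤ Nat.card (Matrix (Fin 2) (Fin 2) (ZMod ℓ)) :=
    Nat.card_le_card_of_injective (fun g : G => (g : GL (Fin 2) (ZMod ℓ)).val)
      (fun a b h => Subtype.ext (Units.ext h))
  have h2 : Nat.card (Matrix (Fin 2) (Fin 2) (ZMod ℓ)) = ℓ ^ 4 := by
    show Nat.card (Fin 2 → Fin 2 → ZMod ℓ) = ℓ ^ 4
    rw [Nat.card_fun, Nat.card_fun, Nat.card_zmod, Nat.card_fin, ← pow_mul]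
  rw [h2] at h1
  exact h1

end Transfer

/-- **[T4-GRP]** the Deligne-Serre lemma. -/
theorem fewCharpoly : FewCharpolyStatement := by
  intro η hη M
  refine ⟨(4 * M + 2) ^ 4 + 240 * M + ⌈(4 * M : ℝ) / (1 - 2 * η)⌉₊, ?_⟩
  intro ℓ _ G hss H hHG hdens hM
  classical
  have hℓ : ℓ.Prime := Fact.out
  have hn1 : 1 ≤ Nat.card G := Nat.card_pos
  have hη1 : (1 : ℝ) / 2 < 1 - η := by linarith
  have hη2 : (0 : ℝ) < 1 - 2 * η := by linarith
  have hnR : (1 : ℝ) ≤ (Nat.card G : ℝ) := by exact_mod_cast hn1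
  by_cases hsmall : ℓ ≤ 4 * M + 2
  · -- small primes
    have h1 := card_subgroup_le G
    have h2 : ℓ ^ 4 ≤ (4 * M + 2) ^ 4 := Nat.pow_le_pow_left hsmall 4
    omega
  · push Not at hsmall
    have hℓ3 : 3 ≤ ℓ := by omega
    have hℓ2 : ℓ ≠ 2 := by omega
    by_cases hdvd : ℓ ∣ Nat.card G
    · -- Case A
      exfalso
      have hA := caseA G hss hdvd
      have hfib : ∀ P ∈ H.image (fun h : GL (Fin 2) (ZMod ℓ) => h.val.charpoly),
          (H.filter (fun a => a.val.charpoly = P)).card ≤ 2 * ℓ ^ 2 := by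
        intro P _
        have := card_charpoly_fibre_le (H.filter (fun a => a.val.charpoly = P)) P
          (fun g hg => (Finset.mem_filter.1 hg).2)
        rw [ZMod.card] at this
        exact this
      have hH : H.card ≤ 2 * ℓ ^ 2 * M :=
        (Finset.card_le_mul_card_image H (2 * ℓ ^ 2) hfib).trans (Nat.mul_le_mul_left _ hM)
      have hHR : (H.card : ℝ) ≤ 2 * (ℓ : ℝ) ^ 2 * M := by exact_mod_cast hH
      have hAR : (ℓ : ℝ) ^ 2 * ((ℓ : ℝ) - 1) ≤ (Nat.card G : ℝ) := by
        have h1 : ((ℓ ^ 2 * (ℓ - 1) : ℕ) : ℝ) ≤ (Nat.card G : ℝ) := by exact_mod_cast hA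
        rw [Nat.cast_mul, Nat.cast_pow, Nat.cast_sub hℓ.one_lt.le, Nat.cast_one] at h1
        exact h1
      have hℓR : (4 * (M : ℝ) + 2) + 1 ≤ (ℓ : ℝ) := by exact_mod_cast hsmall
      have hℓpos : (0 : ℝ) < (ℓ : ℝ) ^ 2 := by positivity
      -- `(1 - η) ℓ² (ℓ - 1) ≤ 2 M ℓ²`
      have h3 : (1 - η) * ((ℓ : ℝ) ^ 2 * ((ℓ : ℝ) - 1)) ≤ 2 * (ℓ : ℝ) ^ 2 * M :=
        (mul_le_mul_of_nonneg_left hAR (by linarith)).trans (hdens.trans hHR)
      have h4 : (1 - η) * ((ℓ : ℝ) - 1) ≤ 2 * M := by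
        have h5 : (ℓ : ℝ) ^ 2 * ((1 - η) * ((ℓ : ℝ) - 1)) ≤ (ℓ : ℝ) ^ 2 * (2 * M) := by
          calc (ℓ : ℝ) ^ 2 * ((1 - η) * ((ℓ : ℝ) - 1))
              = (1 - η) * ((ℓ : ℝ) ^ 2 * ((ℓ : ℝ) - 1)) := by ring
            _ ≤ 2 * (ℓ : ℝ) ^ 2 * M := h3
            _ = (ℓ : ℝ) ^ 2 * (2 * M) := by ring
        exact le_of_mul_le_mul_left h5 hℓpos
      have hM0 : (0 : ℝ) ≤ (M : ℝ) := Nat.cast_nonneg M
      nlinarith
    · -- Case B
      let k := GaloisField ℓ 2
      let _ : Fintype k := Fintype.ofFinite k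
      have hcardk : Nat.card k = ℓ ^ 2 := GaloisField.card ℓ 2 (by norm_num)
      let f := Matrix.GeneralLinearGroup.map (n := Fin 2) (algebraMap (ZMod ℓ) k)
      have hfinj : Function.Injective f := glMap_injective k
      set G' : Subgroup (GL (Fin 2) k) := G.map f with hG'
      have hcardG' : Nat.card G' = Nat.card G := Subgroup.card_map_of_injective hfinj
      set H' : Finset (GL (Fin 2) k) := H.image f with hH'
      have hcardH' : H'.card = H.card := Finset.card_image_of_injective H hfinj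
      have h2k : (2 : k) ≠ 0 := by
        intro h
        have h' : ((2 : ℕ) : k) = 0 := by exact_mod_cast h
        rw [CharP.cast_eq_zero_iff k ℓ] at h'
        have := Nat.le_of_dvd (by norm_num) h'
        omega
      have hord : ((Nat.card G' : ℕ) : k) ≠ 0 := by
        rw [hcardG']
        intro h
        rw [CharP.cast_eq_zero_iff k ℓ] at h
        exact hdvd h
      have hsq : ∀ g ∈ G', IsSquare g.val.discr := by
        intro g hg
        obtain ⟨g₀, _, rfl⟩ := Subgroup.mem_map.1 hg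
        show IsSquare (Matrix.GeneralLinearGroup.map (n := Fin 2) (algebraMap (ZMod ℓ) k) g₀).val.discr
        rw [glMap_discr]
        exact isSquare_algebraMap hℓ2 k hcardk _
      have hH'G' : ∀ h ∈ H', h ∈ G' := by
        intro h hh
        rw [hH', Finset.mem_image] at hh
        obtain ⟨h₀, hh₀, rfl⟩ := hh
        exact Subgroup.mem_map_of_mem f (hHG h₀ hh₀)
      have hM' : (H'.image (fun h : GL (Fin 2) k => h.val.charpoly)).card ≤ M := by
        have himg : H'.image (fun h : GL (Fin 2) k => h.val.charpoly) =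
            (H.image (fun h : GL (Fin 2) (ZMod ℓ) => h.val.charpoly)).image
              (Polynomial.map (algebraMap (ZMod ℓ) k)) := by
          rw [hH', Finset.image_image, Finset.image_image]
          refine Finset.image_congr ?_
          intro g _
          exact glMap_charpoly k g
        rw [himg]
        exact Finset.card_image_le.trans hM
      have hB := caseB h2k G' hord hsq H' hH'G' M hM'
      rw [hcardH', hcardG'] at hB
      have hM0 : (0 : ℝ) ≤ (M : ℝ) := Nat.cast_nonneg M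
      rcases hB with hB | hB
      · -- `|H| ≤ 120 M`
        have hBR : (H.card : ℝ) ≤ 120 * M := by exact_mod_cast hB
        have h1 : (Nat.card G : ℝ) ≤ 240 * M := by nlinarith
        have h2 : Nat.card G ≤ 240 * M := by exact_mod_cast h1
        omega
      · -- `2 |H| ≤ 4 M + |G|`
        have hBR : 2 * (H.card : ℝ) ≤ 4 * M + (Nat.card G : ℝ) := by exact_mod_cast hB
        have h1 : (1 - 2 * η) * (Nat.card G : ℝ) ≤ 4 * M := by nlinarith
        have h2 : (Nat.card G : ℝ) ≤ (4 * M : ℝ) / (1 - 2 * η) := by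
          rw [le_div_iff₀ hη2]
          linarith
        have h3 : (Nat.card G : ℝ) ≤ (⌈(4 * M : ℝ) / (1 - 2 * η)⌉₊ : ℝ) :=
          h2.trans (Nat.le_ceil _)
        have h4 : Nat.card G ≤ ⌈(4 * M : ℝ) / (1 - 2 * η)⌉₊ := by exact_mod_cast h3
        omega

end Fermat.Agent.T4.helper77
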