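import Mathlib
import Fermat.Agent.P2.helper77_GenusFormula3
import Fermat.Agent.S24.helper88_Zeros

/-! # T4 (I) / I-GEN, generic genus count for torsion free levels (helper77)

For a function field `F` over an algebraically closed field `k` of characteristic `0` with
Riemann genus `g` and a function `t` (`= j`) of degree `n = [F : k(t)]` which is unramified outside
`{0, 1728, ∞}`, with all zeros of `t` of order `3` and all zeros of `t - 1728` of order `2`
(no elliptic points) and `c∞` poles:

  `12 (g - 1) = n - 6 c∞`.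

This is the genus formula of `X₁(M)`, `M ≥ 4` (`n = [PSL(2,ℤ) : ±Γ₁(M)]`, `c∞` the number of
cusps), in the shape produced by the Hurwitz equality `P2.helper77.hurwitz_eq_uncond`.

* `genus_of_counts`     : from the fibre counts `3 c₀ = n`, `2 c₁ = n`.
* `three_mul_card_zeros`, `two_mul_card_zeros` : the fibre counts from the ramification indices.
* `genus_of_torsionFree` : from the ramification indices.
-/

set_option autoImplicit false

noncomputable section

namespace Fermat.Agent.T4.helper77

open AlgebraicCurve IntermediateField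
open Fermat.Agent.P2

variable {k F : Type*} [Field k] [Field F] [Algebra k F] [IsAlgClosed k] [CharZero k]

/-- **Genus from the fibre counts over `0`, `1728`, `∞`.** -/
theorem genus_of_counts (t : F) (ht : Transcendental k t) [FiniteDimensional k⟮t⟯ F]
    (g : ℕ) (hg : helper74.HasRiemannGenus k F g)
    (hunr : ∀ (w : Place k F) (a : k), a ≠ 0 → a ≠ 1728 → 0 < w.ord (t - algebraMap k F a) →
      w.ord (t - algebraMap k F a) = 1)
    (h3 : 3 * Nat.card {w : Place k F // 0 < w.ord (t - algebraMap k F 0)}
      = Module.finrank k⟮t⟯ F)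
    (h2 : 2 * Nat.card {w : Place k F // 0 < w.ord (t - algebraMap k F 1728)}
      = Module.finrank k⟮t⟯ F) :
    12 * ((g : ℤ) - 1) = (Module.finrank k⟮t⟯ F : ℤ)
      - 6 * (Nat.card {w : Place k F // w.ord t < 0} : ℤ) := by
  classical
  have h1728 : (0 : k) ≠ 1728 := by norm_num
  have h := helper77.hurwitz_eq_uncond (k := k) (F := F) t ht g hg {0, 1728}
    (fun w a ha hw => hunr w a (fun h => ha (by simp [h])) (fun h => ha (by simp [h])) hw)
  rw [Finset.sum_pair h1728] at h
  have h3' : 3 * (Nat.card {w : Place k F // 0 < w.ord (t - algebraMap k F 0)} : ℤ)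
      = (Module.finrank k⟮t⟯ F : ℤ) := by exact_mod_cast h3
  have h2' : 2 * (Nat.card {w : Place k F // 0 < w.ord (t - algebraMap k F 1728)} : ℤ)
      = (Module.finrank k⟮t⟯ F : ℤ) := by exact_mod_cast h2
  linarith

/-- If all zeros of `x` have order `e`, there are `[F : k(x)] / e` of them. -/
theorem mul_card_zeros_of_ord_eq (x : F) (hx : Transcendental k x) [FiniteDimensional k⟮x⟯ F]
    (e : ℕ) (he : ∀ w : Place k F, 0 < w.ord x → w.ord x = e) :
    e * Nat.card {w : Place k F // 0 < w.ord x} = Module.finrank k⟮x⟯ F := by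
  have hsum := Fermat.Agent.S24.helper88.ff_sum_ord_zeros (K := k) x hx
  have hcard : (Fermat.Agent.S24.helper88.ff_finite_zeros (K := k) x hx).toFinset.card
      = Nat.card {w : Place k F // 0 < w.ord x} :=
    helper77.card_toFinset_eq_natCard _
  have h1 : ∑ w ∈ (Fermat.Agent.S24.helper88.ff_finite_zeros (K := k) x hx).toFinset, w.ord x
      = ∑ _w ∈ (Fermat.Agent.S24.helper88.ff_finite_zeros (K := k) x hx).toFinset, (e : ℤ) := by
    refine Finset.sum_congr rfl fun w hw => ?_
    rw [Set.Finite.mem_toFinset] at hw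
    exact he w hw
  rw [h1, Finset.sum_const, hcard, nsmul_eq_mul] at hsum
  have : ((e * Nat.card {w : Place k F // 0 < w.ord x} : ℕ) : ℤ)
      = ((Module.finrank k⟮x⟯ F : ℕ) : ℤ) := by
    push_cast
    rw [mul_comm]
    exact hsum
  exact_mod_cast this

/-- **Genus of a torsion free level**: `12 (g - 1) = n - 6 c∞`. -/
theorem genus_of_torsionFree (t : F) (ht : Transcendental k t) [FiniteDimensional k⟮t⟯ F]
    (g : ℕ) (hg : helper74.HasRiemannGenus k F g)
    (hunr : ∀ (w : Place k F) (a : k), a ≠ 0 → a ≠ 1728 → 0 < w.ord (t - algebraMap k F a) →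
      w.ord (t - algebraMap k F a) = 1)
    (h0 : ∀ w : Place k F, 0 < w.ord (t - algebraMap k F 0) →
      w.ord (t - algebraMap k F 0) = 3)
    (h1 : ∀ w : Place k F, 0 < w.ord (t - algebraMap k F 1728) →
      w.ord (t - algebraMap k F 1728) = 2) :
    12 * ((g : ℤ) - 1) = (Module.finrank k⟮t⟯ F : ℤ)
      - 6 * (Nat.card {w : Place k F // w.ord t < 0} : ℤ) := by
  have e0 : k⟮t - algebraMap k F 0⟯ = k⟮t⟯ :=
    Fermat.Agent.S24.helper55.adjoin_sub_algebraMap_eq t 0
  have e1 : k⟮t - algebraMap k F 1728⟯ = k⟮t⟯ :=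
    Fermat.Agent.S24.helper55.adjoin_sub_algebraMap_eq t 1728
  have hfd0 : FiniteDimensional k⟮t - algebraMap k F 0⟯ F := by rw [e0]; infer_instance
  have hfd1 : FiniteDimensional k⟮t - algebraMap k F 1728⟯ F := by rw [e1]; infer_instance
  have h3 := mul_card_zeros_of_ord_eq (t - algebraMap k F 0)
    (Fermat.Agent.S24.helper55.transcendental_sub_algebraMap ht 0) 3 (by exact_mod_cast h0)
  have h2 := mul_card_zeros_of_ord_eq (t - algebraMap k F 1728)
    (Fermat.Agent.S24.helper55.transcendental_sub_algebraMap ht 1728) 2 (by exact_mod_cast h1)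
  rw [e0] at h3
  rw [e1] at h2
  exact genus_of_counts t ht g hg hunr h3 h2

end Fermat.Agent.T4.helper77
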