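import Mathlib
import Fermat.Agent.T4.helper4_IgusaDefs

/-!
# T4 block (I), [IGUSA1] route A, leaf [IG-MEM-J] (helper77)

The functions `j(d τ)`, `d ∣ M`, are `S`-integral modular functions of level `Γ(M)` for every
subring `S ⊆ ℂ` containing `ζ_M`:

* `jdA M d hd : GA (Gamma M) M`, `jdB M S hζ d hd : BS (Gamma M) M S` with underlying function
  `jfunDT d`;
* `trB_jdB` : `jdB` is fixed by the translations of `Γ₀(d)`;
* `memJ : zetaC M ∈ S → helper4.Ig.MemJStatement M S` (VERBATIM).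

Everything is a rewriting of `S28.jfunD_mem` / `S28.helper63.jfunD_translate` in the vocabulary of
`helper32.Conj1`.
-/

set_option autoImplicit false
set_option linter.unusedSectionVars false
set_option linter.style.haveILetI false

noncomputable section

namespace Fermat.Agent.T4.helper77

open UpperHalfPlane CongruenceSubgroup
open Fermat.Agent.S28 Fermat.Agent.T4.helper32.Conj1 Fermat.Agent.T4.helper4.Ig
open scoped MatrixGroups Manifold

variable (M : ℕ) [NeZero M]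

theorem neZero_of_dvd_level {d : ℕ} (hd : d ∣ M) : NeZero d :=
  ⟨fun h => NeZero.ne M (by rw [h] at hd; exact Nat.eq_zero_of_zero_dvd hd)⟩

theorem gamma_le_gamma0 (N : ℕ) : Gamma N ≤ Gamma0 N := by
  intro γ hγ
  rw [Gamma_mem] at hγ
  rw [Gamma0_mem]
  exact hγ.2.2.1

theorem jfunDT_eq_jfunD (d : ℕ) [NeZero d] : Fermat.Agent.S24.jfunDT d = Fermat.Agent.S24.jfunD d := by
  funext τ
  exact Fermat.Agent.S24.helper24.jfunDT_of_ne_zero d τ

/-- `j(d τ)` is a modular function of level `Γ(M)`, `d ∣ M`. -/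
theorem jfunDT_mem_GA (d : ℕ) (hd : d ∣ M) : Fermat.Agent.S24.jfunDT d ∈ GA (Gamma M) M := by
  haveI := neZero_of_dvd_level M hd
  rw [jfunDT_eq_jfunD]
  exact GAlg_le (Gamma M) M (gamma_le_gamma0 M) (Fermat.Agent.S28.jfunD_mem M d hd)

/-- `j(d τ)` as an element of `GA (Gamma M) M` -/
def jdA (d : ℕ) (hd : d ∣ M) : GA (Gamma M) M := ⟨Fermat.Agent.S24.jfunDT d, jfunDT_mem_GA M d hd⟩

@[simp]
theorem coe_jdA (d : ℕ) (hd : d ∣ M) :
    ((jdA M d hd : GA (Gamma M) M) : ℍ → ℂ) = Fermat.Agent.S24.jfunDT d := rfl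

/-- the expansions of the translates of `j(d τ)` have coefficients in `ℤ[ζ_M]` -/
theorem EA_jdA_coeff_mem (S : Subring ℂ) (hζ : zetaC M ∈ S) (d : ℕ) (hd : d ∣ M)
    (γ : SL(2, ℤ)) (n : ℤ) : (EA (Gamma M) M γ (jdA M d hd)).coeff n ∈ S := by
  haveI := neZero_of_dvd_level M hd
  obtain ⟨-, s, hs, hmem⟩ := Fermat.Agent.S28.helper63.jfunD_translate M d hd γ
  have e : (fun τ : ℍ => ((jdA M d hd : GA (Gamma M) M) : ℍ → ℂ) (γ • τ)) =
      fun τ => Fermat.Agent.S24.jfun (Fermat.Agent.S24.scaleH d (γ • τ)) := by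
    funext τ
    rw [coe_jdA, jfunDT_eq_jfunD]
    rfl
  have h1 : EA (Gamma M) M γ (jdA M d hd) = s := by
    apply EA_eq
    rw [e]
    exact hs
  rw [h1]
  exact hmem S hζ n

theorem jdA_mem_BS (S : Subring ℂ) (hζ : zetaC M ∈ S) (d : ℕ) (hd : d ∣ M) :
    jdA M d hd ∈ BS (Gamma M) M S :=
  (mem_BS_iff (Gamma M) M S _).mpr fun γ n => EA_jdA_coeff_mem M S hζ d hd γ n

/-- `j(d τ)` as an element of `B_S` -/
def jdB (S : Subring ℂ) (hζ : zetaC M ∈ S) (d : ℕ) (hd : d ∣ M) : BS (Gamma M) M S :=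
  ⟨jdA M d hd, jdA_mem_BS M S hζ d hd⟩

@[simp]
theorem coe_jdB (S : Subring ℂ) (hζ : zetaC M ∈ S) (d : ℕ) (hd : d ∣ M) :
    (((jdB M S hζ d hd : BS (Gamma M) M S) : GA (Gamma M) M) : ℍ → ℂ) =
      Fermat.Agent.S24.jfunDT d := rfl

/-- `j(d τ)` is fixed by the translations of `Γ₀(d)`. -/
theorem trB_jdB (S : Subring ℂ) (hζ : zetaC M ∈ S) (d : ℕ) (hd : d ∣ M) {γ : SL(2, ℤ)}
    (hγ : γ ∈ Gamma0 d) : trB (Gamma M) M S γ (jdB M S hζ d hd) = jdB M S hζ d hd := by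
  haveI := neZero_of_dvd_level M hd
  apply Subtype.ext
  apply Subtype.ext
  funext τ
  rw [coe_trB, tr_apply]
  show Fermat.Agent.S24.jfunDT d (γ • τ) = Fermat.Agent.S24.jfunDT d τ
  rw [jfunDT_eq_jfunD]
  exact Fermat.Agent.S24.helper24.jfunD_smul_of_mem_Gamma0 d d dvd_rfl γ hγ τ

/-- **[IG-MEM-J]** the functions `j(d τ)`, `d ∣ M`, are `S`-integral modular functions of level
`Γ(M)`, for every subring `S` of `ℂ` containing `ζ_M`. -/
theorem memJ (S : Subring ℂ) (hζ : zetaC M ∈ S) : MemJStatement M S :=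
  fun d hd => ⟨jdB M S hζ d hd, rfl⟩

end Fermat.Agent.T4.helper77

end
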