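import Mathlib
import Fermat.Agent.T4.helper77_InvGrowth
import Fermat.Agent.P3.helper48_AN1Ratio

/-! # T4 (I) / I-FLD, `q`-expansions of inverses and quotients (helper77)

* `mem_holoExp_of_isQExp`, `isQExp_vadd_one` : a function with a `q`-expansion is `1`-periodic,
  holomorphic of exponential growth at `i∞`.
* `isQExp_inv_of_ne_zero`, `isQExp_div_of_ne_zero` : the inverse / a quotient by a NOWHERE
  VANISHING function with a `q`-expansion has the inverse / quotient `q`-expansion (no growth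
  hypothesis: `inv_mem_holoExp_of_periodic`).
-/

set_option autoImplicit false

noncomputable section

open UpperHalfPlane Filter Asymptotics Function ModularCurve
open scoped Topology Manifold MatrixGroups

namespace Fermat.Agent.T4.helper77

open Fermat.Agent.S24 Fermat.Agent.S24.helper17 Fermat.Agent.S24.helper77

local notation "𝕢" => Function.Periodic.qParam

theorem isQExp_vadd_one {F : LaurentSeries ℂ} {f : ℍ → ℂ} (h : IsQExp F f) (τ : ℍ) :
    f ((1 : ℝ) +ᵥ τ) = f τ := by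
  obtain ⟨M, hn, -⟩ := h
  have h1 := hn.periodic (τ : ℂ)
  simp only [Function.comp_apply] at h1
  rw [Fermat.Agent.P3.helper48.ofComplex_add_one τ.im_pos, ofComplex_apply] at h1
  have hq : 𝕢 1 (((1 : ℝ) +ᵥ τ : ℍ) : ℂ) = 𝕢 1 (τ : ℂ) := by
    have := qParamN_vadd (N := 1) one_pos τ
    simpa using this
  rw [hq] at h1
  exact mul_left_cancel₀ (pow_ne_zero _ (Function.Periodic.qParam_ne_zero _)) h1

theorem mem_holoExp_of_isQExp {F : LaurentSeries ℂ} {f : ℍ → ℂ} (h : IsQExp F f) :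
    f ∈ holoExp := by
  refine ⟨h.mdiff, ?_⟩
  obtain ⟨M, hn, -⟩ := h
  refine ⟨M, ?_⟩
  have hb : (fun τ : ℍ => 𝕢 1 τ ^ M * f τ) =O[atImInfty] fun _ : ℍ => (1 : ℝ) := hn.bdd
  have h1 : (fun τ : ℍ => (𝕢 1 τ ^ M)⁻¹) =O[atImInfty]
      fun τ : ℍ => Real.exp (2 * Real.pi * M * τ.im) := by
    refine IsBigO.of_bound 1 (Eventually.of_forall fun τ => ?_)
    rw [norm_inv, Fermat.Agent.P3.helper48.norm_qParam_pow, ← Real.exp_neg, neg_neg, one_mul,
      Real.norm_of_nonneg (Real.exp_pos _).le]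
  have h2 := h1.mul hb
  refine h2.congr (fun τ => ?_) (fun τ => by rw [mul_one])
  rw [← mul_assoc, inv_mul_cancel₀ (pow_ne_zero _ (Function.Periodic.qParam_ne_zero _)), one_mul]

/-- **The `q`-expansion of the inverse of a nowhere vanishing function.** -/
theorem isQExp_inv_of_ne_zero {F : LaurentSeries ℂ} {f : ℍ → ℂ} (hF : IsQExp F f)
    (hne : ∀ τ, f τ ≠ 0) : IsQExp F⁻¹ (fun τ => (f τ)⁻¹) := by
  have hper : ∀ τ : ℍ, f (((1 : ℕ) : ℝ) +ᵥ τ) = f τ := fun τ => by
    have := isQExp_vadd_one hF τ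
    simpa using this
  have hmem : (fun τ => (f τ)⁻¹) ∈ holoExp :=
    inv_mem_holoExp_of_periodic (mem_holoExp_of_isQExp hF) one_pos hper hne
  obtain ⟨G, hG⟩ := Fermat.Agent.P3.helper48.exists_isQExp hmem (fun τ => by
    show (f ((1 : ℝ) +ᵥ τ))⁻¹ = (f τ)⁻¹
    rw [isQExp_vadd_one hF τ])
  have h1 : IsQExp (F * G) (1 : ℍ → ℂ) := (hF.mul hG).congr_right fun τ => by
    simp only [Pi.mul_apply, Pi.one_apply]
    exact mul_inv_cancel₀ (hne τ)
  have h2 : F * G = 1 := h1.left_unique IsQExp.one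
  have h3 : G = F⁻¹ := eq_inv_of_mul_eq_one_right h2
  rw [← h3]
  exact hG

/-- **The `q`-expansion of a quotient by a nowhere vanishing function.** -/
theorem isQExp_div_of_ne_zero {F G : LaurentSeries ℂ} {f g : ℍ → ℂ} (hF : IsQExp F f)
    (hG : IsQExp G g) (hne : ∀ τ, g τ ≠ 0) : IsQExp (F / G) (fun τ => f τ / g τ) := by
  have h := hF.mul (isQExp_inv_of_ne_zero hG hne)
  rw [← div_eq_mul_inv] at h
  exact h.congr_right fun τ => by
    simp only [Pi.mul_apply]
    rw [div_eq_mul_inv]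

end Fermat.Agent.T4.helper77
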