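import Mathlib
import Fermat.Agent.T4.helper77_QExpDiv
import Fermat.Agent.T4.helper33_X1QExp

/-! # T4 (I) / I-FLD [X1-SYS], field `qexp` of `helper24.X1Inputs` (helper77)

`x1_qexp_of_nz`: if the Eisenstein series `wpDfn M 2 1` has no zero on the upper half plane, then
`s_a = wpDfn M a 1 / wpDfn M 2 1` is holomorphic with `q`-expansion `sSer M a` (`M ≥ 4`).
Inputs: `helper33.isQExp_wpDfn` (QEXP), `helper33.sInt_mul`, and the generic
`isQExp_div_of_ne_zero`.
-/

set_option autoImplicit false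

noncomputable section

open UpperHalfPlane ModularCurve
open scoped MatrixGroups

namespace Fermat.Agent.T4.helper77

open Fermat.Agent.S24 Fermat.Agent.S24.helper17

/-- the Laurent series of `(P_a - P_b) / q` with complex coefficients -/
def wSerC (M : ℕ) (a b : ZMod M) : LaurentSeries ℂ :=
  HahnSeries.ofPowerSeries ℤ ℂ ((helper32.wpDiff M a b).map (Int.castRingHom ℂ))

theorem sSer_mul_wSerC {M : ℕ} (hM : 4 ≤ M) (a : ZMod M) :
    helper32.sSer ℂ M a * wSerC M 2 1 = wSerC M a 1 := by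
  rw [helper32.sSer, wSerC, wSerC, ← map_mul, ← map_mul, helper33.sInt_mul hM]

theorem wSerC_two_one_ne_zero {M : ℕ} (hM : 4 ≤ M) : wSerC M 2 1 ≠ 0 := by
  intro h
  have h1 := congrArg (fun z : LaurentSeries ℂ => z.coeff 0) h
  simp only [wSerC, HahnSeries.coeff_zero] at h1
  have h2 : (HahnSeries.ofPowerSeries ℤ ℂ
      ((helper32.wpDiff M 2 1).map (Int.castRingHom ℂ))).coeff ((0 : ℕ) : ℤ) = 0 := by
    simpa using h1
  rw [HahnSeries.ofPowerSeries_apply_coeff, PowerSeries.coeff_map,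
    PowerSeries.coeff_zero_eq_constantCoeff_apply, helper33.constantCoeff_wpDiff_two_one hM] at h2
  simp at h2

/-- **Field `qexp` of `X1Inputs`** from the non-vanishing of `wpDfn M 2 1`. -/
theorem x1_qexp_of_nz {M : ℕ} (hM : 4 ≤ M) (hNZ : ∀ τ : ℍ, helper24.wpDfn M 2 1 τ ≠ 0)
    (a : ZMod M) : IsQExp (coeffEmb ℂ (helper32.sSer ℚ M a)) (helper24.sFn M a) := by
  have hA := helper33.isQExp_wpDfn M a 1
  have hB := helper33.isQExp_wpDfn M 2 1
  have hdiv := isQExp_div_of_ne_zero hA hB hNZ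
  have hq : HahnSeries.single (1 : ℤ) (1 : ℂ) ≠ 0 := by simp
  have hform : HahnSeries.single (1 : ℤ) (1 : ℂ) * wSerC M a 1
      / (HahnSeries.single (1 : ℤ) (1 : ℂ) * wSerC M 2 1) = helper32.sSer ℂ M a := by
    rw [div_eq_iff (mul_ne_zero hq (wSerC_two_one_ne_zero hM)), ← sSer_mul_wSerC hM a]
    ring
  rw [helper33.coeffEmb_sSer, ← hform]
  exact hdiv

end Fermat.Agent.T4.helper77
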