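import Fermat.Agent.T4.helper8_InjAsm1
import Fermat.Agent.T4.helper61_RootPrim
import Fermat.Agent.T4.helper61_RedPivot
import Fermat.Agent.T4.helper61_RedInfty
import Fermat.Agent.T4.helper43_ValG
import Fermat.Agent.T4.helper43_ValIntG
import Fermat.Agent.T4.helper18_GenG
import Fermat.Agent.T4.helper46_Tame1
import Fermat.Agent.T4.helper69_Ram1X1
import Fermat.Agent.T4.helper91_RieG
import Fermat.Agent.T4.helper92_KumWire1
import Fermat.Agent.T4.helper24_X1Inputs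
import Fermat.Agent.T4.helper31_Val1Int
import Fermat.Agent.T4.helper92_KumWire1c
import Fermat.Agent.T4.helper11_F1Fin

/-!
# T4 (I), I-RED: MASTER WIRING for `X₁(M)` (helper78)

All GENERIC ports of the P2 reduction machinery which are on main are composed here, for the
pair `(F1 M, F1b A M)`, down to the leaves which are still X₁-specific.  For a place `A` over a
prime `ℓ ∤ M` the leaves are collected in `RedLeaves1 M A`:

* `prim`    : `helper4.PrimStatement A (F1 M) (F1b A M)`                   [IGUSA1]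
* `cuspReg` : `helper4.CuspRegStatement A (F1 M) (F1b A M) hjb`            [CUSP-REG]
* `cuspBar` : `helper4.CuspBarStatement A (F1 M) (F1b A M) hj hjb`         [CUSP-BAR]

Everything else (DEG, SCALE, VAL-INT, VAL-UE, RIE, INF, TAME-BASE, TAME-BASE-0, GEN-A, GEN-B, GEN, SURJ,
ROOT, PIVOT, I1, INJ, K-UNR1) is derived from the generic ports on main:

* `inj_of_redLeaves1`  : `RedLeaves1 M A → InjStatement A (F1 M) (F1b A M) m` (`ℓ ∤ m`, `0 < m`);
* `inj1_of_redLeaves1` : `helper4.Inj1Statement M p`;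
* `unr1_of_redLeaves1` : `helper4.Unr1Statement M p`;
* `kummerES1_apply`    : `helper4.ES1Statement M p` from a Kummer wiring `KummerES1Statement`.
-/

set_option autoImplicit false
set_option linter.unusedSectionVars false
set_option linter.unusedVariables false

noncomputable section

open HahnSeries IntermediateField AlgebraicCurve ModularCurve
open Fermat.Agent.S18.helper19 (Kb kA)
open Fermat.Agent.P2.helper29 (incl red GoodPair PrimeToLevel)
open Fermat.Agent.T4.helper32 Fermat.Agent.T4.helper4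

namespace Fermat.Agent.T4.helper78

/-- the X₁-specific leaves of I-RED at a place `A` -/
structure RedLeaves1 (M : ℕ) [NeZero M] (A : ValuationSubring Kb) : Prop where
  /-- [IGUSA1], primitive element form -/
  prim : PrimStatement A (F1 M) (F1b A M)
  /-- [CUSP-REG] -/
  cuspReg : CuspRegStatement A (F1 M) (F1b A M) (helper61.jqModC_mem_F1b A M)
  /-- [CUSP-BAR] -/
  cuspBar : CuspBarStatement A (F1 M) (F1b A M) (helper61.jqModC_mem_F1 M)
    (helper61.jqModC_mem_F1b A M)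

section Place

variable {M : ℕ} [NeZero M] {A : ValuationSubring Kb}

theorem isUnit_natCast_of_not_dvd {ℓ : ℕ} (hℓ : ℓ.Prime) (hA : A.LiesOverPrime ℓ) (m : ℕ)
    (hm : ¬ ℓ ∣ m) : IsUnit ((m : ℕ) : A) := by
  have h1 : ¬ (ℓ : ℤ) ∣ (m : ℤ) := fun h => hm (Int.natCast_dvd_natCast.mp h)
  have h2 : IsUnit (((m : ℤ) : A)) :=
    Fermat.Agent.P2.helper74.isUnit_intCast_of_not_dvd A ℓ hℓ hA _ h1
  have h3 : (((m : ℤ) : A)) = (m : A) := Int.cast_natCast m
  rwa [h3] at h2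

/-- [DEG] from the leaves -/
theorem deg_of_redLeaves1 (H : RedLeaves1 M A) :
    DegStatement A (F1 M) (F1b A M) (helper61.jqModC_mem_F1 M) (helper61.jqModC_mem_F1b A M) :=
  helper43.deg_G A (F1 M) (F1b A M) _ _ H.prim

/-- [VAL-SC] from the leaves -/
theorem scale_of_redLeaves1 (H : RedLeaves1 M A) : ScaleStatement A (F1 M) (F1b A M) :=
  helper43.scale_G A (F1 M) (F1b A M) H.prim

/-- [VAL-UE] from the leaves -/
theorem regRed_of_redLeaves1 (H : RedLeaves1 M A) : RegRedStatement A (F1 M) (F1b A M) :=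
  helper43.regRed_G A (F1 M) (F1b A M) (helper61.jqModC_mem_F1b A M) H.prim H.cuspReg

/-- [VAL-INT] from the leaves -/
theorem int_of_redLeaves1 {ℓ : ℕ} (hℓ : ℓ.Prime) (hA : A.LiesOverPrime ℓ)
    (H : RedLeaves1 M A) : IntegralityStatement A (F1 M) (F1b A M) :=
  helper31.integrality_of_prim hℓ hA H.prim

/-- [GEN] from the leaves -/
theorem genusEq_of_redLeaves1 (hM7 : 7 ≤ M) (hM : 4 ∣ M ∨ 9 ∣ M) {ℓ : ℕ} (hℓ : ℓ.Prime)
    (hℓM : ¬ ℓ ∣ M) (hA : A.LiesOverPrime ℓ) (H : RedLeaves1 M A) :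
    GenusEqStatement A (F1 M) (F1b A M) := by
  have hD := deg_of_redLeaves1 H
  obtain ⟨c, hT0⟩ := helper69.tameBaseZero_X1 M (helper24.x1Sys M hM7) hM
    (helper61.jqModC_mem_F1 M)
  exact helper18.genusEq_G (helper91.riemann_of_deg hD) (helper91.riemannBar_of_deg hD)
    (helper61.infty1 M A) (scale_of_redLeaves1 H) (int_of_redLeaves1 hℓ hA H) (regRed_of_redLeaves1 H)
    (helper91.riemannSetting_of_deg hD) (helper91.riemannSettingBar_of_deg hD)
    (helper61.jqModC_mem_F1 M) (helper61.jqModC_mem_F1b A M) c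
    (helper46.tameBase1_of_deg M A ⟨hM, ℓ, hℓ, hℓM, hA⟩ _ _ hD) H.cuspBar hT0 hD

/-- [SURJ] from the leaves -/
theorem surjRed_of_redLeaves1 (hM7 : 7 ≤ M) (hM : 4 ∣ M ∨ 9 ∣ M) {ℓ : ℕ} (hℓ : ℓ.Prime)
    (hℓM : ¬ ℓ ∣ M) (hA : A.LiesOverPrime ℓ) (H : RedLeaves1 M A) :
    SurjRedStatement A (F1 M) (F1b A M) := by
  have hD := deg_of_redLeaves1 H
  obtain ⟨c, hT0⟩ := helper69.tameBaseZero_X1 M (helper24.x1Sys M hM7) hM
    (helper61.jqModC_mem_F1 M)
  exact helper18.surjRed_G (helper91.riemann_of_deg hD) (helper91.riemannBar_of_deg hD)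
    (helper61.infty1 M A) (scale_of_redLeaves1 H) (int_of_redLeaves1 hℓ hA H) (regRed_of_redLeaves1 H)
    (helper91.riemannSetting_of_deg hD) (helper91.riemannSettingBar_of_deg hD)
    (helper61.jqModC_mem_F1 M) (helper61.jqModC_mem_F1b A M) c
    (helper46.tameBase1_of_deg M A ⟨hM, ℓ, hℓ, hℓM, hA⟩ _ _ hD) H.cuspBar hT0 hD

/-- **(INJ)** for `(F1 M, F1b A M)` from the X₁-specific leaves. -/
theorem inj_of_redLeaves1 (hM7 : 7 ≤ M) (hM : 4 ∣ M ∨ 9 ∣ M) {ℓ : ℕ} (hℓ : ℓ.Prime)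
    (hℓM : ¬ ℓ ∣ M) (hA : A.LiesOverPrime ℓ) (H : RedLeaves1 M A) {m : ℕ} (hm0 : 0 < m)
    (hm : ¬ ℓ ∣ m) : InjStatement A (F1 M) (F1b A M) m := by
  have hD := deg_of_redLeaves1 H
  have hSc := scale_of_redLeaves1 H
  have hS := helper91.riemannSetting_of_deg hD
  have hSb := helper91.riemannSettingBar_of_deg hD
  have hInf := helper61.infty1 M A
  have hroot : RootStatement A (F1 M) m :=
    helper61.root_of_prim A (F1 M) (F1b A M) m (isUnit_natCast_of_not_dvd hℓ hA m hm) H.prim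
  have hpiv : PivotStatement A (F1 M) m :=
    helper61.pivot_of_liesOverPrime A (F1 M) (F1b A M) ℓ hℓ hA m hm hS hInf.1 hSc
      (int_of_redLeaves1 hℓ hA H) (regRed_of_redLeaves1 H) (surjRed_of_redLeaves1 hM7 hM hℓ hℓM hA H)
  exact helper8.inj1_of_val_gen hm0 hroot hpiv hSc (int_of_redLeaves1 hℓ hA H) (regRed_of_redLeaves1 H) hS hSb hInf
    (genusEq_of_redLeaves1 hM7 hM hℓ hℓM hA H)

end Place

section Level

variable (M p : ℕ) [NeZero M]

/-- **(INJ1)** from the X₁-specific leaves at all places over the primes `ℓ ∤ M p`. -/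
theorem inj1_of_redLeaves1 (hM7 : 7 ≤ M) (hM : 4 ∣ M ∨ 9 ∣ M) (hp : p.Prime)
    (H : ∀ ℓ : ℕ, ℓ.Prime → ¬ ℓ ∣ M * p → ∀ A : ValuationSubring Kb, A.LiesOverPrime ℓ →
      RedLeaves1 M A) :
    Inj1Statement M p := by
  intro ℓ hℓ hℓMp A hA n
  have hℓM : ¬ ℓ ∣ M := fun h => hℓMp (Dvd.dvd.mul_right h p)
  have hm : ¬ ℓ ∣ p ^ n := fun h =>
    hℓMp (Dvd.dvd.mul_left
      ((Nat.prime_dvd_prime_iff_eq hℓ hp).mp (hℓ.dvd_of_dvd_pow h) ▸ dvd_rfl) M)
  exact inj_of_redLeaves1 hM7 hM hℓ hℓM hA (H ℓ hℓ hℓMp A hA) (pow_pos hp.pos n) hm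

/-- **(UNR1)** from the X₁-specific leaves. -/
theorem unr1_of_redLeaves1 (hM7 : 7 ≤ M) (hM : 4 ∣ M ∨ 9 ∣ M) (hp : p.Prime)
    (H : ∀ ℓ : ℕ, ℓ.Prime → ¬ ℓ ∣ M * p → ∀ A : ValuationSubring Kb, A.LiesOverPrime ℓ →
      RedLeaves1 M A) :
    Unr1Statement M p :=
  helper92.kummerUnr1_of M p (fun ℓ hℓ hℓMp A hA => scale_of_redLeaves1 (H ℓ hℓ hℓMp A hA))
    (inj1_of_redLeaves1 M p hM7 hM hp H)

/-- **(ES1)** from the X₁-specific leaves and a Kummer wiring of Eichler-Shimura. -/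
theorem es1_of_redLeaves1 (hM7 : 7 ≤ M) (hM : 4 ∣ M ∨ 9 ∣ M) (hp : p.Prime)
    (H : ∀ ℓ : ℕ, ℓ.Prime → ¬ ℓ ∣ M * p → ∀ A : ValuationSubring Kb, A.LiesOverPrime ℓ →
      RedLeaves1 M A)
    (hE : KummerES1Statement M p) :
    ES1Statement M p :=
  hE (inj1_of_redLeaves1 M p hM7 hM hp H)

/-- **P2-CORE for `X₁(M)`** from the X₁-specific leaves and a Kummer wiring of
Eichler-Shimura. -/
theorem p2Core1_of_redLeaves1 (hM7 : 7 ≤ M) (hM : 4 ∣ M ∨ 9 ∣ M) (hp : p.Prime)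
    (H : ∀ ℓ : ℕ, ℓ.Prime → ¬ ℓ ∣ M * p → ∀ A : ValuationSubring Kb, A.LiesOverPrime ℓ →
      RedLeaves1 M A)
    (hE : KummerES1Statement M p) :
    P2Core1Statement M p :=
  ⟨unr1_of_redLeaves1 M p hM7 hM hp H, es1_of_redLeaves1 M p hM7 hM hp H hE⟩

/-- **P2-CORE for `X₁(M)`** from the X₁-specific leaves of I-RED and the formal norm identity
[ES-NORM1] (the only leaf of I-ES). -/
theorem p2Core1_of_redLeaves1_norm (hM7 : 7 ≤ M) (hM : 4 ∣ M ∨ 9 ∣ M) (hp : p.Prime)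
    (H : ∀ ℓ : ℕ, ℓ.Prime → ¬ ℓ ∣ M * p → ∀ A : ValuationSubring Kb, A.LiesOverPrime ℓ →
      RedLeaves1 M A)
    (hNorm : ∀ (ℓ : ℕ) [NeZero ℓ] (hℓ : ℓ.Prime) (hℓMp : ¬ ℓ ∣ M * p),
      helper92.EsNorm1Statement M ℓ
        (unitOfPrime M ℓ hℓ (fun h => hℓMp (Dvd.dvd.mul_right h p)))) :
    P2Core1Statement M p :=
  helper92.p2Core1_of_norm M p (inj1_of_redLeaves1 M p hM7 hM hp H)
    (fun ℓ hℓ hℓMp A hA => scale_of_redLeaves1 (H ℓ hℓ hℓMp A hA))
    (fun ℓ _ _ _ => helper11.hecke1Inputs_of_le M ℓ hM7) hNorm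

end Level

end Fermat.Agent.T4.helper78
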