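import Fermat.Agent.T4.helper41_Master1
import Fermat.Agent.T4.helper32_ResWireL
import Fermat.Agent.T4.helper71_NormId1
import Fermat.Agent.T4.helper14_TransD1Final
import Fermat.Agent.T4.helper17_DiamondX1
import Fermat.Agent.T4.helper99_Desc1
import Fermat.Agent.T4.helper11_F1Fin
import Fermat.Agent.T4.helper80_GenData
import Fermat.Agent.T4.helper54_Surj1Final
import Fermat.Agent.T4.helper92_KumWire1b
import Fermat.Agent.T4.helper2_S48DivL

/-!
# T4 block (I): the FRONTIER of `Eigen1StatementL` / S48 (helper79)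

Everything landed in I-FLD / I-AN is plugged in.  What remains is stated at the levels of the
LIGHT contract only (`12 ≤ M`, `4 ∣ M ∨ 9 ∣ M`, `ℓ ∣ M` odd prime):

* `helper71.EsNorm1KbarStatement M q` [ES-NORM1] (char-0 norm formula along `β₁`), `q ∤ M`;
* `helper4.P2Core1Statement M ℓ` = (UNR1) + (ES1), or its leaves
  `helper4.Inj1Statement M ℓ`, `helper92.ScaleDiam1Statement`, `helper92.EsRed1Statement`.

Main statements: `ian_frontier`, `eigen1At_frontier`, `eigen1L_of_at`, `eigen1L_frontier`,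
`eigen1L_frontier'`, `s48_frontier`.
-/

set_option autoImplicit false
set_option linter.style.haveILetI false
set_option linter.unusedSectionVars false

noncomputable section

namespace Fermat.Agent.T4.helper79

open Fermat.Agent.T4.helper1 (GalQ GenKappa)
open Fermat.Agent.T4.helper32 (J1 hecke1 diamond1)

/-- **I-AN frontier**: `[FIN]` + `[KAPPA]` at level `M ≥ 7` from [ES-NORM1] alone. -/
theorem ian_frontier (M : ℕ) [NeZero M] (hM : 7 ≤ M) (p : ℕ) (hp : 0 < p)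
    (hes : ∀ q : {q : Nat.Primes // ¬ (q : ℕ) ∣ M}, helper71.EsNorm1KbarStatement M q) :
    Finite (nsmulAddMonoidHom (α := J1 M) (p ^ 1)).ker ∧
      GenKappa p (helper1.op1 M) (gen1 M 2) := by
  have h4 : 4 ≤ M := by omega
  have hdict : helper24.AnDict1Statement M := helper80.Gen.anDict1 M
  have hD : ∀ d : (ZMod M)ˣ, helper14.DiamondEvSymm M d :=
    helper14.diamondEvSymm_all M h4
      (fun d => helper17.exists_isDiamondAut M h4 (helper17.wpPackX1 M h4) d)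
  refine helper21.ian_of_leaves M hM p hp hdict (fun 𝒟 hstd => helper54.surjChar1 M hM 𝒟 hstd)
    (helper99.desc1_final M (helper24.x1Field M)
      (helper77.deg_of _ (helper44.x1Sys M hM)).1 hdict hM)
    (fun q => ?_) (helper71.normEv1_all_of_kbar M hM hdict hes hD) hD
  haveI : NeZero ((q.1 : ℕ)) := ⟨q.1.2.ne_zero⟩
  exact helper11.hecke1Inputs_of_le M (q.1 : ℕ) hM

/-- **[EIGEN1] at `(M, ℓ)`, frontier form**: `M ≥ 7`, from [ES-NORM1] (all `q ∤ M`) and
(UNR1) + (ES1) at `(M, ℓ)`. -/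
theorem eigen1At_frontier (M : ℕ) [NeZero M] (hM : 7 ≤ M) {ℓ : ℕ} (hℓ : ℓ.Prime)
    (hes : ∀ q : {q : Nat.Primes // ¬ (q : ℕ) ∣ M}, helper71.EsNorm1KbarStatement M q)
    (hcore : helper4.P2Core1Statement M ℓ) : helper41.Eigen1At M ℓ := by
  obtain ⟨hfin, hK⟩ := ian_frontier M hM ℓ hℓ.pos hes
  haveI := helper11.finiteDimensional_F1 M hM
  exact helper41.eigen1At_of_packA M hℓ
    (helper3.x1PackA_of_inputs (fun x _ => helper1.continuity1 M x) hfin
      (helper41.unr_of_unr1 hcore.1) (helper41.es_of_es1 hcore.2) hK)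

/-- the light contract is the conjunction of the statements `Eigen1At M ℓ` at its levels. -/
theorem eigen1L_of_at
    (h : ∀ (M : ℕ) [NeZero M], (4 ∣ M ∨ 9 ∣ M) → ∀ ℓ : ℕ, ℓ.Prime → ℓ ≠ 2 → ℓ ∣ M → 12 ≤ M →
      helper41.Eigen1At M ℓ) :
    helper32.Eigen1StatementL := by
  intro M hM hlev ℓ hℓ hℓ2 hℓM h12 k iF iC iA r g χ x c b hx hc hne hχ hE
  haveI := hM
  exact h M hlev ℓ hℓ hℓ2 hℓM h12 k iF iC iA r g χ x c b hx hc hne hχ hE

/-- the levels of the light contract: `12 ≤ M`, `4 ∣ M ∨ 9 ∣ M`, `ℓ ∣ M` an odd prime. -/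
def IsLightLevel (M ℓ : ℕ) : Prop :=
  (4 ∣ M ∨ 9 ∣ M) ∧ 12 ≤ M ∧ ℓ.Prime ∧ ℓ ≠ 2 ∧ ℓ ∣ M

/-- **FRONTIER of block (I)**: the light contract from [ES-NORM1] and (UNR1) + (ES1). -/
theorem eigen1L_frontier
    (hes : ∀ (M : ℕ) [NeZero M], 12 ≤ M → (4 ∣ M ∨ 9 ∣ M) →
      ∀ q : {q : Nat.Primes // ¬ (q : ℕ) ∣ M}, helper71.EsNorm1KbarStatement M q)
    (hcore : ∀ (M ℓ : ℕ) [NeZero M], IsLightLevel M ℓ → helper4.P2Core1Statement M ℓ) :
    helper32.Eigen1StatementL :=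
  eigen1L_of_at fun M _ hlev ℓ hℓ hℓ2 hℓM h12 =>
    eigen1At_frontier M (by omega) hℓ (hes M h12 hlev) (hcore M ℓ ⟨hlev, h12, hℓ, hℓ2, hℓM⟩)

/-- **FRONTIER of block (I), leaf form**: the light contract from [ES-NORM1], (INJ1),
[SCALE-DIAM] and [ES-RED1] (`helper92.p2Core1_of_leaves'`; [HI1] is plugged in). -/
theorem eigen1L_frontier'
    (hes : ∀ (M : ℕ) [NeZero M], 12 ≤ M → (4 ∣ M ∨ 9 ∣ M) →
      ∀ q : {q : Nat.Primes // ¬ (q : ℕ) ∣ M}, helper71.EsNorm1KbarStatement M q)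
    (hINJ : ∀ (M ℓ : ℕ) [NeZero M], IsLightLevel M ℓ → helper4.Inj1Statement M ℓ)
    (hSD : ∀ (M ℓ : ℕ) [NeZero M], IsLightLevel M ℓ →
      ∀ (p : ℕ) (hp : p.Prime) (hpMℓ : ¬ p ∣ M * ℓ)
        (A : ValuationSubring Fermat.Agent.S18.helper19.Kb), A.LiesOverPrime p →
        helper92.ScaleDiam1Statement M A
          (helper4.unitOfPrime M p hp (fun h => hpMℓ (Dvd.dvd.mul_right h ℓ))))
    (hER : ∀ (M ℓ : ℕ) [NeZero M], IsLightLevel M ℓ →
      ∀ (p : ℕ) [NeZero p] [Fact p.Prime] (hp : p.Prime) (hpMℓ : ¬ p ∣ M * ℓ)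
        (A : ValuationSubring Fermat.Agent.S18.helper19.Kb), A.LiesOverPrime p →
        helper92.EsRed1Statement M p A
          (helper4.unitOfPrime M p hp (fun h => hpMℓ (Dvd.dvd.mul_right h ℓ)))) :
    helper32.Eigen1StatementL :=
  eigen1L_frontier hes fun M ℓ _ hL =>
    helper92.p2Core1_of_leaves' M ℓ (hINJ M ℓ hL)
      (fun p _ _ hpMℓ => helper11.hecke1Inputs_of_le M p (by have := hL.2.1; omega))
      (hSD M ℓ hL) (hER M ℓ hL)

/-- **S48 from the frontier of block (I)** (frozen shape of `Templates/S48`). -/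
theorem s48_frontier
    (hes : ∀ (M : ℕ) [NeZero M], 12 ≤ M → (4 ∣ M ∨ 9 ∣ M) →
      ∀ q : {q : Nat.Primes // ¬ (q : ℕ) ∣ M}, helper71.EsNorm1KbarStatement M q)
    (hcore : ∀ (M ℓ : ℕ) [NeZero M], IsLightLevel M ℓ → helper4.P2Core1Statement M ℓ)
    (N : ℕ) [NeZero N] (ε : DirichletCharacter ℂ N)
    (f : CuspForm (CongruenceSubgroup.Gamma1 N) 1)
    (hf₁ : ModularFormClass.qCoeff f 1 = 1)
    (hT : ∀ p : ℕ, p.Prime → ¬ p ∣ N → ∀ n : ℕ,
        ModularFormClass.qCoeff f (p * n) +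
            ε (p : ZMod N) * (if p ∣ n then ModularFormClass.qCoeff f (n / p) else 0) =
          ModularFormClass.qCoeff f p * ModularFormClass.qCoeff f n) :
    ∃ ρ : GalQ →* GL (Fin 2) ℂ, GaloisFactorsThroughFiniteLevel ρ ∧
      (Deformation.matrixRepresentation ρ).IsIrreducible ∧
      ∀ p : ℕ, p.Prime → ¬ p ∣ N →
        ∀ A : ValuationSubring (AlgebraicClosure ℚ), A.LiesOverPrime p →
          (∀ σ ∈ A.inertiaSubgroupIn ℚ, ρ σ = 1) ∧
          ∀ σ : GalQ, A.IsFrobeniusAt σ p →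
            ((ρ σ : GL (Fin 2) ℂ) : Matrix (Fin 2) (Fin 2) ℂ).trace =
                ModularFormClass.qCoeff f p ∧
            ((ρ σ : GL (Fin 2) ℂ) : Matrix (Fin 2) (Fin 2) ℂ).det = ε (p : ZMod N) :=
  helper2.s48_of_eigen1L (eigen1L_frontier hes hcore) N ε f hf₁ hT

end Fermat.Agent.T4.helper79

end
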