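import Fermat.Agent.T4.helper78_RedMaster
import Fermat.Agent.T4.helper79_Frontier1

/-!
# T4: S48 from the X₁-specific leaves (helper78)

`helper79.s48_frontier` (S48 from [ES-NORM1] + P2-CORE at the light levels) composed with the
I-RED master wiring `p2Core1_of_redLeaves1_norm`: the frozen statement S48 follows from

* **[ES-NORM1]** `helper92.EsNorm1Statement M q (unitOfPrime M q ..)` (char-0 norm formula
  along `β₁`), for the levels `12 ≤ M`, `4 ∣ M ∨ 9 ∣ M` and the primes `q ∤ M`;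
* **[IGUSA1] + [CUSP1]** `RedLeaves1 M A` (`PrimStatement`, `CuspRegStatement`,
  `CuspBarStatement` for `(F1 M, F1b A M)`) at the same levels, for all valuation rings `A` of
  `ℚ̄` over a prime `q ∤ M`.
-/

set_option autoImplicit false
set_option linter.unusedSectionVars false
set_option linter.unusedVariables false
set_option linter.style.haveILetI false

noncomputable section

open Fermat.Agent.S18.helper19 (Kb kA)
open Fermat.Agent.T4.helper32 Fermat.Agent.T4.helper4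
open Fermat.Agent.T4.helper1 (GalQ)

namespace Fermat.Agent.T4.helper78

/-- the `∀ ζ`-form of [ES-NORM1] (helper92) gives the `∃ ζ`-form (helper71). -/
theorem esNorm1Kbar_of (M : ℕ) [NeZero M] (q : {q : Nat.Primes // ¬ (q : ℕ) ∣ M})
    (h : haveI : NeZero (q.1 : ℕ) := ⟨q.1.2.ne_zero⟩
      helper92.EsNorm1Statement M (q.1 : ℕ) (unitOfPrime M (q.1 : ℕ) q.1.2 q.2)) :
    helper71.EsNorm1KbarStatement M q := by
  haveI : NeZero (q.1 : ℕ) := ⟨q.1.2.ne_zero⟩
  obtain ⟨ζ, hζ⟩ := HasEnoughRootsOfUnity.exists_primitiveRoot Kb (q.1 : ℕ)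
  exact ⟨ζ, hζ, fun x => h ζ hζ x⟩

/-- **S48 from [ES-NORM1] and the X₁-specific leaves of I-RED** (frozen shape of
`Templates/S48`). -/
theorem s48_of_norm_redLeaves1
    (hN : ∀ (M : ℕ) [NeZero M], 12 ≤ M → (4 ∣ M ∨ 9 ∣ M) →
      ∀ (q : ℕ) [NeZero q] (hq : q.Prime) (hqM : ¬ q ∣ M),
        helper92.EsNorm1Statement M q (unitOfPrime M q hq hqM))
    (hR : ∀ (M : ℕ) [NeZero M], 12 ≤ M → (4 ∣ M ∨ 9 ∣ M) →
      ∀ q : ℕ, q.Prime → ¬ q ∣ M → ∀ A : ValuationSubring Kb, A.LiesOverPrime q →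
        RedLeaves1 M A)
    (N : ℕ) [NeZero N] (ε : DirichletCharacter ℂ N)
    (f : CuspForm (CongruenceSubgroup.Gamma1 N) 1)
    (hf₁ : ModularFormClass.qCoeff f 1 = 1)
    (hT : ∀ p : ℕ, p.Prime → ¬ p ∣ N → ∀ n : ℕ,
        ModularFormClass.qCoeff f (p * n) +
            ε (p : ZMod N) * (if p ∣ n then ModularFormClass.qCoeff f (n / p) else 0) =
          ModularFormClass.qCoeff f p * ModularFormClass.qCoeff f n) :
    ∃ ρ : GalQ →* GL (Fin 2) ℂ, GaloisFactorsThroughFiniteLevel ρ ∧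
      (Deformation.matrixRepresentation ρ).IsIrreducible ∧
      ∀ p : ℕ, p.Prime → ¬ p ∣ N →
        ∀ A : ValuationSubring (AlgebraicClosure ℚ), A.LiesOverPrime p →
          (∀ σ ∈ A.inertiaSubgroupIn ℚ, ρ σ = 1) ∧
          ∀ σ : GalQ, A.IsFrobeniusAt σ p →
            ((ρ σ : GL (Fin 2) ℂ) : Matrix (Fin 2) (Fin 2) ℂ).trace =
                ModularFormClass.qCoeff f p ∧
            ((ρ σ : GL (Fin 2) ℂ) : Matrix (Fin 2) (Fin 2) ℂ).det = ε (p : ZMod N) :=
  helper79.s48_frontier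
    (fun M _ h12 hlev q =>
      haveI : NeZero (q.1 : ℕ) := ⟨q.1.2.ne_zero⟩
      esNorm1Kbar_of M q (hN M h12 hlev (q.1 : ℕ) q.1.2 q.2))
    (fun M ℓ _ hL =>
      p2Core1_of_redLeaves1_norm M ℓ (le_trans (by norm_num) hL.2.1) hL.1 hL.2.2.1
        (fun p hp hpMℓ A hA =>
          hR M hL.2.1 hL.1 p hp (fun h => hpMℓ (Dvd.dvd.mul_right h ℓ)) A hA)
        (fun p _ hp hpMℓ =>
          hN M hL.2.1 hL.1 p hp (fun h => hpMℓ (Dvd.dvd.mul_right h ℓ))))
    N ε f hf₁ hT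

end Fermat.Agent.T4.helper78
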