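import Mathlib
import Fermat.Prelude.Def_AlgebraicCurve_Correspondence

/-!
# T4 (I) ES-KRON (L4) [SWAP-ABS] (helper78)

Abstract "swap" lemma for degrees along two embeddings.

Let `a b : F → E` be two embeddings of a field `F` in a field `E` and `w` a ring homomorphism
with `w ∘ b = a` (for instance a Fricke / Atkin-Lehner type endomorphism of `E`).  If `E` is
finite over `a F`, then `E` is finite over `b F` and `[E : b F] ≤ [E : a F]`.

* `finrank_le_of_ringHom_commutes` : the two-type core (`w : E₁ →+* E₂` commuting with
  the structure maps of two `F`-algebras);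
* `finrank_le_of_swap`, `finite_of_swap` : `RingHom` form, degrees for `RingHom.toAlgebra`;
* `finrankAlong_le_of_swap`, `finiteAlong_of_swap` : Prelude vocabulary
  (`AlgebraicCurve.finrankAlong`, `FiniteAlong`);
* `finrankAlong_eq_of_swap` : equality when there is a swap in both directions;
* `finrankAlong_eq_of_ringEquiv` : equality for an automorphism `w : E ≃+* E`;
* `*_of_swap_amb` : the same with `w : E →+* L` taking values in a bigger field `L ⊇ E`
  (`w ∘ b = ι ∘ a` and `range w ≤ range ι`, or `range w ≤ range ι` checked on generators).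
-/

set_option autoImplicit false

noncomputable section

namespace Fermat.Agent.T4.helper78

open AlgebraicCurve

section Core

variable {F E₁ E₂ : Type*} [Field F] [Field E₁] [Field E₂] [Algebra F E₁] [Algebra F E₂]

/-- A ring homomorphism commuting with the structure maps, as an algebra homomorphism. -/
def swapAlgHom (w : E₁ →+* E₂) (hw : ∀ f : F, w (algebraMap F E₁ f) = algebraMap F E₂ f) :
    E₁ →ₐ[F] E₂ :=
  { w with commutes' := hw }

theorem swapAlgHom_apply (w : E₁ →+* E₂)
    (hw : ∀ f : F, w (algebraMap F E₁ f) = algebraMap F E₂ f) (x : E₁) :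
    swapAlgHom w hw x = w x := rfl

theorem swapAlgHom_injective (w : E₁ →+* E₂)
    (hw : ∀ f : F, w (algebraMap F E₁ f) = algebraMap F E₂ f) :
    Function.Injective (swapAlgHom w hw) :=
  (swapAlgHom w hw).toRingHom.injective

/-- Two-type core: finiteness is inherited along a ring homomorphism commuting with the
structure maps. -/
theorem finite_of_ringHom_commutes (w : E₁ →+* E₂)
    (hw : ∀ f : F, w (algebraMap F E₁ f) = algebraMap F E₂ f) [Module.Finite F E₂] :
    Module.Finite F E₁ :=
  Module.Finite.of_injective (swapAlgHom w hw).toLinearMap (swapAlgHom_injective w hw)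

/-- Two-type core: `[E₁ : F] ≤ [E₂ : F]`. -/
theorem finrank_le_of_ringHom_commutes (w : E₁ →+* E₂)
    (hw : ∀ f : F, w (algebraMap F E₁ f) = algebraMap F E₂ f) [Module.Finite F E₂] :
    Module.finrank F E₁ ≤ Module.finrank F E₂ :=
  LinearMap.finrank_le_finrank_of_injective (f := (swapAlgHom w hw).toLinearMap)
    (swapAlgHom_injective w hw)

end Core

section RingHomForm

variable {F E : Type*} [Field F] [Field E]

/-- `RingHom` form of the swap lemma: finiteness. -/
theorem finite_of_swap (a b : F →+* E) (w : E →+* E) (hw : ∀ f, w (b f) = a f)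
    (hfin : @Module.Finite F E _ _ a.toAlgebra.toModule) :
    @Module.Finite F E _ _ b.toAlgebra.toModule :=
  @finite_of_ringHom_commutes F E E _ _ _ b.toAlgebra a.toAlgebra w hw hfin

/-- `RingHom` form of the swap lemma: `[E : b F] ≤ [E : a F]`. -/
theorem finrank_le_of_swap (a b : F →+* E) (w : E →+* E) (hw : ∀ f, w (b f) = a f)
    (hfin : @Module.Finite F E _ _ a.toAlgebra.toModule) :
    @Module.finrank F E _ _ b.toAlgebra.toModule ≤
      @Module.finrank F E _ _ a.toAlgebra.toModule :=
  @finrank_le_of_ringHom_commutes F E E _ _ _ b.toAlgebra a.toAlgebra w hw hfin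

/-- `RingHom` form, equality from swaps in both directions. -/
theorem finrank_eq_of_swap (a b : F →+* E) (w w' : E →+* E) (hw : ∀ f, w (b f) = a f)
    (hw' : ∀ f, w' (a f) = b f)
    (hfin : @Module.Finite F E _ _ a.toAlgebra.toModule) :
    @Module.finrank F E _ _ b.toAlgebra.toModule =
      @Module.finrank F E _ _ a.toAlgebra.toModule :=
  le_antisymm (finrank_le_of_swap a b w hw hfin)
    (finrank_le_of_swap b a w' hw' (finite_of_swap a b w hw hfin))

end RingHomForm

section AlongForm

variable {K F E : Type*} [Field K] [Field F] [Field E] [Algebra K F] [Algebra K E]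

/-- [SWAP-ABS], finiteness: `w ∘ b = a` and `E` finite along `a` imply `E` finite along `b`. -/
theorem finiteAlong_of_swap (a b : F →ₐ[K] E) (w : E →+* E) (hw : ∀ f, w (b f) = a f)
    (hfin : FiniteAlong K a) : FiniteAlong K b :=
  @finite_of_ringHom_commutes F E E _ _ _ (algebraAlong b) (algebraAlong a) w hw hfin

/-- [SWAP-ABS]: `w ∘ b = a` and `E` finite along `a` imply
`finrankAlong K b ≤ finrankAlong K a`. -/
theorem finrankAlong_le_of_swap (a b : F →ₐ[K] E) (w : E →+* E) (hw : ∀ f, w (b f) = a f)
    (hfin : FiniteAlong K a) : finrankAlong K b ≤ finrankAlong K a :=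
  @finrank_le_of_ringHom_commutes F E E _ _ _ (algebraAlong b) (algebraAlong a) w hw hfin

/-- [SWAP-ABS] with an explicit bound. -/
theorem finrankAlong_le_of_swap_of_le (a b : F →ₐ[K] E) (w : E →+* E)
    (hw : ∀ f, w (b f) = a f) (hfin : FiniteAlong K a) {n : ℕ} (hn : finrankAlong K a ≤ n) :
    finrankAlong K b ≤ n :=
  (finrankAlong_le_of_swap a b w hw hfin).trans hn

/-- Swaps in both directions give equality of the two degrees. -/
theorem finrankAlong_eq_of_swap (a b : F →ₐ[K] E) (w w' : E →+* E)
    (hw : ∀ f, w (b f) = a f) (hw' : ∀ f, w' (a f) = b f) (hfin : FiniteAlong K a) :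
    finrankAlong K b = finrankAlong K a :=
  le_antisymm (finrankAlong_le_of_swap a b w hw hfin)
    (finrankAlong_le_of_swap b a w' hw' (finiteAlong_of_swap a b w hw hfin))

/-- An automorphism `w` of `E` with `w ∘ b = a` gives equality of the two degrees
(no finiteness hypothesis: both sides are `0` in the infinite case). -/
theorem finrankAlong_eq_of_ringEquiv (a b : F →ₐ[K] E) (w : E ≃+* E)
    (hw : ∀ f, w (b f) = a f) : finrankAlong K b = finrankAlong K a := by
  have hw' : ∀ f, w.symm (a f) = b f := fun f => by
    rw [← hw f, RingEquiv.symm_apply_apply]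
  by_cases hfin : FiniteAlong K a
  · exact finrankAlong_eq_of_swap a b w.toRingHom w.symm.toRingHom hw hw' hfin
  · have hfinb : ¬ FiniteAlong K b := fun h =>
      hfin (finiteAlong_of_swap b a w.symm.toRingHom hw' h)
    have h1 : finrankAlong K a = 0 := by
      let _ := algebraAlong a
      exact Module.finrank_of_not_finite hfin
    have h2 : finrankAlong K b = 0 := by
      let _ := algebraAlong b
      exact Module.finrank_of_not_finite hfinb
    rw [h1, h2]

end AlongForm

section Ambient

variable {F E L : Type*} [Field F] [Field E] [Field L]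

/-- A ring homomorphism `w : E →+* L` whose range lies in the range of an embedding
`ι : E →+* L` factors through `ι`. -/
theorem exists_factor_of_range_le (ι w : E →+* L) (hr : w.range ≤ ι.range) :
    ∃ w₀ : E →+* E, ∀ x, ι (w₀ x) = w x := by
  classical
  have hex : ∀ x : E, ∃ y : E, ι y = w x := fun x => hr ⟨x, rfl⟩
  choose g hg using hex
  have hι : Function.Injective ι := ι.injective
  refine ⟨{ toFun := g
            map_one' := hι (by rw [hg, map_one, map_one])
            map_mul' := fun x y => hι (by rw [hg, map_mul, map_mul, hg, hg])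
            map_zero' := hι (by rw [hg, map_zero, map_zero])
            map_add' := fun x y => hι (by rw [hg, map_add, map_add, hg, hg]) }, hg⟩

/-- It suffices to check `range w ≤ range ι` on a generating set of the field `E`. -/
theorem range_le_of_closure (ι w : E →+* L) (S : Set E) (hS : Subfield.closure S = ⊤)
    (h : ∀ s ∈ S, w s ∈ ι.range) : w.range ≤ ι.range := by
  have hfr : ι.fieldRange.toSubring = ι.range := rfl
  have key : ∀ x ∈ Subfield.closure S, w x ∈ ι.fieldRange := by
    intro x hx
    induction hx using Subfield.closure_induction with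
    | mem s hs => exact h s hs
    | one => rw [map_one]; exact one_mem _
    | add x y _ _ hx hy => rw [map_add]; exact add_mem hx hy
    | neg x _ hx => rw [map_neg]; exact neg_mem hx
    | inv x _ hx => rw [map_inv₀]; exact inv_mem hx
    | mul x y _ _ hx hy => rw [map_mul]; exact mul_mem hx hy
  rintro _ ⟨x, rfl⟩
  have := key x (by rw [hS]; trivial)
  exact this

/-- Ambient form of the swap lemma (`RingHom.toAlgebra` degrees): `w : E →+* L` with values
in a bigger field, `w ∘ b = ι ∘ a`, `range w ≤ range ι`. -/
theorem finrank_le_of_swap_amb (a b : F →+* E) (ι w : E →+* L)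
    (hw : ∀ f, w (b f) = ι (a f)) (hr : w.range ≤ ι.range)
    (hfin : @Module.Finite F E _ _ a.toAlgebra.toModule) :
    @Module.Finite F E _ _ b.toAlgebra.toModule ∧
      @Module.finrank F E _ _ b.toAlgebra.toModule ≤
        @Module.finrank F E _ _ a.toAlgebra.toModule := by
  obtain ⟨w₀, hw₀⟩ := exists_factor_of_range_le ι w hr
  have h0 : ∀ f, w₀ (b f) = a f := fun f => ι.injective (by rw [hw₀, hw])
  exact ⟨finite_of_swap a b w₀ h0 hfin, finrank_le_of_swap a b w₀ h0 hfin⟩

end Ambient

section AmbientAlong

variable {K F E L : Type*} [Field K] [Field F] [Field E] [Field L] [Algebra K F] [Algebra K E]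

/-- Ambient form of [SWAP-ABS] in Prelude vocabulary. -/
theorem finrankAlong_le_of_swap_amb (a b : F →ₐ[K] E) (ι w : E →+* L)
    (hw : ∀ f, w (b f) = ι (a f)) (hr : w.range ≤ ι.range) (hfin : FiniteAlong K a) :
    FiniteAlong K b ∧ finrankAlong K b ≤ finrankAlong K a := by
  obtain ⟨w₀, hw₀⟩ := exists_factor_of_range_le ι w hr
  have h0 : ∀ f, w₀ (b f) = a f := fun f => ι.injective (by rw [hw₀, hw])
  exact ⟨finiteAlong_of_swap a b w₀ h0 hfin, finrankAlong_le_of_swap a b w₀ h0 hfin⟩

/-- Ambient form of [SWAP-ABS], range condition checked on generators: if `E` is generated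
as a field by `a F ∪ b F` (compositum), `w ∘ b = ι ∘ a` and `w (a f) ∈ ι E` for all `f`,
then `finrankAlong K b ≤ finrankAlong K a`. -/
theorem finrankAlong_le_of_swap_gen (a b : F →ₐ[K] E) (ι w : E →+* L)
    (hgen : Subfield.closure (Set.range a ∪ Set.range b) = ⊤)
    (hw : ∀ f, w (b f) = ι (a f)) (hwa : ∀ f, w (a f) ∈ ι.range) (hfin : FiniteAlong K a) :
    FiniteAlong K b ∧ finrankAlong K b ≤ finrankAlong K a := by
  refine finrankAlong_le_of_swap_amb a b ι w hw ?_ hfin
  refine range_le_of_closure ι w _ hgen ?_
  rintro s (⟨f, rfl⟩ | ⟨f, rfl⟩)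
  · exact hwa f
  · exact ⟨a f, (hw f).symm⟩

end AmbientAlong

end Fermat.Agent.T4.helper78
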