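import Mathlib
import Fermat.Agent.S23.helper87_GaloisDescent

/-!
# T4 / S48, block (V), leaf [V-CONJW], abstract part (helper78): finite families of conjugates

Let `H` be a subring of `ℂ` which is finitely generated as a `ℤ`-module.  Then there are finitely
many ring automorphisms `s 0 = id, s 1, …, s r` of `ℂ` such that for every `x ∈ H` the polynomial
`∏ i, (X - s i x)` has integer coefficients.

(The automorphisms of `ℂ` restricted to `H` form a finite set `I`; choose one automorphism in
each class.  The product over `I` is stable under `Aut(ℂ)`, hence rational, and integral.)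
-/

set_option autoImplicit false

namespace Fermat.Agent.T4.helper78

open Polynomial

/-- a rational number which is integral over `ℤ` as a complex number is an integer -/
lemma exists_int_of_rat_of_isIntegral (r : ℚ) (h : IsIntegral ℤ (r : ℂ)) :
    ∃ z : ℤ, (z : ℂ) = (r : ℂ) := by
  have h1 : IsIntegral ℤ r := by
    have h2 : IsIntegral ℤ (algebraMap ℚ ℂ r) := by simpa using h
    exact (isIntegral_algebraMap_iff (algebraMap ℚ ℂ).injective).1 h2
  obtain ⟨z, hz⟩ := IsIntegrallyClosed.isIntegral_iff.1 h1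
  refine ⟨z, ?_⟩
  rw [← hz]
  simp

/-- a complex number fixed by all automorphisms of `ℂ` and integral over `ℤ` is an integer -/
lemma exists_int_of_fixed_of_isIntegral (x : ℂ) (hfix : ∀ σ : ℂ ≃+* ℂ, σ x = x)
    (hint : IsIntegral ℤ x) : ∃ z : ℤ, (z : ℂ) = x := by
  obtain ⟨r, hr⟩ := Fermat.Agent.S23.helper87.exists_rat_of_forall_ringEquiv_fixed x hfix
  rw [hr] at hint ⊢
  exact exists_int_of_rat_of_isIntegral r hint

/-- a product of linear factors with integral roots has integral coefficients -/
lemma isIntegral_coeff_prod_X_sub_C {ι : Type*} [Fintype ι] (t : ι → ℂ)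
    (ht : ∀ i, IsIntegral ℤ (t i)) (n : ℕ) :
    IsIntegral ℤ ((∏ i, (X - C (t i))).coeff n) := by
  classical
  let O := integralClosure ℤ ℂ
  let Q : Polynomial O := ∏ i, (X - C (⟨t i, ht i⟩ : O))
  have hQ : Q.map (algebraMap O ℂ) = ∏ i, (X - C (t i)) := by
    simp only [Q, Polynomial.map_prod, Polynomial.map_sub, Polynomial.map_X, Polynomial.map_C]
    rfl
  rw [← hQ, Polynomial.coeff_map]
  exact (Q.coeff n).2

/-- a polynomial over `ℂ` fixed by all automorphisms with integral coefficients is the image of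
a polynomial over `ℤ` -/
lemma exists_int_poly_of_fixed (P : Polynomial ℂ)
    (hfix : ∀ σ : ℂ ≃+* ℂ, P.map (σ : ℂ →+* ℂ) = P)
    (hint : ∀ n, IsIntegral ℤ (P.coeff n)) :
    ∃ P₀ : Polynomial ℤ, P₀.map (Int.castRingHom ℂ) = P := by
  have : P ∈ Polynomial.lifts (Int.castRingHom ℂ) := by
    rw [Polynomial.lifts_iff_coeff_lifts]
    intro n
    have hf : ∀ σ : ℂ ≃+* ℂ, σ (P.coeff n) = P.coeff n := by
      intro σ
      have := congrArg (fun p : Polynomial ℂ => p.coeff n) (hfix σ)
      simpa [Polynomial.coeff_map] using this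
    obtain ⟨z, hz⟩ := exists_int_of_fixed_of_isIntegral _ hf (hint n)
    exact ⟨z, by simpa using hz⟩
  exact (Polynomial.mem_lifts _).1 this

section family

variable (H : Subalgebra ℤ ℂ)

/-- **finite family of conjugates** -/
theorem exists_conj_family (hH : H.toSubmodule.FG) :
    ∃ (r : ℕ) (s : Fin (r + 1) → (ℂ ≃+* ℂ)), s 0 = RingEquiv.refl ℂ ∧
      ∀ x ∈ H, ∃ P : Polynomial ℤ,
        P.map (Int.castRingHom ℂ) = ∏ i, (X - C (s i x)) := by
  classical
  obtain ⟨G, hG⟩ := hH
  have hHint : ∀ x ∈ H, IsIntegral ℤ x := fun x hx => IsIntegral.of_mem_of_fg H ⟨G, hG⟩ x hx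
  have hGH : ∀ g ∈ G, g ∈ H := fun g hg => by
    have : g ∈ Submodule.span ℤ (G : Set ℂ) := Submodule.subset_span hg
    rw [hG] at this
    exact this
  -- restriction of automorphisms to the generators
  let res : (ℂ ≃+* ℂ) → (G → ℂ) := fun σ g => σ (g : ℂ)
  have hdet : ∀ σ τ : ℂ ≃+* ℂ, res σ = res τ → ∀ x ∈ H, σ x = τ x := by
    intro σ τ hστ x hx
    have hx' : x ∈ Submodule.span ℤ (G : Set ℂ) := by rw [hG]; exact hx
    refine Submodule.span_induction ?_ ?_ ?_ ?_ hx'
    · intro g hg
      exact congrFun hστ ⟨g, hg⟩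
    · simp
    · intro u v _ _ hu hv
      rw [map_add, map_add, hu, hv]
    · intro c u _ hu
      rw [zsmul_eq_mul, map_mul, map_mul, hu, map_intCast, map_intCast]
  have hfin : (Set.range res).Finite := by
    have hsub : Set.range res ⊆
        Set.pi Set.univ (fun g : G => (minpoly ℤ (g : ℂ)).rootSet ℂ) := by
      rintro _ ⟨σ, rfl⟩ g _
      have hgint : IsIntegral ℤ (g : ℂ) := hHint _ (hGH _ g.2)
      rw [Polynomial.mem_rootSet]
      refine ⟨minpoly.ne_zero hgint, ?_⟩
      have h0 : Polynomial.aeval (g : ℂ) (minpoly ℤ (g : ℂ)) = 0 := minpoly.aeval ℤ _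
      have h1 := Polynomial.aeval_algHom_apply (σ : ℂ →+* ℂ).toIntAlgHom (g : ℂ)
        (minpoly ℤ (g : ℂ))
      rw [h0, map_zero] at h1
      exact h1
    refine Set.Finite.subset (Set.Finite.pi fun g => ?_) hsub
    exact Polynomial.rootSet_finite _ _
  let I := ↥(Set.range res)
  have : Finite I := hfin.to_subtype
  let _ : Fintype I := Fintype.ofFinite I
  let i₀ : I := ⟨res (RingEquiv.refl ℂ), ⟨_, rfl⟩⟩
  -- representatives
  have hrep : ∀ i : I, ∃ σ : ℂ ≃+* ℂ, res σ = i.1 ∧ (i = i₀ → σ = RingEquiv.refl ℂ) := by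
    intro i
    by_cases hi : i = i₀
    · exact ⟨RingEquiv.refl ℂ, by rw [hi], fun _ => rfl⟩
    · obtain ⟨σ, hσ⟩ := i.2
      exact ⟨σ, hσ, fun h => absurd h hi⟩
  choose s' hs' hs'0 using hrep
  -- the product over `I` is an integer polynomial
  have hprod : ∀ x ∈ H, ∃ P : Polynomial ℤ,
      P.map (Int.castRingHom ℂ) = ∏ i : I, (X - C (s' i x)) := by
    intro x hx
    apply exists_int_poly_of_fixed
    · intro σ
      -- the permutation of `I` induced by `σ`
      let perm : I → I := fun i => ⟨res ((s' i).trans σ), ⟨_, rfl⟩⟩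
      have hperm_inj : Function.Injective perm := by
        intro i j hij
        have h1 : res ((s' i).trans σ) = res ((s' j).trans σ) := congrArg Subtype.val hij
        have h2 : res (s' i) = res (s' j) := by
          funext g
          have := congrFun h1 g
          simp only [res, RingEquiv.trans_apply] at this
          exact σ.injective this
        apply Subtype.ext
        rw [← hs' i, ← hs' j, h2]
      have hperm_bij : Function.Bijective perm := Finite.injective_iff_bijective.1 hperm_inj
      have hval : ∀ i, σ (s' i x) = s' (perm i) x := by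
        intro i
        have h1 : res (s' (perm i)) = res ((s' i).trans σ) := hs' (perm i)
        have := hdet _ _ h1 x hx
        rw [this]
        rfl
      rw [Polynomial.map_prod]
      simp only [Polynomial.map_sub, Polynomial.map_X, Polynomial.map_C, RingHom.coe_coe, hval]
      exact Fintype.prod_bijective perm hperm_bij _ _ fun i => rfl
    · intro n
      exact isIntegral_coeff_prod_X_sub_C _ (fun i => map_isIntegral_int (s' i) (hHint x hx)) n
  -- reindex by `Fin (r + 1)` with `0 ↦ i₀`
  have hcard : 0 < Fintype.card I := Fintype.card_pos_iff.2 ⟨i₀⟩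
  obtain ⟨r, hr⟩ : ∃ r, Fintype.card I = r + 1 := ⟨Fintype.card I - 1, by omega⟩
  let e₁ : Fin (r + 1) ≃ I := (finCongr hr.symm).trans (Fintype.equivFin I).symm
  let e : Fin (r + 1) ≃ I := e₁.trans (Equiv.swap (e₁ 0) i₀)
  have he0 : e 0 = i₀ := by
    simp [e]
  refine ⟨r, fun j => s' (e j), ?_, fun x hx => ?_⟩
  · exact hs'0 _ he0
  · obtain ⟨P, hP⟩ := hprod x hx
    refine ⟨P, ?_⟩
    rw [hP]
    exact (Fintype.prod_equiv e (fun j => X - C (s' (e j) x)) (fun i => X - C (s' i x))
      fun j => rfl).symm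

end family

end Fermat.Agent.T4.helper78
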