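import Mathlib
import Fermat.Agent.T4.helper78_VConj
import Fermat.Agent.T4.helper78_VDesc
import Fermat.Agent.T4.helper99_DSDefs

/-!
# T4 / S48, block (V), leaf [V-CONJW] (helper78): `helper99.ConjStatement` from conjugation

`conj_of_conjAll_fgAll : ConjAllStatement → FGAllStatement → helper99.ConjStatement`:
the Hecke ring `ℤ[ε, a_p : p ∤ N]` of the eigensystem is a finitely generated `ℤ`-module
(`[V-ALG]`), so there is a finite family `s 0 = id, …, s r` of automorphisms of `ℂ` such that
`∏ i, (X - s i x)` is an integer polynomial for every `x` of the Hecke ring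
(`exists_conj_family`); the conjugate forms `g i = f ^ (s i)` (with `g 0 = f`) are eigensystems
for the characters `s i ∘ ε`.
-/

set_option autoImplicit false

open CongruenceSubgroup UpperHalfPlane
open scoped MatrixGroups ModularForm

namespace Fermat.Agent.T4.helper78

open ModularFormClass Polynomial

/-- **[V-CONJW]** -/
theorem conj_of_conjAll_fgAll (hA : ConjAllStatement) (hFG : FGAllStatement) :
    helper99.ConjStatement := by
  classical
  intro N _ ε f hf
  obtain ⟨hf₁, hT⟩ := hf
  have hfg := (s48_integrality N ε f hf₁ hT (hFG N f)).2.1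
  obtain ⟨r, s, hs0, hP⟩ :=
    exists_conj_family (heckeRing N (ModularFormClass.qCoeff f) (Set.range ε)) hfg
  have hg : ∀ i : Fin (r + 1), ∃ g : CuspForm (Gamma1 N) 1, (i = 0 → g = f) ∧
      ∀ n, ModularFormClass.qCoeff g n = s i (ModularFormClass.qCoeff f n) := by
    intro i
    by_cases hi : i = 0
    · refine ⟨f, fun _ => rfl, fun n => ?_⟩
      rw [hi, hs0]
      rfl
    · obtain ⟨g, hg⟩ := hA N (s i) f
      exact ⟨g, fun h => absurd h hi, hg⟩
  choose g hg0 hgq using hg
  refine ⟨r, g, fun i => ε.ringHomComp (s i : ℂ →+* ℂ), hg0 0 rfl, fun i => ⟨?_, ?_⟩,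
    fun p hp hpN => ?_⟩
  · rw [hgq, hf₁, map_one]
  · intro p hp hpN n
    simp only [hgq]
    have h := congrArg (s i) (hT p hp hpN n)
    rw [map_add, map_mul, map_mul] at h
    have hite : s i (if p ∣ n then ModularFormClass.qCoeff (⇑f) (n / p) else 0) =
        if p ∣ n then s i (ModularFormClass.qCoeff (⇑f) (n / p)) else 0 := by
      split_ifs
      · rfl
      · exact map_zero _
    rw [hite] at h
    exact h
  · obtain ⟨P, hP'⟩ := hP (ModularFormClass.qCoeff f p) (eigen_mem_heckeRing hp hpN)
    refine ⟨P, ?_⟩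
    rw [hP']
    simp only [hgq]

end Fermat.Agent.T4.helper78
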