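import Mathlib
import Fermat.Agent.T4.helper78_VDesc
import Fermat.Agent.T4.helper89_ConjDefs
import Fermat.Agent.T4.helper79_Neben

/-!
# T4 / S48, block (V), leaf [V-DECOMP] (helper78): decomposition into nebentypus components

Every cusp form of weight `k` on `Γ₁(N)` is the sum, over the Dirichlet characters `χ` mod `N`,
of cusp forms `F χ` of the same level with nebentypus `χ` (`exists_neben_decomp`).  Hence the
statements of the route of helper89 for forms with a nebentypus imply the statements for all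
forms:

* `conjAll_of_conjHom : helper89.ConjHomStatement → ConjAllStatement`,
* `fgAll_of_span : helper89.SpanStatement → FGAllStatement`.
-/

set_option autoImplicit false

open CongruenceSubgroup UpperHalfPlane Matrix.SpecialLinearGroup
open scoped MatrixGroups ModularForm

namespace Fermat.Agent.T4.helper78

open ModularFormClass

variable {N : ℕ} {k : ℤ}

/-- representatives of the diamond operators -/
lemma exists_diamond_rep_unit (N : ℕ) [NeZero N] (d : (ZMod N)ˣ) :
    ∃ δ : SL(2, ℤ), δ ∈ Gamma0 N ∧ ((δ 1 1 : ℤ) : ZMod N) = (d : ZMod N) := by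
  have hc : Nat.Coprime N (d : ZMod N).val := (ZMod.val_coe_unit_coprime d).symm
  have hcop : IsCoprime ((N : ℕ) : ℤ) (((d : ZMod N).val : ℕ) : ℤ) :=
    Nat.isCoprime_iff_coprime.mpr hc
  obtain ⟨g, -, hg⟩ := ModularGroup.bottom_row_surj (R := ℤ)
    (show ![((N : ℕ) : ℤ), (((d : ZMod N).val : ℕ) : ℤ)] ∈
      {cd : Fin 2 → ℤ | IsCoprime (cd 0) (cd 1)} from hcop)
  have h10 : g 1 0 = ((N : ℕ) : ℤ) := congrFun hg 0
  have h11 : g 1 1 = (((d : ZMod N).val : ℕ) : ℤ) := congrFun hg 1
  refine ⟨g, ?_, ?_⟩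
  · rw [Gamma0_mem, h10]
    simp
  · rw [h11]
    simp

/-- the lower right entry of an element of `Γ₀(N)`, as a unit mod `N` -/
noncomputable def lowerRightUnit {γ : SL(2, ℤ)} (hγ : γ ∈ Gamma0 N) : (ZMod N)ˣ :=
  (helper79.isUnit_lowerRight hγ).unit

@[simp] lemma coe_lowerRightUnit {γ : SL(2, ℤ)} (hγ : γ ∈ Gamma0 N) :
    ((lowerRightUnit hγ : (ZMod N)ˣ) : ZMod N) = ((γ 1 1 : ℤ) : ZMod N) := rfl

/-- coercion of a finite sum of cusp forms -/
lemma coe_sum_cuspForm {Γ : Subgroup (GL (Fin 2) ℝ)} {ι : Type*} (s : Finset ι)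
    (G : ι → CuspForm Γ k) : (⇑(∑ i ∈ s, G i) : ℍ → ℂ) = ∑ i ∈ s, ⇑(G i) := by
  classical
  induction s using Finset.induction_on with
  | empty => simp
  | insert i s hi ih =>
    rw [Finset.sum_insert hi, Finset.sum_insert hi, ← ih]
    rfl

/-- a finite sum of functions of cusp forms is the function of a cusp form -/
lemma isCF_sum [NeZero N] {ι : Type*} (s : Finset ι) (h : ι → ℍ → ℂ)
    (H : ∀ i ∈ s, helper79.IsCF N k (h i)) : helper79.IsCF N k (∑ i ∈ s, h i) := by
  classical
  induction s using Finset.induction_on with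
  | empty => simpa using helper79.isCF_zero
  | insert i s hi ih =>
    rw [Finset.sum_insert hi]
    exact (H i (Finset.mem_insert_self i s)).add
      (ih fun j hj => H j (Finset.mem_insert_of_mem hj))

/-- **Decomposition into nebentypus components.** -/
theorem exists_neben_decomp (N : ℕ) [NeZero N] (k : ℤ) (f : CuspForm (Gamma1 N) k) :
    ∃ F : DirichletCharacter ℂ N → CuspForm (Gamma1 N) k,
      (∀ χ, helper89.HasNeben N k χ ⇑(F χ)) ∧ f = ∑ χ, F χ := by
  classical
  choose rep hrep0 hrep1 using exists_diamond_rep_unit N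
  have hf : helper79.IsCF N k ⇑f := helper79.isCF_coe f
  -- the diamond operators
  set D : (ZMod N)ˣ → ℍ → ℂ := fun d => (⇑f : ℍ → ℂ) ∣[k] rep d with hD
  have hDcf : ∀ d, helper79.IsCF N k (D d) := fun d => hf.slash (hrep0 d)
  have hDslash : ∀ (d : (ZMod N)ˣ) (γ : SL(2, ℤ)) (hγ : γ ∈ Gamma0 N),
      D d ∣[k] γ = D (d * lowerRightUnit hγ) := by
    intro d γ hγ
    simp only [hD]
    rw [← SlashAction.slash_mul]
    refine hf.inv.slash_congr (mul_mem (hrep0 d) hγ) (hrep0 _) ?_
    rw [helper79.lowerRight_mul (hrep0 d) hγ, hrep1, hrep1]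
    simp
  have hD1 : D 1 = ⇑f := by
    simp only [hD]
    have h1 : (1 : SL(2, ℤ)) ∈ Gamma0 N := one_mem _
    have := hf.inv.slash_congr (hrep0 1) h1 (by rw [hrep1]; simp)
    have h2 : (⇑f : ℍ → ℂ) ∣[k] mapGL ℝ (1 : SL(2, ℤ)) = ⇑f := by
      rw [map_one, SlashAction.slash_one]
    exact this.trans h2
  -- the components
  set E : DirichletCharacter ℂ N → ℍ → ℂ := fun χ =>
    ((N.totient : ℂ))⁻¹ • ∑ d : (ZMod N)ˣ, χ ((d⁻¹ : (ZMod N)ˣ) : ZMod N) • D d with hE
  have hEcf : ∀ χ, helper79.IsCF N k (E χ) := fun χ =>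
    (isCF_sum _ _ fun d _ => (hDcf d).smul _).smul _
  have hEneb : ∀ χ, helper89.HasNeben N k χ (E χ) := by
    intro χ γ hγ
    simp only [hE]
    rw [ModularForm.SL_smul_slash, SlashAction.sum_slash]
    simp only [ModularForm.SL_smul_slash, hDslash _ γ hγ]
    rw [smul_comm]
    congr 1
    rw [Finset.smul_sum]
    refine Fintype.sum_equiv (Equiv.mulRight (lowerRightUnit hγ)) _ _ fun d => ?_
    simp only [Equiv.coe_mulRight, smul_smul]
    congr 1
    rw [← coe_lowerRightUnit hγ, ← map_mul, ← Units.val_mul]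
    congr 2
    group
  have hsum : ∑ χ : DirichletCharacter ℂ N, E χ = ⇑f := by
    simp only [hE]
    rw [← Finset.smul_sum, Finset.sum_comm]
    simp only [← Finset.sum_smul]
    have hchar : ∀ d : (ZMod N)ˣ,
        (∑ χ : DirichletCharacter ℂ N, χ ((d⁻¹ : (ZMod N)ˣ) : ZMod N)) =
          if d = 1 then (N.totient : ℂ) else 0 := by
      intro d
      rw [DirichletCharacter.sum_characters_eq ℂ]
      by_cases hd : d = 1
      · simp [hd]
      · have : ((d⁻¹ : (ZMod N)ˣ) : ZMod N) ≠ 1 := by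
          intro h
          apply hd
          have h2 : (d⁻¹ : (ZMod N)ˣ) = 1 := Units.ext h
          exact inv_eq_one.1 h2
        simp [hd, this]
    simp only [hchar]
    rw [Finset.sum_eq_single (1 : (ZMod N)ˣ)]
    · simp only [if_true, hD1]
      have hne : (N.totient : ℂ) ≠ 0 := by
        exact_mod_cast (Nat.totient_pos.2 (Nat.pos_of_ne_zero (NeZero.ne N))).ne'
      rw [smul_smul, inv_mul_cancel₀ hne, one_smul]
    · intro d _ hd
      simp [hd]
    · intro h
      exact absurd (Finset.mem_univ _) h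
  choose F hF using hEcf
  refine ⟨F, fun χ => ?_, ?_⟩
  · rw [hF χ]
    exact hEneb χ
  · apply DFunLike.coe_injective
    rw [coe_sum_cuspForm]
    simp only [hF]
    exact hsum.symm

/-- the `q`-coefficients of a finite sum of cusp forms -/
lemma qCoeff_sum_cuspForm (N : ℕ) [NeZero N] (k : ℤ) {ι : Type*} (s : Finset ι)
    (G : ι → CuspForm (Gamma1 N) k) (n : ℕ) :
    ModularFormClass.qCoeff (⇑(∑ i ∈ s, G i)) n = ∑ i ∈ s, ModularFormClass.qCoeff (G i) n := by
  have := congrFun (map_sum (qCoeffLinG1 N k) G s) n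
  simpa using this

/-- `helper89.ConjHomStatement → ConjAllStatement` -/
theorem conjAll_of_conjHom (h : helper89.ConjHomStatement) : ConjAllStatement := by
  classical
  intro N _ σ f
  obtain ⟨F, hFneb, hFsum⟩ := exists_neben_decomp N 1 f
  have hg := fun χ => h N χ (F χ) (hFneb χ) (σ : ℂ →+* ℂ)
  choose g _ hgq using hg
  refine ⟨∑ χ, g χ, fun n => ?_⟩
  rw [qCoeff_sum_cuspForm]
  conv_rhs => rw [hFsum, qCoeff_sum_cuspForm, map_sum]
  exact Finset.sum_congr rfl fun χ _ => hgq χ n

/-- a finite sum of sequences with values in finitely generated subgroups -/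
lemma coeffsInFG_sum {ι : Type*} (s : Finset ι) (a : ι → ℕ → ℂ)
    (h : ∀ i ∈ s, CoeffsInFG (a i)) : CoeffsInFG (fun n => ∑ i ∈ s, a i n) := by
  classical
  induction s using Finset.induction_on with
  | empty =>
    exact ⟨⊥, Submodule.fg_bot, fun n => by simp⟩
  | insert i s hi ih =>
    obtain ⟨Λ₁, h₁, hm₁⟩ := h i (Finset.mem_insert_self i s)
    obtain ⟨Λ₂, h₂, hm₂⟩ := ih fun j hj => h j (Finset.mem_insert_of_mem hj)
    refine ⟨Λ₁ ⊔ Λ₂, h₁.sup h₂, fun n => ?_⟩
    show (∑ j ∈ insert i s, a j n) ∈ Λ₁ ⊔ Λ₂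
    rw [Finset.sum_insert hi]
    exact Submodule.add_mem_sup (hm₁ n) (hm₂ n)

/-- `helper89.SpanStatement → FGAllStatement` -/
theorem fgAll_of_span (h : helper89.SpanStatement) : FGAllStatement := by
  classical
  intro N _ f
  obtain ⟨F, hFneb, hFsum⟩ := exists_neben_decomp N 1 f
  have h1 := coeffsInFG_sum Finset.univ (fun χ n => ModularFormClass.qCoeff (F χ) n)
    fun χ _ => h N χ (F χ) (hFneb χ)
  obtain ⟨Λ, hΛ, hmem⟩ := h1
  refine ⟨Λ, hΛ, fun n => ?_⟩
  have := hmem n
  rw [hFsum, qCoeff_sum_cuspForm]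
  exact this

/-- the route of helper89 gives **[V-PRIM]** -/
theorem prim_of_conjHom_span (hC : helper89.ConjHomStatement) (hS : helper89.SpanStatement) :
    PrimStatement :=
  prim_of_conjAll_fgAll (conjAll_of_conjHom hC) (fgAll_of_span hS)

end Fermat.Agent.T4.helper78
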