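import Fermat.Agent.T4.helper79_Hom1Sys
import Fermat.Agent.T4.helper71_ParabolicPM
import Fermat.Agent.S16.helper1_PeriodSlash

/-!
# T4 (I) [AN-HOM1] (helper79): periods and coset systems, for any subgroup of finite index

* `periodGen_eq_sum_of_slash` : periods of a finite sum of slashes (port of
  `S16.helper1.periodMap_eq_sum_of_slash` to `helper71.periodGen Γ`);
* `periodGen_heckeFun` : if `g = ∑ i, f ∣[2] S.α i` for a coset system `S` of `Γ` then
  `periodGen Γ g = S.heckeFun (periodGen Γ f)`;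
* `heckeFun_charInvGen` : `S.heckeFun` commutes with the involution `charInvGen` when conjugation
  by `diag(1, -1)` permutes the cosets `Γ α i`;
* `periodPairGen_heckeFun` : the same for the Eichler-Shimura pair map;
* the instances `periodPair1_heckeT1Lin`, `periodPair1_diamondLin` for `Γ₁(M)`.
-/

set_option autoImplicit false
set_option linter.unusedSectionVars false
set_option linter.style.haveILetI false

noncomputable section

open Filter Topology Complex Function CongruenceSubgroup ModularCurve ModularCurve.Period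
open UpperHalfPlane hiding I
open Matrix.SpecialLinearGroup ModularForm
open scoped Manifold MatrixGroups ModularForm OnePoint
open P2MW.S_ModularForm_heckeT_slash_eq_self_of_mem_Gamma0.ModularForm.HeckeSlashInvariance
open Fermat.Agent.S16.helper26 (CosetSystem conjJ conjJ_mapGL)
open Fermat.Agent.T4.helper71 (periodGen periodGen_apply exists_hasEqPrim HasEqPrim JStable
  jConjSub charInvGen periodPairGen periodPairGen_apply periodPair1 jStable_Gamma1)

namespace Fermat.Agent.T4.helper79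

section Generic

variable (Γ : Subgroup SL(2, ℤ)) [Γ.FiniteIndex]

/-- **Periods of a finite sum of slashes**, for any subgroup of finite index. -/
theorem periodGen_eq_sum_of_slash {ι : Type*} [Fintype ι] (α : ι → GL (Fin 2) ℝ)
    (hα : ∀ i, 0 < ((α i).det : ℝ)) (f g : CuspForm Γ 2)
    (hg : (⇑g : ℍ → ℂ) = ∑ i, (⇑f : ℍ → ℂ) ∣[(2 : ℤ)] α i)
    (γ : Γ) (δ : ι → Γ) (s : Equiv.Perm ι)
    (h : ∀ i, α i * mapGL ℝ (γ : SL(2, ℤ)) = mapGL ℝ (δ i : SL(2, ℤ)) * α (s i)) :
    periodGen Γ g (Additive.ofMul γ) = ∑ i, periodGen Γ f (Additive.ofMul (δ i)) := by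
  obtain ⟨F, hF⟩ := exists_hasEqPrim Γ f
  obtain ⟨G₀, hG₀⟩ := exists_hasEqPrim Γ g
  have hG : ∀ τ : ℍ, HasDerivAt ((fun z : ℍ => ∑ i, F (α i • z)) ∘ ofComplex) (g τ) ↑τ := by
    intro τ
    have h1 : ∀ i ∈ (Finset.univ : Finset ι),
        HasDerivAt ((fun w : ℍ => F (α i • w)) ∘ ofComplex) (((⇑f : ℍ → ℂ) ∣[(2 : ℤ)] α i) τ) ↑τ :=
      fun i _ => Fermat.Agent.S16.helper1.hasDerivAt_comp_GL_smul hF.1 (α i) (hα i) τ
    have h2 := HasDerivAt.fun_sum h1
    have h3 : g τ = ∑ i, ((⇑f : ℍ → ℂ) ∣[(2 : ℤ)] α i) τ := by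
      rw [hg, Finset.sum_apply]
    rw [h3]
    exact h2
  obtain ⟨c, hc⟩ := Fermat.Agent.S21.exists_eq_add_const_of_hasDerivAt hG₀.1 hG
  rw [periodGen_apply Γ g hG₀ γ UpperHalfPlane.I, hc, hc]
  have h4 : ∀ i, F (α i • ((γ : SL(2, ℤ)) • UpperHalfPlane.I)) =
      periodGen Γ f (Additive.ofMul (δ i)) + F (α (s i) • UpperHalfPlane.I) := by
    intro i
    rw [periodGen_apply Γ f hF (δ i) (α (s i) • UpperHalfPlane.I)]
    have h5 : α i • ((γ : SL(2, ℤ)) • UpperHalfPlane.I) =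
        ((δ i : Γ) : SL(2, ℤ)) • (α (s i) • UpperHalfPlane.I) := by
      show α i • (mapGL ℝ (γ : SL(2, ℤ)) • UpperHalfPlane.I) =
        mapGL ℝ (δ i : SL(2, ℤ)) • (α (s i) • UpperHalfPlane.I)
      rw [← mul_smul, ← mul_smul, h i]
    rw [h5]
    ring
  simp only [h4, Finset.sum_add_distrib]
  rw [Equiv.sum_comp s (fun i => F (α i • UpperHalfPlane.I))]
  ring

/-- **Periods and coset systems**: if `g = ∑ i, f ∣[2] S.α i` then the period homomorphism of
`g` is the Hecke operator of the coset system applied to the period homomorphism of `f`. -/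
theorem periodGen_heckeFun {ι : Type} [Fintype ι] (S : CosetSystem Γ ι)
    (hα : ∀ i, 0 < ((S.α i).det : ℝ)) (f g : CuspForm Γ 2)
    (hg : (⇑g : ℍ → ℂ) = ∑ i, (⇑f : ℍ → ℂ) ∣[(2 : ℤ)] S.α i) :
    periodGen Γ g = S.heckeFun (periodGen Γ f) := by
  refine AddMonoidHom.ext fun γ' => ?_
  obtain ⟨γ, rfl⟩ := Additive.ofMul.surjective γ'
  rw [CosetSystem.heckeFun_apply]
  exact periodGen_eq_sum_of_slash Γ S.α hα f g hg γ (S.step γ) (S.permEquiv γ)
    (fun i => S.rel γ i)

variable {Γ}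

/-- The Hecke operator of a coset system commutes with the involution `charInvGen` when
conjugation by `diag(1, -1)` permutes the cosets `Γ α i`. -/
theorem heckeFun_charInvGen (hJ : JStable Γ) {ι : Type} [Fintype ι] (S : CosetSystem Γ ι)
    (π : Equiv.Perm ι) (τ : ι → Γ)
    (hα : ∀ i, conjJ (S.α i) = mapGL ℝ (τ i : SL(2, ℤ)) * S.α (π i))
    (R : Type*) [Semiring R] {A : Type*} [AddCommGroup A] [Module R A]
    (φ : Additive Γ →+ A) :
    S.heckeFun (charInvGen hJ R A φ) = charInvGen hJ R A (S.heckeFun φ) := by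
  refine AddMonoidHom.ext fun γ' => ?_
  set γ : Γ := Additive.toMul γ' with hγ
  change S.heckeFun (charInvGen hJ R A φ) (Additive.ofMul γ) =
    S.heckeFun φ (Additive.ofMul (jConjSub hJ γ))
  rw [S.heckeFun_apply_aut φ conjJ (jConjSub hJ) (fun γ => conjJ_mapGL _) π τ hα γ,
    CosetSystem.heckeFun_apply]
  rfl

/-- **The Eichler-Shimura pair map and coset systems.** -/
theorem periodPairGen_heckeFun (hJ : JStable Γ) {ι : Type} [Fintype ι] (S : CosetSystem Γ ι)
    (hdet : ∀ i, 0 < ((S.α i).det : ℝ)) (π : Equiv.Perm ι) (τ : ι → Γ)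
    (hα : ∀ i, conjJ (S.α i) = mapGL ℝ (τ i : SL(2, ℤ)) * S.α (π i))
    (f f' g g' : CuspForm Γ 2)
    (hf : (⇑f' : ℍ → ℂ) = ∑ i, (⇑f : ℍ → ℂ) ∣[(2 : ℤ)] S.α i)
    (hg : (⇑g' : ℍ → ℂ) = ∑ i, (⇑g : ℍ → ℂ) ∣[(2 : ℤ)] S.α i) :
    periodPairGen hJ (f', g') = S.heckeFun (periodPairGen hJ (f, g)) := by
  rw [periodPairGen_apply, periodPairGen_apply, periodGen_heckeFun Γ S hdet f f' hf,
    periodGen_heckeFun Γ S hdet g g' hg, map_add, map_add, map_sub,
    heckeFun_charInvGen hJ S π τ hα ℂ, heckeFun_charInvGen hJ S π τ hα ℂ]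

end Generic

/-! ### The instances for `Γ₁(M)` -/

section Gamma1

variable (M : ℕ) [NeZero M]

/-- The coset system of `T_p` computes the periods of `heckeT1Lin`. -/
theorem periodPair1_heckeT1Lin (p : ℕ) [Fact p.Prime] (hpM : ¬ p ∣ M)
    (f g : CuspForm (Gamma1 M) 2) :
    periodPair1 M (heckeT1Lin 2 Fact.out hpM f, heckeT1Lin 2 Fact.out hpM g) =
      (systemT1 M p hpM).heckeFun (periodPair1 M (f, g)) := by
  haveI : NeZero p := ⟨(Fact.out : p.Prime).ne_zero⟩
  have key : ∀ F : CuspForm (Gamma1 M) 2,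
      (⇑(heckeT1Lin 2 Fact.out hpM F) : ℍ → ℂ) =
        ∑ x, (⇑F : ℍ → ℂ) ∣[(2 : ℤ)] (systemT1 M p hpM).α x := by
    intro F
    rw [coe_heckeT1Lin_rep Fact.out hpM F (diamondRep_mem (primeUnit Fact.out hpM))
      (by rw [diamondRep_lowerRight, coe_primeUnit]), nbT_eq_sum]
    refine Finset.sum_congr rfl fun x _ => ?_
    rw [systemT1_α, repT1, SlashAction.slash_mul]
  exact periodPairGen_heckeFun (jStable_Gamma1 M) (systemT1 M p hpM)
    (fun x => det_repT1_pos p _ x) (Equiv.optionCongr (Equiv.neg (ZMod p)))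
    (fun x => ⟨twistT1 p (diamondRep (primeUnit Fact.out hpM)) x,
      twistT1_mem p (diamondRep_mem _) x⟩)
    (fun x => conjJ_repT1 p _ x) f _ g _ (key f) (key g)

/-- The coset system of `⟨d⟩` computes the periods of `diamondLin`. -/
theorem periodPair1_diamondLin (d : (ZMod M)ˣ) (f g : CuspForm (Gamma1 M) 2) :
    periodPair1 M (diamondLin 2 d f, diamondLin 2 d g) =
      (systemD1 M d).heckeFun (periodPair1 M (f, g)) := by
  have key : ∀ F : CuspForm (Gamma1 M) 2,
      (⇑(diamondLin 2 d F) : ℍ → ℂ) = ∑ x, (⇑F : ℍ → ℂ) ∣[(2 : ℤ)] (systemD1 M d).α x := by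
    intro F
    rw [coe_diamondLin_rep, Finset.univ_unique, Finset.sum_singleton]
    rfl
  exact periodPairGen_heckeFun (jStable_Gamma1 M) (systemD1 M d)
    (fun _ => det_mapGL_pos_T4 _) (Equiv.refl Unit)
    (fun _ => ⟨jConjSL (diamondRep d) * (diamondRep d)⁻¹,
      jConjSL_mul_inv_mem_Gamma1 (diamondRep_mem d)⟩)
    (fun _ => conjJ_repD1 _) f _ g _ (key f) (key g)

end Gamma1

end Fermat.Agent.T4.helper79

end
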