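import Fermat.Agent.S16.helper26_HeckeFun
import Fermat.Agent.T4.helper79_Hecke1

/-!
# T4 (I) [AN-HOM1] (helper79): the coset systems of `T_p` and `⟨d⟩` for `Γ₁(M)`

* `systemT1 M p hpM : CosetSystem (Gamma1 M) (OnePoint (ZMod p))` (`p` prime, `p ∤ M`):
  representatives `α x = mapGL (nbTw p δ x) * heckeRep p x`, `δ = diamondRep (primeUnit p)`,
  i.e. `(1 j; 0 p)` (`j mod p`) and `δ · diag(p, 1)` - exactly the matrices of
  `helper79.heckeT1Lin` (`nbT_eq_sum`);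
* `systemD1 M d : CosetSystem (Gamma1 M) Unit` : the representative `mapGL (diamondRep d)`,
  with `step γ = δ γ δ⁻¹`;
* compatibility with conjugation by `diag(1, -1)` (`conjJ_systemT1`, `conjJ_systemD1`), in the
  shape needed by `CosetSystem.heckeFun_apply_aut`.
-/

set_option autoImplicit false
set_option linter.unusedSectionVars false

noncomputable section

open Matrix.SpecialLinearGroup UpperHalfPlane ModularForm CongruenceSubgroup
open scoped MatrixGroups ModularForm OnePoint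
open P2MW.S_ModularForm_heckeT_slash_eq_self_of_mem_Gamma0.ModularForm.HeckeSlashInvariance
open Fermat.Agent.S16.helper26 (CosetSystem)

namespace Fermat.Agent.T4.helper79

variable (M : ℕ) [NeZero M]

/-- The representatives of the coset system of `T_p` for `Γ₁(M)`. -/
def repT1 (p : ℕ) (δ : SL(2, ℤ)) (x : OnePoint (ZMod p)) : GL (Fin 2) ℝ :=
  mapGL ℝ (nbTw p δ x) * heckeRep p x

variable {M}

theorem lowerRight_of_mem_Gamma1 {γ : SL(2, ℤ)} (hγ : γ ∈ Gamma1 M) :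
    ((γ 1 1 : ℤ) : ZMod M) = 1 := ((Gamma1_mem M γ).mp hγ).2.1

/-- `Γ₁(M)` is normalised by `Γ₀(M)`. -/
theorem conj_mem_Gamma1 {σ γ : SL(2, ℤ)} (hσ : σ ∈ Gamma0 M) (hγ : γ ∈ Gamma1 M) :
    σ * γ * σ⁻¹ ∈ Gamma1 M := by
  have hγ0 : γ ∈ Gamma0 M := Gamma1_in_Gamma0 M hγ
  refine mul_inv_mem_Gamma1 (mul_mem hσ hγ0) hσ ?_
  rw [lowerRight_mul hσ hγ0, lowerRight_of_mem_Gamma1 hγ, mul_one]

variable (M)

/-- The coset system of `T_p` for `Γ₁(M)`, `p ∤ M`, with `δ ∈ Γ₀(M)` a representative of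
`⟨p⟩`. -/
def systemT1Of (p : ℕ) [Fact p.Prime] (hpM : ¬ p ∣ M) (δ : SL(2, ℤ)) (hδ : δ ∈ Gamma0 M)
    (hδp : ((δ 1 1 : ℤ) : ZMod M) = p) : CosetSystem (Gamma1 M) (OnePoint (ZMod p)) where
  α := repT1 p δ
  exists_step γ hγ x := by
    have hγ0 : γ ∈ Gamma0 M := Gamma1_in_Gamma0 M hγ
    have hcM : (M : ℤ) ∣ γ 1 0 :=
      (ZMod.intCast_zmod_eq_zero_iff_dvd _ _).mp (Gamma0_mem.mp hγ0)
    obtain ⟨g', hg', hd', hmul⟩ := nbRep_mul hpM γ hcM x
    have hg'M : g' ∈ Gamma0 M :=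
      Gamma0_mem.mpr ((ZMod.intCast_zmod_eq_zero_iff_dvd _ _).mpr hg')
    set y := redMatrix p γ • x with hy
    refine ⟨y, nbTw p δ x * g' * (nbTw p δ y)⁻¹, ?_, ?_⟩
    · refine mul_inv_mem_Gamma1 (mul_mem (nbTw_mem hδ x) hg'M) (nbTw_mem hδ y) ?_
      rw [lowerRight_mul (nbTw_mem hδ x) hg'M, nbWeight_eq_lowerRight hδp,
        nbWeight_eq_lowerRight hδp, mul_comm, hd', lowerRight_of_mem_Gamma1 hγ, one_mul]
    · show mapGL ℝ (nbTw p δ x) * heckeRep p x * mapGL ℝ γ =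
        mapGL ℝ (nbTw p δ x * g' * (nbTw p δ y)⁻¹) * (mapGL ℝ (nbTw p δ y) * heckeRep p y)
      rw [mul_assoc, hmul, map_mul, map_mul, map_inv]
      group
  inj x y g hg h := by
    have hg0 : g ∈ Gamma0 M := Gamma1_in_Gamma0 M hg
    refine (Fermat.Agent.S16.helper26.systemT M p hpM).inj x y
      ((nbTw p δ x)⁻¹ * g * nbTw p δ y)
      (mul_mem (mul_mem (inv_mem (nbTw_mem hδ x)) hg0) (nbTw_mem hδ y)) ?_
    show heckeRep p x = mapGL ℝ ((nbTw p δ x)⁻¹ * g * nbTw p δ y) * heckeRep p y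
    have h' : mapGL ℝ (nbTw p δ x) * heckeRep p x =
        mapGL ℝ g * (mapGL ℝ (nbTw p δ y) * heckeRep p y) := h
    rw [map_mul, map_mul, map_inv, mul_assoc, mul_assoc, ← h']
    group

/-- The coset system of `T_p` for `Γ₁(M)`, `p ∤ M`. -/
def systemT1 (p : ℕ) [Fact p.Prime] (hpM : ¬ p ∣ M) :
    CosetSystem (Gamma1 M) (OnePoint (ZMod p)) :=
  systemT1Of M p hpM (diamondRep (primeUnit Fact.out hpM)) (diamondRep_mem _)
    (by rw [diamondRep_lowerRight, coe_primeUnit])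

@[simp]
theorem systemT1_α (p : ℕ) [Fact p.Prime] (hpM : ¬ p ∣ M) (x : OnePoint (ZMod p)) :
    (systemT1 M p hpM).α x = repT1 p (diamondRep (primeUnit Fact.out hpM)) x := rfl

/-- The coset system of the diamond operator `⟨d⟩` for `Γ₁(M)`. -/
def systemD1 (d : (ZMod M)ˣ) : CosetSystem (Gamma1 M) Unit where
  α _ := mapGL ℝ (diamondRep d)
  exists_step γ hγ _ := by
    refine ⟨(), diamondRep d * γ * (diamondRep d)⁻¹, conj_mem_Gamma1 (diamondRep_mem d) hγ, ?_⟩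
    rw [map_mul, map_mul, map_inv]
    group
  inj _ _ _ _ _ := rfl

@[simp]
theorem systemD1_α (d : (ZMod M)ˣ) (u : Unit) : (systemD1 M d).α u = mapGL ℝ (diamondRep d) := rfl

theorem systemD1_step (d : (ZMod M)ˣ) (γ : Gamma1 M) (u : Unit) :
    (((systemD1 M d).step γ u : Gamma1 M) : SL(2, ℤ)) =
      diamondRep d * (γ : SL(2, ℤ)) * (diamondRep d)⁻¹ := by
  have h := (systemD1 M d).rel γ u
  simp only [systemD1_α] at h
  have h2 : mapGL ℝ ((((systemD1 M d).step γ u : Gamma1 M) : SL(2, ℤ))) =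
      mapGL ℝ (diamondRep d * (γ : SL(2, ℤ)) * (diamondRep d)⁻¹) := by
    rw [map_mul, map_mul, map_inv, h]
    group
  exact mapGL_injective h2

/-! ### Positivity of the determinants -/

theorem det_repT1_pos (p : ℕ) (δ : SL(2, ℤ)) (x : OnePoint (ZMod p)) :
    0 < ((repT1 p δ x).det : ℝ) := by
  have h1 : 0 < ((heckeRep p x).det : ℝ) := by
    induction x using OnePoint.rec with
    | infty => exact ModularForm.det_heckeDiagMatrix_pos p
    | coe j => exact ModularForm.det_heckeMatrix_pos p j.val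
  rw [repT1, map_mul]
  have h2 : ((mapGL ℝ (nbTw p δ x)).det : ℝ) = 1 := by simp
  rw [Units.val_mul, h2, one_mul]
  exact h1

theorem det_mapGL_pos_T4 (g : SL(2, ℤ)) : 0 < ((mapGL ℝ g).det : ℝ) := by
  have h2 : ((mapGL ℝ g).det : ℝ) = 1 := by simp
  rw [h2]
  exact one_pos

/-! ### Conjugation by `diag(1, -1)` -/

open Fermat.Agent.S16.helper26 (conjJ conjJ_mapGL conjJ_heckeMatrix conjJ_heckeDiagMatrix unip
  negShift)
open ModularCurve.Period

variable {M}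

theorem unip_mem_Gamma1 (t : ℤ) : unip t ∈ Gamma1 M := by
  rw [Gamma1_mem]
  simp [unip]

theorem jConjSL_mem_Gamma0' {σ : SL(2, ℤ)} (hσ : σ ∈ Gamma0 M) : jConjSL σ ∈ Gamma0 M :=
  jConjSL_mem_Gamma0 hσ

theorem jConjSL_lowerRight (σ : SL(2, ℤ)) : (jConjSL σ) 1 1 = σ 1 1 := by
  show ((jConjSL σ : SL(2, ℤ)) : Matrix (Fin 2) (Fin 2) ℤ) 1 1 = _
  rw [jConjSL_coe, jConjMat_apply_one_one]

/-- `J σ J⁻¹ σ⁻¹ ∈ Γ₁(M)` for `σ ∈ Γ₀(M)`. -/
theorem jConjSL_mul_inv_mem_Gamma1 {σ : SL(2, ℤ)} (hσ : σ ∈ Gamma0 M) :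
    jConjSL σ * σ⁻¹ ∈ Gamma1 M :=
  mul_inv_mem_Gamma1 (jConjSL_mem_Gamma0 hσ) hσ (by rw [jConjSL_lowerRight])

/-- The twists of the coset system of `T_p` under conjugation by `diag(1, -1)`. -/
def twistT1 (p : ℕ) (δ : SL(2, ℤ)) (x : OnePoint (ZMod p)) : SL(2, ℤ) :=
  x.elim (jConjSL δ * δ⁻¹) (fun j => unip (negShift p j))

theorem twistT1_mem (p : ℕ) {δ : SL(2, ℤ)} (hδ : δ ∈ Gamma0 M) (x : OnePoint (ZMod p)) :
    twistT1 p δ x ∈ Gamma1 M := by
  induction x using OnePoint.rec with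
  | infty => exact jConjSL_mul_inv_mem_Gamma1 hδ
  | coe j => exact unip_mem_Gamma1 _

theorem conjJ_repT1 (p : ℕ) [NeZero p] (δ : SL(2, ℤ)) (x : OnePoint (ZMod p)) :
    conjJ (repT1 p δ x) =
      mapGL ℝ (twistT1 p δ x) * repT1 p δ (Equiv.optionCongr (Equiv.neg (ZMod p)) x) := by
  induction x using OnePoint.rec with
  | infty =>
    show conjJ (mapGL ℝ δ * heckeDiagMatrix p) =
      mapGL ℝ (jConjSL δ * δ⁻¹) * (mapGL ℝ δ * heckeDiagMatrix p)
    rw [map_mul, conjJ_mapGL, conjJ_heckeDiagMatrix, map_one, one_mul, map_mul, map_inv]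
    group
  | coe j =>
    show conjJ (mapGL ℝ (1 : SL(2, ℤ)) * heckeMatrix p j.val) =
      mapGL ℝ (unip (negShift p j)) * (mapGL ℝ (1 : SL(2, ℤ)) * heckeMatrix p (-j).val)
    rw [map_one, one_mul, one_mul]
    exact conjJ_heckeMatrix p j

theorem conjJ_repD1 (σ : SL(2, ℤ)) :
    conjJ (mapGL ℝ σ) = mapGL ℝ (jConjSL σ * σ⁻¹) * mapGL ℝ σ := by
  rw [conjJ_mapGL, map_mul, map_inv]
  group

end Fermat.Agent.T4.helper79

end
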