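import Fermat.Agent.T4.helper79_PerSysKappa
import Fermat.Agent.T4.helper79_EigenChar1
import Fermat.Agent.T4.helper71_ParabolicPM
import Fermat.Agent.S16.helper26_HeckeFun

/-!
# T4 (I) [AN-LAT1] (helper79): the period lattice of `Γ₁(M)` and its characters

`V = S₂(Γ₁(M)) × S₂(Γ₁(M))` with the Eichler-Shimura pair map `helper71.periodPair1` and the
diagonal action `TV1 M i` of the generators `gen1 M 2 i` (`T_p`, `p ∤ M`, and `⟨d⟩`) of
`heckeAlgebra1 M 2`.

The only input is `Hom1Data M` : for every generator `i` a finite coset system with cocycle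
`step i` such that `periodPair1 (TV1 i x) γ = ∑ j, periodPair1 x (step i γ j)`
(block [AN-HOM1]; `Hom1Data.ofCosetSystems` builds it from `S16.helper26.CosetSystem`s and the
compatibility `periodPair1 (TV1 i x) = (sys i).heckeFun (periodPair1 x)`).

Output, for `D : Hom1Data M`:
* `D.perSys : PerSys (Gamma1 M) (V1 M) (Gen1 M)`, hence the period lattice `D.perSys.perLat`
  (finite free), the lattice characters `D.perSys.LatChar`, the operators `D.perSys.Tst i`,
  `PerSys.sum_comp_step`, ...;
* `D.per'_parabolic` : the periods of parabolic elements vanish;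
* `D.faith1` : the FAITH clause of `helper1.GenKappa` for `gen1 M 2`;
* `D.genKappa1_of_anDesc` : `helper1.GenKappa p op (gen1 M 2)` from the analytic Kummer map and
  the descent.
-/

set_option autoImplicit false
set_option linter.style.haveILetI false

noncomputable section

namespace Fermat.Agent.T4.helper79

open CongruenceSubgroup ModularCurve ModularCurve.Period
open Fermat.Agent.T4.helper71 (periodPair1 periodPair1_injective range_periodPair1_le)
open Fermat.Agent.T4.helper1 (GenKappa genWordEnd)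
open scoped MatrixGroups

/-- `SL(2, ℤ)` is finitely generated. -/
theorem fg_SL2Z_T4 : Group.FG SL(2, ℤ) := by
  refine (Group.fg_iff).mpr ⟨{ModularGroup.S, ModularGroup.T}, ?_, Set.toFinite _⟩
  exact SpecialLinearGroup.SL2Z_generators

variable (M : ℕ) [NeZero M]

/-- `Γ₁(M)` is finitely generated. -/
instance fg_Gamma1 : Group.FG (Gamma1 M) := by
  have := fg_SL2Z_T4
  exact Subgroup.fg_of_index_ne_zero (Gamma1 M)

/-- pairs of cusp forms of weight `2` on `Γ₁(M)` -/
abbrev V1 : Type := CuspForm (Gamma1 M) 2 × CuspForm (Gamma1 M) 2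

/-- the generator `gen1 M 2 i` as an endomorphism of `S₂(Γ₁(M))` -/
def genEnd1 (i : Gen1 M) : Module.End ℂ (CuspForm (Gamma1 M) 2) :=
  ((gen1 M 2 i : heckeAlgebra1 M 2) : Module.End ℂ (CuspForm (Gamma1 M) 2))

theorem genEnd1_inl {p : ℕ} (hp : p.Prime) (hpM : ¬ p ∣ M) :
    genEnd1 M (Sum.inl ⟨p, hp, hpM⟩) = heckeT1Lin 2 hp hpM := rfl

theorem genEnd1_inr (d : (ZMod M)ˣ) : genEnd1 M (Sum.inr d) = diamondLin 2 d := rfl

/-- the diagonal action of the generator `gen1 M 2 i` on pairs -/
def TV1 (i : Gen1 M) : V1 M →ₗ[ℂ] V1 M := LinearMap.prodMap (genEnd1 M i) (genEnd1 M i)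

theorem TV1_apply (i : Gen1 M) (x : V1 M) : TV1 M i x = (genEnd1 M i x.1, genEnd1 M i x.2) := rfl

/-- The period functional of `γ`: `x ↦ periodPair1 M x γ`. -/
def perZ1 : Additive (Gamma1 M) →+ (V1 M →ₗ[ℂ] ℂ) where
  toFun γ :=
    { toFun := fun x => periodPair1 M x γ
      map_add' := fun x y => by rw [map_add]; rfl
      map_smul' := fun c x => by rw [map_smul]; rfl }
  map_zero' := LinearMap.ext fun x => map_zero (periodPair1 M x)
  map_add' γ δ := LinearMap.ext fun x => map_add (periodPair1 M x) γ δ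

@[simp]
theorem perZ1_apply (γ : Additive (Gamma1 M)) (x : V1 M) :
    perZ1 M γ x = periodPair1 M x γ := rfl

/-- The period functionals separate the points of `V1 M` (Eichler-Shimura injectivity). -/
theorem perZ1_sep (x : V1 M) (h : ∀ γ : Additive (Gamma1 M), perZ1 M γ x = 0) : x = 0 := by
  apply periodPair1_injective M
  rw [map_zero]
  exact AddMonoidHom.ext fun γ => h γ

/-- Periods of parabolic elements vanish. -/
theorem perZ1_parabolic (γ : Gamma1 M)
    (hγ : ((γ : SL(2, ℤ)) : Matrix (Fin 2) (Fin 2) ℤ).trace ^ 2 = 4) :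
    perZ1 M (Additive.ofMul γ) = 0 := by
  refine LinearMap.ext fun x => ?_
  have hx : periodPair1 M x ∈ parabolicHoms ℂ (Gamma1 M) ℂ :=
    range_periodPair1_le M ⟨x, rfl⟩
  exact hx γ hγ

/-- **The input from [AN-HOM1]**: finite coset systems computing the periods of `TV1 M i x`. -/
structure Hom1Data where
  /-- the index types of the coset systems -/
  J : Gen1 M → Type
  /-- the index types are finite -/
  fintypeJ : ∀ i, Fintype (J i)
  /-- the cocycles of the coset systems -/
  step : ∀ i, Gamma1 M → J i → Gamma1 M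
  /-- the periods of `TV1 M i x` -/
  per_TV : ∀ (i : Gen1 M) (γ : Gamma1 M) (x : V1 M),
    letI := fintypeJ i
    periodPair1 M (TV1 M i x) (Additive.ofMul γ) =
      ∑ j : J i, periodPair1 M x (Additive.ofMul (step i γ j))

/-- `Hom1Data` from coset systems in the sense of S16-[B1]. -/
def Hom1Data.ofCosetSystems (J : Gen1 M → Type) (fintypeJ : ∀ i, Fintype (J i))
    (sys : ∀ i, Fermat.Agent.S16.helper26.CosetSystem (Gamma1 M) (J i))
    (h : ∀ (i : Gen1 M) (x : V1 M),
      letI := fintypeJ i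
      periodPair1 M (TV1 M i x) = (sys i).heckeFun (periodPair1 M x)) :
    Hom1Data M where
  J := J
  fintypeJ := fintypeJ
  step i := (sys i).step
  per_TV i γ x := by
    letI := fintypeJ i
    rw [h i x]
    rfl

namespace Hom1Data

variable {M} (D : Hom1Data M)

/-- The period system of `Γ₁(M)`. -/
def perSys : PerSys (Gamma1 M) (V1 M) (Gen1 M) where
  per := perZ1 M
  TV := TV1 M
  J := D.J
  fintypeJ := D.fintypeJ
  step := D.step
  sep := perZ1_sep M
  per_TV := D.per_TV

@[simp] theorem perSys_per : D.perSys.per = perZ1 M := rfl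

@[simp] theorem perSys_TV (i : Gen1 M) : D.perSys.TV i = TV1 M i := rfl

theorem isDiag : D.perSys.IsDiag (genEnd1 M) := fun _ => rfl

/-- Periods of parabolic elements vanish in the period lattice. -/
theorem per'_parabolic (γ : Gamma1 M)
    (hγ : ((γ : SL(2, ℤ)) : Matrix (Fin 2) (Fin 2) ℤ).trace ^ 2 = 4) :
    D.perSys.per' (Additive.ofMul γ) = 0 :=
  D.perSys.per'_eq_zero (perZ1_parabolic M γ hγ)

/-- The characters `ε ∘ per'` are parabolic. -/
theorem isParabolicHom_comp_per' {A : Type*} [AddCommGroup A] (ε : D.perSys.perLat →+ A) :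
    IsParabolicHom (Gamma1 M) (ε.comp D.perSys.per') := by
  intro γ hγ
  rw [AddMonoidHom.comp_apply, D.per'_parabolic γ hγ, map_zero]

/-- **The FAITH clause of `helper1.GenKappa`** for the generators `gen1 M 2` of
`heckeAlgebra1 M 2` and the lattice characters of `Γ₁(M)`. -/
theorem faith1 (c : List (Gen1 M) →₀ ℤ)
    (hc : ∀ ε : D.perSys.LatChar,
      (c.sum fun w a => a • genWordEnd D.perSys.Tst w ε) = 0) :
    (c.sum fun w a => a • (w.map (gen1 M 2)).prod) = 0 :=
  PerSys.IsDiag.faith_gen (P := D.perSys) (heckeAlgebra1 M 2).val.toRingHom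
    Subtype.val_injective (gen1 M 2) D.isDiag c hc

/-- **`helper1.GenKappa` for `Γ₁(M)`** from the analytic Kummer map `κC` on the lattice
characters and the descent `con` (shape of `P3/helper16_Kappa.kappa_of_an_desc`). -/
theorem genKappa1_of_anDesc (p : ℕ) (hp : 0 < p)
    {J : Type} [AddCommGroup J] (op : Gen1 M → J →+ J)
    {JC : Type*} [AddCommGroup JC] (opC : Gen1 M → JC →+ JC)
    (κC : ℕ → D.perSys.LatChar →+ JC)
    (ha : ∀ (n : ℕ) (ε : D.perSys.LatChar), p ^ n • κC n ε = 0)
    (hb : ∀ (n : ℕ) (ε : D.perSys.LatChar), κC n ε = 0 →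
      ∀ lam : D.perSys.perLat, ((p ^ n : ℕ) : ℤ) ∣ ε lam)
    (hc : ∀ (n : ℕ) (ε : D.perSys.LatChar), p • κC (n + 1) ε = κC n ε)
    (hd : ∀ (n : ℕ) (i : Gen1 M) (ε : D.perSys.LatChar),
      κC n (D.perSys.Tst i ε) = opC i (κC n ε))
    (con : J →+ JC) (hinj : Function.Injective con)
    (hcon : ∀ (i : Gen1 M) (x : J), con (op i x) = opC i (con x))
    (hsurj : ∀ y : JC, (∃ m : ℕ, 0 < m ∧ m • y = 0) → ∃ x : J, con x = y) :
    GenKappa p op (gen1 M 2) :=
  D.perSys.genKappa_of_anDesc p hp op (gen1 M 2) opC κC ha hb hc hd con hinj hcon hsurj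
    D.faith1

end Hom1Data

end Fermat.Agent.T4.helper79

end
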