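import Fermat.Agent.T4.helper1_Hom1
import Fermat.Agent.T4.helper79_Lat1An

/-!
# T4 (I) [AN-LAT1] on the operators of `helper1_Hom1` (helper79)

The lattice layer (`helper21_AN1Defs` vocabulary) for the coset systems and operators of
helper1's [AN-HOM1] (`helper1.systemT1`, `helper1.systemD1`, `helper1.heckeHom1`,
`helper1.diamondHom1`):

* `hom1Compat_h1T`, `hom1Compat_h1D` : `Hom1Compat` for `helper1.systemT1` / `helper1.systemD1`;
* `perStable1_h1`, `faith1_h1` : `PerStable1Statement M`, `Faith1Statement M` (second proof);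
* `heckeHom1_comp_perZ1'`, `diamondHom1_comp_perZ1'` : the operators on the characters
  `ε ∘ perZ1'` (any coefficient group) act through the transposes `hTr1`;
* `latPsi1_heckeChar_h1T`, `latPsi1_heckeChar_h1D`, `latPsi1_heckeHom1`, `latPsi1_diamondHom1` :
  the operators on the characters `latPsi1`.
-/

set_option autoImplicit false
set_option linter.unusedSectionVars false
set_option linter.style.haveILetI false

noncomputable section

open CongruenceSubgroup ModularCurve ModularCurve.Period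
open Fermat.Agent.S16.helper26 (CosetSystem)
open Fermat.Agent.T4.helper21 (Idx1 V21 pairLin1 genLin1 perZ1 perLat1 perZ1' LatChar1 hTr1
  latCharT1 latPsi1 PerStable1Statement Faith1Statement)
open scoped MatrixGroups

namespace Fermat.Agent.T4.helper79

variable (M : ℕ) [NeZero M]

/-- the index of `T_p` in `helper21.Idx1 M` -/
def idxT {p : ℕ} (hp : p.Prime) (hpM : ¬ p ∣ M) : Idx1 M := Sum.inl ⟨⟨p, hp⟩, hpM⟩

/-- the index of `⟨d⟩` in `helper21.Idx1 M` -/
def idxD (d : (ZMod M)ˣ) : Idx1 M := Sum.inr d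

/-- **[AN-HOM1]** for `helper1.systemT1`. -/
theorem hom1Compat_h1T {p : ℕ} (hp : p.Prime) (hpM : ¬ p ∣ M) :
    haveI : NeZero p := ⟨hp.ne_zero⟩
    Hom1Compat M (idxT M hp hpM) (helper1.systemT1 M hp hpM) := by
  haveI : NeZero p := ⟨hp.ne_zero⟩
  intro x
  exact helper1.periodPairGen_heckeT1Lin M hp hpM x

/-- **[AN-HOM1]** for `helper1.systemD1`. -/
theorem hom1Compat_h1D (d : (ZMod M)ˣ) : Hom1Compat M (idxD M d) (helper1.systemD1 M d) := by
  intro x
  exact helper1.periodPairGen_diamondLin M d x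

/-- **[PER1-STABLE]** (from helper1's [AN-HOM1]). -/
theorem perStable1_h1 : PerStable1Statement M :=
  perStable1_of M fun i => by
    rcases i with q | d
    · haveI : NeZero (q.1 : ℕ) := ⟨q.1.2.ne_zero⟩
      exact ⟨_, inferInstance, helper1.systemT1 M q.1.2 q.2, hom1Compat_h1T M q.1.2 q.2⟩
    · exact ⟨Unit, inferInstance, helper1.systemD1 M d, hom1Compat_h1D M d⟩

/-- **[FAITH1]** (from helper1's [AN-HOM1]). -/
theorem faith1_h1 : Faith1Statement M := faith1_of_perStable M (perStable1_h1 M)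

/-- `helper1.heckeHom1` on the characters `ε ∘ perZ1'` (any coefficient group). -/
theorem heckeHom1_comp_perZ1' {p : ℕ} (hp : p.Prime) (hpM : ¬ p ∣ M)
    {A : Type*} [AddCommGroup A] (ε : perLat1 M →+ A) :
    helper1.heckeHom1 M hp hpM (ε.comp (perZ1' M)) =
      (ε.comp (hTr1 M (idxT M hp hpM))).comp (perZ1' M) := by
  haveI : NeZero p := ⟨hp.ne_zero⟩
  exact heckeFun_comp_perZ1' (perStable1_h1 M) (hom1Compat_h1T M hp hpM) ε

/-- `helper1.diamondHom1` on the characters `ε ∘ perZ1'` (any coefficient group). -/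
theorem diamondHom1_comp_perZ1' (d : (ZMod M)ˣ) {A : Type*} [AddCommGroup A]
    (ε : perLat1 M →+ A) :
    helper1.diamondHom1 M d (ε.comp (perZ1' M)) =
      (ε.comp (hTr1 M (idxD M d))).comp (perZ1' M) :=
  heckeFun_comp_perZ1' (perStable1_h1 M) (hom1Compat_h1D M d) ε

/-- **`T_p` on the characters `latPsi1`** (coset system of helper1). -/
theorem latPsi1_heckeChar_h1T {p : ℕ} (hp : p.Prime) (hpM : ¬ p ∣ M) (ℓ n : ℕ)
    (ε : LatChar1 M) :
    haveI : NeZero p := ⟨hp.ne_zero⟩
    Fermat.Agent.P3.helper34.heckeChar (helper1.systemT1 M hp hpM) (latPsi1 M ℓ n ε) =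
      latPsi1 M ℓ n (latCharT1 M (idxT M hp hpM) ε) := by
  haveI : NeZero p := ⟨hp.ne_zero⟩
  exact latPsi1_heckeChar (perStable1_h1 M) (hom1Compat_h1T M hp hpM) ℓ n ε

/-- **`⟨d⟩` on the characters `latPsi1`** (coset system of helper1). -/
theorem latPsi1_heckeChar_h1D (d : (ZMod M)ˣ) (ℓ n : ℕ) (ε : LatChar1 M) :
    Fermat.Agent.P3.helper34.heckeChar (helper1.systemD1 M d) (latPsi1 M ℓ n ε) =
      latPsi1 M ℓ n (latCharT1 M (idxD M d) ε) :=
  latPsi1_heckeChar (perStable1_h1 M) (hom1Compat_h1D M d) ℓ n ε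

/-- `helper1.heckeHom1` on `latPsi1`, in the shape of `P3.helper16.latPsi_heckeHom`. -/
theorem latPsi1_heckeHom1 {p : ℕ} (hp : p.Prime) (hpM : ¬ p ∣ M) (ℓ n : ℕ) (ε : LatChar1 M) :
    MonoidHom.toAdditive.symm
        (helper1.heckeHom1 M hp hpM (MonoidHom.toAdditive (latPsi1 M ℓ n ε))) =
      latPsi1 M ℓ n (latCharT1 M (idxT M hp hpM) ε) :=
  latPsi1_heckeChar_h1T M hp hpM ℓ n ε

/-- `helper1.diamondHom1` on `latPsi1`, in the shape of `P3.helper16.latPsi_heckeHom`. -/
theorem latPsi1_diamondHom1 (d : (ZMod M)ˣ) (ℓ n : ℕ) (ε : LatChar1 M) :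
    MonoidHom.toAdditive.symm
        (helper1.diamondHom1 M d (MonoidHom.toAdditive (latPsi1 M ℓ n ε))) =
      latPsi1 M ℓ n (latCharT1 M (idxD M d) ε) :=
  latPsi1_heckeChar_h1D M d ℓ n ε

end Fermat.Agent.T4.helper79

end
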