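import Mathlib

/-!
# T4 (I) [AN-LAT1], abstract core (helper79): period systems and their lattices

A *period system* `P : PerSys G V ι` consists of
* a group `G` (a congruence subgroup), a `ℂ`-vector space `V` (pairs of cusp forms),
* period functionals `per : Additive G →+ (V →ₗ[ℂ] ℂ)` separating the points of `V`,
* operators `TV i : V →ₗ[ℂ] V` (`i : ι`; Hecke operators and diamonds), and for each `i` a finite
  coset system with cocycle `step i : G → J i → G` such that
  `per γ (TV i x) = ∑ j, per (step i γ j) x`.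

From this we construct (for `G` finitely generated)
* the period lattice `P.perLat`, a finite free `ℤ`-module, with `P.per' : Additive G →+ P.perLat`;
* the transposes `P.hTr i : P.perLat →+ P.perLat` and `P.hTr i (per' γ) = ∑ j, per' (step i γ j)`;
* the lattice characters `P.LatChar = (P.perLat →+ ℤ)`, finite free, with operators `P.Tst i`;
* `P.sum_comp_step` : the operator "`ψ ↦ (γ ↦ ∑ j, ψ (step i γ j))`" acts on the characters
  `ε ∘ per'` (any coefficient group) through `hTr i`;
* `P.faith` : an integral combination of words in the `Tst i` which kills `LatChar` gives a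
  combination of words in the `TV i` which kills `V`;
* `exists_eq_nsmul_of_forall_dvd` : division of characters.

This is the port of `P3/helper16_PerLattice`, `helper16_Faithful`, `helper16_Kappa` (lattice part)
with everything specific to `Γ₀(N)` abstracted.
-/

set_option autoImplicit false
set_option linter.style.haveILetI false

noncomputable section

namespace Fermat.Agent.T4.helper79

/-- An abstract period system (see the file header). -/
structure PerSys (G : Type) [Group G] (V : Type) [AddCommGroup V] [Module ℂ V] (ι : Type) where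
  /-- the period functionals -/
  per : Additive G →+ (V →ₗ[ℂ] ℂ)
  /-- the operators on `V` -/
  TV : ι → V →ₗ[ℂ] V
  /-- the index types of the coset systems -/
  J : ι → Type
  /-- the index types are finite -/
  fintypeJ : ∀ i, Fintype (J i)
  /-- the cocycles of the coset systems -/
  step : ∀ i, G → J i → G
  /-- the period functionals separate the points of `V` -/
  sep : ∀ x : V, (∀ γ : Additive G, per γ x = 0) → x = 0
  /-- the period functional of `TV i x` -/
  per_TV : ∀ (i : ι) (γ : G) (x : V),
    letI := fintypeJ i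
    per (Additive.ofMul γ) (TV i x) = ∑ j : J i, per (Additive.ofMul (step i γ j)) x

/-- The operator attached to a word in additive endomorphisms (the same recursion as
`helper1.genWordEnd`). -/
def psWordEnd {ι : Type*} {X : Type*} [AddCommGroup X] (T : ι → X →+ X) : List ι → X →+ X
  | [] => AddMonoidHom.id X
  | i :: w => (T i).comp (psWordEnd T w)

/-- Characters with values in `ℤ` separate the points of a free abelian group. -/
theorem eq_zero_of_forall_intChar {L : Type*} [AddCommGroup L] [Module.Free ℤ L] (y : L)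
    (h : ∀ ε : L →+ ℤ, ε y = 0) : y = 0 := by
  set b := Module.Free.chooseBasis ℤ L with hb
  apply b.repr.injective
  rw [map_zero]
  ext i
  rw [Finsupp.zero_apply]
  exact h (b.coord i).toAddMonoidHom

/-- Division of a character by `d`, when all its values are divisible by `d`. -/
theorem exists_eq_nsmul_of_forall_dvd {L : Type*} [AddCommGroup L] (d : ℕ) (ε : L →+ ℤ)
    (h : ∀ lam : L, (d : ℤ) ∣ ε lam) : ∃ y : L →+ ℤ, ε = d • y := by
  rcases Nat.eq_zero_or_pos d with rfl | hd
  · refine ⟨0, AddMonoidHom.ext fun lam => ?_⟩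
    have := h lam
    rw [Nat.cast_zero, zero_dvd_iff] at this
    rw [this]
    simp
  · refine ⟨{ toFun := fun lam => ε lam / (d : ℤ)
              map_zero' := by simp
              map_add' := fun a b => by
                rw [map_add, Int.add_ediv_of_dvd_left (h a)] }, AddMonoidHom.ext fun lam => ?_⟩
    have h1 : ε lam = (d : ℤ) * (ε lam / (d : ℤ)) := (Int.mul_ediv_cancel' (h lam)).symm
    rw [AddMonoidHom.smul_apply, nsmul_eq_mul]
    exact h1

namespace PerSys

variable {G : Type} [Group G] {V : Type} [AddCommGroup V] [Module ℂ V] {ι : Type}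
  (P : PerSys G V ι)

/-- The period lattice: the (additive) group of all period functionals. -/
def perLat : AddSubgroup (V →ₗ[ℂ] ℂ) := P.per.range

theorem mem_perLat {lam : V →ₗ[ℂ] ℂ} : lam ∈ P.perLat ↔ ∃ γ : Additive G, P.per γ = lam :=
  Iff.rfl

theorem per_mem_perLat (γ : Additive G) : P.per γ ∈ P.perLat := ⟨γ, rfl⟩

/-- `per` with values in the lattice. -/
def per' : Additive G →+ P.perLat := P.per.rangeRestrict

@[simp]
theorem coe_per' (γ : Additive G) : ((P.per' γ : P.perLat) : V →ₗ[ℂ] ℂ) = P.per γ := rfl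

theorem per'_surjective : Function.Surjective P.per' := P.per.rangeRestrict_surjective

theorem per'_eq_zero {γ : Additive G} (h : P.per γ = 0) : P.per' γ = 0 := Subtype.ext h

instance finite_perLat [Group.FG G] : Module.Finite ℤ P.perLat := by
  have h2 : AddGroup.FG (Additive G) := AddGroup.fg_iff_mul_fg.mpr
    (Group.fg_of_surjective (f := (MulEquiv.refl G).toMonoidHom) (MulEquiv.refl G).surjective)
  have h3 : AddGroup.FG P.per.range := AddGroup.fg_range P.per
  exact Module.Finite.iff_addGroup_fg.mpr h3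

instance isAddTorsionFree_perLat : IsAddTorsionFree P.perLat where
  nsmul_right_injective n hn a b hab := by
    have : IsAddTorsionFree (V →ₗ[ℂ] ℂ) := .of_isTorsionFree ℂ _
    apply Subtype.ext
    have h : n • (a : V →ₗ[ℂ] ℂ) = n • (b : V →ₗ[ℂ] ℂ) := congrArg Subtype.val hab
    exact nsmul_right_injective hn h

instance free_perLat [Group.FG G] : Module.Free ℤ P.perLat :=
  Module.free_of_finite_type_torsion_free'

/-- The period lattice separates the points of `V`. -/
theorem perLat_separates (x : V) (h : ∀ lam ∈ P.perLat, lam x = 0) : x = 0 :=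
  P.sep x fun γ => h _ (P.per_mem_perLat γ)

/-- A linear endomorphism of `V` whose transpose preserves the period lattice. -/
def Stable (L : V →ₗ[ℂ] V) : Prop := ∀ lam ∈ P.perLat, lam ∘ₗ L ∈ P.perLat

theorem stable_TV (i : ι) : P.Stable (P.TV i) := by
  classical
  rintro _ ⟨γ, rfl⟩
  letI := P.fintypeJ i
  have h : P.per γ ∘ₗ P.TV i =
      ∑ j : P.J i, P.per (Additive.ofMul (P.step i (Additive.toMul γ) j)) := by
    refine LinearMap.ext fun x => ?_
    rw [LinearMap.comp_apply, LinearMap.sum_apply]
    exact P.per_TV i (Additive.toMul γ) x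
  rw [h]
  exact sum_mem fun j _ => P.per_mem_perLat _

theorem stable_id : P.Stable LinearMap.id := fun lam hlam => by
  rwa [LinearMap.comp_id]

theorem stable_one : P.Stable (1 : Module.End ℂ V) := P.stable_id

theorem Stable.comp {L L' : V →ₗ[ℂ] V} (h : P.Stable L) (h' : P.Stable L') :
    P.Stable (L ∘ₗ L') := fun lam hlam => by
  rw [← LinearMap.comp_assoc]
  exact h' _ (h lam hlam)

theorem Stable.mul {L L' : Module.End ℂ V} (h : P.Stable L) (h' : P.Stable L') :
    P.Stable (L * L') := Stable.comp P h h'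

theorem stable_zero : P.Stable (0 : V →ₗ[ℂ] V) := fun lam _ => by
  rw [LinearMap.comp_zero]
  exact P.perLat.zero_mem

theorem Stable.add {L L' : V →ₗ[ℂ] V} (h : P.Stable L) (h' : P.Stable L') :
    P.Stable (L + L') := fun lam hlam => by
  rw [LinearMap.comp_add]
  exact P.perLat.add_mem (h lam hlam) (h' lam hlam)

theorem comp_zsmul (lam : V →ₗ[ℂ] ℂ) (a : ℤ) (L : V →ₗ[ℂ] V) :
    lam ∘ₗ (a • L) = a • (lam ∘ₗ L) := by
  refine LinearMap.ext fun x => ?_
  simp only [LinearMap.comp_apply, LinearMap.smul_apply, map_zsmul]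

theorem Stable.zsmul {L : V →ₗ[ℂ] V} (h : P.Stable L) (a : ℤ) : P.Stable (a • L) :=
  fun lam hlam => by
    rw [comp_zsmul]
    exact P.perLat.zsmul_mem (h lam hlam) a

theorem stable_sum {κ : Type*} (s : Finset κ) (L : κ → V →ₗ[ℂ] V)
    (h : ∀ k ∈ s, P.Stable (L k)) : P.Stable (∑ k ∈ s, L k) := by
  classical
  induction s using Finset.induction_on with
  | empty =>
    rw [Finset.sum_empty]
    exact P.stable_zero
  | insert a s ha ih =>
    rw [Finset.sum_insert ha]
    exact Stable.add P (h a (Finset.mem_insert_self a s))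
      (ih fun k hk => h k (Finset.mem_insert_of_mem hk))

/-- The product of a word in the operators `TV i`. -/
def wordLin (w : List ι) : Module.End ℂ V := (w.map P.TV).prod

@[simp]
theorem wordLin_nil : P.wordLin [] = 1 := rfl

@[simp]
theorem wordLin_cons (i : ι) (w : List ι) : P.wordLin (i :: w) = P.TV i * P.wordLin w := by
  rw [wordLin, List.map_cons, List.prod_cons]
  rfl

theorem stable_wordLin (w : List ι) : P.Stable (P.wordLin w) := by
  induction w with
  | nil => exact P.stable_one
  | cons i w ih =>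
    rw [wordLin_cons]
    exact Stable.mul P (P.stable_TV i) ih

/-- The transpose of a stable endomorphism, on the period lattice. -/
def tr (L : V →ₗ[ℂ] V) (hL : P.Stable L) : P.perLat →+ P.perLat where
  toFun lam := ⟨(lam : V →ₗ[ℂ] ℂ) ∘ₗ L, hL _ lam.2⟩
  map_zero' := Subtype.ext (LinearMap.zero_comp _)
  map_add' _ _ := Subtype.ext (LinearMap.add_comp _ _ _)

@[simp]
theorem coe_tr (L : V →ₗ[ℂ] V) (hL : P.Stable L) (lam : P.perLat) :
    ((P.tr L hL lam : P.perLat) : V →ₗ[ℂ] ℂ) = (lam : V →ₗ[ℂ] ℂ) ∘ₗ L := rfl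

theorem tr_apply_apply (L : V →ₗ[ℂ] V) (hL : P.Stable L) (lam : P.perLat) (x : V) :
    (P.tr L hL lam : V →ₗ[ℂ] ℂ) x = (lam : V →ₗ[ℂ] ℂ) (L x) := rfl

/-- The transpose of `TV i` on the period lattice. -/
def hTr (i : ι) : P.perLat →+ P.perLat := P.tr (P.TV i) (P.stable_TV i)

@[simp]
theorem coe_hTr (i : ι) (lam : P.perLat) :
    ((P.hTr i lam : P.perLat) : V →ₗ[ℂ] ℂ) = (lam : V →ₗ[ℂ] ℂ) ∘ₗ P.TV i := rfl

theorem hTr_apply_apply (i : ι) (lam : P.perLat) (x : V) :
    (P.hTr i lam : V →ₗ[ℂ] ℂ) x = (lam : V →ₗ[ℂ] ℂ) (P.TV i x) := rfl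

/-- If the operators commute on `V`, their transposes commute on the lattice. -/
theorem hTr_comm {i j : ι} (h : P.TV i ∘ₗ P.TV j = P.TV j ∘ₗ P.TV i) (lam : P.perLat) :
    P.hTr i (P.hTr j lam) = P.hTr j (P.hTr i lam) := by
  apply Subtype.ext
  rw [coe_hTr, coe_hTr, coe_hTr, coe_hTr, LinearMap.comp_assoc, LinearMap.comp_assoc, h]

/-- One step on the lattice, in terms of the coset system. -/
theorem hTr_per' (i : ι) (γ : G) :
    letI := P.fintypeJ i
    P.hTr i (P.per' (Additive.ofMul γ)) =
      ∑ j : P.J i, P.per' (Additive.ofMul (P.step i γ j)) := by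
  classical
  letI := P.fintypeJ i
  apply Subtype.ext
  refine LinearMap.ext fun x => ?_
  rw [hTr_apply_apply, coe_per', P.per_TV i γ x]
  simp only [AddSubgroup.val_finsetSum, coe_per', LinearMap.coe_sum, Finset.sum_apply]

/-- **Equivariance of the characters `ε ∘ per'`**: the operator
`ψ ↦ (γ ↦ ∑ j, ψ (step i γ j))` acts on them through the transpose `hTr i`. -/
theorem sum_comp_step {A : Type*} [AddCommGroup A] (i : ι) (ε : P.perLat →+ A) (γ : G) :
    letI := P.fintypeJ i
    ∑ j : P.J i, ε (P.per' (Additive.ofMul (P.step i γ j))) =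
      ε (P.hTr i (P.per' (Additive.ofMul γ))) := by
  letI := P.fintypeJ i
  rw [P.hTr_per' i γ, map_sum]

/-- The transpose of a word. -/
def wordTr (w : List ι) : P.perLat →+ P.perLat := P.tr (P.wordLin w) (P.stable_wordLin w)

theorem wordTr_nil : P.wordTr [] = AddMonoidHom.id _ := by
  refine AddMonoidHom.ext fun lam => Subtype.ext ?_
  rw [wordTr, coe_tr]
  rfl

theorem wordTr_cons (i : ι) (w : List ι) :
    P.wordTr (i :: w) = (P.wordTr w).comp (P.hTr i) := by
  refine AddMonoidHom.ext fun lam => Subtype.ext ?_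
  rw [wordTr, coe_tr, AddMonoidHom.comp_apply, wordTr, coe_tr, coe_hTr, wordLin_cons]
  rfl

/-- The lattice characters `X = Hom(perLat, ℤ)`. -/
abbrev LatChar : Type := P.perLat →+ ℤ

instance free_latChar [Group.FG G] : Module.Free ℤ P.LatChar :=
  Module.Free.of_equiv (addMonoidHomLequivInt (A := P.perLat) (B := ℤ) ℤ).symm

instance finite_latChar [Group.FG G] : Module.Finite ℤ P.LatChar :=
  Module.Finite.equiv (addMonoidHomLequivInt (A := P.perLat) (B := ℤ) ℤ).symm

/-- The operator `ε ↦ ε ∘ hTr i` on characters of the period lattice with values in `A`. -/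
def TstA (A : Type*) [AddCommGroup A] (i : ι) : (P.perLat →+ A) →+ (P.perLat →+ A) where
  toFun ε := ε.comp (P.hTr i)
  map_zero' := AddMonoidHom.zero_comp _
  map_add' _ _ := AddMonoidHom.add_comp _ _ _

@[simp]
theorem TstA_apply {A : Type*} [AddCommGroup A] (i : ι) (ε : P.perLat →+ A) :
    P.TstA A i ε = ε.comp (P.hTr i) := rfl

/-- The operator `ε ↦ ε ∘ hTr i` on lattice characters. -/
def Tst (i : ι) : P.LatChar →+ P.LatChar := P.TstA ℤ i

@[simp]
theorem Tst_apply (i : ι) (ε : P.LatChar) : P.Tst i ε = ε.comp (P.hTr i) := rfl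

theorem Tst_comm {i j : ι} (h : P.TV i ∘ₗ P.TV j = P.TV j ∘ₗ P.TV i) (ε : P.LatChar) :
    P.Tst i (P.Tst j ε) = P.Tst j (P.Tst i ε) := by
  refine AddMonoidHom.ext fun lam => ?_
  simp only [Tst_apply, AddMonoidHom.comp_apply]
  rw [P.hTr_comm h]

/-- A word in the operators `TstA` acts through the transpose of the word. -/
theorem psWordEnd_TstA {A : Type*} [AddCommGroup A] (w : List ι) (ε : P.perLat →+ A) :
    psWordEnd (P.TstA A) w ε = ε.comp (P.wordTr w) := by
  induction w with
  | nil =>
    rw [wordTr_nil]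
    rfl
  | cons i w ih =>
    have h1 : psWordEnd (P.TstA A) (i :: w) ε = P.TstA A i (psWordEnd (P.TstA A) w ε) := rfl
    rw [h1, ih, wordTr_cons, TstA_apply]
    exact AddMonoidHom.comp_assoc _ _ _

theorem psWordEnd_Tst (w : List ι) (ε : P.LatChar) :
    psWordEnd P.Tst w ε = ε.comp (P.wordTr w) :=
  P.psWordEnd_TstA w ε

/-- The endomorphism of `V` attached to an integral combination of words. -/
def combLin (c : List ι →₀ ℤ) : Module.End ℂ V := c.sum fun w a => a • P.wordLin w

theorem stable_combLin (c : List ι →₀ ℤ) : P.Stable (P.combLin c) :=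
  P.stable_sum _ _ fun w _ => Stable.zsmul P (P.stable_wordLin w) _

/-- The transpose of an integral combination of words. -/
def combTr (c : List ι →₀ ℤ) : P.perLat →+ P.perLat := P.tr (P.combLin c) (P.stable_combLin c)

theorem combTr_eq (c : List ι →₀ ℤ) : P.combTr c = c.sum fun w a => a • P.wordTr w := by
  refine AddMonoidHom.ext fun lam => Subtype.ext ?_
  rw [combTr, coe_tr, combLin]
  simp only [Finsupp.sum, AddMonoidHom.finsetSum_apply, AddSubgroup.val_finsetSum,
    AddMonoidHom.smul_apply, AddSubgroup.coe_zsmul]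
  refine LinearMap.ext fun x => ?_
  simp only [LinearMap.comp_apply, LinearMap.sum_apply, LinearMap.smul_apply, map_sum,
    map_zsmul]
  rfl

theorem sum_psWordEnd_TstA {A : Type*} [AddCommGroup A] (c : List ι →₀ ℤ) (ε : P.perLat →+ A) :
    (c.sum fun w a => a • psWordEnd (P.TstA A) w ε) = ε.comp (P.combTr c) := by
  rw [combTr_eq]
  simp only [Finsupp.sum]
  refine AddMonoidHom.ext fun lam => ?_
  simp only [AddMonoidHom.finsetSum_apply, AddMonoidHom.comp_apply, psWordEnd_TstA,
    AddMonoidHom.smul_apply, map_sum, map_zsmul]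

theorem sum_psWordEnd_Tst (c : List ι →₀ ℤ) (ε : P.LatChar) :
    (c.sum fun w a => a • psWordEnd P.Tst w ε) = ε.comp (P.combTr c) :=
  P.sum_psWordEnd_TstA c ε

/-- If the transpose of a stable endomorphism vanishes on the lattice, the endomorphism is
zero. -/
theorem eq_zero_of_tr {L : V →ₗ[ℂ] V} (hL : P.Stable L) (h : ∀ lam : P.perLat, P.tr L hL lam = 0) :
    L = 0 := by
  refine LinearMap.ext fun x => ?_
  apply P.perLat_separates
  intro lam hlam
  have h1 := congrArg (fun l : P.perLat => (l : V →ₗ[ℂ] ℂ) x) (h ⟨lam, hlam⟩)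
  exact h1

/-- **Faithfulness**: an integral combination of words in the operators `Tst i` which kills all
lattice characters gives a combination of words in the `TV i` which is zero on `V`. -/
theorem faith [Group.FG G] (c : List ι →₀ ℤ)
    (h : ∀ ε : P.LatChar, (c.sum fun w a => a • psWordEnd P.Tst w ε) = 0) :
    (c.sum fun w a => a • P.wordLin w) = 0 := by
  refine P.eq_zero_of_tr (P.stable_combLin c) fun lam => ?_
  refine eq_zero_of_forall_intChar _ fun ε => ?_
  have := h ε
  rw [sum_psWordEnd_Tst] at this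
  exact DFunLike.congr_fun this lam

/-- Faithfulness through characters with values in `ℤ / p ^ n` (all `n`). -/
theorem faith_zmod [Group.FG G] {p : ℕ} (hp : 1 < p) (c : List ι →₀ ℤ)
    (h : ∀ (n : ℕ) (ε : P.perLat →+ ZMod (p ^ n)),
      (c.sum fun w a => a • psWordEnd (P.TstA (ZMod (p ^ n))) w ε) = 0) :
    (c.sum fun w a => a • P.wordLin w) = 0 := by
  refine P.faith c fun ε => ?_
  rw [sum_psWordEnd_Tst]
  refine AddMonoidHom.ext fun lam => ?_
  rw [AddMonoidHom.comp_apply, AddMonoidHom.zero_apply]
  -- an integer divisible by all powers of `p` is zero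
  have key : ∀ n : ℕ, ((p ^ n : ℕ) : ℤ) ∣ ε (P.combTr c lam) := by
    intro n
    have h1 := h n ((Int.castAddHom (ZMod (p ^ n))).comp ε)
    rw [sum_psWordEnd_TstA] at h1
    have h2 := DFunLike.congr_fun h1 lam
    simp only [AddMonoidHom.coe_comp, Function.comp_apply, Int.coe_castAddHom,
      AddMonoidHom.zero_apply] at h2
    exact (ZMod.intCast_zmod_eq_zero_iff_dvd _ _).mp h2
  by_contra hc
  set z := ε (P.combTr c lam) with hz
  have h1 : z.natAbs < p ^ z.natAbs := Nat.lt_pow_self hp
  have h3 : (p ^ z.natAbs : ℕ) ∣ z.natAbs := Int.natCast_dvd.mp (key z.natAbs)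
  have h4 : 0 < z.natAbs := Int.natAbs_pos.mpr hc
  exact absurd (Nat.le_of_dvd h4 h3) (not_le.mpr h1)

end PerSys

end Fermat.Agent.T4.helper79

end
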