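/-
T4 block (I), I-RED [ROOT] (helper9, row 1142), part 1: the ring of `w`-integral functions of a
GENERIC pair `(E, Eb)` of `helper4_RedDefs` and its reduction (port of P2 `helper50_RootVRing`).

* `wRing A E Eb` : the subring `{f | IsWInt A E Eb f}` of `E`;
* `wRed A E Eb : wRing A E Eb →+* LaurentSeries (kA A)` : the reduction `Y₁ / Y₂ ↦ red Y₁ / red Y₂`;
* `wRed_eq` : the reduction can be computed from any representation;
* `isGood_aevalJ` : a polynomial in `j` over `A` with nonzero reduction is a good series;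
* `exists_prim` : Gauss scaling of a polynomial over `ℚ̄`;
* `val_ratJ`, `ker_ratJ`, `wRed_ratJ` : on `ℚ̄(j)` the ring `wRing` is the Gauss valuation ring, the
  kernel of `wRed` is its maximal ideal, and the reductions lie in `k(j̃)`;
* `exists_poly_of_isWInt` : a polynomial in `j` over `ℚ̄` which is `w`-integral has coefficients
  in `A`.

No level-specific input: only `j ∈ E` and `j̃ ∈ Eb`.
-/
import Mathlib
import Fermat.Agent.T4.helper4_RedDefs
import Fermat.Agent.P2.helper81_ValRed
import Fermat.Agent.P2.helper44_RootLaurent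

set_option autoImplicit false
set_option linter.style.haveILetI false
set_option linter.unusedSectionVars false
set_option linter.unusedVariables false
set_option linter.style.longLine false

open ModularCurve Polynomial IntermediateField

noncomputable section

namespace Fermat.Agent.T4.helper9

open Fermat.Agent.S18.helper19 (Kb kA)
open Fermat.Agent.P2.helper29 (incl red)
open Fermat.Agent.T4.helper4 (IsGood IsWInt jEl jbEl)

section Ring

variable (A : ValuationSubring Kb) (E : IntermediateField Kb (LaurentSeries Kb))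
  (Eb : IntermediateField (kA A) (LaurentSeries (kA A)))

theorem incl_injective : Function.Injective (incl A) :=
  Fermat.Agent.P2.helper44.coeffMap_injective_of_inj _ Subtype.val_injective

theorem isGood_one : IsGood A E Eb (1 : LaurentSeries A) :=
  ⟨by rw [map_one]; exact one_mem _, by rw [map_one]; exact one_mem _,
    by rw [map_one]; exact one_ne_zero⟩

variable {A E Eb} in
theorem isGood_mul {Y Y' : LaurentSeries A} (h : IsGood A E Eb Y) (h' : IsGood A E Eb Y') :
    IsGood A E Eb (Y * Y') :=
  ⟨by rw [map_mul]; exact mul_mem h.1 h'.1, by rw [map_mul]; exact mul_mem h.2.1 h'.2.1,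
    by rw [map_mul]; exact mul_ne_zero h.2.2 h'.2.2⟩

/-- the subring of `w`-integral functions -/
def wRing : Subring E where
  carrier := {f | IsWInt A E Eb (f : LaurentSeries Kb)}
  zero_mem' := ⟨0, 1, by rw [map_zero]; exact zero_mem _, isGood_one A E Eb, by simp⟩
  one_mem' := ⟨1, 1, by rw [map_one]; exact one_mem _, isGood_one A E Eb, by simp⟩
  add_mem' := by
    rintro f g ⟨Y₁, Y₂, hY₁, hY₂, hf⟩ ⟨Z₁, Z₂, hZ₁, hZ₂, hg⟩
    refine ⟨Y₁ * Z₂ + Z₁ * Y₂, Y₂ * Z₂, ?_, isGood_mul hY₂ hZ₂, ?_⟩
    · rw [map_add, map_mul, map_mul]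
      exact add_mem (mul_mem hY₁ hZ₂.1) (mul_mem hZ₁ hY₂.1)
    · rw [map_add, map_mul, map_mul, map_mul, hf, hg]
      push_cast
      ring
  mul_mem' := by
    rintro f g ⟨Y₁, Y₂, hY₁, hY₂, hf⟩ ⟨Z₁, Z₂, hZ₁, hZ₂, hg⟩
    refine ⟨Y₁ * Z₁, Y₂ * Z₂, ?_, isGood_mul hY₂ hZ₂, ?_⟩
    · rw [map_mul]
      exact mul_mem hY₁ hZ₁
    · rw [map_mul, map_mul, hf, hg]
      push_cast
      ring
  neg_mem' := by
    rintro f ⟨Y₁, Y₂, hY₁, hY₂, hf⟩
    refine ⟨-Y₁, Y₂, ?_, hY₂, ?_⟩
    · rw [map_neg]
      exact neg_mem hY₁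
    · rw [map_neg, hf]
      push_cast
      ring

lemma mem_wRing {f : E} : f ∈ wRing A E Eb ↔ IsWInt A E Eb (f : LaurentSeries Kb) :=
  Iff.rfl

/-- the numerator of the chosen representation -/
def wNum (f : wRing A E Eb) : LaurentSeries A := Classical.choose f.2

/-- the denominator of the chosen representation -/
def wDen (f : wRing A E Eb) : LaurentSeries A := Classical.choose (Classical.choose_spec f.2)

lemma wDen_isGood (f : wRing A E Eb) : IsGood A E Eb (wDen A E Eb f) :=
  (Classical.choose_spec (Classical.choose_spec f.2)).2.1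

lemma wNum_eq (f : wRing A E Eb) :
    incl A (wNum A E Eb f) = ((f : E) : LaurentSeries Kb) * incl A (wDen A E Eb f) :=
  (Classical.choose_spec (Classical.choose_spec f.2)).2.2

/-- the reduction of a `w`-integral function -/
def wRedFun (f : wRing A E Eb) : LaurentSeries (kA A) :=
  red A (wNum A E Eb f) / red A (wDen A E Eb f)

/-- the reduction can be computed from any representation -/
theorem wRedFun_eq (f : wRing A E Eb) (Y₁ Y₂ : LaurentSeries A)
    (hY₂ : red A Y₂ ≠ 0)
    (h : incl A Y₁ = ((f : E) : LaurentSeries Kb) * incl A Y₂) :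
    wRedFun A E Eb f = red A Y₁ / red A Y₂ := by
  have hd := (wDen_isGood A E Eb f).2.2
  have e : wNum A E Eb f * Y₂ = Y₁ * wDen A E Eb f := by
    apply incl_injective A
    rw [map_mul, map_mul, wNum_eq, h]
    ring
  have e' := congrArg (red A) e
  rw [map_mul, map_mul] at e'
  rw [wRedFun, div_eq_div_iff hd hY₂]
  exact e'

/-- the reduction as a ring homomorphism -/
def wRed : wRing A E Eb →+* LaurentSeries (kA A) where
  toFun := wRedFun A E Eb
  map_one' := by
    rw [wRedFun_eq A E Eb 1 1 1 (by rw [map_one]; exact one_ne_zero) (by simp), map_one, div_one]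
  map_zero' := by
    rw [wRedFun_eq A E Eb 0 0 1 (by rw [map_one]; exact one_ne_zero) (by simp), map_zero,
      zero_div]
  map_mul' := by
    intro f g
    have hf := (wDen_isGood A E Eb f).2.2
    have hg := (wDen_isGood A E Eb g).2.2
    rw [wRedFun_eq A E Eb (f * g) (wNum A E Eb f * wNum A E Eb g)
      (wDen A E Eb f * wDen A E Eb g)
      (by rw [map_mul]; exact mul_ne_zero hf hg)
      (by rw [map_mul, map_mul, wNum_eq, wNum_eq]; push_cast; ring)]
    rw [map_mul, map_mul, wRedFun, wRedFun, div_mul_div_comm]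
  map_add' := by
    intro f g
    have hf := (wDen_isGood A E Eb f).2.2
    have hg := (wDen_isGood A E Eb g).2.2
    rw [wRedFun_eq A E Eb (f + g)
      (wNum A E Eb f * wDen A E Eb g + wNum A E Eb g * wDen A E Eb f)
      (wDen A E Eb f * wDen A E Eb g)
      (by rw [map_mul]; exact mul_ne_zero hf hg)
      (by rw [map_add, map_mul, map_mul, map_mul, wNum_eq, wNum_eq]; push_cast; ring)]
    rw [map_add, map_mul, map_mul, map_mul, wRedFun, wRedFun, div_add_div _ _ hf hg]
    congr 1
    ring

/-- the reduction can be computed from any representation -/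
theorem wRed_eq (f : E) (hf : f ∈ wRing A E Eb) (Y₁ Y₂ : LaurentSeries A)
    (hY₂ : red A Y₂ ≠ 0)
    (h : incl A Y₁ = (f : LaurentSeries Kb) * incl A Y₂) :
    wRed A E Eb ⟨f, hf⟩ = red A Y₁ / red A Y₂ :=
  wRedFun_eq A E Eb ⟨f, hf⟩ Y₁ Y₂ hY₂ h

/-- an integral series of `E` is `w`-integral -/
theorem mem_wRing_of_incl (f : E) (Y : LaurentSeries A)
    (h : incl A Y = (f : LaurentSeries Kb)) : f ∈ wRing A E Eb :=
  ⟨Y, 1, by rw [h]; exact f.2, isGood_one A E Eb, by rw [h, map_one, mul_one]⟩

/-- ... and its reduction is the reduction of the series -/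
theorem wRed_of_incl (f : E) (Y : LaurentSeries A)
    (h : incl A Y = (f : LaurentSeries Kb)) :
    wRed A E Eb ⟨f, mem_wRing_of_incl A E Eb f Y h⟩ = red A Y := by
  rw [wRed_eq A E Eb f (mem_wRing_of_incl A E Eb f Y h) Y 1 (by rw [map_one]; exact one_ne_zero)
    (by rw [h, map_one, mul_one]), map_one, div_one]

/-- a quotient of good series is a unit of `wRing` -/
theorem mem_wRing_of_good (f : E) (Y₁ Y₂ : LaurentSeries A) (hY₁ : incl A Y₁ ∈ E)
    (hY₂ : IsGood A E Eb Y₂) (h : incl A Y₁ = (f : LaurentSeries Kb) * incl A Y₂) :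
    f ∈ wRing A E Eb :=
  ⟨Y₁, Y₂, hY₁, hY₂, h⟩

end Ring

end Fermat.Agent.T4.helper9

end
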