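/-
T4 block (I), I-RED [ROOT] (helper9, row 1142), part 2: Gauss scaling on `ℚ̄(j)` for a GENERIC
pair `(E, Eb)` of `helper4_RedDefs` with `j ∈ E`, `j̃ ∈ Eb` (no other input).

* `isGood_aevalJ` : a polynomial in `j` over `A` with nonzero reduction is a good series;
* `transcendental_jEl`, `transcendental_jbEl`;
* `exists_prim` : Gauss scaling of a polynomial over `ℚ̄`;
* `exists_ratJ` : normal form of a rational function of `j`;
* `val_ratJ`, `ker_ratJ`, `wRed_ratJ` : on `ℚ̄(j)` the ring `wRing` is a valuation ring, the kernel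
  of `wRed` is its maximal ideal, and the reductions are rational functions of `j̃`;
* `exists_poly_of_isWInt` : a polynomial in `j` over `ℚ̄` which is `w`-integral has coefficients
  in `A`.
-/
import Mathlib
import Fermat.Agent.T4.helper9_Root1Ring

set_option autoImplicit false
set_option linter.style.haveILetI false
set_option linter.unusedSectionVars false
set_option linter.unusedVariables false
set_option linter.style.longLine false

open ModularCurve Polynomial IntermediateField

noncomputable section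

namespace Fermat.Agent.T4.helper9

open Fermat.Agent.S18.helper19 (Kb kA)
open Fermat.Agent.P2.helper29 (incl red)
open Fermat.Agent.T4.helper4 (IsGood IsWInt jEl jbEl)

section Gauss

variable (A : ValuationSubring Kb) (E : IntermediateField Kb (LaurentSeries Kb))
  (Eb : IntermediateField (kA A) (LaurentSeries (kA A)))
  (hj : jqModC Kb ∈ E) (hjb : jqModC (kA A) ∈ Eb)

theorem incl_aevalJ (P : Polynomial A) :
    incl A (aeval (jqModC A) P) = aeval (jqModC Kb) (P.map A.subtype) :=
  Fermat.Agent.P2.helper44.coeffMap_aeval_jqModC _ P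

theorem red_aevalJ (P : Polynomial A) :
    red A (aeval (jqModC A) P) = aeval (jqModC (kA A)) (P.map (IsLocalRing.residue A)) :=
  Fermat.Agent.P2.helper44.coeffMap_aeval_jqModC _ P

theorem incl_algebraMapA (a : A) :
    incl A (algebraMap A (LaurentSeries A) a) = algebraMap Kb (LaurentSeries Kb) (a : Kb) :=
  Fermat.Agent.P2.helper44.coeffMap_algebraMap_laurent' _ a

theorem red_algebraMapA (a : A) :
    red A (algebraMap A (LaurentSeries A) a) =
      algebraMap (kA A) (LaurentSeries (kA A)) (IsLocalRing.residue A a) :=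
  Fermat.Agent.P2.helper44.coeffMap_algebraMap_laurent' _ a

include hj in
theorem coe_aeval_jEl (P : Polynomial Kb) :
    ((aeval (jEl E hj) P : E) : LaurentSeries Kb) = aeval (jqModC Kb) P :=
  (Polynomial.aeval_algHom_apply E.val (jEl E hj) P).symm

include hjb in
theorem coe_aeval_jbEl (P : Polynomial (kA A)) :
    ((aeval (jbEl A Eb hjb) P : Eb) : LaurentSeries (kA A)) = aeval (jqModC (kA A)) P :=
  (Polynomial.aeval_algHom_apply Eb.val (jbEl A Eb hjb) P).symm

include hj in
theorem aevalJ_mem (P : Polynomial Kb) : aeval (jqModC Kb) P ∈ E := by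
  rw [← coe_aeval_jEl E hj P]
  exact (aeval (jEl E hj) P).2

include hjb in
theorem aevalJb_mem (P : Polynomial (kA A)) : aeval (jqModC (kA A)) P ∈ Eb := by
  rw [← coe_aeval_jbEl A Eb hjb P]
  exact (aeval (jbEl A Eb hjb) P).2

include hj hjb in
/-- a polynomial in `j` over `A` with nonzero reduction is a good series -/
theorem isGood_aevalJ (P : Polynomial A) (hP : P.map (IsLocalRing.residue A) ≠ 0) :
    IsGood A E Eb (aeval (jqModC A) P) := by
  refine ⟨?_, ?_, ?_⟩
  · rw [incl_aevalJ]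
    exact aevalJ_mem E hj _
  · rw [red_aevalJ]
    exact aevalJb_mem A Eb hjb _
  · rw [red_aevalJ]
    exact Fermat.Agent.P2.helper44.aeval_jqModC_ne_zero _ hP

include hj in
theorem transcendental_jEl : Transcendental Kb (jEl E hj) := by
  rw [transcendental_iff_injective]
  intro P Q h
  apply Fermat.Agent.P2.helper44.aeval_jqModC_injective (R := Kb)
  have := congrArg (fun f : E => (f : LaurentSeries Kb)) h
  simpa only [coe_aeval_jEl E hj] using this

include hjb in
theorem transcendental_jbEl : Transcendental (kA A) (jbEl A Eb hjb) := by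
  rw [transcendental_iff_injective]
  intro P Q h
  apply Fermat.Agent.P2.helper44.aeval_jqModC_injective (R := kA A)
  have := congrArg (fun f : Eb => (f : LaurentSeries (kA A))) h
  simpa only [coe_aeval_jbEl A Eb hjb] using this

/-- **Gauss scaling** of a polynomial over `ℚ̄` -/
theorem exists_prim (P : Polynomial Kb) (hP : P ≠ 0) :
    ∃ (c : Kb) (P₁ : Polynomial A) (i : ℕ), c ≠ 0 ∧ P = C c * P₁.map A.subtype ∧
      P₁.coeff i = 1 := by
  obtain ⟨b, hb, hQ⟩ := IsLocalization.integerNormalization_spec (nonZeroDivisors A) P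
  set Q := IsLocalization.integerNormalization (nonZeroDivisors A) P with hQdef
  have hb0 : b ≠ 0 := nonZeroDivisors.ne_zero hb
  have hQ0 : Q ≠ 0 := by
    rw [hQdef, Ne, IsFractionRing.integerNormalization_eq_zero_iff]
    exact hP
  have hQ' : Q.map A.subtype = C (b : Kb) * P := by
    have : Q.map (algebraMap A Kb) = b • P := hQ
    rw [Algebra.smul_def] at this
    exact this
  obtain ⟨c, Q₁, i, hc, hQ₁, hi⟩ := Fermat.Agent.P2.helper81.exists_scale₁ Q hQ0
  have hbK : (b : Kb) ≠ 0 := fun h0 => hb0 (Subtype.ext h0)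
  have hcK : (c : Kb) ≠ 0 := fun h0 => hc (Subtype.ext h0)
  refine ⟨(c : Kb) / (b : Kb), Q₁, i, div_ne_zero hcK hbK, ?_, hi⟩
  have hCb : (C (b : Kb) : Polynomial Kb) ≠ 0 := by
    rw [Ne, Polynomial.C_eq_zero]; exact hbK
  apply mul_left_cancel₀ hCb
  rw [← hQ', hQ₁, Polynomial.map_mul, Polynomial.map_C, ← mul_assoc, ← C_mul]
  congr 2
  show ((c : A) : Kb) = (b : Kb) * ((c : Kb) / (b : Kb))
  field_simp


/-- normal form of a nonzero rational function of `j`: `h = a R₁(j) / S₁(j)` or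
`h⁻¹ = a S₁(j) / R₁(j)` with `a ∈ A` (not a unit in the second case) and `R₁, S₁ ∈ A[X]` with
nonzero reductions. -/
theorem exists_ratJ (h : E) (hh : h ∈ Kb⟮jEl E hj⟯) (h0 : h ≠ 0) :
    ∃ (a : A) (R₁ S₁ : Polynomial A), a ≠ 0 ∧ R₁.map (IsLocalRing.residue A) ≠ 0 ∧
      S₁.map (IsLocalRing.residue A) ≠ 0 ∧
      ((h : LaurentSeries Kb) * incl A (aeval (jqModC A) S₁) =
          incl A (algebraMap A (LaurentSeries A) a * aeval (jqModC A) R₁) ∨
        ((h : LaurentSeries Kb) * incl A (algebraMap A (LaurentSeries A) a * aeval (jqModC A) S₁) =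
          incl A (aeval (jqModC A) R₁) ∧ ¬ IsUnit a)) := by
  obtain ⟨r, s, hrs⟩ := (IntermediateField.mem_adjoin_simple_iff Kb h).mp hh
  have hs0 : aeval (jEl E hj) s ≠ 0 := by
    intro h1
    rw [h1, div_zero] at hrs
    exact h0 hrs
  have hr0 : aeval (jEl E hj) r ≠ 0 := by
    intro h1
    rw [h1, zero_div] at hrs
    exact h0 hrs
  have hr : r ≠ 0 := fun h1 => hr0 (by rw [h1, map_zero])
  have hs : s ≠ 0 := fun h1 => hs0 (by rw [h1, map_zero])
  obtain ⟨cr, R₁, i, hcr, hR₁, hi⟩ := exists_prim A r hr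
  obtain ⟨cs, S₁, k, hcs, hS₁, hk⟩ := exists_prim A s hs
  have hR₁0 : R₁.map (IsLocalRing.residue A) ≠ 0 :=
    Fermat.Agent.P2.helper81.map_ne_zero_of_coeff_eq_one _ R₁ i hi
  have hS₁0 : S₁.map (IsLocalRing.residue A) ≠ 0 :=
    Fermat.Agent.P2.helper81.map_ne_zero_of_coeff_eq_one _ S₁ k hk
  -- the relation in Laurent series
  have hrel : (h : LaurentSeries Kb) * aeval (jqModC Kb) s = aeval (jqModC Kb) r := by
    have h1 : h * aeval (jEl E hj) s = aeval (jEl E hj) r := by
      rw [hrs, div_mul_cancel₀ _ hs0]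
    have h2 := congrArg (fun f : E => (f : LaurentSeries Kb)) h1
    simp only [MulMemClass.coe_mul, coe_aeval_jEl E hj] at h2
    exact h2
  rw [hR₁, hS₁, map_mul, map_mul, aeval_C, aeval_C, ← incl_aevalJ, ← incl_aevalJ] at hrel
  have hcsL : algebraMap Kb (LaurentSeries Kb) cs ≠ 0 := by
    rw [Ne, map_eq_zero]; exact hcs
  have hcrL : algebraMap Kb (LaurentSeries Kb) cr ≠ 0 := by
    rw [Ne, map_eq_zero]; exact hcr
  rcases A.mem_or_inv_mem (cr / cs) with hc | hc
  · refine ⟨⟨cr / cs, hc⟩, R₁, S₁, ?_, hR₁0, hS₁0, Or.inl ?_⟩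
    · intro h1
      have := congrArg Subtype.val h1
      exact div_ne_zero hcr hcs this
    · rw [map_mul, incl_algebraMapA]
      show _ = algebraMap Kb (LaurentSeries Kb) (cr / cs) * _
      apply mul_left_cancel₀ hcsL
      rw [← mul_assoc, ← mul_assoc, ← map_mul, mul_div_cancel₀ _ hcs, ← hrel]
      ring
  · have hcinv : (cr / cs)⁻¹ = cs / cr := inv_div cr cs
    rw [hcinv] at hc
    by_cases hu : IsUnit (⟨cs / cr, hc⟩ : A)
    · -- then `cr / cs ∈ A`
      obtain ⟨v, hv⟩ := hu
      have hmem : cr / cs ∈ A := by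
        have h1 : (((v⁻¹ : Aˣ) : A) : Kb) = cr / cs := by
          have h2 : ((v⁻¹ : Aˣ) : A) * (v : A) = 1 := Units.inv_mul v
          have h3 := congrArg Subtype.val h2
          rw [hv] at h3
          have h4 : (((v⁻¹ : Aˣ) : A) : Kb) * (cs / cr) = 1 := h3
          field_simp at h4 ⊢
          linear_combination h4
        rw [← h1]
        exact ((v⁻¹ : Aˣ) : A).2
      refine ⟨⟨cr / cs, hmem⟩, R₁, S₁, ?_, hR₁0, hS₁0, Or.inl ?_⟩
      · intro h1
        have := congrArg Subtype.val h1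
        exact div_ne_zero hcr hcs this
      · rw [map_mul, incl_algebraMapA]
        show _ = algebraMap Kb (LaurentSeries Kb) (cr / cs) * _
        apply mul_left_cancel₀ hcsL
        rw [← mul_assoc, ← mul_assoc, ← map_mul, mul_div_cancel₀ _ hcs, ← hrel]
        ring
    · refine ⟨⟨cs / cr, hc⟩, R₁, S₁, ?_, hR₁0, hS₁0, Or.inr ⟨?_, hu⟩⟩
      · intro h1
        have := congrArg Subtype.val h1
        exact div_ne_zero hcs hcr this
      · rw [map_mul, incl_algebraMapA]
        show _ * (algebraMap Kb (LaurentSeries Kb) (cs / cr) * _) = _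
        apply mul_left_cancel₀ hcrL
        rw [← hrel]
        have h5 : algebraMap Kb (LaurentSeries Kb) cr * algebraMap Kb (LaurentSeries Kb) (cs / cr)
            = algebraMap Kb (LaurentSeries Kb) cs := by
          rw [← map_mul, mul_div_cancel₀ _ hcr]
        calc algebraMap Kb (LaurentSeries Kb) cr *
              ((h : LaurentSeries Kb) * (algebraMap Kb (LaurentSeries Kb) (cs / cr) *
                incl A (aeval (jqModC A) S₁)))
            = (h : LaurentSeries Kb) * ((algebraMap Kb (LaurentSeries Kb) cr *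
                algebraMap Kb (LaurentSeries Kb) (cs / cr)) * incl A (aeval (jqModC A) S₁)) := by
              ring
          _ = _ := by rw [h5]

lemma residue_eq_zero_of_not_isUnit {u : A} (hu : ¬ IsUnit u) : IsLocalRing.residue A u = 0 :=
  (IsLocalRing.residue_eq_zero_iff u).mpr ((IsLocalRing.mem_maximalIdeal u).mpr hu)

lemma residue_ne_zero_of_isUnit {u : A} (hu : IsUnit u) : IsLocalRing.residue A u ≠ 0 := by
  intro h
  exact ((IsLocalRing.mem_maximalIdeal u).mp ((IsLocalRing.residue_eq_zero_iff u).mp h)) hu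

include hj hjb in
theorem isGood_unit_mul (a : A) (ha : IsUnit a) {Y : LaurentSeries A} (hY : IsGood A E Eb Y) :
    IsGood A E Eb (algebraMap A (LaurentSeries A) a * Y) := by
  refine ⟨?_, ?_, ?_⟩
  · rw [map_mul, incl_algebraMapA]
    exact mul_mem (E.algebraMap_mem _) hY.1
  · rw [map_mul, red_algebraMapA]
    exact mul_mem (Eb.algebraMap_mem _) hY.2.1
  · rw [map_mul, red_algebraMapA]
    refine mul_ne_zero ?_ hY.2.2
    rw [Ne, map_eq_zero]
    exact residue_ne_zero_of_isUnit A ha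

theorem incl_mem_of_mul (a : A) {Y : LaurentSeries A} (hY : incl A Y ∈ E) :
    incl A (algebraMap A (LaurentSeries A) a * Y) ∈ E := by
  rw [map_mul, incl_algebraMapA]
  exact mul_mem (E.algebraMap_mem _) hY

include hj hjb in
/-- on `ℚ̄(j)` the ring `wRing` is a valuation ring -/
theorem val_ratJ (h : E) (hh : h ∈ Kb⟮jEl E hj⟯) : h ∈ wRing A E Eb ∨ h⁻¹ ∈ wRing A E Eb := by
  by_cases h0 : h = 0
  · left
    rw [h0]
    exact (wRing A E Eb).zero_mem
  have hL : (h : LaurentSeries Kb) ≠ 0 := fun h1 => h0 (Subtype.ext h1)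
  obtain ⟨a, R₁, S₁, ha, hR, hS, h1 | ⟨h1, -⟩⟩ := exists_ratJ A E hj h hh h0
  · left
    exact ⟨_, _, incl_mem_of_mul A E a (isGood_aevalJ A E Eb hj hjb R₁ hR).1,
      isGood_aevalJ A E Eb hj hjb S₁ hS, h1.symm⟩
  · right
    refine ⟨_, _, incl_mem_of_mul A E a (isGood_aevalJ A E Eb hj hjb S₁ hS).1,
      isGood_aevalJ A E Eb hj hjb R₁ hR, ?_⟩
    rw [← h1]
    push_cast
    field_simp

include hj hjb in
/-- the kernel of `wRed` on `ℚ̄(j)` is the maximal ideal -/
theorem ker_ratJ (h : E) (hh : h ∈ Kb⟮jEl E hj⟯) (hw : h ∈ wRing A E Eb)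
    (hinv : h⁻¹ ∉ wRing A E Eb) : wRed A E Eb ⟨h, hw⟩ = 0 := by
  by_cases h0 : h = 0
  · have : (⟨h, hw⟩ : wRing A E Eb) = 0 := Subtype.ext h0
    rw [this, map_zero]
  have hL : (h : LaurentSeries Kb) ≠ 0 := fun h1 => h0 (Subtype.ext h1)
  obtain ⟨a, R₁, S₁, ha, hR, hS, h1 | ⟨h1, -⟩⟩ := exists_ratJ A E hj h hh h0
  · by_cases hu : IsUnit a
    · exfalso
      apply hinv
      refine ⟨_, _, (isGood_aevalJ A E Eb hj hjb S₁ hS).1,
        isGood_unit_mul A E Eb hj hjb a hu (isGood_aevalJ A E Eb hj hjb R₁ hR), ?_⟩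
      rw [← h1]
      push_cast
      field_simp
    · rw [wRed_eq A E Eb h hw _ _ (isGood_aevalJ A E Eb hj hjb S₁ hS).2.2 h1.symm, map_mul,
        red_algebraMapA, residue_eq_zero_of_not_isUnit A hu, map_zero, zero_mul, zero_div]
  · exfalso
    apply hinv
    refine ⟨_, _, incl_mem_of_mul A E a (isGood_aevalJ A E Eb hj hjb S₁ hS).1,
      isGood_aevalJ A E Eb hj hjb R₁ hR, ?_⟩
    rw [← h1]
    push_cast
    field_simp

include hj hjb in
/-- the reduction of a `w`-integral rational function of `j` is a rational function of `j̃` -/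
theorem wRed_ratJ (h : E) (hh : h ∈ Kb⟮jEl E hj⟯) (hw : h ∈ wRing A E Eb) :
    ∃ r : (kA A)⟮jbEl A Eb hjb⟯,
      ((algebraMap (kA A)⟮jbEl A Eb hjb⟯ Eb r : Eb) : LaurentSeries (kA A)) =
        wRed A E Eb ⟨h, hw⟩ := by
  by_cases h0 : h = 0
  · refine ⟨0, ?_⟩
    have : (⟨h, hw⟩ : wRing A E Eb) = 0 := Subtype.ext h0
    rw [this, map_zero, map_zero]
    rfl
  have hL : (h : LaurentSeries Kb) ≠ 0 := fun h1 => h0 (Subtype.ext h1)
  obtain ⟨a, R₁, S₁, ha, hR, hS, h1 | ⟨h1, hu⟩⟩ := exists_ratJ A E hj h hh h0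
  · rw [wRed_eq A E Eb h hw _ _ (isGood_aevalJ A E Eb hj hjb S₁ hS).2.2 h1.symm, map_mul,
      red_algebraMapA, red_aevalJ, red_aevalJ]
    refine ⟨algebraMap (kA A) _ (IsLocalRing.residue A a) *
      aeval (AdjoinSimple.gen (kA A) (jbEl A Eb hjb)) (R₁.map (IsLocalRing.residue A)) /
      aeval (AdjoinSimple.gen (kA A) (jbEl A Eb hjb)) (S₁.map (IsLocalRing.residue A)), ?_⟩
    rw [map_div₀, map_mul, ← Polynomial.aeval_algebraMap_apply,
      ← Polynomial.aeval_algebraMap_apply, AdjoinSimple.algebraMap_gen,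
      ← IsScalarTower.algebraMap_apply]
    have e := map_div₀ Eb.val (algebraMap (kA A) Eb (IsLocalRing.residue A a) *
      aeval (jbEl A Eb hjb) (R₁.map (IsLocalRing.residue A)))
      (aeval (jbEl A Eb hjb) (S₁.map (IsLocalRing.residue A)))
    rw [map_mul] at e
    simp only [IntermediateField.coe_val, coe_aeval_jbEl A Eb hjb] at e
    rw [e]
    rfl
  · exfalso
    have hinv : h⁻¹ ∈ wRing A E Eb := by
      refine ⟨_, _, incl_mem_of_mul A E a (isGood_aevalJ A E Eb hj hjb S₁ hS).1,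
        isGood_aevalJ A E Eb hj hjb R₁ hR, ?_⟩
      rw [← h1]
      push_cast
      field_simp
    have hred : wRed A E Eb ⟨h⁻¹, hinv⟩ = 0 := by
      rw [wRed_eq A E Eb h⁻¹ hinv (algebraMap A (LaurentSeries A) a * aeval (jqModC A) S₁)
        (aeval (jqModC A) R₁) (isGood_aevalJ A E Eb hj hjb R₁ hR).2.2
        (by rw [← h1]; push_cast; field_simp), map_mul,
        red_algebraMapA, residue_eq_zero_of_not_isUnit A hu, map_zero, zero_mul, zero_div]
    have hone : (⟨h, hw⟩ : wRing A E Eb) * ⟨h⁻¹, hinv⟩ = 1 :=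
      Subtype.ext (mul_inv_cancel₀ h0)
    have := congrArg (wRed A E Eb) hone
    rw [map_mul, hred, mul_zero, map_one] at this
    exact zero_ne_one this

include hj hjb in
/-- **content**: a polynomial in `j` over `ℚ̄` which is `w`-integral has coefficients in `A` -/
theorem exists_poly_of_isWInt (P : Polynomial Kb)
    (hw : IsWInt A E Eb (aeval (jqModC Kb) P)) :
    ∃ p : Polynomial A, p.map A.subtype = P := by
  by_cases hP : P = 0
  · exact ⟨0, by rw [hP, Polynomial.map_zero]⟩
  obtain ⟨c, P₁, i, hc, hP₁, hi⟩ := exists_prim A P hP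
  have hP₁0 : P₁.map (IsLocalRing.residue A) ≠ 0 :=
    Fermat.Agent.P2.helper81.map_ne_zero_of_coeff_eq_one _ P₁ i hi
  rcases A.mem_or_inv_mem c with hcA | hcA
  · refine ⟨C (⟨c, hcA⟩ : A) * P₁, ?_⟩
    rw [Polynomial.map_mul, Polynomial.map_C, hP₁]
    rfl
  · by_cases hu : IsUnit (⟨c⁻¹, hcA⟩ : A)
    · obtain ⟨v, hv⟩ := hu
      have h1 : (((v⁻¹ : Aˣ) : A) : Kb) = c := by
        have h2 : ((v⁻¹ : Aˣ) : A) * (v : A) = 1 := Units.inv_mul v
        have h3 := congrArg Subtype.val h2
        rw [hv] at h3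
        have h4 : (((v⁻¹ : Aˣ) : A) : Kb) * c⁻¹ = 1 := h3
        field_simp at h4
        exact h4
      refine ⟨C ((v⁻¹ : Aˣ) : A) * P₁, ?_⟩
      rw [Polynomial.map_mul, Polynomial.map_C, hP₁]
      congr 2
    · exfalso
      obtain ⟨Y₁, Y₂, hY₁, hY₂, hY⟩ := hw
      have h3 : algebraMap A (LaurentSeries A) (⟨c⁻¹, hcA⟩ : A) * Y₁ =
          aeval (jqModC A) P₁ * Y₂ := by
        apply incl_injective A
        rw [map_mul, map_mul, incl_algebraMapA, hY, incl_aevalJ, hP₁, map_mul, aeval_C]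
        show algebraMap Kb (LaurentSeries Kb) c⁻¹ * _ = _
        rw [← mul_assoc, ← mul_assoc, ← map_mul, inv_mul_cancel₀ hc, map_one, one_mul]
      have h4 := congrArg (red A) h3
      rw [map_mul, map_mul, red_algebraMapA, residue_eq_zero_of_not_isUnit A hu, map_zero,
        zero_mul] at h4
      rcases mul_eq_zero.mp h4.symm with h6 | h6
      · exact (isGood_aevalJ A E Eb hj hjb P₁ hP₁0).2.2 h6
      · exact hY₂.2.2 h6

end Gauss

end Fermat.Agent.T4.helper9

end
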