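/-
T4 block (I), I-RED [ROOT] (helper9, row 1142), part 3: **[ROOT-V]** for a GENERIC pair `(E, Eb)`
of `helper4_RedDefs` (port of P2 `helper50_RootV`; the abstract part `helper50_RootVAbs` is
imported unchanged).

* `vJ` : the Gauss valuation ring of `ℚ̄(j)`;
* `OrthLiftStatement A E Eb hj hjb` : **[ORTH]**, the only input: `n = [E : ℚ̄(j)]` `w`-integral
  functions whose reductions are elements of `Eb` linearly independent over `k(j̃)`
  (follows from `DegStatement` + "`Eb` is generated by reductions", see `helper9_Root1Orth`);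
* `linearIndependent_of_lift`, `orthData_of_lift` : such lifts form an orthonormal basis;
* `RootVStatement A E hj` : the statement (P2 `helper50.RootVStatement` for `E = FF M`);
* `rootV_of_orthData`, `rootV_of_orthLift` : the theorem.
-/
import Mathlib
import Fermat.Agent.T4.helper9_Root1Gauss
import Fermat.Agent.P2.helper50_RootVAbs
import Fermat.Agent.S24.helper75_FFCore

set_option autoImplicit false
set_option linter.style.haveILetI false
set_option linter.unusedSectionVars false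
set_option linter.unusedVariables false
set_option linter.style.longLine false

open ModularCurve Polynomial IntermediateField
open scoped IntermediateField.algebraAdjoinAdjoin

noncomputable section

namespace Fermat.Agent.T4.helper9

open Fermat.Agent.S18.helper19 (Kb kA)
open Fermat.Agent.P2.helper29 (incl red)
open Fermat.Agent.T4.helper4 (IsGood IsWInt jEl jbEl)
open Fermat.Agent.P2.helper50 (OrthData)

section Orth

variable (A : ValuationSubring Kb) (E : IntermediateField Kb (LaurentSeries Kb))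
  (Eb : IntermediateField (kA A) (LaurentSeries (kA A)))
  (hj : jqModC Kb ∈ E) (hjb : jqModC (kA A) ∈ Eb)

/-- the Gauss valuation ring of `ℚ̄(j)` -/
def vJ : ValuationSubring Kb⟮jEl E hj⟯ where
  toSubring := (wRing A E Eb).comap (algebraMap Kb⟮jEl E hj⟯ E)
  mem_or_inv_mem' := fun h => by
    have := val_ratJ A E Eb hj hjb (algebraMap Kb⟮jEl E hj⟯ E h) h.2
    rwa [← map_inv₀] at this

theorem mem_vJ {h : Kb⟮jEl E hj⟯} :
    h ∈ vJ A E Eb hj hjb ↔ algebraMap Kb⟮jEl E hj⟯ E h ∈ wRing A E Eb := Iff.rfl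

/-- **[ORTH]**, the input of [ROOT-V] for a generic pair: `n = [E : ℚ̄(j)]` functions of `E`,
`w`-integral, whose reductions are elements of `Eb` linearly independent over `k(j̃)`. -/
def OrthLiftStatement : Prop :=
  ∃ (f : Fin (Module.finrank Kb⟮jEl E hj⟯ E) → wRing A E Eb)
    (y : Fin (Module.finrank Kb⟮jEl E hj⟯ E) → Eb),
    (∀ i, ((y i : Eb) : LaurentSeries (kA A)) = wRed A E Eb (f i)) ∧
    LinearIndependent (kA A)⟮jbEl A Eb hjb⟯ y

variable {n : ℕ} (f : Fin n → wRing A E Eb) (y : Fin n → Eb)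
  (hy : ∀ i, ((y i : Eb) : LaurentSeries (kA A)) = wRed A E Eb (f i))
  (hli : LinearIndependent (kA A)⟮jbEl A Eb hjb⟯ y)

include hy hli in
theorem li_aux (c : Fin n → Kb⟮jEl E hj⟯)
    (hc : ∀ i, algebraMap Kb⟮jEl E hj⟯ E (c i) ∈ wRing A E Eb)
    (h0 : ∑ i, wRed A E Eb ⟨algebraMap Kb⟮jEl E hj⟯ E (c i), hc i⟩ * wRed A E Eb (f i) = 0)
    (i : Fin n) : wRed A E Eb ⟨algebraMap Kb⟮jEl E hj⟯ E (c i), hc i⟩ = 0 := by
  choose r hr using fun i =>
    wRed_ratJ A E Eb hj hjb (algebraMap Kb⟮jEl E hj⟯ E (c i)) (c i).2 (hc i)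
  have h1 : ∑ i, r i • y i = 0 := by
    apply Subtype.ext
    have e : ((∑ i, r i • y i : Eb) : LaurentSeries (kA A)) =
        ∑ i, ((algebraMap (kA A)⟮jbEl A Eb hjb⟯ Eb (r i) : Eb) : LaurentSeries (kA A)) *
          ((y i : Eb) : LaurentSeries (kA A)) := by
      have := map_sum Eb.val (fun i => r i • y i) Finset.univ
      rw [IntermediateField.coe_val] at this
      rw [this]
      refine Finset.sum_congr rfl fun k _ => ?_
      rw [Algebra.smul_def]
      rfl
    rw [e]
    simp_rw [hr, hy]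
    exact h0
  have h2 := (Fintype.linearIndependent_iff.mp hli) r h1 i
  rw [← hr i, h2, map_zero]
  rfl

include hy hli in
/-- lifts of a `k(j̃)`-independent family are `ℚ̄(j)`-independent -/
theorem linearIndependent_of_lift :
    LinearIndependent Kb⟮jEl E hj⟯ (fun i => ((f i : wRing A E Eb) : E)) := by
  classical
  rw [Fintype.linearIndependent_iff]
  intro c hsum
  by_contra hne
  obtain ⟨i, hi⟩ := not_forall.mp hne
  set V := vJ A E Eb hj hjb with hV
  obtain ⟨i₀, -, hmax⟩ := Finset.exists_max_image (Finset.univ : Finset (Fin n))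
    (fun k => V.valuation (c k)) ⟨i, Finset.mem_univ i⟩
  have hc0 : c i₀ ≠ 0 := by
    intro h
    have h1 := hmax i (Finset.mem_univ i)
    simp only [h, map_zero] at h1
    exact hi ((Valuation.zero_iff _).mp (le_antisymm h1 zero_le))
  have hv0 : V.valuation (c i₀) ≠ 0 := (Valuation.ne_zero_iff _).2 hc0
  have hdiv : ∀ k, algebraMap Kb⟮jEl E hj⟯ E ((c i₀)⁻¹ * c k) ∈ wRing A E Eb := by
    intro k
    change (c i₀)⁻¹ * c k ∈ V
    rw [← V.valuation_le_one_iff, map_mul, map_inv₀, inv_mul_le_iff₀ (zero_lt_iff.2 hv0),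
      mul_one]
    exact hmax k (Finset.mem_univ k)
  have hsum' : ∑ k, (⟨algebraMap Kb⟮jEl E hj⟯ E ((c i₀)⁻¹ * c k), hdiv k⟩ : wRing A E Eb) * f k
      = 0 := by
    apply Subtype.ext
    have e := map_sum (wRing A E Eb).subtype
      (fun k => (⟨algebraMap Kb⟮jEl E hj⟯ E ((c i₀)⁻¹ * c k), hdiv k⟩ : wRing A E Eb) * f k)
      Finset.univ
    rw [Subring.coe_subtype] at e
    rw [e]
    have e2 : ∀ k, (((⟨algebraMap Kb⟮jEl E hj⟯ E ((c i₀)⁻¹ * c k), hdiv k⟩ : wRing A E Eb) *
        f k : wRing A E Eb) : E) =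
        algebraMap Kb⟮jEl E hj⟯ E (c i₀)⁻¹ * (c k • ((f k : wRing A E Eb) : E)) := by
      intro k
      rw [Algebra.smul_def, ← mul_assoc, ← map_mul]
      rfl
    simp_rw [e2]
    rw [← Finset.mul_sum, hsum, mul_zero]
    rfl
  have h0 := congrArg (wRed A E Eb) hsum'
  rw [map_sum, map_zero] at h0
  simp_rw [map_mul] at h0
  have h3 := li_aux A E Eb hj hjb f y hy hli (fun k => (c i₀)⁻¹ * c k) hdiv h0 i₀
  have e1 : (⟨algebraMap Kb⟮jEl E hj⟯ E ((c i₀)⁻¹ * c i₀), hdiv i₀⟩ : wRing A E Eb) = 1 := by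
    apply Subtype.ext
    show algebraMap Kb⟮jEl E hj⟯ E ((c i₀)⁻¹ * c i₀) = 1
    rw [inv_mul_cancel₀ hc0, map_one]
  rw [e1, map_one] at h3
  exact one_ne_zero h3

include hy hli in
/-- the abstract hypotheses of orthonormality hold for a basis of lifts -/
theorem orthData_of_lift (b : Module.Basis (Fin n) Kb⟮jEl E hj⟯ E)
    (hb : ∀ i, b i = ((f i : wRing A E Eb) : E)) :
    OrthData (wRing A E Eb) (wRed A E Eb) b where
  val h := by
    have := val_ratJ A E Eb hj hjb (algebraMap Kb⟮jEl E hj⟯ E h) h.2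
    rwa [← map_inv₀] at this
  ker h hh hinv := by
    refine ker_ratJ A E Eb hj hjb (algebraMap Kb⟮jEl E hj⟯ E h) h.2 hh ?_
    rwa [← map_inv₀]
  mem i := by
    rw [hb i]
    exact (f i).2
  li c hc h0 i := by
    refine li_aux A E Eb hj hjb f y hy hli c hc ?_ i
    rw [← h0]
    refine Finset.sum_congr rfl fun k _ => ?_
    congr 2
    exact Subtype.ext (hb k).symm

end Orth

section Main

open Fermat.Agent.P2.helper50 (charpoly_coeff_mem_of_isIntegral aeval_charpoly_leftMulMatrix
  norm_eq_sign_charpoly_coeff)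

variable (A : ValuationSubring Kb) (E : IntermediateField Kb (LaurentSeries Kb))
  (Eb : IntermediateField (kA A) (LaurentSeries (kA A)))
  (hj : jqModC Kb ∈ E) (hjb : jqModC (kA A) ∈ Eb)

/-- **[ROOT-V]** for a generic field `E ∋ j` (P2 `helper50.RootVStatement` for `E = FF M`):
for an integral series `H` which lies in `E`, is integral over `ℚ̄[j]` and reduces to `1`, the
norm `N_{E/ℚ̄(j)}(H)` is `N₀(j)` for a polynomial `N₀ ∈ A[X]` with `N₀ ≡ 1` modulo the maximal
ideal, and `U = N₀(j) / H` is an integral series with reduction `1`. -/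
def RootVStatement : Prop :=
  ∀ (H : LaurentSeries A) (hH : incl A H ∈ E),
    IsIntegral (Algebra.adjoin Kb {jEl E hj}) (⟨incl A H, hH⟩ : E) → red A H = 1 →
    ∃ (N₀ : Polynomial A) (U : LaurentSeries A),
      N₀.map (IsLocalRing.residue A) = 1 ∧
      ((algebraMap Kb⟮jEl E hj⟯ E (Algebra.norm Kb⟮jEl E hj⟯ (⟨incl A H, hH⟩ : E)) : E) :
          LaurentSeries Kb) = incl A (aeval (jqModC A) N₀) ∧
      U * H = aeval (jqModC A) N₀ ∧ red A U = 1

/-- `ℚ̄[j]` is integrally closed in `ℚ̄(j)` -/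
theorem exists_of_isIntegral_adjoin (x' : Kb⟮jEl E hj⟯)
    (hx : IsIntegral (Algebra.adjoin Kb {jEl E hj}) x') :
    ∃ r : Algebra.adjoin Kb {jEl E hj}, algebraMap _ Kb⟮jEl E hj⟯ r = x' :=
  IsIntegrallyClosed.isIntegral_iff.mp hx

variable {n : ℕ} (b : Module.Basis (Fin n) Kb⟮jEl E hj⟯ E)
  (D : OrthData (wRing A E Eb) (wRed A E Eb) b)

include hjb in
/-- the coefficients of the characteristic polynomial of an integral `w`-integral function are
polynomials in `j` with coefficients in `A` -/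
theorem exists_poly_charpoly_coeff (Hf : E)
    (hint : IsIntegral (Algebra.adjoin Kb {jEl E hj}) Hf)
    (χ' : Polynomial D.valSubring.toSubring)
    (hχ' : χ'.map D.valSubring.toSubring.subtype = (Algebra.leftMulMatrix b Hf).charpoly)
    (i : ℕ) :
    ∃ p : Polynomial A,
      ((algebraMap Kb⟮jEl E hj⟯ E ((Algebra.leftMulMatrix b Hf).charpoly.coeff i) : E) :
        LaurentSeries Kb) = incl A (aeval (jqModC A) p) := by
  obtain ⟨r, hr⟩ := charpoly_coeff_mem_of_isIntegral Kb b
    (exists_of_isIntegral_adjoin E hj) hint i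
  have hrF : ∀ y : E, y ∈ Algebra.adjoin Kb {jEl E hj} → ∃ P : Polynomial Kb,
      aeval (jEl E hj) P = y := by
    intro y hy
    rw [Algebra.adjoin_singleton_eq_range_aeval] at hy
    exact hy
  obtain ⟨P, hP⟩ := hrF r r.2
  have h1 : algebraMap Kb⟮jEl E hj⟯ E ((Algebra.leftMulMatrix b Hf).charpoly.coeff i) =
      aeval (jEl E hj) P := by
    rw [← hr, hP]
    rfl
  have hw : IsWInt A E Eb (aeval (jqModC Kb) P) := by
    rw [← coe_aeval_jEl E hj, ← h1, ← hχ', Polynomial.coeff_map]
    exact (χ'.coeff i).2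
  obtain ⟨p, hp⟩ := exists_poly_of_isWInt A E Eb hj hjb P hw
  refine ⟨p, ?_⟩
  rw [h1, coe_aeval_jEl E hj, incl_aevalJ, hp]

include hjb D in
/-- **[ROOT-V]** from an orthonormal basis. -/
theorem rootV_of_orthData : RootVStatement A E hj := by
  classical
  intro H hH hint hred
  set Hf : E := ⟨incl A H, hH⟩ with hHf
  have hvH : ((Hf : E) : LaurentSeries Kb) = incl A H := rfl
  have hHw : Hf ∈ wRing A E Eb := mem_wRing_of_incl A E Eb Hf H rfl
  have hH1 : wRed A E Eb ⟨Hf, hHw⟩ = 1 := by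
    rw [wRed_of_incl A E Eb Hf H rfl]
    exact hred
  obtain ⟨χ', hχ', hχ1⟩ := D.exists_charpoly hHw hH1
  set χ := (Algebra.leftMulMatrix b Hf).charpoly with hχ
  have hcoef := exists_poly_charpoly_coeff A E Eb hj hjb b D Hf hint χ' hχ'
  choose p hp using hcoef
  have hdegχ : χ.natDegree = n := by
    rw [hχ, Matrix.charpoly_natDegree_eq_dim, Fintype.card_fin]
  -- Cayley-Hamilton
  have hCH : ∑ i ∈ Finset.range (n + 1), aeval (jqModC A) (p i) * H ^ i = 0 := by
    apply incl_injective A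
    have h1 := aeval_charpoly_leftMulMatrix b Hf
    rw [← hχ, Polynomial.aeval_eq_sum_range, hdegχ] at h1
    have h2 := congrArg E.val h1
    rw [map_sum, map_zero] at h2
    rw [map_sum, map_zero, ← h2]
    refine Finset.sum_congr rfl fun i _ => ?_
    rw [Algebra.smul_def, map_mul, map_mul, map_pow, map_pow]
    show _ = ((algebraMap Kb⟮jEl E hj⟯ E (χ.coeff i) : E) : LaurentSeries Kb) * _
    rw [hp i]
    rfl
  rw [Finset.sum_range_succ', pow_zero, mul_one] at hCH
  -- the reduction of the constant coefficient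
  have hmem0 : algebraMap Kb⟮jEl E hj⟯ E (χ.coeff 0) ∈ wRing A E Eb := by
    rw [← hχ', Polynomial.coeff_map]
    exact (χ'.coeff 0).2
  have hp0 : (p 0).map (IsLocalRing.residue A) = (-1) ^ n := by
    have h1 : wRed A E Eb ⟨algebraMap Kb⟮jEl E hj⟯ E (χ.coeff 0), hmem0⟩ = (-1) ^ n := by
      have h2 : (χ'.map D.rE).coeff 0 = (-1) ^ n := by
        rw [hχ1, Fintype.card_fin, Polynomial.coeff_zero_eq_eval_zero, Polynomial.eval_pow,
          Polynomial.eval_sub, Polynomial.eval_X, Polynomial.eval_one, zero_sub]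
      rw [Polynomial.coeff_map, OrthData.rE_apply] at h2
      rw [← h2]
      congr 2
      rw [← hχ', Polynomial.coeff_map]
      rfl
    have h3 : wRed A E Eb ⟨algebraMap Kb⟮jEl E hj⟯ E (χ.coeff 0), hmem0⟩ =
        red A (aeval (jqModC A) (p 0)) := by
      rw [← wRed_of_incl A E Eb (algebraMap Kb⟮jEl E hj⟯ E (χ.coeff 0)) (aeval (jqModC A) (p 0))
        (hp 0).symm]
    rw [h3, red_aevalJ] at h1
    apply Fermat.Agent.P2.helper44.aeval_jqModC_injective (R := kA A)
    rw [h1, map_pow, map_neg, map_one]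
  have hUH : (∑ i ∈ Finset.range n, aeval (jqModC A) (p (i + 1)) * H ^ i) * H =
      - aeval (jqModC A) (p 0) := by
    rw [Finset.sum_mul, eq_neg_iff_add_eq_zero, ← hCH]
    congr 1
    refine Finset.sum_congr rfl fun i _ => ?_
    rw [pow_succ, mul_assoc]
  have h2 : ((-1) ^ (n + 1) * ∑ i ∈ Finset.range n, aeval (jqModC A) (p (i + 1)) * H ^ i) * H =
      aeval (jqModC A) ((-1) ^ n * p 0) := by
    rw [mul_assoc, hUH, map_mul, map_pow, map_neg, map_one, pow_succ]
    ring
  refine ⟨(-1) ^ n * p 0, (-1) ^ (n + 1) * ∑ i ∈ Finset.range n, aeval (jqModC A) (p (i + 1)) * H ^ i,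
    ?_, ?_, h2, ?_⟩
  · rw [Polynomial.map_mul, Polynomial.map_pow, Polynomial.map_neg, Polynomial.map_one, hp0,
      ← mul_pow, neg_one_mul, neg_neg, one_pow]
  · have h1 := norm_eq_sign_charpoly_coeff b Hf
    rw [Fintype.card_fin, ← hχ] at h1
    rw [h1, map_mul, map_pow, map_neg, map_one]
    show ((-1 : E) ^ n : E) * ((algebraMap Kb⟮jEl E hj⟯ E (χ.coeff 0) : E) : LaurentSeries Kb) = _
    rw [hp 0, map_mul, map_pow, map_neg, map_one, map_mul, map_pow, map_neg, map_one]
    rfl
  · have h3 := congrArg (red A) h2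
    rw [map_mul, hred, mul_one, red_aevalJ, Polynomial.map_mul, Polynomial.map_pow,
      Polynomial.map_neg, Polynomial.map_one, hp0, ← mul_pow, neg_one_mul, neg_neg, one_pow,
      map_one] at h3
    exact h3

include hjb in
/-- **[ROOT-V]** for a generic pair `(E, Eb)`, from the input [ORTH]. -/
theorem rootV_of_orthLift [FiniteDimensional Kb⟮jEl E hj⟯ E]
    (h : OrthLiftStatement A E Eb hj hjb) : RootVStatement A E hj := by
  obtain ⟨f, y, hy, hli⟩ := h
  have hlin := linearIndependent_of_lift A E Eb hj hjb f y hy hli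
  have hpos : 0 < Module.finrank Kb⟮jEl E hj⟯ E := Module.finrank_pos
  haveI : Nonempty (Fin (Module.finrank Kb⟮jEl E hj⟯ E)) := ⟨⟨0, hpos⟩⟩
  set b := basisOfLinearIndependentOfCardEqFinrank hlin (by rw [Fintype.card_fin]) with hb
  have hbi : ∀ i, b i = ((f i : wRing A E Eb) : E) := fun i => by
    rw [hb, coe_basisOfLinearIndependentOfCardEqFinrank]
  exact rootV_of_orthData A E Eb hj hjb b (orthData_of_lift A E Eb hj hjb f y hy hli b hbi)

end Main

end Fermat.Agent.T4.helper9

end
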