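/-
T4 block (I), I-RED [ROOT] (helper9, row 1142), part 4: **[ROOT-N]** and the assembly of **[ROOT]**
for a GENERIC pair `(E, Eb)` of `helper4_RedDefs` (port of P2 `helper98_RootN` part 3,
`helper44_RootFinal`; the generic parts of these files are imported unchanged).

* `RootNStatement E hj m`, `rootN_of` : [ROOT-N] for a field `E ∋ j` finite over `ℚ̄(j)` with a
  place at infinity;
* `rootStatement_of_rootV_rootN` : [ROOT-V] + [ROOT-N] ⟹ `helper4.RootStatement A E m`;
* `root_of` : **[ROOT]** from finiteness of `E / ℚ̄(j)`, a place at infinity and [ORTH].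
-/
import Mathlib
import Fermat.Agent.T4.helper9_Root1V
import Fermat.Agent.P2.helper98_RootN
import Fermat.Agent.P2.helper44_RootAsm

set_option autoImplicit false
set_option linter.style.haveILetI false
set_option linter.unusedSectionVars false
set_option linter.unusedVariables false
set_option linter.style.longLine false

open ModularCurve Polynomial IntermediateField AlgebraicCurve
open scoped IntermediateField.algebraAdjoinAdjoin

noncomputable section

namespace Fermat.Agent.T4.helper9

open Fermat.Agent.S18.helper19 (Kb kA)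
open Fermat.Agent.P2.helper29 (incl red IsInfty InL)
open Fermat.Agent.T4.helper4 (IsGood IsWInt jEl jbEl DivDvd RootStatement InftyStatement
  DegStatement)
open Fermat.Agent.S24.helper75 (ff_finite_poles)

section RootN

variable (E : IntermediateField Kb (LaurentSeries Kb)) (hj : jqModC Kb ∈ E)

/-- **[ROOT-N]** for a generic field `E ∋ j`, in the form consumed by the assembly of [ROOT]
(P2 `helper44.RootNStatement` for `E = FF M`). -/
def RootNStatement (m : ℕ) : Prop :=
  ∀ (H : LaurentSeries Kb) (n : ℤ) (hL : InL E n H), H ≠ 0 → DivDvd E m H →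
    IsIntegral (Algebra.adjoin Kb {jEl E hj}) (⟨H, hL.1⟩ : E) ∧
    ∃ (c : Kb) (R : Polynomial Kb),
      ((algebraMap Kb⟮jEl E hj⟯ E (Algebra.norm Kb⟮jEl E hj⟯ (⟨H, hL.1⟩ : E)) : E) :
          LaurentSeries Kb) =
        algebraMap Kb (LaurentSeries Kb) c * (Polynomial.aeval (jqModC Kb) R) ^ m ∧
      ((m * R.natDegree : ℕ) : ℤ) ≤ -H.order

include hj in
theorem order_jEl : ((jEl E hj : E) : LaurentSeries Kb).order = -1 :=
  Fermat.Agent.P2.helper29.order_jqModC Kb

include hj in
theorem jEl_ne_zero : jEl E hj ≠ 0 := by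
  intro h
  have h1 := order_jEl E hj
  rw [h] at h1
  simp at h1

/-- at a place at infinity `j` has a pole -/
theorem ord_jEl_neg_of_isInfty {P : Place Kb E} (hP : IsInfty P) : P.ord (jEl E hj) < 0 := by
  rw [hP _ (jEl_ne_zero E hj), order_jEl]
  norm_num

/-- **[ROOT-N]** for a generic function field `E ∋ j`, finite over `ℚ̄(j)`, with a place at
infinity. -/
theorem rootN_of [FiniteDimensional Kb⟮jEl E hj⟯ E] (hInf : ∃ P : Place Kb E, IsInfty P)
    (m : ℕ) (hm : m ≠ 0) : RootNStatement E hj m := by
  classical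
  intro H n hL hH0 hdiv
  obtain ⟨Pinf, hPinf⟩ := hInf
  have hx : Transcendental Kb (jEl E hj) := transcendental_jEl E hj
  obtain ⟨hf, hreg, hcoeff⟩ := hL
  set Hf : E := ⟨H, hf⟩ with hHf
  have hf0 : Hf ≠ 0 := fun h => hH0 (congrArg Subtype.val h)
  have hreg' : ∀ P : Place Kb E, 0 ≤ P.ord (jEl E hj) → 0 ≤ P.ord Hf := by
    intro P hP
    by_cases hinf : IsInfty P
    · have := ord_jEl_neg_of_isInfty E hj hinf
      omega
    · exact hreg P hinf
  refine ⟨Fermat.Agent.P2.helper98.isIntegral_of_regular (jEl E hj) hx Hf hreg', ?_⟩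
  obtain ⟨c, R, hc, hR, hN, hdeg⟩ :=
    Fermat.Agent.P2.helper98.norm_eq_const_mul_pow (jEl E hj) hx Hf hf0 hreg' m hm
      (fun P _ => hdiv hf P)
  refine ⟨c, R, ?_, ?_⟩
  · have h1 := congrArg (fun f : E => (f : LaurentSeries Kb)) hN
    simp only [MulMemClass.coe_mul, SubmonoidClass.coe_pow] at h1
    rw [coe_aeval_jEl E hj] at h1
    exact h1
  · rw [hdeg, neg_le_neg_iff]
    have hmem : Pinf ∈ (ff_finite_poles (jEl E hj) hx).toFinset := by
      rw [Set.Finite.mem_toFinset]
      exact ord_jEl_neg_of_isInfty E hj hPinf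
    have hsplit := Finset.add_sum_erase (ff_finite_poles (jEl E hj) hx).toFinset
      (fun P : Place Kb E => P.ord Hf) hmem
    have hnn : 0 ≤ ∑ P ∈ ((ff_finite_poles (jEl E hj) hx).toFinset).erase Pinf, P.ord Hf := by
      refine Finset.sum_nonneg fun P hP => ?_
      rw [Finset.mem_erase] at hP
      exact hreg P (fun h => hP.1 (Fermat.Agent.P2.helper29.IsInfty.unique _ h hPinf))
    have hord : Pinf.ord Hf = H.order := hPinf Hf hf0
    rw [← hsplit, hord]
    exact le_add_of_nonneg_right hnn

end RootN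

section Assembly

variable (A : ValuationSubring Kb) (E : IntermediateField Kb (LaurentSeries Kb))
  (Eb : IntermediateField (kA A) (LaurentSeries (kA A)))
  (hj : jqModC Kb ∈ E) (hjb : jqModC (kA A) ∈ Eb)

open Fermat.Agent.P2.helper44 (RootInput exists_root_of_rootInput)

/-- [ROOT-V] + [ROOT-N] give the input of the assembly. -/
theorem rootInput_of_rootV_rootN (m : ℕ) (hV : RootVStatement A E hj)
    (hN : RootNStatement E hj m) (H : LaurentSeries A) (n : ℤ) (hL : InL E n (incl A H))
    (hred : red A H = 1) (hdiv : DivDvd E m (incl A H)) : RootInput A m H := by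
  have hH0 : incl A H ≠ 0 := by
    intro h0
    have h1 : H = 0 := incl_injective A (by rw [h0, map_zero])
    rw [h1, map_zero] at hred
    exact zero_ne_one hred
  obtain ⟨hint, c, R, hnorm, hdeg⟩ := hN (incl A H) n hL hH0 hdiv
  obtain ⟨N₀, U, hN₀red, hN₀, hUH, hU⟩ := hV H hL.1 hint hred
  have hmap : N₀.map A.subtype = Polynomial.C c * R ^ m := by
    apply Fermat.Agent.P2.helper44.aeval_jqModC_injective (R := Kb)
    rw [← incl_aevalJ, ← hN₀, hnorm, map_mul, map_pow, Polynomial.aeval_C]
  refine ⟨N₀, c, R, U, hmap, hN₀red, hU, hUH, ?_⟩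
  have h2 : N₀.natDegree ≤ m * R.natDegree := by
    rw [← Polynomial.natDegree_map_eq_of_injective (f := A.subtype) Subtype.val_injective N₀,
      hmap]
    exact (Polynomial.natDegree_C_mul_le _ _).trans Polynomial.natDegree_pow_le
  have h3 : (N₀.natDegree : ℤ) ≤ ((m * R.natDegree : ℕ) : ℤ) := by exact_mod_cast h2
  exact h3.trans hdeg

/-- **[ROOT]** from [ROOT-V] and [ROOT-N], generic field. -/
theorem rootStatement_of_rootV_rootN (m : ℕ) (hm : IsUnit ((m : ℕ) : A))
    (hV : RootVStatement A E hj) (hN : RootNStatement E hj m) : RootStatement A E m := by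
  intro H n hL hred hdiv
  exact exists_root_of_rootInput A m hm H
    (rootInput_of_rootV_rootN A E hj m hV hN H n hL hred hdiv)

include hjb in
/-- **[ROOT]** for a generic pair `(E, Eb)` of `helper4_RedDefs`: from `j ∈ E`, `j̃ ∈ Eb`,
finiteness of `E / ℚ̄(j)`, a place at infinity of `E`, and the input [ORTH]. -/
theorem root_of [FiniteDimensional Kb⟮jEl E hj⟯ E] (hInf : ∃ P : Place Kb E, IsInfty P)
    (hO : OrthLiftStatement A E Eb hj hjb) (m : ℕ) (hm : IsUnit ((m : ℕ) : A)) :
    RootStatement A E m := by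
  have hm0 : m ≠ 0 := by
    rintro rfl
    rw [Nat.cast_zero] at hm
    exact not_isUnit_zero hm
  exact rootStatement_of_rootV_rootN A E hj m hm (rootV_of_orthLift A E Eb hj hjb hO)
    (rootN_of E hj hInf m hm0)

end Assembly

end Fermat.Agent.T4.helper9

end
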