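/-
T4 block (I), I-RED [ROOT] (helper9, row 1142), part 5: the input **[ORTH]** of [ROOT-V] from the
degree statement [DEG] of `helper4_RedDefs` and the (formal) fact that the special fibre field is
generated by reductions.

* `resSurj_adjoin` : every element of `k(red Y : Y ∈ S)` is the reduction of a `w`-integral
  function;
* `ResGenStatement A E Eb` : `Eb = k(S)` for a set `S` of reductions of integral series of `E`;
* `ResSurjStatement A E Eb`, `resSurj_of_resGen`;
* `orthLift_of_finrank_le`, `orthLift_of_deg` : [DEG] + [RES-GEN] ⟹ [ORTH].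
-/
import Mathlib
import Fermat.Agent.T4.helper9_Root1V

set_option autoImplicit false
set_option linter.style.haveILetI false
set_option linter.unusedSectionVars false
set_option linter.unusedVariables false
set_option linter.style.longLine false

open ModularCurve Polynomial IntermediateField

noncomputable section

namespace Fermat.Agent.T4.helper9

open Fermat.Agent.S18.helper19 (Kb kA)
open Fermat.Agent.P2.helper29 (incl red)
open Fermat.Agent.T4.helper4 (IsGood IsWInt jEl jbEl DegStatement)

section Surj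

variable (A : ValuationSubring Kb) (E : IntermediateField Kb (LaurentSeries Kb))

/-- every element of the field generated by reductions of integral series of `E` is the
reduction of a `w`-integral function -/
theorem resSurj_adjoin (S : Set (LaurentSeries (kA A)))
    (hS : ∀ s ∈ S, ∃ Y : LaurentSeries A, incl A Y ∈ E ∧ red A Y = s)
    (y : LaurentSeries (kA A)) (hy : y ∈ IntermediateField.adjoin (kA A) S) :
    ∃ f : wRing A E (IntermediateField.adjoin (kA A) S),
      wRed A E (IntermediateField.adjoin (kA A) S) f = y := by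
  set Eb := IntermediateField.adjoin (kA A) S with hEb
  induction hy using IntermediateField.adjoin_induction with
  | mem s hs =>
    obtain ⟨Y, hY, rfl⟩ := hS s hs
    exact ⟨⟨⟨incl A Y, hY⟩, mem_wRing_of_incl A E Eb _ Y rfl⟩, wRed_of_incl A E Eb _ Y rfl⟩
  | algebraMap c =>
    obtain ⟨a, rfl⟩ := IsLocalRing.residue_surjective c
    have h1 : incl A (algebraMap A (LaurentSeries A) a) ∈ E := by
      rw [incl_algebraMapA]
      exact E.algebraMap_mem _
    refine ⟨⟨⟨incl A (algebraMap A (LaurentSeries A) a), h1⟩,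
      mem_wRing_of_incl A E Eb _ _ rfl⟩, ?_⟩
    rw [wRed_of_incl A E Eb _ _ rfl, red_algebraMapA]
  | add x y _ _ hx hy =>
    obtain ⟨f, rfl⟩ := hx
    obtain ⟨g, rfl⟩ := hy
    exact ⟨f + g, map_add _ _ _⟩
  | inv x hxm hx =>
    obtain ⟨f, rfl⟩ := hx
    by_cases h0 : wRed A E Eb f = 0
    · exact ⟨0, by rw [h0, inv_zero, map_zero]⟩
    obtain ⟨f, hfw⟩ := f
    have hfw' := hfw
    obtain ⟨Y₁, Y₂, hY₁, hY₂, hf⟩ := hfw'
    have hw : wRed A E Eb ⟨f, hfw⟩ = red A Y₁ / red A Y₂ :=
      wRed_eq A E Eb f _ Y₁ Y₂ hY₂.2.2 hf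
    rw [hw] at h0 hxm ⊢
    have h1 : red A Y₁ ≠ 0 := fun h => h0 (by rw [h, zero_div])
    have h2 : red A Y₁ ∈ Eb := by
      have := mul_mem hxm hY₂.2.1
      rwa [div_mul_cancel₀ _ hY₂.2.2] at this
    have hg : IsGood A E Eb Y₁ := ⟨hY₁, h2, h1⟩
    have hf0 : (f : LaurentSeries Kb) ≠ 0 := by
      intro h
      rw [h, zero_mul] at hf
      have : Y₁ = 0 := incl_injective A (by rw [hf, map_zero])
      exact h1 (by rw [this, map_zero])
    have hrep : incl A Y₂ = ((f⁻¹ : E) : LaurentSeries Kb) * incl A Y₁ := by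
      rw [hf]
      push_cast
      field_simp
    refine ⟨⟨f⁻¹, ⟨Y₂, Y₁, hY₂.1, hg, hrep⟩⟩, ?_⟩
    rw [wRed_eq A E Eb f⁻¹ _ Y₂ Y₁ h1 hrep, inv_div]
  | mul x y _ _ hx hy =>
    obtain ⟨f, rfl⟩ := hx
    obtain ⟨g, rfl⟩ := hy
    exact ⟨f * g, map_mul _ _ _⟩

variable (Eb : IntermediateField (kA A) (LaurentSeries (kA A)))

/-- **[RES-GEN]** the special fibre field is generated by reductions of integral series of
`E`. -/
def ResGenStatement : Prop :=
  ∃ S : Set (LaurentSeries (kA A)), Eb = IntermediateField.adjoin (kA A) S ∧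
    ∀ s ∈ S, ∃ Y : LaurentSeries A, incl A Y ∈ E ∧ red A Y = s

/-- every element of `Eb` is the reduction of a `w`-integral function -/
def ResSurjStatement : Prop :=
  ∀ y : Eb, ∃ f : wRing A E Eb, wRed A E Eb f = (y : LaurentSeries (kA A))

theorem resSurj_of_resGen (h : ResGenStatement A E Eb) : ResSurjStatement A E Eb := by
  obtain ⟨S, rfl, hS⟩ := h
  intro y
  exact resSurj_adjoin A E S hS y y.2

variable (hj : jqModC Kb ∈ E) (hjb : jqModC (kA A) ∈ Eb)

/-- **[ORTH]** from the degree inequality and the surjectivity of the reduction. -/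
theorem orthLift_of_finrank_le [FiniteDimensional (kA A)⟮jbEl A Eb hjb⟯ Eb]
    (hdeg : Module.finrank Kb⟮jEl E hj⟯ E ≤ Module.finrank (kA A)⟮jbEl A Eb hjb⟯ Eb)
    (hsurj : ResSurjStatement A E Eb) : OrthLiftStatement A E Eb hj hjb := by
  set b := Module.finBasis (kA A)⟮jbEl A Eb hjb⟯ Eb with hb
  have hli : LinearIndependent (kA A)⟮jbEl A Eb hjb⟯ (fun i => b (Fin.castLE hdeg i)) :=
    b.linearIndependent.comp _ (Fin.castLE_injective hdeg)
  choose f hf using fun i => hsurj (b (Fin.castLE hdeg i))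
  exact ⟨f, fun i => b (Fin.castLE hdeg i), fun i => (hf i).symm, hli⟩

/-- **[ORTH]** from [DEG] and [RES-GEN]. -/
theorem orthLift_of_deg (hD : DegStatement A E Eb hj hjb) (hG : ResGenStatement A E Eb) :
    OrthLiftStatement A E Eb hj hjb := by
  obtain ⟨-, hfb, -, heq⟩ := hD
  haveI := hfb
  exact orthLift_of_finrank_le A E Eb hj hjb heq.ge (resSurj_of_resGen A E Eb hG)

end Surj

end Fermat.Agent.T4.helper9

end
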