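/-
T4 block (I), I-RED [ROOT] (helper9, row 1142), part 6: **[ROOT]** in the vocabulary of
`helper4_RedDefs`, generic and for `X₁(M)`.

* `root_of_deg` : `InftyStatement A E Eb → DegStatement A E Eb hj hjb → ResGenStatement A E Eb →
  IsUnit (m : A) → helper4.RootStatement A E m` (any pair `(E, Eb)` with `j ∈ E`, `j̃ ∈ Eb`);
* `jqModC_mem_F1`, `jqModC_mem_F1b`, `qExpand_jqModC_mem_F1`, `sSer_mem_F1`;
* `resGen_F1` : [RES-GEN] for `(F1 M, F1b A M)` (unconditional);
* `orthLift_F1`, `root1_of` : [ORTH] and **[ROOT] for `X₁(M)`** from [INF] + [DEG].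
-/
import Mathlib
import Fermat.Agent.T4.helper9_Root1Asm
import Fermat.Agent.T4.helper9_Root1Orth
import Fermat.Agent.T4.helper33_X1Series

set_option autoImplicit false
set_option linter.style.haveILetI false
set_option linter.unusedSectionVars false
set_option linter.unusedVariables false
set_option linter.style.longLine false

open ModularCurve Polynomial IntermediateField AlgebraicCurve

noncomputable section

namespace Fermat.Agent.T4.helper9

open Fermat.Agent.S18.helper19 (Kb kA)
open Fermat.Agent.P2.helper29 (incl red IsInfty InL)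
open Fermat.Agent.T4.helper4 (IsGood IsWInt jEl jbEl DivDvd RootStatement InftyStatement
  DegStatement F1b)
open Fermat.Agent.T4.helper32 (F1 F1Q F1C sSer sGens)

section Generic

variable (A : ValuationSubring Kb) (E : IntermediateField Kb (LaurentSeries Kb))
  (Eb : IntermediateField (kA A) (LaurentSeries (kA A)))
  (hj : jqModC Kb ∈ E) (hjb : jqModC (kA A) ∈ Eb)

/-- **[ROOT]** for a generic pair `(E, Eb)`, from the Props [INF], [DEG] of `helper4_RedDefs`
and [RES-GEN]. -/
theorem root_of_deg (hInf : InftyStatement A E Eb) (hD : DegStatement A E Eb hj hjb)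
    (hG : ResGenStatement A E Eb) (m : ℕ) (hm : IsUnit ((m : ℕ) : A)) :
    RootStatement A E m := by
  haveI := hD.1
  exact root_of A E Eb hj hjb hInf.1 (orthLift_of_deg A E Eb hj hjb hD hG) m hm

end Generic

section X1

variable (A : ValuationSubring Kb) (M : ℕ)

/-- `j(q^d)` lies in `F1 M` for `d ∣ M` -/
theorem qExpand_jqModC_mem_F1 {d : ℕ} [NeZero d] (hd : d ∣ M) :
    qExpand Kb d (jqModC Kb) ∈ F1 M := by
  rw [← Fermat.Agent.P2.helper81.coeffEmb_qExpand_jq_eq d]
  exact coeffEmb_mem_laurentBaseChange Kb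
    (IntermediateField.subset_adjoin ℚ _ (Or.inl ⟨d, inferInstance, hd, rfl⟩))

/-- `s_a` lies in `F1 M` -/
theorem sSer_mem_F1 {a : ZMod M} (ha : a ≠ 0) : sSer Kb M a ∈ F1 M := by
  rw [← Fermat.Agent.T4.helper33.coeffEmb_sSer Kb M a]
  exact coeffEmb_mem_laurentBaseChange Kb
    (IntermediateField.subset_adjoin ℚ _ (Or.inr ⟨a, ha, rfl⟩))

theorem jqModC_mem_F1 : jqModC Kb ∈ F1 M := by
  have := qExpand_jqModC_mem_F1 M (d := 1) (one_dvd M)
  rwa [qExpand_one_apply] at this

theorem jqModC_mem_F1b : jqModC (kA A) ∈ F1b A M := by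
  have : qExpand (kA A) 1 (jqModC (kA A)) ∈ F1b A M :=
    IntermediateField.subset_adjoin (kA A) _ (Or.inl ⟨1, inferInstance, one_dvd M, rfl⟩)
  rwa [qExpand_one_apply] at this

/-- **[RES-GEN]** for `X₁(M)`: the special fibre field is generated by the reductions of the
generators. -/
theorem resGen_F1 : ResGenStatement A (F1 M) (F1b A M) := by
  refine ⟨_, rfl, ?_⟩
  rintro s (⟨d, hd, hdM, rfl⟩ | ⟨a, ha, rfl⟩)
  · haveI := hd
    refine ⟨qExpand A d (jqModC A), ?_, ?_⟩
    · show coeffMap A.subtype (qExpand A d (jqModC A)) ∈ F1 M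
      rw [Fermat.Agent.S28.helper81.coeffMap_qExpand, ModularCurve.coeffMap_jqModC]
      exact qExpand_jqModC_mem_F1 M hdM
    · show coeffMap (IsLocalRing.residue A) (qExpand A d (jqModC A)) = _
      rw [Fermat.Agent.S28.helper81.coeffMap_qExpand, ModularCurve.coeffMap_jqModC]
  · refine ⟨sSer A M a, ?_, ?_⟩
    · show coeffMap A.subtype (sSer A M a) ∈ F1 M
      rw [Fermat.Agent.T4.helper33.coeffMap_sSer]
      exact sSer_mem_F1 M ha
    · exact Fermat.Agent.T4.helper33.coeffMap_sSer _ M a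

/-- **[ORTH]** for `X₁(M)` from [DEG]. -/
theorem orthLift_F1 (hD : DegStatement A (F1 M) (F1b A M) (jqModC_mem_F1 M)
    (jqModC_mem_F1b A M)) :
    OrthLiftStatement A (F1 M) (F1b A M) (jqModC_mem_F1 M) (jqModC_mem_F1b A M) :=
  orthLift_of_deg A (F1 M) (F1b A M) _ _ hD (resGen_F1 A M)

/-- **[ROOT] for `X₁(M)`** from [INF] and [DEG] (for `m` invertible in `A`). -/
theorem root1_of (hInf : InftyStatement A (F1 M) (F1b A M))
    (hD : DegStatement A (F1 M) (F1b A M) (jqModC_mem_F1 M) (jqModC_mem_F1b A M))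
    (m : ℕ) (hm : IsUnit ((m : ℕ) : A)) : RootStatement A (F1 M) m :=
  root_of_deg A (F1 M) (F1b A M) _ _ hInf hD (resGen_F1 A M) m hm

end X1

end Fermat.Agent.T4.helper9

end
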