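import Fermat.Agent.T4.helper43_ValIntG
import Fermat.Agent.T4.helper91_RieG
import Fermat.Agent.T4.helper18_GenG
import Fermat.Agent.T4.helper8_IdealStep1
import Fermat.Agent.T4.helper61_RedPivot
import Fermat.Agent.T4.helper61_RedInfty
import Fermat.Agent.T4.helper9_Root1Final
import Fermat.Agent.T4.helper61_RootPrim
import Fermat.Agent.T4.helper4_RedAsm
import Fermat.Agent.T4.helper46_Tame1
import Fermat.Agent.T4.helper69_Ram1X1
import Fermat.Agent.T4.helper44_WpX1

/-!
# T4 block (I), sub-block I-RED: the FRONTIER of (INJ) (helper79)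

All landed generic ports of the P2 chain are composed into ONE theorem.

* `inj_G` : for ANY pair `(E, Eb)` of `helper4_RedDefs` with `j ∈ E`, `j̃ ∈ Eb`, `A` over a
  prime `ℓ`, `ℓ ∤ m`, `0 < m`:
  `PrimStatement` + `CuspRegStatement` + `CuspBarStatement` + `TameBaseStatement` +
  `TameBaseZeroStatement` ⟹ `InjStatement A E Eb m`.
* `inj1_frontier` : for `X₁(M)` (`7 ≤ M`, `4 ∣ M ∨ 9 ∣ M`): `Inj1Statement M p` from
  `PrimStatement`, `CuspRegStatement`, `CuspBarStatement` for `(F1 M, F1b A M)` at the places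
  over the primes `ℓ ∤ M p`.  ([TAME1], [TAME-BASE-0], [ROOT], [INF] are plugged in.)
-/

set_option autoImplicit false
set_option linter.style.haveILetI false
set_option linter.unusedSectionVars false
set_option synthInstance.maxHeartbeats 400000

noncomputable section

open HahnSeries IntermediateField AlgebraicCurve ModularCurve
open Fermat.Agent.S18.helper19 (Kb kA)
open Fermat.Agent.P2.helper29 (incl red IsInfty InL PrimeToLevel GoodPair)
open Fermat.Agent.T4.helper4

namespace Fermat.Agent.T4.helper79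

section Generic

variable (A : ValuationSubring Kb) (E : IntermediateField Kb (LaurentSeries Kb))
  (Eb : IntermediateField (kA A) (LaurentSeries (kA A)))

/-- [INF] for every pair containing `j`, `j̃`. -/
theorem infty_G (hj : jqModC Kb ∈ E) (hjb : jqModC (kA A) ∈ Eb) : InftyStatement A E Eb :=
  ⟨helper61.exists_isInfty_of_mem E hj, helper61.exists_isInfty_of_mem Eb hjb⟩

/-- the unit form of `ℓ ∤ m` for a valuation ring over `ℓ` -/
theorem isUnit_natCast_of_not_dvd {ℓ : ℕ} (hℓ : ℓ.Prime) (hA : A.LiesOverPrime ℓ) (m : ℕ)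
    (hm : ¬ ℓ ∣ m) : IsUnit ((m : ℕ) : A) := by
  have h := Fermat.Agent.P2.helper74.residue_natCast_ne_zero A ℓ hℓ hA m hm
  by_contra hu
  exact h ((IsLocalRing.residue_eq_zero_iff _).2 ((IsLocalRing.mem_maximalIdeal _).2 hu))

/-- **[SURJ], frontier form** for a generic pair. -/
theorem surjRed_frontier (hj : jqModC Kb ∈ E) (hjb : jqModC (kA A) ∈ Eb)
    {ℓ : ℕ} (hℓ : ℓ.Prime) (hA : A.LiesOverPrime ℓ)
    (hP : PrimStatement A E Eb) (hCR : CuspRegStatement A E Eb hjb)
    (hCB : CuspBarStatement A E Eb hj hjb) (hT : TameBaseStatement A Eb hjb)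
    (c : ℕ) (hT0 : TameBaseZeroStatement E hj c) : SurjRedStatement A E Eb := by
  have hD : DegStatement A E Eb hj hjb := helper43.deg_G A E Eb hj hjb hP
  exact helper18.surjRed_G (helper91.riemann_of_deg hD) (helper91.riemannBar_of_deg hD)
    (infty_G A E Eb hj hjb) (helper43.scale_G A E Eb hP) (helper43.integrality_G A E Eb hℓ hA hP)
    (helper43.regRed_G A E Eb hjb hP hCR) (helper91.riemannSetting_of_deg hD)
    (helper91.riemannSettingBar_of_deg hD) hj hjb c hT hCB hT0 hD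

/-- **[GEN], frontier form** for a generic pair. -/
theorem genusEq_frontier (hj : jqModC Kb ∈ E) (hjb : jqModC (kA A) ∈ Eb)
    {ℓ : ℕ} (hℓ : ℓ.Prime) (hA : A.LiesOverPrime ℓ)
    (hP : PrimStatement A E Eb) (hCR : CuspRegStatement A E Eb hjb)
    (hCB : CuspBarStatement A E Eb hj hjb) (hT : TameBaseStatement A Eb hjb)
    (c : ℕ) (hT0 : TameBaseZeroStatement E hj c) : GenusEqStatement A E Eb := by
  have hD : DegStatement A E Eb hj hjb := helper43.deg_G A E Eb hj hjb hP
  exact helper18.genusEq_G (helper91.riemann_of_deg hD) (helper91.riemannBar_of_deg hD)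
    (infty_G A E Eb hj hjb) (helper43.scale_G A E Eb hP) (helper43.integrality_G A E Eb hℓ hA hP)
    (helper43.regRed_G A E Eb hjb hP hCR) (helper91.riemannSetting_of_deg hD)
    (helper91.riemannSettingBar_of_deg hD) hj hjb c hT hCB hT0 hD

/-- **(INJ), frontier form** for a generic pair `(E, Eb)`: all generic ports composed. -/
theorem inj_G (hj : jqModC Kb ∈ E) (hjb : jqModC (kA A) ∈ Eb)
    {ℓ : ℕ} (hℓ : ℓ.Prime) (hA : A.LiesOverPrime ℓ) (m : ℕ) (hm0 : 0 < m)
    (hm : ¬ ℓ ∣ m)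
    (hP : PrimStatement A E Eb) (hCR : CuspRegStatement A E Eb hjb)
    (hCB : CuspBarStatement A E Eb hj hjb) (hT : TameBaseStatement A Eb hjb)
    (c : ℕ) (hT0 : TameBaseZeroStatement E hj c) : InjStatement A E Eb m := by
  have hD : DegStatement A E Eb hj hjb := helper43.deg_G A E Eb hj hjb hP
  have hInf : InftyStatement A E Eb := infty_G A E Eb hj hjb
  have hSc : ScaleStatement A E Eb := helper43.scale_G A E Eb hP
  have hInt : IntegralityStatement A E Eb := helper43.integrality_G A E Eb hℓ hA hP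
  have hReg : RegRedStatement A E Eb := helper43.regRed_G A E Eb hjb hP hCR
  have hS := helper91.riemannSetting_of_deg hD
  have hSb := helper91.riemannSettingBar_of_deg hD
  have hGen := genusEq_frontier A E Eb hj hjb hℓ hA hP hCR hCB hT c hT0
  have hSurj := surjRed_frontier A E Eb hj hjb hℓ hA hP hCR hCB hT c hT0
  have hI1 : IdealStepStatement A E Eb m := helper8.idealStep1 m hSc hInt hReg hS hSb hInf hGen
  have hPiv : PivotStatement A E m :=
    helper61.pivot_of_liesOverPrime A E Eb ℓ hℓ hA m hm hS hInf.1 hSc hInt hReg hSurj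
  have hRoot : RootStatement A E m :=
    helper61.root_of_prim A E Eb m (isUnit_natCast_of_not_dvd A hℓ hA m hm) hP
  exact inj_of_packages hm0 hI1 hRoot hPiv hInt

end Generic

section X1

open Fermat.Agent.T4.helper32 (F1)

variable (M : ℕ) [NeZero M]

/-- **(INJ) for `X₁(M)`, frontier form**: at one place. -/
theorem injX1_frontier (hM : 7 ≤ M) (hlev : 4 ∣ M ∨ 9 ∣ M) (A : ValuationSubring Kb)
    {ℓ : ℕ} (hℓ : ℓ.Prime) (hℓM : ¬ ℓ ∣ M) (hA : A.LiesOverPrime ℓ) (m : ℕ) (hm0 : 0 < m)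
    (hm : ¬ ℓ ∣ m)
    (hP : PrimStatement A (F1 M) (F1b A M))
    (hCR : CuspRegStatement A (F1 M) (F1b A M) (helper9.jqModC_mem_F1b A M))
    (hCB : CuspBarStatement A (F1 M) (F1b A M) (helper9.jqModC_mem_F1 M)
      (helper9.jqModC_mem_F1b A M)) :
    InjStatement A (F1 M) (F1b A M) m := by
  have hD := helper43.deg_G A (F1 M) (F1b A M) (helper9.jqModC_mem_F1 M)
    (helper9.jqModC_mem_F1b A M) hP
  have hT := helper46.tameBase1_of_deg M A ⟨hlev, ℓ, hℓ, hℓM, hA⟩ _ _ hD
  obtain ⟨c, hT0⟩ := helper69.tameBaseZero_X1 (M := M) (helper44.x1Sys M hM) hlev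
    (helper9.jqModC_mem_F1 M)
  exact inj_G A (F1 M) (F1b A M) _ _ hℓ hA m hm0 hm hP hCR hCB hT c hT0

/-- **(INJ1), FRONTIER**: `helper4.Inj1Statement M p` from the three leaf Props of
IGUSA1 / CUSP1 at the places over the primes `ℓ ∤ M p`. -/
theorem inj1_frontier (hM : 7 ≤ M) (hlev : 4 ∣ M ∨ 9 ∣ M) (p : ℕ) (hp : p.Prime)
    (hP : ∀ ℓ : ℕ, ℓ.Prime → ¬ ℓ ∣ M * p → ∀ A : ValuationSubring Kb, A.LiesOverPrime ℓ →
      PrimStatement A (F1 M) (F1b A M))
    (hCR : ∀ ℓ : ℕ, ℓ.Prime → ¬ ℓ ∣ M * p → ∀ A : ValuationSubring Kb, A.LiesOverPrime ℓ →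
      CuspRegStatement A (F1 M) (F1b A M) (helper9.jqModC_mem_F1b A M))
    (hCB : ∀ ℓ : ℕ, ℓ.Prime → ¬ ℓ ∣ M * p → ∀ A : ValuationSubring Kb, A.LiesOverPrime ℓ →
      CuspBarStatement A (F1 M) (F1b A M) (helper9.jqModC_mem_F1 M)
        (helper9.jqModC_mem_F1b A M)) :
    Inj1Statement M p := by
  intro ℓ hℓ hℓMp A hA n
  have hℓM : ¬ ℓ ∣ M := fun h => hℓMp (Dvd.dvd.mul_right h p)
  have hm : ¬ ℓ ∣ p ^ n := fun h =>
    hℓMp (Dvd.dvd.mul_left
      ((Nat.prime_dvd_prime_iff_eq hℓ hp).mp (hℓ.dvd_of_dvd_pow h) ▸ dvd_rfl) M)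
  exact injX1_frontier M hM hlev A hℓ hℓM hA (p ^ n) (pow_pos hp.pos n) hm
    (hP ℓ hℓ hℓMp A hA) (hCR ℓ hℓ hℓMp A hA) (hCB ℓ hℓ hℓMp A hA)

end X1

end Fermat.Agent.T4.helper79

end
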