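import Fermat.Agent.T4.helper79_Frontier1
import Fermat.Agent.T4.helper79_RedFrontier
import Fermat.Agent.T4.helper41_CoreWire1

/-!
# T4 (S48): the FRONTIER of S48 in FOUR leaf Props (helper79)

`s48_of_four` : the frozen S48 conclusion from, at the levels of the light contract
(`12 ≤ M`, `4 ∣ M ∨ 9 ∣ M`):

1. **[ES-NORM1]** `helper41.EsNorm1Statement M q (unitOfPrime M q ..)` for the primes `q ∤ M`
   (char-0 norm formula along `β₁`; it feeds I-ES and I-AN);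
2. **[PRIM]** `helper4.PrimStatement A (F1 M) (F1b A M)` (IGUSA1);
3. **[CUSP-REG]** `helper4.CuspRegStatement A (F1 M) (F1b A M) _`;
4. **[CUSP-BAR]** `helper4.CuspBarStatement A (F1 M) (F1b A M) _ _`
   (2.-4. for every valuation ring `A` of `ℚ̄` over a prime `ℓ ∤ M`).

Everything else of blocks (I)-(V), (R) is plugged in.
-/

set_option autoImplicit false
set_option linter.style.haveILetI false
set_option linter.unusedSectionVars false

noncomputable section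

open Fermat.Agent.S18.helper19 (Kb kA)
open Fermat.Agent.T4.helper4
open Fermat.Agent.T4.helper32 (F1)

namespace Fermat.Agent.T4.helper79

/-- [ES-NORM1] in the form of `helper41` gives the form of `helper71`. -/
theorem esNorm1Kbar_of_esNorm1 (M : ℕ) [NeZero M] (q : {q : Nat.Primes // ¬ (q : ℕ) ∣ M})
    (h : haveI : NeZero (q.1 : ℕ) := ⟨q.1.2.ne_zero⟩
      helper41.EsNorm1Statement M (q.1 : ℕ) (unitOfPrime M (q.1 : ℕ) q.1.2 q.2)) :
    helper71.NormId1Statement M q := by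
  haveI : NeZero (q.1 : ℕ) := ⟨q.1.2.ne_zero⟩
  obtain ⟨ζ, hζ, hes⟩ := h
  exact helper71.normId1_of_esNorm1 M q (unitOfPrime M (q.1 : ℕ) q.1.2 q.2)
    (ZMod.coe_unitOfCoprime _ _) ζ hζ hes

/-- the leaf Props of block (I) at a level `M`: [ES-NORM1], [PRIM], [CUSP-REG], [CUSP-BAR]. -/
structure FourLeaves (M : ℕ) [NeZero M] : Prop where
  /-- [ES-NORM1] -/
  esNorm : ∀ (q : ℕ) [NeZero q] (hq : q.Prime) (hqM : ¬ q ∣ M),
    helper41.EsNorm1Statement M q (unitOfPrime M q hq hqM)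
  /-- [PRIM] (IGUSA1) -/
  prim : ∀ ℓ : ℕ, ℓ.Prime → ¬ ℓ ∣ M → ∀ A : ValuationSubring Kb, A.LiesOverPrime ℓ →
    PrimStatement A (F1 M) (F1b A M)
  /-- [CUSP-REG] -/
  cuspReg : ∀ ℓ : ℕ, ℓ.Prime → ¬ ℓ ∣ M → ∀ A : ValuationSubring Kb, A.LiesOverPrime ℓ →
    CuspRegStatement A (F1 M) (F1b A M) (helper9.jqModC_mem_F1b A M)
  /-- [CUSP-BAR] -/
  cuspBar : ∀ ℓ : ℕ, ℓ.Prime → ¬ ℓ ∣ M → ∀ A : ValuationSubring Kb, A.LiesOverPrime ℓ →
    CuspBarStatement A (F1 M) (F1b A M) (helper9.jqModC_mem_F1 M) (helper9.jqModC_mem_F1b A M)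

/-- (UNR1) + (ES1) at `(M, p)` from the four leaves. -/
theorem p2Core1_of_four (M : ℕ) [NeZero M] (hM : 7 ≤ M) (hlev : 4 ∣ M ∨ 9 ∣ M) (p : ℕ)
    (hp : p.Prime) (h : FourLeaves M) : P2Core1Statement M p := by
  have hℓM : ∀ {ℓ : ℕ}, ¬ ℓ ∣ M * p → ¬ ℓ ∣ M := fun h' hd => h' (Dvd.dvd.mul_right hd p)
  refine helper41.p2Core1_of_norm M p
    (inj1_frontier M hM hlev p hp
      (fun ℓ hℓ hℓMp A hA => h.prim ℓ hℓ (hℓM hℓMp) A hA)
      (fun ℓ hℓ hℓMp A hA => h.cuspReg ℓ hℓ (hℓM hℓMp) A hA)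
      (fun ℓ hℓ hℓMp A hA => h.cuspBar ℓ hℓ (hℓM hℓMp) A hA))
    (fun ℓ hℓ hℓMp A hA => helper43.scale_G A (F1 M) (F1b A M) (h.prim ℓ hℓ (hℓM hℓMp) A hA))
    (fun ℓ _ _ _ => helper11.hecke1Inputs_of_le M ℓ hM)
    (fun ℓ _ hℓ hℓMp => h.esNorm ℓ hℓ (hℓM hℓMp))

/-- **[EIGEN1] at `(M, ℓ)` from the four leaves** (`7 ≤ M`, `4 ∣ M ∨ 9 ∣ M`). -/
theorem eigen1At_of_four (M : ℕ) [NeZero M] (hM : 7 ≤ M) (hlev : 4 ∣ M ∨ 9 ∣ M) {ℓ : ℕ}
    (hℓ : ℓ.Prime) (h : FourLeaves M) : helper41.Eigen1At M ℓ := by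
  obtain ⟨hfin, hK⟩ := helper21.ian_of_leaves M hM ℓ hℓ.pos (helper80.Gen.anDict1 M)
    (fun 𝒟 hstd => helper54.surjChar1 M hM 𝒟 hstd)
    (helper99.desc1_final M (helper24.x1Field M)
      (helper77.deg_of _ (helper44.x1Sys M hM)).1 (helper80.Gen.anDict1 M) hM)
    (fun q => by
      haveI : NeZero ((q.1 : ℕ)) := ⟨q.1.2.ne_zero⟩
      exact helper11.hecke1Inputs_of_le M (q.1 : ℕ) hM)
    (helper71.normEv1_all M hM (helper80.Gen.anDict1 M)
      (fun q => esNorm1Kbar_of_esNorm1 M q (by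
        haveI : NeZero ((q.1 : ℕ)) := ⟨q.1.2.ne_zero⟩
        exact h.esNorm (q.1 : ℕ) q.1.2 q.2))
      (helper14.diamondEvSymm_all M (by omega)
        (fun d => helper17.exists_isDiamondAut M (by omega) (helper17.wpPackX1 M (by omega)) d)))
    (helper14.diamondEvSymm_all M (by omega)
      (fun d => helper17.exists_isDiamondAut M (by omega) (helper17.wpPackX1 M (by omega)) d))
  have hcore := p2Core1_of_four M hM hlev ℓ hℓ h
  haveI := helper11.finiteDimensional_F1 M hM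
  exact helper41.eigen1At_of_packA M hℓ
    (helper3.x1PackA_of_inputs (fun x _ => helper1.continuity1 M x) hfin
      (helper41.unr_of_unr1 hcore.1) (helper41.es_of_es1 hcore.2) hK)

/-- **The light contract of block (I) from the four leaves.** -/
theorem eigen1L_of_four
    (h : ∀ (M : ℕ) [NeZero M], 12 ≤ M → (4 ∣ M ∨ 9 ∣ M) → FourLeaves M) :
    helper32.Eigen1StatementL :=
  eigen1L_of_at fun M _ hlev ℓ hℓ _ _ h12 =>
    eigen1At_of_four M (by omega) hlev hℓ (h M h12 hlev)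

/-- **S48 from the four leaves of block (I)** (frozen shape of `Templates/S48`). -/
theorem s48_of_four
    (h : ∀ (M : ℕ) [NeZero M], 12 ≤ M → (4 ∣ M ∨ 9 ∣ M) → FourLeaves M)
    (N : ℕ) [NeZero N] (ε : DirichletCharacter ℂ N)
    (f : CuspForm (CongruenceSubgroup.Gamma1 N) 1)
    (hf₁ : ModularFormClass.qCoeff f 1 = 1)
    (hT : ∀ p : ℕ, p.Prime → ¬ p ∣ N → ∀ n : ℕ,
        ModularFormClass.qCoeff f (p * n) +
            ε (p : ZMod N) * (if p ∣ n then ModularFormClass.qCoeff f (n / p) else 0) =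
          ModularFormClass.qCoeff f p * ModularFormClass.qCoeff f n) :
    ∃ ρ : (AlgebraicClosure ℚ ≃ₐ[ℚ] AlgebraicClosure ℚ) →* GL (Fin 2) ℂ,
      GaloisFactorsThroughFiniteLevel ρ ∧
      (Deformation.matrixRepresentation ρ).IsIrreducible ∧
      ∀ p : ℕ, p.Prime → ¬ p ∣ N →
        ∀ A : ValuationSubring (AlgebraicClosure ℚ), A.LiesOverPrime p →
          (∀ σ ∈ A.inertiaSubgroupIn ℚ, ρ σ = 1) ∧
          ∀ σ : AlgebraicClosure ℚ ≃ₐ[ℚ] AlgebraicClosure ℚ, A.IsFrobeniusAt σ p →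
            ((ρ σ : GL (Fin 2) ℂ) : Matrix (Fin 2) (Fin 2) ℂ).trace =
                ModularFormClass.qCoeff f p ∧
            ((ρ σ : GL (Fin 2) ℂ) : Matrix (Fin 2) (Fin 2) ℂ).det = ε (p : ZMod N) :=
  helper2.s48_of_eigen1L (eigen1L_of_four h) N ε f hf₁ hT

end Fermat.Agent.T4.helper79

end
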