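import Mathlib
import Fermat.Agent.T4.helper62_ChebAsm
import Fermat.Agent.T4.helper40_DivMass
import Fermat.Agent.S14.helper12_Artin

/-!
# T4 block (II), leaf [T4-CHEB-DEURING] (helper7): Deuring's reduction over `ℚ`

`deuring : helper62.DeuringStatement` (verbatim, no hypotheses).

`Ω/ℚ` Galois, `a ∈ G = Gal(Ω/ℚ)`, `E` an intermediate field and `a' ∈ Gal(Ω/E)` with
`a' x = a x`.  A prime `𝔮` of `E` of prime norm `p`, outside the (finite) image of the primes of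
`Ω` with nontrivial inertia over `ℚ`, with `frobAt E Ω 𝔮 = a'`, has a prime `P` of `Ω` above it
at which `a` is the Frobenius element over `ℚ` (`isFrobNF_of_frobAt`), so the rational prime
below `𝔮` is unramified in `Ω` with Frobenius class `C(a)` (`mem_frobSet_of_isFrobNF`).  The
map `𝔮 ↦ P` is injective, and the primes `P` over `p` with Frobenius `a` are at most
`|Z(a)| / ord a` (`card_frobPrimesEq_mul_le`: the centraliser acts transitively with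
stabilisers containing `⟨a⟩`).  Hence

`psum_E (Frob = a') ≤ (|Z(a)| / ord a) * psum_ℚ (Frob ∈ C(a)) + O(1)`   (`psum_frobSet_le`)

and `|Z(a)| * |C(a)| = |G|` (`card_centralizer_mul_card_isConj`) gives the statement.
-/

set_option autoImplicit false
set_option linter.unusedSectionVars false
set_option linter.unusedVariables false
set_option linter.style.longLine false
set_option linter.style.haveILetI false

open NumberField Ideal IsDedekindDomain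
open scoped Pointwise Classical

namespace Fermat.Agent.T4.helper7

open Fermat.Agent.S14 Fermat.Agent.T4.helper62 Fermat.Agent.T4.helper40
  Fermat.Agent.Cheb.helper40

/-! ### Group theory: the class equation for one class -/

/-- `|Z(a)| * |C(a)| = |G|`. -/
theorem card_centralizer_mul_card_isConj {G : Type*} [Group G] [Finite G] (a : G) :
    Nat.card (Subgroup.centralizer {a}) * Nat.card {b : G // IsConj a b} = Nat.card G := by
  haveI : Fintype G := Fintype.ofFinite G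
  haveI : Fintype (ConjAct G) := Fintype.ofFinite _
  have h1 := MulAction.card_orbit_mul_card_stabilizer_eq_card_group (ConjAct G) a
  have h2 : Nat.card (Subgroup.centralizer {a}) =
      Nat.card (MulAction.stabilizer (ConjAct G) a) :=
    Subgroup.nat_card_centralizer_nat_card_stabilizer a
  have h3 : Nat.card {b : G // IsConj a b} = Nat.card (MulAction.orbit (ConjAct G) a) := by
    apply Nat.card_congr
    refine Equiv.subtypeEquivRight fun b => ?_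
    rw [ConjAct.mem_orbit_conjAct, isConj_comm]
  rw [h2, h3, Nat.card_eq_fintype_card, Nat.card_eq_fintype_card, mul_comm, h1,
    ← Nat.card_eq_fintype_card]
  exact Nat.card_congr ConjAct.ofConjAct.toEquiv

/-! ### The Deuring count with the centraliser -/

variable {K : Type*} [Field K] [NumberField K] [IsGalois ℚ K]

/-- The injection behind the Deuring count, centraliser form. -/
theorem exists_injective_frobPrimesEq {ℓ : ℕ} (hℓ : ℓ.Prime) (a : Gal(K/ℚ)) :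
    ∃ f : {P : Ideal (𝓞 K) // IsFrobNF K ℓ P a} × Subgroup.zpowers a →
        Subgroup.centralizer ({a} : Set Gal(K/ℚ)),
      Function.Injective f := by
  by_cases hne : Nonempty {P : Ideal (𝓞 K) // IsFrobNF K ℓ P a}
  swap
  · refine ⟨fun x => (hne ⟨x.1⟩).elim, fun x => (hne ⟨x.1⟩).elim⟩
  obtain ⟨⟨P₀, h₀⟩⟩ := hne
  have hex : ∀ P : {P : Ideal (𝓞 K) // IsFrobNF K ℓ P a}, ∃ τ : Gal(K/ℚ),
      (P : Ideal (𝓞 K)) = τ • P₀ ∧ τ ∈ Subgroup.centralizer ({a} : Set Gal(K/ℚ)) := by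
    rintro ⟨P, hP⟩
    obtain ⟨τ, hτ, hτφ⟩ := h₀.exists_conj hP hℓ
    refine ⟨τ, hτ, ?_⟩
    rw [Subgroup.mem_centralizer_singleton_iff]
    have h1 : a * τ = τ * a * τ⁻¹ * τ := by rw [← hτφ]
    rw [h1]
    group
  choose τ hτP hτN using hex
  have hHle : Subgroup.zpowers a ≤ Subgroup.centralizer ({a} : Set Gal(K/ℚ)) := by
    rw [Subgroup.zpowers_le, Subgroup.mem_centralizer_singleton_iff]
  have hstab : ∀ h : Subgroup.zpowers a, (h : Gal(K/ℚ)) • P₀ = P₀ := fun h =>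
    h₀.smul_eq_of_mem_zpowers hℓ.ne_zero h.2
  refine ⟨fun x => (⟨τ x.1 * (x.2 : Gal(K/ℚ)),
      (Subgroup.centralizer ({a} : Set Gal(K/ℚ))).mul_mem (hτN x.1) (hHle x.2.2)⟩ :
        Subgroup.centralizer ({a} : Set Gal(K/ℚ))), ?_⟩
  rintro ⟨P, h⟩ ⟨Q, h'⟩ hPQ
  have h1 : τ P * (h : Gal(K/ℚ)) = τ Q * (h' : Gal(K/ℚ)) := congrArg Subtype.val hPQ
  have h2 : (P : Ideal (𝓞 K)) = Q := by
    rw [hτP P, hτP Q]
    conv_lhs => rw [← hstab h]
    conv_rhs => rw [← hstab h']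
    rw [← mul_smul, ← mul_smul, h1]
  have h3 : P = Q := Subtype.ext h2
  subst h3
  have h4 : (h : Gal(K/ℚ)) = h' := mul_left_cancel h1
  have h5 : h = h' := Subtype.ext h4
  rw [h5]

theorem finite_frobPrimesEq {ℓ : ℕ} (hℓ : ℓ.Prime) (a : Gal(K/ℚ)) :
    Finite {P : Ideal (𝓞 K) // IsFrobNF K ℓ P a} := by
  obtain ⟨f, hf⟩ := exists_injective_frobPrimesEq hℓ a
  haveI : Finite ({P : Ideal (𝓞 K) // IsFrobNF K ℓ P a} × Subgroup.zpowers a) :=
    Finite.of_injective f hf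
  exact Finite.prod_left (Subgroup.zpowers a)

/-- **Deuring count**, centraliser form: at most `|Z(a)| / ord a` primes over `ℓ` have
Frobenius element `a`. -/
theorem card_frobPrimesEq_mul_le {ℓ : ℕ} (hℓ : ℓ.Prime) (a : Gal(K/ℚ)) :
    Nat.card {P : Ideal (𝓞 K) // IsFrobNF K ℓ P a} * orderOf a ≤
      Nat.card (Subgroup.centralizer ({a} : Set Gal(K/ℚ))) := by
  obtain ⟨f, hf⟩ := exists_injective_frobPrimesEq hℓ a
  have := Nat.card_le_card_of_injective f hf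
  rwa [Nat.card_prod, Nat.card_zpowers] at this

/-! ### An abstract fibre-counting inequality -/

/-- If the fibres of `N : T → D` have at most `c` elements, then
`∑_{i ∈ T} w (N i) ≤ c * ∑_{k ∈ D} w k`. -/
theorem tsum_indicator_le_of_fibers_gen {ι κ : Type*} (T : Set ι) (N : ι → κ) (w : κ → ℝ)
    (hw : ∀ k, 0 ≤ w k) (D : Set κ) (c : ℝ) (hc : 0 ≤ c) (hsum : Summable (D.indicator w))
    (hD : ∀ i ∈ T, N i ∈ D)
    (hfib : ∀ (k : κ) (u : Finset ι), (∀ i ∈ u, i ∈ T ∧ N i = k) → (u.card : ℝ) ≤ c) :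
    ∑' i, T.indicator (fun i => w (N i)) i ≤ c * ∑' k, D.indicator w k := by
  refine Real.tsum_le_of_sum_le (fun i => Set.indicator_nonneg (fun _ _ => hw _) i) fun u => ?_
  rw [Finset.sum_indicator_eq_sum_filter]
  rw [Finset.sum_comp w N]
  have h1 : ∀ k ∈ (u.filter (fun i => i ∈ T)).image N,
      ((u.filter (fun i => i ∈ T)).filter (fun i => N i = k)).card • (w k) ≤
        c * D.indicator w k := by
    intro k hk
    obtain ⟨i, hi, rfl⟩ := Finset.mem_image.mp hk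
    have hiT : i ∈ T := (Finset.mem_filter.mp hi).2
    rw [Set.indicator_of_mem (hD i hiT), nsmul_eq_mul]
    apply mul_le_mul_of_nonneg_right _ (hw _)
    apply hfib (N i)
    intro j hj
    obtain ⟨hj1, hj2⟩ := Finset.mem_filter.mp hj
    exact ⟨(Finset.mem_filter.mp hj1).2, hj2⟩
  calc _ ≤ ∑ k ∈ (u.filter (fun i => i ∈ T)).image N, c * D.indicator w k :=
        Finset.sum_le_sum h1
    _ = c * ∑ k ∈ (u.filter (fun i => i ∈ T)).image N, D.indicator w k := by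
        rw [Finset.mul_sum]
    _ ≤ c * ∑' k, D.indicator w k := by
        apply mul_le_mul_of_nonneg_left _ hc
        exact hsum.sum_le_tsum _ (fun k _ => Set.indicator_nonneg (fun _ _ => hw _) k)


/-! ### Frobenius data over `ℚ` from primes of an intermediate field -/

section main

variable {Ω : Type*} [Field Ω] [NumberField Ω] [IsGalois ℚ Ω]

/-- the action on the integers is determined by the action on the field -/
theorem smul_eq_of_apply_eq (E : IntermediateField ℚ Ω) (a : Gal(Ω/ℚ)) (a' : Gal(Ω/E))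
    (ha : ∀ x : Ω, a' x = a x) (x : 𝓞 Ω) : a' • x = a • x := by
  apply RingOfIntegers.ext
  exact ha x

/-- A prime `𝔮` of `E`, outside the image of the primes of `Ω` with nontrivial inertia over `ℚ`,
whose Frobenius in `Gal(Ω/E)` is the restriction of `a`, carries Frobenius data for `a` over
`ℚ` at the exponent `N𝔮`. -/
theorem isFrobNF_of_frobAt (E : IntermediateField ℚ Ω) (a : Gal(Ω/ℚ)) (a' : Gal(Ω/E))
    (ha : ∀ x : Ω, a' x = a x) (𝔮 : HeightOneSpectrum (𝓞 E))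
    (hfrob : frobAt E Ω 𝔮.asIdeal = a')
    (hbad : 𝔮 ∉ (fun P : HeightOneSpectrum (𝓞 Ω) => P.under (𝓞 E)) '' inertSet Ω) :
    ∃ P : Ideal (𝓞 Ω), IsFrobNF Ω (absNorm 𝔮.asIdeal) P a ∧ P.under (𝓞 E) = 𝔮.asIdeal := by
  haveI := 𝔮.isPrime
  obtain ⟨P, hPprime, hP0, hP, hfr⟩ :=
    helper12.exists_isArithFrobAt_frobAt E Ω 𝔮.asIdeal 𝔮.ne_bot
  haveI := hPprime
  refine ⟨P, ⟨hPprime, ?_, ?_, ?_⟩, hP⟩
  · have h1 : ((absNorm 𝔮.asIdeal : ℕ) : 𝓞 E) ∈ 𝔮.asIdeal := Ideal.absNorm_mem 𝔮.asIdeal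
    have h2 : ((absNorm 𝔮.asIdeal : ℕ) : 𝓞 E) ∈ P.under (𝓞 E) := hP ▸ h1
    rw [Ideal.under_def, Ideal.mem_comap, map_natCast] at h2
    exact h2
  · intro τ hτ
    by_contra hτ1
    apply hbad
    refine ⟨⟨P, hPprime, hP0⟩, ⟨τ, hτ1, hτ⟩, ?_⟩
    exact HeightOneSpectrum.ext hP
  · intro x
    have h1 := hfr x
    have h2 : Nat.card (𝓞 E ⧸ P.under (𝓞 E)) = absNorm 𝔮.asIdeal := by
      rw [hP, Ideal.absNorm_apply, Submodule.cardQuot_apply]
    change frobAt E Ω 𝔮.asIdeal • x - x ^ Nat.card (𝓞 E ⧸ P.under (𝓞 E)) ∈ P at h1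
    rw [h2, hfrob, smul_eq_of_apply_eq E a a' ha] at h1
    exact h1

/-- a prime of prime norm has the same norm as the rational prime below it -/
theorem absNorm_under_eq (E : Type*) [Field E] [NumberField E] (𝔮 : HeightOneSpectrum (𝓞 E))
    (hp : (absNorm 𝔮.asIdeal).Prime) :
    absNorm (𝔮.under (𝓞 ℚ)).asIdeal = absNorm 𝔮.asIdeal := by
  haveI := 𝔮.isPrime
  haveI : 𝔮.asIdeal.LiesOver (𝔮.under (𝓞 ℚ)).asIdeal := ⟨rfl⟩
  have h1 := Ideal.absNorm_pow_inertiaDeg (𝔮.under (𝓞 ℚ)).asIdeal 𝔮.asIdeal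
  have hf : 𝔮.asIdeal.inertiaDeg (𝓞 ℚ) ≠ 0 := by
    intro h0
    rw [h0, pow_zero] at h1
    exact hp.one_lt.ne h1
  have hdvd : absNorm (𝔮.under (𝓞 ℚ)).asIdeal ∣ absNorm 𝔮.asIdeal := by
    rw [← h1]
    exact dvd_pow_self _ hf
  rcases (Nat.dvd_prime hp).mp hdvd with h | h
  · have := S14.helper40.two_le_absNorm ℚ (𝔮.under (𝓞 ℚ))
    omega
  · exact h

/-- A rational prime carrying Frobenius data for `a` lies in the Frobenius set of the class of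
`a`. -/
theorem mem_frobSet_of_isFrobNF (a : Gal(Ω/ℚ)) (𝔭 : HeightOneSpectrum (𝓞 ℚ))
    (hp : (absNorm 𝔭.asIdeal).Prime) (P : Ideal (𝓞 Ω))
    (hP : IsFrobNF Ω (absNorm 𝔭.asIdeal) P a) (hPu : P.under (𝓞 ℚ) = 𝔭.asIdeal) :
    𝔭 ∈ frobSet ℚ Ω {b | IsConj a b} := by
  haveI := 𝔭.isPrime
  haveI := hP.prime
  haveI : P.LiesOver 𝔭.asIdeal := ⟨hPu.symm⟩
  have he : helper52.eNum ℚ Ω 𝔭 = 1 := by
    have h1 := Ideal.card_inertia_eq_ramificationIdxIn (G := Gal(Ω/ℚ)) 𝔭.asIdeal P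
    have h2 : Ideal.inertia Gal(Ω/ℚ) P = ⊥ := by
      rw [eq_bot_iff]
      intro τ hτ
      rw [Subgroup.mem_bot]
      exact hP.unram τ (fun x => hτ x)
    rw [h2, Subgroup.card_bot] at h1
    exact h1.symm
  refine ⟨fun h => h he, ?_⟩
  obtain ⟨P', hP'prime, hP'0, hP'u, hfr⟩ :=
    helper12.exists_isArithFrobAt_frobAt ℚ Ω 𝔭.asIdeal 𝔭.ne_bot
  haveI := hP'prime
  have hF' : IsFrobNF Ω (absNorm 𝔭.asIdeal) P' (frobAt ℚ Ω 𝔭.asIdeal) := by
    refine ⟨hP'prime, ?_, ?_, ?_⟩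
    · have h1 : ((absNorm 𝔭.asIdeal : ℕ) : 𝓞 ℚ) ∈ 𝔭.asIdeal := Ideal.absNorm_mem 𝔭.asIdeal
      have h2 : ((absNorm 𝔭.asIdeal : ℕ) : 𝓞 ℚ) ∈ P'.under (𝓞 ℚ) := hP'u ▸ h1
      rw [Ideal.under_def, Ideal.mem_comap, map_natCast] at h2
      exact h2
    · exact inertia_trivial_of_eNum_eq_one ℚ Ω 𝔭 he P' hP'u
    · intro x
      have h1 := hfr x
      have h2 : Nat.card (𝓞 ℚ ⧸ P'.under (𝓞 ℚ)) = absNorm 𝔭.asIdeal := by
        rw [hP'u, Ideal.absNorm_apply, Submodule.cardQuot_apply]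
      change frobAt ℚ Ω 𝔭.asIdeal • x - x ^ Nat.card (𝓞 ℚ ⧸ P'.under (𝓞 ℚ)) ∈ P' at h1
      rw [h2] at h1
      exact h1
  obtain ⟨τ, -, hτ⟩ := hP.exists_conj hF' hp
  show IsConj a (frobAt ℚ Ω 𝔭.asIdeal)
  rw [isConj_iff]
  exact ⟨τ, hτ.symm⟩

/-- **The Deuring inequality**: for an intermediate field `E` of `Ω/ℚ` and `a' ∈ Gal(Ω/E)`
restricting `a ∈ Gal(Ω/ℚ)`,
`psum_E (Frob = a') ≤ (|Z(a)| / ord a) * psum_ℚ (Frob ∈ C(a)) + O(1)`. -/
theorem psum_frobSet_le (E : IntermediateField ℚ Ω) (a : Gal(Ω/ℚ)) (a' : Gal(Ω/E))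
    (ha : ∀ x : Ω, a' x = a x) :
    ∃ B : ℝ, ∀ s : ℝ, 1 < s → s ≤ 2 →
      psum E (frobSet E Ω {a'}) s ≤
        ((Nat.card (Subgroup.centralizer ({a} : Set Gal(Ω/ℚ))) : ℝ) / (orderOf a : ℝ)) *
          psum ℚ (frobSet ℚ Ω {b | IsConj a b}) s + B := by
  have hBad : ((fun P : HeightOneSpectrum (𝓞 Ω) => P.under (𝓞 E)) '' inertSet Ω).Finite :=
    (finite_inertSet Ω).image _
  set Bad := (fun P : HeightOneSpectrum (𝓞 Ω) => P.under (𝓞 E)) '' inertSet Ω with hBaddef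
  set T : Set (HeightOneSpectrum (𝓞 E)) := goodSet E Bad ∩ frobSet E Ω {a'} with hT
  have hd0 : (0 : ℝ) < (orderOf a : ℝ) := by exact_mod_cast orderOf_pos a
  -- the Frobenius data
  have hdata : ∀ 𝔮 ∈ T, ∃ P : Ideal (𝓞 Ω),
      IsFrobNF Ω (absNorm 𝔮.asIdeal) P a ∧ P.under (𝓞 E) = 𝔮.asIdeal := by
    intro 𝔮 h𝔮
    exact isFrobNF_of_frobAt E a a' ha 𝔮 h𝔮.2.2 h𝔮.1.2
  choose! P hP hPu using hdata
  have hprime : ∀ 𝔮 ∈ T, (absNorm 𝔮.asIdeal).Prime := fun 𝔮 h𝔮 => h𝔮.1.1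
  have hPunder : ∀ 𝔮 ∈ T, (P 𝔮).under (𝓞 ℚ) = (𝔮.under (𝓞 ℚ)).asIdeal := by
    intro 𝔮 h𝔮
    have h1 : (P 𝔮).under (𝓞 ℚ) = ((P 𝔮).under (𝓞 E)).under (𝓞 ℚ) :=
      (Ideal.under_under (A := 𝓞 ℚ) (B := 𝓞 E) (P 𝔮)).symm
    rw [h1, hPu 𝔮 h𝔮]
    rfl
  refine ⟨S14.helper40.degTwoBound E + (hBad.toFinset.card : ℝ), fun s hs hs2 => ?_⟩
  obtain ⟨-, h3⟩ := tsum_indicator_inter_goodSet E Bad hBad (frobSet E Ω {a'}) hs
  have key := tsum_indicator_le_of_fibers_gen T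
    (fun 𝔮 : HeightOneSpectrum (𝓞 E) => 𝔮.under (𝓞 ℚ)) (S14.helper40.pterm ℚ s)
    (fun 𝔭 => (S14.helper40.pterm_pos ℚ s 𝔭).le) (frobSet ℚ Ω {b | IsConj a b})
    ((Nat.card (Subgroup.centralizer ({a} : Set Gal(Ω/ℚ))) : ℝ) / (orderOf a : ℝ))
    (by positivity) (summable_indicator_pterm ℚ _ hs) ?_ ?_
  · have hcongr : T.indicator (fun 𝔮 : HeightOneSpectrum (𝓞 E) =>
        S14.helper40.pterm ℚ s (𝔮.under (𝓞 ℚ))) = T.indicator (pt E s) := by
      funext 𝔮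
      by_cases h𝔮 : 𝔮 ∈ T
      · rw [Set.indicator_of_mem h𝔮, Set.indicator_of_mem h𝔮]
        show ((absNorm (𝔮.under (𝓞 ℚ)).asIdeal : ℕ) : ℝ) ^ (-s) = _
        rw [absNorm_under_eq E 𝔮 (hprime 𝔮 h𝔮)]
        rfl
      · rw [Set.indicator_of_notMem h𝔮, Set.indicator_of_notMem h𝔮]
    rw [hcongr] at key
    unfold psum
    have h4 : ∑' 𝔭, (frobSet E Ω {a'}).indicator (S14.helper40.pterm E s) 𝔭 =
        ∑' 𝔭, (frobSet E Ω {a'}).indicator (pt E s) 𝔭 := rfl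
    rw [h4]
    linarith
  · intro 𝔮 h𝔮
    refine mem_frobSet_of_isFrobNF a (𝔮.under (𝓞 ℚ)) ?_ (P 𝔮) ?_ (hPunder 𝔮 h𝔮)
    · rw [absNorm_under_eq E 𝔮 (hprime 𝔮 h𝔮)]
      exact hprime 𝔮 h𝔮
    · rw [absNorm_under_eq E 𝔮 (hprime 𝔮 h𝔮)]
      exact hP 𝔮 h𝔮
  · intro 𝔭 u hu
    rcases u.eq_empty_or_nonempty with rfl | ⟨𝔮₀, h𝔮₀⟩
    · simp only [Finset.card_empty, Nat.cast_zero]
      positivity
    have hnorm : ∀ 𝔮 ∈ u, absNorm 𝔮.asIdeal = absNorm 𝔭.asIdeal := by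
      intro 𝔮 h𝔮
      rw [← (hu 𝔮 h𝔮).2, absNorm_under_eq E 𝔮 (hprime 𝔮 (hu 𝔮 h𝔮).1)]
    have hℓ : (absNorm 𝔭.asIdeal).Prime := by
      rw [← hnorm 𝔮₀ h𝔮₀]
      exact hprime 𝔮₀ (hu 𝔮₀ h𝔮₀).1
    haveI := finite_frobPrimesEq (K := Ω) hℓ a
    have hcard : u.card ≤ Nat.card {Q : Ideal (𝓞 Ω) // IsFrobNF Ω (absNorm 𝔭.asIdeal) Q a} := by
      have hinj : Function.Injective (fun 𝔮 : u =>
          (⟨P 𝔮.1, by
            have := hP 𝔮.1 (hu 𝔮.1 𝔮.2).1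
            rw [hnorm 𝔮.1 𝔮.2] at this
            exact this⟩ : {Q : Ideal (𝓞 Ω) // IsFrobNF Ω (absNorm 𝔭.asIdeal) Q a})) := by
        intro 𝔮 𝔮' h
        have h1 : P 𝔮.1 = P 𝔮'.1 := congrArg Subtype.val h
        apply Subtype.ext
        apply HeightOneSpectrum.ext
        rw [← hPu 𝔮.1 (hu 𝔮.1 𝔮.2).1, ← hPu 𝔮'.1 (hu 𝔮'.1 𝔮'.2).1, h1]
      have := Nat.card_le_card_of_injective _ hinj
      rwa [Nat.card_eq_fintype_card, Fintype.card_coe] at this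
    have h1 := card_frobPrimesEq_mul_le (K := Ω) hℓ a
    have h2 : u.card * orderOf a ≤
        Nat.card (Subgroup.centralizer ({a} : Set Gal(Ω/ℚ))) :=
      (Nat.mul_le_mul_right _ hcard).trans h1
    rw [le_div_iff₀ hd0]
    exact_mod_cast h2


/-- **[T4-CHEB-DEURING]** Deuring's reduction over `ℚ`, lower-bound form. -/
theorem deuring : DeuringStatement := by
  intro Ω _ _ _ a a' ha hF
  obtain ⟨B₁, hB₁⟩ := hF
  obtain ⟨B₂, hB₂⟩ :=
    psum_frobSet_le (IntermediateField.fixedField (Subgroup.zpowers a)) a a' ha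
  have hZ : (0 : ℝ) < (Nat.card (Subgroup.centralizer ({a} : Set Gal(Ω/ℚ))) : ℝ) := by
    exact_mod_cast Nat.card_pos
  have hd0 : (0 : ℝ) < (orderOf a : ℝ) := by exact_mod_cast orderOf_pos a
  have hG : (0 : ℝ) < (Nat.card Gal(Ω/ℚ) : ℝ) := by exact_mod_cast Nat.card_pos
  have hclass : (Nat.card (Subgroup.centralizer ({a} : Set Gal(Ω/ℚ))) : ℝ) *
      (Nat.card {b : Gal(Ω/ℚ) // IsConj a b} : ℝ) = (Nat.card Gal(Ω/ℚ) : ℝ) := by
    exact_mod_cast card_centralizer_mul_card_isConj a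
  have hCG : (Nat.card {b : Gal(Ω/ℚ) // IsConj a b} : ℝ) / (Nat.card Gal(Ω/ℚ) : ℝ) =
      1 / (Nat.card (Subgroup.centralizer ({a} : Set Gal(Ω/ℚ))) : ℝ) := by
    rw [div_eq_div_iff hG.ne' hZ.ne', one_mul, mul_comm]
    exact hclass
  refine ⟨(B₁ + B₂) * ((orderOf a : ℝ) /
    (Nat.card (Subgroup.centralizer ({a} : Set Gal(Ω/ℚ))) : ℝ)), fun s hs hs2 => ?_⟩
  rw [hCG]
  have h1 := hB₁ s hs hs2
  have h2 := hB₂ s hs hs2
  have h3 : 1 / (orderOf a : ℝ) * Real.log (1 / (s - 1)) ≤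
      ((Nat.card (Subgroup.centralizer ({a} : Set Gal(Ω/ℚ))) : ℝ) / (orderOf a : ℝ)) *
          psum ℚ (frobSet ℚ Ω {b | IsConj a b}) s + (B₁ + B₂) := by
    linarith
  have h4 := mul_le_mul_of_nonneg_left h3
    (div_nonneg hd0.le hZ.le :
      0 ≤ (orderOf a : ℝ) / (Nat.card (Subgroup.centralizer ({a} : Set Gal(Ω/ℚ))) : ℝ))
  have h5 : (orderOf a : ℝ) / (Nat.card (Subgroup.centralizer ({a} : Set Gal(Ω/ℚ))) : ℝ) *
      (1 / (orderOf a : ℝ) * Real.log (1 / (s - 1))) =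
      1 / (Nat.card (Subgroup.centralizer ({a} : Set Gal(Ω/ℚ))) : ℝ) *
        Real.log (1 / (s - 1)) := by
    field_simp
  have h6 : (orderOf a : ℝ) / (Nat.card (Subgroup.centralizer ({a} : Set Gal(Ω/ℚ))) : ℝ) *
      (((Nat.card (Subgroup.centralizer ({a} : Set Gal(Ω/ℚ))) : ℝ) / (orderOf a : ℝ)) *
          psum ℚ (frobSet ℚ Ω {b | IsConj a b}) s + (B₁ + B₂)) =
      psum ℚ (frobSet ℚ Ω {b | IsConj a b}) s + (B₁ + B₂) * ((orderOf a : ℝ) /
        (Nat.card (Subgroup.centralizer ({a} : Set Gal(Ω/ℚ))) : ℝ)) := by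
    field_simp
  rw [h5, h6] at h4
  exact h4

end main

end Fermat.Agent.T4.helper7
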