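import Mathlib
import Fermat.Agent.P2.helper43_TameBaseFinal
import Fermat.Agent.T4.helper4_RedDefs
import Fermat.Agent.T4.helper61_RedInfty

/-!
# T4 block (I), I-RED box [TAME1], special fibre (helper7)

`helper4.TameBaseStatement A Eb hjb` for every intermediate field `Eb` of `k((q))`
(`k = kA A`, `A` over a prime `ℓ ∤ M`, `4 ∣ M` or `9 ∣ M`) which contains the special fibre
field `FFb A M` of `X₀(M)` and is finite and separable over `k(j̃)`: the tame base function is
the Hauptmodul of level `4` resp. `9` (the one of P2), and the abstract theorem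
`P2.helper43.TameHyp.tame_abs` applies verbatim to `Eb`.

* `tameBase_of_le`   : the generic form;
* `tameBase_of_deg`  : the same with the hypotheses packaged as `helper4.DegStatement`;
* `FFb_le_F1b`       : `FFb A M ≤ F1b A M`;
* `tameBase1_of_sep`, `tameBase1_of_deg` : the instance `(F1 M, F1b A M)`.
-/

set_option autoImplicit false
set_option linter.unusedSectionVars false
set_option linter.unusedVariables false
set_option linter.style.longLine false
set_option linter.style.haveILetI false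

noncomputable section

open HahnSeries IntermediateField AlgebraicCurve ModularCurve Polynomial
open Fermat.Agent.S18.helper19 (Kb kA FF FFb)
open Fermat.Agent.P2.helper29 (GoodPair)
open Fermat.Agent.P2.helper43 Fermat.Agent.P2.helper66
open Fermat.Agent.T4.helper32 (F1 F1C)
open Fermat.Agent.T4.helper4 (F1b jbEl)

namespace Fermat.Agent.T4.helper7

variable (A : ValuationSubring Kb) (Eb : IntermediateField (kA A) (LaurentSeries (kA A)))
  (hjb : jqModC (kA A) ∈ Eb)

/-- `j̃` is transcendental in every intermediate field containing it -/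
theorem transcendental_jbEl : Transcendental (kA A) (jbEl A Eb hjb) := by
  have h : Transcendental (kA A) (jqModC (kA A)) :=
    Fermat.Agent.S28.helper81.transcendental_of_order_neg _
      (by rw [Fermat.Agent.S28.helper81.order_jqModC]; norm_num)
  intro halg
  apply h
  exact halg.algHom Eb.val

variable [FiniteDimensional (kA A)⟮jbEl A Eb hjb⟯ Eb]
  [Algebra.IsSeparable (kA A)⟮jbEl A Eb hjb⟯ Eb]

/-- **[TAME-BASE]** with the Hauptmodul of level `4`. -/
theorem tameBase_four_of_mem (h2 : (2 : kA A) ≠ 0) (hmem : tH4 (kA A) ∈ Eb) :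
    Fermat.Agent.T4.helper4.TameBaseStatement A Eb hjb := by
  haveI : IsAlgClosed (kA A) := Fermat.Agent.P2.helper95.isAlgClosed_residueField A
  have hid : jbEl A Eb hjb * ((⟨tH4 (kA A), hmem⟩ : Eb) ^ 4 * (⟨tH4 (kA A), hmem⟩ + 16)) =
      ((⟨tH4 (kA A), hmem⟩ : Eb) ^ 2 + 256 * ⟨tH4 (kA A), hmem⟩ + 4096) ^ 3 :=
    Subtype.ext (jq_tH4 (kA A))
  have H := tameHyp_four h2 (jbEl A Eb hjb) ⟨tH4 (kA A), hmem⟩
    (transcendental_jbEl A Eb hjb) hid
  obtain ⟨htr, hfd, hsep, hpoles, hdeg⟩ := H.tame_abs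
  refine ⟨⟨tH4 (kA A), hmem⟩, vFour h2, htr, hfd, hsep, hpoles, ?_⟩
  rw [natDegree_four] at hdeg
  rw [card_vFour, ← hdeg]
  push_cast
  ring

/-- **[TAME-BASE]** with the Hauptmodul of level `9`. -/
theorem tameBase_nine_of_mem (h3 : (3 : kA A) ≠ 0) (hmem : tH9 (kA A) ∈ Eb) :
    Fermat.Agent.T4.helper4.TameBaseStatement A Eb hjb := by
  haveI : IsAlgClosed (kA A) := Fermat.Agent.P2.helper95.isAlgClosed_residueField A
  obtain ⟨α, hα⟩ : ∃ α : kA A, α ^ 2 + 9 * α + 27 = 0 := by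
    have hdeg : (X ^ 2 + 9 * X + 27 : (kA A)[X]).degree ≠ 0 := by
      have : (X ^ 2 + 9 * X + 27 : (kA A)[X]).natDegree = 2 := by compute_degree!
      rw [degree_eq_natDegree (ne_zero_of_natDegree_gt (n := 0) (by omega)), this]
      norm_num
    obtain ⟨α, hα⟩ := IsAlgClosed.exists_root _ hdeg
    refine ⟨α, ?_⟩
    simpa only [IsRoot.def, eval_add, eval_mul, eval_pow, eval_X, eval_ofNat] using hα
  have hid : jbEl A Eb hjb * ((⟨tH9 (kA A), hmem⟩ : Eb) ^ 9 *
      ((⟨tH9 (kA A), hmem⟩ : Eb) ^ 2 + 9 * ⟨tH9 (kA A), hmem⟩ + 27)) =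
      ((⟨tH9 (kA A), hmem⟩ : Eb) + 9) ^ 3 *
        ((⟨tH9 (kA A), hmem⟩ : Eb) ^ 3 + 243 * (⟨tH9 (kA A), hmem⟩ : Eb) ^ 2 +
          2187 * ⟨tH9 (kA A), hmem⟩ + 6561) ^ 3 :=
    Subtype.ext (jq_tH9 (kA A))
  have H := tameHyp_nine h3 hα (jbEl A Eb hjb) ⟨tH9 (kA A), hmem⟩
    (transcendental_jbEl A Eb hjb) hid
  obtain ⟨htr, hfd, hsep, hpoles, hdeg⟩ := H.tame_abs
  refine ⟨⟨tH9 (kA A), hmem⟩, vNine h3 hα, htr, hfd, hsep, hpoles, ?_⟩
  rw [natDegree_nine] at hdeg
  rw [card_vNine, ← hdeg]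
  push_cast
  ring

/-- **[TAME-BASE]**, generic form: every field between the special fibre field of `X₀(M)` and
`k((q))` which is finite and separable over `k(j̃)`. -/
theorem tameBase_of_le (M : ℕ) [NeZero M] (h : GoodPair M A) (hle : FFb A M ≤ Eb) :
    Fermat.Agent.T4.helper4.TameBaseStatement A Eb hjb := by
  obtain ⟨hM, ℓ, hℓ, hℓM, hA⟩ := h
  haveI : Fact ℓ.Prime := ⟨hℓ⟩
  rcases hM with h4 | h9
  · have h2 := two_ne_zero_of_four_dvd M A hA hℓM h4
    exact tameBase_four_of_mem A Eb hjb h2 (hle (tH4_mem (kA A) h2 M h4))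
  · have h3 := three_ne_zero_of_nine_dvd M A hA hℓM h9
    exact tameBase_nine_of_mem A Eb hjb h3 (hle (tH9_mem (kA A) h3 M h9))

omit [FiniteDimensional (kA A)⟮jbEl A Eb hjb⟯ Eb] [Algebra.IsSeparable (kA A)⟮jbEl A Eb hjb⟯ Eb] in
/-- **[TAME-BASE]** from the degree statement `helper4.DegStatement` (only its special fibre
half is used). -/
theorem tameBase_of_deg (M : ℕ) [NeZero M] (h : GoodPair M A) (hle : FFb A M ≤ Eb)
    (E : IntermediateField Kb (LaurentSeries Kb)) (hj : jqModC Kb ∈ E)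
    (hdeg : Fermat.Agent.T4.helper4.DegStatement A E Eb hj hjb) :
    Fermat.Agent.T4.helper4.TameBaseStatement A Eb hjb := by
  obtain ⟨-, hfd, hsep, -⟩ := hdeg
  haveI := hfd
  haveI := hsep
  exact tameBase_of_le A Eb hjb M h hle

omit [FiniteDimensional (kA A)⟮jbEl A Eb hjb⟯ Eb] [Algebra.IsSeparable (kA A)⟮jbEl A Eb hjb⟯ Eb] in
/-- the special fibre field of `X₀(M)` lies in the special fibre field of `X₁(M)` -/
theorem FFb_le_F1b (M : ℕ) : FFb A M ≤ F1b A M := by
  show modularFunctionFieldFullC (kA A) M ≤ F1C (kA A) M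
  rw [modularFunctionFieldFullC, F1C]
  exact IntermediateField.adjoin.mono (kA A) _ _ Set.subset_union_left

omit [FiniteDimensional (kA A)⟮jbEl A Eb hjb⟯ Eb] [Algebra.IsSeparable (kA A)⟮jbEl A Eb hjb⟯ Eb] in
/-- **[TAME1]**, special fibre: `TameBaseStatement` for `(F1 M, F1b A M)` at good pairs, from
finiteness and separability of `F1b A M` over `k(j̃)`. -/
theorem tameBase1_of_sep (M : ℕ) [NeZero M] (h : GoodPair M A)
    (hfd : FiniteDimensional
      (kA A)⟮jbEl A (F1b A M) (Fermat.Agent.T4.helper61.jqModC_mem_F1b A M)⟯ (F1b A M))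
    (hsep : Algebra.IsSeparable
      (kA A)⟮jbEl A (F1b A M) (Fermat.Agent.T4.helper61.jqModC_mem_F1b A M)⟯ (F1b A M)) :
    Fermat.Agent.T4.helper4.TameBaseStatement A (F1b A M)
      (Fermat.Agent.T4.helper61.jqModC_mem_F1b A M) :=
  tameBase_of_le A (F1b A M) _ M h (FFb_le_F1b A M)

omit [FiniteDimensional (kA A)⟮jbEl A Eb hjb⟯ Eb] [Algebra.IsSeparable (kA A)⟮jbEl A Eb hjb⟯ Eb] in
/-- **[TAME1]**, special fibre, from `helper4.DegStatement` for `(F1 M, F1b A M)`. -/
theorem tameBase1_of_deg (M : ℕ) [NeZero M] (h : GoodPair M A)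
    (hdeg : Fermat.Agent.T4.helper4.DegStatement A (F1 M) (F1b A M)
      (Fermat.Agent.T4.helper61.jqModC_mem_F1 M)
      (Fermat.Agent.T4.helper61.jqModC_mem_F1b A M)) :
    Fermat.Agent.T4.helper4.TameBaseStatement A (F1b A M)
      (Fermat.Agent.T4.helper61.jqModC_mem_F1b A M) :=
  tameBase_of_deg A (F1b A M) _ M h (FFb_le_F1b A M) (F1 M) _ hdeg

end Fermat.Agent.T4.helper7

end
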