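import Mathlib
import Fermat.Agent.T4.helper4_IgusaDefs
import Fermat.Agent.S28.AnalyticConj
import Fermat.Agent.S28.helper81_Reduce
import Fermat.Agent.S28.helper81_Deriv
import Fermat.Agent.S28.helper81_Assembly
import Fermat.Agent.P2.helper81_ValBase

/-!
# T4 block (I), [IG-JM] (helper81): the pivot `j_M = j(M τ)` in helper32's ring `BS (Γ(M)) M S`

* `conjC M`   : the CONCRETE conjugate data of level `M` (`I = SL₂(ℤ)/Γ₀(M)`, `G = S28.GAlg M`,
                `E i = ` expansion at the coset `i`), a term of `S28.helper81.ConjData M`;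
* `jMB M S hζ hM` : `j(M τ)` as an element of `BS (Gamma M) M S`;
* `EA_jMB`, `EB_jMB_coeff_of_lt`, `EB_one_jMB_coeff` : its expansions;
* `pivotJM`   : **`helper4.Ig.PivotJMStatement M S r`** for every `S ∋ ζ_M, 1/M` and every
                SURJECTIVE `r : S →+* k` with `M ≠ 0` in `k`;
* `pivotJM_rhoC` : the instance `S = subringC A`, `r = rhoC A`, `A` over `ℓ ∤ M`.
-/

set_option autoImplicit false
set_option linter.unusedSectionVars false
set_option linter.unusedVariables false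
set_option linter.style.haveILetI false
set_option linter.style.longLine false

noncomputable section

namespace Fermat.Agent.T4.helper81

open UpperHalfPlane CongruenceSubgroup ModularCurve Polynomial
open Fermat.Agent.T4.helper32.Conj1
open Fermat.Agent.T4.helper4.Ig
open scoped MatrixGroups

variable (M : ℕ) [NeZero M]

/-! ### The concrete conjugate data -/

/-- the concrete conjugate data of level `M` -/
def conjC : Fermat.Agent.S28.helper81.ConjData M where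
  I := Fermat.Agent.S28.IX M
  instFintype := @Fintype.ofFinite _ (Fermat.Agent.S24.helper37.finite_quotient_Gamma0 M)
  instDecEq := Classical.decEq _
  i₀ := Fermat.Agent.S28.i0 M
  G := Fermat.Agent.S28.GAlg M
  instCommRing := inferInstance
  instAlgebra := inferInstance
  E := Fermat.Agent.S28.EI M
  J := Fermat.Agent.S28.JG M
  Jd := Fermat.Agent.S28.JdG M
  U := Fermat.Agent.S28.UG M
  a := Fermat.Agent.S28.aI M
  hJ := Fermat.Agent.S28.EI_JG M
  hJd := fun d hd hNd => Fermat.Agent.S28.EI_i0_JdG M d hd hNd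
  ha := Fermat.Agent.S28.aI_dvd M
  ha₀ := Fermat.Agent.S28.eq_i0_of_aI_eq M
  m := Fermat.Agent.S28.mI M
  hm := Fermat.Agent.S28.item4_inj M
  hΘ := Fermat.Agent.S28.item4_lead M
  hU := Fermat.Agent.S28.item5 M
  hS := Fermat.Agent.S28.item6 M
  hchar := fun S g hS => @Fermat.Agent.S28.item7 M _ (Fermat.Agent.S28.charpolyCoeffs M)
    (@Fintype.ofFinite _ (Fermat.Agent.S24.helper37.finite_quotient_Gamma0 M))
    (Classical.decEq _) S g hS

/-! ### `j(M τ)` -/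

theorem gamma_le_gamma0 : Gamma M ≤ Gamma0 M := by
  intro γ hγ
  rw [Gamma0_mem]
  exact (Gamma_mem.mp hγ).2.2.1

/-- `j(M τ)` as a function of level `Γ₀(M)` -/
def jMG : Fermat.Agent.S28.GAlg M := Fermat.Agent.S28.JdG M M

theorem coe_jMG : ((jMG M : Fermat.Agent.S28.GAlg M) : ℍ → ℂ) = Fermat.Agent.S24.jfunDT M := by
  unfold jMG
  rw [Fermat.Agent.S28.JdG_of_dvd M M dvd_rfl]
  funext τ
  show Fermat.Agent.S24.jfunD M τ = Fermat.Agent.S24.jfunDT M τ
  rw [Fermat.Agent.S24.jfunDT, dif_neg (NeZero.ne M)]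

/-- `j(M τ)` as a function of level `Γ(M)` -/
def jMA : GA (Gamma M) M :=
  ⟨((jMG M : Fermat.Agent.S28.GAlg M) : ℍ → ℂ),
    GAlg_le (Gamma M) M (gamma_le_gamma0 M) (jMG M).2⟩

theorem coe_jMA : ((jMA M : GA (Gamma M) M) : ℍ → ℂ) = Fermat.Agent.S24.jfunDT M := coe_jMG M

/-- expansions of functions of level `Γ₀(M)` only depend on the coset -/
theorem EAlg_eq_EI (γ : SL(2, ℤ)) (g : Fermat.Agent.S28.GAlg M) :
    Fermat.Agent.S28.EAlg M γ g =
      Fermat.Agent.S28.EI M ((γ⁻¹ : SL(2, ℤ)) : Fermat.Agent.S28.IX M) g := by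
  symm
  apply Fermat.Agent.S28.EAlg_eq
  have e : (fun τ : ℍ => (g : ℍ → ℂ)
      (Fermat.Agent.S28.rep M ((γ⁻¹ : SL(2, ℤ)) : Fermat.Agent.S28.IX M) • τ)) =
      fun τ : ℍ => (g : ℍ → ℂ) (γ • τ) := by
    funext τ
    have h := Fermat.Agent.S28.GAlg_rep_eq g
      (Quotient.out ((γ⁻¹ : SL(2, ℤ)) : Fermat.Agent.S28.IX M)) γ⁻¹
      (QuotientGroup.out_eq' _) τ
    rw [inv_inv] at h
    exact h
  rw [e]
  exact Fermat.Agent.S28.hasExp_EAlg M γ g

theorem EA_jMA (γ : SL(2, ℤ)) :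
    EA (Gamma M) M γ (jMA M) =
      Fermat.Agent.S28.EI M ((γ⁻¹ : SL(2, ℤ)) : Fermat.Agent.S28.IX M)
        (Fermat.Agent.S28.JdG M M) := by
  rw [← EAlg_eq_EI]
  exact EA_eq (Gamma M) M γ (jMA M) (Fermat.Agent.S28.hasExp_EAlg M γ (jMG M))

variable (S : Subring ℂ)

theorem jMA_mem_BS (hζ : Fermat.Agent.S28.zetaC M ∈ S) (hM : (M : ℂ)⁻¹ ∈ S) :
    jMA M ∈ BS (Gamma M) M S := by
  rw [mem_BS_iff]
  intro γ n
  rw [EA_jMA]
  exact ((Fermat.Agent.S28.item6 M S hζ hM _ n).2 M dvd_rfl).1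

/-- **the pivot** `j(M τ)` as an element of `BS (Γ(M)) M S` -/
def jMB (hζ : Fermat.Agent.S28.zetaC M ∈ S) (hM : (M : ℂ)⁻¹ ∈ S) : BS (Gamma M) M S :=
  ⟨jMA M, jMA_mem_BS M S hζ hM⟩

theorem coe_jMB (hζ : Fermat.Agent.S28.zetaC M ∈ S) (hM : (M : ℂ)⁻¹ ∈ S) :
    (((jMB M S hζ hM : BS (Gamma M) M S) : GA (Gamma M) M) : ℍ → ℂ) =
      Fermat.Agent.S24.jfunDT M := coe_jMG M

theorem trB_jMB (hζ : Fermat.Agent.S28.zetaC M ∈ S) (hM : (M : ℂ)⁻¹ ∈ S)
    {γ : SL(2, ℤ)} (hγ : γ ∈ Gamma0 M) :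
    trB (Gamma M) M S γ (jMB M S hζ hM) = jMB M S hζ hM := by
  apply Subtype.ext
  apply Subtype.ext
  funext τ
  exact (jMG M).2.1 γ hγ τ

theorem EA_jMB (hζ : Fermat.Agent.S28.zetaC M ∈ S) (hM : (M : ℂ)⁻¹ ∈ S) (γ : SL(2, ℤ)) :
    EA (Gamma M) M γ ((jMB M S hζ hM : BS (Gamma M) M S) : GA (Gamma M) M) =
      Fermat.Agent.S28.EI M ((γ⁻¹ : SL(2, ℤ)) : Fermat.Agent.S28.IX M)
        (Fermat.Agent.S28.JdG M M) :=
  EA_jMA M γ

theorem EA_one_jMB (hζ : Fermat.Agent.S28.zetaC M ∈ S) (hM : (M : ℂ)⁻¹ ∈ S) :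
    EA (Gamma M) M 1 ((jMB M S hζ hM : BS (Gamma M) M S) : GA (Gamma M) M) =
      qExpand ℂ (M * M) (jqModC ℂ) := by
  rw [EA_jMB, inv_one]
  exact Fermat.Agent.S28.EI_i0_JdG M M dvd_rfl inferInstance

variable {k : Type} [Field k] (r : S →+* k)

/-- below `-a²` the reduced expansion at `γ` vanishes (`a = gcd (M, γ₁₀)`) -/
theorem EB_jMB_coeff_of_lt (hζ : Fermat.Agent.S28.zetaC M ∈ S) (hM : (M : ℂ)⁻¹ ∈ S)
    (γ : SL(2, ℤ)) {n : ℤ}
    (hn : n < -((Fermat.Agent.S28.aI M ((γ⁻¹ : SL(2, ℤ)) : Fermat.Agent.S28.IX M) : ℤ) ^ 2)) :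
    (EB (Gamma M) M S r γ (jMB M S hζ hM)).coeff n = 0 := by
  rw [EB_coeff]
  have h0 : (ES (Gamma M) M S γ (jMB M S hζ hM)).coeff n = 0 := by
    apply Subtype.ext
    rw [ES_coeff, EA_jMB]
    obtain ⟨p, -, hp⟩ := Fermat.Agent.S28.item4_lead M
      ((γ⁻¹ : SL(2, ℤ)) : Fermat.Agent.S28.IX M)
    rw [hp]
    exact Fermat.Agent.S28.helper81.coeff_single_mul_ofPowerSeries_of_lt _ _ p hn
  rw [h0, map_zero]

/-- the leading coefficient of the reduced expansion at the identity -/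
theorem EB_one_jMB_coeff (hζ : Fermat.Agent.S28.zetaC M ∈ S) (hM : (M : ℂ)⁻¹ ∈ S) :
    (EB (Gamma M) M S r 1 (jMB M S hζ hM)).coeff (-((M * M : ℕ) : ℤ)) = 1 := by
  rw [EB_coeff]
  have h1 : (ES (Gamma M) M S 1 (jMB M S hζ hM)).coeff (-((M * M : ℕ) : ℤ)) = 1 := by
    apply Subtype.ext
    rw [ES_coeff, EA_one_jMB]
    exact Fermat.Agent.S28.helper81.coeff_qExpand_jqModC_top ℂ (M * M)
  rw [h1, map_one]

/-- the reduced conjugates of the pivot separate the identity coset -/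
theorem mem_Gamma0_of_EB_jMB_eq (hζ : Fermat.Agent.S28.zetaC M ∈ S) (hM : (M : ℂ)⁻¹ ∈ S)
    (γ : SL(2, ℤ))
    (h : EB (Gamma M) M S r γ (jMB M S hζ hM) = EB (Gamma M) M S r 1 (jMB M S hζ hM)) :
    γ ∈ Gamma0 M := by
  set i : Fermat.Agent.S28.IX M := ((γ⁻¹ : SL(2, ℤ)) : Fermat.Agent.S28.IX M) with hi
  have hMpos : 0 < M := Nat.pos_of_ne_zero (NeZero.ne M)
  have hle : Fermat.Agent.S28.aI M i ≤ M := Nat.le_of_dvd hMpos (Fermat.Agent.S28.aI_dvd M i)
  have hge : M ≤ Fermat.Agent.S28.aI M i := by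
    by_contra hcon
    rw [not_le] at hcon
    have hlt : -((M * M : ℕ) : ℤ) < -((Fermat.Agent.S28.aI M i : ℤ) ^ 2) := by
      have h1 : (Fermat.Agent.S28.aI M i : ℤ) < (M : ℤ) := by exact_mod_cast hcon
      have h2 : (0 : ℤ) ≤ (Fermat.Agent.S28.aI M i : ℤ) := Int.natCast_nonneg _
      push_cast
      nlinarith
    have h0 := EB_jMB_coeff_of_lt M S r hζ hM γ hlt
    rw [h, EB_one_jMB_coeff] at h0
    exact one_ne_zero h0
  have ha : Fermat.Agent.S28.aI M i = M := le_antisymm hle hge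
  have hi0 := Fermat.Agent.S28.eq_i0_of_aI_eq M i ha
  have h1 : ((γ⁻¹ : SL(2, ℤ)) : Fermat.Agent.S28.IX M) = ((1 : SL(2, ℤ)) : Fermat.Agent.S28.IX M) :=
    hi0
  have h2 := QuotientGroup.eq.mp h1
  rwa [inv_inv, mul_one] at h2

/-! ### The modular equation over `S` -/

theorem exists_poly (hζ : Fermat.Agent.S28.zetaC M ∈ S) (hM : (M : ℂ)⁻¹ ∈ S) :
    ∃ F : Polynomial (Polynomial S),
      (∏ i, (X - C ((conjC M).E i ((conjC M).Jd M)))) =
        (F.map (Polynomial.mapRingHom S.subtype)).map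
          ((aeval (Fermat.Agent.S28.helper81.xC M) : Polynomial ℂ →ₐ[ℂ] LaurentSeries ℂ) :
            Polynomial ℂ →+* LaurentSeries ℂ) ∧ F.Monic := by
  classical
  obtain ⟨P, hPc, hP⟩ := (conjC M).hchar S ((conjC M).Jd M)
    (fun i n => (((conjC M).hS S hζ hM i n).2 M dvd_rfl).1)
  obtain ⟨F, hF⟩ := Fermat.Agent.S28.helper81.exists_lift_poly₂ S P hPc
  have hinj : Function.Injective
      ((aeval (Fermat.Agent.S28.helper81.xC M) : Polynomial ℂ →ₐ[ℂ] LaurentSeries ℂ) :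
          Polynomial ℂ →+* LaurentSeries ℂ) :=
    Fermat.Agent.S28.helper81.aeval_injective_of_order_neg (Fermat.Agent.S28.helper81.xC M)
      (Fermat.Agent.S28.helper81.xC_order_neg M)
  have hmonic' : (∏ i, (X - C ((conjC M).E i ((conjC M).Jd M)))).Monic :=
    Polynomial.monic_prod_of_monic _ _ (fun i _ => Polynomial.monic_X_sub_C _)
  have hPm : P.Monic := by
    apply Polynomial.monic_of_injective hinj
    rw [← hP]
    exact hmonic'
  have hinj2 : Function.Injective (Polynomial.mapRingHom S.subtype) :=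
    Polynomial.map_injective _ Subtype.val_injective
  refine ⟨F, by rw [hF]; exact hP, ?_⟩
  apply Polynomial.monic_of_injective hinj2
  rw [hF]
  exact hPm

/-- **[IG-JM]** the pivot `j_M`. -/
theorem pivotJM (hζ : Fermat.Agent.S28.zetaC M ∈ S) (hM : (M : ℂ)⁻¹ ∈ S)
    (hr : Function.Surjective r) (hMk : ((M : ℕ) : k) ≠ 0) :
    PivotJMStatement M S r := by
  classical
  refine ⟨jMB M S hζ hM, coe_jMB M S hζ hM, fun γ hγ => trB_jMB M S hζ hM hγ,
    fun γ h => mem_Gamma0_of_EB_jMB_eq M S r hζ hM γ h, ?_⟩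
  obtain ⟨F, hF, hFm⟩ := exists_poly M S hζ hM
  refine ⟨F, ?_, hFm.map _, ?_⟩
  · -- the root
    let φ : BS (Gamma M) M S →+* LaurentSeries ℂ :=
      ((EA (Gamma M) M 1 : GA (Gamma M) M →ₐ[ℂ] LaurentSeries ℂ) :
        GA (Gamma M) M →+* LaurentSeries ℂ).comp (BS (Gamma M) M S).subtype
    have hφinj : Function.Injective φ := fun a b hab =>
      Subtype.ext (EA_one_injective (Gamma M) M hab)
    apply hφinj
    rw [map_zero, Polynomial.hom_eval₂]
    have hcomp : φ.comp (polyB (Gamma M) M S) =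
        ((aeval (Fermat.Agent.S28.helper81.xC M) : Polynomial ℂ →ₐ[ℂ] LaurentSeries ℂ) :
          Polynomial ℂ →+* LaurentSeries ℂ).comp (Polynomial.mapRingHom S.subtype) :=
      RingHom.ext fun P => EA_polyB (Gamma M) M S 1 P
    rw [hcomp, ← Polynomial.eval₂_map]
    have hx : φ (jMB M S hζ hM) = (conjC M).E (conjC M).i₀ ((conjC M).Jd M) := by
      show EA (Gamma M) M 1 ((jMB M S hζ hM : BS (Gamma M) M S) : GA (Gamma M) M) = _
      rw [EA_jMB, inv_one]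
      rfl
    rw [hx]
    exact (conjC M).eval_root _ hF
  · exact (conjC M).irreducible_reduction S hζ hM r hr hMk F hF

/-- **[IG-JM], the instance**: `S = subringC A`, `r = rhoC A` for a valuation ring `A` of `ℚ̄`
over a prime `ℓ ∤ M`. -/
theorem pivotJM_rhoC {ℓ : ℕ} [Fact ℓ.Prime] (A : ValuationSubring Fermat.Agent.S24.Kbar)
    (hA : A.LiesOverPrime ℓ) (hℓM : ¬ ℓ ∣ M) :
    PivotJMStatement M (Fermat.Agent.P2.helper81.subringC A) (Fermat.Agent.P2.helper81.rhoC A) :=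
  pivotJM M _ _ (Fermat.Agent.P2.helper81.zetaC_mem_subringC A M)
    (Fermat.Agent.P2.helper81.natCast_inv_mem_subringC A hA M hℓM)
    (Fermat.Agent.P2.helper81.rhoC_surjective A)
    (Fermat.Agent.P2.helper81.natCast_residueField_ne_zero A hA M hℓM)

end Fermat.Agent.T4.helper81

end
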