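import Mathlib

/-!
# T4 (S48, Deligne–Serre), block (IV): embeddings into `ℂ` (helper82)

* `nonempty_algHom_complex` : a field `K` of cardinality at most the continuum which is an
  algebra over a countable field `F` admits an `F`-algebra homomorphism `K →ₐ[F] ℂ`
  (for any `F`-algebra structure on `ℂ`).
* `exists_ringHom_complex_of_isPrimitiveRoot` : a domain `A` of characteristic zero and of
  cardinality at most the continuum embeds into `ℂ`, and the image of a given primitive `m`-th
  root of unity of `A` can be prescribed.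
-/

set_option autoImplicit false
set_option linter.style.haveILetI false

open Cardinal

namespace Fermat.Agent.T4.helper82

/-- A field of cardinality at most the continuum which is an algebra over a countable field `F`
embeds into `ℂ` over `F`. -/
theorem nonempty_algHom_complex (F K : Type) [Field F] [Field K] [Algebra F K] [Algebra F ℂ]
    (hF : #F ≤ ℵ₀) (hK : #K ≤ 𝔠) : Nonempty (K →ₐ[F] ℂ) := by
  obtain ⟨s, hs⟩ := exists_isTranscendenceBasis F K
  obtain ⟨t, ht⟩ := exists_isTranscendenceBasis F ℂ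
  have htc : #t = 𝔠 := by
    rw [← Cardinal.mk_complex]
    exact (IsAlgClosed.cardinal_eq_cardinal_transcendence_basis_of_aleph0_lt' _ ht hF
      (by rw [Cardinal.mk_complex]; exact aleph0_lt_continuum)).symm
  have hst : #s ≤ #t := by
    rw [htc]; exact (Cardinal.mk_set_le s).trans hK
  obtain ⟨e⟩ := (Cardinal.le_def _ _).1 hst
  -- the algebraically independent family `w ∘ e` in `ℂ`
  have hind : AlgebraicIndependent F (fun i : s => ((e i : t) : ℂ)) :=
    ht.1.comp e e.injective
  -- the subalgebra generated by the transcendence basis of `K`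
  let R₀ := Algebra.adjoin F (Set.range ((↑) : s → K))
  let φ₀ : R₀ →ₐ[F] ℂ :=
    (MvPolynomial.aeval (fun i : s => ((e i : t) : ℂ))).comp hs.1.aevalEquiv.symm.toAlgHom
  have hφ₀ : Function.Injective φ₀ := by
    have h1 : Function.Injective (MvPolynomial.aeval (R := F) (fun i : s => ((e i : t) : ℂ))) :=
      hind
    exact h1.comp hs.1.aevalEquiv.symm.injective
  letI : Algebra R₀ ℂ := φ₀.toRingHom.toAlgebra
  haveI : Algebra.IsAlgebraic R₀ K := hs.isAlgebraic
  haveI : IsScalarTower F R₀ ℂ := IsScalarTower.of_algebraMap_eq (fun x => by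
    show algebraMap F ℂ x = φ₀ (algebraMap F R₀ x)
    rw [AlgHom.commutes])
  haveI : FaithfulSMul R₀ ℂ := (faithfulSMul_iff_algebraMap_injective R₀ ℂ).2 hφ₀
  let θ : K →ₐ[R₀] ℂ := IsAlgClosed.lift
  exact ⟨θ.restrictScalars F⟩

/-- A domain of characteristic zero and of cardinality at most the continuum embeds into `ℂ`,
with a prescribed image for a primitive root of unity. -/
theorem exists_ringHom_complex_of_isPrimitiveRoot (A : Type) [CommRing A] [IsDomain A]
    [CharZero A] (hA : #A ≤ 𝔠) {m : ℕ} (hm : 0 < m) {ζt : A} (hζt : IsPrimitiveRoot ζt m)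
    {ζ : ℂ} (hζ : IsPrimitiveRoot ζ m) :
    ∃ θ : A →+* ℂ, Function.Injective θ ∧ θ ζt = ζ := by
  let K := FractionRing A
  haveI : CharZero K := charZero_of_injective_algebraMap (IsFractionRing.injective A K)
  haveI : Fact (Irreducible (Polynomial.cyclotomic m ℚ)) :=
    ⟨Polynomial.cyclotomic.irreducible_rat hm⟩
  let F := AdjoinRoot (Polynomial.cyclotomic m ℚ)
  have hF : #F ≤ ℵ₀ := by
    have h1 : #F ≤ #(Polynomial ℚ) :=
      Cardinal.mk_le_of_surjective (AdjoinRoot.mk_surjective (g := Polynomial.cyclotomic m ℚ))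
    exact h1.trans (by simp)
  have hK : #K ≤ 𝔠 := by
    rw [Cardinal.mk_fractionRing]; exact hA
  haveI : NeZero (m : K) := ⟨by exact_mod_cast hm.ne'⟩
  haveI : NeZero (m : ℂ) := ⟨by exact_mod_cast hm.ne'⟩
  have hζK : IsPrimitiveRoot (algebraMap A K ζt) m :=
    hζt.map_of_injective (IsFractionRing.injective A K)
  have h1 : (Polynomial.cyclotomic m ℚ).eval₂ (algebraMap ℚ K) (algebraMap A K ζt) = 0 := by
    rw [Polynomial.eval₂_eq_eval_map, Polynomial.map_cyclotomic]
    exact (Polynomial.isRoot_cyclotomic_iff).2 hζK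
  have h2 : (Polynomial.cyclotomic m ℚ).eval₂ (algebraMap ℚ ℂ) ζ = 0 := by
    rw [Polynomial.eval₂_eq_eval_map, Polynomial.map_cyclotomic]
    exact (Polynomial.isRoot_cyclotomic_iff).2 hζ
  letI : Algebra F K := (AdjoinRoot.lift (algebraMap ℚ K) (algebraMap A K ζt) h1).toAlgebra
  letI : Algebra F ℂ := (AdjoinRoot.lift (algebraMap ℚ ℂ) ζ h2).toAlgebra
  obtain ⟨θ⟩ := nonempty_algHom_complex F K hF hK
  refine ⟨(θ : K →+* ℂ).comp (algebraMap A K), ?_, ?_⟩
  · exact (θ : K →+* ℂ).injective.comp (IsFractionRing.injective A K)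
  · have h3 : algebraMap A K ζt = algebraMap F K (AdjoinRoot.root _) := by
      show _ = AdjoinRoot.lift (algebraMap ℚ K) (algebraMap A K ζt) h1 (AdjoinRoot.root _)
      rw [AdjoinRoot.lift_root]
    have h4 : algebraMap F ℂ (AdjoinRoot.root _) = ζ := by
      show AdjoinRoot.lift (algebraMap ℚ ℂ) ζ h2 (AdjoinRoot.root _) = ζ
      rw [AdjoinRoot.lift_root]
    show θ (algebraMap A K ζt) = ζ
    rw [h3, AlgHom.commutes, h4]

end Fermat.Agent.T4.helper82
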