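import Mathlib

/-!
# T4 (S48, Deligne–Serre), block (IV), leaf [DS-LIFT], part A (helper82)

**Square-zero lifting of homomorphisms from finite groups of invertible order.**

`π : A →+* B` a surjective homomorphism of (not necessarily commutative) rings whose kernel has
square zero, `G` a finite group whose order is invertible in `A`.  Then every group homomorphism
`φ̄ : G →* Bˣ` lifts to a group homomorphism `φ : G →* Aˣ` (`lift_sqZero`).

Proof: choose a set-theoretic lift `u`, put `e g h = u g * u h * (u (g * h))⁻¹ - 1` (a 2-cocycle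
with values in the kernel) and correct `u` by `1 + b g`, `b g = - |G|⁻¹ ∑ₖ e g k`
(the usual averaging proof of `H²(G, M) = 0`).
-/

set_option autoImplicit false

namespace Fermat.Agent.T4.helper82

section SqZero

variable {A B : Type*} [Ring A] [Ring B] (π : A →+* B)

/-- a lift of a unit along a surjection with square-zero kernel is a unit -/
lemma isUnit_of_isUnit_map (hπ : Function.Surjective π)
    (hJ : ∀ x y : A, π x = 0 → π y = 0 → x * y = 0) {a : A} (ha : IsUnit (π a)) : IsUnit a := by
  obtain ⟨u, hu⟩ := ha
  obtain ⟨a', ha'⟩ := hπ (↑u⁻¹ : B)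
  have hx0 : π (a * a' - 1) = 0 := by
    rw [map_sub, map_mul, map_one, ha', ← hu, Units.mul_inv, sub_self]
  have hy0 : π (a' * a - 1) = 0 := by
    rw [map_sub, map_mul, map_one, ha', ← hu, Units.inv_mul, sub_self]
  have h1 : a * (a' * (1 - (a * a' - 1))) = 1 := by
    have hsq := hJ _ _ hx0 hx0
    have : a * (a' * (1 - (a * a' - 1))) = 1 - (a * a' - 1) * (a * a' - 1) := by noncomm_ring
    rw [this, hsq, sub_zero]
  have h2 : ((1 - (a' * a - 1)) * a') * a = 1 := by
    have hsq := hJ _ _ hy0 hy0
    have : ((1 - (a' * a - 1)) * a') * a = 1 - (a' * a - 1) * (a' * a - 1) := by noncomm_ring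
    rw [this, hsq, sub_zero]
  have h3 : (1 - (a' * a - 1)) * a' = a' * (1 - (a * a' - 1)) := by
    calc (1 - (a' * a - 1)) * a' = ((1 - (a' * a - 1)) * a') * (a * (a' * (1 - (a * a' - 1)))) := by
          rw [h1, mul_one]
      _ = (((1 - (a' * a - 1)) * a') * a) * (a' * (1 - (a * a' - 1))) := by
          simp only [mul_assoc]
      _ = a' * (1 - (a * a' - 1)) := by rw [h2, one_mul]
  exact isUnit_iff_exists.2 ⟨a' * (1 - (a * a' - 1)), h1, by rw [← h3]; exact h2⟩

variable {G : Type*} [Group G] [Fintype G]

/-- **Square-zero lifting**: `π : A →+* B` surjective with square-zero kernel, `|G|` invertible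
in `A`; every homomorphism `G →* Bˣ` lifts to `G →* Aˣ`. -/
theorem lift_sqZero (hπ : Function.Surjective π)
    (hJ : ∀ x y : A, π x = 0 → π y = 0 → x * y = 0)
    (hN : IsUnit ((Fintype.card G : ℕ) : A)) (φb : G →* Bˣ) :
    ∃ φ : G →* Aˣ, ∀ g, Units.map (π : A →* B) (φ g) = φb g := by
  classical
  -- a set-theoretic lift by units
  have hlift : ∀ g : G, ∃ u : Aˣ, π (u : A) = (φb g : B) := by
    intro g
    obtain ⟨a, ha⟩ := hπ (φb g : B)
    have hu : IsUnit a := isUnit_of_isUnit_map π hπ hJ (by rw [ha]; exact (φb g).isUnit)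
    exact ⟨hu.unit, by rw [IsUnit.unit_spec, ha]⟩
  choose U hU using hlift
  -- notation
  set u : G → A := fun g => (U g : A) with hu
  set v : G → A := fun g => ((U g)⁻¹ : Aˣ) with hv
  have huv : ∀ g, u g * v g = 1 := fun g => (U g).mul_inv
  have hvu : ∀ g, v g * u g = 1 := fun g => (U g).inv_mul
  have hπu : ∀ g, π (u g) = (φb g : B) := hU
  have hπv : ∀ g, π (v g) = ((φb g)⁻¹ : Bˣ) := by
    intro g
    have h1 : π (u g) * π (v g) = 1 := by rw [← map_mul, huv, map_one]
    rw [hπu] at h1
    exact (Units.inv_eq_of_mul_eq_one_right h1).symm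
  -- the cocycle
  set e : G → G → A := fun g h => u g * u h * v (g * h) - 1 with he
  have heJ : ∀ g h, π (e g h) = 0 := by
    intro g h
    simp only [he, map_sub, map_mul, map_one, hπu, hπv]
    rw [← Units.val_mul, ← Units.val_mul, mul_inv_cancel, Units.val_one, sub_self]
  have hR1 : ∀ g h, u g * u h = (1 + e g h) * u (g * h) := by
    intro g h
    simp only [he]
    rw [add_sub_cancel, mul_assoc (u g * u h), hvu, mul_one]
  -- elements of the kernel multiply to zero
  have hJJ : ∀ x y : A, π x = 0 → π y = 0 → x * y = 0 := hJ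
  have hconj : ∀ (g : G) (x : A), π x = 0 → π (u g * x * v g) = 0 := by
    intro g x hx
    rw [map_mul, map_mul, hx, mul_zero, zero_mul]
  -- cocycle identity
  have hC : ∀ g h k, e g h + e (g * h) k = u g * e h k * v g + e g (h * k) := by
    intro g h k
    have h1 : u g * u h * u k = (1 + e g h + e (g * h) k) * u (g * h * k) := by
      rw [hR1 g h, mul_assoc, hR1 (g * h) k, ← mul_assoc]
      congr 1
      have := hJJ _ _ (heJ g h) (heJ (g * h) k)
      calc (1 + e g h) * (1 + e (g * h) k) = 1 + e g h + e (g * h) k + e g h * e (g * h) k := by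
            noncomm_ring
        _ = 1 + e g h + e (g * h) k := by rw [this, add_zero]
    have h2 : u g * u h * u k = (1 + e g (h * k) + u g * e h k * v g) * u (g * h * k) := by
      rw [mul_assoc, hR1 h k]
      have h3 : u g * ((1 + e h k) * u (h * k)) =
          u g * u (h * k) + (u g * e h k * v g) * (u g * u (h * k)) := by
        have : (u g * e h k * v g) * (u g * u (h * k)) = u g * e h k * (v g * u g) * u (h * k) := by
          noncomm_ring
        rw [this, hvu]
        noncomm_ring
      rw [h3, hR1 g (h * k), ← mul_assoc g h k]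
      have := hJJ _ _ (hconj g _ (heJ h k)) (heJ g (h * k))
      calc (1 + e g (h * k)) * u (g * h * k) +
            u g * e h k * v g * ((1 + e g (h * k)) * u (g * h * k))
          = (1 + e g (h * k) + u g * e h k * v g + (u g * e h k * v g) * e g (h * k)) *
              u (g * h * k) := by noncomm_ring
        _ = (1 + e g (h * k) + u g * e h k * v g) * u (g * h * k) := by rw [this, add_zero]
    have h4 := h1.symm.trans h2
    have h5 := congrArg (fun z => z * v (g * h * k)) h4
    simp only [mul_assoc, huv, mul_one] at h5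
    have h6 : 1 + (e g h + e (g * h) k) = 1 + (e g (h * k) + u g * (e h k * v g)) := by
      rw [← add_assoc, ← add_assoc]
      exact h5
    have h7 := add_left_cancel h6
    rw [h7]
    noncomm_ring
  -- the correction
  obtain ⟨Nu, hNu⟩ := hN
  set ν : A := ((Nu⁻¹ : Aˣ) : A) with hν
  have hνN : ν * (Fintype.card G : A) = 1 := by
    rw [hν, ← hNu]
    exact Nu.inv_mul
  have hcomm : ∀ x : A, ν * x = x * ν := by
    intro x
    have h1 : (Nu : A) * x = x * (Nu : A) := by
      rw [hNu]
      exact (Nat.cast_commute _ x).eq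
    calc ν * x = ν * x * ((Nu : A) * ν) := by rw [hν, Nu.mul_inv, mul_one]
      _ = ν * (x * (Nu : A)) * ν := by noncomm_ring
      _ = ν * ((Nu : A) * x) * ν := by rw [h1]
      _ = (ν * (Nu : A)) * x * ν := by noncomm_ring
      _ = x * ν := by rw [hν, Nu.inv_mul, one_mul]
  set b : G → A := fun g => - (ν * ∑ k : G, e g k) with hb
  have hbJ : ∀ g, π (b g) = 0 := by
    intro g
    simp only [hb, map_neg, map_mul, map_sum, heJ, Finset.sum_const_zero, mul_zero, neg_zero]
  -- key identity for b
  have hkey : ∀ g h, b (g * h) = b g + e g h + u g * b h * v g := by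
    intro g h
    have hsum : ∑ k : G, (u g * e h k * v g - e (g * h) k + e g k - e g h) = 0 := by
      have h1 : ∀ k : G, u g * e h k * v g - e (g * h) k + e g k - e g h =
          e g k - e g (h * k) := by
        intro k
        have := hC g h k
        have h2 : u g * e h k * v g = e g h + e (g * h) k - e g (h * k) := by
          rw [this]; abel
        rw [h2]; abel
      rw [Finset.sum_congr rfl (fun k _ => h1 k), Finset.sum_sub_distrib]
      rw [sub_eq_zero]
      exact (Equiv.sum_comp (Equiv.mulLeft h) (fun k => e g k)).symm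
    have hsum' : u g * (∑ k : G, e h k) * v g - ∑ k : G, e (g * h) k + ∑ k : G, e g k -
        (Fintype.card G : A) * e g h = 0 := by
      rw [← hsum]
      simp only [Finset.sum_sub_distrib, Finset.sum_add_distrib, Finset.sum_const,
        Finset.card_univ, nsmul_eq_mul, Finset.mul_sum, Finset.sum_mul]
    have h3 : ν * (u g * (∑ k : G, e h k) * v g - ∑ k : G, e (g * h) k + ∑ k : G, e g k -
        (Fintype.card G : A) * e g h) = 0 := by rw [hsum', mul_zero]
    have h4 : ν * ((Fintype.card G : A) * e g h) = e g h := by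
      rw [← mul_assoc, hνN, one_mul]
    have h5 : u g * b h * v g = - (ν * (u g * (∑ k : G, e h k) * v g)) := by
      simp only [hb]
      rw [mul_neg, neg_mul, ← mul_assoc (u g) ν, ← hcomm (u g)]
      noncomm_ring
    rw [h5]
    simp only [hb]
    rw [mul_sub, mul_add, mul_sub, h4] at h3
    have h6 : ν * ∑ k : G, e (g * h) k =
        ν * (u g * (∑ k : G, e h k) * v g) + ν * ∑ k : G, e g k - e g h := by
      have := sub_eq_zero.1 h3
      rw [← this]
      abel
    rw [h6]
    abel
  -- the corrected map
  have hmul : ∀ g h, (1 + b (g * h)) * u (g * h) = ((1 + b g) * u g) * ((1 + b h) * u h) := by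
    intro g h
    have h1 : ((1 + b g) * u g) * ((1 + b h) * u h) =
        (1 + b g) * (u g * u h) + (1 + b g) * ((u g * b h * v g) * (u g * u h)) := by
      have : (u g * b h * v g) * (u g * u h) = u g * b h * (v g * u g) * u h := by noncomm_ring
      rw [this, hvu]
      noncomm_ring
    rw [h1, hR1 g h, hkey g h]
    have z1 := hJJ _ _ (hbJ g) (heJ g h)
    have z2 := hJJ _ _ (hbJ g) (hconj g _ (hbJ h))
    have z3 := hJJ _ _ (hconj g _ (hbJ h)) (heJ g h)
    calc (1 + (b g + e g h + u g * b h * v g)) * u (g * h)
        = (1 + b g + e g h + u g * b h * v g + b g * e g h + b g * (u g * b h * v g) +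
            (u g * b h * v g) * e g h + b g * ((u g * b h * v g) * e g h)) * u (g * h) := by
          rw [z1, z2, z3]
          noncomm_ring
      _ = (1 + b g) * ((1 + e g h) * u (g * h)) +
            (1 + b g) * (u g * b h * v g * ((1 + e g h) * u (g * h))) := by
          noncomm_ring
  have hunit : ∀ g, IsUnit ((1 + b g) * u g) := by
    intro g
    refine IsUnit.mul ?_ (U g).isUnit
    refine isUnit_of_isUnit_map π hπ hJ ?_
    rw [map_add, map_one, hbJ, add_zero]
    exact isUnit_one
  have hone : (1 + b 1) * u 1 = 1 := by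
    have h1 := hmul 1 1
    rw [mul_one] at h1
    obtain ⟨w, hw⟩ := hunit 1
    rw [← hw] at h1 ⊢
    have : (w : A) * 1 = (w : A) * (w : A) := by rw [mul_one]; exact h1
    exact (w.mul_right_inj.1 this).symm
  let ψ : G →* A :=
    { toFun := fun g => (1 + b g) * u g
      map_one' := hone
      map_mul' := fun g h => hmul g h }
  refine ⟨ψ.toHomUnits, fun g => ?_⟩
  apply Units.ext
  show π ((1 + b g) * u g) = (φb g : B)
  rw [map_mul, map_add, map_one, hbJ, add_zero, one_mul, hπu]

end SqZero

end Fermat.Agent.T4.helper82
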