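import Mathlib
import Fermat.Agent.T4.helper82_LiftSqZero

/-!
# T4 (S48, Deligne–Serre), block (IV), leaf [DS-LIFT], part B (helper82)

**Lifting representations of finite groups of invertible order along adic completions.**

`R` a commutative ring which is `I`-adically complete, `G` a finite group whose order is a unit
of `R`.  Then every homomorphism `G →* GL n (R ⧸ I)` lifts to a homomorphism `G →* GL n R`
(`lift_adic`).

* `lift_step` : one step `R ⧸ I ^ m ← R ⧸ I ^ (m + 1)` (`m ≥ 1`), from `lift_sqZero`;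
* `exists_lift_of_compatible` : the limit of a compatible system of homomorphisms
  `G →* GL n (R ⧸ I ^ (m + 1))`;
* `lift_adic` : the lifting theorem.
-/

set_option autoImplicit false

open Matrix

namespace Fermat.Agent.T4.helper82

section Adic

variable {R : Type*} [CommRing R] (I : Ideal R)
variable {n : Type*} [Fintype n] [DecidableEq n]
variable {G : Type*} [Group G] [Fintype G]

/-- the kernel of `R ⧸ I ^ (m + 1) → R ⧸ I ^ m` has square zero for `m ≥ 1` -/
lemma factorPowSucc_mul_eq_zero (m : ℕ) (hm : 1 ≤ m) (x y : R ⧸ I ^ (m + 1))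
    (hx : Ideal.Quotient.factorPowSucc I m x = 0)
    (hy : Ideal.Quotient.factorPowSucc I m y = 0) : x * y = 0 := by
  obtain ⟨a, rfl⟩ := Ideal.Quotient.mk_surjective x
  obtain ⟨b, rfl⟩ := Ideal.Quotient.mk_surjective y
  rw [Ideal.Quotient.factor_mk, Ideal.Quotient.eq_zero_iff_mem] at hx hy
  rw [← map_mul, Ideal.Quotient.eq_zero_iff_mem]
  have h1 : a * b ∈ I ^ m * I ^ m := Ideal.mul_mem_mul hx hy
  rw [← pow_add] at h1
  exact Ideal.pow_le_pow_right (by omega) h1

/-- the kernel of `Mₙ(R ⧸ I ^ (m + 1)) → Mₙ(R ⧸ I ^ m)` has square zero for `m ≥ 1` -/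
lemma mapMatrix_factorPowSucc_mul_eq_zero (m : ℕ) (hm : 1 ≤ m)
    (X Y : Matrix n n (R ⧸ I ^ (m + 1)))
    (hX : (Ideal.Quotient.factorPowSucc I m).mapMatrix X = 0)
    (hY : (Ideal.Quotient.factorPowSucc I m).mapMatrix Y = 0) : X * Y = 0 := by
  ext i j
  rw [Matrix.mul_apply, Matrix.zero_apply]
  refine Finset.sum_eq_zero fun k _ => ?_
  refine factorPowSucc_mul_eq_zero I m hm _ _ ?_ ?_
  · have := congrFun (congrFun hX i) k
    simpa using this
  · have := congrFun (congrFun hY k) j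
    simpa using this

lemma mapMatrix_surjective {S T : Type*} [Semiring S] [Semiring T] (f : S →+* T)
    (hf : Function.Surjective f) :
    Function.Surjective (f.mapMatrix : Matrix n n S →+* Matrix n n T) := by
  intro M
  choose g hg using hf
  refine ⟨Matrix.of fun i j => g (M i j), ?_⟩
  ext i j
  simp [hg]

/-- **One lifting step** `R ⧸ I ^ m ← R ⧸ I ^ (m + 1)`, `m ≥ 1`. -/
theorem lift_step (hN : IsUnit ((Fintype.card G : ℕ) : R)) (m : ℕ) (hm : 1 ≤ m)
    (ψ : G →* GL n (R ⧸ I ^ m)) :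
    ∃ ψ' : G →* GL n (R ⧸ I ^ (m + 1)), ∀ g,
      Matrix.GeneralLinearGroup.map (Ideal.Quotient.factorPowSucc I m) (ψ' g) = ψ g := by
  have hsurj : Function.Surjective
      ((Ideal.Quotient.factorPowSucc I m).mapMatrix :
        Matrix n n (R ⧸ I ^ (m + 1)) →+* Matrix n n (R ⧸ I ^ m)) :=
    mapMatrix_surjective _ (Ideal.Quotient.factor_surjective _)
  have hunit : IsUnit ((Fintype.card G : ℕ) : Matrix n n (R ⧸ I ^ (m + 1))) := by
    have h1 := hN.map ((Matrix.scalar n).comp (Ideal.Quotient.mk (I ^ (m + 1))))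
    rwa [map_natCast] at h1
  obtain ⟨φ, hφ⟩ := lift_sqZero
    ((Ideal.Quotient.factorPowSucc I m).mapMatrix :
        Matrix n n (R ⧸ I ^ (m + 1)) →+* Matrix n n (R ⧸ I ^ m)) hsurj
    (fun X Y hX hY => mapMatrix_factorPowSucc_mul_eq_zero I m hm X Y hX hY) hunit ψ
  exact ⟨φ, hφ⟩

variable [IsAdicComplete I R]

omit [Fintype G] in
/-- **Limit of a compatible system** of homomorphisms `G →* GL n (R ⧸ I ^ (m + 1))`. -/
theorem exists_lift_of_compatible (ψ : ∀ m : ℕ, G →* GL n (R ⧸ I ^ (m + 1)))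
    (hψ : ∀ m g, Matrix.GeneralLinearGroup.map (Ideal.Quotient.factorPowSucc I (m + 1))
      (ψ (m + 1) g) = ψ m g) :
    ∃ φ : G →* GL n R, ∀ m g,
      Matrix.GeneralLinearGroup.map (Ideal.Quotient.mk (I ^ (m + 1))) (φ g) = ψ m g := by
  classical
  -- entries and representatives
  have hrep : ∀ (m : ℕ) (g : G) (i j : n), ∃ a : R,
      Ideal.Quotient.mk (I ^ (m + 1)) a = (ψ m g : Matrix n n (R ⧸ I ^ (m + 1))) i j :=
    fun m g i j => Ideal.Quotient.mk_surjective _
  choose rep hrep using hrep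
  -- compatibility of the representatives
  have hcompat : ∀ (m k : ℕ), m ≤ k → ∀ (g : G) (i j : n),
      rep m g i j - rep k g i j ∈ I ^ (m + 1) := by
    intro m k hmk g i j
    induction k, hmk using Nat.le_induction with
    | base => rw [sub_self]; exact Ideal.zero_mem _
    | succ k hmk ih =>
      have h1 : rep k g i j - rep (k + 1) g i j ∈ I ^ (k + 1) := by
        rw [← Ideal.Quotient.eq, hrep, ← hψ k g]
        rw [Matrix.GeneralLinearGroup.map_apply, ← hrep (k + 1) g i j,
          Ideal.Quotient.factor_mk]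
      have h2 : rep k g i j - rep (k + 1) g i j ∈ I ^ (m + 1) :=
        Ideal.pow_le_pow_right (by omega) h1
      have := Ideal.add_mem _ ih h2
      rwa [sub_add_sub_cancel] at this
  -- the limit
  have hlim : ∀ (g : G) (i j : n), ∃ L : R, ∀ m, rep m g i j - L ∈ I ^ (m + 1) := by
    intro g i j
    obtain ⟨L, hL⟩ := IsPrecomplete.prec' (I := I) (M := R)
      (fun m => match m with
        | 0 => 0
        | m + 1 => rep m g i j) (by
        intro m k hmk
        rw [SModEq.sub_mem, smul_eq_mul, Ideal.mul_top]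
        match m, k, hmk with
        | 0, _, _ => rw [pow_zero, Ideal.one_eq_top]; exact Submodule.mem_top
        | m + 1, 0, h => omega
        | m + 1, k + 1, h => exact hcompat m k (by omega) g i j)
    refine ⟨L, fun m => ?_⟩
    have := hL (m + 1)
    rw [SModEq.sub_mem, smul_eq_mul, Ideal.mul_top] at this
    exact this
  choose L hL using hlim
  set Φ : G → Matrix n n R := fun g => Matrix.of fun i j => L g i j with hΦ
  have hΦmap : ∀ (m : ℕ) (g : G), (Ideal.Quotient.mk (I ^ (m + 1))).mapMatrix (Φ g) =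
      (ψ m g : Matrix n n (R ⧸ I ^ (m + 1))) := by
    intro m g
    ext i j
    rw [RingHom.mapMatrix_apply, Matrix.map_apply, ← hrep m g i j]
    symm
    rw [Ideal.Quotient.eq]
    exact hL g i j m
  have hzero : ∀ X : Matrix n n R,
      (∀ m : ℕ, (Ideal.Quotient.mk (I ^ (m + 1))).mapMatrix X = 0) → X = 0 := by
    intro X hX
    ext i j
    rw [Matrix.zero_apply]
    refine IsHausdorff.haus' (I := I) (M := R) _ fun m => ?_
    rw [SModEq.zero, smul_eq_mul, Ideal.mul_top]
    have h1 := congrFun (congrFun (hX m) i) j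
    rw [RingHom.mapMatrix_apply, Matrix.map_apply, Matrix.zero_apply,
      Ideal.Quotient.eq_zero_iff_mem] at h1
    exact Ideal.pow_le_pow_right (Nat.le_succ m) h1
  have hmul : ∀ g h, Φ (g * h) = Φ g * Φ h := by
    intro g h
    rw [← sub_eq_zero]
    refine hzero _ fun m => ?_
    rw [map_sub, map_mul, hΦmap, hΦmap, hΦmap, map_mul, Units.val_mul, sub_self]
  have hone : Φ 1 = 1 := by
    rw [← sub_eq_zero]
    refine hzero _ fun m => ?_
    rw [map_sub, map_one, hΦmap, map_one, Units.val_one, sub_self]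
  let φ0 : G →* Matrix n n R :=
    { toFun := Φ
      map_one' := hone
      map_mul' := hmul }
  refine ⟨φ0.toHomUnits, fun m g => ?_⟩
  apply Units.ext
  exact hΦmap m g

/-- **[DS-LIFT], adic form.** `R` is `I`-adically complete and `|G|` is a unit of `R`: every
homomorphism `G →* GL n (R ⧸ I)` lifts to `G →* GL n R`. -/
theorem lift_adic (hN : IsUnit ((Fintype.card G : ℕ) : R)) (φb : G →* GL n (R ⧸ I)) :
    ∃ φ : G →* GL n R, ∀ g, Matrix.GeneralLinearGroup.map (Ideal.Quotient.mk I) (φ g) = φb g := by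
  classical
  have h1 : I = I ^ (0 + 1) := by rw [zero_add, pow_one]
  let ψ0 : G →* GL n (R ⧸ I ^ (0 + 1)) :=
    (Matrix.GeneralLinearGroup.map (Ideal.quotEquivOfEq h1 : R ⧸ I →+* R ⧸ I ^ (0 + 1))).comp φb
  let ψ : ∀ m : ℕ, G →* GL n (R ⧸ I ^ (m + 1)) := fun m =>
    Nat.rec (motive := fun m => G →* GL n (R ⧸ I ^ (m + 1))) ψ0
      (fun m ψm => Classical.choose (lift_step I hN (m + 1) (Nat.succ_pos m) ψm)) m
  have hψ : ∀ m g, Matrix.GeneralLinearGroup.map (Ideal.Quotient.factorPowSucc I (m + 1))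
      (ψ (m + 1) g) = ψ m g := fun m g =>
    Classical.choose_spec (lift_step I hN (m + 1) (Nat.succ_pos m) (ψ m)) g
  obtain ⟨φ, hφ⟩ := exists_lift_of_compatible I ψ hψ
  refine ⟨φ, fun g => ?_⟩
  have h2 := hφ 0 g
  apply Units.ext
  ext i j
  have h3 := congrArg (fun M : GL n (R ⧸ I ^ (0 + 1)) =>
    (Ideal.quotEquivOfEq h1).symm ((M : Matrix n n (R ⧸ I ^ (0 + 1))) i j)) h2
  simp only [Matrix.GeneralLinearGroup.map_apply] at h3
  rw [Matrix.GeneralLinearGroup.map_apply]
  have h4 : (ψ 0 g : Matrix n n (R ⧸ I ^ (0 + 1))) i j =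
      Ideal.quotEquivOfEq h1 ((φb g : Matrix n n (R ⧸ I)) i j) := rfl
  rw [h4, RingEquiv.symm_apply_apply] at h3
  rw [← h3]
  show _ = (Ideal.quotEquivOfEq h1).symm (Ideal.Quotient.mk (I ^ (0 + 1)) ((φ g : Matrix n n R) i j))
  rw [RingEquiv.eq_symm_apply, Ideal.quotEquivOfEq_mk]

end Adic

end Fermat.Agent.T4.helper82
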