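import Mathlib
import Fermat.Agent.T4.helper82_LiftAdic

/-!
# T4 (S48, Deligne–Serre), block (IV), leaf [DS-LIFT], part C (helper82)

**Lifting a mod-`ℓ` representation of a finite group of order prime to `ℓ` to `ℂ`.**

* `lift_padic` : `ρ̄ : G →* GL n (ZMod ℓ)`, `ℓ ∤ |G|`, lifts to `ρ : G →* GL n ℤ_[ℓ]`.
* `nonempty_padic_ringHom_complex` : there is a ring homomorphism `ℚ_[ℓ] →+* ℂ`.
* `isIntegral_trace_of_pow_eq_one`, `isIntegral_det_of_pow_eq_one` : trace and determinant of a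
  complex matrix of finite order are algebraic integers.
* `ds_lift` : **[DS-LIFT]** for every prime `ℓ` there are a field `k` of characteristic `ℓ` and a
  ring homomorphism `r` from the algebraic integers of `ℂ` to `k` such that every
  `ρ̄ : G →* GL n (ZMod ℓ)` (`G` finite, `ℓ ∤ |G|`) has a lift `ρ : G →* GL n ℂ` with the same
  kernel, whose traces and determinants are algebraic integers reducing under `r` to those of `ρ̄`.
-/

set_option autoImplicit false
set_option linter.style.haveILetI false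

open Matrix Cardinal

namespace Fermat.Agent.T4.helper82

section Padic

variable (ℓ : ℕ) [hℓ : Fact ℓ.Prime]
variable {n : Type*} [Fintype n] [DecidableEq n]
variable {G : Type*} [Group G]

/-- the identification `ℤ_[ℓ] ⧸ 𝔪 ≃ ZMod ℓ` -/
noncomputable def padicResEquiv : (ℤ_[ℓ] ⧸ IsLocalRing.maximalIdeal ℤ_[ℓ]) ≃+* ZMod ℓ :=
  (Ideal.quotEquivOfEq (PadicInt.ker_toZMod (p := ℓ)).symm).trans
    (RingHom.quotientKerEquivOfSurjective (ZMod.ringHom_surjective PadicInt.toZMod))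

lemma padicResEquiv_mk (x : ℤ_[ℓ]) :
    padicResEquiv ℓ (Ideal.Quotient.mk _ x) = PadicInt.toZMod x := by
  unfold padicResEquiv
  rw [RingEquiv.trans_apply, Ideal.quotEquivOfEq_mk]
  rfl

/-- **Lifting to `ℤ_[ℓ]`.** -/
theorem lift_padic [Fintype G] (hG : ¬ ℓ ∣ Fintype.card G) (ρb : G →* GL n (ZMod ℓ)) :
    ∃ ρ : G →* GL n ℤ_[ℓ], ∀ g,
      Matrix.GeneralLinearGroup.map (PadicInt.toZMod (p := ℓ)) (ρ g) = ρb g := by
  have hunit : IsUnit ((Fintype.card G : ℕ) : ℤ_[ℓ]) := by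
    rw [PadicInt.isUnit_iff, PadicInt.norm_natCast_eq_one_iff]
    exact (Nat.Prime.coprime_iff_not_dvd hℓ.out).2 hG
  obtain ⟨φ, hφ⟩ := lift_adic (IsLocalRing.maximalIdeal ℤ_[ℓ]) hunit
    ((Matrix.GeneralLinearGroup.map ((padicResEquiv ℓ).symm :
      ZMod ℓ →+* ℤ_[ℓ] ⧸ IsLocalRing.maximalIdeal ℤ_[ℓ])).comp ρb)
  refine ⟨φ, fun g => ?_⟩
  apply Units.ext
  ext i j
  have h1 := congrArg (fun M : GL n (ℤ_[ℓ] ⧸ IsLocalRing.maximalIdeal ℤ_[ℓ]) =>
    padicResEquiv ℓ ((M : Matrix n n (ℤ_[ℓ] ⧸ IsLocalRing.maximalIdeal ℤ_[ℓ])) i j)) (hφ g)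
  simp only [Matrix.GeneralLinearGroup.map_apply, MonoidHom.comp_apply, padicResEquiv_mk] at h1
  rw [Matrix.GeneralLinearGroup.map_apply, h1]
  exact (padicResEquiv ℓ).apply_symm_apply _

end Padic

section Embedding

variable (ℓ : ℕ) [hℓ : Fact ℓ.Prime]

lemma mk_padic_le_continuum : #ℚ_[ℓ] ≤ 𝔠 := by
  have h1 : #ℚ_[ℓ] ≤ #(CauSeq ℚ (padicNorm ℓ)) :=
    Cardinal.mk_le_of_surjective (f := (Padic.mk : PadicSeq ℓ → ℚ_[ℓ]))
      (fun x => Quotient.inductionOn x fun f => ⟨f, rfl⟩)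
  have h2 : #(CauSeq ℚ (padicNorm ℓ)) ≤ #(ℕ → ℚ) :=
    Cardinal.mk_le_of_injective (f := fun f : CauSeq ℚ (padicNorm ℓ) => (f : ℕ → ℚ))
      (fun f g h => Subtype.ext h)
  have h3 : #(ℕ → ℚ) = 𝔠 := by
    rw [← Cardinal.power_def, Cardinal.mkRat, Cardinal.mk_nat, Cardinal.aleph0_power_aleph0]
  exact (h1.trans h2).trans h3.le

/-- There is a field embedding `ℚ_[ℓ] → ℂ`. -/
theorem nonempty_padic_ringHom_complex : Nonempty (ℚ_[ℓ] →+* ℂ) := by
  have hc : #(AlgebraicClosure ℚ_[ℓ]) = 𝔠 := by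
    apply le_antisymm
    · have h1 := Algebra.IsAlgebraic.cardinalMk_le_max ℚ_[ℓ] (AlgebraicClosure ℚ_[ℓ])
      refine h1.trans (max_le (mk_padic_le_continuum ℓ) Cardinal.aleph0_le_continuum)
    · have h1 : 𝔠 ≤ #ℚ_[ℓ] := continuum_le_cardinal_of_nontriviallyNormedField ℚ_[ℓ]
      exact h1.trans (Cardinal.mk_le_of_injective
        (algebraMap ℚ_[ℓ] (AlgebraicClosure ℚ_[ℓ])).injective)
  have hK : ℵ₀ < #(AlgebraicClosure ℚ_[ℓ]) := by
    rw [hc]; exact Cardinal.aleph0_lt_continuum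
  have hKL : Nonempty (AlgebraicClosure ℚ_[ℓ] ≃ ℂ) := by
    rw [← Cardinal.eq, hc, Cardinal.mk_complex]
  obtain ⟨e⟩ := IsAlgClosed.ringEquiv_of_equiv_of_charZero hK hKL
  exact ⟨(e : AlgebraicClosure ℚ_[ℓ] →+* ℂ).comp (algebraMap ℚ_[ℓ] (AlgebraicClosure ℚ_[ℓ]))⟩

end Embedding

section Integral

variable {n : Type*} [Fintype n] [DecidableEq n]

lemma isIntegral_of_mem_roots_charpoly {A : Matrix n n ℂ} {m : ℕ} (hm : 0 < m)
    (hA : A ^ m = 1) {μ : ℂ} (hμ : μ ∈ A.charpoly.roots) : IsIntegral ℤ μ := by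
  have h1 : μ ∈ spectrum ℂ A := by
    rw [Matrix.mem_spectrum_iff_isRoot_charpoly]
    exact (Polynomial.mem_roots'.1 hμ).2
  have h2 : μ ^ m ∈ spectrum ℂ (A ^ m) := spectrum.pow_mem_pow A m h1
  rw [hA] at h2
  have h3 : μ ^ m = 1 := by
    by_contra hne
    apply h2
    rw [spectrum.mem_resolventSet_iff]
    have h4 : algebraMap ℂ (Matrix n n ℂ) (μ ^ m) - 1 =
        algebraMap ℂ (Matrix n n ℂ) (μ ^ m - 1) := by rw [map_sub, map_one]
    rw [h4]
    exact (IsUnit.mk0 _ (sub_ne_zero.2 hne)).map _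
  exact ⟨Polynomial.X ^ m - 1, Polynomial.monic_X_pow_sub_C (1 : ℤ) hm.ne', by
    simp [h3]⟩

/-- the trace of a complex matrix of finite order is an algebraic integer -/
theorem isIntegral_trace_of_pow_eq_one {A : Matrix n n ℂ} {m : ℕ} (hm : 0 < m)
    (hA : A ^ m = 1) : IsIntegral ℤ A.trace := by
  rw [Matrix.trace_eq_sum_roots_charpoly]
  exact IsIntegral.multiset_sum fun μ hμ => isIntegral_of_mem_roots_charpoly hm hA hμ

/-- the determinant of a complex matrix of finite order is an algebraic integer -/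
theorem isIntegral_det_of_pow_eq_one {A : Matrix n n ℂ} {m : ℕ} (hm : 0 < m)
    (hA : A ^ m = 1) : IsIntegral ℤ A.det := by
  rw [Matrix.det_eq_prod_roots_charpoly]
  exact IsIntegral.multiset_prod fun μ hμ => isIntegral_of_mem_roots_charpoly hm hA hμ

end Integral

section Final

universe u v

variable (ℓ : ℕ) [hℓ : Fact ℓ.Prime]

/-- a ring homomorphism `τ : ℤ_[ℓ] →+* k` into a field of characteristic `ℓ` factors through
`toZMod`. -/
lemma padic_ringHom_eq_castHom {k : Type*} [Field k] [CharP k ℓ] (τ : ℤ_[ℓ] →+* k) (y : ℤ_[ℓ]) :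
    τ y = ZMod.castHom (dvd_refl ℓ) k (PadicInt.toZMod y) := by
  have h1 : y - ((PadicInt.toZMod y).val : ℤ_[ℓ]) ∈ RingHom.ker (PadicInt.toZMod (p := ℓ)) := by
    rw [RingHom.mem_ker, map_sub, map_natCast, ZMod.natCast_zmod_val, sub_self]
  rw [PadicInt.ker_toZMod, PadicInt.maximalIdeal_eq_span_p, Ideal.mem_span_singleton] at h1
  obtain ⟨c, hc⟩ := h1
  have h2 : τ (y - ((PadicInt.toZMod y).val : ℤ_[ℓ])) = 0 := by
    rw [hc, map_mul, map_natCast, CharP.cast_eq_zero, zero_mul]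
  rw [map_sub, sub_eq_zero, map_natCast] at h2
  rw [h2, ZMod.castHom_apply, ZMod.natCast_val]

/-- **[DS-LIFT]** (helper82).  For every prime `ℓ` there are a field `k` of characteristic `ℓ`
and a ring homomorphism `r` from the ring of algebraic integers of `ℂ` to `k` such that: for
every finite group `G` of order prime to `ℓ` and every `ρ̄ : G →* GL n (ZMod ℓ)` there is
`ρ : G →* GL n ℂ` with the same kernel such that for all `g` the trace and the determinant of
`ρ g` are algebraic integers whose reductions under `r` are the trace and the determinant of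
`ρ̄ g`. -/
theorem ds_lift :
    ∃ (k : Type) (_ : Field k) (_ : CharP k ℓ) (r : integralClosure ℤ ℂ →+* k),
      ∀ (n : Type v) [Fintype n] [DecidableEq n] (G : Type u) [Group G] [Finite G],
        ¬ ℓ ∣ Nat.card G → ∀ ρb : G →* GL n (ZMod ℓ),
          ∃ ρ : G →* GL n ℂ, (∀ g, ρ g = 1 ↔ ρb g = 1) ∧ ∀ g : G,
            ∃ t d : integralClosure ℤ ℂ,
              (t : ℂ) = Matrix.trace (ρ g : Matrix n n ℂ) ∧
              (d : ℂ) = Matrix.det (ρ g : Matrix n n ℂ) ∧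
              r t = ZMod.castHom (dvd_refl ℓ) k (Matrix.trace (ρb g : Matrix n n (ZMod ℓ))) ∧
              r d = ZMod.castHom (dvd_refl ℓ) k (Matrix.det (ρb g : Matrix n n (ZMod ℓ))) := by
  classical
  obtain ⟨ι⟩ := nonempty_padic_ringHom_complex ℓ
  let j : ℤ_[ℓ] →+* ℂ := ι.comp (PadicInt.Coe.ringHom)
  have hj : Function.Injective j := ι.injective.comp Subtype.coe_injective
  letI alg : Algebra ℤ_[ℓ] ℂ := j.toAlgebra
  have halg : ∀ y : ℤ_[ℓ], algebraMap ℤ_[ℓ] ℂ y = j y := fun _ => rfl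
  have hker : RingHom.ker (algebraMap ℤ_[ℓ] (integralClosure ℤ_[ℓ] ℂ)) ≤
      IsLocalRing.maximalIdeal ℤ_[ℓ] := by
    intro y hy
    rw [RingHom.mem_ker] at hy
    have h1 : j y = 0 := by
      have := congrArg (fun z : integralClosure ℤ_[ℓ] ℂ => (z : ℂ)) hy
      exact this
    rw [(map_eq_zero_iff j hj).1 h1]
    exact Ideal.zero_mem _
  obtain ⟨Q, hQmax, hQ⟩ := Ideal.exists_ideal_over_maximal_of_isIntegral
    (S := integralClosure ℤ_[ℓ] ℂ) (IsLocalRing.maximalIdeal ℤ_[ℓ]) hker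
  letI : Field (integralClosure ℤ_[ℓ] ℂ ⧸ Q) := Ideal.Quotient.field Q
  let τ : ℤ_[ℓ] →+* (integralClosure ℤ_[ℓ] ℂ ⧸ Q) :=
    (Ideal.Quotient.mk Q).comp (algebraMap ℤ_[ℓ] (integralClosure ℤ_[ℓ] ℂ))
  have hchar : CharP (integralClosure ℤ_[ℓ] ℂ ⧸ Q) ℓ := by
    rw [CharP.charP_iff_prime_eq_zero hℓ.out]
    have h1 : (ℓ : ℤ_[ℓ]) ∈ Q.comap (algebraMap ℤ_[ℓ] (integralClosure ℤ_[ℓ] ℂ)) := by
      rw [hQ, PadicInt.maximalIdeal_eq_span_p]
      exact Ideal.mem_span_singleton_self _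
    rw [Ideal.mem_comap, ← Ideal.Quotient.eq_zero_iff_mem, map_natCast, map_natCast] at h1
    exact h1
  -- the inclusion of the algebraic integers
  have hint : ∀ x : integralClosure ℤ ℂ, (x : ℂ) ∈ integralClosure ℤ_[ℓ] ℂ := fun x =>
    (IsIntegral.tower_top (A := ℤ_[ℓ]) x.2 : IsIntegral ℤ_[ℓ] (x : ℂ))
  let inc : integralClosure ℤ ℂ →+* integralClosure ℤ_[ℓ] ℂ :=
    (algebraMap (integralClosure ℤ ℂ) ℂ).codRestrict (integralClosure ℤ_[ℓ] ℂ) hint
  let r : integralClosure ℤ ℂ →+* (integralClosure ℤ_[ℓ] ℂ ⧸ Q) := (Ideal.Quotient.mk Q).comp inc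
  have hr : ∀ (y : ℤ_[ℓ]) (hy : IsIntegral ℤ (j y)),
      r ⟨j y, hy⟩ = ZMod.castHom (dvd_refl ℓ) _ (PadicInt.toZMod y) := by
    intro y hy
    rw [← padic_ringHom_eq_castHom ℓ τ y]
    rfl
  refine ⟨integralClosure ℤ_[ℓ] ℂ ⧸ Q, inferInstance, hchar, r, ?_⟩
  intro n _ _ G _ _ hG ρb
  letI : Fintype G := Fintype.ofFinite G
  letI : Fintype ρb.range := Fintype.ofFinite _
  have hG' : ¬ ℓ ∣ Fintype.card ρb.range := by
    rw [← Nat.card_eq_fintype_card]
    exact fun h => hG (h.trans (Subgroup.card_range_dvd ρb))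
  obtain ⟨ρ0, hρ0⟩ := lift_padic ℓ hG' ρb.range.subtype
  have hinjGL : Function.Injective (Matrix.GeneralLinearGroup.map (n := n) j) := by
    intro X Y hXY
    apply Units.ext
    ext a b
    have := congrArg (fun M : GL n ℂ => (M : Matrix n n ℂ) a b) hXY
    simp only [Matrix.GeneralLinearGroup.map_apply] at this
    exact hj this
  refine ⟨(Matrix.GeneralLinearGroup.map j).comp (ρ0.comp ρb.rangeRestrict), ?_, ?_⟩
  · intro g
    constructor
    · intro h
      have h1 : ρ0 (ρb.rangeRestrict g) = 1 := by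
        apply hinjGL
        rw [map_one]
        exact h
      have h2 := hρ0 (ρb.rangeRestrict g)
      rw [h1, map_one] at h2
      exact h2.symm
    · intro h
      have h1 : ρb.rangeRestrict g = 1 := Subtype.ext h
      show Matrix.GeneralLinearGroup.map j (ρ0 (ρb.rangeRestrict g)) = 1
      rw [h1, map_one, map_one]
  · intro g
    set X : GL n ℤ_[ℓ] := ρ0 (ρb.rangeRestrict g) with hX
    have hXred : Matrix.GeneralLinearGroup.map (PadicInt.toZMod (p := ℓ)) X = ρb g :=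
      hρ0 (ρb.rangeRestrict g)
    have hval : (((Matrix.GeneralLinearGroup.map j).comp (ρ0.comp ρb.rangeRestrict)) g :
        Matrix n n ℂ) = j.mapMatrix (X : Matrix n n ℤ_[ℓ]) := rfl
    -- finite order
    have hpow : (j.mapMatrix (X : Matrix n n ℤ_[ℓ])) ^ (Fintype.card G) = 1 := by
      rw [← hval, ← Units.val_pow_eq_pow_val, ← map_pow, pow_card_eq_one, map_one, Units.val_one]
    have hpos : 0 < Fintype.card G := Fintype.card_pos
    have htr : (j.mapMatrix (X : Matrix n n ℤ_[ℓ])).trace = j (X : Matrix n n ℤ_[ℓ]).trace :=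
      (AddMonoidHom.map_trace (j : ℤ_[ℓ] →+ ℂ) _).symm
    have hdet : (j.mapMatrix (X : Matrix n n ℤ_[ℓ])).det = j (X : Matrix n n ℤ_[ℓ]).det :=
      (RingHom.map_det j _).symm
    have hti : IsIntegral ℤ (j (X : Matrix n n ℤ_[ℓ]).trace) := by
      rw [← htr]; exact isIntegral_trace_of_pow_eq_one hpos hpow
    have hdi : IsIntegral ℤ (j (X : Matrix n n ℤ_[ℓ]).det) := by
      rw [← hdet]; exact isIntegral_det_of_pow_eq_one hpos hpow
    have hredtr : PadicInt.toZMod (X : Matrix n n ℤ_[ℓ]).trace =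
        (ρb g : Matrix n n (ZMod ℓ)).trace := by
      rw [← hXred]
      exact AddMonoidHom.map_trace ((PadicInt.toZMod (p := ℓ)) : ℤ_[ℓ] →+ ZMod ℓ) _
    have hreddet : PadicInt.toZMod (X : Matrix n n ℤ_[ℓ]).det =
        (ρb g : Matrix n n (ZMod ℓ)).det := by
      rw [← hXred]
      exact RingHom.map_det (PadicInt.toZMod (p := ℓ)) _
    refine ⟨⟨_, hti⟩, ⟨_, hdi⟩, ?_, ?_, ?_, ?_⟩
    · rw [hval, htr]
    · rw [hval, hdet]
    · rw [hr, hredtr]
    · rw [hr, hreddet]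

/-- **Reduction is injective on a given finite set for almost all `ℓ`**: for a nonzero
algebraic integer `x` there is a nonzero integer `N` such that `r x = 0` forces `ℓ ∣ N`, for
every ring homomorphism `r` from the algebraic integers to a ring of characteristic `ℓ`. -/
theorem exists_int_ne_zero_dvd_of_map_eq_zero (x : integralClosure ℤ ℂ) (hx : x ≠ 0) :
    ∃ N : ℤ, N ≠ 0 ∧ ∀ (p : ℕ) (k : Type) [CommRing k] [CharP k p]
      (r : integralClosure ℤ ℂ →+* k), r x = 0 → (p : ℤ) ∣ N := by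
  have hint : IsIntegral ℤ x := integralClosure.isIntegral x
  refine ⟨(minpoly ℤ x).coeff 0, ?_, ?_⟩
  · intro h0
    have hinj : Function.Injective (algebraMap (integralClosure ℤ ℂ) ℂ) := Subtype.coe_injective
    have hy : IsIntegral ℤ (x : ℂ) := x.2
    have hy0 : (x : ℂ) ≠ 0 := fun h => hx (Subtype.ext h)
    have h1 : minpoly ℤ (x : ℂ) = minpoly ℤ x := minpoly.algebraMap_eq hinj x
    have h2 : minpoly ℚ (x : ℂ) = (minpoly ℤ (x : ℂ)).map (algebraMap ℤ ℚ) :=
      minpoly.isIntegrallyClosed_eq_field_fractions' ℚ hy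
    have h3 := minpoly.coeff_zero_ne_zero (A := ℚ) hy.tower_top hy0
    rw [h2, Polynomial.coeff_map, h1, h0, map_zero] at h3
    exact h3 rfl
  · intro p k _ _ r hr
    have h1 : Polynomial.eval₂ (Int.castRingHom k) (r x) (minpoly ℤ x) = 0 := by
      have h2 := minpoly.aeval ℤ x
      have h3 := congrArg r h2
      rw [map_zero, Polynomial.aeval_def, Polynomial.hom_eval₂] at h3
      have h4 : r.comp (algebraMap ℤ (integralClosure ℤ ℂ)) = Int.castRingHom k :=
        RingHom.ext_int _ _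
      rwa [h4] at h3
    rw [hr, Polynomial.eval₂_at_zero] at h1
    exact (CharP.intCast_eq_zero_iff k p _).1 h1

end Final

end Fermat.Agent.T4.helper82
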