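import Mathlib
import Fermat.Agent.T4.helper80_Val
import Fermat.Agent.T4.helper82_LiftAdic
import Fermat.Agent.T4.helper82_EmbedComplex

/-!
# T4 (S48, Deligne–Serre), block (IV), leaf [IV-LIFT] (helper82)

`lift : helper80.LiftStatement` : a representation `ρ : Γ →* GL₂(κ)` with finite image of order
invertible in `κ`, where `κ` is the residue field of a valuation subring `V` of `ℂ`, is the
reduction of a complex representation `r` with `ker ρ ≤ ker r` whose traces and determinants lie
in `V` and reduce to those of `ρ`.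

Route (no idempotent lifting):
* residue characteristic `ℓ > 0`: `κ` is perfect (algebraically closed), `A := 𝕎 κ` is `ℓ`-adically
  complete with `A / ℓ = κ`; `lift_adic` lifts `G := ρ.range` to `GL₂(A)`; roots of unity of `κ`
  lift to `A` by Teichmüller;
* residue characteristic `0`: `A := κ`;
* `A` is a domain of characteristic zero and of cardinality at most the continuum, so it embeds
  into `ℂ`, and we may prescribe that the lift `ζ̃ ∈ A` of the reduction of `ζ = exp (2πi/m)`
  (`m = |G|`) is sent to `ζ` (`exists_ringHom_complex_of_isPrimitiveRoot`);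
* traces and determinants of matrices of order dividing `m` are `ζ^a + ζ^b`, `ζ^a ζ^b`, and the
  embedding is injective, so they reduce correctly.
-/

set_option autoImplicit false
set_option linter.style.haveILetI false

open Cardinal Matrix IsLocalRing

namespace Fermat.Agent.T4.helper82

section Witt

variable (p : ℕ) [hp : Fact p.Prime] (k : Type) [Field k] [CharP k p]

/-- the Witt vectors of a field of characteristic `p` have characteristic zero -/
theorem charZero_wittVector : CharZero (WittVector p k) := by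
  obtain ⟨q, hq⟩ := CharP.exists (WittVector p k)
  rcases CharP.char_is_prime_or_zero (WittVector p k) q with h | h
  · exfalso
    have h1 : ((q : ℕ) : WittVector p k) = 0 := CharP.cast_eq_zero _ q
    have h2 : ((q : ℕ) : k) = 0 := by
      have := congrArg (WittVector.constantCoeff (p := p) (R := k)) h1
      rwa [map_natCast, map_zero] at this
    have h3 : p ∣ q := (CharP.cast_eq_zero_iff k p q).1 h2
    have h4 : p = q := (Nat.prime_dvd_prime_iff_eq hp.out h).1 h3
    rw [← h4] at h1
    exact WittVector.p_nonzero p k h1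
  · subst h
    exact CharP.charP_to_charZero _

omit hp [Field k] [CharP k p] in
/-- the cardinality of the ring of Witt vectors -/
theorem mk_wittVector_le (hk : #k ≤ 𝔠) : #(WittVector p k) ≤ 𝔠 := by
  have h1 : #(WittVector p k) ≤ #(ℕ → k) :=
    Cardinal.mk_le_of_injective (f := fun x : WittVector p k => x.coeff)
      (fun x y h => WittVector.ext (fun n => congrFun h n))
  have h2 : #(ℕ → k) ≤ 𝔠 := by
    rw [← Cardinal.power_def, Cardinal.mk_nat]
    calc #k ^ ℵ₀ ≤ 𝔠 ^ ℵ₀ := Cardinal.power_le_power_right hk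
      _ = 𝔠 := Cardinal.continuum_power_aleph0
  exact h1.trans h2

variable [PerfectRing k p]

/-- **Lifting to Witt vectors.** -/
theorem lift_wittVector {G : Type*} [Group G] [Finite G] (hG : ((Nat.card G : ℕ) : k) ≠ 0)
    {n : Type*} [Fintype n] [DecidableEq n] (ρb : G →* GL n k) :
    ∃ φ : G →* GL n (WittVector p k), ∀ g,
      Matrix.GeneralLinearGroup.map (WittVector.constantCoeff (p := p) (R := k)) (φ g) = ρb g := by
  haveI : Fintype G := Fintype.ofFinite G
  have hunit : IsUnit ((Fintype.card G : ℕ) : WittVector p k) := by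
    apply WittVector.isUnit_of_coeff_zero_ne_zero
    have h1 : ((Fintype.card G : ℕ) : WittVector p k).coeff 0 = ((Fintype.card G : ℕ) : k) := by
      rw [← WittVector.constantCoeff_apply, map_natCast]
    rw [h1, ← Nat.card_eq_fintype_card]
    exact hG
  let e : (WittVector p k ⧸ Ideal.span {(p : WittVector p k)}) ≃+* k := WittVector.quotientPEquiv
  obtain ⟨φ, hφ⟩ := lift_adic (Ideal.span {(p : WittVector p k)}) hunit
    ((Matrix.GeneralLinearGroup.map (e.symm :
      k →+* WittVector p k ⧸ Ideal.span {(p : WittVector p k)})).comp ρb)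
  refine ⟨φ, fun g => ?_⟩
  apply Units.ext
  ext i j
  have h1 := congrArg (fun M : GL n (WittVector p k ⧸ Ideal.span {(p : WittVector p k)}) =>
    e ((M : Matrix n n (WittVector p k ⧸ Ideal.span {(p : WittVector p k)})) i j)) (hφ g)
  simp only [Matrix.GeneralLinearGroup.map_apply, MonoidHom.comp_apply] at h1
  rw [Matrix.GeneralLinearGroup.map_apply]
  have h2 : e (Ideal.Quotient.mk _ ((φ g : Matrix n n (WittVector p k)) i j)) =
      WittVector.constantCoeff ((φ g : Matrix n n (WittVector p k)) i j) := rfl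
  rw [← h2, h1]
  exact e.apply_symm_apply _

end Witt

section Residue

variable (V : ValuationSubring ℂ)

/-- algebraic integers lie in every valuation subring -/
lemma mem_valuationSubring_of_isIntegral {z : ℂ} (hz : IsIntegral ℤ z) : z ∈ V := by
  have h1 : IsIntegral V z := hz.tower_top
  obtain ⟨y, hy⟩ := (IsIntegrallyClosed.isIntegral_iff (R := V) (K := ℂ)).1 h1
  rw [← hy]
  exact y.2

/-- roots of unity lie in every valuation subring -/
lemma mem_valuationSubring_of_pow_eq_one {z : ℂ} {m : ℕ} (hm : 0 < m) (hz : z ^ m = 1) :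
    z ∈ V :=
  mem_valuationSubring_of_isIntegral V
    ⟨Polynomial.X ^ m - 1, Polynomial.monic_X_pow_sub_C (1 : ℤ) hm.ne', by simp [hz]⟩

/-- the cardinality of the residue field -/
lemma mk_residueField_le : #(ResidueField V) ≤ 𝔠 := by
  have h1 : #(ResidueField V) ≤ #V :=
    Cardinal.mk_le_of_surjective (f := residue V) residue_surjective
  have h2 : #V ≤ #ℂ := Cardinal.mk_le_of_injective (f := fun x : V => (x : ℂ))
    Subtype.val_injective
  rw [Cardinal.mk_complex] at h2
  exact h1.trans h2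

/-- the reduction of a primitive `m`-th root of unity is primitive if `m` is invertible in
the residue field -/
lemma isPrimitiveRoot_residue {m : ℕ} (hm : ((m : ℕ) : ResidueField V) ≠ 0) {ζ : ℂ}
    (hζ : IsPrimitiveRoot ζ m) (hζV : ζ ∈ V) : IsPrimitiveRoot (residue V ⟨ζ, hζV⟩) m := by
  have hm0 : 0 < m := by
    rcases Nat.eq_zero_or_pos m with h | h
    · exfalso; apply hm; rw [h, Nat.cast_zero]
    · exact h
  have hz : (residue V ⟨ζ, hζV⟩) ^ m = 1 := by
    rw [← map_pow]
    have : (⟨ζ, hζV⟩ : V) ^ m = 1 := Subtype.ext (by simpa using hζ.pow_eq_one)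
    rw [this, map_one]
  rw [IsPrimitiveRoot.iff_def]
  refine ⟨hz, fun l hl => ?_⟩
  have hg : (residue V ⟨ζ, hζV⟩) ^ (Nat.gcd l m) = 1 := pow_gcd_eq_one.2 ⟨hl, hz⟩
  obtain ⟨d, hd⟩ : Nat.gcd l m ∣ m := Nat.gcd_dvd_right l m
  by_cases hd1 : d = 1
  · rw [hd1, mul_one] at hd
    rw [hd]
    exact Nat.gcd_dvd_left l m
  exfalso
  have hd0 : d ≠ 0 := by
    rintro rfl
    rw [mul_zero] at hd
    omega
  have hd2 : 1 < d := by omega
  have hξ : IsPrimitiveRoot (ζ ^ Nat.gcd l m) d := hζ.pow hm0 hd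
  have hsum := hξ.geom_sum_eq_zero hd2
  have hsumV : ∑ i ∈ Finset.range d, ((⟨ζ, hζV⟩ : V) ^ Nat.gcd l m) ^ i = 0 := by
    apply Subtype.ext
    have h0 : ((0 : V) : ℂ) = 0 := rfl
    rw [h0, ← hsum]
    simp
  have hres := congrArg (residue V) hsumV
  rw [map_sum, map_zero] at hres
  simp only [map_pow, hg, one_pow, Finset.sum_const, Finset.card_range, nsmul_eq_mul,
    mul_one] at hres
  apply hm
  rw [hd, Nat.cast_mul, hres, mul_zero]

end Residue

section Trace

lemma pow_eq_one_of_mem_roots_charpoly {n : Type*} [Fintype n] [DecidableEq n]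
    {A : Matrix n n ℂ} {m : ℕ} (hA : A ^ m = 1) {μ : ℂ} (hμ : μ ∈ A.charpoly.roots) :
    μ ^ m = 1 := by
  have h1 : μ ∈ spectrum ℂ A := by
    rw [Matrix.mem_spectrum_iff_isRoot_charpoly]
    exact (Polynomial.mem_roots'.1 hμ).2
  have h2 : μ ^ m ∈ spectrum ℂ (A ^ m) := spectrum.pow_mem_pow A m h1
  rw [hA] at h2
  by_contra hne
  apply h2
  rw [spectrum.mem_resolventSet_iff]
  have h4 : algebraMap ℂ (Matrix n n ℂ) (μ ^ m) - 1 =
      algebraMap ℂ (Matrix n n ℂ) (μ ^ m - 1) := by rw [map_sub, map_one]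
  rw [h4]
  exact (IsUnit.mk0 _ (sub_ne_zero.2 hne)).map _

/-- trace and determinant of a complex `2 × 2` matrix of order dividing `m` in terms of a
primitive `m`-th root of unity -/
lemma exists_trace_det_eq_pow {B : Matrix (Fin 2) (Fin 2) ℂ} {m : ℕ} (hm : 0 < m)
    (hB : B ^ m = 1) {ζ : ℂ} (hζ : IsPrimitiveRoot ζ m) :
    ∃ a b : ℕ, B.trace = ζ ^ a + ζ ^ b ∧ B.det = ζ ^ a * ζ ^ b := by
  have hcard : Multiset.card B.charpoly.roots = 2 := by
    rw [Polynomial.splits_iff_card_roots.1 (IsAlgClosed.splits B.charpoly),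
      Matrix.charpoly_natDegree_eq_dim, Fintype.card_fin]
  obtain ⟨x, y, hxy⟩ := Multiset.card_eq_two.1 hcard
  have hx : x ^ m = 1 := pow_eq_one_of_mem_roots_charpoly hB (by rw [hxy]; simp)
  have hy : y ^ m = 1 := pow_eq_one_of_mem_roots_charpoly hB (by rw [hxy]; simp)
  haveI : NeZero m := ⟨hm.ne'⟩
  obtain ⟨a, -, ha⟩ := hζ.eq_pow_of_pow_eq_one hx
  obtain ⟨b, -, hb⟩ := hζ.eq_pow_of_pow_eq_one hy
  refine ⟨a, b, ?_, ?_⟩
  · rw [Matrix.trace_eq_sum_roots_charpoly, hxy, ← ha, ← hb]
    simp
  · rw [Matrix.det_eq_prod_roots_charpoly, hxy, ← ha, ← hb]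
    simp

end Trace

section Main

lemma trace_GL_map_fin_two {R S : Type*} [CommRing R] [CommRing S] (f : R →+* S)
    (g : GL (Fin 2) R) :
    ((Matrix.GeneralLinearGroup.map f g : GL (Fin 2) S) : Matrix (Fin 2) (Fin 2) S).trace =
      f ((g : Matrix (Fin 2) (Fin 2) R).trace) := by
  rw [Matrix.trace_fin_two, Matrix.trace_fin_two, map_add]
  simp only [Matrix.GeneralLinearGroup.map_apply]

lemma det_GL_map_fin_two {R S : Type*} [CommRing R] [CommRing S] (f : R →+* S)
    (g : GL (Fin 2) R) :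
    ((Matrix.GeneralLinearGroup.map f g : GL (Fin 2) S) : Matrix (Fin 2) (Fin 2) S).det =
      f ((g : Matrix (Fin 2) (Fin 2) R).det) := by
  rw [Matrix.det_fin_two, Matrix.det_fin_two, map_sub, map_mul, map_mul]
  simp only [Matrix.GeneralLinearGroup.map_apply]

/-- a characteristic-zero domain `A` above the residue field to which the representation and
the roots of unity lift -/
theorem exists_charZero_lift (V : ValuationSubring ℂ) (G : Type) [Group G] [Finite G]
    (hG : ((Nat.card G : ℕ) : ResidueField V) ≠ 0) (ρb : G →* GL (Fin 2) (ResidueField V)) :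
    ∃ (A : Type) (_ : CommRing A) (_ : IsDomain A) (_ : CharZero A)
      (red : A →+* ResidueField V), #A ≤ 𝔠 ∧
      (∀ (m : ℕ) (z : ResidueField V), z ^ m = 1 → ∃ x : A, x ^ m = 1 ∧ red x = z) ∧
      ∃ φ : G →* GL (Fin 2) A, ∀ g, Matrix.GeneralLinearGroup.map red (φ g) = ρb g := by
  obtain ⟨q, hq⟩ := CharP.exists (ResidueField V)
  rcases CharP.char_is_prime_or_zero (ResidueField V) q with h | h
  · haveI : Fact q.Prime := ⟨h⟩
    haveI : IsAlgClosed (ResidueField V) := helper80.isAlgClosed_residueField V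
    haveI : PerfectRing (ResidueField V) q := inferInstance
    haveI := charZero_wittVector q (ResidueField V)
    refine ⟨WittVector q (ResidueField V), inferInstance, inferInstance, inferInstance,
      WittVector.constantCoeff, mk_wittVector_le q _ (mk_residueField_le V), ?_,
      lift_wittVector q _ hG ρb⟩
    intro m z hz
    refine ⟨WittVector.teichmuller q z, ?_, ?_⟩
    · rw [← map_pow, hz, map_one]
    · rw [WittVector.constantCoeff_apply, WittVector.teichmuller_coeff_zero]
  · subst h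
    haveI : CharZero (ResidueField V) := CharP.charP_to_charZero _
    refine ⟨ResidueField V, inferInstance, inferInstance, inferInstance, RingHom.id _,
      mk_residueField_le V, fun m z hz => ⟨z, hz, rfl⟩, ρb, fun g => ?_⟩
    apply Units.ext
    ext i j
    simp only [Matrix.GeneralLinearGroup.map_apply, RingHom.id_apply]

/-- **[IV-LIFT]** (helper82). -/
theorem lift : helper80.LiftStatement := by
  intro V Γ _ ρ hfin hcard
  haveI : Finite ρ.range := hfin
  have hm0 : 0 < Nat.card ρ.range := Nat.card_pos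
  obtain ⟨A, _, _, _, red, hA, hroot, φ, hφ⟩ :=
    exists_charZero_lift V ρ.range hcard ρ.range.subtype
  -- roots of unity
  obtain ⟨ζ, hζ⟩ : ∃ ζ : ℂ, IsPrimitiveRoot ζ (Nat.card ρ.range) :=
    ⟨_, Complex.isPrimitiveRoot_exp _ hm0.ne'⟩
  have hζV : ζ ∈ V := mem_valuationSubring_of_pow_eq_one V hm0 hζ.pow_eq_one
  have hz := isPrimitiveRoot_residue V hcard hζ hζV
  obtain ⟨ζt, hζt1, hζt2⟩ := hroot _ _ hz.pow_eq_one
  have hζt : IsPrimitiveRoot ζt (Nat.card ρ.range) := by
    rw [IsPrimitiveRoot.iff_def]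
    refine ⟨hζt1, fun l hl => ?_⟩
    apply hz.dvd_of_pow_eq_one
    rw [← hζt2, ← map_pow, hl, map_one]
  obtain ⟨θ, hθinj, hθ⟩ := exists_ringHom_complex_of_isPrimitiveRoot A hA hm0 hζt hζ
  let r : Γ →* GL (Fin 2) ℂ :=
    (Matrix.GeneralLinearGroup.map θ).comp (φ.comp ρ.rangeRestrict)
  refine ⟨r, ?_, fun γ => ?_⟩
  · intro γ hγ
    rw [MonoidHom.mem_ker] at hγ ⊢
    have h1 : ρ.rangeRestrict γ = 1 := Subtype.ext hγ
    show Matrix.GeneralLinearGroup.map θ (φ (ρ.rangeRestrict γ)) = 1
    rw [h1, map_one, map_one]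
  · have hr : r γ = Matrix.GeneralLinearGroup.map θ (φ (ρ.rangeRestrict γ)) := rfl
    have hg : (ρ.rangeRestrict γ) ^ Nat.card ρ.range = 1 := pow_card_eq_one'
    have hB : ((r γ : GL (Fin 2) ℂ) : Matrix (Fin 2) (Fin 2) ℂ) ^ Nat.card ρ.range = 1 := by
      have h1 : (r γ) ^ Nat.card ρ.range = 1 := by
        rw [hr, ← map_pow, ← map_pow, hg, map_one, map_one]
      have h2 := congrArg (fun u : GL (Fin 2) ℂ => (u : Matrix (Fin 2) (Fin 2) ℂ)) h1
      simpa using h2
    obtain ⟨a, b, htr, hdet⟩ := exists_trace_det_eq_pow hm0 hB hζ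
    have hρ : ρ γ = Matrix.GeneralLinearGroup.map red (φ (ρ.rangeRestrict γ)) := by
      rw [hφ]
      rfl
    have h1 : ((φ (ρ.rangeRestrict γ) : GL (Fin 2) A) : Matrix (Fin 2) (Fin 2) A).trace =
        ζt ^ a + ζt ^ b := by
      apply hθinj
      rw [map_add, map_pow, map_pow, hθ, ← htr, hr, trace_GL_map_fin_two]
    have h2 : ((φ (ρ.rangeRestrict γ) : GL (Fin 2) A) : Matrix (Fin 2) (Fin 2) A).det =
        ζt ^ a * ζt ^ b := by
      apply hθinj
      rw [map_mul, map_pow, map_pow, hθ, ← hdet, hr, det_GL_map_fin_two]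
    refine ⟨(⟨ζ, hζV⟩ : V) ^ a + (⟨ζ, hζV⟩ : V) ^ b, (⟨ζ, hζV⟩ : V) ^ a * (⟨ζ, hζV⟩ : V) ^ b,
      ?_, ?_, ?_, ?_⟩
    · rw [htr]
      simp
    · rw [hdet]
      simp
    · rw [hρ, trace_GL_map_fin_two, h1, map_add, map_pow, map_pow, map_add, map_pow, map_pow,
        hζt2]
    · rw [hρ, det_GL_map_fin_two, h2, map_mul, map_pow, map_pow, map_mul, map_pow, map_pow,
        hζt2]

end Main

end Fermat.Agent.T4.helper82
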