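/-
T4 (I) [I-GEN-COSET], part 1 (helper83): the group `±Γ₁(M)` and the action of `S`, `S * T` on its
cosets.  Mathlib + the generic counting lemmas of S24 (helper37, helper27) only.

Main results (namespace `Fermat.Agent.T4.helper83`):
* `Gpm M : Subgroup SL(2, ℤ)`, `mem_Gpm`, `Gamma1_le_Gpm`, `neg_one_mem_Gpm`, `Gpm_le_Gamma0`;
* `trace_of_mem_Gamma1`, `trace_of_mem_Gpm`;
* `smul_ne_of_trace` : an element whose trace is not `±2` mod `M` has no fixed coset;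
* `card_quotient_Gpm_eq_two_mul_orbits_S`, `card_quotient_Gpm_eq_three_mul_orbits_ST` (`4 ≤ M`).
-/
import Mathlib
import Fermat.Agent.S24.helper37_IndexGamma0
import Fermat.Agent.S24.helper27_FixedPoints

set_option autoImplicit false
open scoped MatrixGroups
open CongruenceSubgroup Matrix MulAction

namespace Fermat.Agent.T4.helper83

/-- The group `±Γ₁(M)` generated by `Γ₁(M)` and `-1`. -/
def Gpm (M : ℕ) : Subgroup SL(2, ℤ) where
  carrier := {g | g ∈ Gamma1 M ∨ -g ∈ Gamma1 M}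
  one_mem' := Or.inl (Subgroup.one_mem _)
  mul_mem' := by
    rintro a b (ha | ha) (hb | hb)
    · exact Or.inl (Subgroup.mul_mem _ ha hb)
    · refine Or.inr ?_
      have := Subgroup.mul_mem _ ha hb
      rwa [mul_neg] at this
    · refine Or.inr ?_
      have := Subgroup.mul_mem _ ha hb
      rwa [neg_mul] at this
    · refine Or.inl ?_
      have := Subgroup.mul_mem _ ha hb
      rwa [neg_mul_neg] at this
  inv_mem' := by
    rintro a (ha | ha)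
    · exact Or.inl (Subgroup.inv_mem _ ha)
    · refine Or.inr ?_
      have := Subgroup.inv_mem _ ha
      rwa [inv_neg] at this

theorem mem_Gpm {M : ℕ} {g : SL(2, ℤ)} : g ∈ Gpm M ↔ g ∈ Gamma1 M ∨ -g ∈ Gamma1 M := Iff.rfl

theorem Gamma1_le_Gpm (M : ℕ) : Gamma1 M ≤ Gpm M := fun _ hg => Or.inl hg

theorem neg_one_mem_Gpm (M : ℕ) : (-1 : SL(2, ℤ)) ∈ Gpm M :=
  Or.inr (by rw [neg_neg]; exact Subgroup.one_mem _)

theorem neg_mem_Gpm {M : ℕ} {g : SL(2, ℤ)} (hg : g ∈ Gpm M) : -g ∈ Gpm M := by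
  have := Subgroup.mul_mem _ (neg_one_mem_Gpm M) hg
  rwa [neg_mul, one_mul] at this

theorem Gpm_le_Gamma0 (M : ℕ) : Gpm M ≤ Gamma0 M := by
  rintro g (hg | hg)
  · exact Gamma1_in_Gamma0 M hg
  · have h := Gamma1_in_Gamma0 M hg
    rw [Gamma0_mem] at h ⊢
    have : ((-g : SL(2, ℤ)) 1 0 : ℤ) = - (g 1 0 : ℤ) := by
      simp [Matrix.SpecialLinearGroup.coe_neg]
    rw [this] at h
    push_cast at h
    simpa using h

instance Gpm_finiteIndex (M : ℕ) [NeZero M] : (Gpm M).FiniteIndex :=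
  haveI : (Gamma1 M).FiniteIndex := (Gamma1_is_congruence M).finiteIndex
  Subgroup.finiteIndex_of_le (Gamma1_le_Gpm M)

instance Gamma1_finiteIndex' (M : ℕ) [NeZero M] : (Gamma1 M).FiniteIndex :=
  (Gamma1_is_congruence M).finiteIndex

instance finite_quotient_Gpm (M : ℕ) [NeZero M] : Finite (SL(2, ℤ) ⧸ Gpm M) :=
  Subgroup.finite_quotient_of_finiteIndex

instance finite_quotient_Gamma1 (M : ℕ) [NeZero M] : Finite (SL(2, ℤ) ⧸ Gamma1 M) :=
  Subgroup.finite_quotient_of_finiteIndex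

/-! ### traces -/

theorem trace_of_mem_Gamma1 {M : ℕ} {g : SL(2, ℤ)} (hg : g ∈ Gamma1 M) :
    (((g : Matrix (Fin 2) (Fin 2) ℤ).trace : ℤ) : ZMod M) = 2 := by
  rw [Gamma1_mem] at hg
  rw [Matrix.trace_fin_two]
  push_cast
  rw [hg.1, hg.2.1]
  norm_num

theorem trace_neg (g : SL(2, ℤ)) :
    ((-g : SL(2, ℤ)) : Matrix (Fin 2) (Fin 2) ℤ).trace = -(g : Matrix (Fin 2) (Fin 2) ℤ).trace := by
  rw [Matrix.SpecialLinearGroup.coe_neg, Matrix.trace_neg]

theorem trace_of_mem_Gpm {M : ℕ} {g : SL(2, ℤ)} (hg : g ∈ Gpm M) :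
    (((g : Matrix (Fin 2) (Fin 2) ℤ).trace : ℤ) : ZMod M) = 2 ∨
      (((g : Matrix (Fin 2) (Fin 2) ℤ).trace : ℤ) : ZMod M) = -2 := by
  rcases hg with hg | hg
  · exact Or.inl (trace_of_mem_Gamma1 hg)
  · refine Or.inr ?_
    have h := trace_of_mem_Gamma1 hg
    rw [trace_neg] at h
    push_cast at h
    rw [← h, neg_neg]

theorem trace_conj (g h : SL(2, ℤ)) :
    ((g⁻¹ * (h * g) : SL(2, ℤ)) : Matrix (Fin 2) (Fin 2) ℤ).trace
      = (h : Matrix (Fin 2) (Fin 2) ℤ).trace := by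
  rw [Matrix.SpecialLinearGroup.coe_mul, Matrix.trace_mul_comm,
    ← Matrix.SpecialLinearGroup.coe_mul, mul_assoc, mul_inv_cancel, mul_one]

/-- fixed cosets: `h • gΓ = gΓ ↔ g⁻¹ h g ∈ Γ` -/
theorem smul_mk_eq_iff (Γ : Subgroup SL(2, ℤ)) (h g : SL(2, ℤ)) :
    h • (g : SL(2, ℤ) ⧸ Γ) = (g : SL(2, ℤ) ⧸ Γ) ↔ g⁻¹ * (h * g) ∈ Γ := by
  rw [MulAction.Quotient.smul_mk, eq_comm, QuotientGroup.eq, smul_eq_mul]

/-- an element whose trace is not `±2` modulo `M` has no fixed coset of `±Γ₁(M)` -/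
theorem smul_ne_of_trace {M : ℕ} (h : SL(2, ℤ))
    (h1 : (((h : Matrix (Fin 2) (Fin 2) ℤ).trace : ℤ) : ZMod M) ≠ 2)
    (h2 : (((h : Matrix (Fin 2) (Fin 2) ℤ).trace : ℤ) : ZMod M) ≠ -2)
    (x : SL(2, ℤ) ⧸ Gpm M) : h • x ≠ x := by
  induction x using QuotientGroup.induction_on with
  | H g =>
    intro hx
    rw [smul_mk_eq_iff] at hx
    rcases trace_of_mem_Gpm hx with ht | ht
    · rw [trace_conj] at ht; exact h1 ht
    · rw [trace_conj] at ht; exact h2 ht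

/-- an element whose trace is not `2` modulo `M` has no fixed coset of `Γ₁(M)` -/
theorem smul_ne_of_trace_Gamma1 {M : ℕ} (h : SL(2, ℤ))
    (h1 : (((h : Matrix (Fin 2) (Fin 2) ℤ).trace : ℤ) : ZMod M) ≠ 2)
    (x : SL(2, ℤ) ⧸ Gamma1 M) : h • x ≠ x := by
  induction x using QuotientGroup.induction_on with
  | H g =>
    intro hx
    rw [smul_mk_eq_iff] at hx
    have ht := trace_of_mem_Gamma1 hx
    rw [trace_conj] at ht; exact h1 ht

theorem neg_one_smul_Gpm {M : ℕ} (x : SL(2, ℤ) ⧸ Gpm M) : (-1 : SL(2, ℤ)) • x = x := by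
  induction x using QuotientGroup.induction_on with
  | H g =>
    rw [smul_mk_eq_iff]
    have : g⁻¹ * (-1 * g) = -1 := by
      rw [neg_mul, one_mul, mul_neg, inv_mul_cancel]
    rw [this]
    exact neg_one_mem_Gpm M


/-! ### `S` and `S * T` act freely on the cosets of `±Γ₁(M)` for `M ≥ 4` -/

theorem intCast_ne_of_not_dvd {M : ℕ} {a b : ℤ} (h : ¬ (M : ℤ) ∣ b - a) :
    ((a : ℤ) : ZMod M) ≠ ((b : ℤ) : ZMod M) := by
  intro hab
  exact h ((ZMod.intCast_eq_intCast_iff_dvd_sub a b M).mp hab)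

theorem trace_S : (ModularGroup.S : Matrix (Fin 2) (Fin 2) ℤ).trace = 0 := by decide

theorem trace_ST :
    ((ModularGroup.S * ModularGroup.T : SL(2, ℤ)) : Matrix (Fin 2) (Fin 2) ℤ).trace = 1 := by
  decide

theorem trace_ST_sq :
    (((ModularGroup.S * ModularGroup.T) ^ 2 : SL(2, ℤ)) : Matrix (Fin 2) (Fin 2) ℤ).trace
      = -1 := by
  decide

theorem not_dvd_of_lt {M : ℕ} {t : ℤ} (ht : 0 < t) (h : t < M) : ¬ (M : ℤ) ∣ t := by
  intro hd
  have := Int.le_of_dvd ht hd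
  omega

theorem not_dvd_neg_of_lt {M : ℕ} {t : ℤ} (ht : 0 < t) (h : t < M) : ¬ (M : ℤ) ∣ -t := by
  intro hd
  exact not_dvd_of_lt ht h ((dvd_neg).mp hd)

theorem S_smul_ne {M : ℕ} (hM : 3 ≤ M) (x : SL(2, ℤ) ⧸ Gpm M) : ModularGroup.S • x ≠ x := by
  refine smul_ne_of_trace _ ?_ ?_ x
  · rw [trace_S]
    have := intCast_ne_of_not_dvd (M := M) (a := 0) (b := 2)
      (not_dvd_of_lt (by norm_num) (by norm_num; omega))
    simpa using this
  · rw [trace_S]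
    have := intCast_ne_of_not_dvd (M := M) (a := 0) (b := -2)
      (by
        have := not_dvd_neg_of_lt (M := M) (t := 2) (by norm_num) (by omega)
        simpa using this)
    simpa using this

theorem ST_smul_ne {M : ℕ} (hM : 4 ≤ M) (x : SL(2, ℤ) ⧸ Gpm M) :
    (ModularGroup.S * ModularGroup.T) • x ≠ x := by
  refine smul_ne_of_trace _ ?_ ?_ x
  · rw [trace_ST]
    have := intCast_ne_of_not_dvd (M := M) (a := 1) (b := 2)
      (not_dvd_of_lt (by norm_num) (by norm_num; omega))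
    simpa using this
  · rw [trace_ST]
    have := intCast_ne_of_not_dvd (M := M) (a := 1) (b := -2)
      (by
        have := not_dvd_neg_of_lt (M := M) (t := 3) (by norm_num) (by omega)
        simpa using this)
    simpa using this

theorem ST_sq_smul_ne {M : ℕ} (hM : 4 ≤ M) (x : SL(2, ℤ) ⧸ Gpm M) :
    ((ModularGroup.S * ModularGroup.T) ^ 2) • x ≠ x := by
  refine smul_ne_of_trace _ ?_ ?_ x
  · rw [trace_ST_sq]
    have := intCast_ne_of_not_dvd (M := M) (a := -1) (b := 2)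
      (not_dvd_of_lt (by norm_num) (by norm_num; omega))
    simpa using this
  · rw [trace_ST_sq]
    have := intCast_ne_of_not_dvd (M := M) (a := -1) (b := -2)
      (by
        have := not_dvd_neg_of_lt (M := M) (t := 1) (by norm_num) (by omega)
        simpa using this)
    simpa using this

open Fermat.Agent.S24 in
/-- `#X = 2 #(⟨S⟩ \ X)` for `X = SL(2, ℤ) / ±Γ₁(M)`, `M ≥ 3`. -/
theorem card_quotient_Gpm_eq_two_mul_orbits_S {M : ℕ} (hM : 3 ≤ M) :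
    Nat.card (SL(2, ℤ) ⧸ Gpm M)
      = 2 * Nat.card (orbitRel.Quotient (Subgroup.zpowers ModularGroup.S) (SL(2, ℤ) ⧸ Gpm M)) := by
  have : NeZero M := ⟨by omega⟩
  have h : ∑ i : Fin 4, Nat.card (fixedBy (SL(2, ℤ) ⧸ Gpm M) (ModularGroup.S ^ (i : ℕ)))
      = Nat.card (orbitRel.Quotient (Subgroup.zpowers ModularGroup.S) (SL(2, ℤ) ⧸ Gpm M)) * 4 :=
    helper27.sum_card_fixedBy_zpowers (X := SL(2, ℤ) ⧸ Gpm M) ModularGroup.S 4
      helper27.orderOf_S (by norm_num)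
  rw [Fin.sum_univ_four] at h
  have hS2 : ∀ x : SL(2, ℤ) ⧸ Gpm M, (ModularGroup.S ^ 2) • x = x := by
    intro x; rw [helper27.S_sq]; exact neg_one_smul_Gpm x
  have hempty : ∀ g : SL(2, ℤ), (∀ x : SL(2, ℤ) ⧸ Gpm M, g • x ≠ x) →
      Nat.card (fixedBy (SL(2, ℤ) ⧸ Gpm M) g) = 0 := by
    intro g hg
    have : IsEmpty (fixedBy (SL(2, ℤ) ⧸ Gpm M) g) := ⟨fun x => hg x.1 x.2⟩
    exact Nat.card_of_isEmpty
  have h0 : Nat.card (fixedBy (SL(2, ℤ) ⧸ Gpm M) (ModularGroup.S ^ ((0 : Fin 4) : ℕ)))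
      = Nat.card (SL(2, ℤ) ⧸ Gpm M) :=
    helper27.card_fixedBy_of_forall fun x => by simp
  have h1 : Nat.card (fixedBy (SL(2, ℤ) ⧸ Gpm M) (ModularGroup.S ^ ((1 : Fin 4) : ℕ))) = 0 :=
    hempty _ fun x => by simpa using S_smul_ne hM x
  have h2 : Nat.card (fixedBy (SL(2, ℤ) ⧸ Gpm M) (ModularGroup.S ^ ((2 : Fin 4) : ℕ)))
      = Nat.card (SL(2, ℤ) ⧸ Gpm M) :=
    helper27.card_fixedBy_of_forall fun x => hS2 x
  have h3 : Nat.card (fixedBy (SL(2, ℤ) ⧸ Gpm M) (ModularGroup.S ^ ((3 : Fin 4) : ℕ))) = 0 := by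
    refine hempty _ fun x hx => ?_
    have : (ModularGroup.S ^ ((3 : Fin 4) : ℕ)) • x = ModularGroup.S • x := by
      show (ModularGroup.S ^ 3) • x = ModularGroup.S • x
      rw [show (3 : ℕ) = 1 + 2 from rfl, pow_add, mul_smul, hS2, pow_one]
    rw [this] at hx
    exact S_smul_ne hM x hx
  rw [h0, h1, h2, h3] at h
  omega

open Fermat.Agent.S24 in
/-- `#X = 3 #(⟨S T⟩ \ X)` for `X = SL(2, ℤ) / ±Γ₁(M)`, `M ≥ 4`. -/
theorem card_quotient_Gpm_eq_three_mul_orbits_ST {M : ℕ} (hM : 4 ≤ M) :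
    Nat.card (SL(2, ℤ) ⧸ Gpm M)
      = 3 * Nat.card (orbitRel.Quotient (Subgroup.zpowers (ModularGroup.S * ModularGroup.T))
          (SL(2, ℤ) ⧸ Gpm M)) := by
  have : NeZero M := ⟨by omega⟩
  have h : ∑ i : Fin 6, Nat.card (fixedBy (SL(2, ℤ) ⧸ Gpm M)
        ((ModularGroup.S * ModularGroup.T) ^ (i : ℕ)))
      = Nat.card (orbitRel.Quotient (Subgroup.zpowers (ModularGroup.S * ModularGroup.T))
          (SL(2, ℤ) ⧸ Gpm M)) * 6 :=
    helper27.sum_card_fixedBy_zpowers (X := SL(2, ℤ) ⧸ Gpm M)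
      (ModularGroup.S * ModularGroup.T) 6 helper27.orderOf_ST (by norm_num)
  rw [Fin.sum_univ_six] at h
  have h1' := ST_smul_ne hM
  have h2' := ST_sq_smul_ne hM
  have hcube0 := helper27.ST_cube
  generalize ModularGroup.S * ModularGroup.T = g at h h1' h2' hcube0 ⊢
  have hcube : ∀ x : SL(2, ℤ) ⧸ Gpm M, (g ^ 3) • x = x := by
    intro x; rw [hcube0]; exact neg_one_smul_Gpm x
  have hempty : ∀ g : SL(2, ℤ), (∀ x : SL(2, ℤ) ⧸ Gpm M, g • x ≠ x) →
      Nat.card (fixedBy (SL(2, ℤ) ⧸ Gpm M) g) = 0 := by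
    intro g hg
    have : IsEmpty (fixedBy (SL(2, ℤ) ⧸ Gpm M) g) := ⟨fun x => hg x.1 x.2⟩
    exact Nat.card_of_isEmpty
  have h0 : Nat.card (fixedBy (SL(2, ℤ) ⧸ Gpm M) (g ^ ((0 : Fin 6) : ℕ)))
      = Nat.card (SL(2, ℤ) ⧸ Gpm M) :=
    helper27.card_fixedBy_of_forall fun x => by simp
  have h1 : Nat.card (fixedBy (SL(2, ℤ) ⧸ Gpm M) (g ^ ((1 : Fin 6) : ℕ))) = 0 :=
    hempty _ fun x => by simpa using h1' x
  have h2 : Nat.card (fixedBy (SL(2, ℤ) ⧸ Gpm M) (g ^ ((2 : Fin 6) : ℕ))) = 0 :=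
    hempty _ fun x => h2' x
  have h3 : Nat.card (fixedBy (SL(2, ℤ) ⧸ Gpm M) (g ^ ((3 : Fin 6) : ℕ)))
      = Nat.card (SL(2, ℤ) ⧸ Gpm M) :=
    helper27.card_fixedBy_of_forall fun x => hcube x
  have h4 : Nat.card (fixedBy (SL(2, ℤ) ⧸ Gpm M) (g ^ ((4 : Fin 6) : ℕ))) = 0 := by
    refine hempty _ fun x hx => ?_
    have : (g ^ ((4 : Fin 6) : ℕ)) • x = g • x := by
      show (g ^ 4) • x = g • x
      rw [show (4 : ℕ) = 1 + 3 from rfl, pow_add, mul_smul, hcube, pow_one]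
    rw [this] at hx
    exact h1' x hx
  have h5 : Nat.card (fixedBy (SL(2, ℤ) ⧸ Gpm M) (g ^ ((5 : Fin 6) : ℕ))) = 0 := by
    refine hempty _ fun x hx => ?_
    have : (g ^ ((5 : Fin 6) : ℕ)) • x = (g ^ 2) • x := by
      show (g ^ 5) • x = (g ^ 2) • x
      rw [show (5 : ℕ) = 2 + 3 from rfl, pow_add, mul_smul, hcube]
    rw [this] at hx
    exact h2' x hx
  rw [h0, h1, h2, h3, h4, h5] at h
  omega

end Fermat.Agent.T4.helper83
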