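/-
T4 (I) [I-GEN-COSET], part 2 (helper83): the index of `Γ₁(M)` and of `±Γ₁(M)` in `SL(2, ℤ)`.

* `relIndex_Gamma1_Gamma0 : (Gamma1 M).relIndex (Gamma0 M) = φ(M)`;
* `index_Gamma1 : (Gamma1 M).index = φ(M) * ψ(M)`;
* `relIndex_Gamma1_Gpm : (Gamma1 M).relIndex (Gpm M) = 2` for `3 ≤ M`;
* `two_mul_index_Gpm : 2 * (Gpm M).index = φ(M) * ψ(M)` for `3 ≤ M`;
* `card_quotient_Gamma1`, `two_mul_card_quotient_Gpm`.
-/
import Mathlib
import Fermat.Agent.T4.helper83_Gamma1Coset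

set_option autoImplicit false
open scoped MatrixGroups
open CongruenceSubgroup Matrix MulAction

namespace Fermat.Agent.T4.helper83

open Fermat.Agent.S24

theorem det_eq (g : SL(2, ℤ)) : g 0 0 * g 1 1 - g 0 1 * g 1 0 = 1 := by
  have := g.det_coe
  rwa [Matrix.det_fin_two] at this

theorem inv_mul_apply_one_one (a b : SL(2, ℤ)) :
    (a⁻¹ * b) 1 1 = - a 1 0 * b 0 1 + a 0 0 * b 1 1 := by
  rw [Matrix.SpecialLinearGroup.coe_mul, Matrix.SpecialLinearGroup.coe_inv,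
    Matrix.adjugate_fin_two, Matrix.mul_apply, Fin.sum_univ_two]
  simp

theorem inv_mul_apply_zero_zero (a b : SL(2, ℤ)) :
    (a⁻¹ * b) 0 0 = a 1 1 * b 0 0 - a 0 1 * b 1 0 := by
  rw [Matrix.SpecialLinearGroup.coe_mul, Matrix.SpecialLinearGroup.coe_inv,
    Matrix.adjugate_fin_two, Matrix.mul_apply, Fin.sum_univ_two]
  simp
  ring

theorem inv_mul_apply_one_zero (a b : SL(2, ℤ)) :
    (a⁻¹ * b) 1 0 = - a 1 0 * b 0 0 + a 0 0 * b 1 0 := by
  rw [Matrix.SpecialLinearGroup.coe_mul, Matrix.SpecialLinearGroup.coe_inv,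
    Matrix.adjugate_fin_two, Matrix.mul_apply, Fin.sum_univ_two]
  simp

/-- two elements of `Γ₀(M)` are in the same coset of `Γ₁(M)` iff their lower right entries agree
modulo `M` -/
theorem lowerRight_eq_iff {M : ℕ} (a b : SL(2, ℤ)) (ha : a ∈ Gamma0 M) (hb : b ∈ Gamma0 M) :
    ((a 1 1 : ℤ) : ZMod M) = ((b 1 1 : ℤ) : ZMod M) ↔ a⁻¹ * b ∈ Gamma1 M := by
  rw [Gamma0_mem] at ha hb
  have hda : ((a 0 0 : ℤ) : ZMod M) * ((a 1 1 : ℤ) : ZMod M) = 1 := by
    have := congrArg (fun t : ℤ => (t : ZMod M)) (det_eq a)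
    simp only [Int.cast_sub, Int.cast_mul, Int.cast_one] at this
    rw [ha, mul_zero, sub_zero] at this
    exact this
  have hdb : ((b 0 0 : ℤ) : ZMod M) * ((b 1 1 : ℤ) : ZMod M) = 1 := by
    have := congrArg (fun t : ℤ => (t : ZMod M)) (det_eq b)
    simp only [Int.cast_sub, Int.cast_mul, Int.cast_one] at this
    rw [hb, mul_zero, sub_zero] at this
    exact this
  rw [Gamma1_mem, inv_mul_apply_one_one, inv_mul_apply_zero_zero, inv_mul_apply_one_zero]
  push_cast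
  rw [ha, hb]
  simp only [neg_zero, zero_mul, mul_zero, zero_add, sub_zero, and_true]
  constructor
  · intro h
    refine ⟨?_, ?_⟩
    · rw [h, mul_comm]; exact hdb
    · rw [← h]; exact hda
  · rintro ⟨-, h2⟩
    calc ((a 1 1 : ℤ) : ZMod M) = ((a 1 1 : ℤ) : ZMod M) * (((a 0 0 : ℤ) : ZMod M) * ((b 1 1 : ℤ) : ZMod M)) := by
          rw [h2, mul_one]
      _ = (((a 0 0 : ℤ) : ZMod M) * ((a 1 1 : ℤ) : ZMod M)) * ((b 1 1 : ℤ) : ZMod M) := by ring
      _ = ((b 1 1 : ℤ) : ZMod M) := by rw [hda, one_mul]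

/-- every unit modulo `M` is the lower right entry of an element of `Γ₀(M)` -/
theorem exists_mem_Gamma0_lowerRight {M : ℕ} (u : ZMod M) (hu : IsUnit u) :
    ∃ g : SL(2, ℤ), g ∈ Gamma0 M ∧ ((g 1 1 : ℤ) : ZMod M) = u := by
  obtain ⟨d, rfl⟩ : ∃ d : ℤ, ((d : ℤ) : ZMod M) = u := ZMod.intCast_surjective u
  have hcop : IsCoprime d (M : ℤ) := by
    have := (ZMod.isUnit_iff_coprime d.natAbs M).mp (by
      have h1 : ((d.natAbs : ℕ) : ZMod M) = (d : ZMod M) ∨ ((d.natAbs : ℕ) : ZMod M) = -(d : ZMod M) := by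
        rcases Int.natAbs_eq d with h | h
        · left
          conv_rhs => rw [h]
          simp
        · right
          conv_rhs => rw [h]
          simp
      rcases h1 with h1 | h1
      · rw [h1]; exact hu
      · rw [h1]; exact hu.neg)
    rw [Int.isCoprime_iff_gcd_eq_one, Int.gcd_def]
    simpa using this
  obtain ⟨x, y, hxy⟩ := hcop
  refine ⟨helper37.mk2 x (-y) M d (by linear_combination hxy), ?_, ?_⟩
  · rw [Gamma0_mem]
    simp [helper37.mk2]
  · simp [helper37.mk2]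

theorem lowerRight_isUnit {M : ℕ} (g : SL(2, ℤ)) (hg : g ∈ Gamma0 M) :
    IsUnit ((g 1 1 : ℤ) : ZMod M) := by
  rw [Gamma0_mem] at hg
  have := congrArg (fun t : ℤ => (t : ZMod M)) (det_eq g)
  simp only [Int.cast_sub, Int.cast_mul, Int.cast_one] at this
  rw [hg, mul_zero, sub_zero] at this
  exact IsUnit.of_mul_eq_one _ (by rw [mul_comm]; exact this)

theorem relIndex_Gamma1_Gamma0 (M : ℕ) [NeZero M] :
    (Gamma1 M).relIndex (Gamma0 M) = Nat.totient M := by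
  rw [helper37.relIndex_eq_card_image (Gamma1 M) (Gamma0 M)
    (fun g : SL(2, ℤ) => ((g 1 1 : ℤ) : ZMod M))
    (fun a ha b hb => lowerRight_eq_iff a b ha hb)]
  have hset : (fun g : SL(2, ℤ) => ((g 1 1 : ℤ) : ZMod M)) '' (Gamma0 M : Set SL(2, ℤ))
      = {u : ZMod M | IsUnit u} := by
    ext u
    constructor
    · rintro ⟨g, hg, rfl⟩
      exact lowerRight_isUnit g hg
    · intro hu
      obtain ⟨g, hg, hgu⟩ := exists_mem_Gamma0_lowerRight u hu
      exact ⟨g, hg, hgu⟩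
  rw [hset]
  have e : {u : ZMod M | IsUnit u} ≃ (ZMod M)ˣ :=
    { toFun := fun u => u.2.unit
      invFun := fun v => ⟨(v : ZMod M), v.isUnit⟩
      left_inv := fun u => by ext; simp
      right_inv := fun v => by ext; simp }
  rw [Nat.card_congr e, Nat.card_eq_fintype_card, ZMod.card_units_eq_totient]

theorem index_Gamma1 (M : ℕ) [NeZero M] :
    (Gamma1 M).index = Nat.totient M * ModularCurve.dedekindPsi M := by
  rw [← Subgroup.relIndex_mul_index (Gamma1_in_Gamma0 M), relIndex_Gamma1_Gamma0,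
    helper37.index_Gamma0 M (NeZero.ne M)]

theorem card_quotient_Gamma1 (M : ℕ) [NeZero M] :
    Nat.card (SL(2, ℤ) ⧸ Gamma1 M) = Nat.totient M * ModularCurve.dedekindPsi M := by
  rw [← Subgroup.index_eq_card, index_Gamma1]

theorem neg_one_not_mem_Gamma1 {M : ℕ} (hM : 3 ≤ M) : (-1 : SL(2, ℤ)) ∉ Gamma1 M := by
  intro h
  rw [Gamma1_mem] at h
  have h0 := h.1
  have h1 : ((-1 : SL(2, ℤ)) 0 0 : ℤ) = -1 := by decide
  rw [h1] at h0
  have := intCast_ne_of_not_dvd (M := M) (a := -1) (b := 1)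
    (not_dvd_of_lt (by norm_num) (by norm_num; omega))
  exact this (by simpa using h0)

theorem mem_Gamma1_iff_of_mem_Gpm {M : ℕ} (a b : SL(2, ℤ)) (ha : a ∈ Gpm M)
    (hb : b ∈ Gpm M) : (a ∈ Gamma1 M) = (b ∈ Gamma1 M) ↔ a⁻¹ * b ∈ Gamma1 M := by
  rw [eq_iff_iff]
  constructor
  · intro h
    by_cases ha1 : a ∈ Gamma1 M
    · exact Subgroup.mul_mem _ (Subgroup.inv_mem _ ha1) (h.mp ha1)
    · have hb1 : b ∉ Gamma1 M := fun hb1 => ha1 (h.mpr hb1)
      have ha2 : -a ∈ Gamma1 M := ha.resolve_left ha1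
      have hb2 : -b ∈ Gamma1 M := hb.resolve_left hb1
      have := Subgroup.mul_mem _ (Subgroup.inv_mem _ ha2) hb2
      rwa [inv_neg, neg_mul_neg] at this
  · intro h
    constructor
    · intro ha1
      have := Subgroup.mul_mem _ ha1 h
      rwa [mul_inv_cancel_left] at this
    · intro hb1
      have := Subgroup.mul_mem _ hb1 (Subgroup.inv_mem _ h)
      rwa [_root_.mul_inv_rev, inv_inv, mul_inv_cancel_left] at this

theorem relIndex_Gamma1_Gpm {M : ℕ} (hM : 3 ≤ M) : (Gamma1 M).relIndex (Gpm M) = 2 := by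
  rw [helper37.relIndex_eq_card_image (Gamma1 M) (Gpm M) (fun g : SL(2, ℤ) => (g ∈ Gamma1 M))
    (fun a ha b hb => mem_Gamma1_iff_of_mem_Gpm a b ha hb)]
  have hset : (fun g : SL(2, ℤ) => (g ∈ Gamma1 M)) '' (Gpm M : Set SL(2, ℤ))
      = (Set.univ : Set Prop) := by
    ext p
    simp only [Set.mem_image, SetLike.mem_coe, Set.mem_univ, iff_true]
    by_cases hp : p
    · exact ⟨1, Subgroup.one_mem _, by simp [hp]⟩
    · exact ⟨-1, neg_one_mem_Gpm M, by simp [hp, neg_one_not_mem_Gamma1 hM]⟩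
  rw [hset, Nat.card_congr (Equiv.Set.univ Prop), Nat.card_congr Equiv.propEquivBool]
  simp

theorem two_mul_index_Gpm {M : ℕ} (hM : 3 ≤ M) :
    2 * (Gpm M).index = Nat.totient M * ModularCurve.dedekindPsi M := by
  have : NeZero M := ⟨by omega⟩
  rw [← index_Gamma1, ← Subgroup.relIndex_mul_index (Gamma1_le_Gpm M), relIndex_Gamma1_Gpm hM]

theorem two_mul_card_quotient_Gpm {M : ℕ} (hM : 3 ≤ M) :
    2 * Nat.card (SL(2, ℤ) ⧸ Gpm M) = Nat.totient M * ModularCurve.dedekindPsi M := by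
  rw [← Subgroup.index_eq_card, two_mul_index_Gpm hM]

end Fermat.Agent.T4.helper83
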