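/-
T4 (I) [I-GEN-COSET], part 3 (helper83): the `⟨T⟩`-orbits on `SL(2, ℤ) / Γ₁(M)` and on
`SL(2, ℤ) / ±Γ₁(M)` (= the cusps of `X₁(M)`).

* `orbT_eq_iff` : generic orbit criterion;
* `inv_mul_mem_Gamma1_iff` : cosets of `Γ₁(M)` = first columns modulo `M`;
* `card_orbits_T_Gamma1 : #(⟨T⟩ \ SL(2, ℤ) / Γ₁(M)) = ∑_{c < M} φ(gcd(c, M))`;
* `sum_totient_gcd : ∑_{c < M} φ(gcd(c, M)) = ∑_{d ∣ M} φ(d) φ(M / d)`;
* `card_orbits_T_Gamma1_eq_two_mul : #(⟨T⟩ \ SL(2, ℤ) / Γ₁(M)) = 2 #(⟨T⟩ \ SL(2, ℤ) / ±Γ₁(M))`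
  for `¬ M ∣ 4`;
* `two_mul_card_orbits_T_Gpm : 2 #(⟨T⟩ \ SL(2, ℤ) / ±Γ₁(M)) = ∑_{d ∣ M} φ(d) φ(M / d)`.
-/
import Mathlib
import Fermat.Agent.T4.helper83_Gamma1Index
import Fermat.Agent.S24.helper83_CuspCount

set_option autoImplicit false
open scoped MatrixGroups
open CongruenceSubgroup Matrix MulAction

namespace Fermat.Agent.T4.helper83

open Fermat.Agent.S24

/-- the `⟨T⟩`-orbits on the cosets of `Γ` -/
abbrev OrbT (Γ : Subgroup SL(2, ℤ)) : Type :=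
  MulAction.orbitRel.Quotient (Subgroup.zpowers ModularGroup.T) (SL(2, ℤ) ⧸ Γ)

/-- the class of a matrix in `⟨T⟩ \ SL(2, ℤ) / Γ` -/
def orbT (Γ : Subgroup SL(2, ℤ)) (g : SL(2, ℤ)) : OrbT Γ :=
  Quotient.mk'' (g : SL(2, ℤ) ⧸ Γ)

theorem orbT_surjective (Γ : Subgroup SL(2, ℤ)) : Function.Surjective (orbT Γ) := by
  intro q
  induction q using Quotient.inductionOn' with
  | h x =>
    induction x using QuotientGroup.induction_on with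
    | H g => exact ⟨g, rfl⟩

/-- Two cosets lie in the same `⟨T⟩`-orbit iff `(T ^ k g₁)⁻¹ g₂ ∈ Γ` for some `k`. -/
theorem orbT_eq_iff (Γ : Subgroup SL(2, ℤ)) (g₁ g₂ : SL(2, ℤ)) :
    orbT Γ g₂ = orbT Γ g₁ ↔ ∃ k : ℤ, (ModularGroup.T ^ k * g₁)⁻¹ * g₂ ∈ Γ := by
  unfold orbT
  rw [Quotient.eq'', MulAction.orbitRel_apply, MulAction.mem_orbit_iff]
  constructor
  · rintro ⟨⟨t, ht⟩, h⟩
    obtain ⟨k, rfl⟩ := Subgroup.mem_zpowers_iff.mp ht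
    refine ⟨k, ?_⟩
    have h' : ((ModularGroup.T ^ k * g₁ : SL(2, ℤ)) : SL(2, ℤ) ⧸ Γ) = g₂ := h
    rwa [QuotientGroup.eq] at h'
  · rintro ⟨k, hk⟩
    refine ⟨⟨ModularGroup.T ^ k, Subgroup.zpow_mem_zpowers _ _⟩, ?_⟩
    show ((ModularGroup.T ^ k * g₁ : SL(2, ℤ)) : SL(2, ℤ) ⧸ Γ) = g₂
    rwa [QuotientGroup.eq]

theorem det_eq_zmod (M : ℕ) (g : SL(2, ℤ)) :
    ((g 0 0 : ℤ) : ZMod M) * ((g 1 1 : ℤ) : ZMod M)
      - ((g 0 1 : ℤ) : ZMod M) * ((g 1 0 : ℤ) : ZMod M) = 1 := by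
  have := congrArg (fun t : ℤ => (t : ZMod M)) (det_eq g)
  simpa only [Int.cast_sub, Int.cast_mul, Int.cast_one] using this

/-- the cosets of `Γ₁(M)` are classified by the first column modulo `M` -/
theorem inv_mul_mem_Gamma1_iff {M : ℕ} (a b : SL(2, ℤ)) :
    a⁻¹ * b ∈ Gamma1 M ↔
      ((a 0 0 : ℤ) : ZMod M) = ((b 0 0 : ℤ) : ZMod M) ∧
        ((a 1 0 : ℤ) : ZMod M) = ((b 1 0 : ℤ) : ZMod M) := by
  have hA := det_eq_zmod M a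
  have hB := det_eq_zmod M b
  rw [Gamma1_mem, inv_mul_apply_one_one, inv_mul_apply_zero_zero, inv_mul_apply_one_zero]
  push_cast
  constructor
  · rintro ⟨h1, -, h3⟩
    refine ⟨?_, ?_⟩
    · linear_combination (-((a 0 0 : ℤ) : ZMod M)) * h1 + ((b 0 0 : ℤ) : ZMod M) * hA
        - ((a 0 1 : ℤ) : ZMod M) * h3
    · linear_combination (-((a 1 0 : ℤ) : ZMod M)) * h1 + ((b 1 0 : ℤ) : ZMod M) * hA
        - ((a 1 1 : ℤ) : ZMod M) * h3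
  · rintro ⟨h0, h1⟩
    refine ⟨?_, ?_, ?_⟩
    · rw [← h0, ← h1]; linear_combination hA
    · rw [h0, h1]; linear_combination hB
    · rw [← h0, ← h1]; ring

/-! ### the invariant of a `⟨T⟩`-orbit on `SL(2, ℤ) / Γ₁(M)` -/

theorem gcd_val (M : ℕ) [NeZero M] (c : ℤ) :
    Nat.gcd ((c : ZMod M).val) M = Int.gcd c M := by
  have h := ZMod.val_intCast (n := M) c
  rw [← Int.gcd_emod c M, ← h, Int.gcd_natCast_natCast]

/-- the index set: pairs `(c, a)` with `c < M`, `a < gcd(c, M)` prime to `gcd(c, M)` -/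
def idx1 (M : ℕ) : Finset (Σ _ : ℕ, ℕ) :=
  (Finset.range M).sigma fun c =>
    (Finset.range (Nat.gcd c M)).filter fun a => (Nat.gcd c M).Coprime a

theorem card_idx1 (M : ℕ) :
    (idx1 M).card = ∑ c ∈ Finset.range M, Nat.totient (Nat.gcd c M) := by
  rw [idx1, Finset.card_sigma]
  refine Finset.sum_congr rfl (fun c _ => ?_)
  rw [Nat.totient_eq_card_coprime]

/-- the invariant of a matrix: `(c mod M, a mod gcd(c, M))` for the first column `(a, c)` -/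
noncomputable def Φ1 (M : ℕ) (g : SL(2, ℤ)) : Σ _ : ℕ, ℕ :=
  ⟨((g 1 0 : ℤ) : ZMod M).val, ((g 0 0 : ℤ) : ZMod (Nat.gcd ((g 1 0 : ℤ) : ZMod M).val M)).val⟩

theorem gcd_val_ne_zero (M : ℕ) [NeZero M] (c : ℤ) : Nat.gcd ((c : ZMod M).val) M ≠ 0 :=
  Nat.gcd_ne_zero_right (NeZero.ne M)

theorem Φ1_mem (M : ℕ) [NeZero M] (g : SL(2, ℤ)) : Φ1 M g ∈ idx1 M := by
  unfold Φ1 idx1
  rw [Finset.mem_sigma]
  have : NeZero (Nat.gcd ((g 1 0 : ℤ) : ZMod M).val M) := ⟨gcd_val_ne_zero M _⟩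
  refine ⟨Finset.mem_range.mpr (ZMod.val_lt _), ?_⟩
  simp only [Finset.mem_filter, Finset.mem_range]
  refine ⟨ZMod.val_lt _, ?_⟩
  -- `a` is prime to `d = gcd(c, M)` because `d ∣ c` and `gcd(a, c) = 1`
  set d := Nat.gcd ((g 1 0 : ℤ) : ZMod M).val M with hd
  have hdc : (d : ℤ) ∣ g 1 0 := by
    rw [hd, gcd_val]
    exact Int.gcd_dvd_left _ _
  have hcop : IsCoprime (g 0 0) (d : ℤ) :=
    (Matrix.SpecialLinearGroup.isCoprime_col g 0).of_isCoprime_of_dvd_right hdc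
  have hu : IsUnit ((g 0 0 : ℤ) : ZMod d) :=
    IsUnit.of_mul_eq_one _ (ZMod.coe_int_mul_inv_eq_one hcop)
  have := ZMod.val_coe_unit_coprime hu.unit
  rw [IsUnit.unit_spec] at this
  exact this.symm

theorem T_zpow_mul_col (M : ℕ) (k : ℤ) (g : SL(2, ℤ)) :
    (((ModularGroup.T ^ k * g) 0 0 : ℤ) : ZMod M)
        = ((g 0 0 : ℤ) : ZMod M) + (k : ZMod M) * ((g 1 0 : ℤ) : ZMod M) ∧
      (((ModularGroup.T ^ k * g) 1 0 : ℤ) : ZMod M) = ((g 1 0 : ℤ) : ZMod M) := by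
  rw [helper83.T_zpow_mul_apply_zero_zero, helper83.T_zpow_mul_apply_one_zero]
  push_cast
  exact ⟨rfl, rfl⟩

/-- same invariant iff same `⟨T⟩`-orbit on `SL(2, ℤ) / Γ₁(M)` -/
theorem Φ1_eq_iff (M : ℕ) [NeZero M] (g₁ g₂ : SL(2, ℤ)) :
    Φ1 M g₁ = Φ1 M g₂ ↔ ∃ k : ℤ, (ModularGroup.T ^ k * g₁)⁻¹ * g₂ ∈ Gamma1 M := by
  constructor
  · intro h
    unfold Φ1 at h
    rw [Sigma.mk.injEq, heq_eq_eq] at h
    obtain ⟨hc, ha⟩ := h
    have hc' : ((g₁ 1 0 : ℤ) : ZMod M) = ((g₂ 1 0 : ℤ) : ZMod M) := ZMod.val_injective M hc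
    rw [← hc'] at ha
    have : NeZero (Nat.gcd ((g₁ 1 0 : ℤ) : ZMod M).val M) := ⟨gcd_val_ne_zero M _⟩
    have ha' := ZMod.val_injective _ ha
    rw [ZMod.intCast_eq_intCast_iff_dvd_sub, gcd_val] at ha'
    obtain ⟨t, ht⟩ := ha'
    have hbez := Int.gcd_eq_gcd_ab (g₁ 1 0) (M : ℤ)
    refine ⟨t * Int.gcdA (g₁ 1 0) M, ?_⟩
    rw [inv_mul_mem_Gamma1_iff]
    obtain ⟨e0, e1⟩ := T_zpow_mul_col M (t * Int.gcdA (g₁ 1 0) M) g₁
    rw [e0, e1]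
    refine ⟨?_, hc'⟩
    have key : (g₁ 0 0 + (t * Int.gcdA (g₁ 1 0) M) * g₁ 1 0 : ℤ) - g₂ 0 0
        = (M : ℤ) * (- t * Int.gcdB (g₁ 1 0) M) := by
      have h1 : g₂ 0 0 = g₁ 0 0 + (Int.gcd (g₁ 1 0) M : ℤ) * t := by linarith
      rw [h1, hbez]
      ring
    have hdvd : (M : ℤ) ∣ g₂ 0 0 - (g₁ 0 0 + (t * Int.gcdA (g₁ 1 0) M) * g₁ 1 0) := by
      refine ⟨t * Int.gcdB (g₁ 1 0) M, ?_⟩
      linarith
    have := (ZMod.intCast_eq_intCast_iff_dvd_sub _ _ M).mpr hdvd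
    push_cast at this ⊢
    exact this
  · rintro ⟨k, hk⟩
    rw [inv_mul_mem_Gamma1_iff] at hk
    obtain ⟨e0, e1⟩ := T_zpow_mul_col M k g₁
    rw [e0, e1] at hk
    obtain ⟨h0, hc'⟩ := hk
    unfold Φ1
    rw [← hc']
    rw [Sigma.mk.injEq, heq_eq_eq]
    refine ⟨rfl, ?_⟩
    have : NeZero (Nat.gcd ((g₁ 1 0 : ℤ) : ZMod M).val M) := ⟨gcd_val_ne_zero M _⟩
    congr 1
    rw [ZMod.intCast_eq_intCast_iff_dvd_sub, gcd_val]
    have h0' : (M : ℤ) ∣ g₂ 0 0 - (g₁ 0 0 + k * g₁ 1 0) := by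
      rw [← ZMod.intCast_eq_intCast_iff_dvd_sub]
      push_cast
      exact h0
    have hdM : ((Int.gcd (g₁ 1 0) M : ℕ) : ℤ) ∣ (M : ℤ) := Int.gcd_dvd_right _ _
    have hdc : ((Int.gcd (g₁ 1 0) M : ℕ) : ℤ) ∣ g₁ 1 0 := Int.gcd_dvd_left _ _
    have h1 := hdM.trans h0'
    have h2 : ((Int.gcd (g₁ 1 0) M : ℕ) : ℤ) ∣ k * g₁ 1 0 := Dvd.dvd.mul_left hdc k
    have := dvd_add h1 h2
    have e : g₂ 0 0 - (g₁ 0 0 + k * g₁ 1 0) + k * g₁ 1 0 = g₂ 0 0 - g₁ 0 0 := by ring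
    rwa [e] at this

/-- every index is attained -/
theorem Φ1_surj (M : ℕ) [NeZero M] {x : Σ _ : ℕ, ℕ} (hx : x ∈ idx1 M) :
    ∃ g : SL(2, ℤ), Φ1 M g = x := by
  obtain ⟨c, r⟩ := x
  rw [idx1, Finset.mem_sigma] at hx
  obtain ⟨hc, hr⟩ := hx
  simp only [Finset.mem_filter, Finset.mem_range] at hr hc
  obtain ⟨hrlt, hrcop⟩ := hr
  set d := Nat.gcd c M with hd
  have hd0 : d ≠ 0 := Nat.gcd_ne_zero_right (NeZero.ne M)
  have : NeZero d := ⟨hd0⟩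
  -- a positive representative `c'` of `c`
  set c' : ℕ := c + M with hc'
  have hc'0 : c' ≠ 0 := by have := NeZero.ne M; omega
  have : NeZero c' := ⟨hc'0⟩
  have hdc' : d ∣ c' := Nat.dvd_add (Nat.gcd_dvd_left _ _) (Nat.gcd_dvd_right _ _)
  obtain ⟨u, hu⟩ := ZMod.unitsMap_surjective hdc' (ZMod.unitOfCoprime r hrcop.symm)
  have hu' : ((((u : ZMod c').val : ℕ) : ℤ) : ZMod d) = (r : ZMod d) := by
    have h1 := congrArg (fun v : (ZMod d)ˣ => (v : ZMod d)) hu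
    simp only [ZMod.unitsMap_def, Units.coe_map, MonoidHom.coe_coe, ZMod.castHom_apply,
      ZMod.coe_unitOfCoprime] at h1
    rw [← h1, Int.cast_natCast, ZMod.natCast_val]
  have hcop : IsCoprime (((u : ZMod c').val : ℕ) : ℤ) ((c' : ℕ) : ℤ) :=
    Nat.isCoprime_iff_coprime.mpr (ZMod.val_coe_unit_coprime u)
  obtain ⟨g, hg0, hg1⟩ := hcop.exists_SL2_col 0
  refine ⟨g, ?_⟩
  unfold Φ1
  rw [hg0, hg1]
  have e1 : (((c' : ℕ) : ℤ) : ZMod M).val = c := by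
    rw [Int.cast_natCast, hc', Nat.cast_add, ZMod.natCast_self, add_zero,
      ZMod.val_natCast_of_lt hc]
  rw [e1, Sigma.mk.injEq, heq_eq_eq]
  refine ⟨rfl, ?_⟩
  rw [← hd, hu', ZMod.val_natCast_of_lt hrlt]

/-- The number of `⟨T⟩`-orbits on `SL(2, ℤ) ⧸ Γ₁(M)`. -/
theorem card_orbits_T_Gamma1 (M : ℕ) [NeZero M] :
    Nat.card (OrbT (Gamma1 M)) = ∑ c ∈ Finset.range M, Nat.totient (Nat.gcd c M) := by
  let Φ : SL(2, ℤ) → idx1 M := fun g => ⟨Φ1 M g, Φ1_mem M g⟩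
  have hΦ : Function.Surjective Φ := by
    rintro ⟨x, hx⟩
    obtain ⟨g, hg⟩ := Φ1_surj M hx
    exact ⟨g, Subtype.ext hg⟩
  have hker : Setoid.ker (orbT (Gamma1 M)) = Setoid.ker Φ := by
    ext g₁ g₂
    rw [Setoid.ker_def, Setoid.ker_def]
    show orbT (Gamma1 M) g₁ = orbT (Gamma1 M) g₂ ↔ Φ g₁ = Φ g₂
    rw [Subtype.ext_iff]
    show orbT (Gamma1 M) g₁ = orbT (Gamma1 M) g₂ ↔ Φ1 M g₁ = Φ1 M g₂
    rw [eq_comm (a := Φ1 M g₁), Φ1_eq_iff]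
    exact orbT_eq_iff (Gamma1 M) g₂ g₁
  have e1 := Setoid.quotientKerEquivOfSurjective (orbT (Gamma1 M)) (orbT_surjective _)
  have e2 := Setoid.quotientKerEquivOfSurjective Φ hΦ
  rw [Nat.card_congr e1.symm, hker, Nat.card_congr e2, Nat.card_eq_fintype_card,
    Fintype.card_coe, card_idx1]


/-! ### the arithmetic identity -/

theorem sum_totient_gcd (M : ℕ) :
    ∑ c ∈ Finset.range M, Nat.totient (Nat.gcd c M)
      = ∑ d ∈ M.divisors, Nat.totient d * Nat.totient (M / d) := by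
  rcases Nat.eq_zero_or_pos M with rfl | hM
  · simp
  have hmaps : ∀ c ∈ Finset.range M, Nat.gcd c M ∈ M.divisors := by
    intro c _
    rw [Nat.mem_divisors]
    exact ⟨Nat.gcd_dvd_right _ _, hM.ne'⟩
  rw [← Finset.sum_fiberwise_of_maps_to hmaps]
  refine Finset.sum_congr rfl (fun d hd => ?_)
  have hdM : d ∣ M := Nat.dvd_of_mem_divisors hd
  have h1 : ∑ c ∈ Finset.range M with Nat.gcd c M = d, Nat.totient (Nat.gcd c M)
      = ∑ c ∈ Finset.range M with Nat.gcd c M = d, Nat.totient d := by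
    refine Finset.sum_congr rfl (fun c hc => ?_)
    rw [(Finset.mem_filter.mp hc).2]
  rw [h1, Finset.sum_const, smul_eq_mul, mul_comm, Nat.totient_div_of_dvd hdM]
  congr 2
  ext c
  simp only [Finset.mem_filter, Finset.mem_range, Nat.gcd_comm]

/-! ### from `Γ₁(M)` to `±Γ₁(M)` -/

/-- the natural map `⟨T⟩ \ SL(2, ℤ) / Γ₁(M) → ⟨T⟩ \ SL(2, ℤ) / ±Γ₁(M)` -/
noncomputable def pOrb (M : ℕ) (x : OrbT (Gamma1 M)) : OrbT (Gpm M) :=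
  orbT (Gpm M) (Classical.choose (orbT_surjective (Gamma1 M) x))

theorem pOrb_orbT (M : ℕ) (g : SL(2, ℤ)) : pOrb M (orbT (Gamma1 M) g) = orbT (Gpm M) g := by
  unfold pOrb
  have h := Classical.choose_spec (orbT_surjective (Gamma1 M) (orbT (Gamma1 M) g))
  rw [orbT_eq_iff] at h ⊢
  obtain ⟨k, hk⟩ := h
  exact ⟨k, Gamma1_le_Gpm M hk⟩

theorem orbT_Gpm_neg (M : ℕ) (g : SL(2, ℤ)) : orbT (Gpm M) (-g) = orbT (Gpm M) g := by
  rw [orbT_eq_iff]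
  refine ⟨0, ?_⟩
  rw [zpow_zero, one_mul, mul_neg, inv_mul_cancel]
  exact neg_one_mem_Gpm M

theorem trace_T_zpow (k : ℤ) :
    ((ModularGroup.T ^ k : SL(2, ℤ)) : Matrix (Fin 2) (Fin 2) ℤ).trace = 2 := by
  rw [ModularGroup.coe_T_zpow, Matrix.trace_fin_two]
  simp

theorem orbT_Gamma1_neg_ne {M : ℕ} (hM : ¬ M ∣ 4) (g : SL(2, ℤ)) :
    orbT (Gamma1 M) (-g) ≠ orbT (Gamma1 M) g := by
  intro h
  rw [orbT_eq_iff] at h
  obtain ⟨k, hk⟩ := h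
  have e : (ModularGroup.T ^ k * g)⁻¹ * -g = -(g⁻¹ * (ModularGroup.T ^ (-k) * g)) := by
    rw [mul_neg, _root_.mul_inv_rev, _root_.zpow_neg, mul_assoc]
  rw [e] at hk
  have ht := trace_of_mem_Gamma1 hk
  rw [trace_neg, trace_conj, trace_T_zpow] at ht
  have h4 : (M : ℤ) ∣ 4 := by
    have := (ZMod.intCast_eq_intCast_iff_dvd_sub (-2 : ℤ) 2 M).mp (by push_cast at ht ⊢; exact ht)
    norm_num at this
    exact this
  exact hM (by exact_mod_cast h4)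

theorem eq_or_eq_of_pOrb_eq (M : ℕ) (g g' : SL(2, ℤ))
    (h : orbT (Gpm M) g' = orbT (Gpm M) g) :
    orbT (Gamma1 M) g' = orbT (Gamma1 M) g ∨ orbT (Gamma1 M) g' = orbT (Gamma1 M) (-g) := by
  rw [orbT_eq_iff] at h
  obtain ⟨k, hk⟩ := h
  rcases hk with hk | hk
  · exact Or.inl ((orbT_eq_iff _ _ _).mpr ⟨k, hk⟩)
  · refine Or.inr ((orbT_eq_iff _ _ _).mpr ⟨k, ?_⟩)
    rwa [mul_neg, inv_neg, neg_mul]

theorem card_fiber_pOrb {M : ℕ} (hM : ¬ M ∣ 4) (y : OrbT (Gpm M)) :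
    Nat.card {x : OrbT (Gamma1 M) // pOrb M x = y} = 2 := by
  obtain ⟨g, rfl⟩ := orbT_surjective (Gpm M) y
  rw [Nat.card_eq_two_iff]
  refine ⟨⟨orbT (Gamma1 M) g, pOrb_orbT M g⟩,
    ⟨orbT (Gamma1 M) (-g), (pOrb_orbT M (-g)).trans (orbT_Gpm_neg M g)⟩, ?_, ?_⟩
  · intro h
    exact orbT_Gamma1_neg_ne hM g (congrArg Subtype.val h).symm
  · ext ⟨x, hx⟩
    simp only [Set.mem_insert_iff, Set.mem_singleton_iff, Set.mem_univ, iff_true, Subtype.mk.injEq]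
    obtain ⟨g', rfl⟩ := orbT_surjective (Gamma1 M) x
    rw [pOrb_orbT] at hx
    exact eq_or_eq_of_pOrb_eq M g g' hx

instance finite_OrbT (Γ : Subgroup SL(2, ℤ)) [Γ.FiniteIndex] : Finite (OrbT Γ) :=
  haveI : Finite (SL(2, ℤ) ⧸ Γ) := Subgroup.finite_quotient_of_finiteIndex
  Quotient.finite _

/-- `#(⟨T⟩ \ SL(2, ℤ) / Γ₁(M)) = 2 #(⟨T⟩ \ SL(2, ℤ) / ±Γ₁(M))` for `¬ M ∣ 4`. -/
theorem card_orbits_T_Gamma1_eq_two_mul {M : ℕ} [NeZero M] (hM : ¬ M ∣ 4) :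
    Nat.card (OrbT (Gamma1 M)) = 2 * Nat.card (OrbT (Gpm M)) := by
  have e := Equiv.sigmaFiberEquiv (pOrb M)
  have : Fintype (OrbT (Gpm M)) := Fintype.ofFinite _
  rw [← Nat.card_congr e, Nat.card_sigma]
  simp only [card_fiber_pOrb hM, Finset.sum_const, Finset.card_univ, smul_eq_mul]
  rw [Nat.card_eq_fintype_card, mul_comm]

/-- The number of cusps of `X₁(M)`: `2 #(⟨T⟩ \ SL(2, ℤ) / ±Γ₁(M)) = ∑_{d ∣ M} φ(d) φ(M / d)`
for `¬ M ∣ 4` (in particular for `M ≥ 5`). -/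
theorem two_mul_card_orbits_T_Gpm {M : ℕ} [NeZero M] (hM : ¬ M ∣ 4) :
    2 * Nat.card (OrbT (Gpm M)) = ∑ d ∈ M.divisors, Nat.totient d * Nat.totient (M / d) := by
  rw [← card_orbits_T_Gamma1_eq_two_mul hM, card_orbits_T_Gamma1, sum_totient_gcd]

theorem not_dvd_four_of_five_le {M : ℕ} (hM : 5 ≤ M) : ¬ M ∣ 4 := by
  intro h
  have := Nat.le_of_dvd (by norm_num) h
  omega

end Fermat.Agent.T4.helper83
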