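/-
T4 (I) [I-GEN-COSET], part 4 (helper83): the rank bound for the parabolic characters of `Γ₁(M)`.

* `retr M : Gpm M →* Gamma1 M` : the retraction `g ↦ ±g`;
* `extPar` : extension of parabolic characters from `Γ₁(M)` to `±Γ₁(M)` (injective, linear);
* `finrank_parabolicHoms_Gpm_le`, `finrank_parabolicHoms_Gamma1_le` :
  `12 * finrank + 6 * ∑_{d ∣ M} φ(d) φ(M / d) ≤ φ(M) ψ(M) + 24` for `5 ≤ M`;
* `genusFormula1 M : ℚ` and `finrank_parabolicHoms_Gamma1_le_genus`.
-/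
import Mathlib
import Fermat.Agent.T4.helper83_Gamma1Cusp
import Fermat.Agent.S21.helper83_ParabolicBound

set_option autoImplicit false
open scoped MatrixGroups
open CongruenceSubgroup Matrix MulAction ModularCurve.Period

namespace Fermat.Agent.T4.helper83

open scoped Classical in
/-- the sign-normalising retraction `±Γ₁(M) → Γ₁(M)` -/
noncomputable def retrFun (M : ℕ) (g : Gpm M) : Gamma1 M :=
  if h : (g : SL(2, ℤ)) ∈ Gamma1 M then ⟨g, h⟩ else ⟨-(g : SL(2, ℤ)), g.2.resolve_left h⟩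

open scoped Classical in
theorem retrFun_of_mem {M : ℕ} (g : Gpm M) (h : (g : SL(2, ℤ)) ∈ Gamma1 M) :
    (retrFun M g : SL(2, ℤ)) = g := by
  unfold retrFun
  rw [dif_pos h]

open scoped Classical in
theorem retrFun_of_not_mem {M : ℕ} (g : Gpm M) (h : (g : SL(2, ℤ)) ∉ Gamma1 M) :
    (retrFun M g : SL(2, ℤ)) = -(g : SL(2, ℤ)) := by
  unfold retrFun
  rw [dif_neg h]

theorem retrFun_eq_or (M : ℕ) (g : Gpm M) :
    (retrFun M g : SL(2, ℤ)) = g ∨ (retrFun M g : SL(2, ℤ)) = -(g : SL(2, ℤ)) := by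
  by_cases h : (g : SL(2, ℤ)) ∈ Gamma1 M
  · exact Or.inl (retrFun_of_mem g h)
  · exact Or.inr (retrFun_of_not_mem g h)

theorem neg_not_mem_Gamma1 {M : ℕ} (hM : 3 ≤ M) {g : SL(2, ℤ)} (hg : g ∈ Gamma1 M) :
    -g ∉ Gamma1 M := by
  intro h
  have := Subgroup.mul_mem _ (Subgroup.inv_mem _ hg) h
  rw [mul_neg, inv_mul_cancel] at this
  exact neg_one_not_mem_Gamma1 hM this

/-- the retraction `±Γ₁(M) →* Γ₁(M)` -/
noncomputable def retr (M : ℕ) : Gpm M →* Gamma1 M where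
  toFun := retrFun M
  map_one' := by
    apply Subtype.ext
    rw [retrFun_of_mem (1 : Gpm M) (Subgroup.one_mem (Gamma1 M))]
    rfl
  map_mul' := by
    intro a b
    apply Subtype.ext
    rw [Subgroup.coe_mul]
    by_cases ha : (a : SL(2, ℤ)) ∈ Gamma1 M <;> by_cases hb : (b : SL(2, ℤ)) ∈ Gamma1 M
    · rw [retrFun_of_mem a ha, retrFun_of_mem b hb,
        retrFun_of_mem (a * b) (by rw [Subgroup.coe_mul]; exact Subgroup.mul_mem _ ha hb)]
      rfl
    · have hb' : -(b : SL(2, ℤ)) ∈ Gamma1 M := b.2.resolve_left hb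
      have hab : ((a * b : Gpm M) : SL(2, ℤ)) ∉ Gamma1 M := by
        rw [Subgroup.coe_mul]
        intro h
        have := Subgroup.mul_mem _ (Subgroup.inv_mem _ ha) h
        rw [inv_mul_cancel_left] at this
        exact hb this
      rw [retrFun_of_mem a ha, retrFun_of_not_mem b hb, retrFun_of_not_mem (a * b) hab,
        Subgroup.coe_mul, mul_neg]
    · have ha' : -(a : SL(2, ℤ)) ∈ Gamma1 M := a.2.resolve_left ha
      have hab : ((a * b : Gpm M) : SL(2, ℤ)) ∉ Gamma1 M := by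
        rw [Subgroup.coe_mul]
        intro h
        have := Subgroup.mul_mem _ h (Subgroup.inv_mem _ hb)
        rw [mul_inv_cancel_right] at this
        exact ha this
      rw [retrFun_of_not_mem a ha, retrFun_of_mem b hb, retrFun_of_not_mem (a * b) hab,
        Subgroup.coe_mul, neg_mul]
    · have ha' : -(a : SL(2, ℤ)) ∈ Gamma1 M := a.2.resolve_left ha
      have hb' : -(b : SL(2, ℤ)) ∈ Gamma1 M := b.2.resolve_left hb
      have hab : ((a * b : Gpm M) : SL(2, ℤ)) ∈ Gamma1 M := by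
        rw [Subgroup.coe_mul]
        have := Subgroup.mul_mem _ ha' hb'
        rwa [neg_mul_neg] at this
      rw [retrFun_of_not_mem a ha, retrFun_of_not_mem b hb, retrFun_of_mem (a * b) hab,
        Subgroup.coe_mul, neg_mul_neg]

theorem retr_apply_of_mem {M : ℕ} (g : Gamma1 M) :
    retr M ⟨g, Gamma1_le_Gpm M g.2⟩ = g := by
  apply Subtype.ext
  exact retrFun_of_mem (⟨g, Gamma1_le_Gpm M g.2⟩ : Gpm M) g.2

theorem trace_sq_retr {M : ℕ} (g : Gpm M) :
    ((retr M g : SL(2, ℤ)) : Matrix (Fin 2) (Fin 2) ℤ).trace ^ 2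
      = ((g : SL(2, ℤ)) : Matrix (Fin 2) (Fin 2) ℤ).trace ^ 2 := by
  rcases retrFun_eq_or M g with h | h
  · show ((retrFun M g : SL(2, ℤ)) : Matrix (Fin 2) (Fin 2) ℤ).trace ^ 2 = _
    rw [h]
  · show ((retrFun M g : SL(2, ℤ)) : Matrix (Fin 2) (Fin 2) ℤ).trace ^ 2 = _
    rw [h, trace_neg, neg_sq]

/-- extension of a character of `Γ₁(M)` to `±Γ₁(M)` -/
noncomputable def extHom (M : ℕ) (φ : Additive (Gamma1 M) →+ ℂ) :
    Additive (Gpm M) →+ ℂ :=
  φ.comp (MonoidHom.toAdditive (retr M))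

theorem extHom_apply {M : ℕ} (φ : Additive (Gamma1 M) →+ ℂ) (g : Gpm M) :
    extHom M φ (Additive.ofMul g) = φ (Additive.ofMul (retr M g)) := rfl

theorem extHom_mem {M : ℕ} {φ : Additive (Gamma1 M) →+ ℂ}
    (hφ : φ ∈ parabolicHoms ℂ (Gamma1 M) ℂ) : extHom M φ ∈ parabolicHoms ℂ (Gpm M) ℂ := by
  intro γ hγ
  rw [extHom_apply]
  exact hφ _ (by rw [trace_sq_retr]; exact hγ)

/-- the extension map on parabolic characters, as a linear map -/
noncomputable def extPar (M : ℕ) :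
    parabolicHoms ℂ (Gamma1 M) ℂ →ₗ[ℂ] parabolicHoms ℂ (Gpm M) ℂ where
  toFun φ := ⟨extHom M φ.1, extHom_mem φ.2⟩
  map_add' φ ψ := by
    apply Subtype.ext
    rfl
  map_smul' c φ := by
    apply Subtype.ext
    rfl

theorem extPar_injective (M : ℕ) : Function.Injective (extPar M) := by
  intro φ ψ h
  apply Subtype.ext
  refine AddMonoidHom.ext fun γ => ?_
  have h1 := congrArg (fun χ : parabolicHoms ℂ (Gpm M) ℂ =>
    (χ : Additive (Gpm M) →+ ℂ) (Additive.ofMul ⟨(Additive.toMul γ : Gamma1 M).1,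
      Gamma1_le_Gpm M (Additive.toMul γ : Gamma1 M).2⟩)) h
  simp only [extPar, LinearMap.coe_mk, AddHom.coe_mk, extHom_apply, retr_apply_of_mem] at h1
  exact h1

open Fermat.Agent.S21 in
/-- the rank bound for `±Γ₁(M)` -/
theorem finrank_parabolicHoms_Gpm_le {M : ℕ} (hM : 5 ≤ M) :
    Module.Finite ℂ (parabolicHoms ℂ (Gpm M) ℂ) ∧
    12 * Module.finrank ℂ (parabolicHoms ℂ (Gpm M) ℂ)
        + 6 * ∑ d ∈ M.divisors, Nat.totient d * Nat.totient (M / d)
      ≤ Nat.totient M * ModularCurve.dedekindPsi M + 24 := by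
  have : NeZero M := ⟨by omega⟩
  obtain ⟨hfin, hle⟩ := helper83.finrank_parabolicHoms_le (Gpm M) (neg_one_mem_Gpm M)
  refine ⟨hfin, ?_⟩
  have hS := card_quotient_Gpm_eq_two_mul_orbits_S (M := M) (by omega)
  have hST := card_quotient_Gpm_eq_three_mul_orbits_ST (M := M) (by omega)
  have hT := two_mul_card_orbits_T_Gpm (M := M) (not_dvd_four_of_five_le hM)
  have hI := two_mul_card_quotient_Gpm (M := M) (by omega)
  unfold OrbT at hT
  omega

/-- **the rank bound for `Γ₁(M)`**, `M ≥ 5` -/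
theorem finrank_parabolicHoms_Gamma1_le {M : ℕ} (hM : 5 ≤ M) :
    Module.Finite ℂ (parabolicHoms ℂ (Gamma1 M) ℂ) ∧
    12 * Module.finrank ℂ (parabolicHoms ℂ (Gamma1 M) ℂ)
        + 6 * ∑ d ∈ M.divisors, Nat.totient d * Nat.totient (M / d)
      ≤ Nat.totient M * ModularCurve.dedekindPsi M + 24 := by
  obtain ⟨hfin, hle⟩ := finrank_parabolicHoms_Gpm_le hM
  have hinj := extPar_injective M
  have hfin1 : Module.Finite ℂ (parabolicHoms ℂ (Gamma1 M) ℂ) :=
    Module.Finite.of_injective (extPar M) hinj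
  refine ⟨hfin1, ?_⟩
  have := LinearMap.finrank_le_finrank_of_injective hinj
  omega

/-- the genus of `X₁(M)` (`M ≥ 5`): `1 + μ/12 - ν/2` with `μ = φ(M) ψ(M) / 2` and
`ν = (1/2) ∑_{d ∣ M} φ(d) φ(M/d)` -/
noncomputable def genusFormula1 (M : ℕ) : ℚ :=
  1 + (Nat.totient M * ModularCurve.dedekindPsi M : ℚ) / 24
    - (∑ d ∈ M.divisors, Nat.totient d * Nat.totient (M / d) : ℕ) / 4

theorem finrank_parabolicHoms_Gamma1_le_genus {M : ℕ} (hM : 5 ≤ M) :
    (Module.finrank ℂ (parabolicHoms ℂ (Gamma1 M) ℂ) : ℚ) ≤ 2 * genusFormula1 M := by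
  obtain ⟨-, hle⟩ := finrank_parabolicHoms_Gamma1_le hM
  have h : (12 * Module.finrank ℂ (parabolicHoms ℂ (Gamma1 M) ℂ)
        + 6 * ∑ d ∈ M.divisors, Nat.totient d * Nat.totient (M / d) : ℚ)
      ≤ Nat.totient M * ModularCurve.dedekindPsi M + 24 := by exact_mod_cast hle
  unfold genusFormula1
  push_cast at h ⊢
  linarith

end Fermat.Agent.T4.helper83
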