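import Fermat.Agent.T4.helper85_Wt1Defs

/-!
# T4 / S48, block (III), package [W1-ZETA] + [W1-HOM] (helper85)

The Weierstrass zeta function `zetaW L z = ∑_{l ∈ L} (1/(z-l) + 1/l + z/l²)`:
locally uniform convergence, differentiability off the lattice, `ζ' = -℘`, oddness,
quasi-periodicity, additivity of the quasi-periods and homogeneity of degree `-1`.
-/

set_option autoImplicit false

open Complex Filter Topology
open scoped PeriodPair

namespace Fermat.Agent.T4.helper85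

noncomputable section

variable (L : PeriodPair)

/-- the summand of `zetaW` in closed form -/
lemma zetaTerm_eq (s l : ℂ) (hl : l ≠ 0) (hs : s ≠ l) :
    1 / (s - l) + 1 / l + s / l ^ 2 = s ^ 2 / ((s - l) * l ^ 2) := by
  have h1 : s - l ≠ 0 := sub_ne_zero.mpr hs
  field_simp
  ring

/-- the bound for the summand of `zetaW` -/
lemma zetaTerm_bound (r : ℝ) (hr : 0 < r) (s : ℂ) (hs : ‖s‖ < r) (l : ℂ) (h : 2 * r ≤ ‖l‖) :
    ‖1 / (s - l) + 1 / l + s / l ^ 2‖ ≤ 2 * r ^ 2 * ‖l‖ ^ (-3 : ℝ) := by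
  have hl0 : 0 < ‖l‖ := by linarith
  have hl : l ≠ 0 := norm_pos_iff.mp hl0
  have hsl : s ≠ l := by rintro rfl; linarith
  have hsub : ‖l‖ / 2 ≤ ‖s - l‖ := by
    rw [norm_sub_rev]
    have := norm_sub_norm_le l s
    linarith
  rw [zetaTerm_eq s l hl hsl, norm_div, norm_mul, norm_pow, norm_pow]
  have hden : 0 < ‖l‖ / 2 * ‖l‖ ^ 2 := by positivity
  calc ‖s‖ ^ 2 / (‖s - l‖ * ‖l‖ ^ 2) ≤ r ^ 2 / (‖l‖ / 2 * ‖l‖ ^ 2) := by
        gcongr
    _ = 2 * r ^ 2 / ‖l‖ ^ 3 := by field_simp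
    _ = 2 * r ^ 2 * ‖l‖ ^ (-3 : ℝ) := by
        rw [div_eq_mul_inv]
        congr 1
        rw [Real.rpow_neg hl0.le]
        norm_cast

/-- locally uniform convergence of the series of `zetaW` -/
lemma hasSumLocallyUniformly_zetaW :
    HasSumLocallyUniformly
      (fun (l : L.lattice) (z : ℂ) ↦ 1 / (z - (l : ℂ)) + 1 / (l : ℂ) + z / (l : ℂ) ^ 2)
      (zetaW L) := by
  refine L.hasSumLocallyUniformly_aux (u := fun r l => 2 * r ^ 2 * ‖l‖ ^ (-3 : ℝ)) _
    (fun _ _ ↦ (ZLattice.summable_norm_rpow _ _ (by simp; norm_num)).mul_left _) fun r hr ↦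
    Filter.eventually_atTop.mpr ⟨2 * r, ?_⟩
  rintro _ h s hs l rfl
  exact zetaTerm_bound r hr s hs l h

lemma hasSum_zetaW (z : ℂ) :
    HasSum (fun l : L.lattice ↦ 1 / (z - (l : ℂ)) + 1 / (l : ℂ) + z / (l : ℂ) ^ 2)
      (zetaW L z) :=
  (hasSumLocallyUniformly_zetaW L).hasSum

/-- each summand is differentiable off the lattice -/
lemma differentiableOn_zetaTerm (l : L.lattice) :
    DifferentiableOn ℂ (fun z : ℂ => 1 / (z - (l : ℂ)) + 1 / (l : ℂ) + z / (l : ℂ) ^ 2)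
      ((L.lattice : Set ℂ))ᶜ := by
  refine .add (.add (.div (by fun_prop) (by fun_prop) fun x hx ↦ ?_) (by fun_prop)) (by fun_prop)
  have : x ≠ l := by rintro rfl; exact hx l.2
  simpa [sub_eq_zero]

/-- `zetaW` is differentiable off the lattice -/
lemma differentiableOn_zetaW : DifferentiableOn ℂ (zetaW L) ((L.lattice : Set ℂ))ᶜ := by
  refine (hasSumLocallyUniformly_zetaW L).hasSumLocallyUniformlyOn.differentiableOn
    (.of_forall fun s ↦ .fun_sum fun i _ ↦ differentiableOn_zetaTerm L i)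
    L.isClosed_lattice.isOpen_compl

/-- the negated series of `℘` converges locally uniformly to `-℘` -/
lemma hasSumLocallyUniformly_neg_weierstrassP :
    HasSumLocallyUniformly
      (fun (l : L.lattice) (z : ℂ) ↦ -(1 / (z - (l : ℂ)) ^ 2 - 1 / (l : ℂ) ^ 2))
      (fun z => - ℘[L] z) := by
  have h := L.hasSumLocallyUniformly_aux
    (f := fun (l : L.lattice) (z : ℂ) ↦ -(1 / (z - (l : ℂ)) ^ 2 - 1 / (l : ℂ) ^ 2))
    (u := (10 * · * ‖·‖ ^ (-3 : ℝ)))
    (fun _ _ ↦ (ZLattice.summable_norm_rpow _ _ (by simp; norm_num)).mul_left _) (fun r hr ↦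
    Filter.eventually_atTop.mpr ⟨2 * r, by
      rintro _ h s hs l rfl
      rw [norm_neg]
      exact PeriodPair.weierstrassP_bound r hr s hs l h⟩)
  have e : (fun z => ∑' l : L.lattice, -(1 / (z - (l : ℂ)) ^ 2 - 1 / (l : ℂ) ^ 2))
      = fun z => - ℘[L] z := by
    funext z
    rw [tsum_neg]
    rfl
  rw [← e]
  exact h

/-- `ζ' = -℘` off the lattice -/
lemma eqOn_deriv_zetaW :
    Set.EqOn (deriv (zetaW L)) (fun z => - ℘[L] z) ((L.lattice : Set ℂ))ᶜ := by
  refine ((hasSumLocallyUniformly_zetaW L).tendstoLocallyUniformlyOn.deriv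
    (.of_forall fun s ↦ ?_) L.isClosed_lattice.isOpen_compl).unique ?_
  · exact .fun_sum fun i _ => differentiableOn_zetaTerm L i
  · refine (hasSumLocallyUniformly_neg_weierstrassP L).tendstoLocallyUniformlyOn.congr ?_
    intro s z hz
    simp only [Function.comp_apply]
    rw [deriv_fun_sum]
    · refine Finset.sum_congr rfl fun l _ => ?_
      have hl₁ : z - (l : ℂ) ≠ 0 := fun e ↦ hz (by
        obtain rfl := sub_eq_zero.mp e
        exact l.2)
      have hd1 : HasDerivAt (fun z : ℂ => 1 / (z - (l : ℂ))) (-(1 / (z - (l : ℂ)) ^ 2)) z := by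
        have h1 : HasDerivAt (fun z : ℂ => z - (l : ℂ)) 1 z := (hasDerivAt_id z).sub_const _
        have h2 : HasDerivAt (fun z : ℂ => (z - (l : ℂ))⁻¹) (-1 / (z - (l : ℂ)) ^ 2) z :=
          h1.fun_inv hl₁
        have e : (-1 / (z - (l : ℂ)) ^ 2) = -(1 / (z - (l : ℂ)) ^ 2) := by ring
        rw [e] at h2
        simpa only [one_div] using h2
      have hd2 : HasDerivAt (fun z : ℂ => z / (l : ℂ) ^ 2) (1 / (l : ℂ) ^ 2) z := by
        simpa using (hasDerivAt_id z).div_const ((l : ℂ) ^ 2)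
      have hd : HasDerivAt (fun x : ℂ => 1 / (x - (l : ℂ)) + 1 / (l : ℂ) + x / (l : ℂ) ^ 2)
          (-(1 / (z - (l : ℂ)) ^ 2) + 1 / (l : ℂ) ^ 2) z :=
        (hd1.add_const (1 / (l : ℂ))).add hd2
      rw [hd.deriv]
      ring
    · intro l _
      have hl₁ : z - (l : ℂ) ≠ 0 := fun e ↦ hz (by
        obtain rfl := sub_eq_zero.mp e
        exact l.2)
      exact (differentiableOn_zetaTerm L l).differentiableAt
        (L.isClosed_lattice.isOpen_compl.mem_nhds hz)

lemma deriv_zetaW (z : ℂ) (hz : z ∉ L.lattice) : deriv (zetaW L) z = - ℘[L] z :=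
  eqOn_deriv_zetaW L hz

/-- `zetaW` is odd (termwise, all `z`) -/
lemma zetaW_neg (z : ℂ) : zetaW L (-z) = - zetaW L z := by
  simp only [zetaW]
  rw [← (Equiv.neg L.lattice).tsum_eq, ← tsum_neg]
  congr 1
  funext l
  simp only [Equiv.neg_apply, NegMemClass.coe_neg]
  have e1 : -z - -(l : ℂ) = -(z - l) := by ring
  rw [e1]
  simp only [one_div, inv_neg, even_two, Even.neg_pow, neg_div]
  ring

/-- the lattice is countable -/
lemma countable_lattice : ((L.lattice : Set ℂ)).Countable := by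
  have : Countable L.lattice := L.latticeEquivProd.toEquiv.injective.countable
  exact Set.countable_coe_iff.mp this

/-- the complement of the lattice is preconnected -/
lemma isPreconnected_compl_lattice : IsPreconnected ((L.lattice : Set ℂ))ᶜ := by
  refine ((countable_lattice L).isPathConnected_compl_of_one_lt_rank ?_).isConnected.isPreconnected
  rw [Complex.rank_real_complex]
  norm_num

lemma add_notMem_lattice {z ω : ℂ} (hz : z ∉ L.lattice) (hω : ω ∈ L.lattice) :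
    z + ω ∉ L.lattice := fun h => hz (by
  have := L.lattice.sub_mem h hω
  simpa using this)

/-- the difference `ζ(z + ω) - ζ(z)` does not depend on `z` -/
lemma zetaW_add_sub_eq (ω : ℂ) (hω : ω ∈ L.lattice) {z w : ℂ} (hz : z ∉ L.lattice)
    (hw : w ∉ L.lattice) :
    zetaW L (z + ω) - zetaW L z = zetaW L (w + ω) - zetaW L w := by
  have hopen : IsOpen ((L.lattice : Set ℂ))ᶜ := L.isClosed_lattice.isOpen_compl
  have hdiff1 : ∀ x ∈ ((L.lattice : Set ℂ))ᶜ, DifferentiableAt ℂ (zetaW L) x := fun x hx =>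
    (differentiableOn_zetaW L).differentiableAt (hopen.mem_nhds hx)
  have hdiff2 : ∀ x ∈ ((L.lattice : Set ℂ))ᶜ,
      DifferentiableAt ℂ (fun x => zetaW L (x + ω)) x := fun x hx =>
    differentiableAt_comp_add_const.mpr (hdiff1 (x + ω) (add_notMem_lattice L hx hω))
  refine hopen.is_const_of_deriv_eq_zero (isPreconnected_compl_lattice L)
    (f := fun x => zetaW L (x + ω) - zetaW L x) ?_ ?_ hz hw
  · intro x hx
    exact ((hdiff2 x hx).sub (hdiff1 x hx)).differentiableWithinAt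
  · intro x hx
    have h1 : deriv (fun x => zetaW L (x + ω)) x = deriv (zetaW L) (x + ω) :=
      deriv_comp_add_const (zetaW L) ω x
    have e : deriv (fun x => zetaW L (x + ω) - zetaW L x) x
        = deriv (fun x => zetaW L (x + ω)) x - deriv (zetaW L) x :=
      deriv_fun_sub (hdiff2 x hx) (hdiff1 x hx)
    rw [e, h1, deriv_zetaW L _ (add_notMem_lattice L hx hω), deriv_zetaW L _ hx]
    have := L.weierstrassP_add_coe x ⟨ω, hω⟩
    simp only at this
    rw [this]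
    simp

/-- quasi-periodicity of `zetaW` -/
lemma zetaW_add (z : ℂ) (hz : z ∉ L.lattice) (ω : ℂ) (hω : ω ∈ L.lattice) :
    zetaW L (z + ω) = zetaW L z + etaW L ω := by
  have h := zetaW_add_sub_eq L ω hω hz L.ω₁_div_two_notMem_lattice
  rw [etaW]
  linear_combination h

/-- additivity of the quasi-periods -/
lemma etaW_add (ω₁ : ℂ) (h₁ : ω₁ ∈ L.lattice) (ω₂ : ℂ) (h₂ : ω₂ ∈ L.lattice) :
    etaW L (ω₁ + ω₂) = etaW L ω₁ + etaW L ω₂ := by
  have hz : L.ω₁ / 2 + ω₁ ∉ L.lattice := add_notMem_lattice L L.ω₁_div_two_notMem_lattice h₁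
  have h := zetaW_add L _ hz ω₂ h₂
  rw [etaW, etaW, ← add_assoc, h, etaW]
  ring

/-- **[W1-ZETA]** -/
theorem zetaStatement : ZetaStatement := fun L =>
  ⟨differentiableOn_zetaW L, fun z hz => deriv_zetaW L z hz, zetaW_neg L,
    fun z hz ω hω => zetaW_add L z hz ω hω, fun ω₁ h₁ ω₂ h₂ => etaW_add L ω₁ h₁ ω₂ h₂⟩

/-- **[W1-HOM]** -/
theorem zetaHomStatement : ZetaHomStatement := by
  intro L L' c hc hLL z
  let e : L.lattice ≃ L'.lattice :=
    { toFun := fun l => ⟨c * l, (hLL _).2 ⟨l, l.2, rfl⟩⟩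
      invFun := fun l' => ⟨c⁻¹ * l', by
        obtain ⟨y, hy, h⟩ := (hLL l').1 l'.2
        rw [h, inv_mul_cancel_left₀ hc]
        exact hy⟩
      left_inv := fun l => Subtype.ext (by simp [inv_mul_cancel_left₀ hc])
      right_inv := fun l' => Subtype.ext (by simp [mul_inv_cancel_left₀ hc]) }
  simp only [zetaW]
  rw [← e.tsum_eq, ← tsum_mul_left]
  congr 1
  funext l
  have he : ((e l : L'.lattice) : ℂ) = c * l := rfl
  rw [he]
  have hcc : c * (c ^ 2)⁻¹ = c⁻¹ := by field_simp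
  have e1 : c * z - c * (l : ℂ) = c * (z - l) := by ring
  rw [e1, one_div, mul_inv, one_div, mul_inv, mul_pow, div_eq_mul_inv, mul_inv, one_div, one_div,
    div_eq_mul_inv]
  calc c⁻¹ * (z - (l : ℂ))⁻¹ + c⁻¹ * (l : ℂ)⁻¹ + c * z * ((c ^ 2)⁻¹ * ((l : ℂ) ^ 2)⁻¹)
      = c⁻¹ * (z - (l : ℂ))⁻¹ + c⁻¹ * (l : ℂ)⁻¹ + (c * (c ^ 2)⁻¹) * z * ((l : ℂ) ^ 2)⁻¹ := by ring
    _ = c⁻¹ * ((z - (l : ℂ))⁻¹ + (l : ℂ)⁻¹ + z * ((l : ℂ) ^ 2)⁻¹) := by rw [hcc]; ring

end

end Fermat.Agent.T4.helper85
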