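/-
T4 (S48, Deligne-Serre), block (IV) endgame, leaf [DS-CHAR] (helper86), Mathlib only.

Two complex `2`-dimensional representations of a finite group whose traces agree off a subset of
density `< 1/16` have the same trace everywhere (and the same determinant, hence the same
characteristic polynomial, if the determinants agree off the subset as well).

Proof.  For finite-dimensional representations `ρ, σ` the scalar product
`⟨χ_ρ, χ_σ⟩ = |G|⁻¹ ∑ χ_σ(g) χ_ρ(g⁻¹)` is the natural number `dim Hom_G(ρ, σ)` (Mathlib,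
averaging projector; no Maschke, no irreducibles).  Hence for `φ = χ_ρ - χ_σ` the number
`|G|⁻¹ ∑ φ(g) φ(g⁻¹)` is an integer.  For matrices of finite order in `GL₂(ℂ)` one has
`tr(A⁻¹) = conj (tr A)` and `|tr A| ≤ 2`, so the integer equals `|G|⁻¹ ∑ |φ(g)|² ≤ 16 |S| / |G| < 1`.

* `exists_int_eq_sum_sub` : integrality of `|G|⁻¹ ∑ φ(g) φ(g⁻¹)` (any dimensions).
* `trace_inv_eq_conj`, `norm_trace_le_two` : `2 × 2` matrices of finite order.
* `trace_eq_of_density` : **[DS-CHAR]**, matrix form.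
* `det_eq_of_density`, `charpoly_eq_of_density` : determinant / characteristic polynomial.
-/
import Mathlib

set_option autoImplicit false

open Matrix Module

namespace Fermat.Agent.T4.helper86

open scoped ComplexConjugate

/-! ### Integrality of the norm of a difference of characters -/

section Integrality

variable {G : Type*} [Group G] [Fintype G] {V W : Type*} [AddCommGroup V] [Module ℂ V]
  [FiniteDimensional ℂ V] [AddCommGroup W] [Module ℂ W] [FiniteDimensional ℂ W]

/-- **Integrality**: `|G|⁻¹ ∑ (χ_ρ - χ_σ)(g) (χ_ρ - χ_σ)(g⁻¹)` is an integer. -/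
theorem exists_int_eq_sum_sub (ρ : Representation ℂ G V) (σ : Representation ℂ G W) :
    ∃ z : ℤ, (Nat.card G : ℂ)⁻¹ * ∑ g : G, (ρ.character g - σ.character g) *
      (ρ.character g⁻¹ - σ.character g⁻¹) = z := by
  haveI : Invertible (Nat.card G : ℂ) := invertibleOfNonzero (by
    have : Nat.card G ≠ 0 := Nat.card_pos.ne'
    exact_mod_cast this)
  have h1 := Representation.card_inv_mul_sum_char_mul_char_eq_finrank ρ ρ
  have h2 := Representation.card_inv_mul_sum_char_mul_char_eq_finrank ρ σ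
  have h3 := Representation.card_inv_mul_sum_char_mul_char_eq_finrank σ ρ
  have h4 := Representation.card_inv_mul_sum_char_mul_char_eq_finrank σ σ
  refine ⟨(finrank ℂ (ρ.IntertwiningMap ρ) : ℤ) - finrank ℂ (σ.IntertwiningMap ρ)
    - finrank ℂ (ρ.IntertwiningMap σ) + finrank ℂ (σ.IntertwiningMap σ), ?_⟩
  push_cast
  rw [← h1, ← h2, ← h3, ← h4, ← mul_sub, ← mul_sub, ← mul_add, ← Finset.sum_sub_distrib,
    ← Finset.sum_sub_distrib, ← Finset.sum_add_distrib]
  congr 1
  apply Finset.sum_congr rfl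
  intro g _
  ring

end Integrality

/-! ### `2 × 2` matrices of finite order -/

section FiniteOrder

variable (A : Matrix (Fin 2) (Fin 2) ℂ)

lemma pow_mulVec_of_eigen {μ : ℂ} {v : Fin 2 → ℂ} (h : A *ᵥ v = μ • v) (n : ℕ) :
    (A ^ n) *ᵥ v = μ ^ n • v := by
  induction n with
  | zero => simp
  | succ n ih =>
    rw [pow_succ, ← Matrix.mulVec_mulVec, h, Matrix.mulVec_smul, ih, smul_smul, pow_succ,
      mul_comm]

/-- roots of the characteristic equation of a matrix of finite order are roots of unity -/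
lemma root_pow_eq_one {n : ℕ} (hA : A ^ n = 1) {μ : ℂ}
    (hμ : μ * μ - A.trace * μ + A.det = 0) : μ ^ n = 1 := by
  have hdet : (Matrix.scalar (Fin 2) μ - A).det = 0 := by
    rw [Matrix.det_fin_two]
    rw [Matrix.trace_fin_two, Matrix.det_fin_two] at hμ
    simp only [Matrix.sub_apply, Matrix.scalar_apply, Matrix.diagonal_apply_eq,
      Matrix.diagonal_apply_ne _ (show (0 : Fin 2) ≠ 1 by decide),
      Matrix.diagonal_apply_ne _ (show (1 : Fin 2) ≠ 0 by decide)]
    linear_combination hμ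
  obtain ⟨v, hv0, hv⟩ := Matrix.exists_mulVec_eq_zero_iff.2 hdet
  have hev : A *ᵥ v = μ • v := by
    rw [Matrix.sub_mulVec] at hv
    have h1 : Matrix.scalar (Fin 2) μ *ᵥ v = μ • v := by
      ext i
      simp [Matrix.mulVec, dotProduct, Matrix.scalar_apply, Matrix.diagonal_apply]
    rw [h1] at hv
    exact (sub_eq_zero.1 hv).symm
  have h2 := pow_mulVec_of_eigen A hev n
  rw [hA, Matrix.one_mulVec] at h2
  by_contra hne
  apply hv0
  have h3 : (μ ^ n - 1) • v = 0 := by
    rw [sub_smul, one_smul, ← h2, sub_self]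
  rcases smul_eq_zero.1 h3 with h | h
  · exact absurd (sub_eq_zero.1 h) hne
  · exact h

/-- the two eigenvalues of a `2 × 2` matrix of finite order -/
lemma exists_eigenvalues {n : ℕ} (hA : A ^ n = 1) :
    ∃ μ₁ μ₂ : ℂ, A.trace = μ₁ + μ₂ ∧ A.det = μ₁ * μ₂ ∧ μ₁ ^ n = 1 ∧ μ₂ ^ n = 1 := by
  obtain ⟨s, hs⟩ := IsAlgClosed.exists_pow_nat_eq (A.trace ^ 2 - 4 * A.det) (n := 2)
    (by norm_num)
  refine ⟨(A.trace + s) / 2, (A.trace - s) / 2, by ring, ?_, ?_, ?_⟩
  · have : (A.trace + s) / 2 * ((A.trace - s) / 2) = (A.trace ^ 2 - s ^ 2) / 4 := by ring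
    rw [this, hs]; ring
  · apply root_pow_eq_one A hA
    linear_combination (1 / 4 : ℂ) * hs
  · apply root_pow_eq_one A hA
    linear_combination (1 / 4 : ℂ) * hs

lemma conj_eq_inv_of_pow_eq_one {μ : ℂ} {n : ℕ} (hn : 0 < n) (h : μ ^ n = 1) :
    conj μ = μ⁻¹ := by
  have h1 : ‖μ‖ = 1 := Complex.norm_eq_one_of_pow_eq_one h hn.ne'
  have h2 : Complex.normSq μ = 1 := by
    rw [Complex.normSq_eq_norm_sq, h1]; norm_num
  rw [Complex.inv_def, h2]
  simp

/-- `|tr A| ≤ 2` for `A` of finite order. -/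
theorem norm_trace_le_two {n : ℕ} (hn : 0 < n) (hA : A ^ n = 1) : ‖A.trace‖ ≤ 2 := by
  obtain ⟨μ₁, μ₂, ht, -, h1, h2⟩ := exists_eigenvalues A hA
  rw [ht]
  calc ‖μ₁ + μ₂‖ ≤ ‖μ₁‖ + ‖μ₂‖ := norm_add_le _ _
    _ = 2 := by
      rw [Complex.norm_eq_one_of_pow_eq_one h1 hn.ne',
        Complex.norm_eq_one_of_pow_eq_one h2 hn.ne']
      norm_num

/-- `tr A⁻¹ = conj (tr A)` for `A` of finite order. -/
theorem trace_inv_eq_conj {n : ℕ} (hn : 0 < n) (hA : A ^ n = 1) :
    (A⁻¹).trace = conj A.trace := by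
  obtain ⟨μ₁, μ₂, ht, hd, h1, h2⟩ := exists_eigenvalues A hA
  have hμ₁ : μ₁ ≠ 0 := by
    rintro rfl
    rw [zero_pow hn.ne'] at h1
    exact zero_ne_one h1
  have hμ₂ : μ₂ ≠ 0 := by
    rintro rfl
    rw [zero_pow hn.ne'] at h2
    exact zero_ne_one h2
  have htr : (A⁻¹).trace = (A.det)⁻¹ * A.trace := by
    rw [Matrix.inv_def, Ring.inverse_eq_inv', Matrix.trace_smul, Matrix.adjugate_fin_two,
      Matrix.trace_fin_two, Matrix.trace_fin_two]
    simp only [Matrix.of_apply, Matrix.cons_val', Matrix.cons_val_zero, Matrix.cons_val_one,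
      Matrix.cons_val_fin_one, smul_eq_mul]
    ring
  rw [htr, ht, hd, map_add, conj_eq_inv_of_pow_eq_one hn h1, conj_eq_inv_of_pow_eq_one hn h2]
  field_simp
  ring

end FiniteOrder

/-! ### The density statement -/

section Density

variable {G : Type*} [Group G] [Fintype G]

/-- the representation on `ℂ²` attached to a matrix representation -/
noncomputable def repOfGL (ρ : G →* GL (Fin 2) ℂ) : Representation ℂ G (Fin 2 → ℂ) where
  toFun g := Matrix.toLin' (ρ g : Matrix (Fin 2) (Fin 2) ℂ)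
  map_one' := by
    rw [map_one, Matrix.GeneralLinearGroup.coe_one, Matrix.toLin'_one]
    rfl
  map_mul' g h := by
    rw [map_mul, Matrix.GeneralLinearGroup.coe_mul, Matrix.toLin'_mul]
    rfl

omit [Fintype G] in
lemma repOfGL_character (ρ : G →* GL (Fin 2) ℂ) (g : G) :
    (repOfGL ρ).character g = (ρ g : Matrix (Fin 2) (Fin 2) ℂ).trace := by
  unfold Representation.character
  rw [LinearMap.trace_eq_matrix_trace ℂ (Pi.basisFun ℂ (Fin 2))]
  show (LinearMap.toMatrix (Pi.basisFun ℂ (Fin 2)) (Pi.basisFun ℂ (Fin 2))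
    (Matrix.toLin' (ρ g : Matrix (Fin 2) (Fin 2) ℂ))).trace = _
  rw [LinearMap.toMatrix_eq_toMatrix', LinearMap.toMatrix'_toLin']

lemma coe_pow_card (ρ : G →* GL (Fin 2) ℂ) (g : G) :
    (ρ g : Matrix (Fin 2) (Fin 2) ℂ) ^ Fintype.card G = 1 := by
  have h : (ρ g) ^ Fintype.card G = 1 := by
    rw [← map_pow, pow_card_eq_one, map_one]
  have := congrArg (fun u : GL (Fin 2) ℂ => (u : Matrix (Fin 2) (Fin 2) ℂ)) h
  simpa using this

lemma trace_map_inv (ρ : G →* GL (Fin 2) ℂ) (g : G) :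
    (ρ g⁻¹ : Matrix (Fin 2) (Fin 2) ℂ).trace = conj (ρ g : Matrix (Fin 2) (Fin 2) ℂ).trace := by
  rw [map_inv, Matrix.coe_units_inv]
  exact trace_inv_eq_conj _ Fintype.card_pos (coe_pow_card ρ g)

/-- **[DS-CHAR]**, matrix form: if the traces of `ρ, ρ' : G → GL₂(ℂ)` agree off a subset `S`
with `16 |S| < |G|`, they agree everywhere. -/
theorem trace_eq_of_density (ρ ρ' : G →* GL (Fin 2) ℂ) (S : Finset G)
    (hS : 16 * S.card < Fintype.card G)
    (h : ∀ g, g ∉ S → (ρ g : Matrix (Fin 2) (Fin 2) ℂ).trace =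
      (ρ' g : Matrix (Fin 2) (Fin 2) ℂ).trace) :
    ∀ g, (ρ g : Matrix (Fin 2) (Fin 2) ℂ).trace = (ρ' g : Matrix (Fin 2) (Fin 2) ℂ).trace := by
  classical
  set φ : G → ℂ := fun g => (ρ g : Matrix (Fin 2) (Fin 2) ℂ).trace -
    (ρ' g : Matrix (Fin 2) (Fin 2) ℂ).trace with hφ
  obtain ⟨z, hz⟩ := exists_int_eq_sum_sub (repOfGL ρ) (repOfGL ρ')
  simp only [repOfGL_character] at hz
  -- the summand is `‖φ g‖²`
  have hterm : ∀ g : G, ((ρ g : Matrix (Fin 2) (Fin 2) ℂ).trace -
      (ρ' g : Matrix (Fin 2) (Fin 2) ℂ).trace) *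
      ((ρ g⁻¹ : Matrix (Fin 2) (Fin 2) ℂ).trace - (ρ' g⁻¹ : Matrix (Fin 2) (Fin 2) ℂ).trace) =
      ((‖φ g‖ ^ 2 : ℝ) : ℂ) := by
    intro g
    rw [trace_map_inv ρ g, trace_map_inv ρ' g, ← map_sub, Complex.mul_conj,
      Complex.normSq_eq_norm_sq]
  rw [Finset.sum_congr rfl (fun g _ => hterm g)] at hz
  have hcard : (0 : ℝ) < Fintype.card G := by exact_mod_cast Fintype.card_pos
  have hz' : (((Fintype.card G : ℝ)⁻¹ * ∑ g : G, ‖φ g‖ ^ 2 : ℝ) : ℂ) = ((z : ℝ) : ℂ) := by
    rw [Nat.card_eq_fintype_card] at hz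
    push_cast
    push_cast at hz
    exact hz
  have hzr : (Fintype.card G : ℝ)⁻¹ * ∑ g : G, ‖φ g‖ ^ 2 = (z : ℝ) := by
    exact_mod_cast hz'
  -- bound of the sum
  have hbound : ∑ g : G, ‖φ g‖ ^ 2 ≤ 16 * S.card := by
    have h1 : ∀ g : G, ‖φ g‖ ^ 2 ≤ if g ∈ S then (16 : ℝ) else 0 := by
      intro g
      split_ifs with hg
      · have hρ := norm_trace_le_two _ Fintype.card_pos (coe_pow_card ρ g)
        have hρ' := norm_trace_le_two _ Fintype.card_pos (coe_pow_card ρ' g)
        have : ‖φ g‖ ≤ 4 := by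
          calc ‖φ g‖ ≤ ‖(ρ g : Matrix (Fin 2) (Fin 2) ℂ).trace‖ +
              ‖(ρ' g : Matrix (Fin 2) (Fin 2) ℂ).trace‖ := norm_sub_le _ _
            _ ≤ 4 := by linarith
        nlinarith [norm_nonneg (φ g)]
      · have : φ g = 0 := by
          rw [hφ]; simp only; rw [h g hg, sub_self]
        rw [this]; simp
    calc ∑ g : G, ‖φ g‖ ^ 2 ≤ ∑ g : G, (if g ∈ S then (16 : ℝ) else 0) :=
          Finset.sum_le_sum fun g _ => h1 g
      _ = 16 * S.card := by
          rw [Finset.sum_ite_mem, Finset.univ_inter, Finset.sum_const, nsmul_eq_mul, mul_comm]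
  have hnonneg : 0 ≤ ∑ g : G, ‖φ g‖ ^ 2 := Finset.sum_nonneg fun g _ => by positivity
  have hz0 : (0 : ℝ) ≤ z := by
    rw [← hzr]; positivity
  have hz1 : (z : ℝ) < 1 := by
    rw [← hzr, inv_mul_lt_iff₀ hcard, mul_one]
    have : (16 * S.card : ℝ) < Fintype.card G := by exact_mod_cast hS
    linarith
  have hzz : z = 0 := by
    have h0 : (0 : ℤ) ≤ z := by exact_mod_cast hz0
    have h1 : z < 1 := by exact_mod_cast hz1
    omega
  rw [hzz, Int.cast_zero] at hzr
  have hsum : ∑ g : G, ‖φ g‖ ^ 2 = 0 := by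
    rcases mul_eq_zero.1 hzr with h0 | h0
    · exact absurd (inv_eq_zero.1 h0) hcard.ne'
    · exact h0
  intro g
  have hg := (Finset.sum_eq_zero_iff_of_nonneg (fun g _ => by positivity)).1 hsum g
    (Finset.mem_univ g)
  have : φ g = 0 := by
    have : ‖φ g‖ = 0 := by
      have := pow_eq_zero_iff (two_ne_zero) |>.1 hg
      exact this
    exact norm_eq_zero.1 this
  exact sub_eq_zero.1 this

/-- Two homomorphisms to a group which agree off a subset `S` with `2 |S| < |G|` are equal. -/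
theorem hom_eq_of_density {H : Type*} [Group H] (χ χ' : G →* H) (S : Finset G)
    (hS : 2 * S.card < Fintype.card G) (h : ∀ g, g ∉ S → χ g = χ' g) : χ = χ' := by
  classical
  set K : Subgroup G := χ.eqLocus χ' with hK
  have hKS : ∀ g, g ∉ S → g ∈ K := fun g hg => h g hg
  by_contra hne
  have hKtop : K ≠ ⊤ := by
    intro htop
    apply hne
    ext g
    have : g ∈ K := by rw [htop]; trivial
    exact this
  -- a proper subgroup has index at least `2`
  have hidx : 2 ≤ K.index := by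
    have h1 : K.index ≠ 1 := fun h1 => hKtop (Subgroup.index_eq_one.1 h1)
    have h0 : K.index ≠ 0 := Subgroup.index_ne_zero_of_finite
    omega
  have hmul := K.card_mul_index
  rw [Nat.card_eq_fintype_card (α := G)] at hmul
  -- `|K| ≥ |G| - |S|`
  have hcompl : Fintype.card G - S.card ≤ Nat.card K := by
    have hsub : (Finset.univ \ S) ⊆ Finset.univ.filter (fun g => g ∈ K) := by
      intro g hg
      rw [Finset.mem_sdiff] at hg
      rw [Finset.mem_filter]
      exact ⟨Finset.mem_univ _, hKS g hg.2⟩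
    have h1 := Finset.card_le_card hsub
    rw [Finset.card_sdiff_of_subset (Finset.subset_univ S), Finset.card_univ] at h1
    have h2 : (Finset.univ.filter (fun g => g ∈ K)).card = Nat.card K := by
      rw [Nat.card_eq_fintype_card, Fintype.card_subtype]
    rw [h2] at h1
    exact h1
  have : 2 * Nat.card K ≤ Fintype.card G := by
    calc 2 * Nat.card K = Nat.card K * 2 := by ring
      _ ≤ Nat.card K * K.index := Nat.mul_le_mul_left _ hidx
      _ = Fintype.card G := hmul
  omega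

/-- determinants agreeing off a subset of density `< 1/2` agree everywhere -/
theorem det_eq_of_density (ρ ρ' : G →* GL (Fin 2) ℂ) (S : Finset G)
    (hS : 2 * S.card < Fintype.card G)
    (h : ∀ g, g ∉ S → (ρ g : Matrix (Fin 2) (Fin 2) ℂ).det =
      (ρ' g : Matrix (Fin 2) (Fin 2) ℂ).det) :
    ∀ g, (ρ g : Matrix (Fin 2) (Fin 2) ℂ).det = (ρ' g : Matrix (Fin 2) (Fin 2) ℂ).det := by
  have key := hom_eq_of_density (Matrix.GeneralLinearGroup.det.comp ρ)
    (Matrix.GeneralLinearGroup.det.comp ρ') S hS (fun g hg => by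
      apply Units.ext
      simpa using h g hg)
  intro g
  have := congrArg (fun χ : G →* ℂˣ => ((χ g : ℂˣ) : ℂ)) key
  simpa using this

/-- **[DS-CHAR]**, characteristic polynomial form. -/
theorem charpoly_eq_of_density (ρ ρ' : G →* GL (Fin 2) ℂ) (S : Finset G)
    (hS : 16 * S.card < Fintype.card G)
    (h : ∀ g, g ∉ S → (ρ g : Matrix (Fin 2) (Fin 2) ℂ).charpoly =
      (ρ' g : Matrix (Fin 2) (Fin 2) ℂ).charpoly) :
    ∀ g, (ρ g : Matrix (Fin 2) (Fin 2) ℂ).charpoly =
      (ρ' g : Matrix (Fin 2) (Fin 2) ℂ).charpoly := by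
  have htr := trace_eq_of_density ρ ρ' S hS (fun g hg => by
    have := h g hg
    have h1 := Matrix.trace_eq_neg_charpoly_coeff (ρ g : Matrix (Fin 2) (Fin 2) ℂ)
    have h2 := Matrix.trace_eq_neg_charpoly_coeff (ρ' g : Matrix (Fin 2) (Fin 2) ℂ)
    rw [h1, h2, this])
  have hdet := det_eq_of_density ρ ρ' S (by omega) (fun g hg => by
    have := h g hg
    have h1 := Matrix.det_eq_sign_charpoly_coeff (ρ g : Matrix (Fin 2) (Fin 2) ℂ)
    have h2 := Matrix.det_eq_sign_charpoly_coeff (ρ' g : Matrix (Fin 2) (Fin 2) ℂ)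
    rw [h1, h2, this])
  intro g
  rw [Matrix.charpoly_fin_two, Matrix.charpoly_fin_two, htr g, hdet g]

end Density

end Fermat.Agent.T4.helper86
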