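import Mathlib
import Fermat.Agent.P2.helper22_IdealStep
import Fermat.Agent.T4.helper4_RedDefs

/-!
# T4 block (I), I-RED [RED-I1] (helper86, row 1126): the GENERIC ideal step

Port of `P2/helper22_IdealStep.lean` to an arbitrary pair `(E, Eb)` of `q`-expansion fields in
the vocabulary of `helper4_RedDefs`:

* `exists_scaled_goodG` : scaled good representatives of functions regular off infinity;
* `red_mem_of_powG`     : the reduction step;
* `genusBarLeG`         : `[GEN-A]`, `helper4.GenusBarLeStatement A E Eb`;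
* `surjRedG`            : `[SURJ]`, `helper4.SurjRedStatement A E Eb` from genus equality;
* `idealStepG`          : `[I1]`, `helper4.IdealStepStatement A E Eb m`.

The level-specific input `riemannSetting_FF` of the source has become the hypothesis
`hS : helper74.RiemannSetting Kb E`.
-/

set_option autoImplicit false

noncomputable section

namespace Fermat.Agent.T4.helper86

open HahnSeries IntermediateField AlgebraicCurve ModularCurve
open Fermat.Agent.S18.helper19 (Kb kA)
open Fermat.Agent.P2.helper29 (incl red IsInfty InL HasRiemannGenus)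
open Fermat.Agent.P2.helper22
open Fermat.Agent.P2
open Fermat.Agent.T4.helper4

variable {A : ValuationSubring Kb} {E : IntermediateField Kb (LaurentSeries Kb)}
  {Eb : IntermediateField (kA A) (LaurentSeries (kA A))}

theorem isGoodG_one : IsGood A E Eb (1 : LaurentSeries A) := by
  refine ⟨?_, ?_, ?_⟩
  · rw [map_one]; exact one_mem _
  · rw [map_one]; exact one_mem _
  · rw [map_one]; exact one_ne_zero

theorem isGoodG_mul {Y Y' : LaurentSeries A} (h : IsGood A E Eb Y) (h' : IsGood A E Eb Y') :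
    IsGood A E Eb (Y * Y') := by
  refine ⟨?_, ?_, ?_⟩
  · rw [map_mul]; exact mul_mem h.1 h'.1
  · rw [map_mul]; exact mul_mem h.2.1 h'.2.1
  · rw [map_mul]; exact mul_ne_zero h.2.2 h'.2.2

theorem isGoodG_incl_ne_zero {Y : LaurentSeries A} (hY : IsGood A E Eb Y) : incl A Y ≠ 0 := by
  intro h0
  have : Y = 0 := incl_injective (by rw [h0, map_zero])
  exact hY.2.2 (by rw [this, map_zero])

theorem isGoodG_pow {Y : LaurentSeries A} (hY : IsGood A E Eb Y) (m : ℕ) :
    IsGood A E Eb (Y ^ m) := by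
  induction m with
  | zero => rw [pow_zero]; exact isGoodG_one
  | succ k ih => rw [pow_succ]; exact isGoodG_mul ih hY

/-- **scaled good representatives**: a nonzero function regular off infinity has a scalar
multiple with a good integral `q`-expansion. -/
theorem exists_scaled_goodG {Pinf : Place Kb E} (hPinf : IsInfty Pinf)
    (hSc : ScaleStatement A E Eb) (hInt : IntegralityStatement A E Eb)
    (hReg : RegRedStatement A E Eb)
    {n : ℤ} {f : LaurentSeries Kb} (hf : InL E n f) (hf0 : f ≠ 0) :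
    ∃ (c : Kb) (Y : LaurentSeries A), c ≠ 0 ∧ incl A Y = c • f ∧ IsGood A E Eb Y ∧
      InL Eb n (red A Y) := by
  obtain ⟨c, Y₁, Y₂, hc, hY₁, hY₂, he⟩ := hSc f (inL_mem hf) hf0
  have hf' : InL E n (c⁻¹ • f) := inL_smul hPinf hf c⁻¹
  have he' : incl A Y₁ = (c⁻¹ • f) * incl A Y₂ := by
    rw [← algebraMap_mul_eq_smul, mul_assoc, ← he, ← mul_assoc, ← map_mul, inv_mul_cancel₀ hc,
      map_one, one_mul]
  have hw : IsWInt A E Eb (c⁻¹ • f) := ⟨Y₁, Y₂, hY₁.1, hY₂, he'⟩
  obtain ⟨Y, hY⟩ := hInt n _ hf' hw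
  have hmul : Y * Y₂ = Y₁ := incl_injective (by rw [map_mul, hY, he'])
  have hred : red A Y * red A Y₂ = red A Y₁ := by rw [← map_mul, hmul]
  have hne : red A Y ≠ 0 := fun h0 => hY₁.2.2 (by rw [← hred, h0, zero_mul])
  have hfY : InL E n (incl A Y) := by rw [hY]; exact hf'
  have hL : InL Eb n (red A Y) := hReg n Y hfY
  exact ⟨c⁻¹, Y, inv_ne_zero hc, hY, ⟨inL_mem hfY, inL_mem hL, hne⟩, hL⟩

/-- hypothesis `H` of the lattice count for subspaces of functions regular off infinity -/
theorem scaled_of_regularG {Pinf : Place Kb E} (hPinf : IsInfty Pinf)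
    (hSc : ScaleStatement A E Eb) (hInt : IntegralityStatement A E Eb)
    (hReg : RegRedStatement A E Eb)
    (V : Submodule Kb (LaurentSeries Kb)) (hV : ∀ u ∈ V, ∃ n : ℤ, InL E n u) :
    ∀ u ∈ V, u ≠ 0 → ∃ c : Kb, c ≠ 0 ∧ ∃ Y : LaurentSeries A,
      coeffMap A.subtype Y = c • u ∧ coeffMap (IsLocalRing.residue A) Y ≠ 0 := by
  intro u hu hu0
  obtain ⟨n, hn⟩ := hV u hu
  obtain ⟨c, Y, hc, hY, hgood, -⟩ := exists_scaled_goodG hPinf hSc hInt hReg hn hu0
  exact ⟨c, hc, Y, hY, hgood.2.2⟩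

/-- shortcut instance (the instance found by synthesis, which is slow to find) -/
local instance algebraEbG : Algebra (kA A) Eb := SubalgebraClass.toAlgebra Eb

/-- **the reduction step**: if `g = Z / Y_Q` (`Z` integral in `E`, `Y_Q` good) satisfies
`g ^ m / h ∈ L(m n ∞)` for a function `h ≡ 1`, then the reduction of `Z` is `red Y_Q` times an
element of `L̄(n ∞̄)`. -/
theorem red_mem_of_powG {Qinf : Place (kA A) Eb} (hQinf : IsInfty Qinf)
    (hInt : IntegralityStatement A E Eb) (hReg : RegRedStatement A E Eb) {m : ℕ} (hm : 0 < m)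
    {h : LaurentSeries Kb} (hred1 : IsRedOne A E Eb h) {YQ Z : LaurentSeries A}
    (hYQ : IsGood A E Eb YQ) {N n : ℤ} (hZ : InL E N (incl A Z))
    (hH : InL E ((m : ℤ) * n) ((incl A Z / incl A YQ) ^ m * h⁻¹)) :
    ∃ y : Eb, y ∈ riemannRochSpace (Finsupp.single Qinf n) ∧
      red A Z = red A YQ * (y : LaurentSeries (kA A)) := by
  classical
  obtain ⟨Y₁, Y₂, hY₁, hY₂, he, hr⟩ := hred1
  have hQ0 : incl A YQ ≠ 0 := isGoodG_incl_ne_zero hYQ
  have hY₁0 : incl A Y₁ ≠ 0 := isGoodG_incl_ne_zero hY₁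
  have hh0 : h ≠ 0 := by
    rintro rfl
    rw [zero_mul] at he
    exact hY₁0 he
  -- the function `H` is `w`-integral
  have heq : incl A (Z ^ m * Y₂) =
      ((incl A Z / incl A YQ) ^ m * h⁻¹) * incl A (YQ ^ m * Y₁) := by
    rw [map_mul, map_mul, map_pow, map_pow, he, div_pow]
    field_simp
  have hW : IsWInt A E Eb ((incl A Z / incl A YQ) ^ m * h⁻¹) := by
    refine ⟨Z ^ m * Y₂, YQ ^ m * Y₁, ?_, isGoodG_mul (isGoodG_pow hYQ m) hY₁, heq⟩
    rw [map_mul, map_pow]
    exact mul_mem (pow_mem (inL_mem hZ) m) hY₂.1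
  obtain ⟨YH, hYH⟩ := hInt _ _ hH hW
  have hLH : InL Eb ((m : ℤ) * n) (red A YH) := hReg _ YH (by rw [hYH]; exact hH)
  have hmul : YH * (YQ ^ m * Y₁) = Z ^ m * Y₂ := incl_injective (by rw [map_mul, hYH, ← heq])
  have hredmul : red A YH * red A YQ ^ m = red A Z ^ m := by
    have h1 : red A YH * (red A YQ ^ m * red A Y₁) = red A Z ^ m * red A Y₂ := by
      rw [← map_pow, ← map_pow, ← map_mul, ← map_mul, ← map_mul, hmul]
    rw [hr, ← mul_assoc] at h1
    exact mul_right_cancel₀ hY₂.2.2 h1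
  have hLZ : InL Eb N (red A Z) := hReg N Z hZ
  -- work in the field `Eb`
  set zF : Eb := ⟨red A Z, inL_mem hLZ⟩ with hzF
  set qF : Eb := ⟨red A YQ, hYQ.2.1⟩ with hqF
  have hqF0 : qF ≠ 0 := fun h0 => hYQ.2.2 (congrArg Subtype.val h0)
  obtain ⟨hHmem, hHL⟩ := (inL_iff_mem hQinf _ _).1 hLH
  set HF : Eb := ⟨red A YH, hHmem⟩ with hHF
  have hpow : (zF / qF) ^ m = HF := by
    rw [div_pow, div_eq_iff (pow_ne_zero _ hqF0)]
    apply Subtype.ext
    exact hredmul.symm
  refine ⟨zF / qF, ?_, ?_⟩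
  · by_cases hy0 : zF / qF = 0
    · rw [hy0]; exact Submodule.zero_mem _
    rw [helper74.mem_L_iff' hy0]
    intro v
    have hHF0 : HF ≠ 0 := by rw [← hpow]; exact pow_ne_zero _ hy0
    have h1 := (helper74.mem_L_iff' hHF0).1 hHL v
    rw [← hpow, ord_npow] at h1
    have hm' : (0 : ℤ) < m := by exact_mod_cast hm
    by_cases hv : v = Qinf
    · subst hv
      rw [Finsupp.single_eq_same] at h1 ⊢
      nlinarith
    · rw [Finsupp.single_eq_of_ne hv] at h1 ⊢
      nlinarith
  · have h2 : qF * (zF / qF) = zF := mul_div_cancel₀ _ hqF0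
    exact (congrArg Subtype.val h2).symm

/-- the two spaces `L(n ∞)` and `L̄(n ∞̄)` inside the Laurent series, with the hypotheses of the
lattice count -/
theorem lattice_setupG {Pinf : Place Kb E} (hPinf : IsInfty Pinf)
    {Qinf : Place (kA A) Eb} (hQinf : IsInfty Qinf)
    (hSc : ScaleStatement A E Eb) (hInt : IntegralityStatement A E Eb)
    (hReg : RegRedStatement A E Eb) (n : ℤ) :
    (∀ u ∈ (riemannRochSpace (Finsupp.single Pinf n)).map (valLin E), u ≠ 0 →
      ∃ c : Kb, c ≠ 0 ∧ ∃ Y : LaurentSeries A,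
        coeffMap A.subtype Y = c • u ∧ coeffMap (IsLocalRing.residue A) Y ≠ 0) ∧
    ∀ Z : LaurentSeries A,
      coeffMap A.subtype Z ∈ (riemannRochSpace (Finsupp.single Pinf n)).map (valLin E) →
      coeffMap (IsLocalRing.residue A) Z ∈
        (riemannRochSpace (Finsupp.single Qinf n)).map (valLin Eb) := by
  constructor
  · exact scaled_of_regularG hPinf hSc hInt hReg _
      (fun u hu => ⟨n, (mem_map_valLin_iff hPinf n u).1 hu⟩)
  · intro Z hZ
    rw [mem_map_valLin_iff hPinf] at hZ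
    rw [mem_map_valLin_iff hQinf]
    exact hReg n Z hZ

/-- **[GEN-A]** the genus of the special fibre is at most the genus in characteristic `0`. -/
theorem genusBarLeG (hS : helper74.RiemannSetting Kb E)
    (hSb : helper74.RiemannSetting (kA A) Eb) (hInf : InftyStatement A E Eb)
    (hSc : ScaleStatement A E Eb) (hInt : IntegralityStatement A E Eb)
    (hReg : RegRedStatement A E Eb) : GenusBarLeStatement A E Eb := by
  classical
  intro g g' hg hg'
  obtain ⟨⟨Pinf, hPinf⟩, ⟨Qinf, hQinf⟩⟩ := hInf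
  obtain ⟨-, c, hc⟩ := hg
  obtain ⟨-, c', hc'⟩ := hg'
  set n : ℤ := max c c' with hn
  have : FiniteDimensional Kb (riemannRochSpace (Finsupp.single Pinf n)) :=
    helper74.finiteDimensional_L hS _
  have : FiniteDimensional (kA A) (riemannRochSpace (Finsupp.single Qinf n)) :=
    helper74.finiteDimensional_L hSb _
  obtain ⟨hH, hVW⟩ := lattice_setupG hPinf hQinf hSc hInt hReg n
  have h1 := finrank_le_of_reduction A (IsLocalRing.residue A) isUnit_of_residue_ne_zero
    IsLocalRing.residue_surjective _ hH _ hVW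
  rw [finrank_map_valLin, finrank_map_valLin] at h1
  have h2 := hc (Finsupp.single Pinf n) (by rw [degree_single_of hS]; exact le_max_left _ _)
  have h3 := hc' (Finsupp.single Qinf n) (by rw [degree_single_of hSb]; exact le_max_right _ _)
  rw [degree_single_of hS] at h2
  rw [degree_single_of hSb] at h3
  unfold helper74.ell at h2 h3
  have h1' : (Module.finrank Kb (riemannRochSpace (Finsupp.single Pinf n)) : ℤ) ≤
      (Module.finrank (kA A) (riemannRochSpace (Finsupp.single Qinf n)) : ℤ) := by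
    exact_mod_cast h1
  have h4 : (g' : ℤ) ≤ g := by linarith
  exact_mod_cast h4

/-- **[SURJ]** from genus equality: for large `n` every element of `L̄(n ∞̄)` is the reduction
of an integral element of `L(n ∞)`. -/
theorem surjRedG (hS : helper74.RiemannSetting Kb E)
    (hSb : helper74.RiemannSetting (kA A) Eb) (hInf : InftyStatement A E Eb)
    (hSc : ScaleStatement A E Eb) (hInt : IntegralityStatement A E Eb)
    (hReg : RegRedStatement A E Eb)
    (hGen : GenusEqStatement A E Eb) : SurjRedStatement A E Eb := by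
  classical
  obtain ⟨⟨Pinf, hPinf⟩, ⟨Qinf, hQinf⟩⟩ := hInf
  obtain ⟨g, ⟨hineq, -⟩, ⟨-, c', hc'⟩⟩ := hGen
  refine ⟨c', fun n hn y hy => ?_⟩
  have : FiniteDimensional Kb (riemannRochSpace (Finsupp.single Pinf n)) :=
    helper74.finiteDimensional_L hS _
  have : FiniteDimensional (kA A) (riemannRochSpace (Finsupp.single Qinf n)) :=
    helper74.finiteDimensional_L hSb _
  obtain ⟨hH, hVW⟩ := lattice_setupG hPinf hQinf hSc hInt hReg n
  have hle : Module.finrank (kA A)
      ((riemannRochSpace (Finsupp.single Qinf n)).map (valLin Eb)) ≤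
      Module.finrank Kb ((riemannRochSpace (Finsupp.single Pinf n)).map (valLin E)) := by
    rw [finrank_map_valLin, finrank_map_valLin]
    have h2 := hineq (Finsupp.single Pinf n)
    have h3 := hc' (Finsupp.single Qinf n) (by rw [degree_single_of hSb]; exact hn)
    rw [degree_single_of hS] at h2
    rw [degree_single_of hSb] at h3
    unfold helper74.ell at h2 h3
    have h4 : (Module.finrank (kA A) (riemannRochSpace (Finsupp.single Qinf n)) : ℤ) ≤
        (Module.finrank Kb (riemannRochSpace (Finsupp.single Pinf n)) : ℤ) := by linarith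
    exact_mod_cast h4
  obtain ⟨Z, hZV, hZred⟩ := exists_lift_of_finrank_le A (IsLocalRing.residue A)
    isUnit_of_residue_ne_zero IsLocalRing.residue_surjective _ hH _ hVW hle y
    ((mem_map_valLin_iff hQinf n y).2 hy)
  exact ⟨Z, (mem_map_valLin_iff hPinf n _).1 hZV, hZred⟩

/-- **[I1] the ideal step**, for a generic pair `(E, Eb)`. -/
theorem idealStepG (m : ℕ) (hS : helper74.RiemannSetting Kb E)
    (hSb : helper74.RiemannSetting (kA A) Eb)
    (hInf : InftyStatement A E Eb) (hSc : ScaleStatement A E Eb)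
    (hInt : IntegralityStatement A E Eb)
    (hReg : RegRedStatement A E Eb) (hGen : GenusEqStatement A E Eb) :
    IdealStepStatement A E Eb m := by
  classical
  intro h hh hh0 hdiv hred1
  obtain ⟨⟨Pinf, hPinf⟩, ⟨Qinf, hQinf⟩⟩ := hInf
  rcases Nat.eq_zero_or_pos m with rfl | hm
  · -- `m = 0`: `h` has no zeros and poles
    refine ⟨1, one_mem _, one_ne_zero, ⟨1, 1, isGoodG_one, isGoodG_one, by simp, rfl⟩,
      -(h⁻¹).order, ?_⟩
    rw [pow_zero, one_mul]
    refine exists_inL_of_regular (inv_mem hh) (fun P _ => ?_)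
    have h1 := hdiv hh P
    rw [Nat.cast_zero, zero_dvd_iff] at h1
    have h2 : (⟨h⁻¹, inv_mem hh⟩ : E) = (⟨h, hh⟩ : E)⁻¹ := rfl
    rw [h2, P.ord_inv, h1]
    simp
  obtain ⟨g, ⟨hineq, -⟩, ⟨-, c', hc'⟩⟩ := hGen
  obtain ⟨hF, hhF⟩ : ∃ hF : E, (hF : LaurentSeries Kb) = h := ⟨⟨h, hh⟩, rfl⟩
  have hF0 : hF ≠ 0 := fun h0 => hh0 (by rw [← hhF, h0]; rfl)
  obtain ⟨Dh, hDh, hDhdeg⟩ := hS.principal.exists_divisor hF hF0
  have hdiv' : ∀ v : Place Kb E, (m : ℤ) ∣ v.ord hF := by
    intro v
    have := hdiv hh v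
    have e : (⟨h, hh⟩ : E) = hF := Subtype.ext hhF.symm
    rwa [e] at this
  -- the divisor `D = div(h) / m`
  obtain ⟨D, hDdef⟩ : ∃ D : Divisor Kb E, D = Dh.mapRange (fun x => x / (m : ℤ)) (by simp) :=
    ⟨_, rfl⟩
  have hD : ∀ v : Place Kb E, (m : ℤ) * D v = v.ord hF := by
    intro v
    rw [hDdef, Finsupp.mapRange_apply, hDh]
    exact Int.mul_ediv_cancel' (hdiv' v)
  have hmD : (m : ℤ) • D = Dh := by
    ext v
    rw [Finsupp.smul_apply, smul_eq_mul, hD, hDh]
  have hDdeg : Divisor.degree D = 0 := by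
    have := congrArg Divisor.degree hmD
    rw [map_zsmul, hDhdeg, smul_eq_mul] at this
    rcases mul_eq_zero.1 this with h0 | h0
    · exact absurd (by exact_mod_cast h0) hm.ne'
    · exact h0
  -- the multiplier
  obtain ⟨q, hq0, hq⟩ := exists_multiplier hS hineq Pinf D
  have hqL : InL E (-(q : LaurentSeries Kb).order) q :=
    exists_inL_of_regular q.2
      (fun P hP => (hq P (fun he => hP ((isInfty_iff_eq hPinf P).2 he))).1)
  have hq0' : (q : LaurentSeries Kb) ≠ 0 := fun h0 => hq0 (Subtype.ext h0)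
  obtain ⟨c, YQ, hc, hYQ, hYQgood, -⟩ := exists_scaled_goodG hPinf hSc hInt hReg hqL hq0'
  obtain ⟨QF, hQF⟩ : ∃ QF : E, (QF : LaurentSeries Kb) = incl A YQ := ⟨⟨_, hYQgood.1⟩, rfl⟩
  have hQFq : QF = c • q := Subtype.ext (by rw [coe_smul_eq, hQF]; exact hYQ)
  have hQF0 : QF ≠ 0 := fun h0 => isGoodG_incl_ne_zero hYQgood (by rw [← hQF, h0]; rfl)
  have hQFord : ∀ v : Place Kb E, v.ord QF = v.ord q := fun v => by
    rw [hQFq, ord_smul_eq v hc]
  obtain ⟨DQ, hDQ, hDQdeg⟩ := hS.principal.exists_divisor QF hQF0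
  -- the degree `n` and the divisor `E = n ∞ - (D + div Q)`
  obtain ⟨n, hn⟩ : ∃ n : ℤ, n = max c' 0 := ⟨_, rfl⟩
  have hnc : c' ≤ n := hn ▸ le_max_left _ _
  have hn0 : 0 ≤ n := hn ▸ le_max_right _ _
  obtain ⟨En, hEn⟩ : ∃ En : Divisor Kb E, En = Finsupp.single Pinf n - (D + DQ) :=
    ⟨_, rfl⟩
  have hEndeg : Divisor.degree En = n := by
    rw [hEn, map_sub, map_add, hDdeg, hDQdeg, degree_single_of hS]
    simp
  have : FiniteDimensional Kb (riemannRochSpace En) := helper74.finiteDimensional_L hS En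
  have : FiniteDimensional (kA A) (riemannRochSpace (Finsupp.single Qinf n)) :=
    helper74.finiteDimensional_L hSb _
  have hYQ0 : red A YQ ≠ 0 := hYQgood.2.2
  -- regularity of the elements of `L(E)`
  have hVreg : ∀ u : E, u ∈ riemannRochSpace En → u ≠ 0 →
      ∀ P : Place Kb E, ¬ IsInfty P → 0 ≤ P.ord u := by
    intro u hu hu0 P hP
    have hne : P ≠ Pinf := fun he => hP ((isInfty_iff_eq hPinf P).2 he)
    have h1 := (helper74.mem_L_iff' hu0).1 hu P
    rw [hEn, Finsupp.sub_apply, Finsupp.add_apply, Finsupp.single_eq_of_ne hne, hDQ,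
      hQFord] at h1
    have h2 := (hq P hne).2
    linarith
  have hVL : ∀ u ∈ (riemannRochSpace En).map (valLin E), ∃ N : ℤ, InL E N u := by
    rintro _ ⟨u, hu, rfl⟩
    refine ⟨-(u : LaurentSeries Kb).order, exists_inL_of_regular u.2 ?_⟩
    intro P hP
    by_cases hu0 : u = 0
    · subst hu0
      exact (Place.ord_zero P).ge
    · exact hVreg u hu hu0 P hP
  have hH := scaled_of_regularG hPinf hSc hInt hReg _ hVL
  -- the key membership
  have hkey : ∀ Z : LaurentSeries A, incl A Z ∈ (riemannRochSpace En).map (valLin E) →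
      Z ≠ 0 → InL E ((m : ℤ) * n) ((incl A Z / incl A YQ) ^ m * h⁻¹) := by
    intro Z hZ hZ0
    obtain ⟨u, hu, hue⟩ := hZ
    rw [valLin_apply] at hue
    have hu0 : u ≠ 0 := by
      rintro rfl
      exact hZ0 (incl_injective (by rw [← hue, map_zero]; rfl))
    have h1 := mem_L_pow_mul_inv D DQ n hF0 hQF0 hu0 hD hDQ (by rw [← hEn]; exact hu)
    rw [inL_iff_mem hPinf]
    have e : (((u / QF) ^ m * hF⁻¹ : E) : LaurentSeries Kb) =
        (incl A Z / incl A YQ) ^ m * h⁻¹ := by
      rw [← hue, ← hQF, ← hhF]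
      rfl
    have hmem : (incl A Z / incl A YQ) ^ m * h⁻¹ ∈ E := e ▸ ((u / QF) ^ m * hF⁻¹).2
    refine ⟨hmem, ?_⟩
    have e' : (⟨_, hmem⟩ : E) = (u / QF) ^ m * hF⁻¹ := Subtype.ext e.symm
    rw [e']
    exact h1
  have hVW : ∀ Z : LaurentSeries A, incl A Z ∈ (riemannRochSpace En).map (valLin E) →
      red A Z ∈ (riemannRochSpace (Finsupp.single Qinf n)).map
        (mulLin Eb (red A YQ)) := by
    intro Z hZ
    by_cases hZ0 : Z = 0
    · rw [hZ0, map_zero]
      exact Submodule.zero_mem _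
    obtain ⟨N, hN⟩ := hVL _ hZ
    obtain ⟨y, hy, hyeq⟩ := red_mem_of_powG hQinf hInt hReg hm hred1 hYQgood hN (hkey Z hZ hZ0)
    exact ⟨y, hy, hyeq.symm⟩
  -- the count
  have hle : Module.finrank (kA A) ((riemannRochSpace (Finsupp.single Qinf n)).map
      (mulLin Eb (red A YQ))) ≤
      Module.finrank Kb ((riemannRochSpace En).map (valLin E)) := by
    rw [finrank_map_valLin, finrank_map_mulLin hYQ0]
    have h2 := hineq En
    have h3 := hc' (Finsupp.single Qinf n) (by rw [degree_single_of hSb]; exact hnc)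
    rw [hEndeg] at h2
    rw [degree_single_of hSb] at h3
    unfold helper74.ell at h2 h3
    have h4 : (Module.finrank (kA A) (riemannRochSpace (Finsupp.single Qinf n)) : ℤ) ≤
        (Module.finrank Kb (riemannRochSpace En) : ℤ) := by linarith
    exact_mod_cast h4
  -- lift `red Y_Q`
  have h1W : red A YQ ∈ (riemannRochSpace (Finsupp.single Qinf n)).map
      (mulLin Eb (red A YQ)) :=
    ⟨1, one_mem_L hn0, by rw [mulLin_apply]; exact mul_one _⟩
  obtain ⟨Z, hZV, hZred⟩ := exists_lift_of_finrank_le A (IsLocalRing.residue A)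
    isUnit_of_residue_ne_zero IsLocalRing.residue_surjective _ hH _ hVW hle _ h1W
  have hZ0 : Z ≠ 0 := by
    rintro rfl
    rw [map_zero] at hZred
    exact hYQ0 hZred.symm
  have hZF : incl A Z ∈ E := by
    obtain ⟨u, -, hue⟩ := hZV
    rw [← hue]
    exact u.2
  have hZr : coeffMap (IsLocalRing.residue A) Z = red A YQ := hZred
  have hZgood : IsGood A E Eb Z := by
    refine ⟨hZF, ?_, ?_⟩
    · show red A Z ∈ Eb
      have : red A Z = red A YQ := hZr
      rw [this]
      exact hYQgood.2.1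
    · show red A Z ≠ 0
      have : red A Z = red A YQ := hZr
      rw [this]
      exact hYQ0
  have hYQ0' : incl A YQ ≠ 0 := isGoodG_incl_ne_zero hYQgood
  refine ⟨incl A Z / incl A YQ, div_mem hZF hYQgood.1, div_ne_zero ?_ hYQ0',
    ⟨Z, YQ, hZgood, hYQgood, ?_, hZred⟩, (m : ℤ) * n, hkey Z hZV hZ0⟩
  · exact fun h0 => hZ0 (incl_injective (by rw [h0, map_zero]))
  · rw [div_mul_cancel₀ _ hYQ0']

end Fermat.Agent.T4.helper86

end
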