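import Fermat.Agent.T4.helper89_ConjTools
import Fermat.Agent.S23.Main

/-!
# T4 / S48, block (V): conjugation of weight-one cusp forms with nebentypus (helper89)

`conjHom_of : E3Statement → DivStatement → ConjHomStatement`.

For `f ∈ S₁(Γ₁(N))` with nebentypus `ε`, `h` the weight-3 Eisenstein series with nebentypus
`ε⁻¹` and `m = φ(N)`: `f * h ∈ S₄(Γ₀(N))`, `f ^ m ∈ S_m(Γ₀(N))`.  With `K = (f h)^σ`,
`P = (f^m)^σ` (S23 on main) and `H = h^σ` (Eisenstein series of `σ ∘ ε⁻¹`):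
`K ^ m = P * H ^ m`, so `K = φ * H` with `φ` holomorphic (`DivStatement`), `φ ^ m = P`,
and `φ` is the conjugate of `f`.
-/

set_option autoImplicit false

noncomputable section

open Matrix.SpecialLinearGroup UpperHalfPlane ModularForm CongruenceSubgroup ModularFormClass
open scoped MatrixGroups ModularForm OnePoint Manifold

namespace Fermat.Agent.T4.helper89

open Fermat.Agent.T4.helper79 (IsNice)

/-- **σ-conjugation on `Γ₀(N)`** in every weight (S23 on main). -/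
theorem conjG0 (N : ℕ) [NeZero N] (k : ℤ) (σ : ℂ →+* ℂ)
    (F : CuspForm (Gamma0 N : Subgroup (GL (Fin 2) ℝ)) k) :
    ∃ G : CuspForm (Gamma0 N : Subgroup (GL (Fin 2) ℝ)) k,
      qExpansion 1 G = PowerSeries.map σ (qExpansion 1 F) := by
  obtain ⟨w, g, hgint, hg0, hgz⟩ := Fermat.Agent.S23.exists_etaQuotient_weak N
  exact Fermat.Agent.S23.exists_conj_Gamma0 N k g hgint hg0 hgz σ F

/-! ### the nebentypus calculus -/

theorem neg_one_mem_Gamma0 (N : ℕ) : (-1 : SL(2, ℤ)) ∈ Gamma0 N := by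
  rw [Gamma0_mem]
  simp

theorem slash_one_neg_one (f : ℍ → ℂ) : f ∣[(1 : ℤ)] (-1 : SL(2, ℤ)) = -f := by
  ext τ
  rw [SL_slash_apply, ModularGroup.SL_neg_smul, one_smul]
  have h1 : denom ((-1 : SL(2, ℤ)) : GL (Fin 2) ℝ) (τ : ℂ) = -1 := by
    simp [denom]
  rw [h1]
  simp

theorem neben_odd {N : ℕ} {ε : DirichletCharacter ℂ N} {f : ℍ → ℂ} (h : HasNeben N 1 ε f)
    (hf : f ≠ 0) : ε (-1) = -1 := by
  have h1 := h (-1) (neg_one_mem_Gamma0 N)
  rw [slash_one_neg_one] at h1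
  obtain ⟨τ, hτ⟩ : ∃ τ, f τ ≠ 0 := by
    by_contra hcon
    exact hf (funext fun τ => by_contra fun h => hcon ⟨τ, h⟩)
  have h2 := congrFun h1 τ
  have e : (((-1 : SL(2, ℤ)) 1 1 : ℤ) : ZMod N) = -1 := by simp
  rw [e] at h2
  simp only [Pi.neg_apply, Pi.smul_apply, smul_eq_mul] at h2
  have h3 : (ε (-1) + 1) * f τ = 0 := by rw [add_mul, ← h2]; ring
  rcases mul_eq_zero.mp h3 with h4 | h4
  · exact eq_neg_of_add_eq_zero_left h4
  · exact absurd h4 hτ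

theorem eis3Coeff_one {N : ℕ} (χ : DirichletCharacter ℂ N) : eis3Coeff χ 1 = 1 := by
  simp [eis3Coeff]

theorem eis3Coeff_ringHomComp {N : ℕ} (χ : DirichletCharacter ℂ N) (σ : ℂ →+* ℂ) (n : ℕ) :
    eis3Coeff (χ.ringHomComp σ) n = σ (eis3Coeff χ n) := by
  simp [eis3Coeff, MulChar.ringHomComp_apply, map_sum]

theorem neben_mul {N : ℕ} {k₁ k₂ : ℤ} {χ₁ χ₂ : DirichletCharacter ℂ N} {a b : ℍ → ℂ}
    (ha : HasNeben N k₁ χ₁ a) (hb : HasNeben N k₂ χ₂ b)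
    (h12 : ∀ x : ZMod N, IsUnit x → χ₁ x * χ₂ x = 1) (γ : SL(2, ℤ)) (hγ : γ ∈ Gamma0 N) :
    (a * b) ∣[k₁ + k₂] γ = a * b := by
  rw [mul_slash_SL2, ha γ hγ, hb γ hγ]
  ext τ
  simp only [Pi.mul_apply, Pi.smul_apply, smul_eq_mul]
  have := h12 _ (helper79.isUnit_lowerRight hγ)
  linear_combination (a τ * b τ) * this

theorem neben_pow {N : ℕ} {k : ℤ} {χ : DirichletCharacter ℂ N} {a : ℍ → ℂ}
    (ha : HasNeben N k χ a) (m : ℕ) (hm : ∀ x : ZMod N, IsUnit x → χ x ^ m = 1)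
    (γ : SL(2, ℤ)) (hγ : γ ∈ Gamma0 N) :
    (a ^ m) ∣[(m : ℤ) * k] γ = a ^ m := by
  rw [pow_slash_SL2, ha γ hγ]
  ext τ
  simp only [Pi.pow_apply, Pi.smul_apply, smul_eq_mul, mul_pow,
    hm _ (helper79.isUnit_lowerRight hγ), one_mul]

theorem dirichlet_pow_card {N : ℕ} [NeZero N] (χ : DirichletCharacter ℂ N) (x : ZMod N)
    (hx : IsUnit x) : χ x ^ (Fintype.card (ZMod N)ˣ) = 1 := by
  obtain ⟨u, rfl⟩ := hx
  rw [← map_pow, ← Units.val_pow_eq_pow_val, pow_card_eq_one, Units.val_one, map_one]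

theorem isZeroAtImInfty_of_pow {g : ℍ → ℂ} {m : ℕ}
    (h : IsZeroAtImInfty (g ^ m)) : IsZeroAtImInfty g := by
  unfold IsZeroAtImInfty Filter.ZeroAtFilter at h ⊢
  rw [Metric.tendsto_nhds] at h ⊢
  intro δ hδ
  filter_upwards [h (δ ^ m) (pow_pos hδ m)] with τ hτ
  rw [dist_zero_right] at hτ ⊢
  rw [Pi.pow_apply, norm_pow] at hτ
  exact lt_of_pow_lt_pow_left₀ m hδ.le hτ

theorem isZeroAtImInfty_pow {g : ℍ → ℂ} {m : ℕ} (hm : 0 < m)
    (h : IsZeroAtImInfty g) : IsZeroAtImInfty (g ^ m) := by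
  obtain ⟨n, rfl⟩ : ∃ n, m = n + 1 := ⟨m - 1, by omega⟩
  rw [pow_succ]
  have hb : IsBoundedAtImInfty (g ^ n) := by
    induction n with
    | zero => simpa using nice_one.bdd
    | succ n ih =>
      rw [pow_succ]
      exact (ih (by omega)).mul h.boundedAtFilter
  exact Filter.BoundedAtFilter.mul_zeroAtFilter hb h

theorem mul_slash_SL2' {k₁ k₂ k : ℤ} (hk : k₁ + k₂ = k) (γ : SL(2, ℤ)) (a b : ℍ → ℂ) :
    (a * b) ∣[k] γ = (a ∣[k₁] γ) * (b ∣[k₂] γ) := by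
  subst hk
  exact mul_slash_SL2 k₁ k₂ γ a b

theorem qExp_eq_map_of_qCoeff {a b : ℍ → ℂ} (σ : ℂ →+* ℂ)
    (h : ∀ n, qCoeff a n = σ (qCoeff b n)) :
    qExpansion 1 a = PowerSeries.map σ (qExpansion 1 b) := by
  ext n
  rw [PowerSeries.coeff_map]
  exact h n

theorem ne_zero_of_qCoeff_one {a : ℍ → ℂ} (h : qCoeff a 1 = 1) : a ≠ 0 := by
  rintro rfl
  simp [qCoeff, qExpansion_zero] at h

theorem qExp_ne_zero_of_qCoeff_one {a : ℍ → ℂ} (h : qCoeff a 1 = 1) : qExpansion 1 a ≠ 0 := by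
  intro h0
  simp [qCoeff, h0] at h

/-- **[V-CONJ-HOM]** from `[E3]` and `[DIV]`. -/
theorem conjHom_of (hE : E3Statement) (hD : DivStatement) : ConjHomStatement := by
  intro N _ ε f hneb σ
  by_cases hf0 : (⇑f : ℍ → ℂ) = 0
  · refine ⟨0, fun γ _ => ?_, fun n => ?_⟩
    · ext τ
      simp
    · rw [hf0]
      simp [qCoeff, qExpansion_zero]
  have hodd : ε (-1) = -1 := neben_odd hneb hf0
  set χ : DirichletCharacter ℂ N := ε⁻¹ with hχ
  have hχodd : χ (-1) = -1 := by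
    rw [hχ, MulChar.inv_apply_eq_inv', hodd]
    norm_num
  obtain ⟨h, hhneb, hhq⟩ := hE N χ hχodd
  have hσodd : (χ.ringHomComp σ) (-1) = -1 := by
    rw [MulChar.ringHomComp_apply, hχodd, map_neg, map_one]
  obtain ⟨H, hHneb, hHq⟩ := hE N (χ.ringHomComp σ) hσodd
  set m : ℕ := Fintype.card (ZMod N)ˣ with hm
  have hm0 : 0 < m := Fintype.card_pos
  have nf : IsNice ⇑f := helper79.nice_coe f
  have nh : IsNice ⇑h := nice_modular h
  have nH : IsNice ⇑H := nice_modular H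
  have h12 : ∀ x : ZMod N, IsUnit x → ε x * χ x = 1 := by
    intro x hx
    rw [hχ, MulChar.inv_apply_eq_inv']
    exact mul_inv_cancel₀ (hx.map ε).ne_zero
  -- the two forms with trivial character
  let F4 : CuspForm (Gamma0 N : Subgroup (GL (Fin 2) ℝ)) 4 :=
    mkCusp (Gamma0 N) 4 (⇑f * ⇑h)
      (fun γ hγ => by
        have e := neben_mul hneb hhneb h12 γ hγ
        rwa [show (1 : ℤ) + 3 = 4 by norm_num] at e)
      (nf.hol.mul nh.hol)
      (fun γ => by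
        rw [mul_slash_SL2' (show (1 : ℤ) + 3 = 4 by norm_num)]
        exact (CuspFormClass.zero_at_infty_slash f γ).mul_boundedAtFilter
          (ModularFormClass.bdd_at_infty_slash h γ))
  let Fm : CuspForm (Gamma0 N : Subgroup (GL (Fin 2) ℝ)) ((m : ℤ) * 1) :=
    mkCusp (Gamma0 N) ((m : ℤ) * 1) (⇑f ^ m)
      (fun γ hγ => neben_pow hneb m (fun x hx => dirichlet_pow_card ε x hx) γ hγ)
      (nf.hol.pow m)
      (fun γ => by
        rw [pow_slash_SL2]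
        exact isZeroAtImInfty_pow hm0 (CuspFormClass.zero_at_infty_slash f γ))
  obtain ⟨K, hK⟩ := conjG0 N 4 σ F4
  obtain ⟨P, hP⟩ := conjG0 N ((m : ℤ) * 1) σ Fm
  have hF4 : (⇑F4 : ℍ → ℂ) = ⇑f * ⇑h := rfl
  have hFm : (⇑Fm : ℍ → ℂ) = ⇑f ^ m := rfl
  rw [hF4, qExp_mul nf nh, map_mul] at hK
  rw [hFm, qExp_pow nf, map_pow] at hP
  have nK : IsNice ⇑K := nice_cusp0 K
  have nP : IsNice ⇑P := nice_cusp0 P
  have hHexp : qExpansion 1 ⇑H = PowerSeries.map σ (qExpansion 1 ⇑h) :=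
    qExp_eq_map_of_qCoeff σ fun n => by rw [hHq n, hhq n, eis3Coeff_ringHomComp]
  have hH1 : qCoeff ⇑H 1 = 1 := by rw [hHq 1, eis3Coeff_one]
  have hH0 : (⇑H : ℍ → ℂ) ≠ 0 := ne_zero_of_qCoeff_one hH1
  -- the key identity
  have hKm : (⇑K : ℍ → ℂ) ^ m = ⇑P * ⇑H ^ m := by
    refine nice_ext_qExp (nice_pow nK m) (nice_mul nP (nice_pow nH m)) ?_
    rw [qExp_pow nK, qExp_mul nP (nice_pow nH m), qExp_pow nH, hK, hP, hHexp, mul_pow]
  -- division
  obtain ⟨φ, hφ, hKφ⟩ := hD ⇑K ⇑P ⇑H m hm0 nK.hol nP.hol nH.hol hH0 hKm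
  have hHm0 : (⇑H : ℍ → ℂ) ^ m ≠ 0 := by
    intro hc
    refine hH0 (funext fun τ => ?_)
    have h3 : (H τ) ^ m = 0 := congrFun hc τ
    exact (pow_eq_zero_iff hm0.ne').mp h3
  have hφm : φ ^ m = ⇑P := by
    refine eq_of_mul_eq_mul_right (hφ.pow m) nP.hol (nH.hol.pow m) hHm0 ?_
    rw [← mul_pow, ← hKφ, hKm]
  -- nebentypus of `φ`
  have hφneb : HasNeben N 1 (ε.ringHomComp σ) φ := by
    intro γ hγ
    have e1 : (φ * ⇑H) ∣[(4 : ℤ)] γ = (φ ∣[(1 : ℤ)] γ) * (⇑H ∣[(3 : ℤ)] γ) :=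
      mul_slash_SL2' (by norm_num) γ φ ⇑H
    have e2 : (φ * ⇑H) ∣[(4 : ℤ)] γ = φ * ⇑H := by
      rw [← hKφ]
      exact SlashInvariantFormClass.slash_action_eq K _ (Subgroup.mem_map_of_mem _ hγ)
    rw [e2, hHneb γ hγ] at e1
    have hu := helper79.isUnit_lowerRight hγ
    set d : ZMod N := ((γ 1 1 : ℤ) : ZMod N) with hd
    have hc : (χ.ringHomComp σ) d * (ε.ringHomComp σ) d = 1 := by
      rw [MulChar.ringHomComp_apply, MulChar.ringHomComp_apply, ← map_mul, mul_comm, h12 d hu,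
        map_one]
    have e3 : ((ε.ringHomComp σ) d • φ) * ⇑H = (φ ∣[(1 : ℤ)] γ) * ⇑H := by
      ext τ
      have e1τ := congrFun e1 τ
      simp only [Pi.mul_apply, Pi.smul_apply, smul_eq_mul] at e1τ ⊢
      linear_combination (ε.ringHomComp σ) d * e1τ + ((φ ∣[(1 : ℤ)] γ) τ * H τ) * hc
    exact (eq_of_mul_eq_mul_right (hφ.const_smul _) (hφ.slash 1 _) nH.hol hH0 e3).symm
  -- the conjugate form
  let g : CuspForm (Gamma1 N : Subgroup (GL (Fin 2) ℝ)) 1 :=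
    mkCusp (Gamma1 N) 1 φ
      (fun γ hγ => by
        rw [hφneb γ (Gamma1_in_Gamma0 N hγ)]
        have h1 : ((γ 1 1 : ℤ) : ZMod N) = 1 := ((Gamma1_mem N γ).mp hγ).2.1
        rw [h1, map_one, one_smul])
      hφ
      (fun γ => by
        refine isZeroAtImInfty_of_pow (m := m) ?_
        rw [← pow_slash_SL2, hφm]
        exact CuspFormClass.zero_at_infty_slash P γ)
  have hg : (⇑g : ℍ → ℂ) = φ := rfl
  have ng : IsNice φ := hg ▸ helper79.nice_coe g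
  refine ⟨g, hφneb, fun n => ?_⟩
  have e4 : qExpansion 1 φ * qExpansion 1 ⇑H =
      PowerSeries.map σ (qExpansion 1 ⇑f) * qExpansion 1 ⇑H := by
    rw [← qExp_mul ng nH, ← hKφ, hK, hHexp]
  have e5 := mul_right_cancel₀ (qExp_ne_zero_of_qCoeff_one hH1) e4
  rw [hg]
  unfold qCoeff
  rw [e5, PowerSeries.coeff_map]

end Fermat.Agent.T4.helper89
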