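import Fermat.Agent.T4.helper89_ConjHom
import Fermat.Agent.T4.helper78_VAlgS48

/-!
# T4 / S48, block (V): the coefficients of a weight-one form with nebentypus lie in a finitely
generated group (helper89)

`span_of : E3Statement → SpanStatement`: `f * h ∈ S₄(Γ₀(N))` is a `ℂ`-combination of forms with
integer coefficients (S23 on main), and division by `h = q + …` (coefficients in `ℤ[ε]`) keeps
the coefficients in a finitely generated group.
-/

set_option autoImplicit false

noncomputable section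

open Matrix.SpecialLinearGroup UpperHalfPlane ModularForm CongruenceSubgroup ModularFormClass
open scoped MatrixGroups ModularForm OnePoint Manifold

namespace Fermat.Agent.T4.helper89

open Fermat.Agent.T4.helper79 (IsNice)
open Fermat.Agent.T4.helper78 (CoeffsInFG)

/-- the product of a weight-one cusp form with nebentypus `ε` and a weight-three modular form
with nebentypus `ε⁻¹` is a cusp form of weight 4 on `Γ₀(N)`. -/
theorem exists_mul_form {N : ℕ} [NeZero N] {ε χ : DirichletCharacter ℂ N}
    (f : CuspForm (Gamma1 N) 1) (hneb : HasNeben N 1 ε ⇑f)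
    (h : ModularForm (Gamma1 N) 3) (hhneb : HasNeben N 3 χ ⇑h)
    (h12 : ∀ x : ZMod N, IsUnit x → ε x * χ x = 1) :
    ∃ F4 : CuspForm (Gamma0 N : Subgroup (GL (Fin 2) ℝ)) 4, (⇑F4 : ℍ → ℂ) = ⇑f * ⇑h :=
  ⟨mkCusp (Gamma0 N) 4 (⇑f * ⇑h)
      (fun γ hγ => by
        have e := neben_mul hneb hhneb h12 γ hγ
        rwa [show (1 : ℤ) + 3 = 4 by norm_num] at e)
      ((helper79.nice_coe f).hol.mul (nice_modular h).hol)
      (fun γ => by
        rw [mul_slash_SL2' (show (1 : ℤ) + 3 = 4 by norm_num)]
        exact (CuspFormClass.zero_at_infty_slash f γ).mul_boundedAtFilter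
          (ModularFormClass.bdd_at_infty_slash h γ)), rfl⟩

/-- the `q`-coefficients of the elements of the integral lattice are integers -/
theorem intLattice_coeff {N : ℕ} {k : ℤ} {B : CuspForm (Gamma0 N) k}
    (hB : B ∈ CuspForm.intLattice N k) (n : ℕ) : ∃ b : ℤ, qCoeff ⇑B n = (b : ℂ) := by
  induction hB using Submodule.span_induction with
  | mem x hx => exact hx n
  | zero => exact ⟨0, by simpa using congrFun (Fermat.Agent.S23.helper87.qCoeffLin N k).map_zero n⟩
  | add x y _ _ hx hy =>
    obtain ⟨a, ha⟩ := hx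
    obtain ⟨b, hb⟩ := hy
    refine ⟨a + b, ?_⟩
    have := congrFun ((Fermat.Agent.S23.helper87.qCoeffLin N k).map_add x y) n
    simp only [Fermat.Agent.S23.helper87.qCoeffLin_apply, Pi.add_apply] at this
    rw [this, ha, hb]
    push_cast
    ring
  | smul c x _ hx =>
    obtain ⟨a, ha⟩ := hx
    refine ⟨c * a, ?_⟩
    have h1 : c • x = (c : ℂ) • x := by
      rw [← Int.cast_smul_eq_zsmul ℂ c x]
    have := congrFun ((Fermat.Agent.S23.helper87.qCoeffLin N k).map_smul (c : ℂ) x) n
    simp only [Fermat.Agent.S23.helper87.qCoeffLin_apply, Pi.smul_apply, smul_eq_mul] at this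
    rw [h1, this, ha]
    push_cast
    ring

/-- the coefficients of a cusp form on `Γ₀(N)` lie in a finitely generated group (S23). -/
theorem coeffsInFG_Gamma0 (N : ℕ) [NeZero N] (k : ℤ) (F : CuspForm (Gamma0 N) k) :
    CoeffsInFG (qCoeff ⇑F) := by
  classical
  have hI : Submodule.span ℂ (↑(CuspForm.intLattice N k) : Set (CuspForm (Gamma0 N) k)) = ⊤ :=
    Fermat.Agent.S23.hasIntegralStructure_all N k
  have hF : F ∈ Submodule.span ℂ (↑(CuspForm.intLattice N k) : Set (CuspForm (Gamma0 N) k)) := by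
    rw [hI]
    exact Submodule.mem_top
  obtain ⟨c, hc, rfl⟩ := (Submodule.mem_span_set).mp hF
  refine ⟨Submodule.span ℤ ((fun B => c B) '' (c.support : Set _)),
    Submodule.fg_span ((c.support.finite_toSet).image _), fun n => ?_⟩
  have e : qCoeff (⇑(c.sum fun B r => r • B)) n = c.sum fun B r => r * qCoeff ⇑B n := by
    have h1 := congrFun (map_finsuppSum (Fermat.Agent.S23.helper87.qCoeffLin N k) c
      (fun B r => r • B)) n
    simp only [Fermat.Agent.S23.helper87.qCoeffLin_apply] at h1
    rw [h1, Finsupp.sum, Finsupp.sum, Finset.sum_apply]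
    refine Finset.sum_congr rfl fun B _ => ?_
    have := congrFun ((Fermat.Agent.S23.helper87.qCoeffLin N k).map_smul (c B) B) n
    simpa using this
  rw [e, Finsupp.sum]
  refine Submodule.sum_mem _ fun B hB => ?_
  obtain ⟨b, hb⟩ := intLattice_coeff (hc hB) n
  rw [hb, mul_comm, ← zsmul_eq_mul]
  exact Submodule.smul_mem _ _ (Submodule.subset_span ⟨B, hB, rfl⟩)

/-- Division by a power series `b = q + …` with coefficients in a subring `R` of `ℂ` which is
finitely generated as a group: if the coefficients of `a * b` lie in a finitely generated group,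
so do those of `a`. -/
theorem coeffsInFG_of_mul_q (a b A : PowerSeries ℂ) (R : Subalgebra ℤ ℂ)
    (hR : (Subalgebra.toSubmodule R).FG)
    (hb0 : PowerSeries.coeff 0 b = 0) (hb1 : PowerSeries.coeff 1 b = 1)
    (hb : ∀ n, PowerSeries.coeff n b ∈ R) (h : a * b = A)
    (hA : CoeffsInFG fun n => PowerSeries.coeff n A) :
    CoeffsInFG fun n => PowerSeries.coeff n a := by
  obtain ⟨Λ₄, hΛ, hmem⟩ := hA
  refine ⟨Subalgebra.toSubmodule R * Λ₄, hR.mul hΛ, ?_⟩
  have hstab : ∀ r ∈ R, ∀ x ∈ Subalgebra.toSubmodule R * Λ₄,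
      x * r ∈ Subalgebra.toSubmodule R * Λ₄ := by
    intro r hr x hx
    refine Submodule.mul_induction_on hx (fun r' hr' c hc => ?_) (fun x y hx hy => ?_)
    · rw [mul_right_comm]
      exact Submodule.mul_mem_mul (R.mul_mem hr' hr) hc
    · rw [add_mul]
      exact add_mem hx hy
  have hsub : ∀ x ∈ Λ₄, x ∈ Subalgebra.toSubmodule R * Λ₄ := fun x hx => by
    have := Submodule.mul_mem_mul (M := Subalgebra.toSubmodule R) (N := Λ₄) R.one_mem hx
    simpa using this
  intro n
  induction n using Nat.strong_induction_on with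
  | _ n ih =>
    have e : PowerSeries.coeff (n + 1) A =
        (∑ k ∈ Finset.range n, PowerSeries.coeff k a * PowerSeries.coeff (n + 1 - k) b) +
          PowerSeries.coeff n a := by
      rw [← h, PowerSeries.coeff_mul,
        Finset.Nat.sum_antidiagonal_eq_sum_range_succ
          (fun i j => PowerSeries.coeff i a * PowerSeries.coeff j b),
        Finset.sum_range_succ, Finset.sum_range_succ]
      simp [hb0, hb1]
    have e2 : PowerSeries.coeff n a = PowerSeries.coeff (n + 1) A -
        ∑ k ∈ Finset.range n, PowerSeries.coeff k a * PowerSeries.coeff (n + 1 - k) b := by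
      rw [e]
      ring
    change PowerSeries.coeff n a ∈ Subalgebra.toSubmodule R * Λ₄
    rw [e2]
    refine sub_mem (hsub _ (hmem (n + 1))) (Submodule.sum_mem _ fun k hk => ?_)
    exact hstab _ (hb _) _ (ih k (Finset.mem_range.mp hk))

/-- **[V-SPAN]** from `[E3]`. -/
theorem span_of (hE : E3Statement) : SpanStatement := by
  intro N _ ε f hneb
  by_cases hf0 : (⇑f : ℍ → ℂ) = 0
  · refine ⟨⊥, Submodule.fg_bot, fun n => ?_⟩
    rw [hf0]
    simp [qCoeff, qExpansion_zero]
  have hodd : ε (-1) = -1 := neben_odd hneb hf0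
  set χ : DirichletCharacter ℂ N := ε⁻¹ with hχ
  have hχodd : χ (-1) = -1 := by
    rw [hχ, MulChar.inv_apply_eq_inv', hodd]
    norm_num
  obtain ⟨h, hhneb, hhq⟩ := hE N χ hχodd
  have h12 : ∀ x : ZMod N, IsUnit x → ε x * χ x = 1 := by
    intro x hx
    rw [hχ, MulChar.inv_apply_eq_inv']
    exact mul_inv_cancel₀ (hx.map ε).ne_zero
  obtain ⟨F4, hF4⟩ := exists_mul_form f hneb h hhneb h12
  have hA := coeffsInFG_Gamma0 N 4 F4
  have hmul : qExpansion 1 ⇑f * qExpansion 1 ⇑h = qExpansion 1 ⇑F4 := by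
    rw [hF4, qExp_mul (helper79.nice_coe f) (nice_modular h)]
  have hRfg : (Subalgebra.toSubmodule (Algebra.adjoin ℤ (Set.range χ : Set ℂ))).FG :=
    fg_adjoin_of_finite (Set.finite_range χ) (by
      rintro _ ⟨y, rfl⟩
      exact helper78.isIntegral_dirichlet χ y)
  have hcoeff : ∀ n, PowerSeries.coeff n (qExpansion 1 ⇑h) = eis3Coeff χ n := hhq
  refine coeffsInFG_of_mul_q (qExpansion 1 ⇑f) (qExpansion 1 ⇑h) (qExpansion 1 ⇑F4)
    (Algebra.adjoin ℤ (Set.range χ : Set ℂ)) hRfg ?_ ?_ ?_ hmul hA
  · rw [hcoeff]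
    simp [eis3Coeff]
  · rw [hcoeff, eis3Coeff_one]
  · intro n
    rw [hcoeff]
    unfold eis3Coeff
    refine Subalgebra.sum_mem _ fun c _ => ?_
    refine Subalgebra.mul_mem _ (Algebra.subset_adjoin ⟨_, rfl⟩) ?_
    exact Subalgebra.pow_mem _ (natCast_mem _ _) 2

end Fermat.Agent.T4.helper89
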