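import Fermat.Agent.T4.helper89_ConjDefs
import Fermat.Agent.T4.helper79_Neben
import Fermat.Prelude.Thm_CongruenceSubgroup_one_mem_strictPeriods_Gamma0

/-!
# T4 / S48, block (V): tools for the conjugation of forms with nebentypus (helper89)

* `mkCusp`, `mkModular`: cusp / modular forms on a finite index subgroup of `SL(2, ℤ)` from
  function-level data (invariance, holomorphy, behaviour of all `SL(2, ℤ)`-translates at `i∞`);
* `pow_slash_SL2`: the slash action on powers;
* nice functions: products, powers, `q`-expansions of products and powers;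
* `HasNeben` calculus.
-/

set_option autoImplicit false

noncomputable section

open Matrix.SpecialLinearGroup UpperHalfPlane ModularForm CongruenceSubgroup ModularFormClass
open scoped MatrixGroups ModularForm OnePoint Manifold

namespace Fermat.Agent.T4.helper89

open Fermat.Agent.T4.helper79 (IsNice)

/-! ### constructors -/

/-- A cusp form on a finite index subgroup `Γ` of `SL(2, ℤ)` from function-level data. -/
def mkCusp (Γ : Subgroup SL(2, ℤ)) [Γ.FiniteIndex] (k : ℤ) (F : ℍ → ℂ)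
    (hinv : ∀ γ ∈ Γ, F ∣[k] γ = F) (hol : MDiff F)
    (hz : ∀ γ : SL(2, ℤ), IsZeroAtImInfty (F ∣[k] γ)) :
    CuspForm (Γ : Subgroup (GL (Fin 2) ℝ)) k where
  toFun := F
  slash_action_eq' A hA := by
    obtain ⟨γ, hγ, rfl⟩ := Subgroup.mem_map.mp hA
    exact hinv γ hγ
  holo' := hol
  zero_at_cusps' {c} hc := by
    rw [Subgroup.IsArithmetic.isCusp_iff_isCusp_SL2Z] at hc
    exact (OnePoint.isZeroAt_iff_forall_SL2Z hc).mpr fun γ _ => hz γ

@[simp] theorem coe_mkCusp (Γ : Subgroup SL(2, ℤ)) [Γ.FiniteIndex] (k : ℤ) (F : ℍ → ℂ)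
    (hinv : ∀ γ ∈ Γ, F ∣[k] γ = F) (hol : MDiff F)
    (hz : ∀ γ : SL(2, ℤ), IsZeroAtImInfty (F ∣[k] γ)) :
    (⇑(mkCusp Γ k F hinv hol hz) : ℍ → ℂ) = F := rfl

/-! ### slash action on powers -/

theorem one_slash_SL2 (γ : SL(2, ℤ)) : (1 : ℍ → ℂ) ∣[(0 : ℤ)] γ = 1 := by
  ext τ
  rw [SL_slash_apply]
  simp

theorem pow_slash_SL2 (k : ℤ) (γ : SL(2, ℤ)) (f : ℍ → ℂ) (n : ℕ) :
    (f ^ n) ∣[(n : ℤ) * k] γ = (f ∣[k] γ) ^ n := by
  induction n with
  | zero => simpa using one_slash_SL2 γ
  | succ n ih =>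
    rw [pow_succ, pow_succ, ← ih, ← mul_slash_SL2]
    congr 1
    push_cast
    ring

/-! ### nice functions -/

theorem nice_mul {a b : ℍ → ℂ} (Ha : IsNice a) (Hb : IsNice b) : IsNice (a * b) where
  per := Ha.per.mul Hb.per
  hol := Ha.hol.mul Hb.hol
  bdd := Ha.bdd.mul Hb.bdd

theorem nice_one : IsNice (1 : ℍ → ℂ) where
  per := fun _ => rfl
  hol := mdifferentiable_const
  bdd := Filter.const_boundedAtFilter _ (1 : ℂ)

theorem nice_pow {a : ℍ → ℂ} (Ha : IsNice a) (n : ℕ) : IsNice (a ^ n) := by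
  induction n with
  | zero => simpa using nice_one
  | succ n ih => rw [pow_succ]; exact nice_mul ih Ha

theorem qExp_mul {a b : ℍ → ℂ} (Ha : IsNice a) (Hb : IsNice b) :
    qExpansion 1 (a * b) = qExpansion 1 a * qExpansion 1 b :=
  UpperHalfPlane.qExpansion_mul Ha.analytic Hb.analytic

theorem qExp_pow {a : ℍ → ℂ} (Ha : IsNice a) (n : ℕ) :
    qExpansion 1 (a ^ n) = qExpansion 1 a ^ n := by
  induction n with
  | zero => simpa using qExpansion_one 1
  | succ n ih => rw [pow_succ, qExp_mul (nice_pow Ha n) Ha, ih, pow_succ]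

theorem nice_ext_qExp {a b : ℍ → ℂ} (Ha : IsNice a) (Hb : IsNice b)
    (h : qExpansion 1 a = qExpansion 1 b) : a = b :=
  Ha.ext Hb fun n => by simp only [qCoeff, h]

/-- the nice-ness of a modular form on `Γ₁(N)` -/
theorem nice_modular {N : ℕ} [NeZero N] {k : ℤ} (F : ModularForm (Gamma1 N) k) : IsNice ⇑F where
  per := by
    simpa using SlashInvariantFormClass.periodic_comp_ofComplex F
      (helper79.one_mem_strictPeriods_Gamma1 N)
  hol := ModularFormClass.holo F
  bdd := ModularFormClass.bdd_at_infty F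

/-- the nice-ness of a cusp form on `Γ₀(N)` -/
theorem nice_cusp0 {N : ℕ} [NeZero N] {k : ℤ}
    (F : CuspForm (Gamma0 N : Subgroup (GL (Fin 2) ℝ)) k) : IsNice ⇑F where
  per := by
    simpa using SlashInvariantFormClass.periodic_comp_ofComplex F
      (CongruenceSubgroup.one_mem_strictPeriods_Gamma0 N)
  hol := ModularFormClass.holo F
  bdd := ModularFormClass.bdd_at_infty F

/-! ### cancellation -/

theorem eq_of_mul_eq_mul_right {A B H : ℍ → ℂ} (hA : MDiff A) (hB : MDiff B) (hH : MDiff H)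
    (hH0 : H ≠ 0) (h : A * H = B * H) : A = B := by
  have h0 : (A - B) * H = 0 := by rw [sub_mul, h, sub_self]
  rcases (UpperHalfPlane.mul_eq_zero_iff (hA.sub hB) hH).mp h0 with h1 | h1
  · exact sub_eq_zero.mp h1
  · exact absurd h1 hH0

end Fermat.Agent.T4.helper89
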