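import Mathlib

/-!
# T4 block (II), step (4): the abstract analytic core (helper91)

Mathlib only.  `P` is a set of "primes" with "norms" `N q ≥ 2`, `φ : P → A` is a map to a finite
abelian group (the Frobenius / the norm residue class).  For a character `χ` of `A`:

* `twPrimeSum N φ χ s = ∑' q, χ (φ q) N(q)^(-s)`,
* `logEuler N φ χ s = ∑' q, - log (1 - χ (φ q) N(q)^(-s))`,
* `twEuler N φ χ s = ∏' q, (1 - χ (φ q) N(q)^(-s))⁻¹ = exp (logEuler N φ χ s)`.

Main results, under the hypotheses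
(a) `twEuler N φ χ s` has a finite limit at `1+` for every `χ ≠ 1`,
(b) `∑' q, N(q)^(-s) = log (1/(s-1)) + O(1)` on `(1,2]`,
(c) `log (1/(s-1)) ≤ |A| ∑_{φ q = 1} N(q)^(-s) + O(1)` on `(1,2]`:

* `twEuler_limit_ne_zero` : the limits in (a) are nonzero;
* `exists_bound_twPrimeSum` : `twPrimeSum N φ χ s` is bounded on `(1,2]` for `χ ≠ 1`;
* `charSum_density` : for every `a : A`,
  `| |A| ∑_{φ q = a} N(q)^(-s) - log (1/(s-1)) | ≤ C` on `(1,2]`.

The only non-formal step is `exists_bound_of_tendsto_cexp`: a continuous function `f` on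
`(1, 1 + δ₀)` such that `exp ∘ f` tends to a nonzero limit at `1+` is bounded near `1`.
-/

set_option autoImplicit false
set_option linter.unusedSectionVars false
set_option linter.style.haveILetI false

namespace Fermat.Agent.T4.helper91

open Filter Topology

attribute [local instance] Classical.propDecidable

section branch

/-- A continuous real function on a preconnected set which avoids the points `π/2 + kπ`
oscillates by less than `π`. -/
theorem abs_sub_lt_pi_of_avoid_aux {S : Set ℝ} (hS : IsPreconnected S) {h : ℝ → ℝ}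
    (hc : ContinuousOn h S) (hav : ∀ s ∈ S, ∀ k : ℤ, h s ≠ Real.pi / 2 + k * Real.pi)
    {s t : ℝ} (hs : s ∈ S) (ht : t ∈ S) : h s - h t < Real.pi := by
  by_contra hcon
  have hcon' : Real.pi ≤ h s - h t := not_lt.mp hcon
  have hpi : 0 < Real.pi := Real.pi_pos
  have himg : IsPreconnected (h '' S) := hS.image h hc
  have hsub : Set.Icc (h t) (h s) ⊆ h '' S :=
    himg.Icc_subset (Set.mem_image_of_mem h ht) (Set.mem_image_of_mem h hs)
  set k : ℤ := ⌈(h t - Real.pi / 2) / Real.pi⌉ with hk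
  have hk1 : (h t - Real.pi / 2) / Real.pi ≤ (k : ℝ) := Int.le_ceil _
  have hk2 : (k : ℝ) < (h t - Real.pi / 2) / Real.pi + 1 := Int.ceil_lt_add_one _
  have hk1' : h t - Real.pi / 2 ≤ (k : ℝ) * Real.pi := by
    have := mul_le_mul_of_nonneg_right hk1 hpi.le
    rwa [div_mul_cancel₀ _ hpi.ne'] at this
  have hk2' : (k : ℝ) * Real.pi < h t - Real.pi / 2 + Real.pi := by
    have := mul_lt_mul_of_pos_right hk2 hpi
    rwa [add_mul, div_mul_cancel₀ _ hpi.ne', one_mul] at this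
  have hy : Real.pi / 2 + k * Real.pi ∈ Set.Icc (h t) (h s) := by
    constructor
    · linarith
    · linarith
  obtain ⟨u, hu, hueq⟩ := hsub hy
  exact hav u hu k hueq

theorem abs_sub_lt_pi_of_avoid {S : Set ℝ} (hS : IsPreconnected S) {h : ℝ → ℝ}
    (hc : ContinuousOn h S) (hav : ∀ s ∈ S, ∀ k : ℤ, h s ≠ Real.pi / 2 + k * Real.pi)
    {s t : ℝ} (hs : s ∈ S) (ht : t ∈ S) : |h s - h t| < Real.pi := by
  rcases le_total (h t) (h s) with hle | hle
  · rw [abs_of_nonneg (sub_nonneg.mpr hle)]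
    exact abs_sub_lt_pi_of_avoid_aux hS hc hav hs ht
  · rw [abs_sub_comm, abs_of_nonneg (sub_nonneg.mpr hle)]
    exact abs_sub_lt_pi_of_avoid_aux hS hc hav ht hs

/-- If `‖exp z - 1‖ < 1/2` then `|re z| ≤ 1` and `im z` is not of the form `π/2 + kπ`. -/
theorem re_im_of_norm_cexp_sub_one_lt {z : ℂ} (hz : ‖Complex.exp z - 1‖ < 1 / 2) :
    |z.re| ≤ 1 ∧ ∀ k : ℤ, z.im ≠ Real.pi / 2 + k * Real.pi := by
  have h1 : ‖Complex.exp z‖ < 3 / 2 := by
    have := norm_add_le (Complex.exp z - 1) 1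
    rw [sub_add_cancel, norm_one] at this
    linarith
  have h2 : 1 / 2 < ‖Complex.exp z‖ := by
    have := norm_sub_norm_le (1 : ℂ) (1 - Complex.exp z)
    rw [sub_sub_cancel, norm_one, norm_sub_rev] at this
    linarith
  rw [Complex.norm_exp] at h1 h2
  constructor
  · rw [abs_le]
    constructor
    · by_contra hcon
      have hlt : z.re < -1 := not_le.mp hcon
      have h3 : Real.exp z.re < Real.exp (-1) := Real.exp_lt_exp.mpr hlt
      have h4 : Real.exp (-1) ≤ 1 / 2 := by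
        rw [Real.exp_neg, inv_le_comm₀ (Real.exp_pos 1) (by norm_num)]
        have := Real.add_one_le_exp (1 : ℝ)
        linarith
      linarith
    · by_contra hcon
      have hlt : 1 < z.re := not_le.mp hcon
      have h3 := Real.add_one_le_exp z.re
      linarith
  · intro k hk
    have hre : (Complex.exp z).re = 0 := by
      rw [Complex.exp_re, hk]
      have : Real.cos (Real.pi / 2 + k * Real.pi) = 0 := by
        rw [Real.cos_eq_zero_iff]
        exact ⟨k, by ring⟩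
      rw [this, mul_zero]
    have h5 : |(Complex.exp z - 1).re| ≤ ‖Complex.exp z - 1‖ := Complex.abs_re_le_norm _
    rw [Complex.sub_re, hre, Complex.one_re, zero_sub, abs_neg, abs_one] at h5
    linarith

/-- **Branch lemma.** A continuous function `f` on `(1, 1 + δ₀)` such that `exp (f s)` has a
nonzero limit for `s → 1+` is bounded near `1`. -/
theorem exists_bound_of_tendsto_cexp {f : ℝ → ℂ} {δ₀ : ℝ} (hδ₀ : 0 < δ₀)
    (hf : ContinuousOn f (Set.Ioo 1 (1 + δ₀))) {ℓ : ℂ} (hℓ : ℓ ≠ 0)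
    (h : Tendsto (fun s => Complex.exp (f s)) (𝓝[>] 1) (𝓝 ℓ)) :
    ∃ δ : ℝ, 0 < δ ∧ ∃ C : ℝ, ∀ s : ℝ, 1 < s → s < 1 + δ → ‖f s‖ ≤ C := by
  set w : ℂ := Complex.log ℓ with hw
  have hexpw : Complex.exp w = ℓ := Complex.exp_log hℓ
  have h1 : Tendsto (fun s => Complex.exp (f s - w)) (𝓝[>] 1) (𝓝 1) := by
    have h2 : Tendsto (fun s => Complex.exp (f s) / ℓ) (𝓝[>] 1) (𝓝 (ℓ / ℓ)) :=
      h.div_const ℓ
    rw [div_self hℓ] at h2
    refine h2.congr fun s => ?_
    rw [Complex.exp_sub, hexpw]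
  have h3 : ∀ᶠ s in 𝓝[>] (1 : ℝ), ‖Complex.exp (f s - w) - 1‖ < 1 / 2 := by
    have := (Metric.tendsto_nhds.mp h1) (1 / 2) (by norm_num)
    simpa [dist_eq_norm] using this
  obtain ⟨u, hu1, hu⟩ := mem_nhdsGT_iff_exists_Ioo_subset.mp h3
  have hu1' : (1 : ℝ) < u := hu1
  set δ : ℝ := min δ₀ (u - 1) with hδ
  have hδpos : 0 < δ := lt_min hδ₀ (by linarith)
  have hδ1 : δ ≤ δ₀ := min_le_left _ _
  have hδ2 : δ ≤ u - 1 := min_le_right _ _
  have hgood : ∀ s : ℝ, 1 < s → s < 1 + δ → ‖Complex.exp (f s - w) - 1‖ < 1 / 2 := by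
    intro s hs1 hs2
    exact hu ⟨hs1, by linarith⟩
  have hS : IsPreconnected (Set.Ioo (1 : ℝ) (1 + δ)) := isPreconnected_Ioo
  have hcont : ContinuousOn (fun s => (f s - w).im) (Set.Ioo (1 : ℝ) (1 + δ)) := by
    have h4 : ContinuousOn f (Set.Ioo (1 : ℝ) (1 + δ)) :=
      hf.mono (Set.Ioo_subset_Ioo le_rfl (by linarith))
    exact Complex.continuous_im.comp_continuousOn (h4.sub continuousOn_const)
  have hav : ∀ s ∈ Set.Ioo (1 : ℝ) (1 + δ), ∀ k : ℤ,
      (fun s => (f s - w).im) s ≠ Real.pi / 2 + k * Real.pi := by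
    intro s hs k
    exact (re_im_of_norm_cexp_sub_one_lt (hgood s hs.1 hs.2)).2 k
  have hs₀ : (1 + δ / 2) ∈ Set.Ioo (1 : ℝ) (1 + δ) := ⟨by linarith, by linarith⟩
  refine ⟨δ, hδpos, 1 + (|(f (1 + δ / 2) - w).im| + Real.pi) + ‖w‖, fun s hs1 hs2 => ?_⟩
  have hsS : s ∈ Set.Ioo (1 : ℝ) (1 + δ) := ⟨hs1, hs2⟩
  have him := abs_sub_lt_pi_of_avoid hS hcont hav hsS hs₀
  have hre := (re_im_of_norm_cexp_sub_one_lt (hgood s hs1 hs2)).1
  have h5 : |(f s - w).im| ≤ |(f (1 + δ / 2) - w).im| + Real.pi := by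
    have h6 : |(f s - w).im| ≤ |(f s - w).im - (f (1 + δ / 2) - w).im| +
        |(f (1 + δ / 2) - w).im| := by
      have := abs_add_le ((f s - w).im - (f (1 + δ / 2) - w).im) ((f (1 + δ / 2) - w).im)
      rwa [sub_add_cancel] at this
    have him' : |(f s - w).im - (f (1 + δ / 2) - w).im| < Real.pi := him
    linarith
  have h7 : ‖f s - w‖ ≤ |(f s - w).re| + |(f s - w).im| := Complex.norm_le_abs_re_add_abs_im _
  have h8 : ‖f s‖ ≤ ‖f s - w‖ + ‖w‖ := by
    have := norm_add_le (f s - w) w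
    rwa [sub_add_cancel] at this
  linarith

end branch

section charsum

variable {P : Type*} {A : Type*} [CommGroup A] [Finite A]

/-- The twisted term `χ (φ q) N(q)^(-s)`. -/
noncomputable def ctermZ (N : P → ℝ) (φ : P → A) (χ : MulChar A ℂ) (s : ℝ) (q : P) : ℂ :=
  χ (φ q) * ((N q ^ (-s) : ℝ) : ℂ)

/-- The twisted prime sum `∑' q, χ (φ q) N(q)^(-s)`. -/
noncomputable def twPrimeSum (N : P → ℝ) (φ : P → A) (χ : MulChar A ℂ) (s : ℝ) : ℂ :=
  ∑' q, ctermZ N φ χ s q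

/-- The logarithm of the twisted Euler product, `∑' q, - log (1 - χ (φ q) N(q)^(-s))`. -/
noncomputable def logEuler (N : P → ℝ) (φ : P → A) (χ : MulChar A ℂ) (s : ℝ) : ℂ :=
  ∑' q, -Complex.log (1 - ctermZ N φ χ s q)

/-- The twisted Euler product `∏' q, (1 - χ (φ q) N(q)^(-s))⁻¹`. -/
noncomputable def twEuler (N : P → ℝ) (φ : P → A) (χ : MulChar A ℂ) (s : ℝ) : ℂ :=
  ∏' q, (1 - ctermZ N φ χ s q)⁻¹

/-- The sum of `N(q)^(-s)` over the class `φ q = a`. -/
noncomputable def classSum (N : P → ℝ) (φ : P → A) (a : A) (s : ℝ) : ℝ :=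
  ∑' q, Set.indicator {q : P | φ q = a} (fun q => N q ^ (-s)) q

theorem norm_mulChar_apply (χ : MulChar A ℂ) (a : A) : ‖χ a‖ = 1 := by
  have h1 : (χ a) ^ (Nat.card A) = 1 := by
    rw [← map_pow, pow_card_eq_one', map_one]
  exact Complex.norm_eq_one_of_pow_eq_one h1 Nat.card_pos.ne'

theorem mulChar_inv_apply_eq (χ : MulChar A ℂ) (a : A) : χ a⁻¹ = (χ a)⁻¹ := by
  have h1 : χ a * χ a⁻¹ = 1 := by rw [← map_mul, mul_inv_cancel, map_one]
  exact eq_inv_of_mul_eq_one_right h1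

section basic

variable (N : P → ℝ) (hN : ∀ q, 2 ≤ N q) (φ : P → A) (χ : MulChar A ℂ)

include hN in
theorem rpow_neg_pos_aux (s : ℝ) (q : P) : 0 < N q ^ (-s) :=
  Real.rpow_pos_of_pos (by linarith [hN q]) _

include hN in
theorem rpow_neg_anti_aux {s t : ℝ} (hst : s ≤ t) (q : P) : N q ^ (-t) ≤ N q ^ (-s) :=
  Real.rpow_le_rpow_of_exponent_le (by linarith [hN q]) (by linarith)

include hN in
theorem rpow_neg_le_half_aux {s : ℝ} (hs : 1 ≤ s) (q : P) : N q ^ (-s) ≤ 1 / 2 := by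
  have h1 : N q ^ (-s) ≤ N q ^ (-(1 : ℝ)) := rpow_neg_anti_aux N hN hs q
  have h2 : N q ^ (-(1 : ℝ)) = (N q)⁻¹ := Real.rpow_neg_one _
  have h3 : (N q)⁻¹ ≤ 1 / 2 := by
    rw [one_div]
    exact inv_anti₀ (by norm_num) (hN q)
  linarith

include hN in
theorem norm_ctermZ (s : ℝ) (q : P) : ‖ctermZ N φ χ s q‖ = N q ^ (-s) := by
  unfold ctermZ
  rw [norm_mul, norm_mulChar_apply, one_mul, Complex.norm_real, Real.norm_eq_abs,
    abs_of_pos (rpow_neg_pos_aux N hN s q)]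

include hN in
theorem norm_ctermZ_le_half {s : ℝ} (hs : 1 ≤ s) (q : P) : ‖ctermZ N φ χ s q‖ ≤ 1 / 2 := by
  rw [norm_ctermZ N hN]
  exact rpow_neg_le_half_aux N hN hs q

include hN in
theorem summable_ctermZ {s : ℝ} (hsum : Summable fun q => N q ^ (-s)) :
    Summable (ctermZ N φ χ s) := by
  refine Summable.of_norm ?_
  simp only [norm_ctermZ N hN]
  exact hsum

theorem norm_neg_log_one_sub_le {z : ℂ} (hz : ‖z‖ ≤ 1 / 2) :
    ‖-Complex.log (1 - z)‖ ≤ 3 / 2 * ‖z‖ := by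
  have h1 : ‖-z‖ ≤ 1 / 2 := by rwa [norm_neg]
  have h2 := Complex.norm_log_one_add_half_le_self h1
  rw [norm_neg] at h2 ⊢
  rwa [← sub_eq_add_neg] at h2

theorem norm_neg_log_one_sub_sub_le {z : ℂ} (hz : ‖z‖ ≤ 1 / 2) :
    ‖-Complex.log (1 - z) - z‖ ≤ ‖z‖ ^ 2 := by
  have h1 : ‖-z‖ < 1 := by rw [norm_neg]; linarith
  have h2 := Complex.norm_log_one_add_sub_self_le h1
  rw [norm_neg, ← sub_eq_add_neg] at h2
  have h3 : -Complex.log (1 - z) - z = -(Complex.log (1 - z) - -z) := by ring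
  rw [h3, norm_neg]
  refine h2.trans ?_
  have h4 : (1 - ‖z‖)⁻¹ ≤ 2 := by
    rw [inv_le_comm₀ (by linarith) (by norm_num)]
    linarith
  have h5 : 0 ≤ ‖z‖ ^ 2 := by positivity
  calc ‖z‖ ^ 2 * (1 - ‖z‖)⁻¹ / 2 ≤ ‖z‖ ^ 2 * 2 / 2 := by
        apply div_le_div_of_nonneg_right _ (by norm_num)
        exact mul_le_mul_of_nonneg_left h4 h5
    _ = ‖z‖ ^ 2 := by ring

include hN in
theorem summable_logTerm {s : ℝ} (hs : 1 ≤ s) (hsum : Summable fun q => N q ^ (-s)) :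
    Summable fun q => -Complex.log (1 - ctermZ N φ χ s q) := by
  refine Summable.of_norm_bounded (hsum.mul_left (3 / 2)) fun q => ?_
  have := norm_neg_log_one_sub_le (norm_ctermZ_le_half N hN φ χ hs q)
  rwa [norm_ctermZ N hN] at this

include hN in
theorem one_sub_ctermZ_re_pos {s : ℝ} (hs : 1 ≤ s) (q : P) :
    0 < (1 - ctermZ N φ χ s q).re := by
  have h1 : |(ctermZ N φ χ s q).re| ≤ ‖ctermZ N φ χ s q‖ := Complex.abs_re_le_norm _
  have h2 := norm_ctermZ_le_half N hN φ χ hs q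
  have h3 := abs_le.mp (h1.trans h2)
  rw [Complex.sub_re, Complex.one_re]
  linarith [h3.2]

include hN in
/-- `exp (logEuler) = twEuler`. -/
theorem cexp_logEuler {s : ℝ} (hs : 1 ≤ s) (hsum : Summable fun q => N q ^ (-s)) :
    Complex.exp (logEuler N φ χ s) = twEuler N φ χ s := by
  unfold logEuler twEuler
  have hne : ∀ q, (1 - ctermZ N φ χ s q)⁻¹ ≠ 0 := by
    intro q
    apply inv_ne_zero
    intro h0
    have := one_sub_ctermZ_re_pos N hN φ χ hs q
    rw [h0, Complex.zero_re] at this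
    exact lt_irrefl _ this
  have hlog : ∀ q, Complex.log ((1 - ctermZ N φ χ s q)⁻¹) =
      -Complex.log (1 - ctermZ N φ χ s q) := by
    intro q
    apply Complex.log_inv
    intro harg
    have h1 := one_sub_ctermZ_re_pos N hN φ χ hs q
    have h2 : (1 - ctermZ N φ χ s q).re < 0 := by
      have h3 := (Complex.arg_eq_pi_iff).mp harg
      exact h3.1
    linarith
  have hs' : Summable fun q => Complex.log ((1 - ctermZ N φ χ s q)⁻¹) := by
    simp only [hlog]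
    exact summable_logTerm N hN φ χ hs hsum
  have := Complex.cexp_tsum_eq_tprod hne hs'
  simp only [hlog] at this
  exact this

include hN in
theorem norm_twEuler {s : ℝ} (hs : 1 ≤ s) (hsum : Summable fun q => N q ^ (-s)) :
    ‖twEuler N φ χ s‖ = Real.exp (logEuler N φ χ s).re := by
  rw [← cexp_logEuler N hN φ χ hs hsum, Complex.norm_exp]

end basic

end charsum

section estimates

variable {P : Type*} {A : Type*} [CommGroup A] [Finite A]
variable (N : P → ℝ) (hN : ∀ q, 2 ≤ N q) (φ : P → A) (χ : MulChar A ℂ)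

/-- The constant `∑' q, N(q)^(-2)`. -/
noncomputable def sqConst (N : P → ℝ) : ℝ := ∑' q, N q ^ (-(2 : ℝ))

include hN in
theorem sq_rpow_neg_le_aux {s : ℝ} (hs : 1 ≤ s) (q : P) :
    (N q ^ (-s)) ^ 2 ≤ N q ^ (-(2 : ℝ)) := by
  have h0 : (0 : ℝ) ≤ N q := by linarith [hN q]
  have h1 : (N q ^ (-s)) ^ 2 = N q ^ (-(2 * s)) := by
    rw [← Real.rpow_natCast, ← Real.rpow_mul h0]
    congr 1
    push_cast
    ring
  rw [h1]
  exact rpow_neg_anti_aux N hN (by linarith) q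

include hN in
theorem norm_logEuler_sub_twPrimeSum_le {s : ℝ} (hs : 1 ≤ s)
    (hsum : Summable fun q => N q ^ (-s)) (hsum2 : Summable fun q => N q ^ (-(2 : ℝ))) :
    ‖logEuler N φ χ s - twPrimeSum N φ χ s‖ ≤ sqConst N := by
  unfold logEuler twPrimeSum sqConst
  rw [← (summable_logTerm N hN φ χ hs hsum).tsum_sub (summable_ctermZ N hN φ χ hsum)]
  refine tsum_of_norm_bounded hsum2.hasSum fun q => ?_
  have h1 := norm_neg_log_one_sub_sub_le (norm_ctermZ_le_half N hN φ χ hs q)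
  rw [norm_ctermZ N hN] at h1
  exact h1.trans (sq_rpow_neg_le_aux N hN hs q)

include hN in
theorem continuousOn_logEuler (hsum : ∀ s : ℝ, 1 < s → Summable fun q => N q ^ (-s)) :
    ContinuousOn (fun s => logEuler N φ χ s) (Set.Ioi 1) := by
  rw [isOpen_Ioi.continuousOn_iff]
  intro s₀ hs₀
  have hs₀' : (1 : ℝ) < s₀ := hs₀
  set η : ℝ := (1 + s₀) / 2 with hη
  have hη1 : 1 < η := by rw [hη]; linarith
  have hη2 : η < s₀ := by rw [hη]; linarith
  have hcont : ContinuousOn (fun s => logEuler N φ χ s) (Set.Ici η) := by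
    unfold logEuler
    refine continuousOn_tsum (u := fun q => 3 / 2 * N q ^ (-η)) (fun q => ?_)
      ((hsum η hη1).mul_left _) (fun q s hs => ?_)
    · refine ContinuousOn.neg (ContinuousOn.clog ?_ ?_)
      · refine continuousOn_const.sub ?_
        unfold ctermZ
        refine continuousOn_const.mul ?_
        refine Complex.continuous_ofReal.comp_continuousOn ?_
        have h1 : Continuous fun s : ℝ => N q ^ s :=
          Real.continuous_const_rpow (by linarith [hN q])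
        exact (h1.comp continuous_neg).continuousOn
      · intro s hs
        have hs1 : (1 : ℝ) ≤ s := hη1.le.trans hs
        exact Complex.mem_slitPlane_iff.mpr (Or.inl (one_sub_ctermZ_re_pos N hN φ χ hs1 q))
    · have hs' : η ≤ s := hs
      have hs1 : (1 : ℝ) ≤ s := hη1.le.trans hs'
      have h1 := norm_neg_log_one_sub_le (norm_ctermZ_le_half N hN φ χ hs1 q)
      rw [norm_ctermZ N hN] at h1
      have h2 := rpow_neg_anti_aux N hN hs' q
      linarith
  exact hcont.continuousAt (Ici_mem_nhds hη2)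

theorem sum_mulChar_apply [Fintype (MulChar A ℂ)] (c : A) :
    ∑ χ : MulChar A ℂ, χ c = if c = 1 then (Nat.card A : ℂ) else 0 := by
  split_ifs with hc
  · subst hc
    simp only [map_one, Finset.sum_const, Finset.card_univ, nsmul_eq_mul, mul_one]
    rw [← Nat.card_eq_fintype_card, MulChar.card_eq_card_units_of_hasEnoughRootsOfUnity A ℂ,
      Nat.card_congr (toUnits (G := A)).symm.toEquiv]
  · obtain ⟨χ₀, hχ₀⟩ := MulChar.exists_apply_ne_one_of_hasEnoughRootsOfUnity A ℂ hc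
    refine eq_zero_of_mul_eq_self_left hχ₀ ?_
    simp only [Finset.mul_sum, ← MulChar.mul_apply]
    exact Fintype.sum_bijective _ (Group.mulLeft_bijective χ₀) _ _ fun χ' => rfl

theorem summable_indicator_aux (a : A) {s : ℝ} (hsum : Summable fun q => N q ^ (-s)) :
    Summable fun q => Set.indicator {q : P | φ q = a} (fun q => N q ^ (-s)) q :=
  hsum.indicator _

include hN in
/-- Orthogonality: `∑_χ χ(a)⁻¹ P_χ(s) = |A| ∑_{φ q = a} N(q)^(-s)`. -/
theorem sum_inv_mul_twPrimeSum [Fintype (MulChar A ℂ)] {s : ℝ}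
    (hsum : Summable fun q => N q ^ (-s)) (a : A) :
    ∑ χ : MulChar A ℂ, (χ a)⁻¹ * twPrimeSum N φ χ s =
      (Nat.card A : ℂ) * ((classSum N φ a s : ℝ) : ℂ) := by
  unfold twPrimeSum classSum
  have h1 : ∀ χ : MulChar A ℂ, (χ a)⁻¹ * ∑' q, ctermZ N φ χ s q =
      ∑' q, (χ a)⁻¹ * ctermZ N φ χ s q := fun χ => tsum_mul_left.symm
  simp only [h1]
  rw [← Summable.tsum_finsetSum
    (fun χ _ => (summable_ctermZ N hN φ χ hsum).mul_left _)]
  rw [Complex.ofReal_tsum, ← tsum_mul_left]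
  refine tsum_congr fun q => ?_
  have h2 : ∀ χ : MulChar A ℂ, (χ a)⁻¹ * ctermZ N φ χ s q =
      χ (a⁻¹ * φ q) * ((N q ^ (-s) : ℝ) : ℂ) := by
    intro χ
    unfold ctermZ
    rw [map_mul, mulChar_inv_apply_eq, mul_assoc]
  simp only [h2]
  rw [← Finset.sum_mul, sum_mulChar_apply]
  by_cases hq : φ q = a
  · have h3 : a⁻¹ * φ q = 1 := by rw [hq, inv_mul_cancel]
    have h4 : q ∈ {q : P | φ q = a} := hq
    rw [if_pos h3, Set.indicator_of_mem h4]
  · have h3 : a⁻¹ * φ q ≠ 1 := by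
      intro h
      apply hq
      have := congrArg (fun x => a * x) h
      simpa using this
    have h4 : q ∉ {q : P | φ q = a} := hq
    rw [if_neg h3, Set.indicator_of_notMem h4]
    simp

theorem twPrimeSum_one {s : ℝ} :
    twPrimeSum N φ (1 : MulChar A ℂ) s = ((∑' q, N q ^ (-s) : ℝ) : ℂ) := by
  unfold twPrimeSum ctermZ
  rw [Complex.ofReal_tsum]
  refine tsum_congr fun q => ?_
  rw [MulChar.one_apply (Group.isUnit _), one_mul]

end estimates

section main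

variable {P : Type*} {A : Type*} [CommGroup A] [Finite A]
variable (N : P → ℝ) (hN : ∀ q, 2 ≤ N q) (φ : P → A)
  (hsum : ∀ s : ℝ, 1 < s → Summable fun q => N q ^ (-s))

include hN hsum in
/-- Step 1: the sum of `re (logEuler χ)` over the nontrivial characters is bounded below. -/
theorem exists_lower_bound_sum_re_logEuler [Fintype (MulChar A ℂ)]
    (hb : ∃ C : ℝ, ∀ s : ℝ, 1 < s → s ≤ 2 →
      |∑' q, N q ^ (-s) - Real.log (1 / (s - 1))| ≤ C)
    (hc : ∃ C : ℝ, ∀ s : ℝ, 1 < s → s ≤ 2 →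
      Real.log (1 / (s - 1)) ≤ Nat.card A * classSum N φ 1 s + C) :
    ∃ C : ℝ, ∀ s : ℝ, 1 < s → s ≤ 2 →
      -C ≤ ∑ χ ∈ Finset.univ.erase (1 : MulChar A ℂ), (logEuler N φ χ s).re := by
  obtain ⟨Cb, hCb⟩ := hb
  obtain ⟨Cc, hCc⟩ := hc
  have hsum2 : Summable fun q => N q ^ (-(2 : ℝ)) := hsum 2 (by norm_num)
  have hsq : 0 ≤ sqConst N := tsum_nonneg fun q => (rpow_neg_pos_aux N hN _ q).le
  refine ⟨Cb + Cc + (Finset.univ.erase (1 : MulChar A ℂ)).card * sqConst N,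
    fun s hs1 hs2 => ?_⟩
  have hs := hsum s hs1
  have hkey := sum_inv_mul_twPrimeSum N hN φ hs (1 : A)
  have h1 : ∀ χ : MulChar A ℂ, (χ (1 : A))⁻¹ * twPrimeSum N φ χ s = twPrimeSum N φ χ s := by
    intro χ
    rw [map_one, inv_one, one_mul]
  simp only [h1] at hkey
  rw [← Finset.add_sum_erase _ _ (Finset.mem_univ (1 : MulChar A ℂ)), twPrimeSum_one] at hkey
  have hre := congrArg Complex.re hkey
  rw [Complex.add_re, Complex.ofReal_re, Complex.re_sum, ← Complex.ofReal_natCast,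
    ← Complex.ofReal_mul, Complex.ofReal_re] at hre
  have h2 : ∀ χ : MulChar A ℂ, (twPrimeSum N φ χ s).re - sqConst N ≤ (logEuler N φ χ s).re := by
    intro χ
    have h3 := norm_logEuler_sub_twPrimeSum_le N hN φ χ hs1.le hs hsum2
    have h4 : |(logEuler N φ χ s - twPrimeSum N φ χ s).re| ≤
        ‖logEuler N φ χ s - twPrimeSum N φ χ s‖ := Complex.abs_re_le_norm _
    have h5 := (abs_le.mp (h4.trans h3)).1
    rw [Complex.sub_re] at h5
    linarith
  have h6 : ∑ χ ∈ Finset.univ.erase (1 : MulChar A ℂ), ((twPrimeSum N φ χ s).re - sqConst N) ≤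
      ∑ χ ∈ Finset.univ.erase (1 : MulChar A ℂ), (logEuler N φ χ s).re :=
    Finset.sum_le_sum fun χ _ => h2 χ
  rw [Finset.sum_sub_distrib, Finset.sum_const, nsmul_eq_mul] at h6
  have h7 := hCc s hs1 hs2
  have h8 := (abs_le.mp (hCb s hs1 hs2)).2
  linarith

include hN hsum in
/-- Step 2: the limits of the twisted Euler products at `1+` are nonzero. -/
theorem twEuler_limit_ne_zero
    (hb : ∃ C : ℝ, ∀ s : ℝ, 1 < s → s ≤ 2 →
      |∑' q, N q ^ (-s) - Real.log (1 / (s - 1))| ≤ C)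
    (hc : ∃ C : ℝ, ∀ s : ℝ, 1 < s → s ≤ 2 →
      Real.log (1 / (s - 1)) ≤ Nat.card A * classSum N φ 1 s + C)
    (ℓ : MulChar A ℂ → ℂ)
    (ha : ∀ χ : MulChar A ℂ, χ ≠ 1 →
      Tendsto (fun s : ℝ => twEuler N φ χ s) (𝓝[>] 1) (𝓝 (ℓ χ)))
    {χ₀ : MulChar A ℂ} (hχ₀ : χ₀ ≠ 1) : ℓ χ₀ ≠ 0 := by
  letI : Fintype (MulChar A ℂ) := Fintype.ofFinite _
  obtain ⟨C, hC⟩ := exists_lower_bound_sum_re_logEuler N hN φ hsum hb hc
  have ev1 : ∀ᶠ s in 𝓝[>] (1 : ℝ), ∀ χ : MulChar A ℂ, χ ≠ 1 →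
      ‖twEuler N φ χ s‖ ≤ ‖ℓ χ‖ + 1 := by
    rw [Filter.eventually_all]
    intro χ
    by_cases hχ : χ = 1
    · exact Filter.Eventually.of_forall fun s h => absurd hχ h
    · have h1 : Tendsto (fun s : ℝ => ‖twEuler N φ χ s‖) (𝓝[>] 1) (𝓝 ‖ℓ χ‖) := (ha χ hχ).norm
      have h2 : ‖ℓ χ‖ < ‖ℓ χ‖ + 1 := by linarith
      filter_upwards [h1.eventually_lt_const h2] with s hs _
      exact hs.le
  have ev2 : ∀ᶠ s in 𝓝[>] (1 : ℝ), s ∈ Set.Ioc (1 : ℝ) 2 := Ioc_mem_nhdsGT (by norm_num)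
  set U : MulChar A ℂ → ℝ := fun χ => Real.log (‖ℓ χ‖ + 1) with hU
  have hUnn : ∀ χ, 0 ≤ U χ := fun χ => Real.log_nonneg (by
    have := norm_nonneg (ℓ χ)
    linarith)
  set M : ℝ := C + ∑ χ : MulChar A ℂ, U χ with hM
  have ev3 : ∀ᶠ s in 𝓝[>] (1 : ℝ), Real.exp (-M) ≤ ‖twEuler N φ χ₀ s‖ := by
    filter_upwards [ev1, ev2] with s hs1 hs2
    have hs := hsum s hs2.1
    have hup : ∀ χ : MulChar A ℂ, χ ≠ 1 → (logEuler N φ χ s).re ≤ U χ := by
      intro χ hχ
      have h1 := hs1 χ hχ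
      rw [norm_twEuler N hN φ χ hs2.1.le hs] at h1
      have h2 : 0 < ‖ℓ χ‖ + 1 := by
        have := norm_nonneg (ℓ χ)
        linarith
      rw [hU]
      simp only
      rwa [Real.le_log_iff_exp_le h2]
    have hmem : χ₀ ∈ Finset.univ.erase (1 : MulChar A ℂ) :=
      Finset.mem_erase.mpr ⟨hχ₀, Finset.mem_univ _⟩
    have h3 := hC s hs2.1 hs2.2
    rw [← Finset.add_sum_erase _ _ hmem] at h3
    have h4 : ∑ χ ∈ (Finset.univ.erase (1 : MulChar A ℂ)).erase χ₀, (logEuler N φ χ s).re ≤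
        ∑ χ ∈ (Finset.univ.erase (1 : MulChar A ℂ)).erase χ₀, U χ :=
      Finset.sum_le_sum fun χ hχ => hup χ (Finset.mem_erase.mp (Finset.mem_erase.mp hχ).2).1
    have h5 : ∑ χ ∈ (Finset.univ.erase (1 : MulChar A ℂ)).erase χ₀, U χ ≤
        ∑ χ : MulChar A ℂ, U χ :=
      Finset.sum_le_sum_of_subset_of_nonneg (Finset.subset_univ _) fun χ _ _ => hUnn χ
    rw [norm_twEuler N hN φ χ₀ hs2.1.le hs]
    apply Real.exp_le_exp.mpr
    rw [hM]
    linarith
  have hlim : Tendsto (fun s : ℝ => ‖twEuler N φ χ₀ s‖) (𝓝[>] 1) (𝓝 ‖ℓ χ₀‖) :=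
    (ha χ₀ hχ₀).norm
  have hge : Real.exp (-M) ≤ ‖ℓ χ₀‖ := ge_of_tendsto hlim ev3
  intro h0
  rw [h0, norm_zero] at hge
  exact absurd (Real.exp_pos (-M)) (not_lt.mpr hge)

include hN hsum in
/-- Step 3: the twisted prime sum of a character whose Euler product has a nonzero limit at `1+`
is bounded on `(1,2]`. -/
theorem exists_bound_twPrimeSum_of_ne_zero {χ : MulChar A ℂ} {ℓ : ℂ} (hℓ : ℓ ≠ 0)
    (ha : Tendsto (fun s : ℝ => twEuler N φ χ s) (𝓝[>] 1) (𝓝 ℓ)) :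
    ∃ B : ℝ, ∀ s : ℝ, 1 < s → s ≤ 2 → ‖twPrimeSum N φ χ s‖ ≤ B := by
  have hsum2 : Summable fun q => N q ^ (-(2 : ℝ)) := hsum 2 (by norm_num)
  have hcont : ContinuousOn (fun s => logEuler N φ χ s) (Set.Ioo 1 (1 + 1)) :=
    (continuousOn_logEuler N hN φ χ hsum).mono Set.Ioo_subset_Ioi_self
  have htend : Tendsto (fun s : ℝ => Complex.exp (logEuler N φ χ s)) (𝓝[>] 1) (𝓝 ℓ) := by
    refine ha.congr' ?_
    filter_upwards [eventually_mem_nhdsWithin] with s hs
    have hs' : (1 : ℝ) < s := hs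
    exact (cexp_logEuler N hN φ χ hs'.le (hsum s hs')).symm
  obtain ⟨δ, hδ, C, hC⟩ := exists_bound_of_tendsto_cexp one_pos hcont hℓ htend
  refine ⟨max (C + sqConst N) (∑' q, N q ^ (-(1 + δ))), fun s hs1 hs2 => ?_⟩
  have hs := hsum s hs1
  rcases lt_or_ge s (1 + δ) with hlt | hge
  · refine le_max_of_le_left ?_
    have h1 := norm_logEuler_sub_twPrimeSum_le N hN φ χ hs1.le hs hsum2
    have h2 := hC s hs1 hlt
    have h3 : ‖twPrimeSum N φ χ s‖ ≤ ‖logEuler N φ χ s‖ +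
        ‖logEuler N φ χ s - twPrimeSum N φ χ s‖ := by
      have := norm_sub_le (logEuler N φ χ s) (logEuler N φ χ s - twPrimeSum N φ χ s)
      rwa [sub_sub_cancel] at this
    linarith
  · refine le_max_of_le_right ?_
    have hsδ := hsum (1 + δ) (by linarith)
    unfold twPrimeSum
    have h1 : ‖∑' q, ctermZ N φ χ s q‖ ≤ ∑' q, ‖ctermZ N φ χ s q‖ := by
      apply norm_tsum_le_tsum_norm
      simp only [norm_ctermZ N hN]
      exact hs
    simp only [norm_ctermZ N hN] at h1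
    refine h1.trans ?_
    exact hs.tsum_le_tsum (fun q => rpow_neg_anti_aux N hN hge q) hsδ

include hN hsum in
/-- Step 3': under (a), (b), (c) the twisted prime sums of the nontrivial characters are bounded
on `(1,2]`. -/
theorem exists_bound_twPrimeSum
    (ha : ∀ χ : MulChar A ℂ, χ ≠ 1 → ∃ ℓ : ℂ,
      Tendsto (fun s : ℝ => twEuler N φ χ s) (𝓝[>] 1) (𝓝 ℓ))
    (hb : ∃ C : ℝ, ∀ s : ℝ, 1 < s → s ≤ 2 →
      |∑' q, N q ^ (-s) - Real.log (1 / (s - 1))| ≤ C)
    (hc : ∃ C : ℝ, ∀ s : ℝ, 1 < s → s ≤ 2 →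
      Real.log (1 / (s - 1)) ≤ Nat.card A * classSum N φ 1 s + C)
    {χ : MulChar A ℂ} (hχ : χ ≠ 1) :
    ∃ B : ℝ, ∀ s : ℝ, 1 < s → s ≤ 2 → ‖twPrimeSum N φ χ s‖ ≤ B := by
  set ℓ : MulChar A ℂ → ℂ := fun χ => if h : χ ≠ 1 then (ha χ h).choose else 0 with hℓ
  have hℓ' : ∀ χ : MulChar A ℂ, χ ≠ 1 →
      Tendsto (fun s : ℝ => twEuler N φ χ s) (𝓝[>] 1) (𝓝 (ℓ χ)) := by
    intro χ h
    rw [hℓ]
    simp only [dif_pos h]
    exact (ha χ h).choose_spec
  exact exists_bound_twPrimeSum_of_ne_zero N hN φ hsum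
    (twEuler_limit_ne_zero N hN φ hsum hb hc ℓ hℓ' hχ) (hℓ' χ hχ)

include hN hsum in
/-- **Equidistribution from finite limits of the twisted Euler products.**
Under (a) finite limits at `1+` of the twisted Euler products of the nontrivial characters,
(b) total mass `log (1/(s-1)) + O(1)`, (c) the lower bound for the trivial class, every class
`φ q = a` has mass `(1/|A|) log (1/(s-1)) + O(1)` on `(1,2]`. -/
theorem charSum_density
    (ha : ∀ χ : MulChar A ℂ, χ ≠ 1 → ∃ ℓ : ℂ,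
      Tendsto (fun s : ℝ => twEuler N φ χ s) (𝓝[>] 1) (𝓝 ℓ))
    (hb : ∃ C : ℝ, ∀ s : ℝ, 1 < s → s ≤ 2 →
      |∑' q, N q ^ (-s) - Real.log (1 / (s - 1))| ≤ C)
    (hc : ∃ C : ℝ, ∀ s : ℝ, 1 < s → s ≤ 2 →
      Real.log (1 / (s - 1)) ≤ Nat.card A * classSum N φ 1 s + C)
    (a : A) :
    ∃ C : ℝ, ∀ s : ℝ, 1 < s → s ≤ 2 →
      |Nat.card A * classSum N φ a s - Real.log (1 / (s - 1))| ≤ C := by
  letI : Fintype (MulChar A ℂ) := Fintype.ofFinite _
  have hB : ∀ χ : MulChar A ℂ, ∃ B : ℝ, χ ≠ 1 →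
      ∀ s : ℝ, 1 < s → s ≤ 2 → ‖twPrimeSum N φ χ s‖ ≤ B := by
    intro χ
    by_cases hχ : χ = 1
    · exact ⟨0, fun h => absurd hχ h⟩
    · obtain ⟨B, hB⟩ := exists_bound_twPrimeSum N hN φ hsum ha hb hc hχ
      exact ⟨B, fun _ => hB⟩
  choose B hB using hB
  obtain ⟨Cb, hCb⟩ := hb
  refine ⟨Cb + ∑ χ ∈ Finset.univ.erase (1 : MulChar A ℂ), B χ, fun s hs1 hs2 => ?_⟩
  have hs := hsum s hs1
  have hkey := sum_inv_mul_twPrimeSum N hN φ hs a
  rw [← Finset.add_sum_erase _ _ (Finset.mem_univ (1 : MulChar A ℂ)), twPrimeSum_one,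
    MulChar.one_apply (Group.isUnit a), inv_one, one_mul] at hkey
  have h1 : ((Nat.card A * classSum N φ a s - ∑' q, N q ^ (-s) : ℝ) : ℂ) =
      ∑ χ ∈ Finset.univ.erase (1 : MulChar A ℂ), (χ a)⁻¹ * twPrimeSum N φ χ s := by
    rw [Complex.ofReal_sub, Complex.ofReal_mul, Complex.ofReal_natCast, ← hkey]
    ring
  have h2 : |Nat.card A * classSum N φ a s - ∑' q, N q ^ (-s)| ≤
      ∑ χ ∈ Finset.univ.erase (1 : MulChar A ℂ), B χ := by
    rw [← Real.norm_eq_abs, ← Complex.norm_real, h1]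
    refine (norm_sum_le _ _).trans (Finset.sum_le_sum fun χ hχ => ?_)
    rw [norm_mul, norm_inv, norm_mulChar_apply, inv_one, one_mul]
    exact hB χ (Finset.mem_erase.mp hχ).1 s hs1 hs2
  have h3 := hCb s hs1 hs2
  have h4 : Nat.card A * classSum N φ a s - Real.log (1 / (s - 1)) =
      (Nat.card A * classSum N φ a s - ∑' q, N q ^ (-s)) +
        (∑' q, N q ^ (-s) - Real.log (1 / (s - 1))) := by ring
  rw [h4]
  exact (abs_add_le _ _).trans (by linarith)

end main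

section corollaries

variable {P : Type*} {A : Type*} [CommGroup A] [Finite A]
variable (N : P → ℝ) (hN : ∀ q, 2 ≤ N q) (φ : P → A)
  (hsum : ∀ s : ℝ, 1 < s → Summable fun q => N q ^ (-s))

/-- `log (1/(s-1))` is at least `M` for `s` close to `1`. -/
theorem le_log_one_div_sub_one (M : ℝ) :
    ∃ δ : ℝ, 0 < δ ∧ ∀ s : ℝ, 1 < s → s < 1 + δ → M ≤ Real.log (1 / (s - 1)) := by
  refine ⟨Real.exp (-M), Real.exp_pos _, fun s hs1 hs2 => ?_⟩
  have h1 : 0 < s - 1 := by linarith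
  have h2 : s - 1 < Real.exp (-M) := by linarith
  rw [one_div, Real.log_inv]
  have h3 : Real.log (s - 1) < -M := by
    rw [Real.log_lt_iff_lt_exp h1]
    exact h2
  linarith

include hN hsum in
/-- **Density form.** Under (a), (b), (c) every class has Dirichlet density `1/|A|`:
for every `ε > 0` the class sum lies between `(1/|A| ∓ ε) log (1/(s-1))` for `s` close to `1`. -/
theorem charSum_density_eps
    (ha : ∀ χ : MulChar A ℂ, χ ≠ 1 → ∃ ℓ : ℂ,
      Tendsto (fun s : ℝ => twEuler N φ χ s) (𝓝[>] 1) (𝓝 ℓ))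
    (hb : ∃ C : ℝ, ∀ s : ℝ, 1 < s → s ≤ 2 →
      |∑' q, N q ^ (-s) - Real.log (1 / (s - 1))| ≤ C)
    (hc : ∃ C : ℝ, ∀ s : ℝ, 1 < s → s ≤ 2 →
      Real.log (1 / (s - 1)) ≤ Nat.card A * classSum N φ 1 s + C)
    (a : A) (ε : ℝ) (hε : 0 < ε) :
    ∃ δ : ℝ, 0 < δ ∧ ∀ s : ℝ, 1 < s → s < 1 + δ →
      (1 / (Nat.card A : ℝ) - ε) * Real.log (1 / (s - 1)) ≤ classSum N φ a s ∧
      classSum N φ a s ≤ (1 / (Nat.card A : ℝ) + ε) * Real.log (1 / (s - 1)) := by
  obtain ⟨C, hC⟩ := charSum_density N hN φ hsum ha hb hc a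
  have hA : (0 : ℝ) < Nat.card A := Nat.cast_pos.mpr Nat.card_pos
  obtain ⟨δ, hδ, hlog⟩ := le_log_one_div_sub_one (|C| / (Nat.card A * ε))
  refine ⟨min δ 1, lt_min hδ one_pos, fun s hs1 hs2 => ?_⟩
  have hs3 : s < 1 + δ := lt_of_lt_of_le hs2 (by linarith [min_le_left δ 1])
  have hs4 : s ≤ 2 := by linarith [min_le_right δ 1]
  have h1 := abs_le.mp (hC s hs1 hs4)
  have h2 := hlog s hs1 hs3
  have h3 : |C| ≤ Nat.card A * ε * Real.log (1 / (s - 1)) := by
    have := (div_le_iff₀ (mul_pos hA hε)).mp h2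
    linarith
  have h4 : C ≤ |C| := le_abs_self C
  have hAne : (Nat.card A : ℝ) ≠ 0 := hA.ne'
  constructor
  · have h5 : (Nat.card A : ℝ) * ((1 / (Nat.card A : ℝ) - ε) * Real.log (1 / (s - 1))) ≤
        Nat.card A * classSum N φ a s := by
      have h6 : (Nat.card A : ℝ) * ((1 / (Nat.card A : ℝ) - ε) * Real.log (1 / (s - 1))) =
          Real.log (1 / (s - 1)) - Nat.card A * ε * Real.log (1 / (s - 1)) := by
        field_simp
      rw [h6]
      linarith [h1.1]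
    exact le_of_mul_le_mul_left h5 hA
  · have h5 : Nat.card A * classSum N φ a s ≤
        (Nat.card A : ℝ) * ((1 / (Nat.card A : ℝ) + ε) * Real.log (1 / (s - 1))) := by
      have h6 : (Nat.card A : ℝ) * ((1 / (Nat.card A : ℝ) + ε) * Real.log (1 / (s - 1))) =
          Real.log (1 / (s - 1)) + Nat.card A * ε * Real.log (1 / (s - 1)) := by
        field_simp
      rw [h6]
      linarith [h1.2]
    exact le_of_mul_le_mul_left h5 hA

end corollaries


end Fermat.Agent.T4.helper91
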