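import Fermat.Agent.T4.helper91_ChebNonvanish

/-!
# T4 (II) [T4-CHEB-AD]: abelian density, one-character form (helper91)

`abelianDensity_of : LTwistStatement → NonvanishStatement → LogBoundStatement →
AbelianDensityStatement`, verbatim shapes of `helper62_ChebDefs`.

For `z ^ d = 1` and a prime `𝔮 ∉ Bad`, `∑_{i<d} z^(-i) χ(N𝔮)^i = d [χ(N𝔮) = z]`.  Hence
`d * psum {𝔮 ∉ Bad, χ(N𝔮) = z} = ∑_{i<d} z^(-i) primeTw (χ^i) + O(1)`; the term `i = 0` is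
`log (1/(s-1)) + O(1)` and the terms `0 < i < d` are bounded (`LogBound`, the limits exist by
`LTwist` and are nonzero by `Nonvanish`).
-/

set_option autoImplicit false
set_option linter.unusedSectionVars false
set_option linter.unusedVariables false
set_option linter.style.haveILetI false

open NumberField Ideal IsDedekindDomain Filter Topology

namespace Fermat.Agent.T4.helper91

open Fermat.Agent.S14 Fermat.Agent.T4

section aux

variable (F : Type*) [Field F] [NumberField F] {m : ℕ} [NeZero m] (χ : DirichletCharacter ℂ m)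

/-- A function supported on a finite set `Bad` of primes and dominated by `c * N𝔮^(-s)` has a
sum of norm at most `c * |Bad|`. -/
theorem norm_tsum_le_of_support_bad (Bad : Set (HeightOneSpectrum (𝓞 F))) (hBad : Bad.Finite)
    {s : ℝ} (hs : 1 < s) (c : ℝ) (hc : 0 ≤ c) (h : HeightOneSpectrum (𝓞 F) → ℂ)
    (h0 : ∀ 𝔮, 𝔮 ∉ Bad → h 𝔮 = 0) (hle : ∀ 𝔮, ‖h 𝔮‖ ≤ c * helper40.pterm F s 𝔮) :
    Summable h ∧ ‖∑' 𝔮, h 𝔮‖ ≤ c * (hBad.toFinset.card : ℝ) := by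
  have hpt := helper40.summable_pterm F hs
  have hsB : Summable fun 𝔮 => Bad.indicator (helper40.pterm F s) 𝔮 := hpt.indicator _
  have hle' : ∀ 𝔮, ‖h 𝔮‖ ≤ c * Bad.indicator (helper40.pterm F s) 𝔮 := by
    intro 𝔮
    by_cases hB : 𝔮 ∈ Bad
    · rw [Set.indicator_of_mem hB]
      exact hle 𝔮
    · rw [Set.indicator_of_notMem hB, h0 𝔮 hB, norm_zero, mul_zero]
  have hsum : Summable h := Summable.of_norm_bounded (hsB.mul_left c) hle'
  refine ⟨hsum, ?_⟩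
  have h1 : ‖∑' 𝔮, h 𝔮‖ ≤ ∑' 𝔮, c * Bad.indicator (helper40.pterm F s) 𝔮 :=
    tsum_of_norm_bounded (hsB.mul_left c).hasSum hle'
  rw [tsum_mul_left] at h1
  have h3 : ∑' 𝔮, Bad.indicator (helper40.pterm F s) 𝔮 ≤ (hBad.toFinset.card : ℝ) :=
    Fermat.Agent.Cheb.helper40.tsum_indicator_finite_le F hBad hs.le
  exact h1.trans (mul_le_mul_of_nonneg_left h3 hc)

/-- The twisted prime sum of the trivial character is the full prime sum up to `|Bad|`. -/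
theorem norm_primeTw_pow_zero_sub_le (d : ℕ) (hd : 0 < d)
    (Bad : Set (HeightOneSpectrum (𝓞 F))) (hBad : Bad.Finite)
    (hpow : ∀ 𝔮 : HeightOneSpectrum (𝓞 F), 𝔮 ∉ Bad → helper62.chiN F χ 𝔮 ^ d = 1)
    {s : ℝ} (hs : 1 < s) :
    ‖helper62.primeTw F (χ ^ 0) s -
        ((∑' 𝔮 : HeightOneSpectrum (𝓞 F), helper40.pterm F s 𝔮 : ℝ) : ℂ)‖ ≤
      (hBad.toFinset.card : ℝ) := by
  have hpt := helper40.summable_pterm F hs
  have hptC : Summable fun 𝔮 : HeightOneSpectrum (𝓞 F) => ((helper40.pterm F s 𝔮 : ℝ) : ℂ) :=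
    (Complex.ofRealCLM.summable hpt)
  have hS := summable_chiN_mul_pterm F (χ ^ 0) hs
  set h : HeightOneSpectrum (𝓞 F) → ℂ := fun 𝔮 =>
    helper62.chiN F (χ ^ 0) 𝔮 * ((helper40.pterm F s 𝔮 : ℝ) : ℂ) -
      ((helper40.pterm F s 𝔮 : ℝ) : ℂ) with hh
  have hne : ∀ 𝔮, 𝔮 ∉ Bad → helper62.chiN F χ 𝔮 ≠ 0 := by
    intro 𝔮 hB h0
    have := hpow 𝔮 hB
    rw [h0, zero_pow hd.ne'] at this
    exact zero_ne_one this
  have h0 : ∀ 𝔮, 𝔮 ∉ Bad → h 𝔮 = 0 := by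
    intro 𝔮 hB
    rw [hh]
    simp only
    rw [chiN_pow_of_ne_zero F χ (hne 𝔮 hB), pow_zero, one_mul, sub_self]
  have hle : ∀ 𝔮, ‖h 𝔮‖ ≤ 1 * helper40.pterm F s 𝔮 := by
    intro 𝔮
    have hp := helper40.pterm_pos F s 𝔮
    rw [hh]
    simp only
    have h1 : helper62.chiN F (χ ^ 0) 𝔮 * ((helper40.pterm F s 𝔮 : ℝ) : ℂ) -
        ((helper40.pterm F s 𝔮 : ℝ) : ℂ) =
        (helper62.chiN F (χ ^ 0) 𝔮 - 1) * ((helper40.pterm F s 𝔮 : ℝ) : ℂ) := by ring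
    rw [h1, norm_mul, Complex.norm_real, Real.norm_eq_abs, abs_of_pos hp]
    refine mul_le_mul_of_nonneg_right ?_ hp.le
    by_cases hu : IsUnit ((absNorm 𝔮.asIdeal : ℕ) : ZMod m)
    · have : helper62.chiN F (χ ^ 0) 𝔮 = 1 := by
        unfold helper62.chiN
        rw [pow_zero, MulChar.one_apply hu]
      rw [this, sub_self, norm_zero]
      exact zero_le_one
    · have : helper62.chiN F (χ ^ 0) 𝔮 = 0 := by
        unfold helper62.chiN
        exact MulChar.map_nonunit _ hu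
      rw [this, zero_sub, norm_neg, norm_one]
  obtain ⟨hsum, hbd⟩ := norm_tsum_le_of_support_bad F Bad hBad hs 1 zero_le_one h h0 hle
  have h2 : helper62.primeTw F (χ ^ 0) s -
      ((∑' 𝔮 : HeightOneSpectrum (𝓞 F), helper40.pterm F s 𝔮 : ℝ) : ℂ) = ∑' 𝔮, h 𝔮 := by
    unfold helper62.primeTw
    rw [Complex.ofReal_tsum, ← Summable.tsum_sub hS hptC]
  rw [h2]
  simpa using hbd

/-- Orthogonality: `∑_{i<d} z^(-i) primeTw (χ^i) = d * psum {𝔮 ∉ Bad, χ(N𝔮) = z} + O(|Bad|)`. -/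
theorem norm_sum_primeTw_sub_le (d : ℕ) (hd : 0 < d)
    (Bad : Set (HeightOneSpectrum (𝓞 F))) (hBad : Bad.Finite)
    (hpow : ∀ 𝔮 : HeightOneSpectrum (𝓞 F), 𝔮 ∉ Bad → helper62.chiN F χ 𝔮 ^ d = 1)
    {z : ℂ} (hz : z ^ d = 1) {s : ℝ} (hs : 1 < s) :
    ‖∑ i ∈ Finset.range d, z⁻¹ ^ i * helper62.primeTw F (χ ^ i) s -
        (d : ℂ) * ((helper62.psum F {𝔮 | 𝔮 ∉ Bad ∧ helper62.chiN F χ 𝔮 = z} s : ℝ) : ℂ)‖ ≤
      (d : ℝ) * (hBad.toFinset.card : ℝ) := by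
  classical
  set S : Set (HeightOneSpectrum (𝓞 F)) := {𝔮 | 𝔮 ∉ Bad ∧ helper62.chiN F χ 𝔮 = z} with hS
  have hznorm : ‖z‖ = 1 := Complex.norm_eq_one_of_pow_eq_one hz hd.ne'
  have hz0 : z ≠ 0 := by
    intro h
    rw [h, norm_zero] at hznorm
    exact zero_ne_one hznorm
  have hzinv : ‖z⁻¹‖ = 1 := by rw [norm_inv, hznorm, inv_one]
  have hpt := helper40.summable_pterm F hs
  have hsumm : ∀ i : ℕ, Summable fun 𝔮 : HeightOneSpectrum (𝓞 F) =>
      z⁻¹ ^ i * (helper62.chiN F (χ ^ i) 𝔮 * ((helper40.pterm F s 𝔮 : ℝ) : ℂ)) :=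
    fun i => (summable_chiN_mul_pterm F (χ ^ i) hs).mul_left _
  have hsS : Summable fun 𝔮 => S.indicator (helper40.pterm F s) 𝔮 := hpt.indicator _
  have hsSC : Summable fun 𝔮 : HeightOneSpectrum (𝓞 F) =>
      (d : ℂ) * ((S.indicator (helper40.pterm F s) 𝔮 : ℝ) : ℂ) :=
    (Complex.ofRealCLM.summable hsS).mul_left _
  -- the error function
  set h : HeightOneSpectrum (𝓞 F) → ℂ := fun 𝔮 =>
    ∑ i ∈ Finset.range d,
        z⁻¹ ^ i * (helper62.chiN F (χ ^ i) 𝔮 * ((helper40.pterm F s 𝔮 : ℝ) : ℂ)) -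
      (d : ℂ) * ((S.indicator (helper40.pterm F s) 𝔮 : ℝ) : ℂ) with hh
  have hne : ∀ 𝔮, 𝔮 ∉ Bad → helper62.chiN F χ 𝔮 ≠ 0 := by
    intro 𝔮 hB h0
    have := hpow 𝔮 hB
    rw [h0, zero_pow hd.ne'] at this
    exact zero_ne_one this
  have hfact : ∀ 𝔮 : HeightOneSpectrum (𝓞 F), ∑ i ∈ Finset.range d,
      z⁻¹ ^ i * (helper62.chiN F (χ ^ i) 𝔮 * ((helper40.pterm F s 𝔮 : ℝ) : ℂ)) =
      (∑ i ∈ Finset.range d, z⁻¹ ^ i * helper62.chiN F (χ ^ i) 𝔮) *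
        ((helper40.pterm F s 𝔮 : ℝ) : ℂ) := by
    intro 𝔮
    rw [Finset.sum_mul]
    refine Finset.sum_congr rfl fun i _ => ?_
    ring
  have h0 : ∀ 𝔮, 𝔮 ∉ Bad → h 𝔮 = 0 := by
    intro 𝔮 hB
    rw [hh]
    simp only
    rw [hfact]
    have h1 : ∑ i ∈ Finset.range d, z⁻¹ ^ i * helper62.chiN F (χ ^ i) 𝔮 =
        ∑ i ∈ Finset.range d, (z⁻¹ * helper62.chiN F χ 𝔮) ^ i := by
      refine Finset.sum_congr rfl fun i _ => ?_
      rw [chiN_pow_of_ne_zero F χ (hne 𝔮 hB), mul_pow]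
    have h2 : (z⁻¹ * helper62.chiN F χ 𝔮) ^ d = 1 := by
      rw [mul_pow, inv_pow, hz, hpow 𝔮 hB, inv_one, one_mul]
    rw [h1, geom_sum_of_pow_eq_one h2]
    by_cases hzq : helper62.chiN F χ 𝔮 = z
    · have h3 : z⁻¹ * helper62.chiN F χ 𝔮 = 1 := by rw [hzq, inv_mul_cancel₀ hz0]
      have h4 : 𝔮 ∈ S := ⟨hB, hzq⟩
      rw [if_pos h3, Set.indicator_of_mem h4, sub_self]
    · have h3 : z⁻¹ * helper62.chiN F χ 𝔮 ≠ 1 := by
        intro h
        apply hzq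
        have := congrArg (fun x => z * x) h
        simp only [mul_one] at this
        rwa [← mul_assoc, mul_inv_cancel₀ hz0, one_mul] at this
      have h4 : 𝔮 ∉ S := fun h => hzq h.2
      rw [if_neg h3, Set.indicator_of_notMem h4, Complex.ofReal_zero, mul_zero, zero_mul,
        sub_self]
  have hle : ∀ 𝔮, ‖h 𝔮‖ ≤ (d : ℝ) * helper40.pterm F s 𝔮 := by
    intro 𝔮
    have hp := helper40.pterm_pos F s 𝔮
    by_cases hB : 𝔮 ∈ Bad
    · have h4 : 𝔮 ∉ S := fun h => h.1 hB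
      rw [hh]
      simp only
      rw [Set.indicator_of_notMem h4, Complex.ofReal_zero, mul_zero, sub_zero, hfact, norm_mul,
        Complex.norm_real, Real.norm_eq_abs, abs_of_pos hp]
      refine mul_le_mul_of_nonneg_right ?_ hp.le
      calc ‖∑ i ∈ Finset.range d, z⁻¹ ^ i * helper62.chiN F (χ ^ i) 𝔮‖
          ≤ ∑ i ∈ Finset.range d, ‖z⁻¹ ^ i * helper62.chiN F (χ ^ i) 𝔮‖ := norm_sum_le _ _
        _ ≤ ∑ i ∈ Finset.range d, (1 : ℝ) := by
            refine Finset.sum_le_sum fun i _ => ?_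
            rw [norm_mul, norm_pow, hzinv, one_pow, one_mul]
            exact norm_chiN_le_one F (χ ^ i) 𝔮
        _ = (d : ℝ) := by simp
    · rw [h0 𝔮 hB, norm_zero]
      exact mul_nonneg (Nat.cast_nonneg d) hp.le
  obtain ⟨hsum, hbd⟩ :=
    norm_tsum_le_of_support_bad F Bad hBad hs (d : ℝ) (Nat.cast_nonneg d) h h0 hle
  have h5 : ∑ i ∈ Finset.range d, z⁻¹ ^ i * helper62.primeTw F (χ ^ i) s -
      (d : ℂ) * ((helper62.psum F S s : ℝ) : ℂ) = ∑' 𝔮, h 𝔮 := by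
    have h6 : ∀ i : ℕ, z⁻¹ ^ i * helper62.primeTw F (χ ^ i) s =
        ∑' 𝔮 : HeightOneSpectrum (𝓞 F),
          z⁻¹ ^ i * (helper62.chiN F (χ ^ i) 𝔮 * ((helper40.pterm F s 𝔮 : ℝ) : ℂ)) := by
      intro i
      unfold helper62.primeTw
      rw [tsum_mul_left]
    have h7 : (d : ℂ) * ((helper62.psum F S s : ℝ) : ℂ) =
        ∑' 𝔮 : HeightOneSpectrum (𝓞 F),
          (d : ℂ) * ((S.indicator (helper40.pterm F s) 𝔮 : ℝ) : ℂ) := by
      unfold helper62.psum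
      rw [Complex.ofReal_tsum, tsum_mul_left]
    simp only [h6]
    rw [h7, ← Summable.tsum_finsetSum (fun i _ => hsumm i),
      ← Summable.tsum_sub (summable_sum fun i _ => hsumm i) hsSC]
  rw [h5]
  exact hbd

end aux

section main

/-- **[T4-CHEB-AD]**, verbatim shape of `helper62_ChebDefs`. -/
theorem abelianDensity_of (hLT : helper62.LTwistStatement) (hNV : helper62.NonvanishStatement)
    (hLB : helper62.LogBoundStatement) : helper62.AbelianDensityStatement := by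
  intro F _ _ m _ χ d Bad hχ hNO z hz
  have hNO' := hNO
  obtain ⟨hd, hBadfin, hpow, ⟨𝔮₁, h𝔮₁, hprim⟩, -⟩ := hNO
  have hne𝔮₁ : helper62.chiN F χ 𝔮₁ ≠ 0 := hprim.ne_zero hd.ne'
  have hznorm : ‖z‖ = 1 := Complex.norm_eq_one_of_pow_eq_one hz hd.ne'
  have hzinv : ‖z⁻¹‖ = 1 := by rw [norm_inv, hznorm, inv_one]
  -- the bounds for the nontrivial powers
  have hB : ∀ i : ℕ, ∃ B : ℝ, 0 < i → i < d →
      ∀ s : ℝ, 1 < s → s ≤ 2 → ‖helper62.primeTw F (χ ^ i) s‖ ≤ B := by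
    intro i
    by_cases h : 0 < i ∧ i < d
    · obtain ⟨l, hl⟩ := hLT F m (χ ^ i) (even_pow_of_even χ hχ i) ⟨𝔮₁, by
        rw [chiN_pow_of_ne_zero F χ hne𝔮₁]
        exact pow_ne_zero _ hne𝔮₁, by
        rw [chiN_pow_of_ne_zero F χ hne𝔮₁]
        exact hprim.pow_ne_one_of_pos_of_lt h.1.ne' h.2⟩
      have hl0 : l ≠ 0 := hNV F m χ d Bad hχ hNO' i h.1 h.2 l hl
      obtain ⟨B, hB⟩ := hLB F m (χ ^ i) l hl hl0
      exact ⟨B, fun _ _ => hB⟩
    · exact ⟨0, fun h1 h2 => absurd ⟨h1, h2⟩ h⟩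
  choose B hB using hB
  obtain ⟨B0, hB0⟩ := helper52.primeIdeal_sum_sub_log_bounded F
  have hdpos : (0 : ℝ) < d := Nat.cast_pos.mpr hd
  refine ⟨((d : ℝ) * (hBadfin.toFinset.card : ℝ) + (hBadfin.toFinset.card : ℝ) + B0 +
    ∑ i ∈ (Finset.range d).erase 0, B i) / d, fun s hs hs' => ?_⟩
  set S : Set (HeightOneSpectrum (𝓞 F)) := {𝔮 | 𝔮 ∉ Bad ∧ helper62.chiN F χ 𝔮 = z} with hS
  have h1 := norm_sum_primeTw_sub_le F χ d hd Bad hBadfin hpow hz hs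
  have h2 := norm_primeTw_pow_zero_sub_le F χ d hd Bad hBadfin hpow hs
  have h3 := hB0 s hs hs'
  have h0T : 0 ∈ Finset.range d := Finset.mem_range.mpr hd
  rw [← Finset.add_sum_erase _ _ h0T, pow_zero, one_mul] at h1
  have h4 : ‖∑ i ∈ (Finset.range d).erase 0, z⁻¹ ^ i * helper62.primeTw F (χ ^ i) s‖ ≤
      ∑ i ∈ (Finset.range d).erase 0, B i := by
    refine (norm_sum_le _ _).trans (Finset.sum_le_sum fun i hi => ?_)
    have hi' := Finset.mem_erase.mp hi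
    rw [norm_mul, norm_pow, hzinv, one_pow, one_mul]
    exact hB i (Nat.pos_of_ne_zero hi'.1) (Finset.mem_range.mp hi'.2) s hs hs'
  -- assemble in `ℂ`
  set T : ℝ := ∑' 𝔮 : HeightOneSpectrum (𝓞 F), helper40.pterm F s 𝔮 with hT
  have hT' : T = ∑' 𝔭 : HeightOneSpectrum (𝓞 F), (Ideal.absNorm 𝔭.asIdeal : ℝ) ^ (-s) := rfl
  rw [← hT'] at h3
  have h5 : (((d : ℝ) * helper62.psum F S s - Real.log (1 / (s - 1)) : ℝ) : ℂ) =
      -(helper62.primeTw F (χ ^ 0) s +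
          ∑ i ∈ (Finset.range d).erase 0, z⁻¹ ^ i * helper62.primeTw F (χ ^ i) s -
          (d : ℂ) * ((helper62.psum F S s : ℝ) : ℂ)) +
        (helper62.primeTw F (χ ^ 0) s - ((T : ℝ) : ℂ)) +
        ∑ i ∈ (Finset.range d).erase 0, z⁻¹ ^ i * helper62.primeTw F (χ ^ i) s +
        (((T - Real.log (1 / (s - 1)) : ℝ)) : ℂ) := by
    push_cast
    ring
  have h6 : |(d : ℝ) * helper62.psum F S s - Real.log (1 / (s - 1))| ≤
      (d : ℝ) * (hBadfin.toFinset.card : ℝ) + (hBadfin.toFinset.card : ℝ) + B0 +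
        ∑ i ∈ (Finset.range d).erase 0, B i := by
    rw [← Real.norm_eq_abs, ← Complex.norm_real, h5]
    have h7 : ‖(((T - Real.log (1 / (s - 1)) : ℝ)) : ℂ)‖ ≤ B0 := by
      rw [Complex.norm_real, Real.norm_eq_abs]
      exact h3
    have hA : ‖-(helper62.primeTw F (χ ^ 0) s +
          ∑ i ∈ (Finset.range d).erase 0, z⁻¹ ^ i * helper62.primeTw F (χ ^ i) s -
          (d : ℂ) * ((helper62.psum F S s : ℝ) : ℂ))‖ ≤
        (d : ℝ) * (hBadfin.toFinset.card : ℝ) := by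
      rw [norm_neg]
      exact h1
    have h9 := norm_add₄_le
      (a := -(helper62.primeTw F (χ ^ 0) s +
          ∑ i ∈ (Finset.range d).erase 0, z⁻¹ ^ i * helper62.primeTw F (χ ^ i) s -
          (d : ℂ) * ((helper62.psum F S s : ℝ) : ℂ)))
      (b := helper62.primeTw F (χ ^ 0) s - ((T : ℝ) : ℂ))
      (c := ∑ i ∈ (Finset.range d).erase 0, z⁻¹ ^ i * helper62.primeTw F (χ ^ i) s)
      (d := (((T - Real.log (1 / (s - 1)) : ℝ)) : ℂ))
    linarith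
  have h8 : helper62.psum F S s - 1 / (d : ℝ) * Real.log (1 / (s - 1)) =
      ((d : ℝ) * helper62.psum F S s - Real.log (1 / (s - 1))) / d := by
    field_simp
  rw [h8, abs_div, abs_of_pos hdpos]
  exact div_le_div_of_nonneg_right h6 hdpos.le

end main

end Fermat.Agent.T4.helper91
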