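import Fermat.Agent.T4.helper91_ChebNonvanish
import Fermat.Agent.T4.helper31_ChebEulerLog

/-!
# T4 (II) [T4-CHEB-NONVANISH], unconditional (helper91)

`nonvanish : helper62.NonvanishStatement`, from `nonvanish_of`, `helper31.lTwist` and
`helper31.eulerLog`.
-/

set_option autoImplicit false

namespace Fermat.Agent.T4.helper91

/-- **[T4-CHEB-NONVANISH]**, unconditional. -/
theorem nonvanish : helper62.NonvanishStatement :=
  nonvanish_of helper31.lTwist helper31.eulerLog

end Fermat.Agent.T4.helper91
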