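import Fermat.Agent.T4.helper91_ChebAD
import Fermat.Agent.T4.helper91_ChebNonvanishFinal
import Fermat.Agent.T4.helper31_ChebLogBound
import Fermat.Agent.T4.helper62_ChebCyc

/-!
# T4 (II) [T4-CHEB-AD] and [T4-CHEB-CYC], unconditional (helper91)

* `abelianDensity : helper62.AbelianDensityStatement`, from `abelianDensity_of`,
  `helper31.lTwist`, `helper91.nonvanish`, `helper31.logBound`;
* `cycCheb : helper62.CycChebStatement`, from `helper62.cycCheb_of`.
-/

set_option autoImplicit false

namespace Fermat.Agent.T4.helper91

/-- **[T4-CHEB-AD]**, unconditional. -/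
theorem abelianDensity : helper62.AbelianDensityStatement :=
  abelianDensity_of helper31.lTwist nonvanish helper31.logBound

/-- **[T4-CHEB-CYC]**, unconditional: Chebotarev for extensions of even cyclotomic type. -/
theorem cycCheb : helper62.CycChebStatement :=
  helper62.cycCheb_of abelianDensity

end Fermat.Agent.T4.helper91
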