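import Mathlib
import Fermat.Agent.T4.helper62_ChebDefs
import Fermat.Agent.S14.helper12_Artin
import Fermat.Agent.Cheb.helper40_ChebCyclic

/-!
# T4 block (II), leaf [T4-CHEB-DEURING] (helper92)

`deuring : helper62.DeuringStatement` : Deuring's reduction over `ℚ`, lower-bound form.

`Ω/ℚ` Galois, `a ∈ Gal(Ω/ℚ)` of order `f`, `F` the fixed field of `⟨a⟩`.  If the primes of `F`
with Frobenius `a` (in `Gal(Ω/F) = ⟨a⟩`) have lower logarithmic density `≥ 1/f`, then the primes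
of `ℚ` with Frobenius in the conjugacy class `C(a)` have lower logarithmic density
`≥ |C(a)| / |Gal(Ω/ℚ)|`.

Proof.  A prime `𝔮` of `F` of degree one over an unramified prime `p`, with Frobenius `a'`: `a` is
an arithmetic Frobenius (over `ℚ`) at a prime `P` of `Ω` over `𝔮` (`deu_transfer`), so the
Frobenius of `p` is conjugate to `a` (`deu_mem_frobSet`).  The set `T_p` of primes of `Ω` over `p`
with Frobenius exactly `a` is contained in one orbit of the centraliser `Z(a)`, with stabilisers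
containing `⟨a⟩`: `|T_p| f ≤ |Z(a)|` (`deuT_ncard_mul_orderOf_le`), and `𝔮 ↦ P` is injective
(`deu_card_fibre_le`).  Primes of `F` of degree `≥ 2` or over ramified primes contribute `O(1)`
(`Cheb.helper40.tsum_indicator_inter_goodSet`).  Hence
`psum_F ≤ (|Z(a)|/f) psum_ℚ + O(1)` and `|Z(a)| |C(a)| = |G|` (`deu_card_centralizer_mul`).
-/

set_option autoImplicit false
set_option linter.unusedSectionVars false
set_option linter.unusedVariables false
set_option linter.style.longLine false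
set_option linter.style.haveILetI false

open NumberField Ideal IsDedekindDomain Filter Topology
open scoped Pointwise Classical

namespace Fermat.Agent.T4.helper92

open Fermat.Agent.S14 Fermat.Agent.T4.helper62

/-- `|Z(a)| * |C(a)| = |G|`. -/
theorem deu_card_centralizer_mul {G : Type*} [Group G] [Finite G] (a : G) :
    Nat.card (Subgroup.centralizer {a}) * Nat.card {b : G // IsConj a b} = Nat.card G := by
  rw [Subgroup.nat_card_centralizer_nat_card_stabilizer]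
  have h1 := Subgroup.card_mul_index (MulAction.stabilizer (ConjAct G) a)
  rw [MulAction.index_stabilizer] at h1
  have h2 : Nat.card {b : G // IsConj a b} = (MulAction.orbit (ConjAct G) a).ncard := by
    rw [← Nat.card_coe_set_eq]
    apply Nat.card_congr
    refine Equiv.subtypeEquivRight fun b => ?_
    rw [ConjAct.mem_orbit_conjAct]
    exact isConj_comm
  rw [h2]
  exact h1

section fibre

variable (E K : Type*) [Field E] [NumberField E] [Field K] [NumberField K] [Algebra E K]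
  [IsGalois E K]

/-- The primes of `K` over `𝔭` at which `a` is an arithmetic Frobenius. -/
def deuT (a : Gal(K/E)) (𝔭 : Ideal (𝓞 E)) : Set (Ideal (𝓞 K)) :=
  {P | P.IsPrime ∧ P.under (𝓞 E) = 𝔭 ∧ IsArithFrobAt (𝓞 E) a P}

theorem deuT_finite (a : Gal(K/E)) (𝔭 : HeightOneSpectrum (𝓞 E)) :
    (deuT E K a 𝔭.asIdeal).Finite := by
  haveI : 𝔭.asIdeal.IsPrime := 𝔭.isPrime
  have hfin : (primesOver 𝔭.asIdeal (𝓞 K)).Finite := by
    have : Finite (primesOver 𝔭.asIdeal (𝓞 K)) := inferInstance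
    exact Set.toFinite _
  refine hfin.subset ?_
  rintro P ⟨hP, hPu, -⟩
  exact ⟨hP, ⟨hPu.symm⟩⟩

/-- **Fibre count**: at a prime `𝔭` unramified in `K`, the number of primes of `K` above `𝔭` with
Frobenius exactly `a`, times the order of `a`, is at most the order of the centraliser of `a`. -/
theorem deuT_ncard_mul_orderOf_le (a : Gal(K/E)) (𝔭 : HeightOneSpectrum (𝓞 E))
    (h𝔭 : 𝔭 ∉ helper52.ramSet E K) :
    (deuT E K a 𝔭.asIdeal).ncard * orderOf a ≤ Nat.card (Subgroup.centralizer {a}) := by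
  haveI : 𝔭.asIdeal.IsPrime := 𝔭.isPrime
  have he : helper52.eNum E K 𝔭 = 1 := by
    by_contra h
    exact h𝔭 h
  rcases Set.eq_empty_or_nonempty (deuT E K a 𝔭.asIdeal) with h0 | ⟨P₀, hP₀, hP₀u, hP₀f⟩
  · rw [h0]; simp
  haveI := hP₀
  -- the centraliser acts on the ideals
  set Z : Subgroup Gal(K/E) := Subgroup.centralizer {a} with hZ
  have haZ : a ∈ Z := by
    rw [hZ, Subgroup.mem_centralizer_iff]
    intro g hg
    rw [Set.mem_singleton_iff] at hg
    rw [hg]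
  have h1 := Subgroup.card_mul_index (MulAction.stabilizer Z P₀)
  rw [MulAction.index_stabilizer] at h1
  -- the orbit contains `T`
  have hsub : deuT E K a 𝔭.asIdeal ⊆ MulAction.orbit Z P₀ := by
    rintro P ⟨hP, hPu, hPf⟩
    haveI := hP
    obtain ⟨g, hg⟩ := Algebra.IsInvariant.exists_smul_of_under_eq (𝓞 E) (𝓞 K) Gal(K/E) P₀ P
      (hP₀u.trans hPu.symm)
    have h2 : IsArithFrobAt (𝓞 E) (g * a * g⁻¹) P := by
      rw [hg]
      exact hP₀f.conj g
    have h3 := hPf.mul_inv_mem_inertia h2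
    have h4 := Cheb.helper40.inertia_trivial_of_eNum_eq_one E K 𝔭 he P hPu _ (fun x => h3 x)
    have h5 : a = g * a * g⁻¹ := mul_inv_eq_one.mp h4
    have hgZ : g ∈ Z := by
      rw [hZ, Subgroup.mem_centralizer_iff]
      intro b hb
      rw [Set.mem_singleton_iff] at hb
      rw [hb]
      calc a * g = (g * a * g⁻¹) * g := by rw [← h5]
        _ = g * a := by group
    rw [MulAction.mem_orbit_iff]
    exact ⟨⟨g, hgZ⟩, hg.symm⟩
  have hfin : (MulAction.orbit Z P₀).Finite := Set.finite_range _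
  have h6 : (deuT E K a 𝔭.asIdeal).ncard ≤ (MulAction.orbit Z P₀).ncard :=
    Set.ncard_le_ncard hsub hfin
  -- the stabiliser contains `⟨a⟩`
  have h7 : Subgroup.zpowers (⟨a, haZ⟩ : Z) ≤ MulAction.stabilizer Z P₀ := by
    rw [Subgroup.zpowers_le]
    rw [MulAction.mem_stabilizer_iff]
    have := hP₀f.mem_stabilizer
    rw [MulAction.mem_stabilizer_iff] at this
    exact this
  have h8 : orderOf a ≤ Nat.card (MulAction.stabilizer Z P₀) := by
    have := Subgroup.card_le_of_le h7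
    rwa [Nat.card_zpowers, Subgroup.orderOf_mk] at this
  calc (deuT E K a 𝔭.asIdeal).ncard * orderOf a
      ≤ (MulAction.orbit Z P₀).ncard * Nat.card (MulAction.stabilizer Z P₀) :=
        Nat.mul_le_mul h6 h8
    _ = Nat.card Z := by rw [mul_comm]; exact h1

/-- If `a` is a Frobenius at some prime over the unramified prime `𝔭`, then `𝔭` lies in the
Frobenius set of the conjugacy class of `a`. -/
theorem deu_mem_frobSet (a : Gal(K/E)) (𝔭 : HeightOneSpectrum (𝓞 E))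
    (h𝔭 : 𝔭 ∉ helper52.ramSet E K) (P : Ideal (𝓞 K)) (hP : P ∈ deuT E K a 𝔭.asIdeal) :
    𝔭 ∈ frobSet E K {b | IsConj a b} := by
  haveI : 𝔭.asIdeal.IsPrime := 𝔭.isPrime
  obtain ⟨hPp, hPu, hPf⟩ := hP
  haveI := hPp
  have he : helper52.eNum E K 𝔭 = 1 := by
    by_contra h
    exact h𝔭 h
  refine ⟨h𝔭, ?_⟩
  obtain ⟨P₀, hP₀, hP₀0, hP₀u, hfrob⟩ :=
    helper12.exists_isArithFrobAt_frobAt E K 𝔭.asIdeal 𝔭.ne_bot
  haveI := hP₀
  obtain ⟨g, hg⟩ := Algebra.IsInvariant.exists_smul_of_under_eq (𝓞 E) (𝓞 K) Gal(K/E) P₀ P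
    (hP₀u.trans hPu.symm)
  have h2 : IsArithFrobAt (𝓞 E) (g * frobAt E K 𝔭.asIdeal * g⁻¹) P := by
    rw [hg]
    exact hfrob.conj g
  have h3 := hPf.mul_inv_mem_inertia h2
  have h4 := Cheb.helper40.inertia_trivial_of_eNum_eq_one E K 𝔭 he P hPu _ (fun x => h3 x)
  have h5 : a = g * frobAt E K 𝔭.asIdeal * g⁻¹ := mul_inv_eq_one.mp h4
  show IsConj a (frobAt E K 𝔭.asIdeal)
  rw [isConj_iff]
  refine ⟨g⁻¹, ?_⟩
  rw [h5]
  group

end fibre

section transfer

variable (Ω : Type) [Field Ω] [NumberField Ω] [IsGalois ℚ Ω] (a : Gal(Ω/ℚ))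

/-- A prime of degree one: its norm is the norm of the prime below. -/
theorem deu_absNorm_under {F : Type*} [Field F] [NumberField F]
    (𝔮 : HeightOneSpectrum (𝓞 F)) (hq : (absNorm 𝔮.asIdeal).Prime) :
    absNorm (𝔮.asIdeal.under (𝓞 ℚ)) = absNorm 𝔮.asIdeal := by
  haveI := 𝔮.isPrime
  haveI : 𝔮.asIdeal.LiesOver (𝔮.asIdeal.under (𝓞 ℚ)) := ⟨rfl⟩
  have h := Ideal.absNorm_pow_inertiaDeg (𝔮.asIdeal.under (𝓞 ℚ)) 𝔮.asIdeal
  have h1 : 𝔮.asIdeal.inertiaDeg (𝓞 ℚ) = 1 := by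
    rw [← h] at hq
    exact Nat.Prime.eq_one_of_pow hq
  rw [h1, pow_one] at h
  exact h

theorem deu_transfer
    (a' : Gal(Ω/(IntermediateField.fixedField (Subgroup.zpowers a))))
    (ha' : ∀ x : Ω, a' x = a x)
    (𝔮 : HeightOneSpectrum (𝓞 (IntermediateField.fixedField (Subgroup.zpowers a))))
    (h𝔮 : 𝔮 ∈ frobSet (IntermediateField.fixedField (Subgroup.zpowers a)) Ω {a'})
    (hq : (absNorm 𝔮.asIdeal).Prime) :
    ∃ P : Ideal (𝓞 Ω), P.under (𝓞 (IntermediateField.fixedField (Subgroup.zpowers a))) = 𝔮.asIdeal ∧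
      P ∈ deuT ℚ Ω a (𝔮.asIdeal.under (𝓞 ℚ)) := by
  haveI := 𝔮.isPrime
  obtain ⟨P, hP, hP0, hPu, hfrob⟩ :=
    helper12.exists_isArithFrobAt_frobAt (IntermediateField.fixedField (Subgroup.zpowers a)) Ω
      𝔮.asIdeal 𝔮.ne_bot
  have hfa : frobAt (IntermediateField.fixedField (Subgroup.zpowers a)) Ω 𝔮.asIdeal = a' := h𝔮.2
  rw [hfa] at hfrob
  have hPu2 : P.under (𝓞 ℚ) = 𝔮.asIdeal.under (𝓞 ℚ) := by
    rw [← hPu, Ideal.under_under]
  refine ⟨P, hPu, hP, hPu2, ?_⟩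
  intro x
  have hx := hfrob x
  have hcard : Nat.card (𝓞 (IntermediateField.fixedField (Subgroup.zpowers a)) ⧸
      P.under (𝓞 (IntermediateField.fixedField (Subgroup.zpowers a)))) =
      Nat.card (𝓞 ℚ ⧸ P.under (𝓞 ℚ)) := by
    rw [hPu, hPu2]
    have := deu_absNorm_under 𝔮 hq
    rw [Ideal.absNorm_apply, Ideal.absNorm_apply, Submodule.cardQuot_apply,
      Submodule.cardQuot_apply] at this
    exact this.symm
  rw [hcard] at hx
  have hsm : (MulSemiringAction.toAlgHom (𝓞 ℚ) (𝓞 Ω) a) x =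
      (MulSemiringAction.toAlgHom (𝓞 (IntermediateField.fixedField (Subgroup.zpowers a)))
        (𝓞 Ω) a') x := by
    apply NumberField.RingOfIntegers.ext
    exact (ha' (x : Ω)).symm
  rw [hsm]
  exact hx

/-- The good primes of `F`: degree one, over a prime of `ℚ` unramified in `Ω`, with Frobenius
`a'`. -/
def deuGood (a' : Gal(Ω/(IntermediateField.fixedField (Subgroup.zpowers a)))) :
    Set (HeightOneSpectrum (𝓞 (IntermediateField.fixedField (Subgroup.zpowers a)))) :=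
  {𝔮 | (absNorm 𝔮.asIdeal).Prime ∧ 𝔮.under (𝓞 ℚ) ∉ helper52.ramSet ℚ Ω ∧
    𝔮 ∈ frobSet (IntermediateField.fixedField (Subgroup.zpowers a)) Ω {a'}}

/-- The fibre bound. -/
theorem deu_card_fibre_le
    (a' : Gal(Ω/(IntermediateField.fixedField (Subgroup.zpowers a))))
    (ha' : ∀ x : Ω, a' x = a x) (p : HeightOneSpectrum (𝓞 ℚ))
    (U : Finset (HeightOneSpectrum (𝓞 (IntermediateField.fixedField (Subgroup.zpowers a)))))
    (hU : ∀ 𝔮 ∈ U, 𝔮 ∈ deuGood Ω a a' ∧ 𝔮.under (𝓞 ℚ) = p) :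
    U.card * orderOf a ≤ Nat.card (Subgroup.centralizer {a}) := by
  rcases U.eq_empty_or_nonempty with h0 | ⟨𝔮₀, h𝔮₀⟩
  · rw [h0]; simp
  have hp : p ∉ helper52.ramSet ℚ Ω := by
    have := (hU 𝔮₀ h𝔮₀)
    rw [← this.2]
    exact this.1.2.1
  refine le_trans (Nat.mul_le_mul_right _ ?_) (deuT_ncard_mul_orderOf_le ℚ Ω a p hp)
  -- injection of `U` into `deuT`
  have hex : ∀ 𝔮 : HeightOneSpectrum (𝓞 (IntermediateField.fixedField (Subgroup.zpowers a))),
      𝔮 ∈ U → ∃ P : Ideal (𝓞 Ω),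
        P.under (𝓞 (IntermediateField.fixedField (Subgroup.zpowers a))) = 𝔮.asIdeal ∧
        P ∈ deuT ℚ Ω a p.asIdeal := by
    intro 𝔮 h𝔮
    obtain ⟨hg, hu⟩ := hU 𝔮 h𝔮
    obtain ⟨P, hP1, hP2⟩ := deu_transfer Ω a a' ha' 𝔮 hg.2.2 hg.1
    refine ⟨P, hP1, ?_⟩
    have : 𝔮.asIdeal.under (𝓞 ℚ) = p.asIdeal := by
      rw [← hu]; rfl
    rwa [this] at hP2
  choose! φ hφ1 hφ2 using hex
  rw [← Set.ncard_coe_finset U]
  refine Set.ncard_le_ncard_of_injOn φ (fun 𝔮 h𝔮 => hφ2 𝔮 h𝔮) ?_ (deuT_finite ℚ Ω a p)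
  intro 𝔮₁ h₁ 𝔮₂ h₂ h12
  apply HeightOneSpectrum.ext
  rw [← hφ1 𝔮₁ h₁, ← hφ1 𝔮₂ h₂, h12]

/-- The inner sum over a fibre. -/
theorem deu_inner
    (a' : Gal(Ω/(IntermediateField.fixedField (Subgroup.zpowers a))))
    (ha' : ∀ x : Ω, a' x = a x) (s : ℝ) (p : HeightOneSpectrum (𝓞 ℚ))
    (U : Finset (HeightOneSpectrum (𝓞 (IntermediateField.fixedField (Subgroup.zpowers a)))))
    (hU : ∀ 𝔮 ∈ U, 𝔮 ∈ deuGood Ω a a' ∧ 𝔮.under (𝓞 ℚ) = p) :
    ∑ 𝔮 ∈ U, helper40.pterm (IntermediateField.fixedField (Subgroup.zpowers a)) s 𝔮 ≤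
      ((Nat.card (Subgroup.centralizer {a}) : ℝ) / (orderOf a : ℝ)) *
        (frobSet ℚ Ω {b | IsConj a b}).indicator (helper40.pterm ℚ s) p := by
  have hf : (0 : ℝ) < (orderOf a : ℝ) := by exact_mod_cast orderOf_pos a
  rcases U.eq_empty_or_nonempty with h0 | ⟨𝔮₀, h𝔮₀⟩
  · rw [h0, Finset.sum_empty]
    exact mul_nonneg (div_nonneg (Nat.cast_nonneg _) hf.le)
      (Set.indicator_nonneg (fun Q _ => (helper40.pterm_pos ℚ s Q).le) p)
  obtain ⟨hg₀, hu₀⟩ := hU 𝔮₀ h𝔮₀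
  have hp : p ∉ helper52.ramSet ℚ Ω := by
    rw [← hu₀]
    exact hg₀.2.1
  have hmem : p ∈ frobSet ℚ Ω {b | IsConj a b} := by
    obtain ⟨P, hP1, hP2⟩ := deu_transfer Ω a a' ha' 𝔮₀ hg₀.2.2 hg₀.1
    have : 𝔮₀.asIdeal.under (𝓞 ℚ) = p.asIdeal := by
      rw [← hu₀]; rfl
    rw [this] at hP2
    exact deu_mem_frobSet ℚ Ω a p hp P hP2
  rw [Set.indicator_of_mem hmem]
  have hterm : ∀ 𝔮 ∈ U,
      helper40.pterm (IntermediateField.fixedField (Subgroup.zpowers a)) s 𝔮 =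
        helper40.pterm ℚ s p := by
    intro 𝔮 h𝔮
    obtain ⟨hg, hu⟩ := hU 𝔮 h𝔮
    unfold helper40.pterm
    have h1 := deu_absNorm_under 𝔮 hg.1
    have h2 : 𝔮.asIdeal.under (𝓞 ℚ) = p.asIdeal := by
      rw [← hu]; rfl
    rw [h2] at h1
    rw [h1]
  rw [Finset.sum_congr rfl hterm, Finset.sum_const, nsmul_eq_mul]
  have hcard := deu_card_fibre_le Ω a a' ha' p U hU
  have hle : (U.card : ℝ) ≤ (Nat.card (Subgroup.centralizer {a}) : ℝ) / (orderOf a : ℝ) := by
    rw [le_div_iff₀ hf]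
    exact_mod_cast hcard
  exact mul_le_mul_of_nonneg_right hle (helper40.pterm_pos ℚ s p).le

/-- The prime sum over the good primes of `F` is bounded by `|Z(a)| / ord(a)` times the prime sum
over the Frobenius set of the class of `a`. -/
theorem deu_sum_le
    (a' : Gal(Ω/(IntermediateField.fixedField (Subgroup.zpowers a))))
    (ha' : ∀ x : Ω, a' x = a x) {s : ℝ} (hs : 1 < s) :
    ∑' 𝔮, (deuGood Ω a a').indicator
        (helper40.pterm (IntermediateField.fixedField (Subgroup.zpowers a)) s) 𝔮 ≤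
      ((Nat.card (Subgroup.centralizer {a}) : ℝ) / (orderOf a : ℝ)) *
        psum ℚ (frobSet ℚ Ω {b | IsConj a b}) s := by
  have hf : (0 : ℝ) < (orderOf a : ℝ) := by exact_mod_cast orderOf_pos a
  refine Real.tsum_le_of_sum_le
    (fun 𝔮 => Set.indicator_nonneg (fun Q _ => (helper40.pterm_pos _ s Q).le) 𝔮) fun t => ?_
  rw [Finset.sum_indicator_eq_sum_filter]
  set t' := t.filter (fun 𝔮 => 𝔮 ∈ deuGood Ω a a') with ht'
  rw [← Finset.sum_fiberwise_of_maps_to
    (g := fun 𝔮 : HeightOneSpectrum (𝓞 (IntermediateField.fixedField (Subgroup.zpowers a))) =>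
      𝔮.under (𝓞 ℚ))
    (t := t'.image (fun 𝔮 => 𝔮.under (𝓞 ℚ))) (fun x hx => Finset.mem_image_of_mem _ hx)]
  have hsum : Summable fun 𝔭 =>
      (frobSet ℚ Ω {b | IsConj a b}).indicator (helper40.pterm ℚ s) 𝔭 :=
    (helper40.summable_pterm ℚ hs).indicator _
  calc ∑ p ∈ t'.image (fun 𝔮 => 𝔮.under (𝓞 ℚ)),
        ∑ 𝔮 ∈ t' with 𝔮.under (𝓞 ℚ) = p,
          helper40.pterm (IntermediateField.fixedField (Subgroup.zpowers a)) s 𝔮
      ≤ ∑ p ∈ t'.image (fun 𝔮 => 𝔮.under (𝓞 ℚ)),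
          ((Nat.card (Subgroup.centralizer {a}) : ℝ) / (orderOf a : ℝ)) *
            (frobSet ℚ Ω {b | IsConj a b}).indicator (helper40.pterm ℚ s) p := by
        refine Finset.sum_le_sum fun p _ => deu_inner Ω a a' ha' s p _ ?_
        intro 𝔮 h𝔮
        rw [Finset.mem_filter, ht', Finset.mem_filter] at h𝔮
        exact ⟨h𝔮.1.2, h𝔮.2⟩
    _ = ((Nat.card (Subgroup.centralizer {a}) : ℝ) / (orderOf a : ℝ)) *
          ∑ p ∈ t'.image (fun 𝔮 => 𝔮.under (𝓞 ℚ)),
            (frobSet ℚ Ω {b | IsConj a b}).indicator (helper40.pterm ℚ s) p := by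
        rw [Finset.mul_sum]
    _ ≤ _ := by
        refine mul_le_mul_of_nonneg_left ?_ (div_nonneg (Nat.cast_nonneg _) hf.le)
        unfold psum
        exact hsum.sum_le_tsum _
          (fun i _ => Set.indicator_nonneg (fun Q _ => (helper40.pterm_pos ℚ s Q).le) i)

end transfer

/-- **[T4-CHEB-DEURING]** Deuring's reduction over `ℚ`, lower-bound form. -/
theorem deuring : DeuringStatement := by
  intro Ω _ _ _ a a' ha' hF
  obtain ⟨B₁, hB₁⟩ := hF
  have hBad : ({𝔮 | 𝔮.under (𝓞 ℚ) ∈ helper52.ramSet ℚ Ω} :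
      Set (HeightOneSpectrum (𝓞 (IntermediateField.fixedField (Subgroup.zpowers a))))).Finite := by
    refine Set.Finite.preimage' (helper52.ramSet_finite ℚ Ω) ?_
    intro p _
    exact Set.toFinite _
  have hf : (0 : ℝ) < (orderOf a : ℝ) := by exact_mod_cast orderOf_pos a
  have hz : (0 : ℝ) < (Nat.card (Subgroup.centralizer {a}) : ℝ) := by
    exact_mod_cast Nat.card_pos
  have hzc := deu_card_centralizer_mul a
  have hc : (0 : ℝ) < (Nat.card {b : Gal(Ω/ℚ) // IsConj a b} : ℝ) := by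
    haveI : Nonempty {b : Gal(Ω/ℚ) // IsConj a b} := ⟨⟨a, IsConj.refl a⟩⟩
    exact_mod_cast Nat.card_pos
  have hratio : (Nat.card {b : Gal(Ω/ℚ) // IsConj a b} : ℝ) / (Nat.card Gal(Ω/ℚ) : ℝ) =
      1 / (Nat.card (Subgroup.centralizer {a}) : ℝ) := by
    rw [← hzc]
    push_cast
    field_simp
  refine ⟨(B₁ + (S14.helper40.degTwoBound (IntermediateField.fixedField (Subgroup.zpowers a)) +
      (hBad.toFinset.card : ℝ))) * (orderOf a : ℝ) /
        (Nat.card (Subgroup.centralizer {a}) : ℝ), fun s hs hs2 => ?_⟩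
  have h1 := hB₁ s hs hs2
  have h2 := (Cheb.helper40.tsum_indicator_inter_goodSet
    (IntermediateField.fixedField (Subgroup.zpowers a)) _ hBad
    (frobSet (IntermediateField.fixedField (Subgroup.zpowers a)) Ω {a'}) hs).2
  have hset : Cheb.helper40.goodSet (IntermediateField.fixedField (Subgroup.zpowers a))
      {𝔮 | 𝔮.under (𝓞 ℚ) ∈ helper52.ramSet ℚ Ω} ∩
        frobSet (IntermediateField.fixedField (Subgroup.zpowers a)) Ω {a'} =
      deuGood Ω a a' := by
    ext 𝔮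
    constructor
    · rintro ⟨⟨h1, h2⟩, h3⟩
      exact ⟨h1, h2, h3⟩
    · rintro ⟨h1, h2, h3⟩
      exact ⟨⟨h1, h2⟩, h3⟩
  rw [hset] at h2
  have h3 := deu_sum_le Ω a a' ha' hs
  rw [hratio]
  unfold psum at h1
  -- (1/f) L ≤ (z/f) psum_ℚ + B₁ + B₂
  set L := Real.log (1 / (s - 1)) with hL
  set X := psum ℚ (frobSet ℚ Ω {b | IsConj a b}) s with hX
  set f : ℝ := (orderOf a : ℝ) with hfdef
  set z : ℝ := (Nat.card (Subgroup.centralizer {a}) : ℝ) with hzdef
  have h4 : 1 / f * L ≤ z / f * X + (B₁ + (S14.helper40.degTwoBound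
      (IntermediateField.fixedField (Subgroup.zpowers a)) + (hBad.toFinset.card : ℝ))) := by
    linarith
  have h5 : 1 / z * L = (1 / f * L) * (f / z) := by
    field_simp
  have h6 : (z / f * X + (B₁ + (S14.helper40.degTwoBound
      (IntermediateField.fixedField (Subgroup.zpowers a)) + (hBad.toFinset.card : ℝ)))) * (f / z) =
      X + (B₁ + (S14.helper40.degTwoBound
      (IntermediateField.fixedField (Subgroup.zpowers a)) + (hBad.toFinset.card : ℝ))) * f / z := by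
    field_simp
  rw [h5, ← h6]
  exact mul_le_mul_of_nonneg_right h4 (div_nonneg hf.le hz.le)

end Fermat.Agent.T4.helper92
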