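import Fermat.Agent.T4.helper91_ChebGQ
import Fermat.Agent.T4.helper91_ChebADFinal
import Fermat.Agent.T4.helper62_ChebAsm
import Fermat.Agent.T4.helper92_ChebDeuring
import Fermat.Agent.T4.helper53_ChebRestrict
import Fermat.Agent.T4.helper39_ChebCrossAsm
import Fermat.Agent.T4.helper69_ChebCrossCount

/-!
# T4 block (II): final wiring of the Chebotarev density theorem (helper91)

Everything of block (II) except the crossing fields is on main; this file is the wiring

`CrossFieldsStatement → CrossStatement → ChebDensityNF → DensStatement`.
-/

set_option autoImplicit false

namespace Fermat.Agent.T4.helper91

/-- `CrossStatement` from the crossing fields (the counting input is `helper69.crossCount`). -/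
theorem cross_of_fields (hF : helper39.CrossFieldsStatement) : helper62.CrossStatement :=
  helper39.cross_of hF helper69.crossCount

/-- The number field form of the Chebotarev density theorem from the crossing fields. -/
theorem chebDensityNF_of_fields (hF : helper39.CrossFieldsStatement) : helper62.ChebDensityNF :=
  helper62.chebDensityNF_of cycCheb helper92.deuring (cross_of_fields hF) helper53.restrict

/-- The `Gal(ℚ̄/ℚ)` form consumed by block (IV) from the crossing fields. -/
theorem dens_of_fields (hF : helper39.CrossFieldsStatement) : helper80.DensStatement :=
  dens_of (chebDensityNF_of_fields hF)

end Fermat.Agent.T4.helper91
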