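import Fermat.Agent.T4.helper62_ChebDefs
import Fermat.Agent.T4.helper40_DivFinal

/-!
# T4 (II) [T4-CHEB-GQ]: from the number field form to the `Gal(ℚ̄/ℚ)` form (helper91)

`dens_of : helper62.ChebDensityNF → helper80.DensStatement`.

* `absNorm_rat_prime`, `absNorm_rat_injective` : the primes of `𝓞 ℚ` are the ideals `(p)`;
* `absNorm_mem_frobSetC` : a prime `𝔭` of `𝓞 ℚ` in `helper62.frobSet ℚ L C₀` has
  `absNorm 𝔭 ∈ helper40.frobSetC L C₀`;
* `psum_frobSet_le_natMass` : the corresponding inequality of Dirichlet masses;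
* `dens_of` : the wiring, with the level data of `helper40_DivFinal`.
-/

set_option autoImplicit false
set_option linter.unusedSectionVars false
set_option linter.unusedVariables false
set_option linter.style.haveILetI false

open NumberField Ideal IsDedekindDomain

namespace Fermat.Agent.T4.helper91

open Fermat.Agent.S14 Fermat.Agent.T4 Fermat.Agent.S54.helper91 Fermat.Agent.S14.helper91

section rat

/-- A prime number is a prime element of `𝓞 ℚ`. -/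
theorem prime_natCast_rat {p : ℕ} (hp : p.Prime) : Prime ((p : ℕ) : 𝓞 ℚ) := by
  have h1 : Prime ((p : ℕ) : ℤ) := Nat.prime_iff_prime_int.mp hp
  have h2 : Rat.ringOfIntegersEquiv ((p : ℕ) : 𝓞 ℚ) = ((p : ℕ) : ℤ) := map_natCast _ p
  rw [← h2] at h1
  exact (MulEquiv.prime_iff Rat.ringOfIntegersEquiv.toMulEquiv).mp h1

theorem absNorm_span_natCast_rat (p : ℕ) :
    absNorm (Ideal.span {((p : ℕ) : 𝓞 ℚ)}) = p := by
  rw [Ideal.absNorm_span_singleton]
  have h1 : ((p : ℕ) : 𝓞 ℚ) = algebraMap ℤ (𝓞 ℚ) (p : ℤ) := by simp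
  rw [h1, Algebra.norm_algebraMap_of_basis (NumberField.RingOfIntegers.basis ℚ)]
  have h2 : Fintype.card (Module.Free.ChooseBasisIndex ℤ (𝓞 ℚ)) = 1 := by
    rw [← Module.finrank_eq_card_chooseBasisIndex, NumberField.RingOfIntegers.rank,
      Module.finrank_self]
  rw [h2, pow_one, Int.natAbs_natCast]

/-- A prime of `𝓞 ℚ` is generated by the prime number below it. -/
theorem exists_prime_eq_span_rat (𝔭 : HeightOneSpectrum (𝓞 ℚ)) :
    ∃ p : ℕ, p.Prime ∧ 𝔭.asIdeal = Ideal.span {((p : ℕ) : 𝓞 ℚ)} := by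
  haveI : NeZero 𝔭.asIdeal := ⟨𝔭.ne_bot⟩
  haveI := 𝔭.isPrime
  have hp : (absNorm (𝔭.asIdeal.under ℤ)).Prime := Nat.absNorm_under_prime 𝔭.asIdeal
  set p : ℕ := absNorm (𝔭.asIdeal.under ℤ) with hpdef
  have hmem : ((p : ℕ) : 𝓞 ℚ) ∈ 𝔭.asIdeal := by
    have h1 : ((p : ℕ) : ℤ) ∈ 𝔭.asIdeal.under ℤ := by
      have := Ideal.absNorm_mem (𝔭.asIdeal.under ℤ)
      exact_mod_cast this
    rw [Ideal.under_def, Ideal.mem_comap] at h1
    simpa using h1
  refine ⟨p, hp, ?_⟩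
  have hprime := prime_natCast_rat hp
  have hspan_prime : (Ideal.span {((p : ℕ) : 𝓞 ℚ)}).IsPrime :=
    (Ideal.span_singleton_prime hprime.ne_zero).mpr hprime
  have hne : Ideal.span {((p : ℕ) : 𝓞 ℚ)} ≠ ⊥ := by
    rw [Ne, Ideal.span_singleton_eq_bot]
    exact hprime.ne_zero
  have hmax : (Ideal.span {((p : ℕ) : 𝓞 ℚ)}).IsMaximal :=
    Ring.DimensionLEOne.maximalOfPrime hne hspan_prime
  have hle : Ideal.span {((p : ℕ) : 𝓞 ℚ)} ≤ 𝔭.asIdeal := by
    rw [Ideal.span_singleton_le_iff_mem]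
    exact hmem
  exact (hmax.eq_of_le 𝔭.isPrime.ne_top hle).symm

theorem absNorm_rat_prime (𝔭 : HeightOneSpectrum (𝓞 ℚ)) : (absNorm 𝔭.asIdeal).Prime := by
  obtain ⟨p, hp, h⟩ := exists_prime_eq_span_rat 𝔭
  rw [h, absNorm_span_natCast_rat]
  exact hp

theorem absNorm_rat_injective {𝔭 𝔮 : HeightOneSpectrum (𝓞 ℚ)}
    (h : absNorm 𝔭.asIdeal = absNorm 𝔮.asIdeal) : 𝔭 = 𝔮 := by
  obtain ⟨p, hp, h1⟩ := exists_prime_eq_span_rat 𝔭
  obtain ⟨q, hq, h2⟩ := exists_prime_eq_span_rat 𝔮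
  rw [h1, h2, absNorm_span_natCast_rat, absNorm_span_natCast_rat] at h
  apply HeightOneSpectrum.ext
  rw [h1, h2, h]

end rat

section dict

variable (L : Type) [Field L] [NumberField L] [IsGalois ℚ L]

/-- A prime of `𝓞 ℚ`, unramified in `L`, with Frobenius in `C₀`, gives a rational prime in
`helper40.frobSetC L C₀`. -/
theorem absNorm_mem_frobSetC (C₀ : Set Gal(L/ℚ)) {𝔭 : HeightOneSpectrum (𝓞 ℚ)}
    (h : 𝔭 ∈ helper62.frobSet ℚ L C₀) :
    absNorm 𝔭.asIdeal ∈ helper40.frobSetC L C₀ := by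
  obtain ⟨hunr, hC⟩ := h
  have he : helper52.eNum ℚ L 𝔭 = 1 := by
    by_contra hne
    exact hunr hne
  haveI := 𝔭.isPrime
  obtain ⟨P, hPprime, hP0, hP, hfrob⟩ :=
    helper12.exists_isArithFrobAt_frobAt ℚ L 𝔭.asIdeal 𝔭.ne_bot
  haveI := hPprime
  refine ⟨absNorm_rat_prime 𝔭, P, frobAt ℚ L 𝔭.asIdeal, ⟨hPprime, ?_, ?_, ?_⟩, hC⟩
  · have h1 : ((absNorm 𝔭.asIdeal : ℕ) : 𝓞 ℚ) ∈ 𝔭.asIdeal := Ideal.absNorm_mem 𝔭.asIdeal
    have h2 : ((absNorm 𝔭.asIdeal : ℕ) : 𝓞 ℚ) ∈ P.under (𝓞 ℚ) := hP ▸ h1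
    rw [Ideal.under_def, Ideal.mem_comap, map_natCast] at h2
    exact h2
  · exact Fermat.Agent.Cheb.helper40.inertia_trivial_of_eNum_eq_one ℚ L 𝔭 he P hP
  · intro x
    have h1 := hfrob x
    have h2 : Nat.card (𝓞 ℚ ⧸ P.under (𝓞 ℚ)) = absNorm 𝔭.asIdeal := by
      rw [hP, Ideal.absNorm_apply, Submodule.cardQuot_apply]
    change frobAt ℚ L 𝔭.asIdeal • x - x ^ Nat.card (𝓞 ℚ ⧸ P.under (𝓞 ℚ)) ∈ P at h1
    rw [h2] at h1
    exact h1

/-- The Dirichlet mass of `helper62.frobSet ℚ L C₀` is at most that of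
`helper40.frobSetC L C₀`. -/
theorem psum_frobSet_le_natMass (C₀ : Set Gal(L/ℚ)) {s : ℝ} (hs : 1 < s) :
    helper62.psum ℚ (helper62.frobSet ℚ L C₀) s ≤
      helper40.natMass (helper40.frobSetC L C₀) s := by
  classical
  have h := helper40.tsum_indicator_le_of_fibers (helper62.frobSet ℚ L C₀)
    (fun 𝔭 : HeightOneSpectrum (𝓞 ℚ) => absNorm 𝔭.asIdeal) (helper40.frobSetC L C₀) 1
    zero_le_one hs (fun 𝔭 h𝔭 => absNorm_mem_frobSetC L C₀ h𝔭) (by
      intro ℓ u hu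
      have h1 : u.card ≤ 1 := by
        rw [Finset.card_le_one]
        intro a ha b hb
        exact absNorm_rat_injective ((hu a ha).2.trans (hu b hb).2.symm)
      exact_mod_cast h1)
  rw [one_mul] at h
  exact h

end dict

section main

/-- **[T4-CHEB-GQ]**: the Chebotarev density theorem in the `Gal(ℚ̄/ℚ)` form consumed by the
Deligne-Serre endgame. -/
theorem dens_of (hNF : helper62.ChebDensityNF) : helper80.DensStatement := by
  intro G _ _ ρ hρ hsurj C hC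
  obtain ⟨L', hfin, hnorm, hL'⟩ := helper40.exists_normal_level ρ hρ
  haveI := hfin
  haveI := hnorm
  haveI hNFd : NumberField L' := ⟨⟩
  haveI hGal : IsGalois ℚ L' := ⟨⟩
  obtain ⟨ρ', hρ'⟩ := helper40.exists_factor ρ L' hL'
  have hsurj' : Function.Surjective ρ' := by
    intro g
    obtain ⟨σ, rfl⟩ := hsurj g
    exact ⟨AlgEquiv.restrictNormalHom L' σ, hρ' σ⟩
  set C₀ : Set Gal(L'/ℚ) := ρ' ⁻¹' C with hC₀def
  have hC₀ : ∀ g h : Gal(L'/ℚ), h ∈ C₀ → g * h * g⁻¹ ∈ C₀ := by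
    intro g h hh
    show ρ' (g * h * g⁻¹) ∈ C
    rw [map_mul, map_mul, map_inv]
    exact hC _ _ hh
  have hcard : (Nat.card C₀ : ℝ) / (Nat.card Gal(L'/ℚ) : ℝ) =
      (Nat.card C : ℝ) / (Nat.card G : ℝ) := by
    have h1 := helper40.card_preimage_mul ρ' hsurj' C
    have hG : (0 : ℝ) < (Nat.card G : ℝ) := by exact_mod_cast Nat.card_pos
    have hG₀ : (0 : ℝ) < (Nat.card Gal(L'/ℚ) : ℝ) := by exact_mod_cast Nat.card_pos
    rw [div_eq_div_iff hG₀.ne' hG.ne']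
    exact_mod_cast h1
  intro ε hε
  obtain ⟨B, hB⟩ := hNF L' C₀ hC₀ (ε / 2) (by linarith)
  have hbound : ∀ s : ℝ, 1 < s → s ≤ 2 →
      ((Nat.card C : ℝ) / (Nat.card G : ℝ) - ε / 2) * Real.log (1 / (s - 1)) - B ≤
        helper80.primeMass (helper80.frobSet ρ C) s := by
    intro s hs hs2
    have h1 := hB s hs hs2
    rw [hcard] at h1
    have h2 := psum_frobSet_le_natMass L' C₀ hs
    have h3 : helper40.natMass (helper40.frobSetC L' C₀) s ≤
        helper80.primeMass (helper80.frobSet ρ C) s := by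
      rw [helper40.primeMass_eq_natMass]
      apply helper40.natMass_mono _ hs
      intro ℓ hℓ
      obtain ⟨hp, A, σ, hA, hσ, hmem⟩ := helper40.exists_frobenius_of_mem_frobSetC hℓ
      refine ⟨hp, A, σ, hA, hσ, ?_⟩
      have : ρ' (AlgEquiv.restrictNormalHom L' σ) ∈ C := hmem
      rwa [hρ'] at this
    linarith
  obtain ⟨δ, hδ, hδs⟩ := helper40.lowerDensityGE_of_bound hbound (ε / 2) (by linarith)
  refine ⟨δ, hδ, fun s hs hsδ => ?_⟩
  have h4 := hδs s hs hsδ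
  have e : (Nat.card C : ℝ) / (Nat.card G : ℝ) - ε / 2 - ε / 2 =
      (Nat.card C : ℝ) / (Nat.card G : ℝ) - ε := by ring
  rw [e] at h4
  exact h4

end main

end Fermat.Agent.T4.helper91
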