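import Fermat.Agent.T4.helper62_ChebDefs
import Fermat.Agent.S14.helper52_PrimeSum
import Fermat.Agent.Cheb.helper40_ChebCyclic

/-!
# T4 (II) [T4-CHEB-NONVANISH]: `nonvanish_of` (helper91)

`nonvanish_of : helper62.LTwistStatement → helper62.EulerLogStatement →
helper62.NonvanishStatement`, verbatim shapes of `helper62_ChebDefs`.

Proof: for `1 < s ≤ 2`
`∑_{i<d} re (primeTw F (χ^i) s) ≥ d * psum {𝔮 ∉ Bad, χ(N𝔮) = 1} - d |Bad| ≥ log (1/(s-1)) - O(1)`
(geometric sums of `d`-th roots of unity and the third clause of `NormOrder`), while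
`re (primeTw F (χ^0) s) ≤ ∑_𝔮 N𝔮^(-s) ≤ log (1/(s-1)) + O(1)` and, for `0 < i < d`,
`re (primeTw F (χ^i) s) ≤ log ‖Ltw F (χ^i) s‖ + O(1)` is bounded above near `1` by `LTwist`.
Hence `log ‖Ltw F (χ^j) s‖` is bounded below near `1`.
-/

set_option autoImplicit false
set_option linter.unusedSectionVars false
set_option linter.unusedVariables false
set_option linter.style.haveILetI false

open NumberField Ideal IsDedekindDomain Filter Topology

namespace Fermat.Agent.T4.helper91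

open Fermat.Agent.S14 Fermat.Agent.T4

section basics

variable (F : Type*) [Field F] [NumberField F] {m : ℕ} [NeZero m] (χ : DirichletCharacter ℂ m)

theorem norm_chiN_le_one (𝔮 : HeightOneSpectrum (𝓞 F)) : ‖helper62.chiN F χ 𝔮‖ ≤ 1 :=
  DirichletCharacter.norm_le_one χ _

theorem isUnit_of_chiN_ne_zero {𝔮 : HeightOneSpectrum (𝓞 F)} (h : helper62.chiN F χ 𝔮 ≠ 0) :
    IsUnit ((absNorm 𝔮.asIdeal : ℕ) : ZMod m) := by
  by_contra hu
  exact h (MulChar.map_nonunit χ hu)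

theorem chiN_pow_of_ne_zero {𝔮 : HeightOneSpectrum (𝓞 F)} (h : helper62.chiN F χ 𝔮 ≠ 0)
    (i : ℕ) : helper62.chiN F (χ ^ i) 𝔮 = helper62.chiN F χ 𝔮 ^ i := by
  obtain ⟨u, hu⟩ := isUnit_of_chiN_ne_zero F χ h
  unfold helper62.chiN
  rw [← hu, MulChar.pow_apply_coe]

theorem even_pow_of_even (hχ : χ.Even) (i : ℕ) : (χ ^ i).Even := by
  unfold DirichletCharacter.Even at hχ ⊢
  have h1 : ((-1 : (ZMod m)ˣ) : ZMod m) = -1 := by simp
  rw [← h1, MulChar.pow_apply_coe, h1, hχ, one_pow]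

theorem summable_chiN_mul_pterm {s : ℝ} (hs : 1 < s) :
    Summable fun 𝔮 : HeightOneSpectrum (𝓞 F) =>
      helper62.chiN F χ 𝔮 * ((helper40.pterm F s 𝔮 : ℝ) : ℂ) := by
  refine Summable.of_norm_bounded (helper40.summable_pterm F hs) fun 𝔮 => ?_
  rw [norm_mul, Complex.norm_real, Real.norm_eq_abs,
    abs_of_pos (helper40.pterm_pos F s 𝔮)]
  calc ‖helper62.chiN F χ 𝔮‖ * helper40.pterm F s 𝔮 ≤ 1 * helper40.pterm F s 𝔮 :=
        mul_le_mul_of_nonneg_right (norm_chiN_le_one F χ 𝔮) (helper40.pterm_pos F s 𝔮).le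
    _ = helper40.pterm F s 𝔮 := one_mul _

/-- `re (primeTw F χ s) ≤ ∑_𝔮 N𝔮^(-s)`. -/
theorem re_primeTw_le {s : ℝ} (hs : 1 < s) :
    (helper62.primeTw F χ s).re ≤ ∑' 𝔮 : HeightOneSpectrum (𝓞 F), helper40.pterm F s 𝔮 := by
  unfold helper62.primeTw
  rw [Complex.re_tsum (summable_chiN_mul_pterm F χ hs)]
  refine Summable.tsum_le_tsum (fun 𝔮 => ?_)
    ((Complex.hasSum_re (summable_chiN_mul_pterm F χ hs).hasSum).summable)
    (helper40.summable_pterm F hs)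
  rw [Complex.re_mul_ofReal]
  have h1 : (helper62.chiN F χ 𝔮).re ≤ 1 :=
    (Complex.re_le_norm _).trans (norm_chiN_le_one F χ 𝔮)
  calc (helper62.chiN F χ 𝔮).re * helper40.pterm F s 𝔮 ≤ 1 * helper40.pterm F s 𝔮 :=
        mul_le_mul_of_nonneg_right h1 (helper40.pterm_pos F s 𝔮).le
    _ = helper40.pterm F s 𝔮 := one_mul _

theorem geom_sum_of_pow_eq_one {z : ℂ} {d : ℕ} (hz : z ^ d = 1) :
    ∑ i ∈ Finset.range d, z ^ i = if z = 1 then (d : ℂ) else 0 := by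
  split_ifs with h
  · subst h
    simp
  · rw [geom_sum_eq h, hz, sub_self, zero_div]

/-- The key lower bound:
`∑_{i<d} re (primeTw F (χ^i) s) ≥ d * psum {𝔮 ∉ Bad, χ(N𝔮) = 1} s - d * |Bad|`. -/
theorem sum_re_primeTw_ge (d : ℕ) (Bad : Set (HeightOneSpectrum (𝓞 F))) (hBad : Bad.Finite)
    (hpow : ∀ 𝔮 : HeightOneSpectrum (𝓞 F), 𝔮 ∉ Bad → helper62.chiN F χ 𝔮 ^ d = 1)
    (hd : 0 < d) {s : ℝ} (hs : 1 < s) :
    (d : ℝ) * helper62.psum F {𝔮 | 𝔮 ∉ Bad ∧ helper62.chiN F χ 𝔮 = 1} s -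
        (d : ℝ) * (hBad.toFinset.card : ℝ) ≤
      ∑ i ∈ Finset.range d, (helper62.primeTw F (χ ^ i) s).re := by
  classical
  set S₁ : Set (HeightOneSpectrum (𝓞 F)) := {𝔮 | 𝔮 ∉ Bad ∧ helper62.chiN F χ 𝔮 = 1} with hS₁
  have hsumm : ∀ i : ℕ, Summable fun 𝔮 : HeightOneSpectrum (𝓞 F) =>
      helper62.chiN F (χ ^ i) 𝔮 * ((helper40.pterm F s 𝔮 : ℝ) : ℂ) :=
    fun i => summable_chiN_mul_pterm F (χ ^ i) hs
  have hsummre : ∀ i : ℕ, Summable fun 𝔮 : HeightOneSpectrum (𝓞 F) =>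
      (helper62.chiN F (χ ^ i) 𝔮 * ((helper40.pterm F s 𝔮 : ℝ) : ℂ)).re :=
    fun i => (Complex.hasSum_re (hsumm i).hasSum).summable
  have h1 : ∑ i ∈ Finset.range d, (helper62.primeTw F (χ ^ i) s).re =
      ∑' 𝔮 : HeightOneSpectrum (𝓞 F), ∑ i ∈ Finset.range d,
        (helper62.chiN F (χ ^ i) 𝔮 * ((helper40.pterm F s 𝔮 : ℝ) : ℂ)).re := by
    rw [Summable.tsum_finsetSum (fun i _ => hsummre i)]
    refine Finset.sum_congr rfl fun i _ => ?_
    unfold helper62.primeTw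
    exact Complex.re_tsum (hsumm i)
  rw [h1]
  have hpt := helper40.summable_pterm F hs
  have hsS : Summable fun 𝔮 => S₁.indicator (helper40.pterm F s) 𝔮 := hpt.indicator _
  have hsB : Summable fun 𝔮 => Bad.indicator (helper40.pterm F s) 𝔮 := hpt.indicator _
  have hterm : ∀ 𝔮 : HeightOneSpectrum (𝓞 F),
      (d : ℝ) * S₁.indicator (helper40.pterm F s) 𝔮 -
          (d : ℝ) * Bad.indicator (helper40.pterm F s) 𝔮 ≤
        ∑ i ∈ Finset.range d,
          (helper62.chiN F (χ ^ i) 𝔮 * ((helper40.pterm F s 𝔮 : ℝ) : ℂ)).re := by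
    intro 𝔮
    have hp : 0 < helper40.pterm F s 𝔮 := helper40.pterm_pos F s 𝔮
    have hre : ∀ i : ℕ, (helper62.chiN F (χ ^ i) 𝔮 * ((helper40.pterm F s 𝔮 : ℝ) : ℂ)).re =
        (helper62.chiN F (χ ^ i) 𝔮).re * helper40.pterm F s 𝔮 :=
      fun i => Complex.re_mul_ofReal _ _
    simp only [hre]
    rw [← Finset.sum_mul]
    by_cases hB : 𝔮 ∈ Bad
    · have hnS : 𝔮 ∉ S₁ := fun h => h.1 hB
      rw [Set.indicator_of_notMem hnS, Set.indicator_of_mem hB, mul_zero, zero_sub]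
      have h2 : -(d : ℝ) ≤ ∑ i ∈ Finset.range d, (helper62.chiN F (χ ^ i) 𝔮).re := by
        have h3 : ∑ i ∈ Finset.range d, (-1 : ℝ) ≤
            ∑ i ∈ Finset.range d, (helper62.chiN F (χ ^ i) 𝔮).re := by
          refine Finset.sum_le_sum fun i _ => ?_
          have h4 := Complex.abs_re_le_norm (helper62.chiN F (χ ^ i) 𝔮)
          have h5 := norm_chiN_le_one F (χ ^ i) 𝔮
          have h6 := (abs_le.mp (h4.trans h5)).1
          exact h6
        simpa using h3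
      nlinarith
    · rw [Set.indicator_of_notMem hB, mul_zero, sub_zero]
      have hz := hpow 𝔮 hB
      have hne : helper62.chiN F χ 𝔮 ≠ 0 := by
        intro h0
        rw [h0, zero_pow hd.ne'] at hz
        exact zero_ne_one hz
      have h2 : ∑ i ∈ Finset.range d, (helper62.chiN F (χ ^ i) 𝔮).re =
          (∑ i ∈ Finset.range d, helper62.chiN F χ 𝔮 ^ i).re := by
        rw [Complex.re_sum]
        refine Finset.sum_congr rfl fun i _ => ?_
        rw [chiN_pow_of_ne_zero F χ hne]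
      rw [h2, geom_sum_of_pow_eq_one hz]
      by_cases h1 : helper62.chiN F χ 𝔮 = 1
      · have hS : 𝔮 ∈ S₁ := ⟨hB, h1⟩
        rw [Set.indicator_of_mem hS, if_pos h1, Complex.natCast_re]
      · have hS : 𝔮 ∉ S₁ := fun h => h1 h.2
        rw [Set.indicator_of_notMem hS, if_neg h1, Complex.zero_re, mul_zero, zero_mul]
  have hsumR : Summable fun 𝔮 : HeightOneSpectrum (𝓞 F) => ∑ i ∈ Finset.range d,
      (helper62.chiN F (χ ^ i) 𝔮 * ((helper40.pterm F s 𝔮 : ℝ) : ℂ)).re :=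
    summable_sum fun i _ => hsummre i
  have h2 := Summable.tsum_le_tsum hterm ((hsS.mul_left _).sub (hsB.mul_left _)) hsumR
  rw [Summable.tsum_sub (hsS.mul_left _) (hsB.mul_left _), tsum_mul_left, tsum_mul_left] at h2
  have h3 : ∑' 𝔮, Bad.indicator (helper40.pterm F s) 𝔮 ≤ (hBad.toFinset.card : ℝ) :=
    Fermat.Agent.Cheb.helper40.tsum_indicator_finite_le F hBad hs.le
  have h4 : (d : ℝ) * ∑' 𝔮, Bad.indicator (helper40.pterm F s) 𝔮 ≤
      (d : ℝ) * (hBad.toFinset.card : ℝ) :=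
    mul_le_mul_of_nonneg_left h3 (Nat.cast_nonneg d)
  have h5 : helper62.psum F S₁ s = ∑' 𝔮, S₁.indicator (helper40.pterm F s) 𝔮 := rfl
  rw [h5]
  linarith

end basics

section main

/-- **[T4-CHEB-NONVANISH]**, verbatim shape of `helper62_ChebDefs`. -/
theorem nonvanish_of (hLT : helper62.LTwistStatement) (hEL : helper62.EulerLogStatement) :
    helper62.NonvanishStatement := by
  intro F _ _ m _ χ d Bad hχ hNO j hj0 hjd l hl
  obtain ⟨hd, hBadfin, hpow, ⟨𝔮₁, h𝔮₁, hprim⟩, ⟨Bdens, hdens⟩⟩ := hNO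
  -- the Euler logarithms
  have hELi : ∀ i : ℕ, ∃ (R : ℝ → ℂ) (C : ℝ), (∀ s : ℝ, 1 < s → s ≤ 2 → ‖R s‖ ≤ C) ∧
      ∀ s : ℝ, 1 < s → s ≤ 2 →
        helper62.Ltw F (χ ^ i) s = Complex.exp (helper62.primeTw F (χ ^ i) s + R s) := by
    intro i
    obtain ⟨R, C, h1, -, h3⟩ := hEL F m (χ ^ i)
    exact ⟨R, C, h1, h3⟩
  choose R C hR hexp using hELi
  have hnorm : ∀ (i : ℕ) (s : ℝ), 1 < s → s ≤ 2 → ‖helper62.Ltw F (χ ^ i) s‖ =
      Real.exp ((helper62.primeTw F (χ ^ i) s).re + (R i s).re) := by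
    intro i s h1 h2
    rw [hexp i s h1 h2, Complex.norm_exp, Complex.add_re]
  have hReR : ∀ (i : ℕ) (s : ℝ), 1 < s → s ≤ 2 → |(R i s).re| ≤ C i := fun i s h1 h2 =>
    (Complex.abs_re_le_norm _).trans (hR i s h1 h2)
  -- the limits of the other factors
  have hne𝔮₁ : helper62.chiN F χ 𝔮₁ ≠ 0 := hprim.ne_zero hd.ne'
  have hlim : ∀ i : ℕ, 0 < i → i < d →
      ∃ li : ℂ, Tendsto (helper62.Ltw F (χ ^ i)) (𝓝[>] 1) (𝓝 li) := by
    intro i hi0 hid
    refine hLT F m (χ ^ i) (even_pow_of_even χ hχ i) ⟨𝔮₁, ?_, ?_⟩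
    · rw [chiN_pow_of_ne_zero F χ hne𝔮₁]
      exact pow_ne_zero _ hne𝔮₁
    · rw [chiN_pow_of_ne_zero F χ hne𝔮₁]
      exact hprim.pow_ne_one_of_pos_of_lt hi0.ne' hid
  have hup : ∀ i : ℕ, ∃ U : ℝ, 0 < i → i < d →
      ∀ᶠ s in 𝓝[>] (1 : ℝ), ‖helper62.Ltw F (χ ^ i) s‖ ≤ U := by
    intro i
    by_cases h : 0 < i ∧ i < d
    · obtain ⟨li, hli⟩ := hlim i h.1 h.2
      refine ⟨‖li‖ + 1, fun _ _ => ?_⟩
      have h1 : Tendsto (fun s => ‖helper62.Ltw F (χ ^ i) s‖) (𝓝[>] 1) (𝓝 ‖li‖) := hli.norm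
      filter_upwards [h1.eventually_lt_const (lt_add_one ‖li‖)] with s hs using hs.le
    · exact ⟨0, fun h1 h2 => absurd ⟨h1, h2⟩ h⟩
  choose U hU using hup
  obtain ⟨B0, hB0⟩ := helper52.primeIdeal_sum_sub_log_bounded F
  -- the index sets
  set T : Finset ℕ := Finset.range d with hT
  set T' : Finset ℕ := (T.erase 0).erase j with hT'
  have h0T : 0 ∈ T := Finset.mem_range.mpr hd
  have hjT : j ∈ T.erase 0 := Finset.mem_erase.mpr ⟨hj0.ne', Finset.mem_range.mpr hjd⟩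
  have hT'mem : ∀ i ∈ T', 0 < i ∧ i < d := by
    intro i hi
    have h1 := (Finset.mem_erase.mp hi).2
    have h2 := Finset.mem_erase.mp h1
    exact ⟨Nat.pos_of_ne_zero h2.1, Finset.mem_range.mp h2.2⟩
  set M : ℝ := (d : ℝ) * Bdens + (d : ℝ) * (hBadfin.toFinset.card : ℝ) + B0 +
    ∑ i ∈ T', (Real.log (U i) + C i) + C j with hM
  have ev1 : ∀ᶠ s in 𝓝[>] (1 : ℝ), ∀ i ∈ T', ‖helper62.Ltw F (χ ^ i) s‖ ≤ U i := by
    rw [Filter.eventually_all_finset]
    intro i hi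
    exact hU i (hT'mem i hi).1 (hT'mem i hi).2
  have ev2 : ∀ᶠ s in 𝓝[>] (1 : ℝ), s ∈ Set.Ioc (1 : ℝ) 2 := Ioc_mem_nhdsGT (by norm_num)
  have ev3 : ∀ᶠ s in 𝓝[>] (1 : ℝ), Real.exp (-M) ≤ ‖helper62.Ltw F (χ ^ j) s‖ := by
    filter_upwards [ev1, ev2] with s hs1 hs2
    obtain ⟨hs, hs'⟩ := hs2
    -- lower bound for the total sum
    have h1 := sum_re_primeTw_ge F χ d Bad hBadfin hpow hd hs
    have h2 := hdens s hs hs'
    have hdpos : (0 : ℝ) < d := Nat.cast_pos.mpr hd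
    have h3 : Real.log (1 / (s - 1)) ≤
        (d : ℝ) * helper62.psum F {𝔮 | 𝔮 ∉ Bad ∧ helper62.chiN F χ 𝔮 = 1} s +
          (d : ℝ) * Bdens := by
      have := mul_le_mul_of_nonneg_left h2 hdpos.le
      rw [mul_add, ← mul_assoc, mul_one_div_cancel hdpos.ne', one_mul] at this
      exact this
    -- the trivial character
    have h4 : (helper62.primeTw F (χ ^ 0) s).re ≤ Real.log (1 / (s - 1)) + B0 := by
      have h5 := re_primeTw_le F (χ ^ 0) hs
      have h6 := (abs_le.mp (hB0 s hs hs')).2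
      have h7 : ∑' 𝔮 : HeightOneSpectrum (𝓞 F), helper40.pterm F s 𝔮 =
          ∑' 𝔭 : HeightOneSpectrum (𝓞 F), (Ideal.absNorm 𝔭.asIdeal : ℝ) ^ (-s) := rfl
      rw [h7] at h5
      linarith
    -- the other characters
    have h8 : ∀ i ∈ T', (helper62.primeTw F (χ ^ i) s).re ≤ Real.log (U i) + C i := by
      intro i hi
      have h9 := hs1 i hi
      rw [hnorm i s hs hs'] at h9
      have hUpos : 0 < U i := lt_of_lt_of_le (Real.exp_pos _) h9
      have h10 : (helper62.primeTw F (χ ^ i) s).re + (R i s).re ≤ Real.log (U i) :=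
        (Real.le_log_iff_exp_le hUpos).mpr h9
      have h11 := (abs_le.mp (hReR i s hs hs')).1
      linarith
    have h12 : ∑ i ∈ T', (helper62.primeTw F (χ ^ i) s).re ≤
        ∑ i ∈ T', (Real.log (U i) + C i) := Finset.sum_le_sum h8
    -- splitting the sum
    have h13 : ∑ i ∈ T, (helper62.primeTw F (χ ^ i) s).re =
        (helper62.primeTw F (χ ^ 0) s).re + ((helper62.primeTw F (χ ^ j) s).re +
          ∑ i ∈ T', (helper62.primeTw F (χ ^ i) s).re) := by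
      rw [← Finset.add_sum_erase T _ h0T, ← Finset.add_sum_erase (T.erase 0) _ hjT]
    rw [h13] at h1
    have h14 := (abs_le.mp (hReR j s hs hs')).1
    rw [hnorm j s hs hs']
    apply Real.exp_le_exp.mpr
    rw [hM]
    linarith
  have hlimn : Tendsto (fun s : ℝ => ‖helper62.Ltw F (χ ^ j) s‖) (𝓝[>] 1) (𝓝 ‖l‖) := hl.norm
  have hge : Real.exp (-M) ≤ ‖l‖ := ge_of_tendsto hlimn ev3
  intro h0
  rw [h0, norm_zero] at hge
  exact absurd (Real.exp_pos (-M)) (not_lt.mpr hge)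

end main

end Fermat.Agent.T4.helper91
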