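import Mathlib

/-!
# T4-CHEB-LATTICE (helper91): counting lattice points with an error term

Leaf (1) of block (II) (Chebotarev density) of T4.  Mathlib only.

For a bounded measurable set `D ⊆ ι → ℝ` whose frontier is covered by the images of finitely
many Lipschitz maps `[0,1]^κ → (ι → ℝ)` (sup metrics), every coset `v + ℤ^ι` of the standard
lattice satisfies, for all `t ≥ 1`,

  `| #((v + ℤ^ι) ∩ t • D) - vol(D) * t ^ #ι | ≤ C * t ^ #κ`,

with `C = J * (⌈2 K⌉₊ + 1) ^ #ι * 2 ^ #κ` (`J` the number of maps, `K` the Lipschitz constant).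

Main statements:

* `abs_card_sub_volume_le_ncard` : `| #((v + ℤ^ι) ∩ S) - vol S | ≤ #{unit cubes meeting ∂S}`;
* `ncard_zOf_image_le` : a set inside a sup-ball of radius `K` meets at most `(⌈2K⌉₊ + 1)^#ι`
  half-open unit cubes of the grid `v + ℤ^ι`;
* `abs_card_smul_sub_volume_le` : the counting theorem.
-/

set_option autoImplicit false
set_option linter.unusedSectionVars false

open MeasureTheory Set Metric Bornology
open scoped Pointwise NNReal ENNReal

namespace Fermat.Agent.T4.helper91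

variable {ι : Type*} [Fintype ι]

attribute [local instance] Classical.propDecidable

/-- The lattice point `v + z` of the coset `v + ℤ^ι`. -/
def corner (v : ι → ℝ) (z : ι → ℤ) : ι → ℝ := fun i => v i + z i

/-- The index of the half-open unit cube of the grid `v + ℤ^ι` containing `x`. -/
noncomputable def zOf (v : ι → ℝ) (x : ι → ℝ) : ι → ℤ := fun i => ⌊x i - v i⌋

/-- The half-open unit cube with lower corner `v + z`. -/
def ucube (v : ι → ℝ) (z : ι → ℤ) : Set (ι → ℝ) :=
  Set.pi Set.univ fun i => Set.Ico (v i + z i) (v i + z i + 1)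

lemma mem_ucube_iff {v : ι → ℝ} {z : ι → ℤ} {x : ι → ℝ} :
    x ∈ ucube v z ↔ zOf v x = z := by
  simp only [ucube, Set.mem_pi, Set.mem_univ, true_implies, Set.mem_Ico, zOf, funext_iff,
    Int.floor_eq_iff]
  refine forall_congr' fun i => ?_
  constructor
  · rintro ⟨h1, h2⟩
    exact ⟨by linarith, by linarith⟩
  · rintro ⟨h1, h2⟩
    exact ⟨by linarith, by linarith⟩

lemma mem_ucube_zOf (v x : ι → ℝ) : x ∈ ucube v (zOf v x) := mem_ucube_iff.mpr rfl

@[simp] lemma zOf_corner (v : ι → ℝ) (z : ι → ℤ) : zOf v (corner v z) = z := by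
  funext i
  simp [zOf, corner]

lemma corner_mem_ucube (v : ι → ℝ) (z : ι → ℤ) : corner v z ∈ ucube v z :=
  mem_ucube_iff.mpr (zOf_corner v z)

lemma corner_injective (v : ι → ℝ) : Function.Injective (corner v) := by
  intro z z' h
  have := congrArg (zOf v) h
  simpa using this

lemma measurableSet_ucube (v : ι → ℝ) (z : ι → ℤ) : MeasurableSet (ucube v z) :=
  MeasurableSet.univ_pi fun _ => measurableSet_Ico

lemma volume_ucube (v : ι → ℝ) (z : ι → ℤ) : volume (ucube v z) = 1 := by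
  rw [ucube, Real.volume_pi_Ico]
  simp

lemma convex_ucube (v : ι → ℝ) (z : ι → ℤ) : Convex ℝ (ucube v z) :=
  convex_pi fun _ _ => convex_Ico _ _

lemma isPreconnected_ucube (v : ι → ℝ) (z : ι → ℤ) : IsPreconnected (ucube v z) :=
  (convex_ucube v z).isPreconnected

lemma ucube_disjoint (v : ι → ℝ) {z z' : ι → ℤ} (h : z ≠ z') :
    Disjoint (ucube v z) (ucube v z') := by
  rw [Set.disjoint_left]
  intro x hx hx'
  exact h ((mem_ucube_iff.mp hx).symm.trans (mem_ucube_iff.mp hx'))


/-! ### Counting the cubes met by a set of bounded sup-diameter -/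

/-- The constant `⌈2K⌉₊ + 1`. -/
noncomputable def cubeConst (K : ℝ) : ℕ := ⌈2 * K⌉₊ + 1

/-- The box of cube indices that can meet the sup-ball of radius `K` around `a`. -/
noncomputable def idxBox (v a : ι → ℝ) (K : ℝ) : Finset (ι → ℤ) :=
  Fintype.piFinset fun i => Finset.Icc ⌊a i - v i - K⌋ ⌊a i - v i + K⌋

lemma zOf_mem_idxBox {v a x : ι → ℝ} {K : ℝ} (hx : ∀ i, |x i - a i| ≤ K) :
    zOf v x ∈ idxBox v a K := by
  rw [idxBox, Fintype.mem_piFinset]
  intro i
  have h := abs_le.mp (hx i)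
  rw [Finset.mem_Icc]
  exact ⟨Int.floor_le_floor (by linarith), Int.floor_le_floor (by linarith)⟩

lemma card_idxBox_le (v a : ι → ℝ) (K : ℝ) :
    (idxBox v a K).card ≤ cubeConst K ^ Fintype.card ι := by
  rw [idxBox, Fintype.card_piFinset]
  refine (Finset.prod_le_pow_card _ _ (cubeConst K) fun i _ => ?_).trans_eq (by simp)
  rw [Int.card_Icc]
  set α : ℝ := a i - v i with hα
  have h1 : ((⌊α + K⌋ : ℤ) : ℝ) ≤ α + K := Int.floor_le _
  have h2 : α - K - 1 < ((⌊α - K⌋ : ℤ) : ℝ) := Int.sub_one_lt_floor _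
  have h3 : (2 * K : ℝ) ≤ ((⌈2 * K⌉₊ : ℕ) : ℝ) := Nat.le_ceil _
  have h4 : ((⌊α + K⌋ - ⌊α - K⌋ - 1 : ℤ) : ℝ) < (((⌈2 * K⌉₊ : ℕ) : ℤ) : ℝ) := by
    push_cast
    linarith
  have h5 : ⌊α + K⌋ - ⌊α - K⌋ - 1 < ((⌈2 * K⌉₊ : ℕ) : ℤ) := by exact_mod_cast h4
  rw [cubeConst]
  omega

lemma zOf_image_finite_of_forall {A : Set (ι → ℝ)} (v a : ι → ℝ) {K : ℝ}
    (hA : ∀ x ∈ A, ∀ i, |x i - a i| ≤ K) : (zOf v '' A).Finite := by
  refine (idxBox v a K).finite_toSet.subset ?_
  rintro _ ⟨x, hx, rfl⟩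
  exact zOf_mem_idxBox (hA x hx)

/-- A set inside a sup-ball of radius `K` meets at most `(⌈2K⌉₊ + 1) ^ #ι` cubes of the grid. -/
theorem ncard_zOf_image_le {A : Set (ι → ℝ)} (v a : ι → ℝ) {K : ℝ}
    (hA : ∀ x ∈ A, ∀ i, |x i - a i| ≤ K) :
    (zOf v '' A).ncard ≤ cubeConst K ^ Fintype.card ι := by
  have hsub : zOf v '' A ⊆ ↑(idxBox v a K) := by
    rintro _ ⟨x, hx, rfl⟩
    exact zOf_mem_idxBox (hA x hx)
  calc (zOf v '' A).ncard ≤ (↑(idxBox v a K) : Set (ι → ℤ)).ncard :=
        Set.ncard_le_ncard hsub (idxBox v a K).finite_toSet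
    _ = (idxBox v a K).card := Set.ncard_coe_finset _
    _ ≤ _ := card_idxBox_le v a K

lemma zOf_image_finite_of_isBounded (v : ι → ℝ) {A : Set (ι → ℝ)} (hA : IsBounded A) :
    (zOf v '' A).Finite := by
  obtain ⟨R, hR⟩ := hA.subset_closedBall (0 : ι → ℝ)
  refine zOf_image_finite_of_forall v 0 (K := R) fun x hx i => ?_
  have h1 : dist x 0 ≤ R := mem_closedBall.mp (hR hx)
  have h2 : dist (x i) ((0 : ι → ℝ) i) ≤ dist x 0 := dist_le_pi_dist x 0 i
  rw [Real.dist_eq] at h2
  exact h2.trans h1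


/-! ### Lattice points versus volume: the boundary cubes -/

/-- A cube of the grid that does not meet the frontier of `S` lies in `S` or in its complement. -/
lemma ucube_subset_or_disjoint (v : ι → ℝ) (z : ι → ℤ) (S : Set (ι → ℝ))
    (h : z ∉ zOf v '' frontier S) : ucube v z ⊆ S ∨ Disjoint (ucube v z) S := by
  have hfr : Disjoint (ucube v z) (frontier S) := by
    rw [Set.disjoint_left]
    intro x hx hxf
    exact h ⟨x, hxf, mem_ucube_iff.mp hx⟩
  have hcov : ucube v z ⊆ interior S ∪ interior Sᶜ := by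
    intro x hx
    by_contra hcon
    rw [Set.mem_union, not_or] at hcon
    apply Set.disjoint_left.mp hfr hx
    rw [frontier, Set.mem_sdiff]
    refine ⟨?_, hcon.1⟩
    by_contra hcl
    exact hcon.2 (by rwa [interior_compl])
  rcases (isPreconnected_ucube v z).subset_or_subset isOpen_interior isOpen_interior
    (Set.disjoint_left.mpr fun x hx hx' => absurd (interior_subset hx) (interior_subset hx')) hcov with
    h1 | h1
  · exact Or.inl (h1.trans interior_subset)
  · refine Or.inr (Set.disjoint_left.mpr fun x hx hxS => ?_)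
    exact interior_subset (h1 hx) hxS

/-- **Boundary-cube estimate.** The number of points of the coset `v + ℤ^ι` in a bounded
measurable set `S` differs from the volume of `S` by at most the number of cubes of the grid
meeting the frontier of `S`. -/
theorem abs_card_sub_volume_le_ncard (v : ι → ℝ) {S : Set (ι → ℝ)} (hS : MeasurableSet S)
    (hb : IsBounded S) :
    |(Nat.card {z : ι → ℤ // corner v z ∈ S} : ℝ) - volume.real S| ≤
      ((zOf v '' frontier S).ncard : ℝ) := by
  have hfin : (zOf v '' S).Finite := zOf_image_finite_of_isBounded v hb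
  have hfinF : (zOf v '' frontier S).Finite :=
    zOf_image_finite_of_isBounded v (hb.closure.subset frontier_subset_closure)
  set F : Finset (ι → ℤ) := hfin.toFinset with hF
  have hmemF : ∀ x ∈ S, zOf v x ∈ F := fun x hx => by
    rw [hF, Set.Finite.mem_toFinset]; exact ⟨x, hx, rfl⟩
  -- the count
  have hN : Nat.card {z : ι → ℤ // corner v z ∈ S} = (F.filter fun z => corner v z ∈ S).card := by
    rw [← Set.ncard_coe_finset, ← Nat.card_coe_set_eq]
    refine Nat.card_congr (Equiv.subtypeEquivRight fun z => ?_)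
    rw [Finset.mem_coe, Finset.mem_filter]
    constructor
    · intro h
      refine ⟨?_, h⟩
      have := hmemF _ h
      rwa [zOf_corner] at this
    · exact fun h => h.2
  -- the volume
  have hU : S = ⋃ z ∈ F, (S ∩ ucube v z) := by
    ext x
    simp only [Set.mem_iUnion, Set.mem_inter_iff, exists_and_left, exists_prop]
    constructor
    · intro hx
      exact ⟨hx, zOf v x, hmemF x hx, mem_ucube_zOf v x⟩
    · exact fun h => h.1
  have hV : volume S = ∑ z ∈ F, volume (S ∩ ucube v z) := by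
    conv_lhs => rw [hU]
    refine measure_biUnion_finset ?_ fun z _ => hS.inter (measurableSet_ucube v z)
    intro z _ z' _ hzz'
    exact ((ucube_disjoint v hzz').mono Set.inter_subset_right Set.inter_subset_right)
  have hle1 : ∀ z, volume (S ∩ ucube v z) ≤ 1 := fun z =>
    (measure_mono Set.inter_subset_right).trans_eq (volume_ucube v z)
  have hVr : volume.real S = ∑ z ∈ F, volume.real (S ∩ ucube v z) := by
    rw [measureReal_def, hV, ENNReal.toReal_sum]
    · rfl
    · intro z _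
      exact ne_top_of_le_ne_top ENNReal.one_ne_top (hle1 z)
  have hNr : (Nat.card {z : ι → ℤ // corner v z ∈ S} : ℝ) =
      ∑ z ∈ F, (if corner v z ∈ S then (1 : ℝ) else 0) := by
    rw [hN, Finset.card_filter]
    push_cast
    rfl
  rw [hNr, hVr, ← Finset.sum_sub_distrib]
  have hterm : ∀ z ∈ F, |(if corner v z ∈ S then (1 : ℝ) else 0) - volume.real (S ∩ ucube v z)| ≤
      (if z ∈ zOf v '' frontier S then (1 : ℝ) else 0) := by
    intro z _
    have hr0 : 0 ≤ volume.real (S ∩ ucube v z) := measureReal_nonneg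
    have hr1 : volume.real (S ∩ ucube v z) ≤ 1 := by
      rw [measureReal_def]
      exact ENNReal.toReal_le_of_le_ofReal zero_le_one (by simpa using hle1 z)
    by_cases hz : z ∈ zOf v '' frontier S
    · rw [if_pos hz]
      split_ifs
      · rw [abs_le]; constructor <;> linarith
      · rw [abs_le]; constructor <;> linarith
    · rw [if_neg hz]
      rcases ucube_subset_or_disjoint v z S hz with h | h
      · have h1 : corner v z ∈ S := h (corner_mem_ucube v z)
        have h2 : S ∩ ucube v z = ucube v z := Set.inter_eq_right.mpr h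
        rw [if_pos h1, h2, measureReal_def, volume_ucube]
        simp
      · have h1 : corner v z ∉ S := fun hc =>
          Set.disjoint_left.mp h (corner_mem_ucube v z) hc
        have h2 : S ∩ ucube v z = ∅ := by
          rw [Set.inter_comm]; exact h.inter_eq
        rw [if_neg h1, h2]
        simp
  calc |∑ z ∈ F, ((if corner v z ∈ S then (1 : ℝ) else 0) - volume.real (S ∩ ucube v z))|
      ≤ ∑ z ∈ F, |(if corner v z ∈ S then (1 : ℝ) else 0) - volume.real (S ∩ ucube v z)| :=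
        Finset.abs_sum_le_sum_abs _ _
    _ ≤ ∑ z ∈ F, (if z ∈ zOf v '' frontier S then (1 : ℝ) else 0) := Finset.sum_le_sum hterm
    _ = ((F.filter fun z => z ∈ zOf v '' frontier S).card : ℝ) := by
        rw [Finset.card_filter]; push_cast; rfl
    _ ≤ ((zOf v '' frontier S).ncard : ℝ) := by
        have h : (F.filter fun z => z ∈ zOf v '' frontier S).card ≤
            (zOf v '' frontier S).ncard := by
          rw [← Set.ncard_coe_finset]
          refine Set.ncard_le_ncard (fun z hz => ?_) hfinF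
          rw [Finset.mem_coe, Finset.mem_filter] at hz
          exact hz.2
        exact_mod_cast h


/-! ### Cubes meeting a Lipschitz-covered frontier -/

section lipschitz

variable {κ : Type*} [Fintype κ]

/-- Points of `[0,1]^κ` in the same cell of the grid of mesh `1/k` are at sup-distance `≤ 1/k`. -/
lemma dist_le_inv_of_zOf_eq {k : ℕ} (hk : 0 < k) {u u' : κ → ℝ}
    (h : zOf (0 : κ → ℝ) ((k : ℝ) • u) = zOf 0 ((k : ℝ) • u')) : dist u u' ≤ 1 / (k : ℝ) := by
  have hk' : (0 : ℝ) < k := by exact_mod_cast hk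
  rw [dist_pi_le_iff (by positivity)]
  intro i
  have hi := congrFun h i
  simp only [zOf, Pi.smul_apply, smul_eq_mul, Pi.zero_apply, sub_zero] at hi
  have h1 := Int.floor_le ((k : ℝ) * u i)
  have h2 := Int.lt_floor_add_one ((k : ℝ) * u i)
  have h3 := Int.floor_le ((k : ℝ) * u' i)
  have h4 := Int.lt_floor_add_one ((k : ℝ) * u' i)
  rw [hi] at h1 h2
  have e : u i - u' i ≤ 1 / (k : ℝ) := by rw [le_div_iff₀ hk']; nlinarith
  have e' : u' i - u i ≤ 1 / (k : ℝ) := by rw [le_div_iff₀ hk']; nlinarith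
  rw [Real.dist_eq, abs_le]
  constructor <;> linarith

/-- The cell indices of the unit cube for the grid of mesh `1/k`. -/
noncomputable def cellIdx (κ : Type*) [Fintype κ] (k : ℕ) : Finset (κ → ℤ) :=
  Fintype.piFinset fun _ => Finset.Icc (0 : ℤ) k

lemma card_cellIdx (k : ℕ) : (cellIdx κ k).card = (k + 1) ^ Fintype.card κ := by
  rw [cellIdx, Fintype.card_piFinset]
  simp

lemma zOf_mem_cellIdx {k : ℕ} {u : κ → ℝ} (hu : u ∈ Set.Icc (0 : κ → ℝ) 1) :
    zOf (0 : κ → ℝ) ((k : ℝ) • u) ∈ cellIdx κ k := by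
  rw [cellIdx, Fintype.mem_piFinset]
  intro i
  have h0 : 0 ≤ u i := hu.1 i
  have h1 : u i ≤ 1 := hu.2 i
  have hk : (0 : ℝ) ≤ k := Nat.cast_nonneg k
  rw [Finset.mem_Icc]
  simp only [zOf, Pi.smul_apply, smul_eq_mul, Pi.zero_apply, sub_zero]
  constructor
  · exact Int.floor_nonneg.mpr (mul_nonneg hk h0)
  · have : (k : ℝ) * u i ≤ ((k : ℤ) : ℝ) := by
      push_cast
      nlinarith
    exact Int.floor_le_iff.mpr (by push_cast at this ⊢; linarith)

/-- **Frontier cubes.** If the frontier of `D` is covered by `J` images of `K`-Lipschitz maps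
of the unit cube `[0,1]^κ`, then `t • D` (`t ≥ 1`) has at most
`J * (⌈t⌉₊ + 1) ^ #κ * (⌈2K⌉₊ + 1) ^ #ι` frontier cubes. -/
theorem ncard_zOf_frontier_smul_le {D : Set (ι → ℝ)} (J : ℕ) (K : ℝ≥0)
    (φ : Fin J → (κ → ℝ) → ι → ℝ) (hφ : ∀ j, LipschitzOnWith K (φ j) (Set.Icc 0 1))
    (hcov : frontier D ⊆ ⋃ j, φ j '' Set.Icc 0 1) (v : ι → ℝ) {t : ℝ} (ht : 1 ≤ t) :
    (zOf v '' frontier (t • D)).ncard ≤
      J * (⌈t⌉₊ + 1) ^ Fintype.card κ * cubeConst K ^ Fintype.card ι := by
  have ht0 : 0 < t := lt_of_lt_of_le one_pos ht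
  set k : ℕ := ⌈t⌉₊ with hk
  have hkpos : 0 < k := Nat.ceil_pos.mpr ht0
  have hkt : t ≤ k := Nat.le_ceil t
  have hk' : (0 : ℝ) < k := by exact_mod_cast hkpos
  -- centres
  let c : Fin J × (κ → ℤ) → ι → ℝ := fun p =>
    if h : ∃ u ∈ Set.Icc (0 : κ → ℝ) 1, zOf (0 : κ → ℝ) ((k : ℝ) • u) = p.2 then
      t • φ p.1 h.choose else 0
  set G : Finset (ι → ℤ) :=
    ((Finset.univ : Finset (Fin J)) ×ˢ cellIdx κ k).biUnion fun p => idxBox v (c p) K with hG
  have hfr : frontier (t • D) = t • frontier D := by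
    have := (Homeomorph.smulOfNeZero t ht0.ne').image_frontier D
    simpa [Set.image_smul] using this.symm
  have hsub : zOf v '' frontier (t • D) ⊆ ↑G := by
    rintro _ ⟨x, hx, rfl⟩
    rw [hfr] at hx
    obtain ⟨y, hy, rfl⟩ := hx
    obtain ⟨j, hj⟩ := Set.mem_iUnion.mp (hcov hy)
    obtain ⟨u, hu, rfl⟩ := hj
    rw [hG, Finset.mem_coe, Finset.mem_biUnion]
    refine ⟨(j, zOf (0 : κ → ℝ) ((k : ℝ) • u)), ?_, ?_⟩
    · exact Finset.mem_product.mpr ⟨Finset.mem_univ _, zOf_mem_cellIdx hu⟩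
    · have hex : ∃ u' ∈ Set.Icc (0 : κ → ℝ) 1,
          zOf (0 : κ → ℝ) ((k : ℝ) • u') = zOf (0 : κ → ℝ) ((k : ℝ) • u) := ⟨u, hu, rfl⟩
      have hc : c (j, zOf (0 : κ → ℝ) ((k : ℝ) • u)) = t • φ j hex.choose := dif_pos hex
      obtain ⟨hu0, hzu0⟩ := hex.choose_spec
      set u0 := hex.choose with hu0def
      refine zOf_mem_idxBox fun i => ?_
      rw [hc]
      have hd1 : dist u u0 ≤ 1 / (k : ℝ) := dist_le_inv_of_zOf_eq hkpos hzu0.symm
      have hd2 : dist (φ j u) (φ j u0) ≤ K * dist u u0 := (hφ j).dist_le_mul u hu u0 hu0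
      have hd3 : dist (φ j u i) (φ j u0 i) ≤ dist (φ j u) (φ j u0) := dist_le_pi_dist _ _ i
      rw [Real.dist_eq] at hd3
      have hK : (0 : ℝ) ≤ K := K.coe_nonneg
      have hd4 : |φ j u i - φ j u0 i| ≤ K * (1 / (k : ℝ)) :=
        hd3.trans (hd2.trans (mul_le_mul_of_nonneg_left hd1 hK))
      simp only [Pi.smul_apply, smul_eq_mul]
      rw [← mul_sub, abs_mul, abs_of_pos ht0]
      calc t * |φ j u i - φ j u0 i| ≤ t * (K * (1 / (k : ℝ))) :=
            mul_le_mul_of_nonneg_left hd4 ht0.le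
        _ = K * (t / k) := by ring
        _ ≤ K * 1 := by
            refine mul_le_mul_of_nonneg_left ?_ hK
            rw [div_le_one hk']
            exact hkt
        _ = K := mul_one _
  calc (zOf v '' frontier (t • D)).ncard ≤ (↑G : Set (ι → ℤ)).ncard :=
        Set.ncard_le_ncard hsub G.finite_toSet
    _ = G.card := Set.ncard_coe_finset _
    _ ≤ ((Finset.univ : Finset (Fin J)) ×ˢ cellIdx κ k).card * cubeConst K ^ Fintype.card ι :=
        Finset.card_biUnion_le_card_mul _ _ _ fun p _ => card_idxBox_le v (c p) K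
    _ = J * (⌈t⌉₊ + 1) ^ Fintype.card κ * cubeConst K ^ Fintype.card ι := by
        rw [Finset.card_product, card_cellIdx, Finset.card_univ, Fintype.card_fin]

/-- **Lattice points with an error term.** Let `D ⊆ ι → ℝ` be bounded and measurable, with
frontier covered by the images of `J` maps `[0,1]^κ → (ι → ℝ)` which are `K`-Lipschitz for the
sup metrics. Then for every coset `v + ℤ^ι` and every `t ≥ 1`

  `| #((v + ℤ^ι) ∩ t • D) - vol(D) * t ^ #ι | ≤ J * 3 ^ #κ * (⌈2K⌉₊ + 1) ^ #ι * t ^ #κ`. -/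
theorem abs_card_smul_sub_volume_le {D : Set (ι → ℝ)} (hDm : MeasurableSet D)
    (hDb : IsBounded D) (J : ℕ) (K : ℝ≥0)
    (φ : Fin J → (κ → ℝ) → ι → ℝ) (hφ : ∀ j, LipschitzOnWith K (φ j) (Set.Icc 0 1))
    (hcov : frontier D ⊆ ⋃ j, φ j '' Set.Icc 0 1) (v : ι → ℝ) {t : ℝ} (ht : 1 ≤ t) :
    |(Nat.card {z : ι → ℤ // corner v z ∈ t • D} : ℝ) - volume.real D * t ^ Fintype.card ι| ≤
      ((J : ℝ) * 3 ^ Fintype.card κ * (cubeConst K : ℝ) ^ Fintype.card ι) *
        t ^ Fintype.card κ := by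
  have ht0 : 0 < t := lt_of_lt_of_le one_pos ht
  have hm : MeasurableSet (t • D) := hDm.const_smul₀ t
  have hb : IsBounded (t • D) := hDb.smul₀ t
  have hvol : volume.real (t • D) = volume.real D * t ^ Fintype.card ι := by
    rw [measureReal_def, Measure.addHaar_smul, ENNReal.toReal_mul, ← measureReal_def,
      Module.finrank_fintype_fun_eq_card, abs_of_pos (pow_pos ht0 _),
      ENNReal.toReal_ofReal (pow_pos ht0 _).le, mul_comm]
  have h1 := abs_card_sub_volume_le_ncard v hm hb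
  rw [hvol] at h1
  have h2 := ncard_zOf_frontier_smul_le J K φ hφ hcov v ht
  have h3 : ((⌈t⌉₊ : ℕ) : ℝ) + 1 ≤ 3 * t := by
    have := Nat.ceil_lt_add_one ht0.le
    linarith
  have h4 : (((⌈t⌉₊ + 1) ^ Fintype.card κ : ℕ) : ℝ) ≤ 3 ^ Fintype.card κ * t ^ Fintype.card κ := by
    push_cast
    rw [← mul_pow]
    exact pow_le_pow_left₀ (by positivity) h3 _
  calc |(Nat.card {z : ι → ℤ // corner v z ∈ t • D} : ℝ) - volume.real D * t ^ Fintype.card ι|
      ≤ ((zOf v '' frontier (t • D)).ncard : ℝ) := h1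
    _ ≤ ((J * (⌈t⌉₊ + 1) ^ Fintype.card κ * cubeConst K ^ Fintype.card ι : ℕ) : ℝ) := by
        exact_mod_cast h2
    _ = (J : ℝ) * (((⌈t⌉₊ + 1) ^ Fintype.card κ : ℕ) : ℝ) * (cubeConst K : ℝ) ^ Fintype.card ι := by
        push_cast; ring
    _ ≤ (J : ℝ) * (3 ^ Fintype.card κ * t ^ Fintype.card κ) * (cubeConst K : ℝ) ^ Fintype.card ι := by
        gcongr
    _ = _ := by ring

end lipschitz

end Fermat.Agent.T4.helper91
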