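import Fermat.Agent.T4.helper21_EisOutDefs

/-!
# T4 block (III), leaf [EIS-QCOEFF] (helper92)

`qCoeff : helper21.QCoeffStatement` — the Prelude `q`-coefficients of a weight-one modular form on
`Γ₁(ℓ)` are read off any pointwise expansion `G τ = ∑ c n qⁿ`.

Also the general-level, general-weight version `qCoeff_of_hasSum` (any `Γ₁(N)`-form, any weight,
modular or cusp form), for reuse in [EIS-PROD].
-/

set_option autoImplicit false

noncomputable section

namespace Fermat.Agent.T4.helper92

open UpperHalfPlane hiding I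
open Complex CongruenceSubgroup ModularForm
open scoped MatrixGroups Real Manifold

/-- `qPow τ n` is the `n`-th power of the `q`-parameter of period one. -/
lemma qPow_eq_qParam_pow (τ : ℂ) (n : ℕ) :
    helper21.qPow τ n = Function.Periodic.qParam (1 : ℝ) τ ^ n := by
  unfold helper21.qPow Function.Periodic.qParam
  rw [← Complex.exp_nat_mul]
  congr 1
  simp only [Complex.ofReal_one, div_one]
  ring

/-- `1` is a strict period of `Γ₁(N)`. -/
lemma one_mem_strictPeriods_Gamma1' (N : ℕ) :
    (1 : ℝ) ∈ ((Gamma1 N : Subgroup (GL (Fin 2) ℝ))).strictPeriods := by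
  rw [CongruenceSubgroup.strictPeriods_Gamma1]
  exact AddSubgroup.mem_zmultiples 1

/-- General version: for any `ModularFormClass` on `Γ₁(N)`, the Prelude `qCoeff`s are read off
any pointwise `q`-expansion. -/
theorem qCoeff_of_hasSum {F : Type*} [FunLike F ℍ ℂ] (N : ℕ) (k : ℤ)
    [ModularFormClass F (Gamma1 N : Subgroup (GL (Fin 2) ℝ)) k] (G : F) (c : ℕ → ℂ)
    (h : ∀ τ : ℍ, HasSum (fun n : ℕ => c n * helper21.qPow τ n) (G τ)) (n : ℕ) :
    ModularFormClass.qCoeff G n = c n := by
  have hf : ∀ τ : ℍ, HasSum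
      (fun m : ℕ => c m • Function.Periodic.qParam (1 : ℝ) (τ : ℂ) ^ m) (G τ) := by
    intro τ
    have := h τ
    simp only [qPow_eq_qParam_pow] at this
    simpa [smul_eq_mul] using this
  exact (ModularFormClass.qExpansion_coeff_unique one_pos (one_mem_strictPeriods_Gamma1' N)
    hf n).symm

/-- **[EIS-QCOEFF]** -/
theorem qCoeff : helper21.QCoeffStatement := by
  intro ℓ _ G c h n
  exact qCoeff_of_hasSum ℓ 1 G c h n

end Fermat.Agent.T4.helper92
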