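import Mathlib
import Fermat.Agent.T4.helper4_IgusaDefs

/-!
# T4 block (I), IGUSA1 route A, leaf [IG-MEM-J] (helper92, second prover)

`memJ : zetaC M ∈ S → helper4.Ig.MemJStatement M S` : for `d ∣ M` the function `j(d τ)` is an
`S`-integral modular function of level `Γ(M)` (all its `SL₂(ℤ)`-translates have `q_M`-expansions
with coefficients in `S`), for every subring `S ⊆ ℂ` containing `ζ_M`.

Also: the expansion at the identity of any `f ∈ B_S` with underlying function `j(d τ)`: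
`EA 1 f = j(q^{M d})` (in `q_M = q^(1/M)`: `qExpand M (qExpand d jqModC)`), and its `S`-form and
reduced form (`ES_one_of_jfunDT`, `EB_one_of_jfunDT`).
-/

set_option autoImplicit false
set_option linter.unusedSectionVars false
set_option linter.unusedVariables false
set_option linter.style.longLine false
set_option linter.style.haveILetI false

noncomputable section

open UpperHalfPlane CongruenceSubgroup ModularCurve
open Fermat.Agent.S24 Fermat.Agent.S28
open Fermat.Agent.T4.helper32.Conj1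
open scoped MatrixGroups

namespace Fermat.Agent.T4.helper92

variable (M : ℕ) [NeZero M] (S : Subring ℂ)

theorem mj_Gamma_le_Gamma0 : Gamma M ≤ Gamma0 M := by
  intro g hg
  rw [Gamma_mem] at hg
  rw [Gamma0_mem]
  exact hg.2.2.1

theorem mj_jfunDT_eq (d : ℕ) [NeZero d] : jfunDT d = jfunD d := by
  funext τ
  unfold jfunDT
  rw [dif_neg (NeZero.ne d)]

theorem mj_jfunD_mem_GA (d : ℕ) [NeZero d] (hd : d ∣ M) : jfunD d ∈ GA (Gamma M) M :=
  GAlg_le (Gamma M) M (mj_Gamma_le_Gamma0 M) (jfunD_mem M d hd)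

/-- `j(d τ)` as a modular function of level `Γ(M)` -/
def mjA (d : ℕ) [NeZero d] (hd : d ∣ M) : GA (Gamma M) M := ⟨jfunD d, mj_jfunD_mem_GA M d hd⟩

theorem EA_mjA (d : ℕ) [NeZero d] (hd : d ∣ M) (γ : SL(2, ℤ)) :
    EA (Gamma M) M γ (mjA M d hd) = (hData d γ).jSer M :=
  EA_eq (Gamma M) M γ (mjA M d hd) ((hData d γ).hasExp_j M hd)

theorem mjA_mem_BS (hζ : zetaC M ∈ S) (d : ℕ) [NeZero d] (hd : d ∣ M) :
    mjA M d hd ∈ BS (Gamma M) M S := by
  rw [mem_BS_iff]
  intro γ n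
  rw [EA_mjA]
  obtain ⟨h1, h2⟩ := (hData d γ).ξ_mem hd S hζ
  exact helper25.affL_coeff_mem S _ h1 h2 _ _ (helper25.jqModC_coeff_mem S) n

/-- `j(d τ)` as an `S`-integral modular function of level `Γ(M)` -/
def mjB (hζ : zetaC M ∈ S) (d : ℕ) [NeZero d] (hd : d ∣ M) : BS (Gamma M) M S :=
  ⟨mjA M d hd, mjA_mem_BS M S hζ d hd⟩

theorem coe_mjB (hζ : zetaC M ∈ S) (d : ℕ) [NeZero d] (hd : d ∣ M) :
    (((mjB M S hζ d hd : BS (Gamma M) M S) : GA (Gamma M) M) : ℍ → ℂ) = jfunDT d :=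
  (mj_jfunDT_eq d).symm

/-- **[IG-MEM-J]** -/
theorem memJ (hζ : zetaC M ∈ S) : Fermat.Agent.T4.helper4.Ig.MemJStatement M S := by
  intro d hd
  haveI : NeZero d := ⟨ne_zero_of_dvd_ne_zero (NeZero.ne M) hd⟩
  exact ⟨mjB M S hζ d hd, coe_mjB M S hζ d hd⟩

/-! ### The expansion at the identity -/

theorem EA_one_of_jfunDT (d : ℕ) [NeZero d] (f : GA (Gamma M) M)
    (hf : (f : ℍ → ℂ) = jfunDT d) :
    EA (Gamma M) M 1 f = qExpand ℂ M (qExpand ℂ d (jqModC ℂ)) := by
  apply EA_eq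
  have e : (fun τ : ℍ => (f : ℍ → ℂ) ((1 : SL(2, ℤ)) • τ)) = jfunD d := by
    funext τ
    rw [one_smul, hf, mj_jfunDT_eq]
  rw [e, qExpand_qExpand]
  exact hasExp_jfunD M d inferInstance

theorem ES_one_of_jfunDT (d : ℕ) [NeZero d] (f : BS (Gamma M) M S)
    (hf : ((f : GA (Gamma M) M) : ℍ → ℂ) = jfunDT d) :
    ES (Gamma M) M S 1 f = qExpand S M (qExpand S d (jqModC S)) := by
  apply helper93.coeffMap_injective' S.subtype Subtype.val_injective
  rw [coeffMap_ES, EA_one_of_jfunDT M d (f : GA (Gamma M) M) hf,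
    Fermat.Agent.S28.helper81.coeffMap_qExpand, Fermat.Agent.S28.helper81.coeffMap_qExpand,
    Fermat.Agent.S28.helper81.coeffMap_jqModC]

theorem EB_one_of_jfunDT {k : Type} [Field k] (r : S →+* k) (d : ℕ) [NeZero d]
    (f : BS (Gamma M) M S) (hf : ((f : GA (Gamma M) M) : ℍ → ℂ) = jfunDT d) :
    EB (Gamma M) M S r 1 f = qExpand k M (qExpand k d (jqModC k)) := by
  show coeffMap r (ES (Gamma M) M S 1 f) = _
  rw [ES_one_of_jfunDT M S d f hf, Fermat.Agent.S28.helper81.coeffMap_qExpand,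
    Fermat.Agent.S28.helper81.coeffMap_qExpand, Fermat.Agent.S28.helper81.coeffMap_jqModC]

/-- all expansions of `j(d τ)` in terms of the Hermite data -/
theorem EA_of_jfunDT (d : ℕ) [NeZero d] (hd : d ∣ M) (f : GA (Gamma M) M)
    (hf : (f : ℍ → ℂ) = jfunDT d) (γ : SL(2, ℤ)) :
    EA (Gamma M) M γ f = (hData d γ).jSer M := by
  have e : f = mjA M d hd := Subtype.ext (hf.trans (mj_jfunDT_eq d))
  rw [e, EA_mjA]

end Fermat.Agent.T4.helper92

end
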