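import Mathlib
import Fermat.Agent.T4.helper4_IgusaDefs

/-!
# T4 block (I), IGUSA1 leaf [IG-MEM-J] (helper93): `j(d τ)`, `d ∣ M`, is `S`-integral of level
`Γ(M)`

For a subring `S ⊆ ℂ` containing `ζ_M = exp(2πi/M)` and `d ∣ M`, the function `j(d τ)`
(`S24.jfunDT d`) lies in `helper32.Conj1.BS (Gamma M) M S`: it is invariant under `Γ(M)`, all
its `SL₂(ℤ)`-translates are holomorphic with a meromorphic `q_M`-expansion, and all these
expansions (`j(ξ t^e)`, `ξ` a power of `ζ_M`, Hermite transport of S28) have coefficients in `S`.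

* `jdA M d hd : GA (Gamma M) M`, `jdB M S hζ d hd : BS (Gamma M) M S` : the elements;
* `memJ : zetaC M ∈ S → helper4.Ig.MemJStatement M S` : **the deliverable**, VERBATIM;
* `EA_jd` : the expansion of a translate, `EA γ (j_d) = affL (xi D b) (M / D * a) jq` with the
  Hermite data of `(d, γ)`;
* `EA_one_jd`, `EA_one_of_coe_eq` : the expansion at the identity is
  `qExpand ℂ M (qExpand ℂ d (jqModC ℂ))`.
-/

set_option autoImplicit false
set_option linter.unusedSectionVars false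
set_option linter.style.haveILetI false

noncomputable section

namespace Fermat.Agent.T4.helper93

open UpperHalfPlane CongruenceSubgroup ModularCurve
open Fermat.Agent.T4.helper32.Conj1 Fermat.Agent.S28 Fermat.Agent.S24
open Fermat.Agent.S23.helper74 (affPt xi)
open scoped MatrixGroups Manifold

variable (M : ℕ) [NeZero M]

theorem mj_Gamma_le_Gamma0 : Gamma M ≤ Gamma0 M := by
  intro γ hγ
  rw [Gamma_mem] at hγ
  rw [Gamma0_mem]
  exact hγ.2.2.1

theorem mj_ne_zero_of_dvd {d : ℕ} (hd : d ∣ M) : d ≠ 0 :=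
  ne_zero_of_dvd_ne_zero (NeZero.ne M) hd

theorem mj_jfunDT_eq {d : ℕ} (hd : d ∣ M) :
    haveI : NeZero d := ⟨mj_ne_zero_of_dvd M hd⟩
    jfunDT d = jfunD d := by
  haveI : NeZero d := ⟨mj_ne_zero_of_dvd M hd⟩
  funext τ
  exact helper24.jfunDT_of_ne_zero d τ

/-- `j(d τ)` is a modular function of level `Γ(M)` -/
theorem mj_jfunDT_mem_GA {d : ℕ} (hd : d ∣ M) : jfunDT d ∈ GA (Gamma M) M := by
  haveI : NeZero d := ⟨mj_ne_zero_of_dvd M hd⟩
  rw [mj_jfunDT_eq M hd]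
  exact GAlg_le (Gamma M) M (mj_Gamma_le_Gamma0 M) (jfunD_mem M d hd)

/-- `j(d τ)` as an element of `GA (Gamma M) M` -/
def jdA (d : ℕ) (hd : d ∣ M) : GA (Gamma M) M := ⟨jfunDT d, mj_jfunDT_mem_GA M hd⟩

@[simp]
theorem coe_jdA (d : ℕ) (hd : d ∣ M) : ((jdA M d hd : GA (Gamma M) M) : ℍ → ℂ) = jfunDT d := rfl

/-- **the expansions of the translates of `j(d τ)`** (Hermite transport) -/
theorem EA_jd (d : ℕ) (hd : d ∣ M) (γ : SL(2, ℤ)) :
    ∃ (a D : ℕ) (b : ℤ), 0 < a ∧ 0 < D ∧ a * D = d ∧ a = Nat.gcd d (γ 1 0).natAbs ∧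
      EA (Gamma M) M γ (jdA M d hd) = affL (xi D b) (M / D * a) (jqModC ℂ) := by
  haveI : NeZero d := ⟨mj_ne_zero_of_dvd M hd⟩
  obtain ⟨a, D, b, ha, hD, haD, hgcd, hexp⟩ := helper63.hasExp_jfunD_smul M d hd γ
  refine ⟨a, D, b, ha, hD, haD, hgcd, ?_⟩
  apply EA_eq
  have e : (fun τ : ℍ => ((jdA M d hd : GA (Gamma M) M) : ℍ → ℂ) (γ • τ)) =
      fun τ => jfun (scaleH d (γ • τ)) := by
    funext τ
    rw [coe_jdA, mj_jfunDT_eq M hd]
    rfl
  rw [e]
  exact hexp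

/-- all expansions of `j(d τ)` have coefficients in `S ∋ ζ_M` -/
theorem jdA_mem_BS (S : Subring ℂ) (hζ : zetaC M ∈ S) (d : ℕ) (hd : d ∣ M) :
    jdA M d hd ∈ BS (Gamma M) M S := by
  rw [mem_BS_iff]
  intro γ n
  obtain ⟨a, D, b, ha, hD, haD, -, hE⟩ := EA_jd M d hd γ
  rw [hE]
  have hDM : D ∣ M := (Dvd.intro_left a haD).trans hd
  exact helper63.jfunD_series_coeff_mem M D hDM hD b _ S hζ n

/-- `j(d τ)` as an element of `BS (Gamma M) M S` -/
def jdB (S : Subring ℂ) (hζ : zetaC M ∈ S) (d : ℕ) (hd : d ∣ M) : BS (Gamma M) M S :=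
  ⟨jdA M d hd, jdA_mem_BS M S hζ d hd⟩

@[simp]
theorem coe_jdB (S : Subring ℂ) (hζ : zetaC M ∈ S) (d : ℕ) (hd : d ∣ M) :
    (((jdB M S hζ d hd : BS (Gamma M) M S) : GA (Gamma M) M) : ℍ → ℂ) = jfunDT d := rfl

/-- **[IG-MEM-J]** the functions `j(d τ)`, `d ∣ M`, are `S`-integral modular functions of level
`Γ(M)` as soon as `ζ_M ∈ S`. -/
theorem memJ (S : Subring ℂ) (hζ : zetaC M ∈ S) : helper4.Ig.MemJStatement M S :=
  fun d hd => ⟨jdB M S hζ d hd, rfl⟩

/-! ### The expansion at the identity -/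

theorem mj_affPt_one_zero (d : ℕ) [NeZero d] (hd0 : 0 < d) (τ : ℍ) :
    affPt d 1 0 hd0 one_pos τ = scaleH d τ := by
  apply UpperHalfPlane.ext
  rw [Fermat.Agent.S23.helper74.coe_affPt, helper77.coe_scaleH]
  simp

/-- `j(d τ)` has the `q_M`-expansion `j(t^(M d))` -/
theorem mj_hasExp_jfunD (d : ℕ) [NeZero d] :
    HasExp M (jfunD d) (qExpand ℂ M (qExpand ℂ d (jqModC ℂ))) := by
  have hd0 : 0 < d := Nat.pos_of_ne_zero (NeZero.ne d)
  haveI : NeZero (M * d) := ⟨Nat.mul_ne_zero (NeZero.ne M) (NeZero.ne d)⟩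
  have h := helper78.hasExp_comp_aff helper63.hasExp_jfun_one M d 1 (M * d) 0 hd0 one_pos
    (by ring)
  have e : (fun τ => jfun (affPt d 1 0 hd0 one_pos τ)) = jfunD d := by
    funext τ
    rw [mj_affPt_one_zero d hd0 τ]
    rfl
  rw [e, affL_xi_one (M * d), ← qExpand_qExpand] at h
  exact h

/-- the expansion of `j(d τ)` at the identity -/
theorem EA_one_jd (d : ℕ) [NeZero d] (hd : d ∣ M) :
    EA (Gamma M) M 1 (jdA M d hd) = qExpand ℂ M (qExpand ℂ d (jqModC ℂ)) := by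
  apply EA_eq
  have e : (fun τ : ℍ => ((jdA M d hd : GA (Gamma M) M) : ℍ → ℂ) ((1 : SL(2, ℤ)) • τ)) =
      jfunD d := by
    funext τ
    rw [one_smul, coe_jdA, mj_jfunDT_eq M hd]
  rw [e]
  exact mj_hasExp_jfunD M d

/-- the expansion at the identity of ANY element of `GA` with function `j(d τ)` -/
theorem EA_one_of_coe_eq (d : ℕ) [NeZero d] (hd : d ∣ M) (f : GA (Gamma M) M)
    (hf : (f : ℍ → ℂ) = jfunDT d) :
    EA (Gamma M) M 1 f = qExpand ℂ M (qExpand ℂ d (jqModC ℂ)) := by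
  have e : f = jdA M d hd := Subtype.ext hf
  rw [e]
  exact EA_one_jd M d hd

/-- the `S`-integral expansion at the identity of any element of `BS` with function `j(d τ)` -/
theorem coeffMap_ES_one_of_coe_eq (S : Subring ℂ) (d : ℕ) [NeZero d] (hd : d ∣ M)
    (f : BS (Gamma M) M S) (hf : (((f : GA (Gamma M) M)) : ℍ → ℂ) = jfunDT d) :
    coeffMap S.subtype (ES (Gamma M) M S 1 f) = qExpand ℂ M (qExpand ℂ d (jqModC ℂ)) := by
  rw [coeffMap_ES]
  exact EA_one_of_coe_eq M d hd _ hf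

end Fermat.Agent.T4.helper93

end
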