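import Mathlib
import Fermat.Agent.T4.helper85_Wt1Defs

/-!
# T4 / S48, block (III), package [W1-R] (helper94)

`rStatement : Fermat.Agent.T4.helper85.RStatement`: summability of the terms of the `q`-series
`R(z; τ) = π cot(π z) + 2 π i ∑_{n ≥ 1} (qⁿ/w / (1 - qⁿ/w) - qⁿ w / (1 - qⁿ w))` and its three
functional equations `R(z + 1) = R(z)`, `R(z + τ) = R(z) - 2 π i`, `R(-z) = -R(z)`.

With `a_n = qⁿ/w / (1 - qⁿ/w)`, `b_n = qⁿ w / (1 - qⁿ w)` the `n`-th term is `a_(n+1) - b_(n+1)`;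
`w ↦ q w` maps `(a_(n+1), b_(n+1))` to `(a_n, b_(n+2))`, so the sum changes by `a_0 + b_1`.
-/

set_option autoImplicit false
set_option linter.unusedSectionVars false
set_option linter.style.haveILetI false
set_option linter.unusedVariables false
set_option linter.unusedSimpArgs false

open Complex
open UpperHalfPlane hiding I
open scoped Real

namespace Fermat.Agent.T4.helper94

open Fermat.Agent.T4.helper85

/-! ## The abstract series -/

section Abstract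

/-- `a_n = qⁿ/w / (1 - qⁿ/w)` -/
noncomputable def aT (q w : ℂ) (n : ℕ) : ℂ := q ^ n / w / (1 - q ^ n / w)

/-- `b_n = qⁿ w / (1 - qⁿ w)` -/
noncomputable def bT (q w : ℂ) (n : ℕ) : ℂ := q ^ n * w / (1 - q ^ n * w)

lemma aT_eq_bT_inv (q w : ℂ) (n : ℕ) : aT q w n = bT q w⁻¹ n := by
  simp only [aT, bT, div_eq_mul_inv]

lemma bT_eq_aT_inv (q w : ℂ) (n : ℕ) : bT q w n = aT q w⁻¹ n := by
  simp only [aT, bT, div_eq_mul_inv, inv_inv]

/-- `∑ qⁿ c / (1 - qⁿ c)` converges for `‖q‖ < 1`. -/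
lemma summable_bT {q : ℂ} (hq : ‖q‖ < 1) (w : ℂ) : Summable (bT q w) := by
  have hgeo : Summable (fun n : ℕ => 2 * ‖w‖ * ‖q‖ ^ n) :=
    (summable_geometric_of_lt_one (norm_nonneg q) hq).mul_left _
  apply Summable.of_norm_bounded_eventually_nat hgeo
  have htend : Filter.Tendsto (fun n : ℕ => q ^ n * w) Filter.atTop (nhds 0) := by
    have := (tendsto_pow_atTop_nhds_zero_of_norm_lt_one hq).mul_const w
    simpa using this
  have hev : ∀ᶠ n : ℕ in Filter.atTop, ‖q ^ n * w‖ < 1 / 2 := by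
    have h1 := htend.norm
    rw [norm_zero] at h1
    exact h1.eventually (gt_mem_nhds (by norm_num))
  filter_upwards [hev] with n hn
  have h2 : (1 : ℝ) / 2 ≤ ‖1 - q ^ n * w‖ := by
    have h3 := norm_sub_norm_le (1 : ℂ) (q ^ n * w)
    rw [norm_one] at h3
    linarith
  have h2pos : (0 : ℝ) < ‖1 - q ^ n * w‖ := by linarith
  rw [bT, norm_div, div_le_iff₀ h2pos]
  have h4 : ‖q ^ n * w‖ = ‖w‖ * ‖q‖ ^ n := by
    rw [norm_mul, norm_pow, mul_comm]
  rw [h4]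
  have h5 : 0 ≤ ‖w‖ * ‖q‖ ^ n := by positivity
  nlinarith

lemma summable_aT {q : ℂ} (hq : ‖q‖ < 1) (w : ℂ) : Summable (aT q w) := by
  have h := summable_bT hq w⁻¹
  refine h.congr (fun n => ?_)
  rw [aT_eq_bT_inv]

/-- the terms after the shift `w ↦ q w` -/
lemma aT_shift {q w : ℂ} (hq : q ≠ 0) (n : ℕ) : aT q (q * w) (n + 1) = aT q w n := by
  have h1 : q ^ (n + 1) / (q * w) = q ^ n / w := by
    rw [pow_succ, mul_comm q w, mul_div_mul_right _ _ hq]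
  rw [aT, aT, h1]

lemma bT_shift (q w : ℂ) (n : ℕ) : bT q (q * w) (n + 1) = bT q w (n + 2) := by
  have h1 : q ^ (n + 1) * (q * w) = q ^ (n + 2) * w := by ring
  rw [bT, bT, h1]

/-- the sum after the shift `w ↦ q w` -/
lemma tsum_shift {q : ℂ} (hq : ‖q‖ < 1) (hq0 : q ≠ 0) (w : ℂ) :
    ∑' n : ℕ, (aT q (q * w) (n + 1) - bT q (q * w) (n + 1)) =
      aT q w 0 + bT q w 1 + ∑' n : ℕ, (aT q w (n + 1) - bT q w (n + 1)) := by
  have ha := summable_aT hq w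
  have hb := summable_bT hq w
  have ha1 : Summable (fun n : ℕ => aT q w (n + 1)) := (summable_nat_add_iff 1).2 ha
  have hb1 : Summable (fun n : ℕ => bT q w (n + 1)) := (summable_nat_add_iff 1).2 hb
  have hb2 : Summable (fun n : ℕ => bT q w (n + 2)) := (summable_nat_add_iff 2).2 hb
  have e1 : ∑' n : ℕ, (aT q (q * w) (n + 1) - bT q (q * w) (n + 1)) =
      ∑' n : ℕ, (aT q w n - bT q w (n + 2)) := by
    congr 1
    funext n
    rw [aT_shift hq0, bT_shift]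
  have e2 : ∑' n : ℕ, aT q w n = aT q w 0 + ∑' n : ℕ, aT q w (n + 1) := ha.tsum_eq_zero_add
  have e3 : ∑' n : ℕ, bT q w (n + 1) = bT q w 1 + ∑' n : ℕ, bT q w (n + 2) := by
    have := hb1.tsum_eq_zero_add
    simpa using this
  rw [e1, ha.tsum_sub hb2, ha1.tsum_sub hb1, e2, e3]
  ring

end Abstract

/-! ## The statement -/

lemma norm_qOf_lt_one (τ : ℍ) : ‖qOf τ‖ < 1 := UpperHalfPlane.norm_exp_two_pi_I_lt_one τ

lemma qOf_ne_zero (τ : ℍ) : qOf τ ≠ 0 := Complex.exp_ne_zero _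

lemma wOf_ne_zero (z : ℂ) : wOf z ≠ 0 := Complex.exp_ne_zero _

lemma wOf_add_one (z : ℂ) : wOf (z + 1) = wOf z := by
  unfold wOf
  rw [mul_add, mul_one, Complex.exp_add, Complex.exp_two_pi_mul_I, mul_one]

lemma wOf_add_tau (τ : ℍ) (z : ℂ) : wOf (z + τ) = qOf τ * wOf z := by
  unfold wOf qOf
  rw [mul_add, Complex.exp_add, mul_comm]

lemma wOf_neg (z : ℂ) : wOf (-z) = (wOf z)⁻¹ := by
  unfold wOf
  rw [mul_neg, Complex.exp_neg]

lemma RqTerm_eq (τ : ℍ) (z : ℂ) (n : ℕ) :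
    RqTerm τ z n = aT (qOf τ) (wOf z) (n + 1) - bT (qOf τ) (wOf z) (n + 1) := rfl

lemma Rq_eq (τ : ℍ) (z : ℂ) :
    Rq τ z = π * ((wOf z + 1) / (I * (1 - wOf z))) +
      2 * π * I * ∑' n : ℕ, (aT (qOf τ) (wOf z) (n + 1) - bT (qOf τ) (wOf z) (n + 1)) := by
  unfold Rq
  rw [Complex.cot_pi_eq_exp_ratio]
  rfl

lemma wOf_ne_one {τ : ℍ} {z : ℂ} (hz : z ∉ (ppOf τ).lattice) : wOf z ≠ 1 := by
  intro h
  rw [wOf, Complex.exp_eq_one_iff] at h
  obtain ⟨n, hn⟩ := h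
  apply hz
  rw [PeriodPair.mem_lattice]
  refine ⟨0, n, ?_⟩
  have h1 : z = n := by
    apply mul_left_cancel₀ Complex.two_pi_I_ne_zero
    rw [hn]
    ring
  simp [h1]

lemma add_tau_not_mem {τ : ℍ} {z : ℂ} (hz : z ∉ (ppOf τ).lattice) :
    z + τ ∉ (ppOf τ).lattice := by
  intro h
  apply hz
  have h1 : (τ : ℂ) ∈ (ppOf τ).lattice := (ppOf τ).ω₁_mem_lattice
  have := (ppOf τ).lattice.sub_mem h h1
  simpa using this

/-- **[W1-R]** -/
theorem rStatement : RStatement := by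
  intro τ z hz
  have hq := norm_qOf_lt_one τ
  have hq0 := qOf_ne_zero τ
  refine ⟨?_, ?_, ?_, ?_⟩
  · -- summability
    have ha1 : Summable (fun n : ℕ => aT (qOf τ) (wOf z) (n + 1)) :=
      (summable_nat_add_iff 1).2 (summable_aT hq _)
    have hb1 : Summable (fun n : ℕ => bT (qOf τ) (wOf z) (n + 1)) :=
      (summable_nat_add_iff 1).2 (summable_bT hq _)
    exact (ha1.sub hb1).congr (fun n => (RqTerm_eq τ z n).symm)
  · -- `z ↦ z + 1`
    rw [Rq_eq, Rq_eq, wOf_add_one]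
  · -- `z ↦ z + τ`
    rw [Rq_eq, Rq_eq, wOf_add_tau, tsum_shift hq hq0]
    have hw1 : wOf z ≠ 1 := wOf_ne_one hz
    have hw0 : wOf z ≠ 0 := wOf_ne_zero z
    have hqw1 : qOf τ * wOf z ≠ 1 := by
      rw [← wOf_add_tau]
      exact wOf_ne_one (add_tau_not_mem hz)
    have h1 : (1 : ℂ) - wOf z ≠ 0 := sub_ne_zero.mpr (Ne.symm hw1)
    have h2 : (1 : ℂ) - qOf τ * wOf z ≠ 0 := sub_ne_zero.mpr (Ne.symm hqw1)
    have h3 : wOf z - 1 ≠ 0 := sub_ne_zero.mpr hw1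
    have ha0 : aT (qOf τ) (wOf z) 0 = 1 / (wOf z - 1) := by
      rw [aT, pow_zero]
      field_simp
    have hb1 : bT (qOf τ) (wOf z) 1 = qOf τ * wOf z / (1 - qOf τ * wOf z) := by
      rw [bT, pow_one]
    rw [ha0, hb1]
    have hI : (I : ℂ) ≠ 0 := Complex.I_ne_zero
    field_simp
    ring_nf
    simp only [Complex.I_sq]
    ring
  · -- `z ↦ -z`
    rw [Rq_eq, Rq_eq, wOf_neg]
    have hw0 : wOf z ≠ 0 := wOf_ne_zero z
    have e1 : ∑' n : ℕ, (aT (qOf τ) (wOf z)⁻¹ (n + 1) - bT (qOf τ) (wOf z)⁻¹ (n + 1)) =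
        - ∑' n : ℕ, (aT (qOf τ) (wOf z) (n + 1) - bT (qOf τ) (wOf z) (n + 1)) := by
      rw [← tsum_neg]
      congr 1
      funext n
      rw [← bT_eq_aT_inv, ← aT_eq_bT_inv]
      ring
    have e2 : ((wOf z)⁻¹ + 1) / (I * (1 - (wOf z)⁻¹)) = - ((wOf z + 1) / (I * (1 - wOf z))) := by
      by_cases hw1 : wOf z = 1
      · rw [hw1]; simp
      · have h1 : (1 : ℂ) - wOf z ≠ 0 := sub_ne_zero.mpr (Ne.symm hw1)
        have h3 : wOf z - 1 ≠ 0 := sub_ne_zero.mpr hw1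
        have hI : (I : ℂ) ≠ 0 := Complex.I_ne_zero
        field_simp
        ring
    rw [e1, e2]
    ring

end Fermat.Agent.T4.helper94
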