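import Fermat.Agent.T4.helper99_ClassMat
import Fermat.Agent.T4.helper80_EndgameDefs

/-!
# T4 (IV) [IV-CLASS]: `helper80.ClassStatement` (helper99, second prover)

A finite subgroup `G` of `GL 2 k` of order prime to the characteristic has an abelian subgroup
of index at most `12`.

Route (no algebraic closure, no projective line): with `Z` the scalars of `G`, the centraliser
`T_g` of every `g ∉ Z` is commutative (`commute_of_commute_nonscalar`), and the normaliser of
`T_g` has index at most two over it (`helper18.eq_or_eq_sub_of_commute`: a conjugate of `g`
commuting with `g` is `g` or `tr g - g`).  The abstract class equation
(`exists_abelian_index_le_twelve`) partitions `G ∖ Z` into the at most three sets of elements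
conjugate into a given torus and solves the resulting equation in natural numbers.
-/

set_option autoImplicit false

namespace Fermat.Agent.T4.helper99

/-- **[IV-CLASS]**, verbatim. -/
theorem classS : Fermat.Agent.T4.helper80.ClassStatement := by
  intro k _ G _ hcard
  exact class_abelian_index G hcard

end Fermat.Agent.T4.helper99
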