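import Mathlib

set_option autoImplicit false

namespace Fermat.Agent.T4.helper99

open Finset

section abstract

variable {G : Type*} [Group G]

/-- The hypotheses of the abstract class equation: `Z` is central, centralisers of elements
outside `Z` are commutative, and "normalisers of tori have index at most two". -/
structure CTData (Z : Subgroup G) : Prop where
  central : ∀ z ∈ Z, ∀ g : G, Commute z g
  comm : ∀ g : G, g ∉ Z → ∀ x y : G, Commute x g → Commute y g → Commute x y
  norm : ∀ g : G, g ∉ Z → ∀ x y : G, Commute (x * g * x⁻¹) g → Commute (y * g * y⁻¹) g →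
    ¬ Commute x g → ¬ Commute y g → Commute (x⁻¹ * y) g

variable {Z : Subgroup G}

lemma CTData.conj_mem_iff (hZ : CTData Z) (x y : G) : x * y * x⁻¹ ∈ Z ↔ y ∈ Z := by
  constructor
  · intro h
    have h1 : x * y * x⁻¹ = y := by
      have := hZ.central _ h x
      -- (x y x⁻¹) x = x (x y x⁻¹)
      have h2 : x * y * x⁻¹ * x = x * (x * y * x⁻¹) := this.eq
      have h3 : x * y = x * (x * y * x⁻¹) := by simpa [mul_assoc] using h2
      exact (mul_left_cancel h3).symm
    rwa [h1] at h
  · intro h
    have h1 : x * y * x⁻¹ = y := by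
      have := (hZ.central _ h x).eq
      rw [← this, mul_inv_cancel_right]
    rwa [h1]

/-- The torus of `g`: its centraliser. -/
def torus (g : G) : Subgroup G := Subgroup.centralizer {g}

lemma mem_torus {g x : G} : x ∈ torus g ↔ Commute x g := by
  rw [torus, Subgroup.mem_centralizer_singleton_iff]
  exact ⟨fun h => h, fun h => h⟩

lemma self_mem_torus (g : G) : g ∈ torus g := mem_torus.mpr (Commute.refl g)

lemma CTData.le_torus (hZ : CTData Z) (g : G) : Z ≤ torus g :=
  fun z hz => mem_torus.mpr (hZ.central z hz g)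

lemma CTData.torus_comm (hZ : CTData Z) {g : G} (hg : g ∉ Z) :
    ∀ x ∈ torus g, ∀ y ∈ torus g, x * y = y * x :=
  fun x hx y hy => (hZ.comm g hg x y (mem_torus.mp hx) (mem_torus.mp hy)).eq

/-- Commuting elements outside `Z` have the same torus. -/
lemma CTData.commute_iff_of_commute (hZ : CTData Z) {g h : G} (hg : g ∉ Z) (hh : h ∉ Z)
    (hgh : Commute h g) (x : G) : Commute x h ↔ Commute x g :=
  ⟨fun hx => hZ.comm h hh x g hx hgh.symm, fun hx => hZ.comm g hg x h hx hgh⟩

/-- The normaliser of the torus of `g`, as the set of `w` with `w g w⁻¹` in the torus. -/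
def torusNorm (hZ : CTData Z) (g : G) (hg : g ∉ Z) : Subgroup G where
  carrier := {w | Commute (w * g * w⁻¹) g}
  one_mem' := by simp
  inv_mem' := by
    intro w hw
    simp only [Set.mem_ofPred_eq, inv_inv] at hw ⊢
    have h1 := (Commute.conj_iff (a := w⁻¹ * g * w) (b := g) w)
    rw [← h1]
    have h2 : w * (w⁻¹ * g * w) * w⁻¹ = g := by group
    rw [h2]
    exact hw.symm
  mul_mem' := by
    intro a b ha hb
    simp only [Set.mem_ofPred_eq] at ha hb ⊢
    -- `a⁻¹ g a` commutes with `g`
    have h1 : Commute (a⁻¹ * g * a) g := by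
      have h1 := (Commute.conj_iff (a := a⁻¹ * g * a) (b := g) a)
      rw [← h1]
      have h2 : a * (a⁻¹ * g * a) * a⁻¹ = g := by group
      rw [h2]
      exact ha.symm
    have h3 : Commute (b * g * b⁻¹) (a⁻¹ * g * a) := hZ.comm g hg _ _ hb h1
    have h4 := (Commute.conj_iff (a := b * g * b⁻¹) (b := a⁻¹ * g * a) a).mpr h3
    have h5 : a * (a⁻¹ * g * a) * a⁻¹ = g := by group
    have h6 : a * (b * g * b⁻¹) * a⁻¹ = a * b * g * (a * b)⁻¹ := by group
    rwa [h5, h6] at h4

lemma mem_torusNorm (hZ : CTData Z) {g : G} (hg : g ∉ Z) {w : G} :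
    w ∈ torusNorm hZ g hg ↔ Commute (w * g * w⁻¹) g := Iff.rfl

lemma torus_le_torusNorm (hZ : CTData Z) {g : G} (hg : g ∉ Z) :
    torus g ≤ torusNorm hZ g hg := by
  intro x hx
  rw [mem_torusNorm]
  have h1 : x * g * x⁻¹ = g := by
    rw [(mem_torus.mp hx).eq, mul_inv_cancel_right]
  rw [h1]

/-- The normaliser only depends on the torus. -/
lemma mem_torusNorm_of_mem (hZ : CTData Z) {g h : G} (hg : g ∉ Z) (hh : h ∉ Z)
    (hgh : Commute h g) {w : G} (hw : w ∈ torusNorm hZ g hg) : w ∈ torusNorm hZ h hh := by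
  rw [mem_torusNorm]
  have h1 : Commute (w⁻¹ * g * w) g := by
    have := (torusNorm hZ g hg).inv_mem hw
    rw [mem_torusNorm] at this
    simpa using this
  have h2 : Commute h (w⁻¹ * g * w) := hZ.comm g hg _ _ hgh h1
  have h3 := (Commute.conj_iff (a := h) (b := w⁻¹ * g * w) w).mpr h2
  have h4 : w * (w⁻¹ * g * w) * w⁻¹ = g := by group
  rw [h4] at h3
  exact (hZ.commute_iff_of_commute hg hh hgh _).mpr h3

lemma mem_torusNorm_iff_of_commute (hZ : CTData Z) {g h : G} (hg : g ∉ Z) (hh : h ∉ Z)
    (hgh : Commute h g) {w : G} : w ∈ torusNorm hZ h hh ↔ w ∈ torusNorm hZ g hg :=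
  ⟨mem_torusNorm_of_mem hZ hh hg hgh.symm, mem_torusNorm_of_mem hZ hg hh hgh⟩

/-- A subgroup `L ≥ H` in which any two elements outside `H` differ by an element of `H` has
order at most `2 |H|`. -/
lemma card_le_two_mul_of_diff {H L : Subgroup G} [Finite L] (hHL : H ≤ L)
    (h : ∀ x ∈ L, ∀ y ∈ L, x ∉ H → y ∉ H → x⁻¹ * y ∈ H) :
    Nat.card L ≤ 2 * Nat.card H := by
  classical
  have : Finite H := Finite.of_injective (fun x : H => (⟨x.1, hHL x.2⟩ : L))
    (fun a b hab => Subtype.ext (by simpa using congrArg (fun z : L => (z : G)) hab))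
  by_cases hex : ∃ x₀ ∈ L, x₀ ∉ H
  · obtain ⟨x₀, hx₀L, hx₀H⟩ := hex
    let f : L → Bool × H := fun y =>
      if hy : (y : G) ∈ H then (false, ⟨y, hy⟩) else (true, ⟨x₀⁻¹ * y, h x₀ hx₀L y y.2 hx₀H hy⟩)
    have hf : Function.Injective f := by
      intro a b hab
      by_cases ha : (a : G) ∈ H <;> by_cases hb : (b : G) ∈ H
      · simp only [f, ha, hb, dite_true, Prod.mk.injEq, Subtype.mk.injEq, true_and] at hab
        exact Subtype.ext hab
      · simp [f, ha, hb] at hab
      · simp [f, ha, hb] at hab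
      · simp only [f, ha, hb, dite_false, Prod.mk.injEq, Subtype.mk.injEq, true_and] at hab
        exact Subtype.ext (mul_left_cancel hab)
    have := Nat.card_le_card_of_injective f hf
    rw [Nat.card_prod] at this
    simpa using this
  · push Not at hex
    have hLH : L ≤ H := fun x hx => hex x hx
    have : Nat.card L ≤ Nat.card H := Subgroup.card_le_of_le hLH
    omega

lemma card_torusNorm_le (hZ : CTData Z) [Finite G] {g : G} (hg : g ∉ Z) :
    Nat.card (torusNorm hZ g hg) ≤ 2 * Nat.card (torus g) := by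
  refine card_le_two_mul_of_diff (torus_le_torusNorm hZ hg) ?_
  intro x hx y hy hxT hyT
  rw [mem_torus]
  exact hZ.norm g hg x y hx hy (fun h => hxT (mem_torus.mpr h)) (fun h => hyT (mem_torus.mpr h))

end abstract

end Fermat.Agent.T4.helper99
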