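import Fermat.Agent.T4.helper99_ClassAbs1

set_option autoImplicit false

namespace Fermat.Agent.T4.helper99

open Finset

section counting

variable {G : Type*} [Group G] [Fintype G] {Z : Subgroup G}

open Classical in
/-- The elements outside `Z` which are conjugate into the torus of `g`. -/
noncomputable def classSet (Z : Subgroup G) (g : G) : Finset G :=
  univ.filter (fun y => y ∉ Z ∧ ∃ x : G, Commute (x * y * x⁻¹) g)

lemma mem_classSet {g y : G} :
    y ∈ classSet Z g ↔ y ∉ Z ∧ ∃ x : G, Commute (x * y * x⁻¹) g := by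
  classical
  simp [classSet]

lemma self_mem_classSet {g : G} (hg : g ∉ Z) : g ∈ classSet Z g :=
  mem_classSet.mpr ⟨hg, 1, by simp⟩

lemma classSet_disjoint (hZ : CTData Z) {g g' : G} (hg' : g' ∉ Z)
    (h : g' ∉ classSet Z g) : Disjoint (classSet Z g') (classSet Z g) := by
  rw [Finset.disjoint_left]
  intro y hy' hy
  apply h
  obtain ⟨hyZ, x', hx'⟩ := mem_classSet.mp hy'
  obtain ⟨-, x, hx⟩ := mem_classSet.mp hy
  refine mem_classSet.mpr ⟨hg', x * x'⁻¹, ?_⟩
  have hh : x * y * x⁻¹ ∉ Z := fun hc => hyZ ((hZ.conj_mem_iff x y).mp hc)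
  have h1 := (Commute.conj_iff (a := x' * y * x'⁻¹) (b := g') (x * x'⁻¹)).mpr hx'
  have h2 : x * x'⁻¹ * (x' * y * x'⁻¹) * (x * x'⁻¹)⁻¹ = x * y * x⁻¹ := by group
  rw [h2] at h1
  exact hZ.comm _ hh _ _ h1.symm hx.symm

open Classical in
/-- the punctured torus -/
noncomputable def torusPunct (Z : Subgroup G) (g : G) : Finset G :=
  univ.filter (fun h => h ∉ Z ∧ Commute h g)

lemma card_torusPunct (hZ : CTData Z) (g : G) :
    (torusPunct Z g).card = Nat.card (torus g) - Nat.card Z := by
  classical
  have h1 : torusPunct Z g = (univ.filter (fun h => h ∈ torus g)) \ (univ.filter (fun h => h ∈ Z)) := by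
    ext h
    simp only [torusPunct, mem_filter, mem_univ, true_and, mem_sdiff, mem_torus]
    tauto
  rw [h1, Finset.card_sdiff_of_subset]
  · rw [Nat.card_eq_fintype_card, Nat.card_eq_fintype_card, Fintype.card_subtype,
      Fintype.card_subtype]
  · intro h hh
    simp only [mem_filter, mem_univ, true_and] at hh ⊢
    exact hZ.le_torus g hh

lemma card_classSet_mul (hZ : CTData Z) {g : G} (hg : g ∉ Z) :
    (classSet Z g).card * Nat.card (torusNorm hZ g hg) =
      Fintype.card G * (Nat.card (torus g) - Nat.card Z) := by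
  classical
  have key := Finset.sum_card_bipartiteAbove_eq_sum_card_bipartiteBelow
    (s := (univ : Finset G)) (t := (univ : Finset G))
    (fun x y => y ∉ Z ∧ Commute (x * y * x⁻¹) g)
  -- left side
  have hL : ∀ x ∈ (univ : Finset G),
      ((univ : Finset G).bipartiteAbove (fun x y => y ∉ Z ∧ Commute (x * y * x⁻¹) g) x).card =
        (torusPunct Z g).card := by
    intro x _
    refine Finset.card_bij (fun y _ => x * y * x⁻¹) ?_ ?_ ?_
    · intro y hy
      simp only [mem_bipartiteAbove, mem_univ, true_and] at hy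
      simp only [torusPunct, mem_filter, mem_univ, true_and]
      exact ⟨fun hc => hy.1 ((hZ.conj_mem_iff x y).mp hc), hy.2⟩
    · intro a _ b _ hab
      exact mul_left_cancel (mul_right_cancel hab)
    · intro h hh
      simp only [torusPunct, mem_filter, mem_univ, true_and] at hh
      refine ⟨x⁻¹ * h * x, ?_, by group⟩
      simp only [mem_bipartiteAbove, mem_univ, true_and]
      have e : x * (x⁻¹ * h * x) * x⁻¹ = h := by group
      refine ⟨fun hc => hh.1 ?_, by rw [e]; exact hh.2⟩
      have := (hZ.conj_mem_iff x (x⁻¹ * h * x)).mpr hc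
      rwa [e] at this
  -- right side
  have hR : ∀ y ∈ (univ : Finset G),
      ((univ : Finset G).bipartiteBelow (fun x y => y ∉ Z ∧ Commute (x * y * x⁻¹) g) y).card =
        if y ∈ classSet Z g then Nat.card (torusNorm hZ g hg) else 0 := by
    intro y _
    split_ifs with hy
    · obtain ⟨hyZ, x₀, hx₀⟩ := mem_classSet.mp hy
      have hh : x₀ * y * x₀⁻¹ ∉ Z := fun hc => hyZ ((hZ.conj_mem_iff x₀ y).mp hc)
      rw [Nat.card_eq_fintype_card, Fintype.card_subtype]
      refine Finset.card_bij (fun x _ => x * x₀⁻¹) ?_ ?_ ?_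
      · intro x hx
        simp only [mem_bipartiteBelow, mem_univ, true_and] at hx
        simp only [mem_filter, mem_univ, true_and]
        rw [← mem_torusNorm_iff_of_commute hZ hg hh hx₀, mem_torusNorm]
        have e : x * x₀⁻¹ * (x₀ * y * x₀⁻¹) * (x * x₀⁻¹)⁻¹ = x * y * x⁻¹ := by group
        rw [e]
        exact (hZ.commute_iff_of_commute hg hh hx₀ _).mpr hx.2
      · intro a _ b _ hab
        exact mul_right_cancel hab
      · intro w hw
        simp only [mem_filter, mem_univ, true_and] at hw
        rw [← mem_torusNorm_iff_of_commute hZ hg hh hx₀, mem_torusNorm] at hw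
        refine ⟨w * x₀, ?_, by group⟩
        simp only [mem_bipartiteBelow, mem_univ, true_and]
        refine ⟨hyZ, ?_⟩
        have e : w * x₀ * y * (w * x₀)⁻¹ = w * (x₀ * y * x₀⁻¹) * w⁻¹ := by group
        rw [e]
        exact (hZ.commute_iff_of_commute hg hh hx₀ _).mp hw
    · rw [Finset.card_eq_zero]
      ext x
      simp only [mem_bipartiteBelow, mem_univ, true_and, Finset.notMem_empty, iff_false]
      intro hx
      exact hy (mem_classSet.mpr ⟨hx.1, x, hx.2⟩)
  rw [Finset.sum_congr rfl hL, Finset.sum_congr rfl hR] at key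
  rw [Finset.sum_const, Finset.card_univ, smul_eq_mul, card_torusPunct hZ] at key
  rw [Finset.sum_ite_mem, Finset.univ_inter, Finset.sum_const, smul_eq_mul] at key
  exact key.symm

end counting

end Fermat.Agent.T4.helper99
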