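import Mathlib

set_option autoImplicit false

namespace Fermat.Agent.T4.helper99

/-- linearisation of `P = m * t`, `t ≥ 2`. -/
lemma lin_of_mul {P m t : ℕ} (hP : P = m * t) (ht : 2 ≤ t) :
    P = 2 * m ∨ P = 3 * m ∨ P = 4 * m ∨ P = 5 * m ∨ 6 * m ≤ P := by
  subst hP
  rcases Nat.lt_or_ge t 6 with h | h
  · interval_cases t <;> omega
  · right; right; right; right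
    nlinarith

/-- one class -/
lemma arith1 {N ν m P : ℕ} (hν : ν = 1 ∨ ν = 2) (hN : N = ν * P)
    (hl : P = 2 * m ∨ P = 3 * m ∨ P = 4 * m ∨ P = 5 * m ∨ 6 * m ≤ P)
    (h : (P - m) + 1 = N) : ν * m ≤ 12 := by
  rcases hν with rfl | rfl <;> omega

lemma arith2 {N ν₁ m₁ P₁ ν₂ m₂ P₂ : ℕ} (hν₁ : ν₁ = 1 ∨ ν₁ = 2) (hN₁ : N = ν₁ * P₁)
    (hl₁ : P₁ = 2 * m₁ ∨ P₁ = 3 * m₁ ∨ P₁ = 4 * m₁ ∨ P₁ = 5 * m₁ ∨ 6 * m₁ ≤ P₁)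
    (hν₂ : ν₂ = 1 ∨ ν₂ = 2) (hN₂ : N = ν₂ * P₂)
    (hl₂ : P₂ = 2 * m₂ ∨ P₂ = 3 * m₂ ∨ P₂ = 4 * m₂ ∨ P₂ = 5 * m₂ ∨ 6 * m₂ ≤ P₂)
    (h : (P₁ - m₁) + (P₂ - m₂) + 1 = N) : ν₁ * m₁ ≤ 12 ∨ ν₂ * m₂ ≤ 12 := by
  rcases hν₁ with rfl | rfl <;> rcases hν₂ with rfl | rfl <;> omega

set_option maxHeartbeats 4000000 in
lemma arith3 {N ν₁ m₁ P₁ ν₂ m₂ P₂ ν₃ m₃ P₃ : ℕ} (hν₁ : ν₁ = 1 ∨ ν₁ = 2) (hN₁ : N = ν₁ * P₁)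
    (hl₁ : P₁ = 2 * m₁ ∨ P₁ = 3 * m₁ ∨ P₁ = 4 * m₁ ∨ P₁ = 5 * m₁ ∨ 6 * m₁ ≤ P₁)
    (hν₂ : ν₂ = 1 ∨ ν₂ = 2) (hN₂ : N = ν₂ * P₂)
    (hl₂ : P₂ = 2 * m₂ ∨ P₂ = 3 * m₂ ∨ P₂ = 4 * m₂ ∨ P₂ = 5 * m₂ ∨ 6 * m₂ ≤ P₂)
    (hν₃ : ν₃ = 1 ∨ ν₃ = 2) (hN₃ : N = ν₃ * P₃)
    (hl₃ : P₃ = 2 * m₃ ∨ P₃ = 3 * m₃ ∨ P₃ = 4 * m₃ ∨ P₃ = 5 * m₃ ∨ 6 * m₃ ≤ P₃)
    (h : (P₁ - m₁) + (P₂ - m₂) + (P₃ - m₃) + 1 = N) :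
    ν₁ * m₁ ≤ 12 ∨ ν₂ * m₂ ≤ 12 ∨ ν₃ * m₃ ≤ 12 := by
  have w₁ : 2 * m₁ ≤ P₁ := by omega
  have w₂ : 2 * m₂ ≤ P₂ := by omega
  have w₃ : 2 * m₃ ≤ P₃ := by omega
  rcases hν₁ with rfl | rfl <;> rcases hν₂ with rfl | rfl <;> rcases hν₃ with rfl | rfl
  · clear hl₁ hl₂ hl₃; omega
  · clear hl₁ hl₂ hl₃; omega
  · clear hl₁ hl₂ hl₃; omega
  · clear hl₁ hl₂ hl₃; omega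
  · clear hl₁ hl₂ hl₃; omega
  · clear hl₁ hl₂ hl₃; omega
  · clear hl₁ hl₂ hl₃; omega
  · rcases hl₁ with h1 | h1 | h1 | h1 | h1 <;> rcases hl₂ with h2 | h2 | h2 | h2 | h2 <;>
      rcases hl₃ with h3 | h3 | h3 | h3 | h3 <;> omega

lemma arith4 {N ν₁ m₁ P₁ ν₂ m₂ P₂ ν₃ m₃ P₃ ν₄ m₄ P₄ : ℕ}
    (hν₁ : ν₁ = 1 ∨ ν₁ = 2) (hN₁ : N = ν₁ * P₁) (hl₁ : 2 * m₁ ≤ P₁)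
    (hν₂ : ν₂ = 1 ∨ ν₂ = 2) (hN₂ : N = ν₂ * P₂) (hl₂ : 2 * m₂ ≤ P₂)
    (hν₃ : ν₃ = 1 ∨ ν₃ = 2) (hN₃ : N = ν₃ * P₃) (hl₃ : 2 * m₃ ≤ P₃)
    (hν₄ : ν₄ = 1 ∨ ν₄ = 2) (hN₄ : N = ν₄ * P₄) (hl₄ : 2 * m₄ ≤ P₄) (hN : 1 ≤ N)
    (h : (P₁ - m₁) + (P₂ - m₂) + (P₃ - m₃) + (P₄ - m₄) + 1 ≤ N) : False := by
  rcases hν₁ with rfl | rfl <;> rcases hν₂ with rfl | rfl <;> rcases hν₃ with rfl | rfl <;>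
    rcases hν₄ with rfl | rfl <;> omega

end Fermat.Agent.T4.helper99
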