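import Fermat.Agent.T4.helper99_ClassAbs2
import Fermat.Agent.T4.helper99_ClassArith

set_option autoImplicit false

namespace Fermat.Agent.T4.helper99

open Finset

section assembly

variable {G : Type*} [Group G] [Fintype G] {Z : Subgroup G}

/-- The numerical data of the class of `g`: `|T| = z t`, `|G| = z ν m t`, `|K| = z m (t - 1)`. -/
lemma exists_classData (hZ : CTData Z) {g : G} (hg : g ∉ Z) :
    ∃ ν m P : ℕ, (ν = 1 ∨ ν = 2) ∧
      (P = 2 * m ∨ P = 3 * m ∨ P = 4 * m ∨ P = 5 * m ∨ 6 * m ≤ P) ∧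
      Fintype.card G = Nat.card Z * (ν * P) ∧
      (classSet Z g).card = Nat.card Z * (P - m) ∧
      Fintype.card G = ν * m * Nat.card (torus g) := by
  classical
  have hz : 0 < Nat.card Z := Nat.card_pos
  obtain ⟨t, ht⟩ := Subgroup.card_dvd_of_le (hZ.le_torus g)
  have hlt : Nat.card Z < Nat.card (torus g) := by
    exact Set.ncard_lt_ncard (s := (Z : Set G)) (t := ((torus g : Subgroup G) : Set G))
      ⟨hZ.le_torus g, fun h => hg (h (self_mem_torus g))⟩ (Set.toFinite _)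
  have ht2 : 2 ≤ t := by
    by_contra hcon
    have : t = 0 ∨ t = 1 := by omega
    rcases this with rfl | rfl
    · rw [mul_zero] at ht; omega
    · rw [mul_one] at ht; omega
  obtain ⟨ν, hν⟩ := Subgroup.card_dvd_of_le (torus_le_torusNorm hZ hg)
  have hNpos : 0 < Nat.card (torusNorm hZ g hg) := Nat.card_pos
  have hTpos : 0 < Nat.card (torus g) := Nat.card_pos
  have hν12 : ν = 1 ∨ ν = 2 := by
    have h1 := card_torusNorm_le hZ hg
    rw [hν] at h1 hNpos
    have h2 : ν ≤ 2 := by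
      by_contra hcon
      have : 3 ≤ ν := by omega
      have : Nat.card (torus g) * 3 ≤ Nat.card (torus g) * ν := Nat.mul_le_mul_left _ this
      omega
    have h3 : ν ≠ 0 := by
      rintro rfl
      simp at hNpos
    omega
  obtain ⟨m, hm⟩ := Subgroup.card_subgroup_dvd_card (torusNorm hZ g hg)
  rw [Nat.card_eq_fintype_card (α := G)] at hm
  have hcount := card_classSet_mul hZ hg
  refine ⟨ν, m, m * t, hν12, lin_of_mul rfl ht2, ?_, ?_, ?_⟩
  · rw [hm, hν, ht]; ring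
  · -- cancel `|N| = z t ν`
    rw [hm, hν, ht] at hcount
    have h5 : Nat.card Z * t - Nat.card Z = Nat.card Z * (t - 1) := by
      rw [Nat.mul_sub_one]
    rw [h5] at hcount
    have h6 : (classSet Z g).card * (Nat.card Z * t * ν) =
        (Nat.card Z * (m * t - m)) * (Nat.card Z * t * ν) := by
      rw [hcount]
      have h7 : m * t - m = m * (t - 1) := by rw [Nat.mul_sub_one]
      rw [h7]; ring
    have hpos : 0 < Nat.card Z * t * ν := by
      rcases hν12 with rfl | rfl <;> positivity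
    exact Nat.eq_of_mul_eq_mul_right hpos h6
  · rw [hm, hν]; ring

set_option maxHeartbeats 1600000 in
/-- **The abstract class equation**: a finite group satisfying `CTData` has an abelian subgroup
of index at most `12`. -/
theorem exists_abelian_index_le_twelve (hZ : CTData Z) :
    ∃ A : Subgroup G, (∀ x ∈ A, ∀ y ∈ A, x * y = y * x) ∧ Nat.card G ≤ 12 * Nat.card A := by
  classical
  by_cases hall : ∀ g : G, g ∈ Z
  · refine ⟨⊤, fun x _ y _ => (hZ.central x (hall x) y).eq, ?_⟩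
    rw [Subgroup.card_top]; omega
  push Not at hall
  have hz : 0 < Nat.card Z := Nat.card_pos
  -- it suffices to find a class with `ν m ≤ 12`
  suffices hsuff : ∃ g : G, g ∉ Z ∧ ∃ ν m : ℕ, ν * m ≤ 12 ∧
      Fintype.card G = ν * m * Nat.card (torus g) by
    obtain ⟨g, hg, ν, m, hνm, hcard⟩ := hsuff
    refine ⟨torus g, hZ.torus_comm hg, ?_⟩
    rw [Nat.card_eq_fintype_card (α := G), hcard]
    exact Nat.mul_le_mul_right _ hνm
  -- the complement of `Z`
  have hU : (univ.filter (fun y : G => y ∉ Z)).card + Nat.card Z = Fintype.card G := by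
    have h1 : Nat.card Z = (univ.filter (fun y : G => y ∈ Z)).card := by
      rw [Nat.card_eq_fintype_card, Fintype.card_subtype]
    rw [h1, add_comm]
    exact Finset.card_filter_add_card_filter_not (s := (univ : Finset G)) (fun y => y ∈ Z)
  have hKU : ∀ g : G, classSet Z g ⊆ univ.filter (fun y : G => y ∉ Z) := by
    intro g y hy
    simp only [mem_filter, mem_univ, true_and]
    exact (mem_classSet.mp hy).1
  obtain ⟨g₁, hg₁⟩ := hall
  obtain ⟨ν₁, m₁, P₁, hν₁, hl₁, hn₁, hK₁, hT₁⟩ := exists_classData hZ hg₁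
  by_cases h1 : ∀ y : G, y ∉ Z → y ∈ classSet Z g₁
  · -- one class
    have hK : classSet Z g₁ = univ.filter (fun y : G => y ∉ Z) := by
      refine Finset.Subset.antisymm (hKU g₁) ?_
      intro y hy
      simp only [mem_filter, mem_univ, true_and] at hy
      exact h1 y hy
    rw [← hK, hK₁, hn₁] at hU
    have hN : (P₁ - m₁) + 1 = ν₁ * P₁ := by
      have : Nat.card Z * ((P₁ - m₁) + 1) = Nat.card Z * (ν₁ * P₁) := by
        rw [mul_add, mul_one]; exact hU
      exact Nat.eq_of_mul_eq_mul_left hz this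
    exact ⟨g₁, hg₁, ν₁, m₁, arith1 hν₁ rfl hl₁ hN, hT₁⟩
  push Not at h1
  obtain ⟨g₂, hg₂, hg₂K⟩ := h1
  obtain ⟨ν₂, m₂, P₂, hν₂, hl₂, hn₂, hK₂, hT₂⟩ := exists_classData hZ hg₂
  have hd₁₂ : Disjoint (classSet Z g₂) (classSet Z g₁) := classSet_disjoint hZ hg₂ hg₂K
  have hN₂ : ν₁ * P₁ = ν₂ * P₂ := by
    have : Nat.card Z * (ν₁ * P₁) = Nat.card Z * (ν₂ * P₂) := by rw [← hn₁, ← hn₂]
    exact Nat.eq_of_mul_eq_mul_left hz this
  by_cases h2 : ∀ y : G, y ∉ Z → y ∈ classSet Z g₁ ∨ y ∈ classSet Z g₂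
  · have hK : classSet Z g₂ ∪ classSet Z g₁ = univ.filter (fun y : G => y ∉ Z) := by
      refine Finset.Subset.antisymm (Finset.union_subset (hKU g₂) (hKU g₁)) ?_
      intro y hy
      simp only [mem_filter, mem_univ, true_and] at hy
      rw [Finset.mem_union]
      exact (h2 y hy).symm
    rw [← hK, Finset.card_union_of_disjoint hd₁₂, hK₁, hK₂, hn₁] at hU
    have hN : (P₁ - m₁) + (P₂ - m₂) + 1 = ν₁ * P₁ := by
      have : Nat.card Z * ((P₁ - m₁) + (P₂ - m₂) + 1) = Nat.card Z * (ν₁ * P₁) := by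
        rw [← hU]; ring
      exact Nat.eq_of_mul_eq_mul_left hz this
    rcases arith2 hν₁ rfl hl₁ hν₂ hN₂ hl₂ hN with h | h
    · exact ⟨g₁, hg₁, ν₁, m₁, h, hT₁⟩
    · exact ⟨g₂, hg₂, ν₂, m₂, h, hT₂⟩
  push Not at h2
  obtain ⟨g₃, hg₃, hg₃K₁, hg₃K₂⟩ := h2
  obtain ⟨ν₃, m₃, P₃, hν₃, hl₃, hn₃, hK₃, hT₃⟩ := exists_classData hZ hg₃
  have hd₃₁ : Disjoint (classSet Z g₃) (classSet Z g₁) := classSet_disjoint hZ hg₃ hg₃K₁
  have hd₃₂ : Disjoint (classSet Z g₃) (classSet Z g₂) := classSet_disjoint hZ hg₃ hg₃K₂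
  have hN₃ : ν₁ * P₁ = ν₃ * P₃ := by
    have : Nat.card Z * (ν₁ * P₁) = Nat.card Z * (ν₃ * P₃) := by rw [← hn₁, ← hn₃]
    exact Nat.eq_of_mul_eq_mul_left hz this
  have hd₃ : Disjoint (classSet Z g₃) (classSet Z g₂ ∪ classSet Z g₁) :=
    Finset.disjoint_union_right.mpr ⟨hd₃₂, hd₃₁⟩
  by_cases h3 : ∀ y : G, y ∉ Z → y ∈ classSet Z g₁ ∨ y ∈ classSet Z g₂ ∨ y ∈ classSet Z g₃
  · have hK : classSet Z g₃ ∪ (classSet Z g₂ ∪ classSet Z g₁) =
        univ.filter (fun y : G => y ∉ Z) := by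
      refine Finset.Subset.antisymm
        (Finset.union_subset (hKU g₃) (Finset.union_subset (hKU g₂) (hKU g₁))) ?_
      intro y hy
      simp only [mem_filter, mem_univ, true_and] at hy
      simp only [Finset.mem_union]
      rcases h3 y hy with h | h | h
      · exact Or.inr (Or.inr h)
      · exact Or.inr (Or.inl h)
      · exact Or.inl h
    rw [← hK, Finset.card_union_of_disjoint hd₃, Finset.card_union_of_disjoint hd₁₂,
      hK₁, hK₂, hK₃, hn₁] at hU
    have hN : (P₁ - m₁) + (P₂ - m₂) + (P₃ - m₃) + 1 = ν₁ * P₁ := by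
      have : Nat.card Z * ((P₁ - m₁) + (P₂ - m₂) + (P₃ - m₃) + 1) =
          Nat.card Z * (ν₁ * P₁) := by
        rw [← hU]; ring
      exact Nat.eq_of_mul_eq_mul_left hz this
    rcases arith3 hν₁ rfl hl₁ hν₂ hN₂ hl₂ hν₃ hN₃ hl₃ hN with h | h | h
    · exact ⟨g₁, hg₁, ν₁, m₁, h, hT₁⟩
    · exact ⟨g₂, hg₂, ν₂, m₂, h, hT₂⟩
    · exact ⟨g₃, hg₃, ν₃, m₃, h, hT₃⟩
  push Not at h3
  obtain ⟨g₄, hg₄, hg₄K₁, hg₄K₂, hg₄K₃⟩ := h3
  obtain ⟨ν₄, m₄, P₄, hν₄, hl₄, hn₄, hK₄, hT₄⟩ := exists_classData hZ hg₄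
  exfalso
  have hd₄ : Disjoint (classSet Z g₄) (classSet Z g₃ ∪ (classSet Z g₂ ∪ classSet Z g₁)) :=
    Finset.disjoint_union_right.mpr ⟨classSet_disjoint hZ hg₄ hg₄K₃,
      Finset.disjoint_union_right.mpr ⟨classSet_disjoint hZ hg₄ hg₄K₂,
        classSet_disjoint hZ hg₄ hg₄K₁⟩⟩
  have hN₄ : ν₁ * P₁ = ν₄ * P₄ := by
    have : Nat.card Z * (ν₁ * P₁) = Nat.card Z * (ν₄ * P₄) := by rw [← hn₁, ← hn₄]
    exact Nat.eq_of_mul_eq_mul_left hz this
  have hsub : classSet Z g₄ ∪ (classSet Z g₃ ∪ (classSet Z g₂ ∪ classSet Z g₁)) ⊆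
      univ.filter (fun y : G => y ∉ Z) :=
    Finset.union_subset (hKU g₄)
      (Finset.union_subset (hKU g₃) (Finset.union_subset (hKU g₂) (hKU g₁)))
  have hle := Finset.card_le_card hsub
  rw [Finset.card_union_of_disjoint hd₄, Finset.card_union_of_disjoint hd₃,
    Finset.card_union_of_disjoint hd₁₂, hK₁, hK₂, hK₃, hK₄] at hle
  have hle' : Nat.card Z * ((P₁ - m₁) + (P₂ - m₂) + (P₃ - m₃) + (P₄ - m₄) + 1) ≤
      Nat.card Z * (ν₁ * P₁) := by
    rw [← hn₁, ← hU]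
    have : Nat.card Z * ((P₁ - m₁) + (P₂ - m₂) + (P₃ - m₃) + (P₄ - m₄) + 1) =
        Nat.card Z * (P₄ - m₄) + (Nat.card Z * (P₃ - m₃) +
          (Nat.card Z * (P₂ - m₂) + Nat.card Z * (P₁ - m₁))) + Nat.card Z := by ring
    rw [this]
    exact Nat.add_le_add_right hle _
  have hle'' := Nat.le_of_mul_le_mul_left hle' hz
  have hNpos : 1 ≤ ν₁ * P₁ := by
    have : 0 < Fintype.card G := Fintype.card_pos
    rw [hn₁] at this
    exact Nat.pos_of_mul_pos_left this |> fun h => h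
  exact arith4 hν₁ rfl (by omega) hν₂ hN₂ (by omega) hν₃ hN₃ (by omega) hν₄ hN₄ (by omega)
    hNpos hle''

end assembly

end Fermat.Agent.T4.helper99
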