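import Fermat.Agent.T4.helper99_ClassAbs3
import Fermat.Agent.T4.helper18_Bound

set_option autoImplicit false

namespace Fermat.Agent.T4.helper99

open Matrix

section matrices

variable {k : Type} [Field k]

/-- The centraliser of a non-scalar `2 × 2` matrix is commutative. -/
lemma commute_of_commute_nonscalar (M X Y : Matrix (Fin 2) (Fin 2) k)
    (hM : ¬ ∃ c : k, M = c • (1 : Matrix (Fin 2) (Fin 2) k))
    (hX : X * M = M * X) (hY : Y * M = M * Y) : X * Y = Y * X := by
  have x00 := congrFun (congrFun hX 0) 0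
  have x01 := congrFun (congrFun hX 0) 1
  have x10 := congrFun (congrFun hX 1) 0
  have y00 := congrFun (congrFun hY 0) 0
  have y01 := congrFun (congrFun hY 0) 1
  have y10 := congrFun (congrFun hY 1) 0
  simp only [Matrix.mul_apply, Fin.sum_univ_two] at x00 x01 x10 y00 y01 y10
  by_cases hq : M 0 1 = 0
  · by_cases hr : M 1 0 = 0
    · have hps : M 0 0 - M 1 1 ≠ 0 := by
        intro h
        apply hM
        refine ⟨M 0 0, ?_⟩
        ext i j
        fin_cases i <;> fin_cases j <;> simp [hq, hr]
        exact (sub_eq_zero.mp h).symm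
      have hb : X 0 1 = 0 := by
        have : (M 0 0 - M 1 1) * X 0 1 = 0 := by linear_combination -x01 + (X 0 0 - X 1 1) * hq
        exact (mul_eq_zero.mp this).resolve_left hps
      have hc : X 1 0 = 0 := by
        have : (M 0 0 - M 1 1) * X 1 0 = 0 := by linear_combination x10 + (X 0 0 - X 1 1) * hr
        exact (mul_eq_zero.mp this).resolve_left hps
      have hb' : Y 0 1 = 0 := by
        have : (M 0 0 - M 1 1) * Y 0 1 = 0 := by linear_combination -y01 + (Y 0 0 - Y 1 1) * hq
        exact (mul_eq_zero.mp this).resolve_left hps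
      have hc' : Y 1 0 = 0 := by
        have : (M 0 0 - M 1 1) * Y 1 0 = 0 := by linear_combination y10 + (Y 0 0 - Y 1 1) * hr
        exact (mul_eq_zero.mp this).resolve_left hps
      ext i j
      fin_cases i <;> fin_cases j <;>
        simp [Matrix.mul_apply, Fin.sum_univ_two, hb, hc, hb', hc'] <;> ring
    · -- `r ≠ 0`
      have hbc : X 0 1 * Y 1 0 - Y 0 1 * X 1 0 = 0 := by
        apply mul_left_cancel₀ hr
        linear_combination (Y 1 0) * x00 - (X 1 0) * y00
      ext i j
      fin_cases i <;> fin_cases j <;>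
        simp only [Matrix.mul_apply, Fin.sum_univ_two, Fin.zero_eta, Fin.mk_one, Fin.isValue]
      · linear_combination hbc
      · apply mul_left_cancel₀ hr
        linear_combination -(M 0 0 - M 1 1) * hbc - (Y 0 1) * x10 + (X 0 1) * y10
      · apply mul_left_cancel₀ hr
        linear_combination -(X 1 0) * y10 + (Y 1 0) * x10
      · linear_combination -hbc
  · have hbc : X 0 1 * Y 1 0 - Y 0 1 * X 1 0 = 0 := by
      apply mul_left_cancel₀ hq
      linear_combination (Y 0 1) * x00 - (X 0 1) * y00
    ext i j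
    fin_cases i <;> fin_cases j <;>
      simp only [Matrix.mul_apply, Fin.sum_univ_two, Fin.zero_eta, Fin.mk_one, Fin.isValue]
    · linear_combination hbc
    · apply mul_left_cancel₀ hq
      linear_combination (Y 0 1) * x01 - (X 0 1) * y01
    · apply mul_left_cancel₀ hq
      linear_combination (X 1 0) * y01 - (Y 1 0) * x01 - (M 0 0 - M 1 1) * hbc
    · linear_combination -hbc

end matrices

end Fermat.Agent.T4.helper99

namespace Fermat.Agent.T4.helper99

open Matrix

section group

variable {k : Type} [Field k]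

lemma one_add_pow_of_mul_self_zero {n : Matrix (Fin 2) (Fin 2) k} (hn : n * n = 0) (i : ℕ) :
    (1 + n) ^ i = 1 + (i : k) • n := by
  induction i with
  | zero => simp
  | succ i ih =>
    rw [pow_succ, ih]
    simp only [Nat.cast_add, Nat.cast_one, mul_add, mul_one, add_mul, one_mul, smul_mul_assoc, hn,
      smul_zero, add_zero, add_smul, one_smul]
    abel

variable (G : Subgroup (GL (Fin 2) k))

/-- The elements of `G` which are central in `GL 2 k`. -/
def centZ : Subgroup G := (Subgroup.center (GL (Fin 2) k)).comap G.subtype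

lemma mem_centZ {g : G} : g ∈ centZ G ↔ ∀ h : GL (Fin 2) k, h * (g : GL (Fin 2) k) = g * h := by
  rw [centZ, Subgroup.mem_comap, Subgroup.mem_center_iff]
  rfl

lemma not_scalar_of_not_mem_centZ {g : G} (hg : g ∉ centZ G) :
    ¬ ∃ c : k, ((g : GL (Fin 2) k) : Matrix (Fin 2) (Fin 2) k) =
      c • (1 : Matrix (Fin 2) (Fin 2) k) := by
  rintro ⟨c, hc⟩
  apply hg
  rw [mem_centZ]
  intro h
  apply Units.ext
  rw [Units.val_mul, Units.val_mul, hc]
  simp

lemma eq_one_of_unipotent [Finite G] (hcard : ((Nat.card G : ℕ) : k) ≠ 0) (u : G)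
    (hu : (((u : GL (Fin 2) k) : Matrix (Fin 2) (Fin 2) k) - 1) ^ 2 = 0) : u = 1 := by
  set U : Matrix (Fin 2) (Fin 2) k := ((u : GL (Fin 2) k) : Matrix (Fin 2) (Fin 2) k) with hU
  have hn : (U - 1) * (U - 1) = 0 := by rw [← pow_two]; exact hu
  have h1 : U ^ (Nat.card G) = 1 := by
    have h2 : u ^ (Nat.card G) = 1 := pow_card_eq_one'
    have h3 : (((u ^ Nat.card G : G) : GL (Fin 2) k) : Matrix (Fin 2) (Fin 2) k) = 1 := by
      rw [h2]; rfl
    rw [Subgroup.coe_pow, Units.val_pow_eq_pow_val] at h3
    exact h3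
  have h4 : U = 1 + (U - 1) := by abel
  rw [h4, one_add_pow_of_mul_self_zero hn] at h1
  have h5 : ((Nat.card G : ℕ) : k) • (U - 1) = 0 := by
    have := congrArg (fun X => X - 1) h1
    simpa using this
  have h6 : U - 1 = 0 := (smul_eq_zero.mp h5).resolve_left hcard
  have h7 : U = 1 := sub_eq_zero.mp h6
  apply Subtype.ext
  apply Units.ext
  exact h7

lemma val_commute {x g : G} (h : Commute x g) :
    ((x : GL (Fin 2) k) : Matrix (Fin 2) (Fin 2) k) * ((g : GL (Fin 2) k) : Matrix (Fin 2) (Fin 2) k)
      = ((g : GL (Fin 2) k) : Matrix (Fin 2) (Fin 2) k) *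
        ((x : GL (Fin 2) k) : Matrix (Fin 2) (Fin 2) k) := by
  have h1 := congrArg (fun x : G => ((x : GL (Fin 2) k) : Matrix (Fin 2) (Fin 2) k)) h.eq
  simpa using h1

theorem ctData_centZ [Finite G] (hcard : ((Nat.card G : ℕ) : k) ≠ 0) : CTData (centZ G) where
  central := by
    intro z hz g
    rw [mem_centZ] at hz
    have := hz (g : GL (Fin 2) k)
    exact Subtype.ext this.symm
  comm := by
    intro g hg x y hx hy
    have hM := not_scalar_of_not_mem_centZ G hg
    have h := commute_of_commute_nonscalar _ _ _ hM (val_commute G hx) (val_commute G hy)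
    apply Subtype.ext
    apply Units.ext
    simpa using h
  norm := by
    intro g hg x y hx hy nx ny
    -- the conjugates are `g` or `tr g - g`
    have key : ∀ w : G, Commute (w * g * w⁻¹) g → ¬ Commute w g →
        (((w * g * w⁻¹ : G) : GL (Fin 2) k) : Matrix (Fin 2) (Fin 2) k) =
          ((g : GL (Fin 2) k) : Matrix (Fin 2) (Fin 2) k).trace •
            (1 : Matrix (Fin 2) (Fin 2) k) - ((g : GL (Fin 2) k) : Matrix (Fin 2) (Fin 2) k) := by
      intro w hw nw
      have hc : (g : GL (Fin 2) k) * ((w * g * w⁻¹ : G) : GL (Fin 2) k) =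
          ((w * g * w⁻¹ : G) : GL (Fin 2) k) * (g : GL (Fin 2) k) := by
        have := congrArg (fun x : G => (x : GL (Fin 2) k)) hw.eq
        simpa using this.symm
      have hun : (((((g : GL (Fin 2) k)⁻¹ * ((w * g * w⁻¹ : G) : GL (Fin 2) k) : GL (Fin 2) k)) :
          Matrix (Fin 2) (Fin 2) k) - 1) ^ 2 = 0 →
          (g : GL (Fin 2) k)⁻¹ * ((w * g * w⁻¹ : G) : GL (Fin 2) k) = 1 := by
        intro h0
        have := eq_one_of_unipotent G hcard (g⁻¹ * (w * g * w⁻¹)) (by simpa using h0)
        have h2 := congrArg (fun x : G => (x : GL (Fin 2) k)) this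
        simpa using h2
      have ht : (((w * g * w⁻¹ : G) : GL (Fin 2) k) : Matrix (Fin 2) (Fin 2) k).trace =
          ((g : GL (Fin 2) k) : Matrix (Fin 2) (Fin 2) k).trace := by
        simp only [Subgroup.coe_mul, Subgroup.coe_inv, Units.val_mul]
        exact Matrix.trace_units_conj _ _
      have hd : (((w * g * w⁻¹ : G) : GL (Fin 2) k) : Matrix (Fin 2) (Fin 2) k).det =
          ((g : GL (Fin 2) k) : Matrix (Fin 2) (Fin 2) k).det := by
        simp only [Subgroup.coe_mul, Subgroup.coe_inv, Units.val_mul]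
        exact Matrix.det_units_conj _ _
      rcases Fermat.Agent.T4.helper18.eq_or_eq_sub_of_commute hc hun ht hd with h | h
      · exfalso
        apply nw
        have h3 : w * g * w⁻¹ = g := Subtype.ext h
        have h4 : w * g = g * w := by
          calc w * g = w * g * w⁻¹ * w := by group
            _ = g * w := by rw [h3]
        exact h4
      · exact h
    have hxy : x * g * x⁻¹ = y * g * y⁻¹ := by
      apply Subtype.ext
      apply Units.ext
      rw [key x hx nx, key y hy ny]
    have : x⁻¹ * y * g = g * (x⁻¹ * y) := by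
      calc x⁻¹ * y * g = x⁻¹ * (y * g * y⁻¹) * y := by group
        _ = x⁻¹ * (x * g * x⁻¹) * y := by rw [hxy]
        _ = g * (x⁻¹ * y) := by group
    exact this

end group

/-- **[IV-CLASS]**, universe-zero field, subgroup form. -/
theorem class_abelian_index {k : Type} [Field k] (G : Subgroup (GL (Fin 2) k)) [Finite G]
    (hcard : ((Nat.card G : ℕ) : k) ≠ 0) :
    ∃ C : Subgroup (GL (Fin 2) k), C ≤ G ∧ (∀ x ∈ C, ∀ y ∈ C, x * y = y * x) ∧
      Nat.card G ≤ 12 * Nat.card C := by
  classical
  have : Fintype G := Fintype.ofFinite G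
  obtain ⟨A, hA, hcardA⟩ := exists_abelian_index_le_twelve (ctData_centZ G hcard)
  refine ⟨A.map G.subtype, Subgroup.map_subtype_le A, ?_, ?_⟩
  · rintro x ⟨a, ha, rfl⟩ y ⟨b, hb, rfl⟩
    have := hA a ha b hb
    have h2 := congrArg (fun x : G => (x : GL (Fin 2) k)) this
    simpa using h2
  · rw [Subgroup.card_map_of_injective G.subtype_injective]
    exact hcardA

end Fermat.Agent.T4.helper99
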